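import Mathlib
import Fermat.Agent.S18_helper9_CDefs
import Fermat.Agent.S18_helper9_CBasic
import Fermat.Agent.S18_helper3_LOCRING
import Fermat.Agent.S18_helper14_AFRAC
import Fermat.Agent.S34_helper12_CDefs
import Fermat.Agent.S34_helper27_C2Defs
import Fermat.Agent.S34_helper27_C2ADAPT
import Fermat.Agent.S34_helper27_V3
import Fermat.Agent.S34_helper27_V3G
import Fermat.Agent.S34_helper2_HARTOGS
import Fermat.Agent.S34_helper2_HARTOGSK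

/-!
# S36, block C'' (helper2): the three-valuation instance of the weak setup, and HARTOGS-K for
  an arbitrary semi-local `V`

The special fibre of the model of level `q² M'` has three components; the relevant ring is
`V = V₁ ⊓ V₂ ⊓ V₃` (`V_∞`, `V_mid`, `V_0`), where `π` is NOT a uniformiser of `V_mid`
(`e = q - 1`).  The landed abstract block C' (`S34C_Setup`, `S34CA_main_shape`) only uses that
`V` is integrally closed in `F1` with `π` in its radical, so it applies verbatim.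

* `S36C3_le_inf3`, `S36C3_ic_inf3`, `S36C3_one_add_inf3`, `S36C3_nonunit_inf3` : the formal
  fields for an intersection of three valuation rings (`S34C2_Val`, no uniformiser condition);
* `S36C3_setup` : the weak setup `S34C_Setup … (V₁ ⊓ V₂ ⊓ V₃) …` from the level-`N'` `Setup`,
  three valuation rings above `V'` and KEY3 (`V₁ ⊓ V₂ ⊓ V₃` is integral over `V'`);
* `S36C3_setupG` : the same in an arbitrary coordinate `x` from "exactly three extensions";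
* `S36C3_main_shape`, `S36C3_main` : block C' for three valuations;
* `S36C3_vert`, `S36C3_frac`, `S36C3_hor`, `S36C3_mem`, `S36C3_unit`, `S36C3_unit_powDiv` :
  HARTOGS-K for the weak setup (ANY `V`): membership / unit criterion at a point of a chart with
  the vertical primes discharged.
-/

set_option autoImplicit false
set_option linter.style.haveILetI false
set_option linter.unusedVariables false
set_option linter.unusedSectionVars false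

namespace Fermat.Agent.S36_helper2_C3

open Fermat.Agent.S18_helper9_CDefs Fermat.Agent.S18_helper9_CBasic
  Fermat.Agent.S18_helper3_LOCRING Fermat.Agent.S34_helper12_CDefs
  Fermat.Agent.S34_helper27_C2Defs Fermat.Agent.S34_helper27_C2ADAPT
  Fermat.Agent.S34_helper27_V3 Fermat.Agent.S34_helper27_V3G
  Fermat.Agent.S34_helper2_HARTOGS Fermat.Agent.S34_helper2_HARTOGSK

variable {L : Type*} [Field L]

/-! ### Three valuation rings -/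

section Inf3

variable {π : L} {F1 : Subfield L} {W₁ W₂ W₃ : Subring L}

theorem S36C3_le_inf3 (H₁ : S34C2_Val π F1 W₁) :
    ((W₁ ⊓ W₂ ⊓ W₃ : Subring L) : Set L) ⊆ F1 :=
  fun _ hx => H₁.le hx.1.1

theorem S36C3_ic_inf3 (H₁ : S34C2_Val π F1 W₁) (H₂ : S34C2_Val π F1 W₂)
    (H₃ : S34C2_Val π F1 W₃) :
    ∀ x ∈ F1, IsIntegral (W₁ ⊓ W₂ ⊓ W₃ : Subring L) x → x ∈ (W₁ ⊓ W₂ ⊓ W₃ : Subring L) := by
  intro x hxF hx
  exact ⟨⟨H₁.ic hxF (isIntegral_mono (inf_le_left.trans inf_le_left) hx),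
    H₂.ic hxF (isIntegral_mono (inf_le_left.trans inf_le_right) hx)⟩,
    H₃.ic hxF (isIntegral_mono inf_le_right hx)⟩

theorem S36C3_one_add_inf3 (H₁ : S34C2_Val π F1 W₁) (H₂ : S34C2_Val π F1 W₂)
    (H₃ : S34C2_Val π F1 W₃) :
    ∀ c ∈ (W₁ ⊓ W₂ ⊓ W₃ : Subring L), (1 + π * c)⁻¹ ∈ (W₁ ⊓ W₂ ⊓ W₃ : Subring L) :=
  fun _ hc => ⟨⟨H₁.one_add hc.1.1, H₂.one_add hc.1.2⟩, H₃.one_add hc.2⟩

theorem S36C3_nonunit_inf3 (H₁ : S34C2_Val π F1 W₁) : π⁻¹ ∉ (W₁ ⊓ W₂ ⊓ W₃ : Subring L) :=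
  fun h => H₁.π_nonunit h.1.1

end Inf3

/-! ### The weak setup for three valuations -/

section Setup3

variable {O : Subring L} {π j x : L} {F1' F1 : Subfield L}
  {V' A0' Ainf' V1 V2 V3 V A0 Ainf : Subring L}

/-- **The three-valuation instance of `S34C_Setup`** from the level-`N'` setup, three valuation
rings of `F1` containing `V'`, and KEY3: every element of `V1 ⊓ V2 ⊓ V3` is integral over `V'`
(i.e. `V1`, `V2`, `V3` are ALL the extensions of `V'` to `F1`). -/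
theorem S36C3_setup (S' : Setup O π j F1' V' A0' Ainf') (hF : F1' ≤ F1)
    (hfin : ∃ s : Finset L, ∀ x ∈ F1, ∃ c : L → L,
      (∀ y, c y ∈ Subfield.closure ((O : Set L) ∪ {j})) ∧ x = ∑ y ∈ s, c y * y)
    (h1 : S34C2_Val π F1 V1) (h2 : S34C2_Val π F1 V2) (h3 : S34C2_Val π F1 V3)
    (hV1 : V' ≤ V1) (hV2 : V' ≤ V2) (hV3 : V' ≤ V3)
    (hkey : ∀ v ∈ (V1 ⊓ V2 ⊓ V3 : Subring L), IsIntegral V' v) :
    S34C_Setup O π j F1 (V1 ⊓ V2 ⊓ V3) (icl (adj O j) F1) (icl (adj O j⁻¹) F1) :=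
  S34V3_setup S' hF hfin (S36C3_le_inf3 h1) (S36C3_ic_inf3 h1 h2 h3)
    (S36C3_one_add_inf3 h1 h2 h3) (S36C3_nonunit_inf3 h1) (le_inf (le_inf hV1 hV2) hV3) hkey

/-- **The three-valuation instance in an arbitrary coordinate `x`** (e.g. the Hauptmodul of
`X₀(4)`) from "exactly three extensions of the Gauss valuation of `O[x]`" (and of `O[x⁻¹]`). -/
theorem S36C3_setupG (hO : IsDiscreteValuationRing O) (hπO : π ∈ O)
    (hπirr : ∀ hπ : π ∈ O, Irreducible (⟨π, hπ⟩ : O))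
    (halgO : ∀ y : L, IsAlgebraic O y → ∃ a ∈ O, ∃ b ∈ O, b ≠ 0 ∧ y * b = a)
    (hxt : Transcendental O x) (hOF : (O : Set L) ⊆ F1) (hxF : x ∈ F1)
    (hfin : ∃ s : Finset L, ∀ y ∈ F1, ∃ c : L → L,
      (∀ z, c z ∈ Subfield.closure ((O : Set L) ∪ {x})) ∧ y = ∑ z ∈ s, c z * z)
    (h1 : S34C2_Val π F1 V1) (h2 : S34C2_Val π F1 V2) (h3 : S34C2_Val π F1 V3)
    (hOV : O ≤ (V1 ⊓ V2 ⊓ V3 : Subring L))
    (hxV : x ∈ (V1 ⊓ V2 ⊓ V3 : Subring L)) (hxV' : x⁻¹ ∈ (V1 ⊓ V2 ⊓ V3 : Subring L))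
    (hGV : ∀ s ∈ adj O x, (∀ a ∈ adj O x, s ≠ π * a) → s⁻¹ ∈ (V1 ⊓ V2 ⊓ V3 : Subring L))
    (hGV' : ∀ s ∈ adj O x⁻¹, (∀ a ∈ adj O x⁻¹, s ≠ π * a) →
      s⁻¹ ∈ (V1 ⊓ V2 ⊓ V3 : Subring L))
    (hthree : ∀ W : Subring L, S34C2_Val π F1 W → adj O x ≤ W →
      (∀ s ∈ adj O x, (∀ a ∈ adj O x, s ≠ π * a) → s⁻¹ ∈ W) → W = V1 ∨ W = V2 ∨ W = V3)
    (hthree' : ∀ W : Subring L, S34C2_Val π F1 W → adj O x⁻¹ ≤ W →
      (∀ s ∈ adj O x⁻¹, (∀ a ∈ adj O x⁻¹, s ≠ π * a) → s⁻¹ ∈ W) →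
      W = V1 ∨ W = V2 ∨ W = V3) :
    S34C_Setup O π x F1 (V1 ⊓ V2 ⊓ V3) (icl (adj O x) F1) (icl (adj O x⁻¹) F1) := by
  obtain ⟨s, hs⟩ := hfin
  have hEF : Subfield.closure ((O : Set L) ∪ {x}) ≤ F1 := by
    rw [Subfield.closure_le]
    rintro y (hy | hy)
    · exact hOF hy
    · rw [Set.mem_singleton_iff] at hy
      subst hy
      exact hxF
  have halgE : ∀ v ∈ F1, IsAlgebraic (Subfield.closure ((O : Set L) ∪ {x})) v :=
    fun v hv => Fermat.Agent.S18A.isAlgebraic_of_finite_span _ F1 hEF s hs v hv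
  have halg : ∀ v ∈ F1, IsAlgebraic (adj O x) v := by
    intro v hv
    exact Fermat.Agent.S18A.isAlgebraic_of_frac (adj O x) _
      (Subring.closure_le.2 Subfield.subset_closure)
      (fun e he => Subfield.mem_closure_iff.1 he) v (halgE v hv)
  have halg' : ∀ v ∈ F1, IsAlgebraic (adj O x⁻¹) v := by
    intro v hv
    refine Fermat.Agent.S18A.isAlgebraic_of_frac (adj O x⁻¹)
      (Subfield.closure ((O : Set L) ∪ {x⁻¹}))
      (Subring.closure_le.2 Subfield.subset_closure)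
      (fun e he => Subfield.mem_closure_iff.1 he) v ?_
    rw [Fermat.Agent.S18A.closure_inv_eq O x]
    exact halgE v hv
  have hle : ∀ W : Subring L, W = V1 ∨ W = V2 ∨ W = V3 → (V1 ⊓ V2 ⊓ V3 : Subring L) ≤ W := by
    rintro W (rfl | rfl | rfl)
    · exact inf_le_left.trans inf_le_left
    · exact inf_le_left.trans inf_le_right
    · exact inf_le_right
  exact S34V3G_setup hO hπO hπirr halgO hxt hOF hxF ⟨s, hs⟩ halg halg'
    (S36C3_le_inf3 h1) (S36C3_ic_inf3 h1 h2 h3) (S36C3_one_add_inf3 h1 h2 h3) hOV hxV hxV'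
    (S36C3_nonunit_inf3 h1) hGV hGV'
    (fun W hW hadj hG => hle W (hthree W hW hadj hG))
    (fun W hW hadj hG => hle W (hthree' W hW hadj hG))

/-- **Block C' for three valuations, from local shapes.** -/
theorem S36C3_main_shape [CharZero L]
    (S : S34C_Setup O π j F1 (V1 ⊓ V2 ⊓ V3) A0 Ainf) {p : ℕ} (hp : p.Prime)
    (hpO : (p : L)⁻¹ ∈ O) (f h G : L) (hf : f ∈ F1) (hf0 : f ≠ 0) (hh : h ^ p = f)
    (hred : RedPow π (V1 ⊓ V2 ⊓ V3) p f G)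
    (hshape0 : ∀ (hπ : π ∈ A0) (m : Ideal A0), m.IsMaximal → (⟨π, hπ⟩ : A0) ∈ m →
      S34C_Shape π F1 (V1 ⊓ V2 ⊓ V3) A0 p f G m)
    (hshapeInf : ∀ (hπ : π ∈ Ainf) (m : Ideal Ainf), m.IsMaximal → (⟨π, hπ⟩ : Ainf) ∈ m →
      S34C_Shape π F1 (V1 ⊓ V2 ⊓ V3) Ainf p f G m) :
    h ∈ F1 :=
  S34CA_main_shape S hp hpO f h G hf hf0 hh hred hshape0 hshapeInf

/-- **Block C' for three valuations, from local lifts.** -/
theorem S36C3_main [CharZero L]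
    (S : S34C_Setup O π j F1 (V1 ⊓ V2 ⊓ V3) A0 Ainf) {p : ℕ} (hp : p.Prime)
    (hpO : (p : L)⁻¹ ∈ O) (f h G : L) (hf : f ∈ F1) (hf0 : f ≠ 0) (hh : h ^ p = f)
    (hred : RedPow π (V1 ⊓ V2 ⊓ V3) p f G)
    (hloc0 : ∀ (hπ : π ∈ A0) (m : Ideal A0), m.IsMaximal → (⟨π, hπ⟩ : A0) ∈ m →
      S34C_LocLift π F1 (V1 ⊓ V2 ⊓ V3) A0 h G m)
    (hlocInf : ∀ (hπ : π ∈ Ainf) (m : Ideal Ainf), m.IsMaximal → (⟨π, hπ⟩ : Ainf) ∈ m →
      S34C_LocLift π F1 (V1 ⊓ V2 ⊓ V3) Ainf h G m) :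
    h ∈ F1 :=
  S34CA_main S hp hpO f h G hf hf0 hh hred hloc0 hlocInf

/-- `RedPow` for `V1 ⊓ V2 ⊓ V3` from the three branches with a COMMON `G`. -/
theorem S36C3_redPow {p : ℕ} {f G : L}
    (hG : G ∈ (V1 ⊓ V2 ⊓ V3 : Subring L)) (hG' : G⁻¹ ∈ (V1 ⊓ V2 ⊓ V3 : Subring L))
    (hG0 : G ≠ 0) (hπ0 : π ≠ 0)
    (hc : (f * (G ^ p)⁻¹ - 1) * π⁻¹ ∈ (V1 ⊓ V2 ⊓ V3 : Subring L)) :
    RedPow π (V1 ⊓ V2 ⊓ V3) p f G := by
  refine ⟨hG, hG', _, hc, ?_⟩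
  have hGp : G ^ p ≠ 0 := pow_ne_zero _ hG0
  field_simp
  ring

end Setup3

/-! ### HARTOGS-K for the weak setup -/

section HartogsK

variable {O : Subring L} {π j x : L} {F1 : Subfield L} {V A0 Ainf X : Subring L}

/-- `π ≠ 0`. -/
theorem S36C3_pi_ne_zero (S : S34C_Setup O π j F1 V A0 Ainf) : π ≠ 0 := by
  intro h
  apply S.π_nonunit
  rw [h, inv_zero]
  exact V.zero_mem

/-- `O ≤ X` for a chart. -/
theorem S36C3_O_le (S : S34C_Setup O π j F1 V A0 Ainf) (hC : Chart O π x F1 V X) : O ≤ X := by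
  intro y hy
  exact (hC.mem_iff y).2 ⟨isIntegral_of_mem _ (le_adj O x hy), S.O_le hy⟩

/-- `π ∈ X`. -/
theorem S36C3_pi_mem (S : S34C_Setup O π j F1 V A0 Ainf) (hC : Chart O π x F1 V X) : π ∈ X :=
  S36C3_O_le S hC S.π_mem

/-- **The vertical primes**: the local ring of a chart `X` at a prime `𝔭 ∋ π` with discrete
valuation local ring contains `V`. -/
theorem S36C3_vert (S : S34C_Setup O π j F1 V A0 Ainf) (hC : Chart O π x F1 V X)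
    (hπ : π ∈ X) (𝔭 : Ideal X) [h𝔭 : 𝔭.IsPrime] (hπ𝔭 : (⟨π, hπ⟩ : X) ∈ 𝔭)
    (hdvr : IsDiscreteValuationRing (locRing X 𝔭)) : V ≤ locRing X 𝔭 :=
  S34HK_vert_abs (S36C3_pi_ne_zero S) hC.le_V hC.sat hC.loc hπ 𝔭 hπ𝔭 hdvr

/-- `F1` is the fraction field of the chart `X` (`x = j` or `x = j⁻¹`). -/
theorem S36C3_frac (S : S34C_Setup O π j F1 V A0 Ainf) (hC : Chart O π x F1 V X)
    (hx : x = j ∨ x = j⁻¹) :
    ∀ y ∈ F1, ∃ a b : X, b ≠ 0 ∧ y * (b : L) = a := by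
  intro y hy
  obtain ⟨b, hb, hb0, hyb⟩ :=
    Fermat.Agent.S18A.frac_of_finite O j F1 S.O_le S.j_mem S.finite x hx y hy
  have hbX : b ∈ X := (hC.mem_iff b).2 hb
  have hybX : y * b ∈ X := (hC.mem_iff (y * b)).2 hyb
  exact ⟨⟨y * b, hybX⟩, ⟨b, hbX⟩, fun h => hb0 (congrArg Subtype.val h), rfl⟩

/-- `X ⊆ F1`. -/
theorem S36C3_le_F1 (hC : Chart O π x F1 V X) : ∀ a ∈ X, a ∈ F1 :=
  fun a ha => ((hC.mem_iff a).1 ha).2

/-- `X` is integrally closed in `F1`. -/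
theorem S36C3_ic (hC : Chart O π x F1 V X) : ∀ y ∈ F1, IsIntegral X y → y ∈ X := by
  intro y hyF hy
  refine (hC.mem_iff y).2 ⟨?_, hyF⟩
  exact isIntegral_trans' (fun a ha => ((hC.mem_iff a).1 ha).1) hy

/-- **The local ring at a horizontal prime** is of `PowDiv` type. -/
theorem S36C3_hor (S : S34C_Setup O π j F1 V A0 Ainf) (hC : Chart O π x F1 V X)
    (hx : x = j ∨ x = j⁻¹) (hπ : π ∈ X) (𝔭 : Ideal X) [h𝔭 : 𝔭.IsPrime]
    (hπ𝔭 : (⟨π, hπ⟩ : X) ∉ 𝔭) :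
    ((locRing X 𝔭 : Subring L) : Set L) ⊆ F1 ∧ O ≤ locRing X 𝔭 ∧ π⁻¹ ∈ locRing X 𝔭 ∧
      (IsDiscreteValuationRing (locRing X 𝔭) →
        ∀ y ∈ F1, y ∈ locRing X 𝔭 ∨ y⁻¹ ∈ locRing X 𝔭) ∧
      X ≤ locRing X 𝔭 ∧ ∀ a : X, ((a : L))⁻¹ ∉ locRing X 𝔭 → a ∈ 𝔭 := by
  refine ⟨?_, ?_, ?_, ?_, le_locRing X 𝔭, ?_⟩
  · intro y hy
    obtain ⟨a, s, hs, has⟩ := (mem_locRing_iff X 𝔭).1 hy
    have hs0 : (s : L) ≠ 0 := coe_ne_zero_of_notMem X 𝔭 hs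
    have : y = (a : L) * ((s : L))⁻¹ := by
      rw [← has, mul_assoc, mul_inv_cancel₀ hs0, mul_one]
    show y ∈ F1
    rw [this]
    exact F1.mul_mem (S36C3_le_F1 hC _ a.2) (F1.inv_mem (S36C3_le_F1 hC _ s.2))
  · exact fun y hy => le_locRing X 𝔭 (S36C3_O_le S hC hy)
  · exact inv_mem_locRing X 𝔭 hπ𝔭
  · intro hdvr y hy
    exact S34H_val_of_dvr X 𝔭 hdvr y (S36C3_frac S hC hx y hy)
  · intro a ha
    by_contra ha𝔭
    exact ha (inv_mem_locRing X 𝔭 ha𝔭)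

/-- **HARTOGS-K, membership form**: `y ∈ V`, and `y ∈ X_𝔭` for every HORIZONTAL prime `𝔭 ≤ m`
(`𝔭 ≠ ⊥`, `π ∉ 𝔭`) with discrete valuation local ring  ⟹  `y ∈ X_m`. -/
theorem S36C3_mem (S : S34C_Setup O π j F1 V A0 Ainf) (hC : Chart O π x F1 V X)
    (hx : x = j ∨ x = j⁻¹) (hN : IsNoetherianRing X)
    (hπ : π ∈ X) (m : Ideal X) [hm : m.IsPrime] (y : L) (hy : y ∈ V)
    (hhor : ∀ (𝔭 : Ideal X) [𝔭.IsPrime], 𝔭 ≤ m → 𝔭 ≠ ⊥ → (⟨π, hπ⟩ : X) ∉ 𝔭 →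
      IsDiscreteValuationRing (locRing X 𝔭) → y ∈ locRing X 𝔭) :
    y ∈ locRing X m := by
  have := hN
  refine S34H_mem_locRing X m F1 (S36C3_frac S hC hx) (S36C3_ic hC) (S36C3_le_F1 hC) y
    (S.V_le hy) ?_
  intro 𝔭 _ h𝔭m h𝔭0 hdvr
  by_cases hπ𝔭 : (⟨π, hπ⟩ : X) ∈ 𝔭
  · exact S36C3_vert S hC hπ 𝔭 hπ𝔭 hdvr hy
  · exact hhor 𝔭 h𝔭m h𝔭0 hπ𝔭 hdvr

/-- **HARTOGS-K, unit criterion** for the weak setup. -/
theorem S36C3_unit (S : S34C_Setup O π j F1 V A0 Ainf) (hC : Chart O π x F1 V X)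
    (hx : x = j ∨ x = j⁻¹) (hN : IsNoetherianRing X)
    (hπ : π ∈ X) (m : Ideal X) [hm : m.IsPrime] (u : L) (hu : u ∈ V) (hu' : u⁻¹ ∈ V)
    (hhor : ∀ (𝔭 : Ideal X) [𝔭.IsPrime], 𝔭 ≤ m → 𝔭 ≠ ⊥ → (⟨π, hπ⟩ : X) ∉ 𝔭 →
      IsDiscreteValuationRing (locRing X 𝔭) → u ∈ locRing X 𝔭 ∧ u⁻¹ ∈ locRing X 𝔭) :
    u ∈ locRing X m ∧ u⁻¹ ∈ locRing X m :=
  ⟨S36C3_mem S hC hx hN hπ m u hu (fun 𝔭 _ h1 h2 h3 h4 => (hhor 𝔭 h1 h2 h3 h4).1),
    S36C3_mem S hC hx hN hπ m u⁻¹ hu' (fun 𝔭 _ h1 h2 h3 h4 => (hhor 𝔭 h1 h2 h3 h4).2)⟩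

/-- **The unit criterion, `PowDiv` form** (horizontal hypothesis = `S34HK_Hor`). -/
theorem S36C3_unit_powDiv (S : S34C_Setup O π j F1 V A0 Ainf) (hC : Chart O π x F1 V X)
    (hx : x = j ∨ x = j⁻¹) (hN : IsNoetherianRing X)
    (m : Ideal X) [hm : m.IsPrime] (u : L) (hu : u ∈ V) (hu' : u⁻¹ ∈ V)
    (hhor : S34HK_Hor O π F1 X m u) :
    u ∈ locRing X m ∧ u⁻¹ ∈ locRing X m := by
  refine S36C3_unit S hC hx hN (S36C3_pi_mem S hC) m u hu hu' ?_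
  intro 𝔭 _ h𝔭m _ hπ𝔭 hdvr
  obtain ⟨h1, h2, h3, h4, h5, h6⟩ := S36C3_hor S hC hx (S36C3_pi_mem S hC) 𝔭 hπ𝔭
  exact hhor (locRing X 𝔭) h1 h2 h3 (h4 hdvr) hdvr h5 (fun a ha => h𝔭m (h6 a ha))

end HartogsK

end Fermat.Agent.S36_helper2_C3
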