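import Fermat.Agent.S36_helper20_WQQ
import Fermat.Agent.S34_helper20_V0K

/-!
# S36, the carriers of the three valuation rings at level `M' q q` (helper5)

* `S36VK_image` : `w(V ∩ F)` for helper20's Atkin–Lehner automorphism `w = W_Q` of level
  `N = Q M'` (the pattern of `S34V0_image`), with the transport of `S34C2_Val` and of the
  uniformiser;
* `S36VK_t`     : `t = j(Q^(q q)) - j`;
* `S36VK_V0`    : `V_0 := w_(q²)(V_∞)` at level `M' * q * q`;
* `S36VK_Vmid`  : the middle valuation ring `V_mid` of level `M' * q * q`: a valuation ring of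
  `F1` containing the Gauss ring of level `M' * q` in which `t` is a non-unit (a choice; it
  exists and is unique, see `S36_helper5_VMIDK`).
-/

set_option autoImplicit false
set_option linter.unusedSectionVars false
set_option linter.unusedVariables false
set_option linter.style.haveILetI false

noncomputable section

open ModularCurve Fermat.Agent.S24
open Fermat.Agent.S18_helper13_GAUSS Fermat.Agent.S18_helper9_CDefs
open Fermat.Agent.S18_helper25_COREDefs Fermat.Agent.S34_helper12_CDefs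
open Fermat.Agent.S34_helper27_C2Defs Fermat.Agent.S34_helper20_WQ Fermat.Agent.S34_helper20_V0
open Fermat.Agent.S34_helper27_V3K Fermat.Agent.S34_helper20_V0K Fermat.Agent.S36_helper20_WQQ

namespace Fermat.Agent.S36_helper5_VKDefs

section Gen

variable {K1 : Type*} [Field K1] (emb : K1 →+* Kbar) (Q M' N : ℕ) [NeZero M'] [NeZero N]
  (hcop : Nat.Coprime Q M') (hN : N = Q * M') [NeZero Q]

theorem S36VK_wL_neg {x : LaurentSeries K1} (hx : x ∈ modularFunctionFieldFullC K1 N) :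
    S36WQ_wL emb Q M' N hcop hN (-x) = - S36WQ_wL emb Q M' N hcop hN x := by
  rw [S36WQ_wL_of_mem emb Q M' N hcop hN hx, S36WQ_wL_of_mem emb Q M' N hcop hN (neg_mem hx)]
  have h : (⟨-x, neg_mem hx⟩ : modularFunctionFieldFullC K1 N) = -⟨x, hx⟩ := rfl
  rw [h, map_neg]
  rfl

theorem S36VK_wL_inv {x : LaurentSeries K1} (hx : x ∈ modularFunctionFieldFullC K1 N) :
    S36WQ_wL emb Q M' N hcop hN x⁻¹ = (S36WQ_wL emb Q M' N hcop hN x)⁻¹ := by
  rw [S36WQ_wL_of_mem emb Q M' N hcop hN hx, S36WQ_wL_of_mem emb Q M' N hcop hN (inv_mem hx)]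
  have h : (⟨x⁻¹, inv_mem hx⟩ : modularFunctionFieldFullC K1 N) = (⟨x, hx⟩)⁻¹ := rfl
  rw [h, map_inv₀]
  rfl

theorem S36VK_wL_zero : S36WQ_wL emb Q M' N hcop hN 0 = 0 := by
  rw [S36WQ_wL_of_mem emb Q M' N hcop hN (zero_mem _)]
  have h : (⟨0, zero_mem _⟩ : modularFunctionFieldFullC K1 N) = 0 := rfl
  rw [h, map_zero]
  rfl

theorem S36VK_wL_one : S36WQ_wL emb Q M' N hcop hN 1 = 1 := by
  rw [S36WQ_wL_of_mem emb Q M' N hcop hN (one_mem _)]
  have h : (⟨1, one_mem _⟩ : modularFunctionFieldFullC K1 N) = 1 := rfl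
  rw [h, map_one]
  rfl

theorem S36VK_wL_sub {x y : LaurentSeries K1} (hx : x ∈ modularFunctionFieldFullC K1 N)
    (hy : y ∈ modularFunctionFieldFullC K1 N) :
    S36WQ_wL emb Q M' N hcop hN (x - y) =
      S36WQ_wL emb Q M' N hcop hN x - S36WQ_wL emb Q M' N hcop hN y := by
  rw [sub_eq_add_neg, S36WQ_wL_add emb Q M' N hcop hN hx (neg_mem hy),
    S36VK_wL_neg emb Q M' N hcop hN hy, ← sub_eq_add_neg]

theorem S36VK_wL_pow {x : LaurentSeries K1} (hx : x ∈ modularFunctionFieldFullC K1 N) (n : ℕ) :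
    S36WQ_wL emb Q M' N hcop hN (x ^ n) = (S36WQ_wL emb Q M' N hcop hN x) ^ n := by
  induction n with
  | zero => rw [pow_zero, pow_zero, S36VK_wL_one]
  | succ n ih =>
      rw [pow_succ, pow_succ, S36WQ_wL_mul emb Q M' N hcop hN (pow_mem hx n) hx, ih]

/-- the image `w(V ∩ F)` of a subring of `L` under the Atkin–Lehner involution `W_Q` -/
def S36VK_image (V : Subring (LaurentSeries K1)) : Subring (LaurentSeries K1) where
  carrier := {y | y ∈ modularFunctionFieldFullC K1 N ∧ S36WQ_wL emb Q M' N hcop hN y ∈ V}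
  mul_mem' := by
    rintro x y ⟨hx, hx'⟩ ⟨hy, hy'⟩
    refine ⟨mul_mem hx hy, ?_⟩
    rw [S36WQ_wL_mul emb Q M' N hcop hN hx hy]
    exact V.mul_mem hx' hy'
  one_mem' := ⟨one_mem _, by rw [S36VK_wL_one]; exact V.one_mem⟩
  add_mem' := by
    rintro x y ⟨hx, hx'⟩ ⟨hy, hy'⟩
    refine ⟨add_mem hx hy, ?_⟩
    rw [S36WQ_wL_add emb Q M' N hcop hN hx hy]
    exact V.add_mem hx' hy'
  zero_mem' := ⟨zero_mem _, by rw [S36VK_wL_zero]; exact V.zero_mem⟩
  neg_mem' := by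
    rintro x ⟨hx, hx'⟩
    refine ⟨neg_mem hx, ?_⟩
    rw [S36VK_wL_neg emb Q M' N hcop hN hx]
    exact V.neg_mem hx'

theorem S36VK_mem_image {V : Subring (LaurentSeries K1)} {y : LaurentSeries K1} :
    y ∈ S36VK_image emb Q M' N hcop hN V ↔
      y ∈ modularFunctionFieldFullC K1 N ∧ S36WQ_wL emb Q M' N hcop hN y ∈ V := Iff.rfl

/-- `w x ∈ w(V)` for `x ∈ V ∩ F` -/
theorem S36VK_wL_mem_image {V : Subring (LaurentSeries K1)} {x : LaurentSeries K1}
    (hxF : x ∈ modularFunctionFieldFullC K1 N) (hx : x ∈ V) :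
    S36WQ_wL emb Q M' N hcop hN x ∈ S36VK_image emb Q M' N hcop hN V :=
  ⟨S36WQ_wL_mem emb Q M' N hcop hN x, by rw [S36WQ_wL_wL emb Q M' N hcop hN hxF]; exact hx⟩

/-- `w (w V) = V` for `V ≤ F` -/
theorem S36VK_image_image {V : Subring (LaurentSeries K1)}
    (hV : ∀ x ∈ V, x ∈ modularFunctionFieldFullC K1 N) :
    S36VK_image emb Q M' N hcop hN (S36VK_image emb Q M' N hcop hN V) = V := by
  ext y
  constructor
  · rintro ⟨hy, -, h2⟩
    rw [S36WQ_wL_wL emb Q M' N hcop hN hy] at h2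
    exact h2
  · intro hy
    have hyF := hV y hy
    exact ⟨hyF, S36WQ_wL_mem emb Q M' N hcop hN y, by
      rw [S36WQ_wL_wL emb Q M' N hcop hN hyF]; exact hy⟩

variable {π : LaurentSeries K1} {V : Subring (LaurentSeries K1)}

/-- **transport of the valuation-ring fields** -/
theorem S36VK_image_val (hπ : ∃ c : K1, HahnSeries.C c = π)
    (H : S34C2_Val π (modularFunctionFieldFullC K1 N).toSubfield V) :
    S34C2_Val π (modularFunctionFieldFullC K1 N).toSubfield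
      (S36VK_image emb Q M' N hcop hN V) := by
  obtain ⟨c, rfl⟩ := hπ
  refine ⟨fun x hx => hx.1, ?_, ?_, ?_⟩
  · intro x hx
    have hxF : x ∈ modularFunctionFieldFullC K1 N := hx
    rcases H.val _ (S36WQ_wL_mem emb Q M' N hcop hN x) with h | h
    · exact Or.inl ⟨hxF, h⟩
    · refine Or.inr ⟨inv_mem hxF, ?_⟩
      rw [S36VK_wL_inv emb Q M' N hcop hN hxF]
      exact h
  · exact ⟨S34V0_C_mem N c, by rw [S36WQ_wL_C]; exact H.π_mem⟩
  · rintro ⟨-, h⟩
    rw [S36VK_wL_inv emb Q M' N hcop hN (S34V0_C_mem N c), S36WQ_wL_C] at h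
    exact H.π_nonunit h

/-- **transport of the uniformiser** -/
theorem S36VK_image_unif (hπ : ∃ c : K1, HahnSeries.C c = π) (hπ0 : π ≠ 0)
    (hunif : ∀ x ∈ V, x⁻¹ ∉ V → ∃ v ∈ V, x = π * v) :
    ∀ x ∈ S36VK_image emb Q M' N hcop hN V, x⁻¹ ∉ S36VK_image emb Q M' N hcop hN V →
      ∃ v ∈ S36VK_image emb Q M' N hcop hN V, x = π * v := by
  obtain ⟨c, rfl⟩ := hπ
  rintro x ⟨hxF, hx⟩ hxinv
  have h1 : (S36WQ_wL emb Q M' N hcop hN x)⁻¹ ∉ V := by
    intro h
    apply hxinv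
    refine ⟨inv_mem hxF, ?_⟩
    rw [S36VK_wL_inv emb Q M' N hcop hN hxF]
    exact h
  obtain ⟨v, hv, hxv⟩ := hunif _ hx h1
  have hcF : HahnSeries.C c ∈ modularFunctionFieldFullC K1 N := S34V0_C_mem N c
  have hvF : v ∈ modularFunctionFieldFullC K1 N := by
    have : v = (HahnSeries.C c)⁻¹ * S36WQ_wL emb Q M' N hcop hN x := by
      rw [hxv, ← mul_assoc, inv_mul_cancel₀ hπ0, one_mul]
    rw [this]
    exact mul_mem (inv_mem hcF) (S36WQ_wL_mem emb Q M' N hcop hN x)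
  refine ⟨S36WQ_wL emb Q M' N hcop hN v, S36VK_wL_mem_image emb Q M' N hcop hN hvF hv, ?_⟩
  have h2 := congrArg (S36WQ_wL emb Q M' N hcop hN) hxv
  rw [S36WQ_wL_wL emb Q M' N hcop hN hxF, S36WQ_wL_mul emb Q M' N hcop hN hcF hvF,
    S36WQ_wL_C] at h2
  exact h2

end Gen

/-! ### The concrete carriers at level `M' * q * q` -/

section Concrete

variable (A : ValuationSubring (AlgebraicClosure ℚ))
  (K1 : IntermediateField ℚ (AlgebraicClosure ℚ))

/-- `t = j(Q^(q q)) - j` -/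
def S36VK_t (q : ℕ) [NeZero (q * q)] : LaurentSeries K1 := qExpand K1 (q * q) (jqModC K1) - jqModC K1

theorem S36VK_level (q M' : ℕ) : M' * q * q = q ^ 2 * M' := by ring

variable [IsDiscreteValuationRing (S18K_O1 A K1)]

/-- **the third valuation ring** `V_0 = w_(q²)(V_∞)` of `F1 = K1(j(Q^d) : d ∣ M' q q)` -/
def S36VK_V0 (q M' : ℕ) [NeZero M'] [NeZero (M' * q * q)] [NeZero (q ^ 2)] (hq : q.Prime)
    (hqM : ¬ q ∣ M') : Subring (LaurentSeries K1) :=
  S36VK_image (S34V0K_emb K1) (q ^ 2) M' (M' * q * q) (S36WQ_cop hq hqM) (S36VK_level q M')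
    (S18K_V A K1 (M' * q * q))

/-- the defining property of the middle valuation ring -/
def S36VK_IsMid (q M' : ℕ) [NeZero (q * q)] (V2 : Subring (LaurentSeries K1)) : Prop :=
  S34C2_Val (S18K_π A K1) (S18K_F1 K1 (M' * q * q)) V2 ∧ S18K_V A K1 (M' * q) ≤ V2 ∧
    S36VK_t K1 q ∈ V2 ∧ (S36VK_t K1 q)⁻¹ ∉ V2

open Classical in
/-- **the middle valuation ring** `V_mid` of `F1 = K1(j(Q^d) : d ∣ M' q q)`: a valuation ring of
`F1` containing the Gauss ring of level `M' * q` in which `t = j(Q^(q q)) - j` is a non-unit. -/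
def S36VK_Vmid (q M' : ℕ) [NeZero (q * q)] : Subring (LaurentSeries K1) :=
  if h : ∃ V2 : Subring (LaurentSeries K1), S36VK_IsMid A K1 q M' V2 then h.choose else ⊤

theorem S36VK_Vmid_spec (q M' : ℕ) [NeZero (q * q)]
    (h : ∃ V2 : Subring (LaurentSeries K1), S36VK_IsMid A K1 q M' V2) :
    S36VK_IsMid A K1 q M' (S36VK_Vmid A K1 q M') := by
  rw [S36VK_Vmid, dif_pos h]
  exact h.choose_spec

theorem S36VK_V0_val (q M' : ℕ) [NeZero M'] [NeZero (M' * q * q)] [NeZero (q ^ 2)]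
    (hq : q.Prime) (hqM : ¬ q ∣ M') :
    S34C2_Val (S18K_π A K1) (S18K_F1 K1 (M' * q * q)) (S36VK_V0 A K1 q M' hq hqM) :=
  S36VK_image_val (S34V0K_emb K1) (q ^ 2) M' (M' * q * q) (S36WQ_cop hq hqM)
    (S36VK_level q M') ⟨_, rfl⟩ (S34V3K_val1 A K1 (M' * q * q))

theorem S36VK_V0_unif (q M' : ℕ) [NeZero M'] [NeZero (M' * q * q)] [NeZero (q ^ 2)]
    (hq : q.Prime) (hqM : ¬ q ∣ M') :
    ∀ x ∈ S36VK_V0 A K1 q M' hq hqM, x⁻¹ ∉ S36VK_V0 A K1 q M' hq hqM →
      ∃ v ∈ S36VK_V0 A K1 q M' hq hqM, x = S18K_π A K1 * v :=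
  S36VK_image_unif (S34V0K_emb K1) (q ^ 2) M' (M' * q * q) (S36WQ_cop hq hqM)
    (S36VK_level q M') ⟨_, rfl⟩ (S18K_D A K1).πK_ne_zero (S34V3K_unif1 A K1 (M' * q * q))

/-- **the Gauss ring of level `M'` is contained in `V_0`** -/
theorem S36VK_V0_le (q M' : ℕ) [NeZero M'] [NeZero (M' * q * q)] [NeZero (q ^ 2)]
    (hq : q.Prime) (hqM : ¬ q ∣ M') : S18K_V A K1 M' ≤ S36VK_V0 A K1 q M' hq hqM := by
  rintro x ⟨hxV, hxF⟩
  have hxF' : x ∈ modularFunctionFieldFullC K1 M' := hxF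
  have hdvd : M' ∣ M' * q * q := ⟨q * q, by ring⟩
  have hxN : x ∈ modularFunctionFieldFullC K1 (M' * q * q) := S34V3K_F1_mono K1 hdvd hxF'
  refine ⟨hxN, ?_, S36WQ_wL_mem (S34V0K_emb K1) (q ^ 2) M' (M' * q * q) (S36WQ_cop hq hqM)
    (S36VK_level q M') x⟩
  rw [S36WQ_wL_level (S34V0K_emb K1) (q ^ 2) M' (M' * q * q) (S36WQ_cop hq hqM)
    (S36VK_level q M') hxF']
  exact (S34V0K_qExpand_mem (S18K_D A K1) (q ^ 2) hxV).1

end Concrete

end Fermat.Agent.S36_helper5_VKDefs
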