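import Fermat.Agent.S34_helper27_V3K
import Fermat.Agent.S36_helper2_C3
import Fermat.Agent.S36_helper5_VKDefs

/-!
# S36, SETUP3 (helper2): the weak setup of block C' for the concrete carriers at level
`M' * q * q`

`A` a valuation subring of `ℚ̄` over `q`, `K1` a level with `O1 = A ∩ K1` a discrete valuation
ring, `N = M' * q * q`, `q ∤ M'`.  `W₁ := S18K_V A K1 N` (the Gauss ring `V_∞`), `W₂ = V_mid`,
`W₃ = V_0`.

* `S36S3_setup` : for ANY two valuation rings `W2`, `W3` of `F1 = S18K_F1 K1 N` above the Gauss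
  ring of level `M'` with KEY3 (`(W₁ ⊓ W2) ⊓ W3` is integral over the Gauss ring of level `M'`),
  the S18K carriers form an `S34C_Setup` with `V = (W₁ ⊓ W2) ⊓ W3` (any `N` with `M' ∣ N`);
* `S36S3_setupK` : the same at `N = M' * q * q` for `W3 := S36VK_V0` (helper5's carrier) and any
  `W2` with `S36VK_IsMid` - the fields `setup`, `val1`, `val2`, `val3` of helper3's
  `S36XB_Contract`, verbatim;
* `S36S3_setupMid` : the same for `W2 := S36VK_Vmid`.
-/

set_option autoImplicit false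
set_option linter.style.haveILetI false
set_option linter.unusedVariables false
set_option linter.unusedSectionVars false

open ModularCurve Fermat.Agent.S18_helper13_GAUSS Fermat.Agent.S18_helper9_CDefs
open Fermat.Agent.S18_helper25_COREDefs Fermat.Agent.S34_helper12_CDefs
  Fermat.Agent.S34_helper27_C2Defs Fermat.Agent.S34_helper27_V3K
  Fermat.Agent.S36_helper2_C3 Fermat.Agent.S36_helper5_VKDefs

noncomputable section

namespace Fermat.Agent.S36_helper2_SETUP3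

variable (A : ValuationSubring (AlgebraicClosure ℚ))
  (K1 : IntermediateField ℚ (AlgebraicClosure ℚ))
  [IsDiscreteValuationRing (S18K_O1 A K1)]

set_option synthInstance.maxHeartbeats 400000 in
/-- **SETUP3 for the concrete carriers**, any two further valuation rings `W2`, `W3` above the
Gauss ring of level `M'` with KEY3. -/
theorem S36S3_setup {q : ℕ} (hq : q.Prime) (hA : A.LiesOverPrime q) (M' N : ℕ) [NeZero M']
    [NeZero N] (hqM : ¬ q ∣ M') (hN : M' ∣ N) (W2 W3 : Subring (LaurentSeries K1))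
    (h2 : S34C2_Val (S18K_π A K1) (S18K_F1 K1 N) W2)
    (h3 : S34C2_Val (S18K_π A K1) (S18K_F1 K1 N) W3)
    (hV2 : S18K_V A K1 M' ≤ W2) (hV3 : S18K_V A K1 M' ≤ W3)
    (hkey : ∀ v ∈ (S18K_V A K1 N ⊓ W2 ⊓ W3 : Subring (LaurentSeries K1)),
      IsIntegral (S18K_V A K1 M') v) :
    S34C_Setup (S18K_O A K1) (S18K_π A K1) (S18K_j K1) (S18K_F1 K1 N)
      (S18K_V A K1 N ⊓ W2 ⊓ W3 : Subring (LaurentSeries K1))
      (S18K_A0 A K1 N) (S18K_Ainf A K1 N) :=
  S36C3_setup (Fermat.Agent.S18AK.setupK M' hq A hA hqM K1) (S34V3K_F1_mono K1 hN)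
    (S34V3K_fin A K1 N) (S34V3K_val1 A K1 N) h2 h3 (S34V3K_V_mono A K1 hN) hV2 hV3 hkey

/-- `M' ∣ M' * q * q`. -/
theorem S36S3_dvd (q M' : ℕ) : M' ∣ M' * q * q := ⟨q * q, by ring⟩

/-- `M' * q ∣ M' * q * q`. -/
theorem S36S3_dvd' (q M' : ℕ) : M' * q ∣ M' * q * q := ⟨q, rfl⟩

/-- `M' ∣ M' * q`. -/
theorem S36S3_dvd'' (q M' : ℕ) : M' ∣ M' * q := ⟨q, rfl⟩

/-- the Gauss ring of level `M'` lies in every middle ring. -/
theorem S36S3_le_mid (q M' : ℕ) [NeZero (q * q)] {W2 : Subring (LaurentSeries K1)}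
    (hmid : S36VK_IsMid A K1 q M' W2) : S18K_V A K1 M' ≤ W2 :=
  (S34V3K_V_mono A K1 (S36S3_dvd'' q M')).trans hmid.2.1

set_option synthInstance.maxHeartbeats 400000 in
/-- **SETUP3 at level `M' * q * q`** with `V_0 := S36VK_V0` and ANY middle ring `W2`:
the fields `setup`, `val1`, `val2`, `val3` of `S36XB_Contract`. -/
theorem S36S3_setupK (q M' : ℕ) [NeZero M'] [NeZero (q * q)] [NeZero (q ^ 2)]
    [NeZero (M' * q * q)] (hq : q.Prime) (hqM : ¬ q ∣ M') (hA : A.LiesOverPrime q)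
    (W2 : Subring (LaurentSeries K1)) (hmid : S36VK_IsMid A K1 q M' W2)
    (hkey : ∀ v ∈ (S18K_V A K1 (M' * q * q) ⊓ W2 ⊓ S36VK_V0 A K1 q M' hq hqM :
      Subring (LaurentSeries K1)), IsIntegral (S18K_V A K1 M') v) :
    S34C_Setup (S18K_O A K1) (S18K_π A K1) (S18K_j K1) (S18K_F1 K1 (M' * q * q))
      (S18K_V A K1 (M' * q * q) ⊓ W2 ⊓ S36VK_V0 A K1 q M' hq hqM : Subring (LaurentSeries K1))
      (S18K_A0 A K1 (M' * q * q)) (S18K_Ainf A K1 (M' * q * q)) ∧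
    S34C2_Val (S18K_π A K1) (S18K_F1 K1 (M' * q * q)) (S18K_V A K1 (M' * q * q)) ∧
    S34C2_Val (S18K_π A K1) (S18K_F1 K1 (M' * q * q)) W2 ∧
    S34C2_Val (S18K_π A K1) (S18K_F1 K1 (M' * q * q)) (S36VK_V0 A K1 q M' hq hqM) :=
  ⟨S36S3_setup A K1 hq hA M' (M' * q * q) hqM (S36S3_dvd q M') W2 _ hmid.1
      (S36VK_V0_val A K1 q M' hq hqM) (S36S3_le_mid A K1 q M' hmid)
      (S36VK_V0_le A K1 q M' hq hqM) hkey,
    S34V3K_val1 A K1 (M' * q * q), hmid.1, S36VK_V0_val A K1 q M' hq hqM⟩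

set_option synthInstance.maxHeartbeats 400000 in
/-- **SETUP3 for helper5's carriers** `V_mid := S36VK_Vmid`, `V_0 := S36VK_V0`. -/
theorem S36S3_setupMid (q M' : ℕ) [NeZero M'] [NeZero (q * q)] [NeZero (q ^ 2)]
    [NeZero (M' * q * q)] (hq : q.Prime) (hqM : ¬ q ∣ M') (hA : A.LiesOverPrime q)
    (hmid : S36VK_IsMid A K1 q M' (S36VK_Vmid A K1 q M'))
    (hkey : ∀ v ∈ (S18K_V A K1 (M' * q * q) ⊓ S36VK_Vmid A K1 q M' ⊓
      S36VK_V0 A K1 q M' hq hqM : Subring (LaurentSeries K1)),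
      IsIntegral (S18K_V A K1 M') v) :
    S34C_Setup (S18K_O A K1) (S18K_π A K1) (S18K_j K1) (S18K_F1 K1 (M' * q * q))
      (S18K_V A K1 (M' * q * q) ⊓ S36VK_Vmid A K1 q M' ⊓ S36VK_V0 A K1 q M' hq hqM :
        Subring (LaurentSeries K1))
      (S18K_A0 A K1 (M' * q * q)) (S18K_Ainf A K1 (M' * q * q)) ∧
    S34C2_Val (S18K_π A K1) (S18K_F1 K1 (M' * q * q)) (S18K_V A K1 (M' * q * q)) ∧
    S34C2_Val (S18K_π A K1) (S18K_F1 K1 (M' * q * q)) (S36VK_Vmid A K1 q M') ∧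
    S34C2_Val (S18K_π A K1) (S18K_F1 K1 (M' * q * q)) (S36VK_V0 A K1 q M' hq hqM) :=
  S36S3_setupK A K1 q M' hq hqM hA _ hmid hkey

end Fermat.Agent.S36_helper2_SETUP3
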