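import Mathlib
import Fermat.Agent.S34_helper15_DEG
import Fermat.Agent.S34_helper13_P1C
import Fermat.Agent.S35_helper20_NORMBK

/-!
# S36, DEG36 (helper4): the relative degree `[F_{N q} : F_N] = q` for a prime `q ∣ N`

For a field `K1` of characteristic zero with an embedding into `ℚ̄`, a level `N` and a prime
`q ∣ N` (for S36: `N = M' * q`), the function field `F_{N q} = K1(j(t^d) : d ∣ N q)` has degree
`q` over `F_N` (both inside `K1((t))`), with the landed algebra structure `S34DEG_algebra K1 N q`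
(the inclusion; it carries no coprimality hypothesis).

* `S36DG_mu_mul`        : `mu (N * q) = mu N * q`;
* `S36DG_finrank`       : `[F(K1, N q) : F(K1, N)] = q`;
* `S36DG_finrank_le`    : the same as an inequality;
* `S36DG_mu_total`, `S36DG_finrank_total_le` : for `q ∤ M'`,
  `mu (M' q q) = mu M' * ((q + 1) * q)` and `[F(K1, M' q q) : F(K1, M')] ≤ 1 + (q - 1) + q ^ 2`
  along `S34DEG_algebra K1 M' (q * q)`;
* `S36DG_hdeg`          : the elementwise form (a spanning set of `q` elements), as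
  `S34P1C_hdeg`;
* `S36DG_finrank_alpha` : `[F̄(N q) : F̄(N)] = q` along `heckeAlphaBar`.
-/

set_option autoImplicit false
set_option linter.unusedSectionVars false
set_option linter.unusedVariables false
set_option linter.style.haveILetI false

open ModularCurve IntermediateField AlgebraicCurve
open Fermat.Agent.S20 Fermat.Agent.S18_helper26_CONST Fermat.Agent.S18_helper26_DEGK1
  Fermat.Agent.S34_helper15_DEG Fermat.Agent.S18_helper25_COREDefs
  Fermat.Agent.S34_helper13_KEYD

noncomputable section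

namespace Fermat.Agent.S36_helper4_DEG

local notation "Qb" => AlgebraicClosure ℚ

/-- `mu (N q) = mu N · q` for a prime `q ∣ N`. -/
theorem S36DG_mu_mul (N q : ℕ) [NeZero N] [NeZero (N * q)] (hq : q.Prime) (hqN : q ∣ N) :
    mu (N * q) = mu N * q := by
  rw [Fermat.Agent.S20_helper29_A1.A1 (N * q), Fermat.Agent.S20_helper29_A1.A1 N, mul_comm N q]
  exact Fermat.Agent.S20_helper29_A1.psi_mul_of_dvd q N hq (NeZero.ne N) hqN

theorem S36DG_mu_pos (K1 : Type*) [Field K1] [CharZero K1] (emb : K1 →+* Qb) (N : ℕ)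
    [NeZero N] : 0 < mu N := by
  rw [← S18DEG_finrank emb N]
  haveI := S18P15_finiteDimensional K1 N
  exact Module.finrank_pos

section Concrete

variable (K1 : Type*) [Field K1] [CharZero K1] (emb : K1 →+* Qb)
  (N q : ℕ) [NeZero N] [NeZero (N * q)]

include emb

/-- **DEG36.**  `[F_{N q} : F_N] = q` at every level `K1`, for a prime `q ∣ N`. -/
theorem S36DG_finrank (hq : q.Prime) (hqN : q ∣ N) :
    letI := S34DEG_algebra K1 N q
    Module.finrank ↥(modularFunctionFieldFullC K1 N)
      ↥(modularFunctionFieldFullC K1 (N * q)) = q := by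
  letI := S34DEG_algebra K1 N q
  have h1 := S34DEG_tower (S34DEG_incl K1 N q) (S18P15_jbar K1 N)
  rw [S34DEG_incl_jbar] at h1
  have h2 : Module.finrank K1⟮S18P15_jbar K1 (N * q)⟯
      ↥(modularFunctionFieldFullC K1 (N * q)) = mu (N * q) := S18DEG_finrank emb (N * q)
  have h3 : Module.finrank K1⟮S18P15_jbar K1 N⟯ ↥(modularFunctionFieldFullC K1 N) = mu N :=
    S18DEG_finrank emb N
  rw [h2, h3, S36DG_mu_mul N q hq hqN] at h1
  exact (Nat.eq_of_mul_eq_mul_left (S36DG_mu_pos K1 emb N) h1).symm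

theorem S36DG_finrank_le (hq : q.Prime) (hqN : q ∣ N) :
    letI := S34DEG_algebra K1 N q
    Module.finrank ↥(modularFunctionFieldFullC K1 N)
      ↥(modularFunctionFieldFullC K1 (N * q)) ≤ q := by
  letI := S34DEG_algebra K1 N q
  rw [S36DG_finrank K1 emb N q hq hqN]

end Concrete

section Total

variable (K1 : Type*) [Field K1] [CharZero K1] (emb : K1 →+* Qb)
  (M' q : ℕ) [NeZero M'] [NeZero (M' * (q * q))]

/-- `mu (M' q²) = mu M' · ((q + 1) q)` for a prime `q ∤ M'`. -/
theorem S36DG_mu_total (hq : q.Prime) (hqM : ¬ q ∣ M') :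
    mu (M' * (q * q)) = mu M' * ((q + 1) * q) := by
  haveI : NeZero (M' * q) := ⟨mul_ne_zero (NeZero.ne M') hq.ne_zero⟩
  haveI : NeZero (M' * q * q) := ⟨mul_ne_zero (NeZero.ne (M' * q)) hq.ne_zero⟩
  have e : M' * (q * q) = M' * q * q := (mul_assoc M' q q).symm
  have h1 : mu (M' * q * q) = mu (M' * q) * q :=
    S36DG_mu_mul (M' * q) q hq (Dvd.intro_left M' rfl)
  have h2 : mu (M' * q) = mu M' * (q + 1) := S34DEG_mu_mul M' q hq hqM
  calc mu (M' * (q * q)) = mu (M' * q * q) := by rw [e]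
    _ = mu M' * (q + 1) * q := by rw [h1, h2]
    _ = mu M' * ((q + 1) * q) := by ring

include emb

/-- `[F(K1, M' q²) : F(K1, M')] = (q + 1) q`. -/
theorem S36DG_finrank_total (hq : q.Prime) (hqM : ¬ q ∣ M') :
    letI := S34DEG_algebra K1 M' (q * q)
    Module.finrank ↥(modularFunctionFieldFullC K1 M')
      ↥(modularFunctionFieldFullC K1 (M' * (q * q))) = (q + 1) * q := by
  letI := S34DEG_algebra K1 M' (q * q)
  have h1 := S34DEG_tower (S34DEG_incl K1 M' (q * q)) (S18P15_jbar K1 M')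
  rw [S34DEG_incl_jbar] at h1
  have h2 : Module.finrank K1⟮S18P15_jbar K1 (M' * (q * q))⟯
      ↥(modularFunctionFieldFullC K1 (M' * (q * q))) = mu (M' * (q * q)) :=
    S18DEG_finrank emb (M' * (q * q))
  have h3 : Module.finrank K1⟮S18P15_jbar K1 M'⟯ ↥(modularFunctionFieldFullC K1 M') = mu M' :=
    S18DEG_finrank emb M'
  rw [h2, h3, S36DG_mu_total M' q hq hqM] at h1
  exact (Nat.eq_of_mul_eq_mul_left (S36DG_mu_pos K1 emb M') h1).symm

/-- the shape `≤ 1 + (q - 1) + q ^ 2` (the hypothesis `hab` of the count of extensions with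
`(a, m, b) = (1, q - 1, q ^ 2)`). -/
theorem S36DG_finrank_total_le (hq : q.Prime) (hqM : ¬ q ∣ M') :
    letI := S34DEG_algebra K1 M' (q * q)
    Module.finrank ↥(modularFunctionFieldFullC K1 M')
      ↥(modularFunctionFieldFullC K1 (M' * (q * q))) ≤ 1 + (q - 1) + q ^ 2 := by
  letI := S34DEG_algebra K1 M' (q * q)
  rw [S36DG_finrank_total K1 emb M' q hq hqM]
  have hq1 : 1 ≤ q := hq.one_lt.le
  have e : 1 + (q - 1) = q := by omega
  rw [e]
  nlinarith

end Total

section Elementwise

variable (K1 : IntermediateField ℚ Qb) (N q : ℕ) [NeZero N] [NeZero (N * q)]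

set_option synthInstance.maxHeartbeats 400000 in
/-- the degree input in elementwise form: `F1(K1, N q)` is spanned over `F1(K1, N)` by `q`
elements. -/
theorem S36DG_hdeg (hq : q.Prime) (hqN : q ∣ N) :
    ∃ s : Finset (LaurentSeries K1), s.card ≤ q ∧ ∀ x ∈ S18K_F1 K1 (N * q),
      ∃ c : LaurentSeries K1 → LaurentSeries K1,
        (∀ y, c y ∈ S18K_F1 K1 N) ∧ x = ∑ y ∈ s, c y * y := by
  letI := S34DEG_algebra K1 N q
  haveI := S34DEG_finiteDimensional K1 N q
  have hle := S36DG_finrank_le K1 (algebraMap K1 Qb) N q hq hqN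
  exact S34KEYD_hdeg (E := ↥(modularFunctionFieldFullC K1 N))
    (E' := ↥(modularFunctionFieldFullC K1 (N * q)))
    (modularFunctionFieldFullC K1 N).val.toRingHom
    (modularFunctionFieldFullC K1 (N * q)).val.toRingHom
    (fun e => S34DEG_algebraMap_coe K1 N q e) (S18K_F1 K1 N) (S18K_F1 K1 (N * q))
    (fun e => e.2) (fun x hx => ⟨⟨x, hx⟩, rfl⟩) hle

end Elementwise

section Bar

variable (N q : ℕ) [NeZero N] [NeZero q]

/-- `[F̄(N q) : F̄(N)] = q` along `heckeAlphaBar`, for a prime `q ∣ N`. -/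
theorem S36DG_finrank_alpha (hq : q.Prime) (hqN : q ∣ N) :
    letI := algebraAlong (heckeAlphaBar Qb N q)
    Module.finrank (modularFunctionFieldBar N) (modularFunctionFieldBar (N * q)) = q := by
  letI := algebraAlong (heckeAlphaBar Qb N q)
  haveI : NeZero (N * q) := ⟨mul_ne_zero (NeZero.ne N) hq.ne_zero⟩
  have h1 := Fermat.Agent.S34_helper15_DEG.S34DEG_tower (heckeAlphaBar Qb N q)
    (Fermat.Agent.S24.jElt N)
  have hj : heckeAlphaBar Qb N q (Fermat.Agent.S24.jElt N) = Fermat.Agent.S24.jElt (N * q) :=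
    Subtype.ext (coe_heckeAlphaBar N q _)
  rw [hj] at h1
  have h2 := (Fermat.Agent.S24_helper23_DEG.DEG (N * q)).2
  have h3 := (Fermat.Agent.S24_helper23_DEG.DEG N).2
  rw [h2, h3, S36DG_mu_mul N q hq hqN] at h1
  have hpos : 0 < Fermat.Agent.S20.mu N := by
    rw [← h3]
    haveI := (Fermat.Agent.S24_helper23_DEG.DEG N).1
    exact Module.finrank_pos
  exact (Nat.eq_of_mul_eq_mul_left hpos h1).symm

end Bar

end Fermat.Agent.S36_helper4_DEG
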