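import Fermat.Agent.S36_helper1_VMIDe

set_option autoImplicit false
set_option linter.unusedSectionVars false
set_option linter.unusedVariables false
set_option linter.style.haveILetI false

open Polynomial ModularCurve
open Fermat.Agent.S36_helper1_KRON Fermat.Agent.S36_helper1_THETA
open Fermat.Agent.S18_helper13_GAUSS Fermat.Agent.S18_helper25_COREDefs
open Fermat.Agent.S34_helper20_V0K Fermat.Agent.S34_helper20_V0

noncomputable section

namespace Fermat.Agent.S36_helper1_VMID

/-! ### Uniqueness of the simple root: the abstract Hensel step -/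

section Hensel

variable {V Lκ : Type*} [CommRing V] [IsDomain V] [Field Lκ] (red : V →+* Lκ)
  (q : ℕ) [hqf : Fact q.Prime] [CharP Lκ q] {a : ℕ → ℤ[X]}

/-- if `z` and `y` are roots of `Ψ(x, ·)` in a domain `V` with a reduction map to a field of
characteristic `q`, `red y = (red x)^q`, and `red x` is not a `q`-th power, then `z = y`. -/
theorem S36VM_hensel (h : S36VM_IsModEq q a) (x y z : V)
    (hy : y ^ (q + 1) + ∑ i ∈ Finset.range (q + 1),
      eval₂ (Int.castRingHom V) x (a i) * y ^ i = 0)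
    (hz : z ^ (q + 1) + ∑ i ∈ Finset.range (q + 1),
      eval₂ (Int.castRingHom V) x (a i) * z ^ i = 0)
    (hredy : red y = red x ^ q) (hpow : ∀ w : Lκ, w ^ q ≠ red x) : z = y := by
  have hq2 : 2 ≤ q := hqf.out.two_le
  obtain ⟨h0, h1, h2, h3⟩ := S36VM_kron_eval q Lκ h (red x)
  have hqz : ((q : ℕ) : Lκ) = 0 := CharP.cast_eq_zero Lκ q
  -- the reduction of `z`
  have hredz : red z = red x ^ q := by
    have e := congrArg red hz
    rw [map_add, map_pow, map_sum, map_zero] at e
    rw [S36VM_sum_shape hq2 _ (fun i hi2 hiq => by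
      rw [map_mul, Fermat.Agent.S34_helper14_MEW.S34MEW_map_eval₂, h3 i hi2 hiq, zero_mul])] at e
    simp only [map_mul, Fermat.Agent.S34_helper14_MEW.S34MEW_map_eval₂, h0, h1, h2, map_pow]
      at e
    have e2 : (red z - red x ^ q) * (red z ^ q - red x) = 0 := by
      rw [← e]
      ring
    rcases mul_eq_zero.1 e2 with e3 | e3
    · exact sub_eq_zero.1 e3
    · exact absurd (sub_eq_zero.1 e3) (hpow _)
  -- the difference quotient
  obtain ⟨G, hG⟩ : ∃ G : ℕ → V, ∀ n, G n = ∑ m ∈ Finset.range n, z ^ m * y ^ (n - 1 - m) :=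
    ⟨_, fun _ => rfl⟩
  have hGmul : ∀ n, G n * (z - y) = z ^ n - y ^ n := fun n => by
    rw [hG]; exact geom_sum₂_mul z y n
  have hredG : ∀ n, red (G n) = (n : Lκ) * (red x ^ q) ^ (n - 1) := by
    intro n
    rw [hG]
    simp only [map_sum, map_mul, map_pow, hredz, hredy]
    rw [Finset.sum_congr rfl (fun m hm => by
      rw [← pow_add, show m + (n - 1 - m) = n - 1 from by
        have := Finset.mem_range.1 hm
        omega] : ∀ m ∈ Finset.range n,
        (red x ^ q) ^ m * (red x ^ q) ^ (n - 1 - m) = (red x ^ q) ^ (n - 1))]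
    rw [Finset.sum_const, Finset.card_range, nsmul_eq_mul]
  have hΔ : (G (q + 1) + ∑ i ∈ Finset.range (q + 1), eval₂ (Int.castRingHom V) x (a i) * G i) *
      (z - y) = 0 := by
    rw [add_mul, Finset.sum_mul, hGmul]
    rw [Finset.sum_congr rfl (fun i _ => by rw [mul_assoc, hGmul])]
    have : z ^ (q + 1) - y ^ (q + 1) + ∑ i ∈ Finset.range (q + 1),
        eval₂ (Int.castRingHom V) x (a i) * (z ^ i - y ^ i) =
        (z ^ (q + 1) + ∑ i ∈ Finset.range (q + 1), eval₂ (Int.castRingHom V) x (a i) * z ^ i) -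
        (y ^ (q + 1) + ∑ i ∈ Finset.range (q + 1), eval₂ (Int.castRingHom V) x (a i) * y ^ i) := by
      simp only [mul_sub, Finset.sum_sub_distrib]
      ring
    rw [this, hz, hy, sub_zero]
  rcases mul_eq_zero.1 hΔ with h4 | h4
  · exfalso
    have e := congrArg red h4
    rw [map_add, map_sum, map_zero, hredG] at e
    rw [S36VM_sum_shape hq2 _ (fun i hi2 hiq => by
      rw [map_mul, Fermat.Agent.S34_helper14_MEW.S34MEW_map_eval₂, h3 i hi2 hiq, zero_mul])] at e
    simp only [map_mul, Fermat.Agent.S34_helper14_MEW.S34MEW_map_eval₂, h0, h1, h2, hredG]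
      at e
    have e2 : (red x ^ q) ^ q - red x = 0 := by
      rw [← e]
      push_cast
      rw [hqz]
      simp
      ring
    exact hpow _ (sub_eq_zero.1 e2)
  · exact sub_eq_zero.1 h4

end Hensel

/-- a root of a monic relation with coefficients in a subring is integral -/
theorem S36VM_isIntegral_of_rel {L : Type*} [Field L] (B : Subring L) (c : ℕ → L)
    (hc : ∀ i, c i ∈ B) (n : ℕ) (z : L)
    (hz : z ^ (n + 1) + ∑ i ∈ Finset.range (n + 1), c i * z ^ i = 0) : IsIntegral B z := by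
  have hdeg : (∑ i ∈ Finset.range (n + 1), C (c i) * X ^ i : L[X]).degree <
      ((n + 1 : ℕ) : WithBot ℕ) := by
    refine (degree_sum_le _ _).trans_lt ?_
    rw [Finset.sup_lt_iff (WithBot.bot_lt_coe _)]
    intro i hi
    exact (degree_C_mul_X_pow_le i _).trans_lt (by exact_mod_cast Finset.mem_range.1 hi)
  refine Fermat.Agent.S34_helper18_CUSP.S34CUSP_isIntegral_of_coeff_mem B
    (X ^ (n + 1) + ∑ i ∈ Finset.range (n + 1), C (c i) * X ^ i) (monic_X_pow_add hdeg)
    (fun m => ?_) z ?_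
  · rw [coeff_add, coeff_X_pow, finsetSum_coeff]
    refine B.add_mem ?_ (Subring.sum_mem _ (fun i _ => ?_))
    · split_ifs
      · exact B.one_mem
      · exact B.zero_mem
    · rw [coeff_C_mul, coeff_X_pow]
      refine B.mul_mem (hc i) ?_
      split_ifs
      · exact B.one_mem
      · exact B.zero_mem
  · simp only [eval_add, eval_pow, eval_X, eval_finsetSum, eval_mul, eval_C]
    exact hz

section NotIn

variable (A : ValuationSubring (AlgebraicClosure ℚ))
  (K1 : IntermediateField ℚ (AlgebraicClosure ℚ)) [IsDiscreteValuationRing (S18K_O1 A K1)]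

theorem S36VM_jqq_ne_j (q : ℕ) [NeZero q] [NeZero (q * q)] (hq : q.Prime) :
    qExpand K1 (q * q) (jqModC K1) ≠ jqModC K1 := by
  intro h0
  have h1 := congrArg (fun s : LaurentSeries K1 => s.coeff (-1)) h0
  simp only [coeff_jqModC_neg_one] at h1
  rw [qExpand_coeff_of_not_dvd] at h1
  · exact zero_ne_one h1
  · intro hd
    have h2 : ((q * q : ℕ) : ℤ) ∣ 1 := (dvd_neg (a := ((q * q : ℕ) : ℤ)) (b := 1)).mp hd
    have h3 : q * q ∣ 1 := by exact_mod_cast h2
    have h4 : q ∣ 1 := (dvd_mul_right q q).trans h3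
    exact hq.one_lt.ne' (Nat.dvd_one.mp h4)

set_option maxHeartbeats 1600000 in
set_option synthInstance.maxHeartbeats 400000 in
/-- **(N)** `j(Q^(q²))` is not in the function field of level `M' q` -/
theorem S36VM_notin (q M' : ℕ) [NeZero q] [NeZero (q * q)] [NeZero M'] (hq : q.Prime)
    (hqM : ¬ q ∣ M') (hA : A.LiesOverPrime q) :
    qExpand K1 (q * q) (jqModC K1) ∉ S18K_F1 K1 (M' * q) := by
  intro hmem
  haveI : Fact q.Prime := ⟨hq⟩
  haveI hNZ : NeZero (M' * q) := NeZero.mul
  haveI hchar : CharP (IsLocalRing.ResidueField A) q := S34V0K_charP A hq hA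
  haveI : CharP (LaurentSeries (IsLocalRing.ResidueField A)) q :=
    charP_of_injective_algebraMap
      (algebraMap (IsLocalRing.ResidueField A)
        (LaurentSeries (IsLocalRing.ResidueField A))).injective q
  obtain ⟨a, ha⟩ := S36VM_exists_modEq q hq
  obtain ⟨hr1, hr2⟩ := S36VM_modEq_map K1 ha
  have hN : M' * q = q * M' := mul_comm _ _
  have hjF : jqModC K1 ∈ modularFunctionFieldFullC K1 (M' * q) := jqModC_mem_full K1 (M' * q)
  have hjqF : qExpand K1 q (jqModC K1) ∈ modularFunctionFieldFullC K1 (M' * q) :=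
    jqModCd_mem_full K1 (M' * q) (dvd_mul_left q M')
  have hmem' : qExpand K1 (q * q) (jqModC K1) ∈ modularFunctionFieldFullC K1 (M' * q) := hmem
  -- the relation for `j_qq` in `L`
  have hrel : (qExpand K1 (q * q) (jqModC K1)) ^ (q + 1) + ∑ i ∈ Finset.range (q + 1),
      eval₂ (Int.castRingHom (LaurentSeries K1)) (qExpand K1 q (jqModC K1)) (a i) *
        (qExpand K1 (q * q) (jqModC K1)) ^ i = 0 := by
    have h1 := congrArg (qExpand K1 q) hr1
    simp only [map_add, map_pow, map_sum, map_mul, map_zero,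
      Fermat.Agent.S34_helper14_MEW.S34MEW_map_eval₂, qExpand_qExpand] at h1
    exact h1
  -- the same in `F`
  obtain ⟨φ, hφcoe⟩ : ∃ φ : ↥(modularFunctionFieldFullC K1 (M' * q)) →+* LaurentSeries K1,
      ∀ y, φ y = (y : LaurentSeries K1) :=
    ⟨(modularFunctionFieldFullC K1 (M' * q)).val.toRingHom, fun _ => rfl⟩
  have hφ : Function.Injective φ := φ.injective
  have hφval : ∀ (y : LaurentSeries K1) (hy : y ∈ modularFunctionFieldFullC K1 (M' * q)),
      φ ⟨y, hy⟩ = y := fun y hy => hφcoe ⟨y, hy⟩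
  have hrelF : (⟨_, hmem'⟩ : ↥(modularFunctionFieldFullC K1 (M' * q))) ^ (q + 1) +
      ∑ i ∈ Finset.range (q + 1),
        eval₂ (Int.castRingHom ↥(modularFunctionFieldFullC K1 (M' * q))) ⟨_, hjqF⟩ (a i) *
          (⟨_, hmem'⟩ : ↥(modularFunctionFieldFullC K1 (M' * q))) ^ i = 0 := by
    apply hφ
    simp only [map_add, map_pow, map_sum, map_mul, map_zero,
      Fermat.Agent.S34_helper14_MEW.S34MEW_map_eval₂]
    rw [hφval _ hmem', hφval _ hjqF]
    exact hrel
  -- apply `w`
  obtain ⟨w, hwinj, hwjq, hwj⟩ : ∃ w : ↥(modularFunctionFieldFullC K1 (M' * q)) →+*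
      ↥(modularFunctionFieldFullC K1 (M' * q)), Function.Injective w ∧
      w ⟨_, hjqF⟩ = ⟨_, hjF⟩ ∧ w ⟨_, hjF⟩ = ⟨_, hjqF⟩ := by
    refine ⟨((S34V0_w (S34V0K_emb K1) q M' (M' * q) hq hqM hN :
      ↥(modularFunctionFieldFullC K1 (M' * q)) ≃ₐ[K1] ↥(modularFunctionFieldFullC K1 (M' * q))) :
      ↥(modularFunctionFieldFullC K1 (M' * q)) →+* ↥(modularFunctionFieldFullC K1 (M' * q))),
      (S34V0_w (S34V0K_emb K1) q M' (M' * q) hq hqM hN).injective, ?_, ?_⟩
    · apply Subtype.ext
      have h1 := S34V0_wL_jq (S34V0K_emb K1) q M' (M' * q) hq hqM hN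
      rw [S34V0_wL_of_mem (S34V0K_emb K1) q M' (M' * q) hq hqM hN hjqF] at h1
      exact h1
    · apply Subtype.ext
      have h1 := S34V0_wL_j (S34V0K_emb K1) q M' (M' * q) hq hqM hN
      rw [S34V0_wL_of_mem (S34V0K_emb K1) q M' (M' * q) hq hqM hN hjF] at h1
      exact h1
  have hw := congrArg w hrelF
  simp only [map_add, map_pow, map_sum, map_mul, map_zero,
    Fermat.Agent.S34_helper14_MEW.S34MEW_map_eval₂, hwjq] at hw
  have hz := congrArg φ hw
  simp only [map_add, map_pow, map_sum, map_mul, map_zero,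
    Fermat.Agent.S34_helper14_MEW.S34MEW_map_eval₂] at hz
  rw [hφval _ hjF] at hz
  obtain ⟨z, hzdef⟩ : ∃ z : LaurentSeries K1, z = φ (w ⟨_, hmem'⟩) := ⟨_, rfl⟩
  rw [← hzdef] at hz
  have hzF : z ∈ S18K_F1 K1 (M' * q) := by
    rw [hzdef, hφcoe]
    exact (w ⟨_, hmem'⟩).2
  have hzne : z ≠ qExpand K1 q (jqModC K1) := by
    intro h0
    have h1 : w ⟨_, hmem'⟩ = w ⟨_, hjF⟩ := by
      rw [hwj]
      apply hφ
      rw [← hzdef, hφval]
      exact h0
    have h2 := congrArg Subtype.val (hwinj h1)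
    exact S36VM_jqq_ne_j K1 q hq h2
  -- `z` is in the Gauss ring
  have hjV : jqModC K1 ∈ S18K_V A K1 (M' * q) := S34V0K_j_mem_V1 A K1 (M' * q)
  have hzV : z ∈ S18K_V A K1 (M' * q) := by
    refine (Fermat.Agent.S34_helper27_V3K.S34V3K_val1 A K1 (M' * q)).ic hzF ?_
    exact S36VM_isIntegral_of_rel (S18K_V A K1 (M' * q))
      (fun i => eval₂ (Int.castRingHom (LaurentSeries K1)) (jqModC K1) (a i))
      (fun i => S36VM_eval₂_mem _ _ hjV _) q z hz
  -- the Hensel step in the Gauss ring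
  set D := S18K_D A K1 with hD
  have hj : jqModC K1 ∈ D.Vring := D.jqModC_mem_Vring
  have hθ := S34V0K_qExpand_mem D q hj
  have hredj : D.redFun (jqModC K1) = jqModC (IsLocalRing.ResidueField A) := D.redFun_jqModC
  have hredθ : D.redFun (qExpand K1 q (jqModC K1)) =
      (jqModC (IsLocalRing.ResidueField A)) ^ q := by
    haveI : ExpChar (IsLocalRing.ResidueField A) q := ExpChar.prime hq
    have h := S34V0K_frob_red D q
    rw [D.redFun_sub hθ.1 (D.Vring.pow_mem hj q), D.redFun_pow hj, hredj, sub_eq_zero] at h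
    exact h
  have hsub : Function.Injective D.Vring.subtype := Subtype.val_injective
  have key := S36VM_hensel D.red q ha (⟨_, hj⟩ : D.Vring) ⟨_, hθ.1⟩ ⟨z, hzV.1⟩ ?_ ?_ ?_ ?_
  · exact hzne (congrArg Subtype.val key)
  · apply hsub
    simp only [map_add, map_pow, map_sum, map_mul, map_zero,
      Fermat.Agent.S34_helper14_MEW.S34MEW_map_eval₂, Subring.coe_subtype]
    exact hr1
  · apply hsub
    simp only [map_add, map_pow, map_sum, map_mul, map_zero,
      Fermat.Agent.S34_helper14_MEW.S34MEW_map_eval₂, Subring.coe_subtype]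
    exact hz
  · rw [D.red_apply, D.red_apply, hredθ, hredj]
  · intro w'
    rw [D.red_apply, hredj]
    exact Fermat.Agent.S34_helper24_QPOWC.S34QP_jq_not_pow (IsLocalRing.ResidueField A) q w'

end NotIn

end Fermat.Agent.S36_helper1_VMID
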