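import Mathlib
import Fermat.Agent.S34_helper13_VCOUNT

/-!
# S36, generic brick of (V_mid): the fundamental identity over a discrete valuation ring with
three given extensions, the middle one ramified (helper5)

`R` is a discrete valuation ring with fraction field `F`, `F'/F` is a finite separable extension.
We use helper13's landed vocabulary (`S34_helper13_VCOUNT`): `S34V_Dom R W` (the valuation
subring `W` of `F'` dominates `R`) and `S34V_ResDegGe R W a` (elementwise lower bound for the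
residue degree).  New here is the elementwise lower bound for the ramification index:
`S36V3_RamGe R W t m` says that `t ≠ 0` is a non-unit of `W` and that `ϖ / t ^ m ∈ W` for a
uniformiser `ϖ` of `R`.

Main statement `S36V3_three`: three pairwise distinct dominating valuation subrings `Woo`, `Wmid`,
`W0` with `f(Woo) ≥ a`, `e(Wmid) ≥ m` (witness `t`), `f(W0) ≥ b` and `[F' : F] ≤ a + m + b`.
Then there is no fourth dominating valuation subring, `e(Woo) = e(W0) = 1`, `t` is a uniformiser
of `Wmid` and `ϖ = unit * t ^ m` there, the residue field of `Wmid` is that of `R`, the residue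
degrees of `Woo`, `W0` are exactly `a`, `b`, the integral closure of `R` in `F'` is
`Woo ∩ Wmid ∩ W0`, and `[F' : F] = a + m + b`.

Intended use (S36, level `q² M'`): `R` the Gauss valuation ring of `K1(j)`, `F'` the function
field of level `q² M'`, `(a, m, b) = (1, q - 1, q²)`, `t = j_qq - j`.
-/

set_option autoImplicit false
set_option linter.style.haveILetI false
set_option linter.unusedSectionVars false

open IsDedekindDomain IsDedekindDomain.HeightOneSpectrum WithZero Polynomial
open Fermat.Agent.S34_helper13_VCOUNT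

namespace Fermat.Agent.S36_helper5_V3COUNT

section Defs

variable (R : Type*) {F' : Type*} [CommRing R] [IsDomain R] [IsDiscreteValuationRing R]
  [Field F'] [Algebra R F']

/-- Elementwise lower bound `m ≤ e(W | R)` for the ramification index: a nonzero non-unit `t`
of `W` whose `m`-th power divides a uniformiser of `R` in `W`. -/
def S36V3_RamGe (W : ValuationSubring F') (t : F') (m : ℕ) : Prop :=
  t ≠ 0 ∧ t ∈ W.nonunits ∧ ∃ ϖ : R, Irreducible ϖ ∧ algebraMap R F' ϖ / t ^ m ∈ W

end Defs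

section Val

variable {R : Type*} (S : Type*) {F' : Type*} [CommRing R] [IsDomain R] [IsDiscreteValuationRing R]
  [CommRing S] [IsDedekindDomain S] [Field F'] [Algebra R F'] [FaithfulSMul R F']
  [Algebra R S] [Algebra S F'] [IsScalarTower R S F'] [IsFractionRing S F']
  [IsIntegralClosure S R F']
  (W : ValuationSubring F')

/-- The valuation of a uniformiser of `R` at a prime of `S` is `exp (-e)`. -/
theorem S36V3_valuation_unif [Module.IsTorsionFree R S] (P : HeightOneSpectrum S)
    {ϖ : R} (hϖ : Irreducible ϖ) :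
    P.valuation F' (algebraMap R F' ϖ) = exp (-(P.asIdeal.ramificationIdx R : ℤ)) := by
  haveI : Algebra.IsIntegral R S := IsIntegralClosure.isIntegral_algebra R F'
  haveI := S34V_liesOver (R := R) P
  haveI : P.asIdeal.LiesOver (S34V_hosR R).asIdeal := ‹_›
  have h1 := intValuation_liesOver (S34V_hosR R) P ϖ
  have h2 : (S34V_hosR R).intValuation ϖ = exp (-1 : ℤ) :=
    intValuation_singleton _ hϖ.ne_zero (by
      show IsLocalRing.maximalIdeal R = _
      rw [hϖ.maximalIdeal_eq])
  have h3 : (S34V_hosR R).asIdeal.ramificationIdx' P.asIdeal = P.asIdeal.ramificationIdx R :=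
    Ideal.ramificationIdx'_eq_ramificationIdx _ _ (S34V_hosR R).ne_bot
  rw [h3, h2, ← exp_nsmul] at h1
  rw [IsScalarTower.algebraMap_apply R S F', valuation_of_algebraMap, ← h1]
  congr 1
  simp

/-- A nonzero non-unit has valuation `exp (-k)` with `1 ≤ k`. -/
theorem S36V3_exists_exp (hW : S34V_Dom R W) {t : F'} (ht0 : t ≠ 0) (ht : t ∈ W.nonunits) :
    ∃ k : ℤ, 1 ≤ k ∧ (S34V_hos S W hW).valuation F' t = exp (-k) := by
  set P := S34V_hos S W hW with hP
  have h1 : P.valuation F' t < 1 := (S34V_mem_nonunits_iff S W hW t).1 ht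
  have h0 : P.valuation F' t ≠ 0 := by simpa using ht0
  refine ⟨-log (P.valuation F' t), ?_, ?_⟩
  · have h2 : log (P.valuation F' t) < 0 := by
      rw [← log_one]
      exact (log_lt_log h0 one_ne_zero).2 h1
    omega
  · rw [neg_neg, exp_log h0]

/-- The elementwise bound gives `m ≤ e`. -/
theorem S36V3_le_ramificationIdx [Module.IsTorsionFree R S] (hW : S34V_Dom R W) {t : F'} {m : ℕ}
    (ht : S36V3_RamGe R W t m) : m ≤ (S34V_hos S W hW).asIdeal.ramificationIdx R := by
  set P := S34V_hos S W hW with hP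
  obtain ⟨ht0, htn, ϖ, hϖ, hdiv⟩ := ht
  obtain ⟨k, hk, hvk⟩ := S36V3_exists_exp S W hW ht0 htn
  have h1 : P.valuation F' (algebraMap R F' ϖ / t ^ m) ≤ 1 := (S34V_mem_iff S W hW _).1 hdiv
  rw [map_div₀, map_pow, hvk, S36V3_valuation_unif S P hϖ, ← exp_nsmul, ← exp_sub,
    ← exp_zero, exp_le_exp] at h1
  simp only [nsmul_eq_mul] at h1
  have h2 : (m : ℤ) * 1 ≤ (m : ℤ) * k := by
    exact mul_le_mul_of_nonneg_left hk (by positivity)
  have h3 : (m : ℤ) ≤ (P.asIdeal.ramificationIdx R : ℤ) := by linarith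
  exact_mod_cast h3

/-- If `e = m` the witness `t` has valuation `exp (-1)`. -/
theorem S36V3_valuation_witness [Module.IsTorsionFree R S] (hW : S34V_Dom R W) {t : F'} {m : ℕ}
    (hm : 1 ≤ m) (ht : S36V3_RamGe R W t m)
    (he : (S34V_hos S W hW).asIdeal.ramificationIdx R = m) :
    (S34V_hos S W hW).valuation F' t = exp (-1 : ℤ) := by
  set P := S34V_hos S W hW with hP
  obtain ⟨ht0, htn, ϖ, hϖ, hdiv⟩ := ht
  obtain ⟨k, hk, hvk⟩ := S36V3_exists_exp S W hW ht0 htn
  have h1 : P.valuation F' (algebraMap R F' ϖ / t ^ m) ≤ 1 := (S34V_mem_iff S W hW _).1 hdiv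
  rw [map_div₀, map_pow, hvk, S36V3_valuation_unif S P hϖ, he, ← exp_nsmul, ← exp_sub,
    ← exp_zero, exp_le_exp] at h1
  simp only [nsmul_eq_mul] at h1
  have hm' : (1 : ℤ) ≤ (m : ℤ) := by exact_mod_cast hm
  have h2 : k ≤ 1 := by
    by_contra hcon
    rw [not_le] at hcon
    have h3 : (m : ℤ) * 2 ≤ (m : ℤ) * k := mul_le_mul_of_nonneg_left (by omega) (by positivity)
    linarith
  have h4 : k = 1 := le_antisymm h2 hk
  rw [hvk, h4]

end Val

section Count

variable {R : Type*} (S : Type*) {F' : Type*} [CommRing R] [IsDomain R] [IsDiscreteValuationRing R]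
  [CommRing S] [IsDedekindDomain S] [Field F'] [Algebra R F'] [FaithfulSMul R F']
  [Algebra R S] [Algebra S F'] [IsScalarTower R S F'] [IsFractionRing S F']
  [IsIntegralClosure S R F'] [Module.Finite R S] [Module.Flat R S]

omit [Field F'] [Algebra R F'] [FaithfulSMul R F'] [Algebra S F'] [IsScalarTower R S F']
  [IsFractionRing S F'] [IsIntegralClosure S R F'] in
/-- Arithmetic core: three distinct primes with `a ≤ f(P)`, `m ≤ e(Q)`, `b ≤ f(T)` and
`n ≤ a + m + b`. -/
theorem S36V3_count_core [Algebra.IsIntegral R S] (P Q T : HeightOneSpectrum S) (hPQ : P ≠ Q)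
    (hPT : P ≠ T) (hQT : Q ≠ T) {a m b : ℕ} (hab : Module.finrank R S ≤ a + m + b)
    (ha : a ≤ P.asIdeal.inertiaDeg R) (hm : m ≤ Q.asIdeal.ramificationIdx R)
    (hb : b ≤ T.asIdeal.inertiaDeg R) :
    (∀ X : HeightOneSpectrum S, X = P ∨ X = Q ∨ X = T) ∧
      P.asIdeal.ramificationIdx R = 1 ∧ P.asIdeal.inertiaDeg R = a ∧
      Q.asIdeal.ramificationIdx R = m ∧ Q.asIdeal.inertiaDeg R = 1 ∧
      T.asIdeal.ramificationIdx R = 1 ∧ T.asIdeal.inertiaDeg R = b ∧
      Module.finrank R S = a + m + b := by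
  classical
  letI : Fintype ((IsLocalRing.maximalIdeal R).primesOver S) :=
    (Algebra.QuasiFinite.finite_primesOver _).fintype
  have hsum := Ideal.sum_ramification_inertia_eq_finrank (IsLocalRing.maximalIdeal R) S
  set t : (IsLocalRing.maximalIdeal R).primesOver S → ℕ :=
    fun q => q.1.ramificationIdx R * q.1.inertiaDeg R with ht
  have hpos : ∀ q : (IsLocalRing.maximalIdeal R).primesOver S, 1 ≤ t q := by
    intro q
    haveI := q.2.1
    have h1 : 0 < q.1.ramificationIdx R := Ideal.ramificationIdx_pos q.1 R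
    have h2 : 0 < q.1.inertiaDeg R := Ideal.inertiaDeg_pos q.1 R
    exact Nat.mul_pos h1 h2
  set qP := S34V_toPrimesOver (R := R) S P with hqP
  set qQ := S34V_toPrimesOver (R := R) S Q with hqQ
  set qT := S34V_toPrimesOver (R := R) S T with hqT
  have hne1 : qP ≠ qQ := fun h => hPQ (S34V_toPrimesOver_injective S h)
  have hne2 : qP ≠ qT := fun h => hPT (S34V_toPrimesOver_injective S h)
  have hne3 : qQ ≠ qT := fun h => hQT (S34V_toPrimesOver_injective S h)
  have heP : 0 < P.asIdeal.ramificationIdx R := Ideal.ramificationIdx_pos P.asIdeal R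
  have heQ : 0 < Q.asIdeal.ramificationIdx R := Ideal.ramificationIdx_pos Q.asIdeal R
  have heT : 0 < T.asIdeal.ramificationIdx R := Ideal.ramificationIdx_pos T.asIdeal R
  have hfP : 0 < P.asIdeal.inertiaDeg R := Ideal.inertiaDeg_pos P.asIdeal R
  have hfQ : 0 < Q.asIdeal.inertiaDeg R := Ideal.inertiaDeg_pos Q.asIdeal R
  have hfT : 0 < T.asIdeal.inertiaDeg R := Ideal.inertiaDeg_pos T.asIdeal R
  -- the three terms
  have h2 : t qP + t qQ + t qT + ∑ q ∈ ((Finset.univ.erase qP).erase qQ).erase qT, t q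
      = Module.finrank R S := by
    rw [← hsum, ← Finset.add_sum_erase Finset.univ t (Finset.mem_univ qP),
      ← Finset.add_sum_erase (Finset.univ.erase qP) t
        (Finset.mem_erase.2 ⟨hne1.symm, Finset.mem_univ qQ⟩),
      ← Finset.add_sum_erase ((Finset.univ.erase qP).erase qQ) t
        (Finset.mem_erase.2 ⟨hne3.symm, Finset.mem_erase.2 ⟨hne2.symm, Finset.mem_univ qT⟩⟩)]
    ring
  have htP : t qP = P.asIdeal.ramificationIdx R * P.asIdeal.inertiaDeg R := rfl
  have htQ : t qQ = Q.asIdeal.ramificationIdx R * Q.asIdeal.inertiaDeg R := rfl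
  have htT : t qT = T.asIdeal.ramificationIdx R * T.asIdeal.inertiaDeg R := rfl
  have h3 : P.asIdeal.inertiaDeg R ≤ t qP := by
    rw [htP]; exact Nat.le_mul_of_pos_left _ heP
  have h4 : Q.asIdeal.ramificationIdx R ≤ t qQ := by
    rw [htQ]; exact Nat.le_mul_of_pos_right _ hfQ
  have h5 : T.asIdeal.inertiaDeg R ≤ t qT := by
    rw [htT]; exact Nat.le_mul_of_pos_left _ heT
  have h6 : ∑ q ∈ ((Finset.univ.erase qP).erase qQ).erase qT, t q = 0 := by omega
  have h7 : t qP = P.asIdeal.inertiaDeg R := by omega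
  have h8 : t qQ = Q.asIdeal.ramificationIdx R := by omega
  have h9 : t qT = T.asIdeal.inertiaDeg R := by omega
  refine ⟨?_, ?_, by omega, by omega, ?_, ?_, by omega, by omega⟩
  · intro X
    by_contra hX
    rw [not_or, not_or] at hX
    have hX1 : S34V_toPrimesOver (R := R) S X ∈ ((Finset.univ.erase qP).erase qQ).erase qT := by
      refine Finset.mem_erase.2 ⟨fun h => hX.2.2 (S34V_toPrimesOver_injective S h),
        Finset.mem_erase.2 ⟨fun h => hX.2.1 (S34V_toPrimesOver_injective S h),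
          Finset.mem_erase.2 ⟨fun h => hX.1 (S34V_toPrimesOver_injective S h),
            Finset.mem_univ _⟩⟩⟩
    have := Finset.single_le_sum (f := t) (fun _ _ => Nat.zero_le _) hX1
    have := hpos (S34V_toPrimesOver (R := R) S X)
    omega
  · rw [htP] at h7
    exact Nat.eq_of_mul_eq_mul_right hfP (by rw [h7, one_mul] :
      P.asIdeal.ramificationIdx R * P.asIdeal.inertiaDeg R = 1 * P.asIdeal.inertiaDeg R)
  · rw [htQ] at h8
    exact Nat.eq_of_mul_eq_mul_left heQ (by rw [h8, mul_one] :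
      Q.asIdeal.ramificationIdx R * Q.asIdeal.inertiaDeg R = Q.asIdeal.ramificationIdx R * 1)
  · rw [htT] at h9
    exact Nat.eq_of_mul_eq_mul_right hfT (by rw [h9, one_mul] :
      T.asIdeal.ramificationIdx R * T.asIdeal.inertiaDeg R = 1 * T.asIdeal.inertiaDeg R)

end Count

section Res

variable {R : Type*} (S : Type*) {F' : Type*} [CommRing R] [IsDomain R] [IsDiscreteValuationRing R]
  [CommRing S] [IsDedekindDomain S] [Field F'] [Algebra R F'] [FaithfulSMul R F']
  [Algebra R S] [Algebra S F'] [IsScalarTower R S F'] [IsFractionRing S F']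
  [IsIntegralClosure S R F']
  (W : ValuationSubring F')

/-- Residue degree one: every element of `W` is congruent to an element of `R`. -/
theorem S36V3_residue_of_inertiaDeg_one [Module.Finite R S] (hW : S34V_Dom R W)
    (hf : (S34V_hos S W hW).asIdeal.inertiaDeg R = 1) {x : F'} (hx : x ∈ W) :
    ∃ r : R, x - algebraMap R F' r ∈ W.nonunits := by
  obtain ⟨c, ⟨i, hi⟩, hc⟩ := S34V_dependent_of_inertiaDeg_lt S W hW (a := 2) (by omega)
    ![1, x] (by
      intro i
      fin_cases i
      · exact W.one_mem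
      · exact hx)
  simp only [Fin.sum_univ_two, Fin.isValue, Matrix.cons_val_zero, mul_one,
    Matrix.cons_val_one] at hc
  have hc1 : c 1 ∉ IsLocalRing.maximalIdeal R := by
    intro h1
    have h2 : algebraMap R F' (c 1) * x ∈ W.nonunits := by
      rw [mul_comm]
      exact S34V_nonunits_mul_mem W hx (hW.2 _ h1)
    have h3 : algebraMap R F' (c 0) ∈ W.nonunits := by
      have := W.nonunits.sub_mem hc h2
      simpa using this
    have h4 := S34V_mem_maximalIdeal_of_mem_nonunits W hW h3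
    fin_cases i
    · exact hi h4
    · exact hi h1
  rw [IsLocalRing.mem_maximalIdeal, mem_nonunits_iff, not_not] at hc1
  obtain ⟨u, hu⟩ := hc1
  refine ⟨-(↑u⁻¹ * c 0), ?_⟩
  have h5 : x - algebraMap R F' (-(↑u⁻¹ * c 0))
      = algebraMap R F' (↑u⁻¹ : R) * (algebraMap R F' (c 0) + algebraMap R F' (c 1) * x) := by
    have hu1 : algebraMap R F' (↑u⁻¹ : R) * algebraMap R F' (↑u : R) = 1 := by
      rw [← map_mul, Units.inv_mul, map_one]
    rw [← hu, map_neg, map_mul]
    linear_combination (-x) * hu1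
  rw [h5]
  exact S34V_nonunits_mul_mem W (hW.1 _) hc

/-- If `e = m` and `t` is the witness, every non-unit of `W` is a multiple of `t`. -/
theorem S36V3_unif_witness [Module.IsTorsionFree R S] (hW : S34V_Dom R W) {t : F'} {m : ℕ}
    (hm : 1 ≤ m) (ht : S36V3_RamGe R W t m)
    (he : (S34V_hos S W hW).asIdeal.ramificationIdx R = m)
    {x : F'} (hx : x ∈ W.nonunits) : ∃ y ∈ W, x = t * y := by
  set P := S34V_hos S W hW with hP
  have h1 : P.valuation F' t = exp (-1 : ℤ) := S36V3_valuation_witness S W hW hm ht he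
  have h2 : P.valuation F' x < 1 := (S34V_mem_nonunits_iff S W hW x).1 hx
  have h3 : P.valuation F' x ≤ exp (-1 : ℤ) := by
    rw [← lt_mul_exp_iff_le (by simp)]
    rw [← exp_add]
    simpa using h2
  refine ⟨x / t, ?_, ?_⟩
  · rw [S34V_mem_iff S W hW, map_div₀, h1]
    exact div_le_one_of_le₀ h3 zero_le
  · have := ht.1
    field_simp

/-- If `e = m` and `t` is the witness, every uniformiser of `R` is a unit times `t ^ m`. -/
theorem S36V3_unit_witness [Module.IsTorsionFree R S] (hW : S34V_Dom R W) {t : F'} {m : ℕ}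
    (hm : 1 ≤ m) (ht : S36V3_RamGe R W t m)
    (he : (S34V_hos S W hW).asIdeal.ramificationIdx R = m)
    {ϖ : R} (hϖ : Irreducible ϖ) :
    algebraMap R F' ϖ / t ^ m ∈ W ∧ t ^ m / algebraMap R F' ϖ ∈ W := by
  set P := S34V_hos S W hW with hP
  have h1 : P.valuation F' t = exp (-1 : ℤ) := S36V3_valuation_witness S W hW hm ht he
  have h2 : P.valuation F' (algebraMap R F' ϖ) = exp (-(m : ℤ)) := by
    rw [S36V3_valuation_unif S P hϖ, he]
  have h3 : P.valuation F' (t ^ m) = exp (-(m : ℤ)) := by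
    rw [map_pow, h1, ← exp_nsmul]
    congr 1
    simp
  constructor
  · rw [S34V_mem_iff S W hW, map_div₀, h2, h3, div_self (by simp)]
  · rw [S34V_mem_iff S W hW, map_div₀, h2, h3, div_self (by simp)]

end Res

section Final

variable (R F : Type*) {F' : Type*} [CommRing R] [IsDomain R] [IsDiscreteValuationRing R]
  [Field F] [Field F'] [Algebra R F] [IsFractionRing R F] [Algebra F F'] [Algebra R F']
  [IsScalarTower R F F'] [FiniteDimensional F F'] [Algebra.IsSeparable F F']

include F in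
/-- **The fundamental identity with three given extensions, the middle one ramified.** -/
theorem S36V3_three (Woo Wmid W0 : ValuationSubring F') (hoo : S34V_Dom R Woo)
    (hmid : S34V_Dom R Wmid) (h0 : S34V_Dom R W0)
    (h1 : Woo ≠ Wmid) (h2 : Woo ≠ W0) (h3 : Wmid ≠ W0) {a m b : ℕ} (hm : 1 ≤ m)
    (hab : Module.finrank F F' ≤ a + m + b)
    (ha : S34V_ResDegGe R Woo a) (t : F') (ht : S36V3_RamGe R Wmid t m)
    (hb : S34V_ResDegGe R W0 b) :
    (∀ W : ValuationSubring F', S34V_Dom R W → W = Woo ∨ W = Wmid ∨ W = W0) ∧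
    (∀ ϖ : R, Irreducible ϖ → ∀ x ∈ Woo.nonunits, ∃ y ∈ Woo, x = algebraMap R F' ϖ * y) ∧
    (∀ ϖ : R, Irreducible ϖ → ∀ x ∈ W0.nonunits, ∃ y ∈ W0, x = algebraMap R F' ϖ * y) ∧
    (∀ x ∈ Wmid.nonunits, ∃ y ∈ Wmid, x = t * y) ∧
    (∀ ϖ : R, Irreducible ϖ →
      algebraMap R F' ϖ / t ^ m ∈ Wmid ∧ t ^ m / algebraMap R F' ϖ ∈ Wmid) ∧
    (∀ x ∈ Wmid, ∃ r : R, x - algebraMap R F' r ∈ Wmid.nonunits) ∧
    (∀ y : Fin (a + 1) → F', (∀ i, y i ∈ Woo) →
      ∃ c : Fin (a + 1) → R, (∃ i, c i ∉ IsLocalRing.maximalIdeal R) ∧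
        (∑ i, algebraMap R F' (c i) * y i) ∈ Woo.nonunits) ∧
    (∀ y : Fin (b + 1) → F', (∀ i, y i ∈ W0) →
      ∃ c : Fin (b + 1) → R, (∃ i, c i ∉ IsLocalRing.maximalIdeal R) ∧
        (∑ i, algebraMap R F' (c i) * y i) ∈ W0.nonunits) ∧
    (∀ x : F', IsIntegral R x ↔ x ∈ Woo ∧ x ∈ Wmid ∧ x ∈ W0) ∧
    Module.finrank F F' = a + m + b := by
  haveI := S34V_isDedekind R F F'
  haveI := S34V_isFrac R F F'
  haveI := S34V_faithful R F F'
  haveI := S34V_finite R F F'
  haveI := S34V_torsionFree R F F'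
  haveI := S34V_flat R F F'
  haveI : Algebra.IsIntegral R (S34V_S R F') := IsIntegralClosure.isIntegral_algebra R F'
  have hn : Module.finrank R (S34V_S R F') = Module.finrank F F' :=
    (IsFractionRing.finrank_eq R F (S34V_S R F') F').symm
  set P := S34V_hos (S34V_S R F') Woo hoo with hP
  set Q := S34V_hos (S34V_S R F') Wmid hmid with hQ
  set T := S34V_hos (S34V_S R F') W0 h0 with hT
  have hPQ : P ≠ Q := fun h => h1 (S34V_hos_injective (S34V_S R F') hoo hmid h)
  have hPT : P ≠ T := fun h => h2 (S34V_hos_injective (S34V_S R F') hoo h0 h)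
  have hQT : Q ≠ T := fun h => h3 (S34V_hos_injective (S34V_S R F') hmid h0 h)
  have haP := S34V_le_inertiaDeg (S34V_S R F') Woo hoo ha
  have hmQ := S36V3_le_ramificationIdx (S34V_S R F') Wmid hmid ht
  have hbT := S34V_le_inertiaDeg (S34V_S R F') W0 h0 hb
  obtain ⟨hall, heP, hfP, heQ, hfQ, heT, hfT, hfin⟩ :=
    S36V3_count_core (R := R) (S34V_S R F') P Q T hPQ hPT hQT (hn ▸ hab) haP hmQ hbT
  have hW : ∀ W : ValuationSubring F', S34V_Dom R W → W = Woo ∨ W = Wmid ∨ W = W0 := by
    intro W hW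
    rcases hall (S34V_hos (S34V_S R F') W hW) with h | h | h
    · exact Or.inl (S34V_hos_injective (S34V_S R F') hW hoo h)
    · exact Or.inr (Or.inl (S34V_hos_injective (S34V_S R F') hW hmid h))
    · exact Or.inr (Or.inr (S34V_hos_injective (S34V_S R F') hW h0 h))
  refine ⟨hW, ?_, ?_, ?_, ?_, ?_, ?_, ?_, ?_, ?_⟩
  · intro ϖ hϖ x hx
    exact S34V_unif (S34V_S R F') Woo hoo heP hϖ hx
  · intro ϖ hϖ x hx
    exact S34V_unif (S34V_S R F') W0 h0 heT hϖ hx
  · intro x hx
    exact S36V3_unif_witness (S34V_S R F') Wmid hmid hm ht heQ hx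
  · intro ϖ hϖ
    exact S36V3_unit_witness (S34V_S R F') Wmid hmid hm ht heQ hϖ
  · intro x hx
    exact S36V3_residue_of_inertiaDeg_one (S34V_S R F') Wmid hmid hfQ hx
  · intro y hy
    exact S34V_dependent_of_inertiaDeg_lt (S34V_S R F') Woo hoo (by rw [← hP, hfP]; omega) y hy
  · intro y hy
    exact S34V_dependent_of_inertiaDeg_lt (S34V_S R F') W0 h0 (by rw [← hT, hfT]; omega) y hy
  · intro x
    rw [S34V_isIntegral_iff_forall R F x]
    constructor
    · intro h
      exact ⟨h Woo hoo, h Wmid hmid, h W0 h0⟩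
    · rintro ⟨hx1, hx2, hx3⟩ W hWd
      rcases hW W hWd with rfl | rfl | rfl
      · exact hx1
      · exact hx2
      · exact hx3
  · rw [← hn]
    exact hfin

include F in
/-- The case `a = 1` of `S36V3_three`: the residue field of `Woo` is that of `R`. -/
theorem S36V3_three_residue_oo (Woo Wmid W0 : ValuationSubring F') (hoo : S34V_Dom R Woo)
    (hmid : S34V_Dom R Wmid) (h0 : S34V_Dom R W0)
    (h1 : Woo ≠ Wmid) (h2 : Woo ≠ W0) (h3 : Wmid ≠ W0) {m b : ℕ}
    (hab : Module.finrank F F' ≤ 1 + m + b)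
    (t : F') (ht : S36V3_RamGe R Wmid t m)
    (hb : S34V_ResDegGe R W0 b) {x : F'} (hx : x ∈ Woo) :
    ∃ r : R, x - algebraMap R F' r ∈ Woo.nonunits := by
  haveI := S34V_isDedekind R F F'
  haveI := S34V_isFrac R F F'
  haveI := S34V_faithful R F F'
  haveI := S34V_finite R F F'
  haveI := S34V_torsionFree R F F'
  haveI := S34V_flat R F F'
  haveI : Algebra.IsIntegral R (S34V_S R F') := IsIntegralClosure.isIntegral_algebra R F'
  have hn : Module.finrank R (S34V_S R F') = Module.finrank F F' :=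
    (IsFractionRing.finrank_eq R F (S34V_S R F') F').symm
  set P := S34V_hos (S34V_S R F') Woo hoo with hP
  set Q := S34V_hos (S34V_S R F') Wmid hmid with hQ
  set T := S34V_hos (S34V_S R F') W0 h0 with hT
  have hPQ : P ≠ Q := fun h => h1 (S34V_hos_injective (S34V_S R F') hoo hmid h)
  have hPT : P ≠ T := fun h => h2 (S34V_hos_injective (S34V_S R F') hoo h0 h)
  have hQT : Q ≠ T := fun h => h3 (S34V_hos_injective (S34V_S R F') hmid h0 h)
  have haP : 1 ≤ P.asIdeal.inertiaDeg R := Ideal.inertiaDeg_pos P.asIdeal R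
  have hmQ := S36V3_le_ramificationIdx (S34V_S R F') Wmid hmid ht
  have hbT := S34V_le_inertiaDeg (S34V_S R F') W0 h0 hb
  obtain ⟨-, -, hfP, -⟩ :=
    S36V3_count_core (R := R) (S34V_S R F') P Q T hPQ hPT hQT (hn ▸ hab) haP hmQ hbT
  exact S36V3_residue_of_inertiaDeg_one (S34V_S R F') Woo hoo hfP hx

end Final

end Fermat.Agent.S36_helper5_V3COUNT
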