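import Mathlib
import Fermat.Agent.S34_helper13_VCOUNT
import Fermat.Agent.S36_helper5_V3COUNT

/-!
# S36, piece VMID-EXIST: generic existence of the middle valuation ring (helper5)

`R` a discrete valuation ring with fraction field `F`, `F'/F` finite separable of prime degree
`q`, `t ∈ F'` not in `F`, a root of a monic polynomial `P ∈ R[X]` of degree `q` whose constant
coefficient is `ϖ * H` (`ϖ` a uniformiser, `H` a unit) and whose coefficients of `X ^ k`,
`1 ≤ k ≤ q - 2`, are divisible by `ϖ`.

* `S36EX_exists` : some valuation subring `W` of `F'` dominating `R` has `t` in its maximal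
  ideal (only `ϖ ∣ P(0)` is used).
* `S36EX_ramGe` : in every such `W`, `ϖ / t ^ (q - 1) ∈ W`, i.e. `S36V3_RamGe R W t (q - 1)`.
* `S36EX_main` : both together.

The prime `q = 2` is included (`P = X ^ 2 + c X + ϖ H`).
-/

set_option autoImplicit false
set_option linter.style.haveILetI false
set_option linter.unusedSectionVars false
set_option linter.unusedVariables false

open Polynomial
open Fermat.Agent.S34_helper13_VCOUNT Fermat.Agent.S36_helper5_V3COUNT

namespace Fermat.Agent.S36_helper5_EXIST

section Ram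

variable {R : Type*} {F' : Type*} [CommRing R] [IsDomain R] [IsDiscreteValuationRing R]
  [Field F'] [Algebra R F'] [FaithfulSMul R F']

/-- A unit of `R` is a unit of a dominating valuation subring. -/
theorem S36EX_unit_not_nonunit (W : ValuationSubring F') (hW : S34V_Dom R W) {H : R}
    (hH : IsUnit H) : algebraMap R F' H ∉ W.nonunits := by
  obtain ⟨u, rfl⟩ := hH
  intro h
  have h1 : algebraMap R F' (↑u⁻¹ : R) * algebraMap R F' (↑u : R) ∈ W.nonunits :=
    S34V_nonunits_mul_mem W (hW.1 _) h
  rw [← map_mul, Units.inv_mul, map_one, ValuationSubring.mem_nonunits_iff_or] at h1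
  rcases h1 with h1 | h1
  · exact one_ne_zero h1
  · exact h1 (by rw [inv_one]; exact W.one_mem)

/-- **(E2)**, general form: in every dominating `W` with `t ∈ W.nonunits` the uniformiser is
divisible by `t ^ (q - 1)`. -/
theorem S36EX_ramGe_of_faithful (W : ValuationSubring F') (hW : S34V_Dom R W) {q : ℕ}
    (hq : 2 ≤ q) {t : F'} (ht : t ∈ W.nonunits) {P : R[X]} (hP : P.Monic)
    (hPd : P.natDegree = q) (hroot : aeval t P = 0) {ϖ : R} (hϖ : Irreducible ϖ) {H : R}
    (hH : IsUnit H) (h0 : P.coeff 0 = ϖ * H)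
    (hmid : ∀ k, 1 ≤ k → k + 2 ≤ q → ϖ ∣ P.coeff k) :
    S36V3_RamGe R W t (q - 1) := by
  classical
  have hinj := FaithfulSMul.algebraMap_injective R F'
  have hϖ0 : algebraMap R F' ϖ ≠ 0 := fun h => hϖ.ne_zero (hinj (by rw [h, map_zero]))
  have hH0 : algebraMap R F' H ≠ 0 := fun h => hH.ne_zero (hinj (by rw [h, map_zero]))
  have ht0 : t ≠ 0 := by
    rintro rfl
    rw [aeval_def, eval₂_at_zero, h0, map_mul] at hroot
    rcases mul_eq_zero.1 hroot with h | h
    · exact hϖ0 h
    · exact hH0 h
  have htW : t ∈ W := ValuationSubring.nonunits_subset ht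
  obtain ⟨n, rfl⟩ : ∃ n, q = n + 2 := ⟨q - 2, by omega⟩
  -- the middle coefficients
  choose! d hd using hmid
  -- expand `P(t) = 0`
  rw [aeval_eq_sum_range, hPd, Finset.sum_range_succ, Finset.sum_range_succ,
    Finset.sum_range_succ'] at hroot
  have hlead : P.coeff (n + 2) = 1 := by
    have := hP.coeff_natDegree
    rwa [hPd] at this
  simp only [pow_zero, Algebra.smul_def, mul_one, hlead, map_one, one_mul] at hroot
  set A : F' := ∑ k ∈ Finset.range n, algebraMap R F' (d (k + 1)) * t ^ (k + 1) with hA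
  have hsum : ∑ k ∈ Finset.range n, algebraMap R F' (P.coeff (k + 1)) * t ^ (k + 1)
      = algebraMap R F' ϖ * A := by
    rw [hA, Finset.mul_sum]
    refine Finset.sum_congr rfl fun k hk => ?_
    have hk' : k < n := Finset.mem_range.1 hk
    rw [hd (k + 1) (by omega) (by omega), map_mul]
    ring
  rw [hsum, h0, map_mul] at hroot
  have hAn : A ∈ W.nonunits := by
    refine W.nonunits.sum_mem fun k _ => ?_
    have h1 : t ^ (k + 1) ∈ W.nonunits := by
      rw [pow_succ]
      exact S34V_nonunits_mul_mem W (pow_mem htW k) ht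
    exact S34V_nonunits_mul_mem W (hW.1 _) h1
  set u : F' := algebraMap R F' H + A with hu
  have huW : u ∈ W := W.add_mem _ _ (hW.1 _) (ValuationSubring.nonunits_subset hAn)
  have hun : u ∉ W.nonunits := by
    intro h
    apply S36EX_unit_not_nonunit W hW hH
    have := W.nonunits.sub_mem h hAn
    rwa [hu, add_sub_cancel_right] at this
  rw [ValuationSubring.mem_nonunits_iff_or, not_or, not_not] at hun
  obtain ⟨hu0, huinv⟩ := hun
  refine ⟨ht0, ht, ϖ, hϖ, ?_⟩
  have hkey : algebraMap R F' ϖ / t ^ (n + 2 - 1)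
      = -((algebraMap R F' (P.coeff (n + 1)) + t) * u⁻¹) := by
    have h1 : n + 2 - 1 = n + 1 := by omega
    rw [h1]
    have ht1 : t ^ (n + 1) ≠ 0 := pow_ne_zero _ ht0
    field_simp
    rw [hu]
    linear_combination hroot
  rw [hkey]
  exact W.neg_mem _ (W.mul_mem _ _ (W.add_mem _ _ (hW.1 _) htW) huinv)

end Ram

section Final

variable (R F : Type*) {F' : Type*} [CommRing R] [IsDomain R] [IsDiscreteValuationRing R]
  [Field F] [Field F'] [Algebra R F] [IsFractionRing R F] [Algebra F F'] [Algebra R F']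
  [IsScalarTower R F F'] [FiniteDimensional F F'] [Algebra.IsSeparable F F']

include F in
/-- **(E2)** as typed: `S36V3_RamGe R W t (q - 1)` in every dominating `W` with
`t ∈ W.nonunits`. -/
theorem S36EX_ramGe (W : ValuationSubring F') (hW : S34V_Dom R W) {q : ℕ} (hq : 2 ≤ q)
    {t : F'} (ht : t ∈ W.nonunits) {P : R[X]} (hP : P.Monic) (hPd : P.natDegree = q)
    (hroot : aeval t P = 0) {ϖ : R} (hϖ : Irreducible ϖ) {H : R} (hH : IsUnit H)
    (h0 : P.coeff 0 = ϖ * H) (hmid : ∀ k, 1 ≤ k → k + 2 ≤ q → ϖ ∣ P.coeff k)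
    (hc : IsUnit (P.coeff (q - 1))) : S36V3_RamGe R W t (q - 1) := by
  haveI := S34V_faithful R F F'
  exact S36EX_ramGe_of_faithful W hW hq ht hP hPd hroot hϖ hH h0 hmid

include F in
/-- `P` is the minimal polynomial of `t` over `R`. -/
theorem S36EX_minpoly {q : ℕ} (hq : q.Prime) (hdeg : Module.finrank F F' = q) {t : F'}
    (htF : t ∉ (algebraMap F F').range) {P : R[X]} (hP : P.Monic) (hPd : P.natDegree = q)
    (hroot : aeval t P = 0) : P = minpoly R t := by
  haveI := S34V_faithful R F F'
  haveI : Module.IsTorsionFree R F' := by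
    rw [Module.isTorsionFree_iff_algebraMap_injective]
    exact FaithfulSMul.algebraMap_injective R F'
  have hint : IsIntegral R t := ⟨P, hP, by rw [← aeval_def]; exact hroot⟩
  have hintF : IsIntegral F t := hint.tower_top
  -- the degree of the minimal polynomial over `F`
  have h1 : Module.finrank F (IntermediateField.adjoin F {t}) = (minpoly F t).natDegree :=
    IntermediateField.adjoin.finrank hintF
  have h2 : Module.finrank F (IntermediateField.adjoin F {t}) ∣ q := by
    rw [← hdeg, ← Module.finrank_mul_finrank F (IntermediateField.adjoin F {t}) F']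
    exact dvd_mul_right _ _
  have h3 : (minpoly F t).natDegree = q := by
    rw [h1] at h2
    rcases (Nat.dvd_prime hq).1 h2 with h | h
    · exact absurd (minpoly.natDegree_eq_one_iff.1 h) htF
    · exact h
  have h4 : minpoly F t = (minpoly R t).map (algebraMap R F) :=
    minpoly.isIntegrallyClosed_eq_field_fractions' F hint
  have h5 : (minpoly R t).natDegree = q := by
    rw [← h3, h4, (minpoly.monic hint).natDegree_map]
  have h6 : minpoly R t ∣ P := minpoly.isIntegrallyClosed_dvd hint hroot
  exact Polynomial.eq_of_monic_of_dvd_of_natDegree_le (minpoly.monic hint) hP h6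
    (by rw [h5, hPd])

include F in
/-- **(E1)**: some dominating valuation subring has `t` in its maximal ideal. -/
theorem S36EX_exists {q : ℕ} (hq : q.Prime) (hdeg : Module.finrank F F' = q) {t : F'}
    (htF : t ∉ (algebraMap F F').range) {P : R[X]} (hP : P.Monic) (hPd : P.natDegree = q)
    (hroot : aeval t P = 0) {ϖ : R} (hϖ : Irreducible ϖ) (h0 : ϖ ∣ P.coeff 0) :
    ∃ W : ValuationSubring F', S34V_Dom R W ∧ t ∈ W.nonunits := by
  classical
  haveI := S34V_faithful R F F'
  haveI : Module.IsTorsionFree R F' := by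
    rw [Module.isTorsionFree_iff_algebraMap_injective]
    exact FaithfulSMul.algebraMap_injective R F'
  have hint : IsIntegral R t := ⟨P, hP, by rw [← aeval_def]; exact hroot⟩
  have hmin := S36EX_minpoly R F hq hdeg htF hP hPd hroot
  have ht0 : t ≠ 0 := by
    rintro rfl
    exact htF ⟨0, map_zero _⟩
  -- `t⁻¹` is not integral
  have hnot : ¬ IsIntegral R t⁻¹ := by
    rintro ⟨Q, hQ, hQroot⟩
    letI : Invertible t⁻¹ := invertibleOfNonzero (inv_ne_zero ht0)
    have h1 : eval₂ (algebraMap R F') (⅟(t⁻¹)) Q.reverse = 0 :=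
      (eval₂_reverse_eq_zero_iff (algebraMap R F') t⁻¹ Q).2 hQroot
    rw [invOf_eq_inv, inv_inv, ← aeval_def] at h1
    have h2 : minpoly R t ∣ Q.reverse := minpoly.isIntegrallyClosed_dvd hint h1
    rw [← hmin] at h2
    obtain ⟨G, hG⟩ := h2
    have h3 := congrArg (fun p : R[X] => p.coeff 0) hG
    simp only [coeff_zero_reverse, mul_coeff_zero, hQ.leadingCoeff] at h3
    obtain ⟨c, hc⟩ := h0
    rw [hc] at h3
    exact hϖ.not_isUnit (IsUnit.of_mul_eq_one (c * G.coeff 0) (by rw [h3]; ring))
  rw [S34V_isIntegral_iff_forall R F] at hnot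
  push Not at hnot
  obtain ⟨W, hW, htW⟩ := hnot
  refine ⟨W, hW, ?_⟩
  rw [ValuationSubring.mem_nonunits_iff_or]
  exact Or.inr htW

include F in
/-- **(E)**: existence of a dominating valuation subring with `e ≥ q - 1`, witness `t`. -/
theorem S36EX_main {q : ℕ} (hq : q.Prime) (hdeg : Module.finrank F F' = q) {t : F'}
    (htF : t ∉ (algebraMap F F').range) {P : R[X]} (hP : P.Monic) (hPd : P.natDegree = q)
    (hroot : aeval t P = 0) {ϖ : R} (hϖ : Irreducible ϖ) {H : R} (hH : IsUnit H)
    (h0 : P.coeff 0 = ϖ * H) (hmid : ∀ k, 1 ≤ k → k + 2 ≤ q → ϖ ∣ P.coeff k)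
    (hc : IsUnit (P.coeff (q - 1))) :
    ∃ W : ValuationSubring F', S34V_Dom R W ∧ S36V3_RamGe R W t (q - 1) := by
  obtain ⟨W, hW, ht⟩ := S36EX_exists R F hq hdeg htF hP hPd hroot hϖ ⟨H, h0⟩
  exact ⟨W, hW, S36EX_ramGe R F W hW hq.two_le ht hP hPd hroot hϖ hH h0 hmid hc⟩

end Final

end Fermat.Agent.S36_helper5_EXIST
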