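import Mathlib
import Fermat.Agent.S34_helper13_KEY
import Fermat.Agent.S36_helper5_V3COUNT

/-!
# S36, piece KEY3 (abstract form): the fundamental identity with three valuation rings in the
`Subring L` vocabulary (helper5)

`L` a field of characteristic zero, `F1' ≤ F1` subfields with a spanning set of at most
`1 + m + q ^ 2` elements, `V'` a discrete valuation ring of `F1'` with uniformiser `π`
(elementwise), residue characteristic `q`; `V1`, `V2`, `V3` pairwise distinct valuation rings of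
`F1` (`S34C2_Val`) containing `V'`; a nonzero non-unit `t` of `V2` with `π / t ^ m ∈ V2`; an
element `y ∈ V3` with `y ^ (q ^ 2) ≡ x` modulo the non-units of `V3`, where `x ∈ V'` is not a
`q`-th power modulo `π` in `V'`.

`S36K3_abs` : then `V1 ⊓ V2 ⊓ V3` is the integral closure of `V'` in `F1`, `π` generates the
non-units of `V1` and of `V3`, `t` generates the non-units of `V2` and `π = unit * t ^ m` there,
there is no fourth valuation ring of `F1` over `V'` in which `π` is a non-unit, and the residue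
fields of `V1` and of `V2` are that of `V'`.

This is `S36_helper5_V3COUNT.S36V3_three` for `R := V'`, `F := F1'`, `F' := F1`,
`(a, m, b) = (1, m, q ^ 2)`.  The new ingredient is the lower bound `q ^ 2 ≤ f(V3 | V')`, from
the irreducibility of `X ^ (q * q) - a` over a field of characteristic `q` in which `a` is not
a `q`-th power (uniform in `q`, the prime `2` included).
-/

set_option autoImplicit false
set_option linter.style.haveILetI false
set_option linter.unusedSectionVars false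
set_option linter.unusedVariables false

open Polynomial
open Fermat.Agent.S34_helper13_VCOUNT Fermat.Agent.S34_helper27_C2Defs
open Fermat.Agent.S34_helper13_KEY Fermat.Agent.S36_helper5_V3COUNT

namespace Fermat.Agent.S36_helper5_KEY3

section Irr

universe u

variable {K : Type u} [Field K]

/-- In characteristic `q`, the `q`-th power of an element of `K(x)` lies in `K` as soon as
`x ^ q` does. -/
theorem S36K3_pow_mem_range {q : ℕ} (hq : q.Prime) [CharP K q] {E : Type u} [Field E]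
    [Algebra K E] (x : E) (hx : x ^ q ∈ (algebraMap K E).fieldRange)
    (b : E) (hb : b ∈ IntermediateField.adjoin K {x}) :
    b ^ q ∈ (algebraMap K E).fieldRange := by
  haveI : Fact q.Prime := ⟨hq⟩
  haveI : CharP E q := charP_of_injective_algebraMap (algebraMap K E).injective q
  let T : IntermediateField K E :=
    Subfield.toIntermediateField (Subfield.comap (frobenius E q) (algebraMap K E).fieldRange)
      (fun c => by
        show frobenius E q (algebraMap K E c) ∈ (algebraMap K E).fieldRange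
        rw [frobenius_def, ← map_pow]
        exact ⟨c ^ q, rfl⟩)
  have hle : IntermediateField.adjoin K {x} ≤ T := by
    rw [IntermediateField.adjoin_le_iff]
    intro z hz
    rw [Set.mem_singleton_iff] at hz
    subst hz
    show frobenius E q z ∈ (algebraMap K E).fieldRange
    rw [frobenius_def]
    exact hx
  have := hle hb
  have h2 : frobenius E q b ∈ (algebraMap K E).fieldRange := this
  rwa [frobenius_def] at h2

/-- `X ^ (q * q) - a` is irreducible over a field of characteristic `q` in which `a` is not a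
`q`-th power. -/
theorem S36K3_irreducible_sq {q : ℕ} (hq : q.Prime) [CharP K q] {a : K}
    (ha : ∀ b : K, b ^ q ≠ a) : Irreducible (X ^ (q * q) - C a : K[X]) := by
  refine X_pow_mul_sub_C_irreducible (X_pow_sub_C_irreducible_of_prime hq ha) ?_
  intro E _ _ x hx
  refine X_pow_sub_C_irreducible_of_prime hq fun b hb => ?_
  -- `x ^ q = a`
  have hxa : x ^ q = algebraMap K E a := by
    have h1 := minpoly.aeval K x
    rw [hx, map_sub, map_pow, aeval_X, aeval_C, sub_eq_zero] at h1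
    exact h1
  have h2 := S36K3_pow_mem_range hq x (by rw [hxa]; exact ⟨a, rfl⟩) (b : E) b.2
  have h3 : ((b ^ q : IntermediateField.adjoin K {x}) : E) = x := by
    rw [hb]
    rfl
  rw [SubmonoidClass.coe_pow] at h3
  rw [h3] at h2
  obtain ⟨c, hc⟩ := h2
  apply ha c
  apply (algebraMap K E).injective
  rw [map_pow, hc, hxa]

end Irr

section Pow

variable {R : Type*} {F' : Type*} [CommRing R] [IsDomain R] [IsDiscreteValuationRing R]
  [Field F'] [Algebra R F'] (W : ValuationSubring F')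

/-- **Residue degree from an irreducible polynomial `X ^ n - x̄`.** -/
theorem S36K3_resDegGe_of_irreducible (hW : S34V_Dom R W) {n : ℕ} (hn : n ≠ 0) {y : F'}
    (hy : y ∈ W) {x : R} (hyx : y ^ n - algebraMap R F' x ∈ W.nonunits)
    (hirr : Irreducible
      (X ^ n - C (IsLocalRing.residue R x) : (IsLocalRing.ResidueField R)[X])) :
    S34V_ResDegGe R W n := by
  classical
  refine ⟨fun i => y ^ (i : ℕ), fun i => pow_mem hy _, fun c hc i => ?_⟩
  haveI := S34V_RtoW_isLocalHom W hW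
  let φ : R →+* W := S34V_RtoW W hW.1
  let ψ : IsLocalRing.ResidueField R →+* IsLocalRing.ResidueField W :=
    IsLocalRing.ResidueField.map φ
  letI : Algebra (IsLocalRing.ResidueField R) (IsLocalRing.ResidueField W) := ψ.toAlgebra
  set ybar : IsLocalRing.ResidueField W := IsLocalRing.residue W ⟨y, hy⟩ with hybar
  set xbar : IsLocalRing.ResidueField R := IsLocalRing.residue R x with hxbar
  have hψ : ∀ r : R, algebraMap (IsLocalRing.ResidueField R) (IsLocalRing.ResidueField W)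
      (IsLocalRing.residue R r) = IsLocalRing.residue W (φ r) := fun r => rfl
  have hmonic : (X ^ n - C xbar : (IsLocalRing.ResidueField R)[X]).Monic :=
    monic_X_pow_sub_C _ hn
  have hroot : aeval ybar (X ^ n - C xbar : (IsLocalRing.ResidueField R)[X]) = 0 := by
    rw [map_sub, map_pow, aeval_X, aeval_C, hψ, ← map_pow, ← map_sub,
      IsLocalRing.residue_eq_zero_iff, ← ValuationSubring.coe_mem_nonunits_iff]
    exact hyx
  have hmin : minpoly (IsLocalRing.ResidueField R) ybar = X ^ n - C xbar :=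
    (minpoly.eq_of_irreducible_of_monic hirr hroot hmonic).symm
  have hli := linearIndependent_pow (K := IsLocalRing.ResidueField R) ybar
  rw [hmin, natDegree_X_pow_sub_C] at hli
  rw [Fintype.linearIndependent_iff] at hli
  have h2 := hli (fun i => IsLocalRing.residue R (c i)) (by
    have h3 : IsLocalRing.residue W ⟨∑ i, algebraMap R F' (c i) * y ^ (i : ℕ),
        ValuationSubring.nonunits_subset hc⟩ = 0 := by
      rw [IsLocalRing.residue_eq_zero_iff, ← ValuationSubring.coe_mem_nonunits_iff]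
      exact hc
    rw [← h3]
    have h4 : (⟨∑ i, algebraMap R F' (c i) * y ^ (i : ℕ),
        ValuationSubring.nonunits_subset hc⟩ : W) = ∑ i : Fin n, φ (c i) * ⟨y, hy⟩ ^ (i : ℕ) := by
      apply Subtype.ext
      simp only [AddSubmonoidClass.coe_finsetSum, MulMemClass.coe_mul, SubmonoidClass.coe_pow]
      rfl
    rw [h4, map_sum]
    refine Finset.sum_congr rfl fun i _ => ?_
    rw [Algebra.smul_def, hψ, map_mul, map_pow]) i
  exact (IsLocalRing.residue_eq_zero_iff _).1 h2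

/-- **Residue degree `q ^ 2` from a `q ^ 2`-th root in residue characteristic `q`.**  If
`q ∈ 𝔪_R`, `y ∈ W` satisfies `y ^ (q ^ 2) ≡ x` modulo the maximal ideal of `W` and `x ∈ R` is
not a `q`-th power modulo the maximal ideal of `R`, then `q ^ 2 ≤ f(W | R)`. -/
theorem S36K3_resDegGe_of_pow_sq (hW : S34V_Dom R W) {q : ℕ} (hq : q.Prime)
    (hqR : (q : R) ∈ IsLocalRing.maximalIdeal R) {y : F'} (hy : y ∈ W)
    {x : R} (hyx : y ^ (q ^ 2) - algebraMap R F' x ∈ W.nonunits)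
    (hx : ∀ r : R, r ^ q - x ∉ IsLocalRing.maximalIdeal R) : S34V_ResDegGe R W (q ^ 2) := by
  have hq0 : ((q : ℕ) : IsLocalRing.ResidueField R) = 0 := by
    have h1 : IsLocalRing.residue R (q : R) = 0 := (IsLocalRing.residue_eq_zero_iff _).2 hqR
    rwa [map_natCast] at h1
  haveI : CharP (IsLocalRing.ResidueField R) q := (CharP.charP_iff_prime_eq_zero hq).2 hq0
  refine S36K3_resDegGe_of_irreducible W hW (pow_ne_zero 2 hq.ne_zero) hy hyx ?_
  rw [pow_two]
  refine S36K3_irreducible_sq hq fun b hb => ?_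
  obtain ⟨r, rfl⟩ := IsLocalRing.residue_surjective b
  have h1 : IsLocalRing.residue R (r ^ q - x) = 0 := by
    rw [map_sub, map_pow, hb, sub_self]
  rw [IsLocalRing.residue_eq_zero_iff] at h1
  exact hx r h1

end Pow

section Final

variable {L : Type*} [Field L] {π : L} {F1' F1 : Subfield L} {V' V1 V2 V3 : Subring L}

/-- **KEY3, abstract form.** -/
theorem S36K3_abs [CharZero L] (hF : F1' ≤ F1)
    (hV' : S34C2_Val π F1' V')
    (hsep : ∀ x ∈ F1', x ≠ 0 → ∃ (z : ℤ) (u : L), u ∈ V' ∧ u⁻¹ ∈ V' ∧ x = π ^ z * u)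
    (h1 : S34C2_Val π F1 V1) (h2 : S34C2_Val π F1 V2) (h3 : S34C2_Val π F1 V3)
    (hV1 : V' ≤ V1) (hV2 : V' ≤ V2) (hV3 : V' ≤ V3)
    (h12 : V1 ≠ V2) (h13 : V1 ≠ V3) (h23 : V2 ≠ V3) {q m : ℕ} (hq : q.Prime) (hm : 1 ≤ m)
    (hdeg : ∃ s : Finset L, s.card ≤ 1 + m + q ^ 2 ∧ ∀ x ∈ F1, ∃ c : L → L,
      (∀ y, c y ∈ F1') ∧ x = ∑ y ∈ s, c y * y)
    {t : L} (ht0 : t ≠ 0) (ht : t ∈ V2) (htn : t⁻¹ ∉ V2) (htm : π / t ^ m ∈ V2)
    (hqπ : ∃ v ∈ V', (q : L) = π * v)
    {y x : L} (hy : y ∈ V3) (hx : x ∈ V')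
    (hyx : y ^ (q ^ 2) - x = 0 ∨ (y ^ (q ^ 2) - x)⁻¹ ∉ V3)
    (hxq : ∀ r ∈ V', ∀ v ∈ V', r ^ q - x ≠ π * v) :
    (∀ v ∈ (V1 ⊓ V2 ⊓ V3 : Subring L), IsIntegral V' v) ∧
    (∀ v : L, v ∈ F1 → IsIntegral V' v → v ∈ V1 ∧ v ∈ V2 ∧ v ∈ V3) ∧
    (∀ x ∈ V1, x⁻¹ ∉ V1 → ∃ v ∈ V1, x = π * v) ∧
    (∀ x ∈ V3, x⁻¹ ∉ V3 → ∃ v ∈ V3, x = π * v) ∧
    (∀ x ∈ V2, x⁻¹ ∉ V2 → ∃ v ∈ V2, x = t * v) ∧
    t ^ m / π ∈ V2 ∧
    (∀ W : Subring L, S34C2_Val π F1 W → V' ≤ W → W = V1 ∨ W = V2 ∨ W = V3) ∧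
    (∀ x ∈ V1, ∃ r ∈ V', ∃ v ∈ V1, x = r + π * v) ∧
    (∀ x ∈ V2, ∃ r ∈ V', ∃ v ∈ V2, x = r + t * v) := by
  classical
  letI := S34KEY_alg hF
  obtain ⟨hfd, hfr⟩ := S34KEY_finrank_le hF hdeg
  haveI := hfd
  haveI : CharZero ↥F1' := by
    refine ⟨fun a b hab => ?_⟩
    have := congrArg (fun t : ↥F1' => (t : L)) hab
    simpa using this
  haveI : Algebra.IsSeparable ↥F1' ↥F1 := Algebra.IsAlgebraic.isSeparable_of_perfectField
  haveI := S34KEY_isDVR hV' hsep
  letI := S34KEY_algR hF hV'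
  haveI : IsScalarTower ↥(S34KEY_vs hV') ↥F1' ↥F1 := IsScalarTower.of_algebraMap_eq (fun _ => rfl)
  have hd1 := S34KEY_dom hF hV' hsep h1 hV1
  have hd2 := S34KEY_dom hF hV' hsep h2 hV2
  have hd3 := S34KEY_dom hF hV' hsep h3 hV3
  have hne12 : S34KEY_vs h1 ≠ S34KEY_vs h2 := fun h => h12 (S34KEY_vs_injective h1 h2 h)
  have hne13 : S34KEY_vs h1 ≠ S34KEY_vs h3 := fun h => h13 (S34KEY_vs_injective h1 h3 h)
  have hne23 : S34KEY_vs h2 ≠ S34KEY_vs h3 := fun h => h23 (S34KEY_vs_injective h2 h3 h)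
  have hπirr := S34KEY_pi_irreducible hV' hsep
  have hπ0 : π ≠ 0 := S34KEY_pi_ne_zero hV'
  -- the residue characteristic is `q`
  have hqR : ((q : ℕ) : ↥(S34KEY_vs hV')) ∈ IsLocalRing.maximalIdeal ↥(S34KEY_vs hV') := by
    rw [S34KEY_mem_maximalIdeal hV' hsep]
    obtain ⟨v, hv, hqv⟩ := hqπ
    refine ⟨v, hv, ?_⟩
    rw [← hqv]
    simp
  -- residue degree of `V3`
  have hb : S34V_ResDegGe ↥(S34KEY_vs hV') (S34KEY_vs h3) (q ^ 2) := by
    refine S36K3_resDegGe_of_pow_sq (S34KEY_vs h3) hd3 hq hqR (y := ⟨y, h3.le hy⟩) hy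
      (x := S34KEY_ofV hV' ⟨x, hx⟩) ?_ ?_
    · rw [S34KEY_mem_nonunits]
      exact hyx
    · intro r hr
      rw [S34KEY_mem_maximalIdeal hV' hsep] at hr
      obtain ⟨v, hv, hrv⟩ := hr
      exact hxq _ r.2 v hv hrv
  have ha : S34V_ResDegGe ↥(S34KEY_vs hV') (S34KEY_vs h1) 1 := by
    refine ⟨fun _ => 1, fun _ => (S34KEY_vs h1).one_mem, fun c hc i => ?_⟩
    have : i = 0 := Subsingleton.elim _ _
    subst this
    simp only [Finset.univ_unique, Fin.default_eq_zero, Fin.isValue, mul_one,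
      Finset.sum_singleton] at hc
    exact S34V_mem_maximalIdeal_of_mem_nonunits (S34KEY_vs h1) hd1 hc
  -- the ramification witness
  have hram : S36V3_RamGe ↥(S34KEY_vs hV') (S34KEY_vs h2) (⟨t, h2.le ht⟩ : ↥F1) m := by
    refine ⟨fun h => ht0 (congrArg (fun z : ↥F1 => (z : L)) h),
      (S34KEY_mem_nonunits h2 _).2 (Or.inr htn), S34KEY_pi hV', hπirr, ?_⟩
    show ((algebraMap ↥(S34KEY_vs hV') ↥F1 (S34KEY_pi hV') / (⟨t, h2.le ht⟩ : ↥F1) ^ m : ↥F1) : L)
      ∈ V2
    exact htm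
  obtain ⟨hall, hu1, hu3, hu2, hunit, hres2, -, -, hint, -⟩ :=
    S36V3_three ↥(S34KEY_vs hV') ↥F1' (S34KEY_vs h1) (S34KEY_vs h2) (S34KEY_vs h3)
      hd1 hd2 hd3 hne12 hne13 hne23 hm hfr ha _ hram hb
  refine ⟨?_, ?_, ?_, ?_, ?_, ?_, ?_, ?_, ?_⟩
  · rintro v ⟨⟨hv1, hv2⟩, hv3⟩
    have hvF : v ∈ F1 := h1.le hv1
    exact S34KEY_isIntegral_of hF hV' ⟨v, hvF⟩ ((hint ⟨v, hvF⟩).2 ⟨hv1, hv2, hv3⟩)
  · intro v hvF hv
    exact (hint ⟨v, hvF⟩).1 (S34KEY_isIntegral_to hF hV' ⟨v, hvF⟩ hv)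
  · intro z hz hz'
    obtain ⟨w, hw, hzw⟩ := hu1 _ hπirr ⟨z, h1.le hz⟩
      ((S34KEY_mem_nonunits h1 _).2 (Or.inr hz'))
    exact ⟨(w : L), hw, congrArg (fun t : ↥F1 => (t : L)) hzw⟩
  · intro z hz hz'
    obtain ⟨w, hw, hzw⟩ := hu3 _ hπirr ⟨z, h3.le hz⟩
      ((S34KEY_mem_nonunits h3 _).2 (Or.inr hz'))
    exact ⟨(w : L), hw, congrArg (fun t : ↥F1 => (t : L)) hzw⟩
  · intro z hz hz'
    obtain ⟨w, hw, hzw⟩ := hu2 ⟨z, h2.le hz⟩
      ((S34KEY_mem_nonunits h2 _).2 (Or.inr hz'))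
    exact ⟨(w : L), hw, congrArg (fun t : ↥F1 => (t : L)) hzw⟩
  · exact (hunit _ hπirr).2
  · intro W hW hVW
    have hdW := S34KEY_dom hF hV' hsep hW hVW
    rcases hall (S34KEY_vs hW) hdW with h | h | h
    · exact Or.inl (S34KEY_vs_injective hW h1 h)
    · exact Or.inr (Or.inl (S34KEY_vs_injective hW h2 h))
    · exact Or.inr (Or.inr (S34KEY_vs_injective hW h3 h))
  · intro z hz
    obtain ⟨r, hr⟩ := S36V3_three_residue_oo ↥(S34KEY_vs hV') ↥F1' (S34KEY_vs h1) (S34KEY_vs h2)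
      (S34KEY_vs h3) hd1 hd2 hd3 hne12 hne13 hne23 hfr _ hram hb (x := ⟨z, h1.le hz⟩) hz
    obtain ⟨w, hw, hzw⟩ := hu1 _ hπirr _ hr
    refine ⟨((r : ↥F1') : L), r.2, (w : L), hw, ?_⟩
    have := congrArg (fun t : ↥F1 => (t : L)) hzw
    have h3 : z - ((r : ↥F1') : L) = π * (w : L) := this
    linear_combination h3
  · intro z hz
    obtain ⟨r, hr⟩ := hres2 ⟨z, h2.le hz⟩ hz
    obtain ⟨w, hw, hzw⟩ := hu2 _ hr
    refine ⟨((r : ↥F1') : L), r.2, (w : L), hw, ?_⟩
    have := congrArg (fun t : ↥F1 => (t : L)) hzw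
    have h3 : z - ((r : ↥F1') : L) = t * (w : L) := this
    linear_combination h3

end Final

end Fermat.Agent.S36_helper5_KEY3
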