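import Mathlib
import Fermat.Agent.S34_helper13_KEY
import Fermat.Agent.S36_helper5_EXIST
import Fermat.Agent.S36_helper5_KEY3

/-!
# S36, piece VMID-BRIDGE: the middle valuation ring as a `Subring L` (helper5)

Everything is elementwise, in the `Subring L` vocabulary of `S34KEY_abs` / `S36K3_abs`.

`L` a field of characteristic zero, `F1' ≤ F1` subfields, `[F1 : F1'] = q` prime (a spanning
set of `q` elements and `q` linearly independent elements), `V'` a discrete valuation ring of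
`F1'` with uniformiser `π`, `t ∈ F1`, `t ∉ F1'`, a root of `∑ k ≤ q, p k * X ^ k` with
`p k ∈ V'`, `p q = 1`, `p 0 = π * unit`, `π ∣ p k` for `1 ≤ k ≤ q - 2`, `p (q - 1)` a unit.

`S36BG_vmid` : there is a valuation ring `V2` of `F1` (`S34C2_Val`) containing `V'` in which
`t` is a nonzero non-unit and `π / t ^ (q - 1) ∈ V2`.
-/

set_option autoImplicit false
set_option linter.style.haveILetI false
set_option linter.unusedSectionVars false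
set_option linter.unusedVariables false

open Polynomial
open Fermat.Agent.S34_helper13_VCOUNT Fermat.Agent.S34_helper27_C2Defs
open Fermat.Agent.S34_helper13_KEY Fermat.Agent.S36_helper5_V3COUNT
open Fermat.Agent.S36_helper5_EXIST Fermat.Agent.S36_helper5_KEY3

namespace Fermat.Agent.S36_helper5_BRIDGE

section Poly

variable {R : Type*} [CommRing R] [Nontrivial R]

/-- The monic polynomial `X ^ q + ∑ k < q, r k X ^ k`. -/
noncomputable def S36BG_poly (q : ℕ) (r : ℕ → R) : R[X] :=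
  X ^ q + ∑ k ∈ Finset.range q, C (r k) * X ^ k

theorem S36BG_poly_degree_lt (q : ℕ) (r : ℕ → R) :
    (∑ k ∈ Finset.range q, C (r k) * X ^ k : R[X]).degree < q := by
  classical
  rw [degree_lt_iff_coeff_zero]
  intro m hm
  rw [finsetSum_coeff]
  refine Finset.sum_eq_zero fun k hk => ?_
  have hk' : k < q := Finset.mem_range.1 hk
  rw [coeff_C_mul, coeff_X_pow, if_neg (by omega), mul_zero]

theorem S36BG_poly_monic (q : ℕ) (r : ℕ → R) : (S36BG_poly q r).Monic :=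
  monic_X_pow_add (S36BG_poly_degree_lt q r)

theorem S36BG_poly_natDegree (q : ℕ) (r : ℕ → R) : (S36BG_poly q r).natDegree = q := by
  rw [S36BG_poly, natDegree_add_eq_left_of_degree_lt, natDegree_X_pow]
  rw [degree_X_pow]
  exact S36BG_poly_degree_lt q r

theorem S36BG_poly_coeff (q : ℕ) (r : ℕ → R) {k : ℕ} (hk : k < q) :
    (S36BG_poly q r).coeff k = r k := by
  classical
  rw [S36BG_poly, coeff_add, coeff_X_pow, if_neg hk.ne, zero_add, finsetSum_coeff]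
  simp only [coeff_C_mul, coeff_X_pow]
  rw [Finset.sum_eq_single k]
  · simp
  · intro b _ hb
    rw [if_neg (Ne.symm hb), mul_zero]
  · intro h
    exact absurd (Finset.mem_range.2 hk) h

theorem S36BG_poly_aeval {S : Type*} [CommRing S] [Algebra R S] (q : ℕ) (r : ℕ → R) (t : S) :
    aeval t (S36BG_poly q r) = t ^ q + ∑ k ∈ Finset.range q, algebraMap R S (r k) * t ^ k := by
  rw [S36BG_poly, map_add, map_pow, aeval_X, map_sum]
  congr 1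
  refine Finset.sum_congr rfl fun k _ => ?_
  rw [map_mul, aeval_C, map_pow, aeval_X]

end Poly

section Main

variable {L : Type*} [Field L] {π : L} {F1' F1 : Subfield L} {V' : Subring L}

/-- The subring of `L` underlying a valuation subring of `↥F1`. -/
def S36BG_sub (W : ValuationSubring ↥F1) : Subring L := W.toSubring.map F1.subtype

theorem S36BG_mem_sub (W : ValuationSubring ↥F1) {x : L} (hx : x ∈ F1) :
    x ∈ S36BG_sub W ↔ (⟨x, hx⟩ : ↥F1) ∈ W := by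
  constructor
  · rintro ⟨w, hw, hwx⟩
    have : w = ⟨x, hx⟩ := Subtype.ext hwx
    rw [← this]
    exact hw
  · intro h
    exact ⟨⟨x, hx⟩, h, rfl⟩

theorem S36BG_sub_le (W : ValuationSubring ↥F1) : ((S36BG_sub W : Subring L) : Set L) ⊆ F1 := by
  rintro _ ⟨w, -, rfl⟩
  exact w.2

/-- **VMID-BRIDGE.** -/
theorem S36BG_vmid [CharZero L] (hF : F1' ≤ F1) (hV' : S34C2_Val π F1' V')
    (hsep : ∀ x ∈ F1', x ≠ 0 → ∃ (z : ℤ) (u : L), u ∈ V' ∧ u⁻¹ ∈ V' ∧ x = π ^ z * u)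
    {q : ℕ} (hq : q.Prime)
    (hdeg : ∃ s : Finset L, s.card ≤ q ∧ ∀ x ∈ F1, ∃ c : L → L,
      (∀ y, c y ∈ F1') ∧ x = ∑ y ∈ s, c y * y)
    (hind : ∃ b : Fin q → L, (∀ i, b i ∈ F1) ∧ ∀ c : Fin q → L, (∀ i, c i ∈ F1') →
      ∑ i, c i * b i = 0 → ∀ i, c i = 0)
    {t : L} (ht : t ∈ F1) (htF : t ∉ F1') (p : ℕ → L) (hp : ∀ k, p k ∈ V') (hpq : p q = 1)
    (hroot : ∑ k ∈ Finset.range (q + 1), p k * t ^ k = 0)
    (hmid : ∀ k, 1 ≤ k → k + 2 ≤ q → ∃ e ∈ V', p k = π * e)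
    (h0 : ∃ H ∈ V', H ≠ 0 ∧ H⁻¹ ∈ V' ∧ p 0 = π * H) (hc0 : p (q - 1) ≠ 0)
    (hc : (p (q - 1))⁻¹ ∈ V') :
    ∃ V2 : Subring L, S34C2_Val π F1 V2 ∧ V' ≤ V2 ∧ t ≠ 0 ∧ t ∈ V2 ∧ t⁻¹ ∉ V2 ∧
      π / t ^ (q - 1) ∈ V2 := by
  classical
  letI := S34KEY_alg hF
  obtain ⟨hfd, hfr⟩ := S34KEY_finrank_le hF hdeg
  haveI := hfd
  haveI : CharZero ↥F1' := by
    refine ⟨fun a b hab => ?_⟩
    have := congrArg (fun t : ↥F1' => (t : L)) hab
    simpa using this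
  haveI : Algebra.IsSeparable ↥F1' ↥F1 := Algebra.IsAlgebraic.isSeparable_of_perfectField
  haveI := S34KEY_isDVR hV' hsep
  letI := S34KEY_algR hF hV'
  haveI : IsScalarTower ↥(S34KEY_vs hV') ↥F1' ↥F1 := IsScalarTower.of_algebraMap_eq (fun _ => rfl)
  have hπirr := S34KEY_pi_irreducible hV' hsep
  have hπ0 : π ≠ 0 := S34KEY_pi_ne_zero hV'
  -- the degree is exactly `q`
  have hfin : Module.finrank ↥F1' ↥F1 = q := by
    refine le_antisymm hfr ?_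
    obtain ⟨b, hb, hli⟩ := hind
    have hlin : LinearIndependent ↥F1' (fun i : Fin q => (⟨b i, hb i⟩ : ↥F1)) := by
      rw [Fintype.linearIndependent_iff]
      intro g hg i
      have h1 := hli (fun i => ((g i : ↥F1') : L)) (fun i => (g i).2) (by
        have := congrArg (fun z : ↥F1 => (z : L)) hg
        simp only [AddSubmonoidClass.coe_finsetSum, ZeroMemClass.coe_zero] at this
        exact this) i
      exact Subtype.ext h1
    have := hlin.fintype_card_le_finrank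
    simpa using this
  -- the polynomial
  let r : ℕ → ↥(S34KEY_vs hV') := fun k => S34KEY_ofV hV' ⟨p k, hp k⟩
  have hr : ∀ k, ((r k : ↥F1') : L) = p k := fun _ => rfl
  set P : (↥(S34KEY_vs hV'))[X] := S36BG_poly q r with hPdef
  have hP : P.Monic := S36BG_poly_monic q r
  have hPd : P.natDegree = q := S36BG_poly_natDegree q r
  have hq2 : 2 ≤ q := hq.two_le
  have hPr : aeval (⟨t, ht⟩ : ↥F1) P = 0 := by
    rw [hPdef, S36BG_poly_aeval]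
    apply Subtype.ext
    rw [Finset.sum_range_succ, hpq, one_mul] at hroot
    have h1 : ((⟨t, ht⟩ ^ q + ∑ k ∈ Finset.range q,
        algebraMap ↥(S34KEY_vs hV') ↥F1 (r k) * (⟨t, ht⟩ : ↥F1) ^ k : ↥F1) : L)
        = t ^ q + ∑ k ∈ Finset.range q, p k * t ^ k := by
      simp only [AddMemClass.coe_add, SubmonoidClass.coe_pow, AddSubmonoidClass.coe_finsetSum,
        MulMemClass.coe_mul]
      rfl
    rw [h1]
    show t ^ q + ∑ k ∈ Finset.range q, p k * t ^ k = 0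
    linear_combination hroot
  obtain ⟨H, hH, hH0, hHinv, hpH⟩ := h0
  have hHu : IsUnit (S34KEY_ofV hV' ⟨H, hH⟩) := (S34KEY_isUnit_iff hV' _).2 ⟨hH0, hHinv⟩
  have hcoeff0 : P.coeff 0 = S34KEY_pi hV' * S34KEY_ofV hV' ⟨H, hH⟩ := by
    rw [hPdef, S36BG_poly_coeff q r (by omega)]
    apply Subtype.ext
    apply Subtype.ext
    exact hpH
  have hmid' : ∀ k, 1 ≤ k → k + 2 ≤ q → S34KEY_pi hV' ∣ P.coeff k := by
    intro k hk1 hk2
    obtain ⟨e, he, hpe⟩ := hmid k hk1 hk2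
    refine ⟨S34KEY_ofV hV' ⟨e, he⟩, ?_⟩
    rw [hPdef, S36BG_poly_coeff q r (by omega)]
    apply Subtype.ext
    apply Subtype.ext
    exact hpe
  have hcu : IsUnit (P.coeff (q - 1)) := by
    rw [hPdef, S36BG_poly_coeff q r (by omega)]
    exact (S34KEY_isUnit_iff hV' _).2 ⟨hc0, hc⟩
  have htF' : (⟨t, ht⟩ : ↥F1) ∉ (algebraMap ↥F1' ↥F1).range := by
    rintro ⟨x, hx⟩
    apply htF
    have := congrArg (fun z : ↥F1 => (z : L)) hx
    have h2 : (x : L) = t := this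
    rw [← h2]
    exact x.2
  obtain ⟨W, hW, hram⟩ := S36EX_main ↥(S34KEY_vs hV') ↥F1' hq hfin htF' hP hPd hPr hπirr hHu
    hcoeff0 hmid' hcu
  obtain ⟨ht0, htn, ϖ, hϖ, hdiv⟩ := hram
  have ht0' : t ≠ 0 := fun h => ht0 (Subtype.ext h)
  have hπW : (⟨π, hF (hV'.le hV'.π_mem)⟩ : ↥F1) ∈ W.nonunits :=
    hW.2 (S34KEY_pi hV') (by
      rw [IsLocalRing.mem_maximalIdeal, mem_nonunits_iff]
      exact hπirr.not_isUnit)
  refine ⟨S36BG_sub W, ⟨S36BG_sub_le W, ?_, ?_, ?_⟩, ?_, ht0', ?_, ?_, ?_⟩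
  · intro x hx
    rcases W.mem_or_inv_mem ⟨x, hx⟩ with h | h
    · exact Or.inl ((S36BG_mem_sub W hx).2 h)
    · exact Or.inr ((S36BG_mem_sub W (F1.inv_mem hx)).2 h)
  · exact (S36BG_mem_sub W (hF (hV'.le hV'.π_mem))).2 (ValuationSubring.nonunits_subset hπW)
  · intro h
    have h1 := (S36BG_mem_sub W (F1.inv_mem (hF (hV'.le hV'.π_mem)))).1 h
    rw [ValuationSubring.mem_nonunits_iff_or] at hπW
    rcases hπW with h2 | h2
    · exact hπ0 (congrArg (fun z : ↥F1 => (z : L)) h2)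
    · exact h2 h1
  · intro x hx
    exact (S36BG_mem_sub W (hF (hV'.le hx))).2 (hW.1 (S34KEY_ofV hV' ⟨x, hx⟩))
  · exact (S36BG_mem_sub W ht).2 (ValuationSubring.nonunits_subset htn)
  · intro h
    have h1 := (S36BG_mem_sub W (F1.inv_mem ht)).1 h
    rw [ValuationSubring.mem_nonunits_iff_or] at htn
    rcases htn with h2 | h2
    · exact ht0 h2
    · exact h2 h1
  · -- `ϖ` is associated to `π`
    obtain ⟨u, hu⟩ := IsDiscreteValuationRing.associated_of_irreducible _ hϖ hπirr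
    have hmem : π / t ^ (q - 1) ∈ F1 :=
      F1.div_mem (hF (hV'.le hV'.π_mem)) (F1.pow_mem ht _)
    rw [S36BG_mem_sub W hmem]
    have h1 : (⟨π / t ^ (q - 1), hmem⟩ : ↥F1)
        = algebraMap ↥(S34KEY_vs hV') ↥F1 (u : ↥(S34KEY_vs hV'))
          * (algebraMap ↥(S34KEY_vs hV') ↥F1 ϖ / (⟨t, ht⟩ : ↥F1) ^ (q - 1)) := by
      have h3 : algebraMap ↥(S34KEY_vs hV') ↥F1 ϖ * algebraMap ↥(S34KEY_vs hV') ↥F1 u
          = (⟨π, hF (hV'.le hV'.π_mem)⟩ : ↥F1) := by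
        rw [← map_mul, hu]
        rfl
      have h4 : (⟨π / t ^ (q - 1), hmem⟩ : ↥F1)
          = (⟨π, hF (hV'.le hV'.π_mem)⟩ : ↥F1) / (⟨t, ht⟩ : ↥F1) ^ (q - 1) := by
        apply Subtype.ext
        simp only [Subfield.coe_div, SubmonoidClass.coe_pow]
      rw [h4, ← h3]
      ring
    rw [h1]
    exact W.mul_mem _ _ (hW.1 _) hdiv

/-- **VMID-BRIDGE + KEY3.**  Three levels `F0 ≤ F1' ≤ F1` (levels `M'`, `q M'`, `q² M'`), the
Gauss rings `V0`, `V'`, `V1` and the third valuation ring `V3` of `F1`; the middle valuation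
ring `V2` is produced by `S36BG_vmid` and the nine conclusions of `S36K3_abs` hold for
`(V1, V2, V3)` over `V0` with `m = q - 1`. -/
theorem S36BG_main [CharZero L] {F0 : Subfield L} {V0 V1 V3 : Subring L}
    (hF0 : F0 ≤ F1') (hF : F1' ≤ F1)
    (hV0 : S34C2_Val π F0 V0)
    (hsep0 : ∀ x ∈ F0, x ≠ 0 → ∃ (z : ℤ) (u : L), u ∈ V0 ∧ u⁻¹ ∈ V0 ∧ x = π ^ z * u)
    (hV' : S34C2_Val π F1' V')
    (hsep : ∀ x ∈ F1', x ≠ 0 → ∃ (z : ℤ) (u : L), u ∈ V' ∧ u⁻¹ ∈ V' ∧ x = π ^ z * u)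
    (hV0' : V0 ≤ V')
    (h1 : S34C2_Val π F1 V1) (h3 : S34C2_Val π F1 V3) (hV1 : V0 ≤ V1) (hV3 : V0 ≤ V3)
    (h13 : V1 ≠ V3) {q : ℕ} (hq : q.Prime)
    (hdeg : ∃ s : Finset L, s.card ≤ q ∧ ∀ x ∈ F1, ∃ c : L → L,
      (∀ y, c y ∈ F1') ∧ x = ∑ y ∈ s, c y * y)
    (hind : ∃ b : Fin q → L, (∀ i, b i ∈ F1) ∧ ∀ c : Fin q → L, (∀ i, c i ∈ F1') →
      ∑ i, c i * b i = 0 → ∀ i, c i = 0)
    (hdeg0 : ∃ s : Finset L, s.card ≤ 1 + (q - 1) + q ^ 2 ∧ ∀ x ∈ F1, ∃ c : L → L,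
      (∀ y, c y ∈ F0) ∧ x = ∑ y ∈ s, c y * y)
    {t : L} (ht : t ∈ F1) (htF : t ∉ F1') (ht1 : t⁻¹ ∈ V1) (ht3 : t⁻¹ ∈ V3)
    (p : ℕ → L) (hp : ∀ k, p k ∈ V') (hpq : p q = 1)
    (hroot : ∑ k ∈ Finset.range (q + 1), p k * t ^ k = 0)
    (hmid : ∀ k, 1 ≤ k → k + 2 ≤ q → ∃ e ∈ V', p k = π * e)
    (h0 : ∃ H ∈ V', H ≠ 0 ∧ H⁻¹ ∈ V' ∧ p 0 = π * H) (hc0 : p (q - 1) ≠ 0)
    (hc : (p (q - 1))⁻¹ ∈ V')
    (hqπ : ∃ v ∈ V0, (q : L) = π * v)
    {y x : L} (hy : y ∈ V3) (hx : x ∈ V0)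
    (hyx : y ^ (q ^ 2) - x = 0 ∨ (y ^ (q ^ 2) - x)⁻¹ ∉ V3)
    (hxq : ∀ r ∈ V0, ∀ v ∈ V0, r ^ q - x ≠ π * v) :
    ∃ V2 : Subring L, S34C2_Val π F1 V2 ∧ V' ≤ V2 ∧ V1 ≠ V2 ∧ V2 ≠ V3 ∧
      t ≠ 0 ∧ t ∈ V2 ∧ t⁻¹ ∉ V2 ∧ π / t ^ (q - 1) ∈ V2 ∧
      (∀ v ∈ (V1 ⊓ V2 ⊓ V3 : Subring L), IsIntegral V0 v) ∧
      (∀ v : L, v ∈ F1 → IsIntegral V0 v → v ∈ V1 ∧ v ∈ V2 ∧ v ∈ V3) ∧
      (∀ x ∈ V1, x⁻¹ ∉ V1 → ∃ v ∈ V1, x = π * v) ∧
      (∀ x ∈ V3, x⁻¹ ∉ V3 → ∃ v ∈ V3, x = π * v) ∧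
      (∀ x ∈ V2, x⁻¹ ∉ V2 → ∃ v ∈ V2, x = t * v) ∧
      t ^ (q - 1) / π ∈ V2 ∧
      (∀ W : Subring L, S34C2_Val π F1 W → V0 ≤ W → W = V1 ∨ W = V2 ∨ W = V3) ∧
      (∀ x ∈ V1, ∃ r ∈ V0, ∃ v ∈ V1, x = r + π * v) ∧
      (∀ x ∈ V2, ∃ r ∈ V0, ∃ v ∈ V2, x = r + t * v) := by
  obtain ⟨V2, h2, hV2, ht0, htV2, htn, htm⟩ := S36BG_vmid hF hV' hsep hq hdeg hind ht htF p hp
    hpq hroot hmid h0 hc0 hc
  have h12 : V1 ≠ V2 := by
    rintro rfl
    exact htn ht1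
  have h23 : V2 ≠ V3 := by
    rintro rfl
    exact htn ht3
  have hm : 1 ≤ q - 1 := by have := hq.two_le; omega
  have key := S36K3_abs (hF0.trans hF) hV0 hsep0 h1 h2 h3 hV1 (hV0'.trans hV2) hV3 h12 h13 h23
    hq hm hdeg0 ht0 htV2 htn htm hqπ hy hx hyx hxq
  exact ⟨V2, h2, hV2, h12, h23, ht0, htV2, htn, htm, key⟩

end Main

end Fermat.Agent.S36_helper5_BRIDGE
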