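import Fermat.Agent.S36_helper5_VKDefs
import Fermat.Agent.S36_helper5_BRIDGE
import Fermat.Agent.S36_helper4_DEG
import Fermat.Agent.S34_helper13_KEYK
import Fermat.Agent.S36_helper1_VMID

/-!
# S36, the three valuation rings at level `M' q q` for the concrete carriers (helper5)

`S36VK_main` : for the carriers of `S36_helper5_VKDefs` (`V1 = S18K_V A K1 (M' * q * q)`,
`V2 = S36VK_Vmid A K1 q M'`, `V3 = S36VK_V0 A K1 q M' hq hqM`, `t = S36VK_t K1 q`), from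
`q = π * unit` in `O1` and the modular input on `t` (the Eisenstein-type polynomial of `t` over
the Gauss ring of level `M' * q`, `j(Q^(q q)) ∉ F1(M' * q)`, `t` a Gauss unit): `V2` is a valuation
ring of `F1` over the Gauss ring of level `M' * q` with uniformiser `t`, `π = unit * t ^ (q - 1)`
there, the three rings are pairwise distinct, they are the only valuation rings of `F1` over the
Gauss ring of level `M'`, their intersection is its integral closure, and the residue fields of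
`V1` and `V2` are that of the Gauss ring of level `M'`.
-/

set_option autoImplicit false
set_option linter.unusedSectionVars false
set_option linter.unusedVariables false
set_option linter.style.haveILetI false

noncomputable section

open ModularCurve Fermat.Agent.S24
open Fermat.Agent.S18_helper13_GAUSS Fermat.Agent.S18_helper9_CDefs
open Fermat.Agent.S18_helper25_COREDefs Fermat.Agent.S34_helper12_CDefs
open Fermat.Agent.S34_helper27_C2Defs Fermat.Agent.S34_helper20_WQ Fermat.Agent.S34_helper20_V0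
open Fermat.Agent.S34_helper27_V3K Fermat.Agent.S34_helper20_V0K Fermat.Agent.S36_helper20_WQQ
open Fermat.Agent.S36_helper5_VKDefs Fermat.Agent.S36_helper5_BRIDGE
open Fermat.Agent.S34_helper13_KEY Fermat.Agent.S34_helper13_KEYK Fermat.Agent.S34_helper13_KEYD
open Fermat.Agent.S34_helper15_DEG Fermat.Agent.S36_helper1_VMID

namespace Fermat.Agent.S36_helper5_VMIDK

local notation "Qb" => AlgebraicClosure ℚ

/-! ### The degree input, lower bound, elementwise -/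

section Gen

variable {L : Type*} [Field L]

/-- from a finite extension `E'/E` of degree `n`, realised inside `L`: `n` elements of `ι'(E')`
linearly independent over `ι(E)`, elementwise. -/
theorem S36VK_hind_gen {E E' : Type*} [Field E] [Field E'] [Algebra E E']
    [FiniteDimensional E E'] (ι : E →+* L) (ι' : E' →+* L)
    (hcomp : ∀ e : E, ι' (algebraMap E E' e) = ι e) (F1' F1 : Subfield L)
    (hι' : ∀ e' : E', ι' e' ∈ F1) (hι : ∀ x ∈ F1', ∃ e : E, ι e = x) {n : ℕ}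
    (hn : Module.finrank E E' = n) :
    ∃ b : Fin n → L, (∀ i, b i ∈ F1) ∧ ∀ c : Fin n → L, (∀ i, c i ∈ F1') →
      ∑ i, c i * b i = 0 → ∀ i, c i = 0 := by
  classical
  subst hn
  set bb := Module.finBasis E E' with hbb
  refine ⟨fun i => ι' (bb i), fun i => hι' _, ?_⟩
  intro c hc hsum i
  choose e he using fun i => hι (c i) (hc i)
  have h1 : ι' (∑ i, e i • bb i) = 0 := by
    rw [map_sum, ← hsum]
    refine Finset.sum_congr rfl fun i _ => ?_
    rw [Algebra.smul_def, map_mul, hcomp, he]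
  have h2 : ∑ i, e i • bb i = 0 := ι'.injective (by rw [h1, map_zero])
  have h3 := (Fintype.linearIndependent_iff.1 bb.linearIndependent) e h2 i
  rw [← he i, h3, map_zero]

end Gen

/-! ### The Frobenius congruence for `q ^ 2` -/

section Gauss

variable {O K κ : Type*} [CommRing O] [IsDomain O] [Field K] [Field κ] (D : GaussData O K κ)

theorem S36VK_pow_sq (κ : Type*) [Field κ] (q : ℕ) [NeZero q] [NeZero (q ^ 2)] [ExpChar κ q] :
    (jqModC κ) ^ (q ^ 2) = qExpand κ (q ^ 2) (jqModC κ) := by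
  haveI : NeZero (q * q) := ⟨by rw [← pow_two]; exact NeZero.ne _⟩
  have e : (jqModC κ) ^ (q ^ 2) = ((jqModC κ) ^ q) ^ q := by rw [← pow_mul, pow_two]
  rw [e, Fermat.Agent.S37K2.S37K2_pow_char κ q (jqModC κ), coeffMap_jqModC,
    Fermat.Agent.S37K2.S37K2_pow_char κ q (qExpand κ q (jqModC κ)), coeffMap_qExpand,
    coeffMap_jqModC, qExpand_qExpand]
  exact S34WQ_qExpand_congr (pow_two q).symm _

/-- `j(Q^(q²)) ≡ j^(q²)` -/
theorem S36VK_frob_red (q : ℕ) [NeZero q] [NeZero (q ^ 2)] [ExpChar κ q] :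
    D.redFun (qExpand K (q ^ 2) (jqModC K) - (jqModC K) ^ (q ^ 2)) = 0 := by
  have hj := D.jqModC_mem_Vring
  have hjq := S34V0K_qExpand_mem D (q ^ 2) hj
  rw [D.redFun_sub hjq.1 (D.Vring.pow_mem hj _), hjq.2, D.redFun_pow hj, D.redFun_jqModC,
    S36VK_pow_sq κ q, sub_self]

/-- `j(Q^(q²))^(q²) - j` has nonzero reduction -/
theorem S36VK_unit_red (q : ℕ) [hqf : Fact q.Prime] [NeZero (q ^ 2)] [CharP κ q] :
    D.redFun ((qExpand K (q ^ 2) (jqModC K)) ^ (q ^ 2) - jqModC K) ≠ 0 := by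
  have hj := D.jqModC_mem_Vring
  have hjq := S34V0K_qExpand_mem D (q ^ 2) hj
  rw [D.redFun_sub (D.Vring.pow_mem hjq.1 _) hj, D.redFun_pow hjq.1, hjq.2, D.redFun_jqModC]
  intro h0
  have h1 := sub_eq_zero.mp h0
  have e : ∀ x : LaurentSeries κ, x ^ (q ^ 2) = (x ^ q) ^ q := fun x => by
    rw [← pow_mul, pow_two]
  rw [e] at h1
  exact Fermat.Agent.S34_helper24_QPOWC.S34QP_jq_not_pow κ q _ h1

/-- constants of `O` are in the Gauss ring -/
theorem S36VK_C_mem_Vring (a : O) : HahnSeries.C (D.inc a) ∈ D.Vring := by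
  have h := D.incS_mem_Vring (HahnSeries.C a)
  have e : D.incS (HahnSeries.C a) = HahnSeries.C (D.inc a) := by
    show coeffMap D.inc (HahnSeries.C a) = _
    rw [HahnSeries.C_apply, coeffMap_single, HahnSeries.C_apply]
  rwa [e] at h

end Gauss

/-! ### Non-vanishing of the two extreme coefficients (abstract) -/

section NonVanish

variable {L : Type*} [Field L] {π : L} {F1' F1 : Subfield L} {V' V1 : Subring L}

/-- if `t` is a unit of `V1`, the coefficient of `T ^ (q - 1)` does not vanish -/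
theorem S36VK_pq1_ne (h1 : S34C2_Val π F1 V1) (hV1 : V' ≤ V1) {q : ℕ} (hq : 2 ≤ q) {t : L}
    (ht1 : t ∈ V1) (ht1' : t⁻¹ ∈ V1) (ht0 : t ≠ 0) (p : ℕ → L) (hpq : p q = 1)
    (hroot : ∑ k ∈ Finset.range (q + 1), p k * t ^ k = 0)
    (hmid : ∀ k, 1 ≤ k → k + 2 ≤ q → ∃ e ∈ V', p k = π * e) (h0 : ∃ H ∈ V', p 0 = π * H) :
    p (q - 1) ≠ 0 := by
  classical
  intro hz
  obtain ⟨n, rfl⟩ : ∃ n, q = n + 2 := ⟨q - 2, by omega⟩
  have hn1 : n + 2 - 1 = n + 1 := by omega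
  rw [hn1] at hz
  obtain ⟨H, hH, hpH⟩ := h0
  choose! e he using hmid
  rw [Finset.sum_range_succ, Finset.sum_range_succ, Finset.sum_range_succ', hpq, hz, hpH] at hroot
  set w : L := -(H + ∑ k ∈ Finset.range n, e (k + 1) * t ^ (k + 1)) with hw
  have hsum : ∑ k ∈ Finset.range n, p (k + 1) * t ^ (k + 1)
      = π * ∑ k ∈ Finset.range n, e (k + 1) * t ^ (k + 1) := by
    rw [Finset.mul_sum]
    refine Finset.sum_congr rfl fun k hk => ?_
    have hk' : k < n := Finset.mem_range.1 hk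
    rw [(he (k + 1) (by omega) (by omega)).2]
    ring
  rw [hsum] at hroot
  have hwV : w ∈ V1 := by
    refine V1.neg_mem (V1.add_mem (hV1 hH) (V1.sum_mem fun k hk => ?_))
    have hk' : k < n := Finset.mem_range.1 hk
    exact V1.mul_mem (hV1 (he (k + 1) (by omega) (by omega)).1) (V1.pow_mem ht1 _)
  have hπw : π * w = t ^ (n + 2) := by
    rw [hw]
    linear_combination (-1 : L) * hroot
  have hπ0 : π ≠ 0 := h1.π_ne_zero
  apply h1.π_nonunit
  have ht2 : t ^ (n + 2) ≠ 0 := pow_ne_zero _ ht0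
  have e2 : π⁻¹ = w * (t⁻¹) ^ (n + 2) := by
    rw [inv_pow]
    field_simp
    exact hπw.symm
  rw [e2]
  exact V1.mul_mem hwV (V1.pow_mem ht1' _)

open Polynomial in
/-- the constant coefficient of the minimal polynomial of `t` does not vanish -/
theorem S36VK_p0_ne (hF : F1' ≤ F1) {q : ℕ} (hq : q.Prime)
    (hdeg : ∃ s : Finset L, s.card ≤ q ∧ ∀ x ∈ F1, ∃ c : L → L,
      (∀ y, c y ∈ F1') ∧ x = ∑ y ∈ s, c y * y)
    (hind : ∃ b : Fin q → L, (∀ i, b i ∈ F1) ∧ ∀ c : Fin q → L, (∀ i, c i ∈ F1') →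
      ∑ i, c i * b i = 0 → ∀ i, c i = 0)
    {t : L} (ht : t ∈ F1) (htF : t ∉ F1') (p : ℕ → L) (hp : ∀ k, p k ∈ F1') (hpq : p q = 1)
    (hroot : ∑ k ∈ Finset.range (q + 1), p k * t ^ k = 0) : p 0 ≠ 0 := by
  classical
  intro hz
  letI := S34KEY_alg hF
  obtain ⟨hfd, hfr⟩ := S34KEY_finrank_le hF hdeg
  haveI := hfd
  have hfin : Module.finrank ↥F1' ↥F1 = q := by
    refine le_antisymm hfr ?_
    obtain ⟨b, hb, hli⟩ := hind
    have hlin : LinearIndependent ↥F1' (fun i : Fin q => (⟨b i, hb i⟩ : ↥F1)) := by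
      rw [Fintype.linearIndependent_iff]
      intro g hg i
      have h1 := hli (fun i => ((g i : ↥F1') : L)) (fun i => (g i).2) (by
        have := congrArg (fun z : ↥F1 => (z : L)) hg
        simp only [AddSubmonoidClass.coe_finsetSum, ZeroMemClass.coe_zero] at this
        exact this) i
      exact Subtype.ext h1
    have := hlin.fintype_card_le_finrank
    simpa using this
  have ht0 : t ≠ 0 := by
    rintro rfl
    exact htF F1'.zero_mem
  have htF' : (⟨t, ht⟩ : ↥F1) ∉ (algebraMap ↥F1' ↥F1).range := by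
    rintro ⟨x, hx⟩
    apply htF
    have := congrArg (fun z : ↥F1 => (z : L)) hx
    have h2 : (x : L) = t := this
    rw [← h2]
    exact x.2
  have hint : IsIntegral ↥F1' (⟨t, ht⟩ : ↥F1) := Algebra.IsIntegral.isIntegral _
  have h1 : Module.finrank ↥F1' (IntermediateField.adjoin ↥F1' {(⟨t, ht⟩ : ↥F1)})
      = (minpoly ↥F1' (⟨t, ht⟩ : ↥F1)).natDegree := IntermediateField.adjoin.finrank hint
  have h2 : Module.finrank ↥F1' (IntermediateField.adjoin ↥F1' {(⟨t, ht⟩ : ↥F1)}) ∣ q := by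
    rw [← hfin, ← Module.finrank_mul_finrank ↥F1'
      (IntermediateField.adjoin ↥F1' {(⟨t, ht⟩ : ↥F1)}) ↥F1]
    exact dvd_mul_right _ _
  have h3 : (minpoly ↥F1' (⟨t, ht⟩ : ↥F1)).natDegree = q := by
    rw [h1] at h2
    rcases (Nat.dvd_prime hq).1 h2 with h | h
    · exact absurd (minpoly.natDegree_eq_one_iff.1 h) htF'
    · exact h
  obtain ⟨m, rfl⟩ : ∃ m, q = m + 1 := ⟨q - 1, by have := hq.two_le; omega⟩
  -- the polynomial of degree `m`
  let r : ℕ → ↥F1' := fun k => ⟨p (k + 1), hp (k + 1)⟩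
  have hS : aeval (⟨t, ht⟩ : ↥F1) (S36BG_poly m r) = 0 := by
    rw [S36BG_poly_aeval]
    apply Subtype.ext
    have h4 : ((⟨t, ht⟩ ^ m + ∑ k ∈ Finset.range m,
        algebraMap ↥F1' ↥F1 (r k) * (⟨t, ht⟩ : ↥F1) ^ k : ↥F1) : L)
        = t ^ m + ∑ k ∈ Finset.range m, p (k + 1) * t ^ k := by
      simp only [AddMemClass.coe_add, SubmonoidClass.coe_pow, AddSubmonoidClass.coe_finsetSum,
        MulMemClass.coe_mul]
      rfl
    rw [h4]
    show t ^ m + ∑ k ∈ Finset.range m, p (k + 1) * t ^ k = 0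
    rw [Finset.sum_range_succ', Finset.sum_range_succ, hpq, hz] at hroot
    have h5 : t * (t ^ m + ∑ k ∈ Finset.range m, p (k + 1) * t ^ k) = 0 := by
      rw [mul_add, Finset.mul_sum]
      have h6 : ∑ k ∈ Finset.range m, t * (p (k + 1) * t ^ k)
          = ∑ k ∈ Finset.range m, p (k + 1) * t ^ (k + 1) :=
        Finset.sum_congr rfl fun k _ => by ring
      rw [h6]
      linear_combination hroot
    rcases mul_eq_zero.1 h5 with h | h
    · exact absurd h ht0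
    · exact h
  have h7 := minpoly.min ↥F1' (⟨t, ht⟩ : ↥F1) (S36BG_poly_monic m r) hS
  have h8 := Polynomial.natDegree_le_natDegree h7
  rw [h3, S36BG_poly_natDegree] at h8
  omega

end NonVanish

/-! ### The concrete carriers -/

section Concrete

variable (A : ValuationSubring (AlgebraicClosure ℚ))
  (K1 : IntermediateField ℚ (AlgebraicClosure ℚ)) [IsDiscreteValuationRing (S18K_O1 A K1)]
  (q M' : ℕ) [NeZero M'] [NeZero (q * q)] [NeZero (q ^ 2)] [NeZero (M' * q * q)]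
  (hq : q.Prime) (hqM : ¬ q ∣ M')

/-- `j(Q^(q q)) = j(Q^(q²))` -/
theorem S36VK_jqq_eq :
    qExpand K1 (q * q) (jqModC K1) = qExpand K1 (q ^ 2) (jqModC K1) :=
  S34WQ_qExpand_congr (pow_two q).symm _

theorem S36VK_t_eq : S36VK_t K1 q = qExpand K1 (q ^ 2) (jqModC K1) - jqModC K1 := by
  rw [S36VK_t, S36VK_jqq_eq]

include hq hqM

/-- `w j = j(Q^(q²))` -/
theorem S36VK_wL_j :
    S36WQ_wL (S34V0K_emb K1) (q ^ 2) M' (M' * q * q) (S36WQ_cop hq hqM) (S36VK_level q M')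
      (jqModC K1) = qExpand K1 (q ^ 2) (jqModC K1) :=
  S36WQ_wL_level (S34V0K_emb K1) (q ^ 2) M' (M' * q * q) (S36WQ_cop hq hqM) (S36VK_level q M')
    (jqModC_mem_full K1 M')

/-- `j(Q^(q²)) ∈ F1` -/
theorem S36VK_jqq_mem_F :
    qExpand K1 (q ^ 2) (jqModC K1) ∈ modularFunctionFieldFullC K1 (M' * q * q) := by
  rw [← S36VK_wL_j K1 q M' hq hqM]
  exact S36WQ_wL_mem (S34V0K_emb K1) (q ^ 2) M' (M' * q * q) (S36WQ_cop hq hqM)
    (S36VK_level q M') _

/-- `w (j(Q^(q²))) = j` -/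
theorem S36VK_wL_jqq :
    S36WQ_wL (S34V0K_emb K1) (q ^ 2) M' (M' * q * q) (S36WQ_cop hq hqM) (S36VK_level q M')
      (qExpand K1 (q ^ 2) (jqModC K1)) = jqModC K1 := by
  rw [← S36VK_wL_j K1 q M' hq hqM]
  exact S36WQ_wL_wL (S34V0K_emb K1) (q ^ 2) M' (M' * q * q) (S36WQ_cop hq hqM)
    (S36VK_level q M') (jqModC_mem_full K1 (M' * q * q))

/-- `t ∈ F1` -/
theorem S36VK_t_mem_F : S36VK_t K1 q ∈ modularFunctionFieldFullC K1 (M' * q * q) := by
  rw [S36VK_t_eq]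
  exact sub_mem (S36VK_jqq_mem_F K1 q M' hq hqM) (jqModC_mem_full K1 (M' * q * q))

/-- `w t = - t` -/
theorem S36VK_wL_t :
    S36WQ_wL (S34V0K_emb K1) (q ^ 2) M' (M' * q * q) (S36WQ_cop hq hqM) (S36VK_level q M')
      (S36VK_t K1 q) = - S36VK_t K1 q := by
  rw [S36VK_t_eq, S36VK_wL_sub (S34V0K_emb K1) (q ^ 2) M' (M' * q * q) (S36WQ_cop hq hqM)
    (S36VK_level q M') (S36VK_jqq_mem_F K1 q M' hq hqM) (jqModC_mem_full K1 (M' * q * q)),
    S36VK_wL_jqq K1 q M' hq hqM, S36VK_wL_j K1 q M' hq hqM]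
  ring

/-- `j(Q^(q²)) ∈ V_0` -/
theorem S36VK_jqq_mem_V0 :
    qExpand K1 (q ^ 2) (jqModC K1) ∈ S36VK_V0 A K1 q M' hq hqM := by
  refine ⟨S36VK_jqq_mem_F K1 q M' hq hqM, ?_⟩
  rw [S36VK_wL_jqq K1 q M' hq hqM]
  exact S34V0K_j_mem_V1 A K1 (M' * q * q)

/-- **Frobenius congruence on `V_∞`**: `j(Q^(q²)) - j^(q²) ∈ π V1` -/
theorem S36VK_frob1 (hA : A.LiesOverPrime q) :
    ∃ v ∈ S18K_V A K1 (M' * q * q),
      qExpand K1 (q ^ 2) (jqModC K1) - jqModC K1 ^ (q ^ 2) = S18K_π A K1 * v := by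
  haveI : NeZero q := ⟨hq.ne_zero⟩
  haveI : ExpChar (IsLocalRing.ResidueField A) q := Fermat.Agent.S37K2.S37K2_expChar A q hq hA
  have hj := (S18K_D A K1).jqModC_mem_Vring
  have hjq := (S34V0K_qExpand_mem (S18K_D A K1) (q ^ 2) hj).1
  obtain ⟨y, hy, hxy⟩ := (S18K_D A K1).exists_eq_mul_of_redFun_eq_zero
    (sub_mem hjq ((S18K_D A K1).Vring.pow_mem hj _)) (S36VK_frob_red (S18K_D A K1) q)
  refine ⟨y, S34V0K_div_mem A K1 (M' * q * q) ?_ hy hxy, hxy⟩
  exact sub_mem (S36VK_jqq_mem_F K1 q M' hq hqM) (pow_mem (jqModC_mem_full K1 (M' * q * q)) _)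

/-- **Frobenius congruence on `V_0`**: `j(Q^(q²))^(q²) - j ∈ π V_0` -/
theorem S36VK_frob0 (hA : A.LiesOverPrime q) :
    ∃ v ∈ S36VK_V0 A K1 q M' hq hqM,
      qExpand K1 (q ^ 2) (jqModC K1) ^ (q ^ 2) - jqModC K1 = S18K_π A K1 * v := by
  obtain ⟨v, hv, h⟩ := S36VK_frob1 A K1 q M' hq hqM hA
  have hjF := jqModC_mem_full K1 (M' * q * q)
  have hjqF := S36VK_jqq_mem_F K1 q M' hq hqM
  have hcF : S18K_π A K1 ∈ modularFunctionFieldFullC K1 (M' * q * q) := S34V0_C_mem _ _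
  have hvF : v ∈ modularFunctionFieldFullC K1 (M' * q * q) := hv.2
  refine ⟨- S36WQ_wL (S34V0K_emb K1) (q ^ 2) M' (M' * q * q) (S36WQ_cop hq hqM)
    (S36VK_level q M') v, neg_mem (S36VK_wL_mem_image (S34V0K_emb K1) (q ^ 2) M' (M' * q * q)
      (S36WQ_cop hq hqM) (S36VK_level q M') hvF hv), ?_⟩
  have h2 := congrArg (S36WQ_wL (S34V0K_emb K1) (q ^ 2) M' (M' * q * q) (S36WQ_cop hq hqM)
    (S36VK_level q M')) h
  rw [S36VK_wL_sub (S34V0K_emb K1) (q ^ 2) M' (M' * q * q) (S36WQ_cop hq hqM)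
      (S36VK_level q M') hjqF (pow_mem hjF _),
    S36VK_wL_pow (S34V0K_emb K1) (q ^ 2) M' (M' * q * q) (S36WQ_cop hq hqM)
      (S36VK_level q M') hjF,
    S36VK_wL_jqq K1 q M' hq hqM, S36VK_wL_j K1 q M' hq hqM,
    S36WQ_wL_mul (S34V0K_emb K1) (q ^ 2) M' (M' * q * q) (S36WQ_cop hq hqM)
      (S36VK_level q M') hcF hvF] at h2
  have h3 : S36WQ_wL (S34V0K_emb K1) (q ^ 2) M' (M' * q * q) (S36WQ_cop hq hqM)
      (S36VK_level q M') (S18K_π A K1) = S18K_π A K1 :=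
    S36WQ_wL_C (S34V0K_emb K1) (q ^ 2) M' (M' * q * q) (S36WQ_cop hq hqM) (S36VK_level q M') _
  rw [h3] at h2
  linear_combination (-1 : LaurentSeries K1) * h2

/-- `V_∞ ≠ V_0` -/
theorem S36VK_V1_ne_V0 (hA : A.LiesOverPrime q) :
    S18K_V A K1 (M' * q * q) ≠ S36VK_V0 A K1 q M' hq hqM := by
  haveI : Fact q.Prime := ⟨hq⟩
  haveI : CharP (IsLocalRing.ResidueField A) q := S34V0K_charP A hq hA
  intro heq
  obtain ⟨v, hv, h⟩ := S36VK_frob0 A K1 q M' hq hqM hA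
  rw [← heq] at hv
  have h1 := S36VK_unit_red (S18K_D A K1) q
  rw [h] at h1
  exact h1 ((S18K_D A K1).redFun_πK_mul hv.1)

end Concrete

/-! ### The main theorem -/

section Main

variable (A : ValuationSubring (AlgebraicClosure ℚ))
  (K1 : IntermediateField ℚ (AlgebraicClosure ℚ)) [IsDiscreteValuationRing (S18K_O1 A K1)]
  (q M' : ℕ) [NeZero M'] [NeZero (q * q)] [NeZero (q ^ 2)] [NeZero (M' * q * q)]
  (hq : q.Prime) (hqM : ¬ q ∣ M')

/-- `q = π * unit` as Laurent series, from `Associated π q` in `O1` (helper21's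
`S36DS_pi_associated`) -/
theorem S36VK_unr (hunr : Associated (S18K_D A K1).π ((q : ℕ) : S18K_O1 A K1)) (N : ℕ) :
    ∃ u ∈ S18K_V A K1 N, u ≠ 0 ∧ u⁻¹ ∈ S18K_V A K1 N ∧
      (q : LaurentSeries K1) = S18K_π A K1 * u := by
  obtain ⟨u, hu⟩ := hunr
  have hCF : ∀ c : K1, HahnSeries.C c ∈ modularFunctionFieldFullC K1 N := by
    intro c
    have h2 : algebraMap K1 (LaurentSeries K1) c = HahnSeries.C c := by
      rw [algebraMap_laurentSeries_eq_single, HahnSeries.C_apply]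
    rw [← h2]
    exact IntermediateField.algebraMap_mem _ c
  have h1 : (HahnSeries.C ((S18K_D A K1).inc (u : S18K_O1 A K1)) : LaurentSeries K1)
      * HahnSeries.C ((S18K_D A K1).inc (↑u⁻¹ : S18K_O1 A K1)) = 1 := by
    rw [← map_mul, ← map_mul, Units.mul_inv, map_one, map_one]
  have hu0 : (HahnSeries.C ((S18K_D A K1).inc (u : S18K_O1 A K1)) : LaurentSeries K1) ≠ 0 :=
    left_ne_zero_of_mul_eq_one h1
  have hinv : (HahnSeries.C ((S18K_D A K1).inc (u : S18K_O1 A K1)) : LaurentSeries K1)⁻¹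
      = HahnSeries.C ((S18K_D A K1).inc (↑u⁻¹ : S18K_O1 A K1)) :=
    inv_eq_of_mul_eq_one_right h1
  refine ⟨HahnSeries.C ((S18K_D A K1).inc (u : S18K_O1 A K1)),
    ⟨S36VK_C_mem_Vring (S18K_D A K1) (u : S18K_O1 A K1), hCF _⟩, hu0, ?_, ?_⟩
  · rw [hinv]
    exact ⟨S36VK_C_mem_Vring (S18K_D A K1) (↑u⁻¹ : S18K_O1 A K1), hCF _⟩
  · show (q : LaurentSeries K1) = (S18K_D A K1).πK * _
    rw [GaussData.πK, ← map_mul, ← map_mul, hu, map_natCast, map_natCast]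

include hq hqM

set_option synthInstance.maxHeartbeats 400000 in
set_option maxHeartbeats 1600000 in
/-- **The three valuation rings at level `M' * q * q`.** -/
theorem S36VK_main (hA : A.LiesOverPrime q)
    (hunr : Associated (S18K_D A K1).π ((q : ℕ) : S18K_O1 A K1)) :
    S36VK_IsMid A K1 q M' (S36VK_Vmid A K1 q M') ∧
    S18K_V A K1 (M' * q * q) ≠ S36VK_Vmid A K1 q M' ∧
    S36VK_Vmid A K1 q M' ≠ S36VK_V0 A K1 q M' hq hqM ∧
    S18K_V A K1 (M' * q * q) ≠ S36VK_V0 A K1 q M' hq hqM ∧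
    S36VK_t K1 q ≠ 0 ∧
    S18K_π A K1 / S36VK_t K1 q ^ (q - 1) ∈ S36VK_Vmid A K1 q M' ∧
    S36VK_t K1 q ^ (q - 1) / S18K_π A K1 ∈ S36VK_Vmid A K1 q M' ∧
    (∀ v ∈ ((S18K_V A K1 (M' * q * q) ⊓ S36VK_Vmid A K1 q M') ⊓ S36VK_V0 A K1 q M' hq hqM :
      Subring (LaurentSeries K1)), IsIntegral (S18K_V A K1 M') v) ∧
    (∀ v : LaurentSeries K1, v ∈ S18K_F1 K1 (M' * q * q) → IsIntegral (S18K_V A K1 M') v →
      v ∈ S18K_V A K1 (M' * q * q) ∧ v ∈ S36VK_Vmid A K1 q M' ∧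
        v ∈ S36VK_V0 A K1 q M' hq hqM) ∧
    (∀ x ∈ S36VK_Vmid A K1 q M', x⁻¹ ∉ S36VK_Vmid A K1 q M' →
      ∃ v ∈ S36VK_Vmid A K1 q M', x = S36VK_t K1 q * v) ∧
    (∀ W : Subring (LaurentSeries K1), S34C2_Val (S18K_π A K1) (S18K_F1 K1 (M' * q * q)) W →
      S18K_V A K1 M' ≤ W → W = S18K_V A K1 (M' * q * q) ∨ W = S36VK_Vmid A K1 q M' ∨
        W = S36VK_V0 A K1 q M' hq hqM) ∧
    (∀ x ∈ S18K_V A K1 (M' * q * q), ∃ r ∈ S18K_V A K1 M', ∃ v ∈ S18K_V A K1 (M' * q * q),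
      x = r + S18K_π A K1 * v) ∧
    (∀ x ∈ S36VK_Vmid A K1 q M', ∃ r ∈ S18K_V A K1 M', ∃ v ∈ S36VK_Vmid A K1 q M',
      x = r + S36VK_t K1 q * v) := by
  classical
  haveI : NeZero q := ⟨hq.ne_zero⟩
  haveI : NeZero (M' * q) := ⟨mul_ne_zero (NeZero.ne M') hq.ne_zero⟩
  haveI : NeZero (M' * (q * q)) := ⟨by rw [← mul_assoc]; exact NeZero.ne _⟩
  haveI hcz : CharZero (LaurentSeries K1) :=
    charZero_of_injective_ringHom (HahnSeries.C_injective (Γ := ℤ) (R := K1))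
  have hd01 : M' ∣ M' * q := dvd_mul_right M' q
  have hd12 : M' * q ∣ M' * q * q := dvd_mul_right (M' * q) q
  have hd02 : M' ∣ M' * q * q := hd01.trans hd12
  -- the modular input
  obtain ⟨p, H, hp, hpq, hroot0, hmid, hH, hHinv, hp0, hpinv⟩ := S36VM_main A K1 q M' hq hA
  have hroot : ∑ k ∈ Finset.range (q + 1), p k * S36VK_t K1 q ^ k = 0 := hroot0
  have hnotin := S36VM_notin A K1 q M' hq hqM hA
  obtain ⟨htV, htVinv⟩ : S36VK_t K1 q ∈ (S18K_D A K1).Vring ∧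
      (S36VK_t K1 q)⁻¹ ∈ (S18K_D A K1).Vring := S36VM_t_unit A K1 q hq hA
  have ht_def : S36VK_t K1 q = qExpand K1 (q * q) (jqModC K1) - jqModC K1 := rfl
  have htF : S36VK_t K1 q ∈ S18K_F1 K1 (M' * q * q) := S36VK_t_mem_F K1 q M' hq hqM
  have htF' : S36VK_t K1 q ∉ S18K_F1 K1 (M' * q) := by
    intro h
    apply hnotin
    have e : qExpand K1 (q * q) (jqModC K1) = S36VK_t K1 q + jqModC K1 := by
      rw [ht_def]; ring
    rw [e]
    exact (S18K_F1 K1 (M' * q)).add_mem h (jqModC_mem_full K1 (M' * q))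
  have ht0 : S36VK_t K1 q ≠ 0 := by
    intro h
    apply htF'
    rw [h]
    exact (S18K_F1 K1 (M' * q)).zero_mem
  have ht1 : S36VK_t K1 q ∈ S18K_V A K1 (M' * q * q) := ⟨htV, htF⟩
  have ht1' : (S36VK_t K1 q)⁻¹ ∈ S18K_V A K1 (M' * q * q) :=
    ⟨htVinv, (S18K_F1 K1 (M' * q * q)).inv_mem htF⟩
  have ht3' : (S36VK_t K1 q)⁻¹ ∈ S36VK_V0 A K1 q M' hq hqM := by
    refine ⟨inv_mem (S36VK_t_mem_F K1 q M' hq hqM), ?_⟩
    rw [S36VK_wL_inv (S34V0K_emb K1) (q ^ 2) M' (M' * q * q) (S36WQ_cop hq hqM)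
      (S36VK_level q M') (S36VK_t_mem_F K1 q M' hq hqM), S36VK_wL_t K1 q M' hq hqM, inv_neg]
    exact neg_mem ht1'
  -- `q = π * unit`
  obtain ⟨u, hu, hu0, huinv, hqu⟩ := S36VK_unr A K1 q hunr (M' * q)
  obtain ⟨u0, hu0V, -, -, hqu0⟩ := S36VK_unr A K1 q hunr M'
  -- valuation data
  have hV0 := S34V3K_val1 A K1 M'
  have hV' := S34V3K_val1 A K1 (M' * q)
  have h1 := S34V3K_val1 A K1 (M' * q * q)
  have h3 := S36VK_V0_val A K1 q M' hq hqM
  have h13 := S36VK_V1_ne_V0 A K1 q M' hq hqM hA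
  -- degrees
  have hdeg1 : ∃ s : Finset (LaurentSeries K1), s.card ≤ q ∧ ∀ x ∈ S18K_F1 K1 (M' * q * q),
      ∃ c : LaurentSeries K1 → LaurentSeries K1,
        (∀ y, c y ∈ S18K_F1 K1 (M' * q)) ∧ x = ∑ y ∈ s, c y * y :=
    Fermat.Agent.S36_helper4_DEG.S36DG_hdeg K1 (M' * q) q hq (dvd_mul_left q M')
  have hind1 : ∃ b : Fin q → LaurentSeries K1, (∀ i, b i ∈ S18K_F1 K1 (M' * q * q)) ∧
      ∀ c : Fin q → LaurentSeries K1, (∀ i, c i ∈ S18K_F1 K1 (M' * q)) →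
        ∑ i, c i * b i = 0 → ∀ i, c i = 0 := by
    letI := S34DEG_algebra K1 (M' * q) q
    haveI := S34DEG_finiteDimensional K1 (M' * q) q
    have hfin := Fermat.Agent.S36_helper4_DEG.S36DG_finrank K1 (algebraMap K1 Qb) (M' * q) q hq
      (dvd_mul_left q M')
    exact S36VK_hind_gen (E := ↥(modularFunctionFieldFullC K1 (M' * q)))
      (E' := ↥(modularFunctionFieldFullC K1 (M' * q * q)))
      (modularFunctionFieldFullC K1 (M' * q)).val.toRingHom
      (modularFunctionFieldFullC K1 (M' * q * q)).val.toRingHom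
      (fun e => S34DEG_algebraMap_coe K1 (M' * q) q e) (S18K_F1 K1 (M' * q))
      (S18K_F1 K1 (M' * q * q)) (fun e => e.2) (fun x hx => ⟨⟨x, hx⟩, rfl⟩) hfin
  have hdeg0 : ∃ s : Finset (LaurentSeries K1), s.card ≤ 1 + (q - 1) + q ^ 2 ∧
      ∀ x ∈ S18K_F1 K1 (M' * q * q), ∃ c : LaurentSeries K1 → LaurentSeries K1,
        (∀ y, c y ∈ S18K_F1 K1 M') ∧ x = ∑ y ∈ s, c y * y := by
    have e : M' * q * q = M' * (q * q) := mul_assoc M' q q
    rw [e]
    letI := S34DEG_algebra K1 M' (q * q)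
    haveI := S34DEG_finiteDimensional K1 M' (q * q)
    have hle := Fermat.Agent.S36_helper4_DEG.S36DG_finrank_total_le K1 (algebraMap K1 Qb) M' q
      hq hqM
    exact S34KEYD_hdeg (E := ↥(modularFunctionFieldFullC K1 M'))
      (E' := ↥(modularFunctionFieldFullC K1 (M' * (q * q))))
      (modularFunctionFieldFullC K1 M').val.toRingHom
      (modularFunctionFieldFullC K1 (M' * (q * q))).val.toRingHom
      (fun e => S34DEG_algebraMap_coe K1 M' (q * q) e) (S18K_F1 K1 M')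
      (S18K_F1 K1 (M' * (q * q))) (fun e => e.2) (fun x hx => ⟨⟨x, hx⟩, rfl⟩) hle
  -- the polynomial in `π`-form
  have hmidπ : ∀ k, 1 ≤ k → k + 2 ≤ q →
      ∃ e ∈ S18K_V A K1 (M' * q), p k = S18K_π A K1 * e := by
    intro k hk1 hk2
    obtain ⟨e, he, hpe⟩ := hmid k hk1 hk2
    exact ⟨u * e, mul_mem hu he, by rw [hpe, hqu]; ring⟩
  have hp0π : p 0 = S18K_π A K1 * (u * H) := by rw [hp0, hqu]; ring
  have hp0ne : p 0 ≠ 0 :=
    S36VK_p0_ne (S34V3K_F1_mono K1 hd12) hq hdeg1 hind1 htF htF' p (fun k => hV'.le (hp k)) hpq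
      hroot
  have hH0 : H ≠ 0 := by
    rintro rfl
    exact hp0ne (by rw [hp0, mul_zero])
  have hc0 : p (q - 1) ≠ 0 :=
    S36VK_pq1_ne h1 (S34V3K_V_mono A K1 hd12) hq.two_le ht1 ht1' ht0 p hpq hroot hmidπ
      ⟨u * H, mul_mem hu hH, hp0π⟩
  have h0π : ∃ H' ∈ S18K_V A K1 (M' * q), H' ≠ 0 ∧ H'⁻¹ ∈ S18K_V A K1 (M' * q) ∧
      p 0 = S18K_π A K1 * H' :=
    ⟨u * H, mul_mem hu hH, mul_ne_zero hu0 hH0, by rw [mul_inv]; exact mul_mem huinv hHinv, hp0π⟩
  -- the Frobenius congruence on `V_0`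
  have hy : qExpand K1 (q ^ 2) (jqModC K1) ∈ S36VK_V0 A K1 q M' hq hqM :=
    S36VK_jqq_mem_V0 A K1 q M' hq hqM
  have hx : jqModC K1 ∈ S18K_V A K1 M' := S34V0K_j_mem_V1 A K1 M'
  have hyx : qExpand K1 (q ^ 2) (jqModC K1) ^ (q ^ 2) - jqModC K1 = 0 ∨
      (qExpand K1 (q ^ 2) (jqModC K1) ^ (q ^ 2) - jqModC K1)⁻¹ ∉
        S36VK_V0 A K1 q M' hq hqM := by
    obtain ⟨v, hv, h⟩ := S36VK_frob0 A K1 q M' hq hqM hA
    rw [h]
    exact S34KEY_pi_mul_nonunit h3 hv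
  have hxq : ∀ r ∈ S18K_V A K1 M', ∀ v ∈ S18K_V A K1 M',
      r ^ q - jqModC K1 ≠ S18K_π A K1 * v :=
    Fermat.Agent.S34_helper24_QPOWK.S34QPK_hxq A K1 hq hA M'
  obtain ⟨V2, h2, hV2, h12, h23, -, ht2, ht2n, htm, key⟩ :=
    S36BG_main (F0 := S18K_F1 K1 M') (S34V3K_F1_mono K1 hd01) (S34V3K_F1_mono K1 hd12) hV0
      (S34KEYK_sep A K1 M') hV' (S34KEYK_sep A K1 (M' * q)) (S34V3K_V_mono A K1 hd01) h1 h3
      (S34V3K_V_mono A K1 hd02) (S36VK_V0_le A K1 q M' hq hqM) h13 hq hdeg1 hind1 hdeg0 htF htF'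
      ht1' ht3' p hp hpq hroot hmidπ h0π hc0 hpinv ⟨u0, hu0V, hqu0⟩ hy hx hyx hxq
  obtain ⟨k1, k2, k3, k4, k5, k6, k7, k8, k9⟩ := key
  -- identification with the chosen middle ring
  have hmid2 : S36VK_IsMid A K1 q M' V2 := ⟨h2, hV2, ht2, ht2n⟩
  have hspec := S36VK_Vmid_spec A K1 q M' ⟨V2, hmid2⟩
  have heq : S36VK_Vmid A K1 q M' = V2 := by
    rcases k7 _ hspec.1 ((S34V3K_V_mono A K1 hd01).trans hspec.2.1) with h | h | h
    · exfalso
      apply hspec.2.2.2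
      rw [h]
      exact ht1'
    · exact h
    · exfalso
      apply hspec.2.2.2
      rw [h]
      exact ht3'
  rw [heq]
  exact ⟨hmid2, h12, h23, h13, ht0, htm, k6, k1, k2, k5, k7, k8, k9⟩

end Main

end Fermat.Agent.S36_helper5_VMIDK
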