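import Mathlib

/-!
# S36, GEO36, (REG36): the case split at a closed point of the three-valuation chart (helper9)

Abstract layer, Subring-of-`L` vocabulary (Mathlib only; no modular curve).  The
one-branch theorems themselves are helper14's `S36N1Q_thru1` / `S36N1Q_thru0` / `S36N1Q_vert`
(`S36_helper14_N1Q`); this file provides their inputs.

`A` is a subring of the three rings `V_∞`, `V_mid`, `V_0` (in the application: a chart relative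
to `(V_∞ ⊓ V_mid) ⊓ V_0`), saturated: `v ∈ V_∞ ∩ V_mid ∩ V_0`, `π v ∈ A` imply `v ∈ A`
(`Chart.sat`).  `V_∞`, `V_0` have uniformiser `π`, `V_mid` has uniformiser `t` with
`t ^ e / π ∈ V_mid`.

* `S36ONE_witness`, `S36ONE_witness'`, `S36ONE_witness_mid` : the witnesses
  `d_mid ^ e * d_0 ∈ π (V_mid ⊓ V_0)`, `d_mid ^ e * d_∞ ∈ π (V_∞ ⊓ V_mid)`,
  `d_∞ * d_0 ∈ π (V_∞ ⊓ V_0)` (the hypotheses `hdW`, `hdQ` of the one-branch theorems);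
* `S36ONE_On` : "`m` lies on the branch of `V`";
* `S36ONE_on_some` : a prime `m ∋ π` lies on at least one branch;
* `S36ONE_cases` : **the dichotomy**: a prime `m ∋ π` lies on exactly one branch (with
  witnesses), or it contains `S1`, `T1`, `T2` (the hypotheses of the triple point).  The inputs
  are the five memberships `T1, T2 ∈ 𝔪(V_∞)`, `S1 ∈ 𝔪(V_0)`, `T1, T2 - S1 ∈ 𝔪(V_mid)`;
* `S36ONE_cases_wit` : the same with the witnesses in the packaged form.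
-/

set_option autoImplicit false
set_option linter.style.haveILetI false
set_option linter.unusedVariables false
set_option linter.unusedSectionVars false

namespace Fermat.Agent.S36_helper9_ONE

variable {L : Type*} [Field L] {π : L}

/-- `π ≠ 0` if `π` is not a unit of `V1`. -/
theorem S36ONE_pi_ne_zero {V1 : Subring L} (hnu1 : π⁻¹ ∉ V1) : π ≠ 0 := by
  intro h
  apply hnu1
  rw [h, inv_zero]
  exact V1.zero_mem

/-- **The witness for `W = V_mid ⊓ V_0`** (and, with `V_∞` in the place of `V_0`, for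
`Q = V_∞ ⊓ V_mid`).  `A ≤ V_mid`, `A ≤ V_0`; `d_mid ∈ A` a multiple of the uniformiser `t` of
`V_mid`, `t ^ e = π * unit` (only `t ^ e / π ∈ V_mid` is used); `d_0 ∈ A ∩ π V_0`.  Then
`d_mid ^ e * d_0 = π * v` with `v ∈ V_mid` and `v ∈ V_0`. -/
theorem S36ONE_witness_and {Vmid V0 A : Subring L} (hAmid : A ≤ Vmid) (hA0 : A ≤ V0)
    (hπ0 : π ≠ 0) (t : L) (e : ℕ) (hte : t ^ e * π⁻¹ ∈ Vmid)
    (dmid d0 : A) (hdmid : ∃ v ∈ Vmid, (dmid : L) = t * v)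
    (hd0 : ∃ v ∈ V0, (d0 : L) = π * v) :
    ∃ v : L, v ∈ Vmid ∧ v ∈ V0 ∧ ((dmid ^ e * d0 : A) : L) = π * v := by
  obtain ⟨v, hv, hdv⟩ := hdmid
  obtain ⟨w, hw, hdw⟩ := hd0
  refine ⟨(dmid : L) ^ e * w, ?_, ?_, ?_⟩
  · have h1 : (dmid : L) ^ e * w = (t ^ e * π⁻¹) * v ^ e * (d0 : L) := by
      rw [hdw, hdv, mul_pow]
      field_simp
    rw [h1]
    exact Vmid.mul_mem (Vmid.mul_mem hte (Vmid.pow_mem hv e)) (hAmid d0.2)
  · exact V0.mul_mem (V0.pow_mem (hA0 dmid.2) e) hw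
  · rw [Subring.coe_mul, Subring.coe_pow, hdw]
    ring

/-- The witness for `W = V_mid ⊓ V_0`, in the form of the hypothesis `hdW` of helper14's
`S36N1Q_thru1`. -/
theorem S36ONE_witness {Vmid V0 A : Subring L} (hAmid : A ≤ Vmid) (hA0 : A ≤ V0)
    (hπ0 : π ≠ 0) (t : L) (e : ℕ) (hte : t ^ e * π⁻¹ ∈ Vmid)
    (dmid d0 : A) (hdmid : ∃ v ∈ Vmid, (dmid : L) = t * v)
    (hd0 : ∃ v ∈ V0, (d0 : L) = π * v) :
    ∃ v ∈ Vmid ⊓ V0, ((dmid ^ e * d0 : A) : L) = π * v := by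
  obtain ⟨v, h1, h2, h3⟩ := S36ONE_witness_and hAmid hA0 hπ0 t e hte dmid d0 hdmid hd0
  exact ⟨v, ⟨h1, h2⟩, h3⟩

/-- The witness for `Q = V_∞ ⊓ V_mid`, in the form of the hypothesis `hdQ` of helper14's
`S36N1Q_thru0`. -/
theorem S36ONE_witness' {Voo Vmid A : Subring L} (hAoo : A ≤ Voo) (hAmid : A ≤ Vmid)
    (hπ0 : π ≠ 0) (t : L) (e : ℕ) (hte : t ^ e * π⁻¹ ∈ Vmid)
    (doo dmid : A) (hdoo : ∃ v ∈ Voo, (doo : L) = π * v)
    (hdmid : ∃ v ∈ Vmid, (dmid : L) = t * v) :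
    ∃ v ∈ Voo ⊓ Vmid, ((dmid ^ e * doo : A) : L) = π * v := by
  obtain ⟨v, h1, h2, h3⟩ := S36ONE_witness_and hAmid hAoo hπ0 t e hte dmid doo hdmid hdoo
  exact ⟨v, ⟨h2, h1⟩, h3⟩

/-- The witness for `V_∞ ⊓ V_0` (the thick branch): `d_∞ * d_0 ∈ π (V_∞ ⊓ V_0)`. -/
theorem S36ONE_witness_mid {Voo V0 A : Subring L} (hAoo : A ≤ Voo) (hA0 : A ≤ V0)
    (hπ0 : π ≠ 0) (doo d0 : A) (hdoo : ∃ v ∈ Voo, (doo : L) = π * v)
    (hd0 : ∃ v ∈ V0, (d0 : L) = π * v) :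
    ∃ v ∈ Voo ⊓ V0, ((doo * d0 : A) : L) = π * v := by
  obtain ⟨v, hv, hdv⟩ := hdoo
  obtain ⟨w, hw, hdw⟩ := hd0
  refine ⟨v * (d0 : L), ⟨Voo.mul_mem hv (hAoo d0.2), ?_⟩, ?_⟩
  · have h1 : v * (d0 : L) = (doo : L) * w := by
      rw [hdv, hdw]; ring
    rw [h1]
    exact V0.mul_mem (hA0 doo.2) hw
  · rw [Subring.coe_mul, hdv]
    ring

/-- "`m` lies on the branch of `V`": every element of `A` which is a non-unit of `V` lies in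
`m`. -/
def S36ONE_On (V A : Subring L) (m : Ideal A) : Prop :=
  ∀ a : A, ((a : L))⁻¹ ∉ V → a ∈ m

/-- **A prime `m ∋ π` of a three-valuation chart lies on at least one branch.**  `V_∞`, `V_0`
have uniformiser `π` (`e = 1`), `V_mid` has uniformiser `t` with `t ^ e / π ∈ V_mid`. -/
theorem S36ONE_on_some {Voo Vmid V0 A : Subring L}
    (hAoo : A ≤ Voo) (hAmid : A ≤ Vmid) (hA0 : A ≤ V0)
    (hsat : ∀ v : L, v ∈ Voo → v ∈ Vmid → v ∈ V0 → π * v ∈ A → v ∈ A) (hπ0 : π ≠ 0)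
    (hunifoo : ∀ y ∈ Voo, y⁻¹ ∉ Voo → ∃ v ∈ Voo, y = π * v)
    (hunif0 : ∀ y ∈ V0, y⁻¹ ∉ V0 → ∃ v ∈ V0, y = π * v)
    (t : L) (e : ℕ) (hte : t ^ e * π⁻¹ ∈ Vmid)
    (hunifmid : ∀ y ∈ Vmid, y⁻¹ ∉ Vmid → ∃ v ∈ Vmid, y = t * v)
    (hπ : π ∈ A) (m : Ideal A) [hm : m.IsPrime] (hπm : (⟨π, hπ⟩ : A) ∈ m) :
    S36ONE_On Voo A m ∨ S36ONE_On Vmid A m ∨ S36ONE_On V0 A m := by
  by_contra hcon
  simp only [not_or] at hcon
  obtain ⟨h1, h2, h3⟩ := hcon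
  obtain ⟨a1, ha1⟩ := not_forall.1 h1
  obtain ⟨ha1n, ha1m⟩ := Classical.not_imp.1 ha1
  obtain ⟨a2, ha2⟩ := not_forall.1 h2
  obtain ⟨ha2n, ha2m⟩ := Classical.not_imp.1 ha2
  obtain ⟨a3, ha3⟩ := not_forall.1 h3
  obtain ⟨ha3n, ha3m⟩ := Classical.not_imp.1 ha3
  obtain ⟨v1, hv1, e1⟩ := hunifoo _ (hAoo a1.2) ha1n
  obtain ⟨v2, hv2, e2⟩ := hunifmid _ (hAmid a2.2) ha2n
  obtain ⟨v3, hv3, e3⟩ := hunif0 _ (hA0 a3.2) ha3n
  -- the product `a1 * a2 ^ e * a3` is divisible by `π` in the three valuation rings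
  have hmem : a1 * a2 ^ e * a3 ∈ m := by
    have hvoo : v1 * (a2 : L) ^ e * (a3 : L) ∈ Voo :=
      Voo.mul_mem (Voo.mul_mem hv1 (Voo.pow_mem (hAoo a2.2) e)) (hAoo a3.2)
    have hvmid : v1 * (a2 : L) ^ e * (a3 : L) ∈ Vmid := by
      have h4 : v1 * (a2 : L) ^ e * (a3 : L) =
          (a1 : L) * ((t ^ e * π⁻¹) * v2 ^ e) * (a3 : L) := by
        rw [e1, e2, mul_pow]
        field_simp
      rw [h4]
      exact Vmid.mul_mem (Vmid.mul_mem (hAmid a1.2)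
        (Vmid.mul_mem hte (Vmid.pow_mem hv2 e))) (hAmid a3.2)
    have hv0 : v1 * (a2 : L) ^ e * (a3 : L) ∈ V0 := by
      have h4 : v1 * (a2 : L) ^ e * (a3 : L) = (a1 : L) * (a2 : L) ^ e * v3 := by
        rw [e1, e3]
        field_simp
      rw [h4]
      exact V0.mul_mem (V0.mul_mem (hA0 a1.2) (V0.pow_mem (hA0 a2.2) e)) hv3
    have hprod : ((a1 * a2 ^ e * a3 : A) : L) = π * (v1 * (a2 : L) ^ e * (a3 : L)) := by
      rw [Subring.coe_mul, Subring.coe_mul, Subring.coe_pow, e1]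
      ring
    have hb : v1 * (a2 : L) ^ e * (a3 : L) ∈ A :=
      hsat _ hvoo hvmid hv0 (hprod ▸ (a1 * a2 ^ e * a3).2)
    have : a1 * a2 ^ e * a3 = (⟨π, hπ⟩ : A) * ⟨_, hb⟩ := Subtype.ext hprod
    rw [this]
    exact m.mul_mem_right _ hπm
  rcases hm.mem_or_mem hmem with h | h
  · rcases hm.mem_or_mem h with h | h
    · exact ha1m h
    · exact ha2m (hm.mem_of_pow_mem e h)
  · exact ha3m h

/-- **(DICHOTOMY36): one branch or all three.**  For a prime `m ∋ π` of a three-valuation chart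
and three elements `S1`, `T1`, `T2` of the chart with `T1, T2` non-units of `V_∞`, `S1` a non-unit
of `V_0`, `T1` and `T2 - S1` non-units of `V_mid`:

* `m` lies on the branch of `V_∞` only (with witnesses `d_mid`, `d_0 ∉ m`, non-units of `V_mid`,
  `V_0`), or
* on the branch of `V_mid` only (witnesses `d_∞`, `d_0`), or
* on the branch of `V_0` only (witnesses `d_∞`, `d_mid`), or
* `S1`, `T1`, `T2 ∈ m` (the hypotheses of the triple point).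

In the application `S1 = h - h_q ^ q`, `T1 = h ^ q - h_q`, `T2 = h_qq - h_q ^ q`. -/
theorem S36ONE_cases {Voo Vmid V0 A : Subring L}
    (hAoo : A ≤ Voo) (hAmid : A ≤ Vmid) (hA0 : A ≤ V0)
    (hsat : ∀ v : L, v ∈ Voo → v ∈ Vmid → v ∈ V0 → π * v ∈ A → v ∈ A) (hπ0 : π ≠ 0)
    (hunifoo : ∀ y ∈ Voo, y⁻¹ ∉ Voo → ∃ v ∈ Voo, y = π * v)
    (hunif0 : ∀ y ∈ V0, y⁻¹ ∉ V0 → ∃ v ∈ V0, y = π * v)
    (t : L) (e : ℕ) (hte : t ^ e * π⁻¹ ∈ Vmid)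
    (hunifmid : ∀ y ∈ Vmid, y⁻¹ ∉ Vmid → ∃ v ∈ Vmid, y = t * v)
    (hπ : π ∈ A) (m : Ideal A) [hm : m.IsPrime] (hπm : (⟨π, hπ⟩ : A) ∈ m)
    (S1 T1 T2 : A)
    (hT1oo : ((T1 : A) : L)⁻¹ ∉ Voo) (hT2oo : ((T2 : A) : L)⁻¹ ∉ Voo)
    (hS10 : ((S1 : A) : L)⁻¹ ∉ V0)
    (hT1mid : ((T1 : A) : L)⁻¹ ∉ Vmid) (hWmid : ((T2 - S1 : A) : L)⁻¹ ∉ Vmid) :
    (S36ONE_On Voo A m ∧ (∃ d : A, d ∉ m ∧ ((d : L))⁻¹ ∉ Vmid) ∧
        (∃ d : A, d ∉ m ∧ ((d : L))⁻¹ ∉ V0)) ∨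
    (S36ONE_On Vmid A m ∧ (∃ d : A, d ∉ m ∧ ((d : L))⁻¹ ∉ Voo) ∧
        (∃ d : A, d ∉ m ∧ ((d : L))⁻¹ ∉ V0)) ∨
    (S36ONE_On V0 A m ∧ (∃ d : A, d ∉ m ∧ ((d : L))⁻¹ ∉ Voo) ∧
        (∃ d : A, d ∉ m ∧ ((d : L))⁻¹ ∉ Vmid)) ∨
    (S1 ∈ m ∧ T1 ∈ m ∧ T2 ∈ m) := by
  have hwit : ∀ V : Subring L, ¬ S36ONE_On V A m → ∃ d : A, d ∉ m ∧ ((d : L))⁻¹ ∉ V := by
    intro V hV
    obtain ⟨d, hd⟩ := not_forall.1 hV
    obtain ⟨hdn, hdm⟩ := Classical.not_imp.1 hd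
    exact ⟨d, hdm, hdn⟩
  by_cases hoo : S36ONE_On Voo A m
  · by_cases hmid : S36ONE_On Vmid A m
    · -- `T1, T2, T2 - S1 ∈ m`
      have h1 := hoo T1 hT1oo
      have h2 := hoo T2 hT2oo
      have h3 := hmid (T2 - S1) hWmid
      refine Or.inr (Or.inr (Or.inr ⟨?_, h1, h2⟩))
      have : S1 = T2 - (T2 - S1) := by ring
      rw [this]
      exact m.sub_mem h2 h3
    · by_cases h0 : S36ONE_On V0 A m
      · exact Or.inr (Or.inr (Or.inr ⟨h0 S1 hS10, hoo T1 hT1oo, hoo T2 hT2oo⟩))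
      · exact Or.inl ⟨hoo, hwit _ hmid, hwit _ h0⟩
  · by_cases hmid : S36ONE_On Vmid A m
    · by_cases h0 : S36ONE_On V0 A m
      · -- `T1, S1, T2 - S1 ∈ m`
        have h1 := hmid T1 hT1mid
        have h2 := h0 S1 hS10
        have h3 := hmid (T2 - S1) hWmid
        refine Or.inr (Or.inr (Or.inr ⟨h2, h1, ?_⟩))
        have : T2 = (T2 - S1) + S1 := by ring
        rw [this]
        exact m.add_mem h3 h2
      · exact Or.inr (Or.inl ⟨hmid, hwit _ hoo, hwit _ h0⟩)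
    · by_cases h0 : S36ONE_On V0 A m
      · exact Or.inr (Or.inr (Or.inl ⟨h0, hwit _ hoo, hwit _ hmid⟩))
      · exfalso
        rcases S36ONE_on_some hAoo hAmid hA0 hsat hπ0 hunifoo hunif0 t e hte hunifmid hπ m hπm
          with h | h | h
        · exact hoo h
        · exact hmid h
        · exact h0 h

/-- **(DICHOTOMY36) with the packaged witnesses**: in the three one-branch cases the witness is
ONE element `d ∉ m` of the chart, divisible by `π` in the intersection of the two other valuation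
rings (the hypotheses `hdW` of `S36N1Q_thru1` with `W = V_mid ⊓ V_0`, `hdQ` of `S36N1Q_thru0` with
`Q = V_∞ ⊓ V_mid`, and the witness of the thick branch in `V_∞ ⊓ V_0`). -/
theorem S36ONE_cases_wit {Voo Vmid V0 A : Subring L}
    (hAoo : A ≤ Voo) (hAmid : A ≤ Vmid) (hA0 : A ≤ V0)
    (hsat : ∀ v : L, v ∈ Voo → v ∈ Vmid → v ∈ V0 → π * v ∈ A → v ∈ A) (hπ0 : π ≠ 0)
    (hunifoo : ∀ y ∈ Voo, y⁻¹ ∉ Voo → ∃ v ∈ Voo, y = π * v)
    (hunif0 : ∀ y ∈ V0, y⁻¹ ∉ V0 → ∃ v ∈ V0, y = π * v)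
    (t : L) (e : ℕ) (hte : t ^ e * π⁻¹ ∈ Vmid)
    (hunifmid : ∀ y ∈ Vmid, y⁻¹ ∉ Vmid → ∃ v ∈ Vmid, y = t * v)
    (hπ : π ∈ A) (m : Ideal A) [hm : m.IsPrime] (hπm : (⟨π, hπ⟩ : A) ∈ m)
    (S1 T1 T2 : A)
    (hT1oo : ((T1 : A) : L)⁻¹ ∉ Voo) (hT2oo : ((T2 : A) : L)⁻¹ ∉ Voo)
    (hS10 : ((S1 : A) : L)⁻¹ ∉ V0)
    (hT1mid : ((T1 : A) : L)⁻¹ ∉ Vmid) (hWmid : ((T2 - S1 : A) : L)⁻¹ ∉ Vmid) :
    (S36ONE_On Voo A m ∧ ∃ d : A, d ∉ m ∧ ∃ v ∈ Vmid ⊓ V0, (d : L) = π * v) ∨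
    (S36ONE_On Vmid A m ∧ ∃ d : A, d ∉ m ∧ ∃ v ∈ Voo ⊓ V0, (d : L) = π * v) ∨
    (S36ONE_On V0 A m ∧ ∃ d : A, d ∉ m ∧ ∃ v ∈ Voo ⊓ Vmid, (d : L) = π * v) ∨
    (S1 ∈ m ∧ T1 ∈ m ∧ T2 ∈ m) := by
  rcases S36ONE_cases hAoo hAmid hA0 hsat hπ0 hunifoo hunif0 t e hte hunifmid hπ m hπm
    S1 T1 T2 hT1oo hT2oo hS10 hT1mid hWmid with h | h | h | h
  · obtain ⟨hon, ⟨dmid, hdmidm, hdmid⟩, ⟨d0, hd0m, hd0⟩⟩ := h
    refine Or.inl ⟨hon, dmid ^ e * d0, fun hmem => ?_, ?_⟩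
    · rcases hm.mem_or_mem hmem with h1 | h1
      · exact hdmidm (hm.mem_of_pow_mem e h1)
      · exact hd0m h1
    · exact S36ONE_witness hAmid hA0 hπ0 t e hte dmid d0
        (hunifmid _ (hAmid dmid.2) hdmid) (hunif0 _ (hA0 d0.2) hd0)
  · obtain ⟨hon, ⟨doo, hdoom, hdoo⟩, ⟨d0, hd0m, hd0⟩⟩ := h
    refine Or.inr (Or.inl ⟨hon, doo * d0, fun hmem => ?_, ?_⟩)
    · rcases hm.mem_or_mem hmem with h1 | h1
      · exact hdoom h1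
      · exact hd0m h1
    · exact S36ONE_witness_mid hAoo hA0 hπ0 doo d0
        (hunifoo _ (hAoo doo.2) hdoo) (hunif0 _ (hA0 d0.2) hd0)
  · obtain ⟨hon, ⟨doo, hdoom, hdoo⟩, ⟨dmid, hdmidm, hdmid⟩⟩ := h
    refine Or.inr (Or.inr (Or.inl ⟨hon, dmid ^ e * doo, fun hmem => ?_, ?_⟩))
    · rcases hm.mem_or_mem hmem with h1 | h1
      · exact hdmidm (hm.mem_of_pow_mem e h1)
      · exact hdoom h1
    · exact S36ONE_witness' hAoo hAmid hπ0 t e hte doo dmid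
        (hunifoo _ (hAoo doo.2) hdoo) (hunifmid _ (hAmid dmid.2) hdmid)
  · exact Or.inr (Or.inr (Or.inr h))

end Fermat.Agent.S36_helper9_ONE
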