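import Mathlib
import Fermat.Agent.S36_helper9_ONE

/-!
# S36, GEO36, (REG36): the case split "one branch or crossing" - corrected form (helper9)

Abstract layer, Subring-of-`L` vocabulary (Mathlib + `S36_helper9_ONE` only).

helper17's remark on `S36ONE_cases_wit`: its fourth alternative `S1, T1, T2 ∈ m` also holds at
ordinary points with coordinate in `𝔽_(q²)`, so it is NOT the hypothesis of the triple point.  The
right fourth alternative is **crossing at the level `M' q`**: with `A' ≤ A` the chart of level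
`M' q`,

  `S36DI_Cross V_∞ V_0 A' A m` : the elements of `A'` which are non-units of `V_∞`, resp. of
  `V_0`, lie in `m`.

* `S36DI_cross_of_oo_0`, `S36DI_cross_of_mid_0` : `m` on `(V_∞, V_0)` or on `(V_mid, V_0)` gives
  the crossing (for the second one: the elements of `A'` which are non-units of `V_∞` are
  non-units of `V_mid`, because `V_∞ ∩ F1' = V_mid ∩ F1'`);
* `S36DI_on_comap` : transport of "`m` lies on the branch of `V`" along an automorphism of `A`;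
* `S36DI_mirror` : the remaining case `m` on `(V_∞, V_mid)`: then `σ⁻¹ m` is on `(V_0, V_mid)`
  (`σ = w_(q²)`), hence a crossing, hence (triple point theorem at `σ⁻¹ m`) on `V_∞`, so `m` is on
  `V_0`;
* `S36DI_main` : **the case split at a maximal ideal `m ∋ π`**: exactly one branch, with the
  packaged witness of `S36ONE_cases_wit`, or `S36DI_Cross V_∞ V_0 A' A m`.  The only input from
  the triple point theorem is `htriple`: a crossing point lies on the branch of `V_∞`.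
-/

set_option autoImplicit false
set_option linter.style.haveILetI false
set_option linter.unusedVariables false
set_option linter.unusedSectionVars false

namespace Fermat.Agent.S36_helper9_DICH

open Fermat.Agent.S36_helper9_ONE

variable {L : Type*} [Field L] {π : L} {Voo Vmid V0 A' A : Subring L}

/-- **Crossing at the smaller level**: the elements of `A'` (the chart of level `M' q`) which
are non-units of `V_∞`, resp. of `V_0`, lie in `m`. -/
def S36DI_Cross (Voo V0 A' A : Subring L) (m : Ideal A) : Prop :=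
  (∀ a : A, (a : L) ∈ A' → ((a : L))⁻¹ ∉ Voo → a ∈ m) ∧
    (∀ a : A, (a : L) ∈ A' → ((a : L))⁻¹ ∉ V0 → a ∈ m)

/-- the same in the form with elements of `A'` -/
theorem S36DI_cross_iff (hA'A : A' ≤ A) (m : Ideal A) :
    S36DI_Cross Voo V0 A' A m ↔
      (∀ a : A', ((a : L))⁻¹ ∉ Voo → Subring.inclusion hA'A a ∈ m) ∧
        (∀ a : A', ((a : L))⁻¹ ∉ V0 → Subring.inclusion hA'A a ∈ m) := by
  constructor
  · rintro ⟨h1, h2⟩
    exact ⟨fun a ha => h1 (Subring.inclusion hA'A a) a.2 ha,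
      fun a ha => h2 (Subring.inclusion hA'A a) a.2 ha⟩
  · rintro ⟨h1, h2⟩
    refine ⟨fun a haA' ha => ?_, fun a haA' ha => ?_⟩
    · have := h1 ⟨(a : L), haA'⟩ ha
      have he : Subring.inclusion hA'A ⟨(a : L), haA'⟩ = a := Subtype.ext rfl
      rwa [he] at this
    · have := h2 ⟨(a : L), haA'⟩ ha
      have he : Subring.inclusion hA'A ⟨(a : L), haA'⟩ = a := Subtype.ext rfl
      rwa [he] at this

/-- `m` on the branches of `V_∞` and `V_0` is a crossing. -/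
theorem S36DI_cross_of_oo_0 (m : Ideal A) (hoo : S36ONE_On Voo A m) (h0 : S36ONE_On V0 A m) :
    S36DI_Cross Voo V0 A' A m :=
  ⟨fun a _ ha => hoo a ha, fun a _ ha => h0 a ha⟩

/-- `m` on the branches of `V_mid` and `V_0` is a crossing (`V_∞` and `V_mid` have the same
trace on the level `M' q`). -/
theorem S36DI_cross_of_mid_0 (hA'mid : ∀ a ∈ A', a⁻¹ ∉ Voo → a⁻¹ ∉ Vmid) (m : Ideal A)
    (hmid : S36ONE_On Vmid A m) (h0 : S36ONE_On V0 A m) : S36DI_Cross Voo V0 A' A m :=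
  ⟨fun a haA' ha => hmid a (hA'mid _ haA' ha), fun a _ ha => h0 a ha⟩

/-- Transport of "`m` lies on the branch of `V`" along an automorphism `σ` of `A` which maps the
non-units of `V'` to non-units of `V`. -/
theorem S36DI_on_comap (σ : A ≃+* A) (V V' : Subring L)
    (hσ : ∀ a : A, ((a : L))⁻¹ ∉ V' → (((σ a : A) : L))⁻¹ ∉ V) (m : Ideal A)
    (h : S36ONE_On V A m) : S36ONE_On V' A (m.comap (σ : A →+* A)) := by
  intro a ha
  rw [Ideal.mem_comap]
  exact h (σ a) (hσ a ha)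

/-- **The mirror step.**  If `m` lies on the branches of `V_∞` and of `V_mid`, then it lies on
the branch of `V_0`: the conjugate `σ⁻¹ m` lies on the branches of `V_0` and `V_mid`, so it is a
crossing, hence (input `htriple` from the triple point theorem) it lies on the branch of `V_∞`. -/
theorem S36DI_mirror (hA'mid : ∀ a ∈ A', a⁻¹ ∉ Voo → a⁻¹ ∉ Vmid) (hπ : π ∈ A)
    (σ : A ≃+* A) (hσπ : σ ⟨π, hπ⟩ = ⟨π, hπ⟩)
    (hσ0 : ∀ a : A, ((a : L))⁻¹ ∉ V0 → (((σ a : A) : L))⁻¹ ∉ Voo)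
    (hσmid : ∀ a : A, ((a : L))⁻¹ ∉ Vmid → (((σ a : A) : L))⁻¹ ∉ Vmid)
    (hσ0' : ∀ a : A, ((a : L))⁻¹ ∉ V0 → (((σ.symm a : A) : L))⁻¹ ∉ Voo)
    (htriple : ∀ m' : Ideal A, m'.IsMaximal → (⟨π, hπ⟩ : A) ∈ m' →
      S36DI_Cross Voo V0 A' A m' → S36ONE_On Voo A m')
    (m : Ideal A) (hm : m.IsMaximal) (hπm : (⟨π, hπ⟩ : A) ∈ m)
    (hoo : S36ONE_On Voo A m) (hmid : S36ONE_On Vmid A m) : S36ONE_On V0 A m := by
  have hm' : (m.comap (σ : A →+* A)).IsMaximal :=
    Ideal.comap_isMaximal_of_surjective (σ : A →+* A) σ.surjective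
  have hπm' : (⟨π, hπ⟩ : A) ∈ m.comap (σ : A →+* A) := by
    rw [Ideal.mem_comap]
    show σ ⟨π, hπ⟩ ∈ m
    rw [hσπ]
    exact hπm
  have h0' : S36ONE_On V0 A (m.comap (σ : A →+* A)) := S36DI_on_comap σ Voo V0 hσ0 m hoo
  have hmid' : S36ONE_On Vmid A (m.comap (σ : A →+* A)) :=
    S36DI_on_comap σ Vmid Vmid hσmid m hmid
  have hcross := S36DI_cross_of_mid_0 (A' := A') hA'mid _ hmid' h0'
  have hoo' := htriple _ hm' hπm' hcross
  intro a ha
  have h1 := hoo' (σ.symm a) (hσ0' a ha)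
  rw [Ideal.mem_comap] at h1
  have h2 : (σ : A →+* A) (σ.symm a) = a := σ.apply_symm_apply a
  rwa [h2] at h1

/-- **(DICHOTOMY36), corrected form: one branch or crossing.**  At a maximal ideal `m ∋ π` of
the three-valuation chart `A`:

* `m` lies on the branch of `V_∞` only, with a witness `d ∉ m`, `d ∈ π (V_mid ⊓ V_0)`, or
* on the branch of `V_mid` only, with a witness `d ∉ m`, `d ∈ π (V_∞ ⊓ V_0)`, or
* on the branch of `V_0` only, with a witness `d ∉ m`, `d ∈ π (V_∞ ⊓ V_mid)`, or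
* `m` is a crossing at the level `M' q` (`S36DI_Cross`: the hypothesis of the triple point
  theorem at `m`). -/
theorem S36DI_main (hAoo : A ≤ Voo) (hAmid : A ≤ Vmid) (hA0 : A ≤ V0)
    (hsat : ∀ v : L, v ∈ Voo → v ∈ Vmid → v ∈ V0 → π * v ∈ A → v ∈ A) (hπ0 : π ≠ 0)
    (hunifoo : ∀ y ∈ Voo, y⁻¹ ∉ Voo → ∃ v ∈ Voo, y = π * v)
    (hunif0 : ∀ y ∈ V0, y⁻¹ ∉ V0 → ∃ v ∈ V0, y = π * v)
    (t : L) (e : ℕ) (hte : t ^ e * π⁻¹ ∈ Vmid)
    (hunifmid : ∀ y ∈ Vmid, y⁻¹ ∉ Vmid → ∃ v ∈ Vmid, y = t * v)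
    (hA'mid : ∀ a ∈ A', a⁻¹ ∉ Voo → a⁻¹ ∉ Vmid) (hπ : π ∈ A)
    (σ : A ≃+* A) (hσπ : σ ⟨π, hπ⟩ = ⟨π, hπ⟩)
    (hσ0 : ∀ a : A, ((a : L))⁻¹ ∉ V0 → (((σ a : A) : L))⁻¹ ∉ Voo)
    (hσmid : ∀ a : A, ((a : L))⁻¹ ∉ Vmid → (((σ a : A) : L))⁻¹ ∉ Vmid)
    (hσ0' : ∀ a : A, ((a : L))⁻¹ ∉ V0 → (((σ.symm a : A) : L))⁻¹ ∉ Voo)
    (htriple : ∀ m' : Ideal A, m'.IsMaximal → (⟨π, hπ⟩ : A) ∈ m' →
      S36DI_Cross Voo V0 A' A m' → S36ONE_On Voo A m')
    (m : Ideal A) (hm : m.IsMaximal) (hπm : (⟨π, hπ⟩ : A) ∈ m) :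
    (S36ONE_On Voo A m ∧ ∃ d : A, d ∉ m ∧ ∃ v ∈ (Vmid ⊓ V0 : Subring L), (d : L) = π * v) ∨
    (S36ONE_On Vmid A m ∧ ∃ d : A, d ∉ m ∧ ∃ v ∈ (Voo ⊓ V0 : Subring L), (d : L) = π * v) ∨
    (S36ONE_On V0 A m ∧ ∃ d : A, d ∉ m ∧ ∃ v ∈ (Voo ⊓ Vmid : Subring L), (d : L) = π * v) ∨
    S36DI_Cross Voo V0 A' A m := by
  haveI hmp : m.IsPrime := hm.isPrime
  have hwit : ∀ V : Subring L, ¬ S36ONE_On V A m → ∃ d : A, d ∉ m ∧ ((d : L))⁻¹ ∉ V := by
    intro V hV
    obtain ⟨d, hd⟩ := not_forall.1 hV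
    obtain ⟨hdn, hdm⟩ := Classical.not_imp.1 hd
    exact ⟨d, hdm, hdn⟩
  by_cases h0 : S36ONE_On V0 A m
  · by_cases hoo : S36ONE_On Voo A m
    · exact Or.inr (Or.inr (Or.inr (S36DI_cross_of_oo_0 m hoo h0)))
    · by_cases hmid : S36ONE_On Vmid A m
      · exact Or.inr (Or.inr (Or.inr (S36DI_cross_of_mid_0 hA'mid m hmid h0)))
      · obtain ⟨doo, hdoom, hdoo⟩ := hwit _ hoo
        obtain ⟨dmid, hdmidm, hdmid⟩ := hwit _ hmid
        refine Or.inr (Or.inr (Or.inl ⟨h0, dmid ^ e * doo, fun hmem => ?_, ?_⟩))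
        · rcases hmp.mem_or_mem hmem with h1 | h1
          · exact hdmidm (hmp.mem_of_pow_mem e h1)
          · exact hdoom h1
        · exact S36ONE_witness' hAoo hAmid hπ0 t e hte doo dmid
            (hunifoo _ (hAoo doo.2) hdoo) (hunifmid _ (hAmid dmid.2) hdmid)
  · by_cases hoo : S36ONE_On Voo A m
    · by_cases hmid : S36ONE_On Vmid A m
      · exact absurd (S36DI_mirror hA'mid hπ σ hσπ hσ0 hσmid hσ0' htriple m hm hπm hoo hmid) h0
      · obtain ⟨dmid, hdmidm, hdmid⟩ := hwit _ hmid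
        obtain ⟨d0, hd0m, hd0⟩ := hwit _ h0
        refine Or.inl ⟨hoo, dmid ^ e * d0, fun hmem => ?_, ?_⟩
        · rcases hmp.mem_or_mem hmem with h1 | h1
          · exact hdmidm (hmp.mem_of_pow_mem e h1)
          · exact hd0m h1
        · exact S36ONE_witness hAmid hA0 hπ0 t e hte dmid d0
            (hunifmid _ (hAmid dmid.2) hdmid) (hunif0 _ (hA0 d0.2) hd0)
    · by_cases hmid : S36ONE_On Vmid A m
      · obtain ⟨doo, hdoom, hdoo⟩ := hwit _ hoo
        obtain ⟨d0, hd0m, hd0⟩ := hwit _ h0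
        refine Or.inr (Or.inl ⟨hmid, doo * d0, fun hmem => ?_, ?_⟩)
        · rcases hmp.mem_or_mem hmem with h1 | h1
          · exact hdoom h1
          · exact hd0m h1
        · exact S36ONE_witness_mid hAoo hA0 hπ0 doo d0
            (hunifoo _ (hAoo doo.2) hdoo) (hunif0 _ (hA0 d0.2) hd0)
      · exfalso
        rcases S36ONE_on_some hAoo hAmid hA0 hsat hπ0 hunifoo hunif0 t e hte hunifmid hπ m hπm
          with h | h | h
        · exact hoo h
        · exact hmid h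
        · exact h0 h

end Fermat.Agent.S36_helper9_DICH
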