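import Fermat.Agent.S36_helper21_HLOC
import Fermat.Agent.S18_helper19_PLACEMOD

/-!
# S36, THICK-UNR, piece `hloc`: adapters for the modular plug

* membership of the Hauptmodul `h` and of `h(Q^d)` in the function fields of level `N` over any
  field of characteristic `0`;
* `S36HL_hloc` for elements of the function field over `ℚ` (or over any `K1` with an embedding
  into `ℚ̄`), pushed to `ℚ̄` by `S18A3C_inc`.
-/

set_option autoImplicit false
set_option linter.unusedVariables false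
set_option linter.unusedSectionVars false

open UpperHalfPlane ModularForm CongruenceSubgroup ModularCurve Polynomial
open scoped MatrixGroups ModularForm Manifold Topology
open Fermat.Agent.S20 Fermat.Agent.S24 Fermat.Agent.S24_helper10_LOCfin
open Fermat.Agent.S36_helper8_AUXDefs Fermat.Agent.S36_helper21_HLOC
open Fermat.Agent.S18_helper19_PLACEMOD Fermat.Agent.S18_helper25_GLUE

noncomputable section

namespace Fermat.Agent.S36_helper21_HLOCX

theorem S36HX_coeffMap_hK {K K' : Type*} [CommRing K] [CommRing K'] (f : K →+* K')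
    (u : PowerSeries ℤ) : coeffMap f (S36AUX_hK K u) = S36AUX_hK K' u := by
  rw [S36AUX_hK, S36AUX_hK, map_mul, coeffMap_single, map_one, coeffMap_ofPowerSeries]
  congr 2
  rw [← RingHom.comp_apply (PowerSeries.map f) (PowerSeries.map (Int.castRingHom K)),
    ← PowerSeries.map_comp, RingHom.ext_int (f.comp (Int.castRingHom K)) (Int.castRingHom K')]

/-- the Hauptmodul lies in the function field of every level divisible by `r`, over `ℚ` -/
theorem S36HX_mem_rat {r : ℕ} [NeZero r] (D : S36AUX_Data r) (N : ℕ) [NeZero N] (hr : r ∣ N) :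
    S36AUX_hK ℚ D.u ∈ modularFunctionFieldFullC ℚ N :=
  full_degeneracyC_le ℚ hr D.mem

/-- `h(Q^d)` lies in the function field of every level divisible by `r d`, over `ℚ` -/
theorem S36HX_mem_rat_d {r : ℕ} [NeZero r] (D : S36AUX_Data r) (N : ℕ) [NeZero N] (d : ℕ)
    [NeZero d] (hrd : r * d ∣ N) :
    qExpand ℚ d (S36AUX_hK ℚ D.u) ∈ modularFunctionFieldFullC ℚ N := by
  have : NeZero (r * d) := ⟨Nat.mul_ne_zero (NeZero.ne r) (NeZero.ne d)⟩
  refine full_degeneracyC_le ℚ hrd (full_degeneracyC_map_le ℚ r d ?_)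
  exact ⟨S36AUX_hK ℚ D.u, D.mem, rfl⟩

/-- the same over any field of characteristic `0` -/
theorem S36HX_mem_d {r : ℕ} [NeZero r] (D : S36AUX_Data r) (K1 : Type*) [Field K1] [CharZero K1]
    (N : ℕ) [NeZero N] (d : ℕ) [NeZero d] (hrd : r * d ∣ N) :
    qExpand K1 d (S36AUX_hK K1 D.u) ∈ modularFunctionFieldFullC K1 N := by
  have h := S18G_coeffMap_mem (algebraMap ℚ K1) N (S36HX_mem_rat_d D N d hrd)
  rwa [coeffMap_qExpand, S36HX_coeffMap_hK] at h

theorem S36HX_mem {r : ℕ} [NeZero r] (D : S36AUX_Data r) (K1 : Type*) [Field K1] [CharZero K1]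
    (N : ℕ) [NeZero N] (hr : r ∣ N) :
    S36AUX_hK K1 D.u ∈ modularFunctionFieldFullC K1 N := by
  have h := S18G_coeffMap_mem (algebraMap ℚ K1) N (S36HX_mem_rat D N hr)
  rwa [S36HX_coeffMap_hK] at h

/-- **`hloc` over any field with an embedding into `ℚ̄`** -/
theorem S36HX_hloc {r : ℕ} [NeZero r] (D : S36AUX_Data r) (N : ℕ) [NeZero N] (d : ℕ) [NeZero d]
    (hd : d ∣ N) {K1 : Type*} [Field K1] (φ : K1 →+* Kbar) (z₀ : ℍ) (i : Q N)
    (x : modularFunctionFieldFullC K1 N)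
    (hx : (x : LaurentSeries K1) = qExpand K1 d (S36AUX_hK K1 D.u)) :
    ∃ ξ : PowerSeries ℂ, iotaFin N z₀ i (S18A3C_inc N φ x) = HahnSeries.ofPowerSeries ℤ ℂ ξ ∧
      PowerSeries.coeff 1 ξ ≠ 0 := by
  refine S36HL_hloc D N d hd z₀ i _ ?_
  rw [S18A3C_inc_coe, hx, coeffMap_qExpand, S36HX_coeffMap_hK]

/-- `hloc` for `x = h` and `y = h(Q^q)` at once, over `ℚ` -/
theorem S36HX_hloc_xy {r : ℕ} [NeZero r] (D : S36AUX_Data r) (N : ℕ) [NeZero N] (q : ℕ) [NeZero q]
    (hrq : r * q ∣ N) (z₀ : ℍ) (i : Q N) :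
    (∃ ξ : PowerSeries ℂ, iotaFin N z₀ i (S18A3C_inc N (algebraMap ℚ Kbar)
        ⟨S36AUX_hK ℚ D.u, S36HX_mem_rat D N ((Dvd.intro _ rfl).trans hrq)⟩) =
        HahnSeries.ofPowerSeries ℤ ℂ ξ ∧ PowerSeries.coeff 1 ξ ≠ 0) ∧
    (∃ ξ₂ : PowerSeries ℂ, iotaFin N z₀ i (S18A3C_inc N (algebraMap ℚ Kbar)
        ⟨qExpand ℚ q (S36AUX_hK ℚ D.u), S36HX_mem_rat_d D N q hrq⟩) =
        HahnSeries.ofPowerSeries ℤ ℂ ξ₂ ∧ PowerSeries.coeff 1 ξ₂ ≠ 0) := by
  refine ⟨?_, ?_⟩
  · refine S36HX_hloc D N 1 (one_dvd N) (algebraMap ℚ Kbar) z₀ i _ ?_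
    show S36AUX_hK ℚ D.u = qExpand ℚ 1 (S36AUX_hK ℚ D.u)
    rw [qExpand_one_apply]
  · exact S36HX_hloc D N q ((Dvd.intro_left _ rfl).trans hrq) (algebraMap ℚ Kbar) z₀ i _ rfl

end Fermat.Agent.S36_helper21_HLOCX
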