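import Mathlib
import Fermat.Agent.S34_helper20_V0K
import Fermat.Agent.S36_helper21_HLOCX
import Fermat.Agent.S36_helper18_THICK

/-!
# S36 (helper18): THICK, valuation facts in the Hauptmodul coordinate

`x = h = S36AUX_hK K u` (`u ∈ 1 + Q ℤ[[Q]]`), `y = V_q x = qExpand K q x`,
`T1 = x^q - y`, `S1 = x - y^q`, `Φ = (X^q - Y)(X - Y^q) + q G` with `Φ(x, y) = 0`.

Gauss level (`D : GaussData O K κ`, `char κ = q`):

* `S36THV_x_mem`, `S36THV_x_red`   : `x` lies in the Gauss ring, with reduction `ξ = S36AUX_hK κ u`;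
* `S36THV_frob`                    : `ξ(Q^q) = ξ^q`;
* `S36THV_transc`                  : `ξ` is transcendental over `κ`;
* `S36THV_T1_red`, `S36THV_S1_red` : `T1 ≡ 0`, `S1 ≢ 0` modulo `π`;
* `S36THV_E_red`                   : `E = x^(q-1) S1² - G(x,y) + S1 G_X(x,y)` has nonzero
  reduction (`S1 Φ_X(x,y) = q E`);
* `S36THV_D_mem`                   : `D Φ_X = - q Φ_Y` implies `D` lies in the Gauss ring;
* `S36THV_D_swap`                  : `D' Φ_X(y,x) = - q Φ_Y(y,x)` implies `D' ∈ π · (Gauss ring)`.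
-/

set_option autoImplicit false
set_option linter.unusedSectionVars false
set_option linter.unusedVariables false
set_option linter.unusedSimpArgs false
set_option linter.style.haveILetI false

noncomputable section

open MvPolynomial ModularCurve
open Fermat.Agent.S18_helper13_GAUSS Fermat.Agent.S36_helper8_AUXDefs
open Fermat.Agent.S36_helper21_HLOCX Fermat.Agent.S36_helper18_THICK
open Fermat.Agent.S34_helper20_V0K Fermat.Agent.S34_helper20_V0
open Fermat.Agent.S18_helper25_COREDefs Fermat.Agent.S34_helper27_V3K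

namespace Fermat.Agent.S36_helper18_THICKV

section Gauss

variable {O K κ : Type*} [CommRing O] [IsDomain O] [Field K] [Field κ] (D : GaussData O K κ)
  (u : PowerSeries ℤ)

theorem S36THV_x_eq : S36AUX_hK K u = D.incS (S36AUX_hK O u) := by
  show _ = coeffMap D.inc _
  rw [S36HX_coeffMap_hK]

theorem S36THV_x_mem : S36AUX_hK K u ∈ D.Vring := by
  rw [S36THV_x_eq D u]; exact D.incS_mem_Vring _

theorem S36THV_x_red : D.redFun (S36AUX_hK K u) = S36AUX_hK κ u := by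
  rw [S36THV_x_eq D u, D.redFun_incS]
  show coeffMap D.res _ = _
  rw [S36HX_coeffMap_hK]

theorem S36THV_y_mem (q : ℕ) [NeZero q] : qExpand K q (S36AUX_hK K u) ∈ D.Vring :=
  (S34V0K_qExpand_mem D q (S36THV_x_mem D u)).1

theorem S36THV_frob (q : ℕ) [NeZero q] [ExpChar κ q] :
    qExpand κ q (S36AUX_hK κ u) = (S36AUX_hK κ u) ^ q := by
  rw [Fermat.Agent.S37K2.S37K2_pow_char κ q, S36HX_coeffMap_hK]

theorem S36THV_y_red (q : ℕ) [NeZero q] [ExpChar κ q] :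
    D.redFun (qExpand K q (S36AUX_hK K u)) = (S36AUX_hK κ u) ^ q := by
  rw [(S34V0K_qExpand_mem D q (S36THV_x_mem D u)).2, S36THV_x_red, S36THV_frob]

/-- the coefficient of `Q⁻¹` in `h` is `1` -/
theorem S36THV_coeff (hu : PowerSeries.constantCoeff u = 1) :
    (S36AUX_hK κ u).coeff (-1) = 1 := by
  rw [S36AUX_hK, HahnSeries.coeff_single_mul, one_mul, sub_self]
  have : ((0 : ℕ) : ℤ) = 0 := rfl
  rw [← this, HahnSeries.ofPowerSeries_apply_coeff]
  simp [hu]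

/-- `ξ` is transcendental over the constants -/
theorem S36THV_transc (hu : PowerSeries.constantCoeff u = 1) :
    Transcendental κ (S36AUX_hK κ u) := by
  intro halg
  obtain ⟨c, hc⟩ := mem_range_C_of_isAlgebraic halg
  have h1 := S36THV_coeff (κ := κ) u hu
  rw [hc] at h1
  simp at h1

/-- reduction commutes with the evaluation of integer polynomials -/
theorem S36THV_red_ev {x y : LaurentSeries K} (hx : x ∈ D.Vring) (hy : y ∈ D.Vring)
    (H : MvPolynomial (Fin 2) ℤ) :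
    S36TH_ev ![x, y] H ∈ D.Vring ∧
      D.redFun (S36TH_ev ![x, y] H) = S36TH_ev ![D.redFun x, D.redFun y] H := by
  have h1 := S36TH_map_ev (D.Vring.subtype) ![(⟨x, hx⟩ : D.Vring), ⟨y, hy⟩] H
  rw [S36TH_vec] at h1
  have h2 := S36TH_map_ev D.red ![(⟨x, hx⟩ : D.Vring), ⟨y, hy⟩] H
  rw [S36TH_vec] at h2
  have h1' : ((S36TH_ev ![(⟨x, hx⟩ : D.Vring), ⟨y, hy⟩] H : D.Vring) : LaurentSeries K) =
      S36TH_ev ![x, y] H := h1
  constructor
  · rw [← h1']; exact (S36TH_ev ![(⟨x, hx⟩ : D.Vring), ⟨y, hy⟩] H).2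
  · rw [← h1', ← D.red_apply, h2]
    rfl

/-- `q ≡ 0` modulo `π` -/
theorem S36THV_q_red (q : ℕ) [CharP κ q] : D.redFun ((q : ℕ) : LaurentSeries K) = 0 := by
  have h1 : ((q : ℕ) : LaurentSeries K) = D.incS ((q : ℕ) : LaurentSeries O) := by
    rw [map_natCast]
  rw [h1, D.redFun_incS]
  show coeffMap D.res ((q : ℕ) : LaurentSeries O) = 0
  rw [map_natCast]
  have h2 : ((q : ℕ) : LaurentSeries κ) = HahnSeries.C ((q : ℕ) : κ) := by
    rw [map_natCast]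
  rw [h2, CharP.cast_eq_zero, map_zero]

theorem S36THV_q_mem (q : ℕ) : ((q : ℕ) : LaurentSeries K) ∈ D.Vring := natCast_mem _ q

section Red

variable (q : ℕ) [hqf : Fact q.Prime] [CharP κ q]

/-- evaluation of the polynomial `F` at a series -/
theorem S36THV_F_eval (G : MvPolynomial (Fin 2) ℤ) (ξ : LaurentSeries κ) :
    Polynomial.aeval ξ (Polynomial.X ^ (q - 1) * (Polynomial.X - Polynomial.X ^ (q ^ 2)) ^ 2
        - S36TH_g κ q G
        + Polynomial.derivative (S36TH_g κ q G) * (Polynomial.X - Polynomial.X ^ (q ^ 2))) =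
      ξ ^ (q - 1) * (ξ - ξ ^ (q ^ 2)) ^ 2 - S36TH_ev ![ξ, ξ ^ q] G
        + S36TH_ev ![ξ, ξ ^ q] (pderiv 0 G) * (ξ - ξ ^ (q ^ 2)) := by
  have hg : ∀ H : MvPolynomial (Fin 2) ℤ,
      Polynomial.aeval ξ (S36TH_ev ![(Polynomial.X : Polynomial κ), Polynomial.X ^ q] H) =
        S36TH_ev ![ξ, ξ ^ q] H := by
    intro H
    have := S36TH_map_ev ((Polynomial.aeval ξ : Polynomial κ →ₐ[κ] LaurentSeries κ) :
      Polynomial κ →+* LaurentSeries κ) ![(Polynomial.X : Polynomial κ), Polynomial.X ^ q] H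
    rw [S36TH_vec] at this
    simpa using this
  rw [S36TH_g_derivative]
  simp only [map_add, map_sub, map_mul, map_pow, Polynomial.aeval_X]
  rw [hg (pderiv 0 G)]
  have hg' := hg G
  rw [show S36TH_ev ![(Polynomial.X : Polynomial κ), Polynomial.X ^ q] G = S36TH_g κ q G from rfl]
    at hg'
  rw [hg']

include hqf in
/-- **the key non-vanishing**: `F(ξ) ≠ 0` -/
theorem S36THV_F_ne (hu : PowerSeries.constantCoeff u = 1) (G : MvPolynomial (Fin 2) ℤ) :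
    (S36AUX_hK κ u) ^ (q - 1) * (S36AUX_hK κ u - (S36AUX_hK κ u) ^ (q ^ 2)) ^ 2
        - S36TH_ev ![S36AUX_hK κ u, (S36AUX_hK κ u) ^ q] G
        + S36TH_ev ![S36AUX_hK κ u, (S36AUX_hK κ u) ^ q] (pderiv 0 G) *
          (S36AUX_hK κ u - (S36AUX_hK κ u) ^ (q ^ 2)) ≠ 0 := by
  have htr := S36THV_transc (κ := κ) u hu
  rw [transcendental_iff_injective] at htr
  rw [← S36THV_F_eval q G]
  intro h0
  rw [← map_zero (Polynomial.aeval (R := κ) (S36AUX_hK κ u))] at h0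
  exact S36TH_F_ne_zero q (S36TH_g κ q G) (htr h0)

include hqf in
/-- `ξ ≠ ξ^(q²)` -/
theorem S36THV_pi_ne (hu : PowerSeries.constantCoeff u = 1) :
    S36AUX_hK κ u - (S36AUX_hK κ u) ^ (q ^ 2) ≠ 0 := by
  have htr := S36THV_transc (κ := κ) u hu
  rw [transcendental_iff_injective] at htr
  intro h0
  have h1 : Polynomial.aeval (S36AUX_hK κ u)
      ((Polynomial.X : Polynomial κ) - Polynomial.X ^ (q ^ 2)) = 0 := by
    simpa using h0
  rw [← map_zero (Polynomial.aeval (R := κ) (S36AUX_hK κ u))] at h1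
  have h2 := htr h1
  have h3 := congrArg (fun p : Polynomial κ => p.coeff 1) h2
  have hq2 : q ^ 2 ≠ 1 := by
    have := hqf.out.two_le
    intro h
    nlinarith
  simp only [Polynomial.coeff_sub, Polynomial.coeff_X_one, Polynomial.coeff_X_pow,
    Polynomial.coeff_zero] at h3
  rw [if_neg (fun h => hq2 h.symm), sub_zero] at h3
  exact one_ne_zero h3

end Red

section Main

variable (q : ℕ) [hqf : Fact q.Prime] [CharP κ q]

/-- `T1 = x^q - y ∈ π · (Gauss ring)` -/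
theorem S36THV_T1 [NeZero q] :
    ∃ v ∈ D.Vring, (S36AUX_hK K u) ^ q - qExpand K q (S36AUX_hK K u) = D.πK * v := by
  haveI : ExpChar κ q := ExpChar.prime hqf.out
  refine D.exists_eq_mul_of_redFun_eq_zero
    (sub_mem (D.Vring.pow_mem (S36THV_x_mem D u) q) (S36THV_y_mem D u q)) ?_
  rw [D.redFun_sub (D.Vring.pow_mem (S36THV_x_mem D u) q) (S36THV_y_mem D u q),
    D.redFun_pow (S36THV_x_mem D u), S36THV_x_red, S36THV_y_red, sub_self]

/-- `S1 = x - y^q` has nonzero reduction `ξ - ξ^(q²)` -/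
theorem S36THV_S1_red [NeZero q] :
    D.redFun (S36AUX_hK K u - (qExpand K q (S36AUX_hK K u)) ^ q) =
      S36AUX_hK κ u - (S36AUX_hK κ u) ^ (q ^ 2) := by
  haveI : ExpChar κ q := ExpChar.prime hqf.out
  rw [D.redFun_sub (S36THV_x_mem D u) (D.Vring.pow_mem (S36THV_y_mem D u q) q),
    D.redFun_pow (S36THV_y_mem D u q), S36THV_x_red, S36THV_y_red, ← pow_mul, pow_two]

end Main

section Abs

variable (q : ℕ) [hqf : Fact q.Prime] [CharP κ q] (G : MvPolynomial (Fin 2) ℤ)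

/-- the polynomial `E = X^(q-1) (X - Y^q)² - G + G_X (X - Y^q)` -/
def S36THV_Epoly : MvPolynomial (Fin 2) ℤ :=
  X 0 ^ (q - 1) * (X 0 - X 1 ^ q) ^ 2 - G + pderiv 0 G * (X 0 - X 1 ^ q)

theorem S36THV_Epoly_ev {R : Type*} [CommRing R] (x y : R) :
    S36TH_ev ![x, y] (S36THV_Epoly q G) =
      x ^ (q - 1) * (x - y ^ q) ^ 2 - S36TH_ev ![x, y] G
        + S36TH_ev ![x, y] (pderiv 0 G) * (x - y ^ q) := by
  simp [S36THV_Epoly, S36TH_ev]

/-- `(x - y^q) Φ_X(x, y) = q E(x, y) + Φ(x, y)` -/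
theorem S36THV_key {R : Type*} [CommRing R] (x y : R) :
    (x - y ^ q) * S36TH_ev ![x, y] (pderiv 0 (S36TH_Phi q G)) =
      (q : R) * S36TH_ev ![x, y] (S36THV_Epoly q G) + S36TH_ev ![x, y] (S36TH_Phi q G) := by
  rw [S36TH_Phi_pderiv0, S36THV_Epoly_ev, S36TH_Phi_ev]
  ring

include hqf in
/-- **`D = q dx/dy` lies in the Gauss ring** -/
theorem S36THV_D_mem_abs {x y : LaurentSeries K} (hx : x ∈ D.Vring) (hy : y ∈ D.Vring)
    (ξ : LaurentSeries κ) (hxr : D.redFun x = ξ) (hyr : D.redFun y = ξ ^ q)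
    (hF : ξ ^ (q - 1) * (ξ - ξ ^ (q ^ 2)) ^ 2 - S36TH_ev ![ξ, ξ ^ q] G
        + S36TH_ev ![ξ, ξ ^ q] (pderiv 0 G) * (ξ - ξ ^ (q ^ 2)) ≠ 0)
    (hq0 : ((q : ℕ) : LaurentSeries K) ≠ 0)
    (hΦ : S36TH_ev ![x, y] (S36TH_Phi q G) = 0)
    (Dq : LaurentSeries K)
    (hD : Dq * S36TH_ev ![x, y] (pderiv 0 (S36TH_Phi q G)) =
      -((q : ℕ) : LaurentSeries K) * S36TH_ev ![x, y] (pderiv 1 (S36TH_Phi q G))) :
    Dq ∈ D.Vring := by
  obtain ⟨hE, hEr⟩ := S36THV_red_ev D hx hy (S36THV_Epoly q G)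
  obtain ⟨hY, -⟩ := S36THV_red_ev D hx hy (pderiv 1 (S36TH_Phi q G))
  have hEne : D.redFun (S36TH_ev ![x, y] (S36THV_Epoly q G)) ≠ 0 := by
    rw [hEr, hxr, hyr, S36THV_Epoly_ev]
    have e : (ξ ^ q) ^ q = ξ ^ (q ^ 2) := by rw [← pow_mul, pow_two]
    rw [e]
    exact hF
  have hEinv := D.inv_mem_Vring hE hEne
  have hE0 : S36TH_ev ![x, y] (S36THV_Epoly q G) ≠ 0 := by
    intro h0
    rw [h0] at hEne
    exact hEne D.redFun_zero
  have hkey := S36THV_key q G x y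
  rw [hΦ, add_zero] at hkey
  have h1 : ((q : ℕ) : LaurentSeries K) * (Dq * S36TH_ev ![x, y] (S36THV_Epoly q G)
      + (x - y ^ q) * S36TH_ev ![x, y] (pderiv 1 (S36TH_Phi q G))) = 0 := by
    linear_combination Dq * hkey.symm + (x - y ^ q) * hD
  have h2 : Dq * S36TH_ev ![x, y] (S36THV_Epoly q G)
      + (x - y ^ q) * S36TH_ev ![x, y] (pderiv 1 (S36TH_Phi q G)) = 0 := by
    rcases mul_eq_zero.mp h1 with h | h
    · exact absurd h hq0
    · exact h
  have h3 : Dq = -((x - y ^ q) * S36TH_ev ![x, y] (pderiv 1 (S36TH_Phi q G))) *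
      (S36TH_ev ![x, y] (S36THV_Epoly q G))⁻¹ := by
    rw [eq_mul_inv_iff_mul_eq₀ hE0]
    linear_combination h2
  rw [h3]
  exact mul_mem (neg_mem (mul_mem (sub_mem hx (pow_mem hy q)) hY)) hEinv

include hqf in
/-- **the mirror**: `D' = q dy/dx` lies in `π q · (Gauss ring)` -/
theorem S36THV_D_swap_abs {x y : LaurentSeries K} (hx : x ∈ D.Vring) (hy : y ∈ D.Vring)
    (ξ : LaurentSeries κ) (hxr : D.redFun x = ξ) (hyr : D.redFun y = ξ ^ q)
    (hϖ : ξ - ξ ^ (q ^ 2) ≠ 0)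
    (D' : LaurentSeries K)
    (hD' : D' * S36TH_ev ![y, x] (pderiv 0 (S36TH_Phi q G)) =
      -((q : ℕ) : LaurentSeries K) * S36TH_ev ![y, x] (pderiv 1 (S36TH_Phi q G))) :
    ∃ v ∈ D.Vring, D' = D.πK * (((q : ℕ) : LaurentSeries K) * v) := by
  have hqκ : ((q : ℕ) : LaurentSeries κ) = 0 := by
    have h2 : ((q : ℕ) : LaurentSeries κ) = HahnSeries.C ((q : ℕ) : κ) := by
      rw [map_natCast]
    rw [h2, CharP.cast_eq_zero, map_zero]
  have e : (ξ ^ q) ^ q = ξ ^ (q ^ 2) := by rw [← pow_mul, pow_two]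
  obtain ⟨hU, hUr⟩ := S36THV_red_ev D hy hx (pderiv 0 (S36TH_Phi q G))
  obtain ⟨hW, hWr⟩ := S36THV_red_ev D hy hx (pderiv 1 (S36TH_Phi q G))
  have hUκ : S36TH_ev ![ξ ^ q, ξ] (pderiv 0 (S36TH_Phi q G)) = ξ ^ (q ^ 2) - ξ := by
    rw [S36TH_Phi_pderiv0, hqκ, e]; ring
  have hWκ : S36TH_ev ![ξ ^ q, ξ] (pderiv 1 (S36TH_Phi q G)) = 0 := by
    rw [S36TH_Phi_pderiv1, hqκ]; ring
  rw [hxr, hyr, hUκ] at hUr
  rw [hxr, hyr, hWκ] at hWr
  have hUne : D.redFun (S36TH_ev ![y, x] (pderiv 0 (S36TH_Phi q G))) ≠ 0 := by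
    rw [hUr]
    intro h0
    apply hϖ
    linear_combination -h0
  have hW0 : D.redFun (S36TH_ev ![y, x] (pderiv 1 (S36TH_Phi q G))) = 0 := hWr
  have hUinv := D.inv_mem_Vring hU hUne
  have hU0 : S36TH_ev ![y, x] (pderiv 0 (S36TH_Phi q G)) ≠ 0 := by
    intro h0
    rw [h0] at hUne
    exact hUne D.redFun_zero
  obtain ⟨v, hv, hWv⟩ := D.exists_eq_mul_of_redFun_eq_zero hW hW0
  refine ⟨-(v * (S36TH_ev ![y, x] (pderiv 0 (S36TH_Phi q G)))⁻¹),
    neg_mem (mul_mem hv hUinv), ?_⟩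
  have h3 : D' = (-((q : ℕ) : LaurentSeries K) * S36TH_ev ![y, x] (pderiv 1 (S36TH_Phi q G))) *
      (S36TH_ev ![y, x] (pderiv 0 (S36TH_Phi q G)))⁻¹ := by
    rw [eq_mul_inv_iff_mul_eq₀ hU0]
    exact hD'
  rw [h3, hWv]
  ring

end Abs

end Gauss

/-! ### The concrete carriers -/

section Concrete

variable (A : ValuationSubring (AlgebraicClosure ℚ))
  (K1 : IntermediateField ℚ (AlgebraicClosure ℚ)) [IsDiscreteValuationRing (S18K_O1 A K1)]
  {r : ℕ} [NeZero r] (Dx : S36AUX_Data r)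
  (q N' N : ℕ) [NeZero N'] [NeZero N] [NeZero q] (hq : q.Prime) (hqN : ¬ q ∣ N')
  (hN : N = q * N') (hr : r ∣ N')

include hr in
/-- `x ∈ F(N')` -/
theorem S36THV_x_F' : S36AUX_hK K1 Dx.u ∈ modularFunctionFieldFullC K1 N' :=
  S36HX_mem Dx K1 N' hr

include hr hN in
/-- `x ∈ F(N)` -/
theorem S36THV_x_F : S36AUX_hK K1 Dx.u ∈ modularFunctionFieldFullC K1 N :=
  S36HX_mem Dx K1 N (hr.trans (S34V0K_dvd hN))

include hr hN in
/-- `y ∈ F(N)` -/
theorem S36THV_y_F : qExpand K1 q (S36AUX_hK K1 Dx.u) ∈ modularFunctionFieldFullC K1 N := by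
  refine S36HX_mem_d Dx K1 N q ?_
  obtain ⟨c, hc⟩ := hr
  exact ⟨c, by rw [hN, hc]; ring⟩

include hr in
/-- `x ∈ V1(N')` -/
theorem S36THV_x_V' : S36AUX_hK K1 Dx.u ∈ S18K_V A K1 N' :=
  ⟨S36THV_x_mem (S18K_D A K1) Dx.u, S36THV_x_F' K1 Dx N' hr⟩

include hr hN in
/-- `x ∈ V1(N)` -/
theorem S36THV_x_V : S36AUX_hK K1 Dx.u ∈ S18K_V A K1 N :=
  ⟨S36THV_x_mem (S18K_D A K1) Dx.u, S36THV_x_F K1 Dx q N' N hN hr⟩

include hr hN in
/-- `y ∈ V1(N)` -/
theorem S36THV_y_V : qExpand K1 q (S36AUX_hK K1 Dx.u) ∈ S18K_V A K1 N :=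
  ⟨S36THV_y_mem (S18K_D A K1) Dx.u q, S36THV_y_F K1 Dx q N' N hN hr⟩

include hq hr hN in
/-- **`T1 = x^q - y ∈ π V1`** -/
theorem S36THV_T1_V1 (hA : A.LiesOverPrime q) :
    ∃ v ∈ S18K_V A K1 N,
      (S36AUX_hK K1 Dx.u) ^ q - qExpand K1 q (S36AUX_hK K1 Dx.u) = S18K_π A K1 * v := by
  haveI : Fact q.Prime := ⟨hq⟩
  haveI : CharP (IsLocalRing.ResidueField A) q := S34V0K_charP A hq hA
  obtain ⟨v, hv, h⟩ := S36THV_T1 (S18K_D A K1) Dx.u q
  refine ⟨v, S34V0K_div_mem A K1 N ?_ hv h, h⟩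
  exact sub_mem (pow_mem (S36THV_x_F K1 Dx q N' N hN hr) q) (S36THV_y_F K1 Dx q N' N hN hr)

include hq hr hN in
/-- **`S1 = x - y^q ∉ π V1`** -/
theorem S36THV_S1_V1 (hA : A.LiesOverPrime q) :
    ¬ ∃ v ∈ S18K_V A K1 N,
      S36AUX_hK K1 Dx.u - (qExpand K1 q (S36AUX_hK K1 Dx.u)) ^ q = S18K_π A K1 * v := by
  haveI : Fact q.Prime := ⟨hq⟩
  haveI : CharP (IsLocalRing.ResidueField A) q := S34V0K_charP A hq hA
  rintro ⟨v, hv, h⟩
  have h1 := S36THV_S1_red (S18K_D A K1) Dx.u q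
  rw [h] at h1
  have h2 : (S18K_D A K1).redFun (S18K_π A K1 * v) = 0 := (S18K_D A K1).redFun_πK_mul hv.1
  rw [h2] at h1
  exact S36THV_pi_ne (κ := IsLocalRing.ResidueField A) Dx.u q Dx.hu h1.symm

include hq hr hN in
/-- `S1 ≠ 0` and `S1⁻¹ ∈ V1` -/
theorem S36THV_S1_unit (hA : A.LiesOverPrime q) :
    S36AUX_hK K1 Dx.u - (qExpand K1 q (S36AUX_hK K1 Dx.u)) ^ q ≠ 0 ∧
      (S36AUX_hK K1 Dx.u - (qExpand K1 q (S36AUX_hK K1 Dx.u)) ^ q)⁻¹ ∈ S18K_V A K1 N := by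
  haveI : Fact q.Prime := ⟨hq⟩
  haveI : CharP (IsLocalRing.ResidueField A) q := S34V0K_charP A hq hA
  have hred : (S18K_D A K1).redFun
      (S36AUX_hK K1 Dx.u - (qExpand K1 q (S36AUX_hK K1 Dx.u)) ^ q) ≠ 0 := by
    rw [S36THV_S1_red (S18K_D A K1) Dx.u q]
    exact S36THV_pi_ne (κ := IsLocalRing.ResidueField A) Dx.u q Dx.hu
  have hmem : S36AUX_hK K1 Dx.u - (qExpand K1 q (S36AUX_hK K1 Dx.u)) ^ q ∈
      (S18K_D A K1).Vring :=
    sub_mem (S36THV_x_mem (S18K_D A K1) Dx.u)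
      (pow_mem (S36THV_y_mem (S18K_D A K1) Dx.u q) q)
  refine ⟨?_, (S18K_D A K1).inv_mem_Vring hmem hred, ?_⟩
  · intro h0
    rw [h0] at hred
    exact hred (S18K_D A K1).redFun_zero
  · show _ ∈ modularFunctionFieldFullC K1 N
    exact inv_mem (sub_mem (S36THV_x_F K1 Dx q N' N hN hr)
      (pow_mem (S36THV_y_F K1 Dx q N' N hN hr) q))

include hr in
/-- **`S1 = x - y^q ∈ π V2`** -/
theorem S36THV_S1_V2 (hA : A.LiesOverPrime q) :
    ∃ v ∈ S34V0K_V A K1 q N' N hq hqN hN,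
      S36AUX_hK K1 Dx.u - (qExpand K1 q (S36AUX_hK K1 Dx.u)) ^ q = S18K_π A K1 * v := by
  obtain ⟨v, hv, h⟩ := S36THV_T1_V1 A K1 Dx q N' N hq hN hr hA
  refine S34V0_frob (S34V0K_emb K1) q N' N hq hqN hN ⟨_, rfl⟩ (S18K_D A K1).πK_ne_zero
    (S36THV_x_F' K1 Dx N' hr) (neg_mem hv) ?_
  show _ = S18K_π A K1 * -v
  linear_combination -h

include hq hr hN in
/-- **`D = q dx/dy ∈ V1`** -/
theorem S36THV_D_V1 (hA : A.LiesOverPrime q) (G : MvPolynomial (Fin 2) ℤ)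
    (hΦ : S36TH_ev ![S36AUX_hK K1 Dx.u, qExpand K1 q (S36AUX_hK K1 Dx.u)] (S36TH_Phi q G) = 0)
    (Dq : LaurentSeries K1) (hDF : Dq ∈ modularFunctionFieldFullC K1 N)
    (hD : Dq * S36TH_ev ![S36AUX_hK K1 Dx.u, qExpand K1 q (S36AUX_hK K1 Dx.u)]
        (pderiv 0 (S36TH_Phi q G)) =
      -((q : ℕ) : LaurentSeries K1) *
        S36TH_ev ![S36AUX_hK K1 Dx.u, qExpand K1 q (S36AUX_hK K1 Dx.u)]
          (pderiv 1 (S36TH_Phi q G))) :
    Dq ∈ S18K_V A K1 N := by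
  haveI : Fact q.Prime := ⟨hq⟩
  haveI : CharP (IsLocalRing.ResidueField A) q := S34V0K_charP A hq hA
  haveI : ExpChar (IsLocalRing.ResidueField A) q := ExpChar.prime hq
  haveI : CharZero (LaurentSeries K1) :=
    charZero_of_injective_ringHom (HahnSeries.C_injective (Γ := ℤ) (R := K1))
  refine ⟨?_, hDF⟩
  refine S36THV_D_mem_abs (S18K_D A K1) q G (S36THV_x_mem (S18K_D A K1) Dx.u)
    (S36THV_y_mem (S18K_D A K1) Dx.u q) (S36AUX_hK (IsLocalRing.ResidueField A) Dx.u)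
    (S36THV_x_red (S18K_D A K1) Dx.u) (S36THV_y_red (S18K_D A K1) Dx.u q)
    (S36THV_F_ne Dx.u q Dx.hu G) ?_ hΦ Dq hD
  exact_mod_cast hq.ne_zero

set_option maxHeartbeats 1600000 in
include hr in
/-- **`D = q dx/dy ∈ π q V2`** -/
theorem S36THV_D_V2 (hA : A.LiesOverPrime q) (G : MvPolynomial (Fin 2) ℤ)
    (Dq : LaurentSeries K1) (hDF : Dq ∈ modularFunctionFieldFullC K1 N)
    (hD : Dq * S36TH_ev ![S36AUX_hK K1 Dx.u, qExpand K1 q (S36AUX_hK K1 Dx.u)]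
        (pderiv 0 (S36TH_Phi q G)) =
      -((q : ℕ) : LaurentSeries K1) *
        S36TH_ev ![S36AUX_hK K1 Dx.u, qExpand K1 q (S36AUX_hK K1 Dx.u)]
          (pderiv 1 (S36TH_Phi q G))) :
    ∃ v ∈ S34V0K_V A K1 q N' N hq hqN hN,
      Dq = S18K_π A K1 * (((q : ℕ) : LaurentSeries K1) * v) := by
  haveI : Fact q.Prime := ⟨hq⟩
  haveI : CharP (IsLocalRing.ResidueField A) q := S34V0K_charP A hq hA
  haveI : ExpChar (IsLocalRing.ResidueField A) q := ExpChar.prime hq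
  haveI : CharZero (LaurentSeries K1) :=
    charZero_of_injective_ringHom (HahnSeries.C_injective (Γ := ℤ) (R := K1))
  have hq0 : ((q : ℕ) : LaurentSeries K1) ≠ 0 := by exact_mod_cast hq.ne_zero
  have hπ0 : S18K_π A K1 ≠ 0 := (S18K_D A K1).πK_ne_zero
  set x := S36AUX_hK K1 Dx.u with hxdef
  set y := qExpand K1 q x with hydef
  have hxF' : x ∈ modularFunctionFieldFullC K1 N' := S36THV_x_F' K1 Dx N' hr
  have hxF : x ∈ modularFunctionFieldFullC K1 N := S36THV_x_F K1 Dx q N' N hN hr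
  have hyF : y ∈ modularFunctionFieldFullC K1 N := S36THV_y_F K1 Dx q N' N hN hr
  set w := S34V0_w (S34V0K_emb K1) q N' N hq hqN hN with hwdef
  set xF : modularFunctionFieldFullC K1 N := ⟨x, hxF⟩ with hxFdef
  set yF : modularFunctionFieldFullC K1 N := ⟨y, hyF⟩ with hyFdef
  set DF : modularFunctionFieldFullC K1 N := ⟨Dq, hDF⟩ with hDFdef
  have hwx : w xF = yF :=
    Subtype.ext (S34V0_w_level (S34V0K_emb K1) q N' N hq hqN hN xF hxF')
  have hwy : w yF = xF := by rw [← hwx, hwdef, S34V0_w_w]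
  have hev : ∀ (a b : modularFunctionFieldFullC K1 N) (H : MvPolynomial (Fin 2) ℤ),
      ((S36TH_ev ![a, b] H : modularFunctionFieldFullC K1 N) : LaurentSeries K1) =
        S36TH_ev ![(a : LaurentSeries K1), (b : LaurentSeries K1)] H := by
    intro a b H
    have := S36TH_map_ev ((modularFunctionFieldFullC K1 N).val :
      modularFunctionFieldFullC K1 N →+* LaurentSeries K1) ![a, b] H
    rw [S36TH_vec] at this
    exact this
  have hD_F : DF * S36TH_ev ![xF, yF] (pderiv 0 (S36TH_Phi q G)) =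
      -((q : ℕ) : modularFunctionFieldFullC K1 N) *
        S36TH_ev ![xF, yF] (pderiv 1 (S36TH_Phi q G)) := by
    apply Subtype.ext
    push_cast
    rw [hev, hev]
    exact hD
  have hwD := congrArg (w : modularFunctionFieldFullC K1 N →+* modularFunctionFieldFullC K1 N)
    hD_F
  rw [map_mul, map_mul, map_neg, map_natCast, S36TH_map_ev, S36TH_map_ev, S36TH_vec] at hwD
  have hwx' : (w : modularFunctionFieldFullC K1 N →+* modularFunctionFieldFullC K1 N) xF = yF :=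
    hwx
  have hwy' : (w : modularFunctionFieldFullC K1 N →+* modularFunctionFieldFullC K1 N) yF = xF :=
    hwy
  rw [hwx', hwy'] at hwD
  have hwD' := congrArg (fun t : modularFunctionFieldFullC K1 N => (t : LaurentSeries K1)) hwD
  simp only [MulMemClass.coe_mul, NegMemClass.coe_neg] at hwD'
  rw [hev, hev] at hwD'
  have hcast : (((q : ℕ) : modularFunctionFieldFullC K1 N) : LaurentSeries K1) =
      ((q : ℕ) : LaurentSeries K1) := by push_cast; rfl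
  rw [hcast] at hwD'
  obtain ⟨v, hv, hvD⟩ := S36THV_D_swap_abs (S18K_D A K1) q G
    (S36THV_x_mem (S18K_D A K1) Dx.u) (S36THV_y_mem (S18K_D A K1) Dx.u q)
    (S36AUX_hK (IsLocalRing.ResidueField A) Dx.u)
    (S36THV_x_red (S18K_D A K1) Dx.u) (S36THV_y_red (S18K_D A K1) Dx.u q)
    (S36THV_pi_ne Dx.u q Dx.hu) _ hwD'
  -- `v ∈ F(N)`
  have hπF : S18K_π A K1 ∈ modularFunctionFieldFullC K1 N := S34V0_C_mem N _
  have hqF : ((q : ℕ) : LaurentSeries K1) ∈ modularFunctionFieldFullC K1 N := natCast_mem _ q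
  have hwDF : ((w DF : modularFunctionFieldFullC K1 N) : LaurentSeries K1) ∈
      modularFunctionFieldFullC K1 N := (w DF).2
  have hwDcoe : (((w : modularFunctionFieldFullC K1 N →+* modularFunctionFieldFullC K1 N) DF :
      modularFunctionFieldFullC K1 N) : LaurentSeries K1) =
      ((w DF : modularFunctionFieldFullC K1 N) : LaurentSeries K1) := rfl
  rw [hwDcoe] at hvD
  replace hvD : ((w DF : modularFunctionFieldFullC K1 N) : LaurentSeries K1) =
      S18K_π A K1 * (((q : ℕ) : LaurentSeries K1) * v) := hvD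
  have hvF : v ∈ modularFunctionFieldFullC K1 N := by
    have e : v = (S18K_π A K1)⁻¹ * (((q : ℕ) : LaurentSeries K1))⁻¹ *
        ((w DF : modularFunctionFieldFullC K1 N) : LaurentSeries K1) := by
      rw [hvD]
      field_simp
    rw [e]
    exact mul_mem (mul_mem (inv_mem hπF) (inv_mem hqF)) hwDF
  have hvV : v ∈ S18K_V A K1 N := ⟨hv, hvF⟩
  refine ⟨S34V0_wL (S34V0K_emb K1) q N' N hq hqN hN v,
    S34V0_wL_mem_image (S34V0K_emb K1) q N' N hq hqN hN hvF hvV, ?_⟩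
  -- apply `w` once more
  have h1 : S34V0_wL (S34V0K_emb K1) q N' N hq hqN hN
      ((w DF : modularFunctionFieldFullC K1 N) : LaurentSeries K1) = Dq := by
    rw [S34V0_wL_of_mem (S34V0K_emb K1) q N' N hq hqN hN hwDF]
    have : (⟨((w DF : modularFunctionFieldFullC K1 N) : LaurentSeries K1), hwDF⟩ :
        modularFunctionFieldFullC K1 N) = w DF := rfl
    rw [this, hwdef, S34V0_w_w]
  have hqC : ((q : ℕ) : LaurentSeries K1) = HahnSeries.C ((q : ℕ) : K1) := by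
    rw [map_natCast]
  rw [← h1, hvD, S34V0_wL_mul (S34V0K_emb K1) q N' N hq hqN hN hπF (mul_mem hqF hvF),
    S34V0_wL_mul (S34V0K_emb K1) q N' N hq hqN hN hqF hvF]
  congr 1
  · exact S34V0_wL_C (S34V0K_emb K1) q N' N hq hqN hN _
  · congr 1
    rw [hqC]
    exact S34V0_wL_C (S34V0K_emb K1) q N' N hq hqN hN _

end Concrete

end Fermat.Agent.S36_helper18_THICKV
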