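import Mathlib
import Fermat.Agent.S34_helper8_MODEQa
import Fermat.Agent.S36_helper18_THICK

/-!
# S36, THICK-UNR, abstract layer (helper25)

`F` a field over `ℚ`, `j ∈ F` transcendental, `F` finite over `ℚ(j)`.  A *point system* is, for
every complex number `c`, a finite family of embeddings `e i : F → ℂ((s))`, the identity on
constants, which send `j` to ONE power series with constant term `c`.

* `S36TU_integral_of_distinct` : an element `x` whose conjugates `e i x` are pairwise distinct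
  power series at every point is integral over `ℚ[j]`;
* `S36TU_integral` : if `t` is such an element, then EVERY `f ∈ F` with `e i f ∈ ℂ[[s]]` for all
  points and all `i` is integral over `ℚ[j]` (primitive element `f + c₀ t`);
* `S36TU_main` : **THICK-UNR, abstract**: if `Φ(x, y) = 0` for `Φ ∈ ℤ[X, Y]` and at every point
  `e i x`, `e i y` are power series, the derivative of `e i y` being a unit, then there is
  `Dq ∈ F`, integral over `ℚ[j]`, with `Dq * Φ_X(x, y) = - q * Φ_Y(x, y)`.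
-/

set_option autoImplicit false
set_option linter.unusedSectionVars false
set_option linter.unusedVariables false
set_option linter.style.haveILetI false

open Polynomial IntermediateField

namespace Fermat.Agent.S36_helper25_THUNRA

open Fermat.Agent.S34_helper8_MODEQ Fermat.Agent.S36_helper18_THICK

noncomputable section

/-- two ring homomorphisms into a field which agree on a set agree on the field generated by it
over `ℚ`. -/
theorem S36TU_agree_adjoin {F Ω : Type*} [Field F] [Algebra ℚ F] [Field Ω]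
    (f g : F →+* Ω) (S : Set F) (hS : ∀ x ∈ S, f x = g x) (a : F)
    (ha : a ∈ IntermediateField.adjoin ℚ S) : f a = g a := by
  induction ha using IntermediateField.adjoin_induction with
  | mem y hy => exact hS y hy
  | algebraMap r =>
    have h : f.comp (algebraMap ℚ F) = g.comp (algebraMap ℚ F) := RingHom.ext_rat _ _
    exact congrArg (fun φ => φ r) h
  | add y z _ _ h1 h2 => rw [map_add, map_add, h1, h2]
  | inv y _ h1 => rw [map_inv₀, map_inv₀, h1]
  | mul y z _ _ h1 h2 => rw [map_mul, map_mul, h1, h2]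

section Points

variable {F : Type*} [Field F] [Algebra ℚ F] {ι : Type*}

/-- the embeddings `e i` form a point over `j = c`: identity on constants, and `j` goes to one
power series with constant term `c`. -/
def S36TU_Pt (j : F) (c : ℂ) (e : ι → F →+* LaurentSeries ℂ) : Prop :=
  (∀ i (a : ℚ), e i (algebraMap ℚ F a) = HahnSeries.C (a : ℂ)) ∧
    ∃ τ : PowerSeries ℂ, PowerSeries.constantCoeff τ = c ∧
      ∀ i, e i j = HahnSeries.ofPowerSeries ℤ ℂ τ

/-- `x` is regular at the point: every `e i x` is a power series. -/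
def S36TU_Reg (e : ι → F →+* LaurentSeries ℂ) (x : F) : Prop :=
  ∀ i, ∃ β : PowerSeries ℂ, e i x = HahnSeries.ofPowerSeries ℤ ℂ β

theorem S36TU_reg_add (e : ι → F →+* LaurentSeries ℂ) {x y : F} (hx : S36TU_Reg e x)
    (hy : S36TU_Reg e y) : S36TU_Reg e (x + y) := by
  intro i
  obtain ⟨a, ha⟩ := hx i
  obtain ⟨b, hb⟩ := hy i
  exact ⟨a + b, by rw [map_add, ha, hb, map_add]⟩

theorem S36TU_reg_mul (e : ι → F →+* LaurentSeries ℂ) {x y : F} (hx : S36TU_Reg e x)
    (hy : S36TU_Reg e y) : S36TU_Reg e (x * y) := by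
  intro i
  obtain ⟨a, ha⟩ := hx i
  obtain ⟨b, hb⟩ := hy i
  exact ⟨a * b, by rw [map_mul, ha, hb, map_mul]⟩

theorem S36TU_reg_const {j : F} {c : ℂ} (e : ι → F →+* LaurentSeries ℂ) (he : S36TU_Pt j c e)
    (a : ℚ) : S36TU_Reg e (algebraMap ℚ F a) := by
  intro i
  exact ⟨PowerSeries.C (a : ℂ), by rw [he.1 i a, HahnSeries.ofPowerSeries_C]⟩

/-- on `ℚ(j)` all the embeddings of a point agree. -/
theorem S36TU_pt_agree {j : F} {c : ℂ} (e : ι → F →+* LaurentSeries ℂ) (he : S36TU_Pt j c e)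
    (i i' : ι) (a : ℚ⟮j⟯) : e i (algebraMap ℚ⟮j⟯ F a) = e i' (algebraMap ℚ⟮j⟯ F a) := by
  obtain ⟨τ, -, hτ⟩ := he.2
  refine S36TU_agree_adjoin (e i) (e i') {j} ?_ _ a.2
  intro y hy
  rw [Set.mem_singleton_iff] at hy
  rw [hy, hτ, hτ]

end Points

section Integral

variable {F : Type*} [Field F] [Algebra ℚ F] {ι : Type*} [Fintype ι] [Nonempty ι]

/-- **integrality from regular, pairwise distinct conjugates.** -/
theorem S36TU_integral_of_distinct (j x : F) (hj : Transcendental ℚ j)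
    [FiniteDimensional ℚ⟮j⟯ F] (hcard : Module.finrank ℚ⟮j⟯ F ≤ Fintype.card ι)
    (hreg : ∀ c : ℂ, ∃ e : ι → F →+* LaurentSeries ℂ,
      S36TU_Pt j c e ∧ Function.Injective (fun i => e i x) ∧ S36TU_Reg e x) :
    IsIntegral (Algebra.adjoin ℚ {j}) x := by
  classical
  obtain ⟨i₀⟩ := ‹Nonempty ι›
  have hcoef : ∀ k : ℕ, ∃ P : Polynomial ℚ,
      aeval j P = algebraMap ℚ⟮j⟯ F ((minpoly ℚ⟮j⟯ x).coeff k) := by
    intro k
    refine S34ME_exists_poly_of_regular j _ hj ((minpoly ℚ⟮j⟯ x).coeff k).2 ?_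
    intro c
    obtain ⟨e, hpt, hinj, hregx⟩ := hreg c
    have he : ∀ i (a : ℚ⟮j⟯), e i (algebraMap ℚ⟮j⟯ F a)
        = ((e i₀).comp (algebraMap ℚ⟮j⟯ F)) a := fun i a => S36TU_pt_agree e hpt i i₀ a
    obtain ⟨hprod, -⟩ := S34ME_split x ((e i₀).comp (algebraMap ℚ⟮j⟯ F)) e he hinj hcard
    obtain ⟨τ, hτc, hτ⟩ := hpt.2
    refine ⟨e i₀, hpt.1 i₀, ⟨τ, hτ i₀, hτc⟩, ?_⟩
    have hmem : (∏ i, (X - C (e i x))).coeff k ∈ (HahnSeries.ofPowerSeries ℤ ℂ).range :=
      S34ME_prod_coeff_mem _ Finset.univ (fun i => e i x)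
        (fun i _ => by
          obtain ⟨β, hβ⟩ := hregx i
          exact ⟨β, hβ.symm⟩) k
    rw [← hprod, coeff_map] at hmem
    obtain ⟨β, hβ⟩ := hmem
    exact ⟨β, hβ.symm⟩
  -- the minimal polynomial has coefficients in `ℚ[j]`
  have hint : IsIntegral ℚ⟮j⟯ x := IsIntegral.of_finite ℚ⟮j⟯ x
  have hlift : (minpoly ℚ⟮j⟯ x).map (algebraMap ℚ⟮j⟯ F)
      ∈ Polynomial.lifts (algebraMap (Algebra.adjoin ℚ {j}) F) := by
    rw [Polynomial.lifts_iff_coeff_lifts]
    intro k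
    obtain ⟨P, hP⟩ := hcoef k
    rw [coeff_map, ← hP]
    exact ⟨⟨aeval j P, aeval_mem_adjoin_singleton ℚ j⟩, rfl⟩
  obtain ⟨p, hp, -, hpm⟩ := Polynomial.lifts_and_degree_eq_and_monic hlift
    ((minpoly.monic hint).map _)
  refine ⟨p, hpm, ?_⟩
  rw [← eval_map, hp, eval_map, ← aeval_def, minpoly.aeval]

/-- **integrality from regularity**: if `t` has regular, pairwise distinct conjugates at every
point, then every `f` which is regular at every point is integral over `ℚ[j]`. -/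
theorem S36TU_integral (j t f : F) (hj : Transcendental ℚ j)
    [FiniteDimensional ℚ⟮j⟯ F] (hcard : Module.finrank ℚ⟮j⟯ F ≤ Fintype.card ι)
    (hreg : ∀ c : ℂ, ∃ e : ι → F →+* LaurentSeries ℂ,
      S36TU_Pt j c e ∧ Function.Injective (fun i => e i t) ∧ S36TU_Reg e t ∧ S36TU_Reg e f) :
    IsIntegral (Algebra.adjoin ℚ {j}) f := by
  classical
  obtain ⟨i₀⟩ := ‹Nonempty ι›
  -- `t` is integral
  have ht : IsIntegral (Algebra.adjoin ℚ {j}) t :=
    S36TU_integral_of_distinct j t hj hcard (fun c => by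
      obtain ⟨e, hpt, hinj, hrt, -⟩ := hreg c
      exact ⟨e, hpt, hinj, hrt⟩)
  -- the base point and the choice of the constant
  obtain ⟨e₀, hpt₀, hinj₀, hrt₀, hrf₀⟩ := hreg 0
  have hbad : {a : ℚ | ∃ i i' : ι, i ≠ i' ∧
      e₀ i (f + algebraMap ℚ F a * t) = e₀ i' (f + algebraMap ℚ F a * t)}.Finite := by
    have hsub : {a : ℚ | ∃ i i' : ι, i ≠ i' ∧
        e₀ i (f + algebraMap ℚ F a * t) = e₀ i' (f + algebraMap ℚ F a * t)}
        ⊆ ⋃ p : ι × ι, {a : ℚ | p.1 ≠ p.2 ∧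
          e₀ p.1 (f + algebraMap ℚ F a * t) = e₀ p.2 (f + algebraMap ℚ F a * t)} := by
      rintro a ⟨i, i', hne, h⟩
      exact Set.mem_iUnion.2 ⟨(i, i'), hne, h⟩
    refine (Set.finite_iUnion fun p => ?_).subset hsub
    apply Set.Subsingleton.finite
    rintro a ⟨hne, ha⟩ b ⟨-, hb⟩
    by_contra hab
    have hdiff : e₀ p.1 t ≠ e₀ p.2 t := fun h => hne (hinj₀ h)
    rw [map_add, map_add, map_mul, map_mul, hpt₀.1, hpt₀.1] at ha hb
    have h1 : (HahnSeries.C ((a : ℂ)) - HahnSeries.C ((b : ℂ))) * (e₀ p.1 t - e₀ p.2 t)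
        = (0 : LaurentSeries ℂ) := by
      linear_combination ha - hb
    rcases mul_eq_zero.1 h1 with h2 | h2
    · apply hab
      have h3 : HahnSeries.C ((a : ℂ)) = (HahnSeries.C ((b : ℂ)) : LaurentSeries ℂ) :=
        sub_eq_zero.1 h2
      have h4 : (a : ℂ) = (b : ℂ) := HahnSeries.C_injective h3
      exact_mod_cast h4
    · exact hdiff (sub_eq_zero.1 h2)
  obtain ⟨c₀, hc₀⟩ := hbad.infinite_compl.nonempty
  have hinjθ₀ : Function.Injective (fun i => e₀ i (f + algebraMap ℚ F c₀ * t)) := by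
    intro i i' h
    by_contra hne
    exact hc₀ ⟨i, i', hne, h⟩
  -- `θ := f + c₀ t` is a primitive element
  have he₀ : ∀ i (a : ℚ⟮j⟯), e₀ i (algebraMap ℚ⟮j⟯ F a)
      = ((e₀ i₀).comp (algebraMap ℚ⟮j⟯ F)) a := fun i a => S36TU_pt_agree e₀ hpt₀ i i₀ a
  obtain ⟨-, hdeg⟩ := S34ME_split (f + algebraMap ℚ F c₀ * t)
    ((e₀ i₀).comp (algebraMap ℚ⟮j⟯ F)) e₀ he₀ hinjθ₀ hcard
  have hintθ : IsIntegral ℚ⟮j⟯ (f + algebraMap ℚ F c₀ * t) := IsIntegral.of_finite ℚ⟮j⟯ _
  have htop : ℚ⟮j⟯⟮f + algebraMap ℚ F c₀ * t⟯ = ⊤ := by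
    rw [Field.primitive_element_iff_minpoly_natDegree_eq]
    refine le_antisymm (minpoly.natDegree_le _) ?_
    rw [hdeg]
    exact hcard
  -- hence its conjugates are distinct at every point
  have hθ : IsIntegral (Algebra.adjoin ℚ {j}) (f + algebraMap ℚ F c₀ * t) := by
    refine S36TU_integral_of_distinct j _ hj hcard (fun c => ?_)
    obtain ⟨e, hpt, hinj, hrt, hrf⟩ := hreg c
    refine ⟨e, hpt, ?_, S36TU_reg_add e hrf (S36TU_reg_mul e (S36TU_reg_const e hpt c₀) hrt)⟩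
    intro i i' h
    apply hinj
    have hall : ∀ y : F, y ∈ ℚ⟮j⟯⟮f + algebraMap ℚ F c₀ * t⟯ → e i y = e i' y := by
      intro y hy
      induction hy using IntermediateField.adjoin_induction with
      | mem z hz =>
        rw [Set.mem_singleton_iff] at hz
        rw [hz]
        exact h
      | algebraMap r => exact S36TU_pt_agree e hpt i i' r
      | add y z _ _ h1 h2 => rw [map_add, map_add, h1, h2]
      | inv y _ h1 => rw [map_inv₀, map_inv₀, h1]
      | mul y z _ _ h1 h2 => rw [map_mul, map_mul, h1, h2]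
    exact hall t (by rw [htop]; trivial)
  -- `f = θ - c₀ t`
  have hc : IsIntegral (Algebra.adjoin ℚ {j}) (algebraMap ℚ F c₀) := by
    have : algebraMap ℚ F c₀ = algebraMap (Algebra.adjoin ℚ {j}) F (algebraMap ℚ _ c₀) := rfl
    rw [this]
    exact isIntegral_algebraMap
  have hf : f = (f + algebraMap ℚ F c₀ * t) - algebraMap ℚ F c₀ * t := by ring
  rw [hf]
  exact hθ.sub (hc.mul ht)

end Integral

/-! ### the chain rule at a point -/

section Local

open scoped PowerSeries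

variable {F : Type*} [Field F]

/-- evaluation of an integer polynomial at two power series, inside `ℂ((s))`. -/
theorem S36TU_ev_ofPowerSeries (X Y : PowerSeries ℂ) (G : MvPolynomial (Fin 2) ℤ) :
    S36TH_ev ![HahnSeries.ofPowerSeries ℤ ℂ X, HahnSeries.ofPowerSeries ℤ ℂ Y] G
      = HahnSeries.ofPowerSeries ℤ ℂ (S36TH_ev ![X, Y] G) := by
  rw [S36TH_map_ev (HahnSeries.ofPowerSeries ℤ ℂ) ![X, Y] G, S36TH_vec]

/-- the image of `G(x, y)` under an embedding with `e x = X`, `e y = Y` power series. -/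
theorem S36TU_map_ev (e : F →+* LaurentSeries ℂ) (x y : F) (X Y : PowerSeries ℂ)
    (hX : e x = HahnSeries.ofPowerSeries ℤ ℂ X) (hY : e y = HahnSeries.ofPowerSeries ℤ ℂ Y)
    (G : MvPolynomial (Fin 2) ℤ) :
    e (S36TH_ev ![x, y] G) = HahnSeries.ofPowerSeries ℤ ℂ (S36TH_ev ![X, Y] G) := by
  rw [S36TH_map_ev e ![x, y] G, S36TH_vec, hX, hY, S36TU_ev_ofPowerSeries]

/-- the chain rule for power series: `Φ(X, Y) = 0` gives `Φ_X(X, Y) X' + Φ_Y(X, Y) Y' = 0`. -/
theorem S36TU_chain (X Y : PowerSeries ℂ) (Φ : MvPolynomial (Fin 2) ℤ)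
    (hΦ : S36TH_ev ![X, Y] Φ = 0) :
    S36TH_ev ![X, Y] (MvPolynomial.pderiv 0 Φ) * PowerSeries.derivative ℂ X
      + S36TH_ev ![X, Y] (MvPolynomial.pderiv 1 Φ) * PowerSeries.derivative ℂ Y = 0 := by
  have h := S36TH_chain (fun a => PowerSeries.derivative ℂ a)
    (fun a b => map_add _ a b)
    (fun a b => by
      show PowerSeries.derivative ℂ (a * b) = _
      rw [Derivation.leibniz, smul_eq_mul, smul_eq_mul]
      ring)
    (fun n => Derivation.map_intCast _ n) ![X, Y] Φ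
  rw [hΦ] at h
  simp only [map_zero] at h
  exact h.symm

/-- **the local computation**: if `Φ(x, y) = 0`, `e x = X`, `e y = Y` are power series and `Y'`
is a unit, then `e (Φ_Y(x, y)) = - (X' / Y') * e (Φ_X(x, y))` with `X' / Y'` a power series. -/
theorem S36TU_local (e : F →+* LaurentSeries ℂ) (x y : F) (Φ : MvPolynomial (Fin 2) ℤ)
    (hΦ : S36TH_ev ![x, y] Φ = 0) (X Y : PowerSeries ℂ)
    (hX : e x = HahnSeries.ofPowerSeries ℤ ℂ X) (hY : e y = HahnSeries.ofPowerSeries ℤ ℂ Y)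
    (hu : IsUnit (PowerSeries.derivative ℂ Y)) :
    ∃ β : PowerSeries ℂ, e (S36TH_ev ![x, y] (MvPolynomial.pderiv 1 Φ))
      = -(HahnSeries.ofPowerSeries ℤ ℂ β * e (S36TH_ev ![x, y] (MvPolynomial.pderiv 0 Φ))) := by
  have h0 : S36TH_ev ![X, Y] Φ = 0 := by
    apply HahnSeries.ofPowerSeries_injective (Γ := ℤ)
    rw [← S36TU_map_ev e x y X Y hX hY, hΦ, map_zero, map_zero]
  have hc := S36TU_chain X Y Φ h0
  obtain ⟨u, hu'⟩ := hu
  refine ⟨PowerSeries.derivative ℂ X * (↑u⁻¹ : PowerSeries ℂ), ?_⟩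
  rw [S36TU_map_ev e x y X Y hX hY, S36TU_map_ev e x y X Y hX hY, ← map_mul, ← map_neg]
  congr 1
  have h1 : S36TH_ev ![X, Y] (MvPolynomial.pderiv 1 Φ) * (u : PowerSeries ℂ)
      = -(S36TH_ev ![X, Y] (MvPolynomial.pderiv 0 Φ) * PowerSeries.derivative ℂ X) := by
    rw [hu']
    linear_combination hc
  calc S36TH_ev ![X, Y] (MvPolynomial.pderiv 1 Φ)
      = S36TH_ev ![X, Y] (MvPolynomial.pderiv 1 Φ) * (u : PowerSeries ℂ)
          * (↑u⁻¹ : PowerSeries ℂ) := by
        rw [mul_assoc, Units.mul_inv, mul_one]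
    _ = -(PowerSeries.derivative ℂ X * (↑u⁻¹ : PowerSeries ℂ)
          * S36TH_ev ![X, Y] (MvPolynomial.pderiv 0 Φ)) := by
        rw [h1]
        ring

end Local

/-! ### THICK-UNR, abstract -/

section Main

variable {F : Type*} [Field F] [Algebra ℚ F] {ι : Type*} [Fintype ι] [Nonempty ι]

/-- `x`, `y` are regular at the point and the derivative of `y` is a unit. -/
def S36TU_Loc (e : ι → F →+* LaurentSeries ℂ) (x y : F) : Prop :=
  ∀ i, ∃ X Y : PowerSeries ℂ, e i x = HahnSeries.ofPowerSeries ℤ ℂ X ∧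
    e i y = HahnSeries.ofPowerSeries ℤ ℂ Y ∧ IsUnit (PowerSeries.derivative ℂ Y)

/-- **THICK-UNR, abstract.** -/
theorem S36TU_main (j t x y : F) (hj : Transcendental ℚ j)
    [FiniteDimensional ℚ⟮j⟯ F] (hcard : Module.finrank ℚ⟮j⟯ F ≤ Fintype.card ι)
    (q : ℕ) (Φ : MvPolynomial (Fin 2) ℤ) (hΦ : S36TH_ev ![x, y] Φ = 0)
    (hreg : ∀ c : ℂ, ∃ e : ι → F →+* LaurentSeries ℂ,
      S36TU_Pt j c e ∧ Function.Injective (fun i => e i t) ∧ S36TU_Reg e t ∧
        S36TU_Loc e x y) :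
    ∃ Dq : F, Dq * S36TH_ev ![x, y] (MvPolynomial.pderiv 0 Φ)
        = -(q : F) * S36TH_ev ![x, y] (MvPolynomial.pderiv 1 Φ) ∧
      IsIntegral (Algebra.adjoin ℚ {j}) Dq := by
  classical
  obtain ⟨i₀⟩ := ‹Nonempty ι›
  by_cases h0 : S36TH_ev ![x, y] (MvPolynomial.pderiv 0 Φ) = 0
  · -- degenerate case: then `Φ_Y(x, y) = 0` as well
    refine ⟨0, ?_, isIntegral_zero⟩
    obtain ⟨e, -, -, -, hloc⟩ := hreg 0
    obtain ⟨X, Y, hX, hY, hu⟩ := hloc i₀
    obtain ⟨β, hβ⟩ := S36TU_local (e i₀) x y Φ hΦ X Y hX hY hu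
    rw [h0, map_zero, mul_zero, neg_zero] at hβ
    have h1 : S36TH_ev ![x, y] (MvPolynomial.pderiv 1 Φ) = 0 :=
      (map_eq_zero_iff (e i₀) (e i₀).injective).1 hβ
    rw [h0, h1, mul_zero, mul_zero]
  · refine ⟨-(q : F) * S36TH_ev ![x, y] (MvPolynomial.pderiv 1 Φ)
      / S36TH_ev ![x, y] (MvPolynomial.pderiv 0 Φ), div_mul_cancel₀ _ h0, ?_⟩
    refine S36TU_integral j t _ hj hcard (fun c => ?_)
    obtain ⟨e, hpt, hinj, hrt, hloc⟩ := hreg c
    refine ⟨e, hpt, hinj, hrt, fun i => ?_⟩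
    obtain ⟨X, Y, hX, hY, hu⟩ := hloc i
    obtain ⟨β, hβ⟩ := S36TU_local (e i) x y Φ hΦ X Y hX hY hu
    have hne : e i (S36TH_ev ![x, y] (MvPolynomial.pderiv 0 Φ)) ≠ 0 := by
      rw [Ne, map_eq_zero_iff (e i) (e i).injective]
      exact h0
    refine ⟨PowerSeries.C ((q : ℂ)) * β, ?_⟩
    rw [map_div₀, map_mul, map_neg, map_natCast, hβ, map_mul, HahnSeries.ofPowerSeries_C]
    have hq : ((q : ℕ) : LaurentSeries ℂ) = HahnSeries.C ((q : ℂ)) := by
      rw [← map_natCast (HahnSeries.C : ℂ →+* LaurentSeries ℂ)]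
    rw [hq]
    field_simp

end Main

end

end Fermat.Agent.S36_helper25_THUNRA
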