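import Mathlib
import Fermat.Prelude.Def_ModularCurve_X0ModL

/-!
# S36, piece AUX (helper8): the auxiliary Hauptmodul datum `(r, h)` - definitions

For the geometry of `X₀(q² M')` at the supersingular points one works at an auxiliary level `r`
prime to `q`, of genus `0` and without elliptic points: `r = 4` for `q` odd and `r = 9` for
`q = 2`.  The coordinate is the Hauptmodul

* `r = 4` : `h = (η(τ)/η(4τ))^8 = Q⁻¹ - 8 + 20 Q - 62 Q³ + ⋯`,
  `j = (h² + 256 h + 4096)³ / (h⁴ (h + 16))`;
* `r = 9` : `h = (η(τ)/η(9τ))^3 = Q⁻¹ - 3 + 5 Q² - 7 Q⁵ + ⋯`,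
  `j = ((h + 9)(h³ + 243 h² + 2187 h + 6561))³ / (h⁹ (h² + 9 h + 27))`.

`S36AUX_Data r` is the list of facts used by the coordinate bricks; every brick takes
`(D : S36AUX_Data r)` as a parameter.  The two instances are in separate files.

* `S36AUX_h u`      : the Laurent series `Q⁻¹ · u` over `ℤ` (`u` a power series, `u(0) = 1`);
* `S36AUX_hK K u`   : the same over any commutative ring `K`;
* `S36AUX_Data r`   : the structure.
-/

set_option autoImplicit false

open ModularCurve Polynomial

noncomputable section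

namespace Fermat.Agent.S36_helper8_AUXDefs

/-- the Laurent series `Q⁻¹ · u` with integer coefficients -/
def S36AUX_h (u : PowerSeries ℤ) : LaurentSeries ℤ :=
  HahnSeries.single (-1 : ℤ) 1 * HahnSeries.ofPowerSeries ℤ ℤ u

/-- the Laurent series `Q⁻¹ · u` over a commutative ring `K` -/
def S36AUX_hK (K : Type*) [CommRing K] (u : PowerSeries ℤ) : LaurentSeries K :=
  HahnSeries.single (-1 : ℤ) 1 * HahnSeries.ofPowerSeries ℤ K (u.map (Int.castRingHom K))

/-- **The auxiliary Hauptmodul datum of level `r`.**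

`h = Q⁻¹ u` with `u ∈ 1 + Q ℤ[[Q]]`; `j · B(h) = a(h)³` with `a, B` monic over `ℤ`,
`deg B + 1 = 3 deg a` (simple pole of `j` at `h = ∞`); `a³ - 1728 B = c²` (no elliptic points:
every point over `j = 0` has ramification `3`, every point over `j = 1728` has ramification
`2`); `a³` and `B` are coprime up to a power of `r` (the cusps `B(h) = 0` are distinct from the
zeros of `j` away from the primes of `r`); `ℚ(h)` is the function field of level `r`. -/
structure S36AUX_Data (r : ℕ) [NeZero r] where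
  /-- `h = Q⁻¹ u` -/
  u : PowerSeries ℤ
  hu : PowerSeries.constantCoeff u = 1
  /-- `j = a(h)³ / B(h)` -/
  a : Polynomial ℤ
  /-- the cusps other than `∞` are the roots of `B` -/
  B : Polynomial ℤ
  /-- `j - 1728 = c(h)² / B(h)` -/
  c : Polynomial ℤ
  ha : a.Monic
  hB : B.Monic
  hdeg : B.natDegree + 1 = 3 * a.natDegree
  rel : jqModC ℤ * Polynomial.aeval (S36AUX_h u) B = (Polynomial.aeval (S36AUX_h u) a) ^ 3
  hc : a ^ 3 - 1728 * B = c ^ 2
  bez : ∃ (U V : Polynomial ℤ) (e : ℕ), U * a ^ 3 + V * B = Polynomial.C ((r : ℤ) ^ e)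
  mem : S36AUX_hK ℚ u ∈ modularFunctionFieldFullC ℚ r
  gen : modularFunctionFieldFullC ℚ r ≤ IntermediateField.adjoin ℚ {S36AUX_hK ℚ u}

end Fermat.Agent.S36_helper8_AUXDefs
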