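import Mathlib
import Fermat.Agent.S36_helper25_THUNRA
import Fermat.Agent.S36_helper8_AUXDefs
import Fermat.Agent.S18_helper26_DEGK1
import Fermat.Agent.S24_helper10_LOCfin

/-!
# S36, THICK-UNR, the modular plug (helper25)

`D : S36AUX_Data r` the auxiliary Hauptmodul datum, `x = h(Q)` the Hauptmodul of level `r`,
`y = h(Q^q)`, both in the function field of level `N`; `Φ ∈ ℤ[X, Y]` with `Φ(x, y) = 0`.

* `S36TU_Hloc D N q hx hy` : the analytic input (helper21's `hloc`): at every point `z₀` of the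
  upper half plane and for every coset `i`, the expansions `ι x`, `ι y` under `ι = iotaFin N z₀ i`
  are power series and the linear coefficient of `ι y` is not `0`;
* `S36TU_plugQ` : over `ℚ`: there is `Dq` in the function field `F(ℚ, N)`, integral over `ℚ[j]`,
  with `Dq * Φ_X(x, y) = - q * Φ_Y(x, y)`;
* `S36TU_plug` : **THICK-UNR** over any field `K1` of characteristic `0`.
-/

set_option autoImplicit false
set_option linter.unusedSectionVars false
set_option linter.unusedVariables false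
set_option linter.style.haveILetI false

open Polynomial IntermediateField ModularCurve UpperHalfPlane
open Fermat.Agent.S20 Fermat.Agent.S24
open Fermat.Agent.S18_helper26_CONST Fermat.Agent.S18_helper26_DEGK1
open Fermat.Agent.S24_helper10_LOCfin Fermat.Agent.S24_helper10_J
open Fermat.Agent.S36_helper8_AUXDefs Fermat.Agent.S36_helper18_THICK
open Fermat.Agent.S36_helper25_THUNRA

namespace Fermat.Agent.S36_helper25_THUNR

noncomputable section

/- the `ℚ`-algebra structure of the function field is the one of an intermediate field -/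
attribute [local instance 100000] SubalgebraClass.toAlgebra

/-! ### coefficient maps -/

theorem S36TU_coeffMap_hK {K K' : Type*} [CommRing K] [CommRing K'] (f : K →+* K')
    (u : PowerSeries ℤ) : coeffMap f (S36AUX_hK K u) = S36AUX_hK K' u := by
  rw [S36AUX_hK, map_mul, coeffMap_single, map_one, coeffMap_ofPowerSeries,
    ← RingHom.comp_apply (PowerSeries.map f) (PowerSeries.map (Int.castRingHom K)),
    ← PowerSeries.map_comp, RingHom.ext_int (f.comp (Int.castRingHom K)) (Int.castRingHom K')]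
  rfl

/-! ### the conjugates of `j(Q^N)` at a finite point are pairwise distinct -/

theorem S36TU_iotaFin_inj (N : ℕ) [NeZero N] (z₀ : ℍ) (q q' : Q N)
    (h1 : iotaFin N z₀ q (jF N N dvd_rfl) = iotaFin N z₀ q' (jF N N dvd_rfl)) : q = q' := by
  rw [iotaFin_jF, iotaFin_jF] at h1
  have h2 : taylorAt z₀ (jd N (q.out⁻¹)) = taylorAt z₀ (jd N (q'.out⁻¹)) :=
    HahnSeries.ofPowerSeries_injective h1
  have hd1 := Fermat.Agent.S24_helper27_J1.jd_mdiff N (Npos N) (q.out⁻¹)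
  have hd2 := Fermat.Agent.S24_helper27_J1.jd_mdiff N (Npos N) (q'.out⁻¹)
  have h3 : jd N (q.out⁻¹) - jd N (q'.out⁻¹) = 0 :=
    Fermat.Agent.S24_helper26_TAY.taylorAt_eq_zero z₀ (hd1.sub hd2)
      (by rw [taylorAt_sub z₀ hd1 hd2, h2, sub_self])
  have h4 : jd N (q.out⁻¹) = jd N (q'.out⁻¹) := sub_eq_zero.mp h3
  have h5 : jd N (q.out⁻¹ * q'.out) = jd N 1 := by
    funext z
    rw [Fermat.Agent.S24_helper27_J1.jd_mul, h4, ← Fermat.Agent.S24_helper27_J1.jd_mul,
      inv_mul_cancel]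
  have h6 := Fermat.Agent.S24_helper24_JD.jd_stab N _ h5
  have h7 : (QuotientGroup.mk q.out : Q N) = QuotientGroup.mk q'.out :=
    QuotientGroup.eq.mpr h6
  rwa [QuotientGroup.out_eq', QuotientGroup.out_eq'] at h7

/-! ### the point system of `F(ℚ, N)` -/

section PointSystem

variable (N : ℕ) [NeZero N]

/-- the embeddings of `F(ℚ, N)` at the point `z₀`. -/
def S36TU_e (z₀ : ℍ) (i : Q N) : modularFunctionFieldFullC ℚ N →+* LaurentSeries ℂ :=
  (iotaFin N z₀ i).comp (S18DEG_inc (algebraMap ℚ Kbar) N)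

theorem S36TU_e_apply (z₀ : ℍ) (i : Q N) (f : modularFunctionFieldFullC ℚ N) :
    S36TU_e N z₀ i f = iotaFin N z₀ i (S18DEG_inc (algebraMap ℚ Kbar) N f) := rfl

theorem S36TU_pt (z₀ : ℍ) : S36TU_Pt (S18P15_jbar ℚ N) (jfun z₀) (S36TU_e N z₀) := by
  refine ⟨fun i a => ?_, taylorAt z₀ jfun, ?_, fun i => ?_⟩
  · rw [S36TU_e_apply]
    have h1 : S18DEG_inc (algebraMap ℚ Kbar) N (algebraMap ℚ (modularFunctionFieldFullC ℚ N) a)
        = algebraMap Kbar (modularFunctionFieldBar N) (algebraMap ℚ Kbar a) :=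
      S18DEG_inc_algebraMap (algebraMap ℚ Kbar) N a
    rw [h1, iotaFin_const]
    congr 1
    exact eq_ratCast (phi0.comp (algebraMap ℚ Kbar)) a
  · exact Fermat.Agent.S24_helper26_TAY.taylorAt_constantCoeff z₀
  · rw [S36TU_e_apply, S18DEG_inc_jbar, iotaFin_jElt]
    rfl

theorem S36TU_inj_t (z₀ : ℍ) :
    Function.Injective (fun i => S36TU_e N z₀ i (S18P15_jbard ℚ N N dvd_rfl)) := by
  intro i i' h
  have h' : S36TU_e N z₀ i (S18P15_jbard ℚ N N dvd_rfl)
      = S36TU_e N z₀ i' (S18P15_jbard ℚ N N dvd_rfl) := h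
  rw [S36TU_e_apply, S36TU_e_apply, S18DEG_inc_jbard] at h'
  exact S36TU_iotaFin_inj N z₀ i i' h'

theorem S36TU_reg_t (z₀ : ℍ) : S36TU_Reg (S36TU_e N z₀) (S18P15_jbard ℚ N N dvd_rfl) := by
  intro i
  refine ⟨taylorAt z₀ (jd N (i.out⁻¹)), ?_⟩
  rw [S36TU_e_apply, S18DEG_inc_jbard, iotaFin_jF]
  rfl

end PointSystem

/-! ### the plug -/

section Plug

variable {r : ℕ} [NeZero r] (D : S36AUX_Data r) (N q : ℕ) [NeZero N] [NeZero q]

/-- **the analytic input** (helper21's `hloc`): at every point of the upper half plane the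
expansions of `x = h(Q)` and `y = h(Q^q)` are power series, and the linear coefficient of the
expansion of `y` is not zero. -/
def S36TU_Hloc (hx : S36AUX_hK ℚ D.u ∈ modularFunctionFieldFullC ℚ N)
    (hy : qExpand ℚ q (S36AUX_hK ℚ D.u) ∈ modularFunctionFieldFullC ℚ N) : Prop :=
  ∀ (z₀ : ℍ) (i : Q N), ∃ X Y : PowerSeries ℂ,
    iotaFin N z₀ i (S18DEG_inc (algebraMap ℚ Kbar) N ⟨S36AUX_hK ℚ D.u, hx⟩)
      = HahnSeries.ofPowerSeries ℤ ℂ X ∧
    iotaFin N z₀ i (S18DEG_inc (algebraMap ℚ Kbar) N ⟨qExpand ℚ q (S36AUX_hK ℚ D.u), hy⟩)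
      = HahnSeries.ofPowerSeries ℤ ℂ Y ∧
    PowerSeries.coeff 1 Y ≠ 0

theorem S36TU_isUnit_derivative (Y : PowerSeries ℂ) (h : PowerSeries.coeff 1 Y ≠ 0) :
    IsUnit (PowerSeries.derivative ℂ Y) := by
  rw [PowerSeries.isUnit_iff_constantCoeff, isUnit_iff_ne_zero]
  have h1 : PowerSeries.constantCoeff (PowerSeries.derivative ℂ Y) = PowerSeries.coeff 1 Y := by
    rw [← PowerSeries.coeff_zero_eq_constantCoeff_apply, PowerSeries.coeff_derivative]
    simp
  rw [h1]
  exact h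

/-- **THICK-UNR over `ℚ`.** -/
theorem S36TU_plugQ (hx : S36AUX_hK ℚ D.u ∈ modularFunctionFieldFullC ℚ N)
    (hy : qExpand ℚ q (S36AUX_hK ℚ D.u) ∈ modularFunctionFieldFullC ℚ N)
    (Φ : MvPolynomial (Fin 2) ℤ)
    (hΦ : S36TH_ev ![S36AUX_hK ℚ D.u, qExpand ℚ q (S36AUX_hK ℚ D.u)] Φ = 0)
    (hloc : S36TU_Hloc D N q hx hy) :
    ∃ Dq : modularFunctionFieldFullC ℚ N,
      Dq * S36TH_ev ![(⟨S36AUX_hK ℚ D.u, hx⟩ : modularFunctionFieldFullC ℚ N),
          ⟨qExpand ℚ q (S36AUX_hK ℚ D.u), hy⟩] (MvPolynomial.pderiv 0 Φ)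
        = -(q : modularFunctionFieldFullC ℚ N) *
          S36TH_ev ![(⟨S36AUX_hK ℚ D.u, hx⟩ : modularFunctionFieldFullC ℚ N),
            ⟨qExpand ℚ q (S36AUX_hK ℚ D.u), hy⟩] (MvPolynomial.pderiv 1 Φ) ∧
      IsIntegral (Algebra.adjoin ℚ {S18P15_jbar ℚ N}) Dq := by
  haveI := S18P15_finiteDimensional ℚ N
  haveI : Nonempty (Q N) := ⟨QuotientGroup.mk 1⟩
  have hcard : Module.finrank ℚ⟮S18P15_jbar ℚ N⟯ (modularFunctionFieldFullC ℚ N)
      ≤ Fintype.card (Q N) := (S18DEG_finrank_card (algebraMap ℚ Kbar) N).le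
  have hΦF : S36TH_ev ![(⟨S36AUX_hK ℚ D.u, hx⟩ : modularFunctionFieldFullC ℚ N),
      ⟨qExpand ℚ q (S36AUX_hK ℚ D.u), hy⟩] Φ = 0 := by
    apply Subtype.val_injective
    have h := S36TH_map_ev (modularFunctionFieldFullC ℚ N).val.toRingHom
      ![(⟨S36AUX_hK ℚ D.u, hx⟩ : modularFunctionFieldFullC ℚ N),
        ⟨qExpand ℚ q (S36AUX_hK ℚ D.u), hy⟩] Φ
    rw [S36TH_vec] at h
    exact h.trans hΦ
  refine S36TU_main (S18P15_jbar ℚ N) (S18P15_jbard ℚ N N dvd_rfl) _ _
    (S18P15_transcendental_jbar ℚ N) hcard q Φ hΦF (fun c => ?_)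
  obtain ⟨z₀, hz₀⟩ := jfun_surjective c
  refine ⟨S36TU_e N z₀, ?_, S36TU_inj_t N z₀, S36TU_reg_t N z₀, fun i => ?_⟩
  · rw [← hz₀]
    exact S36TU_pt N z₀
  · obtain ⟨X, Y, hX, hY, hY1⟩ := hloc z₀ i
    exact ⟨X, Y, hX, hY, S36TU_isUnit_derivative Y hY1⟩

end Plug

/-! ### base change of the constants `ℚ → K1` -/

section BaseChange

variable {r : ℕ} [NeZero r] (D : S36AUX_Data r) (N q : ℕ) [NeZero N] [NeZero q]
variable (K1 : Type*) [Field K1] [CharZero K1]

/-- the elements of `F(ℚ, N)` whose image in `K1((Q))` lies in `K1[j]`. -/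
def S36TU_pre : Subalgebra ℚ (modularFunctionFieldFullC ℚ N) where
  carrier := {a | coeffMap (algebraMap ℚ K1) (a : LaurentSeries ℚ)
    ∈ Algebra.adjoin K1 {jqModC K1}}
  mul_mem' := by
    intro a b ha hb
    show coeffMap (algebraMap ℚ K1) ((a : LaurentSeries ℚ) * (b : LaurentSeries ℚ))
      ∈ Algebra.adjoin K1 {jqModC K1}
    rw [map_mul]
    exact mul_mem ha hb
  add_mem' := by
    intro a b ha hb
    show coeffMap (algebraMap ℚ K1) ((a : LaurentSeries ℚ) + (b : LaurentSeries ℚ))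
      ∈ Algebra.adjoin K1 {jqModC K1}
    rw [map_add]
    exact add_mem ha hb
  algebraMap_mem' := by
    intro c
    show coeffMap (algebraMap ℚ K1)
      ((algebraMap ℚ (modularFunctionFieldFullC ℚ N) c : modularFunctionFieldFullC ℚ N) :
        LaurentSeries ℚ) ∈ Algebra.adjoin K1 {jqModC K1}
    have h : coeffMap (algebraMap ℚ K1)
        ((algebraMap ℚ (modularFunctionFieldFullC ℚ N) c : modularFunctionFieldFullC ℚ N) :
          LaurentSeries ℚ) = algebraMap K1 (LaurentSeries K1) (algebraMap ℚ K1 c) :=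
      congrFun (congrArg DFunLike.coe (RingHom.ext_rat
        ((coeffMap (algebraMap ℚ K1)).comp ((modularFunctionFieldFullC ℚ N).val.toRingHom.comp
          (algebraMap ℚ (modularFunctionFieldFullC ℚ N))))
        ((algebraMap K1 (LaurentSeries K1)).comp (algebraMap ℚ K1)))) c
    rw [h]
    exact Subalgebra.algebraMap_mem _ _

theorem S36TU_adjoin_le_pre : Algebra.adjoin ℚ {S18P15_jbar ℚ N} ≤ S36TU_pre N K1 := by
  refine Algebra.adjoin_le ?_
  intro y hy
  rw [Set.mem_singleton_iff] at hy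
  subst hy
  show coeffMap (algebraMap ℚ K1) (jqModC ℚ) ∈ Algebra.adjoin K1 {jqModC K1}
  rw [coeffMap_jqModC]
  exact Algebra.subset_adjoin rfl

/-- **THICK-UNR over `K1`, elementwise form, with the analytic input as a hypothesis.** -/
theorem S36TU_plugK (hx : S36AUX_hK ℚ D.u ∈ modularFunctionFieldFullC ℚ N)
    (hy : qExpand ℚ q (S36AUX_hK ℚ D.u) ∈ modularFunctionFieldFullC ℚ N)
    (Φ : MvPolynomial (Fin 2) ℤ)
    (hΦ : S36TH_ev ![S36AUX_hK ℚ D.u, qExpand ℚ q (S36AUX_hK ℚ D.u)] Φ = 0)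
    (hloc : S36TU_Hloc D N q hx hy) :
    ∃ Dq : LaurentSeries K1, Dq ∈ modularFunctionFieldFullC K1 N ∧
      Dq * S36TH_ev ![S36AUX_hK K1 D.u, qExpand K1 q (S36AUX_hK K1 D.u)]
          (MvPolynomial.pderiv 0 Φ)
        = -(q : LaurentSeries K1) *
          S36TH_ev ![S36AUX_hK K1 D.u, qExpand K1 q (S36AUX_hK K1 D.u)]
            (MvPolynomial.pderiv 1 Φ) ∧
      ∃ P : Polynomial (LaurentSeries K1), P.Monic ∧
        (∀ n, P.coeff n ∈ Algebra.adjoin K1 {jqModC K1}) ∧ P.eval Dq = 0 := by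
  obtain ⟨Dq, hid, p, hp, hp0⟩ := S36TU_plugQ D N q hx hy Φ hΦ hloc
  have hψ : ∀ G : MvPolynomial (Fin 2) ℤ,
      coeffMap (algebraMap ℚ K1)
        ((S36TH_ev ![(⟨S36AUX_hK ℚ D.u, hx⟩ : modularFunctionFieldFullC ℚ N),
          ⟨qExpand ℚ q (S36AUX_hK ℚ D.u), hy⟩] G : modularFunctionFieldFullC ℚ N) :
            LaurentSeries ℚ)
        = S36TH_ev ![S36AUX_hK K1 D.u, qExpand K1 q (S36AUX_hK K1 D.u)] G := by
    intro G
    have h := S36TH_map_ev ((coeffMap (algebraMap ℚ K1)).comp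
      (modularFunctionFieldFullC ℚ N).val.toRingHom)
      ![(⟨S36AUX_hK ℚ D.u, hx⟩ : modularFunctionFieldFullC ℚ N),
        ⟨qExpand ℚ q (S36AUX_hK ℚ D.u), hy⟩] G
    rw [S36TH_vec] at h
    rw [show S36AUX_hK K1 D.u = coeffMap (algebraMap ℚ K1) (S36AUX_hK ℚ D.u) from
      (S36TU_coeffMap_hK (algebraMap ℚ K1) D.u).symm, ← coeffMap_qExpand]
    exact h
  refine ⟨coeffMap (algebraMap ℚ K1) (Dq : LaurentSeries ℚ),
    Fermat.Agent.S18_helper25_GLUE.S18G_coeffMap_mem (algebraMap ℚ K1) N Dq.2, ?_, ?_⟩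
  · have h : coeffMap (algebraMap ℚ K1)
        ((Dq * S36TH_ev ![(⟨S36AUX_hK ℚ D.u, hx⟩ : modularFunctionFieldFullC ℚ N),
          ⟨qExpand ℚ q (S36AUX_hK ℚ D.u), hy⟩] (MvPolynomial.pderiv 0 Φ) :
            modularFunctionFieldFullC ℚ N) : LaurentSeries ℚ)
        = coeffMap (algebraMap ℚ K1)
          ((-(q : modularFunctionFieldFullC ℚ N) *
            S36TH_ev ![(⟨S36AUX_hK ℚ D.u, hx⟩ : modularFunctionFieldFullC ℚ N),
              ⟨qExpand ℚ q (S36AUX_hK ℚ D.u), hy⟩] (MvPolynomial.pderiv 1 Φ) :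
                modularFunctionFieldFullC ℚ N) : LaurentSeries ℚ) :=
      congrArg (fun z : modularFunctionFieldFullC ℚ N =>
        coeffMap (algebraMap ℚ K1) (z : LaurentSeries ℚ)) hid
    rw [← hψ, ← hψ]
    have e1 : ∀ a b : modularFunctionFieldFullC ℚ N,
        coeffMap (algebraMap ℚ K1) ((a * b : modularFunctionFieldFullC ℚ N) : LaurentSeries ℚ)
          = coeffMap (algebraMap ℚ K1) (a : LaurentSeries ℚ)
            * coeffMap (algebraMap ℚ K1) (b : LaurentSeries ℚ) := fun a b => map_mul _ _ _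
    have e2 : coeffMap (algebraMap ℚ K1)
        ((-(q : modularFunctionFieldFullC ℚ N) : modularFunctionFieldFullC ℚ N) :
          LaurentSeries ℚ) = -(q : LaurentSeries K1) := by
      show coeffMap (algebraMap ℚ K1) (-((q : ℕ) : LaurentSeries ℚ)) = _
      rw [map_neg, map_natCast]
    rw [e1, e1, e2] at h
    exact h
  · refine ⟨p.map (((coeffMap (algebraMap ℚ K1)).comp
      (modularFunctionFieldFullC ℚ N).val.toRingHom).comp
        (algebraMap (Algebra.adjoin ℚ {S18P15_jbar ℚ N}) (modularFunctionFieldFullC ℚ N))),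
      hp.map _, fun n => ?_, ?_⟩
    · rw [Polynomial.coeff_map]
      exact S36TU_adjoin_le_pre N K1 (p.coeff n).2
    · rw [Polynomial.eval_map]
      have h0 : Polynomial.eval₂
          (algebraMap (Algebra.adjoin ℚ {S18P15_jbar ℚ N}) (modularFunctionFieldFullC ℚ N))
          Dq p = 0 := hp0
      have h1 := Polynomial.hom_eval₂ p
        (algebraMap (Algebra.adjoin ℚ {S18P15_jbar ℚ N}) (modularFunctionFieldFullC ℚ N))
        ((coeffMap (algebraMap ℚ K1)).comp (modularFunctionFieldFullC ℚ N).val.toRingHom) Dq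
      rw [h0, map_zero] at h1
      exact h1.symm

end BaseChange

end

end Fermat.Agent.S36_helper25_THUNR
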