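import Mathlib
import Fermat.Agent.S36_helper25_THUNR
import Fermat.Agent.S36_helper21_HLOCX

/-!
# S36, THICK-UNR: the final statement (helper25)

`D : S36AUX_Data r`, `r * q ∣ N`, `K1` any field of characteristic `0`, `x = h(Q)` the Hauptmodul
of level `r` over `K1`, `y = h(Q^q)`, `Φ ∈ ℤ[X, Y]` with `Φ(x, y) = 0`.

* `S36TU_hloc` : the analytic input `S36TU_Hloc` (helper21's `S36HX_hloc_xy`);
* `S36TU_unr_poly` : THICK-UNR in the elementwise form (a monic polynomial over `K1((Q))` with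
  coefficients in `K1[j]` and root `Dq`);
* `S36TU_unr` : **THICK-UNR**: there is `Dq` in the function field `F(K1, N)` with
  `Dq * Φ_X(x, y) = - q * Φ_Y(x, y)` which is integral over `K1[j]`;
* `S36TU_unr_mem` : hence `Dq` lies in every subring of `K1((Q))` which contains the constants
  and `j` and is integrally closed in `K1((Q))` in the sense that it contains every element of
  `K1((Q))` which is integral over it.
-/

set_option autoImplicit false
set_option linter.unusedSectionVars false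
set_option linter.unusedVariables false
set_option linter.style.haveILetI false

open Polynomial IntermediateField ModularCurve UpperHalfPlane
open Fermat.Agent.S20 Fermat.Agent.S24
open Fermat.Agent.S18_helper26_CONST Fermat.Agent.S18_helper26_DEGK1
open Fermat.Agent.S24_helper10_LOCfin
open Fermat.Agent.S36_helper8_AUXDefs Fermat.Agent.S36_helper18_THICK
open Fermat.Agent.S36_helper25_THUNRA Fermat.Agent.S36_helper25_THUNR
open Fermat.Agent.S36_helper21_HLOCX Fermat.Agent.S18_helper25_GLUE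

namespace Fermat.Agent.S36_helper25_THUNRK

noncomputable section

variable {r : ℕ} [NeZero r] (D : S36AUX_Data r) (N q : ℕ) [NeZero N] [NeZero q]

/-- the analytic input, from helper21's `hloc`. -/
theorem S36TU_hloc (hrq : r * q ∣ N) :
    S36TU_Hloc D N q (S36HX_mem_rat D N ((Dvd.intro _ rfl).trans hrq))
      (S36HX_mem_rat_d D N q hrq) := by
  intro z₀ i
  obtain ⟨⟨X, hX, -⟩, ⟨Y, hY, hY1⟩⟩ := S36HX_hloc_xy D N q hrq z₀ i
  exact ⟨X, Y, hX, hY, hY1⟩

theorem S36TU_coeffMap_injective {K K' : Type*} [CommRing K] [CommRing K'] (f : K →+* K')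
    (hf : Function.Injective f) : Function.Injective (coeffMap f) := by
  intro a b h
  ext k
  have h1 := congrArg (fun s => HahnSeries.coeff s k) h
  simp only [coeffMap_coeff] at h1
  exact hf h1

variable (K1 : Type*) [Field K1] [CharZero K1]

/-- the polynomial identity over `K1` descends to `ℚ`. -/
theorem S36TU_ev_rat (Φ : MvPolynomial (Fin 2) ℤ)
    (hΦ : S36TH_ev ![S36AUX_hK K1 D.u, qExpand K1 q (S36AUX_hK K1 D.u)] Φ = 0) :
    S36TH_ev ![S36AUX_hK ℚ D.u, qExpand ℚ q (S36AUX_hK ℚ D.u)] Φ = 0 := by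
  apply S36TU_coeffMap_injective (algebraMap ℚ K1) (algebraMap ℚ K1).injective
  rw [map_zero, S36TH_map_ev (coeffMap (algebraMap ℚ K1)), S36TH_vec, coeffMap_qExpand,
    S36HX_coeffMap_hK]
  exact hΦ

/-- **THICK-UNR, elementwise form**: `Dq` is a root of a monic polynomial with coefficients in
`K1[j]`. -/
theorem S36TU_unr_poly (hrq : r * q ∣ N) (Φ : MvPolynomial (Fin 2) ℤ)
    (hΦ : S36TH_ev ![S36AUX_hK K1 D.u, qExpand K1 q (S36AUX_hK K1 D.u)] Φ = 0) :
    ∃ Dq : LaurentSeries K1, Dq ∈ modularFunctionFieldFullC K1 N ∧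
      Dq * S36TH_ev ![S36AUX_hK K1 D.u, qExpand K1 q (S36AUX_hK K1 D.u)]
          (MvPolynomial.pderiv 0 Φ)
        = -(q : LaurentSeries K1) *
          S36TH_ev ![S36AUX_hK K1 D.u, qExpand K1 q (S36AUX_hK K1 D.u)]
            (MvPolynomial.pderiv 1 Φ) ∧
      ∃ P : Polynomial (LaurentSeries K1), P.Monic ∧
        (∀ n, P.coeff n ∈ Algebra.adjoin K1 {jqModC K1}) ∧ P.eval Dq = 0 :=
  S36TU_plugK D N q K1 (S36HX_mem_rat D N ((Dvd.intro _ rfl).trans hrq))
    (S36HX_mem_rat_d D N q hrq) Φ (S36TU_ev_rat D q K1 Φ hΦ) (S36TU_hloc D N q hrq)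

/-- **THICK-UNR.** -/
theorem S36TU_unr (hrq : r * q ∣ N) (Φ : MvPolynomial (Fin 2) ℤ)
    (hΦ : S36TH_ev ![S36AUX_hK K1 D.u, qExpand K1 q (S36AUX_hK K1 D.u)] Φ = 0) :
    ∃ Dq : LaurentSeries K1, Dq ∈ modularFunctionFieldFullC K1 N ∧
      Dq * S36TH_ev ![S36AUX_hK K1 D.u, qExpand K1 q (S36AUX_hK K1 D.u)]
          (MvPolynomial.pderiv 0 Φ)
        = -(q : LaurentSeries K1) *
          S36TH_ev ![S36AUX_hK K1 D.u, qExpand K1 q (S36AUX_hK K1 D.u)]
            (MvPolynomial.pderiv 1 Φ) ∧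
      IsIntegral (Algebra.adjoin K1 {jqModC K1}) Dq := by
  obtain ⟨Dq, hDq, hid, P, hP, hPc, hP0⟩ := S36TU_unr_poly D N q K1 hrq Φ hΦ
  refine ⟨Dq, hDq, hid, ?_⟩
  have hlift : P ∈ Polynomial.lifts
      (algebraMap (Algebra.adjoin K1 {jqModC K1}) (LaurentSeries K1)) := by
    rw [Polynomial.lifts_iff_coeff_lifts]
    intro n
    exact ⟨⟨P.coeff n, hPc n⟩, rfl⟩
  obtain ⟨p, hp, -, hpm⟩ := Polynomial.lifts_and_degree_eq_and_monic hlift hP
  refine ⟨p, hpm, ?_⟩
  rw [← Polynomial.eval_map, hp]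
  exact hP0

/-- the element `Dq` of THICK-UNR lies in every subring `W` of `K1((Q))` which contains the
constants and `j` and contains the elements of `K1((Q))` integral over it. -/
theorem S36TU_unr_mem (hrq : r * q ∣ N) (Φ : MvPolynomial (Fin 2) ℤ)
    (hΦ : S36TH_ev ![S36AUX_hK K1 D.u, qExpand K1 q (S36AUX_hK K1 D.u)] Φ = 0) :
    ∃ Dq : LaurentSeries K1, Dq ∈ modularFunctionFieldFullC K1 N ∧
      Dq * S36TH_ev ![S36AUX_hK K1 D.u, qExpand K1 q (S36AUX_hK K1 D.u)]
          (MvPolynomial.pderiv 0 Φ)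
        = -(q : LaurentSeries K1) *
          S36TH_ev ![S36AUX_hK K1 D.u, qExpand K1 q (S36AUX_hK K1 D.u)]
            (MvPolynomial.pderiv 1 Φ) ∧
      ∀ W : Subring (LaurentSeries K1), (∀ c : K1, HahnSeries.C c ∈ W) → jqModC K1 ∈ W →
        (∀ z : LaurentSeries K1, IsIntegral W z → z ∈ W) → Dq ∈ W := by
  obtain ⟨Dq, hDq, hid, P, hP, hPc, hP0⟩ := S36TU_unr_poly D N q K1 hrq Φ hΦ
  refine ⟨Dq, hDq, hid, fun W hC hj hW => hW Dq ?_⟩
  have hle : (Algebra.adjoin K1 {jqModC K1} : Subalgebra K1 (LaurentSeries K1)).toSubring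
      ≤ W := by
    have h1 : Algebra.adjoin K1 {jqModC K1} ≤
        ({ W.toSubsemiring with
            algebraMap_mem' := fun c => by
              rw [algebraMap_laurentSeries_eq_single]
              exact hC c } : Subalgebra K1 (LaurentSeries K1)) := by
      refine Algebra.adjoin_le ?_
      intro y hy
      rw [Set.mem_singleton_iff] at hy
      rw [hy]
      exact hj
    intro z hz
    exact h1 hz
  have hlift : P ∈ Polynomial.lifts (algebraMap W (LaurentSeries K1)) := by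
    rw [Polynomial.lifts_iff_coeff_lifts]
    intro n
    exact ⟨⟨P.coeff n, hle (hPc n)⟩, rfl⟩
  obtain ⟨p, hp, -, hpm⟩ := Polynomial.lifts_and_degree_eq_and_monic hlift hP
  refine ⟨p, hpm, ?_⟩
  rw [← Polynomial.eval_map, hp]
  exact hP0

end

end Fermat.Agent.S36_helper25_THUNRK
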