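import Mathlib
import Fermat.Agent.S36_helper25_THUNRK
import Fermat.Agent.S36_helper2_C3

/-!
# S36, THICK-HART (helper25): `Dq = q dx/dy` lies in the finite chart

`S36TU_unr` says that `Dq` is integral over `K1[j]`.  The finite chart `X` of level `N` is the
integral closure of `O[j]` in `F1`, it is saturated in `V` (`π v ∈ X`, `v ∈ V` ⟹ `v ∈ X`), and
`K1 = O[1/π]`.  Hence `π ^ n * Dq ∈ X` for some `n`, and `Dq ∈ V ⟹ Dq ∈ X`.

* `S36TUH_scale`   : every element of `T[j]` (`T` a set of constants which are fractions with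
  denominator a power of `π`) is multiplied into `O[j]` by a power of `π`;
* `S36TUH_abs`     : abstract form: a root `y ∈ F1 ∩ V` of a monic polynomial with coefficients in
  `T[j]` lies in the chart `X`;
* `S36TUH_const`   : the constants of `K1` at the carriers `S18K_O`, `S18K_π`;
* `S36TUH_mem`     : **THICK-HART**: the element `Dq` of THICK-UNR lies in every chart `X` at `j`
  (relative to any `V`) as soon as it lies in `V`; in particular in every local ring `locRing X m`;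
* `S36TUH_unique`  : `Dq` is determined by the chain rule identity when `Φ_X(x, y) ≠ 0`.
-/

set_option autoImplicit false
set_option linter.unusedSectionVars false
set_option linter.unusedVariables false
set_option linter.style.haveILetI false

open Polynomial ModularCurve
open Fermat.Agent.S18_helper9_CDefs Fermat.Agent.S18_helper9_CBasic
open Fermat.Agent.S18_helper3_LOCRING Fermat.Agent.S34_helper12_CDefs
open Fermat.Agent.S36_helper8_AUXDefs Fermat.Agent.S36_helper18_THICK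
open Fermat.Agent.S36_helper25_THUNRK Fermat.Agent.S18_helper25_COREDefs

namespace Fermat.Agent.S36_helper25_THUNRH

noncomputable section

section Abstract

variable {L : Type*} [Field L]

/-- a power of `π` multiplies an element of `T[j]` into `O[j]`. -/
theorem S36TUH_scale (O : Subring L) (π j : L) (hπO : π ∈ O) (T : Set L)
    (hT : ∀ c ∈ T, ∃ n : ℕ, π ^ n * c ∈ O) (a : L)
    (ha : a ∈ Subring.closure (T ∪ {j})) :
    ∃ n : ℕ, ∀ k : ℕ, n ≤ k → π ^ k * a ∈ adj O j := by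
  have hπ : ∀ k : ℕ, π ^ k ∈ adj O j := fun k => (adj O j).pow_mem (le_adj O j hπO) k
  induction ha using Subring.closure_induction with
  | mem x hx =>
    rcases hx with hx | hx
    · obtain ⟨n, hn⟩ := hT x hx
      refine ⟨n, fun k hk => ?_⟩
      have : π ^ k * x = π ^ (k - n) * (π ^ n * x) := by
        rw [← mul_assoc, ← pow_add, Nat.sub_add_cancel hk]
      rw [this]
      exact (adj O j).mul_mem (hπ _) (le_adj O j hn)
    · rw [Set.mem_singleton_iff] at hx
      rw [hx]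
      exact ⟨0, fun k _ => (adj O j).mul_mem (hπ k) (mem_adj_self O j)⟩
  | zero => exact ⟨0, fun k _ => by rw [mul_zero]; exact (adj O j).zero_mem⟩
  | one => exact ⟨0, fun k _ => by rw [mul_one]; exact hπ k⟩
  | add x y _ _ hx hy =>
    obtain ⟨n1, h1⟩ := hx
    obtain ⟨n2, h2⟩ := hy
    refine ⟨max n1 n2, fun k hk => ?_⟩
    rw [mul_add]
    exact (adj O j).add_mem (h1 k (le_trans (le_max_left _ _) hk))
      (h2 k (le_trans (le_max_right _ _) hk))
  | neg x _ hx =>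
    obtain ⟨n1, h1⟩ := hx
    refine ⟨n1, fun k hk => ?_⟩
    rw [mul_neg]
    exact (adj O j).neg_mem (h1 k hk)
  | mul x y _ _ hx hy =>
    obtain ⟨n1, h1⟩ := hx
    obtain ⟨n2, h2⟩ := hy
    refine ⟨n1 + n2, fun k hk => ?_⟩
    have : π ^ k * (x * y) = (π ^ n1 * x) * (π ^ (k - n1) * y) := by
      have hk1 : n1 ≤ k := le_trans (Nat.le_add_right _ _) hk
      have : π ^ k = π ^ n1 * π ^ (k - n1) := by
        rw [← pow_add, Nat.add_sub_cancel' hk1]
      rw [this]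
      ring
    rw [this]
    exact (adj O j).mul_mem (h1 n1 le_rfl) (h2 (k - n1) (by omega))

/-- a common power of `π` for finitely many elements. -/
theorem S36TUH_scale_fin (O : Subring L) (π j : L) (hπO : π ∈ O) (T : Set L)
    (hT : ∀ c ∈ T, ∃ n : ℕ, π ^ n * c ∈ O) (f : ℕ → L)
    (hf : ∀ i, f i ∈ Subring.closure (T ∪ {j})) (d : ℕ) :
    ∃ n : ℕ, ∀ i, i < d → ∀ k : ℕ, n ≤ k → π ^ k * f i ∈ adj O j := by
  induction d with
  | zero => exact ⟨0, fun i hi => absurd hi (Nat.not_lt_zero i)⟩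
  | succ d ih =>
    obtain ⟨n, hn⟩ := ih
    obtain ⟨n', hn'⟩ := S36TUH_scale O π j hπO T hT (f d) (hf d)
    refine ⟨max n n', fun i hi k hk => ?_⟩
    rcases Nat.lt_succ_iff_lt_or_eq.1 hi with h | h
    · exact hn i h k (le_trans (le_max_left _ _) hk)
    · rw [h]
      exact hn' k (le_trans (le_max_right _ _) hk)

/-- **abstract THICK-HART**: a root `y ∈ F1 ∩ V` of a monic polynomial with coefficients in `T[j]`
lies in the chart `X` (the integral closure of `O[j]` in `F1`, saturated in `V`). -/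
theorem S36TUH_abs (O : Subring L) (π j : L) (F1 : Subfield L) (V X : Subring L)
    (hmem : ∀ y : L, y ∈ X ↔ IsIntegral (adj O j) y ∧ y ∈ F1)
    (hXV : X ≤ V) (hsat : ∀ v ∈ V, π * v ∈ X → v ∈ X)
    (hπO : π ∈ O) (hOF : (O : Set L) ⊆ F1) (T : Set L)
    (hT : ∀ c ∈ T, ∃ n : ℕ, π ^ n * c ∈ O)
    (y : L) (hyF : y ∈ F1) (hyV : y ∈ V)
    (P : Polynomial L) (hP : P.Monic) (hPc : ∀ n, P.coeff n ∈ Subring.closure (T ∪ {j}))
    (hP0 : P.eval y = 0) : y ∈ X := by
  have hOX : O ≤ X := fun z hz =>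
    (hmem z).2 ⟨isIntegral_of_mem _ (le_adj O j hz), hOF hz⟩
  have hπX : π ∈ X := hOX hπO
  have hπV : π ∈ V := hXV hπX
  obtain ⟨n, hn⟩ := S36TUH_scale_fin O π j hπO T hT (fun i => P.coeff i) hPc P.natDegree
  -- the scaled polynomial
  set Q : Polynomial L := scaleRoots P (π ^ n) with hQ
  have hQm : Q.Monic := (monic_scaleRoots_iff (π ^ n)).2 hP
  have hQc : ∀ i, Q.coeff i ∈ adj O j := by
    intro i
    rw [hQ, coeff_scaleRoots]
    rcases lt_trichotomy i P.natDegree with h | h | h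
    · have h1 : 1 ≤ P.natDegree - i := by omega
      have h2 : P.coeff i * (π ^ n) ^ (P.natDegree - i)
          = π ^ (n * (P.natDegree - i)) * P.coeff i := by
        rw [← pow_mul, mul_comm]
      rw [h2]
      refine hn i h _ ?_
      calc n = n * 1 := (mul_one n).symm
        _ ≤ n * (P.natDegree - i) := Nat.mul_le_mul_left n h1
    · rw [h, Nat.sub_self, pow_zero, mul_one, coeff_natDegree, hP.leadingCoeff]
      exact (adj O j).one_mem
    · rw [coeff_eq_zero_of_natDegree_lt h, zero_mul]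
      exact (adj O j).zero_mem
  have hQ0 : Q.eval (π ^ n * y) = 0 := by
    have h1 := scaleRoots_eval₂_eq_zero (p := P) (RingHom.id L) (r := y) (s := π ^ n)
      (by rw [eval₂_id]; exact hP0)
    rw [eval₂_id, RingHom.id_apply] at h1
    exact h1
  have hint : IsIntegral (adj O j) (π ^ n * y) := by
    have hlift : Q ∈ Polynomial.lifts (algebraMap (adj O j) L) := by
      rw [Polynomial.lifts_iff_coeff_lifts]
      intro i
      exact ⟨⟨Q.coeff i, hQc i⟩, rfl⟩
    obtain ⟨p, hp, -, hpm⟩ := Polynomial.lifts_and_degree_eq_and_monic hlift hQm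
    refine ⟨p, hpm, ?_⟩
    rw [← Polynomial.eval_map, hp]
    exact hQ0
  have hπF : π ∈ F1 := hOF hπO
  have hX : π ^ n * y ∈ X := (hmem _).2 ⟨hint, F1.mul_mem (F1.pow_mem hπF n) hyF⟩
  -- saturation
  have hdesc : ∀ k : ℕ, π ^ k * y ∈ X → y ∈ X := by
    intro k
    induction k with
    | zero => intro h; rwa [pow_zero, one_mul] at h
    | succ k ih =>
      intro h
      apply ih
      apply hsat _ (V.mul_mem (V.pow_mem hπV k) hyV)
      have : π * (π ^ k * y) = π ^ (k + 1) * y := by rw [pow_succ]; ring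
      rw [this]
      exact h
  exact hdesc n hX

/-- the constants: in a discrete valuation ring `O ⊆ L` with uniformiser `π`, the inverse of a
non-zero element of `O` is multiplied into `O` by a power of `π`. -/
theorem S36TUH_inv_scale (O : Subring L) (π : L) (hdvr : IsDiscreteValuationRing O)
    (hπO : π ∈ O) (hπirr : Irreducible (⟨π, hπO⟩ : O)) (c : L)
    (hc : c ∈ O ∨ c⁻¹ ∈ O) : ∃ n : ℕ, π ^ n * c ∈ O := by
  rcases hc with hc | hc
  · exact ⟨0, by rw [pow_zero, one_mul]; exact hc⟩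
  · by_cases hc0 : c = 0
    · exact ⟨0, by rw [hc0, mul_zero]; exact O.zero_mem⟩
    have hne : (⟨c⁻¹, hc⟩ : O) ≠ 0 := by
      intro h
      have := congrArg Subtype.val h
      exact inv_ne_zero hc0 this
    obtain ⟨n, u, hu⟩ := IsDiscreteValuationRing.eq_unit_mul_pow_irreducible hne hπirr
    have hu' : c⁻¹ = (u : O) * π ^ n := by
      have := congrArg Subtype.val hu
      simpa using this
    refine ⟨n, ?_⟩
    have huinv : ((u⁻¹ : Oˣ) : O) * (u : O) = 1 := by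
      rw [← Units.val_mul, inv_mul_cancel, Units.val_one]
    have huinv' : (((u⁻¹ : Oˣ) : O) : L) * ((u : O) : L) = 1 := by
      rw [← Subring.coe_mul, huinv, Subring.coe_one]
    have hu0 : ((u : O) : L) ≠ 0 := by
      intro h
      rw [h, mul_zero] at huinv'
      exact zero_ne_one huinv'
    have hπn : π ^ n ≠ 0 := by
      intro h
      rw [h, mul_zero] at hu'
      exact inv_ne_zero hc0 hu'
    have hv : (((u⁻¹ : Oˣ) : O) : L) = ((u : O) : L)⁻¹ := eq_inv_of_mul_eq_one_left huinv'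
    have : π ^ n * c = (((u⁻¹ : Oˣ) : O) : L) := by
      have hc' : c = (((u : O) : L) * π ^ n)⁻¹ := by rw [← hu', inv_inv]
      rw [hc', hv, mul_inv, mul_comm, mul_assoc, inv_mul_cancel₀ hπn, mul_one]
    rw [this]
    exact ((u⁻¹ : Oˣ) : O).2

end Abstract

section Concrete

variable (A : ValuationSubring (AlgebraicClosure ℚ)) (K1 : IntermediateField ℚ (AlgebraicClosure ℚ))

/-- every constant of `K1` or its inverse lies in `O`. -/
theorem S36TUH_const (c : K1) :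
    HahnSeries.C c ∈ S18K_O A K1 ∨ (HahnSeries.C c : LaurentSeries K1)⁻¹ ∈ S18K_O A K1 := by
  rcases (S18K_O1 A K1).mem_or_inv_mem c with h | h
  · exact Or.inl ((S18K_mem_O A K1 _).2 ⟨c, h, rfl⟩)
  · refine Or.inr ((S18K_mem_O A K1 _).2 ⟨c⁻¹, h, ?_⟩)
    rw [map_inv₀]

variable [IsDiscreteValuationRing (S18K_O1 A K1)]

/-- **THICK-HART**: the element `Dq = q dx/dy` of THICK-UNR lies in every chart `X` at `j` of
level `N` (relative to any `V`) as soon as it lies in `V`.  Hypotheses on the carriers in the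
elementwise form common to `Setup`, `S34C_Setup`, `S34C_Setup2`. -/
theorem S36TUH_mem {r : ℕ} [NeZero r] (D : S36AUX_Data r) (N q : ℕ) [NeZero N] [NeZero q]
    (hrq : r * q ∣ N) (Φ : MvPolynomial (Fin 2) ℤ)
    (hΦ : S36TH_ev ![S36AUX_hK K1 D.u, qExpand K1 q (S36AUX_hK K1 D.u)] Φ = 0) :
    ∃ Dq : LaurentSeries K1, Dq ∈ modularFunctionFieldFullC K1 N ∧
      Dq * S36TH_ev ![S36AUX_hK K1 D.u, qExpand K1 q (S36AUX_hK K1 D.u)]
          (MvPolynomial.pderiv 0 Φ)
        = -(q : LaurentSeries K1) *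
          S36TH_ev ![S36AUX_hK K1 D.u, qExpand K1 q (S36AUX_hK K1 D.u)]
            (MvPolynomial.pderiv 1 Φ) ∧
      IsIntegral (Algebra.adjoin K1 {jqModC K1}) Dq ∧
      ∀ (V X : Subring (LaurentSeries K1)),
        IsDiscreteValuationRing (S18K_O A K1) →
        (∀ hπ : S18K_π A K1 ∈ S18K_O A K1, Irreducible (⟨S18K_π A K1, hπ⟩ : S18K_O A K1)) →
        S18K_π A K1 ∈ S18K_O A K1 →
        ((S18K_O A K1 : Set (LaurentSeries K1)) ⊆ S18K_F1 K1 N) →
        Chart (S18K_O A K1) (S18K_π A K1) (S18K_j K1) (S18K_F1 K1 N) V X →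
        Dq ∈ V → Dq ∈ X ∧ ∀ (m : Ideal X) [m.IsPrime], Dq ∈ locRing X m := by
  obtain ⟨Dq, hDq, hid, P, hP, hPc, hP0⟩ := S36TU_unr_poly D N q K1 hrq Φ hΦ
  obtain ⟨Dq', hDq', hid', hint'⟩ := S36TU_unr D N q K1 hrq Φ hΦ
  have hintDq : IsIntegral (Algebra.adjoin K1 {jqModC K1}) Dq := by
    have hlift : P ∈ Polynomial.lifts
        (algebraMap (Algebra.adjoin K1 {jqModC K1}) (LaurentSeries K1)) := by
      rw [Polynomial.lifts_iff_coeff_lifts]
      intro n
      exact ⟨⟨P.coeff n, hPc n⟩, rfl⟩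
    obtain ⟨p, hp, -, hpm⟩ := Polynomial.lifts_and_degree_eq_and_monic hlift hP
    refine ⟨p, hpm, ?_⟩
    rw [← Polynomial.eval_map, hp]
    exact hP0
  refine ⟨Dq, hDq, hid, hintDq, ?_⟩
  intro V X hdvr hπirr hπO hOF hC hDV
  have hX : Dq ∈ X := by
    refine S36TUH_abs (S18K_O A K1) (S18K_π A K1) (S18K_j K1) (S18K_F1 K1 N) V X hC.mem_iff
      hC.le_V hC.sat hπO hOF (Set.range (HahnSeries.C : K1 → LaurentSeries K1)) ?_ Dq hDq hDV
      P hP ?_ hP0
    · rintro c ⟨c, rfl⟩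
      exact S36TUH_inv_scale (S18K_O A K1) (S18K_π A K1) hdvr hπO (hπirr hπO) _
        (S36TUH_const A K1 c)
    · intro n
      have h1 := hPc n
      have h2 : (Algebra.adjoin K1 {jqModC K1} : Subalgebra K1 (LaurentSeries K1)).toSubring
          = Subring.closure (Set.range (algebraMap K1 (LaurentSeries K1)) ∪ {jqModC K1}) :=
        Algebra.adjoin_eq_ring_closure _
      have h3 : P.coeff n ∈ (Algebra.adjoin K1 {jqModC K1} :
          Subalgebra K1 (LaurentSeries K1)).toSubring := h1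
      rw [h2] at h3
      have h4 : Set.range (algebraMap K1 (LaurentSeries K1))
          = Set.range (HahnSeries.C : K1 → LaurentSeries K1) := by
        ext z
        constructor
        · rintro ⟨c, rfl⟩
          exact ⟨c, (algebraMap_laurentSeries_eq_single K1 c).symm⟩
        · rintro ⟨c, rfl⟩
          exact ⟨c, algebraMap_laurentSeries_eq_single K1 c⟩
      rw [h4] at h3
      exact h3
  exact ⟨hX, fun m _ => le_locRing X m hX⟩

/-- **THICK-HART for ANY solution of the chain rule identity**: if `Φ_X(x, y) ≠ 0`, every `D'`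
with `D' * Φ_X(x, y) = - q * Φ_Y(x, y)` is the element of THICK-UNR; so it lies in `F(K1, N)`, is
integral over `K1[j]`, and lies in every chart at `j` as soon as it lies in `V`. -/
theorem S36TUH_mem_of_chain {r : ℕ} [NeZero r] (D : S36AUX_Data r) (N q : ℕ) [NeZero N]
    [NeZero q] (hrq : r * q ∣ N) (Φ : MvPolynomial (Fin 2) ℤ)
    (hΦ : S36TH_ev ![S36AUX_hK K1 D.u, qExpand K1 q (S36AUX_hK K1 D.u)] Φ = 0)
    (hΦX : S36TH_ev ![S36AUX_hK K1 D.u, qExpand K1 q (S36AUX_hK K1 D.u)]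
      (MvPolynomial.pderiv 0 Φ) ≠ 0)
    (D' : LaurentSeries K1)
    (hD' : D' * S36TH_ev ![S36AUX_hK K1 D.u, qExpand K1 q (S36AUX_hK K1 D.u)]
          (MvPolynomial.pderiv 0 Φ)
        = -(q : LaurentSeries K1) *
          S36TH_ev ![S36AUX_hK K1 D.u, qExpand K1 q (S36AUX_hK K1 D.u)]
            (MvPolynomial.pderiv 1 Φ)) :
    D' ∈ modularFunctionFieldFullC K1 N ∧
      IsIntegral (Algebra.adjoin K1 {jqModC K1}) D' ∧
      ∀ (V X : Subring (LaurentSeries K1)),
        IsDiscreteValuationRing (S18K_O A K1) →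
        (∀ hπ : S18K_π A K1 ∈ S18K_O A K1, Irreducible (⟨S18K_π A K1, hπ⟩ : S18K_O A K1)) →
        S18K_π A K1 ∈ S18K_O A K1 →
        ((S18K_O A K1 : Set (LaurentSeries K1)) ⊆ S18K_F1 K1 N) →
        Chart (S18K_O A K1) (S18K_π A K1) (S18K_j K1) (S18K_F1 K1 N) V X →
        D' ∈ V → D' ∈ X ∧ ∀ (m : Ideal X) [m.IsPrime], D' ∈ locRing X m := by
  obtain ⟨Dq, hDq, hid, hint, hmem⟩ := S36TUH_mem A K1 D N q hrq Φ hΦ
  have h : D' = Dq := mul_right_cancel₀ hΦX (hD'.trans hid.symm)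
  rw [h]
  exact ⟨hDq, hint, hmem⟩

/-- THICK-HART in the weak setup `S34C_Setup` (any `V`): `Dq ∈ V ⟹ Dq ∈ A0`. -/
theorem S36TUH_mem_setup {r : ℕ} [NeZero r] (D : S36AUX_Data r) (N q : ℕ) [NeZero N]
    [NeZero q] (hrq : r * q ∣ N) (Φ : MvPolynomial (Fin 2) ℤ)
    (hΦ : S36TH_ev ![S36AUX_hK K1 D.u, qExpand K1 q (S36AUX_hK K1 D.u)] Φ = 0)
    (hΦX : S36TH_ev ![S36AUX_hK K1 D.u, qExpand K1 q (S36AUX_hK K1 D.u)]
      (MvPolynomial.pderiv 0 Φ) ≠ 0)
    (D' : LaurentSeries K1)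
    (hD' : D' * S36TH_ev ![S36AUX_hK K1 D.u, qExpand K1 q (S36AUX_hK K1 D.u)]
          (MvPolynomial.pderiv 0 Φ)
        = -(q : LaurentSeries K1) *
          S36TH_ev ![S36AUX_hK K1 D.u, qExpand K1 q (S36AUX_hK K1 D.u)]
            (MvPolynomial.pderiv 1 Φ))
    {V A0 Ainf : Subring (LaurentSeries K1)}
    (S : S34C_Setup (S18K_O A K1) (S18K_π A K1) (S18K_j K1) (S18K_F1 K1 N) V A0 Ainf)
    (hDV : D' ∈ V) : D' ∈ A0 ∧ ∀ (m : Ideal A0) [m.IsPrime], D' ∈ locRing A0 m :=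
  (S36TUH_mem_of_chain A K1 D N q hrq Φ hΦ hΦX D' hD').2.2 V A0 S.dvr S.π_irr S.π_mem S.O_le
    S.chart0 hDV

/-- THICK-HART in the two-valuation setup `S34C_Setup2`: `Dq ∈ V1 ⊓ V2 ⟹ Dq ∈ A0`. -/
theorem S36TUH_mem_setup2 {r : ℕ} [NeZero r] (D : S36AUX_Data r) (N q : ℕ) [NeZero N]
    [NeZero q] (hrq : r * q ∣ N) (Φ : MvPolynomial (Fin 2) ℤ)
    (hΦ : S36TH_ev ![S36AUX_hK K1 D.u, qExpand K1 q (S36AUX_hK K1 D.u)] Φ = 0)
    (hΦX : S36TH_ev ![S36AUX_hK K1 D.u, qExpand K1 q (S36AUX_hK K1 D.u)]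
      (MvPolynomial.pderiv 0 Φ) ≠ 0)
    (D' : LaurentSeries K1)
    (hD' : D' * S36TH_ev ![S36AUX_hK K1 D.u, qExpand K1 q (S36AUX_hK K1 D.u)]
          (MvPolynomial.pderiv 0 Φ)
        = -(q : LaurentSeries K1) *
          S36TH_ev ![S36AUX_hK K1 D.u, qExpand K1 q (S36AUX_hK K1 D.u)]
            (MvPolynomial.pderiv 1 Φ))
    {V1 V2 A0 Ainf : Subring (LaurentSeries K1)}
    (S : S34C_Setup2 (S18K_O A K1) (S18K_π A K1) (S18K_j K1) (S18K_F1 K1 N) V1 V2 A0 Ainf)
    (hDV1 : D' ∈ V1) (hDV2 : D' ∈ V2) :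
    D' ∈ A0 ∧ ∀ (m : Ideal A0) [m.IsPrime], D' ∈ locRing A0 m :=
  (S36TUH_mem_of_chain A K1 D N q hrq Φ hΦ hΦX D' hD').2.2 (V1 ⊓ V2) A0 S.dvr S.π_irr S.π_mem
    S.O_le S.chart0 ⟨hDV1, hDV2⟩

/-- THICK-HART in the one-valuation `Setup`: `Dq ∈ V ⟹ Dq ∈ A0`. -/
theorem S36TUH_mem_setup1 {r : ℕ} [NeZero r] (D : S36AUX_Data r) (N q : ℕ) [NeZero N]
    [NeZero q] (hrq : r * q ∣ N) (Φ : MvPolynomial (Fin 2) ℤ)
    (hΦ : S36TH_ev ![S36AUX_hK K1 D.u, qExpand K1 q (S36AUX_hK K1 D.u)] Φ = 0)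
    (hΦX : S36TH_ev ![S36AUX_hK K1 D.u, qExpand K1 q (S36AUX_hK K1 D.u)]
      (MvPolynomial.pderiv 0 Φ) ≠ 0)
    (D' : LaurentSeries K1)
    (hD' : D' * S36TH_ev ![S36AUX_hK K1 D.u, qExpand K1 q (S36AUX_hK K1 D.u)]
          (MvPolynomial.pderiv 0 Φ)
        = -(q : LaurentSeries K1) *
          S36TH_ev ![S36AUX_hK K1 D.u, qExpand K1 q (S36AUX_hK K1 D.u)]
            (MvPolynomial.pderiv 1 Φ))
    {V A0 Ainf : Subring (LaurentSeries K1)}
    (S : Setup (S18K_O A K1) (S18K_π A K1) (S18K_j K1) (S18K_F1 K1 N) V A0 Ainf)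
    (hDV : D' ∈ V) : D' ∈ A0 ∧ ∀ (m : Ideal A0) [m.IsPrime], D' ∈ locRing A0 m :=
  (S36TUH_mem_of_chain A K1 D N q hrq Φ hΦ hΦX D' hD').2.2 V A0 S.dvr S.π_irr S.π_mem S.O_le
    S.chart0 hDV

end Concrete

end

end Fermat.Agent.S36_helper25_THUNRH
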