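import Mathlib
import Fermat.Agent.S36_helper25_THUNRH
import Fermat.Agent.S36_helper18_THICKV
import Fermat.Agent.S34_helper13_P1C

/-!
# S36, THICK: the differential quotient `Dq = q dx/dy` at the carriers (helper25)

Level `N = q N'`, `q ∤ N'`, `r ∣ N'`, `x = h` the Hauptmodul of level `r`, `y = V_q h`,
`Φ = (X^q - Y)(X - Y^q) + q G` with `Φ(x, y) = 0`.  ONE theorem collecting everything about
`Dq = - q Φ_Y(x, y) / Φ_X(x, y)`:

* `Dq ∈ F(K1, N)`, the chain rule identity, integrality over `K1[j]` (THICK-UNR);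
* `Dq ∈ V1` (Gauss ring) and `Dq ∈ π q V2` (helper18, THICKV);
* `Dq ∈ A0 = S18K_A0 A K1 N` and in every local ring of `A0` (THICK-HART).
-/

set_option autoImplicit false
set_option linter.unusedSectionVars false
set_option linter.unusedVariables false
set_option linter.style.haveILetI false

open MvPolynomial ModularCurve
open Fermat.Agent.S18_helper9_CDefs Fermat.Agent.S18_helper9_CBasic Fermat.Agent.S18_helper3_LOCRING
open Fermat.Agent.S34_helper12_CDefs Fermat.Agent.S34_helper20_V0K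
open Fermat.Agent.S36_helper8_AUXDefs Fermat.Agent.S36_helper18_THICK
open Fermat.Agent.S36_helper18_THICKV Fermat.Agent.S18_helper25_COREDefs
open Fermat.Agent.S36_helper25_THUNRH

namespace Fermat.Agent.S36_helper25_THUNRP

noncomputable section

variable (A : ValuationSubring (AlgebraicClosure ℚ))
  (K1 : IntermediateField ℚ (AlgebraicClosure ℚ)) [IsDiscreteValuationRing (S18K_O1 A K1)]
  {r : ℕ} [NeZero r] (Dx : S36AUX_Data r)
  (q N' N : ℕ) [NeZero N'] [NeZero N] [NeZero q] (hq : q.Prime) (hqN : ¬ q ∣ N')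
  (hN : N = q * N') (hr : r ∣ N')

include hr hN in
theorem S36TUP_dvd : r * q ∣ N := by
  obtain ⟨c, hc⟩ := hr
  exact ⟨c, by rw [hN, hc]; ring⟩

set_option synthInstance.maxHeartbeats 400000 in
include hq hr hN in
/-- **THICK, the element `Dq = q dx/dy` at the carriers**: existence, chain rule, integrality,
`Dq ∈ V1`, `Dq ∈ π q V2`, `Dq ∈ A0`, `Dq ∈ locRing A0 m`. -/
theorem S36TUP_main (hA : A.LiesOverPrime q) (G : MvPolynomial (Fin 2) ℤ)
    (hΦ : S36TH_ev ![S36AUX_hK K1 Dx.u, qExpand K1 q (S36AUX_hK K1 Dx.u)] (S36TH_Phi q G) = 0) :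
    ∃ Dq : LaurentSeries K1, Dq ∈ modularFunctionFieldFullC K1 N ∧
      Dq * S36TH_ev ![S36AUX_hK K1 Dx.u, qExpand K1 q (S36AUX_hK K1 Dx.u)]
          (pderiv 0 (S36TH_Phi q G))
        = -((q : ℕ) : LaurentSeries K1) *
          S36TH_ev ![S36AUX_hK K1 Dx.u, qExpand K1 q (S36AUX_hK K1 Dx.u)]
            (pderiv 1 (S36TH_Phi q G)) ∧
      IsIntegral (Algebra.adjoin K1 {jqModC K1}) Dq ∧
      Dq ∈ S18K_V A K1 N ∧
      (∃ v ∈ S34V0K_V A K1 q N' N hq hqN hN,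
        Dq = S18K_π A K1 * (((q : ℕ) : LaurentSeries K1) * v)) ∧
      Dq ∈ S34V0K_V A K1 q N' N hq hqN hN ∧
      Dq ∈ S18K_A0 A K1 N ∧
      ∀ (m : Ideal (S18K_A0 A K1 N)) [m.IsPrime], Dq ∈ locRing (S18K_A0 A K1 N) m := by
  obtain ⟨Dq, hDF, hid, hint, hmem⟩ :=
    S36TUH_mem A K1 Dx N q (S36TUP_dvd q N' N hN hr) (S36TH_Phi q G) hΦ
  have hV1 : Dq ∈ S18K_V A K1 N := S36THV_D_V1 A K1 Dx q N' N hq hN hr hA G hΦ Dq hDF hid
  obtain ⟨v, hv, hDv⟩ := S36THV_D_V2 A K1 Dx q N' N hq hqN hN hr hA G Dq hDF hid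
  have S := Fermat.Agent.S34_helper13_P1C.S34P1C_setup2 A K1 q N' N hq hqN hN hA
  have hπV2 : S18K_π A K1 ∈ S34V0K_V A K1 q N' N hq hqN hN :=
    (S.chart0.le_V ((S.chart0.mem_iff _).2
      ⟨isIntegral_of_mem _ (le_adj _ _ S.π_mem), S.O_le S.π_mem⟩)).2
  have hqV2 : ((q : ℕ) : LaurentSeries K1) ∈ S34V0K_V A K1 q N' N hq hqN hN :=
    natCast_mem _ q
  have hV2 : Dq ∈ S34V0K_V A K1 q N' N hq hqN hN := by
    rw [hDv]
    exact mul_mem hπV2 (mul_mem hqV2 hv)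
  have h := hmem (S18K_V A K1 N ⊓ S34V0K_V A K1 q N' N hq hqN hN) (S18K_A0 A K1 N) S.dvr
    S.π_irr S.π_mem S.O_le S.chart0 ⟨hV1, hV2⟩
  exact ⟨Dq, hDF, hid, hint, hV1, ⟨v, hv, hDv⟩, hV2, h.1, h.2⟩

end

end Fermat.Agent.S36_helper25_THUNRP
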