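import Mathlib
import Fermat.Prelude.Def_ModularCurve_X0ModL

/-!
# S36, generic layer of the Hauptmodul datum (helper15), part A: generic algebra

* `S36HX_ser K g` : the Laurent series `Q⁻¹ · g` (`g` a power series with constant term `1`);
  coefficients of its powers and of polynomials in it (`S36HX_coeff_aeval`), transcendence
  (`S36HX_aeval_eq_zero`), integrality of the coefficients of a rational polynomial with
  integral values (`S36HX_exists_int_poly`);
* `S36HX_isIntegral_of_rel` : **integrality from a relation with constant leading coefficient**: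
  if `D(y) x^(n+1) + ∑_{k ≤ n} P_k(y) x^k = 0` with `deg P_0 = deg D + n + 1` and
  `deg P_k ≤ deg D + n` (`1 ≤ k ≤ n`), then `y` is integral over `K[x]`.
-/

set_option autoImplicit false
set_option linter.unusedSectionVars false
set_option linter.unusedVariables false

open Polynomial ModularCurve

noncomputable section

namespace Fermat.Agent.S36_helper15_HXA

/-- the Laurent series `Q⁻¹ · g` -/
def S36HX_ser (K : Type*) [CommRing K] (g : PowerSeries K) : LaurentSeries K :=
  HahnSeries.single (-1 : ℤ) 1 * HahnSeries.ofPowerSeries ℤ K g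

section Ser

variable (K : Type*) [CommRing K] (g : PowerSeries K)

theorem S36HX_ser_pow (n : ℕ) :
    S36HX_ser K g ^ n =
      HahnSeries.single (-(n : ℤ)) 1 * HahnSeries.ofPowerSeries ℤ K (g ^ n) := by
  have h : n • (-1 : ℤ) = -(n : ℤ) := by simp
  rw [S36HX_ser, mul_pow, HahnSeries.single_pow, one_pow, h, ← map_pow]

theorem S36HX_coeff_pow_self (hg : PowerSeries.constantCoeff g = 1) (n : ℕ) :
    (S36HX_ser K g ^ n).coeff (-(n : ℤ)) = 1 := by
  rw [S36HX_ser_pow, HahnSeries.coeff_single_mul, one_mul, sub_neg_eq_add, neg_add_cancel,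
    show (0 : ℤ) = ((0 : ℕ) : ℤ) from rfl, HahnSeries.ofPowerSeries_apply_coeff,
    PowerSeries.coeff_zero_eq_constantCoeff, map_pow, hg, one_pow]

theorem S36HX_coeff_pow_of_lt {n : ℕ} {m : ℤ} (hm : m < -(n : ℤ)) :
    (S36HX_ser K g ^ n).coeff m = 0 := by
  rw [S36HX_ser_pow, HahnSeries.coeff_single_mul, one_mul]
  exact ofPowerSeries_coeff_of_neg _ (by omega)

theorem S36HX_coeff_neg_one (hg : PowerSeries.constantCoeff g = 1) :
    (S36HX_ser K g).coeff (-1 : ℤ) = 1 := by
  simpa using S36HX_coeff_pow_self K g hg 1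

theorem S36HX_coeff_of_lt {m : ℤ} (hm : m < -1) : (S36HX_ser K g).coeff m = 0 := by
  simpa using S36HX_coeff_pow_of_lt K g (n := 1) (m := m) (by simpa using hm)

theorem S36HX_coeffMap_ser {S : Type*} [CommRing S] (f : K →+* S) :
    coeffMap f (S36HX_ser K g) = S36HX_ser S (g.map f) := by
  rw [S36HX_ser, map_mul, coeffMap_single, map_one, coeffMap_ofPowerSeries]
  rfl

end Ser

section Aeval

variable (K : Type*) [Field K] (g : PowerSeries K)

theorem S36HX_coeff_algebraMap_mul (c : K) (x : LaurentSeries K)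
    (m : ℤ) : (algebraMap K (LaurentSeries K) c * x).coeff m = c * x.coeff m := by
  rw [algebraMap_laurentSeries_eq_single, ← HahnSeries.C_apply, HahnSeries.C_mul_eq_smul,
    HahnSeries.coeff_smul, smul_eq_mul]

theorem S36HX_coeff_aeval (hg : PowerSeries.constantCoeff g = 1) (P : Polynomial K) (n : ℕ)
    (hn : P.natDegree ≤ n) :
    (aeval (S36HX_ser K g) P).coeff (-(n : ℤ)) = P.coeff n := by
  rw [aeval_eq_sum_range, HahnSeries.coeff_sum]
  simp only [Algebra.smul_def, S36HX_coeff_algebraMap_mul]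
  by_cases h : n ∈ Finset.range (P.natDegree + 1)
  · rw [Finset.sum_eq_single n]
    · rw [S36HX_coeff_pow_self K g hg, mul_one]
    · intro i hi hin
      rw [Finset.mem_range] at hi
      have hlt : i < n := lt_of_le_of_ne (by omega) hin
      rw [S36HX_coeff_pow_of_lt K g (by exact_mod_cast (by omega : -(n : ℤ) < -(i : ℤ))),
        mul_zero]
    · intro h'
      exact absurd h h'
  · rw [Finset.mem_range] at h
    have h0 : P.coeff n = 0 := coeff_eq_zero_of_natDegree_lt (by omega)
    rw [h0]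
    apply Finset.sum_eq_zero
    intro i hi
    rw [Finset.mem_range] at hi
    rw [S36HX_coeff_pow_of_lt K g (by exact_mod_cast (by omega : -(n : ℤ) < -(i : ℤ))),
      mul_zero]

/-- below the degree, the coefficients of `P(x)` vanish -/
theorem S36HX_coeff_aeval_of_lt (P : Polynomial K) (n : ℕ) (hn : P.natDegree ≤ n) {m : ℤ}
    (hm : m < -(n : ℤ)) : (aeval (S36HX_ser K g) P).coeff m = 0 := by
  rw [aeval_eq_sum_range, HahnSeries.coeff_sum]
  simp only [Algebra.smul_def, S36HX_coeff_algebraMap_mul]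
  apply Finset.sum_eq_zero
  intro i hi
  rw [Finset.mem_range] at hi
  rw [S36HX_coeff_pow_of_lt K g (by
    have : (i : ℤ) ≤ (n : ℤ) := by exact_mod_cast (by omega : i ≤ n)
    omega), mul_zero]

theorem S36HX_natDegree_le_of_coeff (hg : PowerSeries.constantCoeff g = 1) (P : Polynomial K)
    (d : ℕ) (hd : ∀ m : ℤ, m < -(d : ℤ) → (aeval (S36HX_ser K g) P).coeff m = 0) :
    P.natDegree ≤ d := by
  by_contra hcon
  push Not at hcon
  have h1 := S36HX_coeff_aeval K g hg P P.natDegree le_rfl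
  rw [hd _ (by exact_mod_cast (by omega : -(P.natDegree : ℤ) < -(d : ℤ)))] at h1
  have hP0 : P ≠ 0 := by
    rintro rfl
    simp at hcon
  exact (leadingCoeff_ne_zero.2 hP0) h1.symm

/-- `x = Q⁻¹ g` is transcendental over `K` -/
theorem S36HX_aeval_eq_zero (hg : PowerSeries.constantCoeff g = 1) (P : Polynomial K)
    (h : aeval (S36HX_ser K g) P = 0) : P = 0 := by
  by_contra hP
  have h1 := S36HX_coeff_aeval K g hg P P.natDegree le_rfl
  rw [h, HahnSeries.coeff_zero] at h1
  exact (leadingCoeff_ne_zero.2 hP) h1.symm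

theorem S36HX_transcendental (hg : PowerSeries.constantCoeff g = 1) :
    Transcendental K (S36HX_ser K g) := by
  rintro ⟨P, hP0, hP⟩
  exact hP0 (S36HX_aeval_eq_zero K g hg P hP)

end Aeval

section IntPoly

variable (u : PowerSeries ℤ)

theorem S36HX_coeff_pow_int (n : ℕ) (m : ℤ) :
    ∃ c : ℤ, ((S36HX_ser ℚ (u.map (Int.castRingHom ℚ))) ^ n).coeff m = c := by
  refine ⟨((S36HX_ser ℤ u) ^ n).coeff m, ?_⟩
  rw [← S36HX_coeffMap_ser ℤ u (Int.castRingHom ℚ), ← map_pow, coeffMap_coeff]
  rfl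

theorem S36HX_constantCoeff_map (hu : PowerSeries.constantCoeff u = 1) (K : Type*) [CommRing K] :
    PowerSeries.constantCoeff (u.map (Int.castRingHom K)) = 1 := by
  rw [← PowerSeries.coeff_zero_eq_constantCoeff, PowerSeries.coeff_map,
    PowerSeries.coeff_zero_eq_constantCoeff, hu, map_one]

/-- integrality of the coefficients -/
theorem S36HX_int_of_coeff (hu : PowerSeries.constantCoeff u = 1) :
    ∀ (n : ℕ) (P₀ : Polynomial ℚ), P₀.natDegree ≤ n →
    (∀ m : ℤ, ∃ c : ℤ, (aeval (S36HX_ser ℚ (u.map (Int.castRingHom ℚ))) P₀).coeff m = c) →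
    ∃ P : Polynomial ℤ, P.map (Int.castRingHom ℚ) = P₀ := by
  have hg := S36HX_constantCoeff_map u hu ℚ
  intro n
  induction n with
  | zero =>
    intro P₀ hdeg hint
    obtain ⟨c, hc⟩ := hint (-((0 : ℕ) : ℤ))
    rw [S36HX_coeff_aeval ℚ _ hg P₀ 0 hdeg] at hc
    refine ⟨C c, ?_⟩
    rw [Polynomial.map_C, eq_C_of_natDegree_le_zero hdeg, hc]
    rfl
  | succ n ih =>
    intro P₀ hdeg hint
    obtain ⟨c, hc⟩ := hint (-((n + 1 : ℕ) : ℤ))
    rw [S36HX_coeff_aeval ℚ _ hg P₀ (n + 1) hdeg] at hc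
    have hdeg1 : (P₀ - C (c : ℚ) * X ^ (n + 1)).natDegree ≤ n := by
      rw [natDegree_le_iff_coeff_eq_zero]
      intro N hN
      rw [coeff_sub, coeff_C_mul_X_pow]
      split_ifs with h
      · rw [h, hc, sub_self]
      · rw [coeff_eq_zero_of_natDegree_lt (by omega), sub_zero]
    have hint1 : ∀ m : ℤ, ∃ c' : ℤ,
        (aeval (S36HX_ser ℚ (u.map (Int.castRingHom ℚ)))
          (P₀ - C (c : ℚ) * X ^ (n + 1))).coeff m = c' := by
      intro m
      obtain ⟨a, ha⟩ := hint m
      obtain ⟨b, hb⟩ := S36HX_coeff_pow_int u (n + 1) m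
      refine ⟨a - c * b, ?_⟩
      rw [map_sub, map_mul, aeval_C, aeval_X_pow, HahnSeries.coeff_sub, ha,
        S36HX_coeff_algebraMap_mul, hb]
      push_cast
      rfl
    obtain ⟨P₁, hP₁⟩ := ih _ hdeg1 hint1
    refine ⟨P₁ + C c * X ^ (n + 1), ?_⟩
    rw [Polynomial.map_add, hP₁, Polynomial.map_mul, Polynomial.map_pow, Polynomial.map_X,
      Polynomial.map_C]
    simp

/-- **Integral polynomiality.** -/
theorem S36HX_exists_int_poly (hu : PowerSeries.constantCoeff u = 1) (b : LaurentSeries ℚ)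
    (P₀ : Polynomial ℚ)
    (hP : aeval (S36HX_ser ℚ (u.map (Int.castRingHom ℚ))) P₀ = b)
    (hint : ∀ m : ℤ, ∃ c : ℤ, b.coeff m = c) (d : ℕ)
    (hd : ∀ m : ℤ, m < -(d : ℤ) → b.coeff m = 0) :
    ∃ P : Polynomial ℤ, P.natDegree ≤ d ∧
      aeval (S36HX_ser ℚ (u.map (Int.castRingHom ℚ))) (P.map (Int.castRingHom ℚ)) = b ∧
      ((P.coeff d : ℤ) : ℚ) = b.coeff (-(d : ℤ)) := by
  have hg := S36HX_constantCoeff_map u hu ℚ
  have hdeg : P₀.natDegree ≤ d := S36HX_natDegree_le_of_coeff ℚ _ hg P₀ d (by rw [hP]; exact hd)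
  obtain ⟨P, hPmap⟩ := S36HX_int_of_coeff u hu d P₀ hdeg (by rw [hP]; exact hint)
  refine ⟨P, ?_, ?_, ?_⟩
  · rw [← natDegree_map_eq_of_injective (RingHom.injective_int (Int.castRingHom ℚ)) P, hPmap]
    exact hdeg
  · rw [hPmap, hP]
  · rw [← hP, S36HX_coeff_aeval ℚ _ hg P₀ d hdeg, ← hPmap, coeff_map]
    rfl

end IntPoly

section Integral

/-- **Integrality from a relation with constant leading coefficient.** -/
theorem S36HX_isIntegral_of_rel {K L : Type*} [Field K] [Field L] [Algebra K L] (x y : L)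
    (n : ℕ) (D : Polynomial K) (P : ℕ → Polynomial K)
    (hrel : aeval y D * x ^ (n + 1) + ∑ k ∈ Finset.range (n + 1), aeval y (P k) * x ^ k = 0)
    (hP0 : (P 0).natDegree = D.natDegree + (n + 1))
    (hPk : ∀ k, 1 ≤ k → k ≤ n → (P k).natDegree ≤ D.natDegree + n)
    (A : Subalgebra K L) (hxA : x ∈ A) :
    IsIntegral A y := by
  classical
  obtain ⟨xA, hxAdef⟩ : ∃ xA : A, (xA : L) = x := ⟨⟨x, hxA⟩, rfl⟩
  have hinj : Function.Injective (algebraMap K A) := (algebraMap K A).injective
  -- the polynomial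
  obtain ⟨T0, hT0⟩ : ∃ T0 : Polynomial A, T0 = (P 0).map (algebraMap K A) := ⟨_, rfl⟩
  obtain ⟨Rest, hRest⟩ : ∃ Rest : Polynomial A,
      Rest = D.map (algebraMap K A) * C (xA ^ (n + 1)) +
        ∑ k ∈ Finset.range n, (P (k + 1)).map (algebraMap K A) * C (xA ^ (k + 1)) := ⟨_, rfl⟩
  have hP0ne : P 0 ≠ 0 := by
    intro h
    rw [h, natDegree_zero] at hP0
    omega
  have hT0deg : T0.natDegree = D.natDegree + (n + 1) := by
    rw [hT0, natDegree_map_eq_of_injective hinj, hP0]
  have hT0lc : T0.leadingCoeff = algebraMap K A (P 0).leadingCoeff := by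
    rw [hT0, leadingCoeff_map_of_injective hinj]
  have hT0ne : T0 ≠ 0 := by
    rw [hT0]
    exact (Polynomial.map_ne_zero_iff hinj).2 hP0ne
  have hRestdeg : Rest.natDegree ≤ D.natDegree + n := by
    rw [hRest]
    refine (natDegree_add_le _ _).trans (max_le ?_ ?_)
    · refine (natDegree_mul_C_le _ _).trans ?_
      exact (natDegree_map_le).trans (by omega)
    · refine natDegree_sum_le_of_forall_le _ _ ?_
      intro k hk
      rw [Finset.mem_range] at hk
      refine (natDegree_mul_C_le _ _).trans ?_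
      exact (natDegree_map_le).trans (hPk (k + 1) (by omega) (by omega))
  have hdeglt : Rest.degree < T0.degree := by
    rw [degree_eq_natDegree hT0ne]
    refine lt_of_le_of_lt degree_le_natDegree ?_
    rw [hT0deg]
    exact_mod_cast (by omega : Rest.natDegree < D.natDegree + (n + 1))
  have hlc : (T0 + Rest).leadingCoeff = algebraMap K A (P 0).leadingCoeff := by
    rw [leadingCoeff_add_of_degree_lt' hdeglt, hT0lc]
  -- evaluation
  have hev : aeval y (T0 + Rest) = 0 := by
    have h1 : ∀ p : Polynomial K, aeval y (p.map (algebraMap K A)) = aeval y p := by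
      intro p
      rw [aeval_def, eval₂_map, ← IsScalarTower.algebraMap_eq K A L, ← aeval_def]
    have h2 : ∀ a : A, aeval y (C a : Polynomial A) = (a : L) := by
      intro a
      rw [aeval_C]
      rfl
    rw [map_add, hT0, hRest, map_add, map_mul, map_sum, h1, h1, h2]
    simp only [map_mul, h1, h2]
    have h3 : ((xA ^ (n + 1) : A) : L) = x ^ (n + 1) := by
      rw [← hxAdef]; exact Subalgebra.coe_pow A xA _
    have h4 : ∀ k : ℕ, ((xA ^ (k + 1) : A) : L) = x ^ (k + 1) := by
      intro k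
      rw [← hxAdef]; exact Subalgebra.coe_pow A xA _
    rw [h3]
    simp only [h4]
    rw [Finset.sum_range_succ', pow_zero, mul_one] at hrel
    rw [← hrel]
    ring
  have hint := isIntegral_leadingCoeff_smul (T0 + Rest) y hev
  rw [hlc] at hint
  have hlc0 : (P 0).leadingCoeff ≠ 0 := leadingCoeff_ne_zero.2 hP0ne
  have h5 : y = (algebraMap K A ((P 0).leadingCoeff)⁻¹) • (algebraMap K A (P 0).leadingCoeff • y) := by
    rw [smul_smul, ← map_mul, inv_mul_cancel₀ hlc0, map_one, one_smul]
  rw [h5]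
  exact IsIntegral.smul _ hint

end Integral

end Fermat.Agent.S36_helper15_HXA
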