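import Mathlib
import Fermat.Agent.S36_helper15_HXA

/-!
# S36, generic layer of the Hauptmodul datum (helper15), part B: generic algebra, continued

* the order of a polynomial in `h = Q⁻¹ g` and the degree count for a quotient of two such;
* the coefficients of the minimal polynomial over `K(x)` of an element integral over `K[x]`
  are polynomials in `x`.
-/

set_option autoImplicit false
set_option linter.unusedSectionVars false
set_option linter.unusedVariables false
set_option linter.style.haveILetI false

open Polynomial IntermediateField ModularCurve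

noncomputable section

namespace Fermat.Agent.S36_helper15_HXB

open Fermat.Agent.S36_helper15_HXA

section Order

variable (K : Type*) [Field K] (g : PowerSeries K)

theorem S36HXB_aeval_ne_zero (hg : PowerSeries.constantCoeff g = 1) (P : Polynomial K)
    (hP : P ≠ 0) : aeval (S36HX_ser K g) P ≠ 0 :=
  fun h => hP (S36HX_aeval_eq_zero K g hg P h)

theorem S36HXB_order_aeval (hg : PowerSeries.constantCoeff g = 1) (P : Polynomial K)
    (hP : P ≠ 0) : (aeval (S36HX_ser K g) P).order = -(P.natDegree : ℤ) := by
  have hne := S36HXB_aeval_ne_zero K g hg P hP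
  apply le_antisymm
  · apply HahnSeries.order_le_of_coeff_ne_zero
    rw [S36HX_coeff_aeval K g hg P P.natDegree le_rfl]
    exact leadingCoeff_ne_zero.2 hP
  · by_contra hcon
    push Not at hcon
    have h1 := S36HX_coeff_aeval_of_lt K g P P.natDegree le_rfl hcon
    exact HahnSeries.coeff_order_eq_zero.not.2 hne h1

/-- **Degree count.**  If `b · D(h) = P(h)` and `b` has a pole of order at most `d`, then
`deg P ≤ deg D + d`, with equality if the pole has order exactly `d`. -/
theorem S36HXB_degree (hg : PowerSeries.constantCoeff g = 1) (b : LaurentSeries K)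
    (P D : Polynomial K) (hD : D ≠ 0)
    (hrel : b * aeval (S36HX_ser K g) D = aeval (S36HX_ser K g) P) (d : ℕ)
    (hd : ∀ m : ℤ, m < -(d : ℤ) → b.coeff m = 0) :
    P.natDegree ≤ D.natDegree + d ∧ (b.coeff (-(d : ℤ)) ≠ 0 → P.natDegree = D.natDegree + d) := by
  by_cases hb : b = 0
  · have hP : P = 0 := by
      apply S36HX_aeval_eq_zero K g hg
      rw [← hrel, hb, zero_mul]
    refine ⟨by rw [hP, natDegree_zero]; exact Nat.zero_le _, fun h => ?_⟩
    rw [hb, HahnSeries.coeff_zero] at h
    exact absurd rfl h
  · have hDne := S36HXB_aeval_ne_zero K g hg D hD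
    have hPne : P ≠ 0 := by
      intro hP
      rw [hP, map_zero] at hrel
      rcases mul_eq_zero.1 hrel with h | h
      · exact hb h
      · exact hDne h
    have ho := HahnSeries.order_mul hb hDne
    rw [hrel, S36HXB_order_aeval K g hg P hPne, S36HXB_order_aeval K g hg D hD] at ho
    have hlow : -(d : ℤ) ≤ b.order := by
      by_contra hcon
      push Not at hcon
      exact HahnSeries.coeff_order_eq_zero.not.2 hb (hd _ hcon)
    constructor
    · have : (P.natDegree : ℤ) ≤ (D.natDegree : ℤ) + d := by linarith
      exact_mod_cast this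
    · intro hne
      have hup : b.order ≤ -(d : ℤ) := HahnSeries.order_le_of_coeff_ne_zero hne
      have : (P.natDegree : ℤ) = (D.natDegree : ℤ) + d := by linarith
      exact_mod_cast this

end Order

section Minpoly

open IntermediateField.algebraAdjoinAdjoin in
/-- The coefficients of the minimal polynomial over `K(x)` of an element integral over `K[x]`
(`x` transcendental) are polynomials in `x`. -/
theorem S36HXB_minpoly_coeff {K L : Type*} [Field K] [Field L] [Algebra K L] (x y : L)
    (hx : Transcendental K x) (hy : IsIntegral (Algebra.adjoin K {x}) y) (k : ℕ) :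
    ∃ P : K[X], (((minpoly K⟮x⟯ y).coeff k : K⟮x⟯) : L) = aeval x P := by
  haveI : IsIntegrallyClosed (Algebra.adjoin K {x}) :=
    IsIntegrallyClosed.of_equiv (Polynomial.algEquivOfTranscendental K x hx).toRingEquiv
  have h := minpoly.isIntegrallyClosed_eq_field_fractions' K⟮x⟯ hy
  have key : ∀ z : L, z ∈ Algebra.adjoin K {x} → ∃ P : K[X], z = aeval x P := by
    intro z hz
    rw [Algebra.adjoin_singleton_eq_range_aeval] at hz
    obtain ⟨P, hP⟩ := hz
    exact ⟨P, hP.symm⟩
  rw [h, coeff_map]
  exact key _ ((minpoly (Algebra.adjoin K {x}) y).coeff k).2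

end Minpoly

end Fermat.Agent.S36_helper15_HXB
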