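import Mathlib
import Fermat.Agent.S34_helper8_MODEQ
import Fermat.Agent.S34_helper20_V0
import Fermat.Agent.S34_helper15_DEG
import Fermat.Agent.S36_helper15_HXA

/-!
# S36, generic layer of the Hauptmodul datum (helper15), part M: the modular equation of
`(h, V_q h)` with integer coefficients

`h = Q⁻¹ u ∈ ℤ((Q))`, `u(0) = 1`, with `ℚ(h) = ` the function field of level `r`
(`hmem`, `hgen`), `q` a prime not dividing `r`.
-/

set_option autoImplicit false
set_option linter.unusedSectionVars false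
set_option linter.unusedVariables false
set_option linter.style.haveILetI false

open Polynomial IntermediateField ModularCurve
open Fermat.Agent.S20 Fermat.Agent.S24 Fermat.Agent.S24_helper16_B
open Fermat.Agent.S18_helper26_CONST Fermat.Agent.S18_helper26_DEGK1
open Fermat.Agent.S37K1 Fermat.Agent.S34_helper8_MODEQ Fermat.Agent.S34_helper20_V0
open Fermat.Agent.S34_helper15_DEG Fermat.Agent.S36_helper15_HXA

namespace Fermat.Agent.S36_helper15_HXM

noncomputable section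

attribute [local instance 100000] SubalgebraClass.toAlgebra

section Level

variable (r q : ℕ) [NeZero r] [NeZero q] (u : PowerSeries ℤ)

/-- `h` over `ℚ` -/
abbrev S36HXM_h : LaurentSeries ℚ := S36HX_ser ℚ (u.map (Int.castRingHom ℚ))

/-- `h` over `ℂ` -/
abbrev S36HXM_hC : LaurentSeries ℂ := S36HX_ser ℂ (u.map (Int.castRingHom ℂ))

/-- the function field of level `r q` over `ℚ` -/
abbrev S36HXM_F : IntermediateField ℚ (LaurentSeries ℚ) := modularFunctionFieldFullC ℚ (r * q)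

theorem S36HXM_coeffMap_h {K K' : Type*} [CommRing K] [CommRing K'] (f : K →+* K') :
    coeffMap f (S36HX_ser K (u.map (Int.castRingHom K))) =
      S36HX_ser K' (u.map (Int.castRingHom K')) := by
  rw [S36HX_coeffMap_ser]
  congr 1
  rw [← RingHom.comp_apply (PowerSeries.map f) (PowerSeries.map (Int.castRingHom K)),
    ← PowerSeries.map_comp, RingHom.ext_int (f.comp (Int.castRingHom K)) (Int.castRingHom K')]

variable (hmem : S36HXM_h u ∈ modularFunctionFieldFullC ℚ r)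

/-- `h` as an element of the function field of level `r q` -/
def S36HXM_ha : S36HXM_F r q :=
  ⟨S36HXM_h u, full_degeneracyC_le ℚ (dvd_mul_right r q) hmem⟩

theorem S36HXM_ha_coe : ((S36HXM_ha r q u hmem : S36HXM_F r q) : LaurentSeries ℚ) = S36HXM_h u :=
  rfl

variable (hq : q.Prime) (hqr : ¬ q ∣ r)

/-- the Atkin-Lehner involution `w_q` of level `r q` -/
def S36HXM_w : S36HXM_F r q ≃ₐ[ℚ] S36HXM_F r q :=
  S34V0_w (algebraMap ℚ Kbar) q r (r * q) hq hqr (mul_comm r q)

theorem S36HXM_w_w (x : S36HXM_F r q) : S36HXM_w r q hq hqr (S36HXM_w r q hq hqr x) = x :=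
  S34V0_w_w (algebraMap ℚ Kbar) q r (r * q) hq hqr (mul_comm r q) x

theorem S36HXM_w_level (x : S36HXM_F r q)
    (hx : (x : LaurentSeries ℚ) ∈ modularFunctionFieldFullC ℚ r) :
    ((S36HXM_w r q hq hqr x : S36HXM_F r q) : LaurentSeries ℚ) =
      qExpand ℚ q (x : LaurentSeries ℚ) :=
  S34V0_w_level (algebraMap ℚ Kbar) q r (r * q) hq hqr (mul_comm r q) x hx

/-- `V_q h` as an element of the function field of level `r q` -/
def S36HXM_hb : S36HXM_F r q := S36HXM_w r q hq hqr (S36HXM_ha r q u hmem)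

theorem S36HXM_hb_coe :
    ((S36HXM_hb r q u hmem hq hqr : S36HXM_F r q) : LaurentSeries ℚ) =
      qExpand ℚ q (S36HXM_h u) :=
  S36HXM_w_level r q hq hqr _ hmem

theorem S36HXM_w_ha :
    S36HXM_w r q hq hqr (S36HXM_ha r q u hmem) = S36HXM_hb r q u hmem hq hqr := rfl

theorem S36HXM_w_hb :
    S36HXM_w r q hq hqr (S36HXM_hb r q u hmem hq hqr) = S36HXM_ha r q u hmem :=
  S36HXM_w_w r q hq hqr _

/-- the inclusion into the function field over `ℚ̄` -/
def S36HXM_inc : S36HXM_F r q →+* modularFunctionFieldBar (r * q) :=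
  S18DEG_inc (algebraMap ℚ Kbar) (r * q)

theorem S36HXM_inc_coe (x : S36HXM_F r q) :
    ((S36HXM_inc r q x : modularFunctionFieldBar (r * q)) : LaurentSeries Kbar) =
      coeffMap (algebraMap ℚ Kbar) (x : LaurentSeries ℚ) :=
  S18DEG_inc_coe (algebraMap ℚ Kbar) (r * q) x

/-- `h` in the function field of level `r` over `ℚ̄` -/
def S36HXM_hbar : modularFunctionFieldBar r :=
  S18DEG_inc (algebraMap ℚ Kbar) r ⟨S36HXM_h u, hmem⟩

theorem S36HXM_hbar_coe :
    ((S36HXM_hbar r u hmem : modularFunctionFieldBar r) : LaurentSeries Kbar) =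
      S36HX_ser Kbar (u.map (Int.castRingHom Kbar)) := by
  have h1 : ((S36HXM_hbar r u hmem : modularFunctionFieldBar r) : LaurentSeries Kbar) =
      coeffMap (algebraMap ℚ Kbar) (S36HXM_h u) :=
    S18DEG_inc_coe (algebraMap ℚ Kbar) r ⟨S36HXM_h u, hmem⟩
  rw [h1]
  exact S36HXM_coeffMap_h u (algebraMap ℚ Kbar)

theorem S36HXM_inc_ha :
    S36HXM_inc r q (S36HXM_ha r q u hmem) = heckeAlphaBar Kbar r q (S36HXM_hbar r u hmem) := by
  apply Subtype.ext
  rw [coe_heckeAlphaBar, S36HXM_inc_coe, S36HXM_hbar_coe, S36HXM_ha_coe]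
  exact S36HXM_coeffMap_h u (algebraMap ℚ Kbar)

theorem S36HXM_inc_hb :
    S36HXM_inc r q (S36HXM_hb r q u hmem hq hqr) =
      heckeBetaBar Kbar r q (S36HXM_hbar r u hmem) := by
  apply Subtype.ext
  rw [coe_heckeBetaBar, S36HXM_inc_coe, S36HXM_hbar_coe, S36HXM_hb_coe, coeffMap_qExpand]
  congr 1
  exact S36HXM_coeffMap_h u (algebraMap ℚ Kbar)

/-! ### the `q + 1` embeddings at infinity -/

variable (x y : ℤ) (hxy : (q : ℤ) * x - r * y = 1)

/-- the `q + 1` embeddings at infinity of the function field of level `r q` -/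
def S36HXM_e (i : Option (Fin q)) : S36HXM_F r q →+* LaurentSeries ℂ :=
  (S37K1_embOpt r q x y hxy i).comp (S36HXM_inc r q)

theorem S36HXM_e_apply (i : Option (Fin q)) (z : S36HXM_F r q) :
    S36HXM_e r q x y hxy i z = S37K1_embOpt r q x y hxy i (S36HXM_inc r q z) :=
  RingHom.comp_apply _ _ z

theorem S36HXM_phi0_h :
    coeffMap phi0 (S36HX_ser Kbar (u.map (Int.castRingHom Kbar))) = S36HXM_hC u :=
  S36HXM_coeffMap_h u phi0

theorem S36HXM_e_ha (i : Option (Fin q)) :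
    S36HXM_e r q x y hxy i (S36HXM_ha r q u hmem) = qExpand ℂ (r * q) (S36HXM_hC u) := by
  rw [S36HXM_e_apply, S36HXM_inc_ha, S37K1_embOpt_alpha, S37K1_Theta_apply, S36HXM_hbar_coe,
    S36HXM_phi0_h]

theorem S36HXM_e_hb_none :
    S36HXM_e r q x y hxy none (S36HXM_hb r q u hmem hq hqr) =
      qExpand ℂ r (qExpand ℂ (q * q) (S36HXM_hC u)) := by
  rw [S36HXM_e_apply, S36HXM_inc_hb, S37K1_embOpt_beta_none, S37K1_Theta_apply, S36HXM_hbar_coe,
    coeffMap_qExpand, S36HXM_phi0_h, qExpand_qExpand, qExpand_qExpand]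
  exact qExpand_congr (by ring) _

theorem S36HXM_e_hb_some (b : Fin q) :
    S36HXM_e r q x y hxy (some b) (S36HXM_hb r q u hmem hq hqr) =
      qExpand ℂ r (lsScale (S37K1_zeta q ^ (((b : ℕ) : ℤ))) (S36HXM_hC u)) := by
  rw [S36HXM_e_apply, S36HXM_inc_hb, S37K1_embOpt_beta_some, S37K1_Sub_apply, S36HXM_hbar_coe,
    S36HXM_phi0_h]

theorem S36HXM_e_agree (i : Option (Fin q)) (a : ℚ⟮S36HXM_ha r q u hmem⟯) :
    S36HXM_e r q x y hxy i (algebraMap ℚ⟮S36HXM_ha r q u hmem⟯ (S36HXM_F r q) a) =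
      ((S36HXM_e r q x y hxy none).comp
        (algebraMap ℚ⟮S36HXM_ha r q u hmem⟯ (S36HXM_F r q))) a :=
  S34ME_agree_adjoin (S36HXM_e r q x y hxy i) (S36HXM_e r q x y hxy none)
    (S36HXM_ha r q u hmem) (by rw [S36HXM_e_ha, S36HXM_e_ha]) _ a.2

/-! ### the shape of the conjugates -/

variable (hu : PowerSeries.constantCoeff u = 1)

theorem S36HXM_hC_coeff_mem (n : ℤ) : (S36HXM_hC u).coeff n ∈ S34ME_Zc := by
  have h : S36HXM_hC u = coeffMap (Int.castRingHom ℂ) (S36HX_ser ℤ u) := by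
    rw [S36HX_coeffMap_ser]
  rw [h, coeffMap_coeff]
  exact S34ME_intCast_mem_Zc _

include hu in
theorem S36HXM_hC_neg_one : (S36HXM_hC u).coeff (-1 : ℤ) = 1 :=
  S36HX_coeff_neg_one ℂ _ (S36HX_constantCoeff_map u hu ℂ)

include hu in
theorem S36HXM_Bdd_qExpand (D : ℕ) [NeZero D] :
    S34ME_Bdd D (qExpand ℂ D (S36HXM_hC u)) ∧
      (qExpand ℂ D (S36HXM_hC u)).coeff (-((D : ℕ) : ℤ)) = 1 := by
  have hD : (0 : ℤ) < (D : ℤ) := by exact_mod_cast Nat.pos_of_ne_zero (NeZero.ne D)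
  constructor
  · intro n
    by_cases hn : (D : ℤ) ∣ n
    · obtain ⟨m, rfl⟩ := hn
      rw [qExpand_coeff_mul]
      refine ⟨S36HXM_hC_coeff_mem u m, fun h => ?_⟩
      apply S36HX_coeff_of_lt
      by_contra hcon
      push Not at hcon
      have : (D : ℤ) * (-1) ≤ (D : ℤ) * m := mul_le_mul_of_nonneg_left hcon hD.le
      linarith
    · rw [qExpand_coeff_of_not_dvd D _ hn]
      exact ⟨S34ME_Zc.zero_mem, fun _ => rfl⟩
  · have h : (-((D : ℕ) : ℤ)) = (D : ℤ) * (-1) := by ring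
    rw [h, qExpand_coeff_mul]
    exact S36HXM_hC_neg_one u hu

include hu in
theorem S36HXM_Bdd_lsScale (hq0 : 0 < q) (z : ℂˣ) (hz : z ^ q = 1) :
    S34ME_Bdd 1 (lsScale z (S36HXM_hC u)) ∧
      (lsScale z (S36HXM_hC u)).coeff (-((1 : ℕ) : ℤ)) = ((z⁻¹ : ℂˣ) : ℂ) := by
  constructor
  · intro n
    rw [coeff_lsScale]
    refine ⟨S34ME_Zc.mul_mem ?_ (S36HXM_hC_coeff_mem u n), fun h => ?_⟩
    · apply S34ME_root_mem_Zc q hq0
      have h1 : (z ^ n) ^ q = 1 := by
        rw [← zpow_natCast, ← zpow_mul, mul_comm, zpow_mul, zpow_natCast, hz, one_zpow]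
      have h2 := congrArg (fun u : ℂˣ => (u : ℂ)) h1
      simpa using h2
    · rw [S36HX_coeff_of_lt ℂ _ (by push_cast at h; linarith), mul_zero]
  · rw [coeff_lsScale]
    have h : (-((1 : ℕ) : ℤ)) = -1 := by norm_num
    rw [h, S36HXM_hC_neg_one u hu, mul_one, zpow_neg_one]

/-- the conjugates, before the substitution `Q ↦ Q^r` -/
def S36HXM_rho : Option (Fin q) → LaurentSeries ℂ
  | none => qExpand ℂ (q * q) (S36HXM_hC u)
  | some b => lsScale (S37K1_zeta q ^ (((b : ℕ) : ℤ))) (S36HXM_hC u)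

theorem S36HXM_e_hb (i : Option (Fin q)) :
    S36HXM_e r q x y hxy i (S36HXM_hb r q u hmem hq hqr) = qExpand ℂ r (S36HXM_rho q u i) := by
  cases i with
  | none => exact S36HXM_e_hb_none r q u hmem hq hqr x y hxy
  | some b => exact S36HXM_e_hb_some r q u hmem hq hqr x y hxy b

theorem S36HXM_zpow (b : Fin q) : (S37K1_zeta q ^ (((b : ℕ) : ℤ))) ^ q = 1 := by
  rw [zpow_natCast, ← pow_mul, mul_comm, pow_mul, (S37K1_zeta_isPrimitiveRoot q).pow_eq_one,
    one_pow]

include hq hu in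
theorem S36HXM_rho_injective : Function.Injective (S36HXM_rho q u) := by
  have hq0 : 0 < q := hq.pos
  have hq2 : 2 ≤ q := hq.two_le
  have hnone : (S36HXM_rho q u none).coeff (-((1 : ℕ) : ℤ)) = 0 := by
    show (qExpand ℂ (q * q) (S36HXM_hC u)).coeff (-((1 : ℕ) : ℤ)) = 0
    apply qExpand_coeff_of_not_dvd
    rintro ⟨k, hk⟩
    have h1 : ((q * q : ℕ) : ℤ) ∣ 1 := ⟨-k, by push_cast at hk ⊢; linarith⟩
    have h3 : q * q ∣ 1 := by exact_mod_cast h1
    have := Nat.le_of_dvd one_pos h3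
    nlinarith
  have hsome : ∀ b : Fin q, (S36HXM_rho q u (some b)).coeff (-((1 : ℕ) : ℤ)) =
      (((S37K1_zeta q ^ (((b : ℕ) : ℤ)))⁻¹ : ℂˣ) : ℂ) := by
    intro b
    exact (S36HXM_Bdd_lsScale q u hu hq0 _ (S36HXM_zpow q b)).2
  intro i j hij
  have hij' : (S36HXM_rho q u i).coeff (-((1 : ℕ) : ℤ)) =
      (S36HXM_rho q u j).coeff (-((1 : ℕ) : ℤ)) := by rw [hij]
  cases i with
  | none =>
    cases j with
    | none => rfl
    | some b =>
      rw [hnone, hsome] at hij'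
      exact absurd hij'.symm (Units.ne_zero _)
  | some b =>
    cases j with
    | none =>
      rw [hnone, hsome] at hij'
      exact absurd hij' (Units.ne_zero _)
    | some b' =>
      rw [hsome, hsome] at hij'
      have h3 : (S37K1_zeta q ^ (((b : ℕ) : ℤ)))⁻¹ = (S37K1_zeta q ^ (((b' : ℕ) : ℤ)))⁻¹ :=
        Units.ext hij'
      rw [inv_inj, zpow_natCast, zpow_natCast] at h3
      have := (S37K1_zeta_isPrimitiveRoot q).pow_inj b.2 b'.2 h3
      rw [Fin.ext this]

include hu in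
theorem S36HXM_e_hb_injective :
    Function.Injective (fun i => S36HXM_e r q x y hxy i (S36HXM_hb r q u hmem hq hqr)) := by
  intro i j hij
  have h1 : qExpand ℂ r (S36HXM_rho q u i) = qExpand ℂ r (S36HXM_rho q u j) := by
    rw [← S36HXM_e_hb r q u hmem hq hqr x y hxy i, ← S36HXM_e_hb r q u hmem hq hqr x y hxy j]
    exact hij
  exact S36HXM_rho_injective q u hq hu (qExpand_injective r h1)

end Level

end

end Fermat.Agent.S36_helper15_HXM
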