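import Mathlib
import Fermat.Agent.S36_helper15_HXM
import Fermat.Agent.S36_helper15_HXB

/-!
# S36, generic layer of the Hauptmodul datum (helper15), part N: the minimal polynomial of
`V_q h` over `ℚ(h)`, its coefficients at infinity, and the two relations
-/

set_option autoImplicit false
set_option linter.unusedSectionVars false
set_option linter.unusedVariables false
set_option linter.style.haveILetI false

open Polynomial IntermediateField ModularCurve
open Fermat.Agent.S20 Fermat.Agent.S24 Fermat.Agent.S24_helper16_B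
open Fermat.Agent.S18_helper26_CONST Fermat.Agent.S18_helper26_DEGK1
open Fermat.Agent.S37K1 Fermat.Agent.S34_helper8_MODEQ Fermat.Agent.S34_helper20_V0
open Fermat.Agent.S34_helper15_DEG Fermat.Agent.S36_helper15_HXA Fermat.Agent.S36_helper15_HXM
open Fermat.Agent.S36_helper15_HXB

namespace Fermat.Agent.S36_helper15_HXN

noncomputable section

attribute [local instance 100000] SubalgebraClass.toAlgebra

section Level

variable (r q : ℕ) [NeZero r] [NeZero q] (u : PowerSeries ℤ)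
variable (hmem : S36HXM_h u ∈ modularFunctionFieldFullC ℚ r)
variable (hgen : modularFunctionFieldFullC ℚ r ≤ IntermediateField.adjoin ℚ {S36HXM_h u})
variable (hq : q.Prime) (hqr : ¬ q ∣ r)

include hgen in
theorem S36HXN_adjoin_top :
    ℚ⟮(⟨S36HXM_h u, hmem⟩ : ↥(modularFunctionFieldFullC ℚ r))⟯ = ⊤ := by
  rw [eq_top_iff]
  intro z _
  have hz : (z : LaurentSeries ℚ) ∈ IntermediateField.adjoin ℚ {S36HXM_h u} := hgen z.2
  have hmap : (ℚ⟮(⟨S36HXM_h u, hmem⟩ : ↥(modularFunctionFieldFullC ℚ r))⟯).map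
      (modularFunctionFieldFullC ℚ r).val = IntermediateField.adjoin ℚ {S36HXM_h u} := by
    rw [IntermediateField.adjoin_map, Set.image_singleton]
    rfl
  rw [← hmap] at hz
  obtain ⟨z', hz', hzz⟩ := hz
  have h1 : z' = z := Subtype.ext hzz
  rw [← h1]
  exact hz'

include hgen hq hqr in
theorem S36HXN_finrank :
    Module.finrank ℚ⟮S36HXM_ha r q u hmem⟯ (S36HXM_F r q) = q + 1 := by
  letI := S34DEG_algebra ℚ r q
  have h1 := S34DEG_tower (S34DEG_incl ℚ r q)
    (⟨S36HXM_h u, hmem⟩ : ↥(modularFunctionFieldFullC ℚ r))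
  have h2 : S34DEG_incl ℚ r q ⟨S36HXM_h u, hmem⟩ = S36HXM_ha r q u hmem :=
    Subtype.ext (S34DEG_incl_coe ℚ r q _)
  rw [h2] at h1
  have h3 : Module.finrank ↥(modularFunctionFieldFullC ℚ r)
      ↥(modularFunctionFieldFullC ℚ (r * q)) = q + 1 :=
    S34DEG_finrank ℚ r q (algebraMap ℚ Kbar) hq hqr
  have h4 : Module.finrank ℚ⟮(⟨S36HXM_h u, hmem⟩ : ↥(modularFunctionFieldFullC ℚ r))⟯
      ↥(modularFunctionFieldFullC ℚ r) = 1 :=
    IntermediateField.finrank_eq_one_iff_eq_top.2 (S36HXN_adjoin_top r u hmem hgen)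
  rw [h3, h4, one_mul] at h1
  exact h1

include hgen hq hqr in
theorem S36HXN_finiteDimensional :
    FiniteDimensional ℚ⟮S36HXM_ha r q u hmem⟯ (S36HXM_F r q) := by
  apply FiniteDimensional.of_finrank_pos
  rw [S36HXN_finrank r q u hmem hgen hq hqr]
  exact Nat.succ_pos q

variable (x y : ℤ) (hxy : (q : ℤ) * x - r * y = 1)

theorem S36HXN_e_none (z : S36HXM_F r q) :
    S36HXM_e r q x y hxy none z =
      qExpand ℂ (r * q) (coeffMap (algebraMap ℚ ℂ) (z : LaurentSeries ℚ)) := by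
  have h1 : S36HXM_e r q x y hxy none z = S37K1_emb (r * q) 1 (S36HXM_inc r q z) := rfl
  rw [h1, S37K1_emb_one, S37K1_Theta_apply, S36HXM_inc_coe, coeffMap_coeffMap]
  have h3 : phi0.comp (algebraMap ℚ Kbar) = algebraMap ℚ ℂ := RingHom.ext_rat _ _
  rw [h3]

/-- the minimal polynomial of `V_q h` over `ℚ(h)` -/
def S36HXN_m : Polynomial ℚ⟮S36HXM_ha r q u hmem⟯ :=
  minpoly ℚ⟮S36HXM_ha r q u hmem⟯ (S36HXM_hb r q u hmem hq hqr)

/-- the `k`-th coefficient of the minimal polynomial, as an element of `F` -/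
def S36HXN_c (k : ℕ) : S36HXM_F r q :=
  algebraMap ℚ⟮S36HXM_ha r q u hmem⟯ (S36HXM_F r q) ((S36HXN_m r q u hmem hq hqr).coeff k)

/-- the series of the `k`-th coefficient -/
def S36HXN_beta (k : ℕ) : LaurentSeries ℚ :=
  ((S36HXN_c r q u hmem hq hqr k : S36HXM_F r q) : LaurentSeries ℚ)

variable (hu : PowerSeries.constantCoeff u = 1)

include hgen hu hxy in
theorem S36HXN_inf :
    (S36HXN_m r q u hmem hq hqr).natDegree = q + 1 ∧
    (∀ k : ℕ, k ≤ q → S34ME_Bdd (q * q + (q - k))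
      (qExpand ℂ q (coeffMap (algebraMap ℚ ℂ) (S36HXN_beta r q u hmem hq hqr k)))) ∧
    (qExpand ℂ q (coeffMap (algebraMap ℚ ℂ) (S36HXN_beta r q u hmem hq hqr 0))).coeff
      (-((q * q + q : ℕ) : ℤ)) = 1 := by
  classical
  have hq0 : 0 < q := hq.pos
  haveI : NeZero (q * q) := ⟨Nat.mul_ne_zero hq.ne_zero hq.ne_zero⟩
  haveI := S36HXN_finiteDimensional r q u hmem hgen hq hqr
  have hcard : Module.finrank ℚ⟮S36HXM_ha r q u hmem⟯ (S36HXM_F r q) ≤
      Fintype.card (Option (Fin q)) := by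
    rw [S36HXN_finrank r q u hmem hgen hq hqr, Fintype.card_option, Fintype.card_fin]
  obtain ⟨hprod, hdeg⟩ := S34ME_split (S36HXM_hb r q u hmem hq hqr)
    ((S36HXM_e r q x y hxy none).comp
      (algebraMap ℚ⟮S36HXM_ha r q u hmem⟯ (S36HXM_F r q)))
    (S36HXM_e r q x y hxy)
    (S36HXM_e_agree r q u hmem x y hxy)
    (S36HXM_e_hb_injective r q u hmem hq hqr x y hxy hu) hcard
  rw [Fintype.card_option, Fintype.card_fin] at hdeg
  refine ⟨hdeg, ?_⟩
  obtain ⟨ζ, hζdef⟩ : ∃ ζ : ℂ, ζ = (((S37K1_zeta q)⁻¹ : ℂˣ) : ℂ) := ⟨_, rfl⟩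
  have hζ : IsPrimitiveRoot ζ q := by
    rw [hζdef, IsPrimitiveRoot.coe_units_iff]
    exact (S37K1_zeta_isPrimitiveRoot q).inv
  have h0 := S36HXM_Bdd_qExpand u hu (q * q)
  have h1 : S34ME_Bdd (q * q) (S36HXM_rho q u none) := h0.1
  have h1' : (S36HXM_rho q u none).coeff (-((q * q : ℕ) : ℤ)) = 1 := h0.2
  have h2 : ∀ b : Fin q, S34ME_Bdd 1 (S36HXM_rho q u (some b)) := by
    intro b
    exact (S36HXM_Bdd_lsScale q u hu hq0 _ (S36HXM_zpow q b)).1
  have h2' : ∀ b : Fin q,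
      (S36HXM_rho q u (some b)).coeff (-((1 : ℕ) : ℤ)) = ζ ^ (b : ℕ) := by
    intro b
    have h := (S36HXM_Bdd_lsScale q u hu hq0 _ (S36HXM_zpow q b)).2
    have h' : (S36HXM_rho q u (some b)).coeff (-((1 : ℕ) : ℤ)) =
        (((S37K1_zeta q ^ (((b : ℕ) : ℤ)))⁻¹ : ℂˣ) : ℂ) := h
    rw [h', hζdef, zpow_natCast, ← inv_pow, Units.val_pow_eq_pow_val]
  have hmain := S34ME_inf_main q hq0 ζ hζ (S36HXM_rho q u) h1 h1' h2 h2'
  have hp : (∏ i, (X - C (S36HXM_e r q x y hxy i (S36HXM_hb r q u hmem hq hqr)))) =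
      (∏ i, (X - C (S36HXM_rho q u i))).map (qExpand ℂ r) := by
    rw [Polynomial.map_prod]
    refine Finset.prod_congr rfl (fun i _ => ?_)
    rw [Polynomial.map_sub, map_X, map_C, S36HXM_e_hb]
  have hcoef : ∀ k : ℕ, (∏ i, (X - C (S36HXM_rho q u i))).coeff k =
      qExpand ℂ q (coeffMap (algebraMap ℚ ℂ) (S36HXN_beta r q u hmem hq hqr k)) := by
    intro k
    apply qExpand_injective (R := ℂ) r
    have h := congrArg (fun p : Polynomial (LaurentSeries ℂ) => p.coeff k) (hprod.trans hp)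
    simp only [coeff_map] at h
    rw [← h, RingHom.comp_apply, qExpand_qExpand]
    exact S36HXN_e_none r q x y hxy _
  refine ⟨fun k hk => ?_, ?_⟩
  · rw [← hcoef k]
    exact hmain.1 k hk
  · rw [← hcoef 0]
    exact hmain.2

include hgen hu hxy in
theorem S36HXN_beta_coeff (k : ℕ) (hk : k ≤ q) (n : ℤ) :
    (∃ c : ℤ, (S36HXN_beta r q u hmem hq hqr k).coeff n = c) ∧
    ((q : ℤ) * n < -((q * q + (q - k) : ℕ) : ℤ) →
      (S36HXN_beta r q u hmem hq hqr k).coeff n = 0) := by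
  have hB := (S36HXN_inf r q u hmem hgen hq hqr x y hxy hu).2.1 k hk (((q : ℕ) : ℤ) * n)
  rw [qExpand_coeff_mul, coeffMap_coeff] at hB
  constructor
  · have h1 : (((S36HXN_beta r q u hmem hq hqr k).coeff n : ℚ) : ℂ) ∈ S34ME_Zc := by
      rw [← eq_ratCast (algebraMap ℚ ℂ)]
      exact hB.1
    exact S34ME_rat_of_mem_Zc _ h1
  · intro hn
    have h2 := hB.2 (by push_cast at hn ⊢; linarith)
    exact (algebraMap ℚ ℂ).injective (by rw [h2, map_zero])

include hgen hu hxy in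
theorem S36HXN_beta_vanish (k : ℕ) (hk1 : 1 ≤ k) (hk : k ≤ q) (n : ℤ)
    (hn : n < -((q : ℕ) : ℤ)) : (S36HXN_beta r q u hmem hq hqr k).coeff n = 0 := by
  apply (S36HXN_beta_coeff r q u hmem hgen hq hqr x y hxy hu k hk n).2
  have hq0 : (0 : ℤ) < (q : ℤ) := by exact_mod_cast hq.pos
  have h1 : (q : ℤ) * n ≤ (q : ℤ) * (-(q : ℤ) - 1) :=
    mul_le_mul_of_nonneg_left (by linarith) hq0.le
  have h2 : ((q * q + (q - k) : ℕ) : ℤ) = (q : ℤ) * q + ((q : ℤ) - k) := by
    push_cast [Nat.cast_sub hk]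
    ring
  have hk1' : (1 : ℤ) ≤ (k : ℤ) := by exact_mod_cast hk1
  rw [h2]
  nlinarith

include hgen hu hxy in
theorem S36HXN_beta_zero_vanish (n : ℤ)
    (hn : n < -((q + 1 : ℕ) : ℤ)) : (S36HXN_beta r q u hmem hq hqr 0).coeff n = 0 := by
  apply (S36HXN_beta_coeff r q u hmem hgen hq hqr x y hxy hu 0 (Nat.zero_le q) n).2
  have hq0 : (0 : ℤ) < (q : ℤ) := by exact_mod_cast hq.pos
  have h1 : (q : ℤ) * n ≤ (q : ℤ) * (-(q : ℤ) - 2) :=
    mul_le_mul_of_nonneg_left (by push_cast at hn; linarith) hq0.le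
  have h2 : ((q * q + (q - 0) : ℕ) : ℤ) = (q : ℤ) * q + (q : ℤ) := by
    rw [Nat.sub_zero]
    push_cast
    ring
  rw [h2]
  nlinarith

include hgen hu hxy in
theorem S36HXN_beta_zero_lead :
    (S36HXN_beta r q u hmem hq hqr 0).coeff (-((q + 1 : ℕ) : ℤ)) = 1 := by
  have h := (S36HXN_inf r q u hmem hgen hq hqr x y hxy hu).2.2
  have h1 : (-((q * q + q : ℕ) : ℤ)) = ((q : ℕ) : ℤ) * (-((q + 1 : ℕ) : ℤ)) := by
    push_cast
    ring
  rw [h1, qExpand_coeff_mul, coeffMap_coeff] at h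
  exact (algebraMap ℚ ℂ).injective (by rw [h, map_one])

include hgen hu hxy in
theorem S36HXN_relF :
    (S36HXM_hb r q u hmem hq hqr) ^ (q + 1) +
      ∑ i ∈ Finset.range (q + 1),
        S36HXN_c r q u hmem hq hqr i * (S36HXM_hb r q u hmem hq hqr) ^ i = 0 := by
  have hdeg := (S36HXN_inf r q u hmem hgen hq hqr x y hxy hu).1
  haveI := S36HXN_finiteDimensional r q u hmem hgen hq hqr
  have hint : IsIntegral ℚ⟮S36HXM_ha r q u hmem⟯ (S36HXM_hb r q u hmem hq hqr) :=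
    IsIntegral.of_finite _ _
  have hmonic : (S36HXN_m r q u hmem hq hqr).Monic := minpoly.monic hint
  have h0 : aeval (S36HXM_hb r q u hmem hq hqr) (S36HXN_m r q u hmem hq hqr) = 0 :=
    minpoly.aeval _ _
  have hsum := hmonic.as_sum
  rw [hdeg] at hsum
  rw [Polynomial.aeval_def, hsum, eval₂_add, eval₂_pow, eval₂_X, eval₂_finsetSum] at h0
  have h1 : ∀ i : ℕ, eval₂ (algebraMap ℚ⟮S36HXM_ha r q u hmem⟯ (S36HXM_F r q))
      (S36HXM_hb r q u hmem hq hqr)
      (C ((S36HXN_m r q u hmem hq hqr).coeff i) * X ^ i) =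
        S36HXN_c r q u hmem hq hqr i * (S36HXM_hb r q u hmem hq hqr) ^ i := by
    intro i
    rw [eval₂_mul, eval₂_C, eval₂_pow, eval₂_X]
    rfl
  rw [Finset.sum_congr rfl (fun i _ => h1 i)] at h0
  exact h0

/-! ### polynomiality of the coefficients -/

theorem S36HXN_coe_aeval (z : S36HXM_F r q) (P : Polynomial ℚ) :
    ((aeval z P : S36HXM_F r q) : LaurentSeries ℚ) = aeval (z : LaurentSeries ℚ) P :=
  (Polynomial.aeval_algHom_apply (S36HXM_F r q).val z P).symm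

include hu in
theorem S36HXN_transcendental : Transcendental ℚ (S36HXM_ha r q u hmem) := by
  rintro ⟨P, hP0, hP⟩
  apply hP0
  apply S36HX_aeval_eq_zero ℚ _ (S36HX_constantCoeff_map u hu ℚ) P
  have h := S36HXN_coe_aeval r q (S36HXM_ha r q u hmem) P
  rw [hP] at h
  exact h.symm

theorem S36HXN_frac (k : ℕ) : ∃ P D : Polynomial ℚ, D ≠ 0 ∧
    S36HXN_c r q u hmem hq hqr k * aeval (S36HXM_ha r q u hmem) D =
      aeval (S36HXM_ha r q u hmem) P := by
  have hmem' := ((S36HXN_m r q u hmem hq hqr).coeff k).2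
  rw [IntermediateField.mem_adjoin_simple_iff] at hmem'
  obtain ⟨P, D, hPD⟩ := hmem'
  have hc : S36HXN_c r q u hmem hq hqr k =
      aeval (S36HXM_ha r q u hmem) P / aeval (S36HXM_ha r q u hmem) D := hPD
  by_cases h0 : aeval (S36HXM_ha r q u hmem) D = 0
  · refine ⟨0, 1, one_ne_zero, ?_⟩
    rw [hc, h0, div_zero, zero_mul, map_zero]
  · refine ⟨P, D, ?_, ?_⟩
    · rintro rfl
      exact h0 (map_zero _)
    · rw [hc, div_mul_cancel₀ _ h0]

include hgen hu hxy in
theorem S36HXN_integral :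
    IsIntegral (Algebra.adjoin ℚ {S36HXM_ha r q u hmem}) (S36HXM_hb r q u hmem hq hqr) := by
  classical
  have hg := S36HX_constantCoeff_map u hu ℚ
  choose P D hD hPD using S36HXN_frac r q u hmem hq hqr
  obtain ⟨DD, hDDdef⟩ : ∃ DD : Polynomial ℚ, DD = ∏ j ∈ Finset.range (q + 1), D j := ⟨_, rfl⟩
  obtain ⟨PP, hPPdef⟩ : ∃ PP : ℕ → Polynomial ℚ,
      PP = fun k => P k * ∏ j ∈ (Finset.range (q + 1)).erase k, D j := ⟨_, rfl⟩
  have hDD : DD ≠ 0 := by
    rw [hDDdef]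
    exact Finset.prod_ne_zero_iff.2 (fun j _ => hD j)
  have hPP : ∀ k ∈ Finset.range (q + 1),
      S36HXN_c r q u hmem hq hqr k * aeval (S36HXM_ha r q u hmem) DD =
        aeval (S36HXM_ha r q u hmem) (PP k) := by
    intro k hk
    have h1 : DD = D k * ∏ j ∈ (Finset.range (q + 1)).erase k, D j := by
      rw [hDDdef]
      exact (Finset.mul_prod_erase _ D hk).symm
    rw [h1, hPPdef, map_mul, ← mul_assoc, hPD k, map_mul]
  have hser : ∀ k ∈ Finset.range (q + 1),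
      S36HXN_beta r q u hmem hq hqr k * aeval (S36HXM_h u) DD = aeval (S36HXM_h u) (PP k) := by
    intro k hk
    have h := congrArg (fun z : S36HXM_F r q => (z : LaurentSeries ℚ)) (hPP k hk)
    have h2 : ((S36HXN_c r q u hmem hq hqr k * aeval (S36HXM_ha r q u hmem) DD :
        S36HXM_F r q) : LaurentSeries ℚ) =
        S36HXN_beta r q u hmem hq hqr k * aeval (S36HXM_h u) DD := by
      rw [MulMemClass.coe_mul, S36HXN_coe_aeval, S36HXM_ha_coe]
      rfl
    have h3 : ((aeval (S36HXM_ha r q u hmem) (PP k) : S36HXM_F r q) : LaurentSeries ℚ) =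
        aeval (S36HXM_h u) (PP k) := by
      rw [S36HXN_coe_aeval, S36HXM_ha_coe]
    rw [← h2, ← h3]
    exact h
  have hdeg0 : (PP 0).natDegree = DD.natDegree + (q + 1) := by
    have h := (S36HXB_degree ℚ _ hg (S36HXN_beta r q u hmem hq hqr 0) (PP 0) DD hDD
      (hser 0 (Finset.mem_range.2 (Nat.succ_pos q))) (q + 1)
      (S36HXN_beta_zero_vanish r q u hmem hgen hq hqr x y hxy hu)).2
    apply h
    rw [S36HXN_beta_zero_lead r q u hmem hgen hq hqr x y hxy hu]
    exact one_ne_zero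
  have hdegk : ∀ k, 1 ≤ k → k ≤ q → (PP k).natDegree ≤ DD.natDegree + q := by
    intro k hk1 hkq
    exact (S36HXB_degree ℚ _ hg (S36HXN_beta r q u hmem hq hqr k) (PP k) DD hDD
      (hser k (Finset.mem_range.2 (Nat.lt_succ_of_le hkq))) q
      (S36HXN_beta_vanish r q u hmem hgen hq hqr x y hxy hu k hk1 hkq)).1
  have hw : ∀ k ∈ Finset.range (q + 1),
      aeval (S36HXM_hb r q u hmem hq hqr) (PP k) =
        S36HXM_w r q hq hqr (S36HXN_c r q u hmem hq hqr k) *
          aeval (S36HXM_hb r q u hmem hq hqr) DD := by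
    intro k hk
    have h := congrArg (S36HXM_w r q hq hqr) (hPP k hk)
    rw [map_mul, ← Polynomial.aeval_algHom_apply, ← Polynomial.aeval_algHom_apply,
      S36HXM_w_ha] at h
    exact h.symm
  have hrelw := congrArg (S36HXM_w r q hq hqr) (S36HXN_relF r q u hmem hgen hq hqr x y hxy hu)
  rw [map_add, map_pow, map_sum, map_zero, S36HXM_w_hb] at hrelw
  have hrel : aeval (S36HXM_hb r q u hmem hq hqr) DD * (S36HXM_ha r q u hmem) ^ (q + 1) +
      ∑ k ∈ Finset.range (q + 1),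
        aeval (S36HXM_hb r q u hmem hq hqr) (PP k) * (S36HXM_ha r q u hmem) ^ k = 0 := by
    have h1 : ∑ k ∈ Finset.range (q + 1),
        aeval (S36HXM_hb r q u hmem hq hqr) (PP k) * (S36HXM_ha r q u hmem) ^ k =
        aeval (S36HXM_hb r q u hmem hq hqr) DD * ∑ k ∈ Finset.range (q + 1),
          S36HXM_w r q hq hqr
            (S36HXN_c r q u hmem hq hqr k * (S36HXM_hb r q u hmem hq hqr) ^ k) := by
      rw [Finset.mul_sum]
      refine Finset.sum_congr rfl (fun k hk => ?_)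
      rw [hw k hk, map_mul, map_pow, S36HXM_w_hb]
      ring
    rw [h1, ← mul_add, hrelw, mul_zero]
  exact S36HX_isIntegral_of_rel (S36HXM_ha r q u hmem) (S36HXM_hb r q u hmem hq hqr) q DD PP
    hrel hdeg0 hdegk _ (Algebra.subset_adjoin (Set.mem_singleton _))

include hgen hu hxy in
theorem S36HXN_poly (k : ℕ) :
    ∃ P : Polynomial ℚ, aeval (S36HXM_ha r q u hmem) P = S36HXN_c r q u hmem hq hqr k := by
  obtain ⟨P, hP⟩ := S36HXB_minpoly_coeff (S36HXM_ha r q u hmem) (S36HXM_hb r q u hmem hq hqr)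
    (S36HXN_transcendental r q u hmem hu)
    (S36HXN_integral r q u hmem hgen hq hqr x y hxy hu) k
  exact ⟨P, hP.symm⟩

include hgen hu hxy in
theorem S36HXN_poly_series (k : ℕ) :
    ∃ P : Polynomial ℚ, aeval (S36HXM_h u) P = S36HXN_beta r q u hmem hq hqr k := by
  obtain ⟨P, hP⟩ := S36HXN_poly r q u hmem hgen hq hqr x y hxy hu k
  refine ⟨P, ?_⟩
  have h1 := S36HXN_coe_aeval r q (S36HXM_ha r q u hmem) P
  rw [hP] at h1
  exact h1.symm


/-! ### integer polynomials -/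

theorem S36HXN_coe_eval₂ (z : S36HXM_F r q) (p : Polynomial ℤ) :
    ((Polynomial.eval₂ (Int.castRingHom (S36HXM_F r q)) z p : S36HXM_F r q) :
      LaurentSeries ℚ) =
      Polynomial.eval₂ (Int.castRingHom (LaurentSeries ℚ)) (z : LaurentSeries ℚ) p :=
  S34ME_map_eval₂ (S36HXM_F r q).val.toRingHom z p

include hgen hu hxy in
theorem S36HXN_intPoly (k : ℕ) (hk : k ≤ q) :
    ∃ a : Polynomial ℤ, a.natDegree ≤ (if k = 0 then q + 1 else q) ∧
      (k = 0 → a.coeff (q + 1) = 1) ∧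
      Polynomial.eval₂ (Int.castRingHom (S36HXM_F r q)) (S36HXM_ha r q u hmem) a =
        S36HXN_c r q u hmem hq hqr k := by
  obtain ⟨P, hP⟩ := S36HXN_poly_series r q u hmem hgen hq hqr x y hxy hu k
  have hint : ∀ m : ℤ, ∃ c : ℤ, (S36HXN_beta r q u hmem hq hqr k).coeff m = c :=
    fun m => (S36HXN_beta_coeff r q u hmem hgen hq hqr x y hxy hu k hk m).1
  have hback : ∀ a : Polynomial ℤ,
      aeval (S36HXM_h u) (a.map (Int.castRingHom ℚ)) = S36HXN_beta r q u hmem hq hqr k →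
      Polynomial.eval₂ (Int.castRingHom (S36HXM_F r q)) (S36HXM_ha r q u hmem) a =
        S36HXN_c r q u hmem hq hqr k := by
    intro a ha
    apply Subtype.ext
    rw [S36HXN_coe_eval₂, ← S34ME_aeval_map_int, S36HXM_ha_coe]
    exact ha
  by_cases hk0 : k = 0
  · subst hk0
    obtain ⟨a, ha1, ha2, ha3⟩ := S36HX_exists_int_poly u hu (S36HXN_beta r q u hmem hq hqr 0) P
      hP hint (q + 1) (S36HXN_beta_zero_vanish r q u hmem hgen hq hqr x y hxy hu)
    refine ⟨a, by rw [if_pos rfl]; exact ha1, fun _ => ?_, hback a ha2⟩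
    rw [S36HXN_beta_zero_lead r q u hmem hgen hq hqr x y hxy hu] at ha3
    exact_mod_cast ha3
  · obtain ⟨a, ha1, ha2, -⟩ := S36HX_exists_int_poly u hu (S36HXN_beta r q u hmem hq hqr k) P
      hP hint q
      (S36HXN_beta_vanish r q u hmem hgen hq hqr x y hxy hu k (Nat.pos_of_ne_zero hk0) hk)
    exact ⟨a, by rw [if_neg hk0]; exact ha1, fun h => absurd h hk0, hback a ha2⟩

include hgen hu hxy in
/-- **The modular equation of `(h, V_q h)` in the function field**, integer coefficients. -/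
theorem S36HXN_core_F :
    ∃ a : ℕ → Polynomial ℤ, (∀ i, 1 ≤ i → i ≤ q → (a i).natDegree ≤ q) ∧ (a 0).Monic ∧
      (a 0).natDegree = q + 1 ∧
      (S36HXM_hb r q u hmem hq hqr) ^ (q + 1) + ∑ i ∈ Finset.range (q + 1),
        Polynomial.eval₂ (Int.castRingHom (S36HXM_F r q)) (S36HXM_ha r q u hmem) (a i) *
          (S36HXM_hb r q u hmem hq hqr) ^ i = 0 := by
  classical
  have hex : ∀ k : ℕ, ∃ a : Polynomial ℤ, k ≤ q →
      (a.natDegree ≤ (if k = 0 then q + 1 else q) ∧ (k = 0 → a.coeff (q + 1) = 1) ∧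
        Polynomial.eval₂ (Int.castRingHom (S36HXM_F r q)) (S36HXM_ha r q u hmem) a =
          S36HXN_c r q u hmem hq hqr k) := by
    intro k
    by_cases hk : k ≤ q
    · obtain ⟨a, ha⟩ := S36HXN_intPoly r q u hmem hgen hq hqr x y hxy hu k hk
      exact ⟨a, fun _ => ha⟩
    · exact ⟨0, fun h => absurd h hk⟩
  choose a ha using hex
  have h1 := (ha 0 (Nat.zero_le q)).1
  rw [if_pos rfl] at h1
  have h2 := (ha 0 (Nat.zero_le q)).2.1 rfl
  have hnd : (a 0).natDegree = q + 1 :=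
    le_antisymm h1 (le_natDegree_of_ne_zero (by rw [h2]; exact one_ne_zero))
  refine ⟨a, ?_, ?_, hnd, ?_⟩
  · intro i hi1 hiq
    have := (ha i hiq).1
    rwa [if_neg (by omega)] at this
  · show (a 0).leadingCoeff = 1
    rw [leadingCoeff, hnd, h2]
  · have h := S36HXN_relF r q u hmem hgen hq hqr x y hxy hu
    rw [Finset.sum_congr rfl (fun i hi => by
      rw [(ha i (by rw [Finset.mem_range] at hi; omega)).2.2] :
      ∀ i ∈ Finset.range (q + 1),
        Polynomial.eval₂ (Int.castRingHom (S36HXM_F r q)) (S36HXM_ha r q u hmem) (a i) *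
            (S36HXM_hb r q u hmem hq hqr) ^ i =
          S36HXN_c r q u hmem hq hqr i * (S36HXM_hb r q u hmem hq hqr) ^ i)]
    exact h

theorem S36HXN_rel_coe (a : ℕ → Polynomial ℤ) (z w : S36HXM_F r q)
    (h : z ^ (q + 1) + ∑ i ∈ Finset.range (q + 1),
      Polynomial.eval₂ (Int.castRingHom (S36HXM_F r q)) w (a i) * z ^ i = 0) :
    (z : LaurentSeries ℚ) ^ (q + 1) + ∑ i ∈ Finset.range (q + 1),
      Polynomial.eval₂ (Int.castRingHom (LaurentSeries ℚ)) (w : LaurentSeries ℚ) (a i) *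
        (z : LaurentSeries ℚ) ^ i = 0 := by
  have h2 := congrArg (S36HXM_F r q).val.toRingHom h
  simp only [map_add, map_pow, map_sum, map_mul, map_zero, S34ME_map_eval₂] at h2
  exact h2

end Level

section Main

variable (r q : ℕ) [NeZero r] [NeZero q] (u : PowerSeries ℤ)

theorem S36HXN_bezout (hq : q.Prime) (hqr : ¬ q ∣ r) :
    ∃ x y : ℤ, (q : ℤ) * x - r * y = 1 := by
  have hcop : Nat.Coprime q r := (Nat.Prime.coprime_iff_not_dvd hq).2 hqr
  have h := (Nat.isCoprime_iff_coprime (m := q) (n := r)).2 hcop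
  obtain ⟨a, b, hab⟩ := h
  exact ⟨a, -b, by linarith⟩

/-- **MODEQ-h.**  The modular equation of `(h, V_q h)`, `h = Q⁻¹ u` a Hauptmodul of level `r`
with integer coefficients, `q` a prime not dividing `r`: integer polynomials `a i` of degree
`≤ q` (`a 0` monic of degree `q + 1`) with both relations in `ℤ((Q))`. -/
theorem S36HXN_core (hu : PowerSeries.constantCoeff u = 1)
    (hmem : S36HX_ser ℚ (u.map (Int.castRingHom ℚ)) ∈ modularFunctionFieldFullC ℚ r)
    (hgen : modularFunctionFieldFullC ℚ r ≤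
      IntermediateField.adjoin ℚ {S36HX_ser ℚ (u.map (Int.castRingHom ℚ))})
    (hq : q.Prime) (hqr : ¬ q ∣ r) :
    ∃ a : ℕ → Polynomial ℤ, (∀ i, 1 ≤ i → i ≤ q → (a i).natDegree ≤ q) ∧ (a 0).Monic ∧
      (a 0).natDegree = q + 1 ∧
      (qExpand ℤ q (S36HX_ser ℤ u)) ^ (q + 1) + ∑ i ∈ Finset.range (q + 1),
        Polynomial.eval₂ (Int.castRingHom (LaurentSeries ℤ)) (S36HX_ser ℤ u) (a i) *
          (qExpand ℤ q (S36HX_ser ℤ u)) ^ i = 0 ∧
      (S36HX_ser ℤ u) ^ (q + 1) + ∑ i ∈ Finset.range (q + 1),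
        Polynomial.eval₂ (Int.castRingHom (LaurentSeries ℤ)) (qExpand ℤ q (S36HX_ser ℤ u))
          (a i) * (S36HX_ser ℤ u) ^ i = 0 := by
  obtain ⟨x, y, hxy⟩ := S36HXN_bezout r q hq hqr
  obtain ⟨a, h1, h2, h3, hF1⟩ := S36HXN_core_F r q u hmem hgen hq hqr x y hxy hu
  have hF2 : (S36HXM_ha r q u hmem) ^ (q + 1) + ∑ i ∈ Finset.range (q + 1),
      Polynomial.eval₂ (Int.castRingHom (S36HXM_F r q)) (S36HXM_hb r q u hmem hq hqr) (a i) *
        (S36HXM_ha r q u hmem) ^ i = 0 := by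
    have hwe : ∀ (z : S36HXM_F r q) (p : Polynomial ℤ),
        S36HXM_w r q hq hqr (Polynomial.eval₂ (Int.castRingHom (S36HXM_F r q)) z p) =
          Polynomial.eval₂ (Int.castRingHom (S36HXM_F r q)) (S36HXM_w r q hq hqr z) p :=
      fun z p => S34ME_map_eval₂ ((S36HXM_w r q hq hqr).toRingEquiv.toRingHom) z p
    have h := congrArg (S36HXM_w r q hq hqr) hF1
    simp only [map_add, map_pow, map_sum, map_mul, map_zero, hwe] at h
    rw [S36HXM_w_hb] at h
    simp only [S36HXM_w_ha] at h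
    exact h
  have hS1 := S36HXN_rel_coe r q a _ _ hF1
  have hS2 := S36HXN_rel_coe r q a _ _ hF2
  rw [S36HXM_hb_coe, S36HXM_ha_coe] at hS1 hS2
  have hc : coeffMap (Int.castRingHom ℚ) (S36HX_ser ℤ u) = S36HXM_h u :=
    S36HX_coeffMap_ser ℤ u (Int.castRingHom ℚ)
  refine ⟨a, h1, h2, h3, S34ME_rel_int q a _ _ ?_, S34ME_rel_int q a _ _ ?_⟩
  · rw [coeffMap_qExpand, hc]
    exact hS1
  · rw [coeffMap_qExpand, hc]
    exact hS2

end Main

end

end Fermat.Agent.S36_helper15_HXN
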