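import Mathlib
import Fermat.Agent.S34_helper8_MODEQ
import Fermat.Agent.S37_helper2_K2ABS
import Fermat.Agent.S18_helper26_CONST

/-!
# S36, GEO36 / V_mid, part (K) (helper1): the Kronecker congruence in coefficient form

`a : ℕ → ℤ[X]` the coefficients of the modular equation of prime level `q`
(`Ψ(X, Y) = Y^(q+1) + ∑_{i ≤ q} a_i(X) Y^i`, `Ψ(j, j_q) = 0 = Ψ(j_q, j)`).  Modulo `q`:

  `a_0 = X^(q+1)`, `a_1 = - X`, `a_q = - X^q`, `a_i = 0` for `2 ≤ i < q`,

i.e. `Ψ = (Y - X^q)(Y^q - X)`.  Proof: the two relations, `j(Q^q) = j^q` over `𝔽_q`, the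
transcendence of `j`, and the independence of `1, X, .., X^(q-1)` over `𝔽_q[X^q]`.
-/

set_option autoImplicit false
set_option linter.unusedSectionVars false
set_option linter.unusedVariables false
set_option linter.style.haveILetI false

open Polynomial ModularCurve

noncomputable section

namespace Fermat.Agent.S36_helper1_KRON

/-- `a` is a modular equation of level `q`: both relations hold over `ℤ`. -/
def S36VM_IsModEq (q : ℕ) [NeZero q] (a : ℕ → ℤ[X]) : Prop :=
  ((qExpand ℤ q (jqModC ℤ)) ^ (q + 1) + ∑ i ∈ Finset.range (q + 1),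
      eval₂ (Int.castRingHom (LaurentSeries ℤ)) (jqModC ℤ) (a i) *
        (qExpand ℤ q (jqModC ℤ)) ^ i = 0) ∧
    ((jqModC ℤ) ^ (q + 1) + ∑ i ∈ Finset.range (q + 1),
      eval₂ (Int.castRingHom (LaurentSeries ℤ)) (qExpand ℤ q (jqModC ℤ)) (a i) *
        (jqModC ℤ) ^ i = 0)

theorem S36VM_exists_modEq (q : ℕ) [NeZero q] (hq : q.Prime) : ∃ a, S36VM_IsModEq q a := by
  obtain ⟨a, -, -, -, h4, h5⟩ := Fermat.Agent.S34_helper8_MODEQ.S34ME_hyp q hq
  exact ⟨a, h4, h5⟩

section Transport

variable {q : ℕ} [NeZero q] {a : ℕ → ℤ[X]}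

/-- the two relations over any coefficient ring -/
theorem S36VM_modEq_map (K : Type*) [CommRing K] (h : S36VM_IsModEq q a) :
    ((qExpand K q (jqModC K)) ^ (q + 1) + ∑ i ∈ Finset.range (q + 1),
      eval₂ (Int.castRingHom (LaurentSeries K)) (jqModC K) (a i) *
        (qExpand K q (jqModC K)) ^ i = 0) ∧
    ((jqModC K) ^ (q + 1) + ∑ i ∈ Finset.range (q + 1),
      eval₂ (Int.castRingHom (LaurentSeries K)) (qExpand K q (jqModC K)) (a i) *
        (jqModC K) ^ i = 0) := by
  obtain ⟨h4, h5⟩ := h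
  constructor
  · have := congrArg (coeffMap (Int.castRingHom K)) h4
    simpa only [map_add, map_pow, map_sum, map_mul, map_zero,
      Fermat.Agent.S34_helper14_MEW.S34MEW_map_eval₂,
      Fermat.Agent.S34_helper14_MEW.S34MEW_coeffMap_j,
      Fermat.Agent.S34_helper14_MEW.S34MEW_coeffMap_theta] using this
  · have := congrArg (coeffMap (Int.castRingHom K)) h5
    simpa only [map_add, map_pow, map_sum, map_mul, map_zero,
      Fermat.Agent.S34_helper14_MEW.S34MEW_map_eval₂,
      Fermat.Agent.S34_helper14_MEW.S34MEW_coeffMap_j,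
      Fermat.Agent.S34_helper14_MEW.S34MEW_coeffMap_theta] using this

end Transport

/-- a sum over `range (q + 1)` whose middle terms vanish -/
theorem S36VM_sum_shape {R : Type*} [AddCommMonoid R] {q : ℕ} (hq : 2 ≤ q) (f : ℕ → R)
    (h : ∀ i, 2 ≤ i → i < q → f i = 0) :
    ∑ i ∈ Finset.range (q + 1), f i = f 0 + f 1 + f q := by
  have hsub : ({0, 1, q} : Finset ℕ) ⊆ Finset.range (q + 1) := by
    intro i hi
    simp only [Finset.mem_insert, Finset.mem_singleton] at hi
    rw [Finset.mem_range]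
    omega
  rw [← Finset.sum_subset hsub]
  · rw [Finset.sum_insert, Finset.sum_insert, Finset.sum_singleton, add_assoc]
    · simp only [Finset.mem_singleton]; omega
    · simp only [Finset.mem_insert, Finset.mem_singleton]; omega
  · intro i hi hi'
    simp only [Finset.mem_insert, Finset.mem_singleton, not_or] at hi'
    rw [Finset.mem_range] at hi
    exact h i (by omega) (by omega)

section Zmod

variable (q : ℕ) [hqf : Fact q.Prime]

/-- `j(Q^q) = j^q` over `𝔽_q` -/
theorem S36VM_frob : qExpand (ZMod q) q (jqModC (ZMod q)) = (jqModC (ZMod q)) ^ q := by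
  haveI : NeZero q := ⟨hqf.out.ne_zero⟩
  rw [Fermat.Agent.S37_helper2_K2ABS.S37K2_pow_eq_qExpand_frob q (jqModC (ZMod q))]
  congr 1
  rw [coeffMap_jqModC]

/-- `j` is transcendental over `𝔽_q` -/
theorem S36VM_aeval_injective :
    Function.Injective (aeval (R := ZMod q) (jqModC (ZMod q))) := by
  have h := Fermat.Agent.S18_helper26_CONST.S18P15_transcendental_jbar (ZMod q) 1
  rw [← transcendental_iff_injective]
  intro halg
  apply h
  obtain ⟨p, hp0, hp⟩ := halg
  refine ⟨p, hp0, ?_⟩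
  apply (algebraMap (modularFunctionFieldFullC (ZMod q) 1) (LaurentSeries (ZMod q))).injective
  rw [map_zero, ← Polynomial.aeval_algebraMap_apply]
  exact hp

end Zmod


section Main

variable (q : ℕ) [hqf : Fact q.Prime] {a : ℕ → ℤ[X]}

theorem S36VM_eval₂_eq_aeval {k : Type*} [Field k] (x : LaurentSeries k) (p : ℤ[X]) :
    eval₂ (Int.castRingHom (LaurentSeries k)) x p =
      aeval x (p.map (Int.castRingHom k)) := by
  rw [aeval_def, eval₂_map]
  congr 1
  exact Subsingleton.elim _ _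

theorem S36VM_relI (h : S36VM_IsModEq q a) :
    (X : (ZMod q)[X]) ^ (q * (q + 1)) + ∑ i ∈ Finset.range (q + 1),
      (a i).map (Int.castRingHom (ZMod q)) * X ^ (q * i) = 0 := by
  haveI : NeZero q := ⟨hqf.out.ne_zero⟩
  apply S36VM_aeval_injective q
  have h1 := (S36VM_modEq_map (ZMod q) h).1
  rw [S36VM_frob q] at h1
  rw [map_zero, map_add, map_pow, aeval_X, map_sum, ← h1, pow_mul]
  congr 1
  refine Finset.sum_congr rfl (fun i _ => ?_)
  rw [map_mul, map_pow, aeval_X, S36VM_eval₂_eq_aeval, pow_mul]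

theorem S36VM_relII (h : S36VM_IsModEq q a) :
    (X : (ZMod q)[X]) ^ (q + 1) + ∑ i ∈ Finset.range (q + 1),
      expand (ZMod q) q ((a i).map (Int.castRingHom (ZMod q))) * X ^ i = 0 := by
  haveI : NeZero q := ⟨hqf.out.ne_zero⟩
  apply S36VM_aeval_injective q
  have h1 := (S36VM_modEq_map (ZMod q) h).2
  rw [S36VM_frob q] at h1
  rw [map_zero, map_add, map_pow, aeval_X, map_sum, ← h1]
  congr 1
  refine Finset.sum_congr rfl (fun i _ => ?_)
  rw [map_mul, map_pow, aeval_X, S36VM_eval₂_eq_aeval, expand_aeval]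

/-- coefficient of `expand q c * X^i` -/
theorem S36VM_coeff_term {k : Type*} [CommRing k] (c : k[X]) (i n : ℕ) :
    (expand k q c * X ^ i).coeff n =
      if i ≤ n ∧ n % q = i % q then c.coeff ((n - i) / q) else 0 := by
  have hq0 : 0 < q := hqf.out.pos
  rw [coeff_mul_X_pow', coeff_expand hq0]
  by_cases hin : i ≤ n
  · rw [if_pos hin]
    by_cases hd : q ∣ n - i
    · rw [if_pos hd, if_pos]
      refine ⟨hin, ?_⟩
      exact ((Nat.modEq_iff_dvd' hin).2 hd).symm
    · rw [if_neg hd, if_neg]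
      rintro ⟨-, h2⟩
      exact hd ((Nat.modEq_iff_dvd' hin).1 (show i ≡ n [MOD q] from h2.symm))
  · rw [if_neg hin, if_neg]
    exact fun h => hin h.1

/-- the coefficient of `X^n` in relation (II) -/
theorem S36VM_coeffII (h : S36VM_IsModEq q a) (n : ℕ) :
    (if n = q + 1 then (1 : ZMod q) else 0) + ∑ i ∈ Finset.range (q + 1),
      (if i ≤ n ∧ n % q = i % q then ((a i).map (Int.castRingHom (ZMod q))).coeff ((n - i) / q)
        else 0) = 0 := by
  have h1 := congrArg (fun p : (ZMod q)[X] => p.coeff n) (S36VM_relII q h)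
  simp only [coeff_add, coeff_X_pow, finset_sum_coeff, coeff_zero, S36VM_coeff_term] at h1
  exact h1

/-- the coefficient of `X^n` in relation (II), summed up -/
theorem S36VM_star (h : S36VM_IsModEq q a) (n : ℕ) :
    (if n = q + 1 then (1 : ZMod q) else 0) +
      ((a (n % q)).map (Int.castRingHom (ZMod q))).coeff (n / q) +
      (if q ≤ n ∧ n % q = 0 then ((a q).map (Int.castRingHom (ZMod q))).coeff ((n - q) / q)
        else 0) = 0 := by
  have hq0 : 0 < q := hqf.out.pos
  have h1 := S36VM_coeffII q h n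
  rw [Finset.sum_range_succ, Nat.mod_self] at h1
  rw [Finset.sum_eq_single (n % q)] at h1
  · rw [if_pos (show n % q ≤ n ∧ n % q = n % q % q from
      ⟨Nat.mod_le n q, (Nat.mod_mod n q).symm⟩)] at h1
    have e : (n - n % q) / q = n / q := by
      have h3 : n - n % q = q * (n / q) := by
        have := Nat.div_add_mod n q
        omega
      rw [h3, Nat.mul_div_cancel_left _ hq0]
    rw [e, ← add_assoc] at h1
    exact h1
  · intro i hi hne
    rw [Finset.mem_range] at hi
    rw [if_neg]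
    rintro ⟨-, h2⟩
    rw [Nat.mod_eq_of_lt hi] at h2
    exact hne h2.symm
  · intro hn
    exact absurd (Finset.mem_range.2 (Nat.mod_lt n hq0)) hn

theorem S36VM_b1 (h : S36VM_IsModEq q a) :
    (a 1).map (Int.castRingHom (ZMod q)) = - X := by
  have hq2 : 2 ≤ q := hqf.out.two_le
  ext m
  have h1 := S36VM_star q h (q * m + 1)
  have e1 : (q * m + 1) % q = 1 := by
    rw [Nat.mul_add_mod, Nat.mod_eq_of_lt (by omega)]
  have e2 : (q * m + 1) / q = m := by
    rw [Nat.mul_add_div (by omega), Nat.div_eq_of_lt (by omega), add_zero]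
  rw [e1, e2, if_neg (show ¬ (q ≤ q * m + 1 ∧ 1 = 0) from by rintro ⟨-, h⟩; omega), add_zero]
    at h1
  rw [coeff_neg, coeff_X]
  by_cases hm : m = 1
  · subst hm
    rw [if_pos (by rw [mul_one]), ] at h1
    rw [if_pos rfl]
    exact eq_neg_of_add_eq_zero_right h1
  · rw [if_neg, zero_add] at h1
    · rw [h1, if_neg (Ne.symm hm), neg_zero]
    · intro h2
      apply hm
      have : q * m = q * 1 := by omega
      exact Nat.eq_of_mul_eq_mul_left (by omega) this

theorem S36VM_bmid (h : S36VM_IsModEq q a) (r : ℕ) (hr2 : 2 ≤ r) (hrq : r < q) :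
    (a r).map (Int.castRingHom (ZMod q)) = 0 := by
  ext m
  have h1 := S36VM_star q h (q * m + r)
  have e1 : (q * m + r) % q = r := by
    rw [Nat.mul_add_mod, Nat.mod_eq_of_lt hrq]
  have e2 : (q * m + r) / q = m := by
    rw [Nat.mul_add_div (by omega), Nat.div_eq_of_lt hrq, add_zero]
  rw [e1, e2, if_neg (show ¬ (q ≤ q * m + r ∧ r = 0) from by rintro ⟨-, h⟩; omega), add_zero,
    if_neg, zero_add] at h1
  · rw [h1, coeff_zero]
  · intro h2
    have h3 := congrArg (· % q) h2
    simp only [e1] at h3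
    rw [Nat.add_mod, Nat.mod_self, zero_add, Nat.mod_mod, Nat.mod_eq_of_lt (by omega : 1 < q)]
      at h3
    omega

theorem S36VM_b0 (h : S36VM_IsModEq q a) :
    (a 0).map (Int.castRingHom (ZMod q)) = - (X * (a q).map (Int.castRingHom (ZMod q))) := by
  have hq2 : 2 ≤ q := hqf.out.two_le
  ext m
  have h1 := S36VM_star q h (q * m)
  have e1 : (q * m) % q = 0 := Nat.mul_mod_right q m
  have e2 : (q * m) / q = m := Nat.mul_div_cancel_left m (by omega)
  rw [e1, e2, if_neg, zero_add] at h1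
  swap
  · intro h2
    have h3 := congrArg (· % q) h2
    simp only [e1] at h3
    rw [Nat.add_mod, Nat.mod_self, zero_add, Nat.mod_mod, Nat.mod_eq_of_lt (by omega : 1 < q)]
      at h3
    omega
  rw [coeff_neg]
  rcases Nat.eq_zero_or_pos m with hm | hm
  · subst hm
    rw [if_neg (show ¬ (q ≤ q * 0 ∧ 0 = 0) from by rintro ⟨h2, -⟩; omega), add_zero] at h1
    rw [h1, coeff_X_mul_zero, neg_zero]
  · rw [if_pos (show q ≤ q * m ∧ 0 = 0 from ⟨Nat.le_mul_of_pos_right q hm, rfl⟩)] at h1
    have e3 : (q * m - q) / q = m - 1 := by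
      have : q * m - q = q * (m - 1) := by
        rw [Nat.mul_sub, mul_one]
      rw [this, Nat.mul_div_cancel_left _ (by omega)]
    rw [e3] at h1
    obtain ⟨m', rfl⟩ : ∃ m', m = m' + 1 := ⟨m - 1, by omega⟩
    rw [coeff_X_mul]
    rw [Nat.add_sub_cancel] at h1
    exact eq_neg_of_add_eq_zero_left h1

theorem S36VM_bq (h : S36VM_IsModEq q a) :
    (a q).map (Int.castRingHom (ZMod q)) = - X ^ q := by
  have hq2 : 2 ≤ q := hqf.out.two_le
  have h1 := S36VM_relI q h
  rw [S36VM_sum_shape hq2 _ (fun i hi2 hiq => by rw [S36VM_bmid q h i hi2 hiq, zero_mul]),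
    S36VM_b0 q h, S36VM_b1 q h, mul_zero, pow_zero, mul_one, mul_one] at h1
  set B := (a q).map (Int.castRingHom (ZMod q)) with hB
  have h2 : ((X : (ZMod q)[X]) ^ (q * q) - X) * (X ^ q + B) = 0 := by
    rw [← h1]
    ring
  rcases mul_eq_zero.1 h2 with h3 | h3
  · exfalso
    have h4 := congrArg (fun p : (ZMod q)[X] => p.coeff 1) h3
    simp only [coeff_sub, coeff_X_pow, coeff_X_one, coeff_zero] at h4
    rw [if_neg (by nlinarith)] at h4
    simp at h4
  · exact eq_neg_of_add_eq_zero_right h3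

theorem S36VM_b0' (h : S36VM_IsModEq q a) :
    (a 0).map (Int.castRingHom (ZMod q)) = X ^ (q + 1) := by
  rw [S36VM_b0 q h, S36VM_bq q h]
  ring

end Main

section General

variable (q : ℕ) [hqf : Fact q.Prime] {a : ℕ → ℤ[X]} (S : Type*) [CommRing S] [CharP S q]

theorem S36VM_map_eq (p : ℤ[X]) :
    p.map (Int.castRingHom S) =
      (p.map (Int.castRingHom (ZMod q))).map (ZMod.castHom (dvd_refl q) S) := by
  rw [Polynomial.map_map]
  congr 1
  exact Subsingleton.elim _ _

/-- **Kronecker's congruence**, coefficient form, over any ring of characteristic `q`. -/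
theorem S36VM_kron (h : S36VM_IsModEq q a) :
    (a 0).map (Int.castRingHom S) = X ^ (q + 1) ∧ (a 1).map (Int.castRingHom S) = - X ∧
      (a q).map (Int.castRingHom S) = - X ^ q ∧
      ∀ i, 2 ≤ i → i < q → (a i).map (Int.castRingHom S) = 0 := by
  refine ⟨?_, ?_, ?_, fun i hi2 hiq => ?_⟩
  · rw [S36VM_map_eq q S, S36VM_b0' q h, Polynomial.map_pow, map_X]
  · rw [S36VM_map_eq q S, S36VM_b1 q h, Polynomial.map_neg, map_X]
  · rw [S36VM_map_eq q S, S36VM_bq q h, Polynomial.map_neg, Polynomial.map_pow, map_X]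
  · rw [S36VM_map_eq q S, S36VM_bmid q h i hi2 hiq, Polynomial.map_zero]

/-- evaluation form -/
theorem S36VM_kron_eval (h : S36VM_IsModEq q a) (x : S) :
    eval₂ (Int.castRingHom S) x (a 0) = x ^ (q + 1) ∧ eval₂ (Int.castRingHom S) x (a 1) = - x ∧
      eval₂ (Int.castRingHom S) x (a q) = - x ^ q ∧
      ∀ i, 2 ≤ i → i < q → eval₂ (Int.castRingHom S) x (a i) = 0 := by
  obtain ⟨h0, h1, h2, h3⟩ := S36VM_kron q S h
  refine ⟨?_, ?_, ?_, fun i hi2 hiq => ?_⟩
  · rw [← eval_map, h0, eval_pow, eval_X]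
  · rw [← eval_map, h1, eval_neg, eval_X]
  · rw [← eval_map, h2, eval_neg, eval_pow, eval_X]
  · rw [← eval_map, h3 i hi2 hiq, eval_zero]

/-- evaluation of the derivatives -/
theorem S36VM_kron_deriv (h : S36VM_IsModEq q a) (x : S) :
    eval₂ (Int.castRingHom S) x (derivative (a 0)) = x ^ q ∧
      eval₂ (Int.castRingHom S) x (derivative (a 1)) = - 1 ∧
      eval₂ (Int.castRingHom S) x (derivative (a q)) = 0 ∧
      ∀ i, 2 ≤ i → i < q → eval₂ (Int.castRingHom S) x (derivative (a i)) = 0 := by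
  obtain ⟨h0, h1, h2, h3⟩ := S36VM_kron q S h
  have hq0 : ((q : ℕ) : S) = 0 := CharP.cast_eq_zero S q
  refine ⟨?_, ?_, ?_, fun i hi2 hiq => ?_⟩
  · rw [← eval_map, ← derivative_map, h0, derivative_X_pow, eval_mul, eval_pow, eval_X,
      Nat.add_sub_cancel]
    simp
  · rw [← eval_map, ← derivative_map, h1, derivative_neg, derivative_X, eval_neg, eval_one]
  · rw [← eval_map, ← derivative_map, h2, derivative_neg, derivative_X_pow, eval_neg, eval_mul]
    simp
  · rw [← eval_map, ← derivative_map, h3 i hi2 hiq, derivative_zero, eval_zero]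

end General

end Fermat.Agent.S36_helper1_KRON
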