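import Mathlib
import Fermat.Agent.S36_helper1_KRON
import Fermat.Agent.S18_helper13_GAUSS
import Fermat.Agent.S36_helper8_AUXDefs

/-!
# S36, GEO36 (helper1): the Kronecker congruence for ANY coordinate `x = Q⁻¹ + ⋯`

Generic form of `S36_helper1_KRON` (requested by helper15): `x : LaurentSeries ℤ` with
`x.coeff (-1) = 1`, `c : ℕ → ℤ[X]` with the two relations

  `(Vx)^(q+1) + ∑_{k ≤ q} c_k(x) (Vx)^k = 0`,  `x^(q+1) + ∑_{k ≤ q} c_k(Vx) x^k = 0`

(`V = qExpand ℤ q`).  Then modulo `q`: `c_0 = X^(q+1)`, `c_1 = - X`, `c_q = - X^q`, `c_k = 0` for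
`2 ≤ k < q`.
-/

set_option autoImplicit false
set_option linter.unusedSectionVars false
set_option linter.unusedVariables false
set_option linter.style.haveILetI false

open Polynomial ModularCurve

noncomputable section

namespace Fermat.Agent.S36_helper1_KRONG

/-- the two relations of a modular equation of level `q` for the coordinate `x` -/
def S36KG_IsModEq (q : ℕ) [NeZero q] (x : LaurentSeries ℤ) (a : ℕ → ℤ[X]) : Prop :=
  ((qExpand ℤ q x) ^ (q + 1) + ∑ i ∈ Finset.range (q + 1),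
      eval₂ (Int.castRingHom (LaurentSeries ℤ)) x (a i) * (qExpand ℤ q x) ^ i = 0) ∧
    (x ^ (q + 1) + ∑ i ∈ Finset.range (q + 1),
      eval₂ (Int.castRingHom (LaurentSeries ℤ)) (qExpand ℤ q x) (a i) * x ^ i = 0)

/-- the two relations over any coefficient ring -/
theorem S36KG_modEq_map {q : ℕ} [NeZero q] {x : LaurentSeries ℤ} {a : ℕ → ℤ[X]}
    (K : Type*) [CommRing K] (h : S36KG_IsModEq q x a) :
    ((qExpand K q (coeffMap (Int.castRingHom K) x)) ^ (q + 1) + ∑ i ∈ Finset.range (q + 1),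
      eval₂ (Int.castRingHom (LaurentSeries K)) (coeffMap (Int.castRingHom K) x) (a i) *
        (qExpand K q (coeffMap (Int.castRingHom K) x)) ^ i = 0) ∧
    ((coeffMap (Int.castRingHom K) x) ^ (q + 1) + ∑ i ∈ Finset.range (q + 1),
      eval₂ (Int.castRingHom (LaurentSeries K))
        (qExpand K q (coeffMap (Int.castRingHom K) x)) (a i) *
        (coeffMap (Int.castRingHom K) x) ^ i = 0) := by
  obtain ⟨h4, h5⟩ := h
  constructor
  · have := congrArg (coeffMap (Int.castRingHom K)) h4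
    simpa only [map_add, map_pow, map_sum, map_mul, map_zero,
      Fermat.Agent.S34_helper14_MEW.S34MEW_map_eval₂, coeffMap_qExpand] using this
  · have := congrArg (coeffMap (Int.castRingHom K)) h5
    simpa only [map_add, map_pow, map_sum, map_mul, map_zero,
      Fermat.Agent.S34_helper14_MEW.S34MEW_map_eval₂, coeffMap_qExpand] using this

section Zmod

variable (q : ℕ) [hqf : Fact q.Prime]

/-- `y(Q^q) = y^q` over `𝔽_q` -/
theorem S36KG_frob (y : LaurentSeries (ZMod q)) : qExpand (ZMod q) q y = y ^ q := by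
  haveI : NeZero q := ⟨hqf.out.ne_zero⟩
  rw [Fermat.Agent.S37_helper2_K2ABS.S37K2_pow_eq_qExpand_frob q y]
  congr 1
  rw [ZMod.frobenius_zmod, coeffMap_id]

/-- a series with a pole is transcendental over `𝔽_q` -/
theorem S36KG_aeval_injective (y : LaurentSeries (ZMod q)) (hy : y.coeff (-1) ≠ 0) :
    Function.Injective (aeval (R := ZMod q) y) := by
  rw [← transcendental_iff_injective]
  intro halg
  obtain ⟨c, hc⟩ := Fermat.Agent.S18_helper13_GAUSS.mem_range_C_of_isAlgebraic halg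
  apply hy
  rw [hc, HahnSeries.C_apply, HahnSeries.coeff_single_of_ne (by norm_num)]

end Zmod

section Main

variable (q : ℕ) [hqf : Fact q.Prime] {a : ℕ → ℤ[X]}

/-- relation (I) in `𝔽_q[X]` -/
def S36KG_RelI (a : ℕ → ℤ[X]) : Prop :=
  (X : (ZMod q)[X]) ^ (q * (q + 1)) + ∑ i ∈ Finset.range (q + 1),
    (a i).map (Int.castRingHom (ZMod q)) * X ^ (q * i) = 0

/-- relation (II) in `𝔽_q[X]` -/
def S36KG_RelII (a : ℕ → ℤ[X]) : Prop :=
  (X : (ZMod q)[X]) ^ (q + 1) + ∑ i ∈ Finset.range (q + 1),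
    expand (ZMod q) q ((a i).map (Int.castRingHom (ZMod q))) * X ^ i = 0

theorem S36KG_relI {x : LaurentSeries ℤ}
    (hx : (coeffMap (Int.castRingHom (ZMod q)) x).coeff (-1) ≠ 0)
    (h : haveI : NeZero q := ⟨hqf.out.ne_zero⟩; S36KG_IsModEq q x a) : S36KG_RelI q a := by
  haveI : NeZero q := ⟨hqf.out.ne_zero⟩
  apply S36KG_aeval_injective q _ hx
  have h1 := (S36KG_modEq_map (ZMod q) h).1
  rw [S36KG_frob q] at h1
  rw [map_zero, map_add, map_pow, aeval_X, map_sum, ← h1, pow_mul]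
  congr 1
  refine Finset.sum_congr rfl (fun i _ => ?_)
  rw [map_mul, map_pow, aeval_X, Fermat.Agent.S36_helper1_KRON.S36VM_eval₂_eq_aeval, pow_mul]

theorem S36KG_relII {x : LaurentSeries ℤ}
    (hx : (coeffMap (Int.castRingHom (ZMod q)) x).coeff (-1) ≠ 0)
    (h : haveI : NeZero q := ⟨hqf.out.ne_zero⟩; S36KG_IsModEq q x a) : S36KG_RelII q a := by
  haveI : NeZero q := ⟨hqf.out.ne_zero⟩
  apply S36KG_aeval_injective q _ hx
  have h1 := (S36KG_modEq_map (ZMod q) h).2
  rw [S36KG_frob q] at h1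
  rw [map_zero, map_add, map_pow, aeval_X, map_sum, ← h1]
  congr 1
  refine Finset.sum_congr rfl (fun i _ => ?_)
  rw [map_mul, map_pow, aeval_X, Fermat.Agent.S36_helper1_KRON.S36VM_eval₂_eq_aeval,
    expand_aeval]

/-- the coefficient of `X^n` in relation (II) -/
theorem S36KG_coeffII (hI : S36KG_RelI q a) (hII : S36KG_RelII q a) (n : ℕ) :
    (if n = q + 1 then (1 : ZMod q) else 0) + ∑ i ∈ Finset.range (q + 1),
      (if i ≤ n ∧ n % q = i % q then ((a i).map (Int.castRingHom (ZMod q))).coeff ((n - i) / q)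
        else 0) = 0 := by
  have h1 := congrArg (fun p : (ZMod q)[X] => p.coeff n) hII
  simp only [coeff_add, coeff_X_pow, finset_sum_coeff, coeff_zero, Fermat.Agent.S36_helper1_KRON.S36VM_coeff_term] at h1
  exact h1

/-- the coefficient of `X^n` in relation (II), summed up -/
theorem S36KG_star (hI : S36KG_RelI q a) (hII : S36KG_RelII q a) (n : ℕ) :
    (if n = q + 1 then (1 : ZMod q) else 0) +
      ((a (n % q)).map (Int.castRingHom (ZMod q))).coeff (n / q) +
      (if q ≤ n ∧ n % q = 0 then ((a q).map (Int.castRingHom (ZMod q))).coeff ((n - q) / q)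
        else 0) = 0 := by
  have hq0 : 0 < q := hqf.out.pos
  have h1 := S36KG_coeffII q hI hII n
  rw [Finset.sum_range_succ, Nat.mod_self] at h1
  rw [Finset.sum_eq_single (n % q)] at h1
  · rw [if_pos (show n % q ≤ n ∧ n % q = n % q % q from
      ⟨Nat.mod_le n q, (Nat.mod_mod n q).symm⟩)] at h1
    have e : (n - n % q) / q = n / q := by
      have h3 : n - n % q = q * (n / q) := by
        have := Nat.div_add_mod n q
        omega
      rw [h3, Nat.mul_div_cancel_left _ hq0]
    rw [e, ← add_assoc] at h1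
    exact h1
  · intro i hi hne
    rw [Finset.mem_range] at hi
    rw [if_neg]
    rintro ⟨-, h2⟩
    rw [Nat.mod_eq_of_lt hi] at h2
    exact hne h2.symm
  · intro hn
    exact absurd (Finset.mem_range.2 (Nat.mod_lt n hq0)) hn

theorem S36KG_b1 (hI : S36KG_RelI q a) (hII : S36KG_RelII q a) :
    (a 1).map (Int.castRingHom (ZMod q)) = - X := by
  have hq2 : 2 ≤ q := hqf.out.two_le
  ext m
  have h1 := S36KG_star q hI hII (q * m + 1)
  have e1 : (q * m + 1) % q = 1 := by
    rw [Nat.mul_add_mod, Nat.mod_eq_of_lt (by omega)]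
  have e2 : (q * m + 1) / q = m := by
    rw [Nat.mul_add_div (by omega), Nat.div_eq_of_lt (by omega), add_zero]
  rw [e1, e2, if_neg (show ¬ (q ≤ q * m + 1 ∧ 1 = 0) from by rintro ⟨-, h⟩; omega), add_zero]
    at h1
  rw [coeff_neg, coeff_X]
  by_cases hm : m = 1
  · subst hm
    rw [if_pos (by rw [mul_one]), ] at h1
    rw [if_pos rfl]
    exact eq_neg_of_add_eq_zero_right h1
  · rw [if_neg, zero_add] at h1
    · rw [h1, if_neg (Ne.symm hm), neg_zero]
    · intro h2
      apply hm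
      have : q * m = q * 1 := by omega
      exact Nat.eq_of_mul_eq_mul_left (by omega) this

theorem S36KG_bmid (hI : S36KG_RelI q a) (hII : S36KG_RelII q a) (r : ℕ) (hr2 : 2 ≤ r) (hrq : r < q) :
    (a r).map (Int.castRingHom (ZMod q)) = 0 := by
  ext m
  have h1 := S36KG_star q hI hII (q * m + r)
  have e1 : (q * m + r) % q = r := by
    rw [Nat.mul_add_mod, Nat.mod_eq_of_lt hrq]
  have e2 : (q * m + r) / q = m := by
    rw [Nat.mul_add_div (by omega), Nat.div_eq_of_lt hrq, add_zero]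
  rw [e1, e2, if_neg (show ¬ (q ≤ q * m + r ∧ r = 0) from by rintro ⟨-, h⟩; omega), add_zero,
    if_neg, zero_add] at h1
  · rw [h1, coeff_zero]
  · intro h2
    have h3 := congrArg (· % q) h2
    simp only [e1] at h3
    rw [Nat.add_mod, Nat.mod_self, zero_add, Nat.mod_mod, Nat.mod_eq_of_lt (by omega : 1 < q)]
      at h3
    omega

theorem S36KG_b0 (hI : S36KG_RelI q a) (hII : S36KG_RelII q a) :
    (a 0).map (Int.castRingHom (ZMod q)) = - (X * (a q).map (Int.castRingHom (ZMod q))) := by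
  have hq2 : 2 ≤ q := hqf.out.two_le
  ext m
  have h1 := S36KG_star q hI hII (q * m)
  have e1 : (q * m) % q = 0 := Nat.mul_mod_right q m
  have e2 : (q * m) / q = m := Nat.mul_div_cancel_left m (by omega)
  rw [e1, e2, if_neg, zero_add] at h1
  swap
  · intro h2
    have h3 := congrArg (· % q) h2
    simp only [e1] at h3
    rw [Nat.add_mod, Nat.mod_self, zero_add, Nat.mod_mod, Nat.mod_eq_of_lt (by omega : 1 < q)]
      at h3
    omega
  rw [coeff_neg]
  rcases Nat.eq_zero_or_pos m with hm | hm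
  · subst hm
    rw [if_neg (show ¬ (q ≤ q * 0 ∧ 0 = 0) from by rintro ⟨h2, -⟩; omega), add_zero] at h1
    rw [h1, coeff_X_mul_zero, neg_zero]
  · rw [if_pos (show q ≤ q * m ∧ 0 = 0 from ⟨Nat.le_mul_of_pos_right q hm, rfl⟩)] at h1
    have e3 : (q * m - q) / q = m - 1 := by
      have : q * m - q = q * (m - 1) := by
        rw [Nat.mul_sub, mul_one]
      rw [this, Nat.mul_div_cancel_left _ (by omega)]
    rw [e3] at h1
    obtain ⟨m', rfl⟩ : ∃ m', m = m' + 1 := ⟨m - 1, by omega⟩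
    rw [coeff_X_mul]
    rw [Nat.add_sub_cancel] at h1
    exact eq_neg_of_add_eq_zero_left h1

theorem S36KG_bq (hI : S36KG_RelI q a) (hII : S36KG_RelII q a) :
    (a q).map (Int.castRingHom (ZMod q)) = - X ^ q := by
  have hq2 : 2 ≤ q := hqf.out.two_le
  have h1 := hI
  rw [S36KG_RelI] at h1
  rw [Fermat.Agent.S36_helper1_KRON.S36VM_sum_shape hq2 _ (fun i hi2 hiq => by rw [S36KG_bmid q hI hII i hi2 hiq, zero_mul]),
    S36KG_b0 q hI hII, S36KG_b1 q hI hII, mul_zero, pow_zero, mul_one, mul_one] at h1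
  set B := (a q).map (Int.castRingHom (ZMod q)) with hB
  have h2 : ((X : (ZMod q)[X]) ^ (q * q) - X) * (X ^ q + B) = 0 := by
    rw [← h1]
    ring
  rcases mul_eq_zero.1 h2 with h3 | h3
  · exfalso
    have h4 := congrArg (fun p : (ZMod q)[X] => p.coeff 1) h3
    simp only [coeff_sub, coeff_X_pow, coeff_X_one, coeff_zero] at h4
    rw [if_neg (by nlinarith)] at h4
    simp at h4
  · exact eq_neg_of_add_eq_zero_right h3

theorem S36KG_b0' (hI : S36KG_RelI q a) (hII : S36KG_RelII q a) :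
    (a 0).map (Int.castRingHom (ZMod q)) = X ^ (q + 1) := by
  rw [S36KG_b0 q hI hII, S36KG_bq q hI hII]
  ring

end Main

section General

variable (q : ℕ) [hqf : Fact q.Prime] {a : ℕ → ℤ[X]} (S : Type*) [CommRing S] [CharP S q]

/-- **Kronecker's congruence for the coordinate `x`**, coefficient form, over any ring of
characteristic `q`. -/
theorem S36KG_kron {x : LaurentSeries ℤ} (hx : x.coeff (-1) = 1)
    (h : haveI : NeZero q := ⟨hqf.out.ne_zero⟩; S36KG_IsModEq q x a) :
    (a 0).map (Int.castRingHom S) = X ^ (q + 1) ∧ (a 1).map (Int.castRingHom S) = - X ∧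
      (a q).map (Int.castRingHom S) = - X ^ q ∧
      ∀ i, 2 ≤ i → i < q → (a i).map (Int.castRingHom S) = 0 := by
  have hx' : (coeffMap (Int.castRingHom (ZMod q)) x).coeff (-1) ≠ 0 := by
    rw [coeffMap_coeff, hx, map_one]
    exact one_ne_zero
  have hI := S36KG_relI q hx' h
  have hII := S36KG_relII q hx' h
  refine ⟨?_, ?_, ?_, fun i hi2 hiq => ?_⟩
  · rw [Fermat.Agent.S36_helper1_KRON.S36VM_map_eq q S, S36KG_b0' q hI hII, Polynomial.map_pow,
      map_X]
  · rw [Fermat.Agent.S36_helper1_KRON.S36VM_map_eq q S, S36KG_b1 q hI hII, Polynomial.map_neg,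
      map_X]
  · rw [Fermat.Agent.S36_helper1_KRON.S36VM_map_eq q S, S36KG_bq q hI hII, Polynomial.map_neg,
      Polynomial.map_pow, map_X]
  · rw [Fermat.Agent.S36_helper1_KRON.S36VM_map_eq q S, S36KG_bmid q hI hII i hi2 hiq,
      Polynomial.map_zero]

/-- evaluation form -/
theorem S36KG_kron_eval {x : LaurentSeries ℤ} (hx : x.coeff (-1) = 1)
    (h : haveI : NeZero q := ⟨hqf.out.ne_zero⟩; S36KG_IsModEq q x a) (y : S) :
    eval₂ (Int.castRingHom S) y (a 0) = y ^ (q + 1) ∧ eval₂ (Int.castRingHom S) y (a 1) = - y ∧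
      eval₂ (Int.castRingHom S) y (a q) = - y ^ q ∧
      ∀ i, 2 ≤ i → i < q → eval₂ (Int.castRingHom S) y (a i) = 0 := by
  obtain ⟨h0, h1, h2, h3⟩ := S36KG_kron q S hx h
  refine ⟨?_, ?_, ?_, fun i hi2 hiq => ?_⟩
  · rw [← eval_map, h0, eval_pow, eval_X]
  · rw [← eval_map, h1, eval_neg, eval_X]
  · rw [← eval_map, h2, eval_neg, eval_pow, eval_X]
  · rw [← eval_map, h3 i hi2 hiq, eval_zero]

/-- the product form `Ψ(y, z) = (z - y^q)(z^q - y)` in characteristic `q` -/
theorem S36KG_kron_prod {x : LaurentSeries ℤ} (hx : x.coeff (-1) = 1)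
    (h : haveI : NeZero q := ⟨hqf.out.ne_zero⟩; S36KG_IsModEq q x a) (y z : S) :
    z ^ (q + 1) + ∑ i ∈ Finset.range (q + 1), eval₂ (Int.castRingHom S) y (a i) * z ^ i =
      (z - y ^ q) * (z ^ q - y) := by
  have hq2 : 2 ≤ q := hqf.out.two_le
  obtain ⟨h0, h1, h2, h3⟩ := S36KG_kron_eval q S hx h y
  rw [Fermat.Agent.S36_helper1_KRON.S36VM_sum_shape hq2 _ (fun i hi2 hiq => by
    rw [h3 i hi2 hiq, zero_mul]), h0, h1, h2]
  ring

end General

section Aux

open Fermat.Agent.S36_helper8_AUXDefs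

/-- the coordinates `Q⁻¹ u`, `u(0) = 1`, have coefficient `1` at `Q⁻¹` -/
theorem S36KG_aux_coeff (u : PowerSeries ℤ) (hu : PowerSeries.constantCoeff u = 1) :
    (S36AUX_h u).coeff (-1) = 1 := by
  rw [S36AUX_h, HahnSeries.coeff_single_mul, one_mul, sub_self]
  have := HahnSeries.ofPowerSeries_apply_coeff (Γ := ℤ) (R := ℤ) u 0
  simp only [Nat.cast_zero] at this
  rw [this, PowerSeries.coeff_zero_eq_constantCoeff_apply, hu]

/-- `j` is such a coordinate: the landed `S36VM_IsModEq` is an instance -/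
theorem S36KG_of_j (q : ℕ) [NeZero q] {a : ℕ → ℤ[X]}
    (h : Fermat.Agent.S36_helper1_KRON.S36VM_IsModEq q a) : S36KG_IsModEq q (jqModC ℤ) a := h

end Aux

end Fermat.Agent.S36_helper1_KRONG
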