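import Mathlib
import Fermat.Agent.S36_helper15_HXN
import Fermat.Agent.S36_helper1_KRONG
import Fermat.Agent.S36_helper18_THICK
import Fermat.Agent.S36_helper8_AUXDefs

/-!
# S36, generic layer of the Hauptmodul datum (helper15), part K: the Kronecker congruence for
`(h, V_q h)` in the two-variable form `Φ = (X^q - Y)(X - Y^q) + q G`, `G ∈ ℤ[X, Y]`

* `S36HXK_modEq`  : the modular equation of a Hauptmodul datum `D : S36AUX_Data r`
                    (`S36HXN_core`) in helper1's vocabulary `S36KG_IsModEq`;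
* `S36HXK_exists` : from any modular equation `a` of a coordinate `x = Q⁻¹ + ⋯`, a polynomial
                    `G ∈ ℤ[X, Y]` with `Φ(v, w) = w^(q+1) + ∑ a_i(v) w^i` for all `v, w` in any
                    commutative ring, `Φ = S36TH_Phi q G` (helper18's vocabulary);
* `S36HXK_main`   : `Φ(h, V h) = 0 = Φ(V h, h)` over `ℤ` and over any coefficient ring.
-/

set_option autoImplicit false
set_option linter.unusedSectionVars false
set_option linter.unusedVariables false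
set_option linter.style.haveILetI false

open ModularCurve
open Fermat.Agent.S36_helper15_HXA Fermat.Agent.S36_helper15_HXN
open Fermat.Agent.S36_helper1_KRONG Fermat.Agent.S36_helper18_THICK
open Fermat.Agent.S36_helper8_AUXDefs

namespace Fermat.Agent.S36_helper15_HXK

noncomputable section

universe v

/-- the two-variable polynomial `Y^(q+1) + ∑ a_i(X) Y^i` -/
def S36HXK_Psi (q : ℕ) (a : ℕ → Polynomial ℤ) : MvPolynomial (Fin 2) ℤ :=
  MvPolynomial.X 1 ^ (q + 1) + ∑ i ∈ Finset.range (q + 1),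
    Polynomial.eval₂ (MvPolynomial.C : ℤ →+* MvPolynomial (Fin 2) ℤ) (MvPolynomial.X 0) (a i) *
      MvPolynomial.X 1 ^ i

theorem S36HXK_ev_eval₂ {B : Type*} [CommRing B] (v : Fin 2 → B) (p : Polynomial ℤ) :
    S36TH_ev v (Polynomial.eval₂ (MvPolynomial.C : ℤ →+* MvPolynomial (Fin 2) ℤ)
      (MvPolynomial.X 0) p) = Polynomial.eval₂ (Int.castRingHom B) (v 0) p := by
  rw [Polynomial.hom_eval₂, S36TH_ev_X]
  congr 1
  exact RingHom.ext_int _ _

theorem S36HXK_Psi_ev {B : Type*} [CommRing B] (q : ℕ) (a : ℕ → Polynomial ℤ) (x y : B) :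
    S36TH_ev ![x, y] (S36HXK_Psi q a) =
      y ^ (q + 1) + ∑ i ∈ Finset.range (q + 1),
        Polynomial.eval₂ (Int.castRingHom B) x (a i) * y ^ i := by
  rw [S36HXK_Psi, map_add, map_pow, S36TH_ev_X, map_sum]
  congr 1
  refine Finset.sum_congr rfl (fun i _ => ?_)
  rw [map_mul, map_pow, S36TH_ev_X, S36HXK_ev_eval₂]
  rfl

theorem S36HXK_map_eq (q : ℕ) (φ : MvPolynomial (Fin 2) ℤ) :
    MvPolynomial.map (Int.castRingHom (ZMod q)) φ =
      S36TH_ev ![(MvPolynomial.X 0 : MvPolynomial (Fin 2) (ZMod q)), MvPolynomial.X 1] φ := by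
  have h1 : (![(MvPolynomial.X 0 : MvPolynomial (Fin 2) (ZMod q)), MvPolynomial.X 1] :
      Fin 2 → MvPolynomial (Fin 2) (ZMod q)) = MvPolynomial.X := by
    funext i
    fin_cases i <;> rfl
  rw [h1]
  induction φ using MvPolynomial.induction_on with
  | C a =>
    rw [MvPolynomial.map_C, S36TH_ev_C]
    simp
  | add p r hp hr => rw [map_add, map_add, hp, hr]
  | mul_X p i hp => rw [map_mul, map_mul, hp, MvPolynomial.map_X, S36TH_ev_X]

section Exists

variable (q : ℕ) [NeZero q]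

/-- **Kronecker, two-variable form.** -/
theorem S36HXK_Psi_eq (hq : q.Prime) (x : LaurentSeries ℤ) (hx : x.coeff (-1) = 1)
    (a : ℕ → Polynomial ℤ) (h : S36KG_IsModEq q x a) :
    ∃ G : MvPolynomial (Fin 2) ℤ, S36HXK_Psi q a = S36TH_Phi q G := by
  haveI : Fact q.Prime := ⟨hq⟩
  have hprod := S36KG_kron_prod q (MvPolynomial (Fin 2) (ZMod q)) hx h
    (MvPolynomial.X 0) (MvPolynomial.X 1)
  have hmap : MvPolynomial.map (Int.castRingHom (ZMod q))
      (S36HXK_Psi q a - (MvPolynomial.X 0 ^ q - MvPolynomial.X 1) *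
        (MvPolynomial.X 0 - MvPolynomial.X 1 ^ q)) = 0 := by
    rw [S36HXK_map_eq, map_sub, S36HXK_Psi_ev, hprod, map_mul, map_sub, map_sub, map_pow,
      map_pow, S36TH_ev_X, S36TH_ev_X]
    simp only [Matrix.cons_val_zero, Matrix.cons_val_one]
    ring
  obtain ⟨G, hG⟩ := (MvPolynomial.C_dvd_iff_zmod q _).2 hmap
  refine ⟨G, ?_⟩
  rw [S36TH_Phi, ← hG]
  ring

/-- **Kronecker, two-variable form**, evaluated. -/
theorem S36HXK_exists (hq : q.Prime) (x : LaurentSeries ℤ) (hx : x.coeff (-1) = 1)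
    (a : ℕ → Polynomial ℤ) (h : S36KG_IsModEq q x a) :
    ∃ G : MvPolynomial (Fin 2) ℤ, ∀ (B : Type v) [CommRing B] (y z : B),
      S36TH_ev ![y, z] (S36TH_Phi q G) =
        z ^ (q + 1) + ∑ i ∈ Finset.range (q + 1),
          Polynomial.eval₂ (Int.castRingHom B) y (a i) * z ^ i := by
  obtain ⟨G, hG⟩ := S36HXK_Psi_eq q hq x hx a h
  refine ⟨G, fun B _ y z => ?_⟩
  rw [← hG, S36HXK_Psi_ev]

end Exists

section Main

variable {r : ℕ} [NeZero r] (D : S36AUX_Data r) (q : ℕ) [NeZero q]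

theorem S36HXK_h_eq (u : PowerSeries ℤ) : S36AUX_h u = S36HX_ser ℤ u := rfl

theorem S36HXK_hK_eq (K : Type*) [CommRing K] (u : PowerSeries ℤ) :
    S36AUX_hK K u = S36HX_ser K (u.map (Int.castRingHom K)) := rfl

theorem S36HXK_coeffMap_h (K : Type*) [CommRing K] (u : PowerSeries ℤ) :
    coeffMap (Int.castRingHom K) (S36AUX_h u) = S36AUX_hK K u :=
  S36HX_coeffMap_ser ℤ u (Int.castRingHom K)

/-- a ring homomorphism commutes with the evaluation of an integer polynomial in two variables -/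
theorem S36HXK_map_ev {A B : Type*} [CommRing A] [CommRing B] (φ : A →+* B) (x y : A)
    (G : MvPolynomial (Fin 2) ℤ) :
    φ (S36TH_ev ![x, y] G) = S36TH_ev ![φ x, φ y] G := by
  induction G using MvPolynomial.induction_on with
  | C a =>
    rw [S36TH_ev_C, S36TH_ev_C, map_intCast]
  | add p r hp hr => rw [map_add, map_add, map_add, hp, hr]
  | mul_X p i hp =>
    rw [map_mul, map_mul, map_mul, hp, S36TH_ev_X, S36TH_ev_X]
    congr 1
    fin_cases i <;> rfl

/-- **MODEQ-h** for a Hauptmodul datum, in helper1's vocabulary. -/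
theorem S36HXK_modEq (hq : q.Prime) (hqr : ¬ q ∣ r) :
    ∃ a : ℕ → Polynomial ℤ, (∀ i, 1 ≤ i → i ≤ q → (a i).natDegree ≤ q) ∧ (a 0).Monic ∧
      (a 0).natDegree = q + 1 ∧ S36KG_IsModEq q (S36AUX_h D.u) a := by
  obtain ⟨a, h1, h2, h3, h4, h5⟩ := S36HXN_core r q D.u D.hu D.mem D.gen hq hqr
  exact ⟨a, h1, h2, h3, h4, h5⟩

/-- **Kronecker for a Hauptmodul datum**: coefficient form and two-variable form together. -/
theorem S36HXK_full (hq : q.Prime) (hqr : ¬ q ∣ r) :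
    ∃ (a : ℕ → Polynomial ℤ) (G : MvPolynomial (Fin 2) ℤ),
      (∀ i, 1 ≤ i → i ≤ q → (a i).natDegree ≤ q) ∧ (a 0).Monic ∧
      (a 0).natDegree = q + 1 ∧ S36KG_IsModEq q (S36AUX_h D.u) a ∧
      S36HXK_Psi q a = S36TH_Phi q G := by
  obtain ⟨a, h1, h2, h3, h4⟩ := S36HXK_modEq D q hq hqr
  obtain ⟨G, hG⟩ := S36HXK_Psi_eq q hq (S36AUX_h D.u) (S36KG_aux_coeff D.u D.hu) a h4
  exact ⟨a, G, h1, h2, h3, h4, hG⟩

/-- **Kronecker for a Hauptmodul datum**, helper18's shape: `Φ = (X^q - Y)(X - Y^q) + q G`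
vanishes at `(h, V_q h)` and at `(V_q h, h)`, over `ℤ` and over any coefficient ring. -/
theorem S36HXK_main (hq : q.Prime) (hqr : ¬ q ∣ r) :
    ∃ G : MvPolynomial (Fin 2) ℤ,
      (S36TH_ev ![S36AUX_h D.u, qExpand ℤ q (S36AUX_h D.u)] (S36TH_Phi q G) = 0 ∧
        S36TH_ev ![qExpand ℤ q (S36AUX_h D.u), S36AUX_h D.u] (S36TH_Phi q G) = 0) ∧
      ∀ (K : Type v) [CommRing K],
        S36TH_ev ![S36AUX_hK K D.u, qExpand K q (S36AUX_hK K D.u)] (S36TH_Phi q G) = 0 ∧
        S36TH_ev ![qExpand K q (S36AUX_hK K D.u), S36AUX_hK K D.u] (S36TH_Phi q G) = 0 := by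
  obtain ⟨a, G, -, -, -, h4, hG⟩ := S36HXK_full D q hq hqr
  refine ⟨G, ⟨?_, ?_⟩, fun K _ => ⟨?_, ?_⟩⟩
  · rw [← hG, S36HXK_Psi_ev]
    exact h4.1
  · rw [← hG, S36HXK_Psi_ev]
    exact h4.2
  · have h := (S36KG_modEq_map K h4).1
    rw [S36HXK_coeffMap_h] at h
    rw [← hG, S36HXK_Psi_ev]
    exact h
  · have h := (S36KG_modEq_map K h4).2
    rw [S36HXK_coeffMap_h] at h
    rw [← hG, S36HXK_Psi_ev]
    exact h

/-- the same one level up: `Φ(V h, V² h) = 0 = Φ(V² h, V h)` (apply `V_q`). -/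
theorem S36HXK_shift (G : MvPolynomial (Fin 2) ℤ) (K : Type*) [CommRing K]
    (x y : LaurentSeries K) (h : S36TH_ev ![x, y] (S36TH_Phi q G) = 0) :
    S36TH_ev ![qExpand K q x, qExpand K q y] (S36TH_Phi q G) = 0 := by
  rw [← S36HXK_map_ev, h, map_zero]

end Main

end

end Fermat.Agent.S36_helper15_HXK
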