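import Mathlib
import Fermat.Agent.S36_helper15_HXK
import Fermat.Agent.S36_helper21_HLOCX
import Fermat.Agent.S18_helper25_COREDefs

/-!
# S36, generic layer of the Hauptmodul datum (helper15), part I: integrality

For a Hauptmodul datum `D : S36AUX_Data r` and a prime `q ∤ r`, over any field `K`:

* `S36HXI_h_int`    : `h` is integral over every subring of `K((Q))` containing `j`
                      (`a(h)³ - j B(h) = 0`, monic in `h`);
* `S36HXI_Vh_int`, `S36HXI_VVh_int` : so are `V_q h` and `V_{q²} h` (MODEQ-h);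
* `S36HXI_h_int_of_Vh` : `h` is integral over every subring containing `V_q h`;
* `S36HXI_mem_A0`, `S36HXI_V_mem_A0`, `S36HXI_VV_mem_A0` : membership in the charts
  `S18K_A0 A K1 N` (`r ∣ N`, `r q ∣ N`, `r q² ∣ N`);
* `S36HXI_bez` : `B(h) · (U(h) j + V(h)) = r^e` (the poles of `j` in the coordinate `h` lie over
  `r`).
-/

set_option autoImplicit false
set_option linter.unusedSectionVars false
set_option linter.unusedVariables false
set_option linter.style.haveILetI false

open ModularCurve Polynomial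
open Fermat.Agent.S36_helper15_HXA Fermat.Agent.S36_helper15_HXN Fermat.Agent.S36_helper15_HXK
open Fermat.Agent.S36_helper1_KRONG Fermat.Agent.S36_helper18_THICK
open Fermat.Agent.S36_helper8_AUXDefs Fermat.Agent.S36_helper21_HLOC
open Fermat.Agent.S36_helper21_HLOCX
open Fermat.Agent.S18_helper25_COREDefs Fermat.Agent.S18_helper9_CDefs

namespace Fermat.Agent.S36_helper15_HXI

noncomputable section

section Generic

variable {L : Type*} [CommRing L]

theorem S36HXI_eval₂_mem (S : Subring L) (x : L) (hx : x ∈ S) (p : Polynomial ℤ) :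
    Polynomial.eval₂ (Int.castRingHom L) x p ∈ S := by
  rw [Polynomial.eval₂_eq_sum_range]
  refine Subring.sum_mem _ (fun k _ => ?_)
  refine Subring.mul_mem _ ?_ (Subring.pow_mem _ hx _)
  rw [eq_intCast]
  exact intCast_mem S _

/-- integrality along a monic relation whose coefficients are integer polynomials in an integral
element -/
theorem S36HXI_trans (R : Subring L) (x y : L) (hx : IsIntegral R x) (n : ℕ)
    (c : ℕ → Polynomial ℤ)
    (hrel : y ^ (n + 1) + ∑ i ∈ Finset.range (n + 1),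
      Polynomial.eval₂ (Int.castRingHom L) x (c i) * y ^ i = 0) :
    IsIntegral R y := by
  classical
  have hc : ∀ i, Polynomial.eval₂ (Int.castRingHom L) x (c i) ∈ integralClosure R L := by
    intro i
    exact S36HXI_eval₂_mem (integralClosure R L).toSubring x hx (c i)
  obtain ⟨p, hp⟩ : ∃ p : Polynomial (integralClosure R L),
      p = ∑ i ∈ Finset.range (n + 1), C (⟨_, hc i⟩ : integralClosure R L) * X ^ i := ⟨_, rfl⟩
  have hdeg : p.degree < ((n + 1 : ℕ) : WithBot ℕ) := by
    rw [hp]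
    refine (Polynomial.degree_sum_le _ _).trans_lt ?_
    rw [Finset.sup_lt_iff (by exact WithBot.bot_lt_coe _)]
    intro i hi
    rw [Finset.mem_range] at hi
    exact (Polynomial.degree_C_mul_X_pow_le _ _).trans_lt (by exact_mod_cast hi)
  have hmonic : (X ^ (n + 1) + p).Monic := Polynomial.monic_X_pow_add hdeg
  have heval : Polynomial.eval₂ (algebraMap (integralClosure R L) L) y (X ^ (n + 1) + p) = 0 := by
    rw [eval₂_add, eval₂_pow, eval₂_X, hp, eval₂_finsetSum, ← hrel]
    congr 1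
    refine Finset.sum_congr rfl (fun i _ => ?_)
    rw [eval₂_mul, eval₂_C, eval₂_pow, eval₂_X]
    rfl
  have hint : IsIntegral (integralClosure R L) y := ⟨_, hmonic, heval⟩
  exact isIntegral_trans y hint

end Generic

section Data

variable {r : ℕ} [NeZero r] (D : S36AUX_Data r) (K : Type*) [Field K]

/-- `D.rel` over `K`, in `eval₂` form -/
theorem S36HXI_rel :
    jqModC K * Polynomial.eval₂ (Int.castRingHom (LaurentSeries K)) (S36AUX_hK K D.u) D.B =
      (Polynomial.eval₂ (Int.castRingHom (LaurentSeries K)) (S36AUX_hK K D.u) D.a) ^ 3 := by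
  have h := S36HL_rel D K 1
  rw [qExpand_one_apply, qExpand_one_apply] at h
  exact h

/-- **`h` is integral over `ℤ[j]`**: over every subring containing `j`. -/
theorem S36HXI_h_int (R : Subring (LaurentSeries K)) (hj : jqModC K ∈ R) :
    IsIntegral R (S36AUX_hK K D.u) := by
  have hmap : ∀ P : Polynomial ℤ,
      Polynomial.eval₂ (algebraMap R (LaurentSeries K)) (S36AUX_hK K D.u)
        (P.map (Int.castRingHom R)) =
      Polynomial.eval₂ (Int.castRingHom (LaurentSeries K)) (S36AUX_hK K D.u) P := by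
    intro P
    rw [Polynomial.eval₂_map,
      RingHom.ext_int ((algebraMap R (LaurentSeries K)).comp (Int.castRingHom R))
        (Int.castRingHom (LaurentSeries K))]
  have hamon : ((D.a.map (Int.castRingHom R)) ^ 3).Monic := (D.ha.map _).pow 3
  have hnda : ((D.a.map (Int.castRingHom R)) ^ 3).natDegree = 3 * D.a.natDegree := by
    rw [(D.ha.map (Int.castRingHom R)).natDegree_pow, D.ha.natDegree_map, mul_comm]
  have hndB : (C (⟨jqModC K, hj⟩ : R) * D.B.map (Int.castRingHom R)).natDegree <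
      ((D.a.map (Int.castRingHom R)) ^ 3).natDegree := by
    rw [hnda]
    refine lt_of_le_of_lt (Polynomial.natDegree_C_mul_le _ _) ?_
    refine lt_of_le_of_lt (Polynomial.natDegree_map_le) ?_
    have := D.hdeg
    omega
  have hmonic : ((D.a.map (Int.castRingHom R)) ^ 3 -
      C (⟨jqModC K, hj⟩ : R) * D.B.map (Int.castRingHom R)).Monic :=
    hamon.sub_of_left (Polynomial.degree_lt_degree hndB)
  refine ⟨_, hmonic, ?_⟩
  rw [eval₂_sub, eval₂_pow, eval₂_mul, eval₂_C, hmap, hmap, ← S36HXI_rel D K, sub_eq_zero]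
  rfl

variable (q : ℕ) [NeZero q]

/-- **`V_q h` is integral over `ℤ[j]`**. -/
theorem S36HXI_Vh_int (hq : q.Prime) (hqr : ¬ q ∣ r) (R : Subring (LaurentSeries K))
    (hj : jqModC K ∈ R) : IsIntegral R (qExpand K q (S36AUX_hK K D.u)) := by
  obtain ⟨a, -, -, -, h4⟩ := S36HXK_modEq D q hq hqr
  have h := (S36KG_modEq_map K h4).1
  rw [S36HXK_coeffMap_h] at h
  exact S36HXI_trans R _ _ (S36HXI_h_int D K R hj) q a h

/-- **`V_{q²} h` is integral over `ℤ[j]`**. -/
theorem S36HXI_VVh_int (hq : q.Prime) (hqr : ¬ q ∣ r) (R : Subring (LaurentSeries K))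
    (hj : jqModC K ∈ R) : IsIntegral R (qExpand K q (qExpand K q (S36AUX_hK K D.u))) := by
  obtain ⟨a, -, -, -, h4⟩ := S36HXK_modEq D q hq hqr
  have h := (S36KG_modEq_map K h4).1
  rw [S36HXK_coeffMap_h] at h
  have h2 := congrArg (qExpand K q) h
  simp only [map_add, map_pow, map_sum, map_mul, map_zero, S36HL_hom_eval] at h2
  exact S36HXI_trans R _ _ (S36HXI_Vh_int D K q hq hqr R hj) q a h2

/-- `h` is integral over every subring containing `V_q h`. -/
theorem S36HXI_h_int_of_Vh (hq : q.Prime) (hqr : ¬ q ∣ r) (R : Subring (LaurentSeries K))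
    (hV : qExpand K q (S36AUX_hK K D.u) ∈ R) : IsIntegral R (S36AUX_hK K D.u) := by
  obtain ⟨a, -, -, -, h4⟩ := S36HXK_modEq D q hq hqr
  have h := (S36KG_modEq_map K h4).2
  rw [S36HXK_coeffMap_h] at h
  have hx : IsIntegral R (qExpand K q (S36AUX_hK K D.u)) :=
    (isIntegral_algebraMap (R := R) (x := ⟨_, hV⟩))
  exact S36HXI_trans R _ _ hx q a h

/-- the Bezout identity of the datum at `h`: `B(h) (U(h) j + V(h)) = r^e`. -/
theorem S36HXI_bez : ∃ (U V : Polynomial ℤ) (e : ℕ),
    Polynomial.eval₂ (Int.castRingHom (LaurentSeries K)) (S36AUX_hK K D.u) D.B *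
      (Polynomial.eval₂ (Int.castRingHom (LaurentSeries K)) (S36AUX_hK K D.u) U * jqModC K +
        Polynomial.eval₂ (Int.castRingHom (LaurentSeries K)) (S36AUX_hK K D.u) V) =
      ((r : ℤ) ^ e : ℤ) := by
  obtain ⟨U, V, e, hUV⟩ := D.bez
  refine ⟨U, V, e, ?_⟩
  have h := congrArg
    (Polynomial.eval₂ (Int.castRingHom (LaurentSeries K)) (S36AUX_hK K D.u)) hUV
  rw [eval₂_add, eval₂_mul, eval₂_mul, eval₂_pow, eval₂_C, ← S36HXI_rel D K] at h
  rw [← eq_intCast (Int.castRingHom (LaurentSeries K)), ← h]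
  ring

end Data

section Charts

variable (A : ValuationSubring (AlgebraicClosure ℚ))
  (K1 : IntermediateField ℚ (AlgebraicClosure ℚ)) [IsDiscreteValuationRing (S18K_O1 A K1)]
variable {r : ℕ} [NeZero r] (D : S36AUX_Data r) (q : ℕ) [NeZero q] (N : ℕ) [NeZero N]

theorem S36HXI_j_mem_adj : jqModC K1 ∈ adj (S18K_O A K1) (S18K_j K1) :=
  Subring.subset_closure (Or.inr rfl)

/-- `h ∈ A0(N)` for `r ∣ N`. -/
theorem S36HXI_mem_A0 (hr : r ∣ N) : S36AUX_hK K1 D.u ∈ S18K_A0 A K1 N :=
  ⟨S36HXI_h_int D K1 _ (S36HXI_j_mem_adj A K1), S36HX_mem D K1 N hr⟩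

/-- `V_q h ∈ A0(N)` for `r q ∣ N`. -/
theorem S36HXI_V_mem_A0 (hq : q.Prime) (hqr : ¬ q ∣ r) (hrq : r * q ∣ N) :
    qExpand K1 q (S36AUX_hK K1 D.u) ∈ S18K_A0 A K1 N :=
  ⟨S36HXI_Vh_int D K1 q hq hqr _ (S36HXI_j_mem_adj A K1), S36HX_mem_d D K1 N q hrq⟩

/-- `V_{q²} h ∈ A0(N)` for `r q² ∣ N`. -/
theorem S36HXI_VV_mem_A0 [NeZero (q * q)] (hq : q.Prime) (hqr : ¬ q ∣ r)
    (hrq : r * (q * q) ∣ N) :
    qExpand K1 (q * q) (S36AUX_hK K1 D.u) ∈ S18K_A0 A K1 N := by
  refine ⟨?_, S36HX_mem_d D K1 N (q * q) hrq⟩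
  rw [← qExpand_qExpand]
  exact S36HXI_VVh_int D K1 q hq hqr _ (S36HXI_j_mem_adj A K1)

end Charts

end

end Fermat.Agent.S36_helper15_HXI
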