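import Fermat.Agent.S36_helper1_VMIDG
import Fermat.Agent.S36_helper1_VMIDf

/-!
# S36, GEO36 REG36 [ONE mid] (helper1): the modular input of the D-trick over `K1`

`S36VG_main`: for a coordinate `x : LaurentSeries ℤ`, `x.coeff (-1) = 1`, with the two relations
`S36KG_IsModEq q x a`, whose image `X` over `K1` lies in the function field of level `M'`:
with `Y = X(Q^q)`, `Z = X(Q^(q²))`, `t = Z - X`, `S = X - Y^q`, `V' =` the Gauss ring of level
`M' q`: the hypotheses `hpq, hroot, hp0, hmid, htop, hΦY, hD, hS, hH` of the D-trick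
(`S36DT_core` of helper11) with `Q = q`, everything in `V'`.
-/

set_option autoImplicit false
set_option linter.unusedSectionVars false
set_option linter.unusedVariables false
set_option linter.style.haveILetI false

open Polynomial ModularCurve
open Fermat.Agent.S36_helper1_KRON Fermat.Agent.S36_helper1_THETA
open Fermat.Agent.S36_helper1_KRONG Fermat.Agent.S36_helper1_VMID
open Fermat.Agent.S18_helper13_GAUSS Fermat.Agent.S18_helper25_COREDefs
open Fermat.Agent.S34_helper20_V0K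

noncomputable section

namespace Fermat.Agent.S36_helper1_VMIDG

variable (A : ValuationSubring (AlgebraicClosure ℚ))
  (K1 : IntermediateField ℚ (AlgebraicClosure ℚ)) [IsDiscreteValuationRing (S18K_O1 A K1)]

theorem S36VG_iota_mem_F (q M' : ℕ) [NeZero q] [NeZero M'] {x : LaurentSeries ℤ}
    (hxF : coeffMap (Int.castRingHom K1) x ∈ modularFunctionFieldFullC K1 M')
    {w : LaurentSeries ℤ}
    (hw : w ∈ Subring.closure ({x, qExpand ℤ q x} : Set (LaurentSeries ℤ))) :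
    coeffMap (Int.castRingHom K1) w ∈ modularFunctionFieldFullC K1 (M' * q) := by
  haveI : NeZero (M' * q) := NeZero.mul
  have hle : Subring.closure ({x, qExpand ℤ q x} : Set (LaurentSeries ℤ)) ≤
      (S18K_F1 K1 (M' * q)).toSubring.comap (coeffMap (Int.castRingHom K1)) := by
    rw [Subring.closure_le]
    intro y hy
    rcases hy with rfl | hy
    · show coeffMap (Int.castRingHom K1) y ∈ modularFunctionFieldFullC K1 (M' * q)
      exact full_degeneracyC_le K1 (Dvd.intro q rfl) hxF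
    · rw [Set.mem_singleton_iff] at hy
      subst hy
      show coeffMap (Int.castRingHom K1) (qExpand ℤ q x) ∈
        modularFunctionFieldFullC K1 (M' * q)
      rw [coeffMap_qExpand]
      exact full_degeneracyC_map_le K1 M' q ⟨_, hxF, rfl⟩
  exact hle hw

set_option maxHeartbeats 800000 in
/-- **the modular input of the D-trick** for the coordinate `x`, over the Gauss ring of level
`M' q` -/
theorem S36VG_main (q M' : ℕ) [NeZero q] [NeZero (q * q)] [NeZero M'] (hq : q.Prime)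
    (hA : A.LiesOverPrime q) (x : LaurentSeries ℤ) (hx : x.coeff (-1) = 1) (a : ℕ → ℤ[X])
    (h : S36KG_IsModEq q x a)
    (hxF : coeffMap (Int.castRingHom K1) x ∈ modularFunctionFieldFullC K1 M') :
    ∃ (p : ℕ → LaurentSeries K1) (H ΦY D : LaurentSeries K1),
      (∀ k, p k ∈ S18K_V A K1 (M' * q)) ∧ p q = 1 ∧
      (∑ k ∈ Finset.range (q + 1),
        p k * (qExpand K1 (q * q) (coeffMap (Int.castRingHom K1) x) -
          coeffMap (Int.castRingHom K1) x) ^ k = 0) ∧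
      (∀ k, 1 ≤ k → k + 2 ≤ q → ∃ e ∈ S18K_V A K1 (M' * q), p k = (q : LaurentSeries K1) * e) ∧
      (H ∈ S18K_V A K1 (M' * q) ∧ H⁻¹ ∈ S18K_V A K1 (M' * q) ∧ H ≠ 0) ∧
      p 0 = (q : LaurentSeries K1) * H ∧
      ((coeffMap (Int.castRingHom K1) x - (qExpand K1 q (coeffMap (Int.castRingHom K1) x)) ^ q) ∈
          S18K_V A K1 (M' * q) ∧
        (coeffMap (Int.castRingHom K1) x -
          (qExpand K1 q (coeffMap (Int.castRingHom K1) x)) ^ q)⁻¹ ∈ S18K_V A K1 (M' * q) ∧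
        (coeffMap (Int.castRingHom K1) x -
          (qExpand K1 q (coeffMap (Int.castRingHom K1) x)) ^ q) ≠ 0) ∧
      (∃ e ∈ S18K_V A K1 (M' * q), p (q - 1) - (coeffMap (Int.castRingHom K1) x -
        (qExpand K1 q (coeffMap (Int.castRingHom K1) x)) ^ q) = (q : LaurentSeries K1) * e) ∧
      (ΦY ∈ S18K_V A K1 (M' * q) ∧ ∃ e ∈ S18K_V A K1 (M' * q),
        ΦY + (coeffMap (Int.castRingHom K1) x -
          (qExpand K1 q (coeffMap (Int.castRingHom K1) x)) ^ q) = (q : LaurentSeries K1) * e) ∧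
      (D ∈ S18K_V A K1 (M' * q) ∧ D⁻¹ ∈ S18K_V A K1 (M' * q) ∧ D * H + ΦY = 0 ∧
        D * p 0 = - ((q : LaurentSeries K1) * ΦY)) ∧
      p 0 = ((q + 1 : ℕ) : LaurentSeries K1) * (coeffMap (Int.castRingHom K1) x) ^ q +
        ∑ i ∈ Finset.range (q + 1),
          eval₂ (Int.castRingHom (LaurentSeries K1))
            (qExpand K1 q (coeffMap (Int.castRingHom K1) x)) (a i) *
            ((i : LaurentSeries K1) * (coeffMap (Int.castRingHom K1) x) ^ (i - 1)) ∧
      ΦY = ∑ i ∈ Finset.range (q + 1),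
        eval₂ (Int.castRingHom (LaurentSeries K1))
          (qExpand K1 q (coeffMap (Int.castRingHom K1) x)) (derivative (a i)) *
          (coeffMap (Int.castRingHom K1) x) ^ i := by
  haveI : Fact q.Prime := ⟨hq⟩
  haveI : CharP (IsLocalRing.ResidueField A) q := S34V0K_charP A hq hA
  haveI : NeZero (M' * q) := NeZero.mul
  obtain ⟨p, H, ΦY, hpm, hpq, hroot, hmid, hp0, hH, hS, htop, hΦm, hΦ, hθ, hp0f, hΦf⟩ :=
    S36VG_poly q hq x hx a h
  set ι := coeffMap (Int.castRingHom K1) with hι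
  have hq0 : ((q : ℕ) : LaurentSeries K1) ≠ 0 := by
    rw [show ((q : ℕ) : LaurentSeries K1) = HahnSeries.C ((q : ℕ) : K1) by rw [map_natCast]]
    intro h0
    rw [← map_zero (HahnSeries.C : K1 →+* LaurentSeries K1)] at h0
    have := HahnSeries.C_injective h0
    exact hq.ne_zero (by exact_mod_cast this)
  have hF : ∀ w, w ∈ Subring.closure ({x, qExpand ℤ q x} : Set (LaurentSeries ℤ)) →
      ι w ∈ modularFunctionFieldFullC K1 (M' * q) :=
    fun w hw => S36VG_iota_mem_F K1 q M' hxF hw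
  have hV : ∀ w, ι w ∈ modularFunctionFieldFullC K1 (M' * q) → ι w ∈ S18K_V A K1 (M' * q) :=
    fun w hw => ⟨S36VM_iota_mem (S18K_D A K1) _, hw⟩
  have hVu : ∀ w, ι w ∈ modularFunctionFieldFullC K1 (M' * q) →
      coeffMap (Int.castRingHom (ZMod q)) w ≠ 0 →
      (ι w)⁻¹ ∈ S18K_V A K1 (M' * q) ∧ ι w ≠ 0 :=
    fun w hw hw0 => ⟨⟨(S36VM_iota_unit (S18K_D A K1) q w hw0).2,
      show _ ∈ modularFunctionFieldFullC K1 (M' * q) from inv_mem hw⟩,
      S36VM_iota_ne_zero K1 q w hw0⟩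
  -- division by `q` stays in `F1`
  have hdiv : ∀ w e : LaurentSeries ℤ, w = (q : LaurentSeries ℤ) * e →
      ι w ∈ modularFunctionFieldFullC K1 (M' * q) →
      ι w = (q : LaurentSeries K1) * ι e ∧ ι e ∈ S18K_V A K1 (M' * q) := by
    intro w e hwe hw
    have h1 : ι w = (q : LaurentSeries K1) * ι e := by
      rw [hwe, map_mul, map_natCast]
    refine ⟨h1, hV _ ?_⟩
    have h2 : ι e = ((q : ℕ) : LaurentSeries K1)⁻¹ * ι w := by
      rw [h1, ← mul_assoc, inv_mul_cancel₀ hq0, one_mul]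
    rw [h2]
    exact mul_mem (inv_mem (S36VM_natCast_mem_F K1 _ q)) hw
  have hιx : ι x ∈ modularFunctionFieldFullC K1 (M' * q) :=
    hF _ (Subring.subset_closure (by simp))
  have hιy : ι (qExpand ℤ q x) ∈ modularFunctionFieldFullC K1 (M' * q) :=
    hF _ (Subring.subset_closure (by simp))
  have hιS : ι (x - (qExpand ℤ q x) ^ q) ∈ modularFunctionFieldFullC K1 (M' * q) := by
    rw [map_sub, map_pow]
    exact sub_mem hιx (pow_mem hιy _)
  have eS : ι (x - (qExpand ℤ q x) ^ q) = ι x - (qExpand K1 q (ι x)) ^ q := by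
    rw [map_sub, map_pow, hι, coeffMap_qExpand]
  have hpF : ∀ k, ι (p k) ∈ modularFunctionFieldFullC K1 (M' * q) := fun k => hF _ (hpm k)
  have hHV := hdiv _ H hp0 (hpF 0)
  have hHu := hVu H hHV.2.2 hH
  have hSu := hVu _ hιS hS
  have hΦV : ι ΦY ∈ S18K_V A K1 (M' * q) := hV _ (hF _ hΦm)
  -- the unit `D`
  obtain ⟨eΦ, heΦ⟩ := hΦ
  have hΦS : ι ΦY + ι (x - (qExpand ℤ q x) ^ q) ∈ modularFunctionFieldFullC K1 (M' * q) :=
    add_mem hΦV.2 hιS
  have hΦ0 : coeffMap (Int.castRingHom (ZMod q)) ΦY ≠ 0 := by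
    intro h0
    apply hS
    have h1 := congrArg (coeffMap (Int.castRingHom (ZMod q))) heΦ
    rw [map_add, h0, zero_add, map_mul, map_natCast, S36VM_natCast_zero, zero_mul] at h1
    exact h1
  have hΦu := hVu ΦY hΦV.2 hΦ0
  have hDH : -(ι ΦY * (ι H)⁻¹) * ι H + ι ΦY = 0 := by
    rw [neg_mul, mul_assoc, inv_mul_cancel₀ hHu.2, mul_one, neg_add_cancel]
  refine ⟨fun k => ι (p k), ι H, ι ΦY, -(ι ΦY * (ι H)⁻¹), fun k => hV _ (hpF k), ?_, ?_,
    fun k hk1 hk2 => ?_, ⟨hHV.2, hHu.1, hHu.2⟩, hHV.1, ?_, ?_, ⟨hΦV, ?_⟩, ⟨?_, ?_, hDH, ?_⟩,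
    ?_, ?_⟩
  · show ι (p q) = 1
    rw [hpq, map_one]
  · have h1 := congrArg ι hroot
    rw [map_sum, map_zero] at h1
    rw [← h1]
    refine Finset.sum_congr rfl (fun k _ => ?_)
    rw [map_mul, map_pow, map_sub, hι, coeffMap_qExpand]
  · obtain ⟨e, he⟩ := hmid k hk1 hk2
    obtain ⟨h1, h2⟩ := hdiv _ e he (hpF k)
    exact ⟨ι e, h2, h1⟩
  · rw [← eS]
    exact ⟨hV _ hιS, hSu.1, hSu.2⟩
  · obtain ⟨e, he⟩ := htop
    have hm : ι (p (q - 1) - (x - (qExpand ℤ q x) ^ q)) ∈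
        modularFunctionFieldFullC K1 (M' * q) := by
      rw [map_sub]
      exact sub_mem (hpF _) hιS
    obtain ⟨h1, h2⟩ := hdiv _ e he hm
    refine ⟨ι e, h2, ?_⟩
    show ι (p (q - 1)) - (ι x - (qExpand K1 q (ι x)) ^ q) = _
    rw [← eS, ← map_sub]
    exact h1
  · have hm : ι (ΦY + (x - (qExpand ℤ q x) ^ q)) ∈ modularFunctionFieldFullC K1 (M' * q) := by
      rw [map_add]
      exact hΦS
    obtain ⟨h1, h2⟩ := hdiv _ eΦ heΦ hm
    refine ⟨ι eΦ, h2, ?_⟩
    show ι ΦY + (ι x - (qExpand K1 q (ι x)) ^ q) = _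
    rw [← eS, ← map_add]
    exact h1
  · exact (S18K_V A K1 (M' * q)).neg_mem ((S18K_V A K1 (M' * q)).mul_mem hΦV hHu.1)
  · have c1 : ι ΦY * (ι ΦY)⁻¹ = 1 := mul_inv_cancel₀ hΦu.2
    have c2 : (ι H)⁻¹ * ι H = 1 := inv_mul_cancel₀ hHu.2
    have e : (-(ι ΦY * (ι H)⁻¹))⁻¹ = -((ι ΦY)⁻¹ * ι H) := by
      apply inv_eq_of_mul_eq_one_right
      linear_combination ((ι H)⁻¹ * ι H) * c1 + c2
    rw [e]
    exact (S18K_V A K1 (M' * q)).neg_mem ((S18K_V A K1 (M' * q)).mul_mem hΦu.1 hHV.2)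
  · show -(ι ΦY * (ι H)⁻¹) * ι (p 0) = _
    rw [hHV.1]
    have c2 : (ι H)⁻¹ * ι H = 1 := inv_mul_cancel₀ hHu.2
    linear_combination (-(q : LaurentSeries K1) * ι ΦY) * c2
  · show ι (p 0) = _
    rw [hp0f, map_add, map_mul, map_pow, map_natCast, map_sum]
    congr 1
    refine Finset.sum_congr rfl (fun i _ => ?_)
    rw [map_mul, map_mul, map_pow, map_natCast,
      Fermat.Agent.S34_helper14_MEW.S34MEW_map_eval₂, hι, coeffMap_qExpand]
  · show ι ΦY = _
    rw [hΦf, map_sum]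
    refine Finset.sum_congr rfl (fun i _ => ?_)
    rw [map_mul, map_pow, Fermat.Agent.S34_helper14_MEW.S34MEW_map_eval₂, hι, coeffMap_qExpand]

end Fermat.Agent.S36_helper1_VMIDG
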