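import Fermat.Agent.S36_helper1_MIDBR
import Fermat.Agent.S36_helper1_VMIDGK
import Fermat.Agent.S36_helper5_VMIDK

/-!
# S36, GEO36 REG36 (helper1): the bridge `t_h ∈ m(V_mid)` at the carriers

For helper5's carrier `V_mid = S36VK_Vmid A K1 q M'` (defined through `t_j = j(Q^(q²)) - j`) and a
coordinate `x₀ : LaurentSeries ℤ`, `x₀.coeff (-1) = 1`, with the two relations
`S36KG_IsModEq q x₀ a` and a Hauptmodul relation `j B(x₀) = a(x₀)³` (`B` monic), whose image `X`
over `K1` lies in the function field of level `M'`: the function `t_h = X(Q^(q²)) - X` is a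
non-zero non-unit of `V_mid` (`hW_mid` of TRIPLEX, `ht` of the D-trick).
-/

set_option autoImplicit false
set_option linter.unusedSectionVars false
set_option linter.unusedVariables false
set_option linter.style.haveILetI false

open Polynomial ModularCurve
open Fermat.Agent.S36_helper1_KRON Fermat.Agent.S36_helper1_THETA
open Fermat.Agent.S36_helper1_KRONG Fermat.Agent.S36_helper1_VMID
open Fermat.Agent.S36_helper1_VMIDG Fermat.Agent.S36_helper1_MIDBR
open Fermat.Agent.S18_helper13_GAUSS Fermat.Agent.S18_helper25_COREDefs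
open Fermat.Agent.S34_helper20_V0K Fermat.Agent.S34_helper27_C2Defs
open Fermat.Agent.S34_helper27_V3K
open Fermat.Agent.S36_helper5_VKDefs Fermat.Agent.S36_helper5_VMIDK

noncomputable section

namespace Fermat.Agent.S36_helper1_MIDBR

variable (A : ValuationSubring (AlgebraicClosure ℚ))
  (K1 : IntermediateField ℚ (AlgebraicClosure ℚ)) [IsDiscreteValuationRing (S18K_O1 A K1)]

/-- a monic integer polynomial does not vanish at a series with a simple pole, modulo `q` -/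
theorem S36MB_rho_eval_ne (q : ℕ) [hqf : Fact q.Prime] {x₀ : LaurentSeries ℤ}
    (hx₀ : x₀.coeff (-1) = 1) (BP : ℤ[X]) (hB : BP.Monic) :
    coeffMap (Int.castRingHom (ZMod q))
      (eval₂ (Int.castRingHom (LaurentSeries ℤ)) x₀ BP) ≠ 0 := by
  intro h0
  rw [Fermat.Agent.S34_helper14_MEW.S34MEW_map_eval₂,
    Fermat.Agent.S36_helper1_KRON.S36VM_eval₂_eq_aeval] at h0
  have hx' : (coeffMap (Int.castRingHom (ZMod q)) x₀).coeff (-1) ≠ 0 := by
    rw [coeffMap_coeff, hx₀, map_one]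
    exact one_ne_zero
  have h1 := S36KG_aeval_injective q _ hx' (h0.trans (map_zero _).symm)
  exact (hB.map (Int.castRingHom (ZMod q))).ne_zero h1

set_option maxHeartbeats 1600000 in
/-- **the bridge**: `t_h = X(Q^(q²)) - X` is a non-zero non-unit of `V_mid` -/
theorem S36MB_bridge (q M' : ℕ) [NeZero q] [NeZero M'] [NeZero (q * q)] [NeZero (q ^ 2)]
    [NeZero (M' * q * q)] (hq : q.Prime) (hqM : ¬ q ∣ M') (hA : A.LiesOverPrime q)
    (hunr : Associated (S18K_D A K1).π ((q : ℕ) : S18K_O1 A K1))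
    (x₀ : LaurentSeries ℤ) (hx₀ : x₀.coeff (-1) = 1) (a : ℕ → ℤ[X])
    (h : S36KG_IsModEq q x₀ a)
    (hxF : coeffMap (Int.castRingHom K1) x₀ ∈ modularFunctionFieldFullC K1 M')
    (aP BP : ℤ[X]) (hBm : BP.Monic)
    (rel : jqModC ℤ * eval₂ (Int.castRingHom (LaurentSeries ℤ)) x₀ BP =
      (eval₂ (Int.castRingHom (LaurentSeries ℤ)) x₀ aP) ^ 3) :
    (qExpand K1 (q * q) (coeffMap (Int.castRingHom K1) x₀) - coeffMap (Int.castRingHom K1) x₀ ∈
        S36VK_Vmid A K1 q M') ∧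
      (∃ v ∈ S36VK_Vmid A K1 q M',
        qExpand K1 (q * q) (coeffMap (Int.castRingHom K1) x₀) - coeffMap (Int.castRingHom K1) x₀ =
          S36VK_t K1 q * v) ∧
      qExpand K1 (q * q) (coeffMap (Int.castRingHom K1) x₀) - coeffMap (Int.castRingHom K1) x₀ ≠
        0 ∧
      (qExpand K1 (q * q) (coeffMap (Int.castRingHom K1) x₀) -
        coeffMap (Int.castRingHom K1) x₀)⁻¹ ∉ S36VK_Vmid A K1 q M' := by
  haveI hqf : Fact q.Prime := ⟨hq⟩
  haveI : CharP (IsLocalRing.ResidueField A) q := S34V0K_charP A hq hA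
  haveI : NeZero (M' * q) := NeZero.mul
  obtain ⟨hmid, -, -, -, ht0, -, -, -, hint, hunif, -, -, -⟩ :=
    S36VK_main A K1 q M' hq hqM hA hunr
  obtain ⟨hval, hV', htV, htinv⟩ := hmid
  set V2 := S36VK_Vmid A K1 q M' with hV2
  set ι := coeffMap (Int.castRingHom K1) with hι
  set X := ι x₀ with hX
  -- `q ∈ τ V2`
  obtain ⟨u, hu, -, -, hqu⟩ := S36VK_unr A K1 q hunr (M' * q)
  obtain ⟨vπ, hvπ, hπv⟩ := hunif _ hval.π_mem hval.π_nonunit
  have hqτ : ∃ v ∈ V2, ((q : ℕ) : LaurentSeries K1) = S36VK_t K1 q * v :=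
    ⟨vπ * u, V2.mul_mem hvπ (hV' hu), by rw [hqu, hπv]; ring⟩
  -- the modular input
  obtain ⟨p, H, ΦY, D, -, -, -, -, -, -, ⟨hSV, hSinv, hS0⟩, -⟩ :=
    S36VG_main A K1 q M' hq hA x₀ hx₀ a h hxF
  obtain ⟨hr1, hr2⟩ := S36KG_modEq_map K1 h
  -- memberships
  have hXF : X ∈ modularFunctionFieldFullC K1 (M' * q) :=
    full_degeneracyC_le K1 (Dvd.intro q rfl) hxF
  have hXV : X ∈ V2 := hV' ⟨S36VM_iota_mem (S18K_D A K1) _, hXF⟩
  have hYF : qExpand K1 q X ∈ modularFunctionFieldFullC K1 (M' * q) :=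
    full_degeneracyC_map_le K1 M' q ⟨_, hxF, rfl⟩
  have hYe : qExpand K1 q X = ι (qExpand ℤ q x₀) := by rw [hι, coeffMap_qExpand]
  have hYV : qExpand K1 q X ∈ V2 := by
    refine hV' ⟨?_, hYF⟩
    rw [hYe]
    exact S36VM_iota_mem (S18K_D A K1) _
  have hZF : qExpand K1 (q * q) X ∈ modularFunctionFieldFullC K1 (M' * q * q) := by
    have h1 := full_degeneracyC_map_le K1 M' (q * q) ⟨_, hxF, rfl⟩
    have e : M' * (q * q) = M' * q * q := (mul_assoc M' q q).symm
    rw [← e]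
    exact h1
  -- relation for `Z`
  have hyz : (qExpand K1 (q * q) X) ^ (q + 1) + ∑ i ∈ Finset.range (q + 1),
      eval₂ (Int.castRingHom (LaurentSeries K1)) (qExpand K1 q X) (a i) *
        (qExpand K1 (q * q) X) ^ i = 0 := by
    have h1 := congrArg (qExpand K1 q) hr1
    simp only [map_add, map_pow, map_sum, map_mul, map_zero,
      Fermat.Agent.S34_helper14_MEW.S34MEW_map_eval₂, qExpand_qExpand] at h1
    exact h1
  have hcV : ∀ i, eval₂ (Int.castRingHom (LaurentSeries K1)) (qExpand K1 q X) (a i) ∈ V2 :=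
    fun i => S36VM_eval₂_mem V2 _ hYV _
  have hZV : qExpand K1 (q * q) X ∈ V2 :=
    hval.ic hZF (S36VM_isIntegral_of_rel V2 _ hcV q _ hyz)
  -- `j`, `j_qq`
  have hjV : jqModC K1 ∈ V2 :=
    hV' ⟨(S18K_D A K1).jqModC_mem_Vring, jqModC_mem_full K1 (M' * q)⟩
  have hjqqV : qExpand K1 (q * q) (jqModC K1) ∈ V2 := by
    have e : qExpand K1 (q * q) (jqModC K1) = S36VK_t K1 q + jqModC K1 := by
      rw [S36VK_t]; ring
    rw [e]
    exact V2.add_mem htV hjV
  -- the Hauptmodul relations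
  have hrel : jqModC K1 * eval₂ (Int.castRingHom (LaurentSeries K1)) X BP =
      (eval₂ (Int.castRingHom (LaurentSeries K1)) X aP) ^ 3 := by
    have h1 := congrArg ι rel
    rw [map_mul, map_pow, Fermat.Agent.S34_helper14_MEW.S34MEW_map_eval₂,
      Fermat.Agent.S34_helper14_MEW.S34MEW_map_eval₂, hι, coeffMap_jqModC] at h1
    exact h1
  have hrelqq : qExpand K1 (q * q) (jqModC K1) *
      eval₂ (Int.castRingHom (LaurentSeries K1)) (qExpand K1 (q * q) X) BP =
      (eval₂ (Int.castRingHom (LaurentSeries K1)) (qExpand K1 (q * q) X) aP) ^ 3 := by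
    have h1 := congrArg (qExpand K1 (q * q)) hrel
    rw [map_mul, map_pow, Fermat.Agent.S34_helper14_MEW.S34MEW_map_eval₂,
      Fermat.Agent.S34_helper14_MEW.S34MEW_map_eval₂] at h1
    exact h1
  -- `B(X)` is a Gauss unit
  have hBe : eval₂ (Int.castRingHom (LaurentSeries K1)) X BP =
      ι (eval₂ (Int.castRingHom (LaurentSeries ℤ)) x₀ BP) := by
    rw [Fermat.Agent.S34_helper14_MEW.S34MEW_map_eval₂]
  have hBρ := S36MB_rho_eval_ne q hx₀ BP hBm
  have hBF : eval₂ (Int.castRingHom (LaurentSeries K1)) X BP ∈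
      modularFunctionFieldFullC K1 (M' * q) := by
    have := S36VM_eval₂_mem (modularFunctionFieldFullC K1 (M' * q)).toSubring X hXF BP
    exact this
  have hBinv : (eval₂ (Int.castRingHom (LaurentSeries K1)) X BP)⁻¹ ∈ V2 := by
    refine hV' ⟨?_, show _ ∈ modularFunctionFieldFullC K1 (M' * q) from inv_mem hBF⟩
    rw [hBe]
    exact (S36VM_iota_unit (S18K_D A K1) q _ hBρ).2
  have hB0 : eval₂ (Int.castRingHom (LaurentSeries K1)) X BP ≠ 0 := by
    rw [hBe]
    exact S36VM_iota_ne_zero K1 q _ hBρ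
  -- `j^(q²) - j` is a Gauss unit
  have hce : jqModC K1 ^ (q * q) - jqModC K1 = ι ((jqModC ℤ) ^ (q * q) - jqModC ℤ) := by
    rw [map_sub, map_pow, hι, coeffMap_jqModC]
  have hcρ : coeffMap (Int.castRingHom (ZMod q)) ((jqModC ℤ) ^ (q * q) - jqModC ℤ) ≠ 0 := by
    rw [map_sub, map_pow, coeffMap_jqModC, pow_mul]
    exact S36VM_c_ne_zero q
  have hcF : jqModC K1 ^ (q * q) - jqModC K1 ∈ modularFunctionFieldFullC K1 (M' * q) :=
    sub_mem (pow_mem (jqModC_mem_full K1 (M' * q)) _) (jqModC_mem_full K1 (M' * q))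
  have hcinv : (jqModC K1 ^ (q * q) - jqModC K1)⁻¹ ∈ V2 := by
    refine hV' ⟨?_, show _ ∈ modularFunctionFieldFullC K1 (M' * q) from inv_mem hcF⟩
    rw [hce]
    exact (S36VM_iota_unit (S18K_D A K1) q _ hcρ).2
  have hc0 : jqModC K1 ^ (q * q) - jqModC K1 ≠ 0 := by
    rw [hce]
    exact S36VM_iota_ne_zero K1 q _ hcρ
  -- the abstract bridge
  have hmain := S36MB_abs V2 (S36VK_t K1 q) htV htinv hunif q hqτ hx₀ h aP BP X
    (qExpand K1 q X) (qExpand K1 (q * q) X) (jqModC K1) (qExpand K1 (q * q) (jqModC K1))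
    hXV hYV hZV hjV hjqqV hr2 hyz (hV' hSinv) hS0 hrel hrelqq hBinv hB0
    ⟨1, V2.one_mem, by rw [S36VK_t, mul_one]⟩ hcinv hc0
  -- `t_h ≠ 0`
  have hne : qExpand K1 (q * q) X - X ≠ 0 := by
    have h1 : qExpand K1 (q * q) X - X = ι (S36VG_z q x₀ - x₀) := by
      rw [map_sub, S36VG_z, qExpand_qExpand, hι, coeffMap_qExpand]
    rw [h1]
    intro h0
    apply S36VG_t_ne_zero q hx₀
    apply Fermat.Agent.S37_helper2_K2ABS.coeffMap_injective (Int.castRingHom K1)
      (RingHom.injective_int _)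
    rw [h0, map_zero]
  refine ⟨V2.sub_mem hZV hXV, hmain, hne, fun hinv => ?_⟩
  obtain ⟨v, hv, htv⟩ := hmain
  apply htinv
  have e : (S36VK_t K1 q)⁻¹ = v * (qExpand K1 (q * q) X - X)⁻¹ := by
    apply inv_eq_of_mul_eq_one_right
    rw [← mul_assoc, ← htv, mul_inv_cancel₀ hne]
  rw [e]
  exact V2.mul_mem hv hinv

end Fermat.Agent.S36_helper1_MIDBR
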