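import Fermat.Agent.S36_helper23_UNITSK
import Fermat.Agent.S36_helper1_KRON
import Fermat.Agent.S18_helper20_CSAT

/-!
# S36, the carrier inputs of the thick cusps (helper23)

The mid-type cusps of the chart at infinity of level `M' * q * q` are treated in the
`j`-coordinate (helper20's TCUSP).  This file collects the inputs at the carriers, for ANY
subring `V2` with `S36VK_IsMid A K1 q M' V2` (hence for `S36VK_Vmid`, by `S36VK_main`):
with `θ1 = j(Q^q)`, `θ2 = j(Q^(q q))`,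

* `S36TCI_frob_mid`      : `θ1 - j ^ q ∈ π V2`;
* `S36TCI_j_unit`, `S36TCI_th1_unit` : `j`, `θ1` are units of the Gauss rings;
  `S36TCI_j_unit_mid`, `S36TCI_th1_unit_mid`, `S36TCI_th2_unit_mid` : `j`, `θ1`, `θ2` are units
  of `V2`;
* `S36TCI_t_mem`, `S36TCI_t_nonunit` : `θ2 - j ∈ V2`, `(θ2 - j)⁻¹ ∉ V2`;
* `S36TCI_rel1`, `S36TCI_rel2` : `Ψ_a(j, θ1) = 0 = Ψ_a(θ2, θ1)` for a modular equation `a`;
* `S36TCI_q_pi`          : `q = π * u0`, `u0` a unit of `O`, from `Associated π q`;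
* `S36TCI_O_le`, `S36TCI_jinv_mem`, `S36TCI_ic` : the chart at infinity contains `O`, `j⁻¹` and
  is integrally closed in `F1`;  `S36TCI_sat` : its saturation in `V2 ⊓ W`;
* `S36TCI_unit_add` : in a valuation ring, unit + non-unit is a unit (elementwise).
-/

set_option autoImplicit false
set_option linter.unusedSectionVars false
set_option linter.unusedVariables false
set_option linter.style.haveILetI false

noncomputable section

open ModularCurve Fermat.Agent.S24 Polynomial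
open Fermat.Agent.S18_helper13_GAUSS Fermat.Agent.S18_helper9_CDefs
open Fermat.Agent.S18_helper25_COREDefs Fermat.Agent.S34_helper12_CDefs
open Fermat.Agent.S34_helper27_C2Defs Fermat.Agent.S34_helper20_WQ Fermat.Agent.S34_helper20_V0
open Fermat.Agent.S34_helper27_V3K Fermat.Agent.S34_helper20_V0K
open Fermat.Agent.S36_helper20_WQQ Fermat.Agent.S36_helper23_V0Q
open Fermat.Agent.S36_helper23_V0QK Fermat.Agent.S36_helper5_VKDefs
open Fermat.Agent.S36_helper23_V0QB Fermat.Agent.S36_helper23_UNITSK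
open Fermat.Agent.S36_helper1_KRON

namespace Fermat.Agent.S36_helper23_TCUSPIN

/-! ### valuation rings, elementwise -/

/-- **unit + non-unit is a unit** in a valuation ring of `F1` (elementwise) -/
theorem S36TCI_unit_add {L : Type*} [Field L] {π : L} {F1 : Subfield L} {W : Subring L}
    (H : S34C2_Val π F1 W) {u t : L} (hu0 : u ≠ 0) (hu : u ∈ W) (hu' : u⁻¹ ∈ W) (ht : t ∈ W)
    (htn : t⁻¹ ∉ W) : u + t ∈ W ∧ (u + t)⁻¹ ∈ W := by
  refine ⟨W.add_mem hu ht, ?_⟩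
  have ht0 : t ≠ 0 := by
    rintro rfl
    rw [inv_zero] at htn
    exact htn W.zero_mem
  by_cases hut : u + t = 0
  · rw [hut, inv_zero]
    exact W.zero_mem
  have htF : t ∈ F1 := H.le ht
  have huF : u ∈ F1 := H.le hu
  have hsF : t * (u + t)⁻¹ ∈ F1 := mul_mem htF (inv_mem (add_mem huF htF))
  rcases H.val _ hsF with hs | hs
  · -- `u / (u + t) = 1 - t / (u + t) ∈ W`
    have e : (u + t)⁻¹ = u⁻¹ * (1 - t * (u + t)⁻¹) := by
      field_simp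
      ring
    rw [e]
    exact W.mul_mem hu' (W.sub_mem W.one_mem hs)
  · -- `(u + t) / t = u / t + 1 ∈ W`, so `t⁻¹ ∈ W`
    exfalso
    apply htn
    have e : t⁻¹ = u⁻¹ * ((t * (u + t)⁻¹)⁻¹ - 1) := by
      field_simp
      ring
    rw [e]
    exact W.mul_mem hu' (W.sub_mem hs W.one_mem)

/-! ### the Gauss side -/

variable (A : ValuationSubring (AlgebraicClosure ℚ))
  (K1 : IntermediateField ℚ (AlgebraicClosure ℚ))

variable [IsDiscreteValuationRing (S18K_O1 A K1)]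

/-- `j` is a unit of the Gauss ring of every level -/
theorem S36TCI_j_unit (N : ℕ) [NeZero N] :
    jqModC K1 ≠ 0 ∧ jqModC K1 ∈ S18K_V A K1 N ∧ (jqModC K1)⁻¹ ∈ S18K_V A K1 N := by
  have hj := (S18K_D A K1).jqModC_mem_Vring
  have hred : (S18K_D A K1).redFun (jqModC K1) ≠ 0 := by
    rw [(S18K_D A K1).redFun_jqModC]
    exact jqModC_ne_zero_of_nontrivial _
  have hjF : jqModC K1 ∈ modularFunctionFieldFullC K1 N := jqModC_mem_full K1 N
  refine ⟨jqModC_ne_zero_of_nontrivial _, ⟨hj, hjF⟩,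
    (S18K_D A K1).inv_mem_Vring hj hred, ?_⟩
  show _ ∈ modularFunctionFieldFullC K1 N
  exact inv_mem hjF

/-- `j(Q^n)` is a unit of the big Gauss ring -/
theorem S36TCI_jn_unit (n : ℕ) [NeZero n] :
    qExpand K1 n (jqModC K1) ≠ 0 ∧ qExpand K1 n (jqModC K1) ∈ (S18K_D A K1).Vring ∧
      (qExpand K1 n (jqModC K1))⁻¹ ∈ (S18K_D A K1).Vring := by
  have hj := (S18K_D A K1).jqModC_mem_Vring
  have hjn := S34V0K_qExpand_mem (S18K_D A K1) n hj
  have hred : (S18K_D A K1).redFun (qExpand K1 n (jqModC K1)) ≠ 0 := by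
    rw [hjn.2, (S18K_D A K1).redFun_jqModC]
    intro h0
    exact jqModC_ne_zero_of_nontrivial (IsLocalRing.ResidueField A)
      ((map_eq_zero_iff _ (qExpand_injective n)).mp h0)
  refine ⟨?_, hjn.1, (S18K_D A K1).inv_mem_Vring hjn.1 hred⟩
  intro h0
  exact jqModC_ne_zero_of_nontrivial K1 ((map_eq_zero_iff _ (qExpand_injective n)).mp h0)

variable (q M' : ℕ) [NeZero M'] [NeZero (M' * q)] [NeZero (M' * q * q)] [NeZero q]
  [NeZero (q ^ 2)] [NeZero (q * q)]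
  (hq : q.Prime) (hqM : ¬ q ∣ M') (hN1 : M' * q = q * M')

include hq hqM hN1 in
/-- `θ1 = j(Q^q)` is a unit of the Gauss ring of level `M' * q` -/
theorem S36TCI_th1_unit :
    qExpand K1 q (jqModC K1) ≠ 0 ∧ qExpand K1 q (jqModC K1) ∈ S18K_V A K1 (M' * q) ∧
      (qExpand K1 q (jqModC K1))⁻¹ ∈ S18K_V A K1 (M' * q) := by
  obtain ⟨h0, h1, h2⟩ := S36TCI_jn_unit A K1 q
  have hF : qExpand K1 q (jqModC K1) ∈ modularFunctionFieldFullC K1 (M' * q) :=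
    S34V0K_jq_mem_F K1 q M' (M' * q) hq hqM hN1
  refine ⟨h0, ⟨h1, hF⟩, h2, ?_⟩
  show _ ∈ modularFunctionFieldFullC K1 (M' * q)
  exact inv_mem hF

/-! ### the middle valuation ring -/

variable {V2 : Subring (LaurentSeries K1)}

include hq hqM hN1 in
/-- **(a)** Frobenius on `V2` : `θ1 - j ^ q ∈ π V2` -/
theorem S36TCI_frob_mid (hA : A.LiesOverPrime q) (hmid : S36VK_IsMid A K1 q M' V2) :
    ∃ v ∈ V2, qExpand K1 q (jqModC K1) - jqModC K1 ^ q = S18K_π A K1 * v := by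
  obtain ⟨v, hv, e⟩ := S34V0K_frob1 A K1 q M' (M' * q) hq hqM hN1 hA
  exact ⟨v, hmid.2.1 hv, e⟩

/-- **(b)** `j` is a unit of `V2` -/
theorem S36TCI_j_unit_mid (hmid : S36VK_IsMid A K1 q M' V2) :
    jqModC K1 ∈ V2 ∧ (jqModC K1)⁻¹ ∈ V2 := by
  obtain ⟨-, h1, h2⟩ := S36TCI_j_unit A K1 (M' * q)
  exact ⟨hmid.2.1 h1, hmid.2.1 h2⟩

include hq hqM hN1 in
/-- **(b)** `θ1 = j(Q^q)` is a unit of `V2` -/
theorem S36TCI_th1_unit_mid (hmid : S36VK_IsMid A K1 q M' V2) :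
    qExpand K1 q (jqModC K1) ∈ V2 ∧ (qExpand K1 q (jqModC K1))⁻¹ ∈ V2 := by
  obtain ⟨-, h1, h2⟩ := S36TCI_th1_unit A K1 q M' hq hqM hN1
  exact ⟨hmid.2.1 h1, hmid.2.1 h2⟩

/-- **(c)** `t = θ2 - j ∈ V2` -/
theorem S36TCI_t_mem (hmid : S36VK_IsMid A K1 q M' V2) :
    qExpand K1 (q * q) (jqModC K1) - jqModC K1 ∈ V2 := hmid.2.2.1

/-- **(c)** `t = θ2 - j` is a non-unit of `V2` -/
theorem S36TCI_t_nonunit (hmid : S36VK_IsMid A K1 q M' V2) :
    (qExpand K1 (q * q) (jqModC K1) - jqModC K1)⁻¹ ∉ V2 := hmid.2.2.2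

/-- **(b)** `θ2 = j(Q^(q q))` is a unit of `V2` -/
theorem S36TCI_th2_unit_mid (hmid : S36VK_IsMid A K1 q M' V2) :
    qExpand K1 (q * q) (jqModC K1) ∈ V2 ∧ (qExpand K1 (q * q) (jqModC K1))⁻¹ ∈ V2 := by
  obtain ⟨hj, hj'⟩ := S36TCI_j_unit_mid A K1 q M' hmid
  have h := S36TCI_unit_add hmid.1 (jqModC_ne_zero_of_nontrivial K1) hj hj'
    (S36TCI_t_mem A K1 q M' hmid) (S36TCI_t_nonunit A K1 q M' hmid)
  have e : jqModC K1 + (qExpand K1 (q * q) (jqModC K1) - jqModC K1) =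
      qExpand K1 (q * q) (jqModC K1) := by ring
  rw [e] at h
  exact h

/-- `ρ = j / θ2` is a unit of `V2` and `ρ - 1 = - t / θ2` is a non-unit -/
theorem S36TCI_rho (hmid : S36VK_IsMid A K1 q M' V2) :
    jqModC K1 * (qExpand K1 (q * q) (jqModC K1))⁻¹ ∈ V2 ∧
      (jqModC K1 * (qExpand K1 (q * q) (jqModC K1))⁻¹)⁻¹ ∈ V2 ∧
      jqModC K1 * (qExpand K1 (q * q) (jqModC K1))⁻¹ - 1 ∈ V2 ∧
      (jqModC K1 * (qExpand K1 (q * q) (jqModC K1))⁻¹ - 1)⁻¹ ∉ V2 := by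
  obtain ⟨hj, hj'⟩ := S36TCI_j_unit_mid A K1 q M' hmid
  obtain ⟨h2, h2'⟩ := S36TCI_th2_unit_mid A K1 q M' hmid
  have ht := S36TCI_t_mem A K1 q M' hmid
  have htn := S36TCI_t_nonunit A K1 q M' hmid
  have hθ0 : qExpand K1 (q * q) (jqModC K1) ≠ 0 := (S36TCI_jn_unit A K1 (q * q)).1
  have e1 : jqModC K1 * (qExpand K1 (q * q) (jqModC K1))⁻¹ - 1 =
      - ((qExpand K1 (q * q) (jqModC K1) - jqModC K1) *
        (qExpand K1 (q * q) (jqModC K1))⁻¹) := by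
    field_simp
    ring
  refine ⟨V2.mul_mem hj h2', ?_, ?_, ?_⟩
  · rw [mul_inv, inv_inv]
    exact V2.mul_mem hj' h2
  · rw [e1]
    exact V2.neg_mem (V2.mul_mem ht h2')
  · rw [e1]
    intro hinv
    apply htn
    have e2 : (qExpand K1 (q * q) (jqModC K1) - jqModC K1)⁻¹ =
        - ((-((qExpand K1 (q * q) (jqModC K1) - jqModC K1) *
          (qExpand K1 (q * q) (jqModC K1))⁻¹))⁻¹ * (qExpand K1 (q * q) (jqModC K1))⁻¹) := by
      rw [inv_neg, mul_inv, inv_inv]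
      have ht0 : qExpand K1 (q * q) (jqModC K1) - jqModC K1 ≠ 0 := by
        intro h0
        rw [h0, inv_zero] at htn
        exact htn V2.zero_mem
      field_simp
    rw [e2]
    exact V2.neg_mem (V2.mul_mem hinv h2')

/-! ### the modular equation -/

section Rel

variable {a : ℕ → ℤ[X]}

/-- **(d)** `Ψ_a(j, θ1) = 0` -/
theorem S36TCI_rel1 (h : S36VM_IsModEq q a) :
    (qExpand K1 q (jqModC K1)) ^ (q + 1) + ∑ i ∈ Finset.range (q + 1),
      eval₂ (Int.castRingHom (LaurentSeries K1)) (jqModC K1) (a i) *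
        (qExpand K1 q (jqModC K1)) ^ i = 0 :=
  (S36VM_modEq_map K1 h).1

/-- **(d)** `Ψ_a(θ2, θ1) = 0` : the image under `Q ↦ Q^q` of the second relation -/
theorem S36TCI_rel2 (h : S36VM_IsModEq q a) :
    (qExpand K1 q (jqModC K1)) ^ (q + 1) + ∑ i ∈ Finset.range (q + 1),
      eval₂ (Int.castRingHom (LaurentSeries K1)) (qExpand K1 (q * q) (jqModC K1)) (a i) *
        (qExpand K1 q (jqModC K1)) ^ i = 0 := by
  have h2 := congrArg (qExpand K1 q) (S36VM_modEq_map K1 h).2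
  simpa only [map_add, map_pow, map_sum, map_mul, map_zero,
    Fermat.Agent.S34_helper14_MEW.S34MEW_map_eval₂, qExpand_qExpand] using h2

end Rel

/-! ### the constants -/

/-- **(e)** `q = π * u0` with `u0` a unit of `O`, from `Associated π q` in `O1` -/
theorem S36TCI_q_pi (hunr : Associated (S18K_D A K1).π ((q : ℕ) : S18K_O1 A K1)) :
    ∃ u0 : LaurentSeries K1, u0 ≠ 0 ∧ u0 ∈ S18K_O A K1 ∧ u0⁻¹ ∈ S18K_O A K1 ∧
      (q : LaurentSeries K1) = S18K_π A K1 * u0 := by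
  obtain ⟨u, hu⟩ := hunr
  have h1 : (HahnSeries.C ((S18K_D A K1).inc (u : S18K_O1 A K1)) : LaurentSeries K1)
      * HahnSeries.C ((S18K_D A K1).inc (↑u⁻¹ : S18K_O1 A K1)) = 1 := by
    rw [← map_mul, ← map_mul, Units.mul_inv, map_one, map_one]
  have hu0 : (HahnSeries.C ((S18K_D A K1).inc (u : S18K_O1 A K1)) : LaurentSeries K1) ≠ 0 :=
    left_ne_zero_of_mul_eq_one h1
  have hinv : (HahnSeries.C ((S18K_D A K1).inc (u : S18K_O1 A K1)) : LaurentSeries K1)⁻¹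
      = HahnSeries.C ((S18K_D A K1).inc (↑u⁻¹ : S18K_O1 A K1)) :=
    inv_eq_of_mul_eq_one_right h1
  have hO : ∀ c : S18K_O1 A K1,
      (HahnSeries.C ((S18K_D A K1).inc c) : LaurentSeries K1) ∈ S18K_O A K1 :=
    fun c => (S18K_mem_O A K1 _).2 ⟨(c : K1), c.2, rfl⟩
  refine ⟨_, hu0, hO u, by rw [hinv]; exact hO _, ?_⟩
  show (q : LaurentSeries K1) = (S18K_D A K1).πK * _
  rw [GaussData.πK, ← map_mul, ← map_mul, hu, map_natCast, map_natCast]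

/-! ### the chart at infinity -/

/-- **(f)** `O ≤ Ainf` -/
theorem S36TCI_O_le (N : ℕ) [NeZero N] : S18K_O A K1 ≤ S18K_Ainf A K1 N := by
  intro x hx
  refine ⟨?_, ?_⟩
  · have hx' : x ∈ adj (S18K_O A K1) (S18K_j K1)⁻¹ := Subring.subset_closure (Or.inl hx)
    exact (isIntegral_algebraMap (R := adj (S18K_O A K1) (S18K_j K1)⁻¹) (x := ⟨x, hx'⟩))
  · obtain ⟨c, -, rfl⟩ := (S18K_mem_O A K1 x).1 hx
    exact S34V0_C_mem N c

/-- **(f)** `j⁻¹ ∈ Ainf` -/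
theorem S36TCI_jinv_mem (N : ℕ) [NeZero N] : (jqModC K1)⁻¹ ∈ S18K_Ainf A K1 N := by
  refine ⟨?_, ?_⟩
  · have hx' : (jqModC K1)⁻¹ ∈ adj (S18K_O A K1) (S18K_j K1)⁻¹ :=
      Subring.subset_closure (Or.inr rfl)
    exact (isIntegral_algebraMap (R := adj (S18K_O A K1) (S18K_j K1)⁻¹)
      (x := ⟨(jqModC K1)⁻¹, hx'⟩))
  · show _ ∈ modularFunctionFieldFullC K1 N
    exact inv_mem (jqModC_mem_full K1 N)

/-- **(f)** `Ainf` is integrally closed in `F1` -/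
theorem S36TCI_ic (N : ℕ) [NeZero N] :
    ∀ x ∈ S18K_F1 K1 N, IsIntegral (S18K_Ainf A K1 N) x → x ∈ S18K_Ainf A K1 N :=
  fun x hx hint =>
    ⟨Fermat.Agent.S18_helper20_CSAT.CSAT_isIntegral_of_icl _ _ hint, hx⟩

/-- **(f)** the saturation of the chart at infinity, in the bracketing `V2 ⊓ (V1 ⊓ V3)` -/
theorem S36TCI_sat {O : Subring (LaurentSeries K1)} {π j : LaurentSeries K1}
    {F1 : Subfield (LaurentSeries K1)} {V1 V3 A0 Ainf : Subring (LaurentSeries K1)}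
    (S : S34C_Setup O π j F1 ((V1 ⊓ V2) ⊓ V3) A0 Ainf) :
    ∀ v ∈ V2, v ∈ V1 ⊓ V3 → π * v ∈ Ainf → v ∈ Ainf :=
  fun v h2 h13 hπ => S.chartInf.sat v ⟨⟨h13.1, h2⟩, h13.2⟩ hπ

/-- the same for the finite chart -/
theorem S36TCI_sat0 {O : Subring (LaurentSeries K1)} {π j : LaurentSeries K1}
    {F1 : Subfield (LaurentSeries K1)} {V1 V3 A0 Ainf : Subring (LaurentSeries K1)}
    (S : S34C_Setup O π j F1 ((V1 ⊓ V2) ⊓ V3) A0 Ainf) :
    ∀ v ∈ V2, v ∈ V1 ⊓ V3 → π * v ∈ A0 → v ∈ A0 :=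
  fun v h2 h13 hπ => S.chart0.sat v ⟨⟨h13.1, h2⟩, h13.2⟩ hπ

/-! ### the missing item of the `[UNITS]` block: `T1 = x ^ q - y` is a non-unit of `V_∞` -/

section T1

variable (g₀ : LaurentSeries ℤ) (hg : g₀.coeff (-1) = 1)
  (hxF : coeffMap (Int.castRingHom K1) g₀ ∈ modularFunctionFieldFullC K1 M')

include hq hqM hN1 hg hxF

/-- `w_q T1 = - S1` -/
theorem S36TCI_wq_T1 :
    S34V0_wL (S34V0K_emb K1) q M' (M' * q) hq hqM hN1
      ((coeffMap (Int.castRingHom K1) g₀) ^ q -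
        qExpand K1 q (coeffMap (Int.castRingHom K1) g₀)) =
      - (coeffMap (Int.castRingHom K1) g₀ -
        (qExpand K1 q (coeffMap (Int.castRingHom K1) g₀)) ^ q) := by
  obtain ⟨hx1, -⟩ := S36UT_x_mem K1 q M' hq hqM hN1 g₀ hg hxF
  obtain ⟨hy1, -⟩ := S36UT_y_mem K1 q M' hq hqM hN1 g₀ hg hxF
  have hwx : S34V0_wL (S34V0K_emb K1) q M' (M' * q) hq hqM hN1
      (coeffMap (Int.castRingHom K1) g₀) = qExpand K1 q (coeffMap (Int.castRingHom K1) g₀) :=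
    S34V0K_wL_level K1 q M' (M' * q) hq hqM hN1 hxF
  have hwy : S34V0_wL (S34V0K_emb K1) q M' (M' * q) hq hqM hN1
      (qExpand K1 q (coeffMap (Int.castRingHom K1) g₀)) = coeffMap (Int.castRingHom K1) g₀ := by
    rw [← hwx]
    exact S34V0_wL_wL (S34V0K_emb K1) q M' (M' * q) hq hqM hN1 hx1
  rw [sub_eq_add_neg, S34V0_wL_add (S34V0K_emb K1) q M' (M' * q) hq hqM hN1 (pow_mem hx1 q)
      (neg_mem hy1),
    S34V0_wL_neg (S34V0K_emb K1) q M' (M' * q) hq hqM hN1 hy1,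
    S34V0_wL_pow (S34V0K_emb K1) q M' (M' * q) hq hqM hN1 hx1, hwx, hwy]
  ring

/-- `T1 ≠ 0` -/
theorem S36TCI_T1_ne_zero (hA : A.LiesOverPrime q) :
    (coeffMap (Int.castRingHom K1) g₀) ^ q -
      qExpand K1 q (coeffMap (Int.castRingHom K1) g₀) ≠ 0 := by
  intro h0
  have h1 := S36TCI_wq_T1 K1 q M' hq hqM hN1 g₀ hg hxF
  rw [h0, S34V0_wL_zero, eq_comm, neg_eq_zero] at h1
  exact (S36UT_S1_unit A K1 q M' hq hqM hN1 g₀ hg hxF hA).1 h1

/-- **`(x ^ q - y)⁻¹ ∉ V_∞`** (level `M' * q * q`) -/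
theorem S36TCI_hT1_oo (hA : A.LiesOverPrime q) :
    ((coeffMap (Int.castRingHom K1) g₀) ^ q -
      qExpand K1 q (coeffMap (Int.castRingHom K1) g₀))⁻¹ ∉ S18K_V A K1 (M' * q * q) := by
  intro hinv
  obtain ⟨v, hv, e⟩ := S36UT_T1_oo A K1 q M' hq hqM hN1 g₀ hg hxF hA
  have h0 := S36TCI_T1_ne_zero A K1 q M' hq hqM hN1 g₀ hg hxF hA
  have hv0 : v ≠ 0 := by
    rintro rfl
    rw [mul_zero] at e
    exact h0 e
  have e2 : (S18K_π A K1)⁻¹ =
      v * ((coeffMap (Int.castRingHom K1) g₀) ^ q -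
        qExpand K1 q (coeffMap (Int.castRingHom K1) g₀))⁻¹ := by
    rw [e, mul_inv, ← mul_assoc, mul_comm v, mul_assoc, mul_inv_cancel₀ hv0, mul_one]
  exact (S34V3K_val1 A K1 (M' * q * q)).π_nonunit (by rw [e2]; exact mul_mem hv hinv)

/-- `(x ^ q - y)⁻¹ ∉ V'_∞` (level `M' * q`) -/
theorem S36TCI_hT1_oo' (hA : A.LiesOverPrime q) :
    ((coeffMap (Int.castRingHom K1) g₀) ^ q -
      qExpand K1 q (coeffMap (Int.castRingHom K1) g₀))⁻¹ ∉ S18K_V A K1 (M' * q) :=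
  fun h => S36TCI_hT1_oo A K1 q M' hq hqM hN1 g₀ hg hxF hA
    (S34V3K_V_mono A K1 ⟨q, rfl⟩ h)

/-- `(x ^ q - y)⁻¹ ∉ V2` for every valuation ring `V2` of `F1` above the Gauss ring of level
`M' * q` in which `π` is a non-unit (e.g. `V_mid`) -/
theorem S36TCI_hT1_mid (hA : A.LiesOverPrime q) {F1 : Subfield (LaurentSeries K1)}
    (H2 : S34C2_Val (S18K_π A K1) F1 V2) (hV2 : S18K_V A K1 (M' * q) ≤ V2) :
    ((coeffMap (Int.castRingHom K1) g₀) ^ q -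
      qExpand K1 q (coeffMap (Int.castRingHom K1) g₀))⁻¹ ∉ V2 := by
  intro hinv
  obtain ⟨v, hv, e⟩ := S36UT_T1 A K1 q M' hq hqM hN1 g₀ hg hxF hA
  have h0 := S36TCI_T1_ne_zero A K1 q M' hq hqM hN1 g₀ hg hxF hA
  have hv0 : v ≠ 0 := by
    rintro rfl
    rw [mul_zero] at e
    exact h0 e
  have e2 : (S18K_π A K1)⁻¹ =
      v * ((coeffMap (Int.castRingHom K1) g₀) ^ q -
        qExpand K1 q (coeffMap (Int.castRingHom K1) g₀))⁻¹ := by
    rw [e, mul_inv, ← mul_assoc, mul_comm v, mul_assoc, mul_inv_cancel₀ hv0, mul_one]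
  exact H2.π_nonunit (by rw [e2]; exact mul_mem (hV2 hv) hinv)

end T1

section T1Aux

open Fermat.Agent.S36_helper8_AUXDefs

variable {r : ℕ} [NeZero r] (D : S36AUX_Data r) (hr : r ∣ M')

include hq hqM hN1 hr

/-- `T1 ≠ 0` for the Hauptmodul -/
theorem S36TCI_aux_T1_ne_zero (hA : A.LiesOverPrime q) :
    (S36AUX_hK K1 D.u) ^ q - qExpand K1 q (S36AUX_hK K1 D.u) ≠ 0 := by
  rw [S36UK_aux_eq]
  exact S36TCI_T1_ne_zero A K1 q M' hq hqM hN1 (S36AUX_h D.u) (S36UK_aux_coeff D.u D.hu)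
    (S36UK_aux_mem D K1 M' hr) hA

/-- **`(x ^ q - y)⁻¹ ∉ V_∞`** for the Hauptmodul -/
theorem S36TCI_aux_hT1_oo (hA : A.LiesOverPrime q) :
    ((S36AUX_hK K1 D.u) ^ q - qExpand K1 q (S36AUX_hK K1 D.u))⁻¹ ∉
      S18K_V A K1 (M' * q * q) := by
  rw [S36UK_aux_eq]
  exact S36TCI_hT1_oo A K1 q M' hq hqM hN1 (S36AUX_h D.u) (S36UK_aux_coeff D.u D.hu)
    (S36UK_aux_mem D K1 M' hr) hA

/-- `(x ^ q - y)⁻¹ ∉ V'_∞` for the Hauptmodul -/
theorem S36TCI_aux_hT1_oo' (hA : A.LiesOverPrime q) :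
    ((S36AUX_hK K1 D.u) ^ q - qExpand K1 q (S36AUX_hK K1 D.u))⁻¹ ∉ S18K_V A K1 (M' * q) := by
  rw [S36UK_aux_eq]
  exact S36TCI_hT1_oo' A K1 q M' hq hqM hN1 (S36AUX_h D.u) (S36UK_aux_coeff D.u D.hu)
    (S36UK_aux_mem D K1 M' hr) hA

/-- `(x ^ q - y)⁻¹ ∉ V2` for the Hauptmodul -/
theorem S36TCI_aux_hT1_mid (hA : A.LiesOverPrime q) {F1 : Subfield (LaurentSeries K1)}
    (H2 : S34C2_Val (S18K_π A K1) F1 V2) (hV2 : S18K_V A K1 (M' * q) ≤ V2) :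
    ((S36AUX_hK K1 D.u) ^ q - qExpand K1 q (S36AUX_hK K1 D.u))⁻¹ ∉ V2 := by
  rw [S36UK_aux_eq]
  exact S36TCI_hT1_mid A K1 q M' hq hqM hN1 (S36AUX_h D.u) (S36UK_aux_coeff D.u D.hu)
    (S36UK_aux_mem D K1 M' hr) hA H2 hV2

end T1Aux

end Fermat.Agent.S36_helper23_TCUSPIN
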