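import Fermat.Agent.S36_helper23_V0QB
import Fermat.Agent.S36_helper8_AUXDefs
import Fermat.Agent.S18_helper25_GLUE

/-!
# S36, the `[UNITS]` block at the carriers, for any coordinate with integer coefficients (helper23)

Let `g₀ ∈ ℤ((Q))` with `g₀.coeff (-1) = 1` (a Hauptmodul `Q⁻¹ u`, or `j`), `x` its image in
`K1((Q))`, assumed to lie in the function field of level `M'`, and
`y = x(Q^q)`, `z = x(Q^(q²))`,  `S1 = x - y^q`, `T1 = x^q - y`, `T2 = z - y^q`, `W = z - x`.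

* Gauss ring (`V'_∞` of level `q M'`, `V_∞` of level `q² M'`): `T1 ∈ π V'_∞`, `T2 ∈ π V_∞`,
  `S1` is a unit of `V'_∞`, `W` is a unit of `V_∞`;
* the Atkin–Lehner involution `w = w_(q²)`: `w x = z`, `w y = y`, `w z = x`, `w S1 = T2`,
  `w T2 = S1`, `w W = - W`;
* `V_0 = w(V_∞)`: `T2` is a unit of `V_0`, `S1 ∈ π V_0`, `W` is a unit of `V_0`.

First part: free spelling of the levels (`N1 = q * M'`, `N = q ^ 2 * M'`, `z = qExpand (q ^ 2)`),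
prefix `S36UK_`.  Second part: VERBATIM on the typed carriers (`M' * q`, `M' * q * q`,
`S36VK_V0`, `z = qExpand (q * q)`), prefix `S36UT_`.
-/

set_option autoImplicit false
set_option linter.unusedSectionVars false
set_option linter.unusedVariables false
set_option linter.style.haveILetI false

noncomputable section

open ModularCurve Fermat.Agent.S24
open Fermat.Agent.S18_helper13_GAUSS Fermat.Agent.S18_helper9_CDefs
open Fermat.Agent.S18_helper25_COREDefs Fermat.Agent.S34_helper12_CDefs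
open Fermat.Agent.S34_helper27_C2Defs Fermat.Agent.S34_helper20_WQ Fermat.Agent.S34_helper20_V0
open Fermat.Agent.S34_helper27_V3K Fermat.Agent.S34_helper20_V0K
open Fermat.Agent.S36_helper20_WQQ Fermat.Agent.S36_helper23_V0Q
open Fermat.Agent.S36_helper23_V0QK Fermat.Agent.S36_helper5_VKDefs
open Fermat.Agent.S36_helper23_V0QB

namespace Fermat.Agent.S36_helper23_UNITSK

/-! ### Gauss rings and series with integer coefficients -/

section Gauss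

variable {O K κ : Type*} [CommRing O] [IsDomain O] [Field K] [Field κ] (D : GaussData O K κ)

theorem S36UK_int_eq (g₀ : LaurentSeries ℤ) :
    coeffMap (Int.castRingHom K) g₀ = D.incS (coeffMap (Int.castRingHom O) g₀) := by
  rw [GaussData.incS, coeffMap_coeffMap]
  exact coeffMap_congr (RingHom.ext_int _ _) _

/-- a series with integer coefficients lies in the Gauss ring -/
theorem S36UK_int_mem (g₀ : LaurentSeries ℤ) : coeffMap (Int.castRingHom K) g₀ ∈ D.Vring := by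
  rw [S36UK_int_eq D]
  exact D.incS_mem_Vring _

/-- the reduction of a series with integer coefficients -/
theorem S36UK_int_red (g₀ : LaurentSeries ℤ) :
    D.redFun (coeffMap (Int.castRingHom K) g₀) = coeffMap (Int.castRingHom κ) g₀ := by
  rw [S36UK_int_eq D, D.redFun_incS, GaussData.redS, coeffMap_coeffMap]
  exact coeffMap_congr (RingHom.ext_int _ _) _

/-- Frobenius on series with coefficients in the prime field: `ḡ ^ q = ḡ(Q^q)` -/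
theorem S36UK_frob_int (q : ℕ) [NeZero q] [ExpChar κ q] (g₀ : LaurentSeries ℤ) :
    (coeffMap (Int.castRingHom κ) g₀) ^ q = qExpand κ q (coeffMap (Int.castRingHom κ) g₀) := by
  rw [Fermat.Agent.S37K2.S37K2_pow_char κ q, coeffMap_coeffMap]
  congr 1
  exact coeffMap_congr (RingHom.ext_int _ _) _

/-- `x ^ q - x(Q^q)` has zero reduction -/
theorem S36UK_T1_red (q : ℕ) [NeZero q] [ExpChar κ q] (g₀ : LaurentSeries ℤ) :
    D.redFun ((coeffMap (Int.castRingHom K) g₀) ^ q -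
      qExpand K q (coeffMap (Int.castRingHom K) g₀)) = 0 := by
  have hx := S36UK_int_mem D g₀
  have hy := (S34V0K_qExpand_mem D q hx)
  rw [D.redFun_sub (D.Vring.pow_mem hx q) hy.1, D.redFun_pow hx, hy.2, S36UK_int_red,
    S36UK_frob_int, sub_self]

/-- the coefficient of `Q⁻¹` of `ḡ(Q^n)` vanishes for `n ≥ 2` -/
theorem S36UK_coeff_qExpand (n : ℕ) [NeZero n] (hn : 2 ≤ n) (f : LaurentSeries κ) :
    (qExpand κ n f).coeff (-1) = 0 := by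
  refine qExpand_coeff_of_not_dvd n f ?_
  rintro ⟨c, hc⟩
  have h1 : (n : ℤ) ∣ 1 := ⟨-c, by rw [mul_neg, ← hc]; norm_num⟩
  have h2 : (n : ℤ) ≤ 1 := Int.le_of_dvd one_pos h1
  have h3 : (2 : ℤ) ≤ n := by exact_mod_cast hn
  omega

/-- `x - x(Q^q)^q` has nonzero reduction -/
theorem S36UK_S1_red (q : ℕ) [hqf : Fact q.Prime] [CharP κ q] (g₀ : LaurentSeries ℤ)
    (hg : g₀.coeff (-1) = 1) :
    D.redFun (coeffMap (Int.castRingHom K) g₀ -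
      (qExpand K q (coeffMap (Int.castRingHom K) g₀)) ^ q) ≠ 0 := by
  haveI : NeZero q := ⟨hqf.out.ne_zero⟩
  haveI : NeZero (q * q) := ⟨mul_ne_zero hqf.out.ne_zero hqf.out.ne_zero⟩
  have hx := S36UK_int_mem D g₀
  have hy := (S34V0K_qExpand_mem D q hx)
  rw [D.redFun_sub hx (D.Vring.pow_mem hy.1 q), D.redFun_pow hy.1, hy.2, S36UK_int_red,
    ← coeffMap_qExpand, S36UK_frob_int, coeffMap_qExpand, qExpand_qExpand]
  intro h0
  have h1 := congrArg (fun f : LaurentSeries κ => f.coeff (-1)) h0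
  simp only [HahnSeries.coeff_sub, HahnSeries.coeff_zero, coeffMap_coeff, hg, map_one] at h1
  rw [S36UK_coeff_qExpand (q * q)
    (le_trans hqf.out.two_le (Nat.le_mul_of_pos_right q hqf.out.pos)), sub_zero] at h1
  exact one_ne_zero h1

/-- `x(Q^n) - x` has nonzero reduction (`n ≥ 2`) -/
theorem S36UK_W_red (n : ℕ) [NeZero n] (hn : 2 ≤ n) (g₀ : LaurentSeries ℤ)
    (hg : g₀.coeff (-1) = 1) :
    D.redFun (qExpand K n (coeffMap (Int.castRingHom K) g₀) -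
      coeffMap (Int.castRingHom K) g₀) ≠ 0 := by
  have hx := S36UK_int_mem D g₀
  have hz := (S34V0K_qExpand_mem D n hx)
  rw [D.redFun_sub hz.1 hx, hz.2, S36UK_int_red]
  intro h0
  have h1 := congrArg (fun f : LaurentSeries κ => f.coeff (-1)) h0
  simp only [HahnSeries.coeff_sub, HahnSeries.coeff_zero, coeffMap_coeff, hg, map_one] at h1
  rw [S36UK_coeff_qExpand n hn, zero_sub, neg_eq_zero] at h1
  exact one_ne_zero h1

end Gauss

/-! ### The concrete carriers, free spelling of the levels -/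

variable (A : ValuationSubring (AlgebraicClosure ℚ))
  (K1 : IntermediateField ℚ (AlgebraicClosure ℚ))

variable [IsDiscreteValuationRing (S18K_O1 A K1)]

section Free

variable (q M' N1 N : ℕ) [NeZero M'] [NeZero N1] [NeZero N] [NeZero q] [NeZero (q ^ 2)]
  (hq : q.Prime) (hqM : ¬ q ∣ M') (hN1 : N1 = q * M') (hN : N = q ^ 2 * M')
  (g₀ : LaurentSeries ℤ) (hg : g₀.coeff (-1) = 1)
  (hxF : coeffMap (Int.castRingHom K1) g₀ ∈ modularFunctionFieldFullC K1 M')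

include hq hqM hN1 hN hg hxF

/-- `y = x(Q^q) ∈ F1(q M')` -/
theorem S36UK_y_mem_F1 :
    qExpand K1 q (coeffMap (Int.castRingHom K1) g₀) ∈ modularFunctionFieldFullC K1 N1 := by
  rw [← S34V0K_wL_level K1 q M' N1 hq hqM hN1 hxF]
  exact S34V0_wL_mem (S34V0K_emb K1) q M' N1 hq hqM hN1 _

/-- `x ∈ F1(q M')` -/
theorem S36UK_x_mem_F1 :
    coeffMap (Int.castRingHom K1) g₀ ∈ modularFunctionFieldFullC K1 N1 :=
  S34V3K_F1_mono K1 (S34V0K_dvd hN1) hxF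

/-- `x ∈ F1(q² M')` -/
theorem S36UK_x_mem_F :
    coeffMap (Int.castRingHom K1) g₀ ∈ modularFunctionFieldFullC K1 N :=
  S34V3K_F1_mono K1 (hN ▸ dvd_mul_left M' (q ^ 2)) hxF

/-- `y ∈ F1(q² M')` -/
theorem S36UK_y_mem_F :
    qExpand K1 q (coeffMap (Int.castRingHom K1) g₀) ∈ modularFunctionFieldFullC K1 N :=
  S34V3K_F1_mono K1 (S36WQ_N1_dvd hN1 hN) (S36UK_y_mem_F1 K1 q M' N1 N hq hqM hN1 hN g₀ hg hxF)

/-- **`w x = z`** -/
theorem S36UK_w_x :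
    S36WQ_wL (S34V0K_emb K1) (q ^ 2) M' N (S36WQ_cop hq hqM) hN
      (coeffMap (Int.castRingHom K1) g₀) =
      qExpand K1 (q ^ 2) (coeffMap (Int.castRingHom K1) g₀) :=
  S36WQ_wL_level (S34V0K_emb K1) (q ^ 2) M' N (S36WQ_cop hq hqM) hN hxF

/-- `z = x(Q^(q²)) ∈ F1(q² M')` -/
theorem S36UK_z_mem_F :
    qExpand K1 (q ^ 2) (coeffMap (Int.castRingHom K1) g₀) ∈ modularFunctionFieldFullC K1 N := by
  rw [← S36UK_w_x K1 q M' N1 N hq hqM hN1 hN g₀ hg hxF]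
  exact S36WQ_wL_mem (S34V0K_emb K1) (q ^ 2) M' N (S36WQ_cop hq hqM) hN _

/-- **`w z = x`** -/
theorem S36UK_w_z :
    S36WQ_wL (S34V0K_emb K1) (q ^ 2) M' N (S36WQ_cop hq hqM) hN
      (qExpand K1 (q ^ 2) (coeffMap (Int.castRingHom K1) g₀)) =
      coeffMap (Int.castRingHom K1) g₀ := by
  rw [← S36UK_w_x K1 q M' N1 N hq hqM hN1 hN g₀ hg hxF]
  exact S36WQ_wL_wL (S34V0K_emb K1) (q ^ 2) M' N (S36WQ_cop hq hqM) hN
    (S36UK_x_mem_F K1 q M' N1 N hq hqM hN1 hN g₀ hg hxF)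

/-- **`w y = y`** -/
theorem S36UK_w_y :
    S36WQ_wL (S34V0K_emb K1) (q ^ 2) M' N (S36WQ_cop hq hqM) hN
      (qExpand K1 q (coeffMap (Int.castRingHom K1) g₀)) =
      qExpand K1 q (coeffMap (Int.castRingHom K1) g₀) := by
  have hm := S36UK_y_mem_F1 K1 q M' N1 N hq hqM hN1 hN g₀ hg hxF
  have hx1 := S36UK_x_mem_F1 K1 q M' N1 N hq hqM hN1 hN g₀ hg hxF
  have h1 := S36WQ_beta' (S34V0K_emb K1) q M' N1 N hq hqM hN1 hN
    (⟨qExpand K1 q (coeffMap (Int.castRingHom K1) g₀), hm⟩ : modularFunctionFieldFullC K1 N1)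
  have h2 : ((S34V0_w (S34V0K_emb K1) q M' N1 hq hqM hN1
      ⟨qExpand K1 q (coeffMap (Int.castRingHom K1) g₀), hm⟩ :
      modularFunctionFieldFullC K1 N1) : LaurentSeries K1) =
      coeffMap (Int.castRingHom K1) g₀ := by
    rw [← S34V0_wL_of_mem (S34V0K_emb K1) q M' N1 hq hqM hN1 hm,
      ← S34V0K_wL_level K1 q M' N1 hq hqM hN1 hxF]
    exact S34V0_wL_wL (S34V0K_emb K1) q M' N1 hq hqM hN1 hx1
  rw [h2] at h1
  exact h1

/-- **`w S1 = T2`** -/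
theorem S36UK_w_S1 :
    S36WQ_wL (S34V0K_emb K1) (q ^ 2) M' N (S36WQ_cop hq hqM) hN
      (coeffMap (Int.castRingHom K1) g₀ -
        (qExpand K1 q (coeffMap (Int.castRingHom K1) g₀)) ^ q) =
      qExpand K1 (q ^ 2) (coeffMap (Int.castRingHom K1) g₀) -
        (qExpand K1 q (coeffMap (Int.castRingHom K1) g₀)) ^ q := by
  have hyF := S36UK_y_mem_F K1 q M' N1 N hq hqM hN1 hN g₀ hg hxF
  rw [S36V0Q_wL_sub (S34V0K_emb K1) (q ^ 2) M' N (S36WQ_cop hq hqM) hN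
      (S36UK_x_mem_F K1 q M' N1 N hq hqM hN1 hN g₀ hg hxF) (pow_mem hyF q),
    S36V0Q_wL_pow (S34V0K_emb K1) (q ^ 2) M' N (S36WQ_cop hq hqM) hN hyF,
    S36UK_w_x K1 q M' N1 N hq hqM hN1 hN g₀ hg hxF, S36UK_w_y K1 q M' N1 N hq hqM hN1 hN g₀ hg hxF]

/-- **`w T2 = S1`** -/
theorem S36UK_w_T2 :
    S36WQ_wL (S34V0K_emb K1) (q ^ 2) M' N (S36WQ_cop hq hqM) hN
      (qExpand K1 (q ^ 2) (coeffMap (Int.castRingHom K1) g₀) -
        (qExpand K1 q (coeffMap (Int.castRingHom K1) g₀)) ^ q) =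
      coeffMap (Int.castRingHom K1) g₀ -
        (qExpand K1 q (coeffMap (Int.castRingHom K1) g₀)) ^ q := by
  have hyF := S36UK_y_mem_F K1 q M' N1 N hq hqM hN1 hN g₀ hg hxF
  rw [S36V0Q_wL_sub (S34V0K_emb K1) (q ^ 2) M' N (S36WQ_cop hq hqM) hN
      (S36UK_z_mem_F K1 q M' N1 N hq hqM hN1 hN g₀ hg hxF) (pow_mem hyF q),
    S36V0Q_wL_pow (S34V0K_emb K1) (q ^ 2) M' N (S36WQ_cop hq hqM) hN hyF,
    S36UK_w_z K1 q M' N1 N hq hqM hN1 hN g₀ hg hxF, S36UK_w_y K1 q M' N1 N hq hqM hN1 hN g₀ hg hxF]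

/-- **`w W = - W`** for `W = z - x` -/
theorem S36UK_w_W :
    S36WQ_wL (S34V0K_emb K1) (q ^ 2) M' N (S36WQ_cop hq hqM) hN
      (qExpand K1 (q ^ 2) (coeffMap (Int.castRingHom K1) g₀) -
        coeffMap (Int.castRingHom K1) g₀) =
      - (qExpand K1 (q ^ 2) (coeffMap (Int.castRingHom K1) g₀) -
        coeffMap (Int.castRingHom K1) g₀) := by
  rw [S36V0Q_wL_sub (S34V0K_emb K1) (q ^ 2) M' N (S36WQ_cop hq hqM) hN
      (S36UK_z_mem_F K1 q M' N1 N hq hqM hN1 hN g₀ hg hxF) (S36UK_x_mem_F K1 q M' N1 N hq hqM hN1 hN g₀ hg hxF),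
    S36UK_w_z K1 q M' N1 N hq hqM hN1 hN g₀ hg hxF, S36UK_w_x K1 q M' N1 N hq hqM hN1 hN g₀ hg hxF]
  ring

/-! #### the Gauss side -/

/-- **`T1 = x^q - y ∈ π V'_∞`** -/
theorem S36UK_T1 (hA : A.LiesOverPrime q) :
    ∃ v ∈ S18K_V A K1 N1,
      (coeffMap (Int.castRingHom K1) g₀) ^ q -
        qExpand K1 q (coeffMap (Int.castRingHom K1) g₀) = S18K_π A K1 * v := by
  haveI : ExpChar (IsLocalRing.ResidueField A) q := Fermat.Agent.S37K2.S37K2_expChar A q hq hA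
  have hx := S36UK_int_mem (S18K_D A K1) g₀
  have hy := (S34V0K_qExpand_mem (S18K_D A K1) q hx).1
  obtain ⟨v, hv, e⟩ := (S18K_D A K1).exists_eq_mul_of_redFun_eq_zero
    (sub_mem ((S18K_D A K1).Vring.pow_mem hx q) hy) (S36UK_T1_red (S18K_D A K1) q g₀)
  refine ⟨v, S34V0K_div_mem A K1 N1 ?_ hv e, e⟩
  exact sub_mem (pow_mem (S36UK_x_mem_F1 K1 q M' N1 N hq hqM hN1 hN g₀ hg hxF) q)
    (S36UK_y_mem_F1 K1 q M' N1 N hq hqM hN1 hN g₀ hg hxF)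

/-- **`S1 = x - y^q` is a unit of `V'_∞`** -/
theorem S36UK_S1_unit (hA : A.LiesOverPrime q) :
    coeffMap (Int.castRingHom K1) g₀ -
        (qExpand K1 q (coeffMap (Int.castRingHom K1) g₀)) ^ q ≠ 0 ∧
      coeffMap (Int.castRingHom K1) g₀ -
        (qExpand K1 q (coeffMap (Int.castRingHom K1) g₀)) ^ q ∈ S18K_V A K1 N1 ∧
      (coeffMap (Int.castRingHom K1) g₀ -
        (qExpand K1 q (coeffMap (Int.castRingHom K1) g₀)) ^ q)⁻¹ ∈ S18K_V A K1 N1 := by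
  haveI : Fact q.Prime := ⟨hq⟩
  haveI : CharP (IsLocalRing.ResidueField A) q := S34V0K_charP A hq hA
  have hx := S36UK_int_mem (S18K_D A K1) g₀
  have hy := (S34V0K_qExpand_mem (S18K_D A K1) q hx).1
  have hred := S36UK_S1_red (S18K_D A K1) q g₀ hg
  have hV := sub_mem hx ((S18K_D A K1).Vring.pow_mem hy q)
  have hF : coeffMap (Int.castRingHom K1) g₀ -
      (qExpand K1 q (coeffMap (Int.castRingHom K1) g₀)) ^ q ∈ modularFunctionFieldFullC K1 N1 :=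
    sub_mem (S36UK_x_mem_F1 K1 q M' N1 N hq hqM hN1 hN g₀ hg hxF)
      (pow_mem (S36UK_y_mem_F1 K1 q M' N1 N hq hqM hN1 hN g₀ hg hxF) q)
  refine ⟨?_, ⟨hV, hF⟩, (S18K_D A K1).inv_mem_Vring hV hred, ?_⟩
  · intro h0
    rw [h0] at hred
    exact hred (S18K_D A K1).redFun_zero
  · show _ ∈ modularFunctionFieldFullC K1 N1
    exact inv_mem hF

/-- **`T2 = z - y^q ∈ π V_∞`** -/
theorem S36UK_T2 (hA : A.LiesOverPrime q) :
    ∃ v ∈ S18K_V A K1 N,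
      qExpand K1 (q ^ 2) (coeffMap (Int.castRingHom K1) g₀) -
        (qExpand K1 q (coeffMap (Int.castRingHom K1) g₀)) ^ q = S18K_π A K1 * v := by
  haveI : ExpChar (IsLocalRing.ResidueField A) q := Fermat.Agent.S37K2.S37K2_expChar A q hq hA
  haveI : NeZero (q * q) := ⟨mul_ne_zero hq.ne_zero hq.ne_zero⟩
  -- `y` is the image of the integer series `g₀(Q^q)`
  have hy0 : qExpand K1 q (coeffMap (Int.castRingHom K1) g₀) =
      coeffMap (Int.castRingHom K1) (qExpand ℤ q g₀) := (coeffMap_qExpand _ q g₀).symm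
  have hz0 : qExpand K1 (q ^ 2) (coeffMap (Int.castRingHom K1) g₀) =
      qExpand K1 q (coeffMap (Int.castRingHom K1) (qExpand ℤ q g₀)) := by
    rw [← hy0, qExpand_qExpand]
    exact S34WQ_qExpand_congr (by ring) _
  have hx := S36UK_int_mem (S18K_D A K1) (qExpand ℤ q g₀)
  have hy := (S34V0K_qExpand_mem (S18K_D A K1) q hx).1
  obtain ⟨v, hv, e⟩ := (S18K_D A K1).exists_eq_mul_of_redFun_eq_zero
    (sub_mem ((S18K_D A K1).Vring.pow_mem hx q) hy)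
    (S36UK_T1_red (S18K_D A K1) q (qExpand ℤ q g₀))
  have e' : qExpand K1 (q ^ 2) (coeffMap (Int.castRingHom K1) g₀) -
      (qExpand K1 q (coeffMap (Int.castRingHom K1) g₀)) ^ q = S18K_π A K1 * (-v) := by
    rw [hz0, hy0]
    have e0 : (coeffMap (Int.castRingHom K1) (qExpand ℤ q g₀)) ^ q -
        qExpand K1 q (coeffMap (Int.castRingHom K1) (qExpand ℤ q g₀)) = S18K_π A K1 * v := e
    linear_combination (-1 : LaurentSeries K1) * e0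
  refine ⟨-v, S34V0K_div_mem A K1 N ?_ (neg_mem hv) e', e'⟩
  exact sub_mem (S36UK_z_mem_F K1 q M' N1 N hq hqM hN1 hN g₀ hg hxF)
    (pow_mem (S36UK_y_mem_F K1 q M' N1 N hq hqM hN1 hN g₀ hg hxF) q)

/-- **`W = z - x` is a unit of `V_∞`** -/
theorem S36UK_W_unit1 (hA : A.LiesOverPrime q) :
    qExpand K1 (q ^ 2) (coeffMap (Int.castRingHom K1) g₀) -
        coeffMap (Int.castRingHom K1) g₀ ≠ 0 ∧
      qExpand K1 (q ^ 2) (coeffMap (Int.castRingHom K1) g₀) -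
        coeffMap (Int.castRingHom K1) g₀ ∈ S18K_V A K1 N ∧
      (qExpand K1 (q ^ 2) (coeffMap (Int.castRingHom K1) g₀) -
        coeffMap (Int.castRingHom K1) g₀)⁻¹ ∈ S18K_V A K1 N := by
  have hx := S36UK_int_mem (S18K_D A K1) g₀
  have hz := (S34V0K_qExpand_mem (S18K_D A K1) (q ^ 2) hx).1
  have h2 : 2 ≤ q ^ 2 := le_trans hq.two_le (Nat.le_self_pow (by norm_num) q)
  have hred := S36UK_W_red (S18K_D A K1) (q ^ 2) h2 g₀ hg
  have hV := sub_mem hz hx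
  have hF : qExpand K1 (q ^ 2) (coeffMap (Int.castRingHom K1) g₀) -
      coeffMap (Int.castRingHom K1) g₀ ∈ modularFunctionFieldFullC K1 N :=
    sub_mem (S36UK_z_mem_F K1 q M' N1 N hq hqM hN1 hN g₀ hg hxF) (S36UK_x_mem_F K1 q M' N1 N hq hqM hN1 hN g₀ hg hxF)
  refine ⟨?_, ⟨hV, hF⟩, (S18K_D A K1).inv_mem_Vring hV hred, ?_⟩
  · intro h0
    rw [h0] at hred
    exact hred (S18K_D A K1).redFun_zero
  · show _ ∈ modularFunctionFieldFullC K1 N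
    exact inv_mem hF

/-- **`hS1_oo`** : `S1` is a unit of `V_∞` -/
theorem S36UK_S1_unit1 (hA : A.LiesOverPrime q) :
    coeffMap (Int.castRingHom K1) g₀ -
        (qExpand K1 q (coeffMap (Int.castRingHom K1) g₀)) ^ q ∈ S18K_V A K1 N ∧
      (coeffMap (Int.castRingHom K1) g₀ -
        (qExpand K1 q (coeffMap (Int.castRingHom K1) g₀)) ^ q)⁻¹ ∈ S18K_V A K1 N := by
  obtain ⟨-, h1, h2⟩ := S36UK_S1_unit A K1 q M' N1 N hq hqM hN1 hN g₀ hg hxF hA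
  have hle := S34V3K_V_mono A K1 (S36WQ_N1_dvd hN1 hN)
  exact ⟨hle h1, hle h2⟩

/-- `T2 ≠ 0` -/
theorem S36UK_T2_ne_zero (hA : A.LiesOverPrime q) :
    qExpand K1 (q ^ 2) (coeffMap (Int.castRingHom K1) g₀) -
      (qExpand K1 q (coeffMap (Int.castRingHom K1) g₀)) ^ q ≠ 0 := by
  intro h0
  have h1 := S36UK_w_T2 K1 q M' N1 N hq hqM hN1 hN g₀ hg hxF
  rw [h0, S36V0Q_wL_zero] at h1
  exact (S36UK_S1_unit A K1 q M' N1 N hq hqM hN1 hN g₀ hg hxF hA).1 h1.symm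

/-- **`hT2_oo`** : `T2⁻¹ ∉ V_∞` -/
theorem S36UK_hT2_oo (hA : A.LiesOverPrime q) :
    (qExpand K1 (q ^ 2) (coeffMap (Int.castRingHom K1) g₀) -
      (qExpand K1 q (coeffMap (Int.castRingHom K1) g₀)) ^ q)⁻¹ ∉ S18K_V A K1 N := by
  intro hinv
  obtain ⟨v, hv, e⟩ := S36UK_T2 A K1 q M' N1 N hq hqM hN1 hN g₀ hg hxF hA
  have h0 := S36UK_T2_ne_zero A K1 q M' N1 N hq hqM hN1 hN g₀ hg hxF hA
  have hv0 : v ≠ 0 := by
    rintro rfl
    rw [mul_zero] at e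
    exact h0 e
  have e2 : (S18K_π A K1)⁻¹ =
      v * (qExpand K1 (q ^ 2) (coeffMap (Int.castRingHom K1) g₀) -
        (qExpand K1 q (coeffMap (Int.castRingHom K1) g₀)) ^ q)⁻¹ := by
    rw [e, mul_inv, ← mul_assoc, mul_comm v, mul_assoc, mul_inv_cancel₀ hv0, mul_one]
  exact (S34V3K_val1 A K1 N).π_nonunit (by rw [e2]; exact mul_mem hv hinv)

/-! #### the `V_0` side -/

/-- **`hT2_0`** : `T2` is a unit of `V_0` -/
theorem S36UK_T2_unit0 (hA : A.LiesOverPrime q) :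
    qExpand K1 (q ^ 2) (coeffMap (Int.castRingHom K1) g₀) -
        (qExpand K1 q (coeffMap (Int.castRingHom K1) g₀)) ^ q ∈
          S36V0QK_V A K1 q M' N hq hqM hN ∧
      (qExpand K1 (q ^ 2) (coeffMap (Int.castRingHom K1) g₀) -
        (qExpand K1 q (coeffMap (Int.castRingHom K1) g₀)) ^ q)⁻¹ ∈
          S36V0QK_V A K1 q M' N hq hqM hN := by
  obtain ⟨h1, h2⟩ := S36UK_S1_unit1 A K1 q M' N1 N hq hqM hN1 hN g₀ hg hxF hA
  have hTF : qExpand K1 (q ^ 2) (coeffMap (Int.castRingHom K1) g₀) -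
      (qExpand K1 q (coeffMap (Int.castRingHom K1) g₀)) ^ q ∈ modularFunctionFieldFullC K1 N :=
    sub_mem (S36UK_z_mem_F K1 q M' N1 N hq hqM hN1 hN g₀ hg hxF)
      (pow_mem (S36UK_y_mem_F K1 q M' N1 N hq hqM hN1 hN g₀ hg hxF) q)
  refine ⟨⟨hTF, ?_⟩, ⟨inv_mem hTF, ?_⟩⟩
  · rw [S36UK_w_T2 K1 q M' N1 N hq hqM hN1 hN g₀ hg hxF]
    exact h1
  · rw [S36V0Q_wL_inv (S34V0K_emb K1) (q ^ 2) M' N (S36WQ_cop hq hqM) hN hTF,
      S36UK_w_T2 K1 q M' N1 N hq hqM hN1 hN g₀ hg hxF]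
    exact h2

/-- **`S1 ∈ π V_0`** -/
theorem S36UK_S1_0 (hA : A.LiesOverPrime q) :
    ∃ v ∈ S36V0QK_V A K1 q M' N hq hqM hN,
      coeffMap (Int.castRingHom K1) g₀ -
        (qExpand K1 q (coeffMap (Int.castRingHom K1) g₀)) ^ q = S18K_π A K1 * v := by
  obtain ⟨v, hv, e⟩ := S36UK_T2 A K1 q M' N1 N hq hqM hN1 hN g₀ hg hxF hA
  have hSF : coeffMap (Int.castRingHom K1) g₀ -
      (qExpand K1 q (coeffMap (Int.castRingHom K1) g₀)) ^ q ∈ modularFunctionFieldFullC K1 N :=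
    sub_mem (S36UK_x_mem_F K1 q M' N1 N hq hqM hN1 hN g₀ hg hxF)
      (pow_mem (S36UK_y_mem_F K1 q M' N1 N hq hqM hN1 hN g₀ hg hxF) q)
  have hπF : S18K_π A K1 ∈ modularFunctionFieldFullC K1 N := S34V0_C_mem N _
  refine ⟨S36WQ_wL (S34V0K_emb K1) (q ^ 2) M' N (S36WQ_cop hq hqM) hN v,
    S36V0QK_hw13 A K1 q M' N hq hqM hN _ hv, ?_⟩
  have h1 := S36UK_w_S1 K1 q M' N1 N hq hqM hN1 hN g₀ hg hxF
  rw [e] at h1
  have h2 := congrArg (S36WQ_wL (S34V0K_emb K1) (q ^ 2) M' N (S36WQ_cop hq hqM) hN) h1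
  rw [S36WQ_wL_wL (S34V0K_emb K1) (q ^ 2) M' N (S36WQ_cop hq hqM) hN hSF,
    S36WQ_wL_mul (S34V0K_emb K1) (q ^ 2) M' N (S36WQ_cop hq hqM) hN hπF hv.2,
    S36V0QK_hwπ A K1 q M' N hq hqM hN] at h2
  exact h2

/-- **`hS1_0`** : `S1⁻¹ ∉ V_0` -/
theorem S36UK_hS1_0 (hA : A.LiesOverPrime q) :
    (coeffMap (Int.castRingHom K1) g₀ -
      (qExpand K1 q (coeffMap (Int.castRingHom K1) g₀)) ^ q)⁻¹ ∉
        S36V0QK_V A K1 q M' N hq hqM hN := by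
  intro hinv
  obtain ⟨v, hv, e⟩ := S36UK_S1_0 A K1 q M' N1 N hq hqM hN1 hN g₀ hg hxF hA
  have h0 := (S36UK_S1_unit A K1 q M' N1 N hq hqM hN1 hN g₀ hg hxF hA).1
  have hv0 : v ≠ 0 := by
    rintro rfl
    rw [mul_zero] at e
    exact h0 e
  have e2 : (S18K_π A K1)⁻¹ =
      v * (coeffMap (Int.castRingHom K1) g₀ -
        (qExpand K1 q (coeffMap (Int.castRingHom K1) g₀)) ^ q)⁻¹ := by
    rw [e, mul_inv, ← mul_assoc, mul_comm v, mul_assoc, mul_inv_cancel₀ hv0, mul_one]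
  exact (S36V0QK_val A K1 q M' N hq hqM hN).π_nonunit (by rw [e2]; exact mul_mem hv hinv)

/-- **`W = z - x` is a unit of `V_0`** -/
theorem S36UK_W_unit0 (hA : A.LiesOverPrime q) :
    qExpand K1 (q ^ 2) (coeffMap (Int.castRingHom K1) g₀) -
        coeffMap (Int.castRingHom K1) g₀ ∈ S36V0QK_V A K1 q M' N hq hqM hN ∧
      (qExpand K1 (q ^ 2) (coeffMap (Int.castRingHom K1) g₀) -
        coeffMap (Int.castRingHom K1) g₀)⁻¹ ∈ S36V0QK_V A K1 q M' N hq hqM hN := by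
  obtain ⟨-, h1, h2⟩ := S36UK_W_unit1 A K1 q M' N1 N hq hqM hN1 hN g₀ hg hxF hA
  have hWF : qExpand K1 (q ^ 2) (coeffMap (Int.castRingHom K1) g₀) -
      coeffMap (Int.castRingHom K1) g₀ ∈ modularFunctionFieldFullC K1 N :=
    sub_mem (S36UK_z_mem_F K1 q M' N1 N hq hqM hN1 hN g₀ hg hxF) (S36UK_x_mem_F K1 q M' N1 N hq hqM hN1 hN g₀ hg hxF)
  refine ⟨⟨hWF, ?_⟩, ⟨inv_mem hWF, ?_⟩⟩
  · rw [S36UK_w_W K1 q M' N1 N hq hqM hN1 hN g₀ hg hxF]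
    exact neg_mem h1
  · rw [S36V0Q_wL_inv (S34V0K_emb K1) (q ^ 2) M' N (S36WQ_cop hq hqM) hN hWF,
      S36UK_w_W K1 q M' N1 N hq hqM hN1 hN g₀ hg hxF, inv_neg]
    exact neg_mem h2

end Free

/-! ### VERBATIM on the typed carriers of `S36_helper5_VKDefs` -/

section Typed

variable (q M' : ℕ) [NeZero M'] [NeZero (M' * q)] [NeZero (M' * q * q)] [NeZero q]
  [NeZero (q ^ 2)] [NeZero (q * q)]
  (hq : q.Prime) (hqM : ¬ q ∣ M') (hN1 : M' * q = q * M')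
  (g₀ : LaurentSeries ℤ) (hg : g₀.coeff (-1) = 1)
  (hxF : coeffMap (Int.castRingHom K1) g₀ ∈ modularFunctionFieldFullC K1 M')

include hq hqM hN1 hg hxF

theorem S36UT_z_eq :
    qExpand K1 (q * q) (coeffMap (Int.castRingHom K1) g₀) =
      qExpand K1 (q ^ 2) (coeffMap (Int.castRingHom K1) g₀) :=
  S34WQ_qExpand_congr (by ring) _

/-- `x ∈ F1(M' q)`, `x ∈ F1(M' q q)` -/
theorem S36UT_x_mem :
    coeffMap (Int.castRingHom K1) g₀ ∈ modularFunctionFieldFullC K1 (M' * q) ∧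
      coeffMap (Int.castRingHom K1) g₀ ∈ modularFunctionFieldFullC K1 (M' * q * q) :=
  ⟨S36UK_x_mem_F1 K1 q M' (M' * q) (M' * q * q) hq hqM hN1 (S36VK_level q M') g₀ hg hxF, S36UK_x_mem_F K1 q M' (M' * q) (M' * q * q) hq hqM hN1 (S36VK_level q M') g₀ hg hxF⟩

/-- `y ∈ F1(M' q)`, `y ∈ F1(M' q q)` -/
theorem S36UT_y_mem :
    qExpand K1 q (coeffMap (Int.castRingHom K1) g₀) ∈ modularFunctionFieldFullC K1 (M' * q) ∧
      qExpand K1 q (coeffMap (Int.castRingHom K1) g₀) ∈ modularFunctionFieldFullC K1 (M' * q * q) :=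
  ⟨S36UK_y_mem_F1 K1 q M' (M' * q) (M' * q * q) hq hqM hN1 (S36VK_level q M') g₀ hg hxF, S36UK_y_mem_F K1 q M' (M' * q) (M' * q * q) hq hqM hN1 (S36VK_level q M') g₀ hg hxF⟩

/-- `z ∈ F1(M' q q)` -/
theorem S36UT_z_mem :
    qExpand K1 (q * q) (coeffMap (Int.castRingHom K1) g₀) ∈ modularFunctionFieldFullC K1 (M' * q * q) := by
  rw [S36UT_z_eq K1 q M' hq hqM hN1 g₀ hg hxF]
  exact S36UK_z_mem_F K1 q M' (M' * q) (M' * q * q) hq hqM hN1 (S36VK_level q M') g₀ hg hxF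

/-- **`w x = z`** -/
theorem S36UT_w_x :
    S36WQ_wL (S34V0K_emb K1) (q ^ 2) M' (M' * q * q) (S36WQ_cop hq hqM) (S36VK_level q M')
      (coeffMap (Int.castRingHom K1) g₀) = qExpand K1 (q * q) (coeffMap (Int.castRingHom K1) g₀) := by
  rw [S36UT_z_eq K1 q M' hq hqM hN1 g₀ hg hxF]
  exact S36UK_w_x K1 q M' (M' * q) (M' * q * q) hq hqM hN1 (S36VK_level q M') g₀ hg hxF

/-- **`w y = y`** -/
theorem S36UT_w_y :
    S36WQ_wL (S34V0K_emb K1) (q ^ 2) M' (M' * q * q) (S36WQ_cop hq hqM) (S36VK_level q M')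
      (qExpand K1 q (coeffMap (Int.castRingHom K1) g₀)) = qExpand K1 q (coeffMap (Int.castRingHom K1) g₀) :=
  S36UK_w_y K1 q M' (M' * q) (M' * q * q) hq hqM hN1 (S36VK_level q M') g₀ hg hxF

/-- **`w z = x`** -/
theorem S36UT_w_z :
    S36WQ_wL (S34V0K_emb K1) (q ^ 2) M' (M' * q * q) (S36WQ_cop hq hqM) (S36VK_level q M')
      (qExpand K1 (q * q) (coeffMap (Int.castRingHom K1) g₀)) = coeffMap (Int.castRingHom K1) g₀ := by
  rw [S36UT_z_eq K1 q M' hq hqM hN1 g₀ hg hxF]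
  exact S36UK_w_z K1 q M' (M' * q) (M' * q * q) hq hqM hN1 (S36VK_level q M') g₀ hg hxF

/-- **`w S1 = T2`** -/
theorem S36UT_w_S1 :
    S36WQ_wL (S34V0K_emb K1) (q ^ 2) M' (M' * q * q) (S36WQ_cop hq hqM) (S36VK_level q M')
      (coeffMap (Int.castRingHom K1) g₀ - (qExpand K1 q (coeffMap (Int.castRingHom K1) g₀)) ^ q) =
      qExpand K1 (q * q) (coeffMap (Int.castRingHom K1) g₀) - (qExpand K1 q (coeffMap (Int.castRingHom K1) g₀)) ^ q := by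
  rw [S36UT_z_eq K1 q M' hq hqM hN1 g₀ hg hxF]
  exact S36UK_w_S1 K1 q M' (M' * q) (M' * q * q) hq hqM hN1 (S36VK_level q M') g₀ hg hxF

/-- **`w T2 = S1`** -/
theorem S36UT_w_T2 :
    S36WQ_wL (S34V0K_emb K1) (q ^ 2) M' (M' * q * q) (S36WQ_cop hq hqM) (S36VK_level q M')
      (qExpand K1 (q * q) (coeffMap (Int.castRingHom K1) g₀) - (qExpand K1 q (coeffMap (Int.castRingHom K1) g₀)) ^ q) =
      coeffMap (Int.castRingHom K1) g₀ - (qExpand K1 q (coeffMap (Int.castRingHom K1) g₀)) ^ q := by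
  rw [S36UT_z_eq K1 q M' hq hqM hN1 g₀ hg hxF]
  exact S36UK_w_T2 K1 q M' (M' * q) (M' * q * q) hq hqM hN1 (S36VK_level q M') g₀ hg hxF

/-- **`w W = - W`** for `W = z - x` -/
theorem S36UT_w_W :
    S36WQ_wL (S34V0K_emb K1) (q ^ 2) M' (M' * q * q) (S36WQ_cop hq hqM) (S36VK_level q M')
      (qExpand K1 (q * q) (coeffMap (Int.castRingHom K1) g₀) - coeffMap (Int.castRingHom K1) g₀) =
      - (qExpand K1 (q * q) (coeffMap (Int.castRingHom K1) g₀) - coeffMap (Int.castRingHom K1) g₀) := by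
  rw [S36UT_z_eq K1 q M' hq hqM hN1 g₀ hg hxF]
  exact S36UK_w_W K1 q M' (M' * q) (M' * q * q) hq hqM hN1 (S36VK_level q M') g₀ hg hxF

/-- **`T1 = x^q - y ∈ π V'_∞`** -/
theorem S36UT_T1 (hA : A.LiesOverPrime q) :
    ∃ v ∈ S18K_V A K1 (M' * q),
      (coeffMap (Int.castRingHom K1) g₀) ^ q - qExpand K1 q (coeffMap (Int.castRingHom K1) g₀) = S18K_π A K1 * v :=
  S36UK_T1 A K1 q M' (M' * q) (M' * q * q) hq hqM hN1 (S36VK_level q M') g₀ hg hxF hA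

/-- `T1 ∈ π V_∞` -/
theorem S36UT_T1_oo (hA : A.LiesOverPrime q) :
    ∃ v ∈ S18K_V A K1 (M' * q * q),
      (coeffMap (Int.castRingHom K1) g₀) ^ q - qExpand K1 q (coeffMap (Int.castRingHom K1) g₀) = S18K_π A K1 * v := by
  obtain ⟨v, hv, e⟩ := S36UK_T1 A K1 q M' (M' * q) (M' * q * q) hq hqM hN1 (S36VK_level q M') g₀ hg hxF hA
  exact ⟨v, S34V3K_V_mono A K1 ⟨q, rfl⟩ hv, e⟩

/-- **`S1 = x - y^q` is a unit of `V'_∞`** (level `M' * q`) -/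
theorem S36UT_S1_unit (hA : A.LiesOverPrime q) :
    coeffMap (Int.castRingHom K1) g₀ - (qExpand K1 q (coeffMap (Int.castRingHom K1) g₀)) ^ q ≠ 0 ∧
      coeffMap (Int.castRingHom K1) g₀ - (qExpand K1 q (coeffMap (Int.castRingHom K1) g₀)) ^ q ∈ S18K_V A K1 (M' * q) ∧
      (coeffMap (Int.castRingHom K1) g₀ - (qExpand K1 q (coeffMap (Int.castRingHom K1) g₀)) ^ q)⁻¹ ∈ S18K_V A K1 (M' * q) :=
  S36UK_S1_unit A K1 q M' (M' * q) (M' * q * q) hq hqM hN1 (S36VK_level q M') g₀ hg hxF hA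

/-- **`hS1_oo`** : `S1` is a unit of `V_∞` -/
theorem S36UT_hS1_oo (hA : A.LiesOverPrime q) :
    coeffMap (Int.castRingHom K1) g₀ - (qExpand K1 q (coeffMap (Int.castRingHom K1) g₀)) ^ q ∈ S18K_V A K1 (M' * q * q) ∧
      (coeffMap (Int.castRingHom K1) g₀ - (qExpand K1 q (coeffMap (Int.castRingHom K1) g₀)) ^ q)⁻¹ ∈ S18K_V A K1 (M' * q * q) :=
  S36UK_S1_unit1 A K1 q M' (M' * q) (M' * q * q) hq hqM hN1 (S36VK_level q M') g₀ hg hxF hA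

/-- **`hS1_mid`** : `S1` is a unit of every ring containing the Gauss ring of level `M' * q`
(e.g. `V_mid`, by `S36VK_IsMid`). -/
theorem S36UT_hS1_mid (hA : A.LiesOverPrime q) {V2 : Subring (LaurentSeries K1)}
    (hV2 : S18K_V A K1 (M' * q) ≤ V2) :
    coeffMap (Int.castRingHom K1) g₀ - (qExpand K1 q (coeffMap (Int.castRingHom K1) g₀)) ^ q ∈ V2 ∧
      (coeffMap (Int.castRingHom K1) g₀ - (qExpand K1 q (coeffMap (Int.castRingHom K1) g₀)) ^ q)⁻¹ ∈ V2 := by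
  obtain ⟨-, h1, h2⟩ := S36UK_S1_unit A K1 q M' (M' * q) (M' * q * q) hq hqM hN1 (S36VK_level q M') g₀ hg hxF hA
  exact ⟨hV2 h1, hV2 h2⟩

/-- `T1 ∈ π V2` for every ring containing the Gauss ring of level `M' * q` -/
theorem S36UT_T1_mid (hA : A.LiesOverPrime q) {V2 : Subring (LaurentSeries K1)}
    (hV2 : S18K_V A K1 (M' * q) ≤ V2) :
    ∃ v ∈ V2, (coeffMap (Int.castRingHom K1) g₀) ^ q - qExpand K1 q (coeffMap (Int.castRingHom K1) g₀) = S18K_π A K1 * v := by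
  obtain ⟨v, hv, e⟩ := S36UK_T1 A K1 q M' (M' * q) (M' * q * q) hq hqM hN1 (S36VK_level q M') g₀ hg hxF hA
  exact ⟨v, hV2 hv, e⟩

/-- **`T2 = z - y^q ∈ π V_∞`** -/
theorem S36UT_T2 (hA : A.LiesOverPrime q) :
    ∃ v ∈ S18K_V A K1 (M' * q * q),
      qExpand K1 (q * q) (coeffMap (Int.castRingHom K1) g₀) - (qExpand K1 q (coeffMap (Int.castRingHom K1) g₀)) ^ q = S18K_π A K1 * v := by
  rw [S36UT_z_eq K1 q M' hq hqM hN1 g₀ hg hxF]
  exact S36UK_T2 A K1 q M' (M' * q) (M' * q * q) hq hqM hN1 (S36VK_level q M') g₀ hg hxF hA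

/-- `T2 ≠ 0` -/
theorem S36UT_T2_ne_zero (hA : A.LiesOverPrime q) :
    qExpand K1 (q * q) (coeffMap (Int.castRingHom K1) g₀) - (qExpand K1 q (coeffMap (Int.castRingHom K1) g₀)) ^ q ≠ 0 := by
  rw [S36UT_z_eq K1 q M' hq hqM hN1 g₀ hg hxF]
  exact S36UK_T2_ne_zero A K1 q M' (M' * q) (M' * q * q) hq hqM hN1 (S36VK_level q M') g₀ hg hxF hA

/-- **`hT2_oo`** : `T2⁻¹ ∉ V_∞` -/
theorem S36UT_hT2_oo (hA : A.LiesOverPrime q) :
    (qExpand K1 (q * q) (coeffMap (Int.castRingHom K1) g₀) - (qExpand K1 q (coeffMap (Int.castRingHom K1) g₀)) ^ q)⁻¹ ∉ S18K_V A K1 (M' * q * q) := by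
  rw [S36UT_z_eq K1 q M' hq hqM hN1 g₀ hg hxF]
  exact S36UK_hT2_oo A K1 q M' (M' * q) (M' * q * q) hq hqM hN1 (S36VK_level q M') g₀ hg hxF hA

/-- **`hT2_0`** : `T2` is a unit of `V_0` -/
theorem S36UT_hT2_0 (hA : A.LiesOverPrime q) :
    qExpand K1 (q * q) (coeffMap (Int.castRingHom K1) g₀) - (qExpand K1 q (coeffMap (Int.castRingHom K1) g₀)) ^ q ∈ S36VK_V0 A K1 q M' hq hqM ∧
      (qExpand K1 (q * q) (coeffMap (Int.castRingHom K1) g₀) - (qExpand K1 q (coeffMap (Int.castRingHom K1) g₀)) ^ q)⁻¹ ∈ S36VK_V0 A K1 q M' hq hqM := by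
  rw [S36UT_z_eq K1 q M' hq hqM hN1 g₀ hg hxF, S36V0QB_V0_eq]
  exact S36UK_T2_unit0 A K1 q M' (M' * q) (M' * q * q) hq hqM hN1 (S36VK_level q M') g₀ hg hxF hA

/-- **`S1 ∈ π V_0`** -/
theorem S36UT_S1_0 (hA : A.LiesOverPrime q) :
    ∃ v ∈ S36VK_V0 A K1 q M' hq hqM,
      coeffMap (Int.castRingHom K1) g₀ - (qExpand K1 q (coeffMap (Int.castRingHom K1) g₀)) ^ q = S18K_π A K1 * v := by
  rw [S36V0QB_V0_eq]
  exact S36UK_S1_0 A K1 q M' (M' * q) (M' * q * q) hq hqM hN1 (S36VK_level q M') g₀ hg hxF hA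

/-- **`hS1_0`** : `S1⁻¹ ∉ V_0` -/
theorem S36UT_hS1_0 (hA : A.LiesOverPrime q) :
    (coeffMap (Int.castRingHom K1) g₀ - (qExpand K1 q (coeffMap (Int.castRingHom K1) g₀)) ^ q)⁻¹ ∉ S36VK_V0 A K1 q M' hq hqM := by
  rw [S36V0QB_V0_eq]
  exact S36UK_hS1_0 A K1 q M' (M' * q) (M' * q * q) hq hqM hN1 (S36VK_level q M') g₀ hg hxF hA

/-- **`W = z - x` is a unit of `V_∞`** -/
theorem S36UT_W_unit1 (hA : A.LiesOverPrime q) :
    qExpand K1 (q * q) (coeffMap (Int.castRingHom K1) g₀) - coeffMap (Int.castRingHom K1) g₀ ≠ 0 ∧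
      qExpand K1 (q * q) (coeffMap (Int.castRingHom K1) g₀) - coeffMap (Int.castRingHom K1) g₀ ∈ S18K_V A K1 (M' * q * q) ∧
      (qExpand K1 (q * q) (coeffMap (Int.castRingHom K1) g₀) - coeffMap (Int.castRingHom K1) g₀)⁻¹ ∈ S18K_V A K1 (M' * q * q) := by
  rw [S36UT_z_eq K1 q M' hq hqM hN1 g₀ hg hxF]
  exact S36UK_W_unit1 A K1 q M' (M' * q) (M' * q * q) hq hqM hN1 (S36VK_level q M') g₀ hg hxF hA

/-- **`W = z - x` is a unit of `V_0`** -/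
theorem S36UT_W_unit0 (hA : A.LiesOverPrime q) :
    qExpand K1 (q * q) (coeffMap (Int.castRingHom K1) g₀) - coeffMap (Int.castRingHom K1) g₀ ∈ S36VK_V0 A K1 q M' hq hqM ∧
      (qExpand K1 (q * q) (coeffMap (Int.castRingHom K1) g₀) - coeffMap (Int.castRingHom K1) g₀)⁻¹ ∈ S36VK_V0 A K1 q M' hq hqM := by
  rw [S36UT_z_eq K1 q M' hq hqM hN1 g₀ hg hxF, S36V0QB_V0_eq]
  exact S36UK_W_unit0 A K1 q M' (M' * q) (M' * q * q) hq hqM hN1 (S36VK_level q M') g₀ hg hxF hA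

end Typed

/-! ### the Hauptmodul of an auxiliary datum -/

section Aux

open Fermat.Agent.S36_helper8_AUXDefs

/-- `Q⁻¹ u` over `K` is the image of `Q⁻¹ u` over `ℤ` -/
theorem S36UK_aux_eq (K : Type*) [CommRing K] (u : PowerSeries ℤ) :
    S36AUX_hK K u = coeffMap (Int.castRingHom K) (S36AUX_h u) := by
  have h : coeffMap (Int.castRingHom K) (S36AUX_h u) = S36AUX_hK K u := by
    rw [S36AUX_h, S36AUX_hK, map_mul, coeffMap_single, map_one, coeffMap_ofPowerSeries]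
  exact h.symm

/-- the coordinates `Q⁻¹ u`, `u(0) = 1`, have coefficient `1` at `Q⁻¹` -/
theorem S36UK_aux_coeff (u : PowerSeries ℤ) (hu : PowerSeries.constantCoeff u = 1) :
    (S36AUX_h u).coeff (-1) = 1 := by
  rw [S36AUX_h, HahnSeries.coeff_single_mul, one_mul, sub_self]
  have := HahnSeries.ofPowerSeries_apply_coeff (Γ := ℤ) (R := ℤ) u 0
  simp only [Nat.cast_zero] at this
  rw [this, PowerSeries.coeff_zero_eq_constantCoeff_apply, hu]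

/-- the Hauptmodul of level `r` lies in the function field of every level divisible by `r` -/
theorem S36UK_aux_mem {r : ℕ} [NeZero r] (D : S36AUX_Data r) (K : Type*) [Field K]
    [CharZero K] (M : ℕ) [NeZero M] (hr : r ∣ M) :
    coeffMap (Int.castRingHom K) (S36AUX_h D.u) ∈ modularFunctionFieldFullC K M := by
  have h1 : S36AUX_hK ℚ D.u ∈ modularFunctionFieldFullC ℚ M := full_degeneracyC_le ℚ hr D.mem
  have h2 := Fermat.Agent.S18_helper25_GLUE.S18G_coeffMap_mem (algebraMap ℚ K) M h1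
  rw [S36UK_aux_eq, coeffMap_coeffMap,
    coeffMap_congr (RingHom.ext_int ((algebraMap ℚ K).comp (Int.castRingHom ℚ))
      (Int.castRingHom K))] at h2
  exact h2

end Aux


/-! ### the `[UNITS]` block for the Hauptmodul `x = S36AUX_hK K1 D.u` of an auxiliary datum -/

section AuxTyped

open Fermat.Agent.S36_helper8_AUXDefs

variable {r : ℕ} [NeZero r] (D : S36AUX_Data r)
variable (q M' : ℕ) [NeZero M'] [NeZero (M' * q)] [NeZero (M' * q * q)] [NeZero q]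
  [NeZero (q ^ 2)] [NeZero (q * q)]
  (hq : q.Prime) (hqM : ¬ q ∣ M') (hN1 : M' * q = q * M') (hr : r ∣ M')

include hq hqM hN1 hr

/-- `x ∈ F1(M' q)`, `x ∈ F1(M' q q)` -/
theorem S36UH_x_mem :
    S36AUX_hK K1 D.u ∈ modularFunctionFieldFullC K1 (M' * q) ∧
      S36AUX_hK K1 D.u ∈ modularFunctionFieldFullC K1 (M' * q * q) := by
  rw [S36UK_aux_eq]
  exact S36UT_x_mem K1 q M' hq hqM hN1 (S36AUX_h D.u) (S36UK_aux_coeff D.u D.hu) (S36UK_aux_mem D K1 M' hr)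

/-- `y ∈ F1(M' q)`, `y ∈ F1(M' q q)` -/
theorem S36UH_y_mem :
    qExpand K1 q (S36AUX_hK K1 D.u) ∈ modularFunctionFieldFullC K1 (M' * q) ∧
      qExpand K1 q (S36AUX_hK K1 D.u) ∈ modularFunctionFieldFullC K1 (M' * q * q) := by
  rw [S36UK_aux_eq]
  exact S36UT_y_mem K1 q M' hq hqM hN1 (S36AUX_h D.u) (S36UK_aux_coeff D.u D.hu) (S36UK_aux_mem D K1 M' hr)

/-- `z ∈ F1(M' q q)` -/
theorem S36UH_z_mem :
    qExpand K1 (q * q) (S36AUX_hK K1 D.u) ∈ modularFunctionFieldFullC K1 (M' * q * q) := by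
  rw [S36UK_aux_eq]
  exact S36UT_z_mem K1 q M' hq hqM hN1 (S36AUX_h D.u) (S36UK_aux_coeff D.u D.hu) (S36UK_aux_mem D K1 M' hr)

/-- **`w x = z`** -/
theorem S36UH_w_x :
    S36WQ_wL (S34V0K_emb K1) (q ^ 2) M' (M' * q * q) (S36WQ_cop hq hqM) (S36VK_level q M')
      (S36AUX_hK K1 D.u) = qExpand K1 (q * q) (S36AUX_hK K1 D.u) := by
  rw [S36UK_aux_eq]
  exact S36UT_w_x K1 q M' hq hqM hN1 (S36AUX_h D.u) (S36UK_aux_coeff D.u D.hu) (S36UK_aux_mem D K1 M' hr)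

/-- **`w y = y`** -/
theorem S36UH_w_y :
    S36WQ_wL (S34V0K_emb K1) (q ^ 2) M' (M' * q * q) (S36WQ_cop hq hqM) (S36VK_level q M')
      (qExpand K1 q (S36AUX_hK K1 D.u)) = qExpand K1 q (S36AUX_hK K1 D.u) := by
  rw [S36UK_aux_eq]
  exact S36UT_w_y K1 q M' hq hqM hN1 (S36AUX_h D.u) (S36UK_aux_coeff D.u D.hu) (S36UK_aux_mem D K1 M' hr)

/-- **`w z = x`** -/
theorem S36UH_w_z :
    S36WQ_wL (S34V0K_emb K1) (q ^ 2) M' (M' * q * q) (S36WQ_cop hq hqM) (S36VK_level q M')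
      (qExpand K1 (q * q) (S36AUX_hK K1 D.u)) = S36AUX_hK K1 D.u := by
  rw [S36UK_aux_eq]
  exact S36UT_w_z K1 q M' hq hqM hN1 (S36AUX_h D.u) (S36UK_aux_coeff D.u D.hu) (S36UK_aux_mem D K1 M' hr)

/-- **`w S1 = T2`** -/
theorem S36UH_w_S1 :
    S36WQ_wL (S34V0K_emb K1) (q ^ 2) M' (M' * q * q) (S36WQ_cop hq hqM) (S36VK_level q M')
      (S36AUX_hK K1 D.u - (qExpand K1 q (S36AUX_hK K1 D.u)) ^ q) =
      qExpand K1 (q * q) (S36AUX_hK K1 D.u) - (qExpand K1 q (S36AUX_hK K1 D.u)) ^ q := by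
  rw [S36UK_aux_eq]
  exact S36UT_w_S1 K1 q M' hq hqM hN1 (S36AUX_h D.u) (S36UK_aux_coeff D.u D.hu) (S36UK_aux_mem D K1 M' hr)

/-- **`w T2 = S1`** -/
theorem S36UH_w_T2 :
    S36WQ_wL (S34V0K_emb K1) (q ^ 2) M' (M' * q * q) (S36WQ_cop hq hqM) (S36VK_level q M')
      (qExpand K1 (q * q) (S36AUX_hK K1 D.u) - (qExpand K1 q (S36AUX_hK K1 D.u)) ^ q) =
      S36AUX_hK K1 D.u - (qExpand K1 q (S36AUX_hK K1 D.u)) ^ q := by
  rw [S36UK_aux_eq]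
  exact S36UT_w_T2 K1 q M' hq hqM hN1 (S36AUX_h D.u) (S36UK_aux_coeff D.u D.hu) (S36UK_aux_mem D K1 M' hr)

/-- **`w W = - W`** for `W = z - x` -/
theorem S36UH_w_W :
    S36WQ_wL (S34V0K_emb K1) (q ^ 2) M' (M' * q * q) (S36WQ_cop hq hqM) (S36VK_level q M')
      (qExpand K1 (q * q) (S36AUX_hK K1 D.u) - S36AUX_hK K1 D.u) =
      - (qExpand K1 (q * q) (S36AUX_hK K1 D.u) - S36AUX_hK K1 D.u) := by
  rw [S36UK_aux_eq]
  exact S36UT_w_W K1 q M' hq hqM hN1 (S36AUX_h D.u) (S36UK_aux_coeff D.u D.hu) (S36UK_aux_mem D K1 M' hr)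

/-- **`T1 = x^q - y ∈ π V'_∞`** -/
theorem S36UH_T1 (hA : A.LiesOverPrime q) :
    ∃ v ∈ S18K_V A K1 (M' * q),
      (S36AUX_hK K1 D.u) ^ q - qExpand K1 q (S36AUX_hK K1 D.u) = S18K_π A K1 * v := by
  rw [S36UK_aux_eq]
  exact S36UT_T1 A K1 q M' hq hqM hN1 (S36AUX_h D.u) (S36UK_aux_coeff D.u D.hu) (S36UK_aux_mem D K1 M' hr) hA

/-- `T1 ∈ π V_∞` -/
theorem S36UH_T1_oo (hA : A.LiesOverPrime q) :
    ∃ v ∈ S18K_V A K1 (M' * q * q),
      (S36AUX_hK K1 D.u) ^ q - qExpand K1 q (S36AUX_hK K1 D.u) = S18K_π A K1 * v := by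
  rw [S36UK_aux_eq]
  exact S36UT_T1_oo A K1 q M' hq hqM hN1 (S36AUX_h D.u) (S36UK_aux_coeff D.u D.hu) (S36UK_aux_mem D K1 M' hr) hA

/-- **`S1 = x - y^q` is a unit of `V'_∞`** (level `M' * q`) -/
theorem S36UH_S1_unit (hA : A.LiesOverPrime q) :
    S36AUX_hK K1 D.u - (qExpand K1 q (S36AUX_hK K1 D.u)) ^ q ≠ 0 ∧
      S36AUX_hK K1 D.u - (qExpand K1 q (S36AUX_hK K1 D.u)) ^ q ∈ S18K_V A K1 (M' * q) ∧
      (S36AUX_hK K1 D.u - (qExpand K1 q (S36AUX_hK K1 D.u)) ^ q)⁻¹ ∈ S18K_V A K1 (M' * q) := by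
  rw [S36UK_aux_eq]
  exact S36UT_S1_unit A K1 q M' hq hqM hN1 (S36AUX_h D.u) (S36UK_aux_coeff D.u D.hu) (S36UK_aux_mem D K1 M' hr) hA

/-- **`hS1_oo`** : `S1` is a unit of `V_∞` -/
theorem S36UH_hS1_oo (hA : A.LiesOverPrime q) :
    S36AUX_hK K1 D.u - (qExpand K1 q (S36AUX_hK K1 D.u)) ^ q ∈ S18K_V A K1 (M' * q * q) ∧
      (S36AUX_hK K1 D.u - (qExpand K1 q (S36AUX_hK K1 D.u)) ^ q)⁻¹ ∈ S18K_V A K1 (M' * q * q) := by
  rw [S36UK_aux_eq]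
  exact S36UT_hS1_oo A K1 q M' hq hqM hN1 (S36AUX_h D.u) (S36UK_aux_coeff D.u D.hu) (S36UK_aux_mem D K1 M' hr) hA

/-- **`hS1_mid`** : `S1` is a unit of every ring containing the Gauss ring of level `M' * q`
(e.g. `V_mid`, by `S36VK_IsMid`). -/
theorem S36UH_hS1_mid (hA : A.LiesOverPrime q) {V2 : Subring (LaurentSeries K1)}
    (hV2 : S18K_V A K1 (M' * q) ≤ V2) :
    S36AUX_hK K1 D.u - (qExpand K1 q (S36AUX_hK K1 D.u)) ^ q ∈ V2 ∧
      (S36AUX_hK K1 D.u - (qExpand K1 q (S36AUX_hK K1 D.u)) ^ q)⁻¹ ∈ V2 := by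
  rw [S36UK_aux_eq]
  exact S36UT_hS1_mid A K1 q M' hq hqM hN1 (S36AUX_h D.u) (S36UK_aux_coeff D.u D.hu) (S36UK_aux_mem D K1 M' hr) hA hV2

/-- `T1 ∈ π V2` for every ring containing the Gauss ring of level `M' * q` -/
theorem S36UH_T1_mid (hA : A.LiesOverPrime q) {V2 : Subring (LaurentSeries K1)}
    (hV2 : S18K_V A K1 (M' * q) ≤ V2) :
    ∃ v ∈ V2, (S36AUX_hK K1 D.u) ^ q - qExpand K1 q (S36AUX_hK K1 D.u) = S18K_π A K1 * v := by
  rw [S36UK_aux_eq]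
  exact S36UT_T1_mid A K1 q M' hq hqM hN1 (S36AUX_h D.u) (S36UK_aux_coeff D.u D.hu) (S36UK_aux_mem D K1 M' hr) hA hV2

/-- **`T2 = z - y^q ∈ π V_∞`** -/
theorem S36UH_T2 (hA : A.LiesOverPrime q) :
    ∃ v ∈ S18K_V A K1 (M' * q * q),
      qExpand K1 (q * q) (S36AUX_hK K1 D.u) - (qExpand K1 q (S36AUX_hK K1 D.u)) ^ q = S18K_π A K1 * v := by
  rw [S36UK_aux_eq]
  exact S36UT_T2 A K1 q M' hq hqM hN1 (S36AUX_h D.u) (S36UK_aux_coeff D.u D.hu) (S36UK_aux_mem D K1 M' hr) hA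

/-- `T2 ≠ 0` -/
theorem S36UH_T2_ne_zero (hA : A.LiesOverPrime q) :
    qExpand K1 (q * q) (S36AUX_hK K1 D.u) - (qExpand K1 q (S36AUX_hK K1 D.u)) ^ q ≠ 0 := by
  rw [S36UK_aux_eq]
  exact S36UT_T2_ne_zero A K1 q M' hq hqM hN1 (S36AUX_h D.u) (S36UK_aux_coeff D.u D.hu) (S36UK_aux_mem D K1 M' hr) hA

/-- **`hT2_oo`** : `T2⁻¹ ∉ V_∞` -/
theorem S36UH_hT2_oo (hA : A.LiesOverPrime q) :
    (qExpand K1 (q * q) (S36AUX_hK K1 D.u) - (qExpand K1 q (S36AUX_hK K1 D.u)) ^ q)⁻¹ ∉ S18K_V A K1 (M' * q * q) := by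
  rw [S36UK_aux_eq]
  exact S36UT_hT2_oo A K1 q M' hq hqM hN1 (S36AUX_h D.u) (S36UK_aux_coeff D.u D.hu) (S36UK_aux_mem D K1 M' hr) hA

/-- **`hT2_0`** : `T2` is a unit of `V_0` -/
theorem S36UH_hT2_0 (hA : A.LiesOverPrime q) :
    qExpand K1 (q * q) (S36AUX_hK K1 D.u) - (qExpand K1 q (S36AUX_hK K1 D.u)) ^ q ∈ S36VK_V0 A K1 q M' hq hqM ∧
      (qExpand K1 (q * q) (S36AUX_hK K1 D.u) - (qExpand K1 q (S36AUX_hK K1 D.u)) ^ q)⁻¹ ∈ S36VK_V0 A K1 q M' hq hqM := by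
  rw [S36UK_aux_eq]
  exact S36UT_hT2_0 A K1 q M' hq hqM hN1 (S36AUX_h D.u) (S36UK_aux_coeff D.u D.hu) (S36UK_aux_mem D K1 M' hr) hA

/-- **`S1 ∈ π V_0`** -/
theorem S36UH_S1_0 (hA : A.LiesOverPrime q) :
    ∃ v ∈ S36VK_V0 A K1 q M' hq hqM,
      S36AUX_hK K1 D.u - (qExpand K1 q (S36AUX_hK K1 D.u)) ^ q = S18K_π A K1 * v := by
  rw [S36UK_aux_eq]
  exact S36UT_S1_0 A K1 q M' hq hqM hN1 (S36AUX_h D.u) (S36UK_aux_coeff D.u D.hu) (S36UK_aux_mem D K1 M' hr) hA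

/-- **`hS1_0`** : `S1⁻¹ ∉ V_0` -/
theorem S36UH_hS1_0 (hA : A.LiesOverPrime q) :
    (S36AUX_hK K1 D.u - (qExpand K1 q (S36AUX_hK K1 D.u)) ^ q)⁻¹ ∉ S36VK_V0 A K1 q M' hq hqM := by
  rw [S36UK_aux_eq]
  exact S36UT_hS1_0 A K1 q M' hq hqM hN1 (S36AUX_h D.u) (S36UK_aux_coeff D.u D.hu) (S36UK_aux_mem D K1 M' hr) hA

/-- **`W = z - x` is a unit of `V_∞`** -/
theorem S36UH_W_unit1 (hA : A.LiesOverPrime q) :
    qExpand K1 (q * q) (S36AUX_hK K1 D.u) - S36AUX_hK K1 D.u ≠ 0 ∧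
      qExpand K1 (q * q) (S36AUX_hK K1 D.u) - S36AUX_hK K1 D.u ∈ S18K_V A K1 (M' * q * q) ∧
      (qExpand K1 (q * q) (S36AUX_hK K1 D.u) - S36AUX_hK K1 D.u)⁻¹ ∈ S18K_V A K1 (M' * q * q) := by
  rw [S36UK_aux_eq]
  exact S36UT_W_unit1 A K1 q M' hq hqM hN1 (S36AUX_h D.u) (S36UK_aux_coeff D.u D.hu) (S36UK_aux_mem D K1 M' hr) hA

/-- **`W = z - x` is a unit of `V_0`** -/
theorem S36UH_W_unit0 (hA : A.LiesOverPrime q) :
    qExpand K1 (q * q) (S36AUX_hK K1 D.u) - S36AUX_hK K1 D.u ∈ S36VK_V0 A K1 q M' hq hqM ∧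
      (qExpand K1 (q * q) (S36AUX_hK K1 D.u) - S36AUX_hK K1 D.u)⁻¹ ∈ S36VK_V0 A K1 q M' hq hqM := by
  rw [S36UK_aux_eq]
  exact S36UT_W_unit0 A K1 q M' hq hqM hN1 (S36AUX_h D.u) (S36UK_aux_coeff D.u D.hu) (S36UK_aux_mem D K1 M' hr) hA

end AuxTyped

end Fermat.Agent.S36_helper23_UNITSK
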