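import Mathlib
import Fermat.Agent.S18_helper3_LOCRING
import Fermat.Agent.S34_helper27_C2Defs
import Fermat.Agent.S36_helper9_ONE
import Fermat.Agent.S36_helper9_DICH
import Fermat.Agent.S36_helper18_THICK
import Fermat.Agent.S36_helper17_TRIPLEX

/-!
# S36, GEO36, (REG36): the crossing points - junction of the case split with the triple point
theorem (helper9)

* `S36DIX_on_oo`, `S36DIX_on_mid`, `S36DIX_on_0` : at a regular triple point (`S36TX_Triple` for
  `locRing A m`) the ideal `m` lies on the three branches;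
* `S36DIX_cross_oo`, `S36DIX_cross_mid`, `S36DIX_cross_0`, `S36DIX_S1_mem`, `S36DIX_T1_mem` :
  a crossing `S36DI_Cross V_∞ V_0 A' A m` gives the hypotheses [CROSS] of `S36TX_main` and the
  memberships `S1, T1 ∈ m`;
* `S36DIX_main` : `S36TX_main` with the hypothesis "crossing" in the vocabulary of the case
  split;
* `S36DIX_htriple` : the input `htriple` of `S36DI_main` from a provider of the triple point
  datum at every crossing.
-/

set_option autoImplicit false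
set_option linter.style.haveILetI false
set_option linter.unusedVariables false
set_option linter.unusedSectionVars false

namespace Fermat.Agent.S36_helper9_DICHX

open Fermat.Agent.S18_helper3_LOCRING Fermat.Agent.S34_helper27_C2Defs
  Fermat.Agent.S36_helper9_ONE Fermat.Agent.S36_helper9_DICH
  Fermat.Agent.S36_helper17_TRIPLEX Fermat.Agent.S36_helper18_THICK

variable {L : Type*} [Field L] {Voo Vmid V0 A' A : Subring L}

section On

variable {q : ℕ} {π S1 T2 : L} (m : Ideal A) [hm : m.IsPrime]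

/-- an element of `A` which is a multiple in `locRing A m` of a non-unit of `locRing A m` lies
in `m` -/
theorem S36DIX_mem_of_mul {b : L} (hb : b⁻¹ ∉ locRing A m) (a : A)
    (h : ∃ c ∈ locRing A m, (a : L) = b * c) : a ∈ m := by
  by_contra ham
  obtain ⟨c, hc, hac⟩ := h
  have ha0 : (a : L) ≠ 0 := coe_ne_zero_of_notMem A m ham
  have hainv : ((a : L))⁻¹ ∈ locRing A m := inv_mem_locRing A m ham
  have hb0 : b ≠ 0 := by
    rintro rfl
    rw [zero_mul] at hac
    exact ha0 hac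
  have hc0 : c ≠ 0 := by
    rintro rfl
    rw [mul_zero] at hac
    exact ha0 hac
  apply hb
  have : b⁻¹ = c * ((a : L))⁻¹ := by
    rw [hac, mul_inv, mul_comm b⁻¹, ← mul_assoc, mul_inv_cancel₀ hc0, one_mul]
  rw [this]
  exact Subring.mul_mem _ hc hainv

/-- at a regular triple point `m` lies on the branch of `V_∞` -/
theorem S36DIX_on_oo (T : S36TX_Triple q π S1 T2 Voo Vmid V0 (locRing A m)) :
    S36ONE_On Voo A m := by
  intro a ha
  exact S36DIX_mem_of_mul m T.T2_nonunit a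
    ((T.dvd_oo (a : L) (le_locRing A m a.2)).1 (Or.inr ha))

/-- at a regular triple point `m` lies on the branch of `V_0` -/
theorem S36DIX_on_0 (T : S36TX_Triple q π S1 T2 Voo Vmid V0 (locRing A m)) :
    S36ONE_On V0 A m := by
  intro a ha
  exact S36DIX_mem_of_mul m T.S1_nonunit a
    ((T.dvd_0 (a : L) (le_locRing A m a.2)).1 (Or.inr ha))

/-- at a regular triple point `T2 - S1` is not a unit of the local ring -/
theorem S36DIX_W_nonunit (T : S36TX_Triple q π S1 T2 Voo Vmid V0 (locRing A m)) :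
    (T2 - S1)⁻¹ ∉ locRing A m := by
  intro h
  have hW : T2 - S1 ∈ locRing A m := Subring.sub_mem _ T.T2_mem T.S1_mem
  have h1 : (T2 - S1) ∈ Vmid := T.le_mid hW
  have h2 : (T2 - S1)⁻¹ ∈ Vmid := T.le_mid h
  have h3 := (T.dvd_mid (T2 - S1) hW).2 ⟨1, Subring.one_mem _, (mul_one _).symm⟩
  rcases h3 with h3 | h3
  · rw [h3, inv_zero] at h
    have hpr := T.prime_W hW
    exact hpr.ne_zero (Subtype.ext h3)
  · exact h3 h2

/-- at a regular triple point `m` lies on the branch of `V_mid` -/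
theorem S36DIX_on_mid (T : S36TX_Triple q π S1 T2 Voo Vmid V0 (locRing A m)) :
    S36ONE_On Vmid A m := by
  intro a ha
  exact S36DIX_mem_of_mul m (S36DIX_W_nonunit m T) a
    ((T.dvd_mid (a : L) (le_locRing A m a.2)).1 (Or.inr ha))

end On

section Cross

variable (hA'A : A' ≤ A) (m : Ideal A)

theorem S36DIX_cross_oo (hc : S36DI_Cross Voo V0 A' A m) :
    ∀ a : A', ((a : L))⁻¹ ∉ Voo → Subring.inclusion hA'A a ∈ m :=
  ((S36DI_cross_iff hA'A m).1 hc).1

theorem S36DIX_cross_0 (hc : S36DI_Cross Voo V0 A' A m) :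
    ∀ a : A', ((a : L))⁻¹ ∉ V0 → Subring.inclusion hA'A a ∈ m :=
  ((S36DI_cross_iff hA'A m).1 hc).2

theorem S36DIX_cross_mid (hA'mid' : ∀ a ∈ A', a⁻¹ ∉ Vmid → a⁻¹ ∉ Voo)
    (hc : S36DI_Cross Voo V0 A' A m) :
    ∀ a : A', ((a : L))⁻¹ ∉ Vmid → Subring.inclusion hA'A a ∈ m :=
  fun a ha => S36DIX_cross_oo hA'A m hc a (hA'mid' _ a.2 ha)

end Cross

section Final

variable (q : ℕ) [hq : Fact q.Prime] (A' A : Subring L) (hA'A : A' ≤ A) (z : L) (hzA : z ∈ A)
  (m : Ideal A)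
  {π₀ : L} {F1 : Subfield L} {Voo Vmid V0 : Subring L}

/-- **REG36 [TRIPLE] at a crossing of the case split.**  `S36TX_main` with its hypotheses
[CROSS], `S1 ∈ m`, `T1 ∈ m` replaced by `S36DI_Cross V_∞ V_0 A' A m` (the fourth alternative of
`S36DI_main`), the comparison `V_mid ∩ A' ⊆ V_∞ ∩ A'` of non-units, and `T1⁻¹ ∉ V_∞`. -/
theorem S36DIX_main [IsNoetherianRing A'] (hmax : m.IsMaximal)
    (Hoo : S34C2_Val π₀ F1 Voo) (Hmid : S34C2_Val π₀ F1 Vmid) (H0 : S34C2_Val π₀ F1 V0)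
    (hAoo : A ≤ Voo) (hAmid : A ≤ Vmid) (hA0 : A ≤ V0)
    (hint : ∀ a ∈ A, IsIntegral A' a)
    (hfrac : ∀ a ∈ A, ∃ b ∈ S36TX_adj A' z, ∃ d ∈ S36TX_adj A' z, d ≠ 0 ∧ a * d = b)
    (π w x y : A') (hqπ : (q : A') = π * w)
    (hπm : Subring.inclusion hA'A π ∈ m)
    (hcross : S36DI_Cross Voo V0 A' A m)
    (hA'mid' : ∀ a ∈ A', a⁻¹ ∉ Vmid → a⁻¹ ∉ Voo)
    (hgen' : ∀ a : A', Subring.inclusion hA'A a ∈ m → ∃ s α β γ : A',
      Subring.inclusion hA'A s ∉ m ∧ s * a = α * π + β * (x ^ q - y) + γ * (x - y ^ q))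
    (hnode : ∃ u c : A', Subring.inclusion hA'A u ∉ m ∧ Subring.inclusion hA'A c ∉ m ∧
      c * ((x ^ q - y) * (x - y ^ q)) = π * u)
    (G : MvPolynomial (Fin 2) ℤ)
    (hyz : S36TH_ev ![(y : L), z] (S36TH_Phi q G) = 0)
    (hyx : S36TH_ev ![(y : L), (x : L)] (S36TH_Phi q G) = 0)
    (hT1_oo : ((x : L) ^ q - (y : L))⁻¹ ∉ Voo)
    (hS1_0 : ((x : L) - (y : L) ^ q)⁻¹ ∉ V0) (hT2_0 : (z - (y : L) ^ q)⁻¹ ∈ V0)
    (hT2_oo : (z - (y : L) ^ q)⁻¹ ∉ Voo) (hS1_oo : ((x : L) - (y : L) ^ q)⁻¹ ∈ Voo)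
    (hW_mid : (z - (x : L))⁻¹ ∉ Vmid) (hS1_mid : ((x : L) - (y : L) ^ q)⁻¹ ∈ Vmid) :
    haveI := hmax.isPrime
    S36TX_Triple q (π : L) ((x : L) - (y : L) ^ q) (z - (y : L) ^ q) Voo Vmid V0
        (locRing A m) ∧
      locRing A m = locRing (S36TX_adj A' z)
        (S36TX_m0 A' A z (S36TX_adj_le A' z hA'A hzA) m) := by
  have hS1m : Subring.inclusion hA'A (x - y ^ q) ∈ m := by
    refine S36DIX_cross_0 hA'A m hcross (x - y ^ q) ?_
    simpa using hS1_0
  have hT1m : Subring.inclusion hA'A (x ^ q - y) ∈ m := by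
    refine S36DIX_cross_oo hA'A m hcross (x ^ q - y) ?_
    simpa using hT1_oo
  exact S36TX_main q A' A hA'A z hzA m hmax Hoo Hmid H0 hAoo hAmid hA0 hint hfrac π w x y hqπ
    hπm hS1m hT1m hgen' hnode G hyz hyx (S36DIX_cross_oo hA'A m hcross)
    (S36DIX_cross_mid hA'A m hA'mid' hcross) (S36DIX_cross_0 hA'A m hcross)
    hS1_0 hT2_0 hT2_oo hS1_oo hW_mid hS1_mid

end Final

section HTriple

variable {π : L}

/-- **the input `htriple` of `S36DI_main`** from a provider of the triple point datum at every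
crossing. -/
theorem S36DIX_htriple (hπ : π ∈ A)
    (hTX : ∀ (m' : Ideal A) (hm' : m'.IsMaximal), (⟨π, hπ⟩ : A) ∈ m' →
      S36DI_Cross Voo V0 A' A m' →
      haveI := hm'.isPrime
      ∃ (q : ℕ) (π' S1 T2 : L), S36TX_Triple q π' S1 T2 Voo Vmid V0 (locRing A m')) :
    ∀ m' : Ideal A, m'.IsMaximal → (⟨π, hπ⟩ : A) ∈ m' →
      S36DI_Cross Voo V0 A' A m' → S36ONE_On Voo A m' := by
  intro m' hm' hπm' hc
  haveI := hm'.isPrime
  obtain ⟨q, π', S1, T2, T⟩ := hTX m' hm' hπm' hc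
  exact S36DIX_on_oo m' T

end HTriple

end Fermat.Agent.S36_helper9_DICHX
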