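import Mathlib
import Fermat.Agent.S36_helper15_HXK
import Fermat.Agent.S36_helper15_HXI
import Fermat.Agent.S36_helper23_UNITSK
import Fermat.Agent.S36_helper23_TCUSPIN
import Fermat.Agent.S36_helper1_MIDBRK
import Fermat.Agent.S36_helper5_VMIDK
import Fermat.Agent.S36_helper9_DICHX

/-!
# S36, GEO36, REG36 [TRIPLE] at the carriers: the inputs [KRON] and [UNITS] (helper2)

The inputs of helper9's `S36DIX_main` (= helper17's `S36TX_main` at a crossing) which do not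
depend on the point, at the carriers of level `M' * q * q` and in the Hauptmodul coordinate
`x = S36AUX_hK K1 D.u`, `y = V_q x`, `z = V_{q²} x`:

* `S36HTI_kron`  : [KRON] `Φ(y, z) = 0`, `Φ(y, x) = 0` for ONE `Φ = (X^q - Y)(X - Y^q) + q G`;
* `S36HTI_units` : [UNITS] the seven unit / non-unit facts `hT1_oo hS1_0 hT2_0 hT2_oo hS1_oo
  hW_mid hS1_mid` at `V_∞ = S18K_V A K1 (M' * q * q)`, `V_mid = S36VK_Vmid`, `V_0 = S36VK_V0`;
* `S36HTI_mem`   : `x, y ∈ A' = S18K_A0 A K1 (M' * q)`, `z ∈ S18K_A0 A K1 (M' * q * q)`;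
* `S36HTI_q`     : `q = π * w` with `w ∈ S18K_A0 A K1 (M' * q)`;
* `S36HTI_midoo` : `hA'mid'` (a non-unit of `V_mid` in `F1(M' q)` is a non-unit of `V_∞`).
-/

set_option autoImplicit false
set_option linter.unusedSectionVars false
set_option linter.unusedVariables false
set_option linter.style.haveILetI false

open HahnSeries ModularCurve Polynomial
open Fermat.Agent.S18_helper13_GAUSS Fermat.Agent.S18_helper9_CDefs
  Fermat.Agent.S18_helper3_LOCRING Fermat.Agent.S18_helper25_COREDefs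
  Fermat.Agent.S34_helper12_CDefs Fermat.Agent.S34_helper27_C2Defs
  Fermat.Agent.S34_helper27_V3K Fermat.Agent.S34_helper20_V0K
  Fermat.Agent.S36_helper8_AUXDefs Fermat.Agent.S36_helper18_THICK
  Fermat.Agent.S36_helper15_HXK Fermat.Agent.S36_helper15_HXI
  Fermat.Agent.S36_helper1_KRONG
  Fermat.Agent.S36_helper5_VKDefs Fermat.Agent.S36_helper5_VMIDK
  Fermat.Agent.S36_helper23_UNITSK Fermat.Agent.S36_helper23_TCUSPIN
  Fermat.Agent.S36_helper1_MIDBR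

noncomputable section

namespace Fermat.Agent.S36_helper2_HTXIN

local notation "Qb" => AlgebraicClosure ℚ

section Main

variable (A : ValuationSubring Qb) (K1 : IntermediateField ℚ Qb)
  [IsDiscreteValuationRing (S18K_O1 A K1)] {r : ℕ} [NeZero r] (D : S36AUX_Data r)
  (q M' : ℕ) [NeZero M'] [NeZero q] [NeZero (M' * q)] [NeZero (M' * q * q)] [NeZero (q ^ 2)]
  [NeZero (q * q)] (hq : q.Prime) (hqM : ¬ q ∣ M') (hr : r ∣ M')

include hq hqM hr

omit [NeZero M'] [NeZero (M' * q)] [NeZero (M' * q * q)] [NeZero (q ^ 2)] in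
/-- `q` does not divide the auxiliary level. -/
theorem S36HTI_hqr : ¬ q ∣ r := fun h => hqM (h.trans hr)

/-- **[KRON]**: one `Φ = (X^q - Y)(X - Y^q) + q G` with `Φ(y, z) = 0` and `Φ(y, x) = 0`. -/
theorem S36HTI_kron :
    ∃ G : MvPolynomial (Fin 2) ℤ,
      S36TH_ev ![qExpand K1 q (S36AUX_hK K1 D.u), qExpand K1 (q * q) (S36AUX_hK K1 D.u)]
        (S36TH_Phi q G) = 0 ∧
      S36TH_ev ![qExpand K1 q (S36AUX_hK K1 D.u), S36AUX_hK K1 D.u] (S36TH_Phi q G) = 0 := by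
  obtain ⟨G, -, hK⟩ := S36HXK_main D q hq (S36HTI_hqr q M' hq hqM hr)
  obtain ⟨h1, h2⟩ := hK K1
  refine ⟨G, ?_, h2⟩
  have h3 := S36HXK_shift (q := q) G K1 _ _ h1
  rwa [qExpand_qExpand] at h3

/-- the memberships: `x, y ∈ A' = S18K_A0 A K1 (M' * q)`, `z ∈ S18K_A0 A K1 (M' * q * q)`. -/
theorem S36HTI_mem :
    S36AUX_hK K1 D.u ∈ S18K_A0 A K1 (M' * q) ∧
      qExpand K1 q (S36AUX_hK K1 D.u) ∈ S18K_A0 A K1 (M' * q) ∧
      qExpand K1 (q * q) (S36AUX_hK K1 D.u) ∈ S18K_A0 A K1 (M' * q * q) := by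
  have hqr := S36HTI_hqr q M' hq hqM hr
  refine ⟨S36HXI_mem_A0 A K1 D (M' * q) (hr.trans (dvd_mul_right M' q)),
    S36HXI_V_mem_A0 A K1 D q (M' * q) hq hqr (mul_dvd_mul_right hr q),
    S36HXI_VV_mem_A0 A K1 D q (M' * q * q) hq hqr ?_⟩
  rw [mul_assoc M' q q]
  exact mul_dvd_mul_right hr (q * q)

/-- the memberships at the top level: `x, y, z ∈ S18K_A0 A K1 (M' * q * q)`. -/
theorem S36HTI_mem_top :
    S36AUX_hK K1 D.u ∈ S18K_A0 A K1 (M' * q * q) ∧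
      qExpand K1 q (S36AUX_hK K1 D.u) ∈ S18K_A0 A K1 (M' * q * q) ∧
      qExpand K1 (q * q) (S36AUX_hK K1 D.u) ∈ S18K_A0 A K1 (M' * q * q) := by
  have hqr := S36HTI_hqr q M' hq hqM hr
  refine ⟨S36HXI_mem_A0 A K1 D (M' * q * q) (hr.trans ⟨q * q, by ring⟩),
    S36HXI_V_mem_A0 A K1 D q (M' * q * q) hq hqr
      ((mul_dvd_mul_right hr q).trans (dvd_mul_right (M' * q) q)),
    (S36HTI_mem A K1 D q M' hq hqM hr).2.2⟩

/-- **[UNITS]**: the seven unit / non-unit facts of `S36TX_main` / `S36DIX_main`, in the order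
`hT1_oo hS1_0 hT2_0 hT2_oo hS1_oo hW_mid hS1_mid`. -/
theorem S36HTI_units (hA : A.LiesOverPrime q)
    (hunr : Associated (S18K_D A K1).π ((q : ℕ) : S18K_O1 A K1)) :
    ((S36AUX_hK K1 D.u) ^ q - qExpand K1 q (S36AUX_hK K1 D.u))⁻¹ ∉
        S18K_V A K1 (M' * q * q) ∧
      (S36AUX_hK K1 D.u - (qExpand K1 q (S36AUX_hK K1 D.u)) ^ q)⁻¹ ∉
        S36VK_V0 A K1 q M' hq hqM ∧
      (qExpand K1 (q * q) (S36AUX_hK K1 D.u) - (qExpand K1 q (S36AUX_hK K1 D.u)) ^ q)⁻¹ ∈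
        S36VK_V0 A K1 q M' hq hqM ∧
      (qExpand K1 (q * q) (S36AUX_hK K1 D.u) - (qExpand K1 q (S36AUX_hK K1 D.u)) ^ q)⁻¹ ∉
        S18K_V A K1 (M' * q * q) ∧
      (S36AUX_hK K1 D.u - (qExpand K1 q (S36AUX_hK K1 D.u)) ^ q)⁻¹ ∈
        S18K_V A K1 (M' * q * q) ∧
      (qExpand K1 (q * q) (S36AUX_hK K1 D.u) - S36AUX_hK K1 D.u)⁻¹ ∉
        S36VK_Vmid A K1 q M' ∧
      (S36AUX_hK K1 D.u - (qExpand K1 q (S36AUX_hK K1 D.u)) ^ q)⁻¹ ∈
        S36VK_Vmid A K1 q M' := by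
  have hN1 : M' * q = q * M' := Nat.mul_comm M' q
  have hqr := S36HTI_hqr q M' hq hqM hr
  have hmid := (S36VK_main A K1 q M' hq hqM hA hunr).1
  refine ⟨S36TCI_aux_hT1_oo A K1 q M' hq hqM hN1 D hr hA,
    S36UH_hS1_0 A K1 D q M' hq hqM hN1 hr hA,
    (S36UH_hT2_0 A K1 D q M' hq hqM hN1 hr hA).2,
    S36UH_hT2_oo A K1 D q M' hq hqM hN1 hr hA,
    (S36UH_hS1_oo A K1 D q M' hq hqM hN1 hr hA).2, ?_,
    (S36UH_hS1_mid A K1 D q M' hq hqM hN1 hr hA hmid.2.1).2⟩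
  obtain ⟨a, -, -, -, ha⟩ := S36HXK_modEq D q hq hqr
  have hrel : jqModC ℤ * eval₂ (Int.castRingHom (LaurentSeries ℤ)) (S36AUX_h D.u) D.B =
      (eval₂ (Int.castRingHom (LaurentSeries ℤ)) (S36AUX_h D.u) D.a) ^ 3 := by
    have h := D.rel
    rw [Polynomial.aeval_def, Polynomial.aeval_def] at h
    have e : algebraMap ℤ (LaurentSeries ℤ) = Int.castRingHom (LaurentSeries ℤ) :=
      RingHom.ext_int _ _
    rw [e] at h
    exact h
  have h := (S36MB_bridge A K1 q M' hq hqM hA hunr (S36AUX_h D.u)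
    (S36UK_aux_coeff D.u D.hu) a ha (S36UK_aux_mem D K1 M' hr) D.a D.B D.hB hrel).2.2.2
  rw [← S36UK_aux_eq] at h
  exact h

end Main

section Mid

variable (A : ValuationSubring Qb) (K1 : IntermediateField ℚ Qb)
  [IsDiscreteValuationRing (S18K_O1 A K1)] (q M' : ℕ)

/-- **`hA'mid'`**: an element of `F1(M' q)` which is a non-unit of `V_mid` is a non-unit of
`V_∞` (both rings contain the Gauss ring of level `M' * q`, and `V_∞ ∩ F1(M' q)` IS this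
ring). -/
theorem S36HTI_midoo {V2 : Subring (LaurentSeries K1)}
    (hV2 : S18K_V A K1 (M' * q) ≤ V2) :
    ∀ a ∈ S18K_A0 A K1 (M' * q), a⁻¹ ∉ V2 → a⁻¹ ∉ S18K_V A K1 (M' * q * q) := by
  intro a ha hinv h
  apply hinv
  apply hV2
  refine ⟨h.1, ?_⟩
  have haF : a ∈ S18K_F1 K1 (M' * q) := ha.2
  exact (S18K_F1 K1 (M' * q)).inv_mem haF

end Mid

end Fermat.Agent.S36_helper2_HTXIN
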