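import Fermat.Agent.S36_helper14_MIDK
import Fermat.Agent.S36_helper2_HTXIN
import Fermat.Agent.S36_helper25_THUNRP
import Fermat.Agent.S36_helper17_TRIPLEK

/-!
# S36, GEO36 (REG36, `[ONE mid]`): the thick one-branch points of the finite chart, in the
Hauptmodul coordinate, NO hypothesis left (helper14)

`D : S36AUX_Data r`, `r ∣ M'`, `q ∤ M'`; `x = h` the Hauptmodul of level `r`.

* `S36MKH_pderiv0_eval₂`, `S36MKH_pderiv1_eval₂`, `S36MKH_Psi_pderiv0_ev`,
  `S36MKH_Psi_pderiv1_ev` : the partial derivatives of `Ψ = Y^(q+1) + ∑ a_i(X) Y^i`, evaluated;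
* `S36MKH_swap_Phi`, `S36MKH_swap_ev` : the swapped polynomial `Φ(Y, X)` is again of the form
  `(X^q - Y)(X - Y^q) + q G'`;
* `S36MKH_DA` : **`q dx/dy` lies in the finite chart** in the shape `hDA` of `S36MK_main`
  (helper25's `S36TUP_main` for the swapped polynomial);
* `S36MKH_main` : **the hypothesis `hmid` of helper9's `S36DK_pts0`** at `W2 = S36VK_Vmid`, from
  the weak setup only.
-/

set_option autoImplicit false
set_option linter.style.haveILetI false
set_option linter.unusedVariables false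
set_option linter.unusedSectionVars false
set_option synthInstance.maxHeartbeats 400000
set_option maxHeartbeats 1600000

open ModularCurve Fermat.Agent.S24
open Fermat.Agent.S18_helper13_GAUSS Fermat.Agent.S18_helper9_CDefs
  Fermat.Agent.S18_helper9_CBasic
open Fermat.Agent.S18_helper25_COREDefs Fermat.Agent.S34_helper12_CDefs
open Fermat.Agent.S34_helper27_C2Defs
open Fermat.Agent.S34_helper27_V3K Fermat.Agent.S34_helper20_V0K
open Fermat.Agent.S18_helper3_LOCRING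
open Fermat.Agent.S36_helper5_VKDefs
open Fermat.Agent.S36_helper3_XBPT
open Fermat.Agent.S36_helper9_ONE
open Fermat.Agent.S36_helper1_KRONG Fermat.Agent.S36_helper1_MIDBR
open Fermat.Agent.S36_helper8_AUXDefs Fermat.Agent.S36_helper18_THICK
open Fermat.Agent.S36_helper15_HXK Fermat.Agent.S36_helper15_HXI
open Fermat.Agent.S36_helper23_UNITSK Fermat.Agent.S36_helper2_HTXIN
open Fermat.Agent.S36_helper25_THUNRP Fermat.Agent.S36_helper17_TRIPLEK
open Fermat.Agent.S36_helper14_MIDK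

noncomputable section

namespace Fermat.Agent.S36_helper14_MIDKH

section Poly

open MvPolynomial

/-- `∂/∂X₀ (p(X₀)) = p'(X₀)` -/
theorem S36MKH_pderiv0_eval₂ (p : Polynomial ℤ) :
    pderiv (0 : Fin 2) (Polynomial.eval₂ (C : ℤ →+* MvPolynomial (Fin 2) ℤ) (X 0) p) =
      Polynomial.eval₂ (C : ℤ →+* MvPolynomial (Fin 2) ℤ) (X 0) (Polynomial.derivative p) := by
  induction p using Polynomial.induction_on' with
  | add p r hp hr =>
    rw [Polynomial.eval₂_add, map_add, hp, hr, Polynomial.derivative_add, Polynomial.eval₂_add]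
  | monomial n a =>
    rw [Polynomial.eval₂_monomial, Polynomial.derivative_monomial, Polynomial.eval₂_monomial,
      pderiv_C_mul, Derivation.leibniz_pow, pderiv_X_self, map_mul, map_natCast]
    simp only [smul_eq_mul, nsmul_eq_mul, mul_one]
    ring

/-- `∂/∂X₁ (p(X₀)) = 0` -/
theorem S36MKH_pderiv1_eval₂ (p : Polynomial ℤ) :
    pderiv (1 : Fin 2) (Polynomial.eval₂ (C : ℤ →+* MvPolynomial (Fin 2) ℤ) (X 0) p) = 0 := by
  induction p using Polynomial.induction_on' with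
  | add p r hp hr =>
    rw [Polynomial.eval₂_add, map_add, hp, hr, add_zero]
  | monomial n a =>
    rw [Polynomial.eval₂_monomial, pderiv_C_mul, Derivation.leibniz_pow,
      pderiv_X_of_ne (by decide : (0 : Fin 2) ≠ 1)]
    simp

variable {B : Type*} [CommRing B]

/-- `Ψ_Y(v₀, v₁)` for `Ψ = Y^(q+1) + ∑ a_i(X) Y^i` -/
theorem S36MKH_Psi_pderiv1_ev (q : ℕ) (a : ℕ → Polynomial ℤ) (v0 v1 : B) :
    S36TH_ev ![v0, v1] (pderiv 1 (S36HXK_Psi q a)) =
      ((q + 1 : ℕ) : B) * v1 ^ q + ∑ i ∈ Finset.range (q + 1),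
        Polynomial.eval₂ (Int.castRingHom B) v0 (a i) * ((i : B) * v1 ^ (i - 1)) := by
  rw [S36HXK_Psi, map_add, Derivation.leibniz_pow, pderiv_X_self, map_sum, map_add, map_sum]
  congr 1
  · simp only [smul_eq_mul, nsmul_eq_mul, mul_one, map_mul, map_pow, map_natCast, S36TH_ev_X,
      Nat.add_sub_cancel]
    rfl
  · refine Finset.sum_congr rfl (fun i _ => ?_)
    rw [Derivation.leibniz, S36MKH_pderiv1_eval₂, Derivation.leibniz_pow, pderiv_X_self]
    simp only [smul_eq_mul, nsmul_eq_mul, mul_one, mul_zero, add_zero, map_mul, map_pow,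
      map_natCast, S36TH_ev_X]
    rw [S36HXK_ev_eval₂]
    rfl

/-- `Ψ_X(v₀, v₁)` for `Ψ = Y^(q+1) + ∑ a_i(X) Y^i` -/
theorem S36MKH_Psi_pderiv0_ev (q : ℕ) (a : ℕ → Polynomial ℤ) (v0 v1 : B) :
    S36TH_ev ![v0, v1] (pderiv 0 (S36HXK_Psi q a)) =
      ∑ i ∈ Finset.range (q + 1),
        Polynomial.eval₂ (Int.castRingHom B) v0 (Polynomial.derivative (a i)) * v1 ^ i := by
  rw [S36HXK_Psi, map_add, Derivation.leibniz_pow,
    pderiv_X_of_ne (by decide : (1 : Fin 2) ≠ 0), map_sum, map_add, map_sum]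
  simp only [smul_zero, map_zero, zero_add]
  refine Finset.sum_congr rfl (fun i _ => ?_)
  rw [Derivation.leibniz, S36MKH_pderiv0_eval₂, Derivation.leibniz_pow,
    pderiv_X_of_ne (by decide : (1 : Fin 2) ≠ 0)]
  simp only [smul_eq_mul, mul_zero, smul_zero, zero_add, add_zero]
  rw [map_mul, map_pow, S36TH_ev_X, S36HXK_ev_eval₂, mul_comm]
  rfl

/-- the swap of the two variables -/
def S36MKH_swap : MvPolynomial (Fin 2) ℤ →ₐ[ℤ] MvPolynomial (Fin 2) ℤ :=
  rename (Equiv.swap (0 : Fin 2) 1)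

theorem S36MKH_swap_Phi (q : ℕ) (G : MvPolynomial (Fin 2) ℤ) :
    S36TH_Phi q (S36MKH_swap G) = S36MKH_swap (S36TH_Phi q G) := by
  rw [S36TH_Phi, S36TH_Phi, S36MKH_swap, map_add, map_mul, map_mul, map_sub, map_sub, map_pow,
    map_pow, rename_X, rename_X, rename_C, Equiv.swap_apply_left, Equiv.swap_apply_right]
  ring

theorem S36MKH_swap_ev (v0 v1 : B) (P : MvPolynomial (Fin 2) ℤ) :
    S36TH_ev ![v0, v1] (S36MKH_swap P) = S36TH_ev ![v1, v0] P := by
  show eval₂Hom (Int.castRingHom B) ![v0, v1] (rename (Equiv.swap (0 : Fin 2) 1) P) = _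
  rw [eval₂Hom_rename]
  have h : (![v0, v1] ∘ ⇑(Equiv.swap (0 : Fin 2) 1)) = ![v1, v0] := by
    funext i
    fin_cases i <;> simp
  rw [h]

theorem S36MKH_swap_pderiv0 (P : MvPolynomial (Fin 2) ℤ) :
    pderiv (0 : Fin 2) (S36MKH_swap P) = S36MKH_swap (pderiv 1 P) := by
  have h := pderiv_rename (R := ℤ) (Equiv.swap (0 : Fin 2) 1).injective 1 P
  rw [Equiv.swap_apply_right] at h
  exact h

theorem S36MKH_swap_pderiv1 (P : MvPolynomial (Fin 2) ℤ) :
    pderiv (1 : Fin 2) (S36MKH_swap P) = S36MKH_swap (pderiv 0 P) := by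
  have h := pderiv_rename (R := ℤ) (Equiv.swap (0 : Fin 2) 1).injective 0 P
  rw [Equiv.swap_apply_left] at h
  exact h

end Poly

section Main

variable (A : ValuationSubring (AlgebraicClosure ℚ))
  (K1 : IntermediateField ℚ (AlgebraicClosure ℚ)) [IsDiscreteValuationRing (S18K_O1 A K1)]
  {r : ℕ} [NeZero r]
  (q M' : ℕ) [NeZero M'] [NeZero q] [NeZero (M' * q)] [NeZero (M' * q * q)] [NeZero (q ^ 2)]
  [NeZero (q * q)]

/-- **`q dx/dy` lies in the finite chart**, in the shape of the hypothesis `hDA` of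
`S36MK_main`: helper25's `S36TUP_main` applied to the swapped polynomial `Φ(Y, X)`. -/
theorem S36MKH_DA (D : S36AUX_Data r) (hq : q.Prime) (hqM : ¬ q ∣ M') (hr : r ∣ M')
    (hA : A.LiesOverPrime q) (a : ℕ → Polynomial ℤ) (G : MvPolynomial (Fin 2) ℤ)
    (hmod : S36KG_IsModEq q (S36AUX_h D.u) a) (hG : S36HXK_Psi q a = S36TH_Phi q G) :
    ∃ Dq ∈ S18K_A0 A K1 (M' * q * q),
      Dq * S36MK_PhiX K1 q (S36AUX_h D.u) a =
        -((q : LaurentSeries K1) * S36MK_PhiY K1 q (S36AUX_h D.u) a) := by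
  have hΦ' : S36TH_ev ![S36AUX_hK K1 D.u, qExpand K1 q (S36AUX_hK K1 D.u)]
      (S36TH_Phi q (S36MKH_swap G)) = 0 := by
    rw [S36MKH_swap_Phi, S36MKH_swap_ev, ← hG, S36HXK_Psi_ev]
    have h := (S36KG_modEq_map K1 hmod).2
    rw [S36HXK_coeffMap_h] at h
    exact h
  obtain ⟨Dq, -, hid, -, -, -, -, hA0, -⟩ :=
    S36TUP_main A K1 D q M' (M' * q) hq hqM (Nat.mul_comm M' q) hr hA (S36MKH_swap G) hΦ'
  refine ⟨Dq, S36TXK_le A K1 q M' hA0, ?_⟩
  rw [S36MKH_swap_Phi, S36MKH_swap_pderiv0, S36MKH_swap_pderiv1, S36MKH_swap_ev,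
    S36MKH_swap_ev, ← hG, S36MKH_Psi_pderiv1_ev, S36MKH_Psi_pderiv0_ev] at hid
  unfold S36MK_PhiX S36MK_PhiY
  rw [S36HXK_coeffMap_h, hid]
  ring

/-- **`[ONE mid]` on the finite chart of level `M' q q`, Hauptmodul coordinate, NO hypothesis
left beyond the weak setup**: the hypothesis `hmid` of helper9's `S36DK_pts0` at
`W2 = S36VK_Vmid A K1 q M'` (ANY third ring `W3`). -/
theorem S36MKH_main (D : S36AUX_Data r) (hq : q.Prime) (hqM : ¬ q ∣ M') (hr : r ∣ M')
    (hA : A.LiesOverPrime q) (h : S18K_Admissible A K1 q)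
    (hunr : Associated (S18K_D A K1).π ((q : ℕ) : S18K_O1 A K1))
    (W3 : Subring (LaurentSeries K1))
    (S : S34C_Setup (S18K_O A K1) (S18K_π A K1) (S18K_j K1) (S18K_F1 K1 (M' * q * q))
      (S18K_V A K1 (M' * q * q) ⊓ S36VK_Vmid A K1 q M' ⊓ W3) (S18K_A0 A K1 (M' * q * q))
      (S18K_Ainf A K1 (M' * q * q)))
    {lam : ℕ} (hlam : lam.Prime) (hlq : lam ≠ q) (f : LaurentSeries K1) (hf0 : f ≠ 0)
    (hdiv : PowDiv (S18K_O A K1) (S18K_π A K1) (S18K_F1 K1 (M' * q * q)) lam f)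
    (hπ : S18K_π A K1 ∈ S18K_A0 A K1 (M' * q * q)) :
    ∀ m : Ideal (S18K_A0 A K1 (M' * q * q)), m.IsMaximal →
      (⟨S18K_π A K1, hπ⟩ : S18K_A0 A K1 (M' * q * q)) ∈ m →
      S36ONE_On (S36VK_Vmid A K1 q M') (S18K_A0 A K1 (M' * q * q)) m →
      ∀ d : S18K_A0 A K1 (M' * q * q), d ∉ m →
      (∃ v ∈ (S18K_V A K1 (M' * q * q) ⊓ W3 : Subring (LaurentSeries K1)),
        (d : LaurentSeries K1) = S18K_π A K1 * v) →
      ∀ G : LaurentSeries K1, RedPow (S18K_π A K1)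
        (S18K_V A K1 (M' * q * q) ⊓ S36VK_Vmid A K1 q M' ⊓ W3 :
          Subring (LaurentSeries K1)) lam f G →
      S36XB_One (S18K_π A K1) (S18K_F1 K1 (M' * q * q)) (S36VK_Vmid A K1 q M')
        (S18K_V A K1 (M' * q * q)) W3 (S18K_A0 A K1 (M' * q * q)) lam f G m := by
  haveI := Fermat.Agent.S34_helper14_N1K.S34N1K_charZero K1
  have hqr : ¬ q ∣ r := S36HTI_hqr q M' hq hqM hr
  obtain ⟨a, G, -, -, -, hmod, hG⟩ := S36HXK_full D q hq hqr
  have hx := S36UK_aux_coeff D.u D.hu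
  have hxF := S36UK_aux_mem D K1 M' hr
  have hrel : jqModC ℤ * Polynomial.eval₂ (Int.castRingHom (LaurentSeries ℤ)) (S36AUX_h D.u) D.B =
      (Polynomial.eval₂ (Int.castRingHom (LaurentSeries ℤ)) (S36AUX_h D.u) D.a) ^ 3 := by
    have h := D.rel
    rw [Polynomial.aeval_def, Polynomial.aeval_def] at h
    have e : algebraMap ℤ (LaurentSeries ℤ) = Int.castRingHom (LaurentSeries ℤ) :=
      RingHom.ext_int _ _
    rw [e] at h
    exact h
  have hbr := (S36MB_bridge A K1 q M' hq hqM hA hunr (S36AUX_h D.u) hx a hmod hxF D.a D.B D.hB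
    hrel).2.1
  have htX : qExpand K1 (q * q) (coeffMap (Int.castRingHom K1) (S36AUX_h D.u)) -
      coeffMap (Int.castRingHom K1) (S36AUX_h D.u) ∈ S18K_A0 A K1 (M' * q * q) := by
    rw [← S36UK_aux_eq]
    obtain ⟨h1, -, h3⟩ := S36HTI_mem_top A K1 D q M' hq hqM hr
    exact Subring.sub_mem _ h3 h1
  exact S36MK_main A K1 q M' hq hqM hA h hunr W3 S (S36AUX_h D.u) hx a hmod hxF hbr htX
    (S36MKH_DA A K1 q M' D hq hqM hr hA a G hmod hG) hlam hlq f hf0 hdiv hπ

end Main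

end Fermat.Agent.S36_helper14_MIDKH
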