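import Mathlib
import Fermat.Agent.S36_helper17_TRIPLEK
import Fermat.Agent.S34_Contracts

/-!
# S36, GEO36 (d) REG36 [TRIPLE]: from the crossing at level `q² M'` to the crossing at level
`q M'` (helper17)

At a maximal ideal `m` of the finite chart `A` of level `q² M'` which is a crossing at the level
`q M'` (`S36DI_Cross V_∞ V_0 A' A m`, the fourth alternative of `S36DI_main`), the ideal
`m' = m ∩ A'` of the chart `A'` of level `q M'` is a prime (maximal) ideal over `π` through which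
both components `V'_∞`, `V'_0` of level `q M'` pass (`S34K_Thru`): the point hypotheses of THICK
(`S36THP_main`: `hπm`, `hOn1`, `hOn2`) at `m'`.
-/

set_option autoImplicit false
set_option linter.unusedSectionVars false
set_option linter.unusedVariables false
set_option linter.style.haveILetI false
set_option synthInstance.maxHeartbeats 40000
set_option maxHeartbeats 400000

open ModularCurve Fermat.Agent.S24
open Fermat.Agent.S18_helper13_GAUSS Fermat.Agent.S18_helper9_CDefs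
open Fermat.Agent.S18_helper25_COREDefs Fermat.Agent.S34_helper12_CDefs
open Fermat.Agent.S34_helper27_C2Defs Fermat.Agent.S34_helper27_C2ADAPT
open Fermat.Agent.S34_helper27_V3K Fermat.Agent.S34_helper20_V0K
open Fermat.Agent.S18_helper3_LOCRING
open Fermat.Agent.S36_helper5_VKDefs
open Fermat.Agent.S36_helper9_DICH
open Fermat.Agent.S36_helper17_TRIPLEK

noncomputable section

namespace Fermat.Agent.S36_helper17_CROSSK

section Abs

variable {L : Type*} [Field L] {π : L} {F1 : Subfield L} {V V' A' A : Subring L}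

/-- a multiple of `π` in a valuation ring in which `π` is a non-unit is zero or a non-unit -/
theorem S36CRK_nonunit (H : S34C2_Val π F1 V) {a v : L} (hv : v ∈ V) (ha : a = π * v)
    (ha0 : a ≠ 0) : a⁻¹ ∉ V := by
  intro hinv
  apply H.π_nonunit
  have hπ0 : π ≠ 0 := left_ne_zero_of_mul (ha ▸ ha0)
  have hv0 : v ≠ 0 := right_ne_zero_of_mul (ha ▸ ha0)
  have e : π⁻¹ = v * a⁻¹ := by
    rw [ha]
    field_simp
  rw [e]
  exact V.mul_mem hv hinv

/-- **the component `V'` passes through `m ∩ A'`**, from 'the non-units of `V` in `A'` lie in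
`m`' (`V' ≤ V`). -/
theorem S36CRK_thru (hA'A : A' ≤ A) (m : Ideal A) (H : S34C2_Val π F1 V) (hV' : V' ≤ V)
    (hOn : ∀ a : A, (a : L) ∈ A' → ((a : L))⁻¹ ∉ V → a ∈ m) :
    Fermat.Agent.S34_Contracts.S34K_Thru π V' A' (m.comap (Subring.inclusion hA'A)) := by
  rintro a ⟨v, hv, hav⟩
  rw [Ideal.mem_comap]
  by_cases ha0 : (a : L) = 0
  · have : a = 0 := Subtype.ext ha0
    rw [this, map_zero]
    exact m.zero_mem
  · exact hOn _ a.2 (S36CRK_nonunit H (hV' hv) hav ha0)

/-- `m ∩ A'` is a prime ideal -/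
theorem S36CRK_comap_isPrime (hA'A : A' ≤ A) (m : Ideal A) [hm : m.IsPrime] :
    (m.comap (Subring.inclusion hA'A)).IsPrime :=
  Ideal.comap_isPrime _ m

/-- `m ∩ A'` is a maximal ideal (`A` integral over `A'`) -/
theorem S36CRK_comap_isMaximal (hA'A : A' ≤ A) (hint : ∀ a ∈ A, IsIntegral A' a) (m : Ideal A)
    (hm : m.IsMaximal) : (m.comap (Subring.inclusion hA'A)).IsMaximal := by
  letI : Algebra A' A := (Subring.inclusion hA'A).toAlgebra
  haveI : Algebra.IsIntegral A' A := by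
    refine ⟨fun a => ?_⟩
    obtain ⟨p, hp, hpe⟩ := hint a a.2
    refine ⟨p, hp, ?_⟩
    apply Subtype.ext
    have h1 : ((Polynomial.eval₂ (algebraMap A' A) a p : A) : L) =
        Polynomial.eval₂ (algebraMap A' L) (a : L) p := by
      have := Polynomial.hom_eval₂ p (algebraMap A' A) A.subtype a
      exact this
    rw [h1]
    exact hpe
  exact Ideal.isMaximal_comap_of_isIntegral_of_isMaximal (R := A') m

end Abs

section Carriers

variable (A : ValuationSubring (AlgebraicClosure ℚ))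
  (K1 : IntermediateField ℚ (AlgebraicClosure ℚ)) [IsDiscreteValuationRing (S18K_O1 A K1)]
  (q M' : ℕ) [NeZero M'] [NeZero q] [NeZero (M' * q)] [NeZero (q * q)] [NeZero (q ^ 2)]
  [NeZero (M' * q * q)]

/-- **`hOn1` of THICK at `m ∩ A'`**: the Gauss component of level `M' q` passes through
`m ∩ A'` at a crossing `m`. -/
theorem S36CRK_thru_oo (W3 : Subring (LaurentSeries K1))
    (m : Ideal (S18K_A0 A K1 (M' * q * q)))
    (hcross : S36DI_Cross (S18K_V A K1 (M' * q * q)) W3 (S18K_A0 A K1 (M' * q))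
      (S18K_A0 A K1 (M' * q * q)) m) :
    Fermat.Agent.S34_Contracts.S34K_Thru (S18K_π A K1) (S18K_V A K1 (M' * q))
      (S18K_A0 A K1 (M' * q)) (m.comap (Subring.inclusion (S36TXK_le A K1 q M'))) :=
  S36CRK_thru _ m (S34V3K_val1 A K1 (M' * q * q)) (S34V3K_V_mono A K1 ⟨q, rfl⟩) hcross.1

/-- **`hOn2` of THICK at `m ∩ A'`**: the second component `V'_0` of level `M' q` passes through
`m ∩ A'` at a crossing `m` (`V'_0 ≤ W3`). -/
theorem S36CRK_thru_0 (hq : q.Prime) (hqM : ¬ q ∣ M') (hN1 : M' * q = q * M')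
    (W3 : Subring (LaurentSeries K1))
    (H3 : S34C2_Val (S18K_π A K1) (S18K_F1 K1 (M' * q * q)) W3)
    (hVb3 : S34V0K_V A K1 q M' (M' * q) hq hqM hN1 ≤ W3)
    (m : Ideal (S18K_A0 A K1 (M' * q * q)))
    (hcross : S36DI_Cross (S18K_V A K1 (M' * q * q)) W3 (S18K_A0 A K1 (M' * q))
      (S18K_A0 A K1 (M' * q * q)) m) :
    Fermat.Agent.S34_Contracts.S34K_Thru (S18K_π A K1)
      (S34V0K_V A K1 q M' (M' * q) hq hqM hN1)
      (S18K_A0 A K1 (M' * q)) (m.comap (Subring.inclusion (S36TXK_le A K1 q M'))) :=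
  S36CRK_thru _ m H3 hVb3 hcross.2

/-- the same for helper5's carrier `V_0 = S36VK_V0` -/
theorem S36CRK_thru_0K (hq : q.Prime) (hqM : ¬ q ∣ M') (hN1 : M' * q = q * M')
    (m : Ideal (S18K_A0 A K1 (M' * q * q)))
    (hcross : S36DI_Cross (S18K_V A K1 (M' * q * q)) (S36VK_V0 A K1 q M' hq hqM)
      (S18K_A0 A K1 (M' * q)) (S18K_A0 A K1 (M' * q * q)) m) :
    Fermat.Agent.S34_Contracts.S34K_Thru (S18K_π A K1)
      (S34V0K_V A K1 q M' (M' * q) hq hqM hN1)
      (S18K_A0 A K1 (M' * q)) (m.comap (Subring.inclusion (S36TXK_le A K1 q M'))) :=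
  S36CRK_thru_0 A K1 q M' hq hqM hN1 _ (S36VK_V0_val A K1 q M' hq hqM)
    (Fermat.Agent.S36_helper23_V0QX.S36V0QY_hVb3 A K1 q M' hq hqM hN1) m hcross

/-- **`hπm` of THICK at `m ∩ A'`** -/
theorem S36CRK_pi_mem (hq : q.Prime) (hqM : ¬ q ∣ M') (hA : A.LiesOverPrime q)
    (W3 : Subring (LaurentSeries K1)) (m : Ideal (S18K_A0 A K1 (M' * q * q)))
    (hcross : S36DI_Cross (S18K_V A K1 (M' * q * q)) W3 (S18K_A0 A K1 (M' * q))
      (S18K_A0 A K1 (M' * q * q)) m) :
    (⟨S18K_π A K1, S36TXK_pi_mem A K1 q M' hq hqM hA⟩ : S18K_A0 A K1 (M' * q)) ∈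
      m.comap (Subring.inclusion (S36TXK_le A K1 q M')) :=
  S36CRK_thru_oo A K1 q M' W3 m hcross _
    ⟨1, Subring.one_mem _, (mul_one _).symm⟩

/-- `m ∩ A'` is a maximal ideal of the chart of level `M' q` -/
theorem S36CRK_isMaximal (hq : q.Prime) (hqM : ¬ q ∣ M') (hA : A.LiesOverPrime q)
    (m : Ideal (S18K_A0 A K1 (M' * q * q))) (hm : m.IsMaximal) :
    (m.comap (Subring.inclusion (S36TXK_le A K1 q M'))).IsMaximal :=
  S36CRK_comap_isMaximal (A' := S18K_A0 A K1 (M' * q)) (A := S18K_A0 A K1 (M' * q * q)) _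
    (fun a (ha : a ∈ S18K_A0 A K1 (M' * q * q)) =>
      Fermat.Agent.S36_helper17_TRIPLEY.S36TY_hint (S36TXK_adj_le A K1 q M' hq hqM hA) ha.1)
    m hm

end Carriers

end Fermat.Agent.S36_helper17_CROSSK
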