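import Mathlib
import Fermat.Agent.S18_helper3_LOCRING
import Fermat.Agent.S36_helper18_THICK

/-!
# S36 (helper18): THICK-WIRE, abstract layer (Subring-`L` vocabulary)

`B ≤ A` two charts inside a field `L` (levels `N''` and `N'' q`), `V1`, `V2` the two valuation
rings over `π` (`A ≤ V1`, `A ≤ V2`), `m` a prime ideal of `A` through which both pass, `x ∈ B` the
coordinate, `y = V_q x ∈ A`, `T1 = x^q - y ∈ π V1`, `S1 = x - y^q ∈ π V2`, `S1 ∉ π V1`,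
`Φ(x, y) = 0` for `Φ = (X^q - Y)(X - Y^q) + q G`, and `D = q dx/dy ∈ locRing A m ∩ π V2`.

* `S36THW_P`      : the prime ideal `locRing A m ∩ π V1` of the local ring;
* `S36THW_unit`   : **`G(x, y)` is a unit of `locRing A m`** (thickness one);
* `S36THW_node`   : `T1 S1 = π u`, `u ∈ A \ m`;
* `S36THW_gen`    : every element of `m` lies, up to an element of `A \ m`, in `(π, T1, S1) A`.
-/

set_option autoImplicit false
set_option linter.unusedSectionVars false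
set_option linter.unusedVariables false
set_option linter.unusedSimpArgs false
set_option linter.style.haveILetI false

open MvPolynomial

namespace Fermat.Agent.S36_helper18_THICKW

open Fermat.Agent.S18_helper3_LOCRING Fermat.Agent.S36_helper18_THICK

variable {L : Type*} [Field L]

section Prime

variable (A V1 : Subring L) (π : L) (m : Ideal A) [hm : m.IsPrime]

/-- the ideal `locRing A m ∩ π V1` of the local ring, elementwise -/
def S36THW_P (hAV1 : A ≤ V1) : Ideal (locRing A m) where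
  carrier := {r | ∃ c : A, c ∉ m ∧ ∃ v ∈ V1, (r : L) * (c : L) = π * v}
  zero_mem' := ⟨1, fun h1 => hm.ne_top ((Ideal.eq_top_iff_one m).2 h1), 0, V1.zero_mem, by simp⟩
  add_mem' := by
    rintro r r' ⟨c, hc, v, hv, h⟩ ⟨c', hc', v', hv', h'⟩
    refine ⟨c * c', fun hmem => ?_, v * c' + v' * c, ?_, ?_⟩
    · rcases hm.mem_or_mem hmem with h1 | h1
      exacts [hc h1, hc' h1]
    · exact V1.add_mem (V1.mul_mem hv (hAV1 c'.2)) (V1.mul_mem hv' (hAV1 c.2))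
    · push_cast
      linear_combination (c' : L) * h + (c : L) * h'
  smul_mem' := by
    rintro t r ⟨c, hc, v, hv, h⟩
    obtain ⟨a, ct, hct, hat⟩ := t.2
    refine ⟨c * ct, fun hmem => ?_, v * a, V1.mul_mem hv (hAV1 a.2), ?_⟩
    · rcases hm.mem_or_mem hmem with h1 | h1
      exacts [hc h1, hct h1]
    · show ((t : L) * (r : L)) * ((c * ct : A) : L) = π * (v * a)
      push_cast
      linear_combination (a : L) * h + (r : L) * (c : L) * hat

theorem S36THW_mem_P (hAV1 : A ≤ V1) (r : locRing A m) :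
    r ∈ S36THW_P A V1 π m hAV1 ↔ ∃ c : A, c ∉ m ∧ ∃ v ∈ V1, (r : L) * (c : L) = π * v :=
  Iff.rfl

variable (hAV1 : A ≤ V1)
  (hOn1 : ∀ a : A, (∃ v ∈ V1, (a : L) = π * v) → a ∈ m)
  (hprime1 : ∀ a b : L, a ∈ V1 → b ∈ V1 → (∃ v ∈ V1, a * b = π * v) →
    (∃ v ∈ V1, a = π * v) ∨ (∃ v ∈ V1, b = π * v))

include hOn1 hprime1 in
/-- an element `a / c` of the local ring lies in `P` iff `a ∈ π V1` -/
theorem S36THW_mem_P_of (r : locRing A m) (a c : A) (hc : c ∉ m)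
    (hac : (r : L) * (c : L) = a) :
    r ∈ S36THW_P A V1 π m hAV1 ↔ ∃ v ∈ V1, (a : L) = π * v := by
  constructor
  · rintro ⟨c', hc', v, hv, h⟩
    have h1 : (a : L) * (c' : L) = π * (v * c) := by
      rw [← hac]
      linear_combination (c : L) * h
    rcases hprime1 a c' (hAV1 a.2) (hAV1 c'.2) ⟨v * c, V1.mul_mem hv (hAV1 c.2), h1⟩ with h2 | h2
    · exact h2
    · exact absurd (hOn1 c' h2) hc'
  · rintro ⟨v, hv, h⟩
    exact ⟨c, hc, v, hv, by rw [hac, h]⟩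

include hOn1 hprime1 in
theorem S36THW_P_isPrime : (S36THW_P A V1 π m hAV1).IsPrime := by
  constructor
  · intro htop
    have h1 : (1 : locRing A m) ∈ S36THW_P A V1 π m hAV1 := by rw [htop]; trivial
    obtain ⟨c, hc, v, hv, h⟩ := h1
    apply hc
    apply hOn1 c
    refine ⟨v, hv, ?_⟩
    rw [← h]
    simp
  · intro r r' hrr'
    obtain ⟨a, c, hc, hac⟩ := r.2
    obtain ⟨a', c', hc', hac'⟩ := r'.2
    have hcc' : c * c' ∉ m := fun hmem => by
      rcases hm.mem_or_mem hmem with h1 | h1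
      exacts [hc h1, hc' h1]
    have h1 : ((r * r' : locRing A m) : L) * ((c * c' : A) : L) = ((a * a' : A) : L) := by
      push_cast
      rw [← hac, ← hac']
      ring
    obtain ⟨v, hv, h2⟩ :=
      (S36THW_mem_P_of A V1 π m hAV1 hOn1 hprime1 (r * r') (a * a') (c * c') hcc' h1).1 hrr'
    push_cast at h2
    rcases hprime1 a a' (hAV1 a.2) (hAV1 a'.2) ⟨v, hv, h2⟩ with h3 | h3
    · exact Or.inl ((S36THW_mem_P_of A V1 π m hAV1 hOn1 hprime1 r a c hc hac).2 h3)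
    · exact Or.inr ((S36THW_mem_P_of A V1 π m hAV1 hOn1 hprime1 r' a' c' hc' hac').2 h3)

end Prime

/-! ### generic: geometric sums modulo an ideal -/

/-- `∑_{i < n} a^i b^(n-1-i) ∈ m` if `a - b ∈ m` and `n ∈ m`. -/
theorem S36THW_geom_mem {R : Type*} [CommRing R] (m : Ideal R) (a b : R) (n : ℕ)
    (hab : a - b ∈ m) (hn : (n : R) ∈ m) :
    ∑ i ∈ Finset.range n, a ^ i * b ^ (n - 1 - i) ∈ m := by
  rw [← Ideal.Quotient.eq_zero_iff_mem, map_sum]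
  have h1 : Ideal.Quotient.mk m a = Ideal.Quotient.mk m b := by
    rw [← sub_eq_zero, ← map_sub]
    exact Ideal.Quotient.eq_zero_iff_mem.mpr hab
  have h2 : ∀ i ∈ Finset.range n, Ideal.Quotient.mk m (a ^ i * b ^ (n - 1 - i)) =
      (Ideal.Quotient.mk m b) ^ (n - 1) := by
    intro i hi
    rw [map_mul, map_pow, map_pow, h1, ← pow_add]
    congr 1
    have := Finset.mem_range.mp hi
    omega
  rw [Finset.sum_congr rfl h2, Finset.sum_const, Finset.card_range, nsmul_eq_mul]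
  have h3 : ((n : ℕ) : R ⧸ m) = Ideal.Quotient.mk m (n : R) := by rw [map_natCast]
  rw [h3, Ideal.Quotient.eq_zero_iff_mem.mpr hn, zero_mul]

section Main

variable (A B V1 V2 : Subring L) (π w x x0 y D : L) (q : ℕ) (m : Ideal A) [hm : m.IsPrime]
  (G : MvPolynomial (Fin 2) ℤ)

/-- **the branch decomposition**: every element of `m` is, up to an element of `A \ m`, a
multiple of `S1 = x - y^q` modulo `A ∩ π V1`. -/
theorem S36THW_decomp (hBA : B ≤ A) (hAV1 : A ≤ V1)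
    (hπA : π ∈ A) (hqm : (q : A) ∈ m)
    (hOn1 : ∀ a : A, (∃ v ∈ V1, (a : L) = π * v) → a ∈ m)
    (hsf : ∀ a ∈ A, ∃ b ∈ B, ∃ v ∈ V1, a - b = π * v)
    (hx : x ∈ B) (hy : y ∈ A) (hx0 : x0 ∈ B)
    (hx0m : (⟨x - x0, A.sub_mem (hBA hx) (hBA hx0)⟩ : A) ∈ m)
    (hE1 : ∀ b : B, (⟨b, hBA b.2⟩ : A) ∈ m → ∃ s : B, (⟨s, hBA s.2⟩ : A) ∉ m ∧
      ∃ α β : B, (s : L) * (b : L) = α * π + β * (x - x0))
    (hconst : ∃ c' ∈ A, x0 - x0 ^ (q ^ 2) = π * c')
    (hT1 : ∃ v ∈ V1, x ^ q - y = π * v) (a : A) (ha : a ∈ m) :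
    ∃ σ : A, σ ∉ m ∧ ∃ β : A, ∃ v ∈ V1, (σ : L) * (a : L) - (β : L) * (x - y ^ q) = π * v := by
  classical
  have hxA : x ∈ A := hBA hx
  have hx0A : x0 ∈ A := hBA hx0
  have hone : (1 : A) ∉ m := fun h1 => hm.ne_top ((Ideal.eq_top_iff_one m).2 h1)
  obtain ⟨b, hb, v, hv, hab⟩ := hsf a a.2
  have hπv : π * v ∈ A := by rw [← hab]; exact A.sub_mem a.2 (hBA hb)
  have hbm : (⟨b, hBA hb⟩ : A) ∈ m := by
    have h1 : (⟨π * v, hπv⟩ : A) ∈ m := hOn1 _ ⟨v, hv, rfl⟩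
    have h2 : (⟨b, hBA hb⟩ : A) = a - ⟨π * v, hπv⟩ := by
      apply Subtype.ext
      show b = (a : L) - π * v
      rw [← hab]; ring
    rw [h2]
    exact m.sub_mem ha h1
  obtain ⟨s, hs, α, β, hsb⟩ := hE1 ⟨b, hb⟩ hbm
  obtain ⟨c', hc', hcc⟩ := hconst
  obtain ⟨vT, hvT, hT⟩ := hT1
  set xA : A := ⟨x, hxA⟩ with hxAdef
  set x0A : A := ⟨x0, hx0A⟩ with hx0Adef
  set yA : A := ⟨y, hy⟩ with hyAdef
  set h1 : A := ∑ i ∈ Finset.range (q ^ 2), xA ^ i * x0A ^ (q ^ 2 - 1 - i) with hh1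
  set h2 : A := ∑ i ∈ Finset.range q, yA ^ i * (xA ^ q) ^ (q - 1 - i) with hh2
  have hg1 : h1 * (xA - x0A) = xA ^ (q ^ 2) - x0A ^ (q ^ 2) :=
    Commute.geom_sum₂_mul (Commute.all _ _) _
  have hg2 : h2 * (yA - xA ^ q) = yA ^ q - (xA ^ q) ^ q :=
    Commute.geom_sum₂_mul (Commute.all _ _) _
  have hg1L : (h1 : L) * (x - x0) = x ^ (q ^ 2) - x0 ^ (q ^ 2) := by
    have := congrArg (fun t : A => (t : L)) hg1
    simpa using this
  have hg2L : (h2 : L) * (y - x ^ q) = y ^ q - (x ^ q) ^ q := by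
    have := congrArg (fun t : A => (t : L)) hg2
    simpa using this
  have hh1m : h1 ∈ m := by
    refine S36THW_geom_mem m xA x0A (q ^ 2) hx0m ?_
    have : ((q ^ 2 : ℕ) : A) = (q : A) * (q : A) := by push_cast; ring
    rw [this]
    exact m.mul_mem_right _ hqm
  set ε : A := 1 - h1 with hε
  have hεm : ε ∉ m := fun h => hone (by
    have : (1 : A) = ε + h1 := by rw [hε]; ring
    rw [this]; exact m.add_mem h hh1m)
  have hεL : (ε : L) = 1 - (h1 : L) := by rw [hε]; push_cast; ring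
  have hkey : (x - x0) * (ε : L) = (x - y ^ q) - (x ^ q - y) * (h2 : L) - π * c' := by
    rw [hεL]
    have e1 : (x ^ q) ^ q = x ^ (q ^ 2) := by rw [← pow_mul, pow_two]
    rw [e1] at hg2L
    linear_combination (-1 : L) * hg1L - hg2L - hcc
  set σ : A := ⟨s, hBA s.2⟩ * ε with hσdef
  have hσm : σ ∉ m := fun hmem => by
    rcases hm.mem_or_mem hmem with h' | h'
    exacts [hs h', hεm h']
  have hσL : (σ : L) = (s : L) * (ε : L) := by rw [hσdef]; push_cast; rfl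
  refine ⟨σ, hσm, ⟨β, hBA β.2⟩,
    α * (ε : L) - (β : L) * vT * (h2 : L) - β * c' + (s : L) * (ε : L) * v, ?_, ?_⟩
  · refine V1.add_mem (V1.sub_mem (V1.sub_mem ?_ ?_) ?_) ?_
    · exact V1.mul_mem (hAV1 (hBA α.2)) (hAV1 ε.2)
    · exact V1.mul_mem (V1.mul_mem (hAV1 (hBA β.2)) hvT) (hAV1 h2.2)
    · exact V1.mul_mem (hAV1 (hBA β.2)) (hAV1 hc')
    · exact V1.mul_mem (V1.mul_mem (hAV1 (hBA s.2)) (hAV1 ε.2)) hv
  · have e3 : (a : L) = b + π * v := by rw [← hab]; ring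
    show (σ : L) * (a : L) - (β : L) * (x - y ^ q) = _
    rw [hσL, e3]
    linear_combination (ε : L) * hsb + (β : L) * hkey - (β : L) * (h2 : L) * hT

/-- **THICK-WIRE, abstract: `G(x, y)` is a unit of the local ring** at a crossing point. -/
theorem S36THW_unit (hq : q.Prime) (hBA : B ≤ A) (hAV1 : A ≤ V1) (hAV2 : A ≤ V2)
    (hπA : π ∈ A) (hπ0 : π ≠ 0) (hπm : (⟨π, hπA⟩ : A) ∈ m)
    (hwA : w ∈ A) (hw0 : w ≠ 0) (hqπ : (q : L) = π * w)
    (hOn1 : ∀ a : A, (∃ v ∈ V1, (a : L) = π * v) → a ∈ m)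
    (hOn2 : ∀ a : A, (∃ v ∈ V2, (a : L) = π * v) → a ∈ m)
    (hprime1 : ∀ a b : L, a ∈ V1 → b ∈ V1 → (∃ v ∈ V1, a * b = π * v) →
      (∃ v ∈ V1, a = π * v) ∨ (∃ v ∈ V1, b = π * v))
    (hsf : ∀ a ∈ A, ∃ b ∈ B, ∃ v ∈ V1, a - b = π * v)
    (hx : x ∈ B) (hy : y ∈ A) (hx0 : x0 ∈ B)
    (hx0m : (⟨x - x0, A.sub_mem (hBA hx) (hBA hx0)⟩ : A) ∈ m)
    (hE1 : ∀ b : B, (⟨b, hBA b.2⟩ : A) ∈ m → ∃ s : B, (⟨s, hBA s.2⟩ : A) ∉ m ∧
      ∃ α β : B, (s : L) * (b : L) = α * π + β * (x - x0))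
    (hconst : ∃ c' ∈ A, x0 - x0 ^ (q ^ 2) = π * c')
    (hΦ : S36TH_ev ![x, y] (S36TH_Phi q G) = 0)
    (hD : D * S36TH_ev ![x, y] (pderiv 0 (S36TH_Phi q G)) =
      -(q : L) * S36TH_ev ![x, y] (pderiv 1 (S36TH_Phi q G)))
    (hDR : D ∈ locRing A m) (hDV2 : ∃ v ∈ V2, D = π * v)
    (hT1 : ∃ v ∈ V1, x ^ q - y = π * v) (hS1V2 : ∃ v ∈ V2, x - y ^ q = π * v)
    (hS1 : ¬ ∃ v ∈ V1, x - y ^ q = π * v) :
    ∃ hG : S36TH_ev ![x, y] G ∈ locRing A m,
      IsUnit (⟨S36TH_ev ![x, y] G, hG⟩ : locRing A m) := by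
  classical
  have hxA : x ∈ A := hBA hx
  have hx0A : x0 ∈ A := hBA hx0
  set R := locRing A m with hR
  have hAR : A ≤ R := le_locRing A m
  have hone : (1 : A) ∉ m := fun h1 => hm.ne_top ((Ideal.eq_top_iff_one m).2 h1)
  set xR : R := ⟨x, hAR hxA⟩ with hxR
  set yR : R := ⟨y, hAR hy⟩ with hyR
  set DR : R := ⟨D, hDR⟩ with hDRdef
  have hev : ∀ H : MvPolynomial (Fin 2) ℤ,
      ((S36TH_ev ![xR, yR] H : R) : L) = S36TH_ev ![x, y] H := by
    intro H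
    have := S36TH_map_ev (R.subtype) ![xR, yR] H
    rw [S36TH_vec] at this
    exact this
  have hP := S36THW_P_isPrime A V1 π m hAV1 hOn1 hprime1
  set P := S36THW_P A V1 π m hAV1 with hPdef
  have hS1A : x - y ^ q ∈ A := A.sub_mem hxA (A.pow_mem hy q)
  have hS1m : (⟨x - y ^ q, hS1A⟩ : A) ∈ m := hOn2 _ hS1V2
  have hq0 : (q : L) ≠ 0 := by rw [hqπ]; exact mul_ne_zero hπ0 hw0
  have hqA : ((q : A) : L) = (q : L) := by simp
  have hqm : (q : A) ∈ m := by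
    have : (q : A) = ⟨π, hπA⟩ * ⟨w, hwA⟩ := by
      apply Subtype.ext
      rw [hqA, hqπ]
      rfl
    rw [this]
    exact m.mul_mem_right _ hπm
  have hunit : IsUnit (S36TH_ev ![xR, yR] G) := by
    haveI := hP
    refine S36TH_unit q hq P xR yR DR G ?_ ?_ ?_ ?_ ?_ ?_ ?_ ?_ ?_
    · refine ⟨1, hone, w, hAV1 hwA, ?_⟩
      have : (((q : R) : R) : L) = (q : L) := by simp
      rw [this, hqπ]
      simp
    · intro z hz
      have h1 : ((q : R) : L) * (z : L) = 0 := by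
        have := congrArg (fun t : R => (t : L)) hz
        simpa using this
      have h2 : ((q : R) : L) = (q : L) := by simp
      rw [h2] at h1
      rcases mul_eq_zero.mp h1 with h3 | h3
      · exact absurd h3 hq0
      · exact Subtype.ext h3
    · obtain ⟨v, hv, h⟩ := hT1
      exact ⟨1, hone, v, hv, by
        show (x ^ q - y) * ((1 : A) : L) = π * v
        rw [h]; simp⟩
    · intro hmem
      have := (S36THW_mem_P_of A V1 π m hAV1 hOn1 hprime1 (xR - yR ^ q) ⟨x - y ^ q, hS1A⟩ 1 hone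
        (by show (x - y ^ q) * ((1 : A) : L) = x - y ^ q; simp)).1 hmem
      exact hS1 this
    · exact incl_mem_maximalIdeal A m hS1m
    · intro z hz
      obtain ⟨a, c₀, ha, hc₀, hzc⟩ := (mem_maximalIdeal_iff A m z).1 hz
      obtain ⟨σ, hσm, β, v, hv, hσa⟩ := S36THW_decomp A B V1 π x x0 y q m hBA hAV1 hπA hqm
        hOn1 hsf hx hy hx0 hx0m hE1 hconst hT1 a ha
      set cc : A := c₀ * σ with hccdef
      have hccm : cc ∉ m := fun hmem => by
        rcases hm.mem_or_mem hmem with h | h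
        exacts [hc₀ h, hσm h]
      have hccL : (cc : L) = (c₀ : L) * (σ : L) := by rw [hccdef]; push_cast; rfl
      have hcc0 : (cc : L) ≠ 0 := coe_ne_zero_of_notMem A m hccm
      refine ⟨⟨(β : L) * (cc : L)⁻¹, R.mul_mem (hAR β.2) (inv_mem_locRing A m hccm)⟩, ?_⟩
      refine ⟨cc, hccm, v, hv, ?_⟩
      show ((z : L) - (β : L) * (cc : L)⁻¹ * (x - y ^ q)) * (cc : L) = _
      have e2 : (z : L) * (cc : L) = (σ : L) * (a : L) := by
        rw [hccL, ← hzc]; ring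
      have e4 : (β : L) * (cc : L)⁻¹ * (x - y ^ q) * (cc : L) = (β : L) * (x - y ^ q) := by
        field_simp
      rw [sub_mul, e2, e4]
      exact hσa
    · apply Subtype.ext
      rw [hev]
      exact hΦ
    · apply Subtype.ext
      show D * ((S36TH_ev ![xR, yR] (pderiv 0 (S36TH_Phi q G)) : R) : L) =
        ((-(q : R) * S36TH_ev ![xR, yR] (pderiv 1 (S36TH_Phi q G)) : R) : L)
      push_cast
      rw [hev, hev]
      exact hD
    · obtain ⟨a, c, hc, hac⟩ := hDR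
      refine (mem_maximalIdeal_iff A m DR).2 ⟨a, c, ?_, hc, hac⟩
      obtain ⟨v, hv, hDv⟩ := hDV2
      refine hOn2 a ⟨v * c, V2.mul_mem hv (hAV2 c.2), ?_⟩
      rw [← hac, hDv]; ring
  refine ⟨?_, ?_⟩
  · rw [← hev G]; exact (S36TH_ev ![xR, yR] G).2
  · convert hunit using 1
    apply Subtype.ext
    exact (hev G).symm

/-- **the node**: `T1 S1 = π u` with `u ∈ A \ m` (thickness one), from the unit. -/
theorem S36THW_node (hπ0 : π ≠ 0)
    (hwA : w ∈ A) (hwm : (⟨w, hwA⟩ : A) ∉ m) (hqπ : (q : L) = π * w)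
    (hx : x ∈ A) (hy : y ∈ A)
    (hΦ : S36TH_ev ![x, y] (S36TH_Phi q G) = 0)
    (hG : ∃ hG : S36TH_ev ![x, y] G ∈ locRing A m,
      IsUnit (⟨S36TH_ev ![x, y] G, hG⟩ : locRing A m)) :
    ∃ u : A, u ∉ m ∧ (x ^ q - y) * (x - y ^ q) = π * (u : L) := by
  have hone : (1 : A) ∉ m := fun h1 => hm.ne_top ((Ideal.eq_top_iff_one m).2 h1)
  set xA : A := ⟨x, hx⟩ with hxA
  set yA : A := ⟨y, hy⟩ with hyA
  have hev : ((S36TH_ev ![xA, yA] G : A) : L) = S36TH_ev ![x, y] G := by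
    have := S36TH_map_ev (A.subtype) ![xA, yA] G
    rw [S36TH_vec] at this
    exact this
  obtain ⟨hGR, hGu⟩ := hG
  have hGm : S36TH_ev ![xA, yA] G ∉ m := by
    refine (isUnit_iff A m _).1 hGu (S36TH_ev ![xA, yA] G) 1 hone ?_
    show S36TH_ev ![x, y] G * ((1 : A) : L) = _
    rw [hev]; simp
  refine ⟨-(⟨w, hwA⟩ * S36TH_ev ![xA, yA] G), fun hmem => ?_, ?_⟩
  · rw [Ideal.neg_mem_iff] at hmem
    rcases hm.mem_or_mem hmem with h | h
    exacts [hwm h, hGm h]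
  · rw [S36TH_Phi_ev] at hΦ
    push_cast
    rw [hev]
    show (x ^ q - y) * (x - y ^ q) = π * -(w * S36TH_ev ![x, y] G)
    rw [hqπ] at hΦ
    linear_combination hΦ

/-- **generation**: every element of `m` lies, up to an element of `A \ m`, in `(T1, S1) A`. -/
theorem S36THW_gen (hBA : B ≤ A) (hAV1 : A ≤ V1) (hAV2 : A ≤ V2)
    (hπA : π ∈ A) (hπ0 : π ≠ 0) (hqm : (q : A) ∈ m)
    (hOn1 : ∀ a : A, (∃ v ∈ V1, (a : L) = π * v) → a ∈ m)
    (hsat : ∀ a ∈ A, (∃ v ∈ V1, a = π * v) → (∃ v ∈ V2, a = π * v) → ∃ a' ∈ A, a = π * a')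
    (hsf : ∀ a ∈ A, ∃ b ∈ B, ∃ v ∈ V1, a - b = π * v)
    (hx : x ∈ B) (hy : y ∈ A) (hx0 : x0 ∈ B)
    (hx0m : (⟨x - x0, A.sub_mem (hBA hx) (hBA hx0)⟩ : A) ∈ m)
    (hE1 : ∀ b : B, (⟨b, hBA b.2⟩ : A) ∈ m → ∃ s : B, (⟨s, hBA s.2⟩ : A) ∉ m ∧
      ∃ α β : B, (s : L) * (b : L) = α * π + β * (x - x0))
    (hconst : ∃ c' ∈ A, x0 - x0 ^ (q ^ 2) = π * c')
    (hT1 : ∃ v ∈ V1, x ^ q - y = π * v) (hS1V2 : ∃ v ∈ V2, x - y ^ q = π * v)
    (hS10 : x - y ^ q ≠ 0)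
    (hnode : ∃ u : A, u ∉ m ∧ (x ^ q - y) * (x - y ^ q) = π * (u : L))
    (a : A) (ha : a ∈ m) :
    ∃ s : A, s ∉ m ∧ ∃ β γ : A,
      (s : L) * (a : L) = (β : L) * (x ^ q - y) + (γ : L) * (x - y ^ q) := by
  obtain ⟨σ, hσm, β, v, hv, hσa⟩ := S36THW_decomp A B V1 π x x0 y q m hBA hAV1 hπA hqm
    hOn1 hsf hx hy hx0 hx0m hE1 hconst hT1 a ha
  obtain ⟨u, hum, hnode⟩ := hnode
  have hxA : x ∈ A := hBA hx
  have hS1A : x - y ^ q ∈ A := A.sub_mem hxA (A.pow_mem hy q)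
  -- p := σ a - β S1 ∈ A ∩ π V1
  have hpA : π * v ∈ A := by
    rw [← hσa]
    exact A.sub_mem (A.mul_mem σ.2 a.2) (A.mul_mem β.2 hS1A)
  obtain ⟨v2, hv2, hS2⟩ := hS1V2
  obtain ⟨a', ha', hpa⟩ := hsat (π * v * (x - y ^ q)) (A.mul_mem hpA hS1A)
    ⟨v * (x - y ^ q), V1.mul_mem hv (hAV1 hS1A), by ring⟩
    ⟨π * v * v2, V2.mul_mem (hAV2 hpA) hv2, by rw [hS2]; ring⟩
  -- u p = T1 a'
  have hup : (u : L) * (π * v) = (x ^ q - y) * a' := by
    have h1 : (x - y ^ q) * ((u : L) * (π * v) - (x ^ q - y) * a') = 0 := by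
      linear_combination (u : L) * hpa - a' * hnode
    rcases mul_eq_zero.mp h1 with h2 | h2
    · exact absurd h2 hS10
    · exact sub_eq_zero.mp h2
  refine ⟨u * σ, fun hmem => ?_, ⟨a', ha'⟩, u * β, ?_⟩
  · rcases hm.mem_or_mem hmem with h | h
    exacts [hum h, hσm h]
  · push_cast
    linear_combination (u : L) * hσa + hup

end Main

end Fermat.Agent.S36_helper18_THICKW
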