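import Mathlib
import Fermat.Agent.S34_helper13_P1C
import Fermat.Agent.S34_helper14_N1SJ
import Fermat.Agent.S36_helper18_THICKW
import Fermat.Agent.S36_helper18_THICKV

/-!
# S36 (helper18): THICK, the concrete plug

Carriers: `A` a valuation ring of `ℚ̄` over `q`, `K1` admissible, `N = q N'`, `q ∤ N'`,
`r ∣ N'` (`r` the auxiliary level, `Dx : S36AUX_Data r`), `x = h = S36AUX_hK K1 Dx.u`,
`y = V_q x`, `T1 = x^q - y`, `S1 = x - y^q`; charts `B = S18K_A0 A K1 N'`,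
`A' = S18K_A0 A K1 N`; `V1 = S18K_V A K1 N`, `V2 = S34V0K_V A K1 q N' N`.

* `S36THP_main` : at every prime `m ∋ π` of `A'` through which both `V1` and `V2` pass
  (a crossing point): `T1 S1 = π u` with `u ∈ A' \ m` (thickness one), and every element of `m`
  is, up to an element of `A' \ m`, an `A'`-combination of `T1` and `S1`.

Inputs kept as hypotheses (each is the landed output of its provider): the Kronecker polynomial
`G` (helper15 `S36HXK_main`), `D = q dx/dy ∈ A'` (helper25 `S36TU_unr` + THICK-HART),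
`x ∈ B`, `y ∈ A'` (integrality), the local generation (E1, helper7) of `m ∩ B` by `π` and
`x - x0`, and `q = π w` with `w` a unit of `O` (unramified level).
-/

set_option autoImplicit false
set_option linter.unusedSectionVars false
set_option linter.unusedVariables false
set_option linter.unusedSimpArgs false
set_option linter.style.haveILetI false

noncomputable section

open MvPolynomial ModularCurve
open Fermat.Agent.S18_helper13_GAUSS Fermat.Agent.S36_helper8_AUXDefs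
open Fermat.Agent.S36_helper18_THICK Fermat.Agent.S36_helper18_THICKW
open Fermat.Agent.S36_helper18_THICKV
open Fermat.Agent.S34_helper20_V0K Fermat.Agent.S34_helper20_V0
open Fermat.Agent.S18_helper25_COREDefs Fermat.Agent.S34_helper27_V3K
open Fermat.Agent.S18_helper9_CDefs Fermat.Agent.S34_helper12_CDefs
open Fermat.Agent.S18_helper3_LOCRING

namespace Fermat.Agent.S36_helper18_THICKP

section Abs

variable {L : Type*} [Field L]

/-- in a valuation ring with uniformiser `π`, `π V` is a prime ideal (elementwise) -/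
theorem S36THP_prime {π : L} {V : Subring L}
    (hunif : ∀ x ∈ V, x⁻¹ ∉ V → ∃ v ∈ V, x = π * v) (a b : L) (ha : a ∈ V) (hb : b ∈ V)
    (hab : ∃ v ∈ V, a * b = π * v) :
    (∃ v ∈ V, a = π * v) ∨ (∃ v ∈ V, b = π * v) := by
  by_cases ha0 : a = 0
  · exact Or.inl ⟨0, V.zero_mem, by rw [ha0, mul_zero]⟩
  by_cases hinv : a⁻¹ ∈ V
  · right
    obtain ⟨v, hv, h⟩ := hab
    refine ⟨a⁻¹ * v, V.mul_mem hinv hv, ?_⟩
    have : b = a⁻¹ * (a * b) := by rw [← mul_assoc, inv_mul_cancel₀ ha0, one_mul]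
    rw [this, h]; ring
  · exact Or.inl (hunif a ha hinv)

/-- a non-unit of the discrete valuation ring `O` is a multiple of the uniformiser -/
theorem S36THP_O_unif {O : Subring L} {π : L} (hdvr : IsDiscreteValuationRing O) (hπO : π ∈ O)
    (hirr : Irreducible (⟨π, hπO⟩ : O)) (c : L) (hc : c ∈ O) (hcinv : c⁻¹ ∉ O) :
    ∃ c' ∈ O, c = π * c' := by
  have hnu : ¬ IsUnit (⟨c, hc⟩ : O) := by
    rintro ⟨u, hu⟩
    apply hcinv
    have h1 : c * ((u⁻¹ : Oˣ) : O) = 1 := by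
      have h2 : ((u : O) : L) = c := congrArg Subtype.val hu
      rw [← h2]
      exact_mod_cast congrArg Subtype.val (u.mul_inv)
    have h3 : c⁻¹ = ((u⁻¹ : Oˣ) : O) := (eq_inv_of_mul_eq_one_right h1).symm
    rw [h3]
    exact ((u⁻¹ : Oˣ) : O).2
  have hmem : (⟨c, hc⟩ : O) ∈ IsLocalRing.maximalIdeal O := (IsLocalRing.mem_maximalIdeal _).2 hnu
  rw [hirr.maximalIdeal_eq, Ideal.mem_span_singleton] at hmem
  obtain ⟨c', hc'⟩ := hmem
  exact ⟨c', c'.2, congrArg Subtype.val hc'⟩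

/-- **constants at a crossing point**: if `x ≡ x0`, `y ≡ x^q`, `x ≡ y^q` modulo `m`, then the
constant `x0 - x0^(q²)` is a multiple of `π`. -/
theorem S36THP_const (A O : Subring L) (hOA : O ≤ A) (π x x0 y : L) (q : ℕ) (m : Ideal A)
    [hm : m.IsPrime]
    (hOπ : ∀ c ∈ O, c⁻¹ ∉ O → ∃ c' ∈ O, c = π * c')
    (hx : x ∈ A) (hy : y ∈ A) (hx0 : x0 ∈ O)
    (hx0m : (⟨x - x0, A.sub_mem hx (hOA hx0)⟩ : A) ∈ m)
    (hT1m : (⟨x ^ q - y, A.sub_mem (A.pow_mem hx q) hy⟩ : A) ∈ m)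
    (hS1m : (⟨x - y ^ q, A.sub_mem hx (A.pow_mem hy q)⟩ : A) ∈ m) :
    ∃ c' ∈ A, x0 - x0 ^ (q ^ 2) = π * c' := by
  set xA : A := ⟨x, hx⟩ with hxA
  set yA : A := ⟨y, hy⟩ with hyA
  set zA : A := ⟨x0, hOA hx0⟩ with hzA
  have e1 : Ideal.Quotient.mk m xA = Ideal.Quotient.mk m zA := by
    rw [← sub_eq_zero, ← map_sub]
    exact Ideal.Quotient.eq_zero_iff_mem.mpr hx0m
  have e2 : Ideal.Quotient.mk m yA = (Ideal.Quotient.mk m xA) ^ q := by
    rw [eq_comm, ← sub_eq_zero, ← map_pow, ← map_sub]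
    exact Ideal.Quotient.eq_zero_iff_mem.mpr hT1m
  have e3 : Ideal.Quotient.mk m xA = (Ideal.Quotient.mk m yA) ^ q := by
    rw [← sub_eq_zero, ← map_pow, ← map_sub]
    exact Ideal.Quotient.eq_zero_iff_mem.mpr hS1m
  have hcm : zA - zA ^ (q ^ 2) ∈ m := by
    rw [← Ideal.Quotient.eq_zero_iff_mem, map_sub, map_pow, ← e1, sub_eq_zero]
    conv_lhs => rw [e3, e2]
    rw [← pow_mul, pow_two]
  have hcO : x0 - x0 ^ (q ^ 2) ∈ O := O.sub_mem hx0 (O.pow_mem hx0 _)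
  by_cases hinv : (x0 - x0 ^ (q ^ 2))⁻¹ ∈ O
  · by_cases h0 : x0 - x0 ^ (q ^ 2) = 0
    · exact ⟨0, A.zero_mem, by rw [h0, mul_zero]⟩
    · exfalso
      apply hm.ne_top
      rw [Ideal.eq_top_iff_one]
      have h1 : (1 : A) = (zA - zA ^ (q ^ 2)) * ⟨(x0 - x0 ^ (q ^ 2))⁻¹, hOA hinv⟩ := by
        apply Subtype.ext
        show (1 : L) = (x0 - x0 ^ (q ^ 2)) * (x0 - x0 ^ (q ^ 2))⁻¹
        rw [mul_inv_cancel₀ h0]
      rw [h1]
      exact Ideal.mul_mem_right _ _ hcm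
  · obtain ⟨c', hc', h⟩ := hOπ _ hcO hinv
    exact ⟨c', hOA hc', h⟩

end Abs

/-! ### The concrete carriers -/

section Concrete

variable (A : ValuationSubring (AlgebraicClosure ℚ))
  (K1 : IntermediateField ℚ (AlgebraicClosure ℚ)) [IsDiscreteValuationRing (S18K_O1 A K1)]
  {r : ℕ} [NeZero r] (Dx : S36AUX_Data r)
  (q N' N : ℕ) [NeZero N'] [NeZero N] [NeZero q] (hq : q.Prime) (hqN : ¬ q ∣ N')
  (hN : N = q * N') (hr : r ∣ N')

include hN in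
/-- the chart of level `N'` is contained in the chart of level `N = q N'` -/
theorem S36THP_le : S18K_A0 A K1 N' ≤ S18K_A0 A K1 N := fun a ha =>
  mem_icl.2 ⟨(mem_icl.1 ha).1, S34V3K_F1_mono K1 (S34V0K_dvd hN) (mem_icl.1 ha).2⟩

/-- **(E1) in the coordinate `x`, at level `N'`**: at every maximal ideal `mB ∋ π` of the chart
`B = S18K_A0 A K1 N'` there is a constant `x0 ∈ O` with `x - x0 ∈ mB`, and `mB` is generated by
`π` and `x - x0` locally at `mB`.  (The output shape of helper7's E1.) -/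
def S36THP_E1 (N' : ℕ) (x : LaurentSeries K1) : Prop :=
  ∀ mB : Ideal (S18K_A0 A K1 N'), mB.IsMaximal →
    (∀ a : S18K_A0 A K1 N', (a : LaurentSeries K1) = S18K_π A K1 → a ∈ mB) →
    ∃ x0 ∈ S18K_O A K1,
      (∀ a : S18K_A0 A K1 N', (a : LaurentSeries K1) = x - x0 → a ∈ mB) ∧
      ∀ b ∈ mB, ∃ s : S18K_A0 A K1 N', s ∉ mB ∧ ∃ α β : S18K_A0 A K1 N',
        (s : LaurentSeries K1) * (b : LaurentSeries K1) =
          (α : LaurentSeries K1) * S18K_π A K1 + (β : LaurentSeries K1) * (x - x0)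

include hr in
/-- **THICK at the carriers**: the node and the generation at a crossing point of level
`N = q N'`. -/
theorem S36THP_main (hA : A.LiesOverPrime q) (h : S18K_Admissible A K1 q)
    (w : LaurentSeries K1) (hwO : w ∈ S18K_O A K1) (hwinv : w⁻¹ ∈ S18K_O A K1)
    (hqπ : ((q : ℕ) : LaurentSeries K1) = S18K_π A K1 * w)
    (G : MvPolynomial (Fin 2) ℤ)
    (hΦ : S36TH_ev ![S36AUX_hK K1 Dx.u, qExpand K1 q (S36AUX_hK K1 Dx.u)] (S36TH_Phi q G) = 0)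
    (Dq : LaurentSeries K1) (hDA : Dq ∈ S18K_A0 A K1 N)
    (hD : Dq * S36TH_ev ![S36AUX_hK K1 Dx.u, qExpand K1 q (S36AUX_hK K1 Dx.u)]
        (pderiv 0 (S36TH_Phi q G)) =
      -((q : ℕ) : LaurentSeries K1) *
        S36TH_ev ![S36AUX_hK K1 Dx.u, qExpand K1 q (S36AUX_hK K1 Dx.u)]
          (pderiv 1 (S36TH_Phi q G)))
    (hxB : S36AUX_hK K1 Dx.u ∈ S18K_A0 A K1 N')
    (hyA : qExpand K1 q (S36AUX_hK K1 Dx.u) ∈ S18K_A0 A K1 N)
    (hE1 : S36THP_E1 A K1 N' (S36AUX_hK K1 Dx.u))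
    (m : Ideal (S18K_A0 A K1 N)) [hm : m.IsPrime]
    (hmB : (m.comap (Subring.inclusion (S36THP_le A K1 q N' N hN))).IsMaximal)
    (hOn1 : ∀ a : S18K_A0 A K1 N,
      (∃ v ∈ S18K_V A K1 N, (a : LaurentSeries K1) = S18K_π A K1 * v) → a ∈ m)
    (hOn2 : ∀ a : S18K_A0 A K1 N,
      (∃ v ∈ S34V0K_V A K1 q N' N hq hqN hN, (a : LaurentSeries K1) = S18K_π A K1 * v) →
        a ∈ m) :
    (∃ u : S18K_A0 A K1 N, u ∉ m ∧
      ((S36AUX_hK K1 Dx.u) ^ q - qExpand K1 q (S36AUX_hK K1 Dx.u)) *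
        (S36AUX_hK K1 Dx.u - (qExpand K1 q (S36AUX_hK K1 Dx.u)) ^ q) =
        S18K_π A K1 * (u : LaurentSeries K1)) ∧
    (∀ a : S18K_A0 A K1 N, a ∈ m → ∃ s : S18K_A0 A K1 N, s ∉ m ∧ ∃ β γ : S18K_A0 A K1 N,
      (s : LaurentSeries K1) * (a : LaurentSeries K1) =
        (β : LaurentSeries K1) * ((S36AUX_hK K1 Dx.u) ^ q - qExpand K1 q (S36AUX_hK K1 Dx.u)) +
        (γ : LaurentSeries K1) *
          (S36AUX_hK K1 Dx.u - (qExpand K1 q (S36AUX_hK K1 Dx.u)) ^ q)) := by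
  haveI : Fact q.Prime := ⟨hq⟩
  haveI : CharZero (LaurentSeries K1) :=
    charZero_of_injective_ringHom (HahnSeries.C_injective (Γ := ℤ) (R := K1))
  have S := Fermat.Agent.S34_helper13_P1C.S34P1C_setup2 A K1 q N' N hq hqN hN hA
  have hBA := S36THP_le A K1 q N' N hN
  have hAV1 : S18K_A0 A K1 N ≤ S18K_V A K1 N := fun a ha => (S.chart0.le_V ha).1
  have hAV2 : S18K_A0 A K1 N ≤ S34V0K_V A K1 q N' N hq hqN hN := fun a ha =>
    (S.chart0.le_V ha).2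
  have hOA : S18K_O A K1 ≤ S18K_A0 A K1 N :=
    Fermat.Agent.S34_helper14_N1K.S34N1K_O_le_A0 A K1 N
  have hOB : S18K_O A K1 ≤ S18K_A0 A K1 N' :=
    Fermat.Agent.S34_helper14_N1K.S34N1K_O_le_A0 A K1 N'
  have hπO : S18K_π A K1 ∈ S18K_O A K1 := S.π_mem
  have hπA : S18K_π A K1 ∈ S18K_A0 A K1 N := hOA hπO
  have hπ0 : S18K_π A K1 ≠ 0 := (S18K_D A K1).πK_ne_zero
  have hπm : (⟨S18K_π A K1, hπA⟩ : S18K_A0 A K1 N) ∈ m :=
    hOn1 _ ⟨1, one_mem _, by simp⟩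
  have hwA : w ∈ S18K_A0 A K1 N := hOA hwO
  have hq0 : ((q : ℕ) : LaurentSeries K1) ≠ 0 := by exact_mod_cast hq.ne_zero
  have hw0 : w ≠ 0 := by
    rintro rfl
    rw [mul_zero] at hqπ
    exact hq0 hqπ
  have hone : (1 : S18K_A0 A K1 N) ∉ m := fun h1 => hm.ne_top ((Ideal.eq_top_iff_one m).2 h1)
  have hwm : (⟨w, hwA⟩ : S18K_A0 A K1 N) ∉ m := by
    intro hmem
    apply hone
    have h1 : (1 : S18K_A0 A K1 N) = ⟨w, hwA⟩ * ⟨w⁻¹, hOA hwinv⟩ := by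
      apply Subtype.ext
      show (1 : LaurentSeries K1) = w * w⁻¹
      rw [mul_inv_cancel₀ hw0]
    rw [h1]
    exact Ideal.mul_mem_right _ _ hmem
  have hqm : ((q : ℕ) : S18K_A0 A K1 N) ∈ m := by
    have h1 : ((q : ℕ) : S18K_A0 A K1 N) = ⟨S18K_π A K1, hπA⟩ * ⟨w, hwA⟩ := by
      apply Subtype.ext
      push_cast
      exact hqπ
    rw [h1]
    exact Ideal.mul_mem_right _ _ hπm
  have hprime1 := S36THP_prime (π := S18K_π A K1) (V := S18K_V A K1 N) S.V1_unif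
  have hsf := Fermat.Agent.S34_helper14_N1SJ.S34N1SJ_sf A K1 q N' N hq hqN hN hA h
  -- (E1) at `m ∩ B`
  have hmemB : ∀ b : S18K_A0 A K1 N',
      b ∈ m.comap (Subring.inclusion hBA) ↔ (⟨b, hBA b.2⟩ : S18K_A0 A K1 N) ∈ m := by
    intro b
    rw [Ideal.mem_comap]
    have e : Subring.inclusion hBA b = ⟨b, hBA b.2⟩ := Subtype.ext rfl
    rw [e]
  have hx0B' : ∀ x0 ∈ S18K_O A K1, x0 ∈ S18K_A0 A K1 N' := fun x0 h0 => hOB h0
  obtain ⟨x0, hx0O, hx0m, hgenB⟩ := hE1 _ hmB (fun a ha => by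
    rw [hmemB]
    have : (⟨a, hBA a.2⟩ : S18K_A0 A K1 N) = ⟨S18K_π A K1, hπA⟩ := Subtype.ext ha
    rw [this]; exact hπm)
  have hx0B : x0 ∈ S18K_A0 A K1 N' := hOB hx0O
  have hx0m' : (⟨S36AUX_hK K1 Dx.u - x0,
      (S18K_A0 A K1 N).sub_mem (hBA hxB) (hBA hx0B)⟩ : S18K_A0 A K1 N) ∈ m := by
    have h1 := hx0m ⟨S36AUX_hK K1 Dx.u - x0, (S18K_A0 A K1 N').sub_mem hxB hx0B⟩ rfl
    rw [hmemB] at h1
    exact h1
  have hE1' : ∀ b : S18K_A0 A K1 N', (⟨b, hBA b.2⟩ : S18K_A0 A K1 N) ∈ m →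
      ∃ s : S18K_A0 A K1 N', (⟨s, hBA s.2⟩ : S18K_A0 A K1 N) ∉ m ∧
        ∃ α β : S18K_A0 A K1 N', (s : LaurentSeries K1) * (b : LaurentSeries K1) =
          α * S18K_π A K1 + β * (S36AUX_hK K1 Dx.u - x0) := fun b hb => by
    obtain ⟨s, hs, α, β, h⟩ := hgenB b ((hmemB b).2 hb)
    exact ⟨s, fun hmem => hs ((hmemB s).2 hmem), α, β, h⟩
  have hT1 := S36THV_T1_V1 A K1 Dx q N' N hq hN hr hA
  have hS1V2 := S36THV_S1_V2 A K1 Dx q N' N hq hqN hN hr hA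
  have hS1 := S36THV_S1_V1 A K1 Dx q N' N hq hN hr hA
  have hS10 := (S36THV_S1_unit A K1 Dx q N' N hq hN hr hA).1
  have hxA : S36AUX_hK K1 Dx.u ∈ S18K_A0 A K1 N := hBA hxB
  have hT1m : (⟨(S36AUX_hK K1 Dx.u) ^ q - qExpand K1 q (S36AUX_hK K1 Dx.u),
      (S18K_A0 A K1 N).sub_mem ((S18K_A0 A K1 N).pow_mem hxA q) hyA⟩ : S18K_A0 A K1 N) ∈ m :=
    hOn1 _ hT1
  have hS1m : (⟨S36AUX_hK K1 Dx.u - (qExpand K1 q (S36AUX_hK K1 Dx.u)) ^ q,
      (S18K_A0 A K1 N).sub_mem hxA ((S18K_A0 A K1 N).pow_mem hyA q)⟩ : S18K_A0 A K1 N) ∈ m :=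
    hOn2 _ hS1V2
  have hconst := S36THP_const (S18K_A0 A K1 N) (S18K_O A K1) hOA (S18K_π A K1)
    (S36AUX_hK K1 Dx.u) x0 (qExpand K1 q (S36AUX_hK K1 Dx.u)) q m
    (S36THP_O_unif S.dvr hπO (S.π_irr hπO)) hxA hyA hx0O hx0m' hT1m hS1m
  have hDF : Dq ∈ modularFunctionFieldFullC K1 N := (mem_icl.1 hDA).2
  obtain ⟨v, hv, hDv⟩ := S36THV_D_V2 A K1 Dx q N' N hq hqN hN hr hA G Dq hDF hD
  have hDV2 : ∃ v ∈ S34V0K_V A K1 q N' N hq hqN hN, Dq = S18K_π A K1 * v :=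
    ⟨((q : ℕ) : LaurentSeries K1) * v, Subring.mul_mem _ (natCast_mem _ q) hv, hDv⟩
  have hunit := S36THW_unit (S18K_A0 A K1 N) (S18K_A0 A K1 N') (S18K_V A K1 N)
    (S34V0K_V A K1 q N' N hq hqN hN) (S18K_π A K1) w (S36AUX_hK K1 Dx.u) x0
    (qExpand K1 q (S36AUX_hK K1 Dx.u)) Dq q m G hq hBA hAV1 hAV2 hπA hπ0 hπm hwA hw0 hqπ
    hOn1 hOn2 hprime1 hsf hxB hyA hx0B hx0m' hE1' hconst hΦ hD
    (le_locRing _ _ hDA) hDV2 hT1 hS1V2 hS1
  have hnode := S36THW_node (S18K_A0 A K1 N) (S18K_π A K1) w (S36AUX_hK K1 Dx.u)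
    (qExpand K1 q (S36AUX_hK K1 Dx.u)) q m G hπ0 hwA hwm hqπ hxA hyA hΦ hunit
  have hsat : ∀ a ∈ S18K_A0 A K1 N, (∃ v ∈ S18K_V A K1 N, a = S18K_π A K1 * v) →
      (∃ v ∈ S34V0K_V A K1 q N' N hq hqN hN, a = S18K_π A K1 * v) →
      ∃ a' ∈ S18K_A0 A K1 N, a = S18K_π A K1 * a' := by
    rintro a ha ⟨v1, hv1, h1⟩ ⟨v2, hv2, h2⟩
    have e : v1 = v2 := mul_left_cancel₀ hπ0 (h1.symm.trans h2)
    refine ⟨v1, S.chart0.sat v1 ⟨hv1, e ▸ hv2⟩ (h1 ▸ ha), h1⟩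
  refine ⟨hnode, fun a ha => ?_⟩
  exact S36THW_gen (S18K_A0 A K1 N) (S18K_A0 A K1 N') (S18K_V A K1 N)
    (S34V0K_V A K1 q N' N hq hqN hN) (S18K_π A K1) (S36AUX_hK K1 Dx.u) x0
    (qExpand K1 q (S36AUX_hK K1 Dx.u)) q m hBA hAV1 hAV2 hπA hπ0 hqm hOn1 hsat hsf hxB hyA
    hx0B hx0m' hE1' hconst hT1 hS1V2 hS10 hnode a ha

/-- the contraction of a maximal ideal of a subring `X`, integral over `B`, is maximal -/
theorem S36THP_comap_max {L : Type*} [Field L] {B X : Subring L} (hBX : B ≤ X)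
    (hint : ∀ a ∈ X, IsIntegral B a) (m : Ideal X) (hmax : m.IsMaximal) :
    (m.comap (Subring.inclusion hBX)).IsMaximal := by
  haveI := hmax
  refine Ideal.isMaximal_comap_of_isIntegral_of_isMaximal' (Subring.inclusion hBX) ?_ m
  intro a
  obtain ⟨p, hp, hpa⟩ := hint a a.2
  refine ⟨p, hp, ?_⟩
  apply Subtype.ext
  have h1 := Polynomial.hom_eval₂ p (Subring.inclusion hBX) X.subtype a
  have h2 : (X.subtype).comp (Subring.inclusion hBX) = algebraMap B L := RingHom.ext fun _ => rfl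
  rw [h2] at h1
  have h3 : X.subtype a = (a : L) := rfl
  rw [h3, hpa] at h1
  exact h1

/-- contraction in two steps -/
theorem S36THP_comap_trans {L : Type*} [Field L] {B A' X : Subring L} (hBA : B ≤ A')
    (hA'X : A' ≤ X) (m : Ideal X) :
    (m.comap (Subring.inclusion hA'X)).comap (Subring.inclusion hBA) =
      m.comap (Subring.inclusion (hBA.trans hA'X)) := by
  ext b
  rw [Ideal.mem_comap, Ideal.mem_comap, Ideal.mem_comap]
  have e : Subring.inclusion hA'X (Subring.inclusion hBA b) =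
      Subring.inclusion (hBA.trans hA'X) b := Subtype.ext rfl
  rw [e]

include hr in
/-- **THICK, consumer form** (= the block [THICK] of `S36TX_main` / `S36DIX_main`): `X` any
subring containing the chart `A' = S18K_A0 A K1 N`, `m` a maximal ideal of `X` whose contraction
to `B = S18K_A0 A K1 N'` is maximal (`S36THP_comap_max`: automatic if `X` is integral over `B`),
on the branches `V_∞`, `V_0` (any valuation rings inducing `V1`,
`V2` on `F(N)`). -/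
theorem S36THP_cross (hA : A.LiesOverPrime q) (h : S18K_Admissible A K1 q)
    (w : LaurentSeries K1) (hwO : w ∈ S18K_O A K1) (hwinv : w⁻¹ ∈ S18K_O A K1)
    (hqπ : ((q : ℕ) : LaurentSeries K1) = S18K_π A K1 * w)
    (G : MvPolynomial (Fin 2) ℤ)
    (hΦ : S36TH_ev ![S36AUX_hK K1 Dx.u, qExpand K1 q (S36AUX_hK K1 Dx.u)] (S36TH_Phi q G) = 0)
    (Dq : LaurentSeries K1) (hDA : Dq ∈ S18K_A0 A K1 N)
    (hD : Dq * S36TH_ev ![S36AUX_hK K1 Dx.u, qExpand K1 q (S36AUX_hK K1 Dx.u)]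
        (pderiv 0 (S36TH_Phi q G)) =
      -((q : ℕ) : LaurentSeries K1) *
        S36TH_ev ![S36AUX_hK K1 Dx.u, qExpand K1 q (S36AUX_hK K1 Dx.u)]
          (pderiv 1 (S36TH_Phi q G)))
    (hxB : S36AUX_hK K1 Dx.u ∈ S18K_A0 A K1 N')
    (hyA : qExpand K1 q (S36AUX_hK K1 Dx.u) ∈ S18K_A0 A K1 N)
    (hE1 : S36THP_E1 A K1 N' (S36AUX_hK K1 Dx.u))
    (X : Subring (LaurentSeries K1)) (hA'X : S18K_A0 A K1 N ≤ X)
    (m : Ideal X) (hmax : m.IsMaximal)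
    (hmBX : (m.comap (Subring.inclusion ((S36THP_le A K1 q N' N hN).trans hA'X))).IsMaximal)
    (Voo V0 : Subring (LaurentSeries K1))
    (hVoo : ∀ a ∈ modularFunctionFieldFullC K1 N, a ∈ Voo → a ∈ S18K_V A K1 N)
    (hV0 : ∀ a ∈ modularFunctionFieldFullC K1 N, a ∈ V0 → a ∈ S34V0K_V A K1 q N' N hq hqN hN)
    (hOnoo : ∀ a : S18K_A0 A K1 N, ((a : LaurentSeries K1))⁻¹ ∉ Voo →
      Subring.inclusion hA'X a ∈ m)
    (hOn0 : ∀ a : S18K_A0 A K1 N, ((a : LaurentSeries K1))⁻¹ ∉ V0 →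
      Subring.inclusion hA'X a ∈ m) :
    ∃ π' w' x' y' : S18K_A0 A K1 N,
      (π' : LaurentSeries K1) = S18K_π A K1 ∧ (w' : LaurentSeries K1) = w ∧
      (x' : LaurentSeries K1) = S36AUX_hK K1 Dx.u ∧
      (y' : LaurentSeries K1) = qExpand K1 q (S36AUX_hK K1 Dx.u) ∧
      ((q : ℕ) : S18K_A0 A K1 N) = π' * w' ∧
      Subring.inclusion hA'X π' ∈ m ∧
      (∀ a : S18K_A0 A K1 N, Subring.inclusion hA'X a ∈ m → ∃ s α β γ : S18K_A0 A K1 N,
        Subring.inclusion hA'X s ∉ m ∧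
          s * a = α * π' + β * (x' ^ q - y') + γ * (x' - y' ^ q)) ∧
      (∃ u c : S18K_A0 A K1 N, Subring.inclusion hA'X u ∉ m ∧ Subring.inclusion hA'X c ∉ m ∧
        c * ((x' ^ q - y') * (x' - y' ^ q)) = π' * u) := by
  haveI : CharZero (LaurentSeries K1) :=
    charZero_of_injective_ringHom (HahnSeries.C_injective (Γ := ℤ) (R := K1))
  have S := Fermat.Agent.S34_helper13_P1C.S34P1C_setup2 A K1 q N' N hq hqN hN hA
  have hBA := S36THP_le A K1 q N' N hN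
  have hOA : S18K_O A K1 ≤ S18K_A0 A K1 N :=
    Fermat.Agent.S34_helper14_N1K.S34N1K_O_le_A0 A K1 N
  have hπA : S18K_π A K1 ∈ S18K_A0 A K1 N := hOA S.π_mem
  have hπ0 : S18K_π A K1 ≠ 0 := (S18K_D A K1).πK_ne_zero
  have hwA : w ∈ S18K_A0 A K1 N := hOA hwO
  have hxA : S36AUX_hK K1 Dx.u ∈ S18K_A0 A K1 N := hBA hxB
  haveI hmp : m.IsPrime := hmax.isPrime
  obtain ⟨m', hm'⟩ : ∃ m' : Ideal (S18K_A0 A K1 N), m' = m.comap (Subring.inclusion hA'X) :=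
    ⟨_, rfl⟩
  haveI hm'p : m'.IsPrime := by rw [hm']; exact Ideal.comap_isPrime _ _
  have hmem : ∀ a : S18K_A0 A K1 N, a ∈ m' ↔ Subring.inclusion hA'X a ∈ m := fun a => by
    rw [hm', Ideal.mem_comap]
  -- the contraction to `B` is maximal
  have hmB : (m'.comap (Subring.inclusion hBA)).IsMaximal := by
    rw [hm', S36THP_comap_trans hBA hA'X m]
    exact hmBX
  -- the two branches pass through `m'`
  have hthru : ∀ (V V' : Subring (LaurentSeries K1)),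
      (∀ a ∈ modularFunctionFieldFullC K1 N, a ∈ V → a ∈ V') → (S18K_π A K1)⁻¹ ∉ V' →
      (∀ a : S18K_A0 A K1 N, ((a : LaurentSeries K1))⁻¹ ∉ V → Subring.inclusion hA'X a ∈ m) →
      ∀ a : S18K_A0 A K1 N, (∃ v ∈ V', (a : LaurentSeries K1) = S18K_π A K1 * v) → a ∈ m' := by
    intro V V' hVV' hnu hOn a hav
    obtain ⟨v, hv, hav⟩ := hav
    rw [hmem]
    by_cases ha0 : (a : LaurentSeries K1) = 0
    · have : a = 0 := Subtype.ext ha0
      rw [this, map_zero]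
      exact Ideal.zero_mem _
    refine hOn a fun hinv => hnu ?_
    have haF : ((a : LaurentSeries K1))⁻¹ ∈ modularFunctionFieldFullC K1 N :=
      inv_mem (mem_icl.1 a.2).2
    have hinv' := hVV' _ haF hinv
    have hv0 : v ≠ 0 := by
      rintro rfl
      rw [mul_zero] at hav
      exact ha0 hav
    have e : (S18K_π A K1)⁻¹ = v * ((a : LaurentSeries K1))⁻¹ := by
      rw [hav, mul_inv, ← mul_assoc, mul_comm v, mul_assoc, mul_inv_cancel₀ hv0, mul_one]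
    rw [e]
    exact Subring.mul_mem _ hv hinv'
  have hOn1 := hthru Voo (S18K_V A K1 N) hVoo S.V1_nonunit hOnoo
  have hOn2 := hthru V0 (S34V0K_V A K1 q N' N hq hqN hN) hV0 S.V2_nonunit hOn0
  obtain ⟨⟨u, hum, hnode⟩, hgen⟩ := S36THP_main A K1 Dx q N' N hq hqN hN hr hA h w hwO hwinv
    hqπ G hΦ Dq hDA hD hxB hyA hE1 m' hmB hOn1 hOn2
  refine ⟨⟨S18K_π A K1, hπA⟩, ⟨w, hwA⟩, ⟨S36AUX_hK K1 Dx.u, hxA⟩,
    ⟨qExpand K1 q (S36AUX_hK K1 Dx.u), hyA⟩, rfl, rfl, rfl, rfl, ?_, ?_, ?_, ?_⟩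
  · apply Subtype.ext
    push_cast
    exact hqπ
  · rw [← hmem]
    exact hOn1 _ ⟨1, one_mem _, by simp⟩
  · intro a ha
    obtain ⟨s, hs, β, γ, hsa⟩ := hgen a ((hmem a).2 ha)
    refine ⟨s, 0, β, γ, fun hmm => hs ((hmem s).2 hmm), ?_⟩
    apply Subtype.ext
    push_cast
    rw [hsa]
    ring
  · have hone : (1 : S18K_A0 A K1 N) ∉ m' := fun h1 =>
      hm'p.ne_top ((Ideal.eq_top_iff_one m').2 h1)
    refine ⟨u, 1, fun hmm => hum ((hmem u).2 hmm), fun hmm => hone ((hmem 1).2 hmm), ?_⟩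
    apply Subtype.ext
    push_cast
    rw [one_mul]
    exact hnode

end Concrete

end Fermat.Agent.S36_helper18_THICKP
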