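import Mathlib
import Fermat.Agent.S36_helper8_AUXDefs

/-!
# S36, piece AUX, instance `r = 9` (the case `q = 2`): shared definitions (helper24)

The Hauptmodul of level `9` is `t = (η(τ)/η(9τ))³ = Q⁻¹ - 3 + 5 Q² - 7 Q⁵ + ⋯`, with

* `j(τ)  = a(t)³ / B(t)`, `a = (t + 9)(t³ + 243 t² + 2187 t + 6561)`, `B = t⁹ (t² + 9 t + 27)`;
* `j(3τ) = n₃(t) / d₃(t)`, `n₃ = (t⁴ + 12 t³ + 54 t² + 324 t + 729)³`, `d₃ = t³ (t² + 9 t + 27)³`;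
* `j(9τ) = n₉(t) / d₉(t)`, `n₉ = (t + 3)³ (t³ + 9 t² + 27 t + 3)³`, `d₉ = t (t² + 9 t + 27)`;
* `a³ - 1728 B = c²`.

This file only contains definitions (polynomial functions on an arbitrary commutative ring, the
polynomials over `ℤ`, the classical modular polynomial `Φ₃` and its bihomogeneous form).
-/

set_option autoImplicit false

noncomputable section

namespace Fermat.Agent.S36_helper24_A9Defs

/-- the classical modular polynomial `Φ₃(X, Y)` -/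
def S36A9_Phi3 {R : Type*} [CommRing R] (X Y : R) : R :=
  X ^ 4 + Y ^ 4 - X ^ 3 * Y ^ 3 + 2232 * (X ^ 3 * Y ^ 2 + X ^ 2 * Y ^ 3)
    - 1069956 * (X ^ 3 * Y + X * Y ^ 3) + 36864000 * (X ^ 3 + Y ^ 3)
    + 2587918086 * X ^ 2 * Y ^ 2 + 8900222976000 * (X ^ 2 * Y + X * Y ^ 2)
    + 452984832000000 * (X ^ 2 + Y ^ 2) - 770845966336000000 * X * Y
    + 1855425871872000000000 * (X + Y)

/-- the bihomogeneous form `W⁴ Z⁴ Φ₃(X / W, Y / Z)` of `Φ₃` -/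
def S36A9_Phi3h {R : Type*} [CommRing R] (X W Y Z : R) : R :=
  X ^ 4 * Z ^ 4 + Y ^ 4 * W ^ 4 - X ^ 3 * W * Y ^ 3 * Z
    + 2232 * (X ^ 3 * W * Y ^ 2 * Z ^ 2 + X ^ 2 * W ^ 2 * Y ^ 3 * Z)
    - 1069956 * (X ^ 3 * W * Y * Z ^ 3 + X * W ^ 3 * Y ^ 3 * Z)
    + 36864000 * (X ^ 3 * W * Z ^ 4 + Y ^ 3 * Z * W ^ 4)
    + 2587918086 * X ^ 2 * W ^ 2 * Y ^ 2 * Z ^ 2
    + 8900222976000 * (X ^ 2 * W ^ 2 * Y * Z ^ 3 + X * W ^ 3 * Y ^ 2 * Z ^ 2)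
    + 452984832000000 * (X ^ 2 * W ^ 2 * Z ^ 4 + Y ^ 2 * Z ^ 2 * W ^ 4)
    - 770845966336000000 * X * W ^ 3 * Y * Z ^ 3
    + 1855425871872000000000 * (X * W ^ 3 * Z ^ 4 + Y * Z ^ 3 * W ^ 4)

/-- `a(t) = (t + 9)(t³ + 243 t² + 2187 t + 6561)` -/
def S36A9_aE {R : Type*} [CommRing R] (t : R) : R :=
  (t + 9) * (t ^ 3 + 243 * t ^ 2 + 2187 * t + 6561)

/-- `B(t) = t⁹ (t² + 9 t + 27)` -/
def S36A9_BE {R : Type*} [CommRing R] (t : R) : R :=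
  t ^ 9 * (t ^ 2 + 9 * t + 27)

/-- `c(t)`, with `a³ - 1728 B = c²` -/
def S36A9_cE {R : Type*} [CommRing R] (t : R) : R :=
  t ^ 6 - 486 * t ^ 5 - 24057 * t ^ 4 - 367416 * t ^ 3 - 2657205 * t ^ 2 - 9565938 * t
    - 14348907

/-- numerator of `j(3τ)` -/
def S36A9_n3E {R : Type*} [CommRing R] (t : R) : R :=
  (t ^ 4 + 12 * t ^ 3 + 54 * t ^ 2 + 324 * t + 729) ^ 3

/-- denominator of `j(3τ)` -/
def S36A9_d3E {R : Type*} [CommRing R] (t : R) : R :=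
  t ^ 3 * (t ^ 2 + 9 * t + 27) ^ 3

/-- numerator of `j(9τ)` -/
def S36A9_n9E {R : Type*} [CommRing R] (t : R) : R :=
  (t + 3) ^ 3 * (t ^ 3 + 9 * t ^ 2 + 27 * t + 3) ^ 3

/-- denominator of `j(9τ)` -/
def S36A9_d9E {R : Type*} [CommRing R] (t : R) : R :=
  t * (t ^ 2 + 9 * t + 27)

/-- the polynomial `a` over `ℤ` -/
def S36A9_a : Polynomial ℤ := S36A9_aE Polynomial.X

/-- the polynomial `B` over `ℤ` -/
def S36A9_B : Polynomial ℤ := S36A9_BE Polynomial.X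

/-- the polynomial `c` over `ℤ` -/
def S36A9_c : Polynomial ℤ := S36A9_cE Polynomial.X

end Fermat.Agent.S36_helper24_A9Defs
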