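import Fermat.Agent.S36_helper10_AUX9Sol
import Fermat.Agent.S36_helper24_A9Defs

/-!
# S36, piece AUX, instance `r = 9` (helper10): `Φ₃(j, j(Q³)) = 0` for the classical `Φ₃`

The modular equation of level `3` (landed existence statement `S34ME_hyp 3` of helper8: integer
coefficients, degree bounds, both relations) is the CLASSICAL modular polynomial
`Φ₃ = X⁴ + Y⁴ - X³Y³ + 2232 (X³Y² + X²Y³) - ⋯` (helper24's `S36A9_Phi3`): the 16 unknown
coefficients are determined by the Laurent coefficients of order `-12, …, 0` of the two relations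
(`S36A9_solve`, certificates checked by the kernel).

* `S36A9_phi3`  : `Φ₃(j, θ) = 0` in `LaurentSeries ℤ`, `θ = j(Q³)`;
* `S36A9_phi3Q` : `Φ₃(θ, j(Q⁹)) = 0` (the image under `Q ↦ Q³`).
-/

set_option autoImplicit false
set_option linter.unusedVariables false
set_option maxHeartbeats 1600000

noncomputable section

namespace Fermat.Agent.S36_helper10_AUX9Phi

open ModularCurve Finset
open Fermat.Agent.S36_helper10_AUX9Sol Fermat.Agent.S36_helper24_A9Defs

local notation "Lz" => LaurentSeries ℤ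
local notation "jz" => jqModC ℤ
local notation "θz" => qExpand ℤ 3 (jqModC ℤ)

/-- **`Φ₃(j(Q), j(Q³)) = 0`** for the classical modular polynomial `Φ₃`. -/
theorem S36A9_phi3 : S36A9_Phi3 (jqModC ℤ) (qExpand ℤ 3 (jqModC ℤ)) = 0 := by
  obtain ⟨a, hdeg, hmon, hnat, hE1, hE2⟩ :=
    Fermat.Agent.S34_helper8_MODEQ.S34ME_hyp 3 Nat.prime_three
  have h0 : (a 0).natDegree < 5 := by rw [hnat]; norm_num
  have h1 : (a 1).natDegree < 4 := Nat.lt_succ_of_le (hdeg 1 le_rfl (by norm_num))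
  have h2 : (a 2).natDegree < 4 := Nat.lt_succ_of_le (hdeg 2 (by norm_num) (by norm_num))
  have h3 : (a 3).natDegree < 4 := Nat.lt_succ_of_le (hdeg 3 (by norm_num) le_rfl)
  have hmon4 : (a 0).coeff 4 = 1 := by
    have := hmon.coeff_natDegree
    rwa [hnat] at this
  have hE1' : θz ^ 4 + ∑ i ∈ range 4,
      Polynomial.eval₂ (Int.castRingHom Lz) jz (a i) * θz ^ i = 0 := hE1
  have hE2' : jz ^ 4 + ∑ i ∈ range 4,
      Polynomial.eval₂ (Int.castRingHom Lz) θz (a i) * jz ^ i = 0 := hE2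
  obtain ⟨s0, s1, s2, s3, s4, s5, s6, s7, s8, s9, s10, s11, s12, s13, s14, s15⟩ :=
    S36A9_solve a h0 h1 h2 h3 hmon4 hE1' hE2'
  rw [Finset.sum_range_succ, Finset.sum_range_succ, Finset.sum_range_succ,
    Finset.sum_range_one, Polynomial.eval₂_eq_sum_range' _ h0,
    Polynomial.eval₂_eq_sum_range' _ h1, Polynomial.eval₂_eq_sum_range' _ h2,
    Polynomial.eval₂_eq_sum_range' _ h3] at hE1'
  simp only [Finset.sum_range_succ, Finset.sum_range_zero, zero_add, s0, s1, s2, s3, s4, s5, s6,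
    s7, s8, s9, s10, s11, s12, s13, s14, s15, hmon4, eq_intCast, Int.cast_ofNat, Int.cast_neg,
    Int.cast_one, Int.cast_zero] at hE1'
  unfold S36A9_Phi3
  linear_combination hE1'

/-- **`Φ₃(j(Q³), j(Q⁹)) = 0`.** -/
theorem S36A9_phi3Q :
    S36A9_Phi3 (qExpand ℤ 3 (jqModC ℤ)) (qExpand ℤ 9 (jqModC ℤ)) = 0 := by
  have h := congrArg (qExpand ℤ 3) S36A9_phi3
  have e : qExpand ℤ 3 (qExpand ℤ 3 (jqModC ℤ)) = qExpand ℤ 9 (jqModC ℤ) := by
    rw [qExpand_qExpand]
  unfold S36A9_Phi3 at h ⊢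
  simp only [map_add, map_sub, map_mul, map_pow, map_ofNat, map_zero, e] at h
  exact h

end Fermat.Agent.S36_helper10_AUX9Phi
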