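import Mathlib
import Fermat.Agent.S36_helper24_A9Defs

/-!
# S36, piece AUX, instance `r = 9`: the polynomial identities (helper24)

* `S36A9_hcE`   : `a³ - 1728 B = c²`;
* `S36A9_alg13` : `Φ₃(a³ / B, n₃ / d₃) = 0` (denominators cleared);
* `S36A9_alg39` : `Φ₃(n₃ / d₃, n₉ / d₉) = 0` (denominators cleared);
* `S36A9_Phi3_div` : `Φ₃(x / w, y / z) = Φ₃ʰ(x, w, y, z) / (w⁴ z⁴)` in a field.
-/

set_option autoImplicit false

namespace Fermat.Agent.S36_helper24_A9ALG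

open Fermat.Agent.S36_helper24_A9Defs

theorem S36A9_hcE {R : Type*} [CommRing R] (t : R) :
    S36A9_aE t ^ 3 - 1728 * S36A9_BE t = S36A9_cE t ^ 2 := by
  simp only [S36A9_aE, S36A9_BE, S36A9_cE]
  ring

set_option maxHeartbeats 4000000 in
theorem S36A9_alg13 {R : Type*} [CommRing R] (t : R) :
    S36A9_Phi3h (S36A9_aE t ^ 3) (S36A9_BE t) (S36A9_n3E t) (S36A9_d3E t) = 0 := by
  simp only [S36A9_Phi3h, S36A9_aE, S36A9_BE, S36A9_n3E, S36A9_d3E]
  ring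

set_option maxHeartbeats 4000000 in
theorem S36A9_alg39 {R : Type*} [CommRing R] (t : R) :
    S36A9_Phi3h (S36A9_n3E t) (S36A9_d3E t) (S36A9_n9E t) (S36A9_d9E t) = 0 := by
  simp only [S36A9_Phi3h, S36A9_n3E, S36A9_d3E, S36A9_n9E, S36A9_d9E]
  ring

theorem S36A9_Phi3_div {F : Type*} [Field F] (x w y z : F) (hw : w ≠ 0) (hz : z ≠ 0) :
    S36A9_Phi3 (x / w) (y / z) = S36A9_Phi3h x w y z / (w ^ 4 * z ^ 4) := by
  simp only [S36A9_Phi3, S36A9_Phi3h]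
  field_simp

end Fermat.Agent.S36_helper24_A9ALG
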