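import Mathlib
import Fermat.Agent.S36_helper24_A9Defs

/-!
# S36, piece AUX, instance `r = 9`: the Hensel root (helper24)

`u ∈ ℤ⟦X⟧` with `u(0) = 1` and `j · B(Q⁻¹ u) = a(Q⁻¹ u)³`, from Mathlib's `HenselianRing`
instance for the `(X)`-adically complete ring `ℤ⟦X⟧`.

* `S36A9H_at x u = x⁴ a(u / x)`, `S36A9H_Bt x u = x¹¹ B(u / x)` (homogenisations);
* `S36A9H_exists_root` : `∃ u, u(0) = 1 ∧ ã(X, u)³ = jNum · B̃(X, u)`;
* `S36A9H_rel_of_root` : the relation in Laurent series, over any commutative ring.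
-/

set_option autoImplicit false

noncomputable section

namespace Fermat.Agent.S36_helper24_A9H

open ModularCurve Fermat.Agent.S36_helper8_AUXDefs Fermat.Agent.S36_helper24_A9Defs

/-- `x⁴ a(u / x)` -/
def S36A9H_at {R : Type*} [CommRing R] (x u : R) : R :=
  (u + 9 * x) * (u ^ 3 + 243 * x * u ^ 2 + 2187 * x ^ 2 * u + 6561 * x ^ 3)

/-- `x¹¹ B(u / x)` -/
def S36A9H_Bt {R : Type*} [CommRing R] (x u : R) : R :=
  u ^ 9 * (u ^ 2 + 9 * x * u + 27 * x ^ 2)

theorem S36A9H_aE_mul {R : Type*} [CommRing R] (ti T u : R) (h : ti * T = 1) :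
    S36A9_aE (ti * u) = ti ^ 4 * S36A9H_at T u := by
  have h1 : S36A9_aE (ti * u) = (ti * u + 9 * (ti * T)) *
      ((ti * u) ^ 3 + 243 * (ti * T) * (ti * u) ^ 2 + 2187 * (ti * T) ^ 2 * (ti * u)
        + 6561 * (ti * T) ^ 3) := by
    rw [h]; simp only [S36A9_aE]; ring
  rw [h1]; simp only [S36A9H_at]; ring

theorem S36A9H_BE_mul {R : Type*} [CommRing R] (ti T u : R) (h : ti * T = 1) :
    S36A9_BE (ti * u) = ti ^ 11 * S36A9H_Bt T u := by
  have h1 : S36A9_BE (ti * u) = (ti * u) ^ 9 *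
      ((ti * u) ^ 2 + 9 * (ti * T) * (ti * u) + 27 * (ti * T) ^ 2) := by
    rw [h]; simp only [S36A9_BE]; ring
  rw [h1]; simp only [S36A9H_Bt]; ring

theorem S36A9H_at_map {R S : Type*} [CommRing R] [CommRing S] (f : R →+* S) (x u : R) :
    f (S36A9H_at x u) = S36A9H_at (f x) (f u) := by
  simp only [S36A9H_at, map_add, map_mul, map_pow, map_ofNat]

theorem S36A9H_Bt_map {R S : Type*} [CommRing R] [CommRing S] (f : R →+* S) (x u : R) :
    f (S36A9H_Bt x u) = S36A9H_Bt (f x) (f u) := by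
  simp only [S36A9H_Bt, map_add, map_mul, map_pow, map_ofNat]

/-- the Hensel polynomial `ã(X, Y)³ - jNum · B̃(X, Y)` over `ℤ⟦X⟧` -/
def S36A9H_F : Polynomial (PowerSeries ℤ) :=
  S36A9H_at (Polynomial.C PowerSeries.X) Polynomial.X ^ 3
    - Polynomial.C jNum * S36A9H_Bt (Polynomial.C PowerSeries.X) Polynomial.X

theorem S36A9H_F_monic : S36A9H_F.Monic := by
  have h1 : (S36A9H_at (Polynomial.C (PowerSeries.X : PowerSeries ℤ)) Polynomial.X).Monic := by
    unfold S36A9H_at
    refine Polynomial.Monic.mul ?_ ?_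
    · monicity!
    · monicity!
  have h1d : (S36A9H_at (Polynomial.C (PowerSeries.X : PowerSeries ℤ))
      Polynomial.X).natDegree = 4 := by
    unfold S36A9H_at
    compute_degree!
  have h3 : (S36A9H_at (Polynomial.C (PowerSeries.X : PowerSeries ℤ)) Polynomial.X ^ 3).Monic :=
    h1.pow 3
  have h3d : (S36A9H_at (Polynomial.C (PowerSeries.X : PowerSeries ℤ))
      Polynomial.X ^ 3).degree = 12 := by
    rw [Polynomial.degree_eq_natDegree h3.ne_zero, h1.natDegree_pow, h1d]; norm_num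
  have h2 : (Polynomial.C jNum * S36A9H_Bt (Polynomial.C (PowerSeries.X : PowerSeries ℤ))
      Polynomial.X).degree ≤ 11 := by
    unfold S36A9H_Bt
    compute_degree!
  unfold S36A9H_F
  refine Polynomial.Monic.sub_of_left h3 ?_
  rw [h3d]
  exact lt_of_le_of_lt h2 (by norm_num)

theorem S36A9H_F_map :
    S36A9H_F.map (PowerSeries.constantCoeff (R := ℤ)) = Polynomial.X ^ 12 - Polynomial.X ^ 11 := by
  simp only [S36A9H_F, S36A9H_at, S36A9H_Bt, Polynomial.map_sub, Polynomial.map_mul,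
    Polynomial.map_pow, Polynomial.map_add, Polynomial.map_X, Polynomial.map_C,
    PowerSeries.constantCoeff_X, constantCoeff_jNum, Polynomial.map_ofNat, map_zero, map_one,
    mul_zero, add_zero, zero_mul, one_mul]
  simp
  ring

theorem S36A9H_eval_hom (p : Polynomial (PowerSeries ℤ)) (x : PowerSeries ℤ) :
    PowerSeries.constantCoeff (p.eval x)
      = (p.map (PowerSeries.constantCoeff (R := ℤ))).eval (PowerSeries.constantCoeff x) := by
  rw [Polynomial.eval_map, Polynomial.eval₂_hom]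

/-- **The Hensel root.** -/
theorem S36A9H_exists_root :
    ∃ u : PowerSeries ℤ, PowerSeries.constantCoeff u = 1 ∧
      S36A9H_at PowerSeries.X u ^ 3 = jNum * S36A9H_Bt PowerSeries.X u := by
  have hmem : ∀ x : PowerSeries ℤ, PowerSeries.constantCoeff x = 0 →
      x ∈ (Ideal.span {PowerSeries.X} : Ideal (PowerSeries ℤ)) := by
    intro x hx
    rw [Ideal.mem_span_singleton]
    exact PowerSeries.X_dvd_iff.mpr hx
  have h0 : S36A9H_F.eval 1 ∈ (Ideal.span {PowerSeries.X} : Ideal (PowerSeries ℤ)) := by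
    apply hmem
    rw [S36A9H_eval_hom, S36A9H_F_map]
    simp
  have h1 : IsUnit (Ideal.Quotient.mk (Ideal.span {PowerSeries.X} : Ideal (PowerSeries ℤ))
      ((Polynomial.derivative S36A9H_F).eval 1)) := by
    refine IsUnit.map _ ?_
    rw [PowerSeries.isUnit_iff_constantCoeff, S36A9H_eval_hom, ← Polynomial.derivative_map,
      S36A9H_F_map]
    simp
  obtain ⟨u, hu, hu1⟩ := HenselianRing.is_henselian
    (I := (Ideal.span {PowerSeries.X} : Ideal (PowerSeries ℤ))) S36A9H_F S36A9H_F_monic 1 h0 h1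
  refine ⟨u, ?_, ?_⟩
  · rw [Ideal.mem_span_singleton, PowerSeries.X_dvd_iff, map_sub, map_one, sub_eq_zero] at hu1
    exact hu1
  · have h := hu
    rw [Polynomial.IsRoot.def, S36A9H_F, Polynomial.eval_sub, Polynomial.eval_mul,
      Polynomial.eval_pow, Polynomial.eval_C, sub_eq_zero] at h
    have e1 : Polynomial.eval u (S36A9H_at (Polynomial.C (PowerSeries.X : PowerSeries ℤ))
        Polynomial.X) = S36A9H_at PowerSeries.X u := by
      have := S36A9H_at_map (Polynomial.evalRingHom u)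
        (Polynomial.C (PowerSeries.X : PowerSeries ℤ)) Polynomial.X
      simpa using this
    have e2 : Polynomial.eval u (S36A9H_Bt (Polynomial.C (PowerSeries.X : PowerSeries ℤ))
        Polynomial.X) = S36A9H_Bt PowerSeries.X u := by
      have := S36A9H_Bt_map (Polynomial.evalRingHom u)
        (Polynomial.C (PowerSeries.X : PowerSeries ℤ)) Polynomial.X
      simpa using this
    rw [e1, e2] at h
    exact h

/-- `Q⁻¹ · Q = 1` in Laurent series -/
theorem S36A9H_single_mul (K : Type*) [CommRing K] :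
    (HahnSeries.single (-1 : ℤ) (1 : K)) * HahnSeries.ofPowerSeries ℤ K PowerSeries.X = 1 := by
  rw [HahnSeries.ofPowerSeries_X, HahnSeries.single_mul_single]
  simp

/-- the relation `j · B(h) = a(h)³` for `h = Q⁻¹ v`, from the root equation, over any ring -/
theorem S36A9H_rel_of_root (K : Type*) [CommRing K] (v j : PowerSeries K)
    (hroot : S36A9H_at PowerSeries.X v ^ 3 = j * S36A9H_Bt PowerSeries.X v) :
    (HahnSeries.single (-1 : ℤ) (1 : K) * HahnSeries.ofPowerSeries ℤ K j)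
        * S36A9_BE (HahnSeries.single (-1 : ℤ) (1 : K) * HahnSeries.ofPowerSeries ℤ K v)
      = S36A9_aE (HahnSeries.single (-1 : ℤ) (1 : K) * HahnSeries.ofPowerSeries ℤ K v) ^ 3 := by
  have hT := S36A9H_single_mul K
  rw [S36A9H_aE_mul _ _ _ hT, S36A9H_BE_mul _ _ _ hT,
    ← S36A9H_at_map (HahnSeries.ofPowerSeries ℤ K), ← S36A9H_Bt_map (HahnSeries.ofPowerSeries ℤ K)]
  have h2 := congrArg (HahnSeries.ofPowerSeries ℤ K) hroot
  rw [map_pow, map_mul] at h2
  linear_combination (HahnSeries.single (-1 : ℤ) (1 : K)) ^ 12 * (-h2)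

/-- `aeval x a = a(x)` -/
theorem S36A9H_aeval_a (x : LaurentSeries ℤ) :
    Polynomial.aeval x S36A9_a = S36A9_aE x := by
  simp only [S36A9_a, S36A9_aE, map_add, map_mul, map_pow, Polynomial.aeval_X, map_ofNat]

theorem S36A9H_aeval_B (x : LaurentSeries ℤ) :
    Polynomial.aeval x S36A9_B = S36A9_BE x := by
  simp only [S36A9_B, S36A9_BE, map_add, map_mul, map_pow, Polynomial.aeval_X, map_ofNat]

theorem S36A9H_jNum_map_int : jNum.map (Int.castRingHom ℤ) = jNum := by
  ext n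
  simp

theorem S36A9H_jqModC_int :
    jqModC ℤ = HahnSeries.single (-1 : ℤ) (1 : ℤ) * HahnSeries.ofPowerSeries ℤ ℤ jNum := by
  rw [jqModC, S36A9H_jNum_map_int]

/-- the field `rel` of `S36AUX_Data 9` -/
theorem S36A9H_rel (u : PowerSeries ℤ)
    (hroot : S36A9H_at PowerSeries.X u ^ 3 = jNum * S36A9H_Bt PowerSeries.X u) :
    jqModC ℤ * Polynomial.aeval (S36AUX_h u) S36A9_B
      = (Polynomial.aeval (S36AUX_h u) S36A9_a) ^ 3 := by
  rw [S36A9H_aeval_a, S36A9H_aeval_B, S36A9H_jqModC_int, S36AUX_h]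
  exact S36A9H_rel_of_root ℤ u jNum hroot

/-- the relation over `ℚ` -/
theorem S36A9H_relQ (u : PowerSeries ℤ)
    (hroot : S36A9H_at PowerSeries.X u ^ 3 = jNum * S36A9H_Bt PowerSeries.X u) :
    jqModC ℚ * S36A9_BE (S36AUX_hK ℚ u) = S36A9_aE (S36AUX_hK ℚ u) ^ 3 := by
  rw [jqModC, S36AUX_hK]
  refine S36A9H_rel_of_root ℚ _ _ ?_
  have h2 := congrArg (PowerSeries.map (Int.castRingHom ℚ)) hroot
  rw [map_pow, map_mul, S36A9H_at_map, S36A9H_Bt_map, PowerSeries.map_X] at h2
  exact h2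

end Fermat.Agent.S36_helper24_A9H
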