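import Mathlib
import Fermat.Agent.S36_helper24_A9ALG
import Fermat.Agent.S36_helper24_A9H
import Fermat.Prelude.Thm_ModularCurve_coeffMap_qExpand

/-!
# S36, piece AUX, instance `r = 9`: uniqueness of the top-order root of `Φ₃(X, ·)` and the
identification of `j(Q³)`, `j(Q⁹)` as rational functions of the Hauptmodul (helper24)

* `S36A9U_unique` : for power series `x, y₁, y₂` over `ℚ` with constant coefficient `1` and
  `n ≥ 1`: `Φ₃(x / Qⁿ, y₁ / Q³ⁿ) = 0 = Φ₃(x / Qⁿ, y₂ / Q³ⁿ)` implies `y₁ = y₂`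
  (the divided difference of `Φ₃(X, ·)` has leading coefficient `4 - 3 = 1`);
* `S36A9U_V1`, `S36A9U_V3`, `S36A9U_V9` : `j = a(h)³ / B(h)`, `j(Q³) = n₃(h) / d₃(h)`,
  `j(Q⁹) = n₉(h) / d₉(h)` in `ℚ((Q))`, for `h = Q⁻¹ u`, `u` the Hensel root, given
  `Φ₃(j, j(Q³)) = 0`.
-/

set_option autoImplicit false

noncomputable section

namespace Fermat.Agent.S36_helper24_A9U

open ModularCurve Fermat.Agent.S36_helper8_AUXDefs Fermat.Agent.S36_helper24_A9Defs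
  Fermat.Agent.S36_helper24_A9ALG Fermat.Agent.S36_helper24_A9H

/-! ### The weighted homogenisation of `Φ₃` and its divided difference -/

/-- `w¹² Φ₃(x / w, y / w³)` -/
def S36A9U_G {R : Type*} [CommRing R] (x y w : R) : R :=
  w ^ 8 * x ^ 4 + y ^ 4 - x ^ 3 * y ^ 3 + 2232 * (w ^ 3 * x ^ 3 * y ^ 2 + w * x ^ 2 * y ^ 3)
    - 1069956 * (w ^ 6 * x ^ 3 * y + w ^ 2 * x * y ^ 3)
    + 36864000 * (w ^ 9 * x ^ 3 + w ^ 3 * y ^ 3)
    + 2587918086 * w ^ 4 * x ^ 2 * y ^ 2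
    + 8900222976000 * (w ^ 7 * x ^ 2 * y + w ^ 5 * x * y ^ 2)
    + 452984832000000 * (w ^ 10 * x ^ 2 + w ^ 6 * y ^ 2)
    - 770845966336000000 * w ^ 8 * x * y
    + 1855425871872000000000 * (w ^ 11 * x + w ^ 9 * y)

/-- the divided difference `(G(x, y₁, w) - G(x, y₂, w)) / (y₁ - y₂)` -/
def S36A9U_Psi {R : Type*} [CommRing R] (x y1 y2 w : R) : R :=
  (y1 ^ 3 + y1 ^ 2 * y2 + y1 * y2 ^ 2 + y2 ^ 3) - x ^ 3 * (y1 ^ 2 + y1 * y2 + y2 ^ 2)
    + 2232 * (w ^ 3 * x ^ 3 * (y1 + y2) + w * x ^ 2 * (y1 ^ 2 + y1 * y2 + y2 ^ 2))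
    - 1069956 * (w ^ 6 * x ^ 3 + w ^ 2 * x * (y1 ^ 2 + y1 * y2 + y2 ^ 2))
    + 36864000 * (w ^ 3 * (y1 ^ 2 + y1 * y2 + y2 ^ 2))
    + 2587918086 * w ^ 4 * x ^ 2 * (y1 + y2)
    + 8900222976000 * (w ^ 7 * x ^ 2 + w ^ 5 * x * (y1 + y2))
    + 452984832000000 * (w ^ 6 * (y1 + y2))
    - 770845966336000000 * w ^ 8 * x
    + 1855425871872000000000 * w ^ 9

theorem S36A9U_G_sub {R : Type*} [CommRing R] (x y1 y2 w : R) :
    S36A9U_G x y1 w - S36A9U_G x y2 w = (y1 - y2) * S36A9U_Psi x y1 y2 w := by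
  simp only [S36A9U_G, S36A9U_Psi]
  ring

theorem S36A9U_G_div {F : Type*} [Field F] (x y w : F) (hw : w ≠ 0) :
    S36A9_Phi3 (x / w) (y / w ^ 3) = S36A9U_G x y w / w ^ 12 := by
  simp only [S36A9_Phi3, S36A9U_G]
  field_simp
  try ring

theorem S36A9U_Psi_map {R S : Type*} [CommRing R] [CommRing S] (f : R →+* S)
    (x y1 y2 w : R) :
    f (S36A9U_Psi x y1 y2 w) = S36A9U_Psi (f x) (f y1) (f y2) (f w) := by
  simp only [S36A9U_Psi, map_add, map_sub, map_mul, map_pow, map_ofNat]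

theorem S36A9U_Phi3_map {R S : Type*} [CommRing R] [CommRing S] (f : R →+* S) (x y : R) :
    f (S36A9_Phi3 x y) = S36A9_Phi3 (f x) (f y) := by
  simp only [S36A9_Phi3, map_add, map_sub, map_mul, map_pow, map_ofNat]

/-! ### Uniqueness -/

local notation "ofPS" => HahnSeries.ofPowerSeries ℤ ℚ

theorem S36A9U_ofPS_injective : Function.Injective (ofPS) :=
  HahnSeries.ofPowerSeries_injective

/-- **Uniqueness of the root of top order.** -/
theorem S36A9U_unique (n : ℕ) (hn : 0 < n) (x y1 y2 : PowerSeries ℚ)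
    (hx : PowerSeries.constantCoeff x = 1) (hy1 : PowerSeries.constantCoeff y1 = 1)
    (hy2 : PowerSeries.constantCoeff y2 = 1)
    (h1 : S36A9_Phi3 (ofPS x / ofPS (PowerSeries.X ^ n))
      (ofPS y1 / ofPS (PowerSeries.X ^ n) ^ 3) = 0)
    (h2 : S36A9_Phi3 (ofPS x / ofPS (PowerSeries.X ^ n))
      (ofPS y2 / ofPS (PowerSeries.X ^ n) ^ 3) = 0) :
    y1 = y2 := by
  have hw : (ofPS (PowerSeries.X ^ n) : LaurentSeries ℚ) ≠ 0 := by
    intro h
    have h' : (PowerSeries.X ^ n : PowerSeries ℚ) = 0 :=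
      S36A9U_ofPS_injective (by rw [h, map_zero])
    exact pow_ne_zero n PowerSeries.X_ne_zero h'
  rw [S36A9U_G_div _ _ _ hw, div_eq_zero_iff] at h1 h2
  have g1 := h1.resolve_right (pow_ne_zero 12 hw)
  have g2 := h2.resolve_right (pow_ne_zero 12 hw)
  have key : (ofPS y1 - ofPS y2) *
      S36A9U_Psi (ofPS x) (ofPS y1) (ofPS y2) (ofPS (PowerSeries.X ^ n)) = 0 := by
    rw [← S36A9U_G_sub, g1, g2, sub_zero]
  have hPsi : S36A9U_Psi x y1 y2 (PowerSeries.X ^ n) ≠ 0 := by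
    intro h
    have h' := congrArg (PowerSeries.constantCoeff (R := ℚ)) h
    rw [S36A9U_Psi_map, hx, hy1, hy2, map_pow, PowerSeries.constantCoeff_X, zero_pow hn.ne',
      map_zero] at h'
    simp only [S36A9U_Psi] at h'
    norm_num at h'
  have hPsi' : S36A9U_Psi (ofPS x) (ofPS y1) (ofPS y2) (ofPS (PowerSeries.X ^ n)) ≠ 0 := by
    rw [← S36A9U_Psi_map]
    intro h
    exact hPsi (S36A9U_ofPS_injective (by rw [h, map_zero]))
  rcases mul_eq_zero.mp key with h | h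
  · exact S36A9U_ofPS_injective (sub_eq_zero.mp h)
  · exact absurd h hPsi'

/-! ### Homogenisations of `n₃, d₃, n₉, d₉` -/

/-- `x¹² n₃(u / x)` -/
def S36A9U_n3t {R : Type*} [CommRing R] (x u : R) : R :=
  (u ^ 4 + 12 * x * u ^ 3 + 54 * x ^ 2 * u ^ 2 + 324 * x ^ 3 * u + 729 * x ^ 4) ^ 3

/-- `x⁹ d₃(u / x)` -/
def S36A9U_d3t {R : Type*} [CommRing R] (x u : R) : R :=
  u ^ 3 * (u ^ 2 + 9 * x * u + 27 * x ^ 2) ^ 3

/-- `x¹² n₉(u / x)` -/
def S36A9U_n9t {R : Type*} [CommRing R] (x u : R) : R :=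
  (u + 3 * x) ^ 3 * (u ^ 3 + 9 * x * u ^ 2 + 27 * x ^ 2 * u + 3 * x ^ 3) ^ 3

/-- `x³ d₉(u / x)` -/
def S36A9U_d9t {R : Type*} [CommRing R] (x u : R) : R :=
  u * (u ^ 2 + 9 * x * u + 27 * x ^ 2)

theorem S36A9U_n3t_map {R S : Type*} [CommRing R] [CommRing S] (f : R →+* S) (x u : R) :
    f (S36A9U_n3t x u) = S36A9U_n3t (f x) (f u) := by
  simp only [S36A9U_n3t, map_add, map_mul, map_pow, map_ofNat]

theorem S36A9U_d3t_map {R S : Type*} [CommRing R] [CommRing S] (f : R →+* S) (x u : R) :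
    f (S36A9U_d3t x u) = S36A9U_d3t (f x) (f u) := by
  simp only [S36A9U_d3t, map_add, map_mul, map_pow, map_ofNat]

theorem S36A9U_n9t_map {R S : Type*} [CommRing R] [CommRing S] (f : R →+* S) (x u : R) :
    f (S36A9U_n9t x u) = S36A9U_n9t (f x) (f u) := by
  simp only [S36A9U_n9t, map_add, map_mul, map_pow, map_ofNat]

theorem S36A9U_d9t_map {R S : Type*} [CommRing R] [CommRing S] (f : R →+* S) (x u : R) :
    f (S36A9U_d9t x u) = S36A9U_d9t (f x) (f u) := by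
  simp only [S36A9U_d9t, map_add, map_mul, map_pow, map_ofNat]

theorem S36A9U_aE_div {F : Type*} [Field F] (u w : F) (hw : w ≠ 0) :
    S36A9_aE (u / w) = S36A9H_at w u / w ^ 4 := by
  simp only [S36A9_aE, S36A9H_at]
  field_simp

theorem S36A9U_BE_div {F : Type*} [Field F] (u w : F) (hw : w ≠ 0) :
    S36A9_BE (u / w) = S36A9H_Bt w u / w ^ 11 := by
  simp only [S36A9_BE, S36A9H_Bt]
  field_simp

theorem S36A9U_n3E_div {F : Type*} [Field F] (u w : F) (hw : w ≠ 0) :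
    S36A9_n3E (u / w) = S36A9U_n3t w u / w ^ 12 := by
  simp only [S36A9_n3E, S36A9U_n3t]
  field_simp

theorem S36A9U_d3E_div {F : Type*} [Field F] (u w : F) (hw : w ≠ 0) :
    S36A9_d3E (u / w) = S36A9U_d3t w u / w ^ 9 := by
  simp only [S36A9_d3E, S36A9U_d3t]
  field_simp

theorem S36A9U_n9E_div {F : Type*} [Field F] (u w : F) (hw : w ≠ 0) :
    S36A9_n9E (u / w) = S36A9U_n9t w u / w ^ 12 := by
  simp only [S36A9_n9E, S36A9U_n9t]
  field_simp

theorem S36A9U_d9E_div {F : Type*} [Field F] (u w : F) (hw : w ≠ 0) :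
    S36A9_d9E (u / w) = S36A9U_d9t w u / w ^ 3 := by
  simp only [S36A9_d9E, S36A9U_d9t]
  field_simp

end Fermat.Agent.S36_helper24_A9U
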