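import Mathlib
import Fermat.Agent.S36_helper24_A9U

/-!
# S36, piece AUX, instance `r = 9`: `j`, `j(Q³)`, `j(Q⁹)` as rational functions of the
Hauptmodul (helper24)

For `h = Q⁻¹ u`, `u` the Hensel root of `A9H`, and given `Φ₃(j, j(Q³)) = 0` over `ℤ`:

* `S36A9V_V1` : `j = a(h)³ / B(h)`;
* `S36A9V_V3` : `j(Q³) = n₃(h) / d₃(h)`;
* `S36A9V_V9` : `j(Q⁹) = n₉(h) / d₉(h)`

in `ℚ((Q))`.
-/

set_option autoImplicit false

noncomputable section

namespace Fermat.Agent.S36_helper24_A9V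

open ModularCurve Fermat.Agent.S36_helper8_AUXDefs Fermat.Agent.S36_helper24_A9Defs
  Fermat.Agent.S36_helper24_A9ALG Fermat.Agent.S36_helper24_A9H Fermat.Agent.S36_helper24_A9U

local notation "ofPS" => HahnSeries.ofPowerSeries ℤ ℚ

local notation "TQ" => HahnSeries.ofPowerSeries ℤ ℚ (PowerSeries.X : PowerSeries ℚ)

theorem S36A9V_ofPS_ne {f : PowerSeries ℚ} (hf : PowerSeries.constantCoeff f = 1) :
    (ofPS f : LaurentSeries ℚ) ≠ 0 := by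
  intro h
  have h' : f = 0 := S36A9U_ofPS_injective (by rw [h, map_zero])
  rw [h', map_zero] at hf
  exact zero_ne_one hf

theorem S36A9V_T_ne : (TQ : LaurentSeries ℚ) ≠ 0 := by
  intro h
  have h' : (PowerSeries.X : PowerSeries ℚ) = 0 := S36A9U_ofPS_injective (by rw [h, map_zero])
  exact PowerSeries.X_ne_zero h'

theorem S36A9V_single_eq : (HahnSeries.single (-1 : ℤ) (1 : ℚ) : LaurentSeries ℚ) = (TQ)⁻¹ :=
  eq_inv_of_mul_eq_one_left (S36A9H_single_mul ℚ)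

theorem S36A9V_qExpand_ofPS (N : ℕ) [NeZero N] (g : PowerSeries ℚ) :
    qExpand ℚ N (ofPS g) = ofPS (PowerSeries.expand N (NeZero.ne N) g) := by
  ext n
  by_cases hn : (N : ℤ) ∣ n
  · obtain ⟨m, rfl⟩ := hn
    rw [qExpand_coeff_mul]
    rcases le_or_gt 0 m with hm | hm
    · lift m to ℕ using hm
      rw [HahnSeries.ofPowerSeries_apply_coeff, ← Nat.cast_mul,
        HahnSeries.ofPowerSeries_apply_coeff, PowerSeries.coeff_expand_mul]
    · have hN : (0 : ℤ) < N := by exact_mod_cast Nat.pos_of_ne_zero (NeZero.ne N)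
      rw [ofPowerSeries_coeff_of_neg _ hm,
        ofPowerSeries_coeff_of_neg _ (mul_neg_of_pos_of_neg hN hm)]
  · rw [qExpand_coeff_of_not_dvd _ _ hn]
    rcases le_or_gt 0 n with hn0 | hn0
    · lift n to ℕ using hn0
      rw [HahnSeries.ofPowerSeries_apply_coeff, PowerSeries.coeff_expand_of_not_dvd]
      exact fun h => hn (by exact_mod_cast h)
    · rw [ofPowerSeries_coeff_of_neg _ hn0]

theorem S36A9V_hK_eq (u : PowerSeries ℤ) :
    S36AUX_hK ℚ u = ofPS (u.map (Int.castRingHom ℚ)) / TQ := by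
  rw [S36AUX_hK, S36A9V_single_eq, inv_mul_eq_div]

theorem S36A9V_jq_eq : jqModC ℚ = ofPS (jNum.map (Int.castRingHom ℚ)) / TQ := by
  rw [jqModC, S36A9V_single_eq, inv_mul_eq_div]

theorem S36A9V_jqd_eq (d : ℕ) [NeZero d] :
    qExpand ℚ d (jqModC ℚ)
      = ofPS (PowerSeries.expand d (NeZero.ne d) (jNum.map (Int.castRingHom ℚ))) / TQ ^ d := by
  rw [S36A9V_jq_eq, map_div₀, S36A9V_qExpand_ofPS, S36A9V_qExpand_ofPS, PowerSeries.expand_X,
    map_pow]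

theorem S36A9V_cc_jNumQ :
    PowerSeries.constantCoeff (jNum.map (Int.castRingHom ℚ)) = 1 := by
  rw [← PowerSeries.coeff_zero_eq_constantCoeff, PowerSeries.coeff_map,
    PowerSeries.coeff_zero_eq_constantCoeff, constantCoeff_jNum, map_one]

theorem S36A9V_cc_map (u : PowerSeries ℤ) (hu : PowerSeries.constantCoeff u = 1) :
    PowerSeries.constantCoeff (u.map (Int.castRingHom ℚ)) = 1 := by
  rw [← PowerSeries.coeff_zero_eq_constantCoeff, PowerSeries.coeff_map,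
    PowerSeries.coeff_zero_eq_constantCoeff, hu, map_one]

/-- a quotient of two `Q`-shifted power series -/
theorem S36A9V_ratio (N D : PowerSeries ℚ) (hD : PowerSeries.constantCoeff D = 1)
    (a b m : ℕ) (hab : a = b + m) :
    (ofPS N / TQ ^ a) / (ofPS D / TQ ^ b) = ofPS (N * D⁻¹) / TQ ^ m := by
  have hD0 : (ofPS D : LaurentSeries ℚ) ≠ 0 := S36A9V_ofPS_ne hD
  have hT := S36A9V_T_ne
  have hinv : (ofPS (D⁻¹) : LaurentSeries ℚ) = (ofPS D)⁻¹ := by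
    refine eq_inv_of_mul_eq_one_right ?_
    rw [← map_mul, PowerSeries.mul_inv_cancel _ (by rw [hD]; exact one_ne_zero), map_one]
  subst hab
  rw [map_mul, hinv, pow_add]
  field_simp

theorem S36A9V_cc_ratio (N D : PowerSeries ℚ) (hN : PowerSeries.constantCoeff N = 1)
    (hD : PowerSeries.constantCoeff D = 1) :
    PowerSeries.constantCoeff (N * D⁻¹) = 1 := by
  rw [map_mul, PowerSeries.constantCoeff_inv, hN, hD, inv_one, mul_one]

section Main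

variable (u : PowerSeries ℤ)

theorem S36A9V_cc_Bt (hu : PowerSeries.constantCoeff u = 1) :
    PowerSeries.constantCoeff
      (S36A9H_Bt (PowerSeries.X : PowerSeries ℚ) (u.map (Int.castRingHom ℚ))) = 1 := by
  rw [S36A9H_Bt_map, S36A9V_cc_map u hu, PowerSeries.constantCoeff_X]
  simp only [S36A9H_Bt]; norm_num

theorem S36A9V_cc_n3t (hu : PowerSeries.constantCoeff u = 1) :
    PowerSeries.constantCoeff
      (S36A9U_n3t (PowerSeries.X : PowerSeries ℚ) (u.map (Int.castRingHom ℚ))) = 1 := by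
  rw [S36A9U_n3t_map, S36A9V_cc_map u hu, PowerSeries.constantCoeff_X]
  simp only [S36A9U_n3t]; norm_num

theorem S36A9V_cc_d3t (hu : PowerSeries.constantCoeff u = 1) :
    PowerSeries.constantCoeff
      (S36A9U_d3t (PowerSeries.X : PowerSeries ℚ) (u.map (Int.castRingHom ℚ))) = 1 := by
  rw [S36A9U_d3t_map, S36A9V_cc_map u hu, PowerSeries.constantCoeff_X]
  simp only [S36A9U_d3t]; norm_num

theorem S36A9V_cc_n9t (hu : PowerSeries.constantCoeff u = 1) :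
    PowerSeries.constantCoeff
      (S36A9U_n9t (PowerSeries.X : PowerSeries ℚ) (u.map (Int.castRingHom ℚ))) = 1 := by
  rw [S36A9U_n9t_map, S36A9V_cc_map u hu, PowerSeries.constantCoeff_X]
  simp only [S36A9U_n9t]; norm_num

theorem S36A9V_cc_d9t (hu : PowerSeries.constantCoeff u = 1) :
    PowerSeries.constantCoeff
      (S36A9U_d9t (PowerSeries.X : PowerSeries ℚ) (u.map (Int.castRingHom ℚ))) = 1 := by
  rw [S36A9U_d9t_map, S36A9V_cc_map u hu, PowerSeries.constantCoeff_X]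
  simp only [S36A9U_d9t]; norm_num

theorem S36A9V_BE_eq :
    S36A9_BE (S36AUX_hK ℚ u)
      = ofPS (S36A9H_Bt (PowerSeries.X : PowerSeries ℚ) (u.map (Int.castRingHom ℚ)))
        / TQ ^ 11 := by
  rw [S36A9V_hK_eq, S36A9U_BE_div _ _ S36A9V_T_ne, S36A9H_Bt_map]

theorem S36A9V_n3E_eq :
    S36A9_n3E (S36AUX_hK ℚ u)
      = ofPS (S36A9U_n3t (PowerSeries.X : PowerSeries ℚ) (u.map (Int.castRingHom ℚ)))
        / TQ ^ 12 := by
  rw [S36A9V_hK_eq, S36A9U_n3E_div _ _ S36A9V_T_ne, S36A9U_n3t_map]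

theorem S36A9V_d3E_eq :
    S36A9_d3E (S36AUX_hK ℚ u)
      = ofPS (S36A9U_d3t (PowerSeries.X : PowerSeries ℚ) (u.map (Int.castRingHom ℚ)))
        / TQ ^ 9 := by
  rw [S36A9V_hK_eq, S36A9U_d3E_div _ _ S36A9V_T_ne, S36A9U_d3t_map]

theorem S36A9V_n9E_eq :
    S36A9_n9E (S36AUX_hK ℚ u)
      = ofPS (S36A9U_n9t (PowerSeries.X : PowerSeries ℚ) (u.map (Int.castRingHom ℚ)))
        / TQ ^ 12 := by
  rw [S36A9V_hK_eq, S36A9U_n9E_div _ _ S36A9V_T_ne, S36A9U_n9t_map]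

theorem S36A9V_d9E_eq :
    S36A9_d9E (S36AUX_hK ℚ u)
      = ofPS (S36A9U_d9t (PowerSeries.X : PowerSeries ℚ) (u.map (Int.castRingHom ℚ)))
        / TQ ^ 3 := by
  rw [S36A9V_hK_eq, S36A9U_d9E_div _ _ S36A9V_T_ne, S36A9U_d9t_map]

theorem S36A9V_BE_ne (hu : PowerSeries.constantCoeff u = 1) :
    S36A9_BE (S36AUX_hK ℚ u) ≠ 0 := by
  rw [S36A9V_BE_eq]
  exact div_ne_zero (S36A9V_ofPS_ne (S36A9V_cc_Bt u hu)) (pow_ne_zero _ S36A9V_T_ne)

theorem S36A9V_d3E_ne (hu : PowerSeries.constantCoeff u = 1) :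
    S36A9_d3E (S36AUX_hK ℚ u) ≠ 0 := by
  rw [S36A9V_d3E_eq]
  exact div_ne_zero (S36A9V_ofPS_ne (S36A9V_cc_d3t u hu)) (pow_ne_zero _ S36A9V_T_ne)

theorem S36A9V_d9E_ne (hu : PowerSeries.constantCoeff u = 1) :
    S36A9_d9E (S36AUX_hK ℚ u) ≠ 0 := by
  rw [S36A9V_d9E_eq]
  exact div_ne_zero (S36A9V_ofPS_ne (S36A9V_cc_d9t u hu)) (pow_ne_zero _ S36A9V_T_ne)

/-- `j = a(h)³ / B(h)` -/
theorem S36A9V_V1 (hu : PowerSeries.constantCoeff u = 1)
    (hroot : S36A9H_at PowerSeries.X u ^ 3 = jNum * S36A9H_Bt PowerSeries.X u) :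
    jqModC ℚ = S36A9_aE (S36AUX_hK ℚ u) ^ 3 / S36A9_BE (S36AUX_hK ℚ u) := by
  rw [eq_div_iff (S36A9V_BE_ne u hu)]
  exact S36A9H_relQ u hroot

theorem S36A9V_PhiQ (hPhi : S36A9_Phi3 (jqModC ℤ) (qExpand ℤ 3 (jqModC ℤ)) = 0) :
    S36A9_Phi3 (jqModC ℚ) (qExpand ℚ 3 (jqModC ℚ)) = 0 := by
  have h := congrArg (coeffMap (Int.castRingHom ℚ)) hPhi
  rw [S36A9U_Phi3_map, coeffMap_qExpand, coeffMap_jqModC, map_zero] at h
  exact h

theorem S36A9V_Phi39 (hPhi : S36A9_Phi3 (jqModC ℤ) (qExpand ℤ 3 (jqModC ℤ)) = 0) :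
    S36A9_Phi3 (qExpand ℚ 3 (jqModC ℚ)) (qExpand ℚ 9 (jqModC ℚ)) = 0 := by
  have h := congrArg (qExpand ℚ 3) (S36A9V_PhiQ hPhi)
  rw [S36A9U_Phi3_map, qExpand_qExpand, map_zero] at h
  exact h

/-- `j(Q³) = n₃(h) / d₃(h)` -/
theorem S36A9V_V3 (hu : PowerSeries.constantCoeff u = 1)
    (hroot : S36A9H_at PowerSeries.X u ^ 3 = jNum * S36A9H_Bt PowerSeries.X u)
    (hPhi : S36A9_Phi3 (jqModC ℤ) (qExpand ℤ 3 (jqModC ℤ)) = 0) :
    qExpand ℚ 3 (jqModC ℚ) = S36A9_n3E (S36AUX_hK ℚ u) / S36A9_d3E (S36AUX_hK ℚ u) := by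
  have hR : S36A9_n3E (S36AUX_hK ℚ u) / S36A9_d3E (S36AUX_hK ℚ u)
      = ofPS (S36A9U_n3t (PowerSeries.X : PowerSeries ℚ) (u.map (Int.castRingHom ℚ))
          * (S36A9U_d3t (PowerSeries.X : PowerSeries ℚ) (u.map (Int.castRingHom ℚ)))⁻¹)
        / TQ ^ 3 := by
    rw [S36A9V_n3E_eq, S36A9V_d3E_eq]
    exact S36A9V_ratio _ _ (S36A9V_cc_d3t u hu) 12 9 3 rfl
  have H2 : S36A9_Phi3 (jqModC ℚ)
      (S36A9_n3E (S36AUX_hK ℚ u) / S36A9_d3E (S36AUX_hK ℚ u)) = 0 := by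
    rw [S36A9V_V1 u hu hroot, S36A9_Phi3_div _ _ _ _ (S36A9V_BE_ne u hu) (S36A9V_d3E_ne u hu),
      S36A9_alg13, zero_div]
  have H1 := S36A9V_PhiQ hPhi
  have key := S36A9U_unique 1 one_pos (jNum.map (Int.castRingHom ℚ))
    (PowerSeries.expand 3 (NeZero.ne 3) (jNum.map (Int.castRingHom ℚ)))
    (S36A9U_n3t (PowerSeries.X : PowerSeries ℚ) (u.map (Int.castRingHom ℚ))
          * (S36A9U_d3t (PowerSeries.X : PowerSeries ℚ) (u.map (Int.castRingHom ℚ)))⁻¹)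
    S36A9V_cc_jNumQ
    (by rw [PowerSeries.constantCoeff_expand, S36A9V_cc_jNumQ])
    (S36A9V_cc_ratio _ _ (S36A9V_cc_n3t u hu) (S36A9V_cc_d3t u hu))
    (by rw [pow_one, ← S36A9V_jq_eq, ← S36A9V_jqd_eq 3]; exact H1)
    (by rw [pow_one, ← S36A9V_jq_eq, ← hR]; exact H2)
  rw [hR, ← key, S36A9V_jqd_eq 3]

/-- `j(Q⁹) = n₉(h) / d₉(h)` -/
theorem S36A9V_V9 (hu : PowerSeries.constantCoeff u = 1)
    (hroot : S36A9H_at PowerSeries.X u ^ 3 = jNum * S36A9H_Bt PowerSeries.X u)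
    (hPhi : S36A9_Phi3 (jqModC ℤ) (qExpand ℤ 3 (jqModC ℤ)) = 0) :
    qExpand ℚ 9 (jqModC ℚ) = S36A9_n9E (S36AUX_hK ℚ u) / S36A9_d9E (S36AUX_hK ℚ u) := by
  have hR : S36A9_n9E (S36AUX_hK ℚ u) / S36A9_d9E (S36AUX_hK ℚ u)
      = ofPS (S36A9U_n9t (PowerSeries.X : PowerSeries ℚ) (u.map (Int.castRingHom ℚ))
          * (S36A9U_d9t (PowerSeries.X : PowerSeries ℚ) (u.map (Int.castRingHom ℚ)))⁻¹)
        / TQ ^ 9 := by
    rw [S36A9V_n9E_eq, S36A9V_d9E_eq]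
    exact S36A9V_ratio _ _ (S36A9V_cc_d9t u hu) 12 3 9 rfl
  have H2 : S36A9_Phi3 (qExpand ℚ 3 (jqModC ℚ))
      (S36A9_n9E (S36AUX_hK ℚ u) / S36A9_d9E (S36AUX_hK ℚ u)) = 0 := by
    rw [S36A9V_V3 u hu hroot hPhi,
      S36A9_Phi3_div _ _ _ _ (S36A9V_d3E_ne u hu) (S36A9V_d9E_ne u hu),
      S36A9_alg39, zero_div]
  have H1 := S36A9V_Phi39 hPhi
  have e9 : (ofPS (PowerSeries.X ^ 3) : LaurentSeries ℚ) ^ 3 = TQ ^ 9 := by
    rw [map_pow, ← pow_mul]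
  have key := S36A9U_unique 3 (by norm_num)
    (PowerSeries.expand 3 (NeZero.ne 3) (jNum.map (Int.castRingHom ℚ)))
    (PowerSeries.expand 9 (NeZero.ne 9) (jNum.map (Int.castRingHom ℚ)))
    (S36A9U_n9t (PowerSeries.X : PowerSeries ℚ) (u.map (Int.castRingHom ℚ))
          * (S36A9U_d9t (PowerSeries.X : PowerSeries ℚ) (u.map (Int.castRingHom ℚ)))⁻¹)
    (by rw [PowerSeries.constantCoeff_expand, S36A9V_cc_jNumQ])
    (by rw [PowerSeries.constantCoeff_expand, S36A9V_cc_jNumQ])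
    (S36A9V_cc_ratio _ _ (S36A9V_cc_n9t u hu) (S36A9V_cc_d9t u hu))
    (by rw [e9, map_pow, ← S36A9V_jqd_eq 3, ← S36A9V_jqd_eq 9]; exact H1)
    (by rw [e9, map_pow, ← S36A9V_jqd_eq 3, ← hR]; exact H2)
  rw [hR, ← key, S36A9V_jqd_eq 9]

end Main

end Fermat.Agent.S36_helper24_A9V
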