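import Mathlib
import Fermat.Agent.S36_helper24_A9V
import Fermat.Agent.S18_helper26_DEGK1
import Fermat.Agent.S20_helper29_A1

/-!
# S36, piece AUX, instance `r = 9` (the case `q = 2`): `gen`, `mem`, `bez` and the instance
(helper24)

* `S36A9G_gen` : `F(9) = ℚ(j, j(Q³), j(Q⁹)) ≤ ℚ(h)`;
* `S36A9G_mem` : `h ∈ F(9)`, from `[F(9) : ℚ(j)] = ψ(9) = 12` (landed `S18DEG_finrank`) and
  the monic equation `a(Y)³ - j B(Y) = 0` of degree `12` for `h` over `ℚ(j)`;
* `S36A9G_bez` : `a³` and `B` are coprime up to a power of `9`;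
* `S36A9_nine` : `Nonempty (S36AUX_Data 9)`, given `Φ₃(j, j(Q³)) = 0`.
-/

set_option autoImplicit false
set_option linter.style.haveILetI false

noncomputable section

namespace Fermat.Agent.S36_helper24_A9G

open ModularCurve IntermediateField
open Fermat.Agent.S36_helper8_AUXDefs Fermat.Agent.S36_helper24_A9Defs
  Fermat.Agent.S36_helper24_A9ALG Fermat.Agent.S36_helper24_A9H Fermat.Agent.S36_helper24_A9U
  Fermat.Agent.S36_helper24_A9V
open Fermat.Agent.S20 Fermat.Agent.S18_helper26_CONST Fermat.Agent.S18_helper26_DEGK1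

/-! ### A degree argument -/

theorem S36A9G_mem_generic {K E F0 L : Type*} [Field K] [Field E] [Field F0] [Field L]
    [Algebra K E] [Algebra K L] [Algebra E L] [IsScalarTower K E L] [Algebra E F0]
    (ι : F0 →ₐ[E] L) (h : L) (hF : ∀ x : F0, ι x ∈ K⟮h⟯)
    (n : ℕ) (hfin : Module.finrank E F0 = n)
    (P : Polynomial E) (hP : P.Monic) (hPd : P.natDegree ≤ n)
    (hroot : Polynomial.aeval h P = 0) :
    h ∈ Set.range ι := by
  have hint : IsIntegral E h := ⟨P, hP, hroot⟩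
  have hW : Module.finrank E (IntermediateField.adjoin E {h})
      = (minpoly E h).natDegree := IntermediateField.adjoin.finrank hint
  have hWle : Module.finrank E (IntermediateField.adjoin E {h}) ≤ n := by
    rw [hW]
    exact (Polynomial.natDegree_le_natDegree (minpoly.min E h hP hroot)).trans hPd
  haveI : FiniteDimensional E (IntermediateField.adjoin E {h}) :=
    IntermediateField.adjoin.finiteDimensional hint
  have hφ : Function.Injective ι.toLinearMap := ι.toRingHom.injective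
  have hV : Module.finrank E (LinearMap.range ι.toLinearMap) = n := by
    rw [LinearMap.finrank_range_of_inj hφ]; exact hfin
  have hle : K⟮h⟯ ≤ (IntermediateField.adjoin E {h}).restrictScalars K := by
    rw [IntermediateField.adjoin_simple_le_iff]
    exact IntermediateField.mem_adjoin_simple_self _ h
  have hVW : LinearMap.range ι.toLinearMap
      ≤ (IntermediateField.adjoin E {h}).toSubalgebra.toSubmodule := by
    rintro _ ⟨x, rfl⟩
    exact hle (hF x)
  haveI : Module.Finite E ((IntermediateField.adjoin E {h}).toSubalgebra.toSubmodule) :=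
    ‹FiniteDimensional E (IntermediateField.adjoin E {h})›
  have hEq : LinearMap.range ι.toLinearMap
      = (IntermediateField.adjoin E {h}).toSubalgebra.toSubmodule :=
    Submodule.eq_of_le_of_finrank_le hVW (by rw [hV]; exact hWle)
  have hh : h ∈ (IntermediateField.adjoin E {h}).toSubalgebra.toSubmodule :=
    IntermediateField.mem_adjoin_simple_self _ h
  rw [← hEq] at hh
  obtain ⟨x, hx⟩ := hh
  exact ⟨x, hx⟩

/-- If `F ⊆ K(h)`, `[F : K(j)] = n` and `h` is a root of a monic polynomial of degree `≤ n`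
over `K(j)`, then `h ∈ F`. -/
theorem S36A9G_mem_of_finrank {K F L : Type*} [Field K] [Field F] [Field L] [Algebra K F]
    [Algebra K L] (ι : F →ₐ[K] L) (j : F) (h : L) (hF : ∀ x : F, ι x ∈ K⟮h⟯)
    (n : ℕ) (hfin : Module.finrank K⟮j⟯ F = n)
    (P : Polynomial K⟮j⟯) (hP : P.Monic) (hPd : P.natDegree ≤ n)
    (hroot : Polynomial.eval₂ (ι.toRingHom.comp (algebraMap K⟮j⟯ F)) h P = 0) :
    h ∈ Set.range ι := by
  letI : Algebra F L := ι.toRingHom.toAlgebra
  haveI : IsScalarTower K F L :=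
    IsScalarTower.of_algebraMap_eq (fun x => (ι.commutes x).symm)
  have hroot' : Polynomial.aeval h P = 0 := by
    rw [Polynomial.aeval_def]
    exact hroot
  obtain ⟨x, hx⟩ := S36A9G_mem_generic (K := K) (E := K⟮j⟯) (F0 := F) (L := L)
    (IsScalarTower.toAlgHom K⟮j⟯ F L) h (fun x => hF x) n hfin P hP hPd hroot'
  exact ⟨x, hx⟩

/-! ### Polynomial expressions and ring homomorphisms -/

theorem S36A9G_aE_map {R S : Type*} [CommRing R] [CommRing S] (f : R →+* S) (t : R) :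
    f (S36A9_aE t) = S36A9_aE (f t) := by
  simp only [S36A9_aE, map_add, map_mul, map_pow, map_ofNat]

theorem S36A9G_BE_map {R S : Type*} [CommRing R] [CommRing S] (f : R →+* S) (t : R) :
    f (S36A9_BE t) = S36A9_BE (f t) := by
  simp only [S36A9_BE, map_add, map_mul, map_pow, map_ofNat]

theorem S36A9G_n3E_map {R S : Type*} [CommRing R] [CommRing S] (f : R →+* S) (t : R) :
    f (S36A9_n3E t) = S36A9_n3E (f t) := by
  simp only [S36A9_n3E, map_add, map_mul, map_pow, map_ofNat]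

theorem S36A9G_d3E_map {R S : Type*} [CommRing R] [CommRing S] (f : R →+* S) (t : R) :
    f (S36A9_d3E t) = S36A9_d3E (f t) := by
  simp only [S36A9_d3E, map_add, map_mul, map_pow, map_ofNat]

theorem S36A9G_n9E_map {R S : Type*} [CommRing R] [CommRing S] (f : R →+* S) (t : R) :
    f (S36A9_n9E t) = S36A9_n9E (f t) := by
  simp only [S36A9_n9E, map_add, map_mul, map_pow, map_ofNat]

theorem S36A9G_d9E_map {R S : Type*} [CommRing R] [CommRing S] (f : R →+* S) (t : R) :
    f (S36A9_d9E t) = S36A9_d9E (f t) := by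
  simp only [S36A9_d9E, map_add, map_mul, map_pow, map_ofNat]

section Mem

variable {K L : Type*} [Field K] [Field L] [Algebra K L] (E : IntermediateField K L)
  {t : L} (ht : t ∈ E)

include ht

theorem S36A9G_aE_mem : S36A9_aE t ∈ E := by
  have h := S36A9G_aE_map (algebraMap E L) ⟨t, ht⟩
  rw [← show algebraMap E L ⟨t, ht⟩ = t from rfl, ← h]
  exact (S36A9_aE (⟨t, ht⟩ : E)).2

theorem S36A9G_BE_mem : S36A9_BE t ∈ E := by
  have h := S36A9G_BE_map (algebraMap E L) ⟨t, ht⟩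
  rw [← show algebraMap E L ⟨t, ht⟩ = t from rfl, ← h]
  exact (S36A9_BE (⟨t, ht⟩ : E)).2

theorem S36A9G_n3E_mem : S36A9_n3E t ∈ E := by
  have h := S36A9G_n3E_map (algebraMap E L) ⟨t, ht⟩
  rw [← show algebraMap E L ⟨t, ht⟩ = t from rfl, ← h]
  exact (S36A9_n3E (⟨t, ht⟩ : E)).2

theorem S36A9G_d3E_mem : S36A9_d3E t ∈ E := by
  have h := S36A9G_d3E_map (algebraMap E L) ⟨t, ht⟩
  rw [← show algebraMap E L ⟨t, ht⟩ = t from rfl, ← h]
  exact (S36A9_d3E (⟨t, ht⟩ : E)).2

theorem S36A9G_n9E_mem : S36A9_n9E t ∈ E := by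
  have h := S36A9G_n9E_map (algebraMap E L) ⟨t, ht⟩
  rw [← show algebraMap E L ⟨t, ht⟩ = t from rfl, ← h]
  exact (S36A9_n9E (⟨t, ht⟩ : E)).2

theorem S36A9G_d9E_mem : S36A9_d9E t ∈ E := by
  have h := S36A9G_d9E_map (algebraMap E L) ⟨t, ht⟩
  rw [← show algebraMap E L ⟨t, ht⟩ = t from rfl, ← h]
  exact (S36A9_d9E (⟨t, ht⟩ : E)).2

end Mem

/-! ### `gen` -/

theorem S36A9G_dvd_nine {d : ℕ} (hd : d ∣ 9) : d = 1 ∨ d = 3 ∨ d = 9 := by
  have h1 : d ≤ 9 := Nat.le_of_dvd (by norm_num) hd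
  interval_cases d
  · exact absurd hd (by decide)
  · exact Or.inl rfl
  · exact absurd hd (by decide)
  · exact Or.inr (Or.inl rfl)
  · exact absurd hd (by decide)
  · exact absurd hd (by decide)
  · exact absurd hd (by decide)
  · exact absurd hd (by decide)
  · exact absurd hd (by decide)
  · exact Or.inr (Or.inr rfl)

theorem S36A9G_gen (u : PowerSeries ℤ) (hu : PowerSeries.constantCoeff u = 1)
    (hroot : S36A9H_at PowerSeries.X u ^ 3 = jNum * S36A9H_Bt PowerSeries.X u)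
    (hPhi : S36A9_Phi3 (jqModC ℤ) (qExpand ℤ 3 (jqModC ℤ)) = 0) :
    modularFunctionFieldFullC ℚ 9 ≤ IntermediateField.adjoin ℚ {S36AUX_hK ℚ u} := by
  rw [modularFunctionFieldFullC, IntermediateField.adjoin_le_iff]
  rintro x ⟨d, hd, hdvd, rfl⟩
  have hmem : S36AUX_hK ℚ u ∈ IntermediateField.adjoin ℚ {S36AUX_hK ℚ u} :=
    IntermediateField.mem_adjoin_simple_self ℚ _
  rcases S36A9G_dvd_nine hdvd with rfl | rfl | rfl
  · rw [SetLike.mem_coe, qExpand_one_apply, S36A9V_V1 u hu hroot]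
    exact div_mem (pow_mem (S36A9G_aE_mem _ hmem) 3) (S36A9G_BE_mem _ hmem)
  · rw [SetLike.mem_coe, S36A9V_V3 u hu hroot hPhi]
    exact div_mem (S36A9G_n3E_mem _ hmem) (S36A9G_d3E_mem _ hmem)
  · rw [SetLike.mem_coe, S36A9V_V9 u hu hroot hPhi]
    exact div_mem (S36A9G_n9E_mem _ hmem) (S36A9G_d9E_mem _ hmem)

/-! ### The equation of `h` over `ℚ(j)` -/

/-- `a(Y)³ - g B(Y)` -/
def S36A9G_P {R : Type*} [CommRing R] (g : R) : Polynomial R :=
  S36A9_aE Polynomial.X ^ 3 - Polynomial.C g * S36A9_BE Polynomial.X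

theorem S36A9G_P_monic_aux {R : Type*} [CommRing R] [Nontrivial R] (g : R) :
    (S36A9G_P g).Monic ∧ (S36A9G_P g).natDegree ≤ 12 := by
  have h1 : (S36A9_aE (Polynomial.X : Polynomial R)).Monic := by
    unfold S36A9_aE
    refine Polynomial.Monic.mul ?_ ?_
    · monicity!
    · monicity!
  have h1d : (S36A9_aE (Polynomial.X : Polynomial R)).natDegree = 4 := by
    unfold S36A9_aE
    compute_degree!
  have h3 : (S36A9_aE (Polynomial.X : Polynomial R) ^ 3).Monic := h1.pow 3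
  have h3n : (S36A9_aE (Polynomial.X : Polynomial R) ^ 3).natDegree = 12 := by
    rw [h1.natDegree_pow, h1d]
  have h3d : (S36A9_aE (Polynomial.X : Polynomial R) ^ 3).degree = 12 := by
    rw [Polynomial.degree_eq_natDegree h3.ne_zero, h3n]; norm_num
  have h2 : (Polynomial.C g * S36A9_BE (Polynomial.X : Polynomial R)).degree ≤ 11 := by
    unfold S36A9_BE
    compute_degree!
  have h2n : (Polynomial.C g * S36A9_BE (Polynomial.X : Polynomial R)).natDegree ≤ 11 :=
    Polynomial.natDegree_le_of_degree_le h2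
  refine ⟨?_, ?_⟩
  · unfold S36A9G_P
    refine Polynomial.Monic.sub_of_left h3 ?_
    rw [h3d]
    exact lt_of_le_of_lt h2 (by norm_num)
  · unfold S36A9G_P
    refine (Polynomial.natDegree_sub_le _ _).trans ?_
    rw [h3n]
    exact max_le le_rfl (h2n.trans (by norm_num))

theorem S36A9G_P_eval₂ {R S : Type*} [CommRing R] [CommRing S] (f : R →+* S) (g : R) (x : S) :
    Polynomial.eval₂ f x (S36A9G_P g) = S36A9_aE x ^ 3 - f g * S36A9_BE x := by
  have ha := S36A9G_aE_map (Polynomial.eval₂RingHom f x) (Polynomial.X : Polynomial R)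
  have hB := S36A9G_BE_map (Polynomial.eval₂RingHom f x) (Polynomial.X : Polynomial R)
  simp only [Polynomial.coe_eval₂RingHom, Polynomial.eval₂_X] at ha hB
  rw [S36A9G_P, Polynomial.eval₂_sub, Polynomial.eval₂_mul, Polynomial.eval₂_pow,
    Polynomial.eval₂_C, ha, hB]

/-! ### `mem` -/

theorem S36A9G_mu_nine : mu 9 = 12 := by
  rw [Fermat.Agent.S20_helper29_A1.A1 9]
  have h3 : ModularCurve.dedekindPsi 3 = 4 := by
    have h := Fermat.Agent.S20_helper29_A1.psi_mul_of_not_dvd 3 1 Nat.prime_three one_ne_zero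
      (by norm_num)
    rw [dedekindPsi_one] at h
    exact h
  have h9 : ModularCurve.dedekindPsi (3 * 3) = ModularCurve.dedekindPsi 3 * 3 :=
    Fermat.Agent.S20_helper29_A1.psi_mul_of_dvd 3 3 Nat.prime_three (by norm_num) dvd_rfl
  rw [h3] at h9
  exact h9

section MemK1

variable {K1 : Type*} [Field K1] [CharZero K1] (emb : K1 →+* AlgebraicClosure ℚ)
  (N : ℕ) [NeZero N]

include emb

/-- generic form (all instances elaborated as in the landed `S18DEG_finrank`) -/
theorem S36A9G_mem_K1 (h : LaurentSeries K1)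
    (hF : modularFunctionFieldFullC K1 N ≤ IntermediateField.adjoin K1 {h})
    (hmu : mu N = 12) (hrel : jqModC K1 * S36A9_BE h = S36A9_aE h ^ 3) :
    h ∈ modularFunctionFieldFullC K1 N := by
  have hfin : Module.finrank K1⟮S18P15_jbar K1 N⟯ (modularFunctionFieldFullC K1 N) = 12 := by
    rw [S18DEG_finrank emb N, hmu]
  have hP := S36A9G_P_monic_aux (IntermediateField.AdjoinSimple.gen K1 (S18P15_jbar K1 N))
  have h' := S36A9G_mem_of_finrank (K := K1) (F := modularFunctionFieldFullC K1 N)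
    (L := LaurentSeries K1) (modularFunctionFieldFullC K1 N).val (S18P15_jbar K1 N)
    h (fun x => hF x.2) 12 hfin
    (S36A9G_P (IntermediateField.AdjoinSimple.gen K1 (S18P15_jbar K1 N))) hP.1 hP.2
    (by
      rw [S36A9G_P_eval₂]
      have e : ((modularFunctionFieldFullC K1 N).val.toRingHom.comp
          (algebraMap K1⟮S18P15_jbar K1 N⟯ (modularFunctionFieldFullC K1 N)))
          (IntermediateField.AdjoinSimple.gen K1 (S18P15_jbar K1 N)) = jqModC K1 := by
        rw [RingHom.comp_apply, IntermediateField.AdjoinSimple.algebraMap_gen]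
        rfl
      rw [e, hrel, sub_self])
  obtain ⟨x, hx⟩ := h'
  rw [← hx]
  exact x.2

end MemK1

theorem S36A9G_mem (u : PowerSeries ℤ) (hu : PowerSeries.constantCoeff u = 1)
    (hroot : S36A9H_at PowerSeries.X u ^ 3 = jNum * S36A9H_Bt PowerSeries.X u)
    (hPhi : S36A9_Phi3 (jqModC ℤ) (qExpand ℤ 3 (jqModC ℤ)) = 0) :
    S36AUX_hK ℚ u ∈ modularFunctionFieldFullC ℚ 9 :=
  S36A9G_mem_K1 (algebraMap ℚ (AlgebraicClosure ℚ)) 9 (S36AUX_hK ℚ u)
    (S36A9G_gen u hu hroot hPhi) S36A9G_mu_nine (S36A9H_relQ u hroot)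

/-! ### `bez` -/

/-- coprime up to a power of `9` -/
def S36A9G_Cop (f g : Polynomial ℤ) : Prop :=
  ∃ (U V : Polynomial ℤ) (e : ℕ), U * f + V * g = Polynomial.C ((9 : ℤ) ^ e)

theorem S36A9G_Cop_symm {f g : Polynomial ℤ} (h : S36A9G_Cop f g) : S36A9G_Cop g f := by
  obtain ⟨U, V, e, h⟩ := h
  exact ⟨V, U, e, by rw [← h]; ring⟩

theorem S36A9G_Cop_mul {f g1 g2 : Polynomial ℤ} (h1 : S36A9G_Cop f g1)
    (h2 : S36A9G_Cop f g2) : S36A9G_Cop f (g1 * g2) := by
  obtain ⟨U1, V1, e1, h1⟩ := h1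
  obtain ⟨U2, V2, e2, h2⟩ := h2
  refine ⟨U1 * U2 * f + U1 * V2 * g2 + V1 * g1 * U2, V1 * V2, e1 + e2, ?_⟩
  rw [pow_add, map_mul, ← h1, ← h2]
  ring

theorem S36A9G_Cop_pow {f g : Polynomial ℤ} (h : S36A9G_Cop f g) (n : ℕ) :
    S36A9G_Cop f (g ^ n) := by
  induction n with
  | zero => exact ⟨0, 1, 0, by simp⟩
  | succ n ih => rw [pow_succ]; exact S36A9G_Cop_mul ih h

theorem S36A9G_Cop_a_X : S36A9G_Cop S36A9_a Polynomial.X := by
  refine ⟨1, -(Polynomial.X ^ 3 + 252 * Polynomial.X ^ 2 + 4374 * Polynomial.X + 26244), 5, ?_⟩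
  have e : Polynomial.C ((9 : ℤ) ^ 5) = (59049 : Polynomial ℤ) := by
    norm_num
  rw [e, S36A9_a, S36A9_aE]
  ring

theorem S36A9G_Cop_a_c9 :
    S36A9G_Cop S36A9_a (Polynomial.X ^ 2 + 9 * Polynomial.X + 27) := by
  refine ⟨-3 * (Polynomial.X + 6),
    3 * (243 + (Polynomial.X + 6) * (Polynomial.X ^ 2 + 243 * Polynomial.X + 2160)), 4, ?_⟩
  have e : Polynomial.C ((9 : ℤ) ^ 4) = (6561 : Polynomial ℤ) := by
    norm_num
  rw [e, S36A9_a, S36A9_aE]
  ring

theorem S36A9G_bez :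
    ∃ (U V : Polynomial ℤ) (e : ℕ),
      U * S36A9_a ^ 3 + V * S36A9_B = Polynomial.C (((9 : ℕ) : ℤ) ^ e) := by
  have h1 : S36A9G_Cop S36A9_a S36A9_B := by
    rw [S36A9_B, S36A9_BE]
    exact S36A9G_Cop_mul (S36A9G_Cop_pow S36A9G_Cop_a_X 9) S36A9G_Cop_a_c9
  have h2 : S36A9G_Cop (S36A9_a ^ 3) S36A9_B :=
    S36A9G_Cop_symm (S36A9G_Cop_pow (S36A9G_Cop_symm h1) 3)
  obtain ⟨U, V, e, h⟩ := h2
  exact ⟨U, V, e, by rw [h]; norm_num⟩

/-! ### The instance -/

theorem S36A9G_a_monic : S36A9_a.Monic := by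
  unfold S36A9_a S36A9_aE
  refine Polynomial.Monic.mul ?_ ?_
  · monicity!
  · monicity!

theorem S36A9G_a_natDegree : S36A9_a.natDegree = 4 := by
  unfold S36A9_a S36A9_aE
  compute_degree!

theorem S36A9G_B_monic : S36A9_B.Monic := by
  unfold S36A9_B S36A9_BE
  refine Polynomial.Monic.mul (Polynomial.monic_X_pow 9) ?_
  monicity!

theorem S36A9G_B_natDegree : S36A9_B.natDegree = 11 := by
  unfold S36A9_B S36A9_BE
  compute_degree!

theorem S36A9G_hc : S36A9_a ^ 3 - 1728 * S36A9_B = S36A9_c ^ 2 :=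
  S36A9_hcE (Polynomial.X : Polynomial ℤ)

/-- **The auxiliary Hauptmodul datum of level `9`**, given the modular equation
`Φ₃(j, j(Q³)) = 0`. -/
theorem S36A9_nine (hPhi : S36A9_Phi3 (jqModC ℤ) (qExpand ℤ 3 (jqModC ℤ)) = 0) :
    Nonempty (S36AUX_Data 9) := by
  obtain ⟨u, hu, hroot⟩ := S36A9H_exists_root
  exact ⟨{
    u := u
    hu := hu
    a := S36A9_a
    B := S36A9_B
    c := S36A9_c
    ha := S36A9G_a_monic
    hB := S36A9G_B_monic
    hdeg := by rw [S36A9G_a_natDegree, S36A9G_B_natDegree]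
    rel := S36A9H_rel u hroot
    hc := S36A9G_hc
    bez := S36A9G_bez
    mem := S36A9G_mem u hu hroot hPhi
    gen := S36A9G_gen u hu hroot hPhi }⟩

end Fermat.Agent.S36_helper24_A9G
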