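import Mathlib
import Fermat.Agent.S36_helper24_A9G
import Fermat.Agent.S36_helper10_AUX9Phi

/-!
# S36, piece AUX: the instance `r = 9` (the case `q = 2`) (helper24)

`S36AUX_nine : Nonempty (S36AUX_Data 9)`: the auxiliary Hauptmodul datum of level `9`,
`h = Q⁻¹ u` with `j = ((h + 9)(h³ + 243 h² + 2187 h + 6561))³ / (h⁹ (h² + 9 h + 27))`.

* the assembly `S36A9_nine` (Hensel root, uniqueness of the top-order root of `Φ₃`,
  `gen`, `mem`, `bez`) is in `S36_helper24_A9G`;
* the modular equation `Φ₃(j, j(Q³)) = 0` is helper10's `S36A9_phi3`.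
-/

set_option autoImplicit false

namespace Fermat.Agent.S36_helper24_A9NINE

open Fermat.Agent.S36_helper8_AUXDefs

/-- **The auxiliary Hauptmodul datum of level `9` exists.** -/
theorem S36AUX_nine : Nonempty (S36AUX_Data 9) :=
  Fermat.Agent.S36_helper24_A9G.S36A9_nine Fermat.Agent.S36_helper10_AUX9Phi.S36A9_phi3

end Fermat.Agent.S36_helper24_A9NINE
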