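import Mathlib
import Fermat.Agent.S36_helper24_A9NINE

/-!
# S36, piece AUX, instance `r = 9`: the datum as a term, and the identities over any ring
(helper24; the `r = 9` mirror of helper8's `S36_helper8_A4Q`)

* `S36A9_u`            : the Hensel root (`u(0) = 1`);
* `S36AUX_nineData`    : `S36AUX_Data 9` as a term, with `rfl`-lemmas for `u, a, B, c`;
* `S36A9_relK`         : `j · B(h) = a(h)³` over any commutative ring `K`;
* `S36A9_V3K`          : `j(Q³) · d₃(h) = n₃(h)` over any commutative ring `K`;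
* `S36A9_V9K`          : `j(Q⁹) · d₉(h) = n₉(h)` over any commutative ring `K`,

for `h = S36AUX_hK K S36A9_u = Q⁻¹ u`.
-/

set_option autoImplicit false

noncomputable section

namespace Fermat.Agent.S36_helper24_A9Q

open ModularCurve
open Fermat.Agent.S36_helper8_AUXDefs Fermat.Agent.S36_helper24_A9Defs
  Fermat.Agent.S36_helper24_A9ALG Fermat.Agent.S36_helper24_A9H Fermat.Agent.S36_helper24_A9U
  Fermat.Agent.S36_helper24_A9V Fermat.Agent.S36_helper24_A9G
open Fermat.Agent.S36_helper10_AUX9Phi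

/-- the Hensel root: `u ∈ 1 + Q ℤ⟦Q⟧` with `j · B(Q⁻¹ u) = a(Q⁻¹ u)³` -/
def S36A9_u : PowerSeries ℤ := Classical.choose S36A9H_exists_root

theorem S36A9_u_cc : PowerSeries.constantCoeff S36A9_u = 1 :=
  (Classical.choose_spec S36A9H_exists_root).1

theorem S36A9_u_root :
    S36A9H_at PowerSeries.X S36A9_u ^ 3 = jNum * S36A9H_Bt PowerSeries.X S36A9_u :=
  (Classical.choose_spec S36A9H_exists_root).2

/-- **The auxiliary Hauptmodul datum of level `9`**, as a term. -/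
def S36AUX_nineData : S36AUX_Data 9 where
  u := S36A9_u
  hu := S36A9_u_cc
  a := S36A9_a
  B := S36A9_B
  c := S36A9_c
  ha := S36A9G_a_monic
  hB := S36A9G_B_monic
  hdeg := by rw [S36A9G_a_natDegree, S36A9G_B_natDegree]
  rel := S36A9H_rel S36A9_u S36A9_u_root
  hc := S36A9G_hc
  bez := S36A9G_bez
  mem := S36A9G_mem S36A9_u S36A9_u_cc S36A9_u_root S36A9_phi3
  gen := S36A9G_gen S36A9_u S36A9_u_cc S36A9_u_root S36A9_phi3

theorem S36AUX_nineData_u : S36AUX_nineData.u = S36A9_u := rfl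

theorem S36AUX_nineData_a : S36AUX_nineData.a = S36A9_a := rfl

theorem S36AUX_nineData_B : S36AUX_nineData.B = S36A9_B := rfl

theorem S36AUX_nineData_c : S36AUX_nineData.c = S36A9_c := rfl

/-! ### From `ℚ` to `ℤ` to any ring -/

theorem S36A9Q_coeffMap_qExpand {R S : Type*} [CommRing R] [CommRing S] (f : R →+* S) (n : ℕ)
    [NeZero n] (x : LaurentSeries R) : coeffMap f (qExpand R n x) = qExpand S n (coeffMap f x) := by
  ext k
  by_cases hk : (n : ℤ) ∣ k
  · obtain ⟨m, rfl⟩ := hk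
    rw [coeffMap_coeff, qExpand_coeff_mul, qExpand_coeff_mul, coeffMap_coeff]
  · rw [coeffMap_coeff, qExpand_coeff_of_not_dvd n _ hk, qExpand_coeff_of_not_dvd n _ hk,
      map_zero]

theorem S36A9Q_phi_injective :
    Function.Injective (coeffMap (Int.castRingHom ℚ)) := by
  intro f g h
  ext k
  have := congrArg (fun y => y.coeff k) h
  simp only [coeffMap_coeff] at this
  exact Int.cast_injective this

theorem S36A9Q_coeffMap_ofPS {R S : Type*} [CommRing R] [CommRing S] (f : R →+* S)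
    (g : PowerSeries R) :
    coeffMap f (HahnSeries.ofPowerSeries ℤ R g) = HahnSeries.ofPowerSeries ℤ S (g.map f) := by
  ext k
  rw [coeffMap_coeff]
  rcases le_or_gt 0 k with hk | hk
  · lift k to ℕ using hk
    rw [HahnSeries.ofPowerSeries_apply_coeff, HahnSeries.ofPowerSeries_apply_coeff,
      PowerSeries.coeff_map]
  · rw [ofPowerSeries_coeff_of_neg _ hk, ofPowerSeries_coeff_of_neg _ hk, map_zero]

section AnyRing

variable (K : Type*) [CommRing K]

theorem S36A9Q_coeffMap_h (u : PowerSeries ℤ) :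
    coeffMap (Int.castRingHom K) (S36AUX_h u) = S36AUX_hK K u := by
  rw [S36AUX_h, S36AUX_hK, map_mul, coeffMap_single, map_one, S36A9Q_coeffMap_ofPS]

theorem S36A9Q_coeffMap_j (d : ℕ) [NeZero d] :
    coeffMap (Int.castRingHom K) (qExpand ℤ d (jqModC ℤ)) = qExpand K d (jqModC K) := by
  rw [S36A9Q_coeffMap_qExpand, coeffMap_jqModC]

end AnyRing

/-- `j(Q³) · d₃(h) = n₃(h)` over `ℤ` -/
theorem S36A9_V3Z :
    qExpand ℤ 3 (jqModC ℤ) * S36A9_d3E (S36AUX_h S36A9_u) = S36A9_n3E (S36AUX_h S36A9_u) := by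
  apply S36A9Q_phi_injective
  rw [map_mul, S36A9Q_coeffMap_j, S36A9G_d3E_map, S36A9G_n3E_map, S36A9Q_coeffMap_h,
    S36A9V_V3 S36A9_u S36A9_u_cc S36A9_u_root S36A9_phi3,
    div_mul_cancel₀ _ (S36A9V_d3E_ne S36A9_u S36A9_u_cc)]

/-- `j(Q⁹) · d₉(h) = n₉(h)` over `ℤ` -/
theorem S36A9_V9Z :
    qExpand ℤ 9 (jqModC ℤ) * S36A9_d9E (S36AUX_h S36A9_u) = S36A9_n9E (S36AUX_h S36A9_u) := by
  apply S36A9Q_phi_injective
  rw [map_mul, S36A9Q_coeffMap_j, S36A9G_d9E_map, S36A9G_n9E_map, S36A9Q_coeffMap_h,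
    S36A9V_V9 S36A9_u S36A9_u_cc S36A9_u_root S36A9_phi3,
    div_mul_cancel₀ _ (S36A9V_d9E_ne S36A9_u S36A9_u_cc)]

section AnyRing'

variable (K : Type*) [CommRing K]

/-- `j · h⁹ (h² + 9 h + 27) = ((h + 9)(h³ + 243 h² + 2187 h + 6561))³` over any ring -/
theorem S36A9_relK :
    jqModC K * S36A9_BE (S36AUX_hK K S36A9_u) = S36A9_aE (S36AUX_hK K S36A9_u) ^ 3 := by
  rw [jqModC, S36AUX_hK]
  refine S36A9H_rel_of_root K _ _ ?_
  have h2 := congrArg (PowerSeries.map (Int.castRingHom K)) S36A9_u_root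
  rw [map_pow, map_mul, S36A9H_at_map, S36A9H_Bt_map, PowerSeries.map_X] at h2
  exact h2

/-- `j(Q³) · h³ (h² + 9 h + 27)³ = (h⁴ + 12 h³ + 54 h² + 324 h + 729)³` over any ring -/
theorem S36A9_V3K :
    qExpand K 3 (jqModC K) * S36A9_d3E (S36AUX_hK K S36A9_u)
      = S36A9_n3E (S36AUX_hK K S36A9_u) := by
  have h := congrArg (coeffMap (Int.castRingHom K)) S36A9_V3Z
  rwa [map_mul, S36A9Q_coeffMap_j, S36A9G_d3E_map, S36A9G_n3E_map, S36A9Q_coeffMap_h] at h

/-- `j(Q⁹) · h (h² + 9 h + 27) = (h + 3)³ (h³ + 9 h² + 27 h + 3)³` over any ring -/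
theorem S36A9_V9K :
    qExpand K 9 (jqModC K) * S36A9_d9E (S36AUX_hK K S36A9_u)
      = S36A9_n9E (S36AUX_hK K S36A9_u) := by
  have h := congrArg (coeffMap (Int.castRingHom K)) S36A9_V9Z
  rwa [map_mul, S36A9Q_coeffMap_j, S36A9G_d9E_map, S36A9G_n9E_map, S36A9Q_coeffMap_h] at h

end AnyRing'

end Fermat.Agent.S36_helper24_A9Q
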