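import Mathlib
import Fermat.Agent.S36_helper24_A9Q

/-!
# S36, piece AUX, instance `r = 9`: explicit forms for the consumers (helper24)

With `h = S36AUX_hK K S36A9_u` (the Hauptmodul of level `9`, `h = Q⁻¹ - 3 + 5 Q² - ⋯`):

* `S36A9_relK'`  : `j · (h⁹ (h² + 9 h + 27)) = ((h + 9)(h³ + 243 h² + 2187 h + 6561))³`;
* `S36A9_V3K'`   : `j(Q³) · (h³ (h² + 9 h + 27)³) = (h⁴ + 12 h³ + 54 h² + 324 h + 729)³`;
* `S36A9_V9K'`   : `j(Q⁹) · (h (h² + 9 h + 27)) = (h + 3)³ (h³ + 9 h² + 27 h + 3)³`;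
* `S36A9_hesse`  : the Hesse form (helper7's `hrel` of `S36E1_mu`): if `t h = h + 9`
  (i.e. `t = 1 + 9 / h`) then `27 (t (t³ + 8))³ = j(Q³) (t³ - 1)³`;
* `S36A9_hK_ne`  : `h ≠ 0` over a nontrivial ring;
* `S36A9_hK_coeff_neg_one`, `S36A9_hK_coeff_of_lt` : `h` has a simple pole with residue `1`.
-/

set_option autoImplicit false

noncomputable section

namespace Fermat.Agent.S36_helper24_A9HESSE

open ModularCurve
open Fermat.Agent.S36_helper8_AUXDefs Fermat.Agent.S36_helper24_A9Defs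
  Fermat.Agent.S36_helper24_A9Q

section AnyRing

variable (K : Type*) [CommRing K]

/-- `j · (h⁹ (h² + 9 h + 27)) = ((h + 9)(h³ + 243 h² + 2187 h + 6561))³` -/
theorem S36A9_relK' :
    jqModC K * (S36AUX_hK K S36A9_u ^ 9
        * (S36AUX_hK K S36A9_u ^ 2 + 9 * S36AUX_hK K S36A9_u + 27))
      = ((S36AUX_hK K S36A9_u + 9) * (S36AUX_hK K S36A9_u ^ 3
          + 243 * S36AUX_hK K S36A9_u ^ 2 + 2187 * S36AUX_hK K S36A9_u + 6561)) ^ 3 :=
  S36A9_relK K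

/-- `j(Q³) · (h³ (h² + 9 h + 27)³) = (h⁴ + 12 h³ + 54 h² + 324 h + 729)³` -/
theorem S36A9_V3K' :
    qExpand K 3 (jqModC K) * (S36AUX_hK K S36A9_u ^ 3
        * (S36AUX_hK K S36A9_u ^ 2 + 9 * S36AUX_hK K S36A9_u + 27) ^ 3)
      = (S36AUX_hK K S36A9_u ^ 4 + 12 * S36AUX_hK K S36A9_u ^ 3
          + 54 * S36AUX_hK K S36A9_u ^ 2 + 324 * S36AUX_hK K S36A9_u + 729) ^ 3 :=
  S36A9_V3K K

/-- `j(Q⁹) · (h (h² + 9 h + 27)) = (h + 3)³ (h³ + 9 h² + 27 h + 3)³` -/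
theorem S36A9_V9K' :
    qExpand K 9 (jqModC K) * (S36AUX_hK K S36A9_u
        * (S36AUX_hK K S36A9_u ^ 2 + 9 * S36AUX_hK K S36A9_u + 27))
      = (S36AUX_hK K S36A9_u + 3) ^ 3 * (S36AUX_hK K S36A9_u ^ 3
          + 9 * S36AUX_hK K S36A9_u ^ 2 + 27 * S36AUX_hK K S36A9_u + 3) ^ 3 :=
  S36A9_V9K K

/-- the coefficient of `Q⁻¹` in `h` is `1` -/
theorem S36A9_hK_coeff_neg_one : (S36AUX_hK K S36A9_u).coeff (-1) = 1 := by
  have h := HahnSeries.coeff_single_mul_add (r := (1 : K))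
    (x := HahnSeries.ofPowerSeries ℤ K (S36A9_u.map (Int.castRingHom K))) (a := (0 : ℤ))
    (b := (-1 : ℤ))
  rw [S36AUX_hK]
  rw [show ((0 : ℤ) + -1) = -1 by norm_num] at h
  rw [h, one_mul]
  have h0 : (HahnSeries.ofPowerSeries ℤ K (S36A9_u.map (Int.castRingHom K))).coeff
      (((0 : ℕ) : ℤ)) = PowerSeries.coeff 0 (S36A9_u.map (Int.castRingHom K)) :=
    HahnSeries.ofPowerSeries_apply_coeff _ 0
  rw [Nat.cast_zero] at h0
  rw [h0, PowerSeries.coeff_map, PowerSeries.coeff_zero_eq_constantCoeff, S36A9_u_cc, map_one]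

/-- `h` has no terms below `Q⁻¹` -/
theorem S36A9_hK_coeff_of_lt {k : ℤ} (hk : k < -1) : (S36AUX_hK K S36A9_u).coeff k = 0 := by
  have h := HahnSeries.coeff_single_mul_add (r := (1 : K))
    (x := HahnSeries.ofPowerSeries ℤ K (S36A9_u.map (Int.castRingHom K))) (a := (k + 1 : ℤ))
    (b := (-1 : ℤ))
  rw [S36AUX_hK]
  rw [show ((k + 1 : ℤ) + -1) = k by ring] at h
  rw [h, one_mul]
  exact ofPowerSeries_coeff_of_neg _ (by omega)

theorem S36A9_hK_ne [Nontrivial K] : S36AUX_hK K S36A9_u ≠ 0 := by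
  intro h
  have h1 := S36A9_hK_coeff_neg_one K
  rw [h, HahnSeries.coeff_zero] at h1
  exact zero_ne_one h1

end AnyRing

/-- **The Hesse form.**  For `t` with `t h = h + 9` (i.e. `t = 1 + 9 / h`):
`27 (t (t³ + 8))³ = j(Q³) (t³ - 1)³`. -/
theorem S36A9_hesse (K : Type*) [Field K] (t : LaurentSeries K)
    (ht : t * S36AUX_hK K S36A9_u = S36AUX_hK K S36A9_u + 9) :
    27 * (t * (t ^ 3 + 8)) ^ 3 = qExpand K 3 (jqModC K) * (t ^ 3 - 1) ^ 3 := by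
  have hh : S36AUX_hK K S36A9_u ≠ 0 := S36A9_hK_ne K
  have hV := S36A9_V3K' K
  have e : S36AUX_hK K S36A9_u ^ 12
      * (27 * (t * (t ^ 3 + 8)) ^ 3 - qExpand K 3 (jqModC K) * (t ^ 3 - 1) ^ 3)
      = 27 * ((t * S36AUX_hK K S36A9_u) * ((t * S36AUX_hK K S36A9_u) ^ 3
          + 8 * S36AUX_hK K S36A9_u ^ 3)) ^ 3
        - qExpand K 3 (jqModC K) * S36AUX_hK K S36A9_u ^ 3
          * ((t * S36AUX_hK K S36A9_u) ^ 3 - S36AUX_hK K S36A9_u ^ 3) ^ 3 := by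
    ring
  rw [ht] at e
  have e' : 27 * ((S36AUX_hK K S36A9_u + 9) * ((S36AUX_hK K S36A9_u + 9) ^ 3
          + 8 * S36AUX_hK K S36A9_u ^ 3)) ^ 3
        - qExpand K 3 (jqModC K) * S36AUX_hK K S36A9_u ^ 3
          * ((S36AUX_hK K S36A9_u + 9) ^ 3 - S36AUX_hK K S36A9_u ^ 3) ^ 3 = 0 := by
    linear_combination (-19683 : LaurentSeries K) * hV
  rw [e'] at e
  rcases mul_eq_zero.mp e with h0 | h0
  · exact absurd (pow_eq_zero_iff (by norm_num) |>.mp h0) hh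
  · exact sub_eq_zero.mp h0

end Fermat.Agent.S36_helper24_A9HESSE
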