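import Fermat.Agent.S34_helper20_V0

/-!
# S36, piece WQQ (helper20): the Atkin–Lehner automorphism `W_Q` for `Q ∥ N`

For `N = Q * M'` with `Q` coprime to `M'` (no primality: `Q = q ^ 2` is the use) and any field
`K1` with an embedding into `ℚ̄`, the function field `F1 = K1(j(q^d) : d ∣ N) ⊆ K1((q))` has a
`K1`-automorphism `w` with

* `w (j(q^(a d'))) = j(q^(a' d'))` for `Q = a a'`, `d' ∣ M'`,
* `w ∘ w = id`,
* `w = qExpand Q` (the substitution `q ↦ q^Q`) on the function field of level `M'`.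

For `Q = q ^ 2`, `q` prime: `w_(q²) ∘ w_q = qExpand q` on the function field of level `q M'`
(`S36WQ_beta`), i.e. `β^* = w_(q²) ∘ α^* ∘ w_q` for the two degeneracy maps
`X₀(q² M') → X₀(q M')`.

Same analytic input as the landed `S34_helper20_WQ` (`MASTER_inf N γ` for
`γ = [[1, -v], [M', Q u]]`, `Q u + v M' = 1`).
-/

set_option autoImplicit false
set_option linter.unusedSectionVars false
set_option linter.unusedVariables false
set_option linter.style.haveILetI false

noncomputable section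

open UpperHalfPlane ModularForm CongruenceSubgroup
open scoped MatrixGroups ModularForm Manifold Real
open ModularCurve Fermat.Agent.S20 Fermat.Agent.S24
open Fermat.Agent.S28_helper14_ADefs Fermat.Agent.S28_SUBST
open Fermat.Agent.S37_helper20_KAPPAEMB Fermat.Agent.S34_helper20_WQ
open Fermat.Agent.S34_helper20_V0

namespace Fermat.Agent.S36_helper20_WQQ

/-! ### Part 1: the matrices -/

section Matrix

/-- the matrix `[[a, -v d], [c, a' u]]` of determinant `1` (for `Q = a a'`, `M' = d c`) -/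
def S36WQ_gamma2 (Q M' a a' d c : ℕ) (hQ : Q = a * a') (hc : M' = d * c) (u v : ℤ)
    (h : (Q : ℤ) * u + v * (M' : ℤ) = 1) : SL(2, ℤ) :=
  ⟨!![(a : ℤ), -v * (d : ℤ); (c : ℤ), (a' : ℤ) * u], by
    rw [Matrix.det_fin_two_of]
    have h1 : (M' : ℤ) = (d : ℤ) * (c : ℤ) := by exact_mod_cast hc
    have h2 : (Q : ℤ) = (a : ℤ) * (a' : ℤ) := by exact_mod_cast hQ
    rw [h1, h2] at h
    linear_combination h⟩

/-- `j_(a d) ∘ γ = (z ↦ j(d z / a))` for `a ∣ Q`, `d ∣ M'` -/
theorem S36WQ_jd_new (Q M' : ℕ) (hM' : 0 < M') (u v : ℤ)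
    (h : (Q : ℤ) * u + v * (M' : ℤ) = 1) {a a' d : ℕ} (ha : 0 < a) (hQ : Q = a * a')
    (hd : d ∣ M') :
    jd (a * d) (S34WQ_gamma Q M' u v h) = tri d a 0 jfun := by
  obtain ⟨c, hc⟩ := hd
  have hdpos : 0 < d := by
    rcases Nat.eq_zero_or_pos d with h0 | h0
    · subst h0; simp at hc; omega
    · exact h0
  funext z
  have hpos : 0 < (aff d a 0 (z : ℂ)).im := aff_im_pos hdpos ha 0 z.im_pos
  rw [tri_apply, ofComplex_apply_of_im_pos hpos]
  unfold jd
  have key : dmul (a * d) (S34WQ_gamma Q M' u v h • z) =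
      S36WQ_gamma2 Q M' a a' d c hQ hc u v h • (⟨aff d a 0 (z : ℂ), hpos⟩ : ℍ) := by
    apply UpperHalfPlane.ext
    rw [Fermat.Agent.S24_helper27_J1.dmul_coe (a * d) (Nat.mul_pos ha hdpos),
      UpperHalfPlane.coe_specialLinearGroup_apply, UpperHalfPlane.coe_specialLinearGroup_apply]
    have e00 : (S34WQ_gamma Q M' u v h) 0 0 = 1 := rfl
    have e01 : (S34WQ_gamma Q M' u v h) 0 1 = -v := rfl
    have e10 : (S34WQ_gamma Q M' u v h) 1 0 = (M' : ℤ) := rfl
    have e11 : (S34WQ_gamma Q M' u v h) 1 1 = (Q : ℤ) * u := rfl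
    have f00 : (S36WQ_gamma2 Q M' a a' d c hQ hc u v h) 0 0 = (a : ℤ) := rfl
    have f01 : (S36WQ_gamma2 Q M' a a' d c hQ hc u v h) 0 1 = -v * (d : ℤ) := rfl
    have f10 : (S36WQ_gamma2 Q M' a a' d c hQ hc u v h) 1 0 = (c : ℤ) := rfl
    have f11 : (S36WQ_gamma2 Q M' a a' d c hQ hc u v h) 1 1 = (a' : ℤ) * u := rfl
    rw [e00, e01, e10, e11, f00, f01, f10, f11]
    have hden : ((algebraMap ℤ ℝ ((M' : ℤ)) : ℝ) : ℂ) * (z : ℂ) +
        ((algebraMap ℤ ℝ ((Q : ℤ) * u) : ℝ) : ℂ) ≠ 0 := by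
      have := UpperHalfPlane.denom_ne_zero ((S34WQ_gamma Q M' u v h : SL(2, ℤ)) : GL (Fin 2) ℝ) z
      rw [ModularGroup.denom_apply, e10, e11] at this
      simpa using this
    have hac : (a : ℂ) ≠ 0 := by exact_mod_cast ha.ne'
    have hdc : (d : ℂ) ≠ 0 := by exact_mod_cast hdpos.ne'
    have hM'c : (M' : ℂ) = (d : ℂ) * (c : ℂ) := by exact_mod_cast congrArg (Nat.cast : ℕ → ℂ) hc
    have hQc : (Q : ℂ) = (a : ℂ) * (a' : ℂ) := by exact_mod_cast congrArg (Nat.cast : ℕ → ℂ) hQ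
    show _ = _ / (_ * (aff d a 0 (z : ℂ)) + _)
    simp only [algebraMap_int_eq, Int.coe_castRingHom, Int.cast_mul, Int.cast_natCast,
      Complex.ofReal_mul, Complex.ofReal_intCast, Complex.ofReal_natCast, Int.cast_one,
      Complex.ofReal_one, Int.cast_neg, Complex.ofReal_neg, one_mul, Nat.cast_mul] at hden ⊢
    unfold aff
    have hden2 : (c : ℂ) * (((d : ℂ) * (z : ℂ) + ((0 : ℤ) : ℂ)) / (a : ℂ)) +
        (a' : ℂ) * (u : ℂ) ≠ 0 := by
      intro h0
      apply hden
      have : (M' : ℂ) * (z : ℂ) + (Q : ℂ) * (u : ℂ) =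
          (a : ℂ) * ((c : ℂ) * (((d : ℂ) * (z : ℂ) + ((0 : ℤ) : ℂ)) / (a : ℂ)) +
            (a' : ℂ) * (u : ℂ)) := by
        rw [hM'c, hQc]; field_simp; push_cast; ring
      rw [this, h0, mul_zero]
    rw [hM'c, hQc] at hden ⊢
    field_simp
    push_cast
    ring
  rw [key, Fermat.Agent.S24_helper27_J1.jfun_smul]

end Matrix

/-! ### Part 2: divisors of `Q M'` -/

section Divisors

/-- a divisor of `Q M'` (`Q`, `M'` coprime) is `a d'` with `a ∣ Q`, `d' ∣ M'` -/
theorem S36WQ_decomp {Q M' d : ℕ} (hcop : Nat.Coprime Q M') (hd : d ∣ Q * M') :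
    ∃ a a' d', Q = a * a' ∧ d' ∣ M' ∧ d = a * d' := by
  have h1 : Nat.gcd d (Q * M') = Nat.gcd d Q * Nat.gcd d M' := Nat.Coprime.gcd_mul d hcop
  have h2 : Nat.gcd d (Q * M') = d := Nat.gcd_eq_left hd
  obtain ⟨a', ha'⟩ := Nat.gcd_dvd_right d Q
  exact ⟨Nat.gcd d Q, a', Nat.gcd d M', ha', Nat.gcd_dvd_right d M', by rw [← h1, h2]⟩

end Divisors

/-! ### Part 3: the automorphism -/

section Main

variable {K1 : Type*} [Field K1] (emb : K1 →+* Kbar)

variable (Q M' N : ℕ) [NeZero M'] [NeZero N]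

/-- **the images of the generators under the translate embedding**: for `Q = a a'`, `d' ∣ M'`,
`ι (j(q^(a d'))) = j(t^(M' · a' d'))`. -/
theorem S36WQ_iota_gen (hN : N = Q * M') (u v : ℤ)
    (h : (Q : ℤ) * u + v * (M' : ℤ) = 1)
    (ι : modularFunctionFieldBar N →+* LaurentSeries ℂ)
    (hι : ∀ (d : ℕ) [NeZero d] (hd : d ∣ N),
      ι (jF N d hd) = laurentInf N (jd d (S34WQ_gamma Q M' u v h)))
    (a a' d' : ℕ) (hQ : Q = a * a') (hd' : d' ∣ M') [NeZero (a * d')]
    (hd : a * d' ∣ N) [NeZero (M' * (a' * d'))] :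
    ι (jF N (a * d') hd) = qExpand ℂ (M' * (a' * d')) (jqModC ℂ) := by
  have hM'pos : 0 < M' := Nat.pos_of_ne_zero (NeZero.ne M')
  have hNpos : 0 < N := Nat.pos_of_ne_zero (NeZero.ne N)
  have hadpos : 0 < a * d' := Nat.pos_of_ne_zero (NeZero.ne (a * d'))
  have hapos : 0 < a := Nat.pos_of_mul_pos_right hadpos
  have hd'pos : 0 < d' := Nat.pos_of_mul_pos_left hadpos
  rw [hι (a * d') hd]
  have haN : a ∣ N := by
    rw [hN, hQ]
    exact Dvd.intro _ (by ring : a * (a' * M') = a * a' * M')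
  have hdiff : MDifferentiable 𝓘(ℂ) 𝓘(ℂ) (tri d' a 0 jfun) := by
    rw [← S36WQ_jd_new Q M' hM'pos u v h hapos hQ hd']
    exact Fermat.Agent.S24_helper27_J1.jd_mdiff (a * d') hadpos _
  have hNa : N / a = a' * M' := by
    rw [hN, hQ, Nat.mul_assoc, Nat.mul_div_cancel_left _ hapos]
  rw [S36WQ_jd_new Q M' hM'pos u v h hapos hQ hd',
    S34WQ_laurentInf_tri N hd'pos hapos haN hdiff]
  haveI : NeZero (d' * (N / a)) := ⟨by
    rw [hNa]
    have := NeZero.ne (M' * (a' * d'))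
    intro h0
    apply this
    rw [← h0]; ring⟩
  apply S34WQ_qExpand_congr
  rw [hNa]
  ring

include emb in
/-- **the Atkin–Lehner map, generator form.** -/
theorem S36WQ_exists_hom (hcop : Nat.Coprime Q M') (hN : N = Q * M') :
    ∃ w : modularFunctionFieldFullC K1 N →+* modularFunctionFieldFullC K1 N,
      (∀ (c : K1) (hc : HahnSeries.C c ∈ modularFunctionFieldFullC K1 N),
        w ⟨HahnSeries.C c, hc⟩ = ⟨HahnSeries.C c, hc⟩) ∧
      (∀ (a a' d' : ℕ) (hQ : Q = a * a') (hd' : d' ∣ M') [NeZero (a * d')] [NeZero (a' * d')]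
        (hm : qExpand K1 (a * d') (jqModC K1) ∈ modularFunctionFieldFullC K1 N),
        ((w ⟨qExpand K1 (a * d') (jqModC K1), hm⟩ : modularFunctionFieldFullC K1 N) :
          LaurentSeries K1) = qExpand K1 (a' * d') (jqModC K1)) := by
  have hM'pos : 0 < M' := Nat.pos_of_ne_zero (NeZero.ne M')
  have hNpos : 0 < N := Nat.pos_of_ne_zero (NeZero.ne N)
  have hQpos : 0 < Q := by
    rcases Nat.eq_zero_or_pos Q with h0 | h0
    · rw [h0, zero_mul] at hN; omega
    · exact h0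
  have hcopZ : IsCoprime (Q : ℤ) (M' : ℤ) := Nat.isCoprime_iff_coprime.mpr hcop
  obtain ⟨u, v, huv⟩ := hcopZ
  have h : (Q : ℤ) * u + v * (M' : ℤ) = 1 := by linear_combination huv
  obtain ⟨ι, hιC, hιj⟩ := Fermat.Agent.S24_helper17_EMB.MASTER_inf N (S34WQ_gamma Q M' u v h)
  set Φ : modularFunctionFieldFullC K1 N →+* LaurentSeries ℂ :=
    ι.comp (Fermat.Agent.S18_helper26_DEGK1.S18DEG_inc emb N) with hΦ
  have hΦC : ∀ (c : K1) (hc : HahnSeries.C c ∈ modularFunctionFieldFullC K1 N),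
      Φ ⟨HahnSeries.C c, hc⟩ = S34WQ_psi emb M' (HahnSeries.C c) := by
    intro c hc
    have h2 : (⟨HahnSeries.C c, hc⟩ : modularFunctionFieldFullC K1 N) =
        algebraMap K1 (modularFunctionFieldFullC K1 N) c := by
      apply Subtype.ext
      show HahnSeries.C c = algebraMap K1 (LaurentSeries K1) c
      rw [algebraMap_laurentSeries_eq_single, HahnSeries.C_apply]
    rw [hΦ, RingHom.comp_apply, h2,
      Fermat.Agent.S18_helper26_DEGK1.S18DEG_inc_algebraMap emb N c, hιC, S34WQ_psi_C]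
  have hΦj : ∀ (a a' d' : ℕ) (hQ : Q = a * a') (hd' : d' ∣ M') [NeZero (a * d')]
      [NeZero (a' * d')]
      (hm : qExpand K1 (a * d') (jqModC K1) ∈ modularFunctionFieldFullC K1 N),
      Φ ⟨qExpand K1 (a * d') (jqModC K1), hm⟩ =
        S34WQ_psi emb M' (qExpand K1 (a' * d') (jqModC K1)) := by
    intro a a' d' hQ hd' _ _ hm
    haveI : NeZero (M' * (a' * d')) :=
      ⟨Nat.mul_ne_zero hM'pos.ne' (NeZero.ne (a' * d'))⟩
    have hd : a * d' ∣ N := by
      rw [hN, hQ]
      obtain ⟨c, hc⟩ := hd'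
      exact Dvd.intro (a' * c) (by rw [hc]; ring)
    have h1 : Fermat.Agent.S18_helper26_DEGK1.S18DEG_inc emb N
        ⟨qExpand K1 (a * d') (jqModC K1), hm⟩ = jF N (a * d') hd :=
      Fermat.Agent.S18_helper26_DEGK1.S18DEG_inc_jbard emb N (a * d') hd
    rw [hΦ, RingHom.comp_apply, h1, S36WQ_iota_gen Q M' N hN u v h ι hιj a a' d' hQ hd' hd,
      S34WQ_psi_gen]
  -- the dual of a generator
  have hgen : ∀ (d : ℕ) [NeZero d] (hd : d ∣ N)
      (hm : qExpand K1 d (jqModC K1) ∈ modularFunctionFieldFullC K1 N),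
      ∃ (e : ℕ) (_ : NeZero e), e ∣ N ∧
        Φ ⟨qExpand K1 d (jqModC K1), hm⟩ = S34WQ_psi emb M' (qExpand K1 e (jqModC K1)) := by
    intro d hd0 hd hm
    obtain ⟨a, a', d', hQ, hd', rfl⟩ := S36WQ_decomp hcop (hN ▸ hd)
    have ha'pos : 0 < a' := by
      rcases Nat.eq_zero_or_pos a' with h0 | h0
      · rw [h0, mul_zero] at hQ; omega
      · exact h0
    have hd'pos : 0 < d' := Nat.pos_of_mul_pos_left (Nat.pos_of_ne_zero (NeZero.ne (a * d')))
    haveI : NeZero (a' * d') := ⟨Nat.mul_ne_zero ha'pos.ne' hd'pos.ne'⟩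
    refine ⟨a' * d', inferInstance, ?_, hΦj a a' d' hQ hd' hm⟩
    rw [hN, hQ]
    obtain ⟨c, hc⟩ := hd'
    exact Dvd.intro (a * c) (by rw [hc]; ring)
  have hex : ∀ y, ∃ x, S34WQ_psi emb M' x = Φ y := by
    intro y
    have hmem : Φ y ∈ (S34WQ_psi emb M').fieldRange := by
      refine S37KE_ringHom_mem N Φ (S34WQ_psi emb M').fieldRange ?_ ?_ y
      · intro c hc
        exact ⟨HahnSeries.C c, (hΦC c hc).symm⟩
      · intro d _ hd hm
        obtain ⟨e, _, -, he⟩ := hgen d hd hm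
        exact ⟨qExpand K1 e (jqModC K1), he.symm⟩
    exact hmem
  obtain ⟨w₀, hw₀⟩ := S37KE_descend Φ (S34WQ_psi emb M') (S34WQ_psi_injective emb M') hex
  have hw₀C : ∀ (c : K1) (hc : HahnSeries.C c ∈ modularFunctionFieldFullC K1 N),
      w₀ ⟨HahnSeries.C c, hc⟩ = HahnSeries.C c := by
    intro c hc
    apply S34WQ_psi_injective emb M'
    rw [hw₀, hΦC]
  have hw₀j : ∀ (a a' d' : ℕ) (hQ : Q = a * a') (hd' : d' ∣ M') [NeZero (a * d')]
      [NeZero (a' * d')]
      (hm : qExpand K1 (a * d') (jqModC K1) ∈ modularFunctionFieldFullC K1 N),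
      w₀ ⟨qExpand K1 (a * d') (jqModC K1), hm⟩ = qExpand K1 (a' * d') (jqModC K1) := by
    intro a a' d' hQ hd' _ _ hm
    apply S34WQ_psi_injective emb M'
    rw [hw₀, hΦj a a' d' hQ hd' hm]
  have hrange : ∀ y, w₀ y ∈ modularFunctionFieldFullC K1 N := by
    intro y
    have := S37KE_ringHom_mem N w₀ (modularFunctionFieldFullC K1 N).toSubfield ?_ ?_ y
    · exact this
    · intro c hc
      rw [hw₀C c hc]
      exact hc
    · intro d _ hd hm
      obtain ⟨e, _, heN, he⟩ := hgen d hd hm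
      have h3 : w₀ ⟨qExpand K1 d (jqModC K1), hm⟩ = qExpand K1 e (jqModC K1) := by
        apply S34WQ_psi_injective emb M'
        rw [hw₀, he]
      rw [h3]
      exact jqModCd_mem_full K1 N heN
  refine ⟨w₀.codRestrict (modularFunctionFieldFullC K1 N) hrange, ?_, ?_⟩
  · intro c hc
    apply Subtype.ext
    exact hw₀C c hc
  · intro a a' d' hQ hd' _ _ hm
    exact hw₀j a a' d' hQ hd' hm

/-- generator form with a free index (for rewriting) -/
theorem S36WQ_gen_congr {w : modularFunctionFieldFullC K1 N →+* modularFunctionFieldFullC K1 N}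
    (hwj : ∀ (a a' d' : ℕ) (hQ : Q = a * a') (hd' : d' ∣ M') [NeZero (a * d')] [NeZero (a' * d')]
      (hm : qExpand K1 (a * d') (jqModC K1) ∈ modularFunctionFieldFullC K1 N),
      ((w ⟨qExpand K1 (a * d') (jqModC K1), hm⟩ : modularFunctionFieldFullC K1 N) :
        LaurentSeries K1) = qExpand K1 (a' * d') (jqModC K1))
    (a a' d' : ℕ) (hQ : Q = a * a') (hd' : d' ∣ M') (d e : ℕ) [NeZero d] [NeZero e]
    (hd : d = a * d') (he : e = a' * d')
    (hm : qExpand K1 d (jqModC K1) ∈ modularFunctionFieldFullC K1 N) :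
    ((w ⟨qExpand K1 d (jqModC K1), hm⟩ : modularFunctionFieldFullC K1 N) :
      LaurentSeries K1) = qExpand K1 e (jqModC K1) := by
  subst hd he
  exact hwj a a' d' hQ hd' hm

include emb in
/-- **the Atkin–Lehner involution `W_Q`.**  For `N = Q M'`, `Q` coprime to `M'`, and any field
`K1` embedding into `ℚ̄`: a `K1`-algebra automorphism `w` of `F1 = K1(j(q^d) : d ∣ N)` with
`w ∘ w = id`, `w (j(q^(a d'))) = j(q^(a' d'))` for `Q = a a'`, `d' ∣ M'`, and
`w = qExpand Q` (the substitution `q ↦ q^Q`) on the function field of level `M'`. -/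
theorem S36WQ_exists (hcop : Nat.Coprime Q M') (hN : N = Q * M') [NeZero Q] :
    ∃ w : modularFunctionFieldFullC K1 N ≃ₐ[K1] modularFunctionFieldFullC K1 N,
      (∀ x, w (w x) = x) ∧
      (∀ (a a' d' : ℕ) (hQ : Q = a * a') (hd' : d' ∣ M') [NeZero (a * d')] [NeZero (a' * d')]
        (hm : qExpand K1 (a * d') (jqModC K1) ∈ modularFunctionFieldFullC K1 N),
        ((w ⟨qExpand K1 (a * d') (jqModC K1), hm⟩ : modularFunctionFieldFullC K1 N) :
          LaurentSeries K1) = qExpand K1 (a' * d') (jqModC K1)) ∧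
      (∀ x : modularFunctionFieldFullC K1 N,
        (x : LaurentSeries K1) ∈ modularFunctionFieldFullC K1 M' →
          ((w x : modularFunctionFieldFullC K1 N) : LaurentSeries K1) =
            qExpand K1 Q (x : LaurentSeries K1)) := by
  have hQpos : 0 < Q := Nat.pos_of_ne_zero (NeZero.ne Q)
  obtain ⟨w₁, hwC, hwj⟩ := S36WQ_exists_hom (K1 := K1) emb Q M' N hcop hN
  have hM'N : M' ∣ N := hN ▸ dvd_mul_left M' Q
  -- involution
  have hinv : ∀ y, w₁ (w₁ y) = y := by
    intro y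
    refine S34WQ_ringHom_ext N (w₁.comp w₁) (RingHom.id _) ?_ ?_ y
    · intro c hc
      rw [RingHom.comp_apply, hwC c hc, hwC c hc]
      rfl
    · intro d hd0 hd hm
      obtain ⟨a, a', d', hQ, hd', rfl⟩ := S36WQ_decomp hcop (hN ▸ hd)
      have hadpos : 0 < a * d' := Nat.pos_of_ne_zero (NeZero.ne (a * d'))
      have hd'pos : 0 < d' := Nat.pos_of_mul_pos_left hadpos
      have ha'pos : 0 < a' := by
        rcases Nat.eq_zero_or_pos a' with h0 | h0
        · rw [h0, mul_zero] at hQ; omega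
        · exact h0
      haveI : NeZero (a' * d') := ⟨Nat.mul_ne_zero ha'pos.ne' hd'pos.ne'⟩
      have hd2 : a' * d' ∣ N := by
        rw [hN, hQ]
        obtain ⟨c, hc⟩ := hd'
        exact Dvd.intro (a * c) (by rw [hc]; ring)
      have hm' : qExpand K1 (a' * d') (jqModC K1) ∈ modularFunctionFieldFullC K1 N :=
        jqModCd_mem_full K1 N hd2
      have h1 : w₁ ⟨qExpand K1 (a * d') (jqModC K1), hm⟩ =
          ⟨qExpand K1 (a' * d') (jqModC K1), hm'⟩ := Subtype.ext (hwj a a' d' hQ hd' hm)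
      rw [RingHom.comp_apply, h1]
      apply Subtype.ext
      exact hwj a' a d' (by rw [hQ, Nat.mul_comm]) hd' hm'
  -- restriction to level M'
  have hold : ∀ (d : ℕ) [NeZero d] [NeZero (Q * d)] (hd : d ∣ M')
      (hm : qExpand K1 d (jqModC K1) ∈ modularFunctionFieldFullC K1 N),
      ((w₁ ⟨qExpand K1 d (jqModC K1), hm⟩ : modularFunctionFieldFullC K1 N) :
        LaurentSeries K1) = qExpand K1 (Q * d) (jqModC K1) := by
    intro d _ _ hd hm
    exact S36WQ_gen_congr Q M' N hwj 1 Q d (by rw [Nat.one_mul]) hd d (Q * d)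
      (by rw [Nat.one_mul]) rfl hm
  have hres : ∀ (x : LaurentSeries K1) (hx' : x ∈ modularFunctionFieldFullC K1 M')
      (hx : x ∈ modularFunctionFieldFullC K1 N),
      ((w₁ ⟨x, hx⟩ : modularFunctionFieldFullC K1 N) : LaurentSeries K1) = qExpand K1 Q x := by
    intro x hx'
    unfold modularFunctionFieldFullC at hx'
    induction hx' using IntermediateField.adjoin_induction with
    | mem y hy =>
        intro hx
        obtain ⟨d, hd0, hd, rfl⟩ := hy
        haveI : NeZero (Q * d) := ⟨Nat.mul_ne_zero hQpos.ne' (NeZero.ne d)⟩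
        rw [hold d hd hx, qExpand_qExpand]
    | algebraMap c =>
        intro hx
        have h2 : algebraMap K1 (LaurentSeries K1) c = HahnSeries.C c := by
          rw [algebraMap_laurentSeries_eq_single, HahnSeries.C_apply]
        have hc : HahnSeries.C c ∈ modularFunctionFieldFullC K1 N := by
          rw [← h2]; exact hx
        have h3 : (⟨algebraMap K1 (LaurentSeries K1) c, hx⟩ : modularFunctionFieldFullC K1 N) =
            ⟨HahnSeries.C c, hc⟩ := Subtype.ext h2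
        rw [h3, hwC c hc, h2]
        show HahnSeries.C c = qExpand K1 Q (HahnSeries.C c)
        rw [HahnSeries.C_apply, qExpand_single, mul_zero]
    | add x y hx hy ihx ihy =>
        intro hxy
        have hxN : x ∈ modularFunctionFieldFullC K1 N := full_degeneracyC_le K1 hM'N hx
        have hyN : y ∈ modularFunctionFieldFullC K1 N := full_degeneracyC_le K1 hM'N hy
        have h : (⟨x + y, hxy⟩ : modularFunctionFieldFullC K1 N) = ⟨x, hxN⟩ + ⟨y, hyN⟩ := rfl
        rw [h, map_add, map_add]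
        show ((w₁ ⟨x, hxN⟩ : modularFunctionFieldFullC K1 N) : LaurentSeries K1) +
          ((w₁ ⟨y, hyN⟩ : modularFunctionFieldFullC K1 N) : LaurentSeries K1) = _
        rw [ihx hxN, ihy hyN]
    | inv x hx ihx =>
        intro hxi
        have hxN : x ∈ modularFunctionFieldFullC K1 N := full_degeneracyC_le K1 hM'N hx
        have h : (⟨x⁻¹, hxi⟩ : modularFunctionFieldFullC K1 N) = (⟨x, hxN⟩)⁻¹ := rfl
        rw [h, map_inv₀, map_inv₀]
        show (((w₁ ⟨x, hxN⟩ : modularFunctionFieldFullC K1 N) : LaurentSeries K1))⁻¹ = _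
        rw [ihx hxN]
    | mul x y hx hy ihx ihy =>
        intro hxy
        have hxN : x ∈ modularFunctionFieldFullC K1 N := full_degeneracyC_le K1 hM'N hx
        have hyN : y ∈ modularFunctionFieldFullC K1 N := full_degeneracyC_le K1 hM'N hy
        have h : (⟨x * y, hxy⟩ : modularFunctionFieldFullC K1 N) = ⟨x, hxN⟩ * ⟨y, hyN⟩ := rfl
        rw [h, map_mul, map_mul]
        show ((w₁ ⟨x, hxN⟩ : modularFunctionFieldFullC K1 N) : LaurentSeries K1) *
          ((w₁ ⟨y, hyN⟩ : modularFunctionFieldFullC K1 N) : LaurentSeries K1) = _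
        rw [ihx hxN, ihy hyN]
  -- packaging
  have hcomp : w₁.comp w₁ = RingHom.id _ := RingHom.ext hinv
  have halg : ∀ c : K1, w₁ (algebraMap K1 (modularFunctionFieldFullC K1 N) c) =
      algebraMap K1 (modularFunctionFieldFullC K1 N) c := by
    intro c
    have h2 : algebraMap K1 (LaurentSeries K1) c = HahnSeries.C c := by
      rw [algebraMap_laurentSeries_eq_single, HahnSeries.C_apply]
    have hc : HahnSeries.C c ∈ modularFunctionFieldFullC K1 N := by
      rw [← h2]; exact IntermediateField.algebraMap_mem _ c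
    have h3 : algebraMap K1 (modularFunctionFieldFullC K1 N) c = ⟨HahnSeries.C c, hc⟩ :=
      Subtype.ext h2
    rw [h3, hwC c hc]
  refine ⟨AlgEquiv.ofRingEquiv (f := RingEquiv.ofRingHom w₁ w₁ hcomp hcomp) halg,
    hinv, hwj, ?_⟩
  intro x hx'
  exact hres (x : LaurentSeries K1) hx' x.2

/-! ### The canonical `w` -/

/-- the Atkin–Lehner involution `W_Q` of `F1 = K1(j(q^d) : d ∣ N)`, `N = Q M'` -/
def S36WQ_w (hcop : Nat.Coprime Q M') (hN : N = Q * M') [NeZero Q] :
    modularFunctionFieldFullC K1 N ≃ₐ[K1] modularFunctionFieldFullC K1 N :=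
  (S36WQ_exists emb Q M' N hcop hN).choose

variable (hcop : Nat.Coprime Q M') (hN : N = Q * M') [NeZero Q]

theorem S36WQ_w_w (x : modularFunctionFieldFullC K1 N) :
    S36WQ_w emb Q M' N hcop hN (S36WQ_w emb Q M' N hcop hN x) = x :=
  (S36WQ_exists emb Q M' N hcop hN).choose_spec.1 x

theorem S36WQ_w_gen (a a' d' : ℕ) (hQ : Q = a * a') (hd' : d' ∣ M') [NeZero (a * d')]
    [NeZero (a' * d')]
    (hm : qExpand K1 (a * d') (jqModC K1) ∈ modularFunctionFieldFullC K1 N) :
    ((S36WQ_w emb Q M' N hcop hN ⟨qExpand K1 (a * d') (jqModC K1), hm⟩ :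
      modularFunctionFieldFullC K1 N) : LaurentSeries K1) =
      qExpand K1 (a' * d') (jqModC K1) :=
  (S36WQ_exists emb Q M' N hcop hN).choose_spec.2.1 a a' d' hQ hd' hm

/-- generator form with free indices `d = a d'`, `e = a' d'` -/
theorem S36WQ_w_gen' (a a' d' : ℕ) (hQ : Q = a * a') (hd' : d' ∣ M') (d e : ℕ) [NeZero d]
    [NeZero e] (hd : d = a * d') (he : e = a' * d')
    (hm : qExpand K1 d (jqModC K1) ∈ modularFunctionFieldFullC K1 N) :
    ((S36WQ_w emb Q M' N hcop hN ⟨qExpand K1 d (jqModC K1), hm⟩ :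
      modularFunctionFieldFullC K1 N) : LaurentSeries K1) =
      qExpand K1 e (jqModC K1) := by
  subst hd he
  exact S36WQ_w_gen emb Q M' N hcop hN a a' d' hQ hd' hm

theorem S36WQ_w_level (x : modularFunctionFieldFullC K1 N)
    (hx : (x : LaurentSeries K1) ∈ modularFunctionFieldFullC K1 M') :
    ((S36WQ_w emb Q M' N hcop hN x : modularFunctionFieldFullC K1 N) : LaurentSeries K1) =
      qExpand K1 Q (x : LaurentSeries K1) :=
  (S36WQ_exists emb Q M' N hcop hN).choose_spec.2.2 x hx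

theorem S36WQ_w_C (c : K1) (hc : HahnSeries.C c ∈ modularFunctionFieldFullC K1 N) :
    S36WQ_w emb Q M' N hcop hN ⟨HahnSeries.C c, hc⟩ = ⟨HahnSeries.C c, hc⟩ := by
  have h2 : algebraMap K1 (LaurentSeries K1) c = HahnSeries.C c := by
    rw [algebraMap_laurentSeries_eq_single, HahnSeries.C_apply]
  have h3 : (⟨HahnSeries.C c, hc⟩ : modularFunctionFieldFullC K1 N) =
      algebraMap K1 (modularFunctionFieldFullC K1 N) c := Subtype.ext h2.symm
  rw [h3, AlgEquiv.commutes]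

/-- **uniqueness**: a ring endomorphism of `F` fixing the constants and with the values of `w` on
the generators is `w` -/
theorem S36WQ_w_unique (f : modularFunctionFieldFullC K1 N →+* modularFunctionFieldFullC K1 N)
    (hC : ∀ (c : K1) (hc : HahnSeries.C c ∈ modularFunctionFieldFullC K1 N),
      f ⟨HahnSeries.C c, hc⟩ = ⟨HahnSeries.C c, hc⟩)
    (hgen : ∀ (a a' d' : ℕ) (hQ : Q = a * a') (hd' : d' ∣ M') [NeZero (a * d')]
      [NeZero (a' * d')]
      (hm : qExpand K1 (a * d') (jqModC K1) ∈ modularFunctionFieldFullC K1 N),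
      ((f ⟨qExpand K1 (a * d') (jqModC K1), hm⟩ : modularFunctionFieldFullC K1 N) :
        LaurentSeries K1) = qExpand K1 (a' * d') (jqModC K1))
    (y : modularFunctionFieldFullC K1 N) : f y = S36WQ_w emb Q M' N hcop hN y := by
  refine S34WQ_ringHom_ext N f
    ((S36WQ_w emb Q M' N hcop hN : modularFunctionFieldFullC K1 N →+*
      modularFunctionFieldFullC K1 N)) ?_ ?_ y
  · intro c hc
    rw [hC c hc]
    exact (S36WQ_w_C emb Q M' N hcop hN c hc).symm
  · intro d hd0 hd hm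
    obtain ⟨a, a', d', hQ, hd', rfl⟩ := S36WQ_decomp hcop (hN ▸ hd)
    have hadpos : 0 < a * d' := Nat.pos_of_ne_zero (NeZero.ne (a * d'))
    have hd'pos : 0 < d' := Nat.pos_of_mul_pos_left hadpos
    have ha'pos : 0 < a' := by
      rcases Nat.eq_zero_or_pos a' with h0 | h0
      · rw [h0, mul_zero] at hQ
        exact absurd hQ (NeZero.ne Q)
      · exact h0
    haveI : NeZero (a' * d') := ⟨Nat.mul_ne_zero ha'pos.ne' hd'pos.ne'⟩
    apply Subtype.ext
    rw [hgen a a' d' hQ hd' hm]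
    exact (S36WQ_w_gen emb Q M' N hcop hN a a' d' hQ hd' hm).symm

/-! ### The elementwise version on `K1((q))` -/

open scoped Classical in
/-- `w` elementwise on `L = K1((q))` (junk `0` outside `F`) -/
def S36WQ_wL (y : LaurentSeries K1) : LaurentSeries K1 :=
  if hy : y ∈ modularFunctionFieldFullC K1 N then
    ((S36WQ_w emb Q M' N hcop hN ⟨y, hy⟩ : modularFunctionFieldFullC K1 N) : LaurentSeries K1)
  else 0

theorem S36WQ_wL_of_mem {y : LaurentSeries K1} (hy : y ∈ modularFunctionFieldFullC K1 N) :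
    S36WQ_wL emb Q M' N hcop hN y =
      ((S36WQ_w emb Q M' N hcop hN ⟨y, hy⟩ : modularFunctionFieldFullC K1 N) :
        LaurentSeries K1) := by
  rw [S36WQ_wL, dif_pos hy]

theorem S36WQ_wL_mem (y : LaurentSeries K1) :
    S36WQ_wL emb Q M' N hcop hN y ∈ modularFunctionFieldFullC K1 N := by
  by_cases hy : y ∈ modularFunctionFieldFullC K1 N
  · rw [S36WQ_wL_of_mem emb Q M' N hcop hN hy]
    exact (S36WQ_w emb Q M' N hcop hN ⟨y, hy⟩).2
  · rw [S36WQ_wL, dif_neg hy]
    exact zero_mem _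

theorem S36WQ_wL_wL {y : LaurentSeries K1} (hy : y ∈ modularFunctionFieldFullC K1 N) :
    S36WQ_wL emb Q M' N hcop hN (S36WQ_wL emb Q M' N hcop hN y) = y := by
  rw [S36WQ_wL_of_mem emb Q M' N hcop hN hy,
    S36WQ_wL_of_mem emb Q M' N hcop hN (S36WQ_w emb Q M' N hcop hN ⟨y, hy⟩).2]
  have h : (⟨((S36WQ_w emb Q M' N hcop hN ⟨y, hy⟩ : modularFunctionFieldFullC K1 N) :
      LaurentSeries K1), (S36WQ_w emb Q M' N hcop hN ⟨y, hy⟩).2⟩ :
      modularFunctionFieldFullC K1 N) = S36WQ_w emb Q M' N hcop hN ⟨y, hy⟩ := rfl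
  rw [h, S36WQ_w_w]

theorem S36WQ_wL_add {x y : LaurentSeries K1} (hx : x ∈ modularFunctionFieldFullC K1 N)
    (hy : y ∈ modularFunctionFieldFullC K1 N) :
    S36WQ_wL emb Q M' N hcop hN (x + y) =
      S36WQ_wL emb Q M' N hcop hN x + S36WQ_wL emb Q M' N hcop hN y := by
  rw [S36WQ_wL_of_mem emb Q M' N hcop hN hx, S36WQ_wL_of_mem emb Q M' N hcop hN hy,
    S36WQ_wL_of_mem emb Q M' N hcop hN (add_mem hx hy)]
  have h : (⟨x + y, add_mem hx hy⟩ : modularFunctionFieldFullC K1 N) = ⟨x, hx⟩ + ⟨y, hy⟩ := rfl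
  rw [h, map_add]
  rfl

theorem S36WQ_wL_mul {x y : LaurentSeries K1} (hx : x ∈ modularFunctionFieldFullC K1 N)
    (hy : y ∈ modularFunctionFieldFullC K1 N) :
    S36WQ_wL emb Q M' N hcop hN (x * y) =
      S36WQ_wL emb Q M' N hcop hN x * S36WQ_wL emb Q M' N hcop hN y := by
  rw [S36WQ_wL_of_mem emb Q M' N hcop hN hx, S36WQ_wL_of_mem emb Q M' N hcop hN hy,
    S36WQ_wL_of_mem emb Q M' N hcop hN (mul_mem hx hy)]
  have h : (⟨x * y, mul_mem hx hy⟩ : modularFunctionFieldFullC K1 N) = ⟨x, hx⟩ * ⟨y, hy⟩ := rfl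
  rw [h, map_mul]
  rfl

theorem S36WQ_wL_C (c : K1) :
    S36WQ_wL emb Q M' N hcop hN (HahnSeries.C c) = HahnSeries.C c := by
  have h2 : algebraMap K1 (LaurentSeries K1) c = HahnSeries.C c := by
    rw [algebraMap_laurentSeries_eq_single, HahnSeries.C_apply]
  have hc : HahnSeries.C c ∈ modularFunctionFieldFullC K1 N := by
    rw [← h2]; exact IntermediateField.algebraMap_mem _ c
  rw [S36WQ_wL_of_mem emb Q M' N hcop hN hc, S36WQ_w_C emb Q M' N hcop hN c hc]

theorem S36WQ_wL_level {x : LaurentSeries K1} (hx : x ∈ modularFunctionFieldFullC K1 M') :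
    S36WQ_wL emb Q M' N hcop hN x = qExpand K1 Q x := by
  have hM'N : M' ∣ N := hN ▸ dvd_mul_left M' Q
  have hxN : x ∈ modularFunctionFieldFullC K1 N := full_degeneracyC_le K1 hM'N hx
  rw [S36WQ_wL_of_mem emb Q M' N hcop hN hxN]
  exact S36WQ_w_level emb Q M' N hcop hN ⟨x, hxN⟩ hx

end Main

/-! ### Part 4: `β^* = w_(q²) ∘ α^* ∘ w_q` -/

section Beta

variable {K1 : Type*} [Field K1] (emb : K1 →+* Kbar)

variable (q M' N1 N : ℕ) [NeZero M'] [NeZero N1] [NeZero N] [NeZero (q ^ 2)] [NeZero q]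
  (hq : q.Prime) (hqM : ¬ q ∣ M') (hN1 : N1 = q * M') (hN : N = q ^ 2 * M')

theorem S36WQ_cop {q M' : ℕ} (hq : q.Prime) (hqM : ¬ q ∣ M') : Nat.Coprime (q ^ 2) M' :=
  Nat.Coprime.pow_left 2 ((Nat.Prime.coprime_iff_not_dvd hq).mpr hqM)

theorem S36WQ_N1_dvd {q M' N1 N : ℕ} (hN1 : N1 = q * M') (hN : N = q ^ 2 * M') : N1 ∣ N := by
  rw [hN1, hN]
  exact Dvd.intro q (by ring)

/-- **`β^* = w_(q²) ∘ α^* ∘ w_q`**: for `x` in the function field of level `q M'`,
`w_(q²) (w_q x) = x(q^q)`. -/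
theorem S36WQ_beta (x : modularFunctionFieldFullC K1 N1) :
    S36WQ_wL emb (q ^ 2) M' N (S36WQ_cop hq hqM) hN
      ((S34V0_w emb q M' N1 hq hqM hN1 x : modularFunctionFieldFullC K1 N1) :
        LaurentSeries K1) =
      qExpand K1 q (x : LaurentSeries K1) := by
  have hN1N : N1 ∣ N := S36WQ_N1_dvd hN1 hN
  have hle := full_degeneracyC_le K1 hN1N
  set wq : modularFunctionFieldFullC K1 N1 →+* modularFunctionFieldFullC K1 N1 :=
    (S34V0_w emb q M' N1 hq hqM hN1 : modularFunctionFieldFullC K1 N1 →+*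
      modularFunctionFieldFullC K1 N1) with hwq
  set inc : modularFunctionFieldFullC K1 N1 →+* modularFunctionFieldFullC K1 N :=
    (IntermediateField.inclusion hle).toRingHom with hinc
  set wQ : modularFunctionFieldFullC K1 N →+* modularFunctionFieldFullC K1 N :=
    (S36WQ_w emb (q ^ 2) M' N (S36WQ_cop hq hqM) hN : modularFunctionFieldFullC K1 N →+*
      modularFunctionFieldFullC K1 N) with hwQ
  set f : modularFunctionFieldFullC K1 N1 →+* LaurentSeries K1 :=
    ((modularFunctionFieldFullC K1 N).val.toRingHom).comp (wQ.comp (inc.comp wq)) with hf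
  set g : modularFunctionFieldFullC K1 N1 →+* LaurentSeries K1 :=
    (qExpand K1 q).comp ((modularFunctionFieldFullC K1 N1).val.toRingHom) with hg
  have hfx : ∀ y : modularFunctionFieldFullC K1 N1, f y =
      S36WQ_wL emb (q ^ 2) M' N (S36WQ_cop hq hqM) hN
        ((S34V0_w emb q M' N1 hq hqM hN1 y : modularFunctionFieldFullC K1 N1) :
          LaurentSeries K1) := by
    intro y
    rw [S36WQ_wL_of_mem emb (q ^ 2) M' N (S36WQ_cop hq hqM) hN
      (hle (S34V0_w emb q M' N1 hq hqM hN1 y).2)]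
    rfl
  have hgx : ∀ y : modularFunctionFieldFullC K1 N1, g y = qExpand K1 q (y : LaurentSeries K1) :=
    fun y => rfl
  rw [← hfx, ← hgx]
  refine S34WQ_ringHom_ext N1 f g ?_ ?_ x
  · intro c hc
    rw [hfx, hgx, S34V0_w_C emb q M' N1 hq hqM hN1 c hc]
    show S36WQ_wL emb (q ^ 2) M' N (S36WQ_cop hq hqM) hN (HahnSeries.C c) =
      qExpand K1 q (HahnSeries.C c)
    rw [S36WQ_wL_C, HahnSeries.C_apply, qExpand_single, mul_zero]
  · intro d hd0 hd hm
    rw [hfx, hgx]
    show S36WQ_wL emb (q ^ 2) M' N (S36WQ_cop hq hqM) hN _ =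
      qExpand K1 q (qExpand K1 d (jqModC K1))
    have hdpos : 0 < d := Nat.pos_of_ne_zero (NeZero.ne d)
    rcases S34WQ_divisor_cases hq (hN1 ▸ hd) with ⟨hqd, hdM⟩ | ⟨d', hd'M, rfl⟩
    · -- old divisor: w_q j_d = j_(q d), w_(q²) j_(q d) = j_(q d)
      haveI : NeZero (q * d) := ⟨Nat.mul_ne_zero hq.ne_zero hdpos.ne'⟩
      rw [S34V0_w_old emb q M' N1 hq hqM hN1 d hdM hm]
      have hm2 : qExpand K1 (q * d) (jqModC K1) ∈ modularFunctionFieldFullC K1 N :=
        jqModCd_mem_full K1 N (by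
          rw [hN]
          obtain ⟨c, hc⟩ := hdM
          exact Dvd.intro (q * c) (by rw [hc]; ring))
      rw [S36WQ_wL_of_mem emb (q ^ 2) M' N (S36WQ_cop hq hqM) hN hm2,
        S36WQ_w_gen' emb (q ^ 2) M' N (S36WQ_cop hq hqM) hN q q d (by ring) hdM (q * d) (q * d)
          rfl rfl hm2, qExpand_qExpand]
    · -- new divisor: w_q j_(q d') = j_d', w_(q²) j_d' = j_(q² d')
      have hd'pos : 0 < d' := Nat.pos_of_mul_pos_left hdpos
      haveI : NeZero d' := ⟨hd'pos.ne'⟩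
      haveI : NeZero (q * (q * d')) := ⟨Nat.mul_ne_zero hq.ne_zero (NeZero.ne (q * d'))⟩
      rw [S34V0_w_new emb q M' N1 hq hqM hN1 d' hd'M hm]
      have hm2 : qExpand K1 d' (jqModC K1) ∈ modularFunctionFieldFullC K1 N :=
        jqModCd_mem_full K1 N (by
          rw [hN]
          exact hd'M.trans (dvd_mul_left M' (q ^ 2)))
      rw [S36WQ_wL_of_mem emb (q ^ 2) M' N (S36WQ_cop hq hqM) hN hm2,
        S36WQ_w_gen' emb (q ^ 2) M' N (S36WQ_cop hq hqM) hN 1 (q ^ 2) d' (by ring) hd'M d'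
          (q * (q * d')) (by ring) (by ring) hm2, qExpand_qExpand]

/-- the same, solved for `w_(q²)`: on the function field of level `q M'`,
`w_(q²) x = (w_q x)(q^q)`. -/
theorem S36WQ_beta' (x : modularFunctionFieldFullC K1 N1) :
    S36WQ_wL emb (q ^ 2) M' N (S36WQ_cop hq hqM) hN (x : LaurentSeries K1) =
      qExpand K1 q
        ((S34V0_w emb q M' N1 hq hqM hN1 x : modularFunctionFieldFullC K1 N1) :
          LaurentSeries K1) := by
  have h := S36WQ_beta emb q M' N1 N hq hqM hN1 hN (S34V0_w emb q M' N1 hq hqM hN1 x)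
  rw [S34V0_w_w] at h
  exact h

end Beta

end Fermat.Agent.S36_helper20_WQQ
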