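import Mathlib
import Fermat.Agent.S18_helper17_IG

/-!
# S36, GEO36 piece E1 (helper7): the cover coordinate is a local parameter - abstract form

This is the local core of the landed S18 block B (`S18B_IG_core`, internal step `hdata`), isolated
as a theorem of its own and WITHOUT the Galois hypothesis on `E / F1`:

for a chart ring `A` (integral over `O[x]`, generically étale modulo `π`), a tame cover
`x = An(t) / Bd(t)` (`S18B_Cover`), a field `E = F1(t)` and the horizontal input `S18B_Hor`,
every maximal ideal `m' ∋ π` of the integral closure `B` of `A` in `E` contains `t - t₀` for a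
constant `t₀ ∈ O` with `Bd(t₀)` a unit, and `m'` is generated by `π` and `t - t₀` locally at `m'`.

In S36 this is applied with `F1` = the function field of level `N / 2` (resp. `N / 3`), embedded
in `E` = the function field of level `N` by `f(τ) ↦ f(2τ)` (resp. `f(3τ)`), `x = j`, and `t` a
Möbius transform of the Hauptmodul `h` of level `4` (resp. `9`): the Legendre (resp. Hesse) cover.
-/

set_option autoImplicit false
set_option linter.unusedSectionVars false
set_option linter.style.haveILetI false
set_option linter.unusedVariables false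

namespace Fermat.Agent.S36_helper7_E1ABS

open Polynomial Fermat.Agent.S18_helper17_BDefs Fermat.Agent.S18_helper17_IG

variable {O : Type} [CommRing O] [IsDomain O] [IsDiscreteValuationRing O]
    {F1 : Type} [Field F1] [CharZero F1] [Algebra O F1] [FaithfulSMul O F1]
    {A : Type} [CommRing A] [Algebra O A] [Algebra A F1] [IsScalarTower O A F1]
    [FaithfulSMul A F1]

/-- **E1, abstract form.** -/
theorem S36E1_abs [IsDomain A]
    (π : O) (hπ : Irreducible π) [hk : IsAlgClosed (IsLocalRing.ResidueField O)]
    (x : A) (hx : Transcendental O x)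
    (hA' : ∀ a : A, IsIntegral (Algebra.adjoin O {x}) a)
    (V : A) (P₀ : Polynomial O[X]) (hP₀ : P₀.Monic)
    (hP₀V : aeval V (P₀.map (aeval x : O[X] →ₐ[O] A).toRingHom) = 0)
    (hVgen : ∀ y : F1, ∃ (num : Polynomial O[X]) (den : O[X]), den ≠ 0 ∧
      y * algebraMap A F1 (aeval x den) =
        algebraMap A F1 (aeval V (num.map (aeval x : O[X] →ₐ[O] A).toRingHom)))
    (hsep : ∀ (κ : Type) [Field κ] (f : O[X] →+* κ), (∀ p, f p = 0 ↔ C π ∣ p) →
      (P₀.map f).Separable)
    (An Bd : O[X]) (hcov : S18B_Cover O F1 π (algebraMap A F1 x) An Bd)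
    (hhor : ∀ t₀ : O, ¬ π ∣ Bd.eval t₀ → S18B_Hor O F1 π (algebraMap A F1 x) An Bd t₀)
    (E : Type) [Field E] [Algebra F1 E]
    [Algebra O E] [IsScalarTower O F1 E] [Algebra A E] [IsScalarTower A F1 E]
    [IsScalarTower O A E]
    (t : E) (ht : S18B_rel (algebraMap A F1 x) An Bd E t)
    (hgen : IntermediateField.adjoin F1 {t} = ⊤)
    (m' : Ideal (integralClosure A E)) (hm' : m'.IsMaximal)
    (hπm' : algebraMap O (integralClosure A E) π ∈ m') :
    ∃ (tB : integralClosure A E) (t₀ : O), algebraMap (integralClosure A E) E tB = t ∧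
      ¬ π ∣ Bd.eval t₀ ∧
      tB - algebraMap O (integralClosure A E) t₀ ∈ m' ∧
      (∀ y ∈ m', ∃ s, s ∉ m' ∧ ∃ a b : integralClosure A E,
        s * y = a * algebraMap O (integralClosure A E) π
          + b * (tB - algebraMap O (integralClosure A E) t₀)) ∧
      ∀ (n : ℕ) (s : integralClosure A E), s ∉ m' →
        ¬ algebraMap O (integralClosure A E) π ∣
          s * (tB - algebraMap O (integralClosure A E) t₀) ^ n := by
  classical
  have hinjBE : Function.Injective (algebraMap (integralClosure A E) E) := Subtype.val_injective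
  have hOmax : IsLocalRing.maximalIdeal O = Ideal.span {π} := Irreducible.maximalIdeal_eq hπ
  have hQ : ∀ c ∈ IsLocalRing.maximalIdeal O, algebraMap O (integralClosure A E) c ∈ m' := by
    rw [hOmax]
    intro c hc
    obtain ⟨d, rfl⟩ := Ideal.mem_span_singleton.1 hc
    rw [map_mul]
    exact m'.mul_mem_right _ hπm'
  have hBmem : ∀ y : E,
      IsIntegral (Algebra.adjoin O {algebraMap F1 E (algebraMap A F1 x)}) y →
      ∃ b : integralClosure A E, algebraMap (integralClosure A E) E b = y := by
    intro y hy
    rw [← IsScalarTower.algebraMap_apply A F1 E] at hy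
    exact ⟨⟨y, S18B_isIntegral_of_adjoin x E y hy⟩, rfl⟩
  have hresO : ∀ b : integralClosure A E, ∃ c : O,
      b - algebraMap O (integralClosure A E) c ∈ m' := by
    intro b
    have hψA : (aeval x : O[X] →ₐ[O] A).toRingHom.IsIntegral :=
      fun a => Fermat.Agent.S18_helper4_T2.S18T2_isIntegralElem_of_adjoin x a (hA' a)
    have hAB : (algebraMap A (integralClosure A E)).IsIntegral :=
      fun z => Algebra.IsIntegral.isIntegral (R := A) z
    have hψ := RingHom.IsIntegral.trans _ _ hψA hAB
    haveI := hm'
    exact Fermat.Agent.S18_helper4_T2.S18T2_exists_sub_mem_of_ringHom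
      ((algebraMap A (integralClosure A E)).comp (aeval x : O[X] →ₐ[O] A).toRingHom)
      (fun c => by
        simp only [RingHom.comp_apply, AlgHom.toRingHom_eq_coe, RingHom.coe_coe, aeval_C]
        exact (IsScalarTower.algebraMap_apply O A (integralClosure A E) c).symm) hψ m' hQ b
  obtain ⟨tB, t₀, htB, htm, -, hBd⟩ :=
    Fermat.Agent.S18_helper24_T4.S18T4_point_chart hOmax hcov x rfl E t ht
      (B := integralClosure A E) hinjBE hBmem m' hm'.ne_top hπm' hresO
  obtain ⟨h1, h2⟩ := S18B_hloc π hπ x hx hA' V P₀ hP₀ hP₀V hVgen hsep An Bd hcov E t ht hgen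
    m' hm' hπm' t₀ hBd tB htB htm (hhor t₀ hBd)
  exact ⟨tB, t₀, htB, hBd, htm, h1, h2⟩

end Fermat.Agent.S36_helper7_E1ABS
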