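import Mathlib
import Fermat.Agent.S18_helper17_PLUGGEN
import Fermat.Agent.S36_helper7_E1ABS

/-!
# S36, GEO36 piece E1 (helper7): the abstract core fused with the covers and the horizontal input

`S36E1_chart0`: for a chart ring `A` of the function field `F₁ = modularFunctionFieldFullC K₁ N`
(`x = j`), a field `E = F₁(t)` where `t` satisfies the Legendre relation
`256 (t² - t + 1)³ = j (t² - t)²` (residue characteristic `≠ 2`) or the Hesse relation
`27 (t (t³ + 8))³ = j (t³ - 1)³` (residue characteristic `≠ 3`, a primitive cube root of unity in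
`O`): every maximal ideal `m' ∋ π` of the integral closure of `A` in `E` is generated, locally at
`m'`, by `π` and `t - t₀` for a constant `t₀ ∈ O`.
-/

set_option autoImplicit false
set_option linter.unusedSectionVars false
set_option linter.style.haveILetI false
set_option linter.unusedVariables false

open Polynomial IntermediateField ModularCurve
open Fermat.Agent.S20 Fermat.Agent.S24
open Fermat.Agent.S18_helper17_BDefs Fermat.Agent.S18_helper29_COVERS
open Fermat.Agent.S18_helper26_CONST Fermat.Agent.S18_helper26_DEGK1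
open Fermat.Agent.S18_helper16_HORC Fermat.Agent.S18_helper17_IG
open Fermat.Agent.S18_helper17_PLUGGEN Fermat.Agent.S36_helper7_E1ABS

namespace Fermat.Agent.S36_helper7_E1PG

variable {O K1 : Type} [CommRing O] [IsDomain O] [IsDiscreteValuationRing O]
  [Field K1] [CharZero K1] [Algebra O K1] [IsFractionRing O K1] (N : ℕ) [NeZero N]
  [Algebra O (modularFunctionFieldFullC K1 N)]
  [IsScalarTower O K1 (modularFunctionFieldFullC K1 N)]
  {A : Type} [CommRing A] [Algebra O A] [Algebra A (modularFunctionFieldFullC K1 N)]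
  [IsScalarTower O A (modularFunctionFieldFullC K1 N)]
  [IsDomain A] [IsFractionRing A (modularFunctionFieldFullC K1 N)] [IsIntegrallyClosed A]
  [IsNoetherianRing A]

/-- **E1 for a chart ring (`x = j`), covers and horizontal input plugged in.** -/
theorem S36E1_chart0 (emb : K1 →+* Kbar) (π : O) (hπ : Irreducible π)
    [hk : IsAlgClosed (IsLocalRing.ResidueField O)]
    (An Bd : O[X])
    (hcase : (An = lamNum O ∧ Bd = lamDen O ∧ ¬ π ∣ 2) ∨
      (An = muNum O ∧ Bd = muDen O ∧ ¬ π ∣ 3 ∧ ∃ w : O, w ^ 2 + w + 1 = 0))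
    (x : A) (hxj : algebraMap A (modularFunctionFieldFullC K1 N) x = S18P15_jbar K1 N)
    (hA' : ∀ a : A, IsIntegral (Algebra.adjoin O {x}) a)
    (V : A) (P₀ : Polynomial O[X]) (hP₀ : P₀.Monic)
    (hP₀V : aeval V (P₀.map (aeval x : O[X] →ₐ[O] A).toRingHom) = 0)
    (hVgen : ∀ y : modularFunctionFieldFullC K1 N, ∃ (num : Polynomial O[X]) (den : O[X]),
      den ≠ 0 ∧ y * algebraMap A (modularFunctionFieldFullC K1 N) (aeval x den) =
        algebraMap A (modularFunctionFieldFullC K1 N)
          (aeval V (num.map (aeval x : O[X] →ₐ[O] A).toRingHom)))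
    (hsep : ∀ (κ : Type) [Field κ] (f : O[X] →+* κ), (∀ p, f p = 0 ↔ C π ∣ p) →
      (P₀.map f).Separable)
    (E : Type) [Field E] [Algebra (modularFunctionFieldFullC K1 N) E]
    [Algebra O E] [IsScalarTower O (modularFunctionFieldFullC K1 N) E] [Algebra A E]
    [IsScalarTower A (modularFunctionFieldFullC K1 N) E] [IsScalarTower O A E]
    (t : E) (ht : S18B_rel (algebraMap A (modularFunctionFieldFullC K1 N) x) An Bd E t)
    (hgen : IntermediateField.adjoin (modularFunctionFieldFullC K1 N) {t} = ⊤)
    (m' : Ideal (integralClosure A E)) (hm' : m'.IsMaximal)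
    (hπm' : algebraMap O (integralClosure A E) π ∈ m') :
    ∃ (tB : integralClosure A E) (t₀ : O), algebraMap (integralClosure A E) E tB = t ∧
      ¬ π ∣ Bd.eval t₀ ∧
      tB - algebraMap O (integralClosure A E) t₀ ∈ m' ∧
      (∀ y ∈ m', ∃ s, s ∉ m' ∧ ∃ a b : integralClosure A E,
        s * y = a * algebraMap O (integralClosure A E) π
          + b * (tB - algebraMap O (integralClosure A E) t₀)) ∧
      ∀ (n : ℕ) (s : integralClosure A E), s ∉ m' →
        ¬ algebraMap O (integralClosure A E) π ∣
          s * (tB - algebraMap O (integralClosure A E) t₀) ^ n := by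
  haveI := S18PG_faithfulSMul_O (O := O) (K1 := K1) N
  haveI := S18PG_charZero (K1 := K1) N
  haveI := S18PG_faithfulSMul_A (K1 := K1) (A := A) N
  have hx : Transcendental O x :=
    S18PG_transcendental N x _ hxj (S18P15_transcendental_jbar K1 N)
  rcases hcase with ⟨rfl, rfl, h2⟩ | ⟨rfl, rfl, h3, w, hw⟩
  · obtain ⟨c, hc⟩ := S18PG_exists_inv_256 hπ h2
    refine S36E1_abs π hπ x hx hA' V P₀ hP₀ hP₀V hVgen hsep (lamNum O) (lamDen O)
      (S18B_cover_lam π hπ.prime h2 c hc _) ?_ E t ht hgen m' hm' hπm'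
    intro t₀ hden
    rw [hxj]
    exact S18HOR_lam N emb π hπ t₀ hden
  · obtain ⟨c, hc⟩ := S18PG_exists_inv_27 hπ h3
    refine S36E1_abs π hπ x hx hA' V P₀ hP₀ hP₀V hVgen hsep (muNum O) (muDen O)
      (S18B_cover_mu π hπ.prime h3 c hc w hw _) ?_ E t ht hgen m' hm' hπm'
    intro t₀ hden
    rw [hxj]
    exact S18HOR_mu N emb π hπ t₀ hden

end Fermat.Agent.S36_helper7_E1PG
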