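import Mathlib
import Fermat.Agent.S18_helper14_BPLUG
import Fermat.Agent.S36_helper7_E1PG

/-!
# S36, GEO36 piece E1 (helper7): the concrete plug

Carriers of `S18_helper14_ADefs` (`OL`, `πL`, `A0L`; `rfl`-equal to the `S18K_*` carriers by
`S18_helper14_AK`).  Level `N` (with `Setup`), level `N * ℓ`, and the embedding
`β : F(N) → F(N ℓ)`, `f(Q) ↦ f(Q^ℓ)`.

`S36E1_plug`: let `t ∈ F(N ℓ)` satisfy the Legendre relation
`256 (t² - t + 1)³ = j(Q^ℓ) (t² - t)²` (resp. the Hesse relation), generate `F(N ℓ)` over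
`β F(N)`, and assume that `j` and `j(Q^ℓ)` define the same integral closure in `F(N ℓ)`.
Then every maximal ideal `m ∋ π` of the chart `A0L O K1 (N ℓ)` contains `t - t₀` for a constant
`t₀` and is generated by `π` and `t - t₀` locally at `m`.
-/

set_option autoImplicit false
set_option linter.unusedSectionVars false
set_option linter.style.haveILetI false
set_option linter.unusedVariables false
set_option maxHeartbeats 1000000
set_option synthInstance.maxHeartbeats 400000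

noncomputable section

open Polynomial ModularCurve Fermat.Agent.S18_helper13_GAUSS Fermat.Agent.S18_helper9_CDefs
open Fermat.Agent.S18A Fermat.Agent.S18_helper17_BDefs Fermat.Agent.S18AI
open Fermat.Agent.S18_helper29_COVERS Fermat.Agent.S18_helper26_CONST

namespace Fermat.Agent.S36_helper7_E1C

section Beta

variable (K1 : Type) [Field K1] (N ℓ : ℕ) [NeZero ℓ]

/-- `β : F(N) → F(N ℓ)`, `f(Q) ↦ f(Q^ℓ)`. -/
def S36E1_beta : F1T K1 N →+* F1T K1 (N * ℓ) where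
  toFun x := ⟨qExpand K1 ℓ (x : LaurentSeries K1),
    full_degeneracyC_map_le K1 N ℓ ⟨(x : LaurentSeries K1), x.2, rfl⟩⟩
  map_one' := Subtype.ext (map_one (qExpand K1 ℓ))
  map_mul' _ _ := Subtype.ext (map_mul (qExpand K1 ℓ) _ _)
  map_zero' := Subtype.ext (map_zero (qExpand K1 ℓ))
  map_add' _ _ := Subtype.ext (map_add (qExpand K1 ℓ) _ _)

theorem S36E1_beta_coe (x : F1T K1 N) :
    ((S36E1_beta K1 N ℓ x : F1T K1 (N * ℓ)) : LaurentSeries K1)
      = qExpand K1 ℓ (x : LaurentSeries K1) := rfl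

end Beta

section Plug

variable {O K1 k : Type} [CommRing O] [IsDomain O] [IsDiscreteValuationRing O] [Field K1]
  [CharZero K1] [Algebra O K1] [IsFractionRing O K1] [Field k] [IsAlgClosed k]
  (ρ : O →+* k) (hρ : ∀ x : O, ρ x = 0 ↔ x ∈ IsLocalRing.maximalIdeal O) (N : ℕ) [NeZero N]
  (ℓ : ℕ) [NeZero ℓ] [NeZero (N * ℓ)]

/-- **E1, concrete plug.** -/
theorem S36E1_plug (hρs : Function.Surjective ρ) (emb : K1 →+* AlgebraicClosure ℚ)
    (S : Setup (OL O K1) (πL O K1 ρ hρ) (jqModC K1) (F1L K1 N) (VL O K1 ρ hρ N)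
      (A0L O K1 N) (AinfL O K1 N))
    (An Bd : Polynomial ↥(OL O K1))
    (hcase : (An = lamNum ↥(OL O K1) ∧ Bd = lamDen ↥(OL O K1) ∧ IsUnit (2 : O)) ∨
      (An = muNum ↥(OL O K1) ∧ Bd = muDen ↥(OL O K1) ∧ IsUnit (3 : O) ∧
        ∃ w : O, w ^ 2 + w + 1 = 0))
    (t : LaurentSeries K1) (htF : t ∈ modularFunctionFieldFullC K1 (N * ℓ))
    (hrel : eval₂ (OL O K1).subtype t An
      = qExpand K1 ℓ (jqModC K1) * eval₂ (OL O K1).subtype t Bd)
    (hgen : ∀ y ∈ modularFunctionFieldFullC K1 (N * ℓ),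
      y ∈ Subfield.closure
        ((qExpand K1 ℓ '' (modularFunctionFieldFullC K1 N : Set (LaurentSeries K1))) ∪ {t}))
    (hchart : ∀ y ∈ modularFunctionFieldFullC K1 (N * ℓ),
      (IsIntegral (adj (OL O K1) (jqModC K1)) y ↔
        IsIntegral (adj (OL O K1) (qExpand K1 ℓ (jqModC K1))) y))
    (hπ : πL O K1 ρ hρ ∈ A0L O K1 (N * ℓ))
    (m : Ideal ↥(A0L O K1 (N * ℓ))) (hm : m.IsMaximal)
    (hπm : (⟨πL O K1 ρ hρ, hπ⟩ : ↥(A0L O K1 (N * ℓ))) ∈ m) :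
    ∃ (t₀ : ↥(OL O K1)) (htA : t - (t₀ : LaurentSeries K1) ∈ A0L O K1 (N * ℓ)),
      ¬ (⟨πL O K1 ρ hρ, S.π_mem⟩ : ↥(OL O K1)) ∣ Bd.eval t₀ ∧
      (⟨t - (t₀ : LaurentSeries K1), htA⟩ : ↥(A0L O K1 (N * ℓ))) ∈ m ∧
      ∀ y ∈ m, ∃ s, s ∉ m ∧ ∃ a b : ↥(A0L O K1 (N * ℓ)),
        s * y = a * (⟨πL O K1 ρ hρ, hπ⟩ : ↥(A0L O K1 (N * ℓ)))
          + b * (⟨t - (t₀ : LaurentSeries K1), htA⟩ : ↥(A0L O K1 (N * ℓ))) := by
  classical
  -- level `N`: the chart and its instance package (as in `S18BP.IGat_gen`)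
  have hC := S.chart0
  have hxA : jqModC K1 ∈ A0L O K1 N :=
    Fermat.Agent.S18_helper1_AIVC.S18AIVC_x_mem S.chart0 S.j_mem
  have hcz : CharZero (LaurentSeries K1) :=
    charZero_of_injective_ringHom (HahnSeries.C_injective (Γ := ℤ) (R := K1))
  have hAeq : A0L O K1 N = icl (adj (OL O K1) (jqModC K1)) (F1L K1 N) := rfl
  have hAF : ∀ a ∈ A0L O K1 N, a ∈ modularFunctionFieldFullC K1 N :=
    fun a ha => ((hC.mem_iff a).mp ha).2
  have hOA : OL O K1 ≤ A0L O K1 N := Fermat.Agent.S18_helper1_AIVC.S18AIVC_O_le hC S.O_le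
  haveI hdvr : IsDiscreteValuationRing ↥(OL O K1) := S.dvr
  letI iOLF : Algebra ↥(OL O K1) (F1T K1 N) := algOLF O K1 N
  letI iOLA : Algebra ↥(OL O K1) ↥(A0L O K1 N) := algOLA (A0L O K1 N) hOA
  letI iAF : Algebra ↥(A0L O K1 N) (F1T K1 N) := algAF (A0L O K1 N) hAF
  haveI : IsScalarTower ↥(OL O K1) ↥(A0L O K1 N) (F1T K1 N) :=
    IsScalarTower.of_algebraMap_eq (fun _ => rfl)
  haveI : IsAlgClosed (IsLocalRing.ResidueField ↥(OL O K1)) := isAlgClosed_residue_OL ρ hρ hρs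
  haveI : IsNoetherianRing ↥(A0L O K1 N) :=
    Fermat.Agent.S18_helper27_CNOETH.S18CNOETH_chart_noetherian S (jqModC K1) (Or.inl rfl)
      (A0L O K1 N) hC
  haveI : IsIntegrallyClosed ↥(A0L O K1 N) := by
    rw [hAeq]
    exact Fermat.Agent.S18_helper20_CSAT.CSAT_isIntegrallyClosed_icl _ _
  have hinjAF : Function.Injective (algebraMap ↥(A0L O K1 N) (F1T K1 N)) := fun a b h =>
    Subtype.ext (congrArg (fun z : F1T K1 N => (z : LaurentSeries K1)) h)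
  haveI : FaithfulSMul ↥(A0L O K1 N) (F1T K1 N) :=
    (faithfulSMul_iff_algebraMap_injective _ _).mpr hinjAF
  haveI : IsFractionRing ↥(A0L O K1 N) (F1T K1 N) := by
    refine IsFractionRing.of_field ↥(A0L O K1 N) (F1T K1 N) (fun z => ?_)
    obtain ⟨b, hb, hb0, hzb⟩ := frac_of_finite (OL O K1) (jqModC K1) (F1L K1 N) S.O_le S.j_mem
      S.finite (jqModC K1) (Or.inl rfl) (z : LaurentSeries K1) z.2
    rw [← hAeq] at hb hzb
    refine ⟨⟨_, hzb⟩, ⟨b, hb⟩, ?_⟩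
    have hb0' : algebraMap ↥(A0L O K1 N) (F1T K1 N) ⟨b, hb⟩ ≠ 0 := by
      intro h
      exact hb0 (congrArg (fun z : F1T K1 N => (z : LaurentSeries K1)) h)
    rw [eq_div_iff hb0']
    exact Subtype.ext rfl
  -- the coordinate
  have hA' : ∀ a : ↥(A0L O K1 N),
      IsIntegral (Algebra.adjoin ↥(OL O K1) {(⟨jqModC K1, hxA⟩ : ↥(A0L O K1 N))}) a := by
    intro a
    have hcomp : (A0L O K1 N).subtype.comp (aeval (⟨jqModC K1, hxA⟩ : ↥(A0L O K1 N)) :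
        Polynomial ↥(OL O K1) →ₐ[↥(OL O K1)] ↥(A0L O K1 N)).toRingHom
        = (aeval (jqModC K1) : Polynomial ↥(OL O K1) →ₐ[↥(OL O K1)] LaurentSeries K1).toRingHom := by
      apply Polynomial.ringHom_ext
      · intro c
        simp only [RingHom.comp_apply, AlgHom.toRingHom_eq_coe, RingHom.coe_coe, aeval_C]
        rfl
      · simp only [RingHom.comp_apply, AlgHom.toRingHom_eq_coe, RingHom.coe_coe, aeval_X]
        rfl
    have h1 : IsIntegral (adj (OL O K1) (jqModC K1)) (a : LaurentSeries K1) :=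
      ((hC.mem_iff a.1).mp a.2).1
    rw [Fermat.Agent.S18_helper27_CFIN.S18CFIN_isIntegral_iff] at h1
    obtain ⟨p, hpm, hp⟩ := h1
    let φ : Polynomial ↥(OL O K1) →+*
        ↥(Algebra.adjoin ↥(OL O K1) {(⟨jqModC K1, hxA⟩ : ↥(A0L O K1 N))}) :=
      (aeval (⟨jqModC K1, hxA⟩ : ↥(A0L O K1 N)) :
        Polynomial ↥(OL O K1) →ₐ[↥(OL O K1)] ↥(A0L O K1 N)).toRingHom.codRestrict
        (Algebra.adjoin ↥(OL O K1) {(⟨jqModC K1, hxA⟩ : ↥(A0L O K1 N))})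
        (fun q => by
          rw [Algebra.adjoin_singleton_eq_range_aeval]
          exact ⟨q, rfl⟩)
    refine ⟨p.map φ, hpm.map φ, ?_⟩
    rw [Polynomial.eval₂_map]
    have hφ : (algebraMap ↥(Algebra.adjoin ↥(OL O K1) {(⟨jqModC K1, hxA⟩ : ↥(A0L O K1 N))})
        ↥(A0L O K1 N)).comp φ
        = (aeval (⟨jqModC K1, hxA⟩ : ↥(A0L O K1 N)) :
          Polynomial ↥(OL O K1) →ₐ[↥(OL O K1)] ↥(A0L O K1 N)).toRingHom := by
      ext <;> rfl
    rw [hφ]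
    apply Subtype.ext
    have h2 : (A0L O K1 N).subtype (eval₂ (aeval (⟨jqModC K1, hxA⟩ : ↥(A0L O K1 N)) :
        Polynomial ↥(OL O K1) →ₐ[↥(OL O K1)] ↥(A0L O K1 N)).toRingHom a p)
        = eval₂ ((A0L O K1 N).subtype.comp (aeval (⟨jqModC K1, hxA⟩ : ↥(A0L O K1 N)) :
            Polynomial ↥(OL O K1) →ₐ[↥(OL O K1)] ↥(A0L O K1 N)).toRingHom)
            ((A0L O K1 N).subtype a) p :=
      Polynomial.hom_eval₂ p _ (A0L O K1 N).subtype a
    rw [hcomp] at h2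
    exact h2.trans hp
  -- the generic étale element
  haveI : PerfectField k := inferInstance
  obtain ⟨Vel, P₀, hVel, hmon, hroot, hgenV, hsep, -⟩ :=
    Fermat.Agent.S18_helper1_AIVA.S18AIVA_chart ρ hρ N hρs S (jqModC K1) (Or.inl rfl)
      (A0L O K1 N) hC
  have hev : ∀ p : Polynomial ↥(OL O K1),
      ((aeval (⟨jqModC K1, hxA⟩ : ↥(A0L O K1 N)) p : ↥(A0L O K1 N)) : LaurentSeries K1)
        = eval₂ (OL O K1).subtype (jqModC K1) p := by
    intro p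
    exact Polynomial.hom_eval₂ p (algebraMap ↥(OL O K1) ↥(A0L O K1 N)) (A0L O K1 N).subtype
      ⟨jqModC K1, hxA⟩
  have hconv : ∀ Q : Polynomial (Polynomial ↥(OL O K1)),
      ((aeval (⟨Vel, hVel⟩ : ↥(A0L O K1 N)) (Q.map (aeval (⟨jqModC K1, hxA⟩ : ↥(A0L O K1 N)) :
          Polynomial ↥(OL O K1) →ₐ[↥(OL O K1)] ↥(A0L O K1 N)).toRingHom) : ↥(A0L O K1 N)) :
          LaurentSeries K1)
        = eval₂ (eval₂RingHom (OL O K1).subtype (jqModC K1)) Vel Q := by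
    intro Q
    rw [Polynomial.aeval_def, Polynomial.eval₂_map]
    have h2 : (A0L O K1 N).subtype (eval₂ ((algebraMap ↥(A0L O K1 N) ↥(A0L O K1 N)).comp
        (aeval (⟨jqModC K1, hxA⟩ : ↥(A0L O K1 N)) :
          Polynomial ↥(OL O K1) →ₐ[↥(OL O K1)] ↥(A0L O K1 N)).toRingHom)
          (⟨Vel, hVel⟩ : ↥(A0L O K1 N)) Q)
        = eval₂ ((A0L O K1 N).subtype.comp ((algebraMap ↥(A0L O K1 N) ↥(A0L O K1 N)).comp
            (aeval (⟨jqModC K1, hxA⟩ : ↥(A0L O K1 N)) :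
              Polynomial ↥(OL O K1) →ₐ[↥(OL O K1)] ↥(A0L O K1 N)).toRingHom))
            ((A0L O K1 N).subtype ⟨Vel, hVel⟩) Q :=
      Polynomial.hom_eval₂ Q _ (A0L O K1 N).subtype _
    have h3 : (A0L O K1 N).subtype.comp ((algebraMap ↥(A0L O K1 N) ↥(A0L O K1 N)).comp
        (aeval (⟨jqModC K1, hxA⟩ : ↥(A0L O K1 N)) :
          Polynomial ↥(OL O K1) →ₐ[↥(OL O K1)] ↥(A0L O K1 N)).toRingHom)
        = eval₂RingHom (OL O K1).subtype (jqModC K1) := by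
      apply Polynomial.ringHom_ext
      · intro c
        simp only [RingHom.comp_apply, AlgHom.toRingHom_eq_coe, RingHom.coe_coe, aeval_C,
          Algebra.algebraMap_self, RingHom.id_apply, coe_eval₂RingHom, eval₂_C]
        rfl
      · simp only [RingHom.comp_apply, AlgHom.toRingHom_eq_coe, RingHom.coe_coe, aeval_X,
          Algebra.algebraMap_self, RingHom.id_apply, coe_eval₂RingHom, eval₂_X]
        rfl
    rw [h3] at h2
    exact h2
  have hP₀V : aeval (⟨Vel, hVel⟩ : ↥(A0L O K1 N)) (P₀.map (aeval (⟨jqModC K1, hxA⟩ : ↥(A0L O K1 N)) :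
      Polynomial ↥(OL O K1) →ₐ[↥(OL O K1)] ↥(A0L O K1 N)).toRingHom) = 0 := by
    apply Subtype.ext
    rw [hconv, hroot]
    rfl
  have hVgen : ∀ y : F1T K1 N, ∃ (num : Polynomial (Polynomial ↥(OL O K1)))
      (den : Polynomial ↥(OL O K1)), den ≠ 0 ∧
      y * algebraMap ↥(A0L O K1 N) (F1T K1 N) (aeval (⟨jqModC K1, hxA⟩ : ↥(A0L O K1 N)) den) =
        algebraMap ↥(A0L O K1 N) (F1T K1 N) (aeval (⟨Vel, hVel⟩ : ↥(A0L O K1 N))
          (num.map (aeval (⟨jqModC K1, hxA⟩ : ↥(A0L O K1 N)) :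
          Polynomial ↥(OL O K1) →ₐ[↥(OL O K1)] ↥(A0L O K1 N)).toRingHom)) := by
    intro y
    obtain ⟨n, d, hd0, hnd⟩ := hgenV (y : LaurentSeries K1) y.2
    refine ⟨n, d, hd0, Subtype.ext ?_⟩
    show (y : LaurentSeries K1) *
        ((aeval (⟨jqModC K1, hxA⟩ : ↥(A0L O K1 N)) d : ↥(A0L O K1 N)) : LaurentSeries K1) =
      ((aeval (⟨Vel, hVel⟩ : ↥(A0L O K1 N)) (n.map (aeval (⟨jqModC K1, hxA⟩ : ↥(A0L O K1 N)) :
          Polynomial ↥(OL O K1) →ₐ[↥(OL O K1)] ↥(A0L O K1 N)).toRingHom) : ↥(A0L O K1 N)) :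
          LaurentSeries K1)
    rw [hconv, hev, mul_comm, hnd]
  have hπirr : Irreducible (⟨πL O K1 ρ hρ, S.π_mem⟩ : ↥(OL O K1)) := S.π_irr S.π_mem
  -- transport of units and roots of unity to `OL`
  let e := equivOL O K1
  have hunit : ∀ n : ℕ, IsUnit ((n : ℕ) : O) →
      ¬ (⟨πL O K1 ρ hρ, S.π_mem⟩ : ↥(OL O K1)) ∣ ((n : ℕ) : ↥(OL O K1)) := by
    intro n hn hdvd
    have h1 : IsUnit ((n : ℕ) : ↥(OL O K1)) := by
      have := hn.map (e : O →+* ↥(OL O K1))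
      rwa [map_natCast] at this
    exact hπirr.not_isUnit (isUnit_of_dvd_unit hdvd h1)
  have hcase' : (An = lamNum ↥(OL O K1) ∧ Bd = lamDen ↥(OL O K1) ∧
        ¬ (⟨πL O K1 ρ hρ, S.π_mem⟩ : ↥(OL O K1)) ∣ 2) ∨
      (An = muNum ↥(OL O K1) ∧ Bd = muDen ↥(OL O K1) ∧
        ¬ (⟨πL O K1 ρ hρ, S.π_mem⟩ : ↥(OL O K1)) ∣ 3 ∧
          ∃ w : ↥(OL O K1), w ^ 2 + w + 1 = 0) := by
    rcases hcase with ⟨h1, h2, hu⟩ | ⟨h1, h2, hu, w, hw⟩
    · refine Or.inl ⟨h1, h2, ?_⟩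
      have := hunit 2 (by exact_mod_cast hu)
      exact_mod_cast this
    · refine Or.inr ⟨h1, h2, ?_, e w, ?_⟩
      · have := hunit 3 (by exact_mod_cast hu)
        exact_mod_cast this
      · rw [← map_pow, ← map_add, ← map_one e, ← map_add, hw, map_zero]
  -- the field `E` of level `N ℓ`, an extension of `F(N)` by `β`
  letI iFE : Algebra (F1T K1 N) (F1T K1 (N * ℓ)) := (S36E1_beta K1 N ℓ).toAlgebra
  letI iOLE : Algebra ↥(OL O K1) (F1T K1 (N * ℓ)) := algOLF O K1 (N * ℓ)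
  have hqC : ∀ c : ↥(OL O K1), qExpand K1 ℓ (c : LaurentSeries K1) = (c : LaurentSeries K1) := by
    intro c
    obtain ⟨a, ha⟩ := c.2
    rw [← ha]
    exact qExpand_C (R := K1) (N := ℓ) _
  haveI tOFE : IsScalarTower ↥(OL O K1) (F1T K1 N) (F1T K1 (N * ℓ)) := by
    refine IsScalarTower.of_algebraMap_eq (fun c => ?_)
    apply Subtype.ext
    show (c : LaurentSeries K1) = qExpand K1 ℓ (c : LaurentSeries K1)
    exact (hqC c).symm
  letI iAE : Algebra ↥(A0L O K1 N) (F1T K1 (N * ℓ)) :=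
    ((algebraMap (F1T K1 N) (F1T K1 (N * ℓ))).comp
      (algebraMap ↥(A0L O K1 N) (F1T K1 N))).toAlgebra
  haveI tAFE : IsScalarTower ↥(A0L O K1 N) (F1T K1 N) (F1T K1 (N * ℓ)) :=
    IsScalarTower.of_algebraMap_eq (fun _ => rfl)
  haveI tOAE : IsScalarTower ↥(OL O K1) ↥(A0L O K1 N) (F1T K1 (N * ℓ)) := by
    refine IsScalarTower.of_algebraMap_eq (fun c => ?_)
    apply Subtype.ext
    show (c : LaurentSeries K1) = qExpand K1 ℓ (c : LaurentSeries K1)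
    exact (hqC c).symm
  -- the coercion `E → K1((Q))`
  let coeE : F1T K1 (N * ℓ) →+* LaurentSeries K1 :=
    (modularFunctionFieldFullC K1 (N * ℓ)).toSubfield.subtype
  have hcoeE_inj : Function.Injective coeE := Subtype.val_injective
  have hcoeOL : coeE.comp (algebraMap ↥(OL O K1) (F1T K1 (N * ℓ))) = (OL O K1).subtype := by
    ext c
    rfl
  have hEψ : coeE.comp ((algebraMap ↥(A0L O K1 N) (F1T K1 (N * ℓ))).comp
      (aeval (⟨jqModC K1, hxA⟩ : ↥(A0L O K1 N)) :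
        Polynomial ↥(OL O K1) →ₐ[↥(OL O K1)] ↥(A0L O K1 N)).toRingHom)
      = (aeval (qExpand K1 ℓ (jqModC K1)) :
          Polynomial ↥(OL O K1) →ₐ[↥(OL O K1)] LaurentSeries K1).toRingHom := by
    apply Polynomial.ringHom_ext
    · intro c
      simp only [RingHom.comp_apply, AlgHom.toRingHom_eq_coe, RingHom.coe_coe, aeval_C]
      show qExpand K1 ℓ (c : LaurentSeries K1) = (c : LaurentSeries K1)
      exact hqC c
    · simp only [RingHom.comp_apply, AlgHom.toRingHom_eq_coe, RingHom.coe_coe, aeval_X]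
      rfl
  -- the coordinate `t`
  have ht : S18B_rel (algebraMap ↥(A0L O K1 N) (F1T K1 N) (⟨jqModC K1, hxA⟩ : ↥(A0L O K1 N)))
      An Bd (F1T K1 (N * ℓ)) (⟨t, htF⟩ : F1T K1 (N * ℓ)) := by
    unfold S18B_rel
    apply hcoeE_inj
    rw [map_mul]
    have h1 : ∀ P : Polynomial ↥(OL O K1),
        coeE (aeval (⟨t, htF⟩ : F1T K1 (N * ℓ)) P) = eval₂ (OL O K1).subtype t P := by
      intro P
      rw [Polynomial.aeval_def, Polynomial.hom_eval₂, hcoeOL]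
      rfl
    rw [h1, h1, hrel]
    rfl
  have hgen' : IntermediateField.adjoin (F1T K1 N) {(⟨t, htF⟩ : F1T K1 (N * ℓ))} = ⊤ := by
    rw [eq_top_iff]
    intro y _
    have hle : Subfield.closure
        ((qExpand K1 ℓ '' (modularFunctionFieldFullC K1 N : Set (LaurentSeries K1))) ∪ {t})
        ≤ (IntermediateField.adjoin (F1T K1 N)
            {(⟨t, htF⟩ : F1T K1 (N * ℓ))}).toSubfield.map coeE := by
      rw [Subfield.closure_le]
      rintro z (⟨x, hx, rfl⟩ | hz)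
      · refine ⟨algebraMap (F1T K1 N) (F1T K1 (N * ℓ)) ⟨x, hx⟩, ?_, rfl⟩
        exact (IntermediateField.adjoin (F1T K1 N)
          {(⟨t, htF⟩ : F1T K1 (N * ℓ))}).algebraMap_mem _
      · rw [Set.mem_singleton_iff] at hz
        subst hz
        exact ⟨⟨z, htF⟩, IntermediateField.subset_adjoin _ _ (Set.mem_singleton _), rfl⟩
    obtain ⟨y', hy', hyy'⟩ := hle (hgen (y : LaurentSeries K1) y.2)
    have : y' = y := hcoeE_inj hyy'
    rw [← this]
    exact hy'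
  -- the integral closure of the level-`N` chart in `E` is the level-`N ℓ` chart
  have hψA : (aeval (⟨jqModC K1, hxA⟩ : ↥(A0L O K1 N)) :
      Polynomial ↥(OL O K1) →ₐ[↥(OL O K1)] ↥(A0L O K1 N)).toRingHom.IsIntegral :=
    fun a => Fermat.Agent.S18_helper4_T2.S18T2_isIntegralElem_of_adjoin _ a (hA' a)
  have hAB : (algebraMap ↥(A0L O K1 N)
      (integralClosure ↥(A0L O K1 N) (F1T K1 (N * ℓ)))).IsIntegral :=
    fun z => Algebra.IsIntegral.isIntegral (R := ↥(A0L O K1 N)) z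
  have hψ := RingHom.IsIntegral.trans _ _ hψA hAB
  have hBto : ∀ b : integralClosure ↥(A0L O K1 N) (F1T K1 (N * ℓ)),
      coeE (b : F1T K1 (N * ℓ)) ∈ A0L O K1 (N * ℓ) := by
    intro b
    obtain ⟨p, hp, hpb⟩ := hψ b
    have h2 : (aeval (qExpand K1 ℓ (jqModC K1)) :
        Polynomial ↥(OL O K1) →ₐ[↥(OL O K1)] LaurentSeries K1).toRingHom.IsIntegralElem
          (coeE (b : F1T K1 (N * ℓ))) := by
      refine ⟨p, hp, ?_⟩
      rw [← hEψ]
      have := Polynomial.hom_eval₂ p ((algebraMap ↥(A0L O K1 N)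
          (integralClosure ↥(A0L O K1 N) (F1T K1 (N * ℓ)))).comp
        (aeval (⟨jqModC K1, hxA⟩ : ↥(A0L O K1 N)) :
          Polynomial ↥(OL O K1) →ₐ[↥(OL O K1)] ↥(A0L O K1 N)).toRingHom)
        (coeE.comp (algebraMap (integralClosure ↥(A0L O K1 N) (F1T K1 (N * ℓ)))
          (F1T K1 (N * ℓ)))) b
      rw [hpb, map_zero] at this
      exact this.symm
    rw [← Fermat.Agent.S18_helper27_CFIN.S18CFIN_isIntegral_iff] at h2
    exact mem_icl.mpr ⟨(hchart _ (b : F1T K1 (N * ℓ)).2).mpr h2, (b : F1T K1 (N * ℓ)).2⟩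
  have hBfrom : ∀ z ∈ A0L O K1 (N * ℓ), ∃ hz : z ∈ modularFunctionFieldFullC K1 (N * ℓ),
      IsIntegral ↥(A0L O K1 N) (⟨z, hz⟩ : F1T K1 (N * ℓ)) := by
    intro z hz
    obtain ⟨h1, h2⟩ := mem_icl.mp hz
    refine ⟨h2, ?_⟩
    have h3 := (hchart z h2).mp h1
    rw [Fermat.Agent.S18_helper27_CFIN.S18CFIN_isIntegral_iff] at h3
    obtain ⟨p, hp, hpz⟩ := h3
    refine ⟨p.map (aeval (⟨jqModC K1, hxA⟩ : ↥(A0L O K1 N)) :
      Polynomial ↥(OL O K1) →ₐ[↥(OL O K1)] ↥(A0L O K1 N)).toRingHom, hp.map _, ?_⟩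
    rw [Polynomial.eval₂_map]
    apply hcoeE_inj
    rw [Polynomial.hom_eval₂, hEψ, map_zero]
    exact hpz
  let φ : integralClosure ↥(A0L O K1 N) (F1T K1 (N * ℓ)) →+* ↥(A0L O K1 (N * ℓ)) :=
    RingHom.codRestrict (coeE.comp (algebraMap (integralClosure ↥(A0L O K1 N) (F1T K1 (N * ℓ)))
      (F1T K1 (N * ℓ)))) (A0L O K1 (N * ℓ)) hBto
  have hφcoe : ∀ b : integralClosure ↥(A0L O K1 N) (F1T K1 (N * ℓ)),
      ((φ b : ↥(A0L O K1 (N * ℓ))) : LaurentSeries K1)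
        = ((b : F1T K1 (N * ℓ)) : LaurentSeries K1) := fun _ => rfl
  have hφsurj : Function.Surjective φ := by
    rintro ⟨z, hz⟩
    obtain ⟨hzF, hzint⟩ := hBfrom z hz
    exact ⟨⟨⟨z, hzF⟩, hzint⟩, Subtype.ext rfl⟩
  haveI := hm
  have hm' : (m.comap φ).IsMaximal := Ideal.comap_isMaximal_of_surjective φ hφsurj
  have hφπ : φ (algebraMap ↥(OL O K1) (integralClosure ↥(A0L O K1 N) (F1T K1 (N * ℓ)))
      (⟨πL O K1 ρ hρ, S.π_mem⟩ : ↥(OL O K1))) = (⟨πL O K1 ρ hρ, hπ⟩ : ↥(A0L O K1 (N * ℓ))) :=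
    Subtype.ext rfl
  have hπm' : algebraMap ↥(OL O K1) (integralClosure ↥(A0L O K1 N) (F1T K1 (N * ℓ)))
      (⟨πL O K1 ρ hρ, S.π_mem⟩ : ↥(OL O K1)) ∈ m.comap φ := by
    rw [Ideal.mem_comap, hφπ]
    exact hπm
  letI iOLK : Algebra ↥(OL O K1) K1 := algOLK O K1
  haveI : IsFractionRing ↥(OL O K1) K1 := isFractionRing_OL_K1 O K1
  haveI : IsScalarTower ↥(OL O K1) K1 (F1T K1 N) := isScalarTower_OL_K1_F1 O K1 N
  obtain ⟨tB, t₀, htB, hBd, htm, h1, -⟩ :=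
    Fermat.Agent.S36_helper7_E1PG.S36E1_chart0 (O := ↥(OL O K1)) (K1 := K1) N
      (A := ↥(A0L O K1 N)) emb (⟨πL O K1 ρ hρ, S.π_mem⟩ : ↥(OL O K1)) hπirr An Bd hcase'
      (⟨jqModC K1, hxA⟩ : ↥(A0L O K1 N)) rfl hA' (⟨Vel, hVel⟩ : ↥(A0L O K1 N)) P₀ hmon hP₀V
      hVgen hsep (F1T K1 (N * ℓ)) (⟨t, htF⟩ : F1T K1 (N * ℓ)) ht hgen' (m.comap φ) hm' hπm'
  have hcoe : ((φ (tB - algebraMap ↥(OL O K1)
      (integralClosure ↥(A0L O K1 N) (F1T K1 (N * ℓ))) t₀) : ↥(A0L O K1 (N * ℓ))) :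
        LaurentSeries K1) = t - (t₀ : LaurentSeries K1) := by
    rw [map_sub]
    have e1 : ((φ tB : ↥(A0L O K1 (N * ℓ))) : LaurentSeries K1) = t := by
      rw [hφcoe]
      have := congrArg coeE htB
      exact this
    have e2 : ((φ (algebraMap ↥(OL O K1)
        (integralClosure ↥(A0L O K1 N) (F1T K1 (N * ℓ))) t₀) : ↥(A0L O K1 (N * ℓ))) :
          LaurentSeries K1) = (t₀ : LaurentSeries K1) := rfl
    have e3 : ((φ tB - φ (algebraMap ↥(OL O K1)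
        (integralClosure ↥(A0L O K1 N) (F1T K1 (N * ℓ))) t₀) : ↥(A0L O K1 (N * ℓ))) :
          LaurentSeries K1) = ((φ tB : ↥(A0L O K1 (N * ℓ))) : LaurentSeries K1)
          - ((φ (algebraMap ↥(OL O K1)
            (integralClosure ↥(A0L O K1 N) (F1T K1 (N * ℓ))) t₀) : ↥(A0L O K1 (N * ℓ))) :
              LaurentSeries K1) := rfl
    rw [e3, e1, e2]
  have htA : t - (t₀ : LaurentSeries K1) ∈ A0L O K1 (N * ℓ) := by
    rw [← hcoe]
    exact (φ _).2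
  have hφt : φ (tB - algebraMap ↥(OL O K1)
      (integralClosure ↥(A0L O K1 N) (F1T K1 (N * ℓ))) t₀)
      = (⟨t - (t₀ : LaurentSeries K1), htA⟩ : ↥(A0L O K1 (N * ℓ))) := Subtype.ext hcoe
  refine ⟨t₀, htA, hBd, ?_, ?_⟩
  · rw [← hφt]
    exact htm
  · intro y hy
    obtain ⟨y', rfl⟩ := hφsurj y
    obtain ⟨s, hs, a, b, hab⟩ := h1 y' hy
    refine ⟨φ s, hs, φ a, φ b, ?_⟩
    rw [← hφt, ← hφπ, ← map_mul, ← map_mul, ← map_mul, ← map_add, hab]

end Plug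

end Fermat.Agent.S36_helper7_E1C
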