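import Mathlib
import Fermat.Agent.S36_helper7_E1C
import Fermat.Agent.S36_helper20_WQQ
import Fermat.Agent.S36_helper4_DEG
import Fermat.Agent.S34_helper8_MODEQ

/-!
# S36, GEO36 piece E1 (helper7): the inputs `hchart` and `hgen` of the concrete plug

* `S36E1_adj_trans`, `S36E1_hchart`: for a prime `ℓ`, `j` and `j(Q^ℓ)` are integral over each
  other (landed modular equation), so they define the same integral closure;
* `S36E1_beta_w`: `β ∘ w_N = w_(N ℓ) ∘ α` (full Atkin–Lehner involutions of levels `N`, `N ℓ`);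
* `S36E1_finrank_beta`: `[F(N ℓ) : β F(N)] = ℓ` for a prime `ℓ ∣ N`;
* `S36E1_hgen`: an element `t ∈ F(N ℓ)` with a non-zero coefficient of index prime to `ℓ`
  generates `F(N ℓ)` over `β F(N)`;
* `S36E1_main`: the plug with `hchart`, `hgen` discharged.
-/

set_option autoImplicit false
set_option linter.unusedSectionVars false
set_option linter.style.haveILetI false
set_option linter.unusedVariables false
set_option maxHeartbeats 1000000
set_option synthInstance.maxHeartbeats 400000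

noncomputable section

open Polynomial ModularCurve Fermat.Agent.S18_helper13_GAUSS Fermat.Agent.S18_helper9_CDefs
open Fermat.Agent.S18A Fermat.Agent.S18_helper17_BDefs Fermat.Agent.S18AI
open Fermat.Agent.S18_helper29_COVERS Fermat.Agent.S18_helper26_CONST
open Fermat.Agent.S36_helper7_E1C Fermat.Agent.S24
open Fermat.Agent.S34_helper15_DEG Fermat.Agent.S36_helper20_WQQ Fermat.Agent.S34_helper20_WQ

namespace Fermat.Agent.S36_helper7_E1IN

section Trans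

variable {L : Type*} [Field L]

/-- transitivity of integrality for the rings `O[x]`, `O[x']` -/
theorem S36E1_adj_trans (O : Subring L) (x x' y : L)
    (hx : IsIntegral (adj O x') x) (hy : IsIntegral (adj O x) y) : IsIntegral (adj O x') y := by
  have hle : adj O x ≤ (integralClosure (adj O x') L).toSubring := by
    unfold adj
    rw [Subring.closure_le]
    rintro z (hz | hz)
    · have hz' : z ∈ adj O x' := Subring.subset_closure (Or.inl hz)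
      exact isIntegral_algebraMap (R := adj O x') (A := L) (x := ⟨z, hz'⟩)
    · rw [Set.mem_singleton_iff] at hz
      rw [hz]
      exact hx
  obtain ⟨p, hp, hpy⟩ := hy
  have hC : IsIntegral (integralClosure (adj O x') L) y := by
    refine ⟨p.map (Subring.inclusion hle), hp.map _, ?_⟩
    rw [Polynomial.eval₂_map]
    exact hpy
  exact isIntegral_trans (R := adj O x') (A := integralClosure (adj O x') L) y hC

end Trans

section Chart

variable {K1 : Type*} [Field K1] (O : Subring (LaurentSeries K1)) (ℓ : ℕ) [NeZero ℓ]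

/-- `j` and `j(Q^ℓ)` define the same integral closure (`ℓ` prime). -/
theorem S36E1_hchart (hℓ : ℓ.Prime) (y : LaurentSeries K1) :
    IsIntegral (adj O (jqModC K1)) y ↔ IsIntegral (adj O (qExpand K1 ℓ (jqModC K1))) y :=
  ⟨fun h => S36E1_adj_trans O _ _ y
      (Fermat.Agent.S34_helper8_MODEQ.S34ME_isIntegral' O ℓ hℓ) h,
    fun h => S36E1_adj_trans O _ _ y
      (Fermat.Agent.S34_helper8_MODEQ.S34ME_isIntegral O ℓ hℓ) h⟩

end Chart

section Degree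

variable {K1 : Type} [Field K1] [CharZero K1] (emb : K1 →+* Kbar)
  (N ℓ : ℕ) [NeZero N] [NeZero ℓ] [NeZero (N * ℓ)]

/-- `β ∘ w_N = w_(N ℓ) ∘ α`. -/
theorem S36E1_beta_w (x : F1T K1 N) :
    S36E1_beta K1 N ℓ (S36WQ_w emb N 1 N (Nat.coprime_one_right N) (mul_one N).symm x)
      = S36WQ_w emb (N * ℓ) 1 (N * ℓ) (Nat.coprime_one_right _) (mul_one _).symm
          (S34DEG_incl K1 N ℓ x) := by
  refine S34WQ_ringHom_ext N
    ((S36E1_beta K1 N ℓ).comp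
      ((S36WQ_w emb N 1 N (Nat.coprime_one_right N) (mul_one N).symm :
        modularFunctionFieldFullC K1 N ≃ₐ[K1] modularFunctionFieldFullC K1 N) :
        modularFunctionFieldFullC K1 N →+* modularFunctionFieldFullC K1 N))
    (((S36WQ_w emb (N * ℓ) 1 (N * ℓ) (Nat.coprime_one_right _) (mul_one _).symm :
        modularFunctionFieldFullC K1 (N * ℓ) ≃ₐ[K1] modularFunctionFieldFullC K1 (N * ℓ)) :
        modularFunctionFieldFullC K1 (N * ℓ) →+* modularFunctionFieldFullC K1 (N * ℓ)).comp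
      (S34DEG_incl K1 N ℓ).toRingHom) ?_ ?_ x
  · intro c hc
    have hc' : HahnSeries.C c ∈ modularFunctionFieldFullC K1 (N * ℓ) :=
      full_degeneracyC_le K1 (dvd_mul_right N ℓ) hc
    have e1 : (S34DEG_incl K1 N ℓ).toRingHom ⟨HahnSeries.C c, hc⟩
        = (⟨HahnSeries.C c, hc'⟩ : modularFunctionFieldFullC K1 (N * ℓ)) := Subtype.ext rfl
    simp only [RingHom.comp_apply]
    rw [e1]
    erw [S36WQ_w_C emb N 1 N (Nat.coprime_one_right N) (mul_one N).symm c hc,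
      S36WQ_w_C emb (N * ℓ) 1 (N * ℓ) (Nat.coprime_one_right _) (mul_one _).symm c hc']
    apply Subtype.ext
    rw [S36E1_beta_coe]
    exact qExpand_C (R := K1) (N := ℓ) c
  · intro d _ hd hm
    have hm' : qExpand K1 d (jqModC K1) ∈ modularFunctionFieldFullC K1 (N * ℓ) :=
      full_degeneracyC_le K1 (dvd_mul_right N ℓ) hm
    have e1 : (S34DEG_incl K1 N ℓ).toRingHom ⟨qExpand K1 d (jqModC K1), hm⟩
        = (⟨qExpand K1 d (jqModC K1), hm'⟩ : modularFunctionFieldFullC K1 (N * ℓ)) :=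
      Subtype.ext rfl
    simp only [RingHom.comp_apply]
    rw [e1]
    have hdpos : 0 < d := Nat.pos_of_ne_zero (NeZero.ne d)
    have hNd : N = d * (N / d) := (Nat.mul_div_cancel' hd).symm
    have hNdpos : N / d ≠ 0 := by
      intro h0
      rw [h0, mul_zero] at hNd
      exact NeZero.ne N hNd
    haveI : NeZero (N / d) := ⟨hNdpos⟩
    haveI : NeZero (ℓ * (N / d)) := ⟨mul_ne_zero (NeZero.ne ℓ) hNdpos⟩
    have h1 := S36WQ_w_gen' emb N 1 N (Nat.coprime_one_right N) (mul_one N).symm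
      d (N / d) 1 hNd (dvd_refl 1) d (N / d) (mul_one d).symm (mul_one _).symm hm
    have h2 := S36WQ_w_gen' emb (N * ℓ) 1 (N * ℓ) (Nat.coprime_one_right _) (mul_one _).symm
      d (ℓ * (N / d)) 1 (by rw [← mul_assoc, mul_comm d ℓ, mul_assoc, ← hNd, mul_comm])
      (dvd_refl 1) d (ℓ * (N / d)) (mul_one d).symm (mul_one _).symm hm'
    apply Subtype.ext
    rw [S36E1_beta_coe]
    erw [h1, h2]
    exact qExpand_qExpand (N / d) ℓ (jqModC K1)

include emb in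
/-- **`[F(N ℓ) : β F(N)] = ℓ`** for a prime `ℓ ∣ N`. -/
theorem S36E1_finrank_beta (hℓ : ℓ.Prime) (hℓN : ℓ ∣ N) :
    letI := (S36E1_beta K1 N ℓ).toAlgebra
    Module.finrank (F1T K1 N) (F1T K1 (N * ℓ)) = ℓ := by
  letI iβ : Algebra (F1T K1 N) (F1T K1 (N * ℓ)) := (S36E1_beta K1 N ℓ).toAlgebra
  have hα := Fermat.Agent.S36_helper4_DEG.S36DG_finrank K1 emb N ℓ hℓ hℓN
  refine Eq.trans (Eq.symm ?_) hα
  refine @Algebra.finrank_eq_of_equiv_equiv (F1T K1 N) (F1T K1 (N * ℓ)) _ _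
    (S34DEG_algebra K1 N ℓ) (F1T K1 N) (F1T K1 (N * ℓ)) _ _ iβ
    (S36WQ_w emb N 1 N (Nat.coprime_one_right N) (mul_one N).symm).toRingEquiv
    (S36WQ_w emb (N * ℓ) 1 (N * ℓ) (Nat.coprime_one_right _) (mul_one _).symm).toRingEquiv ?_
  exact RingHom.ext (fun x => S36E1_beta_w emb N ℓ x)

include emb in
/-- **generation**: `t ∈ F(N ℓ)` with a non-zero coefficient of index prime to `ℓ` generates
`F(N ℓ)` over `β F(N)` (`ℓ` prime, `ℓ ∣ N`). -/
theorem S36E1_hgen (hℓ : ℓ.Prime) (hℓN : ℓ ∣ N) (t : LaurentSeries K1)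
    (htF : t ∈ modularFunctionFieldFullC K1 (N * ℓ)) (k : ℤ) (hk : ¬ (ℓ : ℤ) ∣ k)
    (htk : t.coeff k ≠ 0) :
    ∀ y ∈ modularFunctionFieldFullC K1 (N * ℓ),
      y ∈ Subfield.closure
        ((qExpand K1 ℓ '' (modularFunctionFieldFullC K1 N : Set (LaurentSeries K1))) ∪ {t}) := by
  letI iβ : Algebra (F1T K1 N) (F1T K1 (N * ℓ)) := (S36E1_beta K1 N ℓ).toAlgebra
  have hfr : Module.finrank (F1T K1 N) (F1T K1 (N * ℓ)) = ℓ := S36E1_finrank_beta emb N ℓ hℓ hℓN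
  haveI hfd : FiniteDimensional (F1T K1 N) (F1T K1 (N * ℓ)) :=
    Module.finite_of_finrank_pos (by rw [hfr]; exact hℓ.pos)
  set T : F1T K1 (N * ℓ) := ⟨t, htF⟩ with hT
  have hTbot : T ∉ (⊥ : IntermediateField (F1T K1 N) (F1T K1 (N * ℓ))) := by
    intro h
    rw [IntermediateField.mem_bot] at h
    obtain ⟨x, hx⟩ := h
    have h1 : qExpand K1 ℓ (x : LaurentSeries K1) = t := congrArg Subtype.val hx
    apply htk
    rw [← h1]
    exact qExpand_coeff_of_not_dvd ℓ _ hk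
  have hp : Nat.Prime (Module.finrank (F1T K1 N) (F1T K1 (N * ℓ))) := by
    rw [hfr]; exact hℓ
  haveI := IntermediateField.isSimpleOrder_of_finrank_prime (F1T K1 N) (F1T K1 (N * ℓ)) hp
  have htop : IntermediateField.adjoin (F1T K1 N) {T} = ⊤ := by
    rcases eq_bot_or_eq_top (IntermediateField.adjoin (F1T K1 N) {T}) with h | h
    · exfalso
      apply hTbot
      rw [← h]
      exact IntermediateField.mem_adjoin_simple_self _ T
    · exact h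
  intro y hy
  have hmem : (⟨y, hy⟩ : F1T K1 (N * ℓ)) ∈ IntermediateField.adjoin (F1T K1 N) {T} := by
    rw [htop]; trivial
  have key : ∀ z : F1T K1 (N * ℓ), z ∈ IntermediateField.adjoin (F1T K1 N) {T} →
      (z : LaurentSeries K1) ∈ Subfield.closure
        ((qExpand K1 ℓ '' (modularFunctionFieldFullC K1 N : Set (LaurentSeries K1))) ∪ {t}) := by
    intro z hz
    induction hz using IntermediateField.adjoin_induction with
    | mem z hz =>
        rw [Set.mem_singleton_iff] at hz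
        rw [hz]
        exact Subfield.subset_closure (Or.inr rfl)
    | algebraMap x =>
        exact Subfield.subset_closure (Or.inl ⟨(x : LaurentSeries K1), x.2, rfl⟩)
    | add a b _ _ ha hb => exact add_mem ha hb
    | inv a _ ha => exact inv_mem ha
    | mul a b _ _ ha hb => exact mul_mem ha hb
  exact key _ hmem

end Degree

section Main

variable {O K1 k : Type} [CommRing O] [IsDomain O] [IsDiscreteValuationRing O] [Field K1]
  [CharZero K1] [Algebra O K1] [IsFractionRing O K1] [Field k] [IsAlgClosed k]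
  (ρ : O →+* k) (hρ : ∀ x : O, ρ x = 0 ↔ x ∈ IsLocalRing.maximalIdeal O) (N : ℕ) [NeZero N]
  (ℓ : ℕ) [NeZero ℓ] [NeZero (N * ℓ)]

/-- **E1, concrete form with `hchart` and `hgen` discharged.**  `ℓ` a prime dividing `N`,
`t ∈ F(N ℓ)` a root of the Legendre (resp. Hesse) relation over `j(Q^ℓ)` with a non-zero
coefficient of index prime to `ℓ`. -/
theorem S36E1_main (hρs : Function.Surjective ρ) (emb : K1 →+* AlgebraicClosure ℚ)
    (S : Setup (OL O K1) (πL O K1 ρ hρ) (jqModC K1) (F1L K1 N) (VL O K1 ρ hρ N)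
      (A0L O K1 N) (AinfL O K1 N))
    (hℓ : ℓ.Prime) (hℓN : ℓ ∣ N)
    (An Bd : Polynomial ↥(OL O K1))
    (hcase : (An = lamNum ↥(OL O K1) ∧ Bd = lamDen ↥(OL O K1) ∧ IsUnit (2 : O)) ∨
      (An = muNum ↥(OL O K1) ∧ Bd = muDen ↥(OL O K1) ∧ IsUnit (3 : O) ∧
        ∃ w : O, w ^ 2 + w + 1 = 0))
    (t : LaurentSeries K1) (htF : t ∈ modularFunctionFieldFullC K1 (N * ℓ))
    (hrel : eval₂ (OL O K1).subtype t An
      = qExpand K1 ℓ (jqModC K1) * eval₂ (OL O K1).subtype t Bd)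
    (k₀ : ℤ) (hk₀ : ¬ (ℓ : ℤ) ∣ k₀) (htk : t.coeff k₀ ≠ 0)
    (hπ : πL O K1 ρ hρ ∈ A0L O K1 (N * ℓ))
    (m : Ideal ↥(A0L O K1 (N * ℓ))) (hm : m.IsMaximal)
    (hπm : (⟨πL O K1 ρ hρ, hπ⟩ : ↥(A0L O K1 (N * ℓ))) ∈ m) :
    ∃ (t₀ : ↥(OL O K1)) (htA : t - (t₀ : LaurentSeries K1) ∈ A0L O K1 (N * ℓ)),
      ¬ (⟨πL O K1 ρ hρ, S.π_mem⟩ : ↥(OL O K1)) ∣ Bd.eval t₀ ∧
      (⟨t - (t₀ : LaurentSeries K1), htA⟩ : ↥(A0L O K1 (N * ℓ))) ∈ m ∧
      ∀ y ∈ m, ∃ s, s ∉ m ∧ ∃ a b : ↥(A0L O K1 (N * ℓ)),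
        s * y = a * (⟨πL O K1 ρ hρ, hπ⟩ : ↥(A0L O K1 (N * ℓ)))
          + b * (⟨t - (t₀ : LaurentSeries K1), htA⟩ : ↥(A0L O K1 (N * ℓ))) :=
  S36E1_plug ρ hρ N ℓ hρs emb S An Bd hcase t htF hrel
    (S36E1_hgen emb N ℓ hℓ hℓN t htF k₀ hk₀ htk)
    (fun y _ => S36E1_hchart (OL O K1) ℓ hℓ y) hπ m hm hπm

/-- **E1, Legendre form** (`ℓ = 2`, `2 ∣ N`, `2` invertible in `O`): `t ∈ F(2 N)` with
`256 (t² - t + 1)³ = j(Q²) (t² - t)²`. -/
theorem S36E1_lam [NeZero (N * 2)] (hρs : Function.Surjective ρ)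
    (emb : K1 →+* AlgebraicClosure ℚ)
    (S : Setup (OL O K1) (πL O K1 ρ hρ) (jqModC K1) (F1L K1 N) (VL O K1 ρ hρ N)
      (A0L O K1 N) (AinfL O K1 N))
    (h2N : 2 ∣ N) (h2 : IsUnit (2 : O))
    (t : LaurentSeries K1) (htF : t ∈ modularFunctionFieldFullC K1 (N * 2))
    (hrel : 256 * (t ^ 2 - t + 1) ^ 3 = qExpand K1 2 (jqModC K1) * (t ^ 2 - t) ^ 2)
    (k₀ : ℤ) (hk₀ : ¬ (2 : ℤ) ∣ k₀) (htk : t.coeff k₀ ≠ 0)
    (hπ : πL O K1 ρ hρ ∈ A0L O K1 (N * 2))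
    (m : Ideal ↥(A0L O K1 (N * 2))) (hm : m.IsMaximal)
    (hπm : (⟨πL O K1 ρ hρ, hπ⟩ : ↥(A0L O K1 (N * 2))) ∈ m) :
    ∃ (t₀ : ↥(OL O K1)) (htA : t - (t₀ : LaurentSeries K1) ∈ A0L O K1 (N * 2)),
      ¬ (⟨πL O K1 ρ hρ, S.π_mem⟩ : ↥(OL O K1)) ∣ (t₀ ^ 2 - t₀) ^ 2 ∧
      (⟨t - (t₀ : LaurentSeries K1), htA⟩ : ↥(A0L O K1 (N * 2))) ∈ m ∧
      ∀ y ∈ m, ∃ s, s ∉ m ∧ ∃ a b : ↥(A0L O K1 (N * 2)),
        s * y = a * (⟨πL O K1 ρ hρ, hπ⟩ : ↥(A0L O K1 (N * 2)))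
          + b * (⟨t - (t₀ : LaurentSeries K1), htA⟩ : ↥(A0L O K1 (N * 2))) := by
  have hrel' : eval₂ (OL O K1).subtype t (lamNum ↥(OL O K1))
      = qExpand K1 2 (jqModC K1) * eval₂ (OL O K1).subtype t (lamDen ↥(OL O K1)) := by
    have e1 : eval₂ (OL O K1).subtype t (lamNum ↥(OL O K1)) = aeval t (lamNum ↥(OL O K1)) := rfl
    have e2 : eval₂ (OL O K1).subtype t (lamDen ↥(OL O K1)) = aeval t (lamDen ↥(OL O K1)) := rfl
    rw [e1, e2, aeval_lamNum, aeval_lamDen]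
    exact hrel
  obtain ⟨t₀, htA, hBd, h1, h2'⟩ := S36E1_main ρ hρ N 2 hρs emb S Nat.prime_two h2N
    (lamNum ↥(OL O K1)) (lamDen ↥(OL O K1)) (Or.inl ⟨rfl, rfl, h2⟩) t htF hrel' k₀
    (by exact_mod_cast hk₀) htk hπ m hm hπm
  refine ⟨t₀, htA, ?_, h1, h2'⟩
  have e3 : (lamDen ↥(OL O K1)).eval t₀ = (t₀ ^ 2 - t₀) ^ 2 := by simp [lamDen, lamB]
  rw [e3] at hBd
  exact hBd

/-- **E1, Hesse form** (`ℓ = 3`, `3 ∣ N`, `3` invertible in `O`, a primitive cube root of unity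
in `O`): `t ∈ F(3 N)` with `27 (t (t³ + 8))³ = j(Q³) (t³ - 1)³`. -/
theorem S36E1_mu [NeZero (N * 3)] (hρs : Function.Surjective ρ)
    (emb : K1 →+* AlgebraicClosure ℚ)
    (S : Setup (OL O K1) (πL O K1 ρ hρ) (jqModC K1) (F1L K1 N) (VL O K1 ρ hρ N)
      (A0L O K1 N) (AinfL O K1 N))
    (h3N : 3 ∣ N) (h3 : IsUnit (3 : O)) (w : O) (hw : w ^ 2 + w + 1 = 0)
    (t : LaurentSeries K1) (htF : t ∈ modularFunctionFieldFullC K1 (N * 3))
    (hrel : 27 * (t * (t ^ 3 + 8)) ^ 3 = qExpand K1 3 (jqModC K1) * (t ^ 3 - 1) ^ 3)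
    (k₀ : ℤ) (hk₀ : ¬ (3 : ℤ) ∣ k₀) (htk : t.coeff k₀ ≠ 0)
    (hπ : πL O K1 ρ hρ ∈ A0L O K1 (N * 3))
    (m : Ideal ↥(A0L O K1 (N * 3))) (hm : m.IsMaximal)
    (hπm : (⟨πL O K1 ρ hρ, hπ⟩ : ↥(A0L O K1 (N * 3))) ∈ m) :
    ∃ (t₀ : ↥(OL O K1)) (htA : t - (t₀ : LaurentSeries K1) ∈ A0L O K1 (N * 3)),
      ¬ (⟨πL O K1 ρ hρ, S.π_mem⟩ : ↥(OL O K1)) ∣ (t₀ ^ 3 - 1) ^ 3 ∧
      (⟨t - (t₀ : LaurentSeries K1), htA⟩ : ↥(A0L O K1 (N * 3))) ∈ m ∧
      ∀ y ∈ m, ∃ s, s ∉ m ∧ ∃ a b : ↥(A0L O K1 (N * 3)),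
        s * y = a * (⟨πL O K1 ρ hρ, hπ⟩ : ↥(A0L O K1 (N * 3)))
          + b * (⟨t - (t₀ : LaurentSeries K1), htA⟩ : ↥(A0L O K1 (N * 3))) := by
  have hrel' : eval₂ (OL O K1).subtype t (muNum ↥(OL O K1))
      = qExpand K1 3 (jqModC K1) * eval₂ (OL O K1).subtype t (muDen ↥(OL O K1)) := by
    have e1 : eval₂ (OL O K1).subtype t (muNum ↥(OL O K1)) = aeval t (muNum ↥(OL O K1)) := rfl
    have e2 : eval₂ (OL O K1).subtype t (muDen ↥(OL O K1)) = aeval t (muDen ↥(OL O K1)) := rfl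
    rw [e1, e2, aeval_muNum, aeval_muDen]
    exact hrel
  obtain ⟨t₀, htA, hBd, h1, h2'⟩ := S36E1_main ρ hρ N 3 hρs emb S Nat.prime_three h3N
    (muNum ↥(OL O K1)) (muDen ↥(OL O K1)) (Or.inr ⟨rfl, rfl, h3, w, hw⟩) t htF hrel' k₀
    (by exact_mod_cast hk₀) htk hπ m hm hπm
  refine ⟨t₀, htA, ?_, h1, h2'⟩
  have e3 : (muDen ↥(OL O K1)).eval t₀ = (t₀ ^ 3 - 1) ^ 3 := by simp [muDen, muB]
  rw [e3] at hBd
  exact hBd

end Main

end Fermat.Agent.S36_helper7_E1IN
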