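import Mathlib
import Fermat.Prelude.Def_ModularCurve_X0ModL
import Fermat.Agent.S36_helper8_AUXDefs

/-!
# S36, piece AUX / HINV (helper27): existence of the Hauptmodul series, for any `(a, B)`

For monic `a, B ∈ ℤ[X]` with `deg B + 1 = 3 deg a` and any `J ∈ 1 + Q ℤ[[Q]]` there is
`u ∈ 1 + Q ℤ[[Q]]` such that `h = Q⁻¹ u` satisfies `(Q⁻¹ J) · B(h) = a(h)³` in `ℤ((Q))`.
With `J = jNum` this gives the fields `u`, `hu`, `rel` of `S36AUX_Data` for both instances
(`r = 4` and `r = 9`).

Proof: with `n = deg a`, the polynomial `F(U) = (Q^n a(U/Q))³ - J · Q^(3n-1) B(U/Q)` over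
`ℤ[[Q]]` is monic of degree `3 n`, and modulo `Q` it is `U^(3n) - U^(3n-1)`, of which `U = 1`
is a simple root; `ℤ[[Q]]` is `Q`-adically complete, hence Henselian along `(Q)`.

* `S36HI_exists` : the statement for a general `J`;
* `S36HI_rel`    : the statement for `jqModC ℤ`.
-/

set_option autoImplicit false
open ModularCurve Polynomial
open Fermat.Agent.S36_helper8_AUXDefs

namespace Fermat.Agent.S36_helper27_HINV

/-- the constant coefficient, as a ring hom, of `eval x p` -/
theorem S36HI_eps_eval (p : Polynomial (PowerSeries ℤ)) (x : PowerSeries ℤ) :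
    PowerSeries.constantCoeff (p.eval x) =
      (p.map (PowerSeries.constantCoeff (R := ℤ))).eval (PowerSeries.constantCoeff x) := by
  rw [Polynomial.eval_map, Polynomial.eval₂_at_apply]

/-- reduction modulo `Q` of the homogenised polynomial -/
theorem S36HI_eps_scale (P : Polynomial ℤ) (hP : P.Monic) :
    ((P.map (PowerSeries.C : ℤ →+* PowerSeries ℤ)).scaleRoots PowerSeries.X).map
      (PowerSeries.constantCoeff (R := ℤ)) = (X : Polynomial ℤ) ^ P.natDegree := by
  have hm : (P.map (PowerSeries.C : ℤ →+* PowerSeries ℤ)).Monic := hP.map _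
  rw [Polynomial.map_scaleRoots _ _ _ (by rw [hm.leadingCoeff]; simp)]
  rw [Polynomial.map_map]
  have hid : (PowerSeries.constantCoeff (R := ℤ)).comp (PowerSeries.C : ℤ →+* PowerSeries ℤ)
      = RingHom.id ℤ := by
    ext; simp
  rw [hid, Polynomial.map_id, PowerSeries.constantCoeff_X, Polynomial.scaleRoots_zero,
    hP.leadingCoeff, one_smul]

/-- `Q⁻¹ · Q = 1` in `ℤ((Q))` -/
theorem S36HI_TQ : HahnSeries.single (-1 : ℤ) (1 : ℤ) * HahnSeries.single (1 : ℤ) (1 : ℤ) = 1 := by
  rw [HahnSeries.single_mul_single]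
  simp

/-- the homogenised polynomial, evaluated at `u`, is `Q ^ deg P * P (Q⁻¹ u)` -/
theorem S36HI_phi_scale (P : Polynomial ℤ) (hP : P.Monic) (u : PowerSeries ℤ) :
    HahnSeries.ofPowerSeries ℤ ℤ
        (((P.map (PowerSeries.C : ℤ →+* PowerSeries ℤ)).scaleRoots PowerSeries.X).eval u)
      = (HahnSeries.single (1 : ℤ) (1 : ℤ)) ^ P.natDegree * Polynomial.aeval (S36AUX_h u) P := by
  have hm : (P.map (PowerSeries.C : ℤ →+* PowerSeries ℤ)).Monic := hP.map _
  have hnd : (P.map (PowerSeries.C : ℤ →+* PowerSeries ℤ)).natDegree = P.natDegree :=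
    hP.natDegree_map _
  have hu : HahnSeries.ofPowerSeries ℤ ℤ u
      = HahnSeries.ofPowerSeries ℤ ℤ PowerSeries.X * S36AUX_h u := by
    rw [S36AUX_h, HahnSeries.ofPowerSeries_X, ← mul_assoc, mul_comm (HahnSeries.single (1 : ℤ) (1 : ℤ)),
      S36HI_TQ, one_mul]
  rw [← Polynomial.eval₂_at_apply, hu, Polynomial.scaleRoots_eval₂_mul, hnd,
    HahnSeries.ofPowerSeries_X, Polynomial.eval₂_map, Polynomial.aeval_def,
    show ((HahnSeries.ofPowerSeries ℤ ℤ).comp (PowerSeries.C : ℤ →+* PowerSeries ℤ))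
      = algebraMap ℤ (LaurentSeries ℤ) from RingHom.ext_int _ _]

theorem S36HI_exists (a B : Polynomial ℤ) (ha : a.Monic) (hB : B.Monic)
    (hdeg : B.natDegree + 1 = 3 * a.natDegree) (J : PowerSeries ℤ)
    (hJ : PowerSeries.constantCoeff J = 1) :
    ∃ u : PowerSeries ℤ, PowerSeries.constantCoeff u = 1 ∧
      (HahnSeries.single (-1 : ℤ) (1 : ℤ) * HahnSeries.ofPowerSeries ℤ ℤ J) *
        Polynomial.aeval (S36AUX_h u) B = (Polynomial.aeval (S36AUX_h u) a) ^ 3 := by
  classical
  set ah : Polynomial (PowerSeries ℤ) :=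
    (a.map (PowerSeries.C : ℤ →+* PowerSeries ℤ)).scaleRoots PowerSeries.X with hah
  set Bh : Polynomial (PowerSeries ℤ) :=
    (B.map (PowerSeries.C : ℤ →+* PowerSeries ℤ)).scaleRoots PowerSeries.X with hBh
  have hahm : ah.Monic := (Polynomial.monic_scaleRoots_iff _).2 (ha.map _)
  have hBhm : Bh.Monic := (Polynomial.monic_scaleRoots_iff _).2 (hB.map _)
  have hnda : ah.natDegree = a.natDegree := by
    rw [hah, Polynomial.natDegree_scaleRoots, ha.natDegree_map]
  have hndB : Bh.natDegree = B.natDegree := by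
    rw [hBh, Polynomial.natDegree_scaleRoots, hB.natDegree_map]
  set F : Polynomial (PowerSeries ℤ) := ah ^ 3 - Polynomial.C J * Bh with hF
  have hFm : F.Monic := by
    refine Polynomial.Monic.sub_of_left (hahm.pow 3) ?_
    apply Polynomial.degree_lt_degree
    calc (Polynomial.C J * Bh).natDegree ≤ Bh.natDegree := Polynomial.natDegree_C_mul_le _ _
      _ = B.natDegree := hndB
      _ < 3 * a.natDegree := by omega
      _ = (ah ^ 3).natDegree := by rw [hahm.natDegree_pow, hnda]
  have hεF : F.map (PowerSeries.constantCoeff (R := ℤ))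
      = (X : Polynomial ℤ) ^ (3 * a.natDegree) - X ^ B.natDegree := by
    rw [hF, Polynomial.map_sub, Polynomial.map_pow, Polynomial.map_mul, Polynomial.map_C,
      hah, hBh, S36HI_eps_scale a ha, S36HI_eps_scale B hB, hJ, ← pow_mul, map_one, one_mul,
      mul_comm]
  have h1 : F.eval 1 ∈ Ideal.span {(PowerSeries.X : PowerSeries ℤ)} := by
    rw [Ideal.mem_span_singleton, PowerSeries.X_dvd_iff, S36HI_eps_eval, hεF]
    simp
  have h2 : IsUnit (Ideal.Quotient.mk (Ideal.span {(PowerSeries.X : PowerSeries ℤ)})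
      (F.derivative.eval 1)) := by
    apply IsUnit.map
    rw [PowerSeries.isUnit_iff_constantCoeff, S36HI_eps_eval, ← Polynomial.derivative_map, hεF]
    simp only [map_one, Polynomial.derivative_sub, Polynomial.derivative_X_pow,
      Polynomial.eval_sub, Polynomial.eval_mul, Polynomial.eval_pow, Polynomial.eval_X, one_pow,
      mul_one, Polynomial.eval_C]
    have h1' : ((3 * a.natDegree : ℕ) : ℤ) - (B.natDegree : ℤ) = 1 := by
      rw [← hdeg]; push_cast; ring
    rw [h1']
    exact isUnit_one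
  obtain ⟨u, hu, hu1⟩ := HenselianRing.is_henselian F hFm 1 h1 h2
  refine ⟨u, ?_, ?_⟩
  · rw [Ideal.mem_span_singleton, PowerSeries.X_dvd_iff, map_sub, map_one, sub_eq_zero] at hu1
    exact hu1
  · have hroot : (ah.eval u) ^ 3 = J * Bh.eval u := by
      have := hu
      rw [Polynomial.IsRoot, hF, Polynomial.eval_sub, Polynomial.eval_pow, Polynomial.eval_mul,
        Polynomial.eval_C, sub_eq_zero] at this
      exact this
    have h3 := congrArg (HahnSeries.ofPowerSeries ℤ ℤ) hroot
    rw [map_pow, map_mul, hah, hBh, S36HI_phi_scale a ha, S36HI_phi_scale B hB] at h3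
    have hTq := S36HI_TQ
    symm
    calc (Polynomial.aeval (S36AUX_h u)) a ^ 3
        = (HahnSeries.single (-1 : ℤ) (1 : ℤ) * HahnSeries.single (1 : ℤ) (1 : ℤ)) ^ (3 * a.natDegree)
            * (Polynomial.aeval (S36AUX_h u)) a ^ 3 := by rw [hTq, one_pow, one_mul]
      _ = HahnSeries.single (-1 : ℤ) (1 : ℤ) ^ (3 * a.natDegree)
            * (HahnSeries.single (1 : ℤ) (1 : ℤ) ^ a.natDegree
                * (Polynomial.aeval (S36AUX_h u)) a) ^ 3 := by ring
      _ = HahnSeries.single (-1 : ℤ) (1 : ℤ) ^ (3 * a.natDegree)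
            * (HahnSeries.ofPowerSeries ℤ ℤ J * (HahnSeries.single (1 : ℤ) (1 : ℤ) ^ B.natDegree
                * (Polynomial.aeval (S36AUX_h u)) B)) := by rw [h3]
      _ = HahnSeries.single (-1 : ℤ) (1 : ℤ) ^ (B.natDegree + 1)
            * (HahnSeries.ofPowerSeries ℤ ℤ J * (HahnSeries.single (1 : ℤ) (1 : ℤ) ^ B.natDegree
                * (Polynomial.aeval (S36AUX_h u)) B)) := by rw [hdeg]
      _ = HahnSeries.single (-1 : ℤ) (1 : ℤ) * HahnSeries.ofPowerSeries ℤ ℤ J
            * (Polynomial.aeval (S36AUX_h u)) B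
            * (HahnSeries.single (-1 : ℤ) (1 : ℤ) * HahnSeries.single (1 : ℤ) (1 : ℤ)) ^ B.natDegree := by
          ring
      _ = HahnSeries.single (-1 : ℤ) (1 : ℤ) * HahnSeries.ofPowerSeries ℤ ℤ J
            * (Polynomial.aeval (S36AUX_h u)) B := by rw [hTq, one_pow, mul_one]

/-- **(HINV)** the fields `u`, `hu`, `rel` of `S36AUX_Data`, for any monic `a`, `B` with
`deg B + 1 = 3 deg a`. -/
theorem S36HI_rel (a B : Polynomial ℤ) (ha : a.Monic) (hB : B.Monic)
    (hdeg : B.natDegree + 1 = 3 * a.natDegree) :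
    ∃ u : PowerSeries ℤ, PowerSeries.constantCoeff u = 1 ∧
      jqModC ℤ * Polynomial.aeval (S36AUX_h u) B = (Polynomial.aeval (S36AUX_h u) a) ^ 3 := by
  obtain ⟨u, hu, h⟩ := S36HI_exists a B ha hB hdeg (jNum.map (Int.castRingHom ℤ)) (by
    rw [← PowerSeries.coeff_zero_eq_constantCoeff, PowerSeries.coeff_map,
      PowerSeries.coeff_zero_eq_constantCoeff, constantCoeff_jNum]; simp)
  exact ⟨u, hu, h⟩

end Fermat.Agent.S36_helper27_HINV
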