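import Mathlib
import Fermat.Prelude.Def_ModularCurve_X0

/-!
# S36, piece AUX (helper8): truncated arithmetic of the `q`-expansion of `j`

Generic tools to compute `jNum` (the power series `Q · j`) modulo `X ^ N`:

* `S36TR_pi N`   : the quotient map `ℤ⟦X⟧ → ℤ⟦X⟧ ⧸ (X ^ N)`;
* `S36TR_psi N`  : its restriction to polynomials;
* `S36TR_pi_eq_psi` : a power series and a polynomial with the same coefficients below `N` have
  the same image;
* `S36TR_coeff_etaProd` : the coefficients of the Euler product below `N` are those of the finite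
  product `∏_{n < N} (1 - X ^ (n + 1))`;
* `S36TR_jNum` : `jNum ≡ P` modulo `X ^ N` as soon as `P · D ≡ E ^ 3`, where `E`, `D` are the
  truncations of `E₄` and of `η ^ 24`.
-/

set_option autoImplicit false

open PowerSeries ModularCurve

noncomputable section

namespace Fermat.Agent.S36_helper8_TRUNC

/-- the ideal `(X ^ N)` of `ℤ⟦X⟧` -/
def S36TR_I (N : ℕ) : Ideal (PowerSeries ℤ) := Ideal.span {(X : PowerSeries ℤ) ^ N}

/-- reduction modulo `X ^ N` -/
def S36TR_pi (N : ℕ) : PowerSeries ℤ →+* PowerSeries ℤ ⧸ S36TR_I N :=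
  Ideal.Quotient.mk (S36TR_I N)

/-- reduction of polynomials modulo `X ^ N` -/
def S36TR_psi (N : ℕ) : Polynomial ℤ →+* PowerSeries ℤ ⧸ S36TR_I N :=
  (S36TR_pi N).comp Polynomial.coeToPowerSeries.ringHom

theorem S36TR_psi_apply (N : ℕ) (p : Polynomial ℤ) :
    S36TR_psi N p = S36TR_pi N (p : PowerSeries ℤ) := rfl

theorem S36TR_pi_eq_iff (N : ℕ) (f g : PowerSeries ℤ) :
    S36TR_pi N f = S36TR_pi N g ↔ (X : PowerSeries ℤ) ^ N ∣ f - g := by
  rw [S36TR_pi, Ideal.Quotient.eq, S36TR_I, Ideal.mem_span_singleton]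

theorem S36TR_pi_eq_zero_iff (N : ℕ) (f : PowerSeries ℤ) :
    S36TR_pi N f = 0 ↔ (X : PowerSeries ℤ) ^ N ∣ f := by
  rw [S36TR_pi, Ideal.Quotient.eq_zero_iff_mem, S36TR_I, Ideal.mem_span_singleton]

theorem S36TR_pi_eq_of_coeff (N : ℕ) (f g : PowerSeries ℤ)
    (h : ∀ m < N, coeff m f = coeff m g) : S36TR_pi N f = S36TR_pi N g := by
  rw [S36TR_pi_eq_iff, PowerSeries.X_pow_dvd_iff]
  intro m hm
  rw [map_sub, h m hm, sub_self]

theorem S36TR_pi_eq_psi (N : ℕ) (f : PowerSeries ℤ) (p : Polynomial ℤ)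
    (h : ∀ m < N, coeff m f = p.coeff m) : S36TR_pi N f = S36TR_psi N p := by
  rw [S36TR_psi_apply]
  refine S36TR_pi_eq_of_coeff N f _ fun m hm => ?_
  rw [h m hm, Polynomial.coeff_coe]

theorem S36TR_psi_X_pow_mul (N : ℕ) (s : Polynomial ℤ) :
    S36TR_psi N (Polynomial.X ^ N * s) = 0 := by
  rw [S36TR_psi_apply, S36TR_pi_eq_zero_iff, Polynomial.coe_mul, Polynomial.coe_pow,
    Polynomial.coe_X]
  exact Dvd.intro _ rfl

/-- `ψ(t + X^N s) = ψ(t)` -/
theorem S36TR_psi_add_X_pow_mul (N : ℕ) (t s : Polynomial ℤ) :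
    S36TR_psi N (t + Polynomial.X ^ N * s) = S36TR_psi N t := by
  rw [map_add, S36TR_psi_X_pow_mul, add_zero]

/-- coefficient stabilisation for the Euler product -/
theorem S36TR_coeff_etaProd (N m : ℕ) (hm : m < N) :
    coeff m etaProd = coeff m (∏ n ∈ Finset.range N, ((1 : PowerSeries ℤ) - X ^ (n + 1))) := by
  open scoped PowerSeries.WithPiTopology in
  have hB : Filter.Tendsto
      (fun s : Finset ℕ => ∏ n ∈ s, ((1 : PowerSeries ℤ) - PowerSeries.X ^ (n + 1)))
      Filter.atTop (nhds ModularCurve.etaProd) :=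
    (PowerSeries.WithPiTopology.multipliable_one_sub_X_pow ℤ).hasProd
  have hc : Filter.Tendsto (fun s : Finset ℕ =>
      coeff m (∏ n ∈ s, ((1 : PowerSeries ℤ) - PowerSeries.X ^ (n + 1))))
      Filter.atTop (nhds (coeff m etaProd)) :=
    ((PowerSeries.WithPiTopology.continuous_coeff ℤ m).tendsto _).comp hB
  rw [nhds_discrete, Filter.tendsto_pure] at hc
  obtain ⟨s₀, hs₀⟩ := Filter.eventually_atTop.1 hc
  have h1 := hs₀ (s₀ ∪ Finset.range N) Finset.subset_union_left
  rw [← h1]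
  have hsplit : ∏ n ∈ s₀ ∪ Finset.range N, ((1 : PowerSeries ℤ) - X ^ (n + 1)) =
      (∏ n ∈ Finset.range N, ((1 : PowerSeries ℤ) - X ^ (n + 1))) *
        ∏ n ∈ (s₀ ∪ Finset.range N) \ Finset.range N, ((1 : PowerSeries ℤ) - X ^ (n + 1)) := by
    rw [mul_comm]
    exact (Finset.prod_sdiff Finset.subset_union_right).symm
  have htail : (X : PowerSeries ℤ) ^ N ∣
      (∏ n ∈ (s₀ ∪ Finset.range N) \ Finset.range N, ((1 : PowerSeries ℤ) - X ^ (n + 1))) - 1 := by
    refine Finset.prod_induction _ (fun p : PowerSeries ℤ => (X : PowerSeries ℤ) ^ N ∣ p - 1)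
      ?_ ?_ ?_
    · intro a b ha hb
      have : a * b - 1 = (a - 1) * b + (b - 1) := by ring
      rw [this]
      exact dvd_add (Dvd.dvd.mul_right ha b) hb
    · simp
    · intro n hn
      have hnN : N ≤ n := by
        simp only [Finset.mem_sdiff, Finset.mem_range, not_lt] at hn
        exact hn.2
      have : (1 : PowerSeries ℤ) - X ^ (n + 1) - 1 = - (X ^ N * X ^ (n + 1 - N)) := by
        rw [← pow_add, show N + (n + 1 - N) = n + 1 by omega]
        ring
      rw [this]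
      exact (Dvd.intro _ rfl).neg_right
  obtain ⟨w, hw⟩ := htail
  rw [hsplit]
  have : (∏ n ∈ (s₀ ∪ Finset.range N) \ Finset.range N, ((1 : PowerSeries ℤ) - X ^ (n + 1))) =
      1 + X ^ N * w := by rw [← hw]; ring
  rw [this, mul_add, mul_one, map_add]
  have h2 : coeff m ((∏ n ∈ Finset.range N, ((1 : PowerSeries ℤ) - X ^ (n + 1))) *
      (X ^ N * w)) = 0 := by
    have : (∏ n ∈ Finset.range N, ((1 : PowerSeries ℤ) - X ^ (n + 1))) * (X ^ N * w) =
        X ^ N * ((∏ n ∈ Finset.range N, ((1 : PowerSeries ℤ) - X ^ (n + 1))) * w) := by ring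
    rw [this, PowerSeries.coeff_X_pow_mul']
    simp [Nat.not_le.2 hm]
  rw [h2, add_zero]

/-- the Euler product modulo `X ^ N` -/
theorem S36TR_pi_etaProd (N : ℕ) :
    S36TR_pi N etaProd =
      S36TR_psi N (∏ n ∈ Finset.range N, ((1 : Polynomial ℤ) - Polynomial.X ^ (n + 1))) := by
  rw [S36TR_psi_apply]
  refine S36TR_pi_eq_of_coeff N _ _ fun m hm => ?_
  rw [S36TR_coeff_etaProd N m hm]
  congr 1
  rw [← Polynomial.coeToPowerSeries.ringHom_apply, map_prod]
  refine Finset.prod_congr rfl fun n _ => ?_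
  simp

/-- `jNum · η^24 = E₄^3` -/
theorem S36TR_jNum_mul : jNum * dedekindEtaUnit = eisenstein4 ^ 3 := by
  rw [jNum, mul_assoc, mul_comm dedekindEtaUnitInv, dedekindEtaUnit_mul_inv, mul_one]

/-- **`jNum` modulo `X ^ N`** from the truncations `E` of `E₄`, `e` of the Euler product, `D` of
`e ^ 24` and a polynomial `P` with `P · D ≡ E ^ 3`. -/
theorem S36TR_jNum (N : ℕ) (E e D P : Polynomial ℤ)
    (hE : S36TR_pi N eisenstein4 = S36TR_psi N E)
    (he : S36TR_pi N etaProd = S36TR_psi N e)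
    (hD : S36TR_psi N e ^ 24 = S36TR_psi N D)
    (hP : S36TR_psi N P * S36TR_psi N D = S36TR_psi N E ^ 3) :
    S36TR_pi N jNum = S36TR_psi N P := by
  have h1 : S36TR_pi N jNum * S36TR_pi N dedekindEtaUnit = S36TR_psi N E ^ 3 := by
    rw [← map_mul, S36TR_jNum_mul, map_pow, hE]
  have h2 : S36TR_pi N dedekindEtaUnit = S36TR_psi N D := by
    rw [dedekindEtaUnit, map_pow, he, hD]
  have h3 : S36TR_pi N dedekindEtaUnit * S36TR_pi N dedekindEtaUnitInv = 1 := by
    rw [← map_mul, dedekindEtaUnit_mul_inv, map_one]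
  calc S36TR_pi N jNum
      = S36TR_pi N jNum * (S36TR_pi N dedekindEtaUnit * S36TR_pi N dedekindEtaUnitInv) := by
        rw [h3, mul_one]
    _ = (S36TR_pi N jNum * S36TR_pi N dedekindEtaUnit) * S36TR_pi N dedekindEtaUnitInv := by
        ring
    _ = (S36TR_psi N P * S36TR_psi N D) * S36TR_pi N dedekindEtaUnitInv := by rw [h1, hP]
    _ = S36TR_psi N P * (S36TR_pi N dedekindEtaUnit * S36TR_pi N dedekindEtaUnitInv) := by
        rw [← h2]; ring
    _ = S36TR_psi N P := by rw [h3, mul_one]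

/-- from the congruence to an explicit remainder -/
theorem S36TR_exists_rem (N : ℕ) (f : PowerSeries ℤ) (P : Polynomial ℤ)
    (h : S36TR_pi N f = S36TR_psi N P) :
    ∃ r : PowerSeries ℤ, f = (P : PowerSeries ℤ) + X ^ N * r := by
  rw [S36TR_psi_apply, S36TR_pi_eq_iff] at h
  obtain ⟨r, hr⟩ := h
  exact ⟨r, by rw [← hr]; ring⟩

end Fermat.Agent.S36_helper8_TRUNC
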