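import Mathlib
import Fermat.Agent.S36_helper8_TRUNC

/-!
# S36, piece AUX (helper8): `jNum` modulo `X ^ 7` (generated)

`S36JT7_main : ∃ r, jNum = P + X ^ 7 * r` with the explicit polynomial `P = S36JT7_P`
(the first 7 coefficients of `Q · j`).  Every step is a polynomial identity checked by `ring`.
-/

set_option autoImplicit false
set_option maxHeartbeats 4000000
set_option maxRecDepth 100000

open PowerSeries ModularCurve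
open Fermat.Agent.S36_helper8_TRUNC

noncomputable section

namespace Fermat.Agent.S36_helper8_JT7

local notation "Y" => (Polynomial.X : Polynomial ℤ)

/-- `E₄` modulo `X ^ 7` -/
def S36JT7_E : Polynomial ℤ := 1 + 240 * Y + 2160 * Y ^ 2 + 6720 * Y ^ 3 + 17520 * Y ^ 4 + 30240 * Y ^ 5 + 60480 * Y ^ 6

/-- the Euler product modulo `X ^ 7` -/
def S36JT7_e : Polynomial ℤ := 1 - Y - Y ^ 2 + Y ^ 5

/-- `η ^ 24 / Q` modulo `X ^ 7` -/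
def S36JT7_D : Polynomial ℤ := 1 - 24 * Y + 252 * Y ^ 2 - 1472 * Y ^ 3 + 4830 * Y ^ 4 - 6048 * Y ^ 5 - 16744 * Y ^ 6

/-- `Q · j` modulo `X ^ 7` -/
def S36JT7_P : Polynomial ℤ := 1 + 744 * Y + 196884 * Y ^ 2 + 21493760 * Y ^ 3 + 864299970 * Y ^ 4 + 20245856256 * Y ^ 5 + 333202640600 * Y ^ 6

theorem S36JT7_hE : S36TR_pi 7 eisenstein4 = S36TR_psi 7 S36JT7_E := by
  refine S36TR_pi_eq_psi 7 _ _ fun m hm => ?_
  rw [S36JT7_E]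
  interval_cases m <;>
    simp [eisenstein4, coeff_mk, Polynomial.coeff_X, Polynomial.coeff_one] <;> decide

theorem S36JT7_prod : ∏ n ∈ Finset.range 7, ((1 : Polynomial ℤ) - Y ^ (n + 1)) =
    S36JT7_e + Y ^ 7 * (1 + Y - Y ^ 3 - Y ^ 4 - 2 * Y ^ 5 + 2 * Y ^ 9 + Y ^ 10 + Y ^ 11 - Y ^ 13 - Y ^ 14 - Y ^ 16 + Y ^ 19 + Y ^ 20 - Y ^ 21) := by
  simp only [Finset.prod_range_succ, Finset.prod_range_zero, S36JT7_e]
  ring

theorem S36JT7_he : S36TR_pi 7 etaProd = S36TR_psi 7 S36JT7_e := by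
  rw [S36TR_pi_etaProd, S36JT7_prod, S36TR_psi_add_X_pow_mul]

/-- truncated product (generated) -/
def S36JT7_t2 : Polynomial ℤ := 1 - 2 * Y - Y ^ 2 + 2 * Y ^ 3 + Y ^ 4 + 2 * Y ^ 5 - 2 * Y ^ 6

theorem S36JT7_t2_eq : S36JT7_e * S36JT7_e = S36JT7_t2 + Y ^ 7 * (-2 + Y ^ 3) := by
  simp only [S36JT7_e, S36JT7_e, S36JT7_t2]
  ring

theorem S36JT7_t2_psi : S36TR_psi 7 S36JT7_e * S36TR_psi 7 S36JT7_e = S36TR_psi 7 S36JT7_t2 := by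
  rw [← map_mul, S36JT7_t2_eq, S36TR_psi_add_X_pow_mul]

/-- truncated product (generated) -/
def S36JT7_t3 : Polynomial ℤ := 1 - 3 * Y + 5 * Y ^ 3 - 7 * Y ^ 6

theorem S36JT7_t3_eq : S36JT7_t2 * S36JT7_e = S36JT7_t3 + Y ^ 7 * (-1 + 4 * Y + Y ^ 2 + 2 * Y ^ 3 - 2 * Y ^ 4) := by
  simp only [S36JT7_t2, S36JT7_e, S36JT7_t3]
  ring

theorem S36JT7_t3_psi : S36TR_psi 7 S36JT7_t2 * S36TR_psi 7 S36JT7_e = S36TR_psi 7 S36JT7_t3 := by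
  rw [← map_mul, S36JT7_t3_eq, S36TR_psi_add_X_pow_mul]

/-- truncated product (generated) -/
def S36JT7_t6 : Polynomial ℤ := 1 - 6 * Y + 9 * Y ^ 2 + 10 * Y ^ 3 - 30 * Y ^ 4 + 11 * Y ^ 6

theorem S36JT7_t6_eq : S36JT7_t3 * S36JT7_t3 = S36JT7_t6 + Y ^ 7 * (42 - 70 * Y ^ 2 + 49 * Y ^ 5) := by
  simp only [S36JT7_t3, S36JT7_t3, S36JT7_t6]
  ring

theorem S36JT7_t6_psi : S36TR_psi 7 S36JT7_t3 * S36TR_psi 7 S36JT7_t3 = S36TR_psi 7 S36JT7_t6 := by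
  rw [← map_mul, S36JT7_t6_eq, S36TR_psi_add_X_pow_mul]

/-- truncated product (generated) -/
def S36JT7_t12 : Polynomial ℤ := 1 - 12 * Y + 54 * Y ^ 2 - 88 * Y ^ 3 - 99 * Y ^ 4 + 540 * Y ^ 5 - 418 * Y ^ 6

theorem S36JT7_t12_eq : S36JT7_t6 * S36JT7_t6 = S36JT7_t12 + Y ^ 7 * (-732 + 1098 * Y + 220 * Y ^ 2 - 660 * Y ^ 3 + 121 * Y ^ 5) := by
  simp only [S36JT7_t6, S36JT7_t6, S36JT7_t12]
  ring

theorem S36JT7_t12_psi : S36TR_psi 7 S36JT7_t6 * S36TR_psi 7 S36JT7_t6 = S36TR_psi 7 S36JT7_t12 := by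
  rw [← map_mul, S36JT7_t12_eq, S36TR_psi_add_X_pow_mul]

/-- truncated product (generated) -/
def S36JT7_t24 : Polynomial ℤ := 1 - 24 * Y + 252 * Y ^ 2 - 1472 * Y ^ 3 + 4830 * Y ^ 4 - 6048 * Y ^ 5 - 16744 * Y ^ 6

theorem S36JT7_t24_eq : S36JT7_t12 * S36JT7_t12 = S36JT7_t24 + Y ^ 7 * (85776 - 130383 * Y - 33352 * Y ^ 2 + 374364 * Y ^ 3 - 451440 * Y ^ 4 + 174724 * Y ^ 5) := by
  simp only [S36JT7_t12, S36JT7_t12, S36JT7_t24]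
  ring

theorem S36JT7_t24_psi : S36TR_psi 7 S36JT7_t12 * S36TR_psi 7 S36JT7_t12 = S36TR_psi 7 S36JT7_t24 := by
  rw [← map_mul, S36JT7_t24_eq, S36TR_psi_add_X_pow_mul]

theorem S36JT7_t24_eq_D : S36JT7_t24 = S36JT7_D := rfl

theorem S36JT7_hD : S36TR_psi 7 S36JT7_e ^ 24 = S36TR_psi 7 S36JT7_D := by
  have h2 := S36JT7_t2_psi
  have h3 := S36JT7_t3_psi
  have h6 := S36JT7_t6_psi
  have h12 := S36JT7_t12_psi
  have h24 := S36JT7_t24_psi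
  rw [← S36JT7_t24_eq_D, ← h24, ← h12, ← h6, ← h3, ← h2]
  ring

/-- truncated product (generated) -/
def S36JT7_E2 : Polynomial ℤ := 1 + 480 * Y + 61920 * Y ^ 2 + 1050240 * Y ^ 3 + 7926240 * Y ^ 4 + 37500480 * Y ^ 5 + 135480960 * Y ^ 6

theorem S36JT7_E2_eq : S36JT7_E * S36JT7_E = S36JT7_E2 + Y ^ 7 * (395136000 + 974649600 * Y + 1872460800 * Y ^ 2 + 3033676800 * Y ^ 3 + 3657830400 * Y ^ 4 + 3657830400 * Y ^ 5) := by
  simp only [S36JT7_E, S36JT7_E, S36JT7_E2]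
  ring

theorem S36JT7_E2_psi : S36TR_psi 7 S36JT7_E * S36TR_psi 7 S36JT7_E = S36TR_psi 7 S36JT7_E2 := by
  rw [← map_mul, S36JT7_E2_eq, S36TR_psi_add_X_pow_mul]

/-- truncated product (generated) -/
def S36JT7_E3 : Polynomial ℤ := 1 + 720 * Y + 179280 * Y ^ 2 + 16954560 * Y ^ 3 + 396974160 * Y ^ 4 + 4632858720 * Y ^ 5 + 34413301440 * Y ^ 6

theorem S36JT7_E3_eq : S36JT7_E2 * S36JT7_E = S36JT7_E3 + Y ^ 7 * (187082496000 + 719014003200 * Y + 1870648473600 * Y ^ 2 + 3987019929600 * Y ^ 3 + 6364973260800 * Y ^ 4 + 8193888460800 * Y ^ 5) := by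
  simp only [S36JT7_E2, S36JT7_E, S36JT7_E3]
  ring

theorem S36JT7_E3_psi : S36TR_psi 7 S36JT7_E2 * S36TR_psi 7 S36JT7_E = S36TR_psi 7 S36JT7_E3 := by
  rw [← map_mul, S36JT7_E3_eq, S36TR_psi_add_X_pow_mul]

/-- truncated product (generated) -/
def S36JT7_PD : Polynomial ℤ := 1 + 720 * Y + 179280 * Y ^ 2 + 16954560 * Y ^ 3 + 396974160 * Y ^ 4 + 4632858720 * Y ^ 5 + 34413301440 * Y ^ 6

theorem S36JT7_PD_eq : S36JT7_P * S36JT7_D = S36JT7_PD + Y ^ 7 * (-4064545504896 + 58206442991292 * Y - 398273978982720 * Y ^ 2 + 1472449976764032 * Y ^ 3 - 2354206187499264 * Y ^ 4 - 5579145014206400 * Y ^ 5) := by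
  simp only [S36JT7_P, S36JT7_D, S36JT7_PD]
  ring

theorem S36JT7_PD_psi : S36TR_psi 7 S36JT7_P * S36TR_psi 7 S36JT7_D = S36TR_psi 7 S36JT7_PD := by
  rw [← map_mul, S36JT7_PD_eq, S36TR_psi_add_X_pow_mul]

theorem S36JT7_PD_eq_E3 : S36JT7_PD = S36JT7_E3 := rfl

theorem S36JT7_hP : S36TR_psi 7 S36JT7_P * S36TR_psi 7 S36JT7_D = S36TR_psi 7 S36JT7_E ^ 3 := by
  rw [S36JT7_PD_psi, S36JT7_PD_eq_E3, ← S36JT7_E3_psi, ← S36JT7_E2_psi]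
  ring

/-- **`jNum ≡ P` modulo `X ^ 7`** -/
theorem S36JT7_pi : S36TR_pi 7 jNum = S36TR_psi 7 S36JT7_P :=
  S36TR_jNum 7 S36JT7_E S36JT7_e S36JT7_D S36JT7_P S36JT7_hE S36JT7_he S36JT7_hD S36JT7_hP

/-- **`jNum = P + X ^ 7 · r`** -/
theorem S36JT7_main : ∃ r : PowerSeries ℤ, jNum = (S36JT7_P : PowerSeries ℤ) + X ^ 7 * r :=
  S36TR_exists_rem 7 jNum S36JT7_P S36JT7_pi

end Fermat.Agent.S36_helper8_JT7
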