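import Mathlib
import Fermat.Prelude.Def_ModularCurve_JqCoeff

/-!
# S36, piece AUX (helper8): Laurent series as `Q⁻ᵏ ·` power series, and the operator `V_ℓ`

* `S36PH_Qi K`, `S36PH_io K` : `Q⁻¹` and the inclusion `K⟦X⟧ → K((Q))`;
* `S36PH_V K ℓ`              : the ring endomorphism `f(X) ↦ f(X^ℓ)` of `K⟦X⟧`, characterised by
  `io (V f) = qExpand ℓ (io f)`;
* `S36PH_term`               : `(Q⁻¹ A)^k (Q⁻ˡ B)^i Q^M = A^k B^i Q^(M - k - ℓ i)`.
-/

set_option autoImplicit false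

open PowerSeries ModularCurve

noncomputable section

namespace Fermat.Agent.S36_helper8_PHIa

variable (K : Type*) [CommRing K]

/-- `Q⁻¹` -/
def S36PH_Qi : LaurentSeries K := HahnSeries.single (-1 : ℤ) 1

/-- the inclusion of power series into Laurent series -/
def S36PH_io : PowerSeries K →+* LaurentSeries K := HahnSeries.ofPowerSeries ℤ K

theorem S36PH_io_injective : Function.Injective (S36PH_io K) :=
  HahnSeries.ofPowerSeries_injective

theorem S36PH_io_X : S36PH_io K X = HahnSeries.single (1 : ℤ) 1 :=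
  HahnSeries.ofPowerSeries_X

theorem S36PH_Qi_mul_X : S36PH_Qi K * S36PH_io K X = 1 := by
  rw [S36PH_io_X, S36PH_Qi, HahnSeries.single_mul_single]
  simp

theorem S36PH_Qi_pow_mul_X_pow (n : ℕ) : S36PH_Qi K ^ n * S36PH_io K X ^ n = 1 := by
  rw [← mul_pow, S36PH_Qi_mul_X, one_pow]

theorem S36PH_io_coeff_neg (f : PowerSeries K) {k : ℤ} (hk : k < 0) :
    (S36PH_io K f).coeff k = 0 :=
  ofPowerSeries_coeff_of_neg f hk

theorem S36PH_io_coeff_nat (f : PowerSeries K) (n : ℕ) :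
    (S36PH_io K f).coeff (n : ℤ) = PowerSeries.coeff n f :=
  HahnSeries.ofPowerSeries_apply_coeff f n

/-- `qExpand` preserves power series -/
theorem S36PH_exists_V (ℓ : ℕ) [NeZero ℓ] (f : PowerSeries K) :
    ∃ g : PowerSeries K, S36PH_io K g = qExpand K ℓ (S36PH_io K f) := by
  classical
  refine ⟨PowerSeries.mk fun n => if ℓ ∣ n then PowerSeries.coeff (n / ℓ) f else 0, ?_⟩
  have hℓ : 0 < ℓ := Nat.pos_of_ne_zero (NeZero.ne ℓ)
  ext k
  rcases lt_or_ge k 0 with hk | hk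
  · rw [S36PH_io_coeff_neg K _ hk]
    by_cases hd : (ℓ : ℤ) ∣ k
    · obtain ⟨m, rfl⟩ := hd
      rw [qExpand_coeff_mul]
      have hm : m < 0 := by
        by_contra h
        push Not at h
        have : (0 : ℤ) ≤ (ℓ : ℤ) * m := mul_nonneg (by exact_mod_cast hℓ.le) h
        omega
      rw [S36PH_io_coeff_neg K _ hm]
    · rw [qExpand_coeff_of_not_dvd ℓ _ hd]
  · lift k to ℕ using hk
    rw [S36PH_io_coeff_nat, PowerSeries.coeff_mk]
    by_cases hd : ℓ ∣ k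
    · rw [if_pos hd]
      obtain ⟨m, rfl⟩ := hd
      rw [Nat.mul_div_cancel_left m hℓ]
      have : ((ℓ * m : ℕ) : ℤ) = (ℓ : ℤ) * (m : ℤ) := by push_cast; ring
      rw [this, qExpand_coeff_mul, S36PH_io_coeff_nat]
    · rw [if_neg hd, qExpand_coeff_of_not_dvd]
      intro h
      exact hd (by exact_mod_cast h)

/-- the substitution `X ↦ X ^ ℓ` on power series, as a function -/
def S36PH_Vfun (ℓ : ℕ) [NeZero ℓ] (f : PowerSeries K) : PowerSeries K :=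
  (S36PH_exists_V K ℓ f).choose

theorem S36PH_io_Vfun (ℓ : ℕ) [NeZero ℓ] (f : PowerSeries K) :
    S36PH_io K (S36PH_Vfun K ℓ f) = qExpand K ℓ (S36PH_io K f) :=
  (S36PH_exists_V K ℓ f).choose_spec

/-- the substitution `X ↦ X ^ ℓ` on power series, as a ring homomorphism -/
def S36PH_V (ℓ : ℕ) [NeZero ℓ] : PowerSeries K →+* PowerSeries K where
  toFun := S36PH_Vfun K ℓ
  map_one' := by
    apply S36PH_io_injective K
    rw [S36PH_io_Vfun]
    simp
  map_mul' f g := by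
    apply S36PH_io_injective K
    rw [S36PH_io_Vfun, map_mul, map_mul, map_mul, S36PH_io_Vfun, S36PH_io_Vfun]
  map_zero' := by
    apply S36PH_io_injective K
    rw [S36PH_io_Vfun]
    simp
  map_add' f g := by
    apply S36PH_io_injective K
    rw [S36PH_io_Vfun, map_add, map_add, map_add, S36PH_io_Vfun, S36PH_io_Vfun]

theorem S36PH_io_V (ℓ : ℕ) [NeZero ℓ] (f : PowerSeries K) :
    S36PH_io K (S36PH_V K ℓ f) = qExpand K ℓ (S36PH_io K f) :=
  S36PH_io_Vfun K ℓ f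

theorem S36PH_V_X (ℓ : ℕ) [NeZero ℓ] : S36PH_V K ℓ X = X ^ ℓ := by
  apply S36PH_io_injective K
  rw [S36PH_io_V, S36PH_io_X, qExpand_single, map_pow, S36PH_io_X, HahnSeries.single_pow]
  simp

theorem S36PH_V_coeff_mul (ℓ : ℕ) [NeZero ℓ] (f : PowerSeries K) (m : ℕ) :
    PowerSeries.coeff (ℓ * m) (S36PH_V K ℓ f) = PowerSeries.coeff m f := by
  rw [← S36PH_io_coeff_nat, S36PH_io_V]
  have : ((ℓ * m : ℕ) : ℤ) = (ℓ : ℤ) * (m : ℤ) := by push_cast; ring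
  rw [this, qExpand_coeff_mul, S36PH_io_coeff_nat]

theorem S36PH_V_constantCoeff (ℓ : ℕ) [NeZero ℓ] (f : PowerSeries K) :
    PowerSeries.constantCoeff (S36PH_V K ℓ f) = PowerSeries.constantCoeff f := by
  have h := S36PH_V_coeff_mul K ℓ f 0
  rwa [mul_zero, PowerSeries.coeff_zero_eq_constantCoeff_apply,
    PowerSeries.coeff_zero_eq_constantCoeff_apply] at h

theorem S36PH_qExpand_Qi (ℓ : ℕ) [NeZero ℓ] :
    qExpand K ℓ (S36PH_Qi K) = S36PH_Qi K ^ ℓ := by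
  rw [S36PH_Qi, qExpand_single, HahnSeries.single_pow]
  simp

/-- `(Q⁻¹ A)^k (Q⁻ˡ B)^i Q^M = A^k B^i Q^(M - (k + ℓ i))` -/
theorem S36PH_term (A B : LaurentSeries K) (ℓ k i M : ℕ) (h : k + ℓ * i ≤ M) :
    (S36PH_Qi K * A) ^ k * (S36PH_Qi K ^ ℓ * B) ^ i * S36PH_io K X ^ M =
      A ^ k * B ^ i * S36PH_io K X ^ (M - (k + ℓ * i)) := by
  have h1 : S36PH_io K X ^ M =
      S36PH_io K X ^ (k + ℓ * i) * S36PH_io K X ^ (M - (k + ℓ * i)) := by
    rw [← pow_add, Nat.add_sub_cancel' h]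
  have h2 : (S36PH_Qi K * A) ^ k * (S36PH_Qi K ^ ℓ * B) ^ i =
      S36PH_Qi K ^ (k + ℓ * i) * (A ^ k * B ^ i) := by
    rw [mul_pow, mul_pow, ← pow_mul, pow_add]
    ring
  rw [h1, h2]
  have h3 := S36PH_Qi_pow_mul_X_pow K (k + ℓ * i)
  calc S36PH_Qi K ^ (k + ℓ * i) * (A ^ k * B ^ i) *
        (S36PH_io K X ^ (k + ℓ * i) * S36PH_io K X ^ (M - (k + ℓ * i)))
      = (S36PH_Qi K ^ (k + ℓ * i) * S36PH_io K X ^ (k + ℓ * i)) *
          (A ^ k * B ^ i * S36PH_io K X ^ (M - (k + ℓ * i))) := by ring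
    _ = A ^ k * B ^ i * S36PH_io K X ^ (M - (k + ℓ * i)) := by rw [h3, one_mul]

/-- `j = Q⁻¹ · jNum` -/
theorem S36PH_j : jqModC K = S36PH_Qi K * S36PH_io K (jNum.map (Int.castRingHom K)) := rfl

/-- `j(Q^ℓ) = Q⁻ˡ · V_ℓ(jNum)` -/
theorem S36PH_Vj (ℓ : ℕ) [NeZero ℓ] :
    qExpand K ℓ (jqModC K) =
      S36PH_Qi K ^ ℓ * S36PH_io K (S36PH_V K ℓ (jNum.map (Int.castRingHom K))) := by
  rw [S36PH_j, map_mul, S36PH_qExpand_Qi, S36PH_io_V]

theorem S36PH_jNum_map_int : jNum.map (Int.castRingHom ℤ) = jNum := by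
  ext n
  simp

theorem S36PH_X_mul_Qi : S36PH_io K X * S36PH_Qi K = 1 := by
  rw [mul_comm, S36PH_Qi_mul_X]

/-- `Q · j = jNum` -/
theorem S36PH_X_mul_j :
    S36PH_io K X * jqModC K = S36PH_io K (jNum.map (Int.castRingHom K)) := by
  rw [S36PH_j, ← mul_assoc, S36PH_X_mul_Qi, one_mul]

/-- `Q^ℓ · j(Q^ℓ) = V_ℓ jNum` -/
theorem S36PH_X_pow_mul_Vj (ℓ : ℕ) [NeZero ℓ] :
    S36PH_io K X ^ ℓ * qExpand K ℓ (jqModC K) =
      S36PH_io K (S36PH_V K ℓ (jNum.map (Int.castRingHom K))) := by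
  rw [S36PH_Vj, ← mul_assoc, ← mul_pow, S36PH_X_mul_Qi, one_pow, one_mul]

theorem S36PH_V_C (ℓ : ℕ) [NeZero ℓ] (a : K) :
    S36PH_V K ℓ (PowerSeries.C a) = PowerSeries.C a := by
  apply S36PH_io_injective K
  rw [S36PH_io_V]
  have h : S36PH_io K (PowerSeries.C a) = HahnSeries.C a := HahnSeries.ofPowerSeries_C a
  rw [h, qExpand_C]

/-- `V_ℓ` on polynomials is the substitution `X ↦ X ^ ℓ` -/
theorem S36PH_V_coe (ℓ : ℕ) [NeZero ℓ] (p : Polynomial K) :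
    S36PH_V K ℓ (p : PowerSeries K) =
      ((p.comp (Polynomial.X ^ ℓ) : Polynomial K) : PowerSeries K) := by
  have h : (S36PH_V K ℓ).comp Polynomial.coeToPowerSeries.ringHom =
      (Polynomial.coeToPowerSeries.ringHom (R := K)).comp
        (Polynomial.compRingHom (Polynomial.X ^ ℓ)) := by
    refine Polynomial.ringHom_ext (fun a => ?_) ?_
    · simp [S36PH_V_C]
    · simp [S36PH_V_X]
  exact congrArg (fun f => f p) h

/-- `V_ℓ (P + X^N r) = P(X^ℓ) + X^(ℓ N) V_ℓ r` -/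
theorem S36PH_V_trunc (ℓ : ℕ) [NeZero ℓ] (f r : PowerSeries K) (P : Polynomial K) (N : ℕ)
    (h : f = (P : PowerSeries K) + X ^ N * r) :
    S36PH_V K ℓ f = ((P.comp (Polynomial.X ^ ℓ) : Polynomial K) : PowerSeries K) +
      X ^ (ℓ * N) * S36PH_V K ℓ r := by
  rw [h, map_add, map_mul, map_pow, S36PH_V_X, S36PH_V_coe, ← pow_mul]

end Fermat.Agent.S36_helper8_PHIa
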