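import Mathlib
import Fermat.Agent.S34_helper8_MODEQ
import Fermat.Agent.S36_helper8_PHIa
import Fermat.Agent.S36_helper8_JT7

/-!
# S36, piece AUX (helper8): the classical modular polynomial `Φ₂` vanishes at `(j, j(Q²))`

`S36A4_phi2 : S36A4_Phi2 (jqModC ℤ) (qExpand ℤ 2 (jqModC ℤ)) = 0` in `LaurentSeries ℤ`.

Route: the landed modular equation `S34ME_exists 2` gives integer polynomials `a₀, a₁, a₂` with
both relations; multiplying by `Q⁶` and reducing modulo `Q⁷` (explicit `jNum mod X⁷`, landed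
`S36JT7_pi`) the fourteen lowest coefficients of the two relations determine the nine unknown
coefficients (triangular system with unit pivots).  Generated, every identity checked by `ring`.
-/

set_option autoImplicit false
set_option maxHeartbeats 4000000
set_option maxRecDepth 100000

open ModularCurve
open Fermat.Agent.S36_helper8_TRUNC Fermat.Agent.S36_helper8_PHIa Fermat.Agent.S36_helper8_JT7
open Fermat.Agent.S34_helper8_MODEQ

noncomputable section

namespace Fermat.Agent.S36_helper8_PHI2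

local notation "Y" => (Polynomial.X : Polynomial ℤ)
local notation "Z" => (PowerSeries.X : PowerSeries ℤ)

/-- the classical modular polynomial of level `2` -/
def S36A4_Phi2 {R : Type*} [CommRing R] (x y : R) : R :=
  x ^ 3 + y ^ 3 - x ^ 2 * y ^ 2 + 1488 * (x ^ 2 * y + x * y ^ 2) - 162000 * (x ^ 2 + y ^ 2)
    + 40773375 * (x * y) + 8748000000 * (x + y) - 157464000000000

theorem S36P2_quad (p : Polynomial ℤ) (h : p.natDegree ≤ 2) (x : LaurentSeries ℤ) :
    Polynomial.aeval x p = ((p.coeff 2 : ℤ) : LaurentSeries ℤ) * x ^ 2 +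
      ((p.coeff 1 : ℤ) : LaurentSeries ℤ) * x + ((p.coeff 0 : ℤ) : LaurentSeries ℤ) := by
  rw [Polynomial.aeval_eq_sum_range' (n := 3) (by omega)]
  simp only [Finset.sum_range_succ, Finset.sum_range_zero, Algebra.smul_def, eq_intCast,
    pow_zero, pow_one, mul_one, zero_add]
  ring

theorem S36P2_cubic (p : Polynomial ℤ) (hm : p.Monic) (h : p.natDegree = 3)
    (x : LaurentSeries ℤ) :
    Polynomial.aeval x p = x ^ 3 + ((p.coeff 2 : ℤ) : LaurentSeries ℤ) * x ^ 2 +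
      ((p.coeff 1 : ℤ) : LaurentSeries ℤ) * x + ((p.coeff 0 : ℤ) : LaurentSeries ℤ) := by
  have h3 : p.coeff 3 = 1 := by
    have := hm.coeff_natDegree
    rwa [h] at this
  rw [Polynomial.aeval_eq_sum_range' (n := 4) (by omega)]
  simp only [Finset.sum_range_succ, Finset.sum_range_zero, Algebra.smul_def, eq_intCast,
    pow_zero, pow_one, mul_one, zero_add, h3, Int.cast_one, one_mul]
  ring

/-- coefficient extraction modulo `X ^ 7` -/
theorem S36P2_tr7 (l0 l1 l2 l3 l4 l5 l6 : ℤ) (H : Polynomial ℤ)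
    (h : S36TR_psi 7 ((l0 : Polynomial ℤ) + (l1 : Polynomial ℤ) * Y + (l2 : Polynomial ℤ) * Y ^ 2
      + (l3 : Polynomial ℤ) * Y ^ 3 + (l4 : Polynomial ℤ) * Y ^ 4 + (l5 : Polynomial ℤ) * Y ^ 5
      + (l6 : Polynomial ℤ) * Y ^ 6 + Y ^ 7 * H) = 0) :
    l0 = 0 ∧ l1 = 0 ∧ l2 = 0 ∧ l3 = 0 ∧ l4 = 0 ∧ l5 = 0 ∧ l6 = 0 := by
  rw [S36TR_psi_add_X_pow_mul, S36TR_psi_apply, S36TR_pi_eq_zero_iff,
    PowerSeries.X_pow_dvd_iff] at h
  have e : ∀ l : ℤ, ((l : ℤ) : Polynomial ℤ) = Polynomial.C l := fun l =>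
    (eq_intCast (Polynomial.C : ℤ →+* Polynomial ℤ) l).symm
  simp only [e, Polynomial.coeff_coe] at h
  have h0 := h 0 (by norm_num)
  have h1 := h 1 (by norm_num)
  have h2 := h 2 (by norm_num)
  have h3 := h 3 (by norm_num)
  have h4 := h 4 (by norm_num)
  have h5 := h 5 (by norm_num)
  have h6 := h 6 (by norm_num)
  simp [-eq_intCast, Polynomial.coeff_C, Polynomial.coeff_X, Polynomial.coeff_X_pow,
    Polynomial.coeff_C_mul] at h0 h1 h2 h3 h4 h5 h6
  exact ⟨h0, h1, h2, h3, h4, h5, h6⟩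

/-- `V₂ jNum` modulo `X ^ 7` -/
def S36P2_PB : Polynomial ℤ := 1 + 744 * Y ^ 2 + 196884 * Y ^ 4 + 21493760 * Y ^ 6

theorem S36P2_comp : S36JT7_P.comp (Y ^ 2) =
    S36P2_PB + Y ^ 7 * (864299970 * Y + 20245856256 * Y ^ 3 + 333202640600 * Y ^ 5) := by
  simp only [S36JT7_P, S36P2_PB, Polynomial.add_comp, Polynomial.mul_comp, Polynomial.pow_comp,
    Polynomial.X_comp, Polynomial.ofNat_comp, Polynomial.one_comp]
  ring

theorem S36P2_piB : S36TR_pi 7 (S36PH_V ℤ 2 jNum) = S36TR_psi 7 S36P2_PB := by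
  obtain ⟨r, hr⟩ := S36JT7_main
  rw [S36PH_V_trunc ℤ 2 jNum r S36JT7_P 7 hr, map_add, ← S36TR_psi_apply, S36P2_comp,
    S36TR_psi_add_X_pow_mul]
  have h0 : S36TR_pi 7 (Z ^ (2 * 7) * S36PH_V ℤ 2 r) = 0 := by
    rw [S36TR_pi_eq_zero_iff]
    exact Dvd.intro (Z ^ 7 * S36PH_V ℤ 2 r) (by ring)
  rw [h0, add_zero]

/-- the expansion of the relation modulo `X ^ 7` (generated) -/
theorem S36P2_keyS (c00 c01 c02 c10 c11 c12 c20 c21 c22 : ℤ) :
    S36P2_PB ^ 3 + ((c22 : Polynomial ℤ) * S36JT7_P ^ 2 + (c21 : Polynomial ℤ) * S36JT7_P * Y + (c20 : Polynomial ℤ) * Y ^ 2) * S36P2_PB ^ 2 + ((c12 : Polynomial ℤ) * S36JT7_P ^ 2 + (c11 : Polynomial ℤ) * S36JT7_P * Y + (c10 : Polynomial ℤ) * Y ^ 2) * S36P2_PB * Y ^ 2 + (S36JT7_P ^ 3 * Y ^ 3 + (c02 : Polynomial ℤ) * S36JT7_P ^ 2 * Y ^ 4 + (c01 : Polynomial ℤ) * S36JT7_P * Y ^ 5 + (c00 : Polynomial ℤ) * Y ^ 6) =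
      ((1 + c22 : ℤ) : Polynomial ℤ)
      + ((c21 + 1488 * c22 : ℤ) : Polynomial ℤ) * Y
      + ((2232 + c12 + c20 + 744 * c21 + 948792 * c22 : ℤ) : Polynomial ℤ) * Y ^ 2
      + ((1 + c11 + 1488 * c12 + 198372 * c21 + 338165056 * c22 : ℤ) : Polynomial ℤ) * Y ^ 3
      + ((2253492 + c02 + c10 + 744 * c11 + 948048 * c12 + 1488 * c20 + 22600832 * c21 + 73885159932 * c22 : ℤ) : Polynomial ℤ) * Y ^ 4
      + ((2251260 + c01 + 1488 * c02 + 197628 * c11 + 337057984 * c12 + 1158210666 * c21 + 10291429500960 * c22 : ℤ) : Polynomial ℤ) * Y ^ 5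
      + ((2710404480 + c00 + 744 * c01 + 947304 * c02 + 744 * c10 + 22047296 * c11 + 73179615336 * c12 + 947304 * c20 + 52933365312 * c21 + 941847590656704 * c22 : ℤ) : Polynomial ℤ) * Y ^ 6
      + Y ^ 7 * ((541778118390 + 152061239028240 * Y + 30456116651640888 * Y ^ 2 + 4460910058429939584 * Y ^ 3 + 479900603905054671276 * Y ^ 4 + 38279990701055439436832 * Y ^ 5 + 2304942841576702341206928 * Y ^ 6 + 107600308246824556339014912 * Y ^ 7 + 3976848039339156370849344072 * Y ^ 8 + 117158770822029164793012026880 * Y ^ 9 + 2745091934265620996420319977760 * Y ^ 10 + 50440903061587834869792604553216 * Y ^ 11 + 697608103601461263423539540284800 * Y ^ 12 + 6743327816848002081293954580480000 * Y ^ 13 + 36993489870950829664948131416000000 * Y ^ 14) + (c01 : Polynomial ℤ) * (196884 + 21493760 * Y + 864299970 * Y ^ 2 + 20245856256 * Y ^ 3 + 333202640600 * Y ^ 4) + (c02 : Polynomial ℤ) * (335950912 + 72474624276 * Y + 9790124955552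 * Y ^ 2 + 833107628914688 * Y ^ 3 + 45622088101799808 * Y ^ 4 + 1748538126247706820 * Y ^ 5 + 49320541086215536640 * Y ^ 6 + 985868760087615901536 * Y ^ 7 + 13491945531414459187200 * Y ^ 8 + 111023999702812768360000 * Y ^ 9) + (c10 : Polynomial ℤ) * (196884 * Y + 21493760 * Y ^ 3) + (c11 : Polynomial ℤ) * (1010978550 + 36383695392 * Y + 1015026621496 * Y ^ 2 + 19310685855744 * Y ^ 3 + 422301377343720 * Y ^ 4 + 4448066882043904 * Y ^ 5 + 84179324815077600 * Y ^ 6 + 435159575360962560 * Y ^ 7 + 7161777588422656000 * Y ^ 8) + (c12 : Polynomial ℤ) * (10040365397472 + 887215279870528 * Y + 52972116410803584 * Y ^ 2 + 2382659657211013716 * Y ^ 3 + 85198114443977802880 * Y ^ 4 + 2452364440607427725568 * Y ^ 5 + 59379113889558217201152 * Y ^ 6 + 1206676153086213872998544 * Y ^ 7 + 20729023098949757992304640 * Y ^ 8 + 314286299576400779757297024 * Y ^ 9 + 3716432077184260435424051200 * Y ^ 10 + 43048875678309384245588655360 * Y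 ^ 11 + 289992639185294846299471872000 * Y ^ 12 + 2386323203852328968065433600000 * Y ^ 13) + (c20 : Polynomial ℤ) * (335950912 * Y + 70746024336 * Y ^ 3 + 8463554887680 * Y ^ 5 + 461981718937600 * Y ^ 7) + (c21 : Polynomial ℤ) * (1806125947608 + 50736906410496 * Y + 1380774453376224 * Y ^ 2 + 26452463931148928 * Y ^ 3 + 619943781224271744 * Y ^ 4 + 8328508826292682752 * Y ^ 5 + 174752318223827223840 * Y ^ 6 + 1614571171291644297216 * Y ^ 7 + 30978769164973549449600 * Y ^ 8 + 181281639861967734702080 * Y ^ 9 + 3219369623256328519680000 * Y ^ 10 + 9353215474510442633625600 * Y ^ 11 + 153933528658935346626560000 * Y ^ 12) + (c22 : Polynomial ℤ) * (60508541573359488 + 3057176097936680052 * Y + 126593400997945726464 * Y ^ 2 + 4401314623823375268384 * Y ^ 3 + 133411678407467923150848 * Y ^ 4 + 3519412453142343285187360 * Y ^ 5 + 82819799353795070973823488 * Y ^ 6 + 1746096992830872499757356032 * Y ^ 7 + 32660850546146052757560342528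 * Y ^ 8 + 567163643006328002307167433792 * Y ^ 9 + 8412511511378839589361305518080 * Y ^ 10 + 122228638146472942263420245546496 * Y ^ 11 + 1393005184161487647559513748275200 * Y ^ 12 + 17006253597097657583965359902868480 * Y ^ 13 + 136975009896657560095325274767360000 * Y ^ 14 + 1395111059766681047271058445932953600 * Y ^ 15 + 6233032188415322955597736543518720000 * Y ^ 16 + 51291058226033034280646094094336000000 * Y ^ 17)) := by
  simp only [S36JT7_P, S36P2_PB]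
  push_cast
  ring

/-- the expansion of the relation modulo `X ^ 7` (generated) -/
theorem S36P2_keyS' (c00 c01 c02 c10 c11 c12 c20 c21 c22 : ℤ) :
    S36JT7_P ^ 3 * Y ^ 3 + ((c22 : Polynomial ℤ) * S36P2_PB ^ 2 + (c21 : Polynomial ℤ) * S36P2_PB * Y ^ 2 + (c20 : Polynomial ℤ) * Y ^ 4) * S36JT7_P ^ 2 + ((c12 : Polynomial ℤ) * S36P2_PB ^ 2 * Y + (c11 : Polynomial ℤ) * S36P2_PB * Y ^ 3 + (c10 : Polynomial ℤ) * Y ^ 5) * S36JT7_P + (S36P2_PB ^ 3 + (c02 : Polynomial ℤ) * S36P2_PB ^ 2 * Y ^ 2 + (c01 : Polynomial ℤ) * S36P2_PB * Y ^ 4 + (c00 : Polynomial ℤ) * Y ^ 6) =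
      ((1 + c22 : ℤ) : Polynomial ℤ)
      + ((c12 + 1488 * c22 : ℤ) : Polynomial ℤ) * Y
      + ((2232 + c02 + 744 * c12 + c21 + 948792 * c22 : ℤ) : Polynomial ℤ) * Y ^ 2
      + ((1 + c11 + 198372 * c12 + 1488 * c21 + 338165056 * c22 : ℤ) : Polynomial ℤ) * Y ^ 3
      + ((2253492 + c01 + 1488 * c02 + 744 * c11 + 22600832 * c12 + c20 + 948048 * c21 + 73885159932 * c22 : ℤ) : Polynomial ℤ) * Y ^ 4
      + ((2251260 + c10 + 197628 * c11 + 1158210666 * c12 + 1488 * c20 + 337057984 * c21 + 10291429500960 * c22 : ℤ) : Polynomial ℤ) * Y ^ 5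
      + ((2710404480 + c00 + 744 * c01 + 947304 * c02 + 744 * c10 + 22047296 * c11 + 52933365312 * c12 + 947304 * c20 + 73179615336 * c21 + 941847590656704 * c22 : ℤ) : Polynomial ℤ) * Y ^ 6
      + Y ^ 7 * ((541778118390 + 152061239028240 * Y + 30456116651640888 * Y ^ 2 + 4460910058429939584 * Y ^ 3 + 479900603905054671276 * Y ^ 4 + 38279990701055439436832 * Y ^ 5 + 2304942841576702341206928 * Y ^ 6 + 107600308246824556339014912 * Y ^ 7 + 3976848039339156370849344072 * Y ^ 8 + 117158770822029164793012026880 * Y ^ 9 + 2745091934265620996420319977760 * Y ^ 10 + 50440903061587834869792604553216 * Y ^ 11 + 697608103601461263423539540284800 * Y ^ 12 + 6743327816848002081293954580480000 * Y ^ 13 + 36993489870950829664948131416000000 * Y ^ 14) + (c01 : Polynomial ℤ) * (196884 * Y + 21493760 * Y ^ 3) + (c02 : Polynomial ℤ) * (335950912 * Y + 70746024336 * Y ^ 3 + 8463554887680 * Y ^ 5 + 461981718937600 * Y ^ 7) + (c10 : Polynomial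 ℤ) * (196884 + 21493760 * Y + 864299970 * Y ^ 2 + 20245856256 * Y ^ 3 + 333202640600 * Y ^ 4) + (c11 : Polynomial ℤ) * (1010978550 + 36383695392 * Y + 1015026621496 * Y ^ 2 + 19310685855744 * Y ^ 3 + 422301377343720 * Y ^ 4 + 4448066882043904 * Y ^ 5 + 84179324815077600 * Y ^ 6 + 435159575360962560 * Y ^ 7 + 7161777588422656000 * Y ^ 8) + (c12 : Polynomial ℤ) * (1806125947608 + 50736906410496 * Y + 1380774453376224 * Y ^ 2 + 26452463931148928 * Y ^ 3 + 619943781224271744 * Y ^ 4 + 8328508826292682752 * Y ^ 5 + 174752318223827223840 * Y ^ 6 + 1614571171291644297216 * Y ^ 7 + 30978769164973549449600 * Y ^ 8 + 181281639861967734702080 * Y ^ 9 + 3219369623256328519680000 * Y ^ 10 + 9353215474510442633625600 * Y ^ 11 + 153933528658935346626560000 * Y ^ 12) + (c20 : Polynomial ℤ) * (335950912 + 72474624276 * Y + 9790124955552 * Y ^ 2 + 833107628914688 * Y ^ 3 + 45622088101799808 * Y ^ 4 + 1748538126247706820 * Y ^ 5 + 49320541086215536640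 * Y ^ 6 + 985868760087615901536 * Y ^ 7 + 13491945531414459187200 * Y ^ 8 + 111023999702812768360000 * Y ^ 9) + (c21 : Polynomial ℤ) * (10040365397472 + 887215279870528 * Y + 52972116410803584 * Y ^ 2 + 2382659657211013716 * Y ^ 3 + 85198114443977802880 * Y ^ 4 + 2452364440607427725568 * Y ^ 5 + 59379113889558217201152 * Y ^ 6 + 1206676153086213872998544 * Y ^ 7 + 20729023098949757992304640 * Y ^ 8 + 314286299576400779757297024 * Y ^ 9 + 3716432077184260435424051200 * Y ^ 10 + 43048875678309384245588655360 * Y ^ 11 + 289992639185294846299471872000 * Y ^ 12 + 2386323203852328968065433600000 * Y ^ 13) + (c22 : Polynomial ℤ) * (60508541573359488 + 3057176097936680052 * Y + 126593400997945726464 * Y ^ 2 + 4401314623823375268384 * Y ^ 3 + 133411678407467923150848 * Y ^ 4 + 3519412453142343285187360 * Y ^ 5 + 82819799353795070973823488 * Y ^ 6 + 1746096992830872499757356032 * Y ^ 7 + 32660850546146052757560342528 * Y ^ 8 + 567163643006328002307167433792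 * Y ^ 9 + 8412511511378839589361305518080 * Y ^ 10 + 122228638146472942263420245546496 * Y ^ 11 + 1393005184161487647559513748275200 * Y ^ 12 + 17006253597097657583965359902868480 * Y ^ 13 + 136975009896657560095325274767360000 * Y ^ 14 + 1395111059766681047271058445932953600 * Y ^ 15 + 6233032188415322955597736543518720000 * Y ^ 16 + 51291058226033034280646094094336000000 * Y ^ 17)) := by
  simp only [S36JT7_P, S36P2_PB]
  push_cast
  ring

/-- the triangular linear system (generated certificates) -/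
theorem S36P2_solve (c00 c01 c02 c10 c11 c12 c20 c21 c22 : ℤ)
    (s0 : 1 + c22 = 0)
    (s1 : c21 + 1488 * c22 = 0)
    (s2 : 2232 + c12 + c20 + 744 * c21 + 948792 * c22 = 0)
    (s3 : 1 + c11 + 1488 * c12 + 198372 * c21 + 338165056 * c22 = 0)
    (s4 : 2253492 + c02 + c10 + 744 * c11 + 948048 * c12 + 1488 * c20 + 22600832 * c21 + 73885159932 * c22 = 0)
    (s5 : 2251260 + c01 + 1488 * c02 + 197628 * c11 + 337057984 * c12 + 1158210666 * c21 + 10291429500960 * c22 = 0)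
    (s6 : 2710404480 + c00 + 744 * c01 + 947304 * c02 + 744 * c10 + 22047296 * c11 + 73179615336 * c12 + 947304 * c20 + 52933365312 * c21 + 941847590656704 * c22 = 0)
    (t0 : 1 + c22 = 0)
    (t1 : c12 + 1488 * c22 = 0)
    (t2 : 2232 + c02 + 744 * c12 + c21 + 948792 * c22 = 0)
    (t3 : 1 + c11 + 198372 * c12 + 1488 * c21 + 338165056 * c22 = 0)
    (t4 : 2253492 + c01 + 1488 * c02 + 744 * c11 + 22600832 * c12 + c20 + 948048 * c21 + 73885159932 * c22 = 0)
    (t5 : 2251260 + c10 + 197628 * c11 + 1158210666 * c12 + 1488 * c20 + 337057984 * c21 + 10291429500960 * c22 = 0)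
    (t6 : 2710404480 + c00 + 744 * c01 + 947304 * c02 + 744 * c10 + 22047296 * c11 + 52933365312 * c12 + 947304 * c20 + 73179615336 * c21 + 941847590656704 * c22 = 0) :
    c00 = -157464000000000 ∧ c01 = 8748000000 ∧ c02 = -162000 ∧ c10 = 8748000000 ∧ c11 = 40773375 ∧ c12 = 1488 ∧ c20 = -162000 ∧ c21 = 1488 ∧ c22 = -1 := by
  refine ⟨?_, ?_, ?_, ?_, ?_, ?_, ?_, ?_, ?_⟩
  · linear_combination (157463800724576) * s0 + (-24078441522288) * s1 + (159768) * s2 + (125541472) * s3 + (-744) * s4 + (-744) * s5 + (1) * s6 + (-8628418560) * t1 + (160512) * t2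
  · linear_combination (-8746732416) * s0 + (38045652438) * s1 + (-197628) * s3 + (1) * s5 + (-41880448) * t1 + (-1488) * t2
  · linear_combination (159768) * s0 + (-1) * s1 + (-744) * t1 + (1) * t2
  · linear_combination (-8746929300) * s0 + (126095009) * s1 + (-1488) * s2 + (-744) * s3 + (1) * s4 + (161256) * t1 + (-1) * t2
  · linear_combination (-40773376) * s0 + (-198372) * s1 + (1) * s3 + (-1488) * t1
  · linear_combination (-1488) * s0 + (1) * t1
  · linear_combination (159768) * s0 + (-744) * s1 + (1) * s2 + (-1) * t1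
  · linear_combination (-1488) * s0 + (1) * s1
  · linear_combination (1) * s0

/-- the two relations as power series identities -/
theorem S36P2_rel : ∃ c00 c01 c02 c10 c11 c12 c20 c21 c22 : ℤ,
    (jqModC ℤ) ^ 3 + (qExpand ℤ 2 (jqModC ℤ)) ^ 3
      + ((c22 : LaurentSeries ℤ) * (jqModC ℤ) ^ 2 + (c21 : LaurentSeries ℤ) * jqModC ℤ
          + (c20 : LaurentSeries ℤ)) * (qExpand ℤ 2 (jqModC ℤ)) ^ 2
      + ((c12 : LaurentSeries ℤ) * (jqModC ℤ) ^ 2 + (c11 : LaurentSeries ℤ) * jqModC ℤ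
          + (c10 : LaurentSeries ℤ)) * qExpand ℤ 2 (jqModC ℤ)
      + ((c02 : LaurentSeries ℤ) * (jqModC ℤ) ^ 2 + (c01 : LaurentSeries ℤ) * jqModC ℤ
          + (c00 : LaurentSeries ℤ)) = 0 ∧
    (jqModC ℤ) ^ 3 + (qExpand ℤ 2 (jqModC ℤ)) ^ 3
      + ((c22 : LaurentSeries ℤ) * (qExpand ℤ 2 (jqModC ℤ)) ^ 2
          + (c21 : LaurentSeries ℤ) * qExpand ℤ 2 (jqModC ℤ) + (c20 : LaurentSeries ℤ))
        * (jqModC ℤ) ^ 2
      + ((c12 : LaurentSeries ℤ) * (qExpand ℤ 2 (jqModC ℤ)) ^ 2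
          + (c11 : LaurentSeries ℤ) * qExpand ℤ 2 (jqModC ℤ) + (c10 : LaurentSeries ℤ))
        * jqModC ℤ
      + ((c02 : LaurentSeries ℤ) * (qExpand ℤ 2 (jqModC ℤ)) ^ 2
          + (c01 : LaurentSeries ℤ) * qExpand ℤ 2 (jqModC ℤ) + (c00 : LaurentSeries ℤ)) = 0 := by
  obtain ⟨a, hdeg, hmon, hd0, hR, hR'⟩ := S34ME_exists 2 Nat.prime_two
  have d1 := hdeg 1 le_rfl (by norm_num)
  have d2 := hdeg 2 (by norm_num) le_rfl
  refine ⟨(a 0).coeff 0, (a 0).coeff 1, (a 0).coeff 2, (a 1).coeff 0, (a 1).coeff 1,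
    (a 1).coeff 2, (a 2).coeff 0, (a 2).coeff 1, (a 2).coeff 2, ?_, ?_⟩
  · simp only [Finset.sum_range_succ, Finset.sum_range_zero, S36P2_quad _ d1, S36P2_quad _ d2,
      S36P2_cubic _ hmon hd0] at hR
    linear_combination hR
  · simp only [Finset.sum_range_succ, Finset.sum_range_zero, S36P2_quad _ d1, S36P2_quad _ d2,
      S36P2_cubic _ hmon hd0] at hR'
    linear_combination hR'

theorem S36P2_hA : S36PH_io ℤ Z * jqModC ℤ = S36PH_io ℤ jNum := by
  rw [S36PH_X_mul_j, S36PH_jNum_map_int]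

theorem S36P2_hB : S36PH_io ℤ Z ^ 2 * qExpand ℤ 2 (jqModC ℤ) = S36PH_io ℤ (S36PH_V ℤ 2 jNum) := by
  rw [S36PH_X_pow_mul_Vj, S36PH_jNum_map_int]

/-- **`Φ₂(j, j(Q²)) = 0`** -/
theorem S36A4_phi2 : S36A4_Phi2 (jqModC ℤ) (qExpand ℤ 2 (jqModC ℤ)) = 0 := by
  obtain ⟨c00, c01, c02, c10, c11, c12, c20, c21, c22, hR, hR'⟩ := S36P2_rel
  have hPS : S36PH_V ℤ 2 jNum ^ 3 + ((c22 : PowerSeries ℤ) * jNum ^ 2 + (c21 : PowerSeries ℤ) * jNum * Z + (c20 : PowerSeries ℤ) * Z ^ 2) * S36PH_V ℤ 2 jNum ^ 2 + ((c12 : PowerSeries ℤ) * jNum ^ 2 + (c11 : PowerSeries ℤ) * jNum * Z + (c10 : PowerSeries ℤ) * Z ^ 2) * S36PH_V ℤ 2 jNum * Z ^ 2 + (jNum ^ 3 * Z ^ 3 + (c02 : PowerSeries ℤ) * jNum ^ 2 * Z ^ 4 + (c01 : PowerSeries ℤ) * jNum * Z ^ 5 + (c00 : PowerSeries ℤ) * Z ^ 6) = 0 := by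
    apply S36PH_io_injective ℤ
    simp only [map_add, map_mul, map_pow, map_intCast, map_zero]
    rw [← S36P2_hA, ← S36P2_hB]
    linear_combination (S36PH_io ℤ Z) ^ 6 * hR
  have hPS' : jNum ^ 3 * Z ^ 3 + ((c22 : PowerSeries ℤ) * S36PH_V ℤ 2 jNum ^ 2 + (c21 : PowerSeries ℤ) * S36PH_V ℤ 2 jNum * Z ^ 2 + (c20 : PowerSeries ℤ) * Z ^ 4) * jNum ^ 2 + ((c12 : PowerSeries ℤ) * S36PH_V ℤ 2 jNum ^ 2 * Z + (c11 : PowerSeries ℤ) * S36PH_V ℤ 2 jNum * Z ^ 3 + (c10 : PowerSeries ℤ) * Z ^ 5) * jNum + (S36PH_V ℤ 2 jNum ^ 3 + (c02 : PowerSeries ℤ) * S36PH_V ℤ 2 jNum ^ 2 * Z ^ 2 + (c01 : PowerSeries ℤ) * S36PH_V ℤ 2 jNum * Z ^ 4 + (c00 : PowerSeries ℤ) * Z ^ 6) = 0 := by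
    apply S36PH_io_injective ℤ
    simp only [map_add, map_mul, map_pow, map_intCast, map_zero]
    rw [← S36P2_hA, ← S36P2_hB]
    linear_combination (S36PH_io ℤ Z) ^ 6 * hR'
  have hZ : S36TR_pi 7 Z = S36TR_psi 7 Y := by
    rw [S36TR_psi_apply, Polynomial.coe_X]
  have hc : ∀ c : ℤ, S36TR_pi 7 (c : PowerSeries ℤ) = S36TR_psi 7 (c : Polynomial ℤ) := by
    intro c
    rw [map_intCast, map_intCast]
  have eS := congrArg (S36TR_pi 7) hPS
  have eS' := congrArg (S36TR_pi 7) hPS'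
  simp only [map_add, map_mul, map_pow, map_zero, S36JT7_pi, S36P2_piB, hZ, hc] at eS eS'
  simp only [← map_add, ← map_mul, ← map_pow] at eS eS'
  rw [S36P2_keyS] at eS
  rw [S36P2_keyS'] at eS'
  obtain ⟨s0, s1, s2, s3, s4, s5, s6⟩ := S36P2_tr7 _ _ _ _ _ _ _ _ eS
  obtain ⟨t0, t1, t2, t3, t4, t5, t6⟩ := S36P2_tr7 _ _ _ _ _ _ _ _ eS'
  obtain ⟨hc00, hc01, hc02, hc10, hc11, hc12, hc20, hc21, hc22⟩ :=
    S36P2_solve c00 c01 c02 c10 c11 c12 c20 c21 c22 s0 s1 s2 s3 s4 s5 s6 t0 t1 t2 t3 t4 t5 t6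
  subst hc00 hc01 hc02 hc10 hc11 hc12 hc20 hc21 hc22
  rw [S36A4_Phi2]
  push_cast at hR
  linear_combination hR

end Fermat.Agent.S36_helper8_PHI2
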