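import Mathlib
import Fermat.Agent.S36_helper8_PHI2

/-!
# S36, piece AUX (helper8): the level `4` Hauptmodul - algebra

`h = (η(τ)/η(4τ))⁸`, `j = a(h)³ / B(h)`, `j(2τ) = n2(h) / d2(h)`, `j(4τ) = n4(h) / d4(h)`:

* the polynomials and the polynomial identities (`hc`, Bezout, the two `Φ₂`-identities);
* `S36A4_uniq` : uniqueness of the root of top order of `Φ₂(X, ·)` (power series form).
-/

set_option autoImplicit false
set_option maxHeartbeats 4000000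
set_option maxRecDepth 100000

open Fermat.Agent.S36_helper8_PHI2

noncomputable section

namespace Fermat.Agent.S36_helper8_A4ALG

section Defs

variable {R : Type*} [CommRing R]

/-- the bihomogeneous form of `Φ₂`: `W³ Z³ Φ₂(X/W, Y/Z)` -/
def S36A4_Phi2h (X W Y Z : R) : R :=
  X ^ 3 * Z ^ 3 + Y ^ 3 * W ^ 3 - X ^ 2 * Y ^ 2 * W * Z
    + 1488 * (X ^ 2 * Y * W * Z ^ 2 + X * Y ^ 2 * W ^ 2 * Z)
    - 162000 * (X ^ 2 * W * Z ^ 3 + Y ^ 2 * W ^ 3 * Z)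
    + 40773375 * (X * Y * W ^ 2 * Z ^ 2)
    + 8748000000 * (X * W ^ 2 * Z ^ 3 + Y * W ^ 3 * Z ^ 2)
    - 157464000000000 * (W ^ 3 * Z ^ 3)

/-- `a(t) = t² + 256 t + 4096` -/
def S36A4_aE (t : R) : R := t ^ 2 + 256 * t + 4096

/-- `B(t) = t⁴ (t + 16)` -/
def S36A4_BE (t : R) : R := t ^ 4 * (t + 16)

/-- `c(t) = t³ - 480 t² - 24576 t - 262144` -/
def S36A4_cE (t : R) : R := t ^ 3 - 480 * t ^ 2 - 24576 * t - 262144

/-- numerator of `j(2τ)` -/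
def S36A4_n2E (t : R) : R := (t ^ 2 + 16 * t + 256) ^ 3

/-- denominator of `j(2τ)` -/
def S36A4_d2E (t : R) : R := t ^ 2 * (t + 16) ^ 2

/-- numerator of `j(4τ)` -/
def S36A4_n4E (t : R) : R := (t ^ 2 + 16 * t + 16) ^ 3

/-- denominator of `j(4τ)` -/
def S36A4_d4E (t : R) : R := t * (t + 16)

theorem S36A4_Phi2h_hom (s t X W Y Z : R) :
    S36A4_Phi2h (s * X) (s * W) (t * Y) (t * Z) = s ^ 3 * t ^ 3 * S36A4_Phi2h X W Y Z := by
  simp only [S36A4_Phi2h]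
  ring

theorem S36A4_Phi2h_eq (x y W Z : R) :
    S36A4_Phi2h (x * W) W (y * Z) Z = W ^ 3 * Z ^ 3 * S36A4_Phi2 x y := by
  simp only [S36A4_Phi2h, S36A4_Phi2]
  ring

theorem S36A4_map_Phi2h {S : Type*} [CommRing S] (f : R →+* S) (X W Y Z : R) :
    f (S36A4_Phi2h X W Y Z) = S36A4_Phi2h (f X) (f W) (f Y) (f Z) := by
  simp only [S36A4_Phi2h, map_add, map_sub, map_mul, map_pow, map_ofNat]

theorem S36A4_map_Phi2 {S : Type*} [CommRing S] (f : R →+* S) (x y : R) :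
    f (S36A4_Phi2 x y) = S36A4_Phi2 (f x) (f y) := by
  simp only [S36A4_Phi2, map_add, map_sub, map_mul, map_pow, map_ofNat]

theorem S36A4_hcE (t : R) : S36A4_aE t ^ 3 - 1728 * S36A4_BE t = S36A4_cE t ^ 2 := by
  simp only [S36A4_aE, S36A4_BE, S36A4_cE]
  ring

theorem S36A4_alg12 (t : R) :
    S36A4_Phi2h (S36A4_aE t ^ 3) (S36A4_BE t) (S36A4_n2E t) (S36A4_d2E t) = 0 := by
  simp only [S36A4_Phi2h, S36A4_aE, S36A4_BE, S36A4_n2E, S36A4_d2E]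
  ring

theorem S36A4_alg24 (t : R) :
    S36A4_Phi2h (S36A4_n2E t) (S36A4_d2E t) (S36A4_n4E t) (S36A4_d4E t) = 0 := by
  simp only [S36A4_Phi2h, S36A4_n2E, S36A4_d2E, S36A4_n4E, S36A4_d4E]
  ring

end Defs

section Poly

open Polynomial

/-- `a = X² + 256 X + 4096` -/
def S36A4_a : Polynomial ℤ := S36A4_aE X

/-- `B = X⁴ (X + 16)` -/
def S36A4_B : Polynomial ℤ := S36A4_BE X

/-- `c = X³ - 480 X² - 24576 X - 262144` -/
def S36A4_c : Polynomial ℤ := S36A4_cE X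

theorem S36A4_a_eq : S36A4_a = X ^ 2 + (C 256 * X + C 4096) := by
  simp only [S36A4_a, S36A4_aE, map_ofNat]
  ring

theorem S36A4_B_eq : S36A4_B = X ^ 5 + C 16 * X ^ 4 := by
  simp only [S36A4_B, S36A4_BE, map_ofNat]
  ring

theorem S36A4_a_natDegree : S36A4_a.natDegree = 2 := by
  rw [S36A4_a_eq]
  have h : (C (256 : ℤ) * X + C 4096).degree < ((2 : ℕ) : WithBot ℕ) :=
    lt_of_le_of_lt (degree_linear_le) (by norm_num)
  have h' : (C (256 : ℤ) * X + C 4096).degree < ((X : Polynomial ℤ) ^ 2).degree := by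
    rw [degree_X_pow]; exact h
  rw [natDegree_add_eq_left_of_degree_lt h', natDegree_X_pow]

theorem S36A4_a_monic : S36A4_a.Monic := by
  rw [S36A4_a_eq]
  have h : (C (256 : ℤ) * X + C 4096).degree < ((2 : ℕ) : WithBot ℕ) :=
    lt_of_le_of_lt (degree_linear_le) (by norm_num)
  exact monic_X_pow_add (by simpa using h)

theorem S36A4_B_deg_aux : (C (16 : ℤ) * X ^ 4).degree < ((5 : ℕ) : WithBot ℕ) := by
  refine lt_of_le_of_lt (degree_C_mul_X_pow_le 4 (16 : ℤ)) ?_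
  norm_num

theorem S36A4_B_natDegree : S36A4_B.natDegree = 5 := by
  rw [S36A4_B_eq]
  have h' : (C (16 : ℤ) * X ^ 4).degree < ((X : Polynomial ℤ) ^ 5).degree := by
    rw [degree_X_pow]; exact S36A4_B_deg_aux
  rw [natDegree_add_eq_left_of_degree_lt h', natDegree_X_pow]

theorem S36A4_B_monic : S36A4_B.Monic := by
  rw [S36A4_B_eq]
  exact monic_X_pow_add (by simpa using S36A4_B_deg_aux)

theorem S36A4_hdeg : S36A4_B.natDegree + 1 = 3 * S36A4_a.natDegree := by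
  rw [S36A4_B_natDegree, S36A4_a_natDegree]

theorem S36A4_hc : S36A4_a ^ 3 - 1728 * S36A4_B = S36A4_c ^ 2 :=
  S36A4_hcE X

theorem S36A4_bez : ∃ (U V : Polynomial ℤ) (e : ℕ),
    U * S36A4_a ^ 3 + V * S36A4_B = Polynomial.C (((4 : ℕ) : ℤ) ^ e) := by
  refine ⟨1048576 - 196608 * X + 23808 * X ^ 2 - 2368 * X ^ 3 + 65231 * X ^ 4,
    -279261457940480 - 34982273744896 * X - 1298877906944 * X ^ 2 - 12839878656 * X ^ 3
      - 49051344 * X ^ 4 - 65231 * X ^ 5, 28, ?_⟩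
  have h : (((4 : ℕ) : ℤ) ^ 28 : ℤ) = 72057594037927936 := by norm_num
  rw [h]
  simp only [S36A4_a, S36A4_B, S36A4_aE, S36A4_BE, map_ofNat]
  ring

variable {A : Type*} [CommRing A]

theorem S36A4_aeval_a (x : A) : aeval x S36A4_a = S36A4_aE x := by
  simp only [S36A4_a, S36A4_aE, map_add, map_mul, map_pow, aeval_X, map_ofNat]

theorem S36A4_aeval_B (x : A) : aeval x S36A4_B = S36A4_BE x := by
  simp only [S36A4_B, S36A4_BE, map_add, map_mul, map_pow, aeval_X, map_ofNat]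

theorem S36A4_aeval_c (x : A) : aeval x S36A4_c = S36A4_cE x := by
  simp only [S36A4_c, S36A4_cE, map_add, map_sub, map_mul, map_pow, aeval_X, map_ofNat]

end Poly

section Uniq

open PowerSeries

local notation "Z" => (PowerSeries.X : PowerSeries ℤ)

/-- **Uniqueness of the root of top order.**  In scaled form: `ξ, ω, ζ, τ₁, τ₂` are power series
with constant coefficient `1`, and `τ₁, τ₂` are roots of `Φ₂h(ξ, Xᵏ ω, ·, X²ᵏ ζ)`. -/
theorem S36A4_uniq (k : ℕ) (hk : 0 < k) (ξ ω ζ τ₁ τ₂ : PowerSeries ℤ)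
    (hξ : constantCoeff ξ = 1) (hω : constantCoeff ω = 1) (hζ : constantCoeff ζ = 1)
    (hτ₁ : constantCoeff τ₁ = 1) (hτ₂ : constantCoeff τ₂ = 1)
    (h1 : S36A4_Phi2h ξ (Z ^ k * ω) τ₁ (Z ^ (2 * k) * ζ) = 0)
    (h2 : S36A4_Phi2h ξ (Z ^ k * ω) τ₂ (Z ^ (2 * k) * ζ) = 0) : τ₁ = τ₂ := by
  set E₀ : PowerSeries ℤ := ω ^ 3 * (τ₁ ^ 2 + τ₁ * τ₂ + τ₂ ^ 2) - (τ₁ + τ₂) * (ξ ^ 2 * ω * ζ)
    with hE₀
  set E₁ : PowerSeries ℤ := (τ₁ + τ₂) * (1488 * (ξ * ω ^ 2 * ζ) - 162000 * (Z ^ k * (ω ^ 3 * ζ)))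
    + (1488 * (Z ^ k * (ξ ^ 2 * ω * ζ ^ 2)) + 40773375 * (Z ^ (2 * k) * (ξ * ω ^ 2 * ζ ^ 2))
      + 8748000000 * (Z ^ (3 * k) * (ω ^ 3 * ζ ^ 2))) with hE₁
  have key : S36A4_Phi2h ξ (Z ^ k * ω) τ₁ (Z ^ (2 * k) * ζ)
      - S36A4_Phi2h ξ (Z ^ k * ω) τ₂ (Z ^ (2 * k) * ζ)
      = (τ₁ - τ₂) * (Z ^ (3 * k) * (E₀ + Z ^ k * E₁)) := by
    simp only [S36A4_Phi2h, hE₀, hE₁]
    ring
  rw [h1, h2, sub_zero] at key
  have hcc : constantCoeff (E₀ + Z ^ k * E₁) = 1 := by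
    have hX : constantCoeff (Z ^ k) = 0 := by
      rw [map_pow, constantCoeff_X, zero_pow hk.ne']
    rw [map_add, map_mul, hX, zero_mul, add_zero, hE₀]
    simp only [map_sub, map_add, map_mul, map_pow, hξ, hω, hζ, hτ₁, hτ₂]
    norm_num
  have hE : E₀ + Z ^ k * E₁ ≠ 0 := by
    intro h0
    rw [h0, map_zero] at hcc
    exact zero_ne_one hcc
  have hX : (Z ^ (3 * k)) ≠ 0 := pow_ne_zero _ PowerSeries.X_ne_zero
  have h3 := key.symm
  rcases mul_eq_zero.1 h3 with h | h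
  · exact sub_eq_zero.1 h
  · exact absurd h (mul_ne_zero hX hE)

end Uniq

end Fermat.Agent.S36_helper8_A4ALG
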