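import Mathlib
import Fermat.Agent.S36_helper8_A4ALG
import Fermat.Agent.S36_helper8_AUXDefs

/-!
# S36, piece AUX (helper8): `j(2τ)` and `j(4τ)` in the level `4` Hauptmodul

For every power series `u` with `u(0) = 1` and `j · B(h) = a(h)³` (`h = Q⁻¹ u`):

* `S36A4_V2 : j(Q²) · h² (h + 16)² = (h² + 16 h + 256)³`;
* `S36A4_V4 : j(Q⁴) · h (h + 16) = (h² + 16 h + 16)³`

in `LaurentSeries ℤ`.  Proof: both sides (scaled by `Q⁶`) are roots of top order of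
`Φ₂(j, ·)`, resp. `Φ₂(j(Q²), ·)`; uniqueness `S36A4_uniq`.
-/

set_option autoImplicit false
set_option maxHeartbeats 4000000
set_option maxRecDepth 100000

open ModularCurve PowerSeries
open Fermat.Agent.S36_helper8_PHIa Fermat.Agent.S36_helper8_PHI2 Fermat.Agent.S36_helper8_A4ALG
open Fermat.Agent.S36_helper8_AUXDefs

noncomputable section

namespace Fermat.Agent.S36_helper8_A4V

local notation "Z" => (PowerSeries.X : PowerSeries ℤ)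
local notation "io" => S36PH_io ℤ

variable (u : PowerSeries ℤ)

theorem S36A4_x_mul_h : io Z * S36AUX_h u = io u := by
  have h : S36AUX_h u = S36PH_Qi ℤ * io u := rfl
  rw [h, ← mul_assoc, S36PH_X_mul_Qi, one_mul]

theorem S36A4_s_a : io Z ^ 6 * S36A4_aE (S36AUX_h u) ^ 3 =
    io ((u ^ 2 + 256 * (u * Z) + 4096 * Z ^ 2) ^ 3) := by
  simp only [map_mul, map_pow, map_add, map_ofNat]
  rw [← S36A4_x_mul_h u]
  simp only [S36A4_aE]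
  ring

theorem S36A4_s_B' : io Z ^ 5 * S36A4_BE (S36AUX_h u) = io (u ^ 4 * (u + 16 * Z)) := by
  simp only [map_mul, map_pow, map_add, map_ofNat]
  rw [← S36A4_x_mul_h u]
  simp only [S36A4_BE]
  ring

theorem S36A4_s_B : io Z ^ 6 * S36A4_BE (S36AUX_h u) = io (Z ^ 1 * (u ^ 4 * (u + 16 * Z))) := by
  rw [map_mul, ← S36A4_s_B', map_pow]
  ring

theorem S36A4_s_n2 : io Z ^ 6 * S36A4_n2E (S36AUX_h u) =
    io ((u ^ 2 + 16 * (u * Z) + 256 * Z ^ 2) ^ 3) := by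
  simp only [map_mul, map_pow, map_add, map_ofNat]
  rw [← S36A4_x_mul_h u]
  simp only [S36A4_n2E]
  ring

theorem S36A4_s_d2' : io Z ^ 4 * S36A4_d2E (S36AUX_h u) = io (u ^ 2 * (u + 16 * Z) ^ 2) := by
  simp only [map_mul, map_pow, map_add, map_ofNat]
  rw [← S36A4_x_mul_h u]
  simp only [S36A4_d2E]
  ring

theorem S36A4_s_d2 (k : ℕ) (hk : k = 2) : io Z ^ 6 * S36A4_d2E (S36AUX_h u) =
    io (Z ^ k * (u ^ 2 * (u + 16 * Z) ^ 2)) := by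
  subst hk
  rw [map_mul, ← S36A4_s_d2', map_pow]
  ring

theorem S36A4_s_n4 : io Z ^ 6 * S36A4_n4E (S36AUX_h u) =
    io ((u ^ 2 + 16 * (u * Z) + 16 * Z ^ 2) ^ 3) := by
  simp only [map_mul, map_pow, map_add, map_ofNat]
  rw [← S36A4_x_mul_h u]
  simp only [S36A4_n4E]
  ring

theorem S36A4_s_d4' : io Z ^ 2 * S36A4_d4E (S36AUX_h u) = io (u * (u + 16 * Z)) := by
  simp only [map_mul, map_pow, map_add, map_ofNat]
  rw [← S36A4_x_mul_h u]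
  simp only [S36A4_d4E]
  ring

theorem S36A4_s_d4 (k : ℕ) (hk : k = 4) : io Z ^ 6 * S36A4_d4E (S36AUX_h u) =
    io (Z ^ k * (u * (u + 16 * Z))) := by
  subst hk
  rw [map_mul, ← S36A4_s_d4', map_pow]
  ring

theorem S36A4_cancel (f g : LaurentSeries ℤ) (n : ℕ) (h : io Z ^ n * f = io Z ^ n * g) :
    f = g := by
  have h1 := congrArg (fun y => S36PH_Qi ℤ ^ n * y) h
  simp only [← mul_assoc, S36PH_Qi_pow_mul_X_pow, one_mul] at h1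
  exact h1

/-- `Φ₂(j(Q²), j(Q⁴)) = 0` -/
theorem S36A4_phi2' :
    S36A4_Phi2 (qExpand ℤ 2 (jqModC ℤ)) (qExpand ℤ 4 (jqModC ℤ)) = 0 := by
  have h := congrArg (qExpand ℤ 2) S36A4_phi2
  rw [S36A4_map_Phi2, map_zero, qExpand_qExpand] at h
  exact h

variable {u}

/-- **`j(Q²) · d2(h) = n2(h)`** -/
theorem S36A4_V2 (hu : constantCoeff u = 1)
    (rel : jqModC ℤ * S36A4_BE (S36AUX_h u) = S36A4_aE (S36AUX_h u) ^ 3) :
    qExpand ℤ 2 (jqModC ℤ) * S36A4_d2E (S36AUX_h u) = S36A4_n2E (S36AUX_h u) := by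
  have hT1 : io Z ^ 6 * (qExpand ℤ 2 (jqModC ℤ) * S36A4_d2E (S36AUX_h u)) =
      io (S36PH_V ℤ 2 jNum * (u ^ 2 * (u + 16 * Z) ^ 2)) := by
    rw [map_mul, ← S36P2_hB, ← S36A4_s_d2']
    ring
  have r1 : S36A4_Phi2h ((u ^ 2 + 256 * (u * Z) + 4096 * Z ^ 2) ^ 3)
      (Z ^ 1 * (u ^ 4 * (u + 16 * Z))) (S36PH_V ℤ 2 jNum * (u ^ 2 * (u + 16 * Z) ^ 2))
      (Z ^ (2 * 1) * (u ^ 2 * (u + 16 * Z) ^ 2)) = 0 := by
    apply S36PH_io_injective ℤ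
    rw [S36A4_map_Phi2h, map_zero, ← S36A4_s_a, ← S36A4_s_B, ← hT1,
      ← S36A4_s_d2 u (2 * 1) rfl, S36A4_Phi2h_hom, ← rel, S36A4_Phi2h_eq, S36A4_phi2,
      mul_zero, mul_zero]
  have r2 : S36A4_Phi2h ((u ^ 2 + 256 * (u * Z) + 4096 * Z ^ 2) ^ 3)
      (Z ^ 1 * (u ^ 4 * (u + 16 * Z))) ((u ^ 2 + 16 * (u * Z) + 256 * Z ^ 2) ^ 3)
      (Z ^ (2 * 1) * (u ^ 2 * (u + 16 * Z) ^ 2)) = 0 := by
    apply S36PH_io_injective ℤ
    rw [S36A4_map_Phi2h, map_zero, ← S36A4_s_a, ← S36A4_s_B, ← S36A4_s_n2,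
      ← S36A4_s_d2 u (2 * 1) rfl, S36A4_Phi2h_hom, S36A4_alg12, mul_zero]
  have hV : constantCoeff (S36PH_V ℤ 2 jNum) = 1 := by
    rw [S36PH_V_constantCoeff, constantCoeff_jNum]
  have e := S36A4_uniq 1 one_pos _ _ _ _ _
    (by simp [hu]) (by simp [hu]) (by simp [hu]) (by simp [hu, hV]) (by simp [hu]) r1 r2
  apply S36A4_cancel _ _ 6
  rw [hT1, S36A4_s_n2, e]

/-- **`j(Q⁴) · d4(h) = n4(h)`** -/
theorem S36A4_V4 (hu : constantCoeff u = 1)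
    (rel : jqModC ℤ * S36A4_BE (S36AUX_h u) = S36A4_aE (S36AUX_h u) ^ 3) :
    qExpand ℤ 4 (jqModC ℤ) * S36A4_d4E (S36AUX_h u) = S36A4_n4E (S36AUX_h u) := by
  have h2 := S36A4_V2 hu rel
  have hB4 : io Z ^ 4 * qExpand ℤ 4 (jqModC ℤ) = io (S36PH_V ℤ 4 jNum) := by
    rw [S36PH_X_pow_mul_Vj, S36PH_jNum_map_int]
  have hT1 : io Z ^ 6 * (qExpand ℤ 4 (jqModC ℤ) * S36A4_d4E (S36AUX_h u)) =
      io (S36PH_V ℤ 4 jNum * (u * (u + 16 * Z))) := by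
    rw [map_mul, ← hB4, ← S36A4_s_d4']
    ring
  have r1 : S36A4_Phi2h ((u ^ 2 + 16 * (u * Z) + 256 * Z ^ 2) ^ 3)
      (Z ^ 2 * (u ^ 2 * (u + 16 * Z) ^ 2)) (S36PH_V ℤ 4 jNum * (u * (u + 16 * Z)))
      (Z ^ (2 * 2) * (u * (u + 16 * Z))) = 0 := by
    apply S36PH_io_injective ℤ
    rw [S36A4_map_Phi2h, map_zero, ← S36A4_s_n2, ← S36A4_s_d2 u 2 rfl, ← hT1,
      ← S36A4_s_d4 u (2 * 2) rfl, S36A4_Phi2h_hom, ← h2, S36A4_Phi2h_eq, S36A4_phi2',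
      mul_zero, mul_zero]
  have r2 : S36A4_Phi2h ((u ^ 2 + 16 * (u * Z) + 256 * Z ^ 2) ^ 3)
      (Z ^ 2 * (u ^ 2 * (u + 16 * Z) ^ 2)) ((u ^ 2 + 16 * (u * Z) + 16 * Z ^ 2) ^ 3)
      (Z ^ (2 * 2) * (u * (u + 16 * Z))) = 0 := by
    apply S36PH_io_injective ℤ
    rw [S36A4_map_Phi2h, map_zero, ← S36A4_s_n2, ← S36A4_s_d2 u 2 rfl, ← S36A4_s_n4,
      ← S36A4_s_d4 u (2 * 2) rfl, S36A4_Phi2h_hom, S36A4_alg24, mul_zero]
  have hV : constantCoeff (S36PH_V ℤ 4 jNum) = 1 := by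
    rw [S36PH_V_constantCoeff, constantCoeff_jNum]
  have e := S36A4_uniq 2 (by norm_num) _ _ _ _ _
    (by simp [hu]) (by simp [hu]) (by simp [hu]) (by simp [hu, hV]) (by simp [hu]) r1 r2
  apply S36A4_cancel _ _ 6
  rw [hT1, S36A4_s_n4, e]

end Fermat.Agent.S36_helper8_A4V
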