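import Mathlib
import Fermat.Agent.S36_helper8_A4V
import Fermat.Agent.S36_helper27_HINV

/-!
# S36, piece AUX (helper8): the instance `r = 4` of the auxiliary Hauptmodul datum

`S36AUX_four : Nonempty (S36AUX_Data 4)`.

* `gen` : `j = a(h)³/B(h)`, `j(Q²) = n2(h)/d2(h)`, `j(Q⁴) = n4(h)/d4(h)`;
* `mem` : with `y = h²/(h + 16)` and `g = h (h + 16)` (the level `2` Hauptmodul at `τ` and `2τ`)
  one has `j y² = (y + 256)³`, `j(Q²) y = (y + 16)³`, so `y ∈ ℚ(j, j(Q²))` by elimination; the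
  same for `g` and `(j(Q²), j(Q⁴))`; finally `h (g + 256) = g (y + 16)`.
-/

set_option autoImplicit false
set_option maxHeartbeats 4000000
set_option maxRecDepth 100000

open ModularCurve PowerSeries
open Fermat.Agent.S36_helper8_PHIa Fermat.Agent.S36_helper8_PHI2 Fermat.Agent.S36_helper8_A4ALG
open Fermat.Agent.S36_helper8_AUXDefs Fermat.Agent.S36_helper8_A4V
open Fermat.Agent.S36_helper27_HINV

noncomputable section

namespace Fermat.Agent.S36_helper8_A4Q

local notation "Z" => (PowerSeries.X : PowerSeries ℤ)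
local notation "io" => S36PH_io ℤ
local notation "φ" => coeffMap (Int.castRingHom ℚ)

theorem S36A4_coeffMap_qExpand {R S : Type*} [CommRing R] [CommRing S] (f : R →+* S) (n : ℕ)
    [NeZero n] (x : LaurentSeries R) : coeffMap f (qExpand R n x) = qExpand S n (coeffMap f x) := by
  ext k
  by_cases hk : (n : ℤ) ∣ k
  · obtain ⟨m, rfl⟩ := hk
    rw [coeffMap_coeff, qExpand_coeff_mul, qExpand_coeff_mul, coeffMap_coeff]
  · rw [coeffMap_coeff, qExpand_coeff_of_not_dvd n _ hk, qExpand_coeff_of_not_dvd n _ hk,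
      map_zero]

theorem S36A4_phi_injective : Function.Injective φ := by
  intro f g h
  ext k
  have := congrArg (fun y => y.coeff k) h
  simp only [coeffMap_coeff] at this
  exact Int.cast_injective this

theorem S36A4_phi_h (u : PowerSeries ℤ) : φ (S36AUX_h u) = S36AUX_hK ℚ u := by
  rw [S36AUX_h, S36AUX_hK, map_mul, coeffMap_single, map_one, coeffMap_ofPowerSeries]

theorem S36A4_phi_j (d : ℕ) [NeZero d] :
    φ (qExpand ℤ d (jqModC ℤ)) = qExpand ℚ d (jqModC ℚ) := by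
  rw [S36A4_coeffMap_qExpand, coeffMap_jqModC]

/-- a Laurent series with a scaled form of constant coefficient `1` is not zero over `ℚ` -/
theorem S36A4_ne_zero (f : LaurentSeries ℤ) (g : PowerSeries ℤ) (n : ℕ)
    (h : io Z ^ n * f = io g) (hg : constantCoeff g ≠ 0) : φ f ≠ 0 := by
  intro h0
  have hf : f = 0 := S36A4_phi_injective (by rw [h0, map_zero])
  rw [hf, mul_zero] at h
  have hg0 : g = 0 := S36PH_io_injective ℤ (by rw [← h, map_zero])
  rw [hg0, map_zero] at hg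
  exact hg rfl

section Maps

variable {R S : Type*} [CommRing R] [CommRing S] (f : R →+* S) (t : R)

theorem S36A4_map_aE : f (S36A4_aE t) = S36A4_aE (f t) := by
  simp only [S36A4_aE, map_add, map_mul, map_pow, map_ofNat]

theorem S36A4_map_BE : f (S36A4_BE t) = S36A4_BE (f t) := by
  simp only [S36A4_BE, map_add, map_mul, map_pow, map_ofNat]

theorem S36A4_map_n2E : f (S36A4_n2E t) = S36A4_n2E (f t) := by
  simp only [S36A4_n2E, map_add, map_mul, map_pow, map_ofNat]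

theorem S36A4_map_d2E : f (S36A4_d2E t) = S36A4_d2E (f t) := by
  simp only [S36A4_d2E, map_add, map_mul, map_pow, map_ofNat]

theorem S36A4_map_n4E : f (S36A4_n4E t) = S36A4_n4E (f t) := by
  simp only [S36A4_n4E, map_add, map_mul, map_pow, map_ofNat]

theorem S36A4_map_d4E : f (S36A4_d4E t) = S36A4_d4E (f t) := by
  simp only [S36A4_d4E, map_add, map_mul, map_pow, map_ofNat]

end Maps

section Rational

variable {u : PowerSeries ℤ} (hu : constantCoeff u = 1)
  (rel : jqModC ℤ * S36A4_BE (S36AUX_h u) = S36A4_aE (S36AUX_h u) ^ 3)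

include hu rel

/-- `j · B(h) = a(h)³` over `ℚ` -/
theorem S36A4_relQ :
    jqModC ℚ * S36A4_BE (S36AUX_hK ℚ u) = S36A4_aE (S36AUX_hK ℚ u) ^ 3 := by
  have h := congrArg φ rel
  rwa [map_mul, map_pow, coeffMap_jqModC, S36A4_map_BE, S36A4_map_aE, S36A4_phi_h] at h

/-- `j(Q²) · d2(h) = n2(h)` over `ℚ` -/
theorem S36A4_V2Q :
    qExpand ℚ 2 (jqModC ℚ) * S36A4_d2E (S36AUX_hK ℚ u) = S36A4_n2E (S36AUX_hK ℚ u) := by
  have h := congrArg φ (S36A4_V2 hu rel)
  rwa [map_mul, S36A4_phi_j, S36A4_map_d2E, S36A4_map_n2E, S36A4_phi_h] at h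

/-- `j(Q⁴) · d4(h) = n4(h)` over `ℚ` -/
theorem S36A4_V4Q :
    qExpand ℚ 4 (jqModC ℚ) * S36A4_d4E (S36AUX_hK ℚ u) = S36A4_n4E (S36AUX_hK ℚ u) := by
  have h := congrArg φ (S36A4_V4 hu rel)
  rwa [map_mul, S36A4_phi_j, S36A4_map_d4E, S36A4_map_n4E, S36A4_phi_h] at h

omit rel in
theorem S36A4_h_ne : S36AUX_hK ℚ u ≠ 0 := by
  rw [← S36A4_phi_h]
  refine S36A4_ne_zero _ u 1 ?_ (by rw [hu]; exact one_ne_zero)
  rw [pow_one, S36A4_x_mul_h]

omit rel in
theorem S36A4_h16_ne : S36AUX_hK ℚ u + 16 ≠ 0 := by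
  have e : S36AUX_hK ℚ u + 16 = φ (S36AUX_h u + 16) := by
    rw [map_add, S36A4_phi_h, map_ofNat]
  rw [e]
  refine S36A4_ne_zero _ (u + 16 * Z) 1 ?_ (by simp [hu])
  rw [pow_one, mul_add, S36A4_x_mul_h, map_add, map_mul, map_ofNat]
  ring

omit rel in
theorem S36A4_n2_ne : S36AUX_hK ℚ u ^ 2 + 16 * S36AUX_hK ℚ u + 256 ≠ 0 := by
  have e : S36AUX_hK ℚ u ^ 2 + 16 * S36AUX_hK ℚ u + 256 =
      φ (S36AUX_h u ^ 2 + 16 * S36AUX_h u + 256) := by
    simp only [map_add, map_mul, map_pow, S36A4_phi_h, map_ofNat]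
  rw [e]
  refine S36A4_ne_zero _ (u ^ 2 + 16 * (u * Z) + 256 * Z ^ 2) 2 ?_ (by simp [hu])
  simp only [map_add, map_mul, map_pow, map_ofNat]
  rw [← S36A4_x_mul_h u]
  ring

end Rational

section Elim

/-- elimination: the level `2` Hauptmodul is a rational function of `j` and `j(2τ)` -/
theorem S36A4_elim {L : Type*} [Field L] [Algebra ℚ L] (F : IntermediateField ℚ L)
    (j' j'' y : L) (h1 : j' ∈ F) (h2 : j'' ∈ F) (e1 : j' * y ^ 2 = (y + 256) ^ 3)
    (e2 : j'' * y = (y + 16) ^ 3)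
    (hB : 4096 * (j' - 720) ^ 2 + 16773120 * (48 * j' + j'' + 161280) ≠ 0) : y ∈ F := by
  have key : ((j' - 720) ^ 2 * (768 - j'') + 16773120 * (j' - 720)
      + (48 * j' + j'' + 161280) * (j'' + 195840)) * y
      + (4096 * (j' - 720) ^ 2 + 16773120 * (48 * j' + j'' + 161280)) = 0 := by
    linear_combination (-((j' - 720) * y + (48 * j' + j'' + 161280))) * e1
      + (((j' - 720) * y + (48 * j' + j'' + 161280)) - (j' - 720) ^ 2) * e2
  have hA : (j' - 720) ^ 2 * (768 - j'') + 16773120 * (j' - 720)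
      + (48 * j' + j'' + 161280) * (j'' + 195840) ≠ 0 := by
    intro h0
    rw [h0, zero_mul, zero_add] at key
    exact hB key
  have hy : y = -(4096 * (j' - 720) ^ 2 + 16773120 * (48 * j' + j'' + 161280)) /
      ((j' - 720) ^ 2 * (768 - j'') + 16773120 * (j' - 720)
      + (48 * j' + j'' + 161280) * (j'' + 195840)) := by
    rw [eq_div_iff hA]
    linear_combination key
  have n1 : ∀ n : ℕ, (n : L) ∈ F := fun n => natCast_mem F n
  have m720 : (720 : L) ∈ F := by exact_mod_cast n1 720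
  have m768 : (768 : L) ∈ F := by exact_mod_cast n1 768
  have m4096 : (4096 : L) ∈ F := by exact_mod_cast n1 4096
  have m48 : (48 : L) ∈ F := by exact_mod_cast n1 48
  have m161280 : (161280 : L) ∈ F := by exact_mod_cast n1 161280
  have m195840 : (195840 : L) ∈ F := by exact_mod_cast n1 195840
  have m16773120 : (16773120 : L) ∈ F := by exact_mod_cast n1 16773120
  have hc2 : 48 * j' + j'' + 161280 ∈ F := add_mem (add_mem (mul_mem m48 h1) h2) m161280
  have hj720 : j' - 720 ∈ F := sub_mem h1 m720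
  rw [hy]
  refine div_mem (neg_mem (add_mem (mul_mem m4096 (pow_mem hj720 2)) (mul_mem m16773120 hc2))) ?_
  exact add_mem (add_mem (mul_mem (pow_mem hj720 2) (sub_mem m768 h2)) (mul_mem m16773120 hj720))
    (mul_mem hc2 (add_mem h2 m195840))

/-- the non-degeneracy of the elimination at `(j, j(Q²))` -/
theorem S36A4_elim_ne : 4096 * (jqModC ℚ - 720) ^ 2
    + 16773120 * (48 * jqModC ℚ + qExpand ℚ 2 (jqModC ℚ) + 161280) ≠ 0 := by
  have e : 4096 * (jqModC ℚ - 720) ^ 2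
      + 16773120 * (48 * jqModC ℚ + qExpand ℚ 2 (jqModC ℚ) + 161280)
      = φ (4096 * (jqModC ℤ - 720) ^ 2
        + 16773120 * (48 * jqModC ℤ + qExpand ℤ 2 (jqModC ℤ) + 161280)) := by
    simp only [map_add, map_sub, map_mul, map_pow, map_ofNat, coeffMap_jqModC, S36A4_phi_j]
  rw [e]
  refine S36A4_ne_zero _ (4096 * (jNum - 720 * Z) ^ 2
    + 16773120 * (48 * (jNum * Z) + S36PH_V ℤ 2 jNum + 161280 * Z ^ 2)) 2 ?_ ?_
  · simp only [map_add, map_sub, map_mul, map_pow, map_ofNat]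
    rw [← S36P2_hA, ← S36P2_hB]
    ring
  · simp only [map_add, map_sub, map_mul, map_pow, map_ofNat, constantCoeff_jNum,
      S36PH_V_constantCoeff, constantCoeff_X]
    norm_num

/-- the non-degeneracy of the elimination at `(j(Q²), j(Q⁴))` -/
theorem S36A4_elim_ne' : 4096 * (qExpand ℚ 2 (jqModC ℚ) - 720) ^ 2
    + 16773120 * (48 * qExpand ℚ 2 (jqModC ℚ) + qExpand ℚ 4 (jqModC ℚ) + 161280) ≠ 0 := by
  have e : 4096 * (qExpand ℚ 2 (jqModC ℚ) - 720) ^ 2
      + 16773120 * (48 * qExpand ℚ 2 (jqModC ℚ) + qExpand ℚ 4 (jqModC ℚ) + 161280)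
      = qExpand ℚ 2 (4096 * (jqModC ℚ - 720) ^ 2
        + 16773120 * (48 * jqModC ℚ + qExpand ℚ 2 (jqModC ℚ) + 161280)) := by
    simp only [map_add, map_sub, map_mul, map_pow, map_ofNat, qExpand_qExpand]
  rw [e]
  intro h0
  exact S36A4_elim_ne (qExpand_injective (R := ℚ) (N := 2) (by rw [h0, map_zero]))

end Elim

section Final

theorem S36A4_eval2_a {A : Type*} [CommRing A] (x : A) :
    Polynomial.eval₂ (Int.castRingHom A) x S36A4_a = S36A4_aE x := by
  rw [← S36A4_aeval_a x, Fermat.Agent.S34_helper14_MEW.S34MEW_aeval_eq]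

theorem S36A4_eval2_B {A : Type*} [CommRing A] (x : A) :
    Polynomial.eval₂ (Int.castRingHom A) x S36A4_B = S36A4_BE x := by
  rw [← S36A4_aeval_B x, Fermat.Agent.S34_helper14_MEW.S34MEW_aeval_eq]

theorem S36A4_eval2_c {A : Type*} [CommRing A] (x : A) :
    Polynomial.eval₂ (Int.castRingHom A) x S36A4_c = S36A4_cE x := by
  rw [← S36A4_aeval_c x, Fermat.Agent.S34_helper14_MEW.S34MEW_aeval_eq]

/-- `aeval` for any `ℤ`-algebra structure -/
theorem S36A4_aeval_a' {A : Type*} [CommRing A] [inst : Algebra ℤ A] (x : A) :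
    Polynomial.aeval x S36A4_a = S36A4_aE x := by
  rw [Fermat.Agent.S34_helper14_MEW.S34MEW_aeval_eq, S36A4_eval2_a]

/-- `aeval` for any `ℤ`-algebra structure -/
theorem S36A4_aeval_B' {A : Type*} [CommRing A] [inst : Algebra ℤ A] (x : A) :
    Polynomial.aeval x S36A4_B = S36A4_BE x := by
  rw [Fermat.Agent.S34_helper14_MEW.S34MEW_aeval_eq, S36A4_eval2_B]

/-- `aeval` for any `ℤ`-algebra structure -/
theorem S36A4_aeval_c' {A : Type*} [CommRing A] [inst : Algebra ℤ A] (x : A) :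
    Polynomial.aeval x S36A4_c = S36A4_cE x := by
  rw [Fermat.Agent.S34_helper14_MEW.S34MEW_aeval_eq, S36A4_eval2_c]

variable {u : PowerSeries ℤ} (hu : constantCoeff u = 1)
  (rel : jqModC ℤ * S36A4_BE (S36AUX_h u) = S36A4_aE (S36AUX_h u) ^ 3)

include hu rel

/-- `F(4) ⊆ ℚ(h)` -/
theorem S36A4_gen :
    modularFunctionFieldFullC ℚ 4 ≤ IntermediateField.adjoin ℚ {S36AUX_hK ℚ u} := by
  set h := S36AUX_hK ℚ u with hh
  set E := IntermediateField.adjoin ℚ {h} with hE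
  have hm : h ∈ E := IntermediateField.mem_adjoin_simple_self ℚ h
  have h0 : h ≠ 0 := S36A4_h_ne hu
  have h16 : h + 16 ≠ 0 := S36A4_h16_ne hu
  have n1 : ∀ n : ℕ, (n : LaurentSeries ℚ) ∈ E := fun n => natCast_mem E n
  have m16 : (16 : LaurentSeries ℚ) ∈ E := by exact_mod_cast n1 16
  have m256 : (256 : LaurentSeries ℚ) ∈ E := by exact_mod_cast n1 256
  have m4096 : (4096 : LaurentSeries ℚ) ∈ E := by exact_mod_cast n1 4096
  have mh16 : h + 16 ∈ E := add_mem hm m16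
  rw [modularFunctionFieldFullC, IntermediateField.adjoin_le_iff]
  rintro x ⟨d, hd0, hd, rfl⟩
  have hd4 : d ≤ 4 := Nat.le_of_dvd (by norm_num) hd
  have hd1 : d ≠ 0 := NeZero.ne d
  interval_cases d
  · exact absurd rfl hd1
  · rw [qExpand_one_apply]
    have hB : S36A4_BE h ≠ 0 := mul_ne_zero (pow_ne_zero 4 h0) h16
    have e : jqModC ℚ = S36A4_aE h ^ 3 / S36A4_BE h := by
      rw [eq_div_iff hB]
      exact S36A4_relQ hu rel
    rw [SetLike.mem_coe, e]
    exact div_mem (pow_mem (add_mem (add_mem (pow_mem hm 2) (mul_mem m256 hm)) m4096) 3)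
      (mul_mem (pow_mem hm 4) mh16)
  · have hB : S36A4_d2E h ≠ 0 := mul_ne_zero (pow_ne_zero 2 h0) (pow_ne_zero 2 h16)
    have e : qExpand ℚ 2 (jqModC ℚ) = S36A4_n2E h / S36A4_d2E h := by
      rw [eq_div_iff hB]
      exact S36A4_V2Q hu rel
    rw [SetLike.mem_coe, e]
    exact div_mem (pow_mem (add_mem (add_mem (pow_mem hm 2) (mul_mem m16 hm)) m256) 3)
      (mul_mem (pow_mem hm 2) (pow_mem mh16 2))
  · exfalso
    revert hd
    decide
  · have hB : S36A4_d4E h ≠ 0 := mul_ne_zero h0 h16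
    have e : qExpand ℚ 4 (jqModC ℚ) = S36A4_n4E h / S36A4_d4E h := by
      rw [eq_div_iff hB]
      exact S36A4_V4Q hu rel
    rw [SetLike.mem_coe, e]
    exact div_mem (pow_mem (add_mem (add_mem (pow_mem hm 2) (mul_mem m16 hm)) m16) 3)
      (mul_mem hm mh16)

/-- `h ∈ F(4)` -/
theorem S36A4_mem : S36AUX_hK ℚ u ∈ modularFunctionFieldFullC ℚ 4 := by
  set h := S36AUX_hK ℚ u with hh
  set F := modularFunctionFieldFullC ℚ 4 with hF
  have h0 : h ≠ 0 := S36A4_h_ne hu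
  have h16 : h + 16 ≠ 0 := S36A4_h16_ne hu
  have hn2 : h ^ 2 + 16 * h + 256 ≠ 0 := S36A4_n2_ne hu
  have r1 : jqModC ℚ * (h ^ 4 * (h + 16)) = (h ^ 2 + 256 * h + 4096) ^ 3 := S36A4_relQ hu rel
  have r2 : qExpand ℚ 2 (jqModC ℚ) * (h ^ 2 * (h + 16) ^ 2) = (h ^ 2 + 16 * h + 256) ^ 3 :=
    S36A4_V2Q hu rel
  have r4 : qExpand ℚ 4 (jqModC ℚ) * (h * (h + 16)) = (h ^ 2 + 16 * h + 16) ^ 3 :=
    S36A4_V4Q hu rel
  have mj : jqModC ℚ ∈ F := by
    have := jqModCd_mem_full (K := ℚ) (N := 4) (d := 1) (one_dvd 4)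
    rwa [qExpand_one_apply] at this
  have mj2 : qExpand ℚ 2 (jqModC ℚ) ∈ F :=
    jqModCd_mem_full (K := ℚ) (N := 4) (d := 2) (by decide)
  have mj4 : qExpand ℚ 4 (jqModC ℚ) ∈ F :=
    jqModCd_mem_full (K := ℚ) (N := 4) (d := 4) (dvd_refl 4)
  -- the level 2 Hauptmodul at `τ`
  have my : h ^ 2 / (h + 16) ∈ F := by
    refine S36A4_elim F (jqModC ℚ) (qExpand ℚ 2 (jqModC ℚ)) _ mj mj2 ?_ ?_ S36A4_elim_ne
    · field_simp
      linear_combination r1
    · field_simp
      linear_combination r2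
  -- the level 2 Hauptmodul at `2τ`
  have mg : h * (h + 16) ∈ F := by
    refine S36A4_elim F (qExpand ℚ 2 (jqModC ℚ)) (qExpand ℚ 4 (jqModC ℚ)) _ mj2 mj4 ?_ ?_
      S36A4_elim_ne'
    · linear_combination r2
    · linear_combination r4
  have n1 : ∀ n : ℕ, (n : LaurentSeries ℚ) ∈ F := fun n => natCast_mem F n
  have m16 : (16 : LaurentSeries ℚ) ∈ F := by exact_mod_cast n1 16
  have m256 : (256 : LaurentSeries ℚ) ∈ F := by exact_mod_cast n1 256
  have hg : h * (h + 16) + 256 ≠ 0 := by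
    intro h1
    apply hn2
    linear_combination h1
  have e : h = (h * (h + 16)) * (h ^ 2 / (h + 16) + 16) / (h * (h + 16) + 256) := by
    rw [eq_div_iff hg]
    field_simp
    ring
  rw [e]
  exact div_mem (mul_mem mg (add_mem my m16)) (add_mem mg m256)

end Final

/-- the power series `u` with `h = Q⁻¹ u` the Hauptmodul of level `4` -/
def S36A4_u : PowerSeries ℤ :=
  (S36HI_rel S36A4_a S36A4_B S36A4_a_monic S36A4_B_monic S36A4_hdeg).choose

theorem S36A4_u_cc : constantCoeff S36A4_u = 1 :=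
  (S36HI_rel S36A4_a S36A4_B S36A4_a_monic S36A4_B_monic S36A4_hdeg).choose_spec.1

theorem S36A4_u_rel : jqModC ℤ * Polynomial.aeval (S36AUX_h S36A4_u) S36A4_B =
    (Polynomial.aeval (S36AUX_h S36A4_u) S36A4_a) ^ 3 :=
  (S36HI_rel S36A4_a S36A4_B S36A4_a_monic S36A4_B_monic S36A4_hdeg).choose_spec.2

/-- `j · h⁴ (h + 16) = (h² + 256 h + 4096)³` over `ℤ` -/
theorem S36A4_u_rel' :
    jqModC ℤ * S36A4_BE (S36AUX_h S36A4_u) = S36A4_aE (S36AUX_h S36A4_u) ^ 3 := by
  have h := S36A4_u_rel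
  rw [S36A4_aeval_a', S36A4_aeval_B'] at h
  exact h

/-- **The auxiliary Hauptmodul datum of level `4`.** -/
def S36AUX_fourData : S36AUX_Data 4 where
  u := S36A4_u
  hu := S36A4_u_cc
  a := S36A4_a
  B := S36A4_B
  c := S36A4_c
  ha := S36A4_a_monic
  hB := S36A4_B_monic
  hdeg := S36A4_hdeg
  rel := S36A4_u_rel
  hc := S36A4_hc
  bez := S36A4_bez
  mem := S36A4_mem S36A4_u_cc S36A4_u_rel'
  gen := S36A4_gen S36A4_u_cc S36A4_u_rel'

/-- **The instance `r = 4`.** -/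
theorem S36AUX_four : Nonempty (S36AUX_Data 4) := ⟨S36AUX_fourData⟩

theorem S36AUX_fourData_u : S36AUX_fourData.u = S36A4_u := rfl

theorem S36AUX_fourData_a : S36AUX_fourData.a = S36A4_a := rfl

theorem S36AUX_fourData_B : S36AUX_fourData.B = S36A4_B := rfl

theorem S36AUX_fourData_c : S36AUX_fourData.c = S36A4_c := rfl

section AnyRing

variable (K : Type*) [CommRing K]

theorem S36A4_coeffMap_h (u : PowerSeries ℤ) :
    coeffMap (Int.castRingHom K) (S36AUX_h u) = S36AUX_hK K u := by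
  rw [S36AUX_h, S36AUX_hK, map_mul, coeffMap_single, map_one, coeffMap_ofPowerSeries]

theorem S36A4_coeffMap_j (d : ℕ) [NeZero d] :
    coeffMap (Int.castRingHom K) (qExpand ℤ d (jqModC ℤ)) = qExpand K d (jqModC K) := by
  rw [S36A4_coeffMap_qExpand, coeffMap_jqModC]

/-- `j · h⁴ (h + 16) = (h² + 256 h + 4096)³` over any ring -/
theorem S36A4_relK :
    jqModC K * S36A4_BE (S36AUX_hK K S36A4_u) = S36A4_aE (S36AUX_hK K S36A4_u) ^ 3 := by
  have h := congrArg (coeffMap (Int.castRingHom K)) S36A4_u_rel'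
  rwa [map_mul, map_pow, coeffMap_jqModC, S36A4_map_BE, S36A4_map_aE, S36A4_coeffMap_h] at h

/-- `j(Q²) · h² (h + 16)² = (h² + 16 h + 256)³` over any ring -/
theorem S36A4_V2K : qExpand K 2 (jqModC K) * S36A4_d2E (S36AUX_hK K S36A4_u) =
    S36A4_n2E (S36AUX_hK K S36A4_u) := by
  have h := congrArg (coeffMap (Int.castRingHom K)) (S36A4_V2 S36A4_u_cc S36A4_u_rel')
  rwa [map_mul, S36A4_coeffMap_j, S36A4_map_d2E, S36A4_map_n2E, S36A4_coeffMap_h] at h

/-- `j(Q⁴) · h (h + 16) = (h² + 16 h + 16)³` over any ring -/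
theorem S36A4_V4K : qExpand K 4 (jqModC K) * S36A4_d4E (S36AUX_hK K S36A4_u) =
    S36A4_n4E (S36AUX_hK K S36A4_u) := by
  have h := congrArg (coeffMap (Int.castRingHom K)) (S36A4_V4 S36A4_u_cc S36A4_u_rel')
  rwa [map_mul, S36A4_coeffMap_j, S36A4_map_d4E, S36A4_map_n4E, S36A4_coeffMap_h] at h

/-- helper7's form (`#1740 (3)`): `j(Q²) · (h² (h + 16)²) = (h² + 16 h + 256)³` -/
theorem S36A4_V2K' : qExpand K 2 (jqModC K) *
    (S36AUX_hK K S36A4_u ^ 2 * (S36AUX_hK K S36A4_u + 16) ^ 2) =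
      (S36AUX_hK K S36A4_u ^ 2 + 16 * S36AUX_hK K S36A4_u + 256) ^ 3 :=
  S36A4_V2K K

/-- the Legendre form: with `t = -h/16`, i.e. `h = -16 t`:
`256 (t² - t + 1)³ = j(Q²) · t² (1 - t)²` -/
theorem S36A4_legendre (t : LaurentSeries K) (ht : S36AUX_hK K S36A4_u = -16 * t)
    (h2 : ∀ z : LaurentSeries K, (2 : LaurentSeries K) * z = 0 → z = 0) :
    256 * (t ^ 2 - t + 1) ^ 3 = qExpand K 2 (jqModC K) * (t ^ 2 * (1 - t) ^ 2) := by
  have h := S36A4_V2K' K
  rw [ht] at h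
  have e : (2 : LaurentSeries K) ^ 16 * (256 * (t ^ 2 - t + 1) ^ 3
      - qExpand K 2 (jqModC K) * (t ^ 2 * (1 - t) ^ 2)) = 0 := by
    linear_combination -h
  have hp : ∀ (n : ℕ) (z : LaurentSeries K), (2 : LaurentSeries K) ^ n * z = 0 → z = 0 := by
    intro n
    induction n with
    | zero => intro z hz; simpa using hz
    | succ n ih =>
      intro z hz
      rw [pow_succ, mul_assoc] at hz
      exact h2 z (ih _ hz)
  exact sub_eq_zero.1 (hp 16 _ e)

end AnyRing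

end Fermat.Agent.S36_helper8_A4Q
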