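import Mathlib
import Fermat.Agent.S36_helper7_E1IN
import Fermat.Agent.S36_helper8_A4Q
import Fermat.Agent.S36_helper21_HLOCX
import Fermat.Agent.S36_helper15_HXA

/-!
# S36, GEO36 piece E1 (helper7): the Hauptmodul `h` of level `4` is a local parameter

`S36E1_h4_gen`: for `h ∈ F(K1, 2 N)` (`2 ∣ N`, `2` invertible in `O`) with
`j(Q²) · h² (h + 16)² = (h² + 16 h + 256)³` and a non-zero coefficient of `Q⁻¹`:
every maximal ideal `m ∋ π` of the chart `A0L O K1 (2 N)` contains `h - a` for a constant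
`a ∈ O` (with `a (a + 16)` a unit) and is generated by `π` and `h - a` locally at `m`.

`S36E1_h4`: the same for helper8's Hauptmodul `h = S36AUX_hK K1 S36A4_u` (no hypothesis on `h`).
-/

set_option autoImplicit false
set_option linter.unusedSectionVars false
set_option linter.style.haveILetI false
set_option linter.unusedVariables false
set_option maxHeartbeats 1000000
set_option synthInstance.maxHeartbeats 400000

noncomputable section

open Polynomial ModularCurve Fermat.Agent.S18_helper13_GAUSS Fermat.Agent.S18_helper9_CDefs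
open Fermat.Agent.S18A Fermat.Agent.S18AI
open Fermat.Agent.S36_helper7_E1IN Fermat.Agent.S36_helper8_AUXDefs

namespace Fermat.Agent.S36_helper7_E1H

variable {O K1 k : Type} [CommRing O] [IsDomain O] [IsDiscreteValuationRing O] [Field K1]
  [CharZero K1] [Algebra O K1] [IsFractionRing O K1] [Field k] [IsAlgClosed k]
  (ρ : O →+* k) (hρ : ∀ x : O, ρ x = 0 ↔ x ∈ IsLocalRing.maximalIdeal O) (N : ℕ) [NeZero N]

/-- constants are in every finite chart -/
theorem S36E1_OL_le_A0L (M : ℕ) : OL O K1 ≤ A0L O K1 M := by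
  intro x hx
  refine mem_icl.mpr ⟨?_, OL_le_F1L (O := O) (K1 := K1) M hx⟩
  have hx' : x ∈ adj (OL O K1) (jqModC K1) := Subring.subset_closure (Or.inl hx)
  exact isIntegral_algebraMap (R := adj (OL O K1) (jqModC K1)) (A := LaurentSeries K1)
    (x := ⟨x, hx'⟩)

/-- **E1 for a Hauptmodul of level `4`** (hypotheses on `h`). -/
theorem S36E1_h4_gen [NeZero (N * 2)] (hρs : Function.Surjective ρ)
    (emb : K1 →+* AlgebraicClosure ℚ)
    (S : Setup (OL O K1) (πL O K1 ρ hρ) (jqModC K1) (F1L K1 N) (VL O K1 ρ hρ N)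
      (A0L O K1 N) (AinfL O K1 N))
    (h2N : 2 ∣ N) (h2 : IsUnit (2 : O))
    (h : LaurentSeries K1) (hhF : h ∈ modularFunctionFieldFullC K1 (N * 2))
    (hV2 : qExpand K1 2 (jqModC K1) * (h ^ 2 * (h + 16) ^ 2) = (h ^ 2 + 16 * h + 256) ^ 3)
    (hcoef : h.coeff (-1) ≠ 0)
    (hπ : πL O K1 ρ hρ ∈ A0L O K1 (N * 2))
    (m : Ideal ↥(A0L O K1 (N * 2))) (hm : m.IsMaximal)
    (hπm : (⟨πL O K1 ρ hρ, hπ⟩ : ↥(A0L O K1 (N * 2))) ∈ m) :
    ∃ (a : ↥(OL O K1)) (hA : h - (a : LaurentSeries K1) ∈ A0L O K1 (N * 2)),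
      ¬ (⟨πL O K1 ρ hρ, S.π_mem⟩ : ↥(OL O K1)) ∣ a * (a + 16) ∧
      (⟨h - (a : LaurentSeries K1), hA⟩ : ↥(A0L O K1 (N * 2))) ∈ m ∧
      ∀ y ∈ m, ∃ s, s ∉ m ∧ ∃ α β : ↥(A0L O K1 (N * 2)),
        s * y = α * (⟨πL O K1 ρ hρ, hπ⟩ : ↥(A0L O K1 (N * 2)))
          + β * (⟨h - (a : LaurentSeries K1), hA⟩ : ↥(A0L O K1 (N * 2))) := by
  classical
  haveI hdvr : IsDiscreteValuationRing ↥(OL O K1) := S.dvr
  have hπirr : Irreducible (⟨πL O K1 ρ hρ, S.π_mem⟩ : ↥(OL O K1)) := S.π_irr S.π_mem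
  let e := equivOL O K1
  have h2' : IsUnit (2 : ↥(OL O K1)) := by
    have := h2.map (e : O →+* ↥(OL O K1))
    rwa [map_ofNat] at this
  have h16 : IsUnit (-16 : ↥(OL O K1)) := by
    have : (-16 : ↥(OL O K1)) = -(2 ^ 4) := by norm_num
    rw [this]
    exact (h2'.pow 4).neg
  obtain ⟨v, hv⟩ := h16.exists_right_inv
  -- `t = v h`, `h = -16 t`
  have h16c : ((-16 : ↥(OL O K1)) : LaurentSeries K1) = -16 := by
    have := map_neg (OL O K1).subtype (16 : ↥(OL O K1))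
    rw [map_ofNat] at this
    exact this
  have hvL : (-16 : LaurentSeries K1) * (v : LaurentSeries K1) = 1 := by
    have := congrArg (OL O K1).subtype hv
    rw [map_mul, map_one] at this
    rw [← h16c]
    exact this
  have hvne : (v : LaurentSeries K1) ≠ 0 := by
    intro h0
    rw [h0, mul_zero] at hvL
    exact zero_ne_one hvL
  set t : LaurentSeries K1 := (v : LaurentSeries K1) * h with ht
  have hth : h = -16 * t := by
    rw [ht, ← mul_assoc, hvL, one_mul]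
  have hvF : (v : LaurentSeries K1) ∈ modularFunctionFieldFullC K1 (N * 2) :=
    OL_le_F1L (O := O) (K1 := K1) (N * 2) v.2
  have htF : t ∈ modularFunctionFieldFullC K1 (N * 2) := mul_mem hvF hhF
  have hcz : CharZero (LaurentSeries K1) :=
    charZero_of_injective_ringHom (HahnSeries.C_injective (Γ := ℤ) (R := K1))
  have hrel : 256 * (t ^ 2 - t + 1) ^ 3 = qExpand K1 2 (jqModC K1) * (t ^ 2 - t) ^ 2 := by
    have h1 := hV2
    rw [hth] at h1
    have e1 : (65536 : LaurentSeries K1) * (256 * (t ^ 2 - t + 1) ^ 3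
        - qExpand K1 2 (jqModC K1) * (t ^ 2 - t) ^ 2) = 0 := by
      linear_combination -h1
    have h65 : (65536 : LaurentSeries K1) ≠ 0 := by norm_num
    have := (mul_eq_zero.mp e1).resolve_left h65
    exact sub_eq_zero.mp this
  have htk : t.coeff (-1) ≠ 0 := by
    obtain ⟨c, hc⟩ := v.2
    have hvC : (v : LaurentSeries K1) = HahnSeries.C (algebraMap O K1 c) := hc.symm
    rw [ht, hvC, HahnSeries.C_mul_eq_smul, HahnSeries.coeff_smul]
    intro h0
    rcases smul_eq_zero.mp h0 with h0 | h0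
    · apply hvne
      rw [hvC, h0, map_zero]
    · exact hcoef h0
  obtain ⟨t₀, htA, hBd, h1, h2''⟩ := S36E1_lam ρ hρ N hρs emb S h2N h2 t htF hrel (-1)
    (by norm_num) htk hπ m hm hπm
  have hOA := S36E1_OL_le_A0L (O := O) (K1 := K1) (N * 2)
  have h16A : (-16 : LaurentSeries K1) ∈ A0L O K1 (N * 2) := by
    have : ((-16 : ↥(OL O K1)) : LaurentSeries K1) ∈ A0L O K1 (N * 2) := hOA (-16 : ↥(OL O K1)).2
    rwa [h16c] at this
  have hvA : (v : LaurentSeries K1) ∈ A0L O K1 (N * 2) := hOA v.2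
  have hcoe_a : (((-16 : ↥(OL O K1)) * t₀ : ↥(OL O K1)) : LaurentSeries K1)
      = -16 * (t₀ : LaurentSeries K1) := by
    have := map_mul (OL O K1).subtype (-16 : ↥(OL O K1)) t₀
    rw [← h16c]
    exact this
  have hdiff : h - (((-16 : ↥(OL O K1)) * t₀ : ↥(OL O K1)) : LaurentSeries K1)
      = -16 * (t - (t₀ : LaurentSeries K1)) := by
    rw [hcoe_a, hth]; ring
  have hA : h - (((-16 : ↥(OL O K1)) * t₀ : ↥(OL O K1)) : LaurentSeries K1)
      ∈ A0L O K1 (N * 2) := by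
    rw [hdiff]
    exact mul_mem h16A htA
  have hprod : (⟨h - (((-16 : ↥(OL O K1)) * t₀ : ↥(OL O K1)) : LaurentSeries K1), hA⟩ :
      ↥(A0L O K1 (N * 2))) = ⟨-16, h16A⟩ * ⟨t - (t₀ : LaurentSeries K1), htA⟩ :=
    Subtype.ext hdiff
  have hback : (⟨t - (t₀ : LaurentSeries K1), htA⟩ : ↥(A0L O K1 (N * 2)))
      = ⟨(v : LaurentSeries K1), hvA⟩ *
        ⟨h - (((-16 : ↥(OL O K1)) * t₀ : ↥(OL O K1)) : LaurentSeries K1), hA⟩ := by
    apply Subtype.ext
    show t - (t₀ : LaurentSeries K1) = (v : LaurentSeries K1) *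
      (h - (((-16 : ↥(OL O K1)) * t₀ : ↥(OL O K1)) : LaurentSeries K1))
    rw [hdiff, ← mul_assoc, mul_comm (v : LaurentSeries K1) (-16), hvL, one_mul]
  refine ⟨(-16 : ↥(OL O K1)) * t₀, hA, ?_, ?_, ?_⟩
  · intro hdvd
    apply hBd
    have e2 : (-16 : ↥(OL O K1)) * t₀ * ((-16 : ↥(OL O K1)) * t₀ + 16)
        = 256 * (t₀ ^ 2 - t₀) := by ring
    rw [e2] at hdvd
    have hpr := hπirr.prime
    rcases hpr.dvd_or_dvd hdvd with h3 | h3
    · exfalso
      have : (256 : ↥(OL O K1)) = 2 ^ 8 := by norm_num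
      rw [this] at h3
      have h4 := hpr.dvd_of_dvd_pow h3
      exact hπirr.not_isUnit (isUnit_of_dvd_unit h4 h2')
    · rw [pow_two]
      exact Dvd.dvd.mul_right h3 _
  · rw [hprod]
    exact m.mul_mem_left _ h1
  · intro y hy
    obtain ⟨s, hs, α, β, hab⟩ := h2'' y hy
    refine ⟨s, hs, α, β * ⟨(v : LaurentSeries K1), hvA⟩, ?_⟩
    rw [hab, hback]
    ring

/-- **E1 for helper8's Hauptmodul `h = (η(τ)/η(4τ))⁸` of level `4`.** -/
theorem S36E1_h4 [NeZero (N * 2)] (hρs : Function.Surjective ρ)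
    (emb : K1 →+* AlgebraicClosure ℚ)
    (S : Setup (OL O K1) (πL O K1 ρ hρ) (jqModC K1) (F1L K1 N) (VL O K1 ρ hρ N)
      (A0L O K1 N) (AinfL O K1 N))
    (h2N : 2 ∣ N) (h2 : IsUnit (2 : O))
    (hπ : πL O K1 ρ hρ ∈ A0L O K1 (N * 2))
    (m : Ideal ↥(A0L O K1 (N * 2))) (hm : m.IsMaximal)
    (hπm : (⟨πL O K1 ρ hρ, hπ⟩ : ↥(A0L O K1 (N * 2))) ∈ m) :
    ∃ (a : ↥(OL O K1))
      (hA : S36AUX_hK K1 Fermat.Agent.S36_helper8_A4Q.S36A4_u - (a : LaurentSeries K1)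
        ∈ A0L O K1 (N * 2)),
      ¬ (⟨πL O K1 ρ hρ, S.π_mem⟩ : ↥(OL O K1)) ∣ a * (a + 16) ∧
      (⟨S36AUX_hK K1 Fermat.Agent.S36_helper8_A4Q.S36A4_u - (a : LaurentSeries K1), hA⟩ :
        ↥(A0L O K1 (N * 2))) ∈ m ∧
      ∀ y ∈ m, ∃ s, s ∉ m ∧ ∃ α β : ↥(A0L O K1 (N * 2)),
        s * y = α * (⟨πL O K1 ρ hρ, hπ⟩ : ↥(A0L O K1 (N * 2)))
          + β * (⟨S36AUX_hK K1 Fermat.Agent.S36_helper8_A4Q.S36A4_u - (a : LaurentSeries K1),
            hA⟩ : ↥(A0L O K1 (N * 2))) := by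
  have h4N : 4 ∣ N * 2 := by
    obtain ⟨c, hc⟩ := h2N
    exact ⟨c, by rw [hc]; ring⟩
  have hhF : S36AUX_hK K1 Fermat.Agent.S36_helper8_A4Q.S36A4_u
      ∈ modularFunctionFieldFullC K1 (N * 2) :=
    Fermat.Agent.S36_helper21_HLOCX.S36HX_mem Fermat.Agent.S36_helper8_A4Q.S36AUX_fourData K1
      (N * 2) h4N
  have hcoef : (S36AUX_hK K1 Fermat.Agent.S36_helper8_A4Q.S36A4_u).coeff (-1) ≠ 0 := by
    have h1 : S36AUX_hK K1 Fermat.Agent.S36_helper8_A4Q.S36A4_u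
        = Fermat.Agent.S36_helper15_HXA.S36HX_ser K1
          (Fermat.Agent.S36_helper8_A4Q.S36A4_u.map (Int.castRingHom K1)) := rfl
    rw [h1, Fermat.Agent.S36_helper15_HXA.S36HX_coeff_neg_one K1 _
      (Fermat.Agent.S36_helper15_HXA.S36HX_constantCoeff_map _
        Fermat.Agent.S36_helper8_A4Q.S36A4_u_cc K1)]
    exact one_ne_zero
  exact S36E1_h4_gen ρ hρ N hρs emb S h2N h2 _ hhF
    (Fermat.Agent.S36_helper8_A4Q.S36A4_V2K' K1) hcoef hπ m hm hπm

end Fermat.Agent.S36_helper7_E1H
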