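import Mathlib
import Fermat.Agent.S36_helper7_E1H
import Fermat.Agent.S36_helper24_A9HESSE

/-!
# S36, GEO36 piece E1 (helper7): the Hauptmodul `h` of level `9` is a local parameter (`q = 2`)

`S36E1_h9_gen`: for `h ∈ F(K1, 3 N)` (`3 ∣ N`, `3` invertible in `O`, a primitive cube root of
unity in `O`), `h ≠ 0`, `h` in the chart, with a non-zero coefficient of `Q⁻¹`, such that
`t = 1 + 9 / h` satisfies the Hesse relation over `j(Q³)`:
every maximal ideal `m ∋ π` of the chart `A0L O K1 (3 N)` contains `h - a` for a constant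
`a ∈ O` and is generated by `π` and `h - a` locally at `m`.

`S36E1_h9`: the same for helper24's Hauptmodul `h = S36AUX_hK K1 S36A9_u` (the only hypothesis
on `h` left is `h ∈ A0L`, i.e. the integrality of `h` over `O[j]`).
-/

set_option autoImplicit false
set_option linter.unusedSectionVars false
set_option linter.style.haveILetI false
set_option linter.unusedVariables false
set_option maxHeartbeats 1000000
set_option synthInstance.maxHeartbeats 400000

noncomputable section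

open Polynomial ModularCurve Fermat.Agent.S18_helper13_GAUSS Fermat.Agent.S18_helper9_CDefs
open Fermat.Agent.S18A Fermat.Agent.S18AI Fermat.Agent.S18_helper29_COVERS
open Fermat.Agent.S36_helper7_E1IN Fermat.Agent.S36_helper7_E1H Fermat.Agent.S36_helper7_E1C
open Fermat.Agent.S36_helper8_AUXDefs

namespace Fermat.Agent.S36_helper7_E1H9

section Integral

/-- integrality from a relation `x · B(h) = a(h)³` with `a`, `B` integer polynomials, `a` monic,
`deg B < 3 deg a` -/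
theorem S36E1_isIntegral_of_rel {L : Type*} [Field L] (R : Subring L) (x h : L) (hx : x ∈ R)
    (a B : Polynomial ℤ) (ha : a.Monic) (hdeg : B.natDegree < 3 * a.natDegree)
    (hrel : x * eval₂ (Int.castRingHom L) h B = (eval₂ (Int.castRingHom L) h a) ^ 3) :
    IsIntegral R h := by
  let φ : ℤ →+* R := Int.castRingHom R
  have hmon : ((a.map φ) ^ 3).Monic := (ha.map φ).pow 3
  have hdegp : ((a.map φ) ^ 3).natDegree = 3 * a.natDegree := by
    rw [(ha.map φ).natDegree_pow, ha.natDegree_map, mul_comm]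
  have hdegq : (C (⟨x, hx⟩ : R) * B.map φ).degree < ((a.map φ) ^ 3).degree := by
    apply degree_lt_degree
    rw [hdegp]
    calc (C (⟨x, hx⟩ : R) * B.map φ).natDegree ≤ (B.map φ).natDegree := natDegree_C_mul_le _ _
      _ ≤ B.natDegree := natDegree_map_le
      _ < 3 * a.natDegree := hdeg
  refine ⟨(a.map φ) ^ 3 - C (⟨x, hx⟩ : R) * B.map φ, hmon.sub_of_left hdegq, ?_⟩
  have hcomp : (algebraMap R L).comp φ = Int.castRingHom L := RingHom.ext_int _ _
  rw [eval₂_sub, eval₂_pow, eval₂_mul, eval₂_C, eval₂_map, eval₂_map, hcomp, ← hrel]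
  show x * _ - x * _ = 0
  exact sub_self _

/-- the relation `j · B(h) = a(h)³` of the datum, over any ring -/
theorem S36E1_relK {r : ℕ} [NeZero r] (D : S36AUX_Data r) (K : Type*) [CommRing K] :
    jqModC K * eval₂ (Int.castRingHom (LaurentSeries K)) (S36AUX_hK K D.u) D.B
      = (eval₂ (Int.castRingHom (LaurentSeries K)) (S36AUX_hK K D.u) D.a) ^ 3 := by
  have h := congrArg (coeffMap (Int.castRingHom K)) D.rel
  rw [map_mul, map_pow, coeffMap_jqModC] at h
  have e : ∀ p : Polynomial ℤ, coeffMap (Int.castRingHom K) (aeval (S36AUX_h D.u) p)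
      = eval₂ (Int.castRingHom (LaurentSeries K)) (S36AUX_hK K D.u) p := by
    intro p
    rw [Polynomial.aeval_def, Polynomial.hom_eval₂,
      Fermat.Agent.S36_helper8_A4Q.S36A4_coeffMap_h K D.u]
    congr 1
    exact RingHom.ext_int _ _
  rw [e, e] at h
  exact h

/-- **the Hauptmodul is integral over `O[j]`** -/
theorem S36E1_h_isIntegral {r : ℕ} [NeZero r] (D : S36AUX_Data r) {K1 : Type*} [Field K1]
    (O : Subring (LaurentSeries K1)) :
    IsIntegral (adj O (jqModC K1)) (S36AUX_hK K1 D.u) := by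
  refine S36E1_isIntegral_of_rel (adj O (jqModC K1)) (jqModC K1) _
    (Subring.subset_closure (Or.inr rfl)) D.a D.B D.ha ?_ (S36E1_relK D K1)
  have := D.hdeg
  omega

/-- **the Hauptmodul lies in the finite chart of every level divisible by `r`** -/
theorem S36E1_h_mem_A0L {r : ℕ} [NeZero r] (D : S36AUX_Data r) (O : Type) {K1 : Type}
    [CommRing O] [Field K1] [CharZero K1] [Algebra O K1] (M : ℕ) [NeZero M] (hr : r ∣ M) :
    S36AUX_hK K1 D.u ∈ A0L O K1 M :=
  mem_icl.mpr ⟨S36E1_h_isIntegral D (OL O K1),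
    Fermat.Agent.S36_helper21_HLOCX.S36HX_mem D K1 M hr⟩

end Integral

variable {O K1 k : Type} [CommRing O] [IsDomain O] [IsDiscreteValuationRing O] [Field K1]
  [CharZero K1] [Algebra O K1] [IsFractionRing O K1] [Field k] [IsAlgClosed k]
  (ρ : O →+* k) (hρ : ∀ x : O, ρ x = 0 ↔ x ∈ IsLocalRing.maximalIdeal O) (N : ℕ) [NeZero N]

/-- **E1 for a Hauptmodul of level `9`** (hypotheses on `h`). -/
theorem S36E1_h9_gen [NeZero (N * 3)] (hρs : Function.Surjective ρ)
    (emb : K1 →+* AlgebraicClosure ℚ)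
    (S : Setup (OL O K1) (πL O K1 ρ hρ) (jqModC K1) (F1L K1 N) (VL O K1 ρ hρ N)
      (A0L O K1 N) (AinfL O K1 N))
    (h3N : 3 ∣ N) (h3 : IsUnit (3 : O)) (w : O) (hw : w ^ 2 + w + 1 = 0)
    (h : LaurentSeries K1) (hhF : h ∈ modularFunctionFieldFullC K1 (N * 3))
    (hhA : h ∈ A0L O K1 (N * 3)) (hh0 : h ≠ 0)
    (hrel : ∀ t : LaurentSeries K1, t * h = h + 9 →
      27 * (t * (t ^ 3 + 8)) ^ 3 = qExpand K1 3 (jqModC K1) * (t ^ 3 - 1) ^ 3)
    (hcoef : h.coeff (-1) ≠ 0)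
    (hπ : πL O K1 ρ hρ ∈ A0L O K1 (N * 3))
    (m : Ideal ↥(A0L O K1 (N * 3))) (hm : m.IsMaximal)
    (hπm : (⟨πL O K1 ρ hρ, hπ⟩ : ↥(A0L O K1 (N * 3))) ∈ m) :
    ∃ (a : ↥(OL O K1)) (hA : h - (a : LaurentSeries K1) ∈ A0L O K1 (N * 3)),
      (⟨h - (a : LaurentSeries K1), hA⟩ : ↥(A0L O K1 (N * 3))) ∈ m ∧
      ∀ y ∈ m, ∃ s, s ∉ m ∧ ∃ α β : ↥(A0L O K1 (N * 3)),
        s * y = α * (⟨πL O K1 ρ hρ, hπ⟩ : ↥(A0L O K1 (N * 3)))
          + β * (⟨h - (a : LaurentSeries K1), hA⟩ : ↥(A0L O K1 (N * 3))) := by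
  classical
  haveI hdvr : IsDiscreteValuationRing ↥(OL O K1) := S.dvr
  have hπirr : Irreducible (⟨πL O K1 ρ hρ, S.π_mem⟩ : ↥(OL O K1)) := S.π_irr S.π_mem
  let e := equivOL O K1
  have hcz : CharZero (LaurentSeries K1) :=
    charZero_of_injective_ringHom (HahnSeries.C_injective (Γ := ℤ) (R := K1))
  have h9ne : (9 : LaurentSeries K1) ≠ 0 := by norm_num
  have h3' : IsUnit (3 : ↥(OL O K1)) := by
    have := h3.map (e : O →+* ↥(OL O K1))
    rwa [map_ofNat] at this
  have h9u : IsUnit (9 : ↥(OL O K1)) := by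
    have : (9 : ↥(OL O K1)) = 3 ^ 2 := by norm_num
    rw [this]
    exact h3'.pow 2
  obtain ⟨v9, hv9⟩ := h9u.exists_right_inv
  have h9c : ((9 : ↥(OL O K1)) : LaurentSeries K1) = 9 := map_ofNat (OL O K1).subtype 9
  have h1c : ((1 : ↥(OL O K1)) : LaurentSeries K1) = 1 := map_one (OL O K1).subtype
  have hv9L : (9 : LaurentSeries K1) * (v9 : LaurentSeries K1) = 1 := by
    have := congrArg (OL O K1).subtype hv9
    rw [map_mul, map_one] at this
    rw [← h9c]
    exact this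
  -- the Hesse coordinate
  set t : LaurentSeries K1 := 1 + 9 * h⁻¹ with ht
  have hth : t * h = h + 9 := by
    rw [ht, add_mul, one_mul, mul_assoc, inv_mul_cancel₀ hh0, mul_one]
  have htF : t ∈ modularFunctionFieldFullC K1 (N * 3) := by
    rw [ht]
    refine add_mem (one_mem _) (mul_mem ?_ (inv_mem hhF))
    have : ((9 : ℕ) : LaurentSeries K1) ∈ modularFunctionFieldFullC K1 (N * 3) :=
      natCast_mem _ 9
    have e9 : ((9 : ℕ) : LaurentSeries K1) = 9 := by norm_num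
    rwa [e9] at this
  have hrel0 := hrel t hth
  have hrel' : eval₂ (OL O K1).subtype t (muNum ↥(OL O K1))
      = qExpand K1 3 (jqModC K1) * eval₂ (OL O K1).subtype t (muDen ↥(OL O K1)) := by
    have e1 : eval₂ (OL O K1).subtype t (muNum ↥(OL O K1)) = aeval t (muNum ↥(OL O K1)) := rfl
    have e2 : eval₂ (OL O K1).subtype t (muDen ↥(OL O K1)) = aeval t (muDen ↥(OL O K1)) := rfl
    rw [e1, e2, aeval_muNum, aeval_muDen]
    exact hrel0
  -- generation, through `h`
  have hgenh := S36E1_hgen emb N 3 Nat.prime_three h3N h hhF (-1) (by norm_num) hcoef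
  have hgen : ∀ y ∈ modularFunctionFieldFullC K1 (N * 3),
      y ∈ Subfield.closure
        ((qExpand K1 3 '' (modularFunctionFieldFullC K1 N : Set (LaurentSeries K1))) ∪ {t}) := by
    intro y hy
    have hle : Subfield.closure
        ((qExpand K1 3 '' (modularFunctionFieldFullC K1 N : Set (LaurentSeries K1))) ∪ {h})
        ≤ Subfield.closure
        ((qExpand K1 3 '' (modularFunctionFieldFullC K1 N : Set (LaurentSeries K1))) ∪ {t}) := by
      rw [Subfield.closure_le]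
      rintro z (hz | hz)
      · exact Subfield.subset_closure (Or.inl hz)
      · rw [Set.mem_singleton_iff] at hz
        rw [hz]
        have htc : t ∈ Subfield.closure
            ((qExpand K1 3 '' (modularFunctionFieldFullC K1 N : Set (LaurentSeries K1))) ∪ {t}) :=
          Subfield.subset_closure (Or.inr rfl)
        have h9m : (9 : LaurentSeries K1) ∈ Subfield.closure
            ((qExpand K1 3 '' (modularFunctionFieldFullC K1 N : Set (LaurentSeries K1))) ∪ {t}) := by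
          have : ((9 : ℕ) : LaurentSeries K1) ∈ Subfield.closure
            ((qExpand K1 3 '' (modularFunctionFieldFullC K1 N : Set (LaurentSeries K1))) ∪ {t}) :=
            natCast_mem _ 9
          have e9 : ((9 : ℕ) : LaurentSeries K1) = 9 := by norm_num
          rwa [e9] at this
        have hh : h = 9 * (t - 1)⁻¹ := by
          have h1 : t - 1 = 9 * h⁻¹ := by rw [ht]; ring
          rw [h1, mul_inv, inv_inv, ← mul_assoc, mul_inv_cancel₀ h9ne, one_mul]
        rw [hh]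
        exact mul_mem h9m (inv_mem (sub_mem htc (one_mem _)))
    exact hle (hgenh y hy)
  obtain ⟨t₀, htA, hBd, h1, h2⟩ := S36E1_plug ρ hρ N 3 hρs emb S
    (muNum ↥(OL O K1)) (muDen ↥(OL O K1)) (Or.inr ⟨rfl, rfl, h3, w, hw⟩) t htF hrel' hgen
    (fun y _ => S36E1_hchart (OL O K1) 3 Nat.prime_three y) hπ m hm hπm
  have e3 : (muDen ↥(OL O K1)).eval t₀ = (t₀ ^ 3 - 1) ^ 3 := by simp [muDen, muB]
  rw [e3] at hBd
  -- `t₀ - 1` is a unit
  have hu : IsUnit (t₀ - 1) := by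
    apply Fermat.Agent.S18_helper17_PLUGGEN.S18PG_isUnit_of_not_dvd hπirr
    intro hd
    apply hBd
    have : t₀ ^ 3 - 1 = (t₀ - 1) * (t₀ ^ 2 + t₀ + 1) := by ring
    rw [this, mul_pow]
    exact Dvd.dvd.mul_right (dvd_pow hd (by norm_num)) _
  obtain ⟨w₁, hw₁⟩ := hu.exists_right_inv
  have hw₁L : ((t₀ : LaurentSeries K1) - 1) * (w₁ : LaurentSeries K1) = 1 := by
    have := congrArg (OL O K1).subtype hw₁
    rw [map_mul, map_one, map_sub, map_one] at this
    exact this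
  have hOA := S36E1_OL_le_A0L (O := O) (K1 := K1) (N * 3)
  have hcoe_a : (((9 : ↥(OL O K1)) * w₁ : ↥(OL O K1)) : LaurentSeries K1)
      = 9 * (w₁ : LaurentSeries K1) := by
    have := map_mul (OL O K1).subtype (9 : ↥(OL O K1)) w₁
    rw [← h9c]
    exact this
  have hthm : (t - 1) * h = 9 := by rw [sub_mul, one_mul, hth]; ring
  have hdiff : h - (((9 : ↥(OL O K1)) * w₁ : ↥(OL O K1)) : LaurentSeries K1)
      = (-(w₁ : LaurentSeries K1) * h) * (t - (t₀ : LaurentSeries K1)) := by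
    rw [hcoe_a]
    linear_combination (w₁ : LaurentSeries K1) * hthm - (h : LaurentSeries K1) * hw₁L
  have hw₁A : (w₁ : LaurentSeries K1) ∈ A0L O K1 (N * 3) := hOA w₁.2
  have hcA : -(w₁ : LaurentSeries K1) * h ∈ A0L O K1 (N * 3) :=
    mul_mem (neg_mem hw₁A) hhA
  have hA : h - (((9 : ↥(OL O K1)) * w₁ : ↥(OL O K1)) : LaurentSeries K1)
      ∈ A0L O K1 (N * 3) := by
    rw [hdiff]
    exact mul_mem hcA htA
  have hprod : (⟨h - (((9 : ↥(OL O K1)) * w₁ : ↥(OL O K1)) : LaurentSeries K1), hA⟩ :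
      ↥(A0L O K1 (N * 3))) = ⟨-(w₁ : LaurentSeries K1) * h, hcA⟩ *
        ⟨t - (t₀ : LaurentSeries K1), htA⟩ :=
    Subtype.ext hdiff
  -- the inverse direction: `t - t₀ = c (h - a)` with `c = -(t₀ - 1) (t - 1) / 9`
  have ht₀A : (t₀ : LaurentSeries K1) ∈ A0L O K1 (N * 3) := hOA t₀.2
  have htA' : t ∈ A0L O K1 (N * 3) := by
    have := add_mem htA ht₀A
    simpa using this
  have hv9A : (v9 : LaurentSeries K1) ∈ A0L O K1 (N * 3) := hOA v9.2
  have hcbA : -((t₀ : LaurentSeries K1) - 1) * ((t - 1) * (v9 : LaurentSeries K1))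
      ∈ A0L O K1 (N * 3) :=
    mul_mem (neg_mem (sub_mem ht₀A (one_mem _)))
      (mul_mem (sub_mem htA' (one_mem _)) hv9A)
  have hback : (⟨t - (t₀ : LaurentSeries K1), htA⟩ : ↥(A0L O K1 (N * 3)))
      = ⟨-((t₀ : LaurentSeries K1) - 1) * ((t - 1) * (v9 : LaurentSeries K1)), hcbA⟩ *
        ⟨h - (((9 : ↥(OL O K1)) * w₁ : ↥(OL O K1)) : LaurentSeries K1), hA⟩ := by
    apply Subtype.ext
    show t - (t₀ : LaurentSeries K1)
      = -((t₀ : LaurentSeries K1) - 1) * ((t - 1) * (v9 : LaurentSeries K1)) *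
        (h - (((9 : ↥(OL O K1)) * w₁ : ↥(OL O K1)) : LaurentSeries K1))
    rw [hdiff]
    linear_combination
      (-(t - (t₀ : LaurentSeries K1)) * ((t - 1) * h * (v9 : LaurentSeries K1))) * hw₁L
      + (-(t - (t₀ : LaurentSeries K1)) * (v9 : LaurentSeries K1)) * hthm
      + (-(t - (t₀ : LaurentSeries K1))) * hv9L
  refine ⟨(9 : ↥(OL O K1)) * w₁, hA, ?_, ?_⟩
  · rw [hprod]
    exact m.mul_mem_left _ h1
  · intro y hy
    obtain ⟨s, hs, α, β, hab⟩ := h2 y hy
    refine ⟨s, hs, α, β * ⟨-((t₀ : LaurentSeries K1) - 1) * ((t - 1) * (v9 : LaurentSeries K1)),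
      hcbA⟩, ?_⟩
    rw [hab, hback]
    ring

/-- **E1 for helper24's Hauptmodul `h = (η(τ)/η(9τ))³` of level `9`** (no hypothesis on `h`
left). -/
theorem S36E1_h9 [NeZero (N * 3)] (hρs : Function.Surjective ρ)
    (emb : K1 →+* AlgebraicClosure ℚ)
    (S : Setup (OL O K1) (πL O K1 ρ hρ) (jqModC K1) (F1L K1 N) (VL O K1 ρ hρ N)
      (A0L O K1 N) (AinfL O K1 N))
    (h3N : 3 ∣ N) (h3 : IsUnit (3 : O)) (w : O) (hw : w ^ 2 + w + 1 = 0)
    (hπ : πL O K1 ρ hρ ∈ A0L O K1 (N * 3))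
    (m : Ideal ↥(A0L O K1 (N * 3))) (hm : m.IsMaximal)
    (hπm : (⟨πL O K1 ρ hρ, hπ⟩ : ↥(A0L O K1 (N * 3))) ∈ m) :
    ∃ (a : ↥(OL O K1))
      (hA : S36AUX_hK K1 Fermat.Agent.S36_helper24_A9Q.S36A9_u - (a : LaurentSeries K1)
        ∈ A0L O K1 (N * 3)),
      (⟨S36AUX_hK K1 Fermat.Agent.S36_helper24_A9Q.S36A9_u - (a : LaurentSeries K1), hA⟩ :
        ↥(A0L O K1 (N * 3))) ∈ m ∧
      ∀ y ∈ m, ∃ s, s ∉ m ∧ ∃ α β : ↥(A0L O K1 (N * 3)),
        s * y = α * (⟨πL O K1 ρ hρ, hπ⟩ : ↥(A0L O K1 (N * 3)))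
          + β * (⟨S36AUX_hK K1 Fermat.Agent.S36_helper24_A9Q.S36A9_u - (a : LaurentSeries K1),
            hA⟩ : ↥(A0L O K1 (N * 3))) := by
  have h9N : 9 ∣ N * 3 := by
    obtain ⟨c, hc⟩ := h3N
    exact ⟨c, by rw [hc]; ring⟩
  have hhF : S36AUX_hK K1 Fermat.Agent.S36_helper24_A9Q.S36A9_u
      ∈ modularFunctionFieldFullC K1 (N * 3) :=
    Fermat.Agent.S36_helper21_HLOCX.S36HX_mem Fermat.Agent.S36_helper24_A9Q.S36AUX_nineData K1
      (N * 3) h9N
  have hhA : S36AUX_hK K1 Fermat.Agent.S36_helper24_A9Q.S36A9_u ∈ A0L O K1 (N * 3) :=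
    S36E1_h_mem_A0L Fermat.Agent.S36_helper24_A9Q.S36AUX_nineData O (N * 3) h9N
  have hcoef : (S36AUX_hK K1 Fermat.Agent.S36_helper24_A9Q.S36A9_u).coeff (-1) ≠ 0 := by
    rw [Fermat.Agent.S36_helper24_A9HESSE.S36A9_hK_coeff_neg_one K1]
    exact one_ne_zero
  exact S36E1_h9_gen ρ hρ N hρs emb S h3N h3 w hw _ hhF hhA
    (Fermat.Agent.S36_helper24_A9HESSE.S36A9_hK_ne K1)
    (fun t ht => Fermat.Agent.S36_helper24_A9HESSE.S36A9_hesse K1 t ht) hcoef hπ m hm hπm

end Fermat.Agent.S36_helper7_E1H9
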