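import Mathlib
import Fermat.Agent.S36_helper7_E1H9
import Fermat.Agent.S18_helper14_BLOCKB

/-!
# S36, GEO36 piece E1 (helper7): the statement for the concrete carriers `S18K_*`

For a valuation subring `A` of `ℚ̄` over a prime `q`, an admissible level `K1`, and a level `N'`
prime to `q` and divisible by the auxiliary level `r` (`r = 4` for `q` odd, `r = 9` for `q = 2`):
every maximal ideal `m ∋ π` of the finite chart `S18K_A0 A K1 N'` contains `h - x₀` for a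
constant `x₀ ∈ O` and is generated by `π` and `h - x₀` locally at `m`, where `h` is the
Hauptmodul of level `r` (`S36AUX_fourData`, resp. `S36AUX_nineData`).

This is the hypothesis `hE1` of `THICK-PLUG`, verbatim.
-/

set_option autoImplicit false
set_option linter.unusedSectionVars false
set_option linter.style.haveILetI false
set_option linter.unusedVariables false
set_option maxHeartbeats 1000000
set_option synthInstance.maxHeartbeats 400000

noncomputable section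

open ModularCurve Fermat.Agent.S18_helper13_GAUSS Fermat.Agent.S18_helper9_CDefs
open Fermat.Agent.S18A Fermat.Agent.S18AK Fermat.Agent.S18_helper25_COREDefs
open Fermat.Agent.S18_helper12_ROOTS Fermat.Agent.S36_helper8_AUXDefs

namespace Fermat.Agent.S36_helper7_E1K

/-- **E1 at the carriers, `q` odd (`r = 4`).** -/
theorem S36E1_K4 (N' : ℕ) [NeZero N'] {q : ℕ} (hq : q.Prime) (hq2 : q ≠ 2) (hqN : ¬ q ∣ N')
    (h4 : 4 ∣ N') (A : ValuationSubring (AlgebraicClosure ℚ)) (hA : A.LiesOverPrime q)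
    (K1 : IntermediateField ℚ (AlgebraicClosure ℚ)) (h : S18K_Admissible A K1 q) :
    letI := h.dvr
    ∀ (hπ : S18K_π A K1 ∈ S18K_A0 A K1 N') (m : Ideal ↥(S18K_A0 A K1 N')), m.IsMaximal →
      (⟨S18K_π A K1, hπ⟩ : ↥(S18K_A0 A K1 N')) ∈ m →
      ∃ x0 ∈ S18K_O A K1,
        ∃ hx : S36AUX_hK K1 Fermat.Agent.S36_helper8_A4Q.S36A4_u - x0 ∈ S18K_A0 A K1 N',
        (⟨S36AUX_hK K1 Fermat.Agent.S36_helper8_A4Q.S36A4_u - x0, hx⟩ : ↥(S18K_A0 A K1 N')) ∈ m ∧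
        ∀ b ∈ m, ∃ s, s ∉ m ∧ ∃ α β : ↥(S18K_A0 A K1 N'),
          s * b = α * (⟨S18K_π A K1, hπ⟩ : ↥(S18K_A0 A K1 N'))
            + β * (⟨S36AUX_hK K1 Fermat.Agent.S36_helper8_A4Q.S36A4_u - x0, hx⟩ :
              ↥(S18K_A0 A K1 N')) := by
  letI := h.dvr
  obtain ⟨c, hc⟩ := h4
  have hN' : N' = (2 * c) * 2 := by omega
  subst hN'
  have hc0 : 2 * c ≠ 0 := by
    intro h0
    exact NeZero.ne (2 * c * 2) (by rw [h0, zero_mul])
  haveI : NeZero (2 * c) := ⟨hc0⟩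
  have hqc : ¬ q ∣ 2 * c := fun hd => hqN (Dvd.dvd.mul_right hd 2)
  haveI : Fact q.Prime := ⟨hq⟩
  haveI : CharP (IsLocalRing.ResidueField A) q :=
    Fermat.Agent.S18_helper5_BASE.S18A1_charP_residue A hq hA
  haveI : Algebra.IsAlgebraic ℚ ↥K1 :=
    Fermat.Agent.S18_helper5_BASE.S18A1_isAlgebraic_of_embedding ↥K1
      (algebraMap ↥K1 (AlgebraicClosure ℚ))
  haveI : IsAlgClosed (IsLocalRing.ResidueField A) :=
    Fermat.Agent.S18_helper27_RESALGCL.S18RES_isAlgClosed_residueField_Qbar A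
  have S := setup (O := ↥(S18K_O1 A K1)) (K1 := ↥K1) (2 * c) q (S18K_res A K1) (S18K_res_eq_zero_iff A K1) hqc
  have h2u : IsUnit (2 : ↥(S18K_O1 A K1)) := by
    have h2' : ¬ q ∣ 2 := fun hd => hq2 ((Nat.prime_dvd_prime_iff_eq hq Nat.prime_two).mp hd)
    have := S18RT_isUnit_natCast A K1 hq hA h2'
    exact_mod_cast this
  rw [S18K_A0_eq, S18K_O_eq]
  intro hπ m hm hπm
  obtain ⟨a, hA', -, h1, h2⟩ := Fermat.Agent.S36_helper7_E1H.S36E1_h4
    (O := ↥(S18K_O1 A K1)) (K1 := ↥K1) (S18K_res A K1) (S18K_res_eq_zero_iff A K1) (2 * c)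
    h.res_surj (algebraMap ↥K1 (AlgebraicClosure ℚ)) S (dvd_mul_right 2 c) h2u hπ m hm hπm
  exact ⟨a, a.2, hA', h1, h2⟩

/-- **E1 at the carriers, `q = 2` (`r = 9`).** -/
theorem S36E1_K9 (N' : ℕ) [NeZero N'] {q : ℕ} (hq : q.Prime) (hq3 : q ≠ 3) (hqN : ¬ q ∣ N')
    (h9 : 9 ∣ N') (A : ValuationSubring (AlgebraicClosure ℚ)) (hA : A.LiesOverPrime q)
    (K1 : IntermediateField ℚ (AlgebraicClosure ℚ)) (h : S18K_Admissible A K1 q) :
    letI := h.dvr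
    ∀ (hπ : S18K_π A K1 ∈ S18K_A0 A K1 N') (m : Ideal ↥(S18K_A0 A K1 N')), m.IsMaximal →
      (⟨S18K_π A K1, hπ⟩ : ↥(S18K_A0 A K1 N')) ∈ m →
      ∃ x0 ∈ S18K_O A K1,
        ∃ hx : S36AUX_hK K1 Fermat.Agent.S36_helper24_A9Q.S36A9_u - x0 ∈ S18K_A0 A K1 N',
        (⟨S36AUX_hK K1 Fermat.Agent.S36_helper24_A9Q.S36A9_u - x0, hx⟩ :
          ↥(S18K_A0 A K1 N')) ∈ m ∧
        ∀ b ∈ m, ∃ s, s ∉ m ∧ ∃ α β : ↥(S18K_A0 A K1 N'),
          s * b = α * (⟨S18K_π A K1, hπ⟩ : ↥(S18K_A0 A K1 N'))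
            + β * (⟨S36AUX_hK K1 Fermat.Agent.S36_helper24_A9Q.S36A9_u - x0, hx⟩ :
              ↥(S18K_A0 A K1 N')) := by
  letI := h.dvr
  obtain ⟨c, hc⟩ := h9
  have hN' : N' = (3 * c) * 3 := by omega
  subst hN'
  have hc0 : 3 * c ≠ 0 := by
    intro h0
    exact NeZero.ne (3 * c * 3) (by rw [h0, zero_mul])
  haveI : NeZero (3 * c) := ⟨hc0⟩
  have hqc : ¬ q ∣ 3 * c := fun hd => hqN (Dvd.dvd.mul_right hd 3)
  haveI : Fact q.Prime := ⟨hq⟩
  haveI : CharP (IsLocalRing.ResidueField A) q :=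
    Fermat.Agent.S18_helper5_BASE.S18A1_charP_residue A hq hA
  haveI : Algebra.IsAlgebraic ℚ ↥K1 :=
    Fermat.Agent.S18_helper5_BASE.S18A1_isAlgebraic_of_embedding ↥K1
      (algebraMap ↥K1 (AlgebraicClosure ℚ))
  haveI : IsAlgClosed (IsLocalRing.ResidueField A) :=
    Fermat.Agent.S18_helper27_RESALGCL.S18RES_isAlgClosed_residueField_Qbar A
  have S := setup (O := ↥(S18K_O1 A K1)) (K1 := ↥K1) (3 * c) q (S18K_res A K1) (S18K_res_eq_zero_iff A K1) hqc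
  have h3u : IsUnit (3 : ↥(S18K_O1 A K1)) := by
    have h3' : ¬ q ∣ 3 := fun hd => hq3 ((Nat.prime_dvd_prime_iff_eq hq Nat.prime_three).mp hd)
    have := S18RT_isUnit_natCast A K1 hq hA h3'
    exact_mod_cast this
  obtain ⟨w, hw⟩ := S18RT_exists_cubeRoot A K1 hq h hq3
  rw [S18K_A0_eq, S18K_O_eq]
  intro hπ m hm hπm
  obtain ⟨a, hA', h1, h2⟩ := Fermat.Agent.S36_helper7_E1H9.S36E1_h9
    (O := ↥(S18K_O1 A K1)) (K1 := ↥K1) (S18K_res A K1) (S18K_res_eq_zero_iff A K1) (3 * c)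
    h.res_surj (algebraMap ↥K1 (AlgebraicClosure ℚ)) S (dvd_mul_right 3 c) h3u w hw hπ m hm hπm
  exact ⟨a, a.2, hA', h1, h2⟩

end Fermat.Agent.S36_helper7_E1K
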