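import Mathlib
import Fermat.Agent.S36_helper18_THICKP
import Fermat.Agent.S36_helper25_THUNRP
import Fermat.Agent.S36_helper15_HXI
import Fermat.Agent.S36_helper7_E1K
import Fermat.Agent.S36_helper17_CROSSK

/-!
# S36 (helper18): THICK, the closed form at the carriers

`S36THQ_main` = `S36THP_main` with its inputs discharged by the landed providers:

* `Dq = q dx/dy ∈ A'`      : helper25 `S36TUP_main`;
* `x ∈ B`, `y ∈ A'`        : helper15 `S36HXI_mem_A0`, `S36HXI_V_mem_A0`;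
* `q = π w`, `w ∈ O^×`     : from `Associated π q` in `O1` (unramified level).

Left as parameters: the Kronecker polynomial `G` with `Φ(x, y) = 0` (helper15 `S36HXK_main`; the
consumer uses the SAME `G` for the triple point), (E1) in the coordinate `x` (`S36THP_E1`,
helper7 `S36E1_K4` / `S36E1_K9` through the adapters below), and the point data `m`, `hmB`,
`hOn1`, `hOn2` (helper17 CROSSK).

* `S36THQ_E1_of_sub` : adapter from the subtype form of (E1) (helper7);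
* `S36THQ_E1_of_at`  : adapter from the `L`-form of (E1) with a membership proof;
* `S36THQ_four`, `S36THQ_nine` : the closed form for the two instances `r = 4` (`q` odd),
  `r = 9` (`q ≠ 3`, in particular `q = 2`).
-/

set_option autoImplicit false
set_option linter.unusedSectionVars false
set_option linter.unusedVariables false
set_option linter.unusedSimpArgs false
set_option linter.style.haveILetI false

noncomputable section

open MvPolynomial ModularCurve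
open Fermat.Agent.S18_helper13_GAUSS Fermat.Agent.S36_helper8_AUXDefs
open Fermat.Agent.S36_helper18_THICK Fermat.Agent.S36_helper18_THICKW
open Fermat.Agent.S36_helper18_THICKV Fermat.Agent.S36_helper18_THICKP
open Fermat.Agent.S34_helper20_V0K Fermat.Agent.S34_helper20_V0
open Fermat.Agent.S18_helper25_COREDefs Fermat.Agent.S34_helper27_V3K
open Fermat.Agent.S18_helper9_CDefs Fermat.Agent.S34_helper12_CDefs
open Fermat.Agent.S18_helper3_LOCRING

namespace Fermat.Agent.S36_helper18_THICKQ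

variable (A : ValuationSubring (AlgebraicClosure ℚ))
  (K1 : IntermediateField ℚ (AlgebraicClosure ℚ)) [IsDiscreteValuationRing (S18K_O1 A K1)]

/-- `q = π w` with `w` a unit of `O`, from `Associated π q` in `O1` -/
theorem S36THQ_unr {q : ℕ} (hunr : Associated (S18K_D A K1).π ((q : ℕ) : S18K_O1 A K1)) :
    ∃ w ∈ S18K_O A K1, w⁻¹ ∈ S18K_O A K1 ∧
      ((q : ℕ) : LaurentSeries K1) = S18K_π A K1 * w := by
  obtain ⟨u, hu⟩ := hunr
  have h1 : (HahnSeries.C ((S18K_D A K1).inc (u : S18K_O1 A K1)) : LaurentSeries K1)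
      * HahnSeries.C ((S18K_D A K1).inc (↑u⁻¹ : S18K_O1 A K1)) = 1 := by
    rw [← map_mul, ← map_mul, Units.mul_inv, map_one, map_one]
  have hinv : (HahnSeries.C ((S18K_D A K1).inc (u : S18K_O1 A K1)) : LaurentSeries K1)⁻¹
      = HahnSeries.C ((S18K_D A K1).inc (↑u⁻¹ : S18K_O1 A K1)) :=
    inv_eq_of_mul_eq_one_right h1
  have hmem : ∀ c : S18K_O1 A K1,
      (HahnSeries.C ((S18K_D A K1).inc c) : LaurentSeries K1) ∈ S18K_O A K1 := fun c =>
    (S18K_mem_O A K1 _).2 ⟨(c : K1), c.2, rfl⟩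
  refine ⟨HahnSeries.C ((S18K_D A K1).inc (u : S18K_O1 A K1)), hmem _, ?_, ?_⟩
  · rw [hinv]
    exact hmem _
  · show ((q : ℕ) : LaurentSeries K1) = (S18K_D A K1).πK * _
    rw [GaussData.πK, ← map_mul, ← map_mul, hu, map_natCast, map_natCast]

section E1

variable (N' : ℕ) [NeZero N'] (x : LaurentSeries K1)

/-- adapter: (E1) in the subtype form (equations in `B`) -/
theorem S36THQ_E1_of_sub
    (hE : ∀ (hπ : S18K_π A K1 ∈ S18K_A0 A K1 N') (m : Ideal (S18K_A0 A K1 N')), m.IsMaximal →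
      (⟨S18K_π A K1, hπ⟩ : S18K_A0 A K1 N') ∈ m →
      ∃ x0 ∈ S18K_O A K1, ∃ hx : x - x0 ∈ S18K_A0 A K1 N',
        (⟨x - x0, hx⟩ : S18K_A0 A K1 N') ∈ m ∧
        ∀ b ∈ m, ∃ s, s ∉ m ∧ ∃ α β : S18K_A0 A K1 N',
          s * b = α * (⟨S18K_π A K1, hπ⟩ : S18K_A0 A K1 N')
            + β * (⟨x - x0, hx⟩ : S18K_A0 A K1 N')) :
    S36THP_E1 A K1 N' x := by
  intro mB hmax hπ
  have hπB : S18K_π A K1 ∈ S18K_A0 A K1 N' :=
    Fermat.Agent.S34_helper14_N1K.S34N1K_O_le_A0 A K1 N'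
      ((S18K_mem_O A K1 _).2 ⟨((S18K_D A K1).π : K1), ((S18K_D A K1).π).2, rfl⟩)
  obtain ⟨x0, hx0, hx, hxm, hgen⟩ := hE hπB mB hmax (hπ ⟨_, hπB⟩ rfl)
  refine ⟨x0, hx0, fun a ha => ?_, fun b hb => ?_⟩
  · have : a = ⟨x - x0, hx⟩ := Subtype.ext ha
    rw [this]; exact hxm
  · obtain ⟨s, hs, α, β, h⟩ := hgen b hb
    refine ⟨s, hs, α, β, ?_⟩
    have := congrArg (fun t : S18K_A0 A K1 N' => (t : LaurentSeries K1)) h
    simpa using this

/-- adapter: (E1) in the `L`-form with a membership proof -/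
theorem S36THQ_E1_of_at
    (hE : ∀ (hπ : S18K_π A K1 ∈ S18K_A0 A K1 N') (m : Ideal (S18K_A0 A K1 N')), m.IsMaximal →
      (⟨S18K_π A K1, hπ⟩ : S18K_A0 A K1 N') ∈ m →
      ∃ x0 ∈ S18K_O A K1, ∃ hx : x - x0 ∈ S18K_A0 A K1 N',
        (⟨x - x0, hx⟩ : S18K_A0 A K1 N') ∈ m ∧
        ∀ b ∈ m, ∃ s, s ∉ m ∧ ∃ α β : S18K_A0 A K1 N',
          (s : LaurentSeries K1) * (b : LaurentSeries K1) =
            (α : LaurentSeries K1) * S18K_π A K1 + (β : LaurentSeries K1) * (x - x0)) :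
    S36THP_E1 A K1 N' x := by
  intro mB hmax hπ
  have hπB : S18K_π A K1 ∈ S18K_A0 A K1 N' :=
    Fermat.Agent.S34_helper14_N1K.S34N1K_O_le_A0 A K1 N'
      ((S18K_mem_O A K1 _).2 ⟨((S18K_D A K1).π : K1), ((S18K_D A K1).π).2, rfl⟩)
  obtain ⟨x0, hx0, hx, hxm, hgen⟩ := hE hπB mB hmax (hπ ⟨_, hπB⟩ rfl)
  refine ⟨x0, hx0, fun a ha => ?_, hgen⟩
  have : a = ⟨x - x0, hx⟩ := Subtype.ext ha
  rw [this]; exact hxm

end E1

section Main

variable {r : ℕ} [NeZero r] (Dx : S36AUX_Data r)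
  (q N' N : ℕ) [NeZero N'] [NeZero N] [NeZero q] (hq : q.Prime) (hqN : ¬ q ∣ N')
  (hN : N = q * N') (hr : r ∣ N')

include hr in
/-- **THICK at the carriers, closed form**: the node and the generation at a crossing point of
level `N = q N'`. -/
theorem S36THQ_main (hqr : ¬ q ∣ r) (hA : A.LiesOverPrime q) (h : S18K_Admissible A K1 q)
    (hunr : Associated (S18K_D A K1).π ((q : ℕ) : S18K_O1 A K1))
    (hE1 : S36THP_E1 A K1 N' (S36AUX_hK K1 Dx.u))
    (G : MvPolynomial (Fin 2) ℤ)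
    (hΦ : S36TH_ev ![S36AUX_hK K1 Dx.u, qExpand K1 q (S36AUX_hK K1 Dx.u)] (S36TH_Phi q G) = 0)
    (m : Ideal (S18K_A0 A K1 N)) [hm : m.IsPrime]
    (hmB : (m.comap (Subring.inclusion (S36THP_le A K1 q N' N hN))).IsMaximal)
    (hOn1 : ∀ a : S18K_A0 A K1 N,
      (∃ v ∈ S18K_V A K1 N, (a : LaurentSeries K1) = S18K_π A K1 * v) → a ∈ m)
    (hOn2 : ∀ a : S18K_A0 A K1 N,
      (∃ v ∈ S34V0K_V A K1 q N' N hq hqN hN, (a : LaurentSeries K1) = S18K_π A K1 * v) →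
        a ∈ m) :
    (∃ u : S18K_A0 A K1 N, u ∉ m ∧
      ((S36AUX_hK K1 Dx.u) ^ q - qExpand K1 q (S36AUX_hK K1 Dx.u)) *
        (S36AUX_hK K1 Dx.u - (qExpand K1 q (S36AUX_hK K1 Dx.u)) ^ q) =
        S18K_π A K1 * (u : LaurentSeries K1)) ∧
    (∀ a : S18K_A0 A K1 N, a ∈ m → ∃ s : S18K_A0 A K1 N, s ∉ m ∧ ∃ β γ : S18K_A0 A K1 N,
      (s : LaurentSeries K1) * (a : LaurentSeries K1) =
        (β : LaurentSeries K1) * ((S36AUX_hK K1 Dx.u) ^ q - qExpand K1 q (S36AUX_hK K1 Dx.u)) +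
        (γ : LaurentSeries K1) *
          (S36AUX_hK K1 Dx.u - (qExpand K1 q (S36AUX_hK K1 Dx.u)) ^ q)) := by
  obtain ⟨w, hwO, hwinv, hqπ⟩ := S36THQ_unr A K1 hunr
  obtain ⟨Dq, -, hD, -, -, -, -, hDA, -⟩ :=
    Fermat.Agent.S36_helper25_THUNRP.S36TUP_main A K1 Dx q N' N hq hqN hN hr hA G hΦ
  have hxB : S36AUX_hK K1 Dx.u ∈ S18K_A0 A K1 N' :=
    Fermat.Agent.S36_helper15_HXI.S36HXI_mem_A0 A K1 Dx N' hr
  have hrq : r * q ∣ N := by
    obtain ⟨c, hc⟩ := hr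
    exact ⟨c, by rw [hN, hc]; ring⟩
  have hyA : qExpand K1 q (S36AUX_hK K1 Dx.u) ∈ S18K_A0 A K1 N :=
    Fermat.Agent.S36_helper15_HXI.S36HXI_V_mem_A0 A K1 Dx q N hq hqr hrq
  exact S36THP_main A K1 Dx q N' N hq hqN hN hr hA h w hwO hwinv hqπ G hΦ Dq hDA hD hxB hyA
    hE1 m hmB hOn1 hOn2

end Main

/-! ### (E1) for the two instances -/

section Instances

variable (q N' : ℕ) [NeZero N'] [NeZero q] (hq : q.Prime) (hqN : ¬ q ∣ N')

include hq hqN in
/-- (E1) in the coordinate `h` of level `4`, `q` odd -/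
theorem S36THQ_E1_four (hq2 : q ≠ 2) (h4 : 4 ∣ N') (hA : A.LiesOverPrime q)
    (h : S18K_Admissible A K1 q) :
    S36THP_E1 A K1 N' (S36AUX_hK K1 Fermat.Agent.S36_helper8_A4Q.S36AUX_fourData.u) :=
  S36THQ_E1_of_sub A K1 N' _
    (Fermat.Agent.S36_helper7_E1K.S36E1_K4 N' hq hq2 hqN h4 A hA K1 h)

include hq hqN in
/-- (E1) in the coordinate `h` of level `9`, `q ≠ 3` -/
theorem S36THQ_E1_nine (hq3 : q ≠ 3) (h9 : 9 ∣ N') (hA : A.LiesOverPrime q)
    (h : S18K_Admissible A K1 q) :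
    S36THP_E1 A K1 N' (S36AUX_hK K1 Fermat.Agent.S36_helper24_A9Q.S36AUX_nineData.u) :=
  S36THQ_E1_of_sub A K1 N' _
    (Fermat.Agent.S36_helper7_E1K.S36E1_K9 N' hq hq3 hqN h9 A hA K1 h)

end Instances

/-! ### The triple points: `hnode` and `hgen` of `S36TXK_main` / `S36TXK_main2` -/

section Triple

open Fermat.Agent.S36_helper17_TRIPLEK Fermat.Agent.S36_helper17_CROSSK
open Fermat.Agent.S36_helper9_DICH Fermat.Agent.S36_helper5_VKDefs

variable {r : ℕ} [NeZero r] (Dx : S36AUX_Data r)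
  (q M' : ℕ) [NeZero M'] [NeZero q] [NeZero (M' * q)] [NeZero (q * q)] [NeZero (q ^ 2)]
  [NeZero (M' * q * q)] (hq : q.Prime) (hqM : ¬ q ∣ M') (hr : r ∣ M')

/-- the finite chart of level `M'` contains `O[j]` -/
theorem S36THQ_adj_le (N : ℕ) [NeZero N] :
    adj (S18K_O A K1) (S18K_j K1) ≤ S18K_A0 A K1 N := by
  unfold adj
  rw [Subring.closure_le]
  rintro a (ha | ha)
  · exact Fermat.Agent.S34_helper14_N1K.S34N1K_O_le_A0 A K1 N ha
  · rw [Set.mem_singleton_iff] at ha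
    rw [ha]
    exact mem_icl.2 ⟨Fermat.Agent.S18_helper9_CBasic.isIntegral_of_mem _
      (Subring.subset_closure (Or.inr rfl)),
      jqModC_mem_full K1 N⟩

include hr in
/-- **THICK at a crossing of level `M' q q`**: the inputs `hnode`, `hgen` of helper17's
`S36TXK_main` / `S36TXK_main2`, VERBATIM. -/
theorem S36THQ_triple (hqr : ¬ q ∣ r) (hA : A.LiesOverPrime q) (h : S18K_Admissible A K1 q)
    (hunr : Associated (S18K_D A K1).π ((q : ℕ) : S18K_O1 A K1))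
    (hE1 : S36THP_E1 A K1 M' (S36AUX_hK K1 Dx.u))
    (G : MvPolynomial (Fin 2) ℤ)
    (hΦ : S36TH_ev ![S36AUX_hK K1 Dx.u, qExpand K1 q (S36AUX_hK K1 Dx.u)] (S36TH_Phi q G) = 0)
    (m : Ideal (S18K_A0 A K1 (M' * q * q))) (hm : m.IsMaximal)
    (hcross : S36DI_Cross (S18K_V A K1 (M' * q * q)) (S36VK_V0 A K1 q M' hq hqM)
      (S18K_A0 A K1 (M' * q)) (S18K_A0 A K1 (M' * q * q)) m) :
    (∃ u : S18K_A0 A K1 (M' * q),
      u ∉ m.comap (Subring.inclusion (S36TXK_le A K1 q M')) ∧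
      ((S36AUX_hK K1 Dx.u) ^ q - qExpand K1 q (S36AUX_hK K1 Dx.u)) *
        (S36AUX_hK K1 Dx.u - (qExpand K1 q (S36AUX_hK K1 Dx.u)) ^ q) =
        S18K_π A K1 * (u : LaurentSeries K1)) ∧
    (∀ a : S18K_A0 A K1 (M' * q),
      a ∈ m.comap (Subring.inclusion (S36TXK_le A K1 q M')) →
      ∃ s : S18K_A0 A K1 (M' * q), s ∉ m.comap (Subring.inclusion (S36TXK_le A K1 q M')) ∧
        ∃ β γ : S18K_A0 A K1 (M' * q),
          (s : LaurentSeries K1) * (a : LaurentSeries K1) =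
            (β : LaurentSeries K1) *
              ((S36AUX_hK K1 Dx.u) ^ q - qExpand K1 q (S36AUX_hK K1 Dx.u)) +
            (γ : LaurentSeries K1) *
              (S36AUX_hK K1 Dx.u - (qExpand K1 q (S36AUX_hK K1 Dx.u)) ^ q)) := by
  have hN1 : M' * q = q * M' := mul_comm M' q
  haveI hmp : m.IsPrime := hm.isPrime
  haveI : (m.comap (Subring.inclusion (S36TXK_le A K1 q M'))).IsPrime :=
    Ideal.comap_isPrime _ m
  have hmax' := S36CRK_isMaximal A K1 q M' hq hqM hA m hm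
  have hmB : ((m.comap (Subring.inclusion (S36TXK_le A K1 q M'))).comap
      (Subring.inclusion (S36THP_le A K1 q M' (M' * q) hN1))).IsMaximal :=
    S36THP_comap_max (B := S18K_A0 A K1 M') (X := S18K_A0 A K1 (M' * q))
      (S36THP_le A K1 q M' (M' * q) hN1)
      (fun a (ha : a ∈ S18K_A0 A K1 (M' * q)) =>
        Fermat.Agent.S36_helper17_TRIPLEY.S36TY_hint (S36THQ_adj_le A K1 M') ha.1)
      _ hmax'
  exact S36THQ_main A K1 Dx q M' (M' * q) hq hqM hN1 hr hqr hA h hunr hE1 G hΦ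
    (m.comap (Subring.inclusion (S36TXK_le A K1 q M'))) hmB
    (S36CRK_thru_oo A K1 q M' _ m hcross)
    (S36CRK_thru_0K A K1 q M' hq hqM hN1 m hcross)

end Triple

end Fermat.Agent.S36_helper18_THICKQ
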