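import Mathlib
import Fermat.Agent.S18_helper9_CDefs
import Fermat.Agent.S18_helper9_CBasic
import Fermat.Agent.S18_helper3_LOCRING
import Fermat.Agent.S18_helper23_KUMIDEM
import Fermat.Agent.S34_helper12_CDefs
import Fermat.Agent.S34_helper27_C2Defs
import Fermat.Agent.S34_helper27_C2SAT
import Fermat.Agent.S34_helper19_SMOOTH

/-!
# S36, GEO36 (d): the local assembly LOCAL36 (helper19)

Abstract (Subring-`L`) vocabulary of S18 / S34.  `X` is a chart, `m` a maximal ideal of `X`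
containing `π`, `R = locRing X m`, `W₁, W₂, W₃` the three valuation rings of `F1` over the Gauss
valuation (`V_∞`, `V_mid`, `V_0` in any order), `V = W₁ ⊓ W₂ ⊓ W₃`.

* `S36LOC_glue`, `S36LOC_glue3` : gluing of `p`-th roots in a local ring (pure algebra): if
  `wᵢ ^ p ≡ u mod Iᵢ` and the `wᵢ` are congruent modulo the maximal ideal, there is ONE `w` with
  `w ≡ wᵢ mod Iᵢ`.  No seminormality, no coprimality, no completion.
* `S36LOC_Root` : the branch root (output of BRANCH36).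
* `S36LOC_shape3` : **the local shape at a triple point** from the factorisation `f = u₀ g₀ ^ p`
  (FACT), the three branch roots and their compatibility (TORIC36).
* `S36LOC_shape1` : the local shape with respect to ONE branch from FACT and the branch root.
* `S36LOC_locLift1` : **the local lift at a one-branch point** from the shape with respect to
  the branch through `m` and an element `d ∈ X ∖ m` divisible by `π` in the two other valuation
  rings (port of `S34SM_core`).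
-/

set_option autoImplicit false
set_option linter.unusedSectionVars false
set_option linter.unusedVariables false
set_option linter.style.haveILetI false

namespace Fermat.Agent.S36_helper19_LOCAL

open Fermat.Agent.S18_helper9_CDefs Fermat.Agent.S18_helper9_CBasic
  Fermat.Agent.S18_helper3_LOCRING Fermat.Agent.S34_helper12_CDefs
  Fermat.Agent.S34_helper27_C2Defs Fermat.Agent.S34_helper27_C2SAT

/-! ### Gluing of `p`-th roots in a local ring -/

section Glue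

variable {R : Type*} [CommRing R] [IsLocalRing R]

/-- `∑ w₁ ^ k w₂ ^ (p - 1 - k)` is a unit if `p` and `w₂` are units and `w₁ ≡ w₂` modulo the
maximal ideal. -/
theorem S36LOC_unit_sum (p : ℕ) (hp0 : 0 < p) (hp : IsUnit (p : R)) (w1 w2 : R)
    (hw2 : IsUnit w2) (h : w1 - w2 ∈ IsLocalRing.maximalIdeal R) :
    IsUnit (∑ k ∈ Finset.range p, w1 ^ k * w2 ^ (p - 1 - k)) := by
  rw [← IsLocalRing.notMem_maximalIdeal]
  intro hS
  have e1 : IsLocalRing.residue R w1 = IsLocalRing.residue R w2 := by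
    have := (IsLocalRing.residue_eq_zero_iff (w1 - w2)).2 h
    rw [map_sub, sub_eq_zero] at this
    exact this
  have e2 := (IsLocalRing.residue_eq_zero_iff _).2 hS
  rw [map_sum] at e2
  have e3 : ∀ k ∈ Finset.range p,
      IsLocalRing.residue R (w1 ^ k * w2 ^ (p - 1 - k)) =
        IsLocalRing.residue R w2 ^ (p - 1) := by
    intro k hk
    rw [map_mul, map_pow, map_pow, e1, ← pow_add]
    congr 1
    have := Finset.mem_range.1 hk
    omega
  rw [Finset.sum_congr rfl e3, Finset.sum_const, Finset.card_range, nsmul_eq_mul] at e2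
  have h1 : IsUnit ((p : R) * w2 ^ (p - 1)) := hp.mul (hw2.pow _)
  have h2 : IsLocalRing.residue R ((p : R) * w2 ^ (p - 1)) = 0 := by
    rw [map_mul, map_pow, map_natCast]
    exact e2
  exact (IsLocalRing.notMem_maximalIdeal.2 h1) ((IsLocalRing.residue_eq_zero_iff _).1 h2)

/-- **Gluing of two `p`-th roots.** -/
theorem S36LOC_glue (p : ℕ) (hp0 : 0 < p) (hp : IsUnit (p : R)) (I J : Ideal R)
    (u w1 w2 : R) (hw2 : IsUnit w2) (h12 : w1 - w2 ∈ IsLocalRing.maximalIdeal R)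
    (h1 : w1 ^ p - u ∈ I) (h2 : w2 ^ p - u ∈ J) :
    ∃ w : R, w - w1 ∈ I ∧ w - w2 ∈ J := by
  obtain ⟨s, hs⟩ := (S36LOC_unit_sum p hp0 hp w1 w2 hw2 h12).exists_left_inv
  have hgeom : (∑ k ∈ Finset.range p, w1 ^ k * w2 ^ (p - 1 - k)) * (w1 - w2) =
      w1 ^ p - w2 ^ p := (Commute.all w1 w2).geom_sum₂_mul p
  have hd : w1 - w2 = s * (w1 ^ p - u) - s * (w2 ^ p - u) := by
    have : w1 - w2 = s * ((∑ k ∈ Finset.range p, w1 ^ k * w2 ^ (p - 1 - k)) * (w1 - w2)) := by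
      rw [← mul_assoc, hs, one_mul]
    rw [this, hgeom]
    ring
  refine ⟨w1 - s * (w1 ^ p - u), ?_, ?_⟩
  · have : w1 - s * (w1 ^ p - u) - w1 = -(s * (w1 ^ p - u)) := by ring
    rw [this]
    exact I.neg_mem (I.mul_mem_left _ h1)
  · have : w1 - s * (w1 ^ p - u) - w2 = -(s * (w2 ^ p - u)) := by
      linear_combination hd
    rw [this]
    exact J.neg_mem (J.mul_mem_left _ h2)

theorem S36LOC_pow_sub_mem (p : ℕ) (I : Ideal R) (a b : R) (h : a - b ∈ I) :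
    a ^ p - b ^ p ∈ I := by
  have hgeom : (∑ k ∈ Finset.range p, a ^ k * b ^ (p - 1 - k)) * (a - b) =
      a ^ p - b ^ p := (Commute.all a b).geom_sum₂_mul p
  rw [← hgeom]
  exact I.mul_mem_left _ h

/-- **Gluing of three `p`-th roots.** -/
theorem S36LOC_glue3 (p : ℕ) (hp0 : 0 < p) (hp : IsUnit (p : R)) (I1 I2 I3 : Ideal R)
    (hI1 : I1 ≤ IsLocalRing.maximalIdeal R)
    (u w1 w2 w3 : R) (hw2 : IsUnit w2) (hw3 : IsUnit w3)
    (h12 : w1 - w2 ∈ IsLocalRing.maximalIdeal R) (h13 : w1 - w3 ∈ IsLocalRing.maximalIdeal R)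
    (h1 : w1 ^ p - u ∈ I1) (h2 : w2 ^ p - u ∈ I2) (h3 : w3 ^ p - u ∈ I3) :
    ∃ w : R, w - w1 ∈ I1 ∧ w - w2 ∈ I2 ∧ w - w3 ∈ I3 := by
  obtain ⟨w12, ha, hb⟩ := S36LOC_glue p hp0 hp I1 I2 u w1 w2 hw2 h12 h1 h2
  have hc1 : w12 ^ p - u ∈ I1 := by
    have := I1.add_mem (S36LOC_pow_sub_mem p I1 w12 w1 ha) h1
    have e : w12 ^ p - w1 ^ p + (w1 ^ p - u) = w12 ^ p - u := by ring
    rwa [e] at this
  have hc2 : w12 ^ p - u ∈ I2 := by
    have := I2.add_mem (S36LOC_pow_sub_mem p I2 w12 w2 hb) h2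
    have e : w12 ^ p - w2 ^ p + (w2 ^ p - u) = w12 ^ p - u := by ring
    rwa [e] at this
  have h123 : w12 - w3 ∈ IsLocalRing.maximalIdeal R := by
    have := (IsLocalRing.maximalIdeal R).add_mem (hI1 ha) h13
    have e : w12 - w1 + (w1 - w3) = w12 - w3 := by ring
    rwa [e] at this
  obtain ⟨w, hwa, hwb⟩ := S36LOC_glue p hp0 hp (I1 ⊓ I2) I3 u w12 w3 hw3 h123 ⟨hc1, hc2⟩ h3
  refine ⟨w, ?_, ?_, hwb⟩
  · have := I1.add_mem hwa.1 ha
    have e : w - w12 + (w12 - w1) = w - w1 := by ring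
    rwa [e] at this
  · have := I2.add_mem hwa.2 hb
    have e : w - w12 + (w12 - w2) = w - w2 := by ring
    rwa [e] at this

end Glue


/-! ### The local ring of a chart: roots along the branches -/

section Local

variable {L : Type*} [Field L] {π : L} {F1 : Subfield L} {W W1 W2 W3 X : Subring L}

/-- **The branch root** (output of BRANCH36): `w` is a unit of `R = locRing X m` and
`z ∈ w (1 + π W)`. -/
def S36LOC_Root (π : L) (W X : Subring L) (m : Ideal X) [m.IsPrime] (z w : L) : Prop :=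
  w ∈ locRing X m ∧ w⁻¹ ∈ locRing X m ∧ ∃ c ∈ W, z = w * (1 + π * c)

/-- **Non-units of the local ring**, elementwise (= `mem_maximalIdeal_iff` of S18). -/
def S36LOC_NonUnit (X : Subring L) (m : Ideal X) (y : L) : Prop :=
  ∃ a c : X, a ∈ m ∧ c ∉ m ∧ y * (c : L) = a

/-- The ideal `R ∩ π W` of `R = locRing X m`, for `R ≤ W`. -/
def S36LOC_ideal (π : L) (W X : Subring L) (m : Ideal X) [m.IsPrime]
    (hRW : locRing X m ≤ W) : Ideal (locRing X m) where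
  carrier := {r | ∃ v ∈ W, (r : L) = π * v}
  add_mem' := by
    rintro a b ⟨v, hv, h⟩ ⟨v', hv', h'⟩
    exact ⟨v + v', W.add_mem hv hv', by push_cast; rw [h, h']; ring⟩
  zero_mem' := ⟨0, W.zero_mem, by simp⟩
  smul_mem' := by
    rintro c r ⟨v, hv, h⟩
    refine ⟨(c : L) * v, W.mul_mem (hRW c.2) hv, ?_⟩
    show ((c * r : locRing X m) : L) = π * ((c : L) * v)
    push_cast
    rw [h]; ring

theorem S36LOC_mem_ideal (m : Ideal X) [m.IsPrime] (hRW : locRing X m ≤ W)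
    (r : locRing X m) : r ∈ S36LOC_ideal π W X m hRW ↔ ∃ v ∈ W, (r : L) = π * v := Iff.rfl

/-- `R ∩ π W` is contained in the maximal ideal. -/
theorem S36LOC_ideal_le (H : S34C2_Val π F1 W) (m : Ideal X) [hm : m.IsPrime]
    (hRW : locRing X m ≤ W) :
    S36LOC_ideal π W X m hRW ≤ IsLocalRing.maximalIdeal (locRing X m) := by
  rintro r ⟨v, hv, h⟩
  rw [IsLocalRing.mem_maximalIdeal, mem_nonunits_iff]
  intro hu
  obtain ⟨s, hs⟩ := hu.exists_right_inv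
  have h1 : (r : L) * (s : L) = 1 := congrArg Subtype.val hs
  apply H.π_nonunit
  have hπ0 := H.π_ne_zero
  have : π⁻¹ = v * (s : L) := by
    rw [h] at h1
    apply inv_eq_of_mul_eq_one_right
    linear_combination h1
  rw [this]
  exact W.mul_mem hv (hRW s.2)

/-- `(1 + π c) ^ p = 1 + π c'` in a ring containing `π` and `c`. -/
theorem S36LOC_one_add_pow (hπW : π ∈ W) {c : L} (hc : c ∈ W) (p : ℕ) :
    ∃ c' ∈ W, (1 + π * c) ^ p = 1 + π * c' := by
  induction p with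
  | zero => exact ⟨0, W.zero_mem, by simp⟩
  | succ n ih =>
    obtain ⟨c', hc', h⟩ := ih
    refine ⟨c' + c + π * c' * c, W.add_mem (W.add_mem hc' hc) (W.mul_mem (W.mul_mem hπW hc') hc),
      ?_⟩
    rw [pow_succ, h]; ring

/-- Step A: the `p`-th power of a branch root is congruent to `u` modulo `R ∩ π W`. -/
theorem S36LOC_root_pow (H : S34C2_Val π F1 W) (m : Ideal X) [hm : m.IsPrime]
    (hRW : locRing X m ≤ W) {p : ℕ} {u z w : L} (hu : u ∈ locRing X m)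
    (hz : ∃ e ∈ W, z ^ p = u * (1 + π * e)) (hw : S36LOC_Root π W X m z w) :
    ∃ v ∈ W, w ^ p - u = π * v := by
  obtain ⟨e, he, hze⟩ := hz
  obtain ⟨hwR, hwR', c, hc, hzw⟩ := hw
  obtain ⟨c', hc', hcp⟩ := S36LOC_one_add_pow H.π_mem hc p
  have hinv : (1 + π * c')⁻¹ ∈ W := H.one_add hc'
  have hne : (1 + π * c') ≠ 0 := by
    intro h0
    have h1 : π * (-c') = 1 := by linear_combination -h0
    apply H.π_nonunit
    have : π⁻¹ = -c' := by
      have hπ0 := H.π_ne_zero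
      field_simp
      linear_combination -h1
    rw [this]; exact W.neg_mem hc'
  refine ⟨u * (e - c') * (1 + π * c')⁻¹, W.mul_mem (W.mul_mem (hRW hu) (W.sub_mem he hc')) hinv,
    ?_⟩
  have h1 : w ^ p * (1 + π * c') = u * (1 + π * e) := by
    rw [← hcp, ← mul_pow, ← hzw, hze]
  field_simp
  linear_combination h1

/-- **Gluing of the three branch roots at a triple point.** -/
theorem S36LOC_root3 (H1 : S34C2_Val π F1 W1) (H2 : S34C2_Val π F1 W2)
    (H3 : S34C2_Val π F1 W3) (m : Ideal X) [hm : m.IsPrime]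
    (hR1 : locRing X m ≤ W1) (hR2 : locRing X m ≤ W2) (hR3 : locRing X m ≤ W3)
    {p : ℕ} (hp0 : 0 < p) (hpL : (p : L) ≠ 0) (hpR : ((p : L))⁻¹ ∈ locRing X m)
    {u z w1 w2 w3 : L} (hu : u ∈ locRing X m)
    (hz1 : ∃ e ∈ W1, z ^ p = u * (1 + π * e)) (hz2 : ∃ e ∈ W2, z ^ p = u * (1 + π * e))
    (hz3 : ∃ e ∈ W3, z ^ p = u * (1 + π * e))
    (hw1 : S36LOC_Root π W1 X m z w1) (hw2 : S36LOC_Root π W2 X m z w2)
    (hw3 : S36LOC_Root π W3 X m z w3)
    (h12 : S36LOC_NonUnit X m (w1 - w2)) (h13 : S36LOC_NonUnit X m (w1 - w3)) :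
    ∃ w : L, w ∈ locRing X m ∧ w⁻¹ ∈ locRing X m ∧
      ∃ c ∈ (W1 ⊓ W2 ⊓ W3 : Subring L), z = w * (1 + π * c) := by
  set R := locRing X m with hR
  have hπ0 : π ≠ 0 := H1.π_ne_zero
  -- the elements of `R`
  let U : R := ⟨u, hu⟩
  let ω1 : R := ⟨w1, hw1.1⟩
  let ω2 : R := ⟨w2, hw2.1⟩
  let ω3 : R := ⟨w3, hw3.1⟩
  have unitOf : ∀ (w : L) (hw : w ∈ R) (hw' : w⁻¹ ∈ R), w ≠ 0 → IsUnit (⟨w, hw⟩ : R) := by
    intro w hw hw' hw0
    refine IsUnit.of_mul_eq_one (⟨w⁻¹, hw'⟩ : R) ?_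
    apply Subtype.ext
    show w * w⁻¹ = 1
    exact mul_inv_cancel₀ hw0
  have hz0 : ∀ {W : Subring L} {w : L}, S36LOC_Root π W X m z w → z ≠ 0 → w ≠ 0 := by
    rintro W w ⟨-, -, c, -, h⟩ hz hw
    rw [hw, zero_mul] at h
    exact hz h
  -- `z ≠ 0` or everything is zero: treat `w = 0` separately via units
  have hpU : IsUnit ((p : ℕ) : R) := by
    refine IsUnit.of_mul_eq_one (⟨(p : L)⁻¹, hpR⟩ : R) ?_
    apply Subtype.ext
    show ((p : R) : L) * (p : L)⁻¹ = 1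
    have : ((p : R) : L) = (p : L) := by simp
    rw [this]
    exact mul_inv_cancel₀ hpL
  by_cases hzz : z = 0
  · refine ⟨0, R.zero_mem, by rw [inv_zero]; exact R.zero_mem, 0, Subring.zero_mem _, ?_⟩
    rw [hzz, zero_mul]
  have hw10 := hz0 hw1 hzz
  have hw20 := hz0 hw2 hzz
  have hw30 := hz0 hw3 hzz
  have hU2 : IsUnit ω2 := unitOf w2 hw2.1 hw2.2.1 hw20
  have hU3 : IsUnit ω3 := unitOf w3 hw3.1 hw3.2.1 hw30
  have hU1 : IsUnit ω1 := unitOf w1 hw1.1 hw1.2.1 hw10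
  have hm12 : ω1 - ω2 ∈ IsLocalRing.maximalIdeal R :=
    (mem_maximalIdeal_iff X m _).2 h12
  have hm13 : ω1 - ω3 ∈ IsLocalRing.maximalIdeal R :=
    (mem_maximalIdeal_iff X m _).2 h13
  have hA1 : ω1 ^ p - U ∈ S36LOC_ideal π W1 X m hR1 := by
    obtain ⟨v, hv, h⟩ := S36LOC_root_pow H1 m hR1 hu hz1 hw1
    exact ⟨v, hv, by push_cast; exact h⟩
  have hA2 : ω2 ^ p - U ∈ S36LOC_ideal π W2 X m hR2 := by
    obtain ⟨v, hv, h⟩ := S36LOC_root_pow H2 m hR2 hu hz2 hw2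
    exact ⟨v, hv, by push_cast; exact h⟩
  have hA3 : ω3 ^ p - U ∈ S36LOC_ideal π W3 X m hR3 := by
    obtain ⟨v, hv, h⟩ := S36LOC_root_pow H3 m hR3 hu hz3 hw3
    exact ⟨v, hv, by push_cast; exact h⟩
  obtain ⟨ω, hω1, hω2, hω3⟩ := S36LOC_glue3 p hp0 hpU _ _ _ (S36LOC_ideal_le H1 m hR1) U ω1 ω2 ω3
    hU2 hU3 hm12 hm13 hA1 hA2 hA3
  -- `ω` is a unit
  have hωU : IsUnit ω := by
    rw [← IsLocalRing.notMem_maximalIdeal]
    intro hmem
    have h1 : ω1 ∈ IsLocalRing.maximalIdeal R := by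
      have := (IsLocalRing.maximalIdeal R).sub_mem hmem (S36LOC_ideal_le H1 m hR1 hω1)
      have e : ω - (ω - ω1) = ω1 := by ring
      rwa [e] at this
    exact (IsLocalRing.notMem_maximalIdeal.2 hU1) h1
  obtain ⟨ωi, hωi⟩ := hωU.exists_right_inv
  have hωL : (ω : L) * (ωi : L) = 1 := congrArg Subtype.val hωi
  have hω0 : (ω : L) ≠ 0 := left_ne_zero_of_mul_eq_one hωL
  have hinv : ((ω : L))⁻¹ = (ωi : L) := (eq_inv_of_mul_eq_one_right hωL).symm
  refine ⟨(ω : L), ω.2, by rw [hinv]; exact ωi.2, (z * (ω : L)⁻¹ - 1) * π⁻¹, ?_, ?_⟩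
  · -- membership in each `W_i`
    have key : ∀ (W : Subring L) (hRW : R ≤ W) (w : L) (hw : S36LOC_Root π W X m z w)
        (hwR : w ∈ R), (ω - ⟨w, hwR⟩ : R) ∈ S36LOC_ideal π W X m hRW →
        (z * (ω : L)⁻¹ - 1) * π⁻¹ ∈ W := by
      rintro W hRW w ⟨-, -, c, hc, hzw⟩ hwR ⟨v, hv, hωw⟩
      have e : (z * (ω : L)⁻¹ - 1) * π⁻¹ = (w * c - v) * (ω : L)⁻¹ := by
        have hωw' : (ω : L) - w = π * v := by
          have := hωw
          push_cast at this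
          exact this
        field_simp
        rw [hzw]
        linear_combination (-1 : L) * hωw'
      rw [e, hinv]
      exact W.mul_mem (W.sub_mem (W.mul_mem (hRW hwR) hc) hv) (hRW ωi.2)
    exact ⟨⟨key W1 hR1 w1 hw1 hw1.1 hω1, key W2 hR2 w2 hw2 hw2.1 hω2⟩,
      key W3 hR3 w3 hw3 hw3.1 hω3⟩
  · have : z * (ω : L)⁻¹ * (ω : L) = z := by
      rw [mul_assoc, inv_mul_cancel₀ hω0, mul_one]
    have e2 : π * ((z * (ω : L)⁻¹ - 1) * π⁻¹) = z * (ω : L)⁻¹ - 1 := by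
      rw [mul_comm, mul_assoc, inv_mul_cancel₀ hπ0, mul_one]
    rw [e2]
    linear_combination (-1 : L) * this

/-- a `p`-th root in `F1` of a unit of the valuation ring `W` is a unit of `W` -/
theorem S36LOC_unit_of_pow (H : S34C2_Val π F1 W) {p : ℕ} (hp0 : 0 < p) {g a : L}
    (hgF : g ∈ F1) (ha : a ∈ W) (ha' : a⁻¹ ∈ W) (h : g ^ p = a) : g ∈ W ∧ g⁻¹ ∈ W := by
  constructor
  · exact H.ic hgF (IsIntegral.of_pow hp0 (by rw [h]; exact isIntegral_of_mem W ha))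
  · refine H.ic (F1.inv_mem hgF) (IsIntegral.of_pow hp0 ?_)
    rw [inv_pow, h]
    exact isIntegral_of_mem W ha'

/-- `f` is a unit of `W` if `RedPow π W p f G`. -/
theorem S36LOC_redPow_unit (H : S34C2_Val π F1 W) {p : ℕ} {f G : L} (hred : RedPow π W p f G) :
    f ∈ W ∧ f⁻¹ ∈ W := by
  obtain ⟨hG, hG', c, hc, hf⟩ := hred
  constructor
  · rw [hf]
    exact W.mul_mem (W.pow_mem hG p) (W.add_mem W.one_mem (W.mul_mem H.π_mem hc))
  · rw [hf, mul_inv, ← inv_pow]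
    exact W.mul_mem (W.pow_mem hG' p) (H.one_add hc)

theorem S36LOC_redPow_mono {V : Subring L} (hVW : V ≤ W) {p : ℕ} {f G : L}
    (hred : RedPow π V p f G) : RedPow π W p f G := by
  obtain ⟨hG, hG', c, hc, hf⟩ := hred
  exact ⟨hVW hG, hVW hG', c, hVW hc, hf⟩

/-- the congruence `z ^ p ∈ u₀ (1 + π W)` for `z = G / g₀`, from FACT and `RedPow` -/
theorem S36LOC_z_pow (H : S34C2_Val π F1 W) {p : ℕ} {f G u0 g0 : L} (hg00 : g0 ≠ 0)
    (hfact : f = u0 * g0 ^ p) (hred : RedPow π W p f G) :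
    ∃ e ∈ W, (G * g0⁻¹) ^ p = u0 * (1 + π * e) := by
  obtain ⟨hG, hG', c, hc, hf⟩ := hred
  have hinv : (1 + π * c)⁻¹ ∈ W := H.one_add hc
  have hne : (1 + π * c) ≠ 0 := by
    intro h0
    have h1 : π * (-c) = 1 := by linear_combination -h0
    apply H.π_nonunit
    have : π⁻¹ = -c := inv_eq_of_mul_eq_one_right h1
    rw [this]; exact W.neg_mem hc
  refine ⟨-c * (1 + π * c)⁻¹, W.mul_mem (W.neg_mem hc) hinv, ?_⟩
  have h1 : G ^ p * (1 + π * c) = u0 * g0 ^ p := by rw [← hf, hfact]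
  have hgp : g0 ^ p ≠ 0 := pow_ne_zero _ hg00
  rw [mul_pow, inv_pow]
  field_simp
  linear_combination h1

/-- **LOCAL36 at a triple point**: the local shape of block C' from the factorisation
`f = u₀ g₀ ^ p` (`u₀` a unit of `R`, FACT), `RedPow` for `V = W₁ ⊓ W₂ ⊓ W₃`, the three branch
roots of `z = G / g₀` (BRANCH36) and their compatibility at `m` (TORIC36). -/
theorem S36LOC_shape3 (H1 : S34C2_Val π F1 W1) (H2 : S34C2_Val π F1 W2)
    (H3 : S34C2_Val π F1 W3) (m : Ideal X) [hm : m.IsPrime]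
    (hR1 : locRing X m ≤ W1) (hR2 : locRing X m ≤ W2) (hR3 : locRing X m ≤ W3)
    {p : ℕ} (hp0 : 0 < p) (hpL : (p : L) ≠ 0) (hpR : ((p : L))⁻¹ ∈ locRing X m)
    (f G u0 g0 w1 w2 w3 : L) (hf0 : f ≠ 0)
    (hu0 : u0 ∈ locRing X m) (hu0' : u0⁻¹ ∈ locRing X m) (hg0F : g0 ∈ F1)
    (hfact : f = u0 * g0 ^ p)
    (hred : RedPow π (W1 ⊓ W2 ⊓ W3 : Subring L) p f G)
    (hw1 : S36LOC_Root π W1 X m (G * g0⁻¹) w1) (hw2 : S36LOC_Root π W2 X m (G * g0⁻¹) w2)
    (hw3 : S36LOC_Root π W3 X m (G * g0⁻¹) w3)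
    (h12 : S36LOC_NonUnit X m (w1 - w2)) (h13 : S36LOC_NonUnit X m (w1 - w3)) :
    S34C_Shape π F1 (W1 ⊓ W2 ⊓ W3 : Subring L) X p f G m := by
  have hV1 : (W1 ⊓ W2 ⊓ W3 : Subring L) ≤ W1 := inf_le_left.trans inf_le_left
  have hV2 : (W1 ⊓ W2 ⊓ W3 : Subring L) ≤ W2 := inf_le_left.trans inf_le_right
  have hV3 : (W1 ⊓ W2 ⊓ W3 : Subring L) ≤ W3 := inf_le_right
  have hr1 := S36LOC_redPow_mono hV1 hred
  have hr2 := S36LOC_redPow_mono hV2 hred
  have hr3 := S36LOC_redPow_mono hV3 hred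
  have hu00 : u0 ≠ 0 := by
    rintro rfl
    exact hf0 (by rw [hfact, zero_mul])
  have hg00 : g0 ≠ 0 := by
    rintro rfl
    exact hf0 (by rw [hfact, zero_pow hp0.ne', mul_zero])
  obtain ⟨w, hw, hw', c, hc, hz⟩ := S36LOC_root3 H1 H2 H3 m hR1 hR2 hR3 hp0 hpL hpR hu0
    (S36LOC_z_pow H1 hg00 hfact hr1) (S36LOC_z_pow H2 hg00 hfact hr2)
    (S36LOC_z_pow H3 hg00 hfact hr3) hw1 hw2 hw3 h12 h13
  have hgp : g0 ^ p = f * u0⁻¹ := by
    rw [hfact]; field_simp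
  have hgp' : (f * u0⁻¹)⁻¹ = f⁻¹ * u0 := by rw [mul_inv, inv_inv]
  have hg : ∀ (W : Subring L), S34C2_Val π F1 W → locRing X m ≤ W → RedPow π W p f G →
      g0 ∈ W ∧ g0⁻¹ ∈ W := by
    intro W H hRW hr
    have hfu := S36LOC_redPow_unit H hr
    refine S36LOC_unit_of_pow H hp0 hg0F (W.mul_mem hfu.1 (hRW hu0')) ?_ hgp
    rw [hgp']
    exact W.mul_mem hfu.2 (hRW hu0)
  have hg1 := hg W1 H1 hR1 hr1
  have hg2 := hg W2 H2 hR2 hr2
  have hg3 := hg W3 H3 hR3 hr3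
  refine ⟨u0, g0, w, hu0, hu0', hg0F, ⟨⟨hg1.1, hg2.1⟩, hg3.1⟩, ⟨⟨hg1.2, hg2.2⟩, hg3.2⟩, hfact,
    hw, hw', c, hc, ?_⟩
  have : G = g0 * (G * g0⁻¹) := by field_simp
  rw [this, hz]; ring

/-- **LOCAL36, one branch**: the local shape with respect to the single valuation ring `W`
through `m`, from FACT and the branch root. -/
theorem S36LOC_shape1 (H : S34C2_Val π F1 W) (m : Ideal X) [hm : m.IsPrime]
    (hRW : locRing X m ≤ W) {p : ℕ} (hp0 : 0 < p)
    (f G u0 g0 w : L) (hf0 : f ≠ 0)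
    (hu0 : u0 ∈ locRing X m) (hu0' : u0⁻¹ ∈ locRing X m) (hg0F : g0 ∈ F1)
    (hfact : f = u0 * g0 ^ p) (hred : RedPow π W p f G)
    (hw : S36LOC_Root π W X m (G * g0⁻¹) w) :
    S34C_Shape π F1 W X p f G m := by
  have hu00 : u0 ≠ 0 := by
    rintro rfl
    exact hf0 (by rw [hfact, zero_mul])
  have hg00 : g0 ≠ 0 := by
    rintro rfl
    exact hf0 (by rw [hfact, zero_pow hp0.ne', mul_zero])
  obtain ⟨hwR, hwR', c, hc, hz⟩ := hw
  have hgp : g0 ^ p = f * u0⁻¹ := by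
    rw [hfact]; field_simp
  have hgp' : (f * u0⁻¹)⁻¹ = f⁻¹ * u0 := by rw [mul_inv, inv_inv]
  have hfu := S36LOC_redPow_unit H hred
  have hg : g0 ∈ W ∧ g0⁻¹ ∈ W := by
    refine S36LOC_unit_of_pow H hp0 hg0F (W.mul_mem hfu.1 (hRW hu0')) ?_ hgp
    rw [hgp']
    exact W.mul_mem hfu.2 (hRW hu0)
  refine ⟨u0, g0, w, hu0, hu0', hg0F, hg.1, hg.2, hfact, hwR, hwR', c, hc, ?_⟩
  have : G = g0 * (G * g0⁻¹) := by field_simp
  rw [this, hz]; ring

/-- an element integral over three valuation rings of `F1` is integral over their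
intersection -/
theorem S36LOC_isIntegral_inf3 (H1 : S34C2_Val π F1 W1) (H2 : S34C2_Val π F1 W2)
    (H3 : S34C2_Val π F1 W3) (y : L) (hy1 : IsIntegral W1 y) (hy2 : IsIntegral W2 y)
    (hy3 : IsIntegral W3 y) : IsIntegral (W1 ⊓ W2 ⊓ W3 : Subring L) y := by
  have h12 : IsIntegral (W1 ⊓ W2 : Subring L) y :=
    Fermat.Agent.S34_helper19_SMOOTH.S34SM_isIntegral_inf F1 W1 W2 (W1 ⊓ W2) H1.le H2.le
      (fun x hx hi => H1.ic hx hi) (fun x hx hi => H2.ic hx hi) (fun _ h1 h2 => ⟨h1, h2⟩) y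
      hy1 hy2
  exact Fermat.Agent.S34_helper19_SMOOTH.S34SM_isIntegral_inf F1 (W1 ⊓ W2) W3 (W1 ⊓ W2 ⊓ W3)
    (fun x hx => H1.le hx.1) H3.le (S34C2_ic_inf H1 H2) (fun x hx hi => H3.ic hx hi)
    (fun _ h1 h2 => ⟨h1, h2⟩) y h12 hy3

/-- **LOCAL36 at a one-branch point**: the local lift of block C' at a maximal ideal `m` of the
chart `X` lying on the component of `W₁` only, from the local shape with respect to `W₁` and an
element `d ∈ X ∖ m` which is divisible by `π` in `W₂` and in `W₃` (port of `S34SM_core`; no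
uniformiser of `W₁` occurs, so `W₁` may be the thick branch). -/
theorem S36LOC_locLift1 (H1 : S34C2_Val π F1 W1) (H2 : S34C2_Val π F1 W2)
    (H3 : S34C2_Val π F1 W3) (hX : X ≤ (W1 ⊓ W2 ⊓ W3 : Subring L))
    (m : Ideal X) [hm : m.IsPrime] (d : X) (hdm : d ∉ m)
    (hd2 : ∃ v ∈ W2, (d : L) = π * v) (hd3 : ∃ v ∈ W3, (d : L) = π * v)
    {p : ℕ} (hp0 : 0 < p) (f h G : L) (hf0 : f ≠ 0) (hh : h ^ p = f)
    (hred : RedPow π (W1 ⊓ W2 ⊓ W3 : Subring L) p f G)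
    (hshape : S34C_Shape π F1 W1 X p f G m) :
    S34C_LocLift π F1 (W1 ⊓ W2 ⊓ W3 : Subring L) X h G m := by
  set V : Subring L := W1 ⊓ W2 ⊓ W3 with hVdef
  have hV1 : V ≤ W1 := inf_le_left.trans inf_le_left
  have hV2 : V ≤ W2 := inf_le_left.trans inf_le_right
  have hV3 : V ≤ W3 := inf_le_right
  have hXW1 : X ≤ W1 := hX.trans hV1
  have hXW2 : X ≤ W2 := hX.trans hV2
  have hXW3 : X ≤ W3 := hX.trans hV3
  obtain ⟨hGV, hGV', c₀, hc₀, hfG⟩ := hred
  obtain ⟨u, g, w, ⟨a1, c1, hc1, hu⟩, -, hgF, hgV, hgV', hfug, -, ⟨a2, c2, hc2, hw⟩, c, hc, hG⟩ :=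
    hshape
  have hG0 : G ≠ 0 := by
    rintro rfl
    rw [zero_pow hp0.ne', zero_mul] at hfG
    exact hf0 hfG
  have hg0 : g ≠ 0 := by
    rintro rfl
    rw [zero_mul, zero_mul] at hG
    exact hG0 hG
  have hw0 : w ≠ 0 := by
    rintro rfl
    rw [mul_zero, zero_mul] at hG
    exact hG0 hG
  have hfV : f ∈ V := by
    rw [hfG]
    exact V.mul_mem (V.pow_mem hGV p)
      (V.add_mem V.one_mem (V.mul_mem ⟨⟨H1.π_mem, H2.π_mem⟩, H3.π_mem⟩ hc₀))
  have hW1F' : (W1 : Set L) ⊆ fadj F1 h := fun y hy => le_fadj F1 h (H1.le hy)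
  have hXF' : (X : Set L) ⊆ fadj F1 h := fun y hy => hW1F' (hXW1 hy)
  have hhV' : h ∈ icl W1 (fadj F1 h) :=
    ⟨IsIntegral.of_pow hp0 (by rw [hh]; exact isIntegral_of_mem W1 (hV1 hfV)),
      mem_fadj_self F1 h⟩
  have hVV' : W1 ≤ icl W1 (fadj F1 h) := le_icl hW1F'
  have hroot : ∀ y ∈ icl W1 (fadj F1 h), y ^ p ∈ X → y ∈ icl X (fadj F1 h) := by
    intro y hy hyp
    exact ⟨IsIntegral.of_pow hp0 (isIntegral_of_mem X hyp), hy.2⟩
  obtain ⟨y, hy, w', hw', hyw⟩ :=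
    Fermat.Agent.S18_helper23_KUMIDEM.local_lift p hp0 W1 (icl W1 (fadj F1 h)) X
      (icl X (fadj F1 h)) hXW1 hVV' π f h G hh hhV' (hV1 hGV') hG0 hroot
      g (a1 : L) (c1 : L) (c2 : L) (a2 : L) (-(c * c2 * g)) hgV' hg0 a1.2 c1.2 a2.2
      (W1.neg_mem (W1.mul_mem (W1.mul_mem hc (hXW1 c2.2)) hgV))
      (by rw [hfug, ← hu]; ring)
      (by
        have hw2 : (a2 : L) = w⁻¹ * c2 := hw.symm
        rw [hw2, hG]
        field_simp
        ring)
  -- multiply by `d`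
  obtain ⟨v₂, hv₂, hdv₂⟩ := hd2
  obtain ⟨v₃, hv₃, hdv₃⟩ := hd3
  have hs : ∀ (W : Subring L), V ≤ W → IsIntegral W (h * G⁻¹) := by
    intro W hVW
    refine IsIntegral.of_pow hp0 ?_
    rw [mul_pow, hh, inv_pow]
    exact isIntegral_of_mem W (hVW (V.mul_mem hfV (by rw [← inv_pow]; exact V.pow_mem hGV' p)))
  have hw₁ : IsIntegral W1 ((d : L) * w') := (isIntegral_of_mem W1 (hXW1 d.2)).mul hw'.1
  have hw₂ : IsIntegral W2 ((d : L) * w') := by
    have h1 : (d : L) * w' = v₂ * (((c1 : L) * (c2 : L)) * (h * G⁻¹) - y) := by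
      rw [hyw, hdv₂]; ring
    rw [h1]
    exact (isIntegral_of_mem W2 hv₂).mul
      (((isIntegral_of_mem W2 (W2.mul_mem (hXW2 c1.2) (hXW2 c2.2))).mul (hs W2 hV2)).sub
        (isIntegral_mono hXW2 hy.1))
  have hw₃ : IsIntegral W3 ((d : L) * w') := by
    have h1 : (d : L) * w' = v₃ * (((c1 : L) * (c2 : L)) * (h * G⁻¹) - y) := by
      rw [hyw, hdv₃]; ring
    rw [h1]
    exact (isIntegral_of_mem W3 hv₃).mul
      (((isIntegral_of_mem W3 (W3.mul_mem (hXW3 c1.2) (hXW3 c2.2))).mul (hs W3 hV3)).sub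
        (isIntegral_mono hXW3 hy.1))
  refine ⟨d * (c1 * c2), fun hmem => ?_, (d : L) * y, ?_, (d : L) * w', ⟨?_, ?_⟩, ?_⟩
  · rcases hm.mem_or_mem hmem with h1 | h1
    · exact hdm h1
    · rcases hm.mem_or_mem h1 with h2 | h2
      exacts [hc1 h2, hc2 h2]
  · exact (icl X (fadj F1 h)).mul_mem (le_icl hXF' d.2) hy
  · exact S36LOC_isIntegral_inf3 H1 H2 H3 _ hw₁ hw₂ hw₃
  · exact (fadj F1 h).mul_mem (hXF' d.2) hw'.2
  · push_cast
    rw [mul_assoc, hyw]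
    ring

end Local

end Fermat.Agent.S36_helper19_LOCAL
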