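import Mathlib
import Fermat.Agent.S34_helper27_C2Defs

/-!
# S36, GEO36 / TORIC36 (helper6): the choice of the branch constants at the triple points

Abstract, `Subring L` vocabulary (Mathlib + `S34C2_Val` only, no carrier).

The special fibre of the regular model of level `q² M'` has three components `V₁ = V_∞`,
`V₂ = V_mid`, `V₃ = V_0` meeting at the supersingular points (the "triple points").  For a
function `f` whose reductions on the three branches are `P`-th powers (`P = lam * Q0`, branch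
roots `G₁, G₂, G₃`), the branch values `W₁, W₂, W₃` of `G_k / g` at a triple point (where
`f = u g ^ P`) are `P`-th roots of the same unit; the two norm relations
(`cα W₁ W₂^(q-1) ≡ cα' W₃^q`, `cβ W₃ W₂^(q-1) ≡ cβ' W₁^q`, from the two push-forwards to level
`q M'`) force `(W₁ / W₃) ^ Q0` and `(W₂ / W₃) ^ Q0` to be CONSTANT (independent of the point) as
soon as `gcd (P, q² - 1) ∣ Q0`.  Hence constants `z₁, z₂, z₃` of `O` exist such that for every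
`G ≡ z_k G_k ^ Q0` on the three branches the branch roots of `G / g'` (`f = u' g' ^ lam`) agree
modulo the maximal ideal at EVERY triple point.

* `S36TOR_nu`     : the non-units of a subring of a field, elementwise;
* `S36TOR_point`  : (T-loc) one norm relation at one point, pure congruence algebra;
* `S36TOR_bezout`, `S36TOR_root_step`, `S36TOR_core` : arithmetic and the field core;
* `S36TOR_stepA`, `S36TOR_stepB` : the two steps at one point;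
* `S36TOR_main`   : (T-glob) TORIC36.
-/

set_option autoImplicit false
set_option linter.unusedVariables false
set_option linter.unusedSectionVars false
set_option linter.style.haveILetI false

namespace Fermat.Agent.S36_helper6_TORIC

open Fermat.Agent.S34_helper27_C2Defs

variable {L : Type*} [Field L]

/-- The non-units of a subring `W` of a field, elementwise (`0⁻¹ = 0`). -/
def S36TOR_nu (W : Subring L) : Set L := {x | x ∈ W ∧ (x = 0 ∨ x⁻¹ ∉ W)}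

section Basic

variable {W R : Subring L}

theorem S36TOR_nu_mem {x : L} (hx : x ∈ S36TOR_nu W) : x ∈ W := hx.1

theorem S36TOR_nu_zero : (0 : L) ∈ S36TOR_nu W := ⟨W.zero_mem, Or.inl rfl⟩

theorem S36TOR_nu_neg {x : L} (hx : x ∈ S36TOR_nu W) : -x ∈ S36TOR_nu W := by
  refine ⟨W.neg_mem hx.1, ?_⟩
  rcases hx.2 with h | h
  · left; rw [h, neg_zero]
  · right
    intro h'
    apply h
    have : x⁻¹ = -((-x)⁻¹) := by rw [inv_neg, neg_neg]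
    rw [this]
    exact W.neg_mem h'

theorem S36TOR_nu_mul_left {w x : L} (hw : w ∈ W) (hx : x ∈ S36TOR_nu W) :
    w * x ∈ S36TOR_nu W := by
  refine ⟨W.mul_mem hw hx.1, ?_⟩
  by_cases h0 : w * x = 0
  · exact Or.inl h0
  right
  intro h'
  have hx0 : x ≠ 0 := fun h => h0 (by rw [h, mul_zero])
  have hw0 : w ≠ 0 := fun h => h0 (by rw [h, zero_mul])
  rcases hx.2 with h | h
  · exact hx0 h
  · apply h
    have : x⁻¹ = w * (w * x)⁻¹ := by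
      field_simp
    rw [this]
    exact W.mul_mem hw h'

theorem S36TOR_nu_mul_right {w x : L} (hx : x ∈ S36TOR_nu W) (hw : w ∈ W) :
    x * w ∈ S36TOR_nu W := by
  rw [mul_comm]; exact S36TOR_nu_mul_left hw hx

/-- a non-unit of a bigger ring lying in `R` is a non-unit of `R` -/
theorem S36TOR_nu_of_le (hRW : R ≤ W) {x : L} (hx : x ∈ R) (hxW : x ∈ S36TOR_nu W) :
    x ∈ S36TOR_nu R := by
  refine ⟨hx, ?_⟩
  rcases hxW.2 with h | h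
  · exact Or.inl h
  · exact Or.inr fun h' => h (hRW h')

theorem S36TOR_not_nu {x : L} (hx0 : x ≠ 0) (hx' : x⁻¹ ∈ W) : x ∉ S36TOR_nu W := by
  rintro ⟨-, h | h⟩
  · exact hx0 h
  · exact h hx'

theorem S36TOR_inv_mem_of_not_nu {x : L} (hx : x ∈ W) (h : x ∉ S36TOR_nu W) : x⁻¹ ∈ W := by
  by_contra h'
  exact h ⟨hx, Or.inr h'⟩

theorem S36TOR_ne_zero_of_not_nu {x : L} (h : x ∉ S36TOR_nu W) : x ≠ 0 := by
  rintro rfl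
  exact h S36TOR_nu_zero

/-- the non-units of a valuation ring are closed under addition -/
theorem S36TOR_nu_add_val {π : L} {F1 : Subfield L} (H : S34C2_Val π F1 W) {x y : L}
    (hx : x ∈ S36TOR_nu W) (hy : y ∈ S36TOR_nu W) : x + y ∈ S36TOR_nu W := by
  refine ⟨W.add_mem hx.1 hy.1, ?_⟩
  by_cases h0 : x + y = 0
  · exact Or.inl h0
  right
  intro h'
  by_cases hy0 : y = 0
  · rw [hy0, add_zero] at h' h0
    exact S36TOR_not_nu h0 h' hx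
  have hy' : y⁻¹ ∉ W := by
    rcases hy.2 with h | h
    · exact absurd h hy0
    · exact h
  have hny : (-y)⁻¹ ∉ W := by
    intro h
    apply hy'
    have : y⁻¹ = -((-y)⁻¹) := by rw [inv_neg, neg_neg]
    rw [this]; exact W.neg_mem h
  have h1 := H.inv_add_mem (W.add_mem hx.1 hy.1) h' h0 (W.neg_mem hy.1) hny
  have h2 : x + y + -y = x := by ring
  rw [h2] at h1
  by_cases hx0 : x = 0
  · rw [hx0, zero_add] at h' h0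
    exact S36TOR_not_nu h0 h' hy
  exact S36TOR_not_nu hx0 h1 hx

theorem S36TOR_nu_sub_val {π : L} {F1 : Subfield L} (H : S34C2_Val π F1 W) {x y : L}
    (hx : x ∈ S36TOR_nu W) (hy : y ∈ S36TOR_nu W) : x - y ∈ S36TOR_nu W := by
  rw [sub_eq_add_neg]
  exact S36TOR_nu_add_val H hx (S36TOR_nu_neg hy)

/-- unit + non-unit is a unit, in a valuation ring -/
theorem S36TOR_unit_add_val {π : L} {F1 : Subfield L} (H : S34C2_Val π F1 W) {a b : L}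
    (ha : a ∈ W) (ha0 : a ≠ 0) (ha' : a⁻¹ ∈ W) (hb : b ∈ S36TOR_nu W) :
    a + b ≠ 0 ∧ (a + b)⁻¹ ∈ W := by
  have hn : a + b ∉ S36TOR_nu W := by
    intro h
    have := S36TOR_nu_sub_val H h hb
    rw [add_sub_cancel_right] at this
    exact S36TOR_not_nu ha0 ha' this
  exact ⟨S36TOR_ne_zero_of_not_nu hn, S36TOR_inv_mem_of_not_nu (W.add_mem ha hb.1) hn⟩

/-- in a local subring, membership in the non-units is the vanishing of the residue -/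
theorem S36TOR_nu_iff_residue [IsLocalRing ↥R] {x : L} (hx : x ∈ R) :
    x ∈ S36TOR_nu R ↔ IsLocalRing.residue ↥R ⟨x, hx⟩ = 0 := by
  rw [IsLocalRing.residue_eq_zero_iff, IsLocalRing.mem_maximalIdeal, mem_nonunits_iff]
  constructor
  · rintro ⟨-, h | h⟩ hu
    · have : (⟨x, hx⟩ : R) = 0 := Subtype.ext h
      rw [this] at hu
      exact not_isUnit_zero hu
    · obtain ⟨y, hy⟩ := hu.exists_right_inv
      have h1 : x * (y : L) = 1 := congrArg Subtype.val hy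
      have h2 : x⁻¹ = (y : L) := (eq_inv_of_mul_eq_one_right h1).symm ▸ rfl
      exact h (h2 ▸ y.2)
  · intro hu
    refine ⟨hx, ?_⟩
    by_contra hcon
    push Not at hcon
    apply hu
    refine IsUnit.of_mul_eq_one ⟨x⁻¹, hcon.2⟩ ?_
    apply Subtype.ext
    show x * x⁻¹ = 1
    exact mul_inv_cancel₀ hcon.1

theorem S36TOR_nu_add_loc (hR : IsLocalRing ↥R) {x y : L}
    (hx : x ∈ S36TOR_nu R) (hy : y ∈ S36TOR_nu R) : x + y ∈ S36TOR_nu R := by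
  have := hR
  rw [S36TOR_nu_iff_residue (R.add_mem hx.1 hy.1)]
  have h1 := (S36TOR_nu_iff_residue hx.1).1 hx
  have h2 := (S36TOR_nu_iff_residue hy.1).1 hy
  have : (⟨x + y, R.add_mem hx.1 hy.1⟩ : R) = ⟨x, hx.1⟩ + ⟨y, hy.1⟩ := rfl
  rw [this, map_add, h1, h2, add_zero]

theorem S36TOR_nu_sub_loc (hR : IsLocalRing ↥R) {x y : L}
    (hx : x ∈ S36TOR_nu R) (hy : y ∈ S36TOR_nu R) : x - y ∈ S36TOR_nu R := by
  rw [sub_eq_add_neg]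
  exact S36TOR_nu_add_loc hR hx (S36TOR_nu_neg hy)

end Basic

section Pow

variable {W : Subring L}

/-- `x ≡ y` modulo non-units implies `x ^ n ≡ y ^ n` -/
theorem S36TOR_nu_pow_sub {x y : L} (hx : x ∈ W) (hy : y ∈ W) (h : x - y ∈ S36TOR_nu W)
    (n : ℕ) : x ^ n - y ^ n ∈ S36TOR_nu W := by
  obtain ⟨c, hc⟩ := sub_dvd_pow_sub_pow (⟨x, hx⟩ : W) ⟨y, hy⟩ n
  have h1 : x ^ n - y ^ n = (x - y) * (c : L) := by
    have := congrArg Subtype.val hc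
    simpa using this
  rw [h1]
  exact S36TOR_nu_mul_right h c.2

end Pow

section Point

/-- **(T-loc) the norm relation at one point**, pure congruence algebra.  `R' ≤ R` local rings
(level `q M'` below level `q² M'`), `Ua`, `Ub` the two valuation rings of the lower level,
`Vx`, `Vy` above `Ua` (split resp. ramified with `e = m`), `Vz` above `Ub` (inseparable).  The
norm `Nr = γ ω` (`γ` constant on the two lower branches, `ω ∈ R'`) reduces to `ax ay ^ m` on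
`Ua` and to `cz` on `Ub`; then `γb Wx Wy ^ m ≡ γa Wz ^ q` modulo the maximal ideal of `R`. -/
theorem S36TOR_point {R' R Ua Ub Vx Vy Vz : Subring L} (hR : IsLocalRing ↥R)
    (hR'R : R' ≤ R) (hR'a : R' ≤ Ua) (hR'b : R' ≤ Ub)
    (hRx : R ≤ Vx) (hRy : R ≤ Vy) (hRz : R ≤ Vz)
    (hUa : ∀ x ∈ S36TOR_nu Ua, ∀ y ∈ S36TOR_nu Ua, x + y ∈ S36TOR_nu Ua)
    (hUb : ∀ x ∈ S36TOR_nu Ub, ∀ y ∈ S36TOR_nu Ub, x + y ∈ S36TOR_nu Ub)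
    (hlocal : ∀ x ∈ R', x ∈ S36TOR_nu R' → x ∈ S36TOR_nu R)
    {m q : ℕ} {Nr γ ω γa γb ax ay cz Wx Wy Wz : L}
    (hNr : Nr = γ * ω) (hω : ω ∈ R') (hγa : γa ∈ R') (hγb : γb ∈ R')
    (hγ1 : γ - γa ∈ S36TOR_nu Ua) (hγ2 : γ - γb ∈ S36TOR_nu Ub)
    (hax : ax ∈ R') (hay : ay ∈ R') (hcz : cz ∈ R')
    (hN1 : Nr - ax * ay ^ m ∈ S36TOR_nu Ua) (hN2 : Nr - cz ∈ S36TOR_nu Ub)
    (hWx : Wx ∈ R) (hWy : Wy ∈ R) (hWz : Wz ∈ R)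
    (hx : Wx - ax ∈ S36TOR_nu Vx) (hy : Wy - ay ∈ S36TOR_nu Vy)
    (hz : Wz ^ q - cz ∈ S36TOR_nu Vz) :
    γb * Wx * Wy ^ m - γa * Wz ^ q ∈ S36TOR_nu R := by
  have e1 : ax * ay ^ m - γa * ω ∈ S36TOR_nu R := by
    refine hlocal _ (R'.sub_mem (R'.mul_mem hax (R'.pow_mem hay m)) (R'.mul_mem hγa hω))
      (S36TOR_nu_of_le hR'a
        (R'.sub_mem (R'.mul_mem hax (R'.pow_mem hay m)) (R'.mul_mem hγa hω)) ?_)
    have h := hUa _ (S36TOR_nu_neg hN1) _ (S36TOR_nu_mul_right hγ1 (hR'a hω))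
    have e : -(Nr - ax * ay ^ m) + (γ - γa) * ω = ax * ay ^ m - γa * ω := by
      rw [hNr]; ring
    rwa [e] at h
  have e2 : cz - γb * ω ∈ S36TOR_nu R := by
    refine hlocal _ (R'.sub_mem hcz (R'.mul_mem hγb hω))
      (S36TOR_nu_of_le hR'b (R'.sub_mem hcz (R'.mul_mem hγb hω)) ?_)
    have h := hUb _ (S36TOR_nu_neg hN2) _ (S36TOR_nu_mul_right hγ2 (hR'b hω))
    have e : -(Nr - cz) + (γ - γb) * ω = cz - γb * ω := by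
      rw [hNr]; ring
    rwa [e] at h
  have e3 : Wx - ax ∈ S36TOR_nu R := S36TOR_nu_of_le hRx (R.sub_mem hWx (hR'R hax)) hx
  have e4 : Wy - ay ∈ S36TOR_nu R := S36TOR_nu_of_le hRy (R.sub_mem hWy (hR'R hay)) hy
  have e5 : Wz ^ q - cz ∈ S36TOR_nu R :=
    S36TOR_nu_of_le hRz (R.sub_mem (R.pow_mem hWz q) (hR'R hcz)) hz
  have e6 : Wy ^ m - ay ^ m ∈ S36TOR_nu R := S36TOR_nu_pow_sub hWy (hR'R hay) e4 m
  have key : γb * Wx * Wy ^ m - γa * Wz ^ q =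
      γb * ((Wx - ax) * Wy ^ m + ax * (Wy ^ m - ay ^ m) + (ax * ay ^ m - γa * ω))
        + γa * (-(cz - γb * ω) + -(Wz ^ q - cz)) := by ring
  rw [key]
  refine S36TOR_nu_add_loc hR (S36TOR_nu_mul_left (hR'R hγb) ?_)
    (S36TOR_nu_mul_left (hR'R hγa) ?_)
  · exact S36TOR_nu_add_loc hR (S36TOR_nu_add_loc hR
      (S36TOR_nu_mul_right e3 (R.pow_mem hWy m)) (S36TOR_nu_mul_left (hR'R hax) e6)) e1
  · exact S36TOR_nu_add_loc hR (S36TOR_nu_neg e2) (S36TOR_nu_neg e5)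

end Point


section Res

variable (R : Subring L) [IsLocalRing ↥R]

/-- the residue of an element of `L` at the local subring `R` (junk `0` outside `R`) -/
noncomputable def S36TOR_res (x : L) : IsLocalRing.ResidueField ↥R := by
  classical
  exact if hx : x ∈ R then IsLocalRing.residue ↥R ⟨x, hx⟩ else 0

variable {R}

theorem S36TOR_res_of_mem {x : L} (hx : x ∈ R) :
    S36TOR_res R x = IsLocalRing.residue ↥R ⟨x, hx⟩ := by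
  classical
  unfold S36TOR_res
  exact dif_pos hx

theorem S36TOR_res_mul {x y : L} (hx : x ∈ R) (hy : y ∈ R) :
    S36TOR_res R (x * y) = S36TOR_res R x * S36TOR_res R y := by
  rw [S36TOR_res_of_mem hx, S36TOR_res_of_mem hy, S36TOR_res_of_mem (R.mul_mem hx hy),
    ← map_mul]
  rfl

theorem S36TOR_res_add {x y : L} (hx : x ∈ R) (hy : y ∈ R) :
    S36TOR_res R (x + y) = S36TOR_res R x + S36TOR_res R y := by
  rw [S36TOR_res_of_mem hx, S36TOR_res_of_mem hy, S36TOR_res_of_mem (R.add_mem hx hy),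
    ← map_add]
  rfl

theorem S36TOR_res_sub {x y : L} (hx : x ∈ R) (hy : y ∈ R) :
    S36TOR_res R (x - y) = S36TOR_res R x - S36TOR_res R y := by
  rw [S36TOR_res_of_mem hx, S36TOR_res_of_mem hy, S36TOR_res_of_mem (R.sub_mem hx hy),
    ← map_sub]
  rfl

theorem S36TOR_res_one : S36TOR_res R (1 : L) = 1 := by
  rw [S36TOR_res_of_mem R.one_mem]
  exact map_one _

theorem S36TOR_res_pow {x : L} (hx : x ∈ R) (n : ℕ) :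
    S36TOR_res R (x ^ n) = S36TOR_res R x ^ n := by
  induction n with
  | zero => rw [pow_zero, pow_zero, S36TOR_res_one]
  | succ n ih => rw [pow_succ, pow_succ, S36TOR_res_mul (R.pow_mem hx n) hx, ih]

theorem S36TOR_nu_iff_res {x : L} (hx : x ∈ R) : x ∈ S36TOR_nu R ↔ S36TOR_res R x = 0 := by
  rw [S36TOR_res_of_mem hx]
  exact S36TOR_nu_iff_residue hx

theorem S36TOR_res_eq_of_sub {x y : L} (hx : x ∈ R) (hy : y ∈ R)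
    (h : x - y ∈ S36TOR_nu R) : S36TOR_res R x = S36TOR_res R y := by
  have := (S36TOR_nu_iff_res (R.sub_mem hx hy)).1 h
  rw [S36TOR_res_sub hx hy] at this
  exact sub_eq_zero.1 this

theorem S36TOR_res_ne_zero {x : L} (hx : x ∈ R) (hx0 : x ≠ 0) (hx' : x⁻¹ ∈ R) :
    S36TOR_res R x ≠ 0 := by
  intro h
  exact S36TOR_not_nu hx0 hx' ((S36TOR_nu_iff_res hx).2 h)

end Res

section Arith

/-- Bezout with natural coefficients. -/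
theorem S36TOR_bezout (P n : ℕ) (hP : 0 < P) (hn : 0 < n) :
    ∃ y x : ℕ, n * y = Nat.gcd P n + P * x := by
  by_cases h : Nat.gcd n P < P
  · obtain ⟨m, -, hm⟩ := Nat.exists_mul_mod_eq_gcd h
    refine ⟨m, n * m / P, ?_⟩
    have := Nat.div_add_mod (n * m) P
    rw [hm, Nat.gcd_comm n P] at this
    omega
  · have hd : Nat.gcd n P ∣ P := Nat.gcd_dvd_right n P
    have hle : Nat.gcd n P ≤ P := Nat.le_of_dvd hP hd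
    have heq : Nat.gcd n P = P := le_antisymm hle (not_lt.1 h)
    have hPn : P ∣ n := heq ▸ Nat.gcd_dvd_left n P
    obtain ⟨k, hk⟩ := hPn
    have hk0 : 0 < k := by
      rcases Nat.eq_zero_or_pos k with h0 | h0
      · rw [h0, mul_zero] at hk; omega
      · exact h0
    refine ⟨1, k - 1, ?_⟩
    rw [Nat.gcd_comm P n, heq, mul_one, hk]
    have : k = (k - 1) + 1 := by omega
    conv_lhs => rw [this]
    ring

/-- the root step: `(w3 / w) ^ P = 1` and `(w3 / w) ^ n = t` give `(w3 / w) ^ (d Q2) = t ^ (y Q2)`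
for `n y = d + P x`. -/
theorem S36TOR_root_step {κ : Type*} [Field κ] {P n d Q2 y x : ℕ} (hb : n * y = d + P * x)
    {w w3 t : κ} (hw : w ≠ 0) (hP : w ^ P = w3 ^ P) (ht : t * w ^ n = w3 ^ n) :
    t ^ (y * Q2) * w ^ (d * Q2) = w3 ^ (d * Q2) := by
  have ha : (w3 / w) ^ P = 1 := by
    rw [div_pow, ← hP, div_self (pow_ne_zero _ hw)]
  have hn : (w3 / w) ^ n = t := by
    rw [div_pow, ← ht, mul_div_assoc, div_self (pow_ne_zero _ hw), mul_one]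
  have hd : (w3 / w) ^ d = t ^ y := by
    rw [← hn, ← pow_mul, hb, pow_add, pow_mul, ha, one_pow, mul_one]
  have h1 : t ^ (y * Q2) = (w3 / w) ^ (d * Q2) := by
    rw [pow_mul, ← hd, ← pow_mul]
  rw [h1, ← mul_pow, div_mul_cancel₀ _ hw]

end Arith


section Units

variable {W : Subring L} {π : L} {F1 : Subfield L}

/-- a root of a unit of a valuation ring is a unit -/
theorem S36TOR_root_unit (H : S34C2_Val π F1 W) {g : L} (hg : g ∈ F1) {n : ℕ} (hn : 0 < n)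
    (h0 : g ^ n ≠ 0) (h1 : g ^ n ∈ W) (h2 : (g ^ n)⁻¹ ∈ W) : g ≠ 0 ∧ g ∈ W ∧ g⁻¹ ∈ W := by
  have hg0 : g ≠ 0 := by
    rintro rfl
    exact h0 (zero_pow hn.ne')
  obtain ⟨k, rfl⟩ : ∃ k, n = k + 1 := ⟨n - 1, by omega⟩
  rcases H.val g hg with h | h
  · refine ⟨hg0, h, ?_⟩
    have : g⁻¹ = g ^ k * (g ^ (k + 1))⁻¹ := by
      rw [pow_succ]
      field_simp
    rw [this]
    exact W.mul_mem (W.pow_mem h k) h2
  · refine ⟨hg0, ?_, h⟩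
    have : g = (g⁻¹) ^ k * g ^ (k + 1) := by
      rw [pow_succ, inv_pow]
      field_simp
    rw [this]
    exact W.mul_mem (W.pow_mem h k) h1

/-- `f ≡ G ^ P` with `G` a unit: `f` is a unit -/
theorem S36TOR_f_unit (H : S34C2_Val π F1 W) {f G : L} {P : ℕ} (hG0 : G ≠ 0) (hG : G ∈ W)
    (hG' : G⁻¹ ∈ W) (h : f - G ^ P ∈ S36TOR_nu W) : f ≠ 0 ∧ f ∈ W ∧ f⁻¹ ∈ W := by
  have h1 := S36TOR_unit_add_val H (W.pow_mem hG P) (pow_ne_zero P hG0)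
    (by rw [← inv_pow]; exact W.pow_mem hG' P) h
  have e : G ^ P + (f - G ^ P) = f := by ring
  rw [e] at h1
  refine ⟨h1.1, ?_, h1.2⟩
  have := W.add_mem (W.pow_mem hG P) h.1
  rwa [e] at this

end Units

section StepA

/-- the first constant -/
def S36TOR_z1 (cα cα' cβ cβ' : L) (q' k : ℕ) : L :=
  ((cα * cβ' * cα'⁻¹ * cβ⁻¹) ^ q') ^ k

/-- the second constant -/
def S36TOR_z2 (cα cα' cβ cβ' : L) (q' k : ℕ) : L :=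
  (cα ^ (q' + 1) * cβ * (cα'⁻¹) ^ (q' + 1) * cβ'⁻¹) ^ k

variable {R : Subring L}

theorem S36TOR_res_inv [IsLocalRing ↥R] {x : L} (hx : x ∈ R) (hx0 : x ≠ 0) (hx' : x⁻¹ ∈ R) :
    S36TOR_res R x⁻¹ = (S36TOR_res R x)⁻¹ := by
  have h : S36TOR_res R x * S36TOR_res R x⁻¹ = 1 := by
    rw [← S36TOR_res_mul hx hx', mul_inv_cancel₀ hx0, S36TOR_res_one]
  exact eq_inv_of_mul_eq_one_right h

/-- the field core of the toric argument -/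
theorem S36TOR_core {κ : Type*} [Field κ] {lam P Q0 d Q2 q' y x : ℕ} (hP0 : 0 < P)
    (hP : P = lam * Q0) (hQ : Q0 = d * Q2) (hb : q' * (q' + 2) * y = d + P * x)
    {a1 a2 a3 uu ca ca' cb cb' : κ} (huu : uu ≠ 0)
    (hca : ca ≠ 0) (hca' : ca' ≠ 0) (hcb : cb ≠ 0) (hcb' : cb' ≠ 0)
    (h1 : a1 ^ P = uu) (h2 : a2 ^ P = uu) (h3 : a3 ^ P = uu)
    (hα : ca * a1 * a2 ^ q' = ca' * a3 ^ (q' + 1))
    (hβ : cb * a3 * a2 ^ q' = cb' * a1 ^ (q' + 1)) :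
    ((ca * cb' * ca'⁻¹ * cb⁻¹) ^ q') ^ (y * Q2) * a1 ^ Q0 = a3 ^ Q0 ∧
    (ca ^ (q' + 1) * cb * (ca'⁻¹) ^ (q' + 1) * cb'⁻¹) ^ (y * Q2) * a2 ^ Q0 = a3 ^ Q0 ∧
    (((ca * cb' * ca'⁻¹ * cb⁻¹) ^ q') ^ (y * Q2)) ^ lam = 1 ∧
    ((ca ^ (q' + 1) * cb * (ca'⁻¹) ^ (q' + 1) * cb'⁻¹) ^ (y * Q2)) ^ lam = 1 := by
  have hne : ∀ a : κ, a ^ P = uu → a ≠ 0 := by
    rintro a ha rfl
    rw [zero_pow hP0.ne'] at ha
    exact huu ha.symm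
  have ha1 := hne a1 h1
  have ha2 := hne a2 h2
  have ha3 := hne a3 h3
  have hA : ca * cb' * a1 ^ (q' + 2) = ca' * cb * a3 ^ (q' + 2) := by
    refine mul_right_cancel₀ (pow_ne_zero q' ha2) ?_
    linear_combination (cb' * a1 ^ (q' + 1)) * hα - (ca' * a3 ^ (q' + 1)) * hβ
  -- the first constant
  have e1 : ca * cb' * ca'⁻¹ * cb⁻¹ * a1 ^ (q' + 2) = a3 ^ (q' + 2) := by
    field_simp
    linear_combination hA
  have ht1 : (ca * cb' * ca'⁻¹ * cb⁻¹) ^ q' * a1 ^ (q' * (q' + 2)) = a3 ^ (q' * (q' + 2)) := by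
    generalize ca * cb' * ca'⁻¹ * cb⁻¹ = t1 at e1 ⊢
    calc t1 ^ q' * a1 ^ (q' * (q' + 2))
        = (t1 * a1 ^ (q' + 2)) ^ q' := by ring
      _ = a3 ^ (q' * (q' + 2)) := by rw [e1]; ring
  have r1 := S36TOR_root_step (Q2 := Q2) hb ha1 (h1.trans h3.symm) ht1
  -- the second constant
  have ht2' : ca ^ (q' + 1) * cb * (ca'⁻¹) ^ (q' + 1) * cb'⁻¹ * (ca' ^ (q' + 1) * cb')
      = ca ^ (q' + 1) * cb := by
    rw [inv_pow]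
    field_simp
  have E1 : (ca * a1 * a2 ^ q') ^ (q' + 2) = (ca' * a3 ^ (q' + 1)) ^ (q' + 2) := by rw [hα]
  have ht2 : ca ^ (q' + 1) * cb * (ca'⁻¹) ^ (q' + 1) * cb'⁻¹ * a2 ^ (q' * (q' + 2))
      = a3 ^ (q' * (q' + 2)) := by
    generalize ca ^ (q' + 1) * cb * (ca'⁻¹) ^ (q' + 1) * cb'⁻¹ = t2 at ht2' ⊢
    have hK : ca * a1 ^ (q' + 2) * ca' ^ (q' + 1) * cb' ≠ 0 :=
      mul_ne_zero (mul_ne_zero (mul_ne_zero hca (pow_ne_zero _ ha1)) (pow_ne_zero _ hca')) hcb'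
    refine mul_right_cancel₀ hK ?_
    linear_combination (ca * a1 ^ (q' + 2) * a2 ^ (q' * (q' + 2))) * ht2' + cb * E1
      - (a3 ^ (q' * (q' + 2)) * ca' ^ (q' + 1)) * hA
  have r2 := S36TOR_root_step (Q2 := Q2) hb ha2 (h2.trans h3.symm) ht2
  rw [← hQ] at r1 r2
  have hz : ∀ t a : κ, a ^ P = uu → t * a ^ Q0 = a3 ^ Q0 → t ^ lam = 1 := by
    intro t a ha h
    have h4 : (t * a ^ Q0) ^ lam = (a3 ^ Q0) ^ lam := by rw [h]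
    rw [mul_pow, ← pow_mul, ← pow_mul, mul_comm Q0 lam, ← hP, ha, h3] at h4
    have h5 : t ^ lam * uu = 1 * uu := by rw [h4, one_mul]
    exact mul_right_cancel₀ huu h5
  exact ⟨r1, r2, hz _ _ h1 r1, hz _ _ h2 r2⟩

end StepA


section StepA2

variable {R : Subring L}

theorem S36TOR_nu_coe_iff [IsLocalRing ↥R] (x : ↥R) :
    (x : L) ∈ S36TOR_nu R ↔ IsLocalRing.residue ↥R x = 0 :=
  S36TOR_nu_iff_residue x.2

/-- one branch: `g` is a unit of `V` and `W ^ P ≡ u` modulo the maximal ideal of `R` -/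
theorem S36TOR_branch_pow {V : Subring L} {π : L} {F1 : Subfield L} (H : S34C2_Val π F1 V)
    (hRV : R ≤ V) {P : ℕ} (hP0 : 0 < P) {f G u g W : L}
    (hG : G ≠ 0 ∧ G ∈ V ∧ G⁻¹ ∈ V ∧ f - G ^ P ∈ S36TOR_nu V)
    (hu : u ∈ R) (hu' : u⁻¹ ∈ R) (hg : g ∈ F1) (hf : f = u * g ^ P) (hW : W ∈ R)
    (hr : G / g - W ∈ S36TOR_nu V) :
    (g ≠ 0 ∧ g ∈ V ∧ g⁻¹ ∈ V) ∧ u ≠ 0 ∧ W ^ P - u ∈ S36TOR_nu R := by
  obtain ⟨hG0, hGV, hGV', hGf⟩ := hG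
  obtain ⟨hf0, hfV, hfV'⟩ := S36TOR_f_unit H hG0 hGV hGV' hGf
  have hu0 : u ≠ 0 := by
    rintro rfl
    rw [zero_mul] at hf
    exact hf0 hf
  have hgP : g ^ P = f * u⁻¹ := by
    rw [hf]; field_simp
  have hgP0 : g ^ P ≠ 0 := by
    rw [hgP]; exact mul_ne_zero hf0 (inv_ne_zero hu0)
  have hgPV : g ^ P ∈ V := by
    rw [hgP]; exact V.mul_mem hfV (hRV hu')
  have hgPV' : (g ^ P)⁻¹ ∈ V := by
    have : (g ^ P)⁻¹ = f⁻¹ * u := by rw [hgP, mul_inv, inv_inv]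
    rw [this]; exact V.mul_mem hfV' (hRV hu)
  obtain ⟨hg0, hgV, hgV'⟩ := S36TOR_root_unit H hg hP0 hgP0 hgPV hgPV'
  refine ⟨⟨hg0, hgV, hgV'⟩, hu0, ?_⟩
  have hxV : G / g ∈ V := by
    rw [div_eq_mul_inv]; exact V.mul_mem hGV hgV'
  have h1 : (G / g) ^ P - W ^ P ∈ S36TOR_nu V := S36TOR_nu_pow_sub hxV (hRV hW) hr P
  have h2 : (G / g) ^ P - u ∈ S36TOR_nu V := by
    have e : (G / g) ^ P - u = -(f - G ^ P) * (g ^ P)⁻¹ := by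
      rw [div_pow, hf]
      field_simp
      ring
    rw [e]
    exact S36TOR_nu_mul_right (S36TOR_nu_neg hGf) hgPV'
  have h3 : W ^ P - u ∈ S36TOR_nu V := by
    have e : W ^ P - u = ((G / g) ^ P - u) - ((G / g) ^ P - W ^ P) := by ring
    rw [e]
    exact S36TOR_nu_sub_val H h2 h1
  exact S36TOR_nu_of_le hRV (R.sub_mem (R.pow_mem hW P) hu) h3

/-- **Step A**: at one point, the two congruences for the constants `z1`, `z2`. -/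
theorem S36TOR_stepA {O V1 V2 V3 : Subring L} (hR : IsLocalRing ↥R) {π : L}
    {F1 : Subfield L}
    (h1 : S34C2_Val π F1 V1) (h2 : S34C2_Val π F1 V2) (h3 : S34C2_Val π F1 V3)
    (hOR : O ≤ R) (hR1 : R ≤ V1) (hR2 : R ≤ V2) (hR3 : R ≤ V3)
    {lam P Q0 d Q2 q' y x : ℕ} (hP0 : 0 < P) (hP : P = lam * Q0) (hQ : Q0 = d * Q2)
    (hb : q' * (q' + 2) * y = d + P * x)
    {f G1 G2 G3 : L}
    (hG1 : G1 ≠ 0 ∧ G1 ∈ V1 ∧ G1⁻¹ ∈ V1 ∧ f - G1 ^ P ∈ S36TOR_nu V1)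
    (hG2 : G2 ≠ 0 ∧ G2 ∈ V2 ∧ G2⁻¹ ∈ V2 ∧ f - G2 ^ P ∈ S36TOR_nu V2)
    (hG3 : G3 ≠ 0 ∧ G3 ∈ V3 ∧ G3⁻¹ ∈ V3 ∧ f - G3 ^ P ∈ S36TOR_nu V3)
    {cα cα' cβ cβ' : L} (hcα : cα ≠ 0 ∧ cα ∈ O ∧ cα⁻¹ ∈ O)
    (hcα' : cα' ≠ 0 ∧ cα' ∈ O ∧ cα'⁻¹ ∈ O) (hcβ : cβ ≠ 0 ∧ cβ ∈ O ∧ cβ⁻¹ ∈ O)
    (hcβ' : cβ' ≠ 0 ∧ cβ' ∈ O ∧ cβ'⁻¹ ∈ O)
    {u g W1 W2 W3 : L} (hu : u ∈ R) (hu' : u⁻¹ ∈ R) (hg : g ∈ F1) (hf : f = u * g ^ P)
    (hW1 : W1 ∈ R) (hW2 : W2 ∈ R) (hW3 : W3 ∈ R)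
    (hr1 : G1 / g - W1 ∈ S36TOR_nu V1) (hr2 : G2 / g - W2 ∈ S36TOR_nu V2)
    (hr3 : G3 / g - W3 ∈ S36TOR_nu V3)
    (hα : cα * W1 * W2 ^ q' - cα' * W3 ^ (q' + 1) ∈ S36TOR_nu R)
    (hβ : cβ * W3 * W2 ^ q' - cβ' * W1 ^ (q' + 1) ∈ S36TOR_nu R) :
    S36TOR_z1 cα cα' cβ cβ' q' (y * Q2) * W1 ^ Q0 - W3 ^ Q0 ∈ S36TOR_nu R ∧
    S36TOR_z2 cα cα' cβ cβ' q' (y * Q2) * W2 ^ Q0 - W3 ^ Q0 ∈ S36TOR_nu R ∧
    S36TOR_z1 cα cα' cβ cβ' q' (y * Q2) ^ lam - 1 ∈ S36TOR_nu R ∧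
    S36TOR_z2 cα cα' cβ cβ' q' (y * Q2) ^ lam - 1 ∈ S36TOR_nu R := by
  have := hR
  obtain ⟨-, hu0, hb1⟩ := S36TOR_branch_pow h1 hR1 hP0 hG1 hu hu' hg hf hW1 hr1
  obtain ⟨-, -, hb2⟩ := S36TOR_branch_pow h2 hR2 hP0 hG2 hu hu' hg hf hW2 hr2
  obtain ⟨-, -, hb3⟩ := S36TOR_branch_pow h3 hR3 hP0 hG3 hu hu' hg hf hW3 hr3
  -- elements of `R`
  set ρ := IsLocalRing.residue ↥R with hρ
  set uR : R := ⟨u, hu⟩ with huR
  set w1 : R := ⟨W1, hW1⟩ with hw1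
  set w2 : R := ⟨W2, hW2⟩ with hw2
  set w3 : R := ⟨W3, hW3⟩ with hw3
  set a : R := ⟨cα, hOR hcα.2.1⟩ with ha
  set a' : R := ⟨cα', hOR hcα'.2.1⟩ with ha'
  set b : R := ⟨cβ, hOR hcβ.2.1⟩ with hb_
  set b' : R := ⟨cβ', hOR hcβ'.2.1⟩ with hb'
  set ai' : R := ⟨cα'⁻¹, hOR hcα'.2.2⟩ with hai'
  set bi : R := ⟨cβ⁻¹, hOR hcβ.2.2⟩ with hbi
  set bi' : R := ⟨cβ'⁻¹, hOR hcβ'.2.2⟩ with hbi'
  set ai : R := ⟨cα⁻¹, hOR hcα.2.2⟩ with hai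
  have inv_of : ∀ (x xi : R), x * xi = 1 → ρ xi = (ρ x)⁻¹ := by
    intro x xi h
    have : ρ x * ρ xi = 1 := by rw [← map_mul, h, map_one]
    exact eq_inv_of_mul_eq_one_right this
  have ne_of : ∀ (x xi : R), x * xi = 1 → ρ x ≠ 0 := by
    intro x xi h h0
    have : ρ x * ρ xi = 1 := by rw [← map_mul, h, map_one]
    rw [h0, zero_mul] at this
    exact zero_ne_one this
  have haa : a * ai = 1 := Subtype.ext (mul_inv_cancel₀ hcα.1)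
  have haa' : a' * ai' = 1 := Subtype.ext (mul_inv_cancel₀ hcα'.1)
  have hbb : b * bi = 1 := Subtype.ext (mul_inv_cancel₀ hcβ.1)
  have hbb' : b' * bi' = 1 := Subtype.ext (mul_inv_cancel₀ hcβ'.1)
  have huu : uR * ⟨u⁻¹, hu'⟩ = 1 := Subtype.ext (mul_inv_cancel₀ hu0)
  -- the relations in the residue field
  have k1 : ρ w1 ^ P = ρ uR := by
    have := (S36TOR_nu_coe_iff (w1 ^ P - uR)).1 (by simpa using hb1)
    rw [map_sub, map_pow] at this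
    exact sub_eq_zero.1 this
  have k2 : ρ w2 ^ P = ρ uR := by
    have := (S36TOR_nu_coe_iff (w2 ^ P - uR)).1 (by simpa using hb2)
    rw [map_sub, map_pow] at this
    exact sub_eq_zero.1 this
  have k3 : ρ w3 ^ P = ρ uR := by
    have := (S36TOR_nu_coe_iff (w3 ^ P - uR)).1 (by simpa using hb3)
    rw [map_sub, map_pow] at this
    exact sub_eq_zero.1 this
  have kα : ρ a * ρ w1 * ρ w2 ^ q' = ρ a' * ρ w3 ^ (q' + 1) := by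
    have := (S36TOR_nu_coe_iff (a * w1 * w2 ^ q' - a' * w3 ^ (q' + 1))).1 (by simpa using hα)
    rw [map_sub, map_mul, map_mul, map_pow, map_mul, map_pow] at this
    exact sub_eq_zero.1 this
  have kβ : ρ b * ρ w3 * ρ w2 ^ q' = ρ b' * ρ w1 ^ (q' + 1) := by
    have := (S36TOR_nu_coe_iff (b * w3 * w2 ^ q' - b' * w1 ^ (q' + 1))).1 (by simpa using hβ)
    rw [map_sub, map_mul, map_mul, map_pow, map_mul, map_pow] at this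
    exact sub_eq_zero.1 this
  obtain ⟨c1, c2, c3, c4⟩ := S36TOR_core (lam := lam) (Q2 := Q2) hP0 hP hQ hb
    (ne_of _ _ huu) (ne_of _ _ haa) (ne_of _ _ haa') (ne_of _ _ hbb) (ne_of _ _ hbb')
    k1 k2 k3 kα kβ
  -- the constants as elements of `R`
  obtain ⟨z1R, hz1R⟩ : ∃ z : R, z = ((a * b' * ai' * bi) ^ q') ^ (y * Q2) := ⟨_, rfl⟩
  obtain ⟨z2R, hz2R⟩ : ∃ z : R, z = (a ^ (q' + 1) * b * ai' ^ (q' + 1) * bi') ^ (y * Q2) :=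
    ⟨_, rfl⟩
  have e1 : ((z1R : R) : L) = S36TOR_z1 cα cα' cβ cβ' q' (y * Q2) := by
    simp [hz1R, S36TOR_z1, ha, hb', hai', hbi]
  have e2 : ((z2R : R) : L) = S36TOR_z2 cα cα' cβ cβ' q' (y * Q2) := by
    simp [hz2R, S36TOR_z2, ha, hb_, hai', hbi']
  have r1 : ρ z1R = ((ρ a * ρ b' * (ρ a')⁻¹ * (ρ b)⁻¹) ^ q') ^ (y * Q2) := by
    rw [hz1R, map_pow, map_pow, map_mul, map_mul, map_mul, inv_of _ _ haa', inv_of _ _ hbb]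
  have r2 : ρ z2R = (ρ a ^ (q' + 1) * ρ b * ((ρ a')⁻¹) ^ (q' + 1) * (ρ b')⁻¹) ^ (y * Q2) := by
    rw [hz2R, map_pow, map_mul, map_mul, map_mul, map_pow, map_pow, inv_of _ _ haa',
      inv_of _ _ hbb']
  rw [← e1, ← e2]
  refine ⟨?_, ?_, ?_, ?_⟩
  · have : ((z1R * w1 ^ Q0 - w3 ^ Q0 : R) : L) ∈ S36TOR_nu R := by
      rw [S36TOR_nu_coe_iff, map_sub, map_mul, map_pow, map_pow, r1, c1, sub_self]
    simpa using this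
  · have : ((z2R * w2 ^ Q0 - w3 ^ Q0 : R) : L) ∈ S36TOR_nu R := by
      rw [S36TOR_nu_coe_iff, map_sub, map_mul, map_pow, map_pow, r2, c2, sub_self]
    simpa using this
  · have : ((z1R ^ lam - 1 : R) : L) ∈ S36TOR_nu R := by
      rw [S36TOR_nu_coe_iff, map_sub, map_pow, map_one, r1, c3, sub_self]
    simpa using this
  · have : ((z2R ^ lam - 1 : R) : L) ∈ S36TOR_nu R := by
      rw [S36TOR_nu_coe_iff, map_sub, map_pow, map_one, r2, c4, sub_self]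
    simpa using this

end StepA2


section StepB

variable {R : Subring L}

/-- one branch of step B -/
theorem S36TOR_stepB_branch {V : Subring L} {π : L} {F1 : Subfield L}
    (H : S34C2_Val π F1 V) (hRV : R ≤ V) {P Q0 : ℕ} (hP0 : 0 < P)
    {f Gk zk u g Wk : L}
    (hG : Gk ≠ 0 ∧ Gk ∈ V ∧ Gk⁻¹ ∈ V ∧ f - Gk ^ P ∈ S36TOR_nu V) (hz : zk ∈ R)
    (hu : u ∈ R) (hu' : u⁻¹ ∈ R) (hg : g ∈ F1) (hf : f = u * g ^ P) (hW : Wk ∈ R)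
    (hr : Gk / g - Wk ∈ S36TOR_nu V)
    {G g' wk : L} (hGz : G - zk * Gk ^ Q0 ∈ S36TOR_nu V) (hg'0 : g' ≠ 0)
    (hε : g' / g ^ Q0 ∈ R) (hw : wk ∈ R) (hs : G / g' - wk ∈ S36TOR_nu V) :
    wk * (g' / g ^ Q0) - zk * Wk ^ Q0 ∈ S36TOR_nu R := by
  obtain ⟨⟨hg0, hgV, hgV'⟩, hu0, -⟩ := S36TOR_branch_pow H hRV hP0 hG hu hu' hg hf hW hr
  have hxV : Gk / g ∈ V := by
    rw [div_eq_mul_inv]; exact V.mul_mem hG.2.1 hgV'
  have t1 : -(G / g' - wk) * (g' / g ^ Q0) ∈ S36TOR_nu V :=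
    S36TOR_nu_mul_right (S36TOR_nu_neg hs) (hRV hε)
  have t2 : (G - zk * Gk ^ Q0) * (g ^ Q0)⁻¹ ∈ S36TOR_nu V :=
    S36TOR_nu_mul_right hGz (by rw [← inv_pow]; exact V.pow_mem hgV' Q0)
  have t3 : zk * ((Gk / g) ^ Q0 - Wk ^ Q0) ∈ S36TOR_nu V :=
    S36TOR_nu_mul_left (hRV hz) (S36TOR_nu_pow_sub hxV (hRV hW) hr Q0)
  have e : wk * (g' / g ^ Q0) - zk * Wk ^ Q0 =
      -(G / g' - wk) * (g' / g ^ Q0) + (G - zk * Gk ^ Q0) * (g ^ Q0)⁻¹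
        + zk * ((Gk / g) ^ Q0 - Wk ^ Q0) := by
    have hgQ : g ^ Q0 ≠ 0 := pow_ne_zero _ hg0
    rw [div_pow]
    field_simp
    ring
  have hmem : wk * (g' / g ^ Q0) - zk * Wk ^ Q0 ∈ R :=
    R.sub_mem (R.mul_mem hw hε) (R.mul_mem hz (R.pow_mem hW Q0))
  refine S36TOR_nu_of_le hRV hmem ?_
  rw [e]
  exact S36TOR_nu_add_val H (S36TOR_nu_add_val H t1 t2) t3

/-- **Step B**: the branch roots of `G / g'` agree modulo the maximal ideal. -/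
theorem S36TOR_stepB {V1 V2 V3 : Subring L} (hR : IsLocalRing ↥R) {π : L}
    {F1 : Subfield L}
    (h1 : S34C2_Val π F1 V1) (h2 : S34C2_Val π F1 V2) (h3 : S34C2_Val π F1 V3)
    (hR1 : R ≤ V1) (hR2 : R ≤ V2) (hR3 : R ≤ V3)
    {lam P Q0 : ℕ} (hlam : 0 < lam) (hQ0 : 0 < Q0) (hP : P = lam * Q0)
    (hic : ∀ x ∈ F1, x ^ lam ∈ R → x ∈ R)
    {f G1 G2 G3 : L}
    (hG1 : G1 ≠ 0 ∧ G1 ∈ V1 ∧ G1⁻¹ ∈ V1 ∧ f - G1 ^ P ∈ S36TOR_nu V1)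
    (hG2 : G2 ≠ 0 ∧ G2 ∈ V2 ∧ G2⁻¹ ∈ V2 ∧ f - G2 ^ P ∈ S36TOR_nu V2)
    (hG3 : G3 ≠ 0 ∧ G3 ∈ V3 ∧ G3⁻¹ ∈ V3 ∧ f - G3 ^ P ∈ S36TOR_nu V3)
    {z1 z2 z3 : L} (hz1 : z1 ∈ R) (hz2 : z2 ∈ R) (hz3 : z3 ∈ R)
    {u g W1 W2 W3 : L} (hu : u ∈ R) (hu' : u⁻¹ ∈ R) (hg : g ∈ F1) (hf : f = u * g ^ P)
    (hW1 : W1 ∈ R) (hW2 : W2 ∈ R) (hW3 : W3 ∈ R)
    (hr1 : G1 / g - W1 ∈ S36TOR_nu V1) (hr2 : G2 / g - W2 ∈ S36TOR_nu V2)
    (hr3 : G3 / g - W3 ∈ S36TOR_nu V3)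
    (hA1 : z1 * W1 ^ Q0 - z3 * W3 ^ Q0 ∈ S36TOR_nu R)
    (hA2 : z2 * W2 ^ Q0 - z3 * W3 ^ Q0 ∈ S36TOR_nu R)
    {G : L} (hGz1 : G - z1 * G1 ^ Q0 ∈ S36TOR_nu V1) (hGz2 : G - z2 * G2 ^ Q0 ∈ S36TOR_nu V2)
    (hGz3 : G - z3 * G3 ^ Q0 ∈ S36TOR_nu V3)
    {u' g' w1 w2 w3 : L} (hu1 : u' ∈ R) (hu1' : u'⁻¹ ∈ R) (hg' : g' ∈ F1)
    (hf' : f = u' * g' ^ lam) (hw1 : w1 ∈ R) (hw2 : w2 ∈ R) (hw3 : w3 ∈ R)
    (hs1 : G / g' - w1 ∈ S36TOR_nu V1) (hs2 : G / g' - w2 ∈ S36TOR_nu V2)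
    (hs3 : G / g' - w3 ∈ S36TOR_nu V3) :
    w1 - w3 ∈ S36TOR_nu R ∧ w2 - w3 ∈ S36TOR_nu R := by
  have hP0 : 0 < P := by rw [hP]; exact Nat.mul_pos hlam hQ0
  obtain ⟨⟨hg0, -, -⟩, hu0, -⟩ := S36TOR_branch_pow h1 hR1 hP0 hG1 hu hu' hg hf hW1 hr1
  obtain ⟨hf0, -, -⟩ := S36TOR_f_unit h1 hG1.1 hG1.2.1 hG1.2.2.1 hG1.2.2.2
  have hu'0 : u' ≠ 0 := by
    rintro rfl
    rw [zero_mul] at hf'
    exact hf0 hf'
  have hg'0 : g' ≠ 0 := by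
    rintro rfl
    rw [zero_pow hlam.ne', mul_zero] at hf'
    exact hf0 hf'
  -- `ε = g' / g ^ Q0` is a unit of `R`
  have hεF : g' / g ^ Q0 ∈ F1 := by
    rw [div_eq_mul_inv]
    exact F1.mul_mem hg' (F1.inv_mem (F1.pow_mem hg Q0))
  have hεF' : (g' / g ^ Q0)⁻¹ ∈ F1 := F1.inv_mem hεF
  have hpow : (g' / g ^ Q0) ^ lam = u * u'⁻¹ := by
    have e1 : g' ^ lam = f * u'⁻¹ := by rw [hf']; field_simp
    have e2 : (g ^ Q0) ^ lam = f * u⁻¹ := by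
      rw [← pow_mul, mul_comm Q0 lam, ← hP, hf]; field_simp
    rw [div_pow, e1, e2]
    field_simp
  have hε : g' / g ^ Q0 ∈ R := hic _ hεF (by rw [hpow]; exact R.mul_mem hu hu1')
  have hε' : (g' / g ^ Q0)⁻¹ ∈ R := by
    refine hic _ hεF' ?_
    rw [inv_pow, hpow, mul_inv, inv_inv]
    exact R.mul_mem hu' hu1
  have b1 := S36TOR_stepB_branch h1 hR1 hP0 hG1 hz1 hu hu' hg hf hW1 hr1 hGz1 hg'0 hε hw1 hs1
  have b2 := S36TOR_stepB_branch h2 hR2 hP0 hG2 hz2 hu hu' hg hf hW2 hr2 hGz2 hg'0 hε hw2 hs2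
  have b3 := S36TOR_stepB_branch h3 hR3 hP0 hG3 hz3 hu hu' hg hf hW3 hr3 hGz3 hg'0 hε hw3 hs3
  have hε0 : g' / g ^ Q0 ≠ 0 := div_ne_zero hg'0 (pow_ne_zero _ hg0)
  have fin : ∀ (w z W : L), w * (g' / g ^ Q0) - z * W ^ Q0 ∈ S36TOR_nu R →
      z * W ^ Q0 - z3 * W3 ^ Q0 ∈ S36TOR_nu R → w - w3 ∈ S36TOR_nu R := by
    intro w z W hb hA
    have h4 : (w - w3) * (g' / g ^ Q0) ∈ S36TOR_nu R := by
      have e : (w - w3) * (g' / g ^ Q0) =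
          (w * (g' / g ^ Q0) - z * W ^ Q0) - (w3 * (g' / g ^ Q0) - z3 * W3 ^ Q0)
            + (z * W ^ Q0 - z3 * W3 ^ Q0) := by ring
      rw [e]
      exact S36TOR_nu_add_loc hR (S36TOR_nu_sub_loc hR hb b3) hA
    have h5 := S36TOR_nu_mul_right h4 hε'
    have e : (w - w3) * (g' / g ^ Q0) * (g' / g ^ Q0)⁻¹ = w - w3 := by
      rw [mul_assoc, mul_inv_cancel₀ hε0, mul_one]
    rwa [e] at h5
  exact ⟨fin w1 z1 W1 b1 hA1, fin w2 z2 W2 b2 hA2⟩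

end StepB

section Main

/-- units of `O` -/
theorem S36TOR_unit_mul {O : Subring L} {x y : L} (hx : x ≠ 0 ∧ x ∈ O ∧ x⁻¹ ∈ O)
    (hy : y ≠ 0 ∧ y ∈ O ∧ y⁻¹ ∈ O) : x * y ≠ 0 ∧ x * y ∈ O ∧ (x * y)⁻¹ ∈ O :=
  ⟨mul_ne_zero hx.1 hy.1, O.mul_mem hx.2.1 hy.2.1, by
    rw [mul_inv]; exact O.mul_mem hx.2.2 hy.2.2⟩

theorem S36TOR_unit_inv {O : Subring L} {x : L} (hx : x ≠ 0 ∧ x ∈ O ∧ x⁻¹ ∈ O) :
    x⁻¹ ≠ 0 ∧ x⁻¹ ∈ O ∧ (x⁻¹)⁻¹ ∈ O :=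
  ⟨inv_ne_zero hx.1, hx.2.2, by rw [inv_inv]; exact hx.2.1⟩

theorem S36TOR_unit_pow {O : Subring L} {x : L} (hx : x ≠ 0 ∧ x ∈ O ∧ x⁻¹ ∈ O) (n : ℕ) :
    x ^ n ≠ 0 ∧ x ^ n ∈ O ∧ (x ^ n)⁻¹ ∈ O :=
  ⟨pow_ne_zero n hx.1, O.pow_mem hx.2.1 n, by rw [← inv_pow]; exact O.pow_mem hx.2.2 n⟩

theorem S36TOR_unit_one {O : Subring L} : (1 : L) ≠ 0 ∧ (1 : L) ∈ O ∧ (1 : L)⁻¹ ∈ O :=
  ⟨one_ne_zero, O.one_mem, by rw [inv_one]; exact O.one_mem⟩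

/-- **TORIC36 (T-glob): the choice of the branch constants.** -/
theorem S36TOR_main {ι : Type*} (R : ι → Subring L) (hloc : ∀ i, IsLocalRing ↥(R i))
    {π : L} {F1 : Subfield L} {O V1 V2 V3 : Subring L}
    (h1 : S34C2_Val π F1 V1) (h2 : S34C2_Val π F1 V2) (h3 : S34C2_Val π F1 V3)
    (hOR : ∀ i, O ≤ R i) (hR1 : ∀ i, R i ≤ V1) (hR2 : ∀ i, R i ≤ V2) (hR3 : ∀ i, R i ≤ V3)
    {lam P Q0 q : ℕ} (hlam : 0 < lam) (hQ0 : 0 < Q0) (hP : P = lam * Q0) (hq : 2 ≤ q)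
    (hgcd : Nat.gcd P (q ^ 2 - 1) ∣ Q0)
    (hic : ∀ i, ∀ x ∈ F1, x ^ lam ∈ R i → x ∈ R i)
    {f G1 G2 G3 : L}
    (hG1 : G1 ≠ 0 ∧ G1 ∈ V1 ∧ G1⁻¹ ∈ V1 ∧ f - G1 ^ P ∈ S36TOR_nu V1)
    (hG2 : G2 ≠ 0 ∧ G2 ∈ V2 ∧ G2⁻¹ ∈ V2 ∧ f - G2 ^ P ∈ S36TOR_nu V2)
    (hG3 : G3 ≠ 0 ∧ G3 ∈ V3 ∧ G3⁻¹ ∈ V3 ∧ f - G3 ^ P ∈ S36TOR_nu V3)
    {cα cα' cβ cβ' : L} (hcα : cα ≠ 0 ∧ cα ∈ O ∧ cα⁻¹ ∈ O)
    (hcα' : cα' ≠ 0 ∧ cα' ∈ O ∧ cα'⁻¹ ∈ O) (hcβ : cβ ≠ 0 ∧ cβ ∈ O ∧ cβ⁻¹ ∈ O)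
    (hcβ' : cβ' ≠ 0 ∧ cβ' ∈ O ∧ cβ'⁻¹ ∈ O)
    (hpt : ∀ i, ∃ u g W1 W2 W3 : L, u ∈ R i ∧ u⁻¹ ∈ R i ∧ g ∈ F1 ∧ f = u * g ^ P ∧
      W1 ∈ R i ∧ W2 ∈ R i ∧ W3 ∈ R i ∧
      G1 / g - W1 ∈ S36TOR_nu V1 ∧ G2 / g - W2 ∈ S36TOR_nu V2 ∧
      G3 / g - W3 ∈ S36TOR_nu V3 ∧
      cα * W1 * W2 ^ (q - 1) - cα' * W3 ^ q ∈ S36TOR_nu (R i) ∧
      cβ * W3 * W2 ^ (q - 1) - cβ' * W1 ^ q ∈ S36TOR_nu (R i)) :
    ∃ z1 z2 z3 : L, (z1 ≠ 0 ∧ z1 ∈ O ∧ z1⁻¹ ∈ O) ∧ (z2 ≠ 0 ∧ z2 ∈ O ∧ z2⁻¹ ∈ O) ∧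
      (z3 ≠ 0 ∧ z3 ∈ O ∧ z3⁻¹ ∈ O) ∧
      (∀ i, z1 ^ lam - 1 ∈ S36TOR_nu (R i) ∧ z2 ^ lam - 1 ∈ S36TOR_nu (R i) ∧
        z3 ^ lam - 1 ∈ S36TOR_nu (R i)) ∧
      ∀ G : L, G - z1 * G1 ^ Q0 ∈ S36TOR_nu V1 → G - z2 * G2 ^ Q0 ∈ S36TOR_nu V2 →
        G - z3 * G3 ^ Q0 ∈ S36TOR_nu V3 →
        ∀ i, ∀ u g w1 w2 w3 : L, u ∈ R i → u⁻¹ ∈ R i → g ∈ F1 → f = u * g ^ lam →
          w1 ∈ R i → w2 ∈ R i → w3 ∈ R i →
          G / g - w1 ∈ S36TOR_nu V1 → G / g - w2 ∈ S36TOR_nu V2 →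
          G / g - w3 ∈ S36TOR_nu V3 →
          w1 - w3 ∈ S36TOR_nu (R i) ∧ w2 - w3 ∈ S36TOR_nu (R i) := by
  obtain ⟨q', rfl⟩ : ∃ q', q = q' + 1 := ⟨q - 1, by omega⟩
  have hq' : 0 < q' := by omega
  have hn : (q' + 1) ^ 2 - 1 = q' * (q' + 2) := by
    apply Nat.sub_eq_of_eq_add
    ring
  rw [hn] at hgcd
  obtain ⟨Q2, hQ2⟩ := hgcd
  have hP0 : 0 < P := by rw [hP]; exact Nat.mul_pos hlam hQ0
  obtain ⟨y, x, hb⟩ := S36TOR_bezout P (q' * (q' + 2)) hP0 (Nat.mul_pos hq' (by omega))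
  have hA : ∀ i, ∃ u g W1 W2 W3 : L, u ∈ R i ∧ u⁻¹ ∈ R i ∧ g ∈ F1 ∧ f = u * g ^ P ∧
      W1 ∈ R i ∧ W2 ∈ R i ∧ W3 ∈ R i ∧
      G1 / g - W1 ∈ S36TOR_nu V1 ∧ G2 / g - W2 ∈ S36TOR_nu V2 ∧
      G3 / g - W3 ∈ S36TOR_nu V3 ∧
      (S36TOR_z1 cα cα' cβ cβ' q' (y * Q2) * W1 ^ Q0 - W3 ^ Q0 ∈ S36TOR_nu (R i) ∧
      S36TOR_z2 cα cα' cβ cβ' q' (y * Q2) * W2 ^ Q0 - W3 ^ Q0 ∈ S36TOR_nu (R i) ∧
      S36TOR_z1 cα cα' cβ cβ' q' (y * Q2) ^ lam - 1 ∈ S36TOR_nu (R i) ∧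
      S36TOR_z2 cα cα' cβ cβ' q' (y * Q2) ^ lam - 1 ∈ S36TOR_nu (R i)) := by
    intro i
    obtain ⟨u, g, W1, W2, W3, hu, hu', hg, hf, hW1, hW2, hW3, hr1, hr2, hr3, hα, hβ⟩ := hpt i
    rw [Nat.add_sub_cancel] at hα hβ
    exact ⟨u, g, W1, W2, W3, hu, hu', hg, hf, hW1, hW2, hW3, hr1, hr2, hr3,
      S36TOR_stepA (hloc i) h1 h2 h3 (hOR i) (hR1 i) (hR2 i) (hR3 i) hP0 hP hQ2 hb
        hG1 hG2 hG3 hcα hcα' hcβ hcβ' hu hu' hg hf hW1 hW2 hW3 hr1 hr2 hr3 hα hβ⟩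
  have hz1 : S36TOR_z1 cα cα' cβ cβ' q' (y * Q2) ≠ 0 ∧
      S36TOR_z1 cα cα' cβ cβ' q' (y * Q2) ∈ O ∧
      (S36TOR_z1 cα cα' cβ cβ' q' (y * Q2))⁻¹ ∈ O :=
    S36TOR_unit_pow (S36TOR_unit_pow (S36TOR_unit_mul (S36TOR_unit_mul
      (S36TOR_unit_mul hcα hcβ') (S36TOR_unit_inv hcα')) (S36TOR_unit_inv hcβ)) _) _
  have hz2 : S36TOR_z2 cα cα' cβ cβ' q' (y * Q2) ≠ 0 ∧
      S36TOR_z2 cα cα' cβ cβ' q' (y * Q2) ∈ O ∧
      (S36TOR_z2 cα cα' cβ cβ' q' (y * Q2))⁻¹ ∈ O :=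
    S36TOR_unit_pow (S36TOR_unit_mul (S36TOR_unit_mul (S36TOR_unit_mul
      (S36TOR_unit_pow hcα _) hcβ) (S36TOR_unit_pow (S36TOR_unit_inv hcα') _))
      (S36TOR_unit_inv hcβ')) _
  refine ⟨_, _, 1, hz1, hz2, S36TOR_unit_one, ?_, ?_⟩
  · intro i
    obtain ⟨u, g, W1, W2, W3, -, -, -, -, -, -, -, -, -, -, -, -, k3, k4⟩ := hA i
    refine ⟨k3, k4, ?_⟩
    rw [one_pow, sub_self]
    exact S36TOR_nu_zero
  · intro G hGz1 hGz2 hGz3 i u' g' w1 w2 w3 hu1 hu1' hg' hf' hw1 hw2 hw3 hs1 hs2 hs3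
    obtain ⟨u, g, W1, W2, W3, hu, hu', hg, hf, hW1, hW2, hW3, hr1, hr2, hr3, k1, k2, -, -⟩ :=
      hA i
    refine S36TOR_stepB (hloc i) h1 h2 h3 (hR1 i) (hR2 i) (hR3 i) hlam hQ0 hP (hic i)
      hG1 hG2 hG3 (hOR i hz1.2.1) (hOR i hz2.2.1) (R i).one_mem hu hu' hg hf hW1 hW2 hW3
      hr1 hr2 hr3 ?_ ?_ hGz1 hGz2 hGz3 hu1 hu1' hg' hf' hw1 hw2 hw3 hs1 hs2 hs3
    · rw [one_mul]; exact k1
    · rw [one_mul]; exact k2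

end Main

end Fermat.Agent.S36_helper6_TORIC
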