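import Mathlib
import Fermat.Agent.S36_helper19_LOCAL
import Fermat.Agent.S36_helper6_TORIC

/-!
# S36, GEO36 (d): the bridge TORIC36 → LOCAL36 (helper19)

helper6's `S36TOR_main` speaks about the non-units `S36TOR_nu R` of a local subring `R` of `L`;
LOCAL36 (`S36LOC_shape3`) speaks about `R = locRing X m` elementwise (`S36LOC_NonUnit`,
`S36LOC_Root`).  This file is the dictionary, and the closing statement at a triple point with
the conclusion of `S36TOR_main` as its hypothesis.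

* `S36LT_nonUnit_iff`   : `y ∈ S36TOR_nu (locRing X m) ↔ S36LOC_NonUnit X m y`;
* `S36LT_nu_of_root`    : a branch root `w` of `z` gives `z - w ∈ S36TOR_nu W`
  (and `z / 1`-forms: `S36LT_nu_of_root_div` for `G / g`);
* `S36LT_root_mem`      : a branch root lies in `R`;
* `S36LT_shape3`        : **the local shape at a triple point** from FACT, `RedPow`, the three
  branch roots and the conclusion of TORIC36 at `R = locRing X m`.
-/

set_option autoImplicit false
set_option linter.unusedSectionVars false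
set_option linter.unusedVariables false
set_option linter.style.haveILetI false

namespace Fermat.Agent.S36_helper19_LOCTOR

open Fermat.Agent.S18_helper9_CDefs Fermat.Agent.S18_helper9_CBasic
  Fermat.Agent.S18_helper3_LOCRING Fermat.Agent.S34_helper12_CDefs
  Fermat.Agent.S34_helper27_C2Defs Fermat.Agent.S34_helper27_C2SAT
  Fermat.Agent.S36_helper19_LOCAL Fermat.Agent.S36_helper6_TORIC

variable {L : Type*} [Field L] {π : L} {F1 : Subfield L} {W W1 W2 W3 X : Subring L}

/-- non-units of `locRing X m` in helper6's sense are non-units in the elementwise sense. -/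
theorem S36LT_nonUnit_of_nu (m : Ideal X) [hm : m.IsPrime] {y : L}
    (hy : y ∈ S36TOR_nu (locRing X m)) : S36LOC_NonUnit X m y := by
  obtain ⟨⟨a, c, hc, h⟩, hy2⟩ := hy
  by_cases ha : a ∈ m
  · exact ⟨a, c, ha, hc, h⟩
  · exfalso
    have hinv : y⁻¹ ∈ locRing X m := inv_mem_locRing_of_notMem X m ha hc h
    rcases hy2 with h0 | h0
    · apply ha
      have : (a : L) = 0 := by rw [← h, h0, zero_mul]
      have ha0 : a = 0 := Subtype.ext this
      rw [ha0]
      exact m.zero_mem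
    · exact h0 hinv

/-- non-units in the elementwise sense are non-units of `locRing X m` in helper6's sense. -/
theorem S36LT_nu_of_nonUnit (m : Ideal X) [hm : m.IsPrime] {y : L}
    (hy : S36LOC_NonUnit X m y) : y ∈ S36TOR_nu (locRing X m) := by
  obtain ⟨a, c, ha, hc, h⟩ := hy
  refine ⟨⟨a, c, hc, h⟩, ?_⟩
  by_cases hy0 : y = 0
  · exact Or.inl hy0
  · right
    rintro ⟨a', c', hc', h'⟩
    -- y * c = a, y⁻¹ * c' = a'  ⟹  c * c' = a * a' ∈ m
    have hcc : (c : L) * (c' : L) = (a : L) * (a' : L) := by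
      rw [← h, ← h']
      field_simp
    have hcc' : c * c' = a * a' := Subtype.ext (by push_cast; exact hcc)
    have hmem : c * c' ∈ m := by
      rw [hcc']
      exact m.mul_mem_right _ ha
    rcases hm.mem_or_mem hmem with h1 | h1
    exacts [hc h1, hc' h1]

theorem S36LT_nonUnit_iff (m : Ideal X) [hm : m.IsPrime] {y : L} :
    y ∈ S36TOR_nu (locRing X m) ↔ S36LOC_NonUnit X m y :=
  ⟨S36LT_nonUnit_of_nu m, S36LT_nu_of_nonUnit m⟩

/-- multiples of `π` are non-units of a valuation ring in which `π` is a non-unit. -/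
theorem S36LT_nu_pi_mul (H : S34C2_Val π F1 W) {v : L} (hv : v ∈ W) :
    π * v ∈ S36TOR_nu W := by
  refine ⟨W.mul_mem H.π_mem hv, ?_⟩
  by_cases h0 : π * v = 0
  · exact Or.inl h0
  · right
    intro hinv
    apply H.π_nonunit
    have hπ0 : π ≠ 0 := left_ne_zero_of_mul h0
    have hv0 : v ≠ 0 := right_ne_zero_of_mul h0
    have : π⁻¹ = v * (π * v)⁻¹ := by
      field_simp
    rw [this]
    exact W.mul_mem hv hinv

/-- a branch root lies in the local ring. -/
theorem S36LT_root_mem (m : Ideal X) [hm : m.IsPrime] {z w : L}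
    (h : S36LOC_Root π W X m z w) : w ∈ locRing X m := h.1

/-- a branch root `w` of `z` along `W`: `z - w` is a non-unit of `W`. -/
theorem S36LT_nu_of_root (H : S34C2_Val π F1 W) (m : Ideal X) [hm : m.IsPrime]
    (hRW : locRing X m ≤ W) {z w : L} (h : S36LOC_Root π W X m z w) :
    z - w ∈ S36TOR_nu W := by
  obtain ⟨hw, -, c, hc, hz⟩ := h
  have : z - w = π * (w * c) := by rw [hz]; ring
  rw [this]
  exact S36LT_nu_pi_mul H (W.mul_mem (hRW hw) hc)

/-- the same for `z = G / g` (helper6 writes `G / g`, LOCAL36 writes `G * g⁻¹`). -/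
theorem S36LT_nu_of_root_div (H : S34C2_Val π F1 W) (m : Ideal X) [hm : m.IsPrime]
    (hRW : locRing X m ≤ W) {G g w : L} (h : S36LOC_Root π W X m (G * g⁻¹) w) :
    G / g - w ∈ S36TOR_nu W := by
  rw [div_eq_mul_inv]
  exact S36LT_nu_of_root H m hRW h

/-- the difference of two elements congruent to a third one modulo the maximal ideal. -/
theorem S36LT_nonUnit_sub (m : Ideal X) [hm : m.IsPrime] {a b c : L}
    (hac : S36LOC_NonUnit X m (a - c)) (hbc : S36LOC_NonUnit X m (b - c)) :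
    S36LOC_NonUnit X m (a - b) := by
  obtain ⟨a1, c1, ha1, hc1, h1⟩ := hac
  obtain ⟨a2, c2, ha2, hc2, h2⟩ := hbc
  refine ⟨a1 * c2 - a2 * c1, c1 * c2, ?_, fun hmem => ?_, ?_⟩
  · exact m.sub_mem (m.mul_mem_right _ ha1) (m.mul_mem_right _ ha2)
  · rcases hm.mem_or_mem hmem with h | h
    exacts [hc1 h, hc2 h]
  · push_cast
    rw [← h1, ← h2]
    ring

/-- **The local shape at a triple point, TORIC36 form.**  `htor` is the conclusion of helper6's
`S36TOR_main` at the local ring `R = locRing X m` (for the global `G` of REDPOW, chosen with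
`G ≡ z_k G_k ^ Q0` on the three branches); FACT gives `f = u₀ g₀ ^ p`, BRANCH36 the three
branch roots of `G / g₀`. -/
theorem S36LT_shape3 (H1 : S34C2_Val π F1 W1) (H2 : S34C2_Val π F1 W2)
    (H3 : S34C2_Val π F1 W3) (m : Ideal X) [hm : m.IsPrime]
    (hR1 : locRing X m ≤ W1) (hR2 : locRing X m ≤ W2) (hR3 : locRing X m ≤ W3)
    {p : ℕ} (hp0 : 0 < p) (hpL : (p : L) ≠ 0) (hpR : ((p : L))⁻¹ ∈ locRing X m)
    (f G u0 g0 w1 w2 w3 : L) (hf0 : f ≠ 0)
    (hu0 : u0 ∈ locRing X m) (hu0' : u0⁻¹ ∈ locRing X m) (hg0F : g0 ∈ F1)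
    (hfact : f = u0 * g0 ^ p)
    (hred : RedPow π (W1 ⊓ W2 ⊓ W3 : Subring L) p f G)
    (hw1 : S36LOC_Root π W1 X m (G * g0⁻¹) w1) (hw2 : S36LOC_Root π W2 X m (G * g0⁻¹) w2)
    (hw3 : S36LOC_Root π W3 X m (G * g0⁻¹) w3)
    (htor : ∀ u g w1 w2 w3 : L, u ∈ locRing X m → u⁻¹ ∈ locRing X m → g ∈ F1 →
      f = u * g ^ p → w1 ∈ locRing X m → w2 ∈ locRing X m → w3 ∈ locRing X m →
      G / g - w1 ∈ S36TOR_nu W1 → G / g - w2 ∈ S36TOR_nu W2 → G / g - w3 ∈ S36TOR_nu W3 →
      w1 - w3 ∈ S36TOR_nu (locRing X m) ∧ w2 - w3 ∈ S36TOR_nu (locRing X m)) :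
    S34C_Shape π F1 (W1 ⊓ W2 ⊓ W3 : Subring L) X p f G m := by
  obtain ⟨h13, h23⟩ := htor u0 g0 w1 w2 w3 hu0 hu0' hg0F hfact hw1.1 hw2.1 hw3.1
    (S36LT_nu_of_root_div H1 m hR1 hw1) (S36LT_nu_of_root_div H2 m hR2 hw2)
    (S36LT_nu_of_root_div H3 m hR3 hw3)
  have h13' := S36LT_nonUnit_of_nu m h13
  have h23' := S36LT_nonUnit_of_nu m h23
  exact S36LOC_shape3 H1 H2 H3 m hR1 hR2 hR3 hp0 hpL hpR f G u0 g0 w1 w2 w3 hf0 hu0 hu0' hg0F
    hfact hred hw1 hw2 hw3 (S36LT_nonUnit_sub m h13' h23') h13'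

end Fermat.Agent.S36_helper19_LOCTOR
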