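import Mathlib
import Fermat.Agent.S34_helper13_VCOUNT
import Fermat.Agent.S34_helper13_KEY
import Fermat.Agent.S34_helper27_C2Defs

/-!
# S36, CRT3 (helper2): the Chinese remainder theorem for finitely many valuation rings over a
discrete valuation ring

* `S36CRT_vs` : (vocabulary of helper13's VCOUNT) `R` a discrete valuation ring with fraction
  field `F`, `F'/F` finite separable, `W i` pairwise distinct valuation subrings of `F'`
  dominating `R`, `τ i` a uniformiser of `W i`, `x i ∈ W i`: there is `y ∈ F'`, integral over `R`,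
  with `y - x i ∈ τ i ^ N * W i` for all `i`.
* `S36CRT_abs` : the same in the `Subring L` vocabulary (`S34C2_Val`, `S34KEY_vs`).
-/

set_option autoImplicit false
set_option linter.style.haveILetI false
set_option linter.unusedSectionVars false
set_option linter.unusedVariables false

open IsDedekindDomain IsDedekindDomain.HeightOneSpectrum
open Fermat.Agent.S34_helper13_VCOUNT Fermat.Agent.S34_helper13_KEY
  Fermat.Agent.S34_helper27_C2Defs

namespace Fermat.Agent.S36_helper2_CRT3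

section Core

variable {R : Type*} (S : Type*) {F' : Type*} [CommRing R] [IsDomain R] [IsDiscreteValuationRing R]
  [CommRing S] [IsDedekindDomain S] [Field F'] [Algebra R F'] [FaithfulSMul R F']
  [Algebra R S] [Algebra S F'] [IsScalarTower R S F'] [IsFractionRing S F']
  [IsIntegralClosure S R F']
  (W : ValuationSubring F')

/-- The elements of `S` whose image lies in `τ ^ N * W`. -/
def S36CRT_J (hW : S34V_Dom R W) (τ : F') (N : ℕ) : Ideal S where
  carrier := {s | ∃ v ∈ W, algebraMap S F' s = τ ^ N * v}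
  add_mem' := by
    rintro a b ⟨v, hv, hav⟩ ⟨w, hw, hbw⟩
    exact ⟨v + w, W.add_mem _ _ hv hw, by rw [map_add, hav, hbw]; ring⟩
  zero_mem' := ⟨0, W.zero_mem, by simp⟩
  smul_mem' := by
    rintro c a ⟨v, hv, hav⟩
    refine ⟨algebraMap S F' c * v, W.mul_mem _ _ (S34V_algebraMap_mem W hW.1 c) hv, ?_⟩
    rw [smul_eq_mul, map_mul, hav]; ring

theorem S36CRT_mem_J (hW : S34V_Dom R W) (τ : F') (N : ℕ) (s : S) :
    s ∈ S36CRT_J S W hW τ N ↔ ∃ v ∈ W, algebraMap S F' s = τ ^ N * v := Iff.rfl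

/-- `P ^ N ≤ J_N` for the centre `P` of `W` and a uniformiser `τ`. -/
theorem S36CRT_pow_le (hW : S34V_Dom R W) (τ : F')
    (hτ : ∀ x ∈ W.nonunits, ∃ v ∈ W, x = τ * v) (N : ℕ) :
    (S34V_hos S W hW).asIdeal ^ N ≤ S36CRT_J S W hW τ N := by
  induction N with
  | zero =>
    intro s _
    exact ⟨algebraMap S F' s, S34V_algebraMap_mem W hW.1 s, by simp⟩
  | succ N ih =>
    rw [pow_succ]
    refine Ideal.mul_le.2 fun a ha b hb => ?_
    obtain ⟨v, hv, hav⟩ := ih ha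
    have hb' : algebraMap S F' b ∈ W.nonunits := (S34V_mem_centreIdeal S W hW.1 b).1 hb
    obtain ⟨w, hw, hbw⟩ := hτ _ hb'
    exact ⟨v * w, W.mul_mem _ _ hv hw, by rw [map_mul, hav, hbw]; ring⟩

/-- an element of `S` outside the centre `P` is invertible modulo `P ^ N`. -/
theorem S36CRT_inv_mod (hW : S34V_Dom R W) (s : S) (hs : s ∉ (S34V_hos S W hW).asIdeal)
    (N : ℕ) : ∃ s' : S, 1 - s * s' ∈ (S34V_hos S W hW).asIdeal ^ N := by
  haveI hmax : (S34V_hos S W hW).asIdeal.IsMaximal := (S34V_hos S W hW).isMaximal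
  obtain ⟨y, i, hi, hyi⟩ := hmax.exists_inv hs
  -- `y * s + i = 1`, so `1 - s * y = i ∈ P`
  have h1 : 1 - s * y ∈ (S34V_hos S W hW).asIdeal := by
    have : 1 - s * y = i := by linear_combination -hyi
    rw [this]; exact hi
  refine ⟨y * ∑ k ∈ Finset.range N, (1 - s * y) ^ k, ?_⟩
  have h2 : 1 - s * (y * ∑ k ∈ Finset.range N, (1 - s * y) ^ k) = (1 - s * y) ^ N := by
    have := mul_neg_geom_sum (1 - s * y) N
    -- (1 - x) * Σ x^k = 1 - x^N
    linear_combination -this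
  rw [h2]
  exact Ideal.pow_mem_pow h1 N

/-- every element of `W` is congruent modulo `τ ^ N * W` to an element of `S`. -/
theorem S36CRT_approx (hW : S34V_Dom R W) (τ : F')
    (hτ : ∀ x ∈ W.nonunits, ∃ v ∈ W, x = τ * v) (N : ℕ) {x : F'} (hx : x ∈ W) :
    ∃ b : S, ∃ v ∈ W, x - algebraMap S F' b = τ ^ N * v := by
  have hx' : x ∈ valuationSubringAtPrime F' (S34V_hos S W hW) := by
    rw [valuationSubringAtPrime_eq_valuationSubring, ← S34V_eq_valuationSubring S W hW]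
    exact hx
  obtain ⟨a, s, hs, rfl⟩ := hx'
  obtain ⟨s', hs'⟩ := S36CRT_inv_mod S W hW s hs N
  obtain ⟨v, hv, hsv⟩ := S36CRT_pow_le S W hW τ hτ N hs'
  have hs0 : algebraMap S F' s ≠ 0 := by
    intro h0
    apply hs
    have : s = 0 := (FaithfulSMul.algebraMap_eq_zero_iff S F').1 h0
    rw [this]
    exact Ideal.zero_mem _
  have hsinv : (algebraMap S F' s)⁻¹ ∈ W := by
    have h1 : algebraMap S F' s ∉ W.nonunits := by
      rw [← S34V_mem_centreIdeal S W hW.1]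
      exact hs
    by_contra hcon
    exact h1 ((ValuationSubring.mem_nonunits_iff_or W).2 (Or.inr hcon))
  refine ⟨a * s', algebraMap S F' a * (algebraMap S F' s)⁻¹ * v,
    W.mul_mem _ _ (W.mul_mem _ _ (S34V_algebraMap_mem W hW.1 a) hsinv) hv, ?_⟩
  rw [map_sub, map_one, map_mul] at hsv
  rw [map_mul]
  field_simp
  linear_combination (algebraMap S F' a) * hsv

end Core

section Family

variable (R F : Type*) {F' : Type*} [CommRing R] [IsDomain R] [IsDiscreteValuationRing R]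
  [Field F] [Field F'] [Algebra R F] [IsFractionRing R F] [Algebra F F'] [Algebra R F']
  [IsScalarTower R F F'] [FiniteDimensional F F'] [Algebra.IsSeparable F F']

include F in
/-- **CRT for finitely many dominating valuation subrings.** -/
theorem S36CRT_vs {ι : Type*} [Fintype ι] [DecidableEq ι] (W : ι → ValuationSubring F')
    (hW : ∀ i, S34V_Dom R (W i)) (hinj : Function.Injective W) (τ : ι → F')
    (hτ : ∀ i, ∀ x ∈ (W i).nonunits, ∃ v ∈ W i, x = τ i * v) (N : ℕ)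
    (x : ι → F') (hx : ∀ i, x i ∈ W i) :
    ∃ y : F', IsIntegral R y ∧ ∀ i, ∃ v ∈ W i, y - x i = τ i ^ N * v := by
  classical
  haveI := S34V_isDedekind R F F'
  haveI := S34V_isFrac R F F'
  haveI := S34V_faithful R F F'
  choose b v hv hbv using
    fun i => S36CRT_approx (S34V_S R F') (W i) (hW i) (τ i) (hτ i) N (hx i)
  obtain ⟨y, hy⟩ := IsDedekindDomain.exists_forall_sub_mem_ideal (s := Finset.univ)
    (fun i => (S34V_hos (S34V_S R F') (W i) (hW i)).asIdeal) (fun _ => N)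
    (fun i _ => (S34V_hos (S34V_S R F') (W i) (hW i)).prime)
    (fun i _ j _ hij h => hij (hinj (S34V_hos_injective (S34V_S R F') (hW i) (hW j)
      (HeightOneSpectrum.ext h))))
    (fun i => b i.1)
  refine ⟨algebraMap (S34V_S R F') F' y,
    (IsIntegralClosure.isIntegral_iff (A := S34V_S R F')).2 ⟨y, rfl⟩, fun i => ?_⟩
  obtain ⟨w, hw, hyw⟩ :=
    S36CRT_pow_le (S34V_S R F') (W i) (hW i) (τ i) (hτ i) N (hy i (Finset.mem_univ i))
  refine ⟨w - v i, sub_mem hw (hv i), ?_⟩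
  rw [map_sub] at hyw
  linear_combination hyw - hbv i

end Family

section Abs

variable {L : Type*} [Field L] {π : L} {F1' F1 : Subfield L} {V' : Subring L}

/-- **CRT for finitely many valuation rings of `F1` above the discrete valuation ring `V'`**, in
the `Subring L` vocabulary: `V i` pairwise distinct valuation rings of `F1` containing `V'`
(`π` a non-unit), `τ i ∈ F1` a uniformiser of `V i`, `x i ∈ V i`.  Then there is `y ∈ F1`,
integral over `V'` (hence in every `V i`), with `y - x i ∈ τ i ^ N * V i`. -/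
theorem S36CRT_abs [CharZero L] {ι : Type*} [Fintype ι] [DecidableEq ι] (hF : F1' ≤ F1)
    (hV' : S34C2_Val π F1' V')
    (hsep : ∀ x ∈ F1', x ≠ 0 → ∃ (z : ℤ) (u : L), u ∈ V' ∧ u⁻¹ ∈ V' ∧ x = π ^ z * u)
    (hdeg : ∃ s : Finset L, ∀ x ∈ F1, ∃ c : L → L, (∀ y, c y ∈ F1') ∧ x = ∑ y ∈ s, c y * y)
    (V : ι → Subring L) (h : ∀ i, S34C2_Val π F1 (V i)) (hV : ∀ i, V' ≤ V i)
    (hinj : Function.Injective V) (τ : ι → L) (hτF : ∀ i, τ i ∈ F1)
    (hτ : ∀ i, ∀ x ∈ V i, x⁻¹ ∉ V i → ∃ v ∈ V i, x = τ i * v) (N : ℕ)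
    (x : ι → L) (hx : ∀ i, x i ∈ V i) :
    ∃ y ∈ F1, IsIntegral V' y ∧ (∀ i, y ∈ V i) ∧ ∀ i, ∃ v ∈ V i, y - x i = τ i ^ N * v := by
  classical
  letI := S34KEY_alg hF
  obtain ⟨s, hs⟩ := hdeg
  obtain ⟨hfd, -⟩ := S34KEY_finrank_le hF (n := s.card) ⟨s, le_rfl, hs⟩
  haveI := hfd
  haveI : CharZero ↥F1' := by
    refine ⟨fun a b hab => ?_⟩
    have := congrArg (fun t : ↥F1' => (t : L)) hab
    simpa using this
  haveI : Algebra.IsSeparable ↥F1' ↥F1 := Algebra.IsAlgebraic.isSeparable_of_perfectField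
  haveI := S34KEY_isDVR hV' hsep
  letI := S34KEY_algR hF hV'
  haveI : IsScalarTower ↥(S34KEY_vs hV') ↥F1' ↥F1 := IsScalarTower.of_algebraMap_eq (fun _ => rfl)
  have hd : ∀ i, S34V_Dom ↥(S34KEY_vs hV') (S34KEY_vs (h i)) :=
    fun i => S34KEY_dom hF hV' hsep (h i) (hV i)
  have hinj' : Function.Injective fun i => S34KEY_vs (h i) :=
    fun i j hij => hinj (S34KEY_vs_injective (h i) (h j) hij)
  obtain ⟨y, hy, hyx⟩ := S36CRT_vs ↥(S34KEY_vs hV') ↥F1' (fun i => S34KEY_vs (h i)) hd hinj'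
    (fun i => (⟨τ i, hτF i⟩ : ↥F1))
    (fun i z hz => by
      have hz' := (S34KEY_mem_nonunits (h i) z).1 hz
      rcases hz' with h0 | h0
      · exact ⟨0, (S34KEY_vs (h i)).zero_mem, by
          apply Subtype.ext
          rw [h0]; simp⟩
      · have hzV : (z : L) ∈ V i := ValuationSubring.nonunits_subset hz
        obtain ⟨v, hv, hzv⟩ := hτ i (z : L) hzV h0
        exact ⟨⟨v, (h i).le hv⟩, hv, Subtype.ext hzv⟩)
    N (fun i => (⟨x i, (h i).le (hx i)⟩ : ↥F1)) (fun i => hx i)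
  have hyint : IsIntegral V' (y : L) := S34KEY_isIntegral_of hF hV' y hy
  refine ⟨(y : L), y.2, hyint, fun i => (h i).ic y.2
    (Fermat.Agent.S18_helper9_CBasic.isIntegral_mono (hV i) hyint), fun i => ?_⟩
  obtain ⟨v, hv, hyv⟩ := hyx i
  exact ⟨(v : L), hv, congrArg (fun t : ↥F1 => (t : L)) hyv⟩

end Abs

section Three

variable {L : Type*} [Field L] {π : L} {F1' F1 : Subfield L} {V' V1 V2 V3 : Subring L}

/-- **CRT3**: `S36CRT_abs` for three valuation rings. -/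
theorem S36CRT_three [CharZero L] (hF : F1' ≤ F1)
    (hV' : S34C2_Val π F1' V')
    (hsep : ∀ x ∈ F1', x ≠ 0 → ∃ (z : ℤ) (u : L), u ∈ V' ∧ u⁻¹ ∈ V' ∧ x = π ^ z * u)
    (hdeg : ∃ s : Finset L, ∀ x ∈ F1, ∃ c : L → L, (∀ y, c y ∈ F1') ∧ x = ∑ y ∈ s, c y * y)
    (h1 : S34C2_Val π F1 V1) (h2 : S34C2_Val π F1 V2) (h3 : S34C2_Val π F1 V3)
    (hV1 : V' ≤ V1) (hV2 : V' ≤ V2) (hV3 : V' ≤ V3)
    (h12 : V1 ≠ V2) (h13 : V1 ≠ V3) (h23 : V2 ≠ V3)
    {τ1 τ2 τ3 : L} (hτ1F : τ1 ∈ F1) (hτ2F : τ2 ∈ F1) (hτ3F : τ3 ∈ F1)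
    (hτ1 : ∀ x ∈ V1, x⁻¹ ∉ V1 → ∃ v ∈ V1, x = τ1 * v)
    (hτ2 : ∀ x ∈ V2, x⁻¹ ∉ V2 → ∃ v ∈ V2, x = τ2 * v)
    (hτ3 : ∀ x ∈ V3, x⁻¹ ∉ V3 → ∃ v ∈ V3, x = τ3 * v) (N : ℕ)
    {x1 x2 x3 : L} (hx1 : x1 ∈ V1) (hx2 : x2 ∈ V2) (hx3 : x3 ∈ V3) :
    ∃ y ∈ F1, IsIntegral V' y ∧ y ∈ V1 ∧ y ∈ V2 ∧ y ∈ V3 ∧
      (∃ v ∈ V1, y - x1 = τ1 ^ N * v) ∧ (∃ v ∈ V2, y - x2 = τ2 ^ N * v) ∧
      (∃ v ∈ V3, y - x3 = τ3 ^ N * v) := by
  have hval : ∀ i : Fin 3, S34C2_Val π F1 (![V1, V2, V3] i) := by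
    intro i; fin_cases i
    · exact h1
    · exact h2
    · exact h3
  have hle : ∀ i : Fin 3, V' ≤ ![V1, V2, V3] i := by
    intro i; fin_cases i
    · exact hV1
    · exact hV2
    · exact hV3
  have hinj : Function.Injective ![V1, V2, V3] := by
    intro i j hij
    fin_cases i <;> fin_cases j <;> first
      | rfl
      | exact absurd hij h12
      | exact absurd hij h13
      | exact absurd hij h23
      | exact absurd hij.symm h12
      | exact absurd hij.symm h13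
      | exact absurd hij.symm h23
  have hτF : ∀ i : Fin 3, ![τ1, τ2, τ3] i ∈ F1 := by
    intro i; fin_cases i
    · exact hτ1F
    · exact hτ2F
    · exact hτ3F
  have hτ : ∀ i : Fin 3, ∀ x ∈ ![V1, V2, V3] i, x⁻¹ ∉ ![V1, V2, V3] i →
      ∃ v ∈ ![V1, V2, V3] i, x = ![τ1, τ2, τ3] i * v := by
    intro i; fin_cases i
    · exact hτ1
    · exact hτ2
    · exact hτ3
  have hx : ∀ i : Fin 3, ![x1, x2, x3] i ∈ ![V1, V2, V3] i := by
    intro i; fin_cases i
    · exact hx1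
    · exact hx2
    · exact hx3
  obtain ⟨y, hyF, hyint, hyV, hyx⟩ := S36CRT_abs hF hV' hsep hdeg ![V1, V2, V3] hval hle hinj
    ![τ1, τ2, τ3] hτF hτ N ![x1, x2, x3] hx
  exact ⟨y, hyF, hyint, hyV 0, hyV 1, hyV 2, hyx 0, hyx 1, hyx 2⟩

end Three

end Fermat.Agent.S36_helper2_CRT3
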