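import Mathlib
import Fermat.Agent.S18_helper9_CDefs
import Fermat.Agent.S34_helper27_C2Defs
import Fermat.Agent.S36_helper2_CRT3

/-!
# S36, REDPOW (helper2): one global `p`-th root modulo `π` from the three branch roots

`V1`, `V2`, `V3` pairwise distinct valuation rings of `F1` above the discrete valuation ring `V'`
of `F1'` (`F1/F1'` finite), `π` a uniformiser of `V1` and of `V3`, `t` a uniformiser of `V2` with
`t ^ m ∈ π V2`, `p` invertible in `V2`.  Let `f ∈ F1` and `G_i ∈ F1` units of `V_i` with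
`f = G_i ^ p (1 + τ_i v_i)`, `v_i ∈ V_i` (`τ_1 = τ_3 = π`, `τ_2 = t`: only modulo `t` on the
thick branch).  Then there is ONE `G ∈ F1`, a unit of `V = V1 ⊓ V2 ⊓ V3`, with
`RedPow π V p f G`, and `G ∈ G_i (1 + τ_i V_i)` for all `i` (`S36RP_redPow`).

Ingredients: Hensel `t ^ k → t ^ (k + 1)` on the thick branch (`S36RP_hensel`), CRT3.
-/

set_option autoImplicit false
set_option linter.style.haveILetI false
set_option linter.unusedSectionVars false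
set_option linter.unusedVariables false

namespace Fermat.Agent.S36_helper2_REDPOW

open Fermat.Agent.S18_helper9_CDefs Fermat.Agent.S34_helper27_C2Defs
  Fermat.Agent.S36_helper2_CRT3

variable {L : Type*} [Field L]

/-- `(1 + b) ^ p = 1 + p b + b ^ 2 d` with `d` in the subring generated by `b`. -/
theorem S36RP_binom {W : Subring L} {b : L} (hb : b ∈ W) (p : ℕ) :
    ∃ d ∈ W, (1 + b) ^ p = 1 + (p : L) * b + b ^ 2 * d := by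
  induction p with
  | zero => exact ⟨0, W.zero_mem, by simp⟩
  | succ p ih =>
    obtain ⟨d, hd, hpd⟩ := ih
    refine ⟨(p : L) + d + b * d, W.add_mem (W.add_mem (natCast_mem W p) hd) (W.mul_mem hb hd), ?_⟩
    rw [pow_succ, hpd]
    push_cast
    ring

section OneAdd

variable {π : L} {F1 : Subfield L} {W : Subring L}

/-- `1 + τ W` is closed under multiplication. -/
theorem S36RP_mul {τ : L} {x y : L} (hx : ∃ v ∈ W, x = 1 + τ * v) (hy : ∃ v ∈ W, y = 1 + τ * v)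
    (hτ : τ ∈ W) : ∃ v ∈ W, x * y = 1 + τ * v := by
  obtain ⟨v, hv, rfl⟩ := hx
  obtain ⟨w, hw, rfl⟩ := hy
  exact ⟨v + w + τ * v * w, W.add_mem (W.add_mem hv hw) (W.mul_mem (W.mul_mem hτ hv) hw),
    by ring⟩

/-- `1 + τ W` is closed under powers. -/
theorem S36RP_pow {τ : L} {x : L} (hx : ∃ v ∈ W, x = 1 + τ * v) (hτ : τ ∈ W) (n : ℕ) :
    ∃ v ∈ W, x ^ n = 1 + τ * v := by
  induction n with
  | zero => exact ⟨0, W.zero_mem, by simp⟩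
  | succ n ih =>
    rw [pow_succ]
    exact S36RP_mul ih hx hτ

/-- a non-unit `τ` of a valuation ring: `1 + τ v` is a unit. -/
theorem S36RP_one_add_inv (H : S34C2_Val π F1 W) {τ : L} (hτ : τ ∈ W) (hτ' : τ⁻¹ ∉ W)
    {v : L} (hv : v ∈ W) : (1 + τ * v)⁻¹ ∈ W := by
  by_cases h0 : τ * v = 0
  · rw [h0, add_zero, inv_one]; exact W.one_mem
  refine H.inv_add_mem W.one_mem (by rw [inv_one]; exact W.one_mem) one_ne_zero
    (W.mul_mem hτ hv) ?_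
  intro h
  apply hτ'
  have hτ0 : τ ≠ 0 := left_ne_zero_of_mul h0
  have hv0 : v ≠ 0 := right_ne_zero_of_mul h0
  have : τ⁻¹ = v * (τ * v)⁻¹ := by field_simp
  rw [this]
  exact W.mul_mem hv h

/-- `1 + τ W` is closed under inverses (`τ` a non-unit of the valuation ring `W`). -/
theorem S36RP_inv (H : S34C2_Val π F1 W) {τ : L} (hτ : τ ∈ W) (hτ' : τ⁻¹ ∉ W)
    {x : L} (hx : ∃ v ∈ W, x = 1 + τ * v) : ∃ v ∈ W, x⁻¹ = 1 + τ * v := by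
  obtain ⟨v, hv, rfl⟩ := hx
  have hinv := S36RP_one_add_inv H hτ hτ' hv
  have hne : 1 + τ * v ≠ 0 := by
    intro h0
    apply hτ'
    have h1 : τ * (-v) = 1 := by linear_combination -h0
    have : τ⁻¹ = -v := inv_eq_of_mul_eq_one_right h1
    rw [this]; exact W.neg_mem hv
  refine ⟨-(v * (1 + τ * v)⁻¹), W.neg_mem (W.mul_mem hv hinv), ?_⟩
  field_simp
  ring

end OneAdd

section Hensel

variable {π : L} {F1 : Subfield L} {V2 : Subring L}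

/-- **Hensel step on the thick branch**: from `f = G ^ p (1 + t ^ k r)` to
`f = G' ^ p (1 + t ^ (k + 1) r')` with `G' = G (1 + t v)`. -/
theorem S36RP_step (h2 : S34C2_Val π F1 V2) {t : L} (ht : t ∈ V2) (ht' : t⁻¹ ∉ V2)
    {p : ℕ} (hp : (p : L)⁻¹ ∈ V2) (hp0 : (p : L) ≠ 0) {f G : L} {k : ℕ} (hk : 1 ≤ k)
    (hG0 : G ≠ 0) (hf : ∃ r ∈ V2, f = G ^ p * (1 + t ^ k * r)) :
    ∃ G' : L, (∃ v ∈ V2, G' = G * (1 + t * v)) ∧ ∃ r ∈ V2, f = G' ^ p * (1 + t ^ (k + 1) * r) := by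
  obtain ⟨r, hr, hfr⟩ := hf
  obtain ⟨j, rfl⟩ : ∃ j, k = j + 1 := ⟨k - 1, by omega⟩
  -- `b = t ^ k r / p = t * (t ^ j r / p)`
  set c : L := t ^ j * r * (p : L)⁻¹ with hc
  have hcV : c ∈ V2 := V2.mul_mem (V2.mul_mem (V2.pow_mem ht j) hr) hp
  have hbV : t * c ∈ V2 := V2.mul_mem ht hcV
  obtain ⟨d, hd, hbd⟩ := S36RP_binom hbV p
  have hinv : (1 + t * c)⁻¹ ∈ V2 := S36RP_one_add_inv h2 ht ht' hcV
  have hne : 1 + t * c ≠ 0 := by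
    intro h0
    apply ht'
    have h1 : t * (-c) = 1 := by linear_combination -h0
    have : t⁻¹ = -c := inv_eq_of_mul_eq_one_right h1
    rw [this]; exact V2.neg_mem hcV
  have hpb : (p : L) * (t * c) = t ^ (j + 1) * r := by
    rw [hc]
    field_simp
    ring
  have hpne : (1 + t * c) ^ p ≠ 0 := pow_ne_zero _ hne
  have e1 : (1 + t * c) ^ p * ((1 + t * c) ^ p)⁻¹ = 1 := mul_inv_cancel₀ hpne
  have hc2 : c ^ 2 = t ^ j * (r * (p : L)⁻¹) * c := by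
    rw [hc]; ring
  have key : 1 + t ^ (j + 1) * r = (1 + t * c) ^ p - (t * c) ^ 2 * d := by
    rw [hbd, hpb]; ring
  refine ⟨G * (1 + t * c), ⟨c, hcV, rfl⟩,
    -(r * (p : L)⁻¹ * c * d * ((1 + t * c)⁻¹) ^ p),
    V2.neg_mem (V2.mul_mem (V2.mul_mem (V2.mul_mem (V2.mul_mem hr hp) hcV) hd)
      (V2.pow_mem hinv p)), ?_⟩
  rw [hfr, mul_pow, key, inv_pow]
  linear_combination (-(G ^ p * t ^ 2 * d)) * hc2
    + (G ^ p * t ^ (j + 2) * (r * (p : L)⁻¹) * c * d) * e1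

/-- **Hensel on the thick branch**: from a root modulo `t` to a root modulo `t ^ k`, any
`k ≥ 1`. -/
theorem S36RP_hensel (h2 : S34C2_Val π F1 V2) {t : L} (ht : t ∈ V2) (ht' : t⁻¹ ∉ V2)
    {p : ℕ} (hp : (p : L)⁻¹ ∈ V2) (hp0 : (p : L) ≠ 0) {f G : L}
    (hG0 : G ≠ 0) (hf : ∃ r ∈ V2, f = G ^ p * (1 + t * r)) (k : ℕ) (hk : 1 ≤ k) :
    ∃ G' : L, (∃ v ∈ V2, G' = G * (1 + t * v)) ∧ ∃ r ∈ V2, f = G' ^ p * (1 + t ^ k * r) := by
  induction k, hk using Nat.le_induction with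
  | base =>
    obtain ⟨r, hr, hfr⟩ := hf
    exact ⟨G, ⟨0, V2.zero_mem, by ring⟩, r, hr, by rw [pow_one]; exact hfr⟩
  | succ k hk ih =>
    obtain ⟨G1, ⟨v, hv, hG1⟩, hf1⟩ := ih
    have hG10 : G1 ≠ 0 := by
      rw [hG1]
      refine mul_ne_zero hG0 ?_
      intro h0
      apply ht'
      have h1 : t * (-v) = 1 := by linear_combination -h0
      have : t⁻¹ = -v := inv_eq_of_mul_eq_one_right h1
      rw [this]; exact V2.neg_mem hv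
    obtain ⟨G2, ⟨w, hw, hG2⟩, hf2⟩ := S36RP_step h2 ht ht' hp hp0 hk hG10 hf1
    refine ⟨G2, ?_, hf2⟩
    obtain ⟨u, hu, hu'⟩ := S36RP_mul (W := V2) (τ := t) ⟨v, hv, rfl⟩ ⟨w, hw, rfl⟩ ht
    exact ⟨u, hu, by rw [hG2, hG1, mul_assoc, hu']⟩

end Hensel

section Main

variable {π : L} {F1 F1' : Subfield L} {V' V1 V2 V3 W : Subring L}

/-- `1 + τ v ≠ 0` for a non-unit `τ`. -/
theorem S36RP_one_add_ne {τ : L} (hτ' : τ⁻¹ ∉ W) {v : L} (hv : v ∈ W) : 1 + τ * v ≠ 0 := by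
  intro h0
  apply hτ'
  have h1 : τ * (-v) = 1 := by linear_combination -h0
  have : τ⁻¹ = -v := inv_eq_of_mul_eq_one_right h1
  rw [this]; exact W.neg_mem hv

/-- **change of root inside `1 + π W`**: if `f ∈ x ^ p (1 + π W)` and `y ∈ x (1 + π W)` with
`x` a unit of `W`, then `y` is a unit of `W` and `f ∈ y ^ p (1 + π W)`. -/
theorem S36RP_change (H : S34C2_Val π F1 W) {p : ℕ} {f x y : L} (hx : x ∈ W) (hx' : x⁻¹ ∈ W)
    (hy : ∃ s ∈ W, y = x * (1 + π * s)) (hf : ∃ r ∈ W, f = x ^ p * (1 + π * r)) :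
    y ∈ W ∧ y⁻¹ ∈ W ∧ ∃ c ∈ W, f = y ^ p * (1 + π * c) := by
  obtain ⟨s, hs, rfl⟩ := hy
  obtain ⟨r, hr, rfl⟩ := hf
  have hinv : (1 + π * s)⁻¹ ∈ W := H.one_add hs
  have hne : 1 + π * s ≠ 0 := S36RP_one_add_ne H.π_nonunit hs
  refine ⟨W.mul_mem hx (W.add_mem W.one_mem (W.mul_mem H.π_mem hs)),
    by rw [mul_inv]; exact W.mul_mem hx' hinv, ?_⟩
  obtain ⟨a, ha, hae⟩ := S36RP_inv H H.π_mem H.π_nonunit ⟨s, hs, rfl⟩
  obtain ⟨b, hb, hbe⟩ := S36RP_pow (W := W) (τ := π) ⟨a, ha, hae⟩ H.π_mem p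
  obtain ⟨c, hc, hce⟩ := S36RP_mul (W := W) (τ := π) ⟨b, hb, hbe⟩ ⟨r, hr, rfl⟩ H.π_mem
  refine ⟨c, hc, ?_⟩
  rw [← hce, mul_pow]
  have h1 : (1 + π * s) ^ p * ((1 + π * s)⁻¹) ^ p = 1 := by
    rw [← mul_pow, mul_inv_cancel₀ hne, one_pow]
  linear_combination (-(x ^ p * (1 + π * r))) * h1

/-- from an additive congruence modulo `τ ^ (m + 1)` to the multiplicative one modulo `π`, when
`τ ^ m ∈ π W`. -/
theorem S36RP_add_to_mul {τ : L} (hτ : τ ∈ W) {m : ℕ} (hτm : ∃ v ∈ W, τ ^ m = π * v)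
    {x y : L} (hx' : x⁻¹ ∈ W) (hx0 : x ≠ 0) (hy : ∃ v ∈ W, y - x = τ ^ (m + 1) * v) :
    (∃ s ∈ W, y = x * (1 + π * s)) ∧ ∃ s ∈ W, y = x * (1 + τ * s) := by
  obtain ⟨v, hv, hyv⟩ := hy
  obtain ⟨w, hw, hτw⟩ := hτm
  constructor
  · refine ⟨w * τ * v * x⁻¹, W.mul_mem (W.mul_mem (W.mul_mem hw hτ) hv) hx', ?_⟩
    have e : y = x + τ ^ m * τ * v := by rw [← pow_succ]; linear_combination hyv
    rw [e, hτw]
    field_simp
  · refine ⟨τ ^ m * v * x⁻¹, W.mul_mem (W.mul_mem (W.pow_mem hτ m) hv) hx', ?_⟩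
    have e : y = x + τ ^ m * τ * v := by rw [← pow_succ]; linear_combination hyv
    rw [e]
    field_simp

/-- **REDPOW** (plan (II.3)): ONE global root modulo `π` from the three branch roots.

`V1`, `V2`, `V3` pairwise distinct valuation rings of `F1` above the discrete valuation ring `V'`
of `F1'` (`F1 / F1'` finite), `π` a uniformiser of `V1` and of `V3`, `t` a uniformiser of `V2`
with `t ^ m ∈ π V2`, `p` invertible in `V2`.  If `f ≠ 0` and `G_i` are units of `V_i` with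
`f ∈ G_1 ^ p (1 + π V1)`, `f ∈ G_2 ^ p (1 + t V2)` (ONLY modulo `t` on the thick branch),
`f ∈ G_3 ^ p (1 + π V3)`, then there is `G ∈ F1` with `RedPow π ((V1 ⊓ V2) ⊓ V3) p f G` and
`G ∈ G_1 (1 + π V1)`, `G ∈ G_2 (1 + t V2)`, `G ∈ G_3 (1 + π V3)`. -/
theorem S36RP_redPow [CharZero L] (hF : F1' ≤ F1) (hV' : S34C2_Val π F1' V')
    (hsep : ∀ x ∈ F1', x ≠ 0 → ∃ (z : ℤ) (u : L), u ∈ V' ∧ u⁻¹ ∈ V' ∧ x = π ^ z * u)
    (hdeg : ∃ s : Finset L, ∀ x ∈ F1, ∃ c : L → L, (∀ y, c y ∈ F1') ∧ x = ∑ y ∈ s, c y * y)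
    (h1 : S34C2_Val π F1 V1) (h2 : S34C2_Val π F1 V2) (h3 : S34C2_Val π F1 V3)
    (hV1 : V' ≤ V1) (hV2 : V' ≤ V2) (hV3 : V' ≤ V3)
    (h12 : V1 ≠ V2) (h13 : V1 ≠ V3) (h23 : V2 ≠ V3)
    (hu1 : ∀ x ∈ V1, x⁻¹ ∉ V1 → ∃ v ∈ V1, x = π * v)
    (hu3 : ∀ x ∈ V3, x⁻¹ ∉ V3 → ∃ v ∈ V3, x = π * v)
    {t : L} (ht : t ∈ V2) (ht' : t⁻¹ ∉ V2)
    (hu2 : ∀ x ∈ V2, x⁻¹ ∉ V2 → ∃ v ∈ V2, x = t * v)
    {m : ℕ} (htm : ∃ v ∈ V2, t ^ m = π * v)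
    {p : ℕ} (hp : (p : L)⁻¹ ∈ V2) (hp0 : (p : L) ≠ 0)
    {f G1 G2 G3 : L} (hf0 : f ≠ 0)
    (hG1 : G1 ∈ V1) (hG1' : G1⁻¹ ∈ V1) (hG2 : G2 ∈ V2) (hG2' : G2⁻¹ ∈ V2)
    (hG3 : G3 ∈ V3) (hG3' : G3⁻¹ ∈ V3)
    (hf1 : ∃ v ∈ V1, f = G1 ^ p * (1 + π * v))
    (hf2 : ∃ v ∈ V2, f = G2 ^ p * (1 + t * v))
    (hf3 : ∃ v ∈ V3, f = G3 ^ p * (1 + π * v)) :
    ∃ G ∈ F1, RedPow π ((V1 ⊓ V2) ⊓ V3) p f G ∧
      (∃ v ∈ V1, G = G1 * (1 + π * v)) ∧ (∃ v ∈ V2, G = G2 * (1 + t * v)) ∧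
      (∃ v ∈ V3, G = G3 * (1 + π * v)) := by
  have hπ0 : π ≠ 0 := h1.π_ne_zero
  have hG10 : G1 ≠ 0 := by
    rintro rfl
    obtain ⟨v, -, hv⟩ := hf1
    apply hf0
    rw [hv, zero_pow (fun h => hp0 (by rw [h]; simp)), zero_mul]
  have hG20 : G2 ≠ 0 := by
    rintro rfl
    obtain ⟨v, -, hv⟩ := hf2
    apply hf0
    rw [hv, zero_pow (fun h => hp0 (by rw [h]; simp)), zero_mul]
  have hG30 : G3 ≠ 0 := by
    rintro rfl
    obtain ⟨v, -, hv⟩ := hf3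
    apply hf0
    rw [hv, zero_pow (fun h => hp0 (by rw [h]; simp)), zero_mul]
  -- Hensel on the thick branch, up to `t ^ (m + 1)`
  obtain ⟨G2', ⟨v2, hv2, hG2e⟩, r2, hr2, hf2'⟩ :=
    S36RP_hensel h2 ht ht' hp hp0 hG20 hf2 (m + 1) (Nat.succ_le_succ (Nat.zero_le m))
  have hone2 : (1 + t * v2)⁻¹ ∈ V2 := S36RP_one_add_inv h2 ht ht' hv2
  have hone2ne : 1 + t * v2 ≠ 0 := S36RP_one_add_ne ht' hv2
  have hG2'V : G2' ∈ V2 := by
    rw [hG2e]; exact V2.mul_mem hG2 (V2.add_mem V2.one_mem (V2.mul_mem ht hv2))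
  have hG2'inv : G2'⁻¹ ∈ V2 := by
    rw [hG2e, mul_inv]; exact V2.mul_mem hG2' hone2
  have hG2'0 : G2' ≠ 0 := by
    rw [hG2e]; exact mul_ne_zero hG20 hone2ne
  obtain ⟨w, hw, htw⟩ := htm
  have hf2π : ∃ r ∈ V2, f = G2' ^ p * (1 + π * r) := by
    refine ⟨w * t * r2, V2.mul_mem (V2.mul_mem hw ht) hr2, ?_⟩
    rw [hf2', pow_succ, htw]; ring
  -- CRT for the three valuations
  obtain ⟨y, hyF, -, hy1, hy2, hy3, hc1, hc2, hc3⟩ :=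
    S36CRT_three hF hV' hsep hdeg h1 h2 h3 hV1 hV2 hV3 h12 h13 h23
      (h1.le h1.π_mem) (h2.le ht) (h3.le h3.π_mem) hu1 hu2 hu3 (m + 1) hG1 hG2'V hG3
  have hππ : ∀ {U : Subring L}, π ∈ U → ∃ v ∈ U, π ^ m = π ^ m * v := fun _ =>
    ⟨1, Subring.one_mem _, by ring⟩
  -- branch 1
  have hm1 : ∃ s ∈ V1, y = G1 * (1 + π * s) := by
    obtain ⟨v, hv, hyv⟩ := hc1
    refine ⟨π ^ m * v * G1⁻¹, V1.mul_mem (V1.mul_mem (V1.pow_mem h1.π_mem m) hv) hG1', ?_⟩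
    have e : y = G1 + π ^ m * π * v := by rw [← pow_succ]; linear_combination hyv
    rw [e]
    field_simp
  have hm3 : ∃ s ∈ V3, y = G3 * (1 + π * s) := by
    obtain ⟨v, hv, hyv⟩ := hc3
    refine ⟨π ^ m * v * G3⁻¹, V3.mul_mem (V3.mul_mem (V3.pow_mem h3.π_mem m) hv) hG3', ?_⟩
    have e : y = G3 + π ^ m * π * v := by rw [← pow_succ]; linear_combination hyv
    rw [e]
    field_simp
  obtain ⟨hm2, hm2t⟩ := S36RP_add_to_mul (W := V2) (π := π) ht ⟨w, hw, htw⟩ hG2'inv hG2'0 hc2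
  obtain ⟨-, hy1', c1, hc1V, hfc1⟩ := S36RP_change h1 hG1 hG1' hm1 hf1
  obtain ⟨-, hy2', c2, hc2V, hfc2⟩ := S36RP_change h2 hG2'V hG2'inv hm2 hf2π
  obtain ⟨-, hy3', c3, hc3V, hfc3⟩ := S36RP_change h3 hG3 hG3' hm3 hf3
  have hy0 : y ≠ 0 := by
    rintro rfl
    apply hf0
    rw [hfc1, zero_pow (fun h => hp0 (by rw [h]; simp)), zero_mul]
  have hyp0 : y ^ p ≠ 0 := pow_ne_zero _ hy0
  have e12 : c2 = c1 := by
    have h := hfc1.symm.trans hfc2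
    have h' := mul_left_cancel₀ hyp0 h
    have h'' : π * c1 = π * c2 := by linear_combination h'
    exact (mul_left_cancel₀ hπ0 h'').symm
  have e13 : c3 = c1 := by
    have h := hfc1.symm.trans hfc3
    have h' := mul_left_cancel₀ hyp0 h
    have h'' : π * c1 = π * c3 := by linear_combination h'
    exact (mul_left_cancel₀ hπ0 h'').symm
  refine ⟨y, hyF, ⟨⟨⟨hy1, hy2⟩, hy3⟩, ⟨⟨hy1', hy2'⟩, hy3'⟩, c1,
    ⟨⟨hc1V, e12 ▸ hc2V⟩, e13 ▸ hc3V⟩, hfc1⟩, hm1, ?_, hm3⟩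
  -- `y = G2' (1 + t s) = G2 (1 + t v2) (1 + t s)`
  obtain ⟨s, hs, hys⟩ := hm2t
  obtain ⟨u, hu, hu'⟩ := S36RP_mul (W := V2) (τ := t) ⟨v2, hv2, rfl⟩ ⟨s, hs, rfl⟩ ht
  exact ⟨u, hu, by rw [hys, hG2e, mul_assoc, hu']⟩

end Main

end Fermat.Agent.S36_helper2_REDPOW
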