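import Mathlib
import Fermat.Agent.S18_helper9_CDefs
import Fermat.Agent.S34_helper12_CDefs
import Fermat.Agent.S34_helper27_C2Defs
import Fermat.Agent.S34_helper27_C2ADAPT

/-!
# S36, X-D36 Part II (helper3): the abstract core

Everything is elementwise inside one field `L` (in the application `L = K1((q))`), in the
vocabulary of block C' (`S34C_Setup`, `RedPow`, `S34C_Shape`); `V` is ANY subring with an
`S34C_Setup` (in the application `V = V_∞ ⊓ V_mid ⊓ V_0`).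

* `S36XB_one_add_mul`   : `(1 + π a)(1 + π c) = 1 + π (a + c + π a c)`;
* `S36XB_redPow_const`  : `RedPow` is stable under division by a unit constant `κ` which is a
  `p`-th power modulo `π`;
* `S36XB_redPow_pow`    : `RedPow` is stable under multiplication by a `p`-th power of a unit
  of `V`;
* `S36XB_shape_const`   : `S34C_Shape` is stable under the same operation;
* `S36XB_core`          : **the closing step**: `f1 ∈ F1` with `RedPow` and the local shape at every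
  maximal ideal over `π` of both charts, `κ` a unit constant which is a `p`-th power modulo `π`,
  `h ^ p = f1 κ⁻¹` in `L`: then `h ∈ F1`;
* `S36XB_assemble`      : `f0 = e g0 ^ p f1` and `f1 = κ h ^ p` give `f0 = (e κ) (g0 h) ^ p`.
-/

set_option autoImplicit false
set_option linter.unusedVariables false
set_option linter.unusedSectionVars false

namespace Fermat.Agent.S36_helper3_XBCORE

open Fermat.Agent.S18_helper9_CDefs Fermat.Agent.S34_helper12_CDefs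
  Fermat.Agent.S34_helper27_C2Defs Fermat.Agent.S34_helper27_C2ADAPT

variable {L : Type*} [Field L] {O : Subring L} {π j : L} {F1 : Subfield L}
  {V A0 Ainf A : Subring L}

theorem S36XB_one_add_mul (π a c : L) :
    (1 + π * a) * (1 + π * c) = 1 + π * (a + c + π * a * c) := by ring

/-- `O ≤ V` for an `S34C_Setup`. -/
theorem S36XB_O_le_V (S : S34C_Setup O π j F1 V A0 Ainf) : O ≤ V :=
  S34C2_O_le_V (S34CA_setup S)

/-- `O ≤ A` for a chart of an `S34C_Setup`. -/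
theorem S36XB_O_le_chart (S : S34C_Setup O π j F1 V A0 Ainf) {x : L}
    (hC : Chart O π x F1 V A) : O ≤ A :=
  S34C2_O_le (S34CA_setup S) hC

/-- **`RedPow` and unit constants**: if `f = G ^ p (1 + π c)` and `ρ ^ p = κ + π o` with `ρ`, `κ`
units of `O`, then `f κ⁻¹ = (G ρ⁻¹) ^ p (1 + π c')`. -/
theorem S36XB_redPow_const (hOV : O ≤ V) (hπV : π ∈ V) {p : ℕ} {f G κ ρ : L}
    (hred : RedPow π V p f G) (hκ : κ ∈ O) (hκ' : κ⁻¹ ∈ O) (hκ0 : κ ≠ 0)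
    (hρ : ρ ∈ O) (hρ' : ρ⁻¹ ∈ O) (hρ0 : ρ ≠ 0) (hρκ : ∃ o ∈ O, ρ ^ p - κ = π * o) :
    RedPow π V p (f * κ⁻¹) (G * ρ⁻¹) := by
  obtain ⟨hG, hG', c, hc, hf⟩ := hred
  obtain ⟨o, ho, hoe⟩ := hρκ
  refine ⟨V.mul_mem hG (hOV hρ'), ?_, o * κ⁻¹ + c + π * (o * κ⁻¹) * c, ?_, ?_⟩
  · rw [mul_inv, inv_inv]
    exact V.mul_mem hG' (hOV hρ)
  · exact V.add_mem (V.add_mem (V.mul_mem (hOV ho) (hOV hκ')) hc)
      (V.mul_mem (V.mul_mem hπV (V.mul_mem (hOV ho) (hOV hκ'))) hc)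
  · have h1 : ρ ^ p * κ⁻¹ = 1 + π * (o * κ⁻¹) := by
      have : ρ ^ p = κ + π * o := by linear_combination hoe
      rw [this, add_mul, mul_inv_cancel₀ hκ0, mul_assoc]
    have hρp : ρ ^ p ≠ 0 := pow_ne_zero _ hρ0
    calc f * κ⁻¹ = G ^ p * (1 + π * c) * κ⁻¹ := by rw [hf]
      _ = (G * ρ⁻¹) ^ p * ((ρ ^ p * κ⁻¹) * (1 + π * c)) := by
          rw [mul_pow, inv_pow]
          field_simp
      _ = (G * ρ⁻¹) ^ p * (1 + π * (o * κ⁻¹ + c + π * (o * κ⁻¹) * c)) := by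
          rw [h1, S36XB_one_add_mul]

/-- **`RedPow` and `p`-th powers of units of `V`.** -/
theorem S36XB_redPow_pow {p : ℕ} {f G g : L} (hred : RedPow π V p f G)
    (hg : g ∈ V) (hg' : g⁻¹ ∈ V) : RedPow π V p (f * g ^ p) (G * g) := by
  obtain ⟨hG, hG', c, hc, hf⟩ := hred
  refine ⟨V.mul_mem hG hg, ?_, c, hc, ?_⟩
  · rw [mul_inv]
    exact V.mul_mem hG' hg'
  · rw [hf, mul_pow]
    ring

/-- **`S34C_Shape` and unit constants.** -/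
theorem S36XB_shape_const (hOA : O ≤ A) {p : ℕ} {f G κ ρ : L} {m : Ideal A}
    (hshape : S34C_Shape π F1 V A p f G m) (hκ : κ ∈ O) (hκ' : κ⁻¹ ∈ O)
    (hρ : ρ ∈ O) (hρ' : ρ⁻¹ ∈ O) :
    S34C_Shape π F1 V A p (f * κ⁻¹) (G * ρ⁻¹) m := by
  obtain ⟨u, g, w, ⟨a, c, hc, hu⟩, ⟨a', c', hc', hu'⟩, hgF, hgV, hgV', hf,
    ⟨b, d, hd, hw⟩, ⟨b', d', hd', hw'⟩, e, he, hG⟩ := hshape
  refine ⟨u * κ⁻¹, g, w * ρ⁻¹, ⟨a * ⟨κ⁻¹, hOA hκ'⟩, c, hc, ?_⟩,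
    ⟨a' * ⟨κ, hOA hκ⟩, c', hc', ?_⟩, hgF, hgV, hgV', ?_,
    ⟨b * ⟨ρ⁻¹, hOA hρ'⟩, d, hd, ?_⟩, ⟨b' * ⟨ρ, hOA hρ⟩, d', hd', ?_⟩, e, he, ?_⟩
  · rw [Subring.coe_mul, ← hu]
    ring
  · rw [Subring.coe_mul, ← hu', mul_inv, inv_inv]
    ring
  · rw [hf]
    ring
  · rw [Subring.coe_mul, ← hw]
    ring
  · rw [Subring.coe_mul, ← hw', mul_inv, inv_inv]
    ring
  · rw [hG]
    ring

/-- **X-D36 Part II, the closing step (abstract).**  `f1 ∈ F1` nonzero with a root `G` modulo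
`π V` and the local shape at EVERY maximal ideal over `π` of both charts; `κ`, `ρ` unit constants
with `ρ ^ p ≡ κ` modulo `π O`; `h ^ p = f1 κ⁻¹` in `L`.  Then `h ∈ F1`. -/
theorem S36XB_core [CharZero L] (S : S34C_Setup O π j F1 V A0 Ainf) {p : ℕ} (hp : p.Prime)
    (hpO : (p : L)⁻¹ ∈ O) (f1 h G κ ρ : L) (hf : f1 ∈ F1) (hf0 : f1 ≠ 0)
    (hκ : κ ∈ O) (hκ' : κ⁻¹ ∈ O) (hκ0 : κ ≠ 0)
    (hρ : ρ ∈ O) (hρ' : ρ⁻¹ ∈ O) (hρ0 : ρ ≠ 0) (hρκ : ∃ o ∈ O, ρ ^ p - κ = π * o)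
    (hh : h ^ p = f1 * κ⁻¹)
    (hred : RedPow π V p f1 G)
    (hshape0 : ∀ (hπ : π ∈ A0) (m : Ideal A0), m.IsMaximal → (⟨π, hπ⟩ : A0) ∈ m →
      S34C_Shape π F1 V A0 p f1 G m)
    (hshapeInf : ∀ (hπ : π ∈ Ainf) (m : Ideal Ainf), m.IsMaximal → (⟨π, hπ⟩ : Ainf) ∈ m →
      S34C_Shape π F1 V Ainf p f1 G m) :
    h ∈ F1 := by
  have hOV : O ≤ V := S36XB_O_le_V S
  have hπV : π ∈ V := hOV S.π_mem
  have hκF : κ⁻¹ ∈ F1 := S.O_le hκ'
  refine S34CA_main_shape S hp hpO (f1 * κ⁻¹) h (G * ρ⁻¹) (F1.mul_mem hf hκF)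
    (mul_ne_zero hf0 (inv_ne_zero hκ0)) hh
    (S36XB_redPow_const hOV hπV hred hκ hκ' hκ0 hρ hρ' hρ0 hρκ) ?_ ?_
  · intro hπ m hm hπm
    exact S36XB_shape_const (S36XB_O_le_chart S S.chart0) (hshape0 hπ m hm hπm) hκ hκ' hρ hρ'
  · intro hπ m hm hπm
    exact S36XB_shape_const (S36XB_O_le_chart S S.chartInf) (hshapeInf hπ m hm hπm) hκ hκ'
      hρ hρ'

/-- the final algebra: `f0 = e g0 ^ p f1` and `h ^ p = f1 κ⁻¹` give `f0 = (e κ) (g0 h) ^ p`. -/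
theorem S36XB_assemble {p : ℕ} {f0 f1 e g0 h κ : L} (hκ0 : κ ≠ 0)
    (hf0 : f0 = e * g0 ^ p * f1) (hh : h ^ p = f1 * κ⁻¹) :
    f0 = (e * κ) * (g0 * h) ^ p := by
  rw [mul_pow, hh, hf0]
  field_simp

end Fermat.Agent.S36_helper3_XBCORE
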