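import Mathlib
import Fermat.Agent.S18_helper9_CDefs
import Fermat.Agent.S34_helper12_CDefs
import Fermat.Agent.S34_helper27_C2Defs
import Fermat.Agent.S34_helper27_C2ADAPT
import Fermat.Agent.S36_helper19_LOCAL
import Fermat.Agent.S36_helper3_XBCORE

/-!
# S36, X-D36 Part II (helper3): the local contract at a point and the closing step from it

Abstract (Subring-`L`) vocabulary of block C'.  `W₁, W₂, W₃` are the three valuation rings of
`F1` over the Gauss valuation, `V = W₁ ⊓ W₂ ⊓ W₃` (helper2's bracketing), `X` a chart.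

* `S36XB_One`  : the datum at a ONE-BRANCH point: the local shape with respect to the branch
  through `m` and an element `d ∈ X ∖ m` divisible by `π` in the two other valuation rings
  (= the input of helper19's `S36LOC_locLift1`);
* `S36XB_Pt`   : **the local contract at a point**: the local shape with respect to `V`
  (triple points, `S36LOC_shape3`) OR a one-branch datum for one of the three branches;
* `S36XB_pt_const` : the local contract is stable under division by unit constants;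
* `S36XB_pt_weak`  : every alternative contains the factorisation `f = u g ^ p`, `u` a unit at
  `m` (input of (LEAD36));
* `S36XB_locLift_of_pt` : the local contract gives the local lift of block C';
* `S36XB_core2` : **the closing step**: `RedPow` + the local contract at every maximal ideal over
  `π` of both charts + `h ^ p = f1 κ⁻¹` (`κ` a unit constant, a `p`-th power modulo `π`)
  ⟹ `h ∈ F1`.
-/

set_option autoImplicit false
set_option linter.unusedVariables false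
set_option linter.unusedSectionVars false
set_option linter.style.haveILetI false

namespace Fermat.Agent.S36_helper3_XBPT

open Fermat.Agent.S18_helper9_CDefs Fermat.Agent.S34_helper12_CDefs
  Fermat.Agent.S34_helper27_C2Defs Fermat.Agent.S34_helper27_C2ADAPT
  Fermat.Agent.S36_helper19_LOCAL Fermat.Agent.S36_helper3_XBCORE

variable {L : Type*} [Field L] {O : Subring L} {π j x : L} {F1 : Subfield L}
  {W1 W2 W3 A0 Ainf X : Subring L}

/-- **one-branch datum** at `m`: the local shape with respect to the branch `Wa` through `m` and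
an element `d ∈ X ∖ m` divisible by `π` in `Wb` and in `Wc`. -/
def S36XB_One (π : L) (F1 : Subfield L) (Wa Wb Wc X : Subring L) (p : ℕ) (f G : L)
    (m : Ideal X) : Prop :=
  S34C_Shape π F1 Wa X p f G m ∧
    ∃ d : X, d ∉ m ∧ (∃ v ∈ Wb, (d : L) = π * v) ∧ (∃ v ∈ Wc, (d : L) = π * v)

/-- **the local contract at a point** `m` of the chart `X`. -/
def S36XB_Pt (π : L) (F1 : Subfield L) (W1 W2 W3 X : Subring L) (p : ℕ) (f G : L)
    (m : Ideal X) : Prop :=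
  S34C_Shape π F1 (W1 ⊓ W2 ⊓ W3 : Subring L) X p f G m ∨
    S36XB_One π F1 W1 W2 W3 X p f G m ∨ S36XB_One π F1 W2 W1 W3 X p f G m ∨
    S36XB_One π F1 W3 W1 W2 X p f G m

theorem S36XB_one_const (hOX : O ≤ X) {Wa Wb Wc : Subring L} {p : ℕ} {f G κ ρ : L}
    {m : Ideal X} (h : S36XB_One π F1 Wa Wb Wc X p f G m) (hκ : κ ∈ O) (hκ' : κ⁻¹ ∈ O)
    (hρ : ρ ∈ O) (hρ' : ρ⁻¹ ∈ O) :
    S36XB_One π F1 Wa Wb Wc X p (f * κ⁻¹) (G * ρ⁻¹) m :=
  ⟨S36XB_shape_const hOX h.1 hκ hκ' hρ hρ', h.2⟩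

/-- the local contract is stable under division by unit constants. -/
theorem S36XB_pt_const (hOX : O ≤ X) {p : ℕ} {f G κ ρ : L} {m : Ideal X}
    (h : S36XB_Pt π F1 W1 W2 W3 X p f G m) (hκ : κ ∈ O) (hκ' : κ⁻¹ ∈ O)
    (hρ : ρ ∈ O) (hρ' : ρ⁻¹ ∈ O) :
    S36XB_Pt π F1 W1 W2 W3 X p (f * κ⁻¹) (G * ρ⁻¹) m := by
  rcases h with h | h | h | h
  · exact Or.inl (S36XB_shape_const hOX h hκ hκ' hρ hρ')
  · exact Or.inr (Or.inl (S36XB_one_const hOX h hκ hκ' hρ hρ'))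
  · exact Or.inr (Or.inr (Or.inl (S36XB_one_const hOX h hκ hκ' hρ hρ')))
  · exact Or.inr (Or.inr (Or.inr (S36XB_one_const hOX h hκ hκ' hρ hρ')))

/-- every alternative of the local contract contains a local shape with respect to SOME ring
(input of (LEAD36), which only uses `f = u g ^ p`). -/
theorem S36XB_pt_weak {p : ℕ} {f G : L} {m : Ideal X}
    (h : S36XB_Pt π F1 W1 W2 W3 X p f G m) :
    ∃ V' : Subring L, S34C_Shape π F1 V' X p f G m := by
  rcases h with h | h | h | h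
  · exact ⟨_, h⟩
  · exact ⟨_, h.1⟩
  · exact ⟨_, h.1⟩
  · exact ⟨_, h.1⟩

/-- **the local contract gives the local lift.** -/
theorem S36XB_locLift_of_pt (S : S34C_Setup O π j F1 (W1 ⊓ W2 ⊓ W3 : Subring L) A0 Ainf)
    (H1 : S34C2_Val π F1 W1) (H2 : S34C2_Val π F1 W2) (H3 : S34C2_Val π F1 W3)
    {p : ℕ} (hp : p.Prime) (hC : Chart O π x F1 (W1 ⊓ W2 ⊓ W3 : Subring L) X)
    (f h G : L) (hf0 : f ≠ 0) (hh : h ^ p = f)
    (hred : RedPow π (W1 ⊓ W2 ⊓ W3 : Subring L) p f G) (m : Ideal X) (hm : m.IsMaximal)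
    (hpt : S36XB_Pt π F1 W1 W2 W3 X p f G m) :
    S34C_LocLift π F1 (W1 ⊓ W2 ⊓ W3 : Subring L) X h G m := by
  haveI : m.IsPrime := hm.isPrime
  have e2 : (W2 ⊓ W1 ⊓ W3 : Subring L) = W1 ⊓ W2 ⊓ W3 := by rw [inf_comm W2 W1]
  have e3 : (W3 ⊓ W1 ⊓ W2 : Subring L) = W1 ⊓ W2 ⊓ W3 := by
    rw [inf_assoc, inf_comm]
  rcases hpt with hs | ⟨hs, d, hdm, hdb, hdc⟩ | ⟨hs, d, hdm, hdb, hdc⟩ | ⟨hs, d, hdm, hdb, hdc⟩
  · exact S34CA_locLift_of_shape S hp hC f h G hf0 hh hred m hm hs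
  · exact S36LOC_locLift1 H1 H2 H3 hC.le_V m d hdm hdb hdc hp.pos f h G hf0 hh hred hs
  · have hX : X ≤ (W2 ⊓ W1 ⊓ W3 : Subring L) := by rw [e2]; exact hC.le_V
    have hred' : RedPow π (W2 ⊓ W1 ⊓ W3 : Subring L) p f G := by rw [e2]; exact hred
    have := S36LOC_locLift1 H2 H1 H3 hX m d hdm hdb hdc hp.pos f h G hf0 hh hred' hs
    rw [e2] at this
    exact this
  · have hX : X ≤ (W3 ⊓ W1 ⊓ W2 : Subring L) := by rw [e3]; exact hC.le_V
    have hred' : RedPow π (W3 ⊓ W1 ⊓ W2 : Subring L) p f G := by rw [e3]; exact hred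
    have := S36LOC_locLift1 H3 H1 H2 hX m d hdm hdb hdc hp.pos f h G hf0 hh hred' hs
    rw [e3] at this
    exact this

/-- **X-D36 Part II, the closing step from the local contract (abstract).**  `f1 ∈ F1` nonzero
with a root `G` modulo `π V` and the local contract `S36XB_Pt` at EVERY maximal ideal over `π` of
both charts; `κ`, `ρ` unit constants with `ρ ^ p ≡ κ` modulo `π O`; `h ^ p = f1 κ⁻¹` in `L`.
Then `h ∈ F1`. -/
theorem S36XB_core2 [CharZero L]
    (S : S34C_Setup O π j F1 (W1 ⊓ W2 ⊓ W3 : Subring L) A0 Ainf)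
    (H1 : S34C2_Val π F1 W1) (H2 : S34C2_Val π F1 W2) (H3 : S34C2_Val π F1 W3)
    {p : ℕ} (hp : p.Prime) (hpO : (p : L)⁻¹ ∈ O) (f1 h G κ ρ : L) (hf : f1 ∈ F1)
    (hf0 : f1 ≠ 0) (hκ : κ ∈ O) (hκ' : κ⁻¹ ∈ O) (hκ0 : κ ≠ 0)
    (hρ : ρ ∈ O) (hρ' : ρ⁻¹ ∈ O) (hρ0 : ρ ≠ 0) (hρκ : ∃ o ∈ O, ρ ^ p - κ = π * o)
    (hh : h ^ p = f1 * κ⁻¹)
    (hred : RedPow π (W1 ⊓ W2 ⊓ W3 : Subring L) p f1 G)
    (hpt0 : ∀ (hπ : π ∈ A0) (m : Ideal A0), m.IsMaximal → (⟨π, hπ⟩ : A0) ∈ m →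
      S36XB_Pt π F1 W1 W2 W3 A0 p f1 G m)
    (hptInf : ∀ (hπ : π ∈ Ainf) (m : Ideal Ainf), m.IsMaximal → (⟨π, hπ⟩ : Ainf) ∈ m →
      S36XB_Pt π F1 W1 W2 W3 Ainf p f1 G m) :
    h ∈ F1 := by
  have hOV : O ≤ (W1 ⊓ W2 ⊓ W3 : Subring L) := S36XB_O_le_V S
  have hπV : π ∈ (W1 ⊓ W2 ⊓ W3 : Subring L) := hOV S.π_mem
  have hκF : κ⁻¹ ∈ F1 := S.O_le hκ'
  have hf0' : f1 * κ⁻¹ ≠ 0 := mul_ne_zero hf0 (inv_ne_zero hκ0)
  have hred' := S36XB_redPow_const hOV hπV hred hκ hκ' hκ0 hρ hρ' hρ0 hρκ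
  refine S34CA_main S hp hpO (f1 * κ⁻¹) h (G * ρ⁻¹) (F1.mul_mem hf hκF) hf0' hh hred' ?_ ?_
  · intro hπ m hm hπm
    exact S36XB_locLift_of_pt S H1 H2 H3 hp S.chart0 _ h _ hf0' hh hred' m hm
      (S36XB_pt_const (S36XB_O_le_chart S S.chart0) (hpt0 hπ m hm hπm) hκ hκ' hρ hρ')
  · intro hπ m hm hπm
    exact S36XB_locLift_of_pt S H1 H2 H3 hp S.chartInf _ h _ hf0' hh hred' m hm
      (S36XB_pt_const (S36XB_O_le_chart S S.chartInf) (hptInf hπ m hm hπm) hκ hκ' hρ hρ')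

end Fermat.Agent.S36_helper3_XBPT
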