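import Mathlib
import Fermat.Agent.S36_helper2_REDPOW
import Fermat.Agent.S36_helper6_TORIC
import Fermat.Agent.S36_helper19_LOCTOR
import Fermat.Agent.S36_helper3_XBPT

/-!
# S36, X-D36 Part II (helper3): the field `loc` of the contract, ABSTRACT composite

Abstract (Subring-`L`) vocabulary.  The composite of the landed bricks

  TORIC36 (`S36TOR_main`, helper6)  →  REDPOW (`S36RP_redPow`, helper2)  →
  at a triple point: FACT-L + BRANCH36 (hypothesis `hB`) + `S36LT_shape3` (helper19);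
  at a one-branch point: a one-branch datum `S36XB_One` (hypothesis of the dichotomy),

with the output `∃ G, RedPow π V lam f G ∧ (S36XB_Pt at every maximal ideal over π of both
charts)` = the field `loc` of `S36XB_Contract`.

* `S36XB_nu_unif`     : a non-unit of a valuation ring with uniformiser `τ` is a multiple of `τ`;
* `S36XB_O_unif`      : a non-unit constant is a multiple of `π`;
* `S36XB_branch_form` : `f ≡ G ^ (lam Q0)` modulo the maximal ideal and `z ^ lam ≡ 1` modulo `π`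
  give `f = (z G ^ Q0) ^ lam (1 + τ v)`;
* `S36XB_nu_of_form`  : `G = G'' (1 + τ v)` gives `G - G'' ∈ nu`;
* `S36XB_OneAlt`      : the three one-branch alternatives;
* `S36XB_loc_abs`     : **the composite**.
-/

set_option autoImplicit false
set_option linter.unusedVariables false
set_option linter.unusedSectionVars false
set_option linter.style.haveILetI false

namespace Fermat.Agent.S36_helper3_LOCABS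

open Fermat.Agent.S18_helper9_CDefs Fermat.Agent.S18_helper3_LOCRING
  Fermat.Agent.S34_helper12_CDefs Fermat.Agent.S34_helper27_C2Defs
  Fermat.Agent.S34_helper27_C2ADAPT Fermat.Agent.S36_helper2_REDPOW
  Fermat.Agent.S36_helper6_TORIC Fermat.Agent.S36_helper19_LOCAL
  Fermat.Agent.S36_helper19_LOCTOR Fermat.Agent.S36_helper3_XBCORE
  Fermat.Agent.S36_helper3_XBPT

variable {L : Type*} [Field L] {O : Subring L} {π j : L} {F1' F1 : Subfield L}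
  {V' V1 V2 V3 W A0 Ainf X : Subring L}

/-- a non-unit of a ring with uniformiser `τ` is a multiple of `τ`. -/
theorem S36XB_nu_unif {τ : L} (hu : ∀ x ∈ W, x⁻¹ ∉ W → ∃ v ∈ W, x = τ * v) {ν : L}
    (hν : ν ∈ S36TOR_nu W) : ∃ v ∈ W, ν = τ * v := by
  rcases hν.2 with h | h
  · exact ⟨0, W.zero_mem, by rw [h, mul_zero]⟩
  · exact hu ν hν.1 h

/-- a non-unit constant is a multiple of `π` in `O`. -/
theorem S36XB_O_unif {V : Subring L} (S : S34C_Setup O π j F1 V A0 Ainf) {c : L} (hc : c ∈ O)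
    (hc' : c = 0 ∨ c⁻¹ ∉ O) : ∃ o ∈ O, c = π * o := by
  haveI := S.dvr
  have hirr := S.π_irr S.π_mem
  by_cases h0 : c = 0
  · exact ⟨0, O.zero_mem, by rw [h0, mul_zero]⟩
  have hinv : c⁻¹ ∉ O := hc'.resolve_left h0
  have hnu : ¬ IsUnit (⟨c, hc⟩ : O) := by
    intro hunit
    obtain ⟨y, hy⟩ := hunit.exists_right_inv
    have h1 : c * (y : L) = 1 := congrArg Subtype.val hy
    have h2 : c⁻¹ = (y : L) := inv_eq_of_mul_eq_one_right h1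
    exact hinv (h2 ▸ y.2)
  have hmem : (⟨c, hc⟩ : O) ∈ IsLocalRing.maximalIdeal O := hnu
  rw [hirr.maximalIdeal_eq, Ideal.mem_span_singleton'] at hmem
  obtain ⟨y, hy⟩ := hmem
  refine ⟨y, y.2, ?_⟩
  have h3 : (y : L) * π = c := congrArg Subtype.val hy
  rw [← h3]
  exact mul_comm _ _

/-- **the branch form**: `f - G ^ (lam * Q0)` a non-unit of `W` (uniformiser `τ`, `π ∈ τ W`) and
`z ^ lam ≡ 1` modulo `π` give `f = (z * G ^ Q0) ^ lam * (1 + τ * v)`. -/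
theorem S36XB_branch_form {τ : L} (hu : ∀ x ∈ W, x⁻¹ ∉ W → ∃ v ∈ W, x = τ * v)
    (hπτ : ∃ v ∈ W, π = τ * v) {lam P Q0 : ℕ} (hP : P = lam * Q0) {f G z : L}
    (hG : G ≠ 0 ∧ G ∈ W ∧ G⁻¹ ∈ W ∧ f - G ^ P ∈ S36TOR_nu W)
    (hz : z ≠ 0 ∧ z ∈ W ∧ z⁻¹ ∈ W) (hzl : ∃ o ∈ W, z ^ lam - 1 = π * o) :
    ∃ v ∈ W, f = (z * G ^ Q0) ^ lam * (1 + τ * v) := by
  obtain ⟨hG0, hGW, hGW', hν⟩ := hG
  obtain ⟨hz0, hzW, hzW'⟩ := hz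
  obtain ⟨v0, hv0, hfv⟩ := S36XB_nu_unif hu hν
  obtain ⟨vπ, hvπ, hπ⟩ := hπτ
  obtain ⟨o, ho, hzo⟩ := hzl
  refine ⟨(v0 * (G⁻¹) ^ P - vπ * o) * (z⁻¹) ^ lam,
    W.mul_mem (W.sub_mem (W.mul_mem hv0 (W.pow_mem hGW' P)) (W.mul_mem hvπ ho))
      (W.pow_mem hzW' lam), ?_⟩
  have hGP : G ^ P ≠ 0 := pow_ne_zero _ hG0
  have hzl0 : z ^ lam ≠ 0 := pow_ne_zero _ hz0
  have e1 : (z * G ^ Q0) ^ lam = z ^ lam * G ^ P := by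
    rw [mul_pow, ← pow_mul, hP, mul_comm Q0 lam]
  have e2 : f = G ^ P + τ * v0 := by linear_combination hfv
  have e3 : z ^ lam = 1 + τ * vπ * o := by
    rw [← hπ]; linear_combination hzo
  rw [e1, e2, inv_pow, inv_pow]
  field_simp
  rw [e3]
  ring

/-- `G = G'' * (1 + τ * v)` gives `G - G'' ∈ nu W`. -/
theorem S36XB_nu_of_form {τ : L} (hτ : τ ∈ W) (hτ' : τ⁻¹ ∉ W) {G G'' : L} (hG'' : G'' ∈ W)
    (h : ∃ v ∈ W, G = G'' * (1 + τ * v)) : G - G'' ∈ S36TOR_nu W := by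
  obtain ⟨v, hv, hG⟩ := h
  have : G - G'' = G'' * (τ * v) := by rw [hG]; ring
  rw [this]
  exact S36TOR_nu_mul_left hG'' (S36TOR_nu_mul_right ⟨hτ, Or.inr hτ'⟩ hv)

/-- the three one-branch alternatives at a point. -/
def S36XB_OneAlt (π : L) (F1 : Subfield L) (W1 W2 W3 X : Subring L) (p : ℕ) (f G : L)
    (m : Ideal X) : Prop :=
  S36XB_One π F1 W1 W2 W3 X p f G m ∨ S36XB_One π F1 W2 W1 W3 X p f G m ∨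
    S36XB_One π F1 W3 W1 W2 X p f G m

theorem S36XB_pt_of_oneAlt {p : ℕ} {f G : L} {m : Ideal X}
    (h : S36XB_OneAlt π F1 V1 V2 V3 X p f G m) : S36XB_Pt π F1 V1 V2 V3 X p f G m :=
  Or.inr h

/-- **the local shape at a triple point** `m` of the chart `X` whose local ring is the member
`R` of the family of TORIC36. -/
theorem S36XB_pt_triple (H1 : S34C2_Val π F1 V1) (H2 : S34C2_Val π F1 V2)
    (H3 : S34C2_Val π F1 V3) (hOX : O ≤ X) (m : Ideal X) (hm : m.IsMaximal) {R : Subring L}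
    (hR : R = @locRing _ _ X m hm.isPrime) (hR1 : R ≤ V1) (hR2 : R ≤ V2) (hR3 : R ≤ V3)
    {lam : ℕ} (hlam : 0 < lam) (hlamL : (lam : L) ≠ 0) (hlamO : (lam : L)⁻¹ ∈ O)
    {f G : L} (hf0 : f ≠ 0) (hred : RedPow π (V1 ⊓ V2 ⊓ V3 : Subring L) lam f G)
    (hB : ∃ u0 g0 w1 w2 w3 : L, u0 ∈ R ∧ u0⁻¹ ∈ R ∧ g0 ∈ F1 ∧ f = u0 * g0 ^ lam ∧
      (w1 ∈ R ∧ w1⁻¹ ∈ R ∧ ∃ c ∈ V1, G * g0⁻¹ = w1 * (1 + π * c)) ∧
      (w2 ∈ R ∧ w2⁻¹ ∈ R ∧ ∃ c ∈ V2, G * g0⁻¹ = w2 * (1 + π * c)) ∧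
      (w3 ∈ R ∧ w3⁻¹ ∈ R ∧ ∃ c ∈ V3, G * g0⁻¹ = w3 * (1 + π * c)))
    (htor : ∀ u g w1 w2 w3 : L, u ∈ R → u⁻¹ ∈ R → g ∈ F1 → f = u * g ^ lam →
      w1 ∈ R → w2 ∈ R → w3 ∈ R →
      G / g - w1 ∈ S36TOR_nu V1 → G / g - w2 ∈ S36TOR_nu V2 → G / g - w3 ∈ S36TOR_nu V3 →
      w1 - w3 ∈ S36TOR_nu R ∧ w2 - w3 ∈ S36TOR_nu R) :
    S34C_Shape π F1 (V1 ⊓ V2 ⊓ V3 : Subring L) X lam f G m := by
  haveI : m.IsPrime := hm.isPrime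
  subst hR
  obtain ⟨u0, g0, w1, w2, w3, hu0, hu0', hg0, hfact, hw1, hw2, hw3⟩ := hB
  exact S36LT_shape3 H1 H2 H3 m hR1 hR2 hR3 hlam hlamL (le_locRing X m (hOX hlamO))
    f G u0 g0 w1 w2 w3 hf0 hu0 hu0' hg0 hfact hred hw1 hw2 hw3 htor

/-- **X-D36 Part II, the field `loc` (abstract composite).**

* carriers: the hypotheses of `S36RP_redPow` (helper2), verbatim;
* exponents: `P = lam * Q0`, `gcd (P, q² - 1) ∣ Q0`;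
* `hG1`, `hG2`, `hG3`: the branch roots of `f` with exponent `P` (NORMRED36 / REDK, helper13);
* `R : ι → Subring L`: the local rings at the triple points, with the hypotheses of
  `S36TOR_main` (helper6), verbatim (`hpt` = TORPT);
* `hB`: FACT-L + BRANCH36 at the triple points, for EVERY global root `G`;
* `hpts0`, `hptsInf`: the dichotomy at every maximal ideal over `π` of both charts: the local
  ring is a member of the family `R`, or a one-branch datum for every global root `G`. -/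
theorem S36XB_loc_abs [CharZero L]
    (S : S34C_Setup O π j F1 (V1 ⊓ V2 ⊓ V3 : Subring L) A0 Ainf)
    (hF : F1' ≤ F1) (hV' : S34C2_Val π F1' V')
    (hsep : ∀ x ∈ F1', x ≠ 0 → ∃ (z : ℤ) (u : L), u ∈ V' ∧ u⁻¹ ∈ V' ∧ x = π ^ z * u)
    (hdeg : ∃ s : Finset L, ∀ x ∈ F1, ∃ c : L → L, (∀ y, c y ∈ F1') ∧ x = ∑ y ∈ s, c y * y)
    (h1 : S34C2_Val π F1 V1) (h2 : S34C2_Val π F1 V2) (h3 : S34C2_Val π F1 V3)
    (hV1 : V' ≤ V1) (hV2 : V' ≤ V2) (hV3 : V' ≤ V3)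
    (h12 : V1 ≠ V2) (h13 : V1 ≠ V3) (h23 : V2 ≠ V3)
    (hu1 : ∀ x ∈ V1, x⁻¹ ∉ V1 → ∃ v ∈ V1, x = π * v)
    (hu3 : ∀ x ∈ V3, x⁻¹ ∉ V3 → ∃ v ∈ V3, x = π * v)
    {t : L} (ht : t ∈ V2) (ht' : t⁻¹ ∉ V2)
    (hu2 : ∀ x ∈ V2, x⁻¹ ∉ V2 → ∃ v ∈ V2, x = t * v)
    {m : ℕ} (htm : ∃ v ∈ V2, t ^ m = π * v)
    {lam P Q0 q : ℕ} (hlam : lam.Prime) (hlamO : (lam : L)⁻¹ ∈ O) (hQ0 : 0 < Q0)
    (hP : P = lam * Q0) (hq : 2 ≤ q) (hgcd : Nat.gcd P (q ^ 2 - 1) ∣ Q0)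
    {f G1 G2 G3 : L} (hf0 : f ≠ 0)
    (hG1 : G1 ≠ 0 ∧ G1 ∈ V1 ∧ G1⁻¹ ∈ V1 ∧ f - G1 ^ P ∈ S36TOR_nu V1)
    (hG2 : G2 ≠ 0 ∧ G2 ∈ V2 ∧ G2⁻¹ ∈ V2 ∧ f - G2 ^ P ∈ S36TOR_nu V2)
    (hG3 : G3 ≠ 0 ∧ G3 ∈ V3 ∧ G3⁻¹ ∈ V3 ∧ f - G3 ^ P ∈ S36TOR_nu V3)
    {cα cα' cβ cβ' : L} (hcα : cα ≠ 0 ∧ cα ∈ O ∧ cα⁻¹ ∈ O)
    (hcα' : cα' ≠ 0 ∧ cα' ∈ O ∧ cα'⁻¹ ∈ O) (hcβ : cβ ≠ 0 ∧ cβ ∈ O ∧ cβ⁻¹ ∈ O)
    (hcβ' : cβ' ≠ 0 ∧ cβ' ∈ O ∧ cβ'⁻¹ ∈ O)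
    {ι : Type*} (R : ι → Subring L) (hloc : ∀ i, IsLocalRing ↥(R i))
    (hOR : ∀ i, O ≤ R i) (hR1 : ∀ i, R i ≤ V1) (hR2 : ∀ i, R i ≤ V2) (hR3 : ∀ i, R i ≤ V3)
    (hic : ∀ i, ∀ x ∈ F1, x ^ lam ∈ R i → x ∈ R i)
    (hpt : ∀ i, ∃ u g W1 W2 W3 : L, u ∈ R i ∧ u⁻¹ ∈ R i ∧ g ∈ F1 ∧ f = u * g ^ P ∧
      W1 ∈ R i ∧ W2 ∈ R i ∧ W3 ∈ R i ∧
      G1 / g - W1 ∈ S36TOR_nu V1 ∧ G2 / g - W2 ∈ S36TOR_nu V2 ∧
      G3 / g - W3 ∈ S36TOR_nu V3 ∧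
      cα * W1 * W2 ^ (q - 1) - cα' * W3 ^ q ∈ S36TOR_nu (R i) ∧
      cβ * W3 * W2 ^ (q - 1) - cβ' * W1 ^ q ∈ S36TOR_nu (R i))
    (hB : ∀ i, ∀ G : L, RedPow π (V1 ⊓ V2 ⊓ V3 : Subring L) lam f G →
      ∃ u0 g0 w1 w2 w3 : L, u0 ∈ R i ∧ u0⁻¹ ∈ R i ∧ g0 ∈ F1 ∧ f = u0 * g0 ^ lam ∧
        (w1 ∈ R i ∧ w1⁻¹ ∈ R i ∧ ∃ c ∈ V1, G * g0⁻¹ = w1 * (1 + π * c)) ∧
        (w2 ∈ R i ∧ w2⁻¹ ∈ R i ∧ ∃ c ∈ V2, G * g0⁻¹ = w2 * (1 + π * c)) ∧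
        (w3 ∈ R i ∧ w3⁻¹ ∈ R i ∧ ∃ c ∈ V3, G * g0⁻¹ = w3 * (1 + π * c)))
    (hpts0 : ∀ (hπ : π ∈ A0) (m : Ideal A0) (hm : m.IsMaximal), (⟨π, hπ⟩ : A0) ∈ m →
      (∃ i, R i = @locRing _ _ A0 m hm.isPrime) ∨
      ∀ G : L, RedPow π (V1 ⊓ V2 ⊓ V3 : Subring L) lam f G →
        S36XB_OneAlt π F1 V1 V2 V3 A0 lam f G m)
    (hptsInf : ∀ (hπ : π ∈ Ainf) (m : Ideal Ainf) (hm : m.IsMaximal),
      (⟨π, hπ⟩ : Ainf) ∈ m →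
      (∃ i, R i = @locRing _ _ Ainf m hm.isPrime) ∨
      ∀ G : L, RedPow π (V1 ⊓ V2 ⊓ V3 : Subring L) lam f G →
        S36XB_OneAlt π F1 V1 V2 V3 Ainf lam f G m) :
    ∃ G : L, RedPow π (V1 ⊓ V2 ⊓ V3 : Subring L) lam f G ∧
      (∀ (hπ : π ∈ A0) (m : Ideal A0), m.IsMaximal → (⟨π, hπ⟩ : A0) ∈ m →
        S36XB_Pt π F1 V1 V2 V3 A0 lam f G m) ∧
      (∀ (hπ : π ∈ Ainf) (m : Ideal Ainf), m.IsMaximal → (⟨π, hπ⟩ : Ainf) ∈ m →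
        S36XB_Pt π F1 V1 V2 V3 Ainf lam f G m) := by
  classical
  have hOV : O ≤ (V1 ⊓ V2 ⊓ V3 : Subring L) := S36XB_O_le_V S
  have hOV1 : O ≤ V1 := fun x hx => (hOV hx).1.1
  have hOV2 : O ≤ V2 := fun x hx => (hOV hx).1.2
  have hOV3 : O ≤ V3 := fun x hx => (hOV hx).2
  have hlamL : (lam : L) ≠ 0 := Nat.cast_ne_zero.mpr hlam.ne_zero
  -- Step 1: the constants of TORIC36
  have hz : ∃ z1 z2 z3 : L, (z1 ≠ 0 ∧ z1 ∈ O ∧ z1⁻¹ ∈ O) ∧ (z2 ≠ 0 ∧ z2 ∈ O ∧ z2⁻¹ ∈ O) ∧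
      (z3 ≠ 0 ∧ z3 ∈ O ∧ z3⁻¹ ∈ O) ∧
      (∃ o ∈ O, z1 ^ lam - 1 = π * o) ∧ (∃ o ∈ O, z2 ^ lam - 1 = π * o) ∧
      (∃ o ∈ O, z3 ^ lam - 1 = π * o) ∧
      ∀ G : L, G - z1 * G1 ^ Q0 ∈ S36TOR_nu V1 → G - z2 * G2 ^ Q0 ∈ S36TOR_nu V2 →
        G - z3 * G3 ^ Q0 ∈ S36TOR_nu V3 →
        ∀ i, ∀ u g w1 w2 w3 : L, u ∈ R i → u⁻¹ ∈ R i → g ∈ F1 → f = u * g ^ lam →
          w1 ∈ R i → w2 ∈ R i → w3 ∈ R i →
          G / g - w1 ∈ S36TOR_nu V1 → G / g - w2 ∈ S36TOR_nu V2 →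
          G / g - w3 ∈ S36TOR_nu V3 →
          w1 - w3 ∈ S36TOR_nu (R i) ∧ w2 - w3 ∈ S36TOR_nu (R i) := by
    by_cases hne : Nonempty ι
    · obtain ⟨i0⟩ := hne
      obtain ⟨z1, z2, z3, hz1, hz2, hz3, hzR, key⟩ :=
        S36TOR_main R hloc h1 h2 h3 hOR hR1 hR2 hR3 hlam.pos hQ0 hP hq hgcd hic hG1 hG2 hG3
          hcα hcα' hcβ hcβ' hpt
      have hcon : ∀ z : L, z ∈ O → z ^ lam - 1 ∈ S36TOR_nu (R i0) →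
          ∃ o ∈ O, z ^ lam - 1 = π * o := by
        intro z hzO hnu
        refine S36XB_O_unif S (O.sub_mem (O.pow_mem hzO lam) O.one_mem) ?_
        rcases hnu.2 with h | h
        · exact Or.inl h
        · exact Or.inr fun h' => h (hOR i0 h')
      exact ⟨z1, z2, z3, hz1, hz2, hz3, hcon z1 hz1.2.1 (hzR i0).1,
        hcon z2 hz2.2.1 (hzR i0).2.1, hcon z3 hz3.2.1 (hzR i0).2.2, key⟩
    · have h11 : (1 : L) ≠ 0 ∧ (1 : L) ∈ O ∧ (1 : L)⁻¹ ∈ O :=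
        ⟨one_ne_zero, O.one_mem, by rw [inv_one]; exact O.one_mem⟩
      have h10 : ∃ o ∈ O, (1 : L) ^ lam - 1 = π * o :=
        ⟨0, O.zero_mem, by rw [one_pow, sub_self, mul_zero]⟩
      exact ⟨1, 1, 1, h11, h11, h11, h10, h10, h10,
        fun G _ _ _ i => (hne ⟨i⟩).elim⟩
  obtain ⟨z1, z2, z3, hz1, hz2, hz3, hzl1, hzl2, hzl3, key⟩ := hz
  -- Step 2: the global root of REDPOW
  have hπt : ∃ v ∈ V2, π = t * v := hu2 π h2.π_mem h2.π_nonunit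
  have hπ1 : ∃ v ∈ V1, π = π * v := ⟨1, V1.one_mem, (mul_one _).symm⟩
  have hπ3 : ∃ v ∈ V3, π = π * v := ⟨1, V3.one_mem, (mul_one _).symm⟩
  have lift : ∀ {W : Subring L}, O ≤ W → ∀ {z : L}, (z ≠ 0 ∧ z ∈ O ∧ z⁻¹ ∈ O) →
      (z ≠ 0 ∧ z ∈ W ∧ z⁻¹ ∈ W) := fun hOW _ hz => ⟨hz.1, hOW hz.2.1, hOW hz.2.2⟩
  have liftl : ∀ {W : Subring L}, O ≤ W → ∀ {z : L}, (∃ o ∈ O, z ^ lam - 1 = π * o) →
      (∃ o ∈ W, z ^ lam - 1 = π * o) := fun hOW _ ⟨o, ho, h⟩ => ⟨o, hOW ho, h⟩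
  have hf1 := S36XB_branch_form hu1 hπ1 hP hG1 (lift hOV1 hz1) (liftl hOV1 hzl1)
  have hf2 := S36XB_branch_form hu2 hπt hP hG2 (lift hOV2 hz2) (liftl hOV2 hzl2)
  have hf3 := S36XB_branch_form hu3 hπ3 hP hG3 (lift hOV3 hz3) (liftl hOV3 hzl3)
  have hGk : ∀ {W : Subring L}, O ≤ W → ∀ {z Gk : L}, (z ≠ 0 ∧ z ∈ O ∧ z⁻¹ ∈ O) →
      Gk ≠ 0 → Gk ∈ W → Gk⁻¹ ∈ W → z * Gk ^ Q0 ∈ W ∧ (z * Gk ^ Q0)⁻¹ ∈ W := by
    intro W hOW z Gk hz hG0 hG hG'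
    refine ⟨W.mul_mem (hOW hz.2.1) (W.pow_mem hG Q0), ?_⟩
    rw [mul_inv, ← inv_pow]
    exact W.mul_mem (hOW hz.2.2) (W.pow_mem hG' Q0)
  have hG1'' := hGk hOV1 hz1 hG1.1 hG1.2.1 hG1.2.2.1
  have hG2'' := hGk hOV2 hz2 hG2.1 hG2.2.1 hG2.2.2.1
  have hG3'' := hGk hOV3 hz3 hG3.1 hG3.2.1 hG3.2.2.1
  obtain ⟨G, hGF, hred, hGf1, hGf2, hGf3⟩ :=
    S36RP_redPow hF hV' hsep hdeg h1 h2 h3 hV1 hV2 hV3 h12 h13 h23 hu1 hu3 ht ht' hu2 htm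
      (hOV2 hlamO) hlamL hf0 hG1''.1 hG1''.2 hG2''.1 hG2''.2 hG3''.1 hG3''.2 hf1 hf2 hf3
  -- Step 3: the compatibility of TORIC36 for this `G`
  have hk1 : G - z1 * G1 ^ Q0 ∈ S36TOR_nu V1 :=
    S36XB_nu_of_form h1.π_mem h1.π_nonunit hG1''.1 hGf1
  have hk2 : G - z2 * G2 ^ Q0 ∈ S36TOR_nu V2 := S36XB_nu_of_form ht ht' hG2''.1 hGf2
  have hk3 : G - z3 * G3 ^ Q0 ∈ S36TOR_nu V3 :=
    S36XB_nu_of_form h3.π_mem h3.π_nonunit hG3''.1 hGf3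
  have htor := key G hk1 hk2 hk3
  -- Step 4: the points
  refine ⟨G, hred, ?_, ?_⟩
  · intro hπ m hm hπm
    rcases hpts0 hπ m hm hπm with ⟨i, hi⟩ | hone
    · exact Or.inl (S36XB_pt_triple h1 h2 h3 (S36XB_O_le_chart S S.chart0) m hm hi (hR1 i)
        (hR2 i) (hR3 i) hlam.pos hlamL hlamO hf0 hred (hB i G hred) (htor i))
    · exact S36XB_pt_of_oneAlt (hone G hred)
  · intro hπ m hm hπm
    rcases hptsInf hπ m hm hπm with ⟨i, hi⟩ | hone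
    · exact Or.inl (S36XB_pt_triple h1 h2 h3 (S36XB_O_le_chart S S.chartInf) m hm hi (hR1 i)
        (hR2 i) (hR3 i) hlam.pos hlamL hlamO hf0 hred (hB i G hred) (htor i))
    · exact S36XB_pt_of_oneAlt (hone G hred)

end Fermat.Agent.S36_helper3_LOCABS
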