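import Mathlib
import Fermat.Agent.S36_helper18_Contracts
import Fermat.Agent.S36_helper20_WQQ
import Fermat.Agent.S35_helper27_XD2Defs

/-!
# S36, X-D36 Part I (helper4): the interfaces (definitions only)

Level `M' * q * q` (`q ∤ M'`; the geometry is run at `M' := N' * r` for the auxiliary level `r`),
`A` a valuation subring of `ℚ̄` over `q`, `I_A = A.inertiaSubgroupIn ℚ`.

* `S36XA_Level A K1 q`  : `K1` is an UNRAMIFIED LEVEL at `A`: admissible and fixed pointwise by
  the inertia group of `A` (no Galois stability);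
* `S36XA_NewBeta`       : newness along `β` in norm form at the level `K1`, with helper20's
  Atkin–Lehner involution `W_(q²)` (`S36WQ_wL`); newness along `α` is the landed
  `S35XD2_NewAlpha K1 q (M' * q) n f0 hf0`;
* `S36XA_KeyK1`         : **the key statement at one level** = the interface between Part I
  (`S36XA_KeyK1 → S36C_Geo`) and Part II (the bricks `→ S36XA_KeyK1`, helper3);
* `S36XA_Desc`          : **the H90 descent** (contract, provider helper21): an inertia-fixed
  torsion class is represented by a divisor `D` and a function `f0` over an unramified level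
  with `div f0 = n • D`.
-/

set_option autoImplicit false
set_option linter.unusedSectionVars false
set_option linter.unusedVariables false
set_option linter.style.haveILetI false

open HahnSeries IntermediateField AlgebraicCurve ModularCurve
open Fermat.Agent.S18_helper25_COREDefs Fermat.Agent.S34_helper25_Defs
  Fermat.Agent.S34_helper13_KEY Fermat.Agent.S34_helper27_V3K Fermat.Agent.S34_helper20_V0K
  Fermat.Agent.S35_helper27_XD2Defs Fermat.Agent.S36_helper20_WQQ
  Fermat.Agent.S36_helper18_Contracts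

noncomputable section

namespace Fermat.Agent.S36_helper4_XADefs

local notation "Qb" => AlgebraicClosure ℚ
local notation "GQ" => (AlgebraicClosure ℚ ≃ₐ[ℚ] AlgebraicClosure ℚ)

/-- **an unramified level at `A`**: `K1` is admissible for `(A, q)` and is fixed pointwise by the
inertia group of `A`. -/
structure S36XA_Level (A : ValuationSubring Qb) (K1 : IntermediateField ℚ Qb) (q : ℕ) :
    Prop where
  adm : S18K_Admissible A K1 q
  fix : ∀ τ : GQ, τ ∈ A.inertiaSubgroupIn ℚ → ∀ x ∈ K1, τ x = x

theorem S36XA_level_eq {M' q : ℕ} : M' * q * q = q ^ 2 * M' := by ring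

theorem S36XA_level_dvd (M' q : ℕ) : M' * q ∣ M' * q * q := Dvd.intro q rfl

section New

variable (K1 : IntermediateField ℚ Qb) (q M' : ℕ) [NeZero M'] [NeZero q] [NeZero (M' * q)]
  [NeZero (M' * q * q)] [NeZero (q ^ 2)] (hq : q.Prime) (hqM : ¬ q ∣ M')

/-- the Atkin–Lehner involution `W_(q²)` at the level `M' * q * q` over `K1` (helper20). -/
def S36XA_W (f : LaurentSeries K1) : LaurentSeries K1 :=
  S36WQ_wL (S34V0K_emb K1) (q ^ 2) M' (M' * q * q) (S36WQ_cop hq hqM) S36XA_level_eq f

theorem S36XA_W_mem (f : LaurentSeries K1) :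
    S36XA_W K1 q M' hq hqM f ∈ S18K_F1 K1 (M' * q * q) :=
  S36WQ_wL_mem (S34V0K_emb K1) (q ^ 2) M' (M' * q * q) (S36WQ_cop hq hqM) S36XA_level_eq f

/-- **newness along `β`** at the level of functions over `K1`: the norm of `W_(q²) f` from level
`M' q q` to level `M' q` (along the inclusion) is a constant times an `n`-th power. -/
def S36XA_NewBeta (n : ℕ) (f : LaurentSeries K1) : Prop :=
  letI := S34KEY_alg (S34V3K_F1_mono K1 (S36XA_level_dvd M' q))
  ∃ c : K1, c ≠ 0 ∧ ∃ h ∈ S18K_F1 K1 (M' * q), h ≠ 0 ∧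
    ((Algebra.norm ↥(S18K_F1 K1 (M' * q))
      (⟨S36XA_W K1 q M' hq hqM f, S36XA_W_mem K1 q M' hq hqM f⟩ :
        ↥(S18K_F1 K1 (M' * q * q))) : ↥(S18K_F1 K1 (M' * q))) : LaurentSeries K1) =
      HahnSeries.C c * h ^ n

end New

/-- **The key statement at one level** (interface Part I / Part II).  `K1` an unramified level,
`D` a divisor over `ℚ̄` (no rationality of the support), `f0` a function over `K1` with
`div f0 = lam ^ (c + 1) • D`, new along `α` and `β` in norm form with exponent `lam ^ (c + 1)`: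
then `f0` is a constant times a `lam`-th power over the SAME `K1`. -/
def S36XA_KeyK1 (M' q lam c : ℕ) [NeZero M'] [NeZero q] [NeZero (M' * q)]
    [NeZero (M' * q * q)] [NeZero (q ^ 2)] (hq : q.Prime) (hqM : ¬ q ∣ M')
    (A : ValuationSubring Qb) : Prop :=
  ∀ (K1 : IntermediateField ℚ Qb), S36XA_Level A K1 q →
  ∀ (D : Divisor Qb (modularFunctionFieldBar (M' * q * q))),
    D ∈ Divisor.degZero (K := Qb) (F := modularFunctionFieldBar (M' * q * q)) →
  ∀ (f0 : LaurentSeries K1) (hf0 : f0 ∈ S18K_F1 K1 (M' * q * q)), f0 ≠ 0 →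
    (∀ P : Place Qb (modularFunctionFieldBar (M' * q * q)),
      P.ord (S34XD_inc K1 (M' * q * q) ⟨f0, hf0⟩) = ((lam ^ (c + 1) : ℕ) : ℤ) * D P) →
    S35XD2_NewAlpha K1 q (M' * q) (lam ^ (c + 1)) f0 hf0 →
    S36XA_NewBeta K1 q M' hq hqM (lam ^ (c + 1)) f0 →
    ∃ (e : K1) (w : LaurentSeries K1), e ≠ 0 ∧ w ∈ S18K_F1 K1 (M' * q * q) ∧
      f0 = HahnSeries.C e * w ^ lam

/-- **The H90 descent** (contract; provider helper21): an inertia-fixed class killed by `n` is
represented by a divisor `D` of degree `0` and a function `f0` over an unramified level `K1` with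
`div f0 = n • D`. -/
def S36XA_Desc (M : ℕ) [NeZero M] (A : ValuationSubring Qb) (q : ℕ) : Prop :=
  ∀ (n : ℕ), 0 < n → ∀ x : JZero M, n • x = 0 →
    (∀ τ : GQ, τ ∈ A.inertiaSubgroupIn ℚ → τ • x = x) →
    ∃ (K1 : IntermediateField ℚ Qb), S36XA_Level A K1 q ∧
    ∃ (D : Divisor Qb (modularFunctionFieldBar M))
      (hD : D ∈ Divisor.degZero (K := Qb) (F := modularFunctionFieldBar M)),
      Pic0.mk ⟨D, hD⟩ = x ∧
      ∃ (f0 : LaurentSeries K1) (hf0 : f0 ∈ S18K_F1 K1 M), f0 ≠ 0 ∧
        ∀ P : Place Qb (modularFunctionFieldBar M),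
          P.ord (S34XD_inc K1 M ⟨f0, hf0⟩) = (n : ℤ) * D P

end Fermat.Agent.S36_helper4_XADefs
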