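import Mathlib
import Fermat.Agent.S36_helper4_XADefs
import Fermat.Agent.S36_helper3_XBPT

/-!
# S36, X-D36 Part II (helper3): the contract with the bricks (definitions only)

Level `N = M' * q * q` (`q ∤ M'`), `A` a valuation ring of `ℚ̄` over `q`, `K1` an admissible
level.  Carriers: `O = S18K_O A K1`, `π = S18K_π A K1`, `j = S18K_j K1`, `F1 = S18K_F1 K1 N`,
charts `A0 = S18K_A0 A K1 N`, `Ainf = S18K_Ainf A K1 N`; the three valuation rings
`W₁ = S18K_V A K1 N` (`V_∞`, Gauss), `W₂ = V_mid`, `W₃ = V_0`, and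
`V = (W₁ ⊓ W₂) ⊓ W₃` (helper2's bracketing).  `W₂`, `W₃` are PARAMETERS of the contract (any
carriers for which the fields hold).

`S36XB_Contract A K1 M' q lam c d hq hqM W2 W3` has ONE FIELD PER BRICK:

* `setup`, `val1`, `val2`, `val3` : SETUP3 (helper2, on helper1 / helper5 / helper20);
* `dvd`, `lam_dvd` : the arithmetic of the exponents (`lam ∣ d ∣ lam ^ (c + 1)`);
* `scale` : VERT / SCALE (helper28): a new function `f0` (exponent `lam ^ (c + 1)`) is
  `π ^ z * g0 ^ d * f1` with `f1` a unit of `V` (= the conclusion of `S36SC_abs`, verbatim);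
* `loc`   : NORMRED36 + TORIC36 + REDPOW + FACT + BRANCH36 + REG36 + LOCAL36: a unit `f1` of
  `V`, new with exponent `d`, all of whose divisorial orders are divisible by `d`, has a root
  `G` modulo `π V` and the local contract `S36XB_Pt` at EVERY maximal ideal over `π` of both
  charts.

`S36XB_keyK1` (file `S36_helper3_XBKEY.lean`) : the contract at every unramified level gives
helper4's `S36XA_KeyK1`.
-/

set_option autoImplicit false
set_option linter.unusedSectionVars false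
set_option linter.unusedVariables false
set_option linter.style.haveILetI false

open HahnSeries IntermediateField AlgebraicCurve ModularCurve
open Fermat.Agent.S18_helper9_CDefs Fermat.Agent.S18_helper25_COREDefs
  Fermat.Agent.S34_helper12_CDefs Fermat.Agent.S34_helper25_Defs
  Fermat.Agent.S34_helper27_C2Defs Fermat.Agent.S35_helper27_XD2Defs
  Fermat.Agent.S36_helper4_XADefs Fermat.Agent.S36_helper3_XBPT

noncomputable section

namespace Fermat.Agent.S36_helper3_XBDefs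

local notation "Qb" => AlgebraicClosure ℚ

/-- **The contract of X-D36 Part II with the bricks**, at one place `A`, one level `K1`, for the
prime `lam`, the exponent `lam ^ (c + 1)` of the input and the exponent `d` after vertical
scaling; `W2 = V_mid`, `W3 = V_0`. -/
structure S36XB_Contract (A : ValuationSubring Qb) (K1 : IntermediateField ℚ Qb)
    [IsDiscreteValuationRing (S18K_O1 A K1)] (M' q lam c d : ℕ) [NeZero M'] [NeZero q]
    [NeZero (M' * q)] [NeZero (M' * q * q)] [NeZero (q ^ 2)] (hq : q.Prime) (hqM : ¬ q ∣ M')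
    (W2 W3 : Subring (LaurentSeries K1)) : Prop where
  /-- SETUP3 (helper2): the weak setup of block C' for `V = (V_∞ ⊓ V_mid) ⊓ V_0`. -/
  setup : S34C_Setup (S18K_O A K1) (S18K_π A K1) (S18K_j K1) (S18K_F1 K1 (M' * q * q))
    (S18K_V A K1 (M' * q * q) ⊓ W2 ⊓ W3 : Subring (LaurentSeries K1))
    (S18K_A0 A K1 (M' * q * q)) (S18K_Ainf A K1 (M' * q * q))
  /-- the three valuation rings. -/
  val1 : S34C2_Val (S18K_π A K1) (S18K_F1 K1 (M' * q * q)) (S18K_V A K1 (M' * q * q))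
  val2 : S34C2_Val (S18K_π A K1) (S18K_F1 K1 (M' * q * q)) W2
  val3 : S34C2_Val (S18K_π A K1) (S18K_F1 K1 (M' * q * q)) W3
  /-- the exponents. -/
  dvd : d ∣ lam ^ (c + 1)
  lam_dvd : lam ∣ d
  /-- VERT / SCALE (helper28). -/
  scale : ∀ (f0 : LaurentSeries K1) (hf0 : f0 ∈ S18K_F1 K1 (M' * q * q)), f0 ≠ 0 →
    S35XD2_NewAlpha K1 q (M' * q) (lam ^ (c + 1)) f0 hf0 →
    S36XA_NewBeta K1 q M' hq hqM (lam ^ (c + 1)) f0 →
    ∃ (z : ℤ) (g0 f1 : LaurentSeries K1), g0 ∈ S18K_F1 K1 (M' * q * q) ∧ g0 ≠ 0 ∧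
      f0 = S18K_π A K1 ^ z * g0 ^ d * f1 ∧
      f1 ∈ (S18K_V A K1 (M' * q * q) ⊓ W2 ⊓ W3 : Subring (LaurentSeries K1)) ∧
      f1⁻¹ ∈ (S18K_V A K1 (M' * q * q) ⊓ W2 ⊓ W3 : Subring (LaurentSeries K1))
  /-- NORMRED36 + TORIC36 + REDPOW + FACT + BRANCH36 + REG36 + LOCAL36. -/
  loc : ∀ (f1 : LaurentSeries K1) (hf1 : f1 ∈ S18K_F1 K1 (M' * q * q)), f1 ≠ 0 →
    f1 ∈ (S18K_V A K1 (M' * q * q) ⊓ W2 ⊓ W3 : Subring (LaurentSeries K1)) →
    f1⁻¹ ∈ (S18K_V A K1 (M' * q * q) ⊓ W2 ⊓ W3 : Subring (LaurentSeries K1)) →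
    (∀ P : Place Qb (modularFunctionFieldBar (M' * q * q)),
      (d : ℤ) ∣ P.ord (S34XD_inc K1 (M' * q * q) ⟨f1, hf1⟩)) →
    S35XD2_NewAlpha K1 q (M' * q) d f1 hf1 →
    S36XA_NewBeta K1 q M' hq hqM d f1 →
    ∃ G : LaurentSeries K1,
      RedPow (S18K_π A K1)
        (S18K_V A K1 (M' * q * q) ⊓ W2 ⊓ W3 : Subring (LaurentSeries K1)) lam f1 G ∧
      (∀ (hπ : S18K_π A K1 ∈ S18K_A0 A K1 (M' * q * q))
        (m : Ideal (S18K_A0 A K1 (M' * q * q))), m.IsMaximal →
        (⟨S18K_π A K1, hπ⟩ : S18K_A0 A K1 (M' * q * q)) ∈ m →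
        S36XB_Pt (S18K_π A K1) (S18K_F1 K1 (M' * q * q)) (S18K_V A K1 (M' * q * q)) W2 W3
          (S18K_A0 A K1 (M' * q * q)) lam f1 G m) ∧
      (∀ (hπ : S18K_π A K1 ∈ S18K_Ainf A K1 (M' * q * q))
        (m : Ideal (S18K_Ainf A K1 (M' * q * q))), m.IsMaximal →
        (⟨S18K_π A K1, hπ⟩ : S18K_Ainf A K1 (M' * q * q)) ∈ m →
        S36XB_Pt (S18K_π A K1) (S18K_F1 K1 (M' * q * q)) (S18K_V A K1 (M' * q * q)) W2 W3
          (S18K_Ainf A K1 (M' * q * q)) lam f1 G m)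

/-- **the input of X-D36 Part II**: at every unramified level `K1` of `A` there are carriers
`V_mid`, `V_0` and an exponent `d` with the contract. -/
def S36XB_Input (M' q lam c : ℕ) [NeZero M'] [NeZero q] [NeZero (M' * q)]
    [NeZero (M' * q * q)] [NeZero (q ^ 2)] (hq : q.Prime) (hqM : ¬ q ∣ M')
    (A : ValuationSubring Qb) : Prop :=
  ∀ (K1 : IntermediateField ℚ Qb) (hK1 : S36XA_Level A K1 q),
    letI := hK1.adm.dvr
    ∃ (d : ℕ) (W2 W3 : Subring (LaurentSeries K1)),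
      S36XB_Contract A K1 M' q lam c d hq hqM W2 W3

end Fermat.Agent.S36_helper3_XBDefs
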