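import Mathlib
import Fermat.Agent.S36_helper3_XBDefs
import Fermat.Agent.S36_helper3_LOCABS

/-!
# S36, X-D36 Part II (helper3): the field `loc` at the carriers, ONE FIELD PER BRICK

Level `N = M' * q * q`, carriers `O`, `π`, `F1 = S18K_F1 K1 N`, `V1 = S18K_V A K1 N` (Gauss,
`V_∞`), `W2 = V_mid`, `W3 = V_0`, `V = V1 ⊓ W2 ⊓ W3`; lower level `F1' = S18K_F1 K1 M'`,
`V' = S18K_V A K1 M'`.  `t` is the uniformiser of `V_mid` (`t ^ e ∈ π V_mid`), `R : ι → Subring L`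
the family of the local rings at the TRIPLE points, `P = lam * Q0` the exponent of the branch
roots.

* `S36XB_Good`        : the hypotheses on the scaled function `f1` (= the hypotheses of the
  field `loc` of `S36XB_Contract`);
* `S36XB_LocContract` : **the contract of `loc` with the bricks**, one field per brick:
  carriers (helper5 / helper23 / helper2), triple points (REG36 [TRIPLE]), `roots`
  (REDK + TORPT), `branch` (FACT-L + BRANCH36 at the triple points), `pts0` / `ptsInf` (the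
  dichotomy + the one-branch data);
* `S36XB_loc_of`      : `S36XB_LocContract` gives the field `loc`;
* `S36XB_contract_of` : SETUP3 + `scale` + `S36XB_LocContract` give `S36XB_Contract`.
-/

set_option autoImplicit false
set_option linter.unusedSectionVars false
set_option linter.unusedVariables false
set_option linter.style.haveILetI false

open HahnSeries IntermediateField AlgebraicCurve ModularCurve
open Fermat.Agent.S18_helper9_CDefs Fermat.Agent.S18_helper3_LOCRING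
  Fermat.Agent.S18_helper25_COREDefs
  Fermat.Agent.S34_helper12_CDefs Fermat.Agent.S34_helper25_Defs
  Fermat.Agent.S34_helper27_C2Defs Fermat.Agent.S34_helper27_V3K
  Fermat.Agent.S35_helper27_XD2Defs
  Fermat.Agent.S36_helper6_TORIC
  Fermat.Agent.S36_helper4_XADefs Fermat.Agent.S36_helper3_XBPT
  Fermat.Agent.S36_helper3_XBDefs Fermat.Agent.S36_helper3_LOCABS

noncomputable section

namespace Fermat.Agent.S36_helper3_LOCK

local notation "Qb" => AlgebraicClosure ℚ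

section Defs

variable (A : ValuationSubring Qb) (K1 : IntermediateField ℚ Qb)
  [IsDiscreteValuationRing (S18K_O1 A K1)] (M' q lam d P Q0 : ℕ) [NeZero M'] [NeZero q]
  [NeZero (M' * q)] [NeZero (M' * q * q)] [NeZero (q ^ 2)] (hq : q.Prime) (hqM : ¬ q ∣ M')
  (W2 W3 : Subring (LaurentSeries K1))

/-- **the hypotheses on the scaled function** `f1`: a unit of `V`, all divisorial orders over
`ℚ̄` divisible by `d`, new along `α` and `β` with exponent `d`. -/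
def S36XB_Good (f1 : LaurentSeries K1) (hf1 : f1 ∈ S18K_F1 K1 (M' * q * q)) : Prop :=
  f1 ≠ 0 ∧
  f1 ∈ (S18K_V A K1 (M' * q * q) ⊓ W2 ⊓ W3 : Subring (LaurentSeries K1)) ∧
  f1⁻¹ ∈ (S18K_V A K1 (M' * q * q) ⊓ W2 ⊓ W3 : Subring (LaurentSeries K1)) ∧
  (∀ P : Place Qb (modularFunctionFieldBar (M' * q * q)),
    (d : ℤ) ∣ P.ord (S34XD_inc K1 (M' * q * q) ⟨f1, hf1⟩)) ∧
  S35XD2_NewAlpha K1 q (M' * q) d f1 hf1 ∧
  S36XA_NewBeta K1 q M' hq hqM d f1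

/-- **The contract of the field `loc` with the bricks**, at the carriers. -/
structure S36XB_LocContract (t : LaurentSeries K1) (e : ℕ) {ι : Type}
    (R : ι → Subring (LaurentSeries K1)) : Prop where
  /-- the lower level `M'` (Gauss valuation, separated, finite degree). -/
  low_val : S34C2_Val (S18K_π A K1) (S18K_F1 K1 M') (S18K_V A K1 M')
  low_sep : ∀ x ∈ S18K_F1 K1 M', x ≠ 0 → ∃ (z : ℤ) (u : LaurentSeries K1),
    u ∈ S18K_V A K1 M' ∧ u⁻¹ ∈ S18K_V A K1 M' ∧ x = S18K_π A K1 ^ z * u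
  deg : ∃ s : Finset (LaurentSeries K1), ∀ x ∈ S18K_F1 K1 (M' * q * q),
    ∃ c : LaurentSeries K1 → LaurentSeries K1, (∀ y, c y ∈ S18K_F1 K1 M') ∧
      x = ∑ y ∈ s, c y * y
  /-- the three valuation rings above it. -/
  le1 : S18K_V A K1 M' ≤ S18K_V A K1 (M' * q * q)
  le2 : S18K_V A K1 M' ≤ W2
  le3 : S18K_V A K1 M' ≤ W3
  ne12 : S18K_V A K1 (M' * q * q) ≠ W2
  ne13 : S18K_V A K1 (M' * q * q) ≠ W3
  ne23 : W2 ≠ W3
  unif1 : ∀ x ∈ S18K_V A K1 (M' * q * q), x⁻¹ ∉ S18K_V A K1 (M' * q * q) →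
    ∃ v ∈ S18K_V A K1 (M' * q * q), x = S18K_π A K1 * v
  unif3 : ∀ x ∈ W3, x⁻¹ ∉ W3 → ∃ v ∈ W3, x = S18K_π A K1 * v
  t_mem : t ∈ W2
  t_nonunit : t⁻¹ ∉ W2
  unif2 : ∀ x ∈ W2, x⁻¹ ∉ W2 → ∃ v ∈ W2, x = t * v
  t_pow : ∃ v ∈ W2, t ^ e = S18K_π A K1 * v
  /-- the exponents. -/
  Q0_pos : 0 < Q0
  P_eq : P = lam * Q0
  gcd_dvd : Nat.gcd P (q ^ 2 - 1) ∣ Q0
  /-- REG36 [TRIPLE]: the local rings at the triple points. -/
  trip_loc : ∀ i, IsLocalRing ↥(R i)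
  trip_O : ∀ i, S18K_O A K1 ≤ R i
  trip_le1 : ∀ i, R i ≤ S18K_V A K1 (M' * q * q)
  trip_le2 : ∀ i, R i ≤ W2
  trip_le3 : ∀ i, R i ≤ W3
  trip_ic : ∀ i, ∀ x ∈ S18K_F1 K1 (M' * q * q), x ^ lam ∈ R i → x ∈ R i
  /-- REDK + TORPT: the branch roots with exponent `P`, the constants of the norms and the two
  norm relations at every triple point (= `hG1 hG2 hG3 hcα hcα' hcβ hcβ' hpt` of helper6's
  `S36TOR_main`, verbatim). -/
  roots : ∀ (f1 : LaurentSeries K1) (hf1 : f1 ∈ S18K_F1 K1 (M' * q * q)),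
    S36XB_Good A K1 M' q d hq hqM W2 W3 f1 hf1 →
    ∃ G1 G2 G3 cα cα' cβ cβ' : LaurentSeries K1,
      (G1 ≠ 0 ∧ G1 ∈ S18K_V A K1 (M' * q * q) ∧ G1⁻¹ ∈ S18K_V A K1 (M' * q * q) ∧
        f1 - G1 ^ P ∈ S36TOR_nu (S18K_V A K1 (M' * q * q))) ∧
      (G2 ≠ 0 ∧ G2 ∈ W2 ∧ G2⁻¹ ∈ W2 ∧ f1 - G2 ^ P ∈ S36TOR_nu W2) ∧
      (G3 ≠ 0 ∧ G3 ∈ W3 ∧ G3⁻¹ ∈ W3 ∧ f1 - G3 ^ P ∈ S36TOR_nu W3) ∧
      (cα ≠ 0 ∧ cα ∈ S18K_O A K1 ∧ cα⁻¹ ∈ S18K_O A K1) ∧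
      (cα' ≠ 0 ∧ cα' ∈ S18K_O A K1 ∧ cα'⁻¹ ∈ S18K_O A K1) ∧
      (cβ ≠ 0 ∧ cβ ∈ S18K_O A K1 ∧ cβ⁻¹ ∈ S18K_O A K1) ∧
      (cβ' ≠ 0 ∧ cβ' ∈ S18K_O A K1 ∧ cβ'⁻¹ ∈ S18K_O A K1) ∧
      ∀ i, ∃ u g w1 w2 w3 : LaurentSeries K1, u ∈ R i ∧ u⁻¹ ∈ R i ∧
        g ∈ S18K_F1 K1 (M' * q * q) ∧ f1 = u * g ^ P ∧ w1 ∈ R i ∧ w2 ∈ R i ∧ w3 ∈ R i ∧
        G1 / g - w1 ∈ S36TOR_nu (S18K_V A K1 (M' * q * q)) ∧
        G2 / g - w2 ∈ S36TOR_nu W2 ∧ G3 / g - w3 ∈ S36TOR_nu W3 ∧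
        cα * w1 * w2 ^ (q - 1) - cα' * w3 ^ q ∈ S36TOR_nu (R i) ∧
        cβ * w3 * w2 ^ (q - 1) - cβ' * w1 ^ q ∈ S36TOR_nu (R i)
  /-- FACT-L + BRANCH36 at the triple points, for every global root `G`. -/
  branch : ∀ (f1 : LaurentSeries K1) (hf1 : f1 ∈ S18K_F1 K1 (M' * q * q)),
    S36XB_Good A K1 M' q d hq hqM W2 W3 f1 hf1 → ∀ i, ∀ G : LaurentSeries K1,
    RedPow (S18K_π A K1)
      (S18K_V A K1 (M' * q * q) ⊓ W2 ⊓ W3 : Subring (LaurentSeries K1)) lam f1 G →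
    ∃ u0 g0 w1 w2 w3 : LaurentSeries K1, u0 ∈ R i ∧ u0⁻¹ ∈ R i ∧
      g0 ∈ S18K_F1 K1 (M' * q * q) ∧ f1 = u0 * g0 ^ lam ∧
      (w1 ∈ R i ∧ w1⁻¹ ∈ R i ∧
        ∃ c ∈ S18K_V A K1 (M' * q * q), G * g0⁻¹ = w1 * (1 + S18K_π A K1 * c)) ∧
      (w2 ∈ R i ∧ w2⁻¹ ∈ R i ∧ ∃ c ∈ W2, G * g0⁻¹ = w2 * (1 + S18K_π A K1 * c)) ∧
      (w3 ∈ R i ∧ w3⁻¹ ∈ R i ∧ ∃ c ∈ W3, G * g0⁻¹ = w3 * (1 + S18K_π A K1 * c))
  /-- the dichotomy on the finite chart: triple point or one-branch datum. -/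
  pts0 : ∀ (f1 : LaurentSeries K1) (hf1 : f1 ∈ S18K_F1 K1 (M' * q * q)),
    S36XB_Good A K1 M' q d hq hqM W2 W3 f1 hf1 →
    ∀ (hπ : S18K_π A K1 ∈ S18K_A0 A K1 (M' * q * q))
      (m : Ideal (S18K_A0 A K1 (M' * q * q))) (hm : m.IsMaximal),
      (⟨S18K_π A K1, hπ⟩ : S18K_A0 A K1 (M' * q * q)) ∈ m →
      (∃ i, R i = @locRing _ _ (S18K_A0 A K1 (M' * q * q)) m hm.isPrime) ∨
      ∀ G : LaurentSeries K1, RedPow (S18K_π A K1)
        (S18K_V A K1 (M' * q * q) ⊓ W2 ⊓ W3 : Subring (LaurentSeries K1)) lam f1 G →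
        S36XB_OneAlt (S18K_π A K1) (S18K_F1 K1 (M' * q * q)) (S18K_V A K1 (M' * q * q)) W2 W3
          (S18K_A0 A K1 (M' * q * q)) lam f1 G m
  /-- the dichotomy on the chart at infinity. -/
  ptsInf : ∀ (f1 : LaurentSeries K1) (hf1 : f1 ∈ S18K_F1 K1 (M' * q * q)),
    S36XB_Good A K1 M' q d hq hqM W2 W3 f1 hf1 →
    ∀ (hπ : S18K_π A K1 ∈ S18K_Ainf A K1 (M' * q * q))
      (m : Ideal (S18K_Ainf A K1 (M' * q * q))) (hm : m.IsMaximal),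
      (⟨S18K_π A K1, hπ⟩ : S18K_Ainf A K1 (M' * q * q)) ∈ m →
      (∃ i, R i = @locRing _ _ (S18K_Ainf A K1 (M' * q * q)) m hm.isPrime) ∨
      ∀ G : LaurentSeries K1, RedPow (S18K_π A K1)
        (S18K_V A K1 (M' * q * q) ⊓ W2 ⊓ W3 : Subring (LaurentSeries K1)) lam f1 G →
        S36XB_OneAlt (S18K_π A K1) (S18K_F1 K1 (M' * q * q)) (S18K_V A K1 (M' * q * q)) W2 W3
          (S18K_Ainf A K1 (M' * q * q)) lam f1 G m

end Defs

section Main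

variable (A : ValuationSubring Qb) (K1 : IntermediateField ℚ Qb)
  [IsDiscreteValuationRing (S18K_O1 A K1)] (M' q lam c d P Q0 : ℕ) [NeZero M'] [NeZero q]
  [NeZero (M' * q)] [NeZero (M' * q * q)] [NeZero (q ^ 2)] (hq : q.Prime) (hqM : ¬ q ∣ M')
  (W2 W3 : Subring (LaurentSeries K1))

/-- **the field `loc` from the contract with the bricks.** -/
theorem S36XB_loc_of (hA : A.LiesOverPrime q) (hlam : lam.Prime) (hne : lam ≠ q)
    (S : S34C_Setup (S18K_O A K1) (S18K_π A K1) (S18K_j K1) (S18K_F1 K1 (M' * q * q))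
      (S18K_V A K1 (M' * q * q) ⊓ W2 ⊓ W3 : Subring (LaurentSeries K1))
      (S18K_A0 A K1 (M' * q * q)) (S18K_Ainf A K1 (M' * q * q)))
    (H1 : S34C2_Val (S18K_π A K1) (S18K_F1 K1 (M' * q * q)) (S18K_V A K1 (M' * q * q)))
    (H2 : S34C2_Val (S18K_π A K1) (S18K_F1 K1 (M' * q * q)) W2)
    (H3 : S34C2_Val (S18K_π A K1) (S18K_F1 K1 (M' * q * q)) W3)
    {t : LaurentSeries K1} {e : ℕ} {ι : Type} {R : ι → Subring (LaurentSeries K1)}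
    (C : S36XB_LocContract A K1 M' q lam d P Q0 hq hqM W2 W3 t e R)
    (f1 : LaurentSeries K1) (hf1 : f1 ∈ S18K_F1 K1 (M' * q * q))
    (hgood : S36XB_Good A K1 M' q d hq hqM W2 W3 f1 hf1) :
    ∃ G : LaurentSeries K1,
      RedPow (S18K_π A K1)
        (S18K_V A K1 (M' * q * q) ⊓ W2 ⊓ W3 : Subring (LaurentSeries K1)) lam f1 G ∧
      (∀ (hπ : S18K_π A K1 ∈ S18K_A0 A K1 (M' * q * q))
        (m : Ideal (S18K_A0 A K1 (M' * q * q))), m.IsMaximal →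
        (⟨S18K_π A K1, hπ⟩ : S18K_A0 A K1 (M' * q * q)) ∈ m →
        S36XB_Pt (S18K_π A K1) (S18K_F1 K1 (M' * q * q)) (S18K_V A K1 (M' * q * q)) W2 W3
          (S18K_A0 A K1 (M' * q * q)) lam f1 G m) ∧
      (∀ (hπ : S18K_π A K1 ∈ S18K_Ainf A K1 (M' * q * q))
        (m : Ideal (S18K_Ainf A K1 (M' * q * q))), m.IsMaximal →
        (⟨S18K_π A K1, hπ⟩ : S18K_Ainf A K1 (M' * q * q)) ∈ m →
        S36XB_Pt (S18K_π A K1) (S18K_F1 K1 (M' * q * q)) (S18K_V A K1 (M' * q * q)) W2 W3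
          (S18K_Ainf A K1 (M' * q * q)) lam f1 G m) := by
  haveI : Fact q.Prime := ⟨hq⟩
  haveI : CharZero (LaurentSeries K1) :=
    charZero_of_injective_ringHom (HahnSeries.C_injective (Γ := ℤ) (R := K1))
  have hlamO : ((lam : LaurentSeries K1))⁻¹ ∈ S18K_O A K1 :=
    Fermat.Agent.S18_helper25_CORE.S18K_natCast_inv_mem A K1 hA lam hlam hne
  have hF : S18K_F1 K1 M' ≤ S18K_F1 K1 (M' * q * q) :=
    S34V3K_F1_mono K1 ⟨q * q, by ring⟩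
  obtain ⟨G1, G2, G3, cα, cα', cβ, cβ', hG1, hG2, hG3, hcα, hcα', hcβ, hcβ', hpt⟩ :=
    C.roots f1 hf1 hgood
  exact S36XB_loc_abs S hF C.low_val C.low_sep C.deg H1 H2 H3 C.le1 C.le2 C.le3 C.ne12 C.ne13
    C.ne23 C.unif1 C.unif3 C.t_mem C.t_nonunit C.unif2 C.t_pow hlam hlamO C.Q0_pos C.P_eq
    hq.two_le C.gcd_dvd hgood.1 hG1 hG2 hG3 hcα hcα' hcβ hcβ' R C.trip_loc C.trip_O C.trip_le1
    C.trip_le2 C.trip_le3 C.trip_ic hpt (C.branch f1 hf1 hgood) (C.pts0 f1 hf1 hgood)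
    (C.ptsInf f1 hf1 hgood)

/-- **the contract of X-D36 Part II from SETUP3, `scale` and the contract of `loc`.** -/
theorem S36XB_contract_of (hA : A.LiesOverPrime q) (hlam : lam.Prime) (hne : lam ≠ q)
    (S : S34C_Setup (S18K_O A K1) (S18K_π A K1) (S18K_j K1) (S18K_F1 K1 (M' * q * q))
      (S18K_V A K1 (M' * q * q) ⊓ W2 ⊓ W3 : Subring (LaurentSeries K1))
      (S18K_A0 A K1 (M' * q * q)) (S18K_Ainf A K1 (M' * q * q)))
    (H1 : S34C2_Val (S18K_π A K1) (S18K_F1 K1 (M' * q * q)) (S18K_V A K1 (M' * q * q)))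
    (H2 : S34C2_Val (S18K_π A K1) (S18K_F1 K1 (M' * q * q)) W2)
    (H3 : S34C2_Val (S18K_π A K1) (S18K_F1 K1 (M' * q * q)) W3)
    (hdvd : d ∣ lam ^ (c + 1)) (hlamd : lam ∣ d)
    (hscale : ∀ (f0 : LaurentSeries K1) (hf0 : f0 ∈ S18K_F1 K1 (M' * q * q)), f0 ≠ 0 →
      S35XD2_NewAlpha K1 q (M' * q) (lam ^ (c + 1)) f0 hf0 →
      S36XA_NewBeta K1 q M' hq hqM (lam ^ (c + 1)) f0 →
      ∃ (z : ℤ) (g0 f1 : LaurentSeries K1), g0 ∈ S18K_F1 K1 (M' * q * q) ∧ g0 ≠ 0 ∧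
        f0 = S18K_π A K1 ^ z * g0 ^ d * f1 ∧
        f1 ∈ (S18K_V A K1 (M' * q * q) ⊓ W2 ⊓ W3 : Subring (LaurentSeries K1)) ∧
        f1⁻¹ ∈ (S18K_V A K1 (M' * q * q) ⊓ W2 ⊓ W3 : Subring (LaurentSeries K1)))
    {t : LaurentSeries K1} {e : ℕ} {ι : Type} {R : ι → Subring (LaurentSeries K1)}
    (C : S36XB_LocContract A K1 M' q lam d P Q0 hq hqM W2 W3 t e R) :
    S36XB_Contract A K1 M' q lam c d hq hqM W2 W3 where
  setup := S
  val1 := H1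
  val2 := H2
  val3 := H3
  dvd := hdvd
  lam_dvd := hlamd
  scale := hscale
  loc := fun f1 hf1 hf10 hV hV' hord hα hβ =>
    S36XB_loc_of A K1 M' q lam d P Q0 hq hqM W2 W3 hA hlam hne S H1 H2 H3 C f1 hf1
      ⟨hf10, hV, hV', hord, hα, hβ⟩

end Main

end Fermat.Agent.S36_helper3_LOCK
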