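import Mathlib
import Fermat.Agent.S36_helper3_LOCK
import Fermat.Agent.S18_helper25_CORE

/-!
# S36, GEO36 (helper12): `PowDiv` of a Good function at the carriers (GOODPD)

For `f1` with `S36XB_Good A K1 M' q d hq hqM W2 W3 f1 hf1` (helper3's hypotheses of the field
`loc`) and every exponent `p ∣ d`:

* `S36GP_powDiv` : `PowDiv (S18K_O A K1) (S18K_π A K1) (S18K_F1 K1 (M' * q * q)) p f1`
  (the hypothesis `hdiv` of the local bricks at the points over `π`);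
* `S36GP_order`  : `(p : ℤ) ∣ f1.order` (the order at the cusp `∞`);
* `S36GP_ne_zero`, `S36GP_unitV`, `S36GP_unit1`, `S36GP_unit2`, `S36GP_unit3`, `S36GP_ord`,
  `S36GP_newAlpha`, `S36GP_newBeta` : the projections of `S36XB_Good`.

Source: the landed descent `S18K_powDiv_and_order` (helper25) of the divisibility of the divisor
over `ℚ̄`.
-/

set_option autoImplicit false
set_option linter.unusedSectionVars false
set_option linter.unusedVariables false
set_option linter.style.haveILetI false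

open HahnSeries IntermediateField AlgebraicCurve ModularCurve
open Fermat.Agent.S18_helper9_CDefs
  Fermat.Agent.S18_helper25_COREDefs
  Fermat.Agent.S34_helper25_Defs
  Fermat.Agent.S35_helper27_XD2Defs
  Fermat.Agent.S36_helper4_XADefs
  Fermat.Agent.S36_helper3_LOCK

noncomputable section

namespace Fermat.Agent.S36_helper12_GOODPD

local notation "Qb" => AlgebraicClosure ℚ

variable (A : ValuationSubring Qb) (K1 : IntermediateField ℚ Qb)
  [IsDiscreteValuationRing (S18K_O1 A K1)] (M' q d : ℕ) [NeZero M'] [NeZero q]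
  [NeZero (M' * q)] [NeZero (M' * q * q)] [NeZero (q ^ 2)] (hq : q.Prime) (hqM : ¬ q ∣ M')
  (W2 W3 : Subring (LaurentSeries K1))

/-- a Good function is nonzero. -/
theorem S36GP_ne_zero {f1 : LaurentSeries K1} {hf1 : f1 ∈ S18K_F1 K1 (M' * q * q)}
    (hgood : S36XB_Good A K1 M' q d hq hqM W2 W3 f1 hf1) : f1 ≠ 0 := hgood.1

/-- a Good function is a unit of `V = V1 ⊓ W2 ⊓ W3`. -/
theorem S36GP_unitV {f1 : LaurentSeries K1} {hf1 : f1 ∈ S18K_F1 K1 (M' * q * q)}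
    (hgood : S36XB_Good A K1 M' q d hq hqM W2 W3 f1 hf1) :
    f1 ∈ (S18K_V A K1 (M' * q * q) ⊓ W2 ⊓ W3 : Subring (LaurentSeries K1)) ∧
      f1⁻¹ ∈ (S18K_V A K1 (M' * q * q) ⊓ W2 ⊓ W3 : Subring (LaurentSeries K1)) :=
  ⟨hgood.2.1, hgood.2.2.1⟩

/-- a Good function is a unit of the Gauss ring `V1 = V_∞`. -/
theorem S36GP_unit1 {f1 : LaurentSeries K1} {hf1 : f1 ∈ S18K_F1 K1 (M' * q * q)}
    (hgood : S36XB_Good A K1 M' q d hq hqM W2 W3 f1 hf1) :
    f1 ∈ S18K_V A K1 (M' * q * q) ∧ f1⁻¹ ∈ S18K_V A K1 (M' * q * q) :=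
  ⟨(Subring.mem_inf.mp (Subring.mem_inf.mp hgood.2.1).1).1,
    (Subring.mem_inf.mp (Subring.mem_inf.mp hgood.2.2.1).1).1⟩

/-- a Good function is a unit of `W2 = V_mid`. -/
theorem S36GP_unit2 {f1 : LaurentSeries K1} {hf1 : f1 ∈ S18K_F1 K1 (M' * q * q)}
    (hgood : S36XB_Good A K1 M' q d hq hqM W2 W3 f1 hf1) : f1 ∈ W2 ∧ f1⁻¹ ∈ W2 :=
  ⟨(Subring.mem_inf.mp (Subring.mem_inf.mp hgood.2.1).1).2,
    (Subring.mem_inf.mp (Subring.mem_inf.mp hgood.2.2.1).1).2⟩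

/-- a Good function is a unit of `W3 = V_0`. -/
theorem S36GP_unit3 {f1 : LaurentSeries K1} {hf1 : f1 ∈ S18K_F1 K1 (M' * q * q)}
    (hgood : S36XB_Good A K1 M' q d hq hqM W2 W3 f1 hf1) : f1 ∈ W3 ∧ f1⁻¹ ∈ W3 :=
  ⟨(Subring.mem_inf.mp hgood.2.1).2, (Subring.mem_inf.mp hgood.2.2.1).2⟩

/-- the divisorial orders over `ℚ̄` of a Good function are divisible by `d`. -/
theorem S36GP_ord {f1 : LaurentSeries K1} {hf1 : f1 ∈ S18K_F1 K1 (M' * q * q)}
    (hgood : S36XB_Good A K1 M' q d hq hqM W2 W3 f1 hf1) :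
    ∀ P : Place Qb (modularFunctionFieldBar (M' * q * q)),
      (d : ℤ) ∣ P.ord (S34XD_inc K1 (M' * q * q) ⟨f1, hf1⟩) := hgood.2.2.2.1

/-- a Good function is new along `α` with exponent `d`. -/
theorem S36GP_newAlpha {f1 : LaurentSeries K1} {hf1 : f1 ∈ S18K_F1 K1 (M' * q * q)}
    (hgood : S36XB_Good A K1 M' q d hq hqM W2 W3 f1 hf1) :
    S35XD2_NewAlpha K1 q (M' * q) d f1 hf1 := hgood.2.2.2.2.1

/-- a Good function is new along `β` with exponent `d`. -/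
theorem S36GP_newBeta {f1 : LaurentSeries K1} {hf1 : f1 ∈ S18K_F1 K1 (M' * q * q)}
    (hgood : S36XB_Good A K1 M' q d hq hqM W2 W3 f1 hf1) :
    S36XA_NewBeta K1 q M' hq hqM d f1 := hgood.2.2.2.2.2

/-- **`PowDiv` and the order at `∞`** of a Good function, for every exponent `p ∣ d`. -/
theorem S36GP_powDiv_and_order {p : ℕ} (hpd : p ∣ d) (f1 : LaurentSeries K1)
    (hf1 : f1 ∈ S18K_F1 K1 (M' * q * q))
    (hgood : S36XB_Good A K1 M' q d hq hqM W2 W3 f1 hf1) :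
    PowDiv (S18K_O A K1) (S18K_π A K1) (S18K_F1 K1 (M' * q * q)) p f1 ∧
      (p : ℤ) ∣ f1.order := by
  have hF : coeffMap (algebraMap K1 Qb) f1 ∈ modularFunctionFieldBar (M' * q * q) :=
    (S34XD_inc K1 (M' * q * q) ⟨f1, hf1⟩).2
  have hdiv : ∀ P : Place Qb (modularFunctionFieldBar (M' * q * q)),
      (p : ℤ) ∣ P.ord ⟨coeffMap (algebraMap K1 Qb) f1, hF⟩ := by
    intro P
    have e : (⟨coeffMap (algebraMap K1 Qb) f1, hF⟩ : modularFunctionFieldBar (M' * q * q)) =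
        S34XD_inc K1 (M' * q * q) ⟨f1, hf1⟩ := Subtype.ext rfl
    rw [e]
    exact (Int.natCast_dvd_natCast.mpr hpd).trans (hgood.2.2.2.1 P)
  exact Fermat.Agent.S18_helper25_CORE.S18K_powDiv_and_order
    (algebraMap K1 Qb) (M' * q * q) (S18K_O A K1) (S18K_π A K1)
    (Fermat.Agent.S18_helper25_CORE.S18K_π_ne_zero A K1)
    (fun c => Fermat.Agent.S18_helper25_CORE.S18K_const_mul_pow A K1 c) p f1 hf1 hgood.1 hF hdiv

/-- **`PowDiv` of a Good function** (the hypothesis `hdiv` of the local bricks), `p ∣ d`. -/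
theorem S36GP_powDiv {p : ℕ} (hpd : p ∣ d) (f1 : LaurentSeries K1)
    (hf1 : f1 ∈ S18K_F1 K1 (M' * q * q))
    (hgood : S36XB_Good A K1 M' q d hq hqM W2 W3 f1 hf1) :
    PowDiv (S18K_O A K1) (S18K_π A K1) (S18K_F1 K1 (M' * q * q)) p f1 :=
  (S36GP_powDiv_and_order A K1 M' q d hq hqM W2 W3 hpd f1 hf1 hgood).1

/-- **the order at `∞` of a Good function** is divisible by every `p ∣ d`. -/
theorem S36GP_order {p : ℕ} (hpd : p ∣ d) (f1 : LaurentSeries K1)
    (hf1 : f1 ∈ S18K_F1 K1 (M' * q * q))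
    (hgood : S36XB_Good A K1 M' q d hq hqM W2 W3 f1 hf1) : (p : ℤ) ∣ f1.order :=
  (S36GP_powDiv_and_order A K1 M' q d hq hqM W2 W3 hpd f1 hf1 hgood).2

/-- `PowDiv` at the exponent `d` itself. -/
theorem S36GP_powDiv_self (f1 : LaurentSeries K1) (hf1 : f1 ∈ S18K_F1 K1 (M' * q * q))
    (hgood : S36XB_Good A K1 M' q d hq hqM W2 W3 f1 hf1) :
    PowDiv (S18K_O A K1) (S18K_π A K1) (S18K_F1 K1 (M' * q * q)) d f1 :=
  S36GP_powDiv A K1 M' q d hq hqM W2 W3 dvd_rfl f1 hf1 hgood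

end Fermat.Agent.S36_helper12_GOODPD
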