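import Fermat.Agent.S36_helper12_W36VAL
import Fermat.Agent.S36_helper5_VMIDK
import Fermat.Agent.S18_helper14_SETUP

/-!
# S36, GEO36 W36-VAL, concrete plug (helper12)

For helper5's carriers at level `M' * q * q` (`V1 = S18K_V A K1 (M' * q * q)`,
`V2 = S36VK_Vmid A K1 q M'`, `V3 = S36VK_V0 A K1 q M' hq hqM`, `t = S36VK_t K1 q`) and helper20's
Atkin-Lehner involution `w = S36WQ_wL .. (q ^ 2) M' (M' * q * q) ..`:

* `S36WV_hw22` : `w` maps `V_mid` into `V_mid` (hypothesis `hw22` of `S36SC_abs`);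
* `S36WV_hwt`  : `w t = t * u` with `u = -1` a unit of `V_mid` (hypothesis `hwt` of `S36SC_abs`);
* `S36WV_hw22_iff` : for `x ∈ F1`, `w x ∈ V_mid ↔ x ∈ V_mid`.

Inputs: helper5's `S36VK_main` (IsMid, `V1 ≠ V2`, `V2 ≠ V3`, exactly three) and the S18 `Setup` at
the good level `M'` (`S18AK.setupK`), through the abstract `S36WV_abs`.
-/

set_option autoImplicit false
set_option linter.unusedSectionVars false
set_option linter.unusedVariables false
set_option linter.style.haveILetI false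

noncomputable section

open ModularCurve Fermat.Agent.S24
open Fermat.Agent.S18_helper13_GAUSS Fermat.Agent.S18_helper9_CDefs
open Fermat.Agent.S18_helper25_COREDefs Fermat.Agent.S34_helper12_CDefs
open Fermat.Agent.S34_helper27_C2Defs Fermat.Agent.S34_helper20_WQ Fermat.Agent.S34_helper20_V0
open Fermat.Agent.S34_helper27_V3K Fermat.Agent.S34_helper20_V0K Fermat.Agent.S36_helper20_WQQ
open Fermat.Agent.S36_helper5_VKDefs Fermat.Agent.S36_helper5_VMIDK
open Fermat.Agent.S36_helper12_W36VAL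

namespace Fermat.Agent.S36_helper12_W36VALK

variable (A : ValuationSubring (AlgebraicClosure ℚ))
  (K1 : IntermediateField ℚ (AlgebraicClosure ℚ)) [IsDiscreteValuationRing (S18K_O1 A K1)]
  (q M' : ℕ) [NeZero M'] [NeZero (q * q)] [NeZero (q ^ 2)] [NeZero (M' * q * q)]
  (hq : q.Prime) (hqM : ¬ q ∣ M')

include hq hqM in
/-- `w` fixes the constants of `O1` -/
theorem S36WV_wL_O : ∀ c ∈ S18K_O A K1,
    S36WQ_wL (S34V0K_emb K1) (q ^ 2) M' (M' * q * q) (S36WQ_cop hq hqM) (S36VK_level q M') c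
      = c := by
  intro c hc
  obtain ⟨c0, -, rfl⟩ := (S18K_mem_O A K1 c).1 hc
  exact S36WQ_wL_C (S34V0K_emb K1) (q ^ 2) M' (M' * q * q) (S36WQ_cop hq hqM)
    (S36VK_level q M') c0

include hq hqM in
/-- `w j = j + t` -/
theorem S36WV_wL_j_add :
    S36WQ_wL (S34V0K_emb K1) (q ^ 2) M' (M' * q * q) (S36WQ_cop hq hqM) (S36VK_level q M')
      (S18K_j K1) = S18K_j K1 + S36VK_t K1 q := by
  show S36WQ_wL (S34V0K_emb K1) (q ^ 2) M' (M' * q * q) (S36WQ_cop hq hqM) (S36VK_level q M')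
      (jqModC K1) = jqModC K1 + S36VK_t K1 q
  rw [S36VK_wL_j K1 q M' hq hqM, S36VK_t_eq]
  ring

/-- **W36-VAL (`hw22` of `S36SC_abs`)**: the Atkin-Lehner involution `w_(q²)` maps the middle
valuation ring `V_mid` of level `M' * q * q` into itself. -/
theorem S36WV_hw22 (hA : A.LiesOverPrime q)
    (hunr : Associated (S18K_D A K1).π ((q : ℕ) : S18K_O1 A K1)) :
    ∀ x ∈ S36VK_Vmid A K1 q M',
      S36WQ_wL (S34V0K_emb K1) (q ^ 2) M' (M' * q * q) (S36WQ_cop hq hqM) (S36VK_level q M') x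
        ∈ S36VK_Vmid A K1 q M' := by
  obtain ⟨hmid, h12, h23, -, -, -, -, -, -, -, hthree, -, -⟩ :=
    S36VK_main A K1 q M' hq hqM hA hunr
  have hd01 : M' ∣ M' * q := dvd_mul_right M' q
  have hd02 : M' ∣ M' * q * q := hd01.trans (dvd_mul_right (M' * q) q)
  have S' := Fermat.Agent.S18AK.setupK M' hq A hA hqM K1
  exact S36WV_abs S' (S34V3K_F1_mono K1 hd02) hmid.1
    ((S34V3K_V_mono A K1 hd01).trans hmid.2.1) hthree h12 h23
    (S34V3K_val1 A K1 (M' * q * q)).le (S36VK_V0_val A K1 q M' hq hqM).le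
    (S36WQ_wL (S34V0K_emb K1) (q ^ 2) M' (M' * q * q) (S36WQ_cop hq hqM) (S36VK_level q M'))
    (fun x _ => S36WQ_wL_mem (S34V0K_emb K1) (q ^ 2) M' (M' * q * q) (S36WQ_cop hq hqM)
      (S36VK_level q M') x)
    (S36VK_wL_one (S34V0K_emb K1) (q ^ 2) M' (M' * q * q) (S36WQ_cop hq hqM) (S36VK_level q M'))
    (fun x hx y hy => S36WQ_wL_add (S34V0K_emb K1) (q ^ 2) M' (M' * q * q) (S36WQ_cop hq hqM)
      (S36VK_level q M') hx hy)
    (fun x hx y hy => S36WQ_wL_mul (S34V0K_emb K1) (q ^ 2) M' (M' * q * q) (S36WQ_cop hq hqM)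
      (S36VK_level q M') hx hy)
    (fun x hx => S36WQ_wL_wL (S34V0K_emb K1) (q ^ 2) M' (M' * q * q) (S36WQ_cop hq hqM)
      (S36VK_level q M') hx)
    (S36WV_wL_O A K1 q M' hq hqM)
    (fun x hx => S36VK_wL_mem_image (S34V0K_emb K1) (q ^ 2) M' (M' * q * q) (S36WQ_cop hq hqM)
      (S36VK_level q M') hx.2 hx)
    (fun x hx => hx.2)
    hmid.2.2.1 hmid.2.2.2 (S36WV_wL_j_add K1 q M' hq hqM)

/-- for `x ∈ F1`: `w x ∈ V_mid ↔ x ∈ V_mid` -/
theorem S36WV_hw22_iff (hA : A.LiesOverPrime q)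
    (hunr : Associated (S18K_D A K1).π ((q : ℕ) : S18K_O1 A K1))
    {x : LaurentSeries K1} (hx : x ∈ S18K_F1 K1 (M' * q * q)) :
    S36WQ_wL (S34V0K_emb K1) (q ^ 2) M' (M' * q * q) (S36WQ_cop hq hqM) (S36VK_level q M') x
        ∈ S36VK_Vmid A K1 q M' ↔ x ∈ S36VK_Vmid A K1 q M' := by
  constructor
  · intro h
    have h2 := S36WV_hw22 A K1 q M' hq hqM hA hunr _ h
    rwa [S36WQ_wL_wL (S34V0K_emb K1) (q ^ 2) M' (M' * q * q) (S36WQ_cop hq hqM)
      (S36VK_level q M') hx] at h2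
  · exact S36WV_hw22 A K1 q M' hq hqM hA hunr x

include hq hqM in
/-- **`hwt` of `S36SC_abs`**: `w t = t * u` with `u = -1`, a unit of `V_mid`. -/
theorem S36WV_hwt :
    ∃ u, u ∈ S36VK_Vmid A K1 q M' ∧ u⁻¹ ∈ S36VK_Vmid A K1 q M' ∧
      S36WQ_wL (S34V0K_emb K1) (q ^ 2) M' (M' * q * q) (S36WQ_cop hq hqM) (S36VK_level q M')
        (S36VK_t K1 q) = S36VK_t K1 q * u := by
  refine ⟨-1, Subring.neg_mem _ (Subring.one_mem _), ?_, ?_⟩
  · have h : ((-1 : LaurentSeries K1))⁻¹ = -1 := inv_eq_of_mul_eq_one_right (by ring)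
    rw [h]
    exact Subring.neg_mem _ (Subring.one_mem _)
  · rw [S36VK_wL_t K1 q M' hq hqM]
    ring

end Fermat.Agent.S36_helper12_W36VALK
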