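import Mathlib
import Fermat.Agent.S35_helper13_NORMRED
import Fermat.Agent.S36_helper5_V3COUNT

/-!
# S36, piece (c) of GEO36: NORM REDUCTION at level `q ^ 2` (helper13), abstract layer

The degree-`q` extension `F(q² M') / F(q M')` has, over the Gauss valuation `V'_∞` of the lower
level, exactly two extensions `V_∞` (`e = f = 1`) and `V_mid` (`e = q - 1`, `f = 1`), and over
`V'_0` exactly one extension `V_0` (`e = 1`, `f = q`, purely inseparable residue extension).

* `S36NR_norm_add_nilpotent` : the norm of `constant + nilpotent` in a finite-dimensional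
  algebra over a field is `constant ^ dimension`;
* `S36NR_ram` : `S` free of rank `1 + m` over the local ring `R`, `𝔪 S = P1 ∩ I2`, `P1`, `I2`
  coprime, `S / P1 = R / 𝔪`, `P2 ^ k ≤ I2 ≤ P2`; if `s ≡ a` mod `P1` and `s ≡ b` mod `P2`
  (`a`, `b` in `R`) then `N_{S/R}(s) ≡ a b ^ m` mod `𝔪`;
* `S36NR_insep` : `S` free of rank `q` over the local ring `R` of residue characteristic `q`;
  if `s ^ q ≡ c` mod `𝔪 S` then `N_{S/R}(s) ≡ c` mod `𝔪`;
* `S36NR_RamGe`, `S36NR_ramGe_of_V3` : the elementwise bound `m ≤ e(W | R)` (with a NONZERO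
  witness `t`), and the adapter from helper5's `S36V3_RamGe` (the shared definition);
* `S36NR_two_ram` : two dominating valuation subrings `W1 ≠ W2`, `[F' : F] ≤ 1 + m`,
  `e(W2) ≥ m ≥ 1` : no third extension, `e(W1) = f(W1) = f(W2) = 1`, `e(W2) = m`;
* `S36NR_val_ram`, `S36NR_val_insep` : the two norm reductions for valuation subrings of a
  finite separable extension dominating a discrete valuation ring;
* `S36NR_abs_ram`, `S36NR_abs_insep` : the same in the `Subring L` vocabulary of `S35NR_abs`.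
-/

set_option autoImplicit false
set_option linter.style.haveILetI false
set_option linter.unusedSectionVars false
set_option linter.unusedVariables false

open IsLocalRing Module IsDedekindDomain IsDedekindDomain.HeightOneSpectrum WithZero

namespace Fermat.Agent.S36_helper13_NORMRED

open Fermat.Agent.S35_helper13_NORMRED Fermat.Agent.S34_helper13_VCOUNT
  Fermat.Agent.S34_helper27_C2Defs Fermat.Agent.S34_helper13_KEY
  Fermat.Agent.S36_helper5_V3COUNT

attribute [local instance] Ideal.Quotient.field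

section Nil

variable {κ A : Type*} [Field κ] [CommRing A] [Algebra κ A] [Module.Finite κ A]

/-- The norm of `constant + nilpotent` is `constant ^ dimension`. -/
theorem S36NR_norm_add_nilpotent (b : κ) (ν : A) (hν : IsNilpotent ν) :
    Algebra.norm κ (algebraMap κ A b + ν) = b ^ Module.finrank κ A := by
  rw [Algebra.norm_apply]
  have h1 : Algebra.lmul κ A (algebraMap κ A b + ν) =
      algebraMap κ (Module.End κ A) b - (-(Algebra.lmul κ A ν)) := by
    rw [map_add, sub_neg_eq_add]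
    congr 1
    ext x
    simp [Algebra.smul_def]
  have hnil : IsNilpotent (-(Algebra.lmul κ A ν) : Module.End κ A) :=
    (hν.map (Algebra.lmul κ A)).neg
  rw [h1, ← LinearMap.eval_charpoly, IsNilpotent.charpoly_eq_X_pow_finrank hnil]
  simp

end Nil

section Main

variable {R S : Type*} [CommRing R] [CommRing S] [Algebra R S] [IsLocalRing R]
  [Module.Free R S] [Module.Finite R S]

/-- **Norm reduction, purely inseparable side.**  `S` free of rank `q` over the local ring `R`
of residue characteristic `q`; if `s ^ q ≡ c` modulo `𝔪 S` with `c` in `R`, then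
`N_{S/R}(s) ≡ c` modulo `𝔪`. -/
theorem S36NR_insep (q : ℕ) [Fact q.Prime] (hchar : (q : R) ∈ maximalIdeal R)
    (hrank : Module.finrank R S = q)
    (s : S) (c : R)
    (hc : s ^ q - algebraMap R S c ∈ Ideal.map (algebraMap R S) (maximalIdeal R)) :
    Algebra.norm R s - c ∈ maximalIdeal R := by
  haveI : CharP (R ⧸ maximalIdeal R) q := by
    rw [CharP.charP_iff_prime_eq_zero (Fact.out : q.Prime)]
    rw [← map_natCast (Ideal.Quotient.mk (maximalIdeal R)), Ideal.Quotient.eq_zero_iff_mem]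
    exact hchar
  haveI : Module.Finite (R ⧸ maximalIdeal R)
      (S ⧸ Ideal.map (algebraMap R S) (maximalIdeal R)) :=
    Module.Finite.of_restrictScalars_finite R _ _
  have hr0 : Module.finrank (R ⧸ maximalIdeal R)
      (S ⧸ Ideal.map (algebraMap R S) (maximalIdeal R)) = q := by
    rw [IsLocalRing.finrank_quotient_map, hrank]
  have hN : Ideal.Quotient.mk (maximalIdeal R) (Algebra.norm R s) =
      Ideal.Quotient.mk (maximalIdeal R) c := by
    rw [← S35NR_norm_quotient_mk]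
    apply S35NR_norm_eq_of_pow q hr0
    rw [← map_pow]
    exact (Ideal.Quotient.mk_eq_mk_iff_sub_mem _ _).mpr hc
  rwa [Ideal.Quotient.mk_eq_mk_iff_sub_mem] at hN

/-- **Norm reduction, split + totally ramified side.**  `S` free of rank `1 + m` over the local
ring `R`, `𝔪 S = P1 ∩ I2` with `P1`, `I2` coprime, `S / P1` the residue field of `R`,
`P2 ^ k ≤ I2 ≤ P2`.  If `s ≡ a` modulo `P1` and `s ≡ b` modulo `P2` with `a`, `b` in `R`, then
`N_{S/R}(s) ≡ a b ^ m` modulo `𝔪`. -/
theorem S36NR_ram (m : ℕ) (hrank : Module.finrank R S = 1 + m)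
    (P1 P2 I2 : Ideal S) (hP : P1 ⊓ I2 = Ideal.map (algebraMap R S) (maximalIdeal R))
    (hcop : IsCoprime P1 I2) (hP1 : P1 ≠ ⊤) (hI2 : I2 ≤ P2) (hnil : ∃ k, P2 ^ k ≤ I2)
    (h1 : ∀ s : S, ∃ r : R, s - algebraMap R S r ∈ P1)
    (s : S) (a b : R) (ha : s - algebraMap R S a ∈ P1) (hb : s - algebraMap R S b ∈ P2) :
    Algebra.norm R s - a * b ^ m ∈ maximalIdeal R := by
  haveI : P1.LiesOver (maximalIdeal R) := S35NR_liesOver P1 hP1 (hP ▸ inf_le_left)
  haveI : Module.Finite (R ⧸ maximalIdeal R)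
      (S ⧸ Ideal.map (algebraMap R S) (maximalIdeal R)) :=
    Module.Finite.of_restrictScalars_finite R _ _
  haveI : Module.Finite (R ⧸ maximalIdeal R) (S ⧸ P1) :=
    Module.Finite.of_restrictScalars_finite R _ _
  have hr0 : Module.finrank (R ⧸ maximalIdeal R)
      (S ⧸ Ideal.map (algebraMap R S) (maximalIdeal R)) = 1 + m := by
    rw [IsLocalRing.finrank_quotient_map, hrank]
  have hr1 : Module.finrank (R ⧸ maximalIdeal R) (S ⧸ P1) = 1 := by
    haveI : Nontrivial (S ⧸ P1) := Ideal.Quotient.nontrivial_iff.mpr hP1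
    apply finrank_eq_one (1 : S ⧸ P1) one_ne_zero
    intro w
    obtain ⟨x, rfl⟩ := Ideal.Quotient.mk_surjective w
    obtain ⟨r, hr⟩ := h1 x
    refine ⟨Ideal.Quotient.mk _ r, ?_⟩
    rw [Algebra.smul_def, mul_one]
    exact ((Ideal.Quotient.mk_eq_mk_iff_sub_mem _ _).mpr hr).symm
  have hsa : Ideal.Quotient.mk P1 s =
      algebraMap (R ⧸ maximalIdeal R) (S ⧸ P1) (Ideal.Quotient.mk _ a) :=
    (Ideal.Quotient.mk_eq_mk_iff_sub_mem _ _).mpr ha
  by_cases hI2top : I2 = ⊤
  · -- degenerate case: `𝔪 S = P1`, `m = 0`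
    have hP' : P1 = Ideal.map (algebraMap R S) (maximalIdeal R) := by
      rw [← hP, hI2top, inf_top_eq]
    let e : (S ⧸ Ideal.map (algebraMap R S) (maximalIdeal R)) ≃ₐ[R ⧸ maximalIdeal R]
        (S ⧸ P1) :=
      AlgEquiv.ofRingEquiv (f := Ideal.quotEquivOfEq hP'.symm) (by
        intro x
        obtain ⟨r, rfl⟩ := Ideal.Quotient.mk_surjective x
        rfl)
    have hm : m = 0 := by
      have h := e.toLinearEquiv.finrank_eq
      rw [hr0, hr1] at h
      omega
    subst hm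
    have hN : Ideal.Quotient.mk (maximalIdeal R) (Algebra.norm R s) =
        Ideal.Quotient.mk (maximalIdeal R) a := by
      rw [← S35NR_norm_quotient_mk, ← Algebra.norm_eq_of_algEquiv e]
      have : e (Ideal.Quotient.mk _ s) = Ideal.Quotient.mk P1 s := rfl
      rw [this, hsa, S35NR_norm_eq_of_rank_one hr1]
    rw [Ideal.Quotient.mk_eq_mk_iff_sub_mem] at hN
    simpa using hN
  haveI : I2.LiesOver (maximalIdeal R) := S35NR_liesOver I2 hI2top (hP ▸ inf_le_right)
  haveI : Module.Finite (R ⧸ maximalIdeal R) (S ⧸ I2) :=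
    Module.Finite.of_restrictScalars_finite R _ _
  -- the Chinese remainder isomorphism
  let e0 : (S ⧸ Ideal.map (algebraMap R S) (maximalIdeal R)) ≃+* (S ⧸ P1) × (S ⧸ I2) :=
    (Ideal.quotEquivOfEq hP.symm).trans (Ideal.quotientInfEquivQuotientProd P1 I2 hcop)
  have he0 : ∀ x : S, e0 (Ideal.Quotient.mk _ x) =
      (Ideal.Quotient.mk P1 x, Ideal.Quotient.mk I2 x) := by
    intro x
    apply Prod.ext <;> simp [e0]
  let e : (S ⧸ Ideal.map (algebraMap R S) (maximalIdeal R)) ≃ₐ[R ⧸ maximalIdeal R]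
      (S ⧸ P1) × (S ⧸ I2) :=
    AlgEquiv.ofRingEquiv (f := e0) (by
      intro x
      obtain ⟨r, rfl⟩ := Ideal.Quotient.mk_surjective x
      have : algebraMap (R ⧸ maximalIdeal R)
          (S ⧸ Ideal.map (algebraMap R S) (maximalIdeal R)) (Ideal.Quotient.mk _ r) =
          Ideal.Quotient.mk _ (algebraMap R S r) := rfl
      rw [this, he0]
      rfl)
  have hr2 : Module.finrank (R ⧸ maximalIdeal R) (S ⧸ I2) = m := by
    have h := e.toLinearEquiv.finrank_eq
    rw [hr0, Module.finrank_prod, hr1] at h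
    omega
  -- the second component is `constant + nilpotent`
  have hsb : Ideal.Quotient.mk I2 s =
      algebraMap (R ⧸ maximalIdeal R) (S ⧸ I2) (Ideal.Quotient.mk _ b) +
        Ideal.Quotient.mk I2 (s - algebraMap R S b) := by
    have : algebraMap (R ⧸ maximalIdeal R) (S ⧸ I2) (Ideal.Quotient.mk _ b) =
        Ideal.Quotient.mk I2 (algebraMap R S b) := rfl
    rw [this, ← map_add]
    congr 1
    ring
  have hnu : IsNilpotent (Ideal.Quotient.mk I2 (s - algebraMap R S b)) := by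
    obtain ⟨k, hk⟩ := hnil
    refine ⟨k, ?_⟩
    rw [← map_pow, Ideal.Quotient.eq_zero_iff_mem]
    exact hk (Ideal.pow_mem_pow hb k)
  have hN : Ideal.Quotient.mk (maximalIdeal R) (Algebra.norm R s) =
      Ideal.Quotient.mk (maximalIdeal R) a * Ideal.Quotient.mk (maximalIdeal R) b ^ m := by
    rw [← S35NR_norm_quotient_mk, ← Algebra.norm_eq_of_algEquiv e]
    have : e (Ideal.Quotient.mk _ s) = (Ideal.Quotient.mk P1 s, Ideal.Quotient.mk I2 s) := he0 s
    rw [this, S35NR_norm_prod]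
    congr 1
    · rw [hsa, S35NR_norm_eq_of_rank_one hr1]
    · rw [hsb, S36NR_norm_add_nilpotent _ _ hnu, hr2]
  rw [← map_pow, ← map_mul, Ideal.Quotient.mk_eq_mk_iff_sub_mem] at hN
  exact hN

end Main

/-! ### Valuation forms -/

section Defs

variable (R : Type*) {F' : Type*} [CommRing R] [IsDomain R] [IsDiscreteValuationRing R]
  [Field F'] [Algebra R F']

/-- Elementwise lower bound `m ≤ e(W | R)` for the ramification index: some nonzero non-unit
`t` of `W` has `𝔪_R ⊆ t ^ m W`. -/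
def S36NR_RamGe (W : ValuationSubring F') (m : ℕ) : Prop :=
  ∃ t ∈ W.nonunits, t ≠ 0 ∧
    ∀ r : R, r ∈ IsLocalRing.maximalIdeal R → algebraMap R F' r * (t ^ m)⁻¹ ∈ W

end Defs

section ValCore

variable {R : Type*} (S : Type*) {F' : Type*} [CommRing R] [IsDomain R]
  [IsDiscreteValuationRing R]
  [CommRing S] [IsDedekindDomain S] [Field F'] [Algebra R F'] [FaithfulSMul R F']
  [Algebra R S] [Algebra S F'] [IsScalarTower R S F'] [IsFractionRing S F']
  [IsIntegralClosure S R F']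
  (W : ValuationSubring F')

omit [FaithfulSMul R F'] [IsIntegralClosure S R F'] in
/-- The valuation of a uniformiser of `R` at a prime of `S` above `𝔪`. -/
theorem S36NR_valuation_unif [Module.IsTorsionFree R S] (P : HeightOneSpectrum S)
    [P.asIdeal.LiesOver (IsLocalRing.maximalIdeal R)] {ϖ : R} (hϖ : Irreducible ϖ) :
    P.valuation F' (algebraMap R F' ϖ) = exp (-(P.asIdeal.ramificationIdx R : ℤ)) := by
  haveI : P.asIdeal.LiesOver (S34V_hosR R).asIdeal := ‹_›
  have h1 := intValuation_liesOver (S34V_hosR R) P ϖ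
  have h2 : (S34V_hosR R).intValuation ϖ = exp (-1 : ℤ) :=
    intValuation_singleton _ hϖ.ne_zero (by
      show IsLocalRing.maximalIdeal R = _
      rw [hϖ.maximalIdeal_eq])
  have h3 : (S34V_hosR R).asIdeal.ramificationIdx' P.asIdeal = P.asIdeal.ramificationIdx R :=
    Ideal.ramificationIdx'_eq_ramificationIdx _ _ (S34V_hosR R).ne_bot
  rw [h3, h2, ← exp_nsmul] at h1
  rw [IsScalarTower.algebraMap_apply R S F', valuation_of_algebraMap, ← h1]
  congr 1
  simp

/-- A non-unit of `W` has valuation at most `exp (-1)`. -/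
theorem S36NR_valuation_le_of_nonunit (hW : S34V_Dom R W) {x : F'} (hx : x ∈ W.nonunits) :
    (S34V_hos S W hW).valuation F' x ≤ exp (-1 : ℤ) := by
  have h2 : (S34V_hos S W hW).valuation F' x < 1 := (S34V_mem_nonunits_iff S W hW x).1 hx
  rw [← lt_mul_exp_iff_le (by simp)]
  rw [← exp_add]
  simpa using h2

theorem S36NR_le_ramificationIdx [Module.IsTorsionFree R S] [Algebra.IsIntegral R S]
    (hW : S34V_Dom R W) {m : ℕ} (hram : S36NR_RamGe R W m) :
    m ≤ (S34V_hos S W hW).asIdeal.ramificationIdx R := by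
  set P := S34V_hos S W hW with hP
  haveI := S34V_liesOver (R := R) P
  obtain ⟨t, ht, ht0, h⟩ := hram
  obtain ⟨ϖ, hϖ⟩ := IsDiscreteValuationRing.exists_irreducible R
  have hϖm : ϖ ∈ IsLocalRing.maximalIdeal R := by
    rw [IsLocalRing.mem_maximalIdeal]; exact hϖ.not_isUnit
  have h1 := S36NR_valuation_unif (F' := F') S P hϖ
  have h2 : P.valuation F' t ≤ exp (-1 : ℤ) := S36NR_valuation_le_of_nonunit S W hW ht
  have h3 : P.valuation F' (algebraMap R F' ϖ * (t ^ m)⁻¹) ≤ 1 :=
    (S34V_mem_iff S W hW _).1 (h ϖ hϖm)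
  have ht0' : P.valuation F' t ≠ 0 := (Valuation.ne_zero_iff _).2 ht0
  rw [map_mul, map_inv₀, map_pow, ← div_eq_mul_inv,
    div_le_one₀ (pow_pos (zero_lt_iff.2 ht0') m)] at h3
  have h4 : P.valuation F' t ^ m ≤ exp (-1 : ℤ) ^ m := pow_le_pow_left₀ zero_le h2 m
  have h5 : exp (-(P.asIdeal.ramificationIdx R : ℤ)) ≤ exp (-(m : ℤ)) := by
    rw [← h1]
    refine h3.trans (h4.trans (le_of_eq ?_))
    rw [← exp_nsmul]
    congr 1
    simp
  rw [exp_le_exp] at h5
  omega

/-- If the residue degree is `1`, every element of `W` is congruent to a constant of `R`. -/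
theorem S36NR_residue [Module.Finite R S] (hW : S34V_Dom R W)
    (hf : (S34V_hos S W hW).asIdeal.inertiaDeg R = 1) {x : F'} (hx : x ∈ W) :
    ∃ r : R, x - algebraMap R F' r ∈ W.nonunits := by
  obtain ⟨c, ⟨i, hi⟩, hc⟩ := S34V_dependent_of_inertiaDeg_lt S W hW (a := 2) (by omega)
    ![1, x] (by
      intro i
      fin_cases i
      · exact W.one_mem
      · exact hx)
  simp only [Fin.sum_univ_two, Fin.isValue, Matrix.cons_val_zero, mul_one,
    Matrix.cons_val_one] at hc
  have hc1 : c 1 ∉ IsLocalRing.maximalIdeal R := by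
    intro h1
    have h2 : algebraMap R F' (c 1) * x ∈ W.nonunits := by
      rw [mul_comm]
      exact S34V_nonunits_mul_mem W hx (hW.2 _ h1)
    have h3 : algebraMap R F' (c 0) ∈ W.nonunits := by
      have := W.nonunits.sub_mem hc h2
      simpa using this
    have h4 := S34V_mem_maximalIdeal_of_mem_nonunits W hW h3
    fin_cases i
    · exact hi h4
    · exact hi h1
  rw [IsLocalRing.mem_maximalIdeal, mem_nonunits_iff, not_not] at hc1
  obtain ⟨u, hu⟩ := hc1
  refine ⟨-(↑u⁻¹ * c 0), ?_⟩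
  have h5 : x - algebraMap R F' (-(↑u⁻¹ * c 0))
      = algebraMap R F' (↑u⁻¹ : R) * (algebraMap R F' (c 0) + algebraMap R F' (c 1) * x) := by
    have hu1 : algebraMap R F' (↑u⁻¹ : R) * algebraMap R F' (↑u : R) = 1 := by
      rw [← map_mul, Units.inv_mul, map_one]
    rw [← hu, map_neg, map_mul]
    linear_combination (-x) * hu1
  rw [h5]
  exact S34V_nonunits_mul_mem W (hW.1 _) hc

end ValCore

section Count

variable {R : Type*} (S : Type*) [CommRing R] [IsDomain R] [IsDiscreteValuationRing R]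
  [CommRing S] [IsDedekindDomain S] [Algebra R S] [Module.Finite R S] [Module.Flat R S]

/-- Arithmetic core: two distinct primes, one of ramification index `≥ m`, and `n ≤ 1 + m`. -/
theorem S36NR_count_core [Algebra.IsIntegral R S] (P Q : HeightOneSpectrum S) (hPQ : P ≠ Q)
    {m : ℕ} (hm0 : 0 < m) (hab : Module.finrank R S ≤ 1 + m)
    (hm : m ≤ Q.asIdeal.ramificationIdx R) :
    (∀ T : HeightOneSpectrum S, T = P ∨ T = Q) ∧
      P.asIdeal.ramificationIdx R = 1 ∧ P.asIdeal.inertiaDeg R = 1 ∧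
      Q.asIdeal.ramificationIdx R = m ∧ Q.asIdeal.inertiaDeg R = 1 ∧
      Module.finrank R S = 1 + m := by
  classical
  letI : Fintype ((IsLocalRing.maximalIdeal R).primesOver S) :=
    (Algebra.QuasiFinite.finite_primesOver _).fintype
  have hsum := Ideal.sum_ramification_inertia_eq_finrank (IsLocalRing.maximalIdeal R) S
  set t : (IsLocalRing.maximalIdeal R).primesOver S → ℕ :=
    fun q => q.1.ramificationIdx R * q.1.inertiaDeg R with ht
  have hpos : ∀ q : (IsLocalRing.maximalIdeal R).primesOver S, 1 ≤ t q := by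
    intro q
    haveI := q.2.1
    have h1 : 0 < q.1.ramificationIdx R := Ideal.ramificationIdx_pos q.1 R
    have h2 : 0 < q.1.inertiaDeg R := Ideal.inertiaDeg_pos q.1 R
    exact Nat.mul_pos h1 h2
  set qP := S34V_toPrimesOver (R := R) S P with hqP
  set qQ := S34V_toPrimesOver (R := R) S Q with hqQ
  have hne : qP ≠ qQ := fun h => hPQ (S34V_toPrimesOver_injective S h)
  have hfQ : 0 < Q.asIdeal.inertiaDeg R := Ideal.inertiaDeg_pos Q.asIdeal R
  have h2 : t qP + t qQ + ∑ q ∈ (Finset.univ.erase qP).erase qQ, t q = Module.finrank R S := by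
    rw [← hsum, ← Finset.add_sum_erase Finset.univ t (Finset.mem_univ qP),
      ← Finset.add_sum_erase (Finset.univ.erase qP) t
        (Finset.mem_erase.2 ⟨hne.symm, Finset.mem_univ qQ⟩), add_assoc]
  have htP : t qP = P.asIdeal.ramificationIdx R * P.asIdeal.inertiaDeg R := rfl
  have htQ : t qQ = Q.asIdeal.ramificationIdx R * Q.asIdeal.inertiaDeg R := rfl
  have h3 : 1 ≤ t qP := hpos qP
  have h4 : Q.asIdeal.ramificationIdx R ≤ t qQ := by
    rw [htQ]; exact Nat.le_mul_of_pos_right _ hfQ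
  have h5 : ∑ q ∈ (Finset.univ.erase qP).erase qQ, t q = 0 := by omega
  have h6 : t qP = 1 := by omega
  have h7 : t qQ = m := by omega
  have h8 : Q.asIdeal.ramificationIdx R = m := by omega
  rw [htP] at h6
  rw [htQ, h8] at h7
  refine ⟨?_, (mul_eq_one.mp h6).1, (mul_eq_one.mp h6).2, h8, ?_, by omega⟩
  · intro T
    by_contra hT
    rw [not_or] at hT
    have hT1 : S34V_toPrimesOver (R := R) S T ∈ (Finset.univ.erase qP).erase qQ := by
      refine Finset.mem_erase.2 ⟨fun h => hT.2 (S34V_toPrimesOver_injective S h),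
        Finset.mem_erase.2 ⟨fun h => hT.1 (S34V_toPrimesOver_injective S h), Finset.mem_univ _⟩⟩
    have := Finset.single_le_sum (f := t) (fun _ _ => Nat.zero_le _) hT1
    have := hpos (S34V_toPrimesOver (R := R) S T)
    omega
  · exact Nat.eq_of_mul_eq_mul_left hm0 (by rw [h7, mul_one])

/-- Arithmetic core: one prime of residue degree `≥ q` and `n ≤ q`. -/
theorem S36NR_count_one [Algebra.IsIntegral R S] (Q : HeightOneSpectrum S)
    {q : ℕ} (hab : Module.finrank R S ≤ q) (hq : q ≤ Q.asIdeal.inertiaDeg R) :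
    (∀ T : HeightOneSpectrum S, T = Q) ∧
      Q.asIdeal.ramificationIdx R = 1 ∧ Q.asIdeal.inertiaDeg R = q ∧
      Module.finrank R S = q := by
  classical
  letI : Fintype ((IsLocalRing.maximalIdeal R).primesOver S) :=
    (Algebra.QuasiFinite.finite_primesOver _).fintype
  have hsum := Ideal.sum_ramification_inertia_eq_finrank (IsLocalRing.maximalIdeal R) S
  set t : (IsLocalRing.maximalIdeal R).primesOver S → ℕ :=
    fun q => q.1.ramificationIdx R * q.1.inertiaDeg R with ht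
  have hpos : ∀ q : (IsLocalRing.maximalIdeal R).primesOver S, 1 ≤ t q := by
    intro q
    haveI := q.2.1
    have h1 : 0 < q.1.ramificationIdx R := Ideal.ramificationIdx_pos q.1 R
    have h2 : 0 < q.1.inertiaDeg R := Ideal.inertiaDeg_pos q.1 R
    exact Nat.mul_pos h1 h2
  set qQ := S34V_toPrimesOver (R := R) S Q with hqQ
  have heQ : 0 < Q.asIdeal.ramificationIdx R := Ideal.ramificationIdx_pos Q.asIdeal R
  have hfQ : 0 < Q.asIdeal.inertiaDeg R := Ideal.inertiaDeg_pos Q.asIdeal R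
  have h2 : t qQ + ∑ q ∈ Finset.univ.erase qQ, t q = Module.finrank R S := by
    rw [← hsum, ← Finset.add_sum_erase Finset.univ t (Finset.mem_univ qQ)]
  have htQ : t qQ = Q.asIdeal.ramificationIdx R * Q.asIdeal.inertiaDeg R := rfl
  have h4 : Q.asIdeal.inertiaDeg R ≤ t qQ := by
    rw [htQ]; exact Nat.le_mul_of_pos_left _ heQ
  have h5 : ∑ q ∈ Finset.univ.erase qQ, t q = 0 := by omega
  have h7 : t qQ = Q.asIdeal.inertiaDeg R := by omega
  refine ⟨?_, ?_, by omega, by omega⟩
  · intro T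
    by_contra hT
    have hT1 : S34V_toPrimesOver (R := R) S T ∈ Finset.univ.erase qQ :=
      Finset.mem_erase.2 ⟨fun h => hT (S34V_toPrimesOver_injective S h), Finset.mem_univ _⟩
    have := Finset.single_le_sum (f := t) (fun _ _ => Nat.zero_le _) hT1
    have := hpos (S34V_toPrimesOver (R := R) S T)
    omega
  · rw [htQ] at h7
    exact Nat.eq_of_mul_eq_mul_right hfQ (by rw [h7, one_mul])

end Count

section Val

variable (R F : Type*) {F' : Type*} [CommRing R] [IsDomain R] [IsDiscreteValuationRing R]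
  [Field F] [Field F'] [Algebra R F] [IsFractionRing R F] [Algebra F F'] [Algebra R F']
  [IsScalarTower R F F'] [FiniteDimensional F F'] [Algebra.IsSeparable F F']

include F in
/-- **The fundamental identity with one split and one ramified extension.**  `R` a discrete
valuation ring with fraction field `F`, `F'/F` finite separable of degree `≤ 1 + m`, `W1 ≠ W2`
valuation subrings of `F'` dominating `R`, the ramification index of `W2` at least `m ≥ 1`.
Then there is no third dominating valuation subring, `e(W1) = f(W1) = f(W2) = 1`,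
`e(W2) = m`, the integral closure of `R` in `F'` is `W1 ∩ W2`, and `[F' : F] = 1 + m`. -/
theorem S36NR_two_ram (W1 W2 : ValuationSubring F') (h1 : S34V_Dom R W1) (h2 : S34V_Dom R W2)
    (hne : W1 ≠ W2) {m : ℕ} (hm0 : 0 < m) (hab : Module.finrank F F' ≤ 1 + m)
    (hram : S36NR_RamGe R W2 m) :
    (∀ W : ValuationSubring F', S34V_Dom R W → W = W1 ∨ W = W2) ∧
    (∀ ϖ : R, Irreducible ϖ → ∀ x ∈ W1.nonunits, ∃ y ∈ W1, x = algebraMap R F' ϖ * y) ∧
    (∀ x ∈ W1, ∃ r : R, x - algebraMap R F' r ∈ W1.nonunits) ∧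
    (∀ x ∈ W2, ∃ r : R, x - algebraMap R F' r ∈ W2.nonunits) ∧
    (∀ ϖ : R, Irreducible ϖ → ∀ x ∈ W2.nonunits, x ^ m * (algebraMap R F' ϖ)⁻¹ ∈ W2) ∧
    (∀ x : F', IsIntegral R x ↔ x ∈ W1 ∧ x ∈ W2) ∧
    Module.finrank F F' = 1 + m := by
  haveI := S34V_isDedekind R F F'
  haveI := S34V_isFrac R F F'
  haveI := S34V_faithful R F F'
  haveI := S34V_finite R F F'
  haveI := S34V_torsionFree R F F'
  haveI := S34V_flat R F F'
  haveI : Algebra.IsIntegral R (S34V_S R F') := IsIntegralClosure.isIntegral_algebra R F'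
  have hn : Module.finrank R (S34V_S R F') = Module.finrank F F' :=
    (IsFractionRing.finrank_eq R F (S34V_S R F') F').symm
  set P := S34V_hos (S34V_S R F') W1 h1 with hP
  set Q := S34V_hos (S34V_S R F') W2 h2 with hQ
  have hPQ : P ≠ Q := fun h => hne (S34V_hos_injective (S34V_S R F') h1 h2 h)
  have hmQ : m ≤ Q.asIdeal.ramificationIdx R :=
    S36NR_le_ramificationIdx (S34V_S R F') W2 h2 hram
  obtain ⟨hall, heP, hfP, heQ, hfQ, hrk⟩ :=
    S36NR_count_core (R := R) (S34V_S R F') P Q hPQ hm0 (hn ▸ hab) hmQ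
  have hW : ∀ W : ValuationSubring F', S34V_Dom R W → W = W1 ∨ W = W2 := by
    intro W hW
    rcases hall (S34V_hos (S34V_S R F') W hW) with h | h
    · exact Or.inl (S34V_hos_injective (S34V_S R F') hW h1 h)
    · exact Or.inr (S34V_hos_injective (S34V_S R F') hW h2 h)
  refine ⟨hW, ?_, ?_, ?_, ?_, ?_, ?_⟩
  · intro ϖ hϖ x hx
    exact S34V_unif (S34V_S R F') W1 h1 heP hϖ hx
  · intro x hx
    exact S36NR_residue (S34V_S R F') W1 h1 hfP hx
  · intro x hx
    exact S36NR_residue (S34V_S R F') W2 h2 hfQ hx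
  · intro ϖ hϖ x hx
    haveI := S34V_liesOver (R := R) Q
    have e1 := S36NR_valuation_unif (F' := F') (S34V_S R F') Q hϖ
    rw [heQ] at e1
    have e2 : Q.valuation F' x ≤ exp (-1 : ℤ) :=
      S36NR_valuation_le_of_nonunit (S34V_S R F') W2 h2 hx
    have e3 : Q.valuation F' x ^ m ≤ exp (-(m : ℤ)) := by
      refine (pow_le_pow_left₀ zero_le e2 m).trans (le_of_eq ?_)
      rw [← exp_nsmul]
      congr 1
      simp
    rw [S34V_mem_iff (S34V_S R F') W2 h2, map_mul, map_pow, map_inv₀, e1, ← div_eq_mul_inv]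
    exact div_le_one_of_le₀ e3 zero_le
  · intro x
    rw [S34V_isIntegral_iff_forall R F x]
    constructor
    · intro h
      exact ⟨h W1 h1, h W2 h2⟩
    · rintro ⟨hx1, hx2⟩ W hWd
      rcases hW W hWd with rfl | rfl
      · exact hx1
      · exact hx2
  · rw [← hn, hrk]

include F in
/-- **Norm reduction, valuation-ring form, split + ramified side.**  `R` a discrete valuation
ring with fraction field `F`, `F'/F` finite separable of degree `≤ 1 + m`, `W1 ≠ W2` valuation
subrings of `F'` dominating `R`, with ramification index of `W2` at least `m ≥ 1`.  If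
`f ∈ W1 ∩ W2`, `f ≡ a` modulo the non-units of `W1` and `f ≡ b` modulo the non-units of `W2`
(`a`, `b` in `R`), then `N_{F'/F}(f)` is (the image of) an element of `R` congruent to
`a * b ^ m` modulo the maximal ideal. -/
theorem S36NR_val_ram (W1 W2 : ValuationSubring F') (h1 : S34V_Dom R W1) (h2 : S34V_Dom R W2)
    (hne : W1 ≠ W2) {m : ℕ} (hm0 : 0 < m) (hab : Module.finrank F F' ≤ 1 + m)
    (hram : S36NR_RamGe R W2 m)
    (f : F') (hf1 : f ∈ W1) (hf2 : f ∈ W2) (a b : R)
    (ha : f - algebraMap R F' a ∈ W1.nonunits) (hb : f - algebraMap R F' b ∈ W2.nonunits) :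
    ∃ r : R, algebraMap R F r = Algebra.norm F f ∧ r - a * b ^ m ∈ maximalIdeal R := by
  haveI := S34V_isDedekind R F F'
  haveI := S34V_isFrac R F F'
  haveI := S34V_faithful R F F'
  haveI := S34V_finite R F F'
  haveI := S34V_torsionFree R F F'
  haveI := S34V_flat R F F'
  haveI : Algebra.IsIntegral R (S34V_S R F') := IsIntegralClosure.isIntegral_algebra R F'
  haveI : Module.Free R (S34V_S R F') := Module.free_of_finite_type_torsion_free'
  have hn : Module.finrank R (S34V_S R F') = Module.finrank F F' :=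
    (IsFractionRing.finrank_eq R F (S34V_S R F') F').symm
  set P := S34V_hos (S34V_S R F') W1 h1 with hP
  set Q := S34V_hos (S34V_S R F') W2 h2 with hQ
  have hPQ : P ≠ Q := fun h => hne (S34V_hos_injective (S34V_S R F') h1 h2 h)
  have hmQ : m ≤ Q.asIdeal.ramificationIdx R :=
    S36NR_le_ramificationIdx (S34V_S R F') W2 h2 hram
  obtain ⟨hall, heP, hfP, heQ, hfQ, hrk⟩ :=
    S36NR_count_core (R := R) (S34V_S R F') P Q hPQ hm0 (hn ▸ hab) hmQ
  haveI := S34V_liesOver (R := R) P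
  haveI := S34V_liesOver (R := R) Q
  have hm1 : ∀ x : S34V_S R F', x ∈ P.asIdeal ↔ algebraMap (S34V_S R F') F' x ∈ W1.nonunits :=
    S34V_mem_centreIdeal _ W1 h1.1
  have hm2 : ∀ x : S34V_S R F', x ∈ Q.asIdeal ↔ algebraMap (S34V_S R F') F' x ∈ W2.nonunits :=
    S34V_mem_centreIdeal _ W2 h2.1
  have hPmax : P.asIdeal.IsMaximal := P.isMaximal
  have hQmax : Q.asIdeal.IsMaximal := Q.isMaximal
  have hP12 : P.asIdeal ≠ Q.asIdeal := fun h => hPQ (HeightOneSpectrum.ext h)
  have hcop : IsCoprime P.asIdeal (Q.asIdeal ^ m) := by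
    apply IsCoprime.pow_right
    rw [Ideal.isCoprime_iff_sup_eq]
    exact Ideal.IsMaximal.coprime_of_ne hPmax hQmax hP12
  obtain ⟨ϖ, hϖ⟩ := IsDiscreteValuationRing.exists_irreducible R
  have hϖm : ϖ ∈ maximalIdeal R := by
    rw [IsLocalRing.mem_maximalIdeal]; exact hϖ.not_isUnit
  have hϖ0 : algebraMap R F' ϖ ≠ 0 := by
    intro h
    exact hϖ.ne_zero ((FaithfulSMul.algebraMap_eq_zero_iff R F').1 h)
  have evP := S36NR_valuation_unif (F' := F') (S34V_S R F') P hϖ
  have evQ := S36NR_valuation_unif (F' := F') (S34V_S R F') Q hϖ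
  rw [heP] at evP
  rw [heQ] at evQ
  have hϖQ : algebraMap R (S34V_S R F') ϖ ∈ Q.asIdeal ^ m := by
    have e : Q.valuation F' (algebraMap R F' ϖ)
        = Q.intValuation (algebraMap R (S34V_S R F') ϖ) := by
      rw [IsScalarTower.algebraMap_apply R (S34V_S R F') F', valuation_of_algebraMap]
    rw [← intValuation_le_pow_iff_mem, ← e, evQ]
  have hP' : P.asIdeal ⊓ Q.asIdeal ^ m
      = Ideal.map (algebraMap R (S34V_S R F')) (maximalIdeal R) := by
    apply le_antisymm
    · intro x hx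
      have hx1 : P.valuation F' (algebraMap (S34V_S R F') F' x) ≤ exp (-1 : ℤ) := by
        rw [valuation_of_algebraMap, ← Nat.cast_one (R := ℤ), intValuation_le_pow_iff_mem,
          pow_one]
        exact hx.1
      have hx2 : Q.valuation F' (algebraMap (S34V_S R F') F' x) ≤ exp (-(m : ℤ)) := by
        rw [valuation_of_algebraMap, intValuation_le_pow_iff_mem]
        exact hx.2
      have hy : ∀ T : HeightOneSpectrum (S34V_S R F'),
          T.valuation F' (algebraMap (S34V_S R F') F' x / algebraMap R F' ϖ) ≤ 1 := by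
        intro T
        rcases hall T with rfl | rfl
        · rw [map_div₀, evP]
          exact div_le_one_of_le₀ hx1 zero_le
        · rw [map_div₀, evQ]
          exact div_le_one_of_le₀ hx2 zero_le
      obtain ⟨y, hy'⟩ := mem_integers_of_valuation_le_one F' _ hy
      have hxe : x = algebraMap R (S34V_S R F') ϖ * y := by
        apply IsFractionRing.injective (S34V_S R F') F'
        rw [map_mul, hy', ← IsScalarTower.algebraMap_apply]
        field_simp
      rw [hxe]
      exact Ideal.mul_mem_right _ _ (Ideal.mem_map_of_mem _ hϖm)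
    · rw [Ideal.map_le_iff_le_comap]
      intro r hr
      refine ⟨?_, ?_⟩
      · show _ ∈ P.asIdeal
        rw [hm1, ← IsScalarTower.algebraMap_apply]
        exact h1.2 r hr
      · show _ ∈ Q.asIdeal ^ m
        rw [hϖ.maximalIdeal_eq, Ideal.mem_span_singleton'] at hr
        obtain ⟨r', rfl⟩ := hr
        rw [map_mul]
        exact Ideal.mul_mem_left _ _ hϖQ
  have hres : ∀ s : S34V_S R F', ∃ r : R, s - algebraMap R (S34V_S R F') r ∈ P.asIdeal := by
    intro s
    obtain ⟨r, hr⟩ := S36NR_residue (S34V_S R F') W1 h1 hfP (S34V_algebraMap_mem W1 h1.1 s)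
    refine ⟨r, ?_⟩
    rw [hm1, map_sub, ← IsScalarTower.algebraMap_apply]
    exact hr
  have hfint : IsIntegral R f := by
    rw [S34V_isIntegral_iff_forall R F f]
    intro W hWd
    rcases hall (S34V_hos (S34V_S R F') W hWd) with h | h
    · rw [S34V_hos_injective (S34V_S R F') hWd h1 h]; exact hf1
    · rw [S34V_hos_injective (S34V_S R F') hWd h2 h]; exact hf2
  set s : S34V_S R F' := ⟨f, hfint⟩ with hs
  have hsa : s - algebraMap R (S34V_S R F') a ∈ P.asIdeal := by
    rw [hm1, map_sub, ← IsScalarTower.algebraMap_apply]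
    exact ha
  have hsb : s - algebraMap R (S34V_S R F') b ∈ Q.asIdeal := by
    rw [hm2, map_sub, ← IsScalarTower.algebraMap_apply]
    exact hb
  refine ⟨Algebra.norm R s, ?_, S36NR_ram m (hrk) P.asIdeal Q.asIdeal (Q.asIdeal ^ m) hP' hcop
    hPmax.ne_top (Ideal.pow_le_self hm0.ne') ⟨m, le_rfl⟩ hres s a b hsa hsb⟩
  have := Algebra.norm_localization (Rₘ := F) (Sₘ := F') R (nonZeroDivisors R) s
  rw [← this]
  rfl

include F in
/-- **Norm reduction, valuation-ring form, purely inseparable side.**  `R` a discrete valuation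
ring of residue characteristic `q` with fraction field `F`, `F'/F` finite separable of degree
`≤ q`, `W0` a valuation subring of `F'` dominating `R` with residue degree at least `q`.  If
`f ∈ W0` and `f ^ q ≡ c` modulo the non-units of `W0` (`c` in `R`), then `N_{F'/F}(f)` is (the
image of) an element of `R` congruent to `c` modulo the maximal ideal. -/
theorem S36NR_val_insep (W0 : ValuationSubring F') (h0 : S34V_Dom R W0)
    (q : ℕ) [Fact q.Prime] (hchar : (q : R) ∈ maximalIdeal R)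
    (hab : Module.finrank F F' ≤ q) (hb : S34V_ResDegGe R W0 q)
    (f : F') (hf0 : f ∈ W0) (c : R) (hc : f ^ q - algebraMap R F' c ∈ W0.nonunits) :
    ∃ r : R, algebraMap R F r = Algebra.norm F f ∧ r - c ∈ maximalIdeal R := by
  haveI := S34V_isDedekind R F F'
  haveI := S34V_isFrac R F F'
  haveI := S34V_faithful R F F'
  haveI := S34V_finite R F F'
  haveI := S34V_torsionFree R F F'
  haveI := S34V_flat R F F'
  haveI : Algebra.IsIntegral R (S34V_S R F') := IsIntegralClosure.isIntegral_algebra R F'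
  haveI : Module.Free R (S34V_S R F') := Module.free_of_finite_type_torsion_free'
  have hn : Module.finrank R (S34V_S R F') = Module.finrank F F' :=
    (IsFractionRing.finrank_eq R F (S34V_S R F') F').symm
  set Q := S34V_hos (S34V_S R F') W0 h0 with hQ
  have hqQ := S34V_le_inertiaDeg (S34V_S R F') W0 h0 hb
  obtain ⟨hall, heQ, hfQ, hrk⟩ :=
    S36NR_count_one (R := R) (S34V_S R F') Q (hn ▸ hab) hqQ
  have hm0 : ∀ x : S34V_S R F', x ∈ Q.asIdeal ↔ algebraMap (S34V_S R F') F' x ∈ W0.nonunits :=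
    S34V_mem_centreIdeal _ W0 h0.1
  obtain ⟨ϖ, hϖ⟩ := IsDiscreteValuationRing.exists_irreducible R
  have hϖm : ϖ ∈ maximalIdeal R := by
    rw [IsLocalRing.mem_maximalIdeal]; exact hϖ.not_isUnit
  have hϖ0 : algebraMap R F' ϖ ≠ 0 := by
    intro h
    exact hϖ.ne_zero ((FaithfulSMul.algebraMap_eq_zero_iff R F').1 h)
  have hW : ∀ W : ValuationSubring F', S34V_Dom R W → W = W0 := by
    intro W hW
    exact S34V_hos_injective (S34V_S R F') hW h0 (hall _)
  have hint : ∀ x : F', x ∈ W0 → IsIntegral R x := by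
    intro x hx
    rw [S34V_isIntegral_iff_forall R F x]
    intro W hWd
    rw [hW W hWd]
    exact hx
  have hP' : ∀ x : S34V_S R F', x ∈ Q.asIdeal →
      x ∈ Ideal.map (algebraMap R (S34V_S R F')) (maximalIdeal R) := by
    intro x hx
    obtain ⟨y, hy, e⟩ := S34V_unif (S34V_S R F') W0 h0 heQ hϖ ((hm0 x).1 hx)
    have hxe : x = algebraMap R (S34V_S R F') ϖ * ⟨y, hint y hy⟩ := by
      apply Subtype.ext
      exact e
    rw [hxe]
    exact Ideal.mul_mem_right _ _ (Ideal.mem_map_of_mem _ hϖm)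
  set s : S34V_S R F' := ⟨f, hint f hf0⟩ with hs
  have hsc : s ^ q - algebraMap R (S34V_S R F') c ∈ Q.asIdeal := by
    rw [hm0, map_sub, map_pow, ← IsScalarTower.algebraMap_apply]
    exact hc
  refine ⟨Algebra.norm R s, ?_, S36NR_insep q hchar hrk s c (hP' _ hsc)⟩
  have := Algebra.norm_localization (Rₘ := F) (Sₘ := F') R (nonZeroDivisors R) s
  rw [← this]
  rfl

include F in
/-- Adapter: helper5's `S36V3_RamGe` (explicit `t`, one uniformiser of `R`) gives `S36NR_RamGe`. -/
theorem S36NR_ramGe_of_V3 (W : ValuationSubring F') (hW : S34V_Dom R W) {t : F'} {m : ℕ}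
    (h : S36V3_RamGe R W t m) : S36NR_RamGe R W m := by
  obtain ⟨ht0, ht, ϖ, hϖ, hϖt⟩ := h
  refine ⟨t, ht, ht0, fun r hr => ?_⟩
  rw [hϖ.maximalIdeal_eq, Ideal.mem_span_singleton'] at hr
  obtain ⟨r', rfl⟩ := hr
  have e : algebraMap R F' (r' * ϖ) * (t ^ m)⁻¹
      = algebraMap R F' r' * (algebraMap R F' ϖ / t ^ m) := by
    rw [map_mul, div_eq_mul_inv]; ring
  rw [e]
  exact W.mul_mem _ _ (hW.1 r') hϖt

end Val

section Abs

variable {L : Type*} [Field L] {π : L} {F1' F1 : Subfield L} {V' V1 V2 V0 : Subring L}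

/-- **Norm reduction in the `Subring L` vocabulary, split + ramified side.**  `V'` a discrete
valuation ring of `F1'` with uniformiser `π`, `F1/F1'` of degree `≤ 1 + m`, `V1 ≠ V2` valuation
rings of `F1` above `V'`, `t` a nonzero non-unit of `V2` with `π / t ^ m ∈ V2`.  For
`f ∈ V1 ⊓ V2` with `f ≡ a` modulo the non-units of `V1` and `f ≡ b` modulo the non-units of `V2`
(`a`, `b` in `V'`): the norm of `f` from `F1` to `F1'` lies in `V'` and is congruent to
`a * b ^ m` modulo `π V'`. -/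
theorem S36NR_abs_ram [CharZero L] (hF : F1' ≤ F1)
    (hV' : S34C2_Val π F1' V')
    (hsep : ∀ x ∈ F1', x ≠ 0 → ∃ (z : ℤ) (u : L), u ∈ V' ∧ u⁻¹ ∈ V' ∧ x = π ^ z * u)
    (h1 : S34C2_Val π F1 V1) (h2 : S34C2_Val π F1 V2) (hV1 : V' ≤ V1) (hV2 : V' ≤ V2)
    (hne : V1 ≠ V2) {m : ℕ} (hm0 : 0 < m)
    (hdeg : ∃ s : Finset L, s.card ≤ 1 + m ∧ ∀ x ∈ F1, ∃ c : L → L,
      (∀ y, c y ∈ F1') ∧ x = ∑ y ∈ s, c y * y)
    {t : L} (ht : t ∈ V2) (ht0 : t ≠ 0) (htn : t⁻¹ ∉ V2) (htm : π * (t ^ m)⁻¹ ∈ V2)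
    {f a b : L} (hf1 : f ∈ V1) (hf2 : f ∈ V2) (ha : a ∈ V') (hb : b ∈ V')
    (hfa : f - a = 0 ∨ (f - a)⁻¹ ∉ V1) (hfb : f - b = 0 ∨ (f - b)⁻¹ ∉ V2) :
    letI := S34KEY_alg hF
    ∃ r ∈ V', ((Algebra.norm ↥F1' (⟨f, h1.le hf1⟩ : ↥F1) : ↥F1') : L) = r ∧
      ∃ v ∈ V', r - a * b ^ m = π * v := by
  classical
  letI := S34KEY_alg hF
  obtain ⟨hfd, hfr⟩ := S34KEY_finrank_le hF hdeg
  haveI := hfd
  haveI : CharZero ↥F1' := by
    refine ⟨fun a b hab => ?_⟩
    have := congrArg (fun t : ↥F1' => (t : L)) hab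
    simpa using this
  haveI : Algebra.IsSeparable ↥F1' ↥F1 := Algebra.IsAlgebraic.isSeparable_of_perfectField
  haveI := S34KEY_isDVR hV' hsep
  letI := S34KEY_algR hF hV'
  haveI : IsScalarTower ↥(S34KEY_vs hV') ↥F1' ↥F1 := IsScalarTower.of_algebraMap_eq (fun _ => rfl)
  have hd1 := S34KEY_dom hF hV' hsep h1 hV1
  have hd2 := S34KEY_dom hF hV' hsep h2 hV2
  have hne' : S34KEY_vs h1 ≠ S34KEY_vs h2 := fun h => hne (S34KEY_vs_injective h1 h2 h)
  have hram : S36NR_RamGe ↥(S34KEY_vs hV') (S34KEY_vs h2) m := by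
    refine ⟨⟨t, h2.le ht⟩, ?_, ?_, ?_⟩
    · rw [S34KEY_mem_nonunits]
      exact Or.inr htn
    · intro h
      exact ht0 (congrArg (fun x : ↥F1 => (x : L)) h)
    · intro r hr
      rw [S34KEY_mem_maximalIdeal hV' hsep] at hr
      obtain ⟨v, hv, hrv⟩ := hr
      rw [S34KEY_mem_vs]
      have e : ((algebraMap ↥(S34KEY_vs hV') ↥F1 r * ((⟨t, h2.le ht⟩ : ↥F1) ^ m)⁻¹ : ↥F1) : L)
          = v * (π * (t ^ m)⁻¹) := by
        have e0 : ((algebraMap ↥(S34KEY_vs hV') ↥F1 r : ↥F1) : L) = π * v := hrv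
        push_cast
        rw [e0]
        ring
      rw [e]
      exact V2.mul_mem (hV2 hv) htm
  have hfa' : (⟨f, h1.le hf1⟩ : ↥F1) -
      algebraMap ↥(S34KEY_vs hV') ↥F1 (S34KEY_ofV hV' ⟨a, ha⟩) ∈ (S34KEY_vs h1).nonunits := by
    rw [S34KEY_mem_nonunits]
    exact hfa
  have hfb' : (⟨f, h1.le hf1⟩ : ↥F1) -
      algebraMap ↥(S34KEY_vs hV') ↥F1 (S34KEY_ofV hV' ⟨b, hb⟩) ∈ (S34KEY_vs h2).nonunits := by
    rw [S34KEY_mem_nonunits]
    exact hfb
  obtain ⟨r, hr, hrm⟩ := S36NR_val_ram ↥(S34KEY_vs hV') ↥F1' (S34KEY_vs h1) (S34KEY_vs h2)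
    hd1 hd2 hne' hm0 hfr hram ⟨f, h1.le hf1⟩ hf1 hf2 (S34KEY_ofV hV' ⟨a, ha⟩)
    (S34KEY_ofV hV' ⟨b, hb⟩) hfa' hfb'
  rw [S34KEY_mem_maximalIdeal hV' hsep] at hrm
  obtain ⟨v, hv, hrv⟩ := hrm
  refine ⟨((r : ↥F1') : L), r.2, ?_, v, hv, hrv⟩
  rw [← hr]
  rfl

/-- **Norm reduction in the `Subring L` vocabulary, purely inseparable side.**  `V'` a discrete
valuation ring of `F1'` with uniformiser `π` and residue characteristic `q`, `F1/F1'` of degree
`≤ q`, `V0` a valuation ring of `F1` above `V'` whose residue field contains a `q`-th root `y`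
of a non-`q`-th power `x` of the residue field of `V'`.  For `f ∈ V0` with `f ^ q ≡ c` modulo
the non-units of `V0` (`c` in `V'`): the norm of `f` from `F1` to `F1'` lies in `V'` and is
congruent to `c` modulo `π V'`. -/
theorem S36NR_abs_insep [CharZero L] (hF : F1' ≤ F1)
    (hV' : S34C2_Val π F1' V')
    (hsep : ∀ x ∈ F1', x ≠ 0 → ∃ (z : ℤ) (u : L), u ∈ V' ∧ u⁻¹ ∈ V' ∧ x = π ^ z * u)
    (h0 : S34C2_Val π F1 V0) (hV0 : V' ≤ V0) {q : ℕ} (hq : q.Prime)
    (hdeg : ∃ s : Finset L, s.card ≤ q ∧ ∀ x ∈ F1, ∃ c : L → L,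
      (∀ y, c y ∈ F1') ∧ x = ∑ y ∈ s, c y * y)
    {y x : L} (hy : y ∈ V0) (hx : x ∈ V') (hyx : y ^ q - x = 0 ∨ (y ^ q - x)⁻¹ ∉ V0)
    (hxq : ∀ r ∈ V', ∀ v ∈ V', r ^ q - x ≠ π * v)
    (hchar : ∃ v ∈ V', (q : L) = π * v)
    {f c : L} (hf0 : f ∈ V0) (hc : c ∈ V')
    (hfc : f ^ q - c = 0 ∨ (f ^ q - c)⁻¹ ∉ V0) :
    letI := S34KEY_alg hF
    ∃ r ∈ V', ((Algebra.norm ↥F1' (⟨f, h0.le hf0⟩ : ↥F1) : ↥F1') : L) = r ∧
      ∃ v ∈ V', r - c = π * v := by
  classical
  letI := S34KEY_alg hF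
  obtain ⟨hfd, hfr⟩ := S34KEY_finrank_le hF hdeg
  haveI := hfd
  haveI : CharZero ↥F1' := by
    refine ⟨fun a b hab => ?_⟩
    have := congrArg (fun t : ↥F1' => (t : L)) hab
    simpa using this
  haveI : Algebra.IsSeparable ↥F1' ↥F1 := Algebra.IsAlgebraic.isSeparable_of_perfectField
  haveI := S34KEY_isDVR hV' hsep
  letI := S34KEY_algR hF hV'
  haveI : IsScalarTower ↥(S34KEY_vs hV') ↥F1' ↥F1 := IsScalarTower.of_algebraMap_eq (fun _ => rfl)
  have hd0 := S34KEY_dom hF hV' hsep h0 hV0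
  have hb : S34V_ResDegGe ↥(S34KEY_vs hV') (S34KEY_vs h0) q := by
    refine S34V_resDegGe_of_pow (S34KEY_vs h0) hd0 hq (y := ⟨y, h0.le hy⟩) hy
      (x := S34KEY_ofV hV' ⟨x, hx⟩) ?_ ?_
    · rw [S34KEY_mem_nonunits]
      exact hyx
    · intro r hr
      rw [S34KEY_mem_maximalIdeal hV' hsep] at hr
      obtain ⟨v, hv, hrv⟩ := hr
      exact hxq _ r.2 v hv hrv
  haveI : Fact q.Prime := ⟨hq⟩
  have hchar' : ((q : ℕ) : ↥(S34KEY_vs hV')) ∈ maximalIdeal ↥(S34KEY_vs hV') := by
    rw [S34KEY_mem_maximalIdeal hV' hsep]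
    obtain ⟨v, hv, hqv⟩ := hchar
    refine ⟨v, hv, ?_⟩
    rw [← hqv]
    simp
  have hfc' : (⟨f, h0.le hf0⟩ : ↥F1) ^ q -
      algebraMap ↥(S34KEY_vs hV') ↥F1 (S34KEY_ofV hV' ⟨c, hc⟩) ∈ (S34KEY_vs h0).nonunits := by
    rw [S34KEY_mem_nonunits]
    exact hfc
  obtain ⟨r, hr, hrm⟩ := S36NR_val_insep ↥(S34KEY_vs hV') ↥F1' (S34KEY_vs h0) hd0
    q hchar' hfr hb ⟨f, h0.le hf0⟩ hf0 (S34KEY_ofV hV' ⟨c, hc⟩) hfc'
  rw [S34KEY_mem_maximalIdeal hV' hsep] at hrm
  obtain ⟨v, hv, hrv⟩ := hrm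
  refine ⟨((r : ↥F1') : L), r.2, ?_, v, hv, hrv⟩
  rw [← hr]
  rfl

end Abs

end Fermat.Agent.S36_helper13_NORMRED
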