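import Mathlib
import Fermat.Agent.S36_helper13_NORMRED
import Fermat.Agent.S35_helper15_TORIC

/-!
# S36, GEO36 (II.3) RED (helper13): from the norm conditions to the reductions being powers

Abstract layer on top of `S36_helper13_NORMRED` (no modular curve in it).

* `S36RD_pow_mem`, `S36RD_val_insep_ex`, `S36RD_abs_insep_ex` : on the purely inseparable side
  the norm is congruent to the `q`-th power, `N(f) ≡ f ^ q` (no auxiliary constant);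
* `S36RD_val_ram_ex`, `S36RD_abs_ram_ex` : on the split + ramified side there are constants
  `a`, `b` of the base ring with `f ≡ a`, `f ≡ b` and `N(f) ≡ a b ^ m`;
* `S36RD_thin` : `f ^ q ≡ ε u ^ n` with `gcd (q, n) = 1` gives `f ≡ G ^ n`;
* `S36RD_mid` : the thick branch, `f ≡ G ^ n2` modulo `1 + t V2`
  (`q - 1 = d m'`, `n = d n2`, `gcd (m', n) = 1`);
* `S36RD_normalise` : `c h ^ n` a unit of `V` can be rewritten `ε u ^ n` with units `ε`, `u`;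
* `S36RD_abs` : the combination, in the `Subring L` vocabulary: from the norm along `α` being
  `ε1 u1 ^ n` and the transported norm along `β` (`f ^ q ≡ ε2 u2 ^ n` on `V1`) to the three
  branch roots `G1`, `G2`, `G3`.

The multiplicative congruences are helper15's landed `S35TOR_Cg` (modulo `1 + π V`, resp.
`1 + t V2` on the thick branch).
-/

set_option autoImplicit false
set_option linter.style.haveILetI false
set_option linter.unusedSectionVars false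
set_option linter.unusedVariables false

open IsLocalRing Module IsDedekindDomain IsDedekindDomain.HeightOneSpectrum WithZero

namespace Fermat.Agent.S36_helper13_RED

open Fermat.Agent.S35_helper13_NORMRED Fermat.Agent.S34_helper13_VCOUNT
  Fermat.Agent.S34_helper27_C2Defs Fermat.Agent.S34_helper13_KEY
  Fermat.Agent.S36_helper5_V3COUNT Fermat.Agent.S36_helper13_NORMRED
  Fermat.Agent.S35_helper15_TORIC

attribute [local instance] Ideal.Quotient.field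

section Main

variable {R S : Type*} [CommRing R] [CommRing S] [Algebra R S] [IsLocalRing R]
  [Module.Free R S] [Module.Finite R S]

/-- In a purely inseparable residue extension of degree `q` every `q`-th power is a constant:
`S` free of rank `q` over the local ring `R` of residue characteristic `q`, `𝔪 S` prime, and one
`y` with `y ^ q ≡ x0`, `x0` not a `q`-th power modulo `𝔪`.  Then every `s ^ q` is congruent to
a constant of `R` modulo `𝔪 S`. -/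
theorem S36RD_pow_mem (q : ℕ) [Fact q.Prime] (hchar : (q : R) ∈ maximalIdeal R)
    (hrank : Module.finrank R S = q)
    (hprime : (Ideal.map (algebraMap R S) (maximalIdeal R)).IsPrime)
    (y : S) (x0 : R)
    (hy : y ^ q - algebraMap R S x0 ∈ Ideal.map (algebraMap R S) (maximalIdeal R))
    (hx0 : ∀ r : R, r ^ q - x0 ∉ maximalIdeal R) (s : S) :
    ∃ c : R, s ^ q - algebraMap R S c ∈ Ideal.map (algebraMap R S) (maximalIdeal R) := by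
  haveI : CharP (R ⧸ maximalIdeal R) q := by
    rw [CharP.charP_iff_prime_eq_zero (Fact.out : q.Prime)]
    rw [← map_natCast (Ideal.Quotient.mk (maximalIdeal R)), Ideal.Quotient.eq_zero_iff_mem]
    exact hchar
  set κ := R ⧸ maximalIdeal R with hκ
  set B := S ⧸ Ideal.map (algebraMap R S) (maximalIdeal R) with hB
  haveI : IsDomain B := Ideal.Quotient.isDomain _
  haveI : Module.Finite κ B := Module.Finite.of_restrictScalars_finite R _ _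
  have hr0 : Module.finrank κ B = q := by
    rw [IsLocalRing.finrank_quotient_map, hrank]
  haveI : CharP B q := charP_of_injective_algebraMap (algebraMap κ B).injective q
  haveI hso : IsSimpleOrder (Subalgebra κ B) :=
    Subalgebra.isSimpleOrder_of_finrank_prime κ B (hr0 ▸ (Fact.out : q.Prime))
  -- the subalgebra of elements whose `q`-th power is a constant
  let T : Subalgebra κ B :=
    { carrier := {b | b ^ q ∈ (algebraMap κ B).range}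
      mul_mem' := by
        rintro a b ⟨x, hx⟩ ⟨z, hz⟩
        exact ⟨x * z, by rw [map_mul, hx, hz, mul_pow]⟩
      add_mem' := by
        rintro a b ⟨x, hx⟩ ⟨z, hz⟩
        exact ⟨x + z, by rw [map_add, hx, hz, add_pow_char]⟩
      algebraMap_mem' := by
        intro x
        exact ⟨x ^ q, by rw [map_pow]⟩ }
  have hyT : Ideal.Quotient.mk _ y ∈ T := by
    refine ⟨Ideal.Quotient.mk _ x0, ?_⟩
    rw [← map_pow]
    exact ((Ideal.Quotient.mk_eq_mk_iff_sub_mem _ _).mpr hy).symm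
  have hT : T = ⊤ := by
    rcases hso.eq_bot_or_eq_top T with h | h
    · exfalso
      rw [h] at hyT
      obtain ⟨r, hr⟩ := Algebra.mem_bot.1 hyT
      obtain ⟨r, rfl⟩ := Ideal.Quotient.mk_surjective r
      apply hx0 r
      rw [← Ideal.Quotient.mk_eq_mk_iff_sub_mem]
      apply (algebraMap κ B).injective
      have e1 : algebraMap κ B (Ideal.Quotient.mk _ x0) = (Ideal.Quotient.mk _ y) ^ q := by
        rw [← map_pow]
        exact ((Ideal.Quotient.mk_eq_mk_iff_sub_mem _ _).mpr hy).symm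
      rw [e1, ← hr, map_pow, map_pow]
    · exact h
  have hs : Ideal.Quotient.mk _ s ∈ T := by rw [hT]; exact Algebra.mem_top
  obtain ⟨c, hc⟩ := hs
  obtain ⟨c, rfl⟩ := Ideal.Quotient.mk_surjective c
  refine ⟨c, ?_⟩
  rw [← Ideal.Quotient.mk_eq_mk_iff_sub_mem, map_pow]
  exact hc.symm

end Main

section Val

variable (R F : Type*) {F' : Type*} [CommRing R] [IsDomain R] [IsDiscreteValuationRing R]
  [Field F] [Field F'] [Algebra R F] [IsFractionRing R F] [Algebra F F'] [Algebra R F']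
  [IsScalarTower R F F'] [FiniteDimensional F F'] [Algebra.IsSeparable F F']

include F in
/-- **Purely inseparable side, existence form.**  `R` a discrete valuation ring of residue
characteristic `q` with fraction field `F`, `F'/F` finite separable of degree `≤ q`, `W0` a
valuation subring of `F'` dominating `R`, `y ∈ W0` with `y ^ q ≡ x0`, `x0 ∈ R` not a `q`-th
power modulo `𝔪`.  Then `W0` is unramified over `R` and `N_{F'/F}(f) ≡ f ^ q` modulo the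
non-units of `W0`, for every `f ∈ W0`. -/
theorem S36RD_val_insep_ex (W0 : ValuationSubring F') (h0 : S34V_Dom R W0)
    (q : ℕ) [Fact q.Prime] (hchar : (q : R) ∈ maximalIdeal R)
    (hab : Module.finrank F F' ≤ q)
    {y : F'} (hy : y ∈ W0) {x0 : R} (hyx : y ^ q - algebraMap R F' x0 ∈ W0.nonunits)
    (hxq : ∀ r : R, r ^ q - x0 ∉ maximalIdeal R) :
    (∀ ϖ : R, Irreducible ϖ → ∀ x ∈ W0.nonunits, ∃ z ∈ W0, x = algebraMap R F' ϖ * z) ∧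
    ∀ f ∈ W0, ∃ r : R, algebraMap R F r = Algebra.norm F f ∧
      algebraMap R F' r - f ^ q ∈ W0.nonunits := by
  haveI := S34V_isDedekind R F F'
  haveI := S34V_isFrac R F F'
  haveI := S34V_faithful R F F'
  haveI := S34V_finite R F F'
  haveI := S34V_torsionFree R F F'
  haveI := S34V_flat R F F'
  haveI : Algebra.IsIntegral R (S34V_S R F') := IsIntegralClosure.isIntegral_algebra R F'
  haveI : Module.Free R (S34V_S R F') := Module.free_of_finite_type_torsion_free'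
  have hn : Module.finrank R (S34V_S R F') = Module.finrank F F' :=
    (IsFractionRing.finrank_eq R F (S34V_S R F') F').symm
  have hb : S34V_ResDegGe R W0 q := S34V_resDegGe_of_pow W0 h0 (Fact.out : q.Prime) hy hyx hxq
  set Q := S34V_hos (S34V_S R F') W0 h0 with hQ
  have hqQ := S34V_le_inertiaDeg (S34V_S R F') W0 h0 hb
  obtain ⟨hall, heQ, hfQ, hrk⟩ :=
    S36NR_count_one (R := R) (S34V_S R F') Q (hn ▸ hab) hqQ
  have hm0 : ∀ x : S34V_S R F', x ∈ Q.asIdeal ↔ algebraMap (S34V_S R F') F' x ∈ W0.nonunits :=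
    S34V_mem_centreIdeal _ W0 h0.1
  obtain ⟨ϖ, hϖ⟩ := IsDiscreteValuationRing.exists_irreducible R
  have hϖm : ϖ ∈ maximalIdeal R := by
    rw [IsLocalRing.mem_maximalIdeal]; exact hϖ.not_isUnit
  have hW : ∀ W : ValuationSubring F', S34V_Dom R W → W = W0 := by
    intro W hW
    exact S34V_hos_injective (S34V_S R F') hW h0 (hall _)
  have hint : ∀ x : F', x ∈ W0 → IsIntegral R x := by
    intro x hx
    rw [S34V_isIntegral_iff_forall R F x]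
    intro W hWd
    rw [hW W hWd]
    exact hx
  have hP' : Q.asIdeal = Ideal.map (algebraMap R (S34V_S R F')) (maximalIdeal R) := by
    apply le_antisymm
    · intro x hx
      obtain ⟨z, hz, e⟩ := S34V_unif (S34V_S R F') W0 h0 heQ hϖ ((hm0 x).1 hx)
      have hxe : x = algebraMap R (S34V_S R F') ϖ * ⟨z, hint z hz⟩ := by
        apply Subtype.ext
        exact e
      rw [hxe]
      exact Ideal.mul_mem_right _ _ (Ideal.mem_map_of_mem _ hϖm)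
    · rw [Ideal.map_le_iff_le_comap]
      intro r hr
      show _ ∈ Q.asIdeal
      rw [hm0, ← IsScalarTower.algebraMap_apply]
      exact h0.2 r hr
  have hprime : (Ideal.map (algebraMap R (S34V_S R F')) (maximalIdeal R)).IsPrime := by
    rw [← hP']; exact Q.isPrime
  refine ⟨fun ϖ' hϖ' x hx => S34V_unif (S34V_S R F') W0 h0 heQ hϖ' hx, ?_⟩
  intro f hf0
  set s : S34V_S R F' := ⟨f, hint f hf0⟩ with hs
  set ys : S34V_S R F' := ⟨y, hint y hy⟩ with hys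
  have hys' : ys ^ q - algebraMap R (S34V_S R F') x0
      ∈ Ideal.map (algebraMap R (S34V_S R F')) (maximalIdeal R) := by
    rw [← hP', hm0, map_sub, map_pow, ← IsScalarTower.algebraMap_apply]
    exact hyx
  obtain ⟨c, hc⟩ := S36RD_pow_mem q hchar hrk hprime ys x0 hys' hxq s
  have hN := S36NR_insep q hchar hrk s c hc
  refine ⟨Algebra.norm R s, ?_, ?_⟩
  · have := Algebra.norm_localization (Rₘ := F) (Sₘ := F') R (nonZeroDivisors R) s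
    rw [← this]
    rfl
  · have h1 : algebraMap R F' (Algebra.norm R s - c) ∈ W0.nonunits := h0.2 _ hN
    have h2 : f ^ q - algebraMap R F' c ∈ W0.nonunits := by
      have := (hm0 _).1 (hP' ▸ hc)
      rw [map_sub, map_pow, ← IsScalarTower.algebraMap_apply] at this
      exact this
    have e : algebraMap R F' (Algebra.norm R s) - f ^ q
        = algebraMap R F' (Algebra.norm R s - c) - (f ^ q - algebraMap R F' c) := by
      rw [map_sub]; ring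
    rw [e]
    exact W0.nonunits.sub_mem h1 h2

include F in
/-- **Split + ramified side, existence form.**  Same hypotheses as `S36NR_val_ram`, with the
witness `t` of the ramification explicit (helper5's `S36V3_RamGe`).  Then `ϖ` is a uniformiser
of `W1`, `t` is a uniformiser of `W2`, `ϖ = unit * t ^ m` in `W2`, both residue fields are that
of `R`, and for every `f ∈ W1 ∩ W2` there are constants `a`, `b` of `R` with `f ≡ a` on `W1`,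
`f ≡ b` on `W2` and `N_{F'/F}(f) ≡ a b ^ m`. -/
theorem S36RD_val_ram_ex (W1 W2 : ValuationSubring F') (h1 : S34V_Dom R W1)
    (h2 : S34V_Dom R W2) (hne : W1 ≠ W2) {m : ℕ} (hm0 : 0 < m)
    (hab : Module.finrank F F' ≤ 1 + m) {t : F'} (hram : S36V3_RamGe R W2 t m) :
    (∀ ϖ : R, Irreducible ϖ → ∀ x ∈ W1.nonunits, ∃ z ∈ W1, x = algebraMap R F' ϖ * z) ∧
    (∀ x ∈ W2.nonunits, ∃ z ∈ W2, x = t * z) ∧
    (∀ ϖ : R, Irreducible ϖ →
      algebraMap R F' ϖ / t ^ m ∈ W2 ∧ t ^ m / algebraMap R F' ϖ ∈ W2) ∧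
    (∀ x ∈ W1, ∃ r : R, x - algebraMap R F' r ∈ W1.nonunits) ∧
    (∀ x ∈ W2, ∃ r : R, x - algebraMap R F' r ∈ W2.nonunits) ∧
    ∀ f ∈ W1, f ∈ W2 → ∃ a b r : R, f - algebraMap R F' a ∈ W1.nonunits ∧
      f - algebraMap R F' b ∈ W2.nonunits ∧ algebraMap R F r = Algebra.norm F f ∧
      r - a * b ^ m ∈ maximalIdeal R := by
  haveI := S34V_isDedekind R F F'
  haveI := S34V_isFrac R F F'
  haveI := S34V_faithful R F F'
  haveI := S34V_finite R F F'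
  haveI := S34V_torsionFree R F F'
  haveI := S34V_flat R F F'
  haveI : Algebra.IsIntegral R (S34V_S R F') := IsIntegralClosure.isIntegral_algebra R F'
  have hn : Module.finrank R (S34V_S R F') = Module.finrank F F' :=
    (IsFractionRing.finrank_eq R F (S34V_S R F') F').symm
  have hram' : S36NR_RamGe R W2 m := S36NR_ramGe_of_V3 R F W2 h2 hram
  set P := S34V_hos (S34V_S R F') W1 h1 with hP
  set Q := S34V_hos (S34V_S R F') W2 h2 with hQ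
  have hPQ : P ≠ Q := fun h => hne (S34V_hos_injective (S34V_S R F') h1 h2 h)
  have hmQ : m ≤ Q.asIdeal.ramificationIdx R :=
    S36NR_le_ramificationIdx (S34V_S R F') W2 h2 hram'
  obtain ⟨hall, heP, hfP, heQ, hfQ, hrk⟩ :=
    S36NR_count_core (R := R) (S34V_S R F') P Q hPQ hm0 (hn ▸ hab) hmQ
  obtain ⟨-, hu1, hr1, hr2, -, -, -⟩ := S36NR_two_ram R F W1 W2 h1 h2 hne hm0 hab hram'
  refine ⟨hu1, ?_, ?_, hr1, hr2, ?_⟩
  · intro x hx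
    exact S36V3_unif_witness (S34V_S R F') W2 h2 hm0 hram heQ hx
  · intro ϖ hϖ
    exact S36V3_unit_witness (S34V_S R F') W2 h2 hm0 hram heQ hϖ
  · intro f hf1 hf2
    obtain ⟨a, ha⟩ := hr1 f hf1
    obtain ⟨b, hb⟩ := hr2 f hf2
    obtain ⟨r, hr, hrm⟩ := S36NR_val_ram R F W1 W2 h1 h2 hne hm0 hab hram' f hf1 hf2 a b ha hb
    exact ⟨a, b, r, ha, hb, hr, hrm⟩

end Val

section Abs

variable {L : Type*} [Field L] {π : L} {F1' F1 : Subfield L} {V' V1 V2 V0 : Subring L}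

/-- **Split + ramified side in the `Subring L` vocabulary, existence form.**  Hypotheses of
`S36NR_abs_ram` (without `f`).  Conclusions: `π` is a uniformiser of `V1`, `t` is a uniformiser
of `V2`, `t ^ m / π ∈ V2`, the residue fields of `V1` and `V2` are that of `V'`, and for every
`f ∈ V1 ⊓ V2` there are `a`, `b` in `V'` with `f ≡ a` modulo `π V1`, `f ≡ b` modulo `t V2` and
`N f ≡ a b ^ m` modulo `π V'`. -/
theorem S36RD_abs_ram_ex [CharZero L] (hF : F1' ≤ F1)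
    (hV' : S34C2_Val π F1' V')
    (hsep : ∀ x ∈ F1', x ≠ 0 → ∃ (z : ℤ) (u : L), u ∈ V' ∧ u⁻¹ ∈ V' ∧ x = π ^ z * u)
    (h1 : S34C2_Val π F1 V1) (h2 : S34C2_Val π F1 V2) (hV1 : V' ≤ V1) (hV2 : V' ≤ V2)
    (hne : V1 ≠ V2) {m : ℕ} (hm0 : 0 < m)
    (hdeg : ∃ s : Finset L, s.card ≤ 1 + m ∧ ∀ x ∈ F1, ∃ c : L → L,
      (∀ y, c y ∈ F1') ∧ x = ∑ y ∈ s, c y * y)
    {t : L} (ht : t ∈ V2) (ht0 : t ≠ 0) (htn : t⁻¹ ∉ V2) (htm : π * (t ^ m)⁻¹ ∈ V2) :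
    letI := S34KEY_alg hF
    (∀ x ∈ V1, x⁻¹ ∉ V1 → ∃ v ∈ V1, x = π * v) ∧
    (∀ x ∈ V2, x⁻¹ ∉ V2 → ∃ v ∈ V2, x = t * v) ∧
    t ^ m * π⁻¹ ∈ V2 ∧
    (∀ x ∈ V1, ∃ r ∈ V', ∃ v ∈ V1, x - r = π * v) ∧
    (∀ x ∈ V2, ∃ r ∈ V', ∃ v ∈ V2, x - r = t * v) ∧
    ∀ (f : L) (hf1 : f ∈ V1), f ∈ V2 → ∃ a ∈ V', ∃ b ∈ V',
      (∃ v ∈ V1, f - a = π * v) ∧ (∃ v ∈ V2, f - b = t * v) ∧
      ∃ r ∈ V', ((Algebra.norm ↥F1' (⟨f, h1.le hf1⟩ : ↥F1) : ↥F1') : L) = r ∧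
        ∃ v ∈ V', r - a * b ^ m = π * v := by
  classical
  letI := S34KEY_alg hF
  obtain ⟨hfd, hfr⟩ := S34KEY_finrank_le hF hdeg
  haveI := hfd
  haveI : CharZero ↥F1' := by
    refine ⟨fun a b hab => ?_⟩
    have := congrArg (fun t : ↥F1' => (t : L)) hab
    simpa using this
  haveI : Algebra.IsSeparable ↥F1' ↥F1 := Algebra.IsAlgebraic.isSeparable_of_perfectField
  haveI := S34KEY_isDVR hV' hsep
  letI := S34KEY_algR hF hV'
  haveI : IsScalarTower ↥(S34KEY_vs hV') ↥F1' ↥F1 := IsScalarTower.of_algebraMap_eq (fun _ => rfl)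
  have hd1 := S34KEY_dom hF hV' hsep h1 hV1
  have hd2 := S34KEY_dom hF hV' hsep h2 hV2
  have hne' : S34KEY_vs h1 ≠ S34KEY_vs h2 := fun h => hne (S34KEY_vs_injective h1 h2 h)
  have hπirr := S34KEY_pi_irreducible hV' hsep
  have hram : S36V3_RamGe ↥(S34KEY_vs hV') (S34KEY_vs h2) (⟨t, h2.le ht⟩ : ↥F1) m := by
    refine ⟨fun h => ht0 (congrArg (fun x : ↥F1 => (x : L)) h), ?_, S34KEY_pi hV', hπirr, ?_⟩
    · rw [S34KEY_mem_nonunits]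
      exact Or.inr htn
    · rw [S34KEY_mem_vs]
      have e : ((algebraMap ↥(S34KEY_vs hV') ↥F1 (S34KEY_pi hV') / (⟨t, h2.le ht⟩ : ↥F1) ^ m :
          ↥F1) : L) = π * (t ^ m)⁻¹ := by
        have e0 : ((algebraMap ↥(S34KEY_vs hV') ↥F1 (S34KEY_pi hV') : ↥F1) : L) = π := rfl
        push_cast
        rw [e0, div_eq_mul_inv]
      rw [e]
      exact htm
  obtain ⟨hu1, hu2, hunit, hr1, hr2, hN⟩ :=
    S36RD_val_ram_ex ↥(S34KEY_vs hV') ↥F1' (S34KEY_vs h1) (S34KEY_vs h2) hd1 hd2 hne' hm0 hfr hram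
  have hU1 : ∀ x ∈ V1, x⁻¹ ∉ V1 → ∃ v ∈ V1, x = π * v := by
    intro z hz hz'
    obtain ⟨w, hw, hzw⟩ := hu1 _ hπirr ⟨z, h1.le hz⟩
      ((S34KEY_mem_nonunits h1 _).2 (Or.inr hz'))
    exact ⟨(w : L), hw, congrArg (fun t : ↥F1 => (t : L)) hzw⟩
  have hU2 : ∀ x ∈ V2, x⁻¹ ∉ V2 → ∃ v ∈ V2, x = t * v := by
    intro z hz hz'
    obtain ⟨w, hw, hzw⟩ := hu2 ⟨z, h2.le hz⟩
      ((S34KEY_mem_nonunits h2 _).2 (Or.inr hz'))
    exact ⟨(w : L), hw, congrArg (fun t : ↥F1 => (t : L)) hzw⟩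
  have hU1' : ∀ x : L, x ∈ F1 → (x = 0 ∨ x⁻¹ ∉ V1) → ∃ v ∈ V1, x = π * v := by
    intro x hxF hx
    rcases hx with rfl | hx
    · exact ⟨0, V1.zero_mem, by rw [mul_zero]⟩
    · rcases h1.val x hxF with hxV | hxV
      · exact hU1 x hxV hx
      · exact absurd hxV hx
  have hU2' : ∀ x : L, x ∈ F1 → (x = 0 ∨ x⁻¹ ∉ V2) → ∃ v ∈ V2, x = t * v := by
    intro x hxF hx
    rcases hx with rfl | hx
    · exact ⟨0, V2.zero_mem, by rw [mul_zero]⟩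
    · rcases h2.val x hxF with hxV | hxV
      · exact hU2 x hxV hx
      · exact absurd hxV hx
  refine ⟨hU1, hU2, ?_, ?_, ?_, ?_⟩
  · have := (hunit _ hπirr).2
    rw [S34KEY_mem_vs] at this
    have e : ((((⟨t, h2.le ht⟩ : ↥F1) ^ m / algebraMap ↥(S34KEY_vs hV') ↥F1 (S34KEY_pi hV') :
        ↥F1)) : L) = t ^ m * π⁻¹ := by
      have e0 : ((algebraMap ↥(S34KEY_vs hV') ↥F1 (S34KEY_pi hV') : ↥F1) : L) = π := rfl
      push_cast
      rw [e0, div_eq_mul_inv]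
    rw [e] at this
    exact this
  · intro z hz
    obtain ⟨r, hr⟩ := hr1 ⟨z, h1.le hz⟩ hz
    rw [S34KEY_mem_nonunits] at hr
    have hF1 : z - ((r : ↥F1') : L) ∈ F1 := F1.sub_mem (h1.le hz) (hF r.1.2)
    obtain ⟨v, hv, e⟩ := hU1' _ hF1 hr
    exact ⟨((r : ↥F1') : L), r.2, v, hv, e⟩
  · intro z hz
    obtain ⟨r, hr⟩ := hr2 ⟨z, h2.le hz⟩ hz
    rw [S34KEY_mem_nonunits] at hr
    have hF1 : z - ((r : ↥F1') : L) ∈ F1 := F1.sub_mem (h2.le hz) (hF r.1.2)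
    obtain ⟨v, hv, e⟩ := hU2' _ hF1 hr
    exact ⟨((r : ↥F1') : L), r.2, v, hv, e⟩
  · intro f hf1 hf2
    obtain ⟨a, b, r, ha, hb, hr, hrm⟩ := hN ⟨f, h1.le hf1⟩ hf1 hf2
    rw [S34KEY_mem_nonunits] at ha hb
    rw [S34KEY_mem_maximalIdeal hV' hsep] at hrm
    obtain ⟨v, hv, hrv⟩ := hrm
    have hFa : f - ((a : ↥F1') : L) ∈ F1 := F1.sub_mem (h1.le hf1) (hF a.1.2)
    have hFb : f - ((b : ↥F1') : L) ∈ F1 := F1.sub_mem (h1.le hf1) (hF b.1.2)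
    refine ⟨((a : ↥F1') : L), a.2, ((b : ↥F1') : L), b.2, hU1' _ hFa ha, hU2' _ hFb hb,
      ((r : ↥F1') : L), r.2, ?_, v, hv, hrv⟩
    rw [← hr]
    rfl

/-- **Purely inseparable side in the `Subring L` vocabulary, existence form.**  Hypotheses of
`S36NR_abs_insep` (without `f`, `c`).  Conclusions: `π` is a uniformiser of `V0` and
`N f ≡ f ^ q` modulo `π V0` for every `f ∈ V0`. -/
theorem S36RD_abs_insep_ex [CharZero L] (hF : F1' ≤ F1)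
    (hV' : S34C2_Val π F1' V')
    (hsep : ∀ x ∈ F1', x ≠ 0 → ∃ (z : ℤ) (u : L), u ∈ V' ∧ u⁻¹ ∈ V' ∧ x = π ^ z * u)
    (h0 : S34C2_Val π F1 V0) (hV0 : V' ≤ V0) {q : ℕ} (hq : q.Prime)
    (hdeg : ∃ s : Finset L, s.card ≤ q ∧ ∀ x ∈ F1, ∃ c : L → L,
      (∀ y, c y ∈ F1') ∧ x = ∑ y ∈ s, c y * y)
    {y x : L} (hy : y ∈ V0) (hx : x ∈ V') (hyx : y ^ q - x = 0 ∨ (y ^ q - x)⁻¹ ∉ V0)
    (hxq : ∀ r ∈ V', ∀ v ∈ V', r ^ q - x ≠ π * v)
    (hchar : ∃ v ∈ V', (q : L) = π * v) :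
    letI := S34KEY_alg hF
    (∀ x ∈ V0, x⁻¹ ∉ V0 → ∃ v ∈ V0, x = π * v) ∧
    ∀ (f : L) (hf0 : f ∈ V0), ∃ r ∈ V',
      ((Algebra.norm ↥F1' (⟨f, h0.le hf0⟩ : ↥F1) : ↥F1') : L) = r ∧
        ∃ v ∈ V0, r - f ^ q = π * v := by
  classical
  letI := S34KEY_alg hF
  obtain ⟨hfd, hfr⟩ := S34KEY_finrank_le hF hdeg
  haveI := hfd
  haveI : CharZero ↥F1' := by
    refine ⟨fun a b hab => ?_⟩
    have := congrArg (fun t : ↥F1' => (t : L)) hab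
    simpa using this
  haveI : Algebra.IsSeparable ↥F1' ↥F1 := Algebra.IsAlgebraic.isSeparable_of_perfectField
  haveI := S34KEY_isDVR hV' hsep
  letI := S34KEY_algR hF hV'
  haveI : IsScalarTower ↥(S34KEY_vs hV') ↥F1' ↥F1 := IsScalarTower.of_algebraMap_eq (fun _ => rfl)
  have hd0 := S34KEY_dom hF hV' hsep h0 hV0
  have hπirr := S34KEY_pi_irreducible hV' hsep
  haveI : Fact q.Prime := ⟨hq⟩
  have hchar' : ((q : ℕ) : ↥(S34KEY_vs hV')) ∈ maximalIdeal ↥(S34KEY_vs hV') := by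
    rw [S34KEY_mem_maximalIdeal hV' hsep]
    obtain ⟨v, hv, hqv⟩ := hchar
    refine ⟨v, hv, ?_⟩
    rw [← hqv]
    simp
  have hyx' : (⟨y, h0.le hy⟩ : ↥F1) ^ q -
      algebraMap ↥(S34KEY_vs hV') ↥F1 (S34KEY_ofV hV' ⟨x, hx⟩) ∈ (S34KEY_vs h0).nonunits := by
    rw [S34KEY_mem_nonunits]
    exact hyx
  have hxq' : ∀ r : ↥(S34KEY_vs hV'),
      r ^ q - S34KEY_ofV hV' ⟨x, hx⟩ ∉ maximalIdeal ↥(S34KEY_vs hV') := by
    intro r hr
    rw [S34KEY_mem_maximalIdeal hV' hsep] at hr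
    obtain ⟨v, hv, hrv⟩ := hr
    exact hxq _ r.2 v hv hrv
  obtain ⟨hu0, hN⟩ := S36RD_val_insep_ex ↥(S34KEY_vs hV') ↥F1' (S34KEY_vs h0) hd0 q hchar' hfr
    (y := ⟨y, h0.le hy⟩) hy (x0 := S34KEY_ofV hV' ⟨x, hx⟩) hyx' hxq'
  have hU0 : ∀ x ∈ V0, x⁻¹ ∉ V0 → ∃ v ∈ V0, x = π * v := by
    intro z hz hz'
    obtain ⟨w, hw, hzw⟩ := hu0 _ hπirr ⟨z, h0.le hz⟩
      ((S34KEY_mem_nonunits h0 _).2 (Or.inr hz'))
    exact ⟨(w : L), hw, congrArg (fun t : ↥F1 => (t : L)) hzw⟩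
  refine ⟨hU0, ?_⟩
  intro f hf0
  obtain ⟨r, hr, hrf⟩ := hN ⟨f, h0.le hf0⟩ hf0
  rw [S34KEY_mem_nonunits] at hrf
  refine ⟨((r : ↥F1') : L), r.2, ?_, ?_⟩
  · rw [← hr]
    rfl
  · have hmem : ((r : ↥F1') : L) - f ^ q ∈ V0 := V0.sub_mem (hV0 r.2) (V0.pow_mem hf0 q)
    rcases hrf with h | h
    · exact ⟨0, V0.zero_mem, by rw [mul_zero]; exact h⟩
    · exact hU0 _ hmem h

end Abs

/-! ### The calculus: from `f ^ q ≡ ε u ^ n` to `f ≡ G ^ n` -/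

section Calc

variable {L : Type*} [Field L]

/-- units of a subring are stable under integer powers -/
theorem S36RD_zpow_mem {V : Subring L} {x : L} (hx : x ∈ V) (hx' : x⁻¹ ∈ V) (k : ℤ) :
    x ^ k ∈ V ∧ (x ^ k)⁻¹ ∈ V := by
  rcases Int.eq_nat_or_neg k with ⟨j, rfl | rfl⟩
  · rw [zpow_natCast, ← inv_pow]
    exact ⟨V.pow_mem hx j, V.pow_mem hx' j⟩
  · rw [zpow_neg, zpow_natCast, inv_inv, ← inv_pow]
    exact ⟨V.pow_mem hx' j, V.pow_mem hx j⟩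

theorem S36RD_Cg_zpow {π : L} {V : Subring L} (H : S35TOR_Rad π V) {x y : L}
    (h : S35TOR_Cg π V x y) (k : ℤ) : S35TOR_Cg π V (x ^ k) (y ^ k) := by
  rcases Int.eq_nat_or_neg k with ⟨j, rfl | rfl⟩
  · rw [zpow_natCast, zpow_natCast]
    exact S35TOR_Cg_pow H h j
  · rw [zpow_neg, zpow_natCast, zpow_neg, zpow_natCast]
    exact S35TOR_Cg_inv H (S35TOR_Cg_pow H h j)

/-- change of the modulus: `π ∈ t V` -/
theorem S36RD_Cg_change {π t : L} {V : Subring L} (hπt : ∃ e ∈ V, π = t * e) {x y : L}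
    (h : S35TOR_Cg π V x y) : S35TOR_Cg t V x y := by
  obtain ⟨e, he, rfl⟩ := hπt
  obtain ⟨c, hc, hxy⟩ := h
  exact ⟨e * c, V.mul_mem he hc, by rw [hxy]; ring⟩

theorem S36RD_bezout {f : L} (hf0 : f ≠ 0) {A B D : ℕ} {x y : ℤ}
    (h : x * (A : ℤ) + y * (B : ℤ) = (D : ℤ)) : f ^ D = (f ^ A) ^ x * (f ^ y) ^ B := by
  rw [← zpow_natCast f D, ← h, zpow_add₀ hf0, mul_comm x, zpow_mul, zpow_natCast, zpow_mul,
    zpow_natCast]

/-- an element of the small ring congruent to a unit of the big ring is a unit -/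
theorem S36RD_unit_of_congr {p : L} {Va V : Subring L} (hp : p⁻¹ ∉ V)
    (hUa : ∀ z ∈ Va, z⁻¹ ∉ Va → ∃ w ∈ V, z = p * w)
    {x y : L} (hx0 : x ≠ 0) (hx' : x⁻¹ ∈ V) (hy : y ∈ Va) (hxy : ∃ v ∈ V, x - y = p * v) :
    y ≠ 0 ∧ y⁻¹ ∈ Va := by
  obtain ⟨v, hv, e⟩ := hxy
  have key : ∀ w ∈ V, y = p * w → False := by
    intro w hw hyw
    have hx : x = p * (w + v) := by rw [mul_add, ← hyw, ← e]; ring
    apply hp
    have hp0 : p ≠ 0 := by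
      rintro rfl
      rw [zero_mul] at hx
      exact hx0 hx
    have hwv : w + v ≠ 0 := by
      intro h
      apply hx0
      rw [hx, h, mul_zero]
    have : p⁻¹ = (w + v) * x⁻¹ := by
      rw [hx]
      field_simp
    rw [this]
    exact V.mul_mem (V.add_mem hw hv) hx'
  refine ⟨?_, ?_⟩
  · intro h0
    exact key 0 V.zero_mem (by rw [h0, mul_zero])
  · by_contra hcon
    obtain ⟨w, hw, hyw⟩ := hUa y hy hcon
    exact key w hw hyw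

/-- an element congruent to a unit is nonzero -/
theorem S36RD_ne_zero_of_congr {p : L} {V : Subring L} (hp : p⁻¹ ∉ V) {x y : L}
    (hx0 : x ≠ 0) (hx' : x⁻¹ ∈ V) (h : ∃ v ∈ V, y - x = p * v) : y ≠ 0 := by
  rintro rfl
  obtain ⟨v, hv, e⟩ := h
  apply hp
  have hx : x = p * (-v) := by linear_combination (-1 : L) * e
  have hp0 : p ≠ 0 := by
    rintro rfl
    rw [zero_mul] at hx
    exact hx0 hx
  have hv0 : v ≠ 0 := by
    rintro rfl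
    rw [neg_zero, mul_zero] at hx
    exact hx0 hx
  have : p⁻¹ = (-v) * x⁻¹ := by
    rw [hx]
    field_simp
  rw [this]
  exact V.mul_mem (V.neg_mem hv) hx'

/-- a finite product of units is a unit -/
theorem S36RD_prod_unit {V : Subring L} {ι : Type*} (s : Finset ι) (g : ι → L)
    (h : ∀ i ∈ s, g i ≠ 0 ∧ g i ∈ V ∧ (g i)⁻¹ ∈ V) :
    (∏ i ∈ s, g i) ≠ 0 ∧ (∏ i ∈ s, g i) ∈ V ∧ (∏ i ∈ s, g i)⁻¹ ∈ V := by
  classical
  induction s using Finset.induction_on with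
  | empty => simp [V.one_mem]
  | insert a s ha ih =>
    rw [Finset.prod_insert ha]
    obtain ⟨h1, h2, h3⟩ := h a (Finset.mem_insert_self a s)
    obtain ⟨i1, i2, i3⟩ := ih (fun i hi => h i (Finset.mem_insert_of_mem hi))
    refine ⟨mul_ne_zero h1 i1, V.mul_mem h2 i2, ?_⟩
    rw [mul_inv]
    exact V.mul_mem h3 i3

/-- **Thin branches.**  `f` a unit of `V` with `f ^ q ≡ ε u ^ n` modulo `1 + π V`
(`ε` a constant unit, `u` a unit of `V`), `gcd (q, n) = 1`, constants are `n`-th powers modulo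
`π`.  Then `f ≡ G ^ n` modulo `1 + π V` for a unit `G` of `V`. -/
theorem S36RD_thin {π : L} {O V : Subring L} (H : S35TOR_Rad π V) (hOV : O ≤ V)
    (hconst : ∀ ε ∈ O, ε⁻¹ ∈ O → ∀ k : ℕ, 0 < k →
      ∃ ρ ∈ O, ρ⁻¹ ∈ O ∧ S35TOR_Cg π O ε (ρ ^ k))
    {q n : ℕ} (hn : 0 < n) (hqn : Nat.Coprime q n)
    {f ε u : L} (hf0 : f ≠ 0) (hf : f ∈ V) (hf' : f⁻¹ ∈ V) (hε : ε ∈ O) (hε' : ε⁻¹ ∈ O)
    (hu : u ∈ V) (hu' : u⁻¹ ∈ V) (h : S35TOR_Cg π V (f ^ q) (ε * u ^ n)) :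
    ∃ G : L, G ∈ V ∧ G⁻¹ ∈ V ∧ S35TOR_Cg π V f (G ^ n) := by
  obtain ⟨x, y, hxy⟩ := (Nat.isCoprime_iff_coprime.2 hqn)
  have e1 : f = (f ^ q) ^ x * (f ^ y) ^ n := by
    have := S36RD_bezout hf0 (A := q) (B := n) (D := 1) (x := x) (y := y) (by simpa using hxy)
    rwa [pow_one] at this
  obtain ⟨ρ, hρ, hρ', hρc⟩ := hconst (ε ^ x) (S36RD_zpow_mem hε hε' x).1
    (S36RD_zpow_mem hε hε' x).2 n hn
  refine ⟨ρ * (u ^ x * f ^ y), ?_, ?_, ?_⟩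
  · exact V.mul_mem (hOV hρ)
      (V.mul_mem (S36RD_zpow_mem hu hu' x).1 (S36RD_zpow_mem hf hf' y).1)
  · rw [mul_inv, mul_inv]
    exact V.mul_mem (hOV hρ')
      (V.mul_mem (S36RD_zpow_mem hu hu' x).2 (S36RD_zpow_mem hf hf' y).2)
  · have c1 : S35TOR_Cg π V ((f ^ q) ^ x) ((ε * u ^ n) ^ x) := S36RD_Cg_zpow H h x
    have c2 : S35TOR_Cg π V (ε ^ x) (ρ ^ n) := S35TOR_Cg_mono hOV hρc
    have e2 : (ε * u ^ n) ^ x = ε ^ x * (u ^ x) ^ n := by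
      rw [mul_zpow]
      congr 1
      rw [← zpow_natCast (u ^ x) n, ← zpow_mul, ← zpow_natCast u n, ← zpow_mul, mul_comm]
    have c3 : S35TOR_Cg π V ((f ^ q) ^ x * (f ^ y) ^ n)
        (ρ ^ n * (u ^ x) ^ n * (f ^ y) ^ n) := by
      refine S35TOR_Cg_mul H ?_ (S35TOR_Cg_refl _)
      rw [e2] at c1
      exact S35TOR_Cg_trans H c1 (S35TOR_Cg_mul H c2 (S35TOR_Cg_refl _))
    have e3 : (ρ * (u ^ x * f ^ y)) ^ n = ρ ^ n * (u ^ x) ^ n * (f ^ y) ^ n := by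
      rw [mul_pow, mul_pow, mul_assoc]
    rw [e3]
    rw [← e1] at c3
    exact c3

/-- **The thick branch.**  `V1`, `V2` valuation rings of `F1` above the discrete valuation ring
`Va` (uniformiser `π`), `t` a uniformiser of `V2` with `π ∈ t V2`, the residue field of `V1` is
that of `Va`.  `f` a unit of `V1` and `V2`, `f ≡ G1 ^ n` on `V1`, and the norm relation
`ε u ^ n ≡ a b ^ (q - 1)` modulo `π Va` with `f ≡ a` on `V1`, `f ≡ b` on `V2`.  Write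
`q - 1 = d m'`, `n = d n2`, `gcd (m', n) = 1`, and assume the constants contain a primitive
`d`-th root of unity and are `k`-th powers modulo `π`.  Then `f ≡ G ^ n2` modulo `1 + t V2`
for a unit `G` of `V2`. -/
theorem S36RD_mid {π t : L} {F1 : Subfield L} {O Va V1 V2 : Subring L}
    (h1 : S34C2_Val π F1 V1) (h2 : S34C2_Val π F1 V2) (Ha : S35TOR_Rad π Va)
    (hO : O ≤ Va) (hVa1 : Va ≤ V1) (hVa2 : Va ≤ V2)
    (ht : t ∈ V2) (htn : t⁻¹ ∉ V2) (hπt : ∃ e ∈ V2, π = t * e)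
    (hU2 : ∀ x ∈ V2, x⁻¹ ∉ V2 → ∃ v ∈ V2, x = t * v)
    (hUa : ∀ x ∈ Va, x⁻¹ ∉ Va → ∃ v ∈ Va, x = π * v)
    (hr1 : ∀ x ∈ V1, ∃ r ∈ Va, ∃ v ∈ V1, x - r = π * v)
    (hconst : ∀ ε ∈ O, ε⁻¹ ∈ O → ∀ k : ℕ, 0 < k →
      ∃ ρ ∈ O, ρ⁻¹ ∈ O ∧ S35TOR_Cg π O ε (ρ ^ k))
    {q n d m' n2 : ℕ} (hq1 : q - 1 = d * m') (hnd : n = d * n2) (hn2 : 0 < n2) (hd : 0 < d)
    (hcop : Nat.Coprime m' n)
    {ζ : L} (hζO : ζ ∈ O) (hζ : IsPrimitiveRoot ζ d)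
    {f ε u G1 : L} (hf0 : f ≠ 0) (hf1 : f ∈ V1) (hf1' : f⁻¹ ∈ V1) (hf2 : f ∈ V2)
    (hf2' : f⁻¹ ∈ V2)
    (hG10 : G1 ≠ 0) (hG1 : G1 ∈ V1) (hG1' : G1⁻¹ ∈ V1) (hfG : S35TOR_Cg π V1 f (G1 ^ n))
    (hε : ε ∈ O) (hε' : ε⁻¹ ∈ O) (hu : u ∈ Va) (hu' : u⁻¹ ∈ Va)
    {a b : L} (ha : a ∈ Va) (hb : b ∈ Va) (hfa : ∃ v ∈ V1, f - a = π * v)
    (hfb : ∃ v ∈ V2, f - b = t * v) (hN : ∃ v ∈ Va, ε * u ^ n - a * b ^ (q - 1) = π * v) :
    ∃ G : L, G ∈ V2 ∧ G⁻¹ ∈ V2 ∧ S35TOR_Cg t V2 f (G ^ n2) := by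
  classical
  haveI : NeZero d := ⟨hd.ne'⟩
  have hn : 0 < n := by rw [hnd]; exact Nat.mul_pos hd hn2
  have H1 : S35TOR_Rad π V1 := S35TOR_rad_of_val h1
  have h2t : S34C2_Val t F1 V2 := ⟨h2.le, h2.val, ht, htn⟩
  have H2 : S35TOR_Rad t V2 := S35TOR_rad_of_val h2t
  have hOV2 : O ≤ V2 := hO.trans hVa2
  have hUa1 : ∀ z ∈ Va, z⁻¹ ∉ Va → ∃ w ∈ V1, z = π * w := fun z hz hz' => by
    obtain ⟨v, hv, e⟩ := hUa z hz hz'
    exact ⟨v, hVa1 hv, e⟩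
  have hUa2 : ∀ z ∈ Va, z⁻¹ ∉ Va → ∃ w ∈ V2, z = t * w := fun z hz hz' => by
    obtain ⟨v, hv, e⟩ := hUa z hz hz'
    obtain ⟨e', he', hπe⟩ := hπt
    exact ⟨e' * v, V2.mul_mem he' (hVa2 hv), by rw [e, hπe]; ring⟩
  obtain ⟨ha0, ha'⟩ := S36RD_unit_of_congr h1.π_nonunit hUa1 hf0 hf1' ha hfa
  obtain ⟨hb0, hb'⟩ := S36RD_unit_of_congr htn hUa2 hf0 hf2' hb hfb
  obtain ⟨r, hr, hGr⟩ := hr1 G1 hG1
  obtain ⟨hr0, hr'⟩ := S36RD_unit_of_congr h1.π_nonunit hUa1 hG10 hG1' hr hGr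
  -- `a ≡ r ^ n` on `V1`
  have c1 : S35TOR_Cg π V1 a f := by
    obtain ⟨v, hv, e⟩ := hfa
    exact S35TOR_Cg_of_sub hf1' hf0 ⟨-v, V1.neg_mem hv, by linear_combination (-1 : L) * e⟩
  have c2 : S35TOR_Cg π V1 G1 r := S35TOR_Cg_of_sub (hVa1 hr') hr0 hGr
  have c3 : S35TOR_Cg π V1 a (r ^ n) :=
    S35TOR_Cg_trans H1 c1 (S35TOR_Cg_trans H1 hfG (S35TOR_Cg_pow H1 c2 n))
  have hrn : r ^ n ∈ Va := Va.pow_mem hr n
  have hrn' : (r ^ n)⁻¹ ∈ Va := by rw [← inv_pow]; exact Va.pow_mem hr' n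
  -- descent to `Va`
  have c4 : S35TOR_Cg π Va a (r ^ n) := by
    obtain ⟨v, hv, e⟩ := S35TOR_Cg_sub (hVa1 hrn) c3
    have hz : a - r ^ n ∈ Va := Va.sub_mem ha hrn
    apply S35TOR_Cg_of_sub hrn' (pow_ne_zero n hr0)
    by_cases hz' : (a - r ^ n)⁻¹ ∈ Va
    · by_cases hz0 : a - r ^ n = 0
      · exact ⟨0, Va.zero_mem, by rw [hz0, mul_zero]⟩
      · exfalso
        apply h1.π_nonunit
        have hv0 : v ≠ 0 := by
          rintro rfl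
          rw [mul_zero] at e
          exact hz0 e
        have hπ0 : π ≠ 0 := by
          rintro rfl
          rw [zero_mul] at e
          exact hz0 e
        have : π⁻¹ = v * (a - r ^ n)⁻¹ := by
          rw [e]
          field_simp
        rw [this]
        exact V1.mul_mem hv (hVa1 hz')
    · exact hUa _ hz hz'
  -- the norm relation
  have hab0 : a * b ^ (q - 1) ≠ 0 := mul_ne_zero ha0 (pow_ne_zero _ hb0)
  have hab' : (a * b ^ (q - 1))⁻¹ ∈ Va := by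
    rw [mul_inv, ← inv_pow]
    exact Va.mul_mem ha' (Va.pow_mem hb' _)
  have c5 : S35TOR_Cg π Va (ε * u ^ n) (a * b ^ (q - 1)) := S35TOR_Cg_of_sub hab' hab0 hN
  have hεu0 : ε * u ^ n ≠ 0 := by
    obtain ⟨c, hc, e⟩ := c5
    rw [e]
    exact mul_ne_zero hab0 (Ha.ne c hc)
  have hε0 : ε ≠ 0 := left_ne_zero_of_mul hεu0
  have hu0 : u ≠ 0 := by
    intro h
    apply hεu0
    rw [h, zero_pow hn.ne', mul_zero]
  have c6 : S35TOR_Cg π Va (b ^ (q - 1)) (ε * (u / r) ^ n) := by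
    have h := S35TOR_Cg_div Ha (S35TOR_Cg_symm Ha c5) c4
    have e1 : a * b ^ (q - 1) / a = b ^ (q - 1) := by field_simp
    have e2 : ε * u ^ n / r ^ n = ε * (u / r) ^ n := by rw [div_pow, mul_div_assoc]
    rw [e1, e2] at h
    exact h
  -- on `V2`, modulo `t`
  have c7 : S35TOR_Cg t V2 (b ^ (q - 1)) (ε * (u / r) ^ n) :=
    S36RD_Cg_change hπt (S35TOR_Cg_mono hVa2 c6)
  have c8 : S35TOR_Cg t V2 f b := S35TOR_Cg_of_sub (hVa2 hb') hb0 hfb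
  have c9 : S35TOR_Cg t V2 (f ^ (q - 1)) (ε * (u / r) ^ n) :=
    S35TOR_Cg_trans H2 (S35TOR_Cg_pow H2 c8 _) c7
  -- Bezout
  obtain ⟨x, y, hxy⟩ := Nat.isCoprime_iff_coprime.2 hcop
  have hbz : x * ((q - 1 : ℕ) : ℤ) + ((d : ℤ) * y) * (n : ℤ) = (d : ℤ) := by
    rw [hq1]
    push_cast
    linear_combination (d : ℤ) * hxy
  have e3 : f ^ d = (f ^ (q - 1)) ^ x * (f ^ ((d : ℤ) * y)) ^ n := S36RD_bezout hf0 hbz
  obtain ⟨g3, hg3⟩ : ∃ g3 : L, g3 = u / r := ⟨_, rfl⟩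
  rw [← hg3] at c9
  have hg30 : g3 ≠ 0 := by rw [hg3]; exact div_ne_zero hu0 hr0
  have hg3m : g3 ∈ V2 := by
    rw [hg3, div_eq_mul_inv]
    exact V2.mul_mem (hVa2 hu) (hVa2 hr')
  have hg3' : g3⁻¹ ∈ V2 := by
    rw [hg3, inv_div, div_eq_mul_inv]
    exact V2.mul_mem (hVa2 hr) (hVa2 hu')
  obtain ⟨g, hg⟩ : ∃ g : L, g = g3 ^ x * f ^ ((d : ℤ) * y) := ⟨_, rfl⟩
  have hgm : g ∈ V2 := by
    rw [hg]
    exact V2.mul_mem (S36RD_zpow_mem hg3m hg3' x).1 (S36RD_zpow_mem hf2 hf2' _).1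
  have hg' : g⁻¹ ∈ V2 := by
    rw [hg, mul_inv]
    exact V2.mul_mem (S36RD_zpow_mem hg3m hg3' x).2 (S36RD_zpow_mem hf2 hf2' _).2
  have hg0 : g ≠ 0 := by
    rw [hg]
    exact mul_ne_zero (zpow_ne_zero _ hg30) (zpow_ne_zero _ hf0)
  -- constants
  obtain ⟨ρ, hρ, hρ', hρc⟩ := hconst (ε ^ x) (S36RD_zpow_mem hε hε' x).1
    (S36RD_zpow_mem hε hε' x).2 d hd
  have c10 : S35TOR_Cg t V2 (ε ^ x) (ρ ^ d) :=
    S36RD_Cg_change hπt (S35TOR_Cg_mono hOV2 hρc)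
  have hρ0 : ρ ≠ 0 := by
    intro h
    obtain ⟨c, hc, e⟩ := hρc
    rw [h, zero_pow hd.ne', zero_mul] at e
    exact zpow_ne_zero x hε0 e
  obtain ⟨w, hw⟩ : ∃ w : L, w = ρ * g ^ n2 := ⟨_, rfl⟩
  have c11 : S35TOR_Cg t V2 (f ^ d) (w ^ d) := by
    rw [e3]
    have c12 : S35TOR_Cg t V2 ((f ^ (q - 1)) ^ x) ((ε * g3 ^ n) ^ x) := S36RD_Cg_zpow H2 c9 x
    have e4 : (ε * g3 ^ n) ^ x = ε ^ x * (g3 ^ x) ^ n := by
      rw [mul_zpow]
      congr 1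
      rw [← zpow_natCast (g3 ^ x) n, ← zpow_mul, ← zpow_natCast g3 n, ← zpow_mul, mul_comm]
    rw [e4] at c12
    have c13 := S35TOR_Cg_mul H2
      (S35TOR_Cg_trans H2 c12 (S35TOR_Cg_mul H2 c10 (S35TOR_Cg_refl ((g3 ^ x) ^ n))))
      (S35TOR_Cg_refl ((f ^ ((d : ℤ) * y)) ^ n))
    have e5 : w ^ d = ρ ^ d * (g3 ^ x) ^ n * (f ^ ((d : ℤ) * y)) ^ n := by
      rw [hw, mul_pow, ← pow_mul, mul_comm n2 d, ← hnd, hg, mul_pow, mul_assoc]
    rw [e5]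
    exact c13
  -- factorisation of `f ^ d - w ^ d`
  have hwm : w ∈ V2 := by rw [hw]; exact V2.mul_mem (hOV2 hρ) (V2.pow_mem hgm n2)
  have hw' : w⁻¹ ∈ V2 := by
    rw [hw, mul_inv, ← inv_pow]
    exact V2.mul_mem (hOV2 hρ') (V2.pow_mem hg' n2)
  have hw0 : w ≠ 0 := by rw [hw]; exact mul_ne_zero hρ0 (pow_ne_zero _ hg0)
  obtain ⟨v, hv, e6⟩ := S35TOR_Cg_sub (V2.pow_mem hwm d) c11
  have hfac := hζ.pow_sub_pow_eq_prod_sub_mul f w hd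
  have hμO : ∀ μ ∈ Polynomial.nthRootsFinset d (1 : L), μ ∈ O ∧ μ⁻¹ ∈ O ∧ μ ≠ 0 := by
    intro μ hμ
    have hμ1 : μ ^ d = 1 := (Polynomial.mem_nthRootsFinset hd 1).1 hμ
    obtain ⟨i, hi, rfl⟩ := hζ.eq_pow_of_pow_eq_one hμ1
    have hζ' : ζ⁻¹ = ζ ^ (d - 1) := by
      have : ζ * ζ ^ (d - 1) = 1 := by
        rw [← pow_succ', Nat.sub_add_cancel hd, hζ.pow_eq_one]
      exact inv_eq_of_mul_eq_one_right this
    refine ⟨O.pow_mem hζO i, ?_, pow_ne_zero _ (hζ.ne_zero hd.ne')⟩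
    rw [← inv_pow, hζ']
    exact O.pow_mem (O.pow_mem hζO _) i
  have hex : ∃ μ ∈ Polynomial.nthRootsFinset d (1 : L), ∃ v ∈ V2, f - μ * w = t * v := by
    by_contra hcon
    simp only [not_exists, not_and] at hcon
    have hall : ∀ μ ∈ Polynomial.nthRootsFinset d (1 : L),
        (f - μ * w) ≠ 0 ∧ (f - μ * w) ∈ V2 ∧ (f - μ * w)⁻¹ ∈ V2 := by
      intro μ hμ
      have hm : f - μ * w ∈ V2 := V2.sub_mem hf2 (V2.mul_mem (hOV2 (hμO μ hμ).1) hwm)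
      refine ⟨?_, hm, ?_⟩
      · intro h0
        exact hcon μ hμ 0 V2.zero_mem (by rw [h0, mul_zero])
      · by_contra hinv
        obtain ⟨v', hv', e'⟩ := hU2 _ hm hinv
        exact hcon μ hμ v' hv' e'
    obtain ⟨p0, p1, p2⟩ := S36RD_prod_unit (V := V2) _ _ hall
    rw [← hfac, e6] at p0 p2
    apply htn
    have ht0 : t ≠ 0 := left_ne_zero_of_mul p0
    have hv0 : v ≠ 0 := right_ne_zero_of_mul p0
    have : t⁻¹ = v * (t * v)⁻¹ := by field_simp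
    rw [this]
    exact V2.mul_mem hv p2
  obtain ⟨μ, hμ, v', hv', e7⟩ := hex
  obtain ⟨hμm, hμ', hμ0⟩ := hμO μ hμ
  have c14 : S35TOR_Cg t V2 f (μ * w) :=
    S35TOR_Cg_of_sub (by rw [mul_inv]; exact V2.mul_mem (hOV2 hμ') hw')
      (mul_ne_zero hμ0 hw0) ⟨v', hv', e7⟩
  -- constants once more
  obtain ⟨ρ2, hρ2, hρ2', hρ2c⟩ := hconst (μ * ρ) (O.mul_mem hμm hρ)
    (by rw [mul_inv]; exact O.mul_mem hμ' hρ') n2 hn2
  have c15 : S35TOR_Cg t V2 (μ * ρ) (ρ2 ^ n2) :=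
    S36RD_Cg_change hπt (S35TOR_Cg_mono hOV2 hρ2c)
  refine ⟨ρ2 * g, V2.mul_mem (hOV2 hρ2) hgm, by
    rw [mul_inv]; exact V2.mul_mem (hOV2 hρ2') hg', ?_⟩
  have e8 : μ * w = (μ * ρ) * g ^ n2 := by rw [hw]; ring
  have e9 : (ρ2 * g) ^ n2 = ρ2 ^ n2 * g ^ n2 := mul_pow _ _ _
  rw [e9]
  rw [e8] at c14
  exact S35TOR_Cg_trans H2 c14 (S35TOR_Cg_mul H2 c15 (S35TOR_Cg_refl _))

/-- a power of `π` which is a unit of `V` is trivial -/
theorem S36RD_zpow_unit {π : L} {F : Subfield L} {V : Subring L} (hV : S34C2_Val π F V)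
    {k : ℤ} (h : π ^ k ∈ V) (h' : (π ^ k)⁻¹ ∈ V) : k = 0 := by
  have hπ0 : π ≠ 0 := by
    intro h0
    apply hV.π_nonunit
    rw [h0, inv_zero]
    exact V.zero_mem
  by_contra hk
  apply hV.π_nonunit
  rcases lt_or_gt_of_ne hk with hk | hk
  · -- `k < 0`
    obtain ⟨j, hj⟩ : ∃ j : ℕ, k = -((j : ℤ) + 1) := ⟨(-k - 1).toNat, by omega⟩
    have e : π⁻¹ = π ^ j * π ^ k := by
      rw [hj, zpow_neg, ← zpow_natCast π j, ← zpow_neg_one, ← zpow_neg, ← zpow_add₀ hπ0]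
      congr 1
      omega
    rw [e]
    exact V.mul_mem (V.pow_mem hV.π_mem j) h
  · obtain ⟨j, hj⟩ : ∃ j : ℕ, k = (j : ℤ) + 1 := ⟨(k - 1).toNat, by omega⟩
    have e : π⁻¹ = π ^ j * (π ^ k)⁻¹ := by
      rw [hj, ← zpow_neg, ← zpow_natCast π j, ← zpow_neg_one, ← zpow_add₀ hπ0]
      congr 1
      omega
    rw [e]
    exact V.mul_mem (V.pow_mem hV.π_mem j) h'

/-- **Normalisation of `c * h ^ n`.**  If `c = π ^ z1 * ε` with `ε` a constant unit and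
`c * h ^ n` is a unit of the discrete valuation ring `V` (uniformiser `π`), then
`c * h ^ n = ε * (h * π ^ (-z2)) ^ n` with `z1 + n z2 = 0` and `h * π ^ (-z2)` a unit of `V`.
(`z2` is determined by `z1` and `n`, so the same `u` serves for every such `V`.) -/
theorem S36RD_normalise {π : L} {F : Subfield L} {O V : Subring L} (hV : S34C2_Val π F V)
    (hsep : ∀ x ∈ F, x ≠ 0 → ∃ (z : ℤ) (u : L), u ∈ V ∧ u⁻¹ ∈ V ∧ x = π ^ z * u)
    (hOV : O ≤ V) {n : ℕ} {c h ε : L} {z1 : ℤ} (hε : ε ∈ O) (hε' : ε⁻¹ ∈ O)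
    (hc : c = π ^ z1 * ε) (hc0 : c ≠ 0) (hh : h ∈ F) (hh0 : h ≠ 0)
    (hunit : c * h ^ n ∈ V) (hunit' : (c * h ^ n)⁻¹ ∈ V) :
    ∃ z2 : ℤ, z1 + n * z2 = 0 ∧ h * π ^ (-z2) ∈ V ∧ (h * π ^ (-z2))⁻¹ ∈ V ∧
      c * h ^ n = ε * (h * π ^ (-z2)) ^ n := by
  have hπ0 : π ≠ 0 := by
    intro h0
    apply hV.π_nonunit
    rw [h0, inv_zero]
    exact V.zero_mem
  obtain ⟨z2, u, hu, hu', hhu⟩ := hsep h hh hh0
  have hu0 : u ≠ 0 := by
    rintro rfl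
    rw [mul_zero] at hhu
    exact hh0 hhu
  have hε0 : ε ≠ 0 := by
    rintro rfl
    rw [mul_zero] at hc
    exact hc0 hc
  have e1 : c * h ^ n = π ^ (z1 + n * z2) * (ε * u ^ n) := by
    rw [hc, hhu, mul_pow, zpow_add₀ hπ0, ← zpow_natCast (π ^ z2) n, ← zpow_mul,
      mul_comm z2 (n : ℤ)]
    ring
  have hεu : ε * u ^ n ∈ V ∧ (ε * u ^ n)⁻¹ ∈ V :=
    ⟨V.mul_mem (hOV hε) (V.pow_mem hu n), by
      rw [mul_inv, ← inv_pow]; exact V.mul_mem (hOV hε') (V.pow_mem hu' n)⟩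
  have hεu0 : ε * u ^ n ≠ 0 := mul_ne_zero hε0 (pow_ne_zero _ hu0)
  have hπk0 : π ^ (z1 + n * z2) ≠ 0 := zpow_ne_zero _ hπ0
  have hk1 : π ^ (z1 + n * z2) ∈ V := by
    have : π ^ (z1 + n * z2) = (c * h ^ n) * (ε * u ^ n)⁻¹ := by
      rw [e1]; field_simp
    rw [this]
    exact V.mul_mem hunit hεu.2
  have hk2 : (π ^ (z1 + n * z2))⁻¹ ∈ V := by
    have : (π ^ (z1 + n * z2))⁻¹ = (c * h ^ n)⁻¹ * (ε * u ^ n) := by
      rw [e1]; field_simp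
    rw [this]
    exact V.mul_mem hunit' hεu.1
  have hk := S36RD_zpow_unit hV hk1 hk2
  have hu_eq : h * π ^ (-z2) = u := by
    rw [hhu, zpow_neg]
    have := zpow_ne_zero z2 hπ0
    field_simp
  refine ⟨z2, hk, ?_, ?_, ?_⟩
  · rw [hu_eq]; exact hu
  · rw [hu_eq]; exact hu'
  · rw [hu_eq, e1, hk, zpow_zero, one_mul]

end Calc

/-! ### The combination -/

section Comb

variable {L : Type*} [Field L] {π : L} {F1' F1 : Subfield L} {O Va Vb V1 V2 V3 : Subring L}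

/-- **(II.3) RED, abstract form.**  `Va`, `Vb` discrete valuation rings of `F1'` with
uniformiser `π`; `V1`, `V2` (above `Va`) and `V3` (above `Vb`) valuation rings of `F1`,
`[F1 : F1'] ≤ q`; `V2` ramified of index `≥ q - 1` (witness `t`), `V3` purely inseparable
(witness `y ^ q ≡ x`).  `f` a unit of `V1`, `V2`, `V3` whose norm to `F1'` is `ε1 u1 ^ n`
(`ε1` a constant unit, `u1` a unit of `Va` and of `Vb`) and with `f ^ q ≡ ε2 u2 ^ n` on `V1`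
(the transported norm along `β`).  Then `f` is an `n`-th power modulo `1 + π V1`, modulo
`1 + π V3`, and an `n2`-th power modulo `1 + t V2`, where `q - 1 = d m'`, `n = d n2`,
`gcd (m', n) = 1`. -/
theorem S36RD_abs [CharZero L] (hF : F1' ≤ F1)
    (hVa : S34C2_Val π F1' Va)
    (hsepa : ∀ x ∈ F1', x ≠ 0 → ∃ (z : ℤ) (u : L), u ∈ Va ∧ u⁻¹ ∈ Va ∧ x = π ^ z * u)
    (hVb : S34C2_Val π F1' Vb)
    (hsepb : ∀ x ∈ F1', x ≠ 0 → ∃ (z : ℤ) (u : L), u ∈ Vb ∧ u⁻¹ ∈ Vb ∧ x = π ^ z * u)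
    (h1 : S34C2_Val π F1 V1) (h2 : S34C2_Val π F1 V2) (h3 : S34C2_Val π F1 V3)
    (hVa1 : Va ≤ V1) (hVa2 : Va ≤ V2) (hVb3 : Vb ≤ V3) (hne : V1 ≠ V2)
    {q : ℕ} (hq : q.Prime)
    (hdeg : ∃ s : Finset L, s.card ≤ q ∧ ∀ x ∈ F1, ∃ c : L → L,
      (∀ y, c y ∈ F1') ∧ x = ∑ y ∈ s, c y * y)
    {t : L} (ht : t ∈ V2) (ht0 : t ≠ 0) (htn : t⁻¹ ∉ V2) (htm : π * (t ^ (q - 1))⁻¹ ∈ V2)
    {y x : L} (hy : y ∈ V3) (hx : x ∈ Vb) (hyx : y ^ q - x = 0 ∨ (y ^ q - x)⁻¹ ∉ V3)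
    (hxq : ∀ r ∈ Vb, ∀ v ∈ Vb, r ^ q - x ≠ π * v)
    (hchar : ∃ v ∈ Vb, (q : L) = π * v)
    (hOa : O ≤ Va) (hOb : O ≤ Vb)
    (hconst : ∀ ε ∈ O, ε⁻¹ ∈ O → ∀ k : ℕ, 0 < k →
      ∃ ρ ∈ O, ρ⁻¹ ∈ O ∧ S35TOR_Cg π O ε (ρ ^ k))
    {n d m' n2 : ℕ} (hq1 : q - 1 = d * m') (hnd : n = d * n2) (hn2 : 0 < n2) (hd : 0 < d)
    (hcopm : Nat.Coprime m' n) (hcopq : Nat.Coprime q n)
    {ζ : L} (hζO : ζ ∈ O) (hζ : IsPrimitiveRoot ζ d)
    {f : L} (hf0 : f ≠ 0) (hf1 : f ∈ V1) (hf1' : f⁻¹ ∈ V1) (hf2 : f ∈ V2) (hf2' : f⁻¹ ∈ V2)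
    (hf3 : f ∈ V3) (hf3' : f⁻¹ ∈ V3)
    {ε1 u1 : L} (hε1 : ε1 ∈ O) (hε1' : ε1⁻¹ ∈ O) (hu1a : u1 ∈ Va) (hu1a' : u1⁻¹ ∈ Va)
    (hu1b : u1 ∈ Vb) (hu1b' : u1⁻¹ ∈ Vb)
    (hNα : letI := S34KEY_alg hF
      ((Algebra.norm ↥F1' (⟨f, h1.le hf1⟩ : ↥F1) : ↥F1') : L) = ε1 * u1 ^ n)
    {ε2 u2 : L} (hε2 : ε2 ∈ O) (hε2' : ε2⁻¹ ∈ O) (hu2 : u2 ∈ V1) (hu2' : u2⁻¹ ∈ V1)
    (hβ : S35TOR_Cg π V1 (f ^ q) (ε2 * u2 ^ n)) :
    (∃ G : L, G ∈ V1 ∧ G⁻¹ ∈ V1 ∧ S35TOR_Cg π V1 f (G ^ n)) ∧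
    (∃ G : L, G ∈ V2 ∧ G⁻¹ ∈ V2 ∧ S35TOR_Cg t V2 f (G ^ n2)) ∧
    (∃ G : L, G ∈ V3 ∧ G⁻¹ ∈ V3 ∧ S35TOR_Cg π V3 f (G ^ n)) := by
  have hn : 0 < n := by rw [hnd]; exact Nat.mul_pos hd hn2
  have hm0 : 0 < q - 1 := by have := hq.two_le; omega
  have hdeg' : ∃ s : Finset L, s.card ≤ 1 + (q - 1) ∧ ∀ x ∈ F1, ∃ c : L → L,
      (∀ y, c y ∈ F1') ∧ x = ∑ y ∈ s, c y * y := by
    obtain ⟨s, hs, h⟩ := hdeg
    exact ⟨s, by omega, h⟩
  have H1 : S35TOR_Rad π V1 := S35TOR_rad_of_val h1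
  have H3 : S35TOR_Rad π V3 := S35TOR_rad_of_val h3
  have Ha : S35TOR_Rad π Va := S35TOR_rad_of_val hVa
  -- thin branch `V1`
  obtain ⟨G1, hG1, hG1', hfG1⟩ := S36RD_thin H1 (hOa.trans hVa1) hconst hn hcopq hf0 hf1 hf1'
    hε2 hε2' hu2 hu2' hβ
  have hG10 : G1 ≠ 0 := by
    rintro rfl
    obtain ⟨c, hc, e⟩ := hfG1
    rw [zero_pow hn.ne', zero_mul] at e
    exact hf0 e
  -- thin branch `V3`
  obtain ⟨-, hN3⟩ := S36RD_abs_insep_ex hF hVb hsepb h3 hVb3 hq hdeg hy hx hyx hxq hchar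
  obtain ⟨r3, hr3, er3, v3, hv3, e3⟩ := hN3 f hf3
  have er3' : r3 = ε1 * u1 ^ n := er3.symm.trans hNα
  have hfq0 : f ^ q ≠ 0 := pow_ne_zero _ hf0
  have hfq' : (f ^ q)⁻¹ ∈ V3 := by rw [← inv_pow]; exact V3.pow_mem hf3' q
  have hr30 : r3 ≠ 0 := S36RD_ne_zero_of_congr h3.π_nonunit hfq0 hfq' ⟨v3, hv3, e3⟩
  have hr3' : r3⁻¹ ∈ V3 := by
    rw [er3', mul_inv, ← inv_pow]
    exact V3.mul_mem ((hOb.trans hVb3) hε1') (V3.pow_mem (hVb3 hu1b') n)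
  have c3 : S35TOR_Cg π V3 (f ^ q) (ε1 * u1 ^ n) := by
    rw [← er3']
    exact S35TOR_Cg_of_sub hr3' hr30 ⟨-v3, V3.neg_mem hv3, by linear_combination (-1 : L) * e3⟩
  obtain ⟨G3, hG3, hG3', hfG3⟩ := S36RD_thin H3 (hOb.trans hVb3) hconst hn hcopq hf0 hf3 hf3'
    hε1 hε1' (hVb3 hu1b) (hVb3 hu1b') c3
  -- thick branch `V2`
  obtain ⟨hU1, hU2, hunit, hr1, hr2, hN⟩ :=
    S36RD_abs_ram_ex hF hVa hsepa h1 h2 hVa1 hVa2 hne hm0 hdeg' ht ht0 htn htm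
  obtain ⟨a, ha, b, hb, hfa, hfb, r, hr, er, hNab⟩ := hN f hf1 hf2
  have er' : r = ε1 * u1 ^ n := er.symm.trans hNα
  rw [er'] at hNab
  have hπt : ∃ e ∈ V2, π = t * e := by
    refine ⟨t ^ (q - 1 - 1) * (π * (t ^ (q - 1))⁻¹),
      V2.mul_mem (V2.pow_mem ht _) htm, ?_⟩
    have e1 : t ^ (q - 1) = t * t ^ (q - 1 - 1) := by
      rw [← pow_succ']
      congr 1
      omega
    have ht1 : t ^ (q - 1) ≠ 0 := pow_ne_zero _ ht0
    have e2 : π = t ^ (q - 1) * (π * (t ^ (q - 1))⁻¹) := by field_simp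
    calc π = t ^ (q - 1) * (π * (t ^ (q - 1))⁻¹) := e2
      _ = t * (t ^ (q - 1 - 1) * (π * (t ^ (q - 1))⁻¹)) := by rw [e1]; ring
  have hUa : ∀ x ∈ Va, x⁻¹ ∉ Va → ∃ v ∈ Va, x = π * v := by
    intro x hx hx'
    have hx0 : x ≠ 0 := by
      rintro rfl
      apply hx'
      rw [inv_zero]
      exact Va.zero_mem
    obtain ⟨k, u, hu, hu', e⟩ := S34KEY_nat_of_mem hVa hsepa hx hx0
    rcases Nat.eq_zero_or_pos k with rfl | hk
    · exfalso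
      apply hx'
      rw [e, pow_zero, one_mul]
      exact hu'
    · refine ⟨π ^ (k - 1) * u, Va.mul_mem (Va.pow_mem hVa.π_mem _) hu, ?_⟩
      rw [e, ← mul_assoc, ← pow_succ']
      congr 2
      omega
  have hr1' : ∀ x ∈ V1, ∃ r ∈ Va, ∃ v ∈ V1, x - r = π * v := hr1
  obtain ⟨G2, hG2, hG2', hfG2⟩ := S36RD_mid h1 h2 Ha hOa hVa1 hVa2 ht htn hπt hU2 hUa hr1'
    hconst hq1 hnd hn2 hd hcopm hζO hζ hf0 hf1 hf1' hf2 hf2' hG10 hG1 hG1' hfG1 hε1 hε1'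
    hu1a hu1a' ha hb hfa hfb hNab
  exact ⟨⟨G1, hG1, hG1', hfG1⟩, ⟨G2, hG2, hG2', hfG2⟩, ⟨G3, hG3, hG3', hfG3⟩⟩

end Comb

end Fermat.Agent.S36_helper13_RED
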