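import Fermat.Agent.S36_helper23_V0QK
import Fermat.Agent.S36_helper5_VKDefs

/-!
# S36, the `V_0` facts in the vocabulary of the typed carriers (helper23)

helper5's `S36_helper5_VKDefs` fixes the carriers of the three valuation rings at level
`M' * q * q`:

* `V_∞ = S18K_V A K1 (M' * q * q)`,
* `V_0 = S36VK_V0 A K1 q M' hq hqM`,
* `t = S36VK_t K1 q = j(Q^(q q)) - j`.

This file identifies them with the carriers of `S36_helper23_V0QK` and restates the facts proved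
there VERBATIM on `S36VK_V0` / `S36VK_t`:

* `S36V0QB_image_eq`, `S36V0QB_V0_eq`, `S36V0QB_jqq_eq`, `S36V0QB_t_eq` : the identifications;
* `S36V0QB_le_q`    : the second valuation ring `w_q(V'_∞)` of level `M' * q` lies in `V_0`;
* `S36V0QB_ne`      : `V_0 ≠ V_∞`;
* `S36V0QB_wt`      : `w t = - t`;
* `S36V0QB_t_mem_F`, `S36V0QB_t_ne_zero`, `S36V0QB_t_unit1`, `S36V0QB_t_unit0` : `t` is a unit of
  `V_∞` and of `V_0`;
* `S36V0QB_frob1`, `S36V0QB_frob`, `S36V0QB_frob_nonunit` : the Frobenius congruences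
  (`q * q` spelling);
* `S36V0QB_hw13`, `S36V0QB_hw31`, `S36V0QB_hww`, `S36V0QB_hwmul`, `S36V0QB_hw1`, `S36V0QB_hwπ`,
  `S36V0QB_hwF` : `w` exchanges `V_∞` and `V_0`.
-/

set_option autoImplicit false
set_option linter.unusedSectionVars false
set_option linter.unusedVariables false
set_option linter.style.haveILetI false

noncomputable section

open ModularCurve Fermat.Agent.S24
open Fermat.Agent.S18_helper13_GAUSS Fermat.Agent.S18_helper9_CDefs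
open Fermat.Agent.S18_helper25_COREDefs Fermat.Agent.S34_helper12_CDefs
open Fermat.Agent.S34_helper27_C2Defs Fermat.Agent.S34_helper20_WQ Fermat.Agent.S34_helper20_V0
open Fermat.Agent.S34_helper27_V3K Fermat.Agent.S34_helper20_V0K
open Fermat.Agent.S36_helper20_WQQ Fermat.Agent.S36_helper23_V0Q
open Fermat.Agent.S36_helper23_V0QK Fermat.Agent.S36_helper5_VKDefs

namespace Fermat.Agent.S36_helper23_V0QB

/-! ### the identifications -/

/-- the two carriers `w(V)` agree. -/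
theorem S36V0QB_image_eq {K1 : Type*} [Field K1] (emb : K1 →+* Kbar) (Q M' N : ℕ) [NeZero M']
    [NeZero N] (hcop : Nat.Coprime Q M') (hN : N = Q * M') [NeZero Q]
    (V : Subring (LaurentSeries K1)) :
    S36VK_image emb Q M' N hcop hN V = S36V0Q_image emb Q M' N hcop hN V :=
  Subring.ext fun _ => Iff.rfl

variable (A : ValuationSubring (AlgebraicClosure ℚ))
  (K1 : IntermediateField ℚ (AlgebraicClosure ℚ))

/-- `j(Q^(q q)) = j(Q^(q ^ 2))`. -/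
theorem S36V0QB_jqq_eq (q : ℕ) [NeZero (q * q)] [NeZero (q ^ 2)] :
    qExpand K1 (q * q) (jqModC K1) = qExpand K1 (q ^ 2) (jqModC K1) :=
  S34WQ_qExpand_congr (by ring) _

/-- `t = j(Q^(q ^ 2)) - j`. -/
theorem S36V0QB_t_eq (q : ℕ) [NeZero (q * q)] [NeZero (q ^ 2)] :
    S36VK_t K1 q = qExpand K1 (q ^ 2) (jqModC K1) - jqModC K1 := by
  rw [S36VK_t, S36V0QB_jqq_eq]

variable [IsDiscreteValuationRing (S18K_O1 A K1)]

variable (q M' : ℕ) [NeZero M'] [NeZero (M' * q * q)] [NeZero (q ^ 2)]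
  (hq : q.Prime) (hqM : ¬ q ∣ M')

/-- **the two carriers of `V_0` agree.** -/
theorem S36V0QB_V0_eq [NeZero q] :
    S36VK_V0 A K1 q M' hq hqM =
      S36V0QK_V A K1 q M' (M' * q * q) hq hqM (S36VK_level q M') :=
  Subring.ext fun _ => Iff.rfl

theorem S36V0QB_mem_V0 {y : LaurentSeries K1} :
    y ∈ S36VK_V0 A K1 q M' hq hqM ↔
      y ∈ modularFunctionFieldFullC K1 (M' * q * q) ∧
        S36WQ_wL (S34V0K_emb K1) (q ^ 2) M' (M' * q * q) (S36WQ_cop hq hqM)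
          (S36VK_level q M') y ∈ S18K_V A K1 (M' * q * q) :=
  Iff.rfl

/-! ### `w` exchanges `V_∞` and `V_0` -/

theorem S36V0QB_hwF : ∀ x ∈ S18K_F1 K1 (M' * q * q),
    S36WQ_wL (S34V0K_emb K1) (q ^ 2) M' (M' * q * q) (S36WQ_cop hq hqM) (S36VK_level q M') x ∈
      S18K_F1 K1 (M' * q * q) :=
  fun x _ => S36WQ_wL_mem (S34V0K_emb K1) (q ^ 2) M' (M' * q * q) (S36WQ_cop hq hqM)
    (S36VK_level q M') x

theorem S36V0QB_hw1 :
    S36WQ_wL (S34V0K_emb K1) (q ^ 2) M' (M' * q * q) (S36WQ_cop hq hqM) (S36VK_level q M') 1 =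
      1 :=
  S36V0Q_wL_one (S34V0K_emb K1) (q ^ 2) M' (M' * q * q) (S36WQ_cop hq hqM) (S36VK_level q M')

theorem S36V0QB_hwmul : ∀ x ∈ S18K_F1 K1 (M' * q * q), ∀ y ∈ S18K_F1 K1 (M' * q * q),
    S36WQ_wL (S34V0K_emb K1) (q ^ 2) M' (M' * q * q) (S36WQ_cop hq hqM) (S36VK_level q M')
        (x * y) =
      S36WQ_wL (S34V0K_emb K1) (q ^ 2) M' (M' * q * q) (S36WQ_cop hq hqM) (S36VK_level q M') x *
        S36WQ_wL (S34V0K_emb K1) (q ^ 2) M' (M' * q * q) (S36WQ_cop hq hqM) (S36VK_level q M')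
          y :=
  fun x hx y hy => S36WQ_wL_mul (S34V0K_emb K1) (q ^ 2) M' (M' * q * q) (S36WQ_cop hq hqM)
    (S36VK_level q M') hx hy

theorem S36V0QB_hwπ :
    S36WQ_wL (S34V0K_emb K1) (q ^ 2) M' (M' * q * q) (S36WQ_cop hq hqM) (S36VK_level q M')
      (S18K_π A K1) = S18K_π A K1 :=
  S36WQ_wL_C (S34V0K_emb K1) (q ^ 2) M' (M' * q * q) (S36WQ_cop hq hqM) (S36VK_level q M') _

/-- `w ∘ w = id` on `F1`. -/
theorem S36V0QB_hww : ∀ x ∈ S18K_F1 K1 (M' * q * q),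
    S36WQ_wL (S34V0K_emb K1) (q ^ 2) M' (M' * q * q) (S36WQ_cop hq hqM) (S36VK_level q M')
      (S36WQ_wL (S34V0K_emb K1) (q ^ 2) M' (M' * q * q) (S36WQ_cop hq hqM) (S36VK_level q M')
        x) = x :=
  fun x hx => S36WQ_wL_wL (S34V0K_emb K1) (q ^ 2) M' (M' * q * q) (S36WQ_cop hq hqM)
    (S36VK_level q M') hx

/-- `w V_∞ ⊆ V_0`. -/
theorem S36V0QB_hw13 : ∀ x ∈ S18K_V A K1 (M' * q * q),
    S36WQ_wL (S34V0K_emb K1) (q ^ 2) M' (M' * q * q) (S36WQ_cop hq hqM) (S36VK_level q M') x ∈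
      S36VK_V0 A K1 q M' hq hqM :=
  fun x hx => S36VK_wL_mem_image (S34V0K_emb K1) (q ^ 2) M' (M' * q * q) (S36WQ_cop hq hqM)
    (S36VK_level q M') hx.2 hx

/-- `w V_0 ⊆ V_∞`. -/
theorem S36V0QB_hw31 : ∀ x ∈ S36VK_V0 A K1 q M' hq hqM,
    S36WQ_wL (S34V0K_emb K1) (q ^ 2) M' (M' * q * q) (S36WQ_cop hq hqM) (S36VK_level q M') x ∈
      S18K_V A K1 (M' * q * q) :=
  fun x hx => hx.2

/-! ### the position of `V_0` -/

variable [NeZero q]

include hq hqM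

/-- **`V_0` lies over `V'_0`**: the second valuation ring `w_q(V'_∞)` of level `M' * q` is
contained in `V_0`. -/
theorem S36V0QB_le_q [NeZero (M' * q)] (hN1 : M' * q = q * M') :
    S34V0K_V A K1 q M' (M' * q) hq hqM hN1 ≤ S36VK_V0 A K1 q M' hq hqM := by
  rw [S36V0QB_V0_eq]
  exact S36V0QK_le_q A K1 q M' (M' * q) (M' * q * q) hq hqM hN1 (S36VK_level q M')

/-- `j ∈ V_0`. -/
theorem S36V0QB_j_mem : jqModC K1 ∈ S36VK_V0 A K1 q M' hq hqM := by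
  rw [S36V0QB_V0_eq]
  exact S36V0QK_j_mem A K1 q M' (M' * q * q) hq hqM (S36VK_level q M')

/-- `j(Q^(q q)) ∈ F1`. -/
theorem S36V0QB_jqq_mem_F [NeZero (q * q)] :
    qExpand K1 (q * q) (jqModC K1) ∈ modularFunctionFieldFullC K1 (M' * q * q) := by
  rw [S36V0QB_jqq_eq]
  exact S36V0QK_jqq_mem_F K1 q M' (M' * q * q) hq hqM (S36VK_level q M')

/-- `j(Q^(q q)) ∈ V_∞`. -/
theorem S36V0QB_jqq_mem_V1 [NeZero (q * q)] :
    qExpand K1 (q * q) (jqModC K1) ∈ S18K_V A K1 (M' * q * q) := by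
  rw [S36V0QB_jqq_eq]
  exact S36V0QK_jqq_mem_V1 A K1 q M' (M' * q * q) hq hqM (S36VK_level q M')

/-- `j(Q^(q q)) ∈ V_0`. -/
theorem S36V0QB_jqq_mem [NeZero (q * q)] :
    qExpand K1 (q * q) (jqModC K1) ∈ S36VK_V0 A K1 q M' hq hqM := by
  rw [S36V0QB_jqq_eq, S36V0QB_V0_eq]
  exact S36V0QK_jqq_mem A K1 q M' (M' * q * q) hq hqM (S36VK_level q M')

/-- **Frobenius congruence on `V_∞`**: `j(Q^(q q)) - j^(q ^ 2) ∈ π V_∞`. -/
theorem S36V0QB_frob1 [NeZero (q * q)] (hA : A.LiesOverPrime q) :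
    ∃ v ∈ S18K_V A K1 (M' * q * q),
      qExpand K1 (q * q) (jqModC K1) - jqModC K1 ^ (q ^ 2) = S18K_π A K1 * v := by
  rw [S36V0QB_jqq_eq]
  exact S36V0QK_frob1 A K1 q M' (M' * q * q) hq hqM (S36VK_level q M') hA

/-- **Frobenius congruence on `V_0`**: `j - j(Q^(q q))^(q ^ 2) ∈ π V_0`. -/
theorem S36V0QB_frob [NeZero (q * q)] (hA : A.LiesOverPrime q) :
    ∃ v ∈ S36VK_V0 A K1 q M' hq hqM,
      jqModC K1 - qExpand K1 (q * q) (jqModC K1) ^ (q ^ 2) = S18K_π A K1 * v := by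
  rw [S36V0QB_jqq_eq, S36V0QB_V0_eq]
  exact S36V0QK_frob A K1 q M' (M' * q * q) hq hqM (S36VK_level q M') hA

/-- the shape consumed by KEY3 (`hyx`): `y := j(Q^(q q)) ∈ V_0`, `y^(q ^ 2) - j` is a non-unit
of `V_0`. -/
theorem S36V0QB_frob_nonunit [NeZero (q * q)] (hA : A.LiesOverPrime q) :
    qExpand K1 (q * q) (jqModC K1) ^ (q ^ 2) - jqModC K1 = 0 ∨
      (qExpand K1 (q * q) (jqModC K1) ^ (q ^ 2) - jqModC K1)⁻¹ ∉ S36VK_V0 A K1 q M' hq hqM := by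
  rw [S36V0QB_jqq_eq, S36V0QB_V0_eq]
  exact S36V0QK_frob_nonunit A K1 q M' (M' * q * q) hq hqM (S36VK_level q M') hA

/-- **separating element**: a unit `c` of `V_∞` which lies in `π V_0`. -/
theorem S36V0QB_sep (hA : A.LiesOverPrime q) :
    ∃ c : LaurentSeries K1, c ≠ 0 ∧ c ∈ S18K_V A K1 (M' * q * q) ∧
      c⁻¹ ∈ S18K_V A K1 (M' * q * q) ∧
      ∃ v ∈ S36VK_V0 A K1 q M' hq hqM, c = S18K_π A K1 * v := by
  rw [S36V0QB_V0_eq]
  exact S36V0QK_sep A K1 q M' (M' * q * q) hq hqM (S36VK_level q M') hA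

/-- **`V_0 ≠ V_∞`**. -/
theorem S36V0QB_ne (hA : A.LiesOverPrime q) :
    S36VK_V0 A K1 q M' hq hqM ≠ S18K_V A K1 (M' * q * q) := by
  rw [S36V0QB_V0_eq]
  exact S36V0QK_ne A K1 q M' (M' * q * q) hq hqM (S36VK_level q M') hA

/-- **`V_∞ ≠ V_0`**. -/
theorem S36V0QB_ne' (hA : A.LiesOverPrime q) :
    S18K_V A K1 (M' * q * q) ≠ S36VK_V0 A K1 q M' hq hqM :=
  fun h => S36V0QB_ne A K1 q M' hq hqM hA h.symm

/-! ### the element `t = j(Q^(q q)) - j` -/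

/-- `w t = - t`. -/
theorem S36V0QB_wt [NeZero (q * q)] :
    S36WQ_wL (S34V0K_emb K1) (q ^ 2) M' (M' * q * q) (S36WQ_cop hq hqM) (S36VK_level q M')
      (S36VK_t K1 q) = - S36VK_t K1 q := by
  rw [S36V0QB_t_eq]
  exact S36V0QK_wt K1 q M' (M' * q * q) hq hqM (S36VK_level q M')

/-- `t ∈ F1`. -/
theorem S36V0QB_t_mem_F [NeZero (q * q)] :
    S36VK_t K1 q ∈ modularFunctionFieldFullC K1 (M' * q * q) := by
  rw [S36V0QB_t_eq]
  exact S36V0QK_t_mem_F K1 q M' (M' * q * q) hq hqM (S36VK_level q M')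

/-- `t ≠ 0`. -/
theorem S36V0QB_t_ne_zero [NeZero (q * q)] (hA : A.LiesOverPrime q) : S36VK_t K1 q ≠ 0 := by
  rw [S36V0QB_t_eq]
  exact (S36V0QK_t_unit1 A K1 q M' (M' * q * q) hq hqM (S36VK_level q M') hA).1

/-- `t` is a unit of `V_∞`. -/
theorem S36V0QB_t_unit1 [NeZero (q * q)] (hA : A.LiesOverPrime q) :
    S36VK_t K1 q ∈ S18K_V A K1 (M' * q * q) ∧ (S36VK_t K1 q)⁻¹ ∈ S18K_V A K1 (M' * q * q) := by
  rw [S36V0QB_t_eq]
  exact (S36V0QK_t_unit1 A K1 q M' (M' * q * q) hq hqM (S36VK_level q M') hA).2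

/-- `t` is a unit of `V_0`. -/
theorem S36V0QB_t_unit0 [NeZero (q * q)] (hA : A.LiesOverPrime q) :
    S36VK_t K1 q ∈ S36VK_V0 A K1 q M' hq hqM ∧ (S36VK_t K1 q)⁻¹ ∈ S36VK_V0 A K1 q M' hq hqM := by
  rw [S36V0QB_t_eq, S36V0QB_V0_eq]
  exact S36V0QK_t_unit0 A K1 q M' (M' * q * q) hq hqM (S36VK_level q M') hA

/-- the middle valuation ring is neither `V_∞` nor `V_0`: a valuation ring in which `t` is a
non-unit differs from both. -/
theorem S36V0QB_mid_ne [NeZero (q * q)] (hA : A.LiesOverPrime q)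
    {V2 : Subring (LaurentSeries K1)} (ht : (S36VK_t K1 q)⁻¹ ∉ V2) :
    S18K_V A K1 (M' * q * q) ≠ V2 ∧ V2 ≠ S36VK_V0 A K1 q M' hq hqM := by
  refine ⟨fun h => ht ?_, fun h => ht ?_⟩
  · rw [← h]
    exact (S36V0QB_t_unit1 A K1 q M' hq hqM hA).2
  · rw [h]
    exact (S36V0QB_t_unit0 A K1 q M' hq hqM hA).2

end Fermat.Agent.S36_helper23_V0QB
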