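import Mathlib
import Fermat.Agent.S18_helper9_CDefs
import Fermat.Agent.S34_helper12_CDefs

/-!
# S36, X-D36 Part II (helper3): the leading coefficient (LEAD36)

`L = K((q))`, `O1` a valuation ring of `K`.  `S36XB_W O1` is the ring of power series whose
constant term lies in `O1` - the valuation ring of the rank-two valuation
`(ord_q, v ∘ leading coefficient)`, whose centre on the arithmetic surface is the cusp `∞` of the
special fibre.

* `S36XB_W_val`      : `x ∈ W ∨ x⁻¹ ∈ W`;
* `S36XB_W_unit`     : a unit of `W` has order `0` and its constant term is a unit of `O1`;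
* `S36XB_W_ic`       : `W` is integrally closed in `L`;
* `S36XB_le_W`       : a ring all of whose elements are integral over a subring of `W` lies in `W`
  (in the application: the chart at infinity, integral over `O[x⁻¹]`);
* `S36XB_exists_max` : a maximal ideal `m` of such a ring `A` (with `π ∈ m` for every non-unit
  constant `π`) all of whose non-members are units of `W`;
* `S36XB_lead_shape` : **(LEAD36)** if `f = u g ^ p` with `u` a unit at that `m`, then the leading
  coefficient of `f` is a unit of `O1` times a `p`-th power.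
-/

set_option autoImplicit false
set_option linter.unusedVariables false
set_option linter.unusedSectionVars false

open HahnSeries

noncomputable section

namespace Fermat.Agent.S36_helper3_LEAD

variable {K : Type*} [Field K]

/-- power series with constant term in `O1`, inside `K((q))`. -/
def S36XB_W (O1 : ValuationSubring K) : Subring (LaurentSeries K) :=
  (O1.toSubring.comap (PowerSeries.constantCoeff (R := K))).map (HahnSeries.ofPowerSeries ℤ K)

theorem S36XB_mem_W (O1 : ValuationSubring K) (x : LaurentSeries K) :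
    x ∈ S36XB_W O1 ↔ ∃ p : PowerSeries K, PowerSeries.constantCoeff p ∈ O1 ∧
      HahnSeries.ofPowerSeries ℤ K p = x := by
  unfold S36XB_W
  rw [Subring.mem_map]
  constructor
  · rintro ⟨p, hp, rfl⟩
    exact ⟨p, hp, rfl⟩
  · rintro ⟨p, hp, rfl⟩
    exact ⟨p, hp, rfl⟩

theorem S36XB_ofPS_mem (O1 : ValuationSubring K) {p : PowerSeries K}
    (hp : PowerSeries.constantCoeff p ∈ O1) :
    HahnSeries.ofPowerSeries ℤ K p ∈ S36XB_W O1 :=
  (S36XB_mem_W O1 _).2 ⟨p, hp, rfl⟩

theorem S36XB_C_mem (O1 : ValuationSubring K) {c : K} (hc : c ∈ O1) :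
    (HahnSeries.C c : LaurentSeries K) ∈ S36XB_W O1 := by
  rw [← HahnSeries.ofPowerSeries_C (Γ := ℤ)]
  exact S36XB_ofPS_mem O1 (by rw [PowerSeries.constantCoeff_C]; exact hc)

/-- the constant term of the image of a power series. -/
theorem S36XB_coeff_zero (p : PowerSeries K) :
    (HahnSeries.ofPowerSeries ℤ K p).coeff 0 = PowerSeries.constantCoeff p := by
  have := HahnSeries.ofPowerSeries_apply_coeff (Γ := ℤ) p 0
  simpa using this

/-- the coefficients of negative index of the image of a power series vanish. -/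
theorem S36XB_coeff_neg (p : PowerSeries K) {i : ℤ} (hi : i < 0) :
    (HahnSeries.ofPowerSeries ℤ K p).coeff i = 0 := by
  have := PowerSeries.coeff_coe (R := K) (f := p) i
  rw [if_pos hi] at this
  exact this

/-- the order of the image of a power series with nonzero constant term is `0`. -/
theorem S36XB_order_zero {p : PowerSeries K} (hp : PowerSeries.constantCoeff p ≠ 0) :
    (HahnSeries.ofPowerSeries ℤ K p).order = 0 := by
  have hx : HahnSeries.ofPowerSeries ℤ K p ≠ 0 := by
    intro h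
    apply hp
    rw [← S36XB_coeff_zero, h]
    rfl
  apply le_antisymm
  · apply HahnSeries.order_le_of_coeff_ne_zero
    rw [S36XB_coeff_zero]
    exact hp
  · by_contra hlt
    exact HahnSeries.coeff_order_eq_zero.not.mpr hx (S36XB_coeff_neg p (not_le.mp hlt))

/-- `single k 1 * (power series)` lies in `W` for `k ≥ 1`. -/
theorem S36XB_single_mul_mem (O1 : ValuationSubring K) {k : ℕ} (hk : 1 ≤ k)
    (p : PowerSeries K) :
    (HahnSeries.single (k : ℤ) (1 : K)) * HahnSeries.ofPowerSeries ℤ K p ∈ S36XB_W O1 := by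
  rw [← HahnSeries.ofPowerSeries_X_pow, ← map_mul]
  apply S36XB_ofPS_mem
  obtain ⟨k', rfl⟩ : ∃ k', k = k' + 1 := ⟨k - 1, by omega⟩
  rw [map_mul, map_pow, PowerSeries.constantCoeff_X, pow_succ, mul_zero, zero_mul]
  exact O1.zero_mem

/-- **`W` is a valuation ring of `K((q))`.** -/
theorem S36XB_W_val (O1 : ValuationSubring K) (x : LaurentSeries K) :
    x ∈ S36XB_W O1 ∨ x⁻¹ ∈ S36XB_W O1 := by
  by_cases hx : x = 0
  · left
    rw [hx]
    exact (S36XB_W O1).zero_mem
  have hdec := LaurentSeries.single_order_mul_powerSeriesPart x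
  set P := x.powerSeriesPart with hP
  have hc : PowerSeries.constantCoeff P ≠ 0 := by
    rw [← PowerSeries.coeff_zero_eq_constantCoeff_apply, hP,
      LaurentSeries.powerSeriesPart_coeff]
    simpa using HahnSeries.coeff_order_eq_zero.not.mpr hx
  have hPinv : P * P⁻¹ = 1 := PowerSeries.mul_inv_cancel P hc
  have hinv : x⁻¹ = HahnSeries.single (-x.order) (1 : K) *
      HahnSeries.ofPowerSeries ℤ K P⁻¹ := by
    apply inv_eq_of_mul_eq_one_right
    calc x * (HahnSeries.single (-x.order) (1 : K) * HahnSeries.ofPowerSeries ℤ K P⁻¹)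
        = (HahnSeries.single x.order (1 : K) * HahnSeries.ofPowerSeries ℤ K P) *
          (HahnSeries.single (-x.order) (1 : K) * HahnSeries.ofPowerSeries ℤ K P⁻¹) := by
          rw [hdec]
      _ = (HahnSeries.single x.order (1 : K) * HahnSeries.single (-x.order) (1 : K)) *
          (HahnSeries.ofPowerSeries ℤ K P * HahnSeries.ofPowerSeries ℤ K P⁻¹) := by ring
      _ = 1 := by
          rw [HahnSeries.single_mul_single, ← map_mul, hPinv, map_one, add_neg_cancel, mul_one,
            mul_one]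
          rfl
  rcases lt_trichotomy x.order 0 with hn | hn | hn
  · right
    rw [hinv]
    obtain ⟨k, hk⟩ : ∃ k : ℕ, (k : ℤ) = -x.order := ⟨(-x.order).toNat, by omega⟩
    rw [← hk]
    exact S36XB_single_mul_mem O1 (by omega) _
  · have hx' : x = HahnSeries.ofPowerSeries ℤ K P := by
      rw [← hdec, hn]
      have : (HahnSeries.single (0 : ℤ) (1 : K)) = 1 := rfl
      rw [this, one_mul]
    have hinv' : x⁻¹ = HahnSeries.ofPowerSeries ℤ K P⁻¹ := by
      rw [hinv, hn, neg_zero]
      have : (HahnSeries.single (0 : ℤ) (1 : K)) = 1 := rfl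
      rw [this, one_mul]
    rcases O1.mem_or_inv_mem (PowerSeries.constantCoeff P) with h | h
    · left
      rw [hx']
      exact S36XB_ofPS_mem O1 h
    · right
      rw [hinv']
      apply S36XB_ofPS_mem
      rw [PowerSeries.constantCoeff_inv]
      exact h
  · left
    rw [← hdec]
    obtain ⟨k, hk⟩ : ∃ k : ℕ, (k : ℤ) = x.order := ⟨x.order.toNat, by omega⟩
    rw [← hk]
    exact S36XB_single_mul_mem O1 (by omega) _

/-- **units of `W`**: order `0`, constant term a unit of `O1`. -/
theorem S36XB_W_unit (O1 : ValuationSubring K) {x : LaurentSeries K} (hx0 : x ≠ 0)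
    (hx : x ∈ S36XB_W O1) (hx' : x⁻¹ ∈ S36XB_W O1) :
    x.order = 0 ∧ x.leadingCoeff ∈ O1 ∧ (x.leadingCoeff)⁻¹ ∈ O1 := by
  obtain ⟨p, hp, rfl⟩ := (S36XB_mem_W O1 x).1 hx
  obtain ⟨p', hp', hpp⟩ := (S36XB_mem_W O1 _).1 hx'
  have h1 : p * p' = 1 := by
    apply HahnSeries.ofPowerSeries_injective (Γ := ℤ)
    rw [map_mul, hpp, map_one, mul_inv_cancel₀ hx0]
  have h2 : PowerSeries.constantCoeff p * PowerSeries.constantCoeff p' = 1 := by
    rw [← map_mul, h1, map_one]
  have hc0 : PowerSeries.constantCoeff p ≠ 0 := left_ne_zero_of_mul_eq_one h2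
  have hord := S36XB_order_zero hc0
  have hlead : (HahnSeries.ofPowerSeries ℤ K p).leadingCoeff = PowerSeries.constantCoeff p := by
    rw [HahnSeries.leadingCoeff_eq, hord, S36XB_coeff_zero]
  refine ⟨hord, ?_, ?_⟩
  · rw [hlead]
    exact hp
  · rw [hlead, inv_eq_of_mul_eq_one_right h2]
    exact hp'

/-- the non-units of `W` are stable under addition. -/
theorem S36XB_W_add_nonunit (O1 : ValuationSubring K) {a b : LaurentSeries K}
    (ha : a ∈ S36XB_W O1) (hb : b ∈ S36XB_W O1) (ha' : a = 0 ∨ a⁻¹ ∉ S36XB_W O1)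
    (hb' : b = 0 ∨ b⁻¹ ∉ S36XB_W O1) :
    a + b = 0 ∨ (a + b)⁻¹ ∉ S36XB_W O1 := by
  rcases ha' with rfl | ha'
  · rw [zero_add]
    exact hb'
  rcases hb' with rfl | hb'
  · rw [add_zero]
    exact Or.inr ha'
  by_cases hab : a + b = 0
  · exact Or.inl hab
  right
  intro h
  have ha0 : a ≠ 0 := by
    rintro rfl
    exact ha' (by rw [inv_zero]; exact (S36XB_W O1).zero_mem)
  have hb0 : b ≠ 0 := by
    rintro rfl
    exact hb' (by rw [inv_zero]; exact (S36XB_W O1).zero_mem)
  rcases S36XB_W_val O1 (a * b⁻¹) with h1 | h1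
  · -- `a + b = b (1 + a / b)`, so `b⁻¹ = (1 + a / b) (a + b)⁻¹`
    apply hb'
    have : b⁻¹ = (1 + a * b⁻¹) * (a + b)⁻¹ := by
      field_simp
      ring
    rw [this]
    exact (S36XB_W O1).mul_mem ((S36XB_W O1).add_mem (S36XB_W O1).one_mem h1) h
  · apply ha'
    rw [mul_inv, inv_inv] at h1
    have : a⁻¹ = (1 + a⁻¹ * b) * (a + b)⁻¹ := by
      field_simp
    rw [this]
    exact (S36XB_W O1).mul_mem ((S36XB_W O1).add_mem (S36XB_W O1).one_mem h1) h

/-- **`W` is integrally closed in `K((q))`.** -/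
theorem S36XB_W_ic (O1 : ValuationSubring K) {y : LaurentSeries K}
    (hy : IsIntegral (S36XB_W O1) y) : y ∈ S36XB_W O1 := by
  rcases S36XB_W_val O1 y with h | hinv
  · exact h
  by_cases hy0 : y = 0
  · rw [hy0]; exact (S36XB_W O1).zero_mem
  obtain ⟨P, hP, hPy⟩ := hy
  have hn : P.natDegree ≠ 0 := by
    intro h0
    have h1 : P = 1 := Polynomial.eq_one_of_monic_natDegree_zero hP h0
    rw [h1, Polynomial.eval₂_one] at hPy
    exact one_ne_zero hPy
  rw [Polynomial.eval₂_eq_sum_range, Finset.sum_range_succ, hP.coeff_natDegree, map_one,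
    one_mul] at hPy
  obtain ⟨n, hn'⟩ := Nat.exists_eq_succ_of_ne_zero hn
  rw [hn'] at hPy
  simp only [Nat.succ_eq_add_one] at hPy
  have h1 : y ^ (n + 1) = - ∑ i ∈ Finset.range (n + 1),
      algebraMap (S36XB_W O1) (LaurentSeries K) (P.coeff i) * y ^ i := by
    linear_combination hPy
  have h2 : y = y ^ (n + 1) * (y⁻¹) ^ n := by
    rw [pow_succ, inv_pow]
    field_simp
  have key : y = - ∑ i ∈ Finset.range (n + 1),
      (algebraMap (S36XB_W O1) (LaurentSeries K) (P.coeff i)) * (y⁻¹) ^ (n - i) := by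
    calc y = y ^ (n + 1) * (y⁻¹) ^ n := h2
      _ = (- ∑ i ∈ Finset.range (n + 1),
            algebraMap (S36XB_W O1) (LaurentSeries K) (P.coeff i) * y ^ i) * (y⁻¹) ^ n := by
          rw [h1]
      _ = - ∑ i ∈ Finset.range (n + 1),
            (algebraMap (S36XB_W O1) (LaurentSeries K) (P.coeff i)) * (y⁻¹) ^ (n - i) := by
          rw [neg_mul, Finset.sum_mul]
          congr 1
          refine Finset.sum_congr rfl fun i hi => ?_
          have hi' : i ≤ n := Nat.lt_succ_iff.mp (Finset.mem_range.mp hi)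
          have h3 : y ^ i * (y⁻¹) ^ n = (y⁻¹) ^ (n - i) := by
            have : (y⁻¹) ^ n = (y⁻¹) ^ (n - i) * (y⁻¹) ^ i := by
              rw [← _root_.pow_add, Nat.sub_add_cancel hi']
            rw [this, inv_pow y i]
            field_simp
          rw [mul_assoc, h3]
  rw [key]
  refine (S36XB_W O1).neg_mem ((S36XB_W O1).sum_mem fun i _ =>
    (S36XB_W O1).mul_mem ?_ ((S36XB_W O1).pow_mem hinv _))
  exact (P.coeff i).2

/-- a ring whose elements are integral over a subring of `W` lies in `W`. -/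
theorem S36XB_le_W (O1 : ValuationSubring K) {R A : Subring (LaurentSeries K)}
    (hR : R ≤ S36XB_W O1) (hA : ∀ a ∈ A, IsIntegral R a) : A ≤ S36XB_W O1 := by
  intro a ha
  apply S36XB_W_ic
  obtain ⟨P, hP, hPa⟩ := hA a ha
  refine ⟨P.map (Subring.inclusion hR), hP.map _, ?_⟩
  rw [Polynomial.eval₂_map]
  exact hPa

/-! ### The point at the cusp and (LEAD36) -/

section Cusp

variable (O1 : ValuationSubring K) {O A : Subring (LaurentSeries K)}

/-- **the point at the cusp**: for a ring `A ≤ W` there is a maximal ideal `m` of `A` which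
contains every element of `A` that is not a unit of `W`. -/
theorem S36XB_exists_max (hA : A ≤ S36XB_W O1) :
    ∃ m : Ideal A, m.IsMaximal ∧
      (∀ a : A, ((a : LaurentSeries K) = 0 ∨ (a : LaurentSeries K)⁻¹ ∉ S36XB_W O1) → a ∈ m) := by
  let I : Ideal A :=
    { carrier := {a | (a : LaurentSeries K) = 0 ∨ (a : LaurentSeries K)⁻¹ ∉ S36XB_W O1}
      add_mem' := by
        intro a b ha hb
        exact S36XB_W_add_nonunit O1 (hA a.2) (hA b.2) ha hb
      zero_mem' := Or.inl rfl
      smul_mem' := by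
        intro c a ha
        show ((c * a : A) : LaurentSeries K) = 0 ∨ ((c * a : A) : LaurentSeries K)⁻¹ ∉ _
        rcases ha with ha | ha
        · left
          rw [Subring.coe_mul, ha, mul_zero]
        · by_cases hc : (c : LaurentSeries K) = 0
          · left
            rw [Subring.coe_mul, hc, zero_mul]
          · right
            intro h
            apply ha
            have : (a : LaurentSeries K)⁻¹ = (c : LaurentSeries K) *
                ((c * a : A) : LaurentSeries K)⁻¹ := by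
              rw [Subring.coe_mul, mul_inv, ← mul_assoc, mul_inv_cancel₀ hc, one_mul]
            rw [this]
            exact (S36XB_W O1).mul_mem (hA c.2) h }
  have hI : I ≠ ⊤ := by
    intro h
    have h1 : (1 : A) ∈ I := by rw [h]; trivial
    rcases h1 with h1 | h1
    · rw [Subring.coe_one] at h1
      exact one_ne_zero h1
    · apply h1
      rw [Subring.coe_one, inv_one]
      exact (S36XB_W O1).one_mem
  obtain ⟨m, hm, hIm⟩ := Ideal.exists_le_maximal I hI
  exact ⟨m, hm, fun a ha => hIm ha⟩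

/-- `leadingCoeff` of a power. -/
theorem S36XB_leadingCoeff_pow (g : LaurentSeries K) (p : ℕ) :
    (g ^ p).leadingCoeff = g.leadingCoeff ^ p := by
  induction p with
  | zero => simp
  | succ n ih => rw [pow_succ, HahnSeries.leadingCoeff_mul, ih, pow_succ]

/-- **(LEAD36), local form**: `u = a / c` and `u⁻¹ = a' / c'` with `a, c, a', c' ∈ A ≤ W` and
`c`, `c'` units of `W`: then `u` has order `0` and its leading coefficient is a unit of `O1`. -/
theorem S36XB_unit_of_frac (hA : A ≤ S36XB_W O1) {u : LaurentSeries K} (hu0 : u ≠ 0)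
    {a c a' c' : A} (hc : (c : LaurentSeries K) ≠ 0 ∧ (c : LaurentSeries K)⁻¹ ∈ S36XB_W O1)
    (hc' : (c' : LaurentSeries K) ≠ 0 ∧ (c' : LaurentSeries K)⁻¹ ∈ S36XB_W O1)
    (hu : u * (c : LaurentSeries K) = a) (hu' : u⁻¹ * (c' : LaurentSeries K) = a') :
    u.order = 0 ∧ u.leadingCoeff ∈ O1 ∧ (u.leadingCoeff)⁻¹ ∈ O1 := by
  have h1 : u = (a : LaurentSeries K) * (c : LaurentSeries K)⁻¹ := by
    rw [← hu, mul_assoc, mul_inv_cancel₀ hc.1, mul_one]
  have h2 : u⁻¹ = (a' : LaurentSeries K) * (c' : LaurentSeries K)⁻¹ := by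
    rw [← hu', mul_assoc, mul_inv_cancel₀ hc'.1, mul_one]
  refine S36XB_W_unit O1 hu0 ?_ ?_
  · rw [h1]
    exact (S36XB_W O1).mul_mem (hA a.2) hc.2
  · rw [h2]
    exact (S36XB_W O1).mul_mem (hA a'.2) hc'.2

open Fermat.Agent.S34_helper12_CDefs in
/-- **(LEAD36)**: at the point `m` of `S36XB_exists_max`, the shape `f = u g ^ p` gives
`lead f = (unit of O1) * (lead g) ^ p`. -/
theorem S36XB_lead_shape (hA : A ≤ S36XB_W O1) (m : Ideal A)
    (hm : ∀ a : A, ((a : LaurentSeries K) = 0 ∨ (a : LaurentSeries K)⁻¹ ∉ S36XB_W O1) → a ∈ m)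
    {π : LaurentSeries K} {F1 : Subfield (LaurentSeries K)} {V : Subring (LaurentSeries K)}
    {p : ℕ} (hp : p ≠ 0) {f G : LaurentSeries K} (hf0 : f ≠ 0)
    (hshape : S34C_Shape π F1 V A p f G m) :
    ∃ (ε : K) (g : LaurentSeries K), ε ∈ O1 ∧ ε⁻¹ ∈ O1 ∧ ε ≠ 0 ∧ g ≠ 0 ∧
      f.leadingCoeff = ε * g.leadingCoeff ^ p := by
  obtain ⟨u, g, w, ⟨a, c, hc, hu⟩, ⟨a', c', hc', hu'⟩, hgF, hgV, hgV', hf, -⟩ := hshape
  have hu0 : u ≠ 0 := by
    rintro rfl
    rw [zero_mul] at hf
    exact hf0 hf
  have hg0 : g ≠ 0 := by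
    rintro rfl
    rw [zero_pow hp, mul_zero] at hf
    exact hf0 hf
  have hcu : (c : LaurentSeries K) ≠ 0 ∧ (c : LaurentSeries K)⁻¹ ∈ S36XB_W O1 := by
    constructor
    · intro h0
      exact hc (hm c (Or.inl h0))
    · by_contra h
      exact hc (hm c (Or.inr h))
  have hcu' : (c' : LaurentSeries K) ≠ 0 ∧ (c' : LaurentSeries K)⁻¹ ∈ S36XB_W O1 := by
    constructor
    · intro h0
      exact hc' (hm c' (Or.inl h0))
    · by_contra h
      exact hc' (hm c' (Or.inr h))
  obtain ⟨-, h1, h2⟩ := S36XB_unit_of_frac O1 hA hu0 hcu hcu' hu hu'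
  refine ⟨u.leadingCoeff, g, h1, h2, HahnSeries.leadingCoeff_ne_zero.mpr hu0, hg0, ?_⟩
  rw [hf, HahnSeries.leadingCoeff_mul, S36XB_leadingCoeff_pow]

end Cusp

end Fermat.Agent.S36_helper3_LEAD
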