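import Mathlib
import Fermat.Agent.S18_helper25_CORE
import Fermat.Agent.S18_helper25_COREA
import Fermat.Agent.S18_helper27_RESALGCL
import Fermat.Agent.S34_helper25_Defs
import Fermat.Agent.S36_helper2_C3
import Fermat.Agent.S36_helper3_LEAD
import Fermat.Agent.S36_helper3_XBPT

/-!
# S36, X-D36 Part II (helper3): the closing step at the concrete carriers

Level `N`, `A` a valuation ring of `ℚ̄` over `q`, `K1` an admissible level; carriers
`O = S18K_O A K1`, `π = S18K_π A K1`, `F1 = S18K_F1 K1 N`, charts `S18K_A0`, `S18K_Ainf`;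
`W₁, W₂, W₃` ANY three subrings with `S34C2_Val` and an `S34C_Setup` for `V = W₁ ⊓ W₂ ⊓ W₃`
(in the application `W₁ = S18K_V A K1 N`, `W₂ = V_mid`, `W₃ = V_0`).

* `S36XB_Ainf_le_W`  : `Ainf ≤ W` (`W` = power series with constant term in `O1`);
* `S36XB_pi_nonunit_W` : `π⁻¹ ∉ W`;
* `S36XB_exists_rho` : every unit of `O1` is a `lam`-th power modulo `π` (the residue field is
  algebraically closed);
* `S36XB_lead`       : (LEAD36) at the carriers: `lead f1 = ε γ ^ lam`, `ε` a unit of `O1`, from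
  the local contract at the cusp `∞`;
* `S36XB_close`      : **the closing step**: a function `f1 ∈ F1` whose divisor over `ℚ̄` is
  divisible by `lam`, with `RedPow` and the local contract `S36XB_Pt` at every maximal ideal over
  `π` of both charts, is a CONSTANT times a `lam`-th power in `F1`.
-/

set_option autoImplicit false
set_option linter.unusedSectionVars false
set_option linter.unusedVariables false
set_option linter.style.haveILetI false

open HahnSeries IntermediateField AlgebraicCurve ModularCurve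
open Fermat.Agent.S18_helper9_CDefs Fermat.Agent.S18_helper25_COREDefs
  Fermat.Agent.S34_helper12_CDefs Fermat.Agent.S34_helper25_Defs
  Fermat.Agent.S34_helper27_C2Defs Fermat.Agent.S34_helper27_C2ADAPT
  Fermat.Agent.S36_helper2_C3 Fermat.Agent.S36_helper3_XBCORE
  Fermat.Agent.S36_helper3_LEAD Fermat.Agent.S36_helper3_XBPT

noncomputable section

namespace Fermat.Agent.S36_helper3_CLOSE

local notation "Qb" => AlgebraicClosure ℚ

section Level

variable (A : ValuationSubring Qb) (K1 : IntermediateField ℚ Qb)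
  [IsDiscreteValuationRing (S18K_O1 A K1)]

/-- the constants of `O1` lie in `W`. -/
theorem S36XB_O_le_W : S18K_O A K1 ≤ S36XB_W (S18K_O1 A K1) := by
  intro x hx
  obtain ⟨c, hc, rfl⟩ := (S18K_mem_O A K1 x).1 hx
  exact S36XB_C_mem (S18K_O1 A K1) hc

/-- `j⁻¹ ∈ W`. -/
theorem S36XB_jinv_mem_W : (S18K_j K1)⁻¹ ∈ S36XB_W (S18K_O1 A K1) := by
  have h1 : ((S18K_j K1)⁻¹ : LaurentSeries K1).order = ((1 : ℕ) : ℤ) := by
    rw [S18K_j, Fermat.Agent.S18_helper25_CORE.S18K_order_jqModC_inv]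
    rfl
  have h2 := LaurentSeries.single_order_mul_powerSeriesPart ((S18K_j K1)⁻¹ : LaurentSeries K1)
  rw [← h2, h1]
  exact S36XB_single_mul_mem (S18K_O1 A K1) le_rfl _

/-- `O[j⁻¹] ≤ W`. -/
theorem S36XB_adj_le_W : adj (S18K_O A K1) (S18K_j K1)⁻¹ ≤ S36XB_W (S18K_O1 A K1) := by
  unfold adj
  rw [Subring.closure_le]
  rintro x (hx | hx)
  · exact S36XB_O_le_W A K1 hx
  · rw [Set.mem_singleton_iff] at hx
    rw [hx]
    exact S36XB_jinv_mem_W A K1

/-- **the chart at infinity lies in `W`.** -/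
theorem S36XB_Ainf_le_W (N : ℕ) : S18K_Ainf A K1 N ≤ S36XB_W (S18K_O1 A K1) :=
  S36XB_le_W (S18K_O1 A K1) (S36XB_adj_le_W A K1) (fun a ha => (mem_icl.1 ha).1)

/-- `π = C ϖ` with `ϖ ∈ O1`. -/
theorem S36XB_pi_eq : S18K_π A K1 = HahnSeries.C (((S18K_D A K1).π : S18K_O1 A K1) : K1) := rfl

/-- `π` is not a unit of `W`. -/
theorem S36XB_pi_nonunit_W : (S18K_π A K1)⁻¹ ∉ S36XB_W (S18K_O1 A K1) := by
  intro h
  have hϖ0 : (((S18K_D A K1).π : S18K_O1 A K1) : K1) ≠ 0 := by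
    intro h0
    exact (S18K_D A K1).π_ne_zero (Subtype.ext h0)
  have hπ0 : S18K_π A K1 ≠ 0 := by
    rw [S36XB_pi_eq]
    intro h0
    exact hϖ0 (HahnSeries.C_injective (by rw [h0, map_zero]))
  have hπW : S18K_π A K1 ∈ S36XB_W (S18K_O1 A K1) := by
    rw [S36XB_pi_eq]
    exact S36XB_C_mem _ ((S18K_D A K1).π).2
  obtain ⟨-, -, h3⟩ := S36XB_W_unit (S18K_O1 A K1) hπ0 hπW h
  have hlead : (S18K_π A K1).leadingCoeff = (((S18K_D A K1).π : S18K_O1 A K1) : K1) := by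
    rw [S36XB_pi_eq, HahnSeries.C_apply, HahnSeries.leadingCoeff_of_single]
  rw [hlead] at h3
  -- `ϖ` is a unit of `O1`: contradiction with `res ϖ = 0`
  have hres : (S18K_D A K1).res (S18K_D A K1).π = 0 :=
    ((S18K_D A K1).res_eq_zero_iff _).2 ⟨1, (mul_one _).symm⟩
  have hunit : IsUnit ((S18K_D A K1).π : S18K_O1 A K1) := by
    refine IsUnit.of_mul_eq_one (⟨_, h3⟩ : S18K_O1 A K1) ?_
    apply Subtype.ext
    show (((S18K_D A K1).π : S18K_O1 A K1) : K1) * (((S18K_D A K1).π : S18K_O1 A K1) : K1)⁻¹ = 1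
    exact mul_inv_cancel₀ hϖ0
  have := hunit.map (S18K_D A K1).res
  rw [hres] at this
  exact not_isUnit_zero this

/-- **every unit of `O1` is a `lam`-th power modulo `π`** (`lam ≥ 1`): the residue field of an
admissible level is algebraically closed. -/
theorem S36XB_exists_rho {q : ℕ} (hadm : S18K_Admissible A K1 q) {lam : ℕ} (hlam : 0 < lam)
    {ε : K1} (hε : ε ∈ S18K_O1 A K1) (hε' : ε⁻¹ ∈ S18K_O1 A K1) (hε0 : ε ≠ 0) :
    ∃ ρ : LaurentSeries K1, ρ ∈ S18K_O A K1 ∧ ρ⁻¹ ∈ S18K_O A K1 ∧ ρ ≠ 0 ∧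
      ∃ o ∈ S18K_O A K1, ρ ^ lam - HahnSeries.C ε = S18K_π A K1 * o := by
  haveI : IsAlgClosed (IsLocalRing.ResidueField A) :=
    Fermat.Agent.S18_helper27_RESALGCL.S18RES_isAlgClosed_residueField_Qbar A
  set e : S18K_O1 A K1 := ⟨ε, hε⟩ with he
  have heu : IsUnit e := by
    refine IsUnit.of_mul_eq_one (⟨ε⁻¹, hε'⟩ : S18K_O1 A K1) ?_
    apply Subtype.ext
    show ε * ε⁻¹ = 1
    exact mul_inv_cancel₀ hε0
  have hres0 : S18K_res A K1 e ≠ 0 := (heu.map (S18K_res A K1)).ne_zero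
  obtain ⟨β, hβ⟩ := IsAlgClosed.exists_pow_nat_eq (S18K_res A K1 e) hlam
  obtain ⟨r, hr⟩ := hadm.res_surj β
  have hβ0 : β ≠ 0 := by
    rintro rfl
    rw [zero_pow hlam.ne'] at hβ
    exact hres0 hβ.symm
  have hru : IsUnit r := by
    rw [← IsLocalRing.notMem_maximalIdeal, ← S18K_res_eq_zero_iff, hr]
    exact hβ0
  obtain ⟨r', hr'⟩ := hru.exists_right_inv
  have hr0 : (r : K1) ≠ 0 := by
    intro h0
    have : (r : K1) * (r' : K1) = 1 := congrArg Subtype.val hr'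
    rw [h0, zero_mul] at this
    exact zero_ne_one this
  have hrinv : (r : K1)⁻¹ = (r' : K1) := by
    have : (r : K1) * (r' : K1) = 1 := congrArg Subtype.val hr'
    exact inv_eq_of_mul_eq_one_right this
  have hker : (S18K_D A K1).res (r ^ lam - e) = 0 := by
    show S18K_res A K1 (r ^ lam - e) = 0
    rw [map_sub, map_pow, hr, hβ, sub_self]
  obtain ⟨y, hy⟩ := ((S18K_D A K1).res_eq_zero_iff _).1 hker
  have hy' : (r : K1) ^ lam - ε = (((S18K_D A K1).π : S18K_O1 A K1) : K1) * (y : K1) := by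
    have := congrArg Subtype.val hy
    exact this
  refine ⟨HahnSeries.C (r : K1), (S18K_mem_O A K1 _).2 ⟨r, r.2, rfl⟩, ?_, ?_,
    HahnSeries.C (y : K1), (S18K_mem_O A K1 _).2 ⟨y, y.2, rfl⟩, ?_⟩
  · rw [← map_inv₀, hrinv]
    exact (S18K_mem_O A K1 _).2 ⟨r', r'.2, rfl⟩
  · intro h0
    exact hr0 (HahnSeries.C_injective (by rw [h0, map_zero]))
  · rw [S36XB_pi_eq, ← map_pow, ← map_sub, ← map_mul, hy']

variable (N : ℕ) [NeZero N] {W1 W2 W3 : Subring (LaurentSeries K1)}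

/-- **(LEAD36) at the concrete carriers**: from the local contract at the maximal ideals over `π`
of the chart at infinity, the leading coefficient of `f1` is a unit of `O1` times a `lam`-th
power. -/
theorem S36XB_lead
    (S : S34C_Setup (S18K_O A K1) (S18K_π A K1) (S18K_j K1) (S18K_F1 K1 N)
      (W1 ⊓ W2 ⊓ W3 : Subring (LaurentSeries K1)) (S18K_A0 A K1 N) (S18K_Ainf A K1 N))
    {lam : ℕ} (hlam : lam ≠ 0) (f1 G : LaurentSeries K1) (hf10 : f1 ≠ 0)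
    (hptInf : ∀ (hπ : S18K_π A K1 ∈ S18K_Ainf A K1 N) (m : Ideal (S18K_Ainf A K1 N)),
      m.IsMaximal → (⟨S18K_π A K1, hπ⟩ : S18K_Ainf A K1 N) ∈ m →
      S36XB_Pt (S18K_π A K1) (S18K_F1 K1 N) W1 W2 W3 (S18K_Ainf A K1 N) lam f1 G m) :
    ∃ (ε γ : K1), ε ∈ S18K_O1 A K1 ∧ ε⁻¹ ∈ S18K_O1 A K1 ∧ ε ≠ 0 ∧ γ ≠ 0 ∧
      f1.leadingCoeff = ε * γ ^ lam := by
  have hA := S36XB_Ainf_le_W A K1 N
  obtain ⟨m, hm, hmW⟩ := S36XB_exists_max (S18K_O1 A K1) hA
  have hπ : S18K_π A K1 ∈ S18K_Ainf A K1 N := S36C3_pi_mem S S.chartInf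
  have hπm : (⟨S18K_π A K1, hπ⟩ : S18K_Ainf A K1 N) ∈ m :=
    hmW _ (Or.inr (S36XB_pi_nonunit_W A K1))
  obtain ⟨V', hshape⟩ := S36XB_pt_weak (hptInf hπ m hm hπm)
  obtain ⟨ε, g, h1, h2, h3, h4, h5⟩ :=
    S36XB_lead_shape (S18K_O1 A K1) hA m hmW hlam hf10 hshape
  exact ⟨ε, g.leadingCoeff, h1, h2, h3, HahnSeries.leadingCoeff_ne_zero.mpr h4, h5⟩

/-- **X-D36 Part II, the closing step at the concrete carriers.**  `f1 ∈ F1` nonzero, all of
whose divisorial orders over `ℚ̄` are divisible by the prime `lam ≠ q`, with a root `G` modulo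
`π V` (`RedPow`) and the local contract `S36XB_Pt` at every maximal ideal over `π` of both
charts: then `f1 = C ε * h ^ lam` with `ε ≠ 0` a constant and `h ∈ F1`. -/
theorem S36XB_close {q : ℕ} [Fact q.Prime] (hA : A.LiesOverPrime q)
    (hadm : S18K_Admissible A K1 q)
    (S : S34C_Setup (S18K_O A K1) (S18K_π A K1) (S18K_j K1) (S18K_F1 K1 N)
      (W1 ⊓ W2 ⊓ W3 : Subring (LaurentSeries K1)) (S18K_A0 A K1 N) (S18K_Ainf A K1 N))
    (H1 : S34C2_Val (S18K_π A K1) (S18K_F1 K1 N) W1)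
    (H2 : S34C2_Val (S18K_π A K1) (S18K_F1 K1 N) W2)
    (H3 : S34C2_Val (S18K_π A K1) (S18K_F1 K1 N) W3)
    {lam : ℕ} (hlam : lam.Prime) (hne : lam ≠ q)
    (f1 G : LaurentSeries K1) (hf1 : f1 ∈ S18K_F1 K1 N) (hf10 : f1 ≠ 0)
    (hord : ∀ P : Place Qb (modularFunctionFieldBar N),
      (lam : ℤ) ∣ P.ord (S34XD_inc K1 N ⟨f1, hf1⟩))
    (hred : RedPow (S18K_π A K1) (W1 ⊓ W2 ⊓ W3 : Subring (LaurentSeries K1)) lam f1 G)
    (hpt0 : ∀ (hπ : S18K_π A K1 ∈ S18K_A0 A K1 N) (m : Ideal (S18K_A0 A K1 N)),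
      m.IsMaximal → (⟨S18K_π A K1, hπ⟩ : S18K_A0 A K1 N) ∈ m →
      S36XB_Pt (S18K_π A K1) (S18K_F1 K1 N) W1 W2 W3 (S18K_A0 A K1 N) lam f1 G m)
    (hptInf : ∀ (hπ : S18K_π A K1 ∈ S18K_Ainf A K1 N) (m : Ideal (S18K_Ainf A K1 N)),
      m.IsMaximal → (⟨S18K_π A K1, hπ⟩ : S18K_Ainf A K1 N) ∈ m →
      S36XB_Pt (S18K_π A K1) (S18K_F1 K1 N) W1 W2 W3 (S18K_Ainf A K1 N) lam f1 G m) :
    ∃ (ε : K1) (h : LaurentSeries K1), ε ≠ 0 ∧ h ∈ S18K_F1 K1 N ∧
      f1 = HahnSeries.C ε * h ^ lam := by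
  haveI : CharZero (LaurentSeries K1) :=
    charZero_of_injective_ringHom (HahnSeries.C_injective (Γ := ℤ) (R := K1))
  -- the order at the cusp
  have hπ0 : S18K_π A K1 ≠ 0 := S36C3_pi_ne_zero S
  have hF : coeffMap (algebraMap K1 Qb) f1 ∈ modularFunctionFieldBar N :=
    (S34XD_inc K1 N ⟨f1, hf1⟩).2
  have hdiv : ∀ P : Place Qb (modularFunctionFieldBar N),
      (lam : ℤ) ∣ P.ord ⟨coeffMap (algebraMap K1 Qb) f1, hF⟩ := by
    intro P
    have e : (⟨coeffMap (algebraMap K1 Qb) f1, hF⟩ : modularFunctionFieldBar N) =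
        S34XD_inc K1 N ⟨f1, hf1⟩ := Subtype.ext rfl
    rw [e]
    exact hord P
  obtain ⟨-, hordq⟩ := Fermat.Agent.S18_helper25_CORE.S18K_powDiv_and_order
    (algebraMap K1 Qb) N (S18K_O A K1) (S18K_π A K1) hπ0
    (fun c => Fermat.Agent.S18_helper25_CORE.S18K_const_mul_pow A K1 c) lam f1 hf1 hf10 hF hdiv
  -- the leading coefficient
  obtain ⟨ε, γ, hε, hε', hε0, hγ0, hlead⟩ := S36XB_lead A K1 N S hlam.ne_zero f1 G hf10 hptInf
  obtain ⟨ρ, hρ, hρ', hρ0, hρκ⟩ := S36XB_exists_rho A K1 hadm hlam.pos hε hε' hε0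
  have hκ : (HahnSeries.C ε : LaurentSeries K1) ∈ S18K_O A K1 :=
    (S18K_mem_O A K1 _).2 ⟨ε, hε, rfl⟩
  have hκ' : (HahnSeries.C ε : LaurentSeries K1)⁻¹ ∈ S18K_O A K1 := by
    rw [← map_inv₀]
    exact (S18K_mem_O A K1 _).2 ⟨ε⁻¹, hε', rfl⟩
  have hκ0 : (HahnSeries.C ε : LaurentSeries K1) ≠ 0 := by
    intro h0
    exact hε0 (HahnSeries.C_injective (by rw [h0, map_zero]))
  -- the root in `K1((q))`
  have hF0 : f1 * (HahnSeries.C ε : LaurentSeries K1)⁻¹ ≠ 0 :=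
    mul_ne_zero hf10 (inv_ne_zero hκ0)
  have hCinv : (HahnSeries.C ε : LaurentSeries K1)⁻¹ = HahnSeries.C ε⁻¹ := (map_inv₀ _ _).symm
  have hCord : (HahnSeries.C ε⁻¹ : LaurentSeries K1).order = 0 := HahnSeries.order_C
  have hCne : (HahnSeries.C ε⁻¹ : LaurentSeries K1) ≠ 0 := by
    rw [← hCinv]
    exact inv_ne_zero hκ0
  have hord' : (f1 * (HahnSeries.C ε : LaurentSeries K1)⁻¹).order = f1.order := by
    rw [hCinv, HahnSeries.order_mul hf10 hCne, hCord, add_zero]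
  have hlead' : (f1 * (HahnSeries.C ε : LaurentSeries K1)⁻¹).leadingCoeff = γ ^ lam := by
    rw [hCinv, HahnSeries.leadingCoeff_mul, hlead, HahnSeries.C_apply,
      HahnSeries.leadingCoeff_of_single]
    field_simp
  have hp0 : (lam : K1) ≠ 0 := Nat.cast_ne_zero.mpr hlam.ne_zero
  obtain ⟨h, hh⟩ := Fermat.Agent.S18_helper25_COREA.S18K_exists_root lam hp0
    (f1 * (HahnSeries.C ε : LaurentSeries K1)⁻¹) hF0 (by rw [hord']; exact hordq)
    ⟨γ, by rw [← hlead', HahnSeries.leadingCoeff_eq]⟩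
  -- block C'
  have hpO : ((lam : LaurentSeries K1))⁻¹ ∈ S18K_O A K1 :=
    Fermat.Agent.S18_helper25_CORE.S18K_natCast_inv_mem A K1 hA lam hlam hne
  have hhF : h ∈ S18K_F1 K1 N :=
    S36XB_core2 S H1 H2 H3 hlam hpO f1 h G (HahnSeries.C ε) ρ hf1 hf10 hκ hκ' hκ0 hρ hρ' hρ0
      hρκ hh hred hpt0 hptInf
  refine ⟨ε, h, hε0, hhF, ?_⟩
  rw [hh]
  field_simp

end Level

end Fermat.Agent.S36_helper3_CLOSE
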