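import Mathlib
import Fermat.Agent.S36_helper13_RED
import Fermat.Agent.S36_helper23_V0QB
import Fermat.Agent.S36_helper23_V0QX
import Fermat.Agent.S36_helper5_VMIDK
import Fermat.Agent.S36_helper4_DEG
import Fermat.Agent.S36_helper4_XADefs
import Fermat.Agent.S36_helper3_CLOSE
import Fermat.Agent.S36_helper6_TORIC
import Fermat.Agent.S34_helper13_KEYK

/-!
# S36, GEO36 (II.3) RED, the concrete plug (helper13)

* `S36RDK_abs` : the abstract combination with the newness in norm form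
  (`N f = π ^ z * ε * h ^ n`, `N (w f) = π ^ z' * ε' * h' ^ n`) and the transport by an involution
  `w` exchanging `V1` and `V3` (on top of `S36RD_abs`);
* `S36RDK_const`, `S36RDK_hconst`, `S36RDK_root`, `S36RDK_O_le`, `S36RDK_O_le_b`, `S36RDK_sepb` :
  the constants and the lower valuation rings at the concrete carriers;
* `S36RDK_main` : at the carriers of level `M' * q * q` (`V_∞ = S18K_V`, `V_mid = W2` any middle
  ring, `V_0 = S36VK_V0`), a common unit `f` which is new along `α` and `β` with exponent `n` has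
  the three branch roots (exponents `n`, `n2`, `n`, where `q - 1 = d m'`, `n = d n2`,
  `gcd (m', n) = 1`);
* `S36RDK_lam`, `S36RDK_lam_nu` : the same for `n = lam ^ (a + b)`, `lam ^ a ∥ q - 1`: three
  branch roots with the SAME exponent `lam ^ b`, in the shape of the inputs of REDPOW
  (`S36RP_redPow`) and of TORIC36 (`S36TOR_main`);
* `S36RDK_mid_main`, `S36RDK_mid_lam`, `S36RDK_mid_lam_nu` : the same at helper5's middle ring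
  `S36VK_Vmid` of an unramified level (`hunr`), with NO hypothesis on the carriers left.
-/

set_option autoImplicit false
set_option linter.style.haveILetI false
set_option linter.unusedSectionVars false
set_option linter.unusedVariables false

open HahnSeries ModularCurve
open Fermat.Agent.S18_helper13_GAUSS Fermat.Agent.S18_helper9_CDefs
  Fermat.Agent.S18_helper25_COREDefs Fermat.Agent.S34_helper12_CDefs
  Fermat.Agent.S34_helper20_WQ Fermat.Agent.S34_helper20_V0 Fermat.Agent.S34_helper20_V0K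
  Fermat.Agent.S34_helper27_V3K Fermat.Agent.S36_helper20_WQQ
  Fermat.Agent.S36_helper5_VKDefs Fermat.Agent.S36_helper23_V0QB
  Fermat.Agent.S35_helper27_XD2Defs Fermat.Agent.S36_helper4_XADefs

noncomputable section

namespace Fermat.Agent.S36_helper13_REDK

open Fermat.Agent.S34_helper27_C2Defs Fermat.Agent.S34_helper13_KEY
  Fermat.Agent.S36_helper13_NORMRED Fermat.Agent.S36_helper13_RED
  Fermat.Agent.S35_helper15_TORIC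

section Abs

variable {L : Type*} [Field L] {π : L} {F1' F1 : Subfield L} {O Va Vb V1 V2 V3 : Subring L}

/-- a multiplicative map on `F1` commutes with powers -/
theorem S36RDK_w_pow (w : L → L) (hw1 : w 1 = 1)
    (hwmul : ∀ x ∈ F1, ∀ y ∈ F1, w (x * y) = w x * w y) {x : L} (hx : x ∈ F1) (k : ℕ) :
    w (x ^ k) = w x ^ k := by
  induction k with
  | zero => rw [pow_zero, pow_zero, hw1]
  | succ k ih => rw [pow_succ, pow_succ, hwmul _ (pow_mem hx k) _ hx, ih]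

/-- a multiplicative map on `F1` commutes with inverses -/
theorem S36RDK_w_inv (w : L → L) (hw1 : w 1 = 1)
    (hwmul : ∀ x ∈ F1, ∀ y ∈ F1, w (x * y) = w x * w y) {x : L} (hx : x ∈ F1) (hx0 : x ≠ 0) :
    w x⁻¹ = (w x)⁻¹ := by
  have h := hwmul x hx x⁻¹ (inv_mem hx)
  rw [mul_inv_cancel₀ hx0, hw1] at h
  exact (inv_eq_of_mul_eq_one_right h.symm).symm

/-- the uniformiser property of a discrete valuation ring given by `hsep` -/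
theorem S36RDK_unif {F : Subfield L} {V : Subring L} (hV : S34C2_Val π F V)
    (hsep : ∀ x ∈ F, x ≠ 0 → ∃ (z : ℤ) (u : L), u ∈ V ∧ u⁻¹ ∈ V ∧ x = π ^ z * u) :
    ∀ x ∈ V, x⁻¹ ∉ V → ∃ v ∈ V, x = π * v := by
  intro x hx hx'
  have hx0 : x ≠ 0 := by
    rintro rfl
    apply hx'
    rw [inv_zero]
    exact V.zero_mem
  obtain ⟨k, u, hu, hu', e⟩ := S34KEY_nat_of_mem hV hsep hx hx0
  rcases Nat.eq_zero_or_pos k with rfl | hk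
  · exfalso
    apply hx'
    rw [e, pow_zero, one_mul]
    exact hu'
  · refine ⟨π ^ (k - 1) * u, V.mul_mem (V.pow_mem hV.π_mem _) hu, ?_⟩
    rw [e, ← mul_assoc, ← pow_succ']
    congr 2
    omega

/-- **the norm of a common unit of `V1`, `V2` is a unit of `Va`** (split + ramified side). -/
theorem S36RDK_norm_unit_ram [CharZero L] (hF : F1' ≤ F1)
    (hVa : S34C2_Val π F1' Va)
    (hsepa : ∀ x ∈ F1', x ≠ 0 → ∃ (z : ℤ) (u : L), u ∈ Va ∧ u⁻¹ ∈ Va ∧ x = π ^ z * u)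
    (h1 : S34C2_Val π F1 V1) (h2 : S34C2_Val π F1 V2)
    (hVa1 : Va ≤ V1) (hVa2 : Va ≤ V2) (hne : V1 ≠ V2)
    {m : ℕ} (hm0 : 0 < m)
    (hdeg : ∃ s : Finset L, s.card ≤ 1 + m ∧ ∀ x ∈ F1, ∃ c : L → L,
      (∀ y, c y ∈ F1') ∧ x = ∑ y ∈ s, c y * y)
    {t : L} (ht : t ∈ V2) (ht0 : t ≠ 0) (htn : t⁻¹ ∉ V2) (htm : π * (t ^ m)⁻¹ ∈ V2)
    {f : L} (hf0 : f ≠ 0) (hf1 : f ∈ V1) (hf1' : f⁻¹ ∈ V1) (hf2 : f ∈ V2) (hf2' : f⁻¹ ∈ V2) :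
    letI := S34KEY_alg hF
    ((Algebra.norm ↥F1' (⟨f, h1.le hf1⟩ : ↥F1) : ↥F1') : L) ≠ 0 ∧
    ((Algebra.norm ↥F1' (⟨f, h1.le hf1⟩ : ↥F1) : ↥F1') : L) ∈ Va ∧
    ((Algebra.norm ↥F1' (⟨f, h1.le hf1⟩ : ↥F1) : ↥F1') : L)⁻¹ ∈ Va := by
  letI := S34KEY_alg hF
  obtain ⟨hU1, hU2, hunit, hr1, hr2, hN⟩ :=
    S36RD_abs_ram_ex hF hVa hsepa h1 h2 hVa1 hVa2 hne hm0 hdeg ht ht0 htn htm
  have hUa := S36RDK_unif hVa hsepa
  obtain ⟨a, ha, b, hb, hfa, hfb, r, hr, er, v, hv, hNab⟩ := hN f hf1 hf2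
  have hπt : ∃ e ∈ V2, π = t * e := by
    obtain ⟨k, rfl⟩ : ∃ k, m = k + 1 := ⟨m - 1, by omega⟩
    refine ⟨t ^ k * (π * (t ^ (k + 1))⁻¹), V2.mul_mem (V2.pow_mem ht _) htm, ?_⟩
    have ht1 : t ^ (k + 1) ≠ 0 := pow_ne_zero _ ht0
    have e2 : π = t ^ (k + 1) * (π * (t ^ (k + 1))⁻¹) := by field_simp
    calc π = t ^ (k + 1) * (π * (t ^ (k + 1))⁻¹) := e2
      _ = t * (t ^ k * (π * (t ^ (k + 1))⁻¹)) := by rw [pow_succ]; ring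
  have hUa1 : ∀ z ∈ Va, z⁻¹ ∉ Va → ∃ w ∈ V1, z = π * w := fun z hz hz' => by
    obtain ⟨w, hw, e⟩ := hUa z hz hz'
    exact ⟨w, hVa1 hw, e⟩
  have hUa2 : ∀ z ∈ Va, z⁻¹ ∉ Va → ∃ w ∈ V2, z = t * w := fun z hz hz' => by
    obtain ⟨w, hw, e⟩ := hUa z hz hz'
    obtain ⟨e', he', eπ⟩ := hπt
    exact ⟨e' * w, V2.mul_mem he' (hVa2 hw), by rw [e, eπ]; ring⟩
  obtain ⟨ha0, ha'⟩ := S36RD_unit_of_congr h1.π_nonunit hUa1 hf0 hf1' ha hfa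
  obtain ⟨hb0, hb'⟩ := S36RD_unit_of_congr htn hUa2 hf0 hf2' hb hfb
  have hab0 : a * b ^ m ≠ 0 := mul_ne_zero ha0 (pow_ne_zero _ hb0)
  have hab' : (a * b ^ m)⁻¹ ∈ Va := by
    rw [mul_inv, ← inv_pow]
    exact Va.mul_mem ha' (Va.pow_mem hb' m)
  obtain ⟨hr0, hr'⟩ := S36RD_unit_of_congr (p := π) (Va := Va) (V := Va) hVa.π_nonunit hUa
    hab0 hab' hr ⟨-v, Va.neg_mem hv, by linear_combination (-1 : L) * hNab⟩
  rw [er]
  exact ⟨hr0, hr, hr'⟩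

/-- **the norm of a unit of `V3` is a unit of `Vb`** (purely inseparable side). -/
theorem S36RDK_norm_unit_insep [CharZero L] (hF : F1' ≤ F1)
    (hVb : S34C2_Val π F1' Vb)
    (hsepb : ∀ x ∈ F1', x ≠ 0 → ∃ (z : ℤ) (u : L), u ∈ Vb ∧ u⁻¹ ∈ Vb ∧ x = π ^ z * u)
    (h3 : S34C2_Val π F1 V3) (hVb3 : Vb ≤ V3) {q : ℕ} (hq : q.Prime)
    (hdeg : ∃ s : Finset L, s.card ≤ q ∧ ∀ x ∈ F1, ∃ c : L → L,
      (∀ y, c y ∈ F1') ∧ x = ∑ y ∈ s, c y * y)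
    {y x : L} (hy : y ∈ V3) (hx : x ∈ Vb) (hyx : y ^ q - x = 0 ∨ (y ^ q - x)⁻¹ ∉ V3)
    (hxq : ∀ r ∈ Vb, ∀ v ∈ Vb, r ^ q - x ≠ π * v)
    (hchar : ∃ v ∈ Vb, (q : L) = π * v)
    {f : L} (hf0 : f ≠ 0) (hf3 : f ∈ V3) (hf3' : f⁻¹ ∈ V3) :
    letI := S34KEY_alg hF
    ((Algebra.norm ↥F1' (⟨f, h3.le hf3⟩ : ↥F1) : ↥F1') : L) ≠ 0 ∧
    ((Algebra.norm ↥F1' (⟨f, h3.le hf3⟩ : ↥F1) : ↥F1') : L) ∈ Vb ∧
    ((Algebra.norm ↥F1' (⟨f, h3.le hf3⟩ : ↥F1) : ↥F1') : L)⁻¹ ∈ Vb ∧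
    ∃ v ∈ V3, ((Algebra.norm ↥F1' (⟨f, h3.le hf3⟩ : ↥F1) : ↥F1') : L) - f ^ q = π * v := by
  letI := S34KEY_alg hF
  obtain ⟨hU3, hN3⟩ := S36RD_abs_insep_ex hF hVb hsepb h3 hVb3 hq hdeg hy hx hyx hxq hchar
  have hUb := S36RDK_unif hVb hsepb
  obtain ⟨r, hr, er, v, hv, e⟩ := hN3 f hf3
  have hUb3 : ∀ z ∈ Vb, z⁻¹ ∉ Vb → ∃ w ∈ V3, z = π * w := fun z hz hz' => by
    obtain ⟨w, hw, e⟩ := hUb z hz hz'
    exact ⟨w, hVb3 hw, e⟩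
  have hfq0 : f ^ q ≠ 0 := pow_ne_zero _ hf0
  have hfq' : (f ^ q)⁻¹ ∈ V3 := by rw [← inv_pow]; exact V3.pow_mem hf3' q
  obtain ⟨hr0, hr'⟩ := S36RD_unit_of_congr h3.π_nonunit hUb3 hfq0 hfq' hr
    ⟨-v, V3.neg_mem hv, by linear_combination (-1 : L) * e⟩
  rw [er]
  exact ⟨hr0, hr, hr', v, hv, e⟩

/-- **(II.3) RED with the newness in norm form and the transport by `w`.**  Configuration of
`S36RD_abs`; `w` an involution of `F1` exchanging `V1` and `V3` and fixing the constants.  If the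
norms of `f` and of `w f` to `F1'` are `π ^ z * ε * h ^ n` (`ε` a constant unit, `h ∈ F1'`), then
`f` has the three branch roots. -/
theorem S36RDK_abs [CharZero L] (hF : F1' ≤ F1)
    (hVa : S34C2_Val π F1' Va)
    (hsepa : ∀ x ∈ F1', x ≠ 0 → ∃ (z : ℤ) (u : L), u ∈ Va ∧ u⁻¹ ∈ Va ∧ x = π ^ z * u)
    (hVb : S34C2_Val π F1' Vb)
    (hsepb : ∀ x ∈ F1', x ≠ 0 → ∃ (z : ℤ) (u : L), u ∈ Vb ∧ u⁻¹ ∈ Vb ∧ x = π ^ z * u)
    (h1 : S34C2_Val π F1 V1) (h2 : S34C2_Val π F1 V2) (h3 : S34C2_Val π F1 V3)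
    (hVa1 : Va ≤ V1) (hVa2 : Va ≤ V2) (hVb3 : Vb ≤ V3) (hne : V1 ≠ V2)
    {q : ℕ} (hq : q.Prime)
    (hdeg : ∃ s : Finset L, s.card ≤ q ∧ ∀ x ∈ F1, ∃ c : L → L,
      (∀ y, c y ∈ F1') ∧ x = ∑ y ∈ s, c y * y)
    {t : L} (ht : t ∈ V2) (ht0 : t ≠ 0) (htn : t⁻¹ ∉ V2) (htm : π * (t ^ (q - 1))⁻¹ ∈ V2)
    {y x : L} (hy : y ∈ V3) (hx : x ∈ Vb) (hyx : y ^ q - x = 0 ∨ (y ^ q - x)⁻¹ ∉ V3)
    (hxq : ∀ r ∈ Vb, ∀ v ∈ Vb, r ^ q - x ≠ π * v)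
    (hchar : ∃ v ∈ Vb, (q : L) = π * v)
    (hOa : O ≤ Va) (hOb : O ≤ Vb)
    (hconst : ∀ ε ∈ O, ε⁻¹ ∈ O → ∀ k : ℕ, 0 < k →
      ∃ ρ ∈ O, ρ⁻¹ ∈ O ∧ S35TOR_Cg π O ε (ρ ^ k))
    {n d m' n2 : ℕ} (hq1 : q - 1 = d * m') (hnd : n = d * n2) (hn2 : 0 < n2) (hd : 0 < d)
    (hcopm : Nat.Coprime m' n) (hcopq : Nat.Coprime q n)
    {ζ : L} (hζO : ζ ∈ O) (hζ : IsPrimitiveRoot ζ d)
    (w : L → L) (hwF : ∀ x ∈ F1, w x ∈ F1) (hw1 : w 1 = 1)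
    (hwmul : ∀ x ∈ F1, ∀ y ∈ F1, w (x * y) = w x * w y)
    (hwadd : ∀ x ∈ F1, ∀ y ∈ F1, w (x + y) = w x + w y)
    (hww : ∀ x ∈ F1, w (w x) = x) (hwπ : w π = π) (hwO : ∀ ε ∈ O, w ε = ε)
    (hw13 : ∀ x ∈ V1, w x ∈ V3) (hw31 : ∀ x ∈ V3, w x ∈ V1)
    {f : L} (hf0 : f ≠ 0) (hf1 : f ∈ V1) (hf1' : f⁻¹ ∈ V1) (hf2 : f ∈ V2) (hf2' : f⁻¹ ∈ V2)
    (hf3 : f ∈ V3) (hf3' : f⁻¹ ∈ V3)
    {zα : ℤ} {εα hα : L} (hεα : εα ∈ O) (hεα' : εα⁻¹ ∈ O) (hεα0 : εα ≠ 0) (hhα : hα ∈ F1')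
    (hhα0 : hα ≠ 0)
    (hNα : letI := S34KEY_alg hF
      ((Algebra.norm ↥F1' (⟨f, h1.le hf1⟩ : ↥F1) : ↥F1') : L) = π ^ zα * εα * hα ^ n)
    {zβ : ℤ} {εβ hβ : L} (hεβ : εβ ∈ O) (hεβ' : εβ⁻¹ ∈ O) (hεβ0 : εβ ≠ 0) (hhβ : hβ ∈ F1')
    (hhβ0 : hβ ≠ 0)
    (hNβ : letI := S34KEY_alg hF
      ((Algebra.norm ↥F1' (⟨w f, hwF f (h1.le hf1)⟩ : ↥F1) : ↥F1') : L) =
        π ^ zβ * εβ * hβ ^ n) :
    (∃ G : L, G ∈ V1 ∧ G⁻¹ ∈ V1 ∧ S35TOR_Cg π V1 f (G ^ n)) ∧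
    (∃ G : L, G ∈ V2 ∧ G⁻¹ ∈ V2 ∧ S35TOR_Cg t V2 f (G ^ n2)) ∧
    (∃ G : L, G ∈ V3 ∧ G⁻¹ ∈ V3 ∧ S35TOR_Cg π V3 f (G ^ n)) := by
  classical
  letI := S34KEY_alg hF
  have hn : 0 < n := by rw [hnd]; exact Nat.mul_pos hd hn2
  have hm0 : 0 < q - 1 := by have := hq.two_le; omega
  have hdeg' : ∃ s : Finset L, s.card ≤ 1 + (q - 1) ∧ ∀ x ∈ F1, ∃ c : L → L,
      (∀ y, c y ∈ F1') ∧ x = ∑ y ∈ s, c y * y := by
    obtain ⟨s, hs, h⟩ := hdeg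
    exact ⟨s, by omega, h⟩
  have hπ0 : π ≠ 0 := h1.π_ne_zero
  have hfF : f ∈ F1 := h1.le hf1
  -- the norm along `α` is a unit of `Va` and of `Vb`
  obtain ⟨hNa0, hNa, hNa'⟩ := S36RDK_norm_unit_ram hF hVa hsepa h1 h2 hVa1 hVa2 hne hm0 hdeg'
    ht ht0 htn htm hf0 hf1 hf1' hf2 hf2'
  obtain ⟨hNb0, hNb, hNb', -⟩ := S36RDK_norm_unit_insep hF hVb hsepb h3 hVb3 hq hdeg hy hx hyx
    hxq hchar hf0 hf3 hf3'
  have eN3 : ((Algebra.norm ↥F1' (⟨f, h3.le hf3⟩ : ↥F1) : ↥F1') : L) =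
      ((Algebra.norm ↥F1' (⟨f, h1.le hf1⟩ : ↥F1) : ↥F1') : L) := rfl
  rw [eN3] at hNb0 hNb hNb'
  have hNα' : ((Algebra.norm ↥F1' (⟨f, h1.le hf1⟩ : ↥F1) : ↥F1') : L) =
      (π ^ zα * εα) * hα ^ n := hNα
  have hcα0 : π ^ zα * εα ≠ 0 := mul_ne_zero (zpow_ne_zero _ hπ0) hεα0
  rw [hNα'] at hNa hNa' hNb hNb'
  obtain ⟨za, hza, hua, hua', ea⟩ := S36RD_normalise hVa hsepa hOa hεα hεα' rfl hcα0 hhα hhα0
    hNa hNa'
  obtain ⟨zb, hzb, hub, hub', eb⟩ := S36RD_normalise hVb hsepb hOb hεα hεα' rfl hcα0 hhα hhα0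
    hNb hNb'
  have hzab : zb = za := by
    have h : (n : ℤ) * zb = (n : ℤ) * za := by linarith
    have hn' : (n : ℤ) ≠ 0 := by exact_mod_cast hn.ne'
    exact mul_left_cancel₀ hn' h
  rw [hzab] at hub hub'
  have hNα'' : ((Algebra.norm ↥F1' (⟨f, h1.le hf1⟩ : ↥F1) : ↥F1') : L) =
      εα * (hα * π ^ (-za)) ^ n := hNα'.trans ea
  -- the norm along `β`
  have hwfF : w f ∈ F1 := hwF f hfF
  have hwf3 : w f ∈ V3 := hw13 f hf1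
  have hwfinv : w f⁻¹ = (w f)⁻¹ := S36RDK_w_inv w hw1 hwmul hfF hf0
  have hwf3' : (w f)⁻¹ ∈ V3 := by rw [← hwfinv]; exact hw13 _ hf1'
  have h00 : w 0 = 0 := by
    have := hwadd 0 (zero_mem _) 0 (zero_mem _)
    rw [add_zero] at this
    linear_combination (-1 : L) * this
  have hwf0 : w f ≠ 0 := by
    intro h0
    apply hf0
    rw [← hww f hfF, h0, h00]
  obtain ⟨hMb0, hMb, hMb', vβ, hvβ, eβ⟩ := S36RDK_norm_unit_insep hF hVb hsepb h3 hVb3 hq hdeg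
    hy hx hyx hxq hchar hwf0 hwf3 hwf3'
  have eM : ((Algebra.norm ↥F1' (⟨w f, h3.le hwf3⟩ : ↥F1) : ↥F1') : L) =
      (π ^ zβ * εβ) * hβ ^ n := hNβ
  have hcβ0 : π ^ zβ * εβ ≠ 0 := mul_ne_zero (zpow_ne_zero _ hπ0) hεβ0
  rw [eM] at hMb hMb' eβ
  obtain ⟨zc, hzc, huc, huc', ec⟩ := S36RD_normalise hVb hsepb hOb hεβ hεβ' rfl hcβ0 hhβ hhβ0
    hMb hMb'
  set u2 : L := hβ * π ^ (-zc) with hu2
  have hu20 : u2 ≠ 0 := mul_ne_zero hhβ0 (zpow_ne_zero _ hπ0)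
  have hu2F' : u2 ∈ F1' := hVb.le huc
  have hu2F : u2 ∈ F1 := hF hu2F'
  have hεu' : (εβ * u2 ^ n)⁻¹ ∈ V3 := by
    rw [mul_inv, ← inv_pow]
    exact V3.mul_mem ((hOb.trans hVb3) hεβ') (V3.pow_mem (hVb3 huc') n)
  have hεu0 : εβ * u2 ^ n ≠ 0 := mul_ne_zero hεβ0 (pow_ne_zero _ hu20)
  rw [ec] at eβ
  have c3 : S35TOR_Cg π V3 ((w f) ^ q) (εβ * u2 ^ n) := by
    have H3 : S35TOR_Rad π V3 := S35TOR_rad_of_val h3
    exact S35TOR_Cg_symm H3 (S35TOR_Cg_of_sub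
      (by rw [← inv_pow]; exact V3.pow_mem hwf3' q) (pow_ne_zero _ hwf0) ⟨vβ, hvβ, eβ⟩)
  -- transport by `w`
  have hβ1 : S35TOR_Cg π V1 (f ^ q) (εβ * (w u2) ^ n) := by
    obtain ⟨c, hc, e⟩ := c3
    have hcF : c ∈ F1 := h3.le hc
    have hπF : π ∈ F1 := h1.le h1.π_mem
    have hεF : εβ ∈ F1 := hF (hVb.le (hOb hεβ))
    refine ⟨w c, hw31 c hc, ?_⟩
    have e1 := congrArg w e
    rw [S36RDK_w_pow w hw1 hwmul hwfF, hww f hfF,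
      hwmul _ (mul_mem hεF (pow_mem hu2F n)) _
        (add_mem (one_mem _) (mul_mem hπF hcF)),
      hwmul _ hεF _ (pow_mem hu2F n), S36RDK_w_pow w hw1 hwmul hu2F,
      hwadd _ (one_mem _) _ (mul_mem hπF hcF), hw1, hwmul _ hπF _ hcF, hwπ, hwO εβ hεβ] at e1
    exact e1
  have hwu2 : w u2 ∈ V1 := hw31 _ (hVb3 huc)
  have hwu2' : (w u2)⁻¹ ∈ V1 := by
    rw [← S36RDK_w_inv w hw1 hwmul hu2F hu20]
    exact hw31 _ (hVb3 huc')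
  exact S36RD_abs hF hVa hsepa hVb hsepb h1 h2 h3 hVa1 hVa2 hVb3 hne hq hdeg ht ht0 htn htm
    hy hx hyx hxq hchar hOa hOb hconst hq1 hnd hn2 hd hcopm hcopq hζO hζ hf0 hf1 hf1' hf2 hf2'
    hf3 hf3' hεα hεα' hua hua' hub hub' hNα'' hεβ hεβ' hwu2 hwu2' hβ1

end Abs

/-! ### The constants at the concrete carriers -/

section Const

local notation "Qb" => AlgebraicClosure ℚ

variable (A : ValuationSubring Qb) (K1 : IntermediateField ℚ Qb)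

/-- the constant series of a unit of `O1` is a unit of `O` -/
theorem S36RDK_C_unit {u : S18K_O1 A K1} (hu : IsUnit u) :
    (HahnSeries.C (u : K1) : LaurentSeries K1) ∈ S18K_O A K1 ∧
      (HahnSeries.C (u : K1) : LaurentSeries K1)⁻¹ ∈ S18K_O A K1 ∧
      (HahnSeries.C (u : K1) : LaurentSeries K1) ≠ 0 := by
  obtain ⟨u', hu'⟩ := hu.exists_right_inv
  have h1 : (u : K1) * (u' : K1) = 1 := congrArg Subtype.val hu'
  have hu0 : (u : K1) ≠ 0 := left_ne_zero_of_mul_eq_one h1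
  have hinv : (u : K1)⁻¹ = (u' : K1) := inv_eq_of_mul_eq_one_right h1
  refine ⟨(S18K_mem_O A K1 _).2 ⟨u, u.2, rfl⟩, ?_, ?_⟩
  · rw [← map_inv₀, hinv]
    exact (S18K_mem_O A K1 _).2 ⟨u', u'.2, rfl⟩
  · intro h0
    exact hu0 (HahnSeries.C_injective (by rw [h0, map_zero]))

variable [IsDiscreteValuationRing (S18K_O1 A K1)]

/-- a nonzero element of `O1` is `ϖ ^ n` times a unit -/
theorem S36RDK_const_int (c : S18K_O1 A K1) (hc : c ≠ 0) :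
    ∃ (n : ℕ) (ε : LaurentSeries K1), ε ∈ S18K_O A K1 ∧ ε⁻¹ ∈ S18K_O A K1 ∧ ε ≠ 0 ∧
      (HahnSeries.C (c : K1) : LaurentSeries K1) = S18K_π A K1 ^ n * ε := by
  obtain ⟨n, u, hcu, hu⟩ := (S18K_D A K1).exists_normalize c hc
  have hu' : S18K_res A K1 u ≠ 0 := hu
  have huu : IsUnit u := by
    rw [← IsLocalRing.notMem_maximalIdeal, ← S18K_res_eq_zero_iff]
    exact hu'
  obtain ⟨h1, h2, h3⟩ := S36RDK_C_unit A K1 huu
  refine ⟨n, HahnSeries.C (u : K1), h1, h2, h3, ?_⟩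
  have e : (c : K1) = (((S18K_D A K1).π : S18K_O1 A K1) : K1) ^ n * (u : K1) := by
    have := congrArg (fun z : S18K_O1 A K1 => (z : K1)) hcu
    exact this
  rw [e, map_mul, map_pow]
  rfl

/-- **every nonzero constant is `π ^ z` times a constant unit.** -/
theorem S36RDK_const (c : K1) (hc : c ≠ 0) :
    ∃ (z : ℤ) (ε : LaurentSeries K1), ε ∈ S18K_O A K1 ∧ ε⁻¹ ∈ S18K_O A K1 ∧ ε ≠ 0 ∧
      (HahnSeries.C c : LaurentSeries K1) = S18K_π A K1 ^ z * ε := by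
  rcases (S18K_O1 A K1).mem_or_inv_mem c with h | h
  · obtain ⟨n, ε, h1, h2, h3, e⟩ := S36RDK_const_int A K1 ⟨c, h⟩
      (fun h0 => hc (congrArg Subtype.val h0))
    exact ⟨n, ε, h1, h2, h3, by rw [zpow_natCast]; exact e⟩
  · obtain ⟨n, ε, h1, h2, h3, e⟩ := S36RDK_const_int A K1 ⟨c⁻¹, h⟩
      (fun h0 => inv_ne_zero hc (congrArg Subtype.val h0))
    refine ⟨-(n : ℤ), ε⁻¹, h2, by rw [inv_inv]; exact h1, inv_ne_zero h3, ?_⟩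
    have e' : (HahnSeries.C c : LaurentSeries K1)⁻¹ = S18K_π A K1 ^ n * ε := by
      rw [← map_inv₀]; exact e
    rw [zpow_neg, zpow_natCast, ← mul_inv, ← e', inv_inv]

/-- `π` lies in the radical of `O`. -/
theorem S36RDK_rad_O : S35TOR_Rad (S18K_π A K1) (S18K_O A K1) := by
  have hπO : S18K_π A K1 ∈ S18K_O A K1 :=
    (S18K_mem_O A K1 _).2 ⟨_, ((S18K_D A K1).π : S18K_O1 A K1).2, rfl⟩
  have hunit : ∀ c ∈ S18K_O A K1, (1 + S18K_π A K1 * c) ≠ 0 ∧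
      (1 + S18K_π A K1 * c)⁻¹ ∈ S18K_O A K1 := by
    intro c hc
    obtain ⟨a, ha, rfl⟩ := (S18K_mem_O A K1 _).1 hc
    set x : S18K_O1 A K1 := 1 + (S18K_D A K1).π * ⟨a, ha⟩ with hx
    have hres : S18K_res A K1 x ≠ 0 := by
      have h0 : (S18K_D A K1).res ((S18K_D A K1).π * ⟨a, ha⟩) = 0 :=
        ((S18K_D A K1).res_eq_zero_iff _).2 ⟨_, rfl⟩
      have h0' : S18K_res A K1 ((S18K_D A K1).π * ⟨a, ha⟩) = 0 := h0
      rw [hx, map_add, map_one, h0', add_zero]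
      exact one_ne_zero
    have hxu : IsUnit x := by
      rw [← IsLocalRing.notMem_maximalIdeal, ← S18K_res_eq_zero_iff]
      exact hres
    obtain ⟨-, h2, h3⟩ := S36RDK_C_unit A K1 hxu
    have e : (HahnSeries.C (x : K1) : LaurentSeries K1) =
        1 + S18K_π A K1 * HahnSeries.C a := by
      have : (x : K1) = 1 + (((S18K_D A K1).π : S18K_O1 A K1) : K1) * a := rfl
      rw [this, map_add, map_one, map_mul]
      rfl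
    rw [← e]
    exact ⟨h3, h2⟩
  exact ⟨hπO, fun c hc => (hunit c hc).1, fun c hc => (hunit c hc).2⟩

/-- **the constant units are `k`-th powers modulo `π`** (the hypothesis `hconst` of
`S36RD_abs`). -/
theorem S36RDK_hconst {q : ℕ} (hadm : S18K_Admissible A K1 q) :
    ∀ ε ∈ S18K_O A K1, ε⁻¹ ∈ S18K_O A K1 → ∀ k : ℕ, 0 < k →
      ∃ ρ ∈ S18K_O A K1, ρ⁻¹ ∈ S18K_O A K1 ∧
        S35TOR_Cg (S18K_π A K1) (S18K_O A K1) ε (ρ ^ k) := by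
  intro ε hε hε' k hk
  by_cases hε0 : ε = 0
  · refine ⟨0, (S18K_O A K1).zero_mem, by rw [inv_zero]; exact (S18K_O A K1).zero_mem,
      0, (S18K_O A K1).zero_mem, ?_⟩
    rw [hε0, zero_pow hk.ne', zero_mul]
  obtain ⟨e, he, rfl⟩ := (S18K_mem_O A K1 _).1 hε
  obtain ⟨e', he', hee'⟩ := (S18K_mem_O A K1 _).1 hε'
  have he0 : e ≠ 0 := by
    rintro rfl
    exact hε0 (map_zero _)
  have hinv : e⁻¹ = e' := by
    apply HahnSeries.C_injective (Γ := ℤ) (R := K1)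
    rw [map_inv₀, hee']
  have heO : e ∈ S18K_O1 A K1 := he
  have heO' : e⁻¹ ∈ S18K_O1 A K1 := by rw [hinv]; exact he'
  obtain ⟨ρ, hρ, hρ', hρ0, o, ho, e1⟩ := Fermat.Agent.S36_helper3_CLOSE.S36XB_exists_rho A K1
    hadm hk heO heO' he0
  refine ⟨ρ, hρ, hρ', -(o * (ρ ^ k)⁻¹), (S18K_O A K1).neg_mem
    ((S18K_O A K1).mul_mem ho (by rw [← inv_pow]; exact (S18K_O A K1).pow_mem hρ' k)), ?_⟩
  have hρk : ρ ^ k ≠ 0 := pow_ne_zero _ hρ0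
  have e2 : (HahnSeries.C e : LaurentSeries K1) = ρ ^ k - S18K_π A K1 * o := by
    linear_combination (-1 : LaurentSeries K1) * e1
  rw [e2]
  field_simp
  ring

/-- An admissible level contains a primitive `n`-th root of unity for `n` prime to `q`, and it
is a constant of `O`. -/
theorem S36RDK_root {q : ℕ} (hadm : S18K_Admissible A K1 q) {n : ℕ} (hn0 : n ≠ 0)
    (hn : ¬ q ∣ n) :
    ∃ ξ : LaurentSeries K1, IsPrimitiveRoot ξ n ∧ ξ ∈ S18K_O A K1 := by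
  haveI : NeZero ((n : ℕ) : ℚ) := ⟨by exact_mod_cast hn0⟩
  obtain ⟨ξ, hξ⟩ := HasEnoughRootsOfUnity.exists_primitiveRoot Qb n
  have hξK : ξ ∈ K1 := hadm.roots n hn ξ hξ.pow_eq_one
  have hξA : ξ ∈ A := Fermat.Agent.S18_helper5_BASE.S18A1_root_mem_A A hn0 hξ.pow_eq_one
  have hK : IsPrimitiveRoot (⟨ξ, hξK⟩ : K1) n :=
    IsPrimitiveRoot.of_map_of_injective (f := algebraMap K1 Qb) hξ (algebraMap K1 Qb).injective
  have hL : IsPrimitiveRoot (HahnSeries.C (⟨ξ, hξK⟩ : K1) : LaurentSeries K1) n :=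
    hK.map_of_injective (f := (HahnSeries.C : K1 →+* LaurentSeries K1)) HahnSeries.C_injective
  exact ⟨_, hL, (S18K_mem_O A K1 _).2 ⟨⟨ξ, hξK⟩, hξA, rfl⟩⟩

/-- `O ≤ V_∞` (any level). -/
theorem S36RDK_O_le (N : ℕ) [NeZero N] : S18K_O A K1 ≤ S18K_V A K1 N := by
  intro x hx
  obtain ⟨c, hc, rfl⟩ := (S18K_mem_O A K1 _).1 hx
  exact S35TOR_C_mem_V A K1 N hc

variable (q N' N : ℕ) [NeZero N'] [NeZero N] (hq : q.Prime) (hqN : ¬ q ∣ N') (hN : N = q * N')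

/-- `O ≤ V'_0 = w_q(V'_∞)`. -/
theorem S36RDK_O_le_b : S18K_O A K1 ≤ S34V0K_V A K1 q N' N hq hqN hN := by
  intro x hx
  obtain ⟨c, hc, rfl⟩ := (S18K_mem_O A K1 _).1 hx
  refine ⟨S34V0_C_mem N c, ?_⟩
  rw [S34V0_wL_C]
  exact S35TOR_C_mem_V A K1 N hc

/-- **`hsep` for the second valuation ring** `V'_0 = w_q(V'_∞)`: it is a discrete valuation ring
with uniformiser `π`, elementwise. -/
theorem S36RDK_sepb : ∀ x ∈ S18K_F1 K1 N, x ≠ 0 →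
    ∃ (z : ℤ) (u : LaurentSeries K1), u ∈ S34V0K_V A K1 q N' N hq hqN hN ∧
      u⁻¹ ∈ S34V0K_V A K1 q N' N hq hqN hN ∧ x = S18K_π A K1 ^ z * u := by
  intro x hx hx0
  have hxF : x ∈ modularFunctionFieldFullC K1 N := hx
  have hwxF := S34V0_wL_mem (S34V0K_emb K1) q N' N hq hqN hN x
  have hwx0 : S34V0_wL (S34V0K_emb K1) q N' N hq hqN hN x ≠ 0 := by
    intro h0
    apply hx0
    rw [← S34V0_wL_wL (S34V0K_emb K1) q N' N hq hqN hN hxF, h0, S34V0_wL_zero]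
  obtain ⟨z, u, hu, hu', e⟩ := Fermat.Agent.S34_helper13_KEYK.S34KEYK_sep A K1 N _ hwxF hwx0
  have huF : u ∈ modularFunctionFieldFullC K1 N := hu.2
  have hπz : S18K_π A K1 ^ z =
      HahnSeries.C ((((S18K_D A K1).π : S18K_O1 A K1) : K1) ^ z) := by
    rw [map_zpow₀]
    rfl
  have hπzF : S18K_π A K1 ^ z ∈ modularFunctionFieldFullC K1 N := by
    rw [hπz]; exact S34V0_C_mem N _
  refine ⟨z, S34V0_wL (S34V0K_emb K1) q N' N hq hqN hN u,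
    S34V0_wL_mem_image (S34V0K_emb K1) q N' N hq hqN hN huF hu, ?_, ?_⟩
  · rw [← S34V0_wL_inv (S34V0K_emb K1) q N' N hq hqN hN huF]
    exact S34V0_wL_mem_image (S34V0K_emb K1) q N' N hq hqN hN (inv_mem huF) hu'
  · have h1 := congrArg (S34V0_wL (S34V0K_emb K1) q N' N hq hqN hN) e
    rw [S34V0_wL_wL (S34V0K_emb K1) q N' N hq hqN hN hxF,
      S34V0_wL_mul (S34V0K_emb K1) q N' N hq hqN hN hπzF huF] at h1
    rw [h1]
    congr 1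
    rw [hπz, S34V0_wL_C]

end Const

/-! ### The concrete plug at level `M' * q * q` -/

section Main

local notation "Qb" => AlgebraicClosure ℚ

variable (A : ValuationSubring Qb) (K1 : IntermediateField ℚ Qb)
  [IsDiscreteValuationRing (S18K_O1 A K1)]
  (q M' : ℕ) [NeZero M'] [NeZero q] [NeZero (M' * q)] [NeZero (M' * q * q)] [NeZero (q ^ 2)]
  [NeZero (q * q)] (hq : q.Prime) (hqM : ¬ q ∣ M')

/-- from the multiplicative congruence to the non-unit form (the input shape of TORIC36) -/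
theorem S36RDK_nu_of_Cg {L : Type*} [Field L] {τ : L} {V : Subring L} (hτ : τ ∈ V)
    (hτ' : τ⁻¹ ∉ V) {f g : L} (hg : g ∈ V) (h : S35TOR_Cg τ V f g) :
    f - g ∈ Fermat.Agent.S36_helper6_TORIC.S36TOR_nu V := by
  obtain ⟨c, hc, e⟩ := h
  have e1 : f - g = τ * (g * c) := by rw [e]; ring
  refine ⟨by rw [e1]; exact V.mul_mem hτ (V.mul_mem hg hc), ?_⟩
  by_cases h0 : f - g = 0
  · exact Or.inl h0
  · right
    intro hinv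
    apply hτ'
    have hτ0 : τ ≠ 0 := by
      rintro rfl
      rw [zero_mul] at e1
      exact h0 e1
    have hgc0 : g * c ≠ 0 := by
      intro h1
      rw [h1, mul_zero] at e1
      exact h0 e1
    have e2 : τ⁻¹ = (g * c) * (f - g)⁻¹ := by
      rw [e1, mul_inv, mul_left_comm, mul_inv_cancel₀ hgc0, mul_one]
    rw [e2]
    exact V.mul_mem (V.mul_mem hg hc) hinv

set_option maxHeartbeats 1600000 in
set_option synthInstance.maxHeartbeats 400000 in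
/-- **(II.3) RED at the concrete carriers.**  Level `M' * q * q`, `V_∞ = S18K_V`, `V_mid = W2`
(ANY middle ring, with `π / t ^ (q - 1) ∈ W2`), `V_0 = S36VK_V0`.  A common unit `f` of the
three valuation rings which is new along `α` and along `β` with exponent `n` is an `n`-th power
modulo `1 + π V_∞`, modulo `1 + π V_0`, and an `n2`-th power modulo `1 + t V_mid`, where
`q - 1 = d m'`, `n = d n2`, `gcd (m', n) = 1`, `gcd (q, n) = 1`. -/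
theorem S36RDK_main (hadm : S18K_Admissible A K1 q) (hA : A.LiesOverPrime q)
    (W2 : Subring (LaurentSeries K1)) (hmid : S36VK_IsMid A K1 q M' W2)
    (htm : S18K_π A K1 * (S36VK_t K1 q ^ (q - 1))⁻¹ ∈ W2)
    {n d m' n2 : ℕ} (hq1 : q - 1 = d * m') (hnd : n = d * n2) (hn2 : 0 < n2) (hd : 0 < d)
    (hcopm : Nat.Coprime m' n) (hcopq : Nat.Coprime q n)
    (f : LaurentSeries K1) (hf : f ∈ S18K_F1 K1 (M' * q * q)) (hf0 : f ≠ 0)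
    (hfV : f ∈ (S18K_V A K1 (M' * q * q) ⊓ W2 ⊓ S36VK_V0 A K1 q M' hq hqM :
      Subring (LaurentSeries K1)))
    (hfV' : f⁻¹ ∈ (S18K_V A K1 (M' * q * q) ⊓ W2 ⊓ S36VK_V0 A K1 q M' hq hqM :
      Subring (LaurentSeries K1)))
    (hα : S35XD2_NewAlpha K1 q (M' * q) n f hf)
    (hβ : S36XA_NewBeta K1 q M' hq hqM n f) :
    (∃ G : LaurentSeries K1, G ∈ S18K_V A K1 (M' * q * q) ∧ G⁻¹ ∈ S18K_V A K1 (M' * q * q) ∧
      S35TOR_Cg (S18K_π A K1) (S18K_V A K1 (M' * q * q)) f (G ^ n)) ∧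
    (∃ G : LaurentSeries K1, G ∈ W2 ∧ G⁻¹ ∈ W2 ∧ S35TOR_Cg (S36VK_t K1 q) W2 f (G ^ n2)) ∧
    (∃ G : LaurentSeries K1, G ∈ S36VK_V0 A K1 q M' hq hqM ∧
      G⁻¹ ∈ S36VK_V0 A K1 q M' hq hqM ∧
      S35TOR_Cg (S18K_π A K1) (S36VK_V0 A K1 q M' hq hqM) f (G ^ n)) := by
  classical
  haveI hcz : CharZero (LaurentSeries K1) :=
    charZero_of_injective_ringHom (HahnSeries.C_injective (Γ := ℤ) (R := K1))
  have hN1 : M' * q = q * M' := Nat.mul_comm M' q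
  have hyx := Fermat.Agent.S36_helper23_V0QX.S36V0QY_hyx A K1 q M' hq hqM hN1 hA
  have hxq := Fermat.Agent.S36_helper23_V0QX.S36V0QY_hxq A K1 q M' hq hqM hN1 hA
  have hchar := Fermat.Agent.S36_helper23_V0QX.S36V0QY_hchar A K1 q M' hq hqM hN1 hA
  have hF : S18K_F1 K1 (M' * q) ≤ S18K_F1 K1 (M' * q * q) :=
    S34V3K_F1_mono K1 (S36XA_level_dvd M' q)
  letI := S34KEY_alg hF
  obtain ⟨⟨hf1, hf2⟩, hf3⟩ := hfV
  obtain ⟨⟨hf1', hf2'⟩, hf3'⟩ := hfV'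
  -- the constants
  obtain ⟨cα, hcα0, hα', hhα, hhα0, hNα⟩ := hα
  obtain ⟨zα, εα, hεα, hεα', hεα0, ecα⟩ := S36RDK_const A K1 cα hcα0
  obtain ⟨cβ, hcβ0, hβ', hhβ, hhβ0, hNβ⟩ := hβ
  obtain ⟨zβ, εβ, hεβ, hεβ', hεβ0, ecβ⟩ := S36RDK_const A K1 cβ hcβ0
  rw [ecα] at hNα
  rw [ecβ] at hNβ
  -- the root of unity
  have hqd : ¬ q ∣ d := by
    intro h
    have h1 : d ∣ q - 1 := ⟨m', hq1⟩
    have h2 : 0 < q - 1 := by have := hq.two_le; omega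
    have h3 := Nat.le_of_dvd h2 h1
    have h4 := Nat.le_of_dvd hd h
    omega
  obtain ⟨ζ, hζ, hζO⟩ := S36RDK_root A K1 hadm hd.ne' hqd
  exact S36RDK_abs hF (S34V3K_val1 A K1 (M' * q))
    (Fermat.Agent.S34_helper13_KEYK.S34KEYK_sep A K1 (M' * q))
    (S34V0K_val A K1 q M' (M' * q) hq hqM hN1) (S36RDK_sepb A K1 q M' (M' * q) hq hqM hN1)
    (S34V3K_val1 A K1 (M' * q * q)) hmid.1 (S36VK_V0_val A K1 q M' hq hqM)
    (S34V3K_V_mono A K1 (S36XA_level_dvd M' q)) hmid.2.1 (S36V0QB_le_q A K1 q M' hq hqM hN1)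
    (S36V0QB_mid_ne A K1 q M' hq hqM hA hmid.2.2.2).1 hq
    (Fermat.Agent.S36_helper4_DEG.S36DG_hdeg K1 (M' * q) q hq (Dvd.intro_left M' rfl))
    hmid.2.2.1 (S36V0QB_t_ne_zero A K1 q M' hq hqM hA) hmid.2.2.2 htm
    (S36V0QB_jqq_mem A K1 q M' hq hqM) (S34V0K_jq_mem A K1 q M' (M' * q) hq hqM hN1)
    hyx hxq hchar (S36RDK_O_le A K1 (M' * q)) (S36RDK_O_le_b A K1 q M' (M' * q) hq hqM hN1)
    (S36RDK_hconst A K1 hadm) hq1 hnd hn2 hd hcopm hcopq hζO hζ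
    (S36WQ_wL (S34V0K_emb K1) (q ^ 2) M' (M' * q * q) (S36WQ_cop hq hqM) (S36VK_level q M'))
    (S36V0QB_hwF K1 q M' hq hqM) (S36V0QB_hw1 K1 q M' hq hqM) (S36V0QB_hwmul K1 q M' hq hqM)
    (fun x hx y hy => S36WQ_wL_add (S34V0K_emb K1) (q ^ 2) M' (M' * q * q) (S36WQ_cop hq hqM)
      (S36VK_level q M') hx hy)
    (S36V0QB_hww K1 q M' hq hqM) (S36V0QB_hwπ A K1 q M' hq hqM)
    (fun ε hε => by
      obtain ⟨c, -, rfl⟩ := (S18K_mem_O A K1 _).1 hε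
      exact S36WQ_wL_C (S34V0K_emb K1) (q ^ 2) M' (M' * q * q) (S36WQ_cop hq hqM)
        (S36VK_level q M') c)
    (S36V0QB_hw13 A K1 q M' hq hqM) (S36V0QB_hw31 A K1 q M' hq hqM)
    hf0 hf1 hf1' hf2 hf2' hf3 hf3' hεα hεα' hεα0 hhα hhα0 hNα hεβ hεβ' hεβ0 hhβ hhβ0 hNβ

set_option maxHeartbeats 1600000 in
set_option synthInstance.maxHeartbeats 400000 in
/-- **(II.3) RED for a prime power exponent**: `lam ≠ q` prime, `lam ^ a ∥ q - 1`, `f` new along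
`α` and `β` with exponent `lam ^ (a + b)`.  Then `f` has three branch roots with the SAME exponent
`lam ^ b`: `f ∈ G_k ^ (lam ^ b) (1 + τ_k V_k)` with `τ_1 = τ_3 = π`, `τ_2 = t` (the input shape
`hf1`, `hf2`, `hf3` of REDPOW `S36RP_redPow`). -/
theorem S36RDK_lam (hadm : S18K_Admissible A K1 q) (hA : A.LiesOverPrime q)
    (W2 : Subring (LaurentSeries K1)) (hmid : S36VK_IsMid A K1 q M' W2)
    (htm : S18K_π A K1 * (S36VK_t K1 q ^ (q - 1))⁻¹ ∈ W2)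
    {lam a b m' : ℕ} (hlam : lam.Prime) (hlq : lam ≠ q) (hqa : q - 1 = lam ^ a * m')
    (hm' : ¬ lam ∣ m')
    (f : LaurentSeries K1) (hf : f ∈ S18K_F1 K1 (M' * q * q)) (hf0 : f ≠ 0)
    (hfV : f ∈ (S18K_V A K1 (M' * q * q) ⊓ W2 ⊓ S36VK_V0 A K1 q M' hq hqM :
      Subring (LaurentSeries K1)))
    (hfV' : f⁻¹ ∈ (S18K_V A K1 (M' * q * q) ⊓ W2 ⊓ S36VK_V0 A K1 q M' hq hqM :
      Subring (LaurentSeries K1)))
    (hα : S35XD2_NewAlpha K1 q (M' * q) (lam ^ (a + b)) f hf)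
    (hβ : S36XA_NewBeta K1 q M' hq hqM (lam ^ (a + b)) f) :
    ∃ G1 G2 G3 : LaurentSeries K1,
      (G1 ≠ 0 ∧ G1 ∈ S18K_V A K1 (M' * q * q) ∧ G1⁻¹ ∈ S18K_V A K1 (M' * q * q) ∧
        ∃ v ∈ S18K_V A K1 (M' * q * q), f = G1 ^ (lam ^ b) * (1 + S18K_π A K1 * v)) ∧
      (G2 ≠ 0 ∧ G2 ∈ W2 ∧ G2⁻¹ ∈ W2 ∧
        ∃ v ∈ W2, f = G2 ^ (lam ^ b) * (1 + S36VK_t K1 q * v)) ∧
      (G3 ≠ 0 ∧ G3 ∈ S36VK_V0 A K1 q M' hq hqM ∧ G3⁻¹ ∈ S36VK_V0 A K1 q M' hq hqM ∧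
        ∃ v ∈ S36VK_V0 A K1 q M' hq hqM, f = G3 ^ (lam ^ b) * (1 + S18K_π A K1 * v)) := by
  have hcop1 : Nat.Coprime m' (lam ^ (a + b)) :=
    Nat.Coprime.pow_right _ ((Nat.Prime.coprime_iff_not_dvd hlam).2 hm').symm
  have hcop2 : Nat.Coprime q (lam ^ (a + b)) :=
    Nat.Coprime.pow_right _ ((Nat.coprime_primes hq hlam).2 (Ne.symm hlq))
  have hP0 : lam ^ b ≠ 0 := pow_ne_zero _ hlam.ne_zero
  obtain ⟨⟨G1, hG1, hG1', c1⟩, ⟨G2, hG2, hG2', c2⟩, ⟨G3, hG3, hG3', c3⟩⟩ :=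
    S36RDK_main A K1 q M' hq hqM hadm hA W2 hmid htm hqa (_root_.pow_add lam a b)
      (pow_pos hlam.pos b) (pow_pos hlam.pos a) hcop1 hcop2 f hf hf0 hfV hfV' hα hβ
  have key : ∀ {τ : LaurentSeries K1} {V : Subring (LaurentSeries K1)} {G : LaurentSeries K1},
      (∃ v ∈ V, f = G ^ (lam ^ b) * (1 + τ * v)) → G ≠ 0 := by
    rintro τ V G ⟨v, -, e⟩ rfl
    rw [zero_pow hP0, zero_mul] at e
    exact hf0 e
  have e1 : G1 ^ lam ^ (a + b) = (G1 ^ lam ^ a) ^ lam ^ b := by rw [← pow_mul, ← _root_.pow_add]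
  have e3 : G3 ^ lam ^ (a + b) = (G3 ^ lam ^ a) ^ lam ^ b := by rw [← pow_mul, ← _root_.pow_add]
  rw [e1] at c1
  rw [e3] at c3
  refine ⟨G1 ^ lam ^ a, G2, G3 ^ lam ^ a, ⟨key c1, Subring.pow_mem _ hG1 _, ?_, c1⟩,
    ⟨key c2, hG2, hG2', c2⟩, ⟨key c3, Subring.pow_mem _ hG3 _, ?_, c3⟩⟩
  · rw [← inv_pow]; exact Subring.pow_mem _ hG1' _
  · rw [← inv_pow]; exact Subring.pow_mem _ hG3' _

set_option maxHeartbeats 1600000 in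
set_option synthInstance.maxHeartbeats 400000 in
/-- **the same in the input shape of TORIC36** (`hG1`, `hG2`, `hG3` of `S36TOR_main`, with
`P = lam ^ b`): `f - G_k ^ P` is a non-unit of `V_k`. -/
theorem S36RDK_lam_nu (hadm : S18K_Admissible A K1 q) (hA : A.LiesOverPrime q)
    (W2 : Subring (LaurentSeries K1)) (hmid : S36VK_IsMid A K1 q M' W2)
    (htm : S18K_π A K1 * (S36VK_t K1 q ^ (q - 1))⁻¹ ∈ W2)
    {lam a b m' : ℕ} (hlam : lam.Prime) (hlq : lam ≠ q) (hqa : q - 1 = lam ^ a * m')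
    (hm' : ¬ lam ∣ m')
    (f : LaurentSeries K1) (hf : f ∈ S18K_F1 K1 (M' * q * q)) (hf0 : f ≠ 0)
    (hfV : f ∈ (S18K_V A K1 (M' * q * q) ⊓ W2 ⊓ S36VK_V0 A K1 q M' hq hqM :
      Subring (LaurentSeries K1)))
    (hfV' : f⁻¹ ∈ (S18K_V A K1 (M' * q * q) ⊓ W2 ⊓ S36VK_V0 A K1 q M' hq hqM :
      Subring (LaurentSeries K1)))
    (hα : S35XD2_NewAlpha K1 q (M' * q) (lam ^ (a + b)) f hf)
    (hβ : S36XA_NewBeta K1 q M' hq hqM (lam ^ (a + b)) f) :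
    ∃ G1 G2 G3 : LaurentSeries K1,
      (G1 ≠ 0 ∧ G1 ∈ S18K_V A K1 (M' * q * q) ∧ G1⁻¹ ∈ S18K_V A K1 (M' * q * q) ∧
        f - G1 ^ (lam ^ b) ∈ Fermat.Agent.S36_helper6_TORIC.S36TOR_nu (S18K_V A K1 (M' * q * q))) ∧
      (G2 ≠ 0 ∧ G2 ∈ W2 ∧ G2⁻¹ ∈ W2 ∧
        f - G2 ^ (lam ^ b) ∈ Fermat.Agent.S36_helper6_TORIC.S36TOR_nu W2) ∧
      (G3 ≠ 0 ∧ G3 ∈ S36VK_V0 A K1 q M' hq hqM ∧ G3⁻¹ ∈ S36VK_V0 A K1 q M' hq hqM ∧
        f - G3 ^ (lam ^ b) ∈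
          Fermat.Agent.S36_helper6_TORIC.S36TOR_nu (S36VK_V0 A K1 q M' hq hqM)) := by
  obtain ⟨G1, G2, G3, ⟨h10, h1, h1', c1⟩, ⟨h20, h2, h2', c2⟩, ⟨h30, h3, h3', c3⟩⟩ :=
    S36RDK_lam A K1 q M' hq hqM hadm hA W2 hmid htm hlam hlq hqa hm' f hf hf0
      hfV hfV' hα hβ
  have H1 := S34V3K_val1 A K1 (M' * q * q)
  have H3 := S36VK_V0_val A K1 q M' hq hqM
  exact ⟨G1, G2, G3,
    ⟨h10, h1, h1', S36RDK_nu_of_Cg H1.π_mem H1.π_nonunit (Subring.pow_mem _ h1 _) c1⟩,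
    ⟨h20, h2, h2', S36RDK_nu_of_Cg hmid.2.2.1 hmid.2.2.2 (Subring.pow_mem _ h2 _) c2⟩,
    ⟨h30, h3, h3', S36RDK_nu_of_Cg H3.π_mem H3.π_nonunit (Subring.pow_mem _ h3 _) c3⟩⟩

/-! ### At helper5's middle ring `S36VK_Vmid` -/

include hq hqM in
/-- the two inputs on `V_mid` from `S36VK_main`: `IsMid` and `π / t ^ (q - 1) ∈ V_mid` -/
theorem S36RDK_mid_inputs (hA : A.LiesOverPrime q)
    (hunr : Associated (S18K_D A K1).π ((q : ℕ) : S18K_O1 A K1)) :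
    S36VK_IsMid A K1 q M' (S36VK_Vmid A K1 q M') ∧
      S18K_π A K1 * (S36VK_t K1 q ^ (q - 1))⁻¹ ∈ S36VK_Vmid A K1 q M' := by
  obtain ⟨hmid, -, -, -, -, h, -⟩ :=
    Fermat.Agent.S36_helper5_VMIDK.S36VK_main A K1 q M' hq hqM hA hunr
  refine ⟨hmid, ?_⟩
  rw [← div_eq_mul_inv]
  exact h

set_option maxHeartbeats 1600000 in
set_option synthInstance.maxHeartbeats 400000 in
/-- **(II.3) RED at the carriers `V_∞`, `V_mid = S36VK_Vmid`, `V_0 = S36VK_V0`** of an unramified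
level (general exponent). -/
theorem S36RDK_mid_main (hadm : S18K_Admissible A K1 q) (hA : A.LiesOverPrime q)
    (hunr : Associated (S18K_D A K1).π ((q : ℕ) : S18K_O1 A K1))
    {n d m' n2 : ℕ} (hq1 : q - 1 = d * m') (hnd : n = d * n2) (hn2 : 0 < n2) (hd : 0 < d)
    (hcopm : Nat.Coprime m' n) (hcopq : Nat.Coprime q n)
    (f : LaurentSeries K1) (hf : f ∈ S18K_F1 K1 (M' * q * q)) (hf0 : f ≠ 0)
    (hfV : f ∈ (S18K_V A K1 (M' * q * q) ⊓ S36VK_Vmid A K1 q M' ⊓ S36VK_V0 A K1 q M' hq hqM :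
      Subring (LaurentSeries K1)))
    (hfV' : f⁻¹ ∈ (S18K_V A K1 (M' * q * q) ⊓ S36VK_Vmid A K1 q M' ⊓
      S36VK_V0 A K1 q M' hq hqM : Subring (LaurentSeries K1)))
    (hα : S35XD2_NewAlpha K1 q (M' * q) n f hf)
    (hβ : S36XA_NewBeta K1 q M' hq hqM n f) :
    (∃ G : LaurentSeries K1, G ∈ S18K_V A K1 (M' * q * q) ∧ G⁻¹ ∈ S18K_V A K1 (M' * q * q) ∧
      S35TOR_Cg (S18K_π A K1) (S18K_V A K1 (M' * q * q)) f (G ^ n)) ∧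
    (∃ G : LaurentSeries K1, G ∈ S36VK_Vmid A K1 q M' ∧ G⁻¹ ∈ S36VK_Vmid A K1 q M' ∧
      S35TOR_Cg (S36VK_t K1 q) (S36VK_Vmid A K1 q M') f (G ^ n2)) ∧
    (∃ G : LaurentSeries K1, G ∈ S36VK_V0 A K1 q M' hq hqM ∧
      G⁻¹ ∈ S36VK_V0 A K1 q M' hq hqM ∧
      S35TOR_Cg (S18K_π A K1) (S36VK_V0 A K1 q M' hq hqM) f (G ^ n)) := by
  obtain ⟨hmid, htm⟩ := S36RDK_mid_inputs A K1 q M' hq hqM hA hunr
  exact S36RDK_main A K1 q M' hq hqM hadm hA _ hmid htm hq1 hnd hn2 hd hcopm hcopq f hf hf0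
    hfV hfV' hα hβ

set_option maxHeartbeats 1600000 in
set_option synthInstance.maxHeartbeats 400000 in
/-- **(II.3) RED at `V_∞`, `V_mid = S36VK_Vmid`, `V_0 = S36VK_V0`, prime power exponent**, in the
input shape of REDPOW. -/
theorem S36RDK_mid_lam (hadm : S18K_Admissible A K1 q) (hA : A.LiesOverPrime q)
    (hunr : Associated (S18K_D A K1).π ((q : ℕ) : S18K_O1 A K1))
    {lam a b m' : ℕ} (hlam : lam.Prime) (hlq : lam ≠ q) (hqa : q - 1 = lam ^ a * m')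
    (hm' : ¬ lam ∣ m')
    (f : LaurentSeries K1) (hf : f ∈ S18K_F1 K1 (M' * q * q)) (hf0 : f ≠ 0)
    (hfV : f ∈ (S18K_V A K1 (M' * q * q) ⊓ S36VK_Vmid A K1 q M' ⊓ S36VK_V0 A K1 q M' hq hqM :
      Subring (LaurentSeries K1)))
    (hfV' : f⁻¹ ∈ (S18K_V A K1 (M' * q * q) ⊓ S36VK_Vmid A K1 q M' ⊓
      S36VK_V0 A K1 q M' hq hqM : Subring (LaurentSeries K1)))
    (hα : S35XD2_NewAlpha K1 q (M' * q) (lam ^ (a + b)) f hf)
    (hβ : S36XA_NewBeta K1 q M' hq hqM (lam ^ (a + b)) f) :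
    ∃ G1 G2 G3 : LaurentSeries K1,
      (G1 ≠ 0 ∧ G1 ∈ S18K_V A K1 (M' * q * q) ∧ G1⁻¹ ∈ S18K_V A K1 (M' * q * q) ∧
        ∃ v ∈ S18K_V A K1 (M' * q * q), f = G1 ^ (lam ^ b) * (1 + S18K_π A K1 * v)) ∧
      (G2 ≠ 0 ∧ G2 ∈ S36VK_Vmid A K1 q M' ∧ G2⁻¹ ∈ S36VK_Vmid A K1 q M' ∧
        ∃ v ∈ S36VK_Vmid A K1 q M', f = G2 ^ (lam ^ b) * (1 + S36VK_t K1 q * v)) ∧
      (G3 ≠ 0 ∧ G3 ∈ S36VK_V0 A K1 q M' hq hqM ∧ G3⁻¹ ∈ S36VK_V0 A K1 q M' hq hqM ∧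
        ∃ v ∈ S36VK_V0 A K1 q M' hq hqM, f = G3 ^ (lam ^ b) * (1 + S18K_π A K1 * v)) := by
  obtain ⟨hmid, htm⟩ := S36RDK_mid_inputs A K1 q M' hq hqM hA hunr
  exact S36RDK_lam A K1 q M' hq hqM hadm hA _ hmid htm hlam hlq hqa hm' f hf hf0 hfV hfV' hα hβ

set_option maxHeartbeats 1600000 in
set_option synthInstance.maxHeartbeats 400000 in
/-- **the same in the input shape of TORIC36.** -/
theorem S36RDK_mid_lam_nu (hadm : S18K_Admissible A K1 q) (hA : A.LiesOverPrime q)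
    (hunr : Associated (S18K_D A K1).π ((q : ℕ) : S18K_O1 A K1))
    {lam a b m' : ℕ} (hlam : lam.Prime) (hlq : lam ≠ q) (hqa : q - 1 = lam ^ a * m')
    (hm' : ¬ lam ∣ m')
    (f : LaurentSeries K1) (hf : f ∈ S18K_F1 K1 (M' * q * q)) (hf0 : f ≠ 0)
    (hfV : f ∈ (S18K_V A K1 (M' * q * q) ⊓ S36VK_Vmid A K1 q M' ⊓ S36VK_V0 A K1 q M' hq hqM :
      Subring (LaurentSeries K1)))
    (hfV' : f⁻¹ ∈ (S18K_V A K1 (M' * q * q) ⊓ S36VK_Vmid A K1 q M' ⊓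
      S36VK_V0 A K1 q M' hq hqM : Subring (LaurentSeries K1)))
    (hα : S35XD2_NewAlpha K1 q (M' * q) (lam ^ (a + b)) f hf)
    (hβ : S36XA_NewBeta K1 q M' hq hqM (lam ^ (a + b)) f) :
    ∃ G1 G2 G3 : LaurentSeries K1,
      (G1 ≠ 0 ∧ G1 ∈ S18K_V A K1 (M' * q * q) ∧ G1⁻¹ ∈ S18K_V A K1 (M' * q * q) ∧
        f - G1 ^ (lam ^ b) ∈ Fermat.Agent.S36_helper6_TORIC.S36TOR_nu (S18K_V A K1 (M' * q * q))) ∧
      (G2 ≠ 0 ∧ G2 ∈ S36VK_Vmid A K1 q M' ∧ G2⁻¹ ∈ S36VK_Vmid A K1 q M' ∧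
        f - G2 ^ (lam ^ b) ∈
          Fermat.Agent.S36_helper6_TORIC.S36TOR_nu (S36VK_Vmid A K1 q M')) ∧
      (G3 ≠ 0 ∧ G3 ∈ S36VK_V0 A K1 q M' hq hqM ∧ G3⁻¹ ∈ S36VK_V0 A K1 q M' hq hqM ∧
        f - G3 ^ (lam ^ b) ∈
          Fermat.Agent.S36_helper6_TORIC.S36TOR_nu (S36VK_V0 A K1 q M' hq hqM)) := by
  obtain ⟨hmid, htm⟩ := S36RDK_mid_inputs A K1 q M' hq hqM hA hunr
  exact S36RDK_lam_nu A K1 q M' hq hqM hadm hA _ hmid htm hlam hlq hqa hm' f hf hf0 hfV hfV'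
    hα hβ

end Main

end Fermat.Agent.S36_helper13_REDK
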