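import Mathlib
import Fermat.Agent.S36_helper6_TORIC
import Fermat.Agent.S36_helper13_RED

/-!
# S36, GEO36: TORPT = the provider of `hpt` of `S36TOR_main` (helper6)

The two norm relations at a triple point, abstract (`Subring L` vocabulary).  CONFIG = the
hypotheses of helper13's `S36RD_abs`: `F1' ≤ F1` (levels `q M'` and `q² M'`), `Va = V'_∞`,
`Vb = V'_0` the two valuation rings of `F1'`, `V1 = V_∞`, `V2 = V_mid` above `Va` and `V3 = V_0`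
above `Vb`.

* `S36TPT_const` (A, global): `N f = c H ^ P`, `G` a glued root at exponent `P` on the three
  branches  ⟹  `N(G) / H` is congruent to unit constants `γa` on `Va` and `γb` on `Vb`
  (roots of constants: helper28's `hroot` shape);
* `S36TPT_rel` (B, one point): `R' ≤ R` local rings (`R' ≤ Va, Vb`, `R ≤ V1, V2, V3`), with
  `hlocal`, `hnorm`, `hroot'` (all three follow from (INTEG), `S36TPT_of_integral`) and the LS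
  facts; for ANY factorisation `f = u g ^ P` (`u` a unit of `R`) and ANY branch values `W_k` of
  `G / g`:  `γb * W1 * W2 ^ (q - 1) - γa * W3 ^ q ∈ S36TOR_nu R`;
* `S36TPT_const_beta`, `S36TPT_rel_beta` (C): the same for the `β`-side, by transport along an
  involution `w` of `F1` exchanging `V1` and `V3` and fixing `V2` (`S36TPT_Inv`), from the data
  of (B) at the mirror point:  `γb * W3 * W2 ^ (q - 1) - γa * W1 ^ q ∈ S36TOR_nu R`.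

So `hpt` of `S36TOR_main` is FACT (`u`, `g`) + BRANCH36 (`W_k`) + (B) + (C2), with
`(cα, cα') = (γb, γa)` of (A) and `(cβ, cβ') = (γb, γa)` of (C1).
-/

set_option autoImplicit false
set_option linter.style.haveILetI false
set_option linter.unusedSectionVars false
set_option linter.unusedVariables false

namespace Fermat.Agent.S36_helper6_TORPT

open Fermat.Agent.S34_helper27_C2Defs Fermat.Agent.S34_helper13_KEY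
  Fermat.Agent.S36_helper6_TORIC Fermat.Agent.S36_helper13_RED

variable {L : Type*} [Field L]

section Basic

variable {π : L} {F : Subfield L} {W : Subring L}

/-- `π` is a non-unit of a valuation ring `W` -/
theorem S36TPT_pi_nu (H : S34C2_Val π F W) : π ∈ S36TOR_nu W := ⟨H.π_mem, Or.inr H.π_nonunit⟩

/-- `π * v` is a non-unit -/
theorem S36TPT_pi_mul_nu (H : S34C2_Val π F W) {v : L} (hv : v ∈ W) : π * v ∈ S36TOR_nu W :=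
  S36TOR_nu_mul_right (S36TPT_pi_nu H) hv

/-- an element `x = τ * v` with `τ` a non-unit is a non-unit -/
theorem S36TPT_nu_of_eq {τ x : L} (hτ : τ ∈ S36TOR_nu W) (h : ∃ v ∈ W, x = τ * v) :
    x ∈ S36TOR_nu W := by
  obtain ⟨v, hv, rfl⟩ := h
  exact S36TOR_nu_mul_right hτ hv

/-- a non-unit of `W` lying in a subring `U ≤ W` is a non-unit of `U` -/
theorem S36TPT_nu_down {U : Subring L} (hUW : U ≤ W) {x : L} (hx : x ∈ U)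
    (h : x ∈ S36TOR_nu W) : x ∈ S36TOR_nu U := S36TOR_nu_of_le hUW hx h

/-- congruent products -/
theorem S36TPT_nu_mul_pow (H : S34C2_Val π F W) {a b a' b' : L} (ha : a ∈ W) (hb : b ∈ W)
    (ha' : a' ∈ W) (hb' : b' ∈ W) (h1 : a - a' ∈ S36TOR_nu W) (h2 : b - b' ∈ S36TOR_nu W)
    (m : ℕ) : a * b ^ m - a' * b' ^ m ∈ S36TOR_nu W := by
  have e : a * b ^ m - a' * b' ^ m = (a - a') * b ^ m + a' * (b ^ m - b' ^ m) := by ring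
  rw [e]
  exact S36TOR_nu_add_val H (S36TOR_nu_mul_right h1 (W.pow_mem hb m))
    (S36TOR_nu_mul_left ha' (S36TOR_nu_pow_sub hb hb' h2 m))

end Basic

section Norm

variable {F1' F1 : Subfield L} (hF : F1' ≤ F1)

/-- the norm of `F1 / F1'` on elements of `L` lying in `F1` -/
noncomputable def S36TPT_N (x : L) (hx : x ∈ F1) : L :=
  letI := S34KEY_alg hF
  ((Algebra.norm ↥F1' (⟨x, hx⟩ : ↥F1) : ↥F1') : L)

theorem S36TPT_N_mem (x : L) (hx : x ∈ F1) : S36TPT_N hF x hx ∈ F1' := by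
  letI := S34KEY_alg hF
  exact (Algebra.norm ↥F1' (⟨x, hx⟩ : ↥F1)).2

theorem S36TPT_N_mul (x y : L) (hx : x ∈ F1) (hy : y ∈ F1) :
    S36TPT_N hF (x * y) (F1.mul_mem hx hy) = S36TPT_N hF x hx * S36TPT_N hF y hy := by
  letI := S34KEY_alg hF
  unfold S36TPT_N
  have : (⟨x * y, F1.mul_mem hx hy⟩ : ↥F1) = ⟨x, hx⟩ * ⟨y, hy⟩ := rfl
  rw [this, map_mul]
  rfl

theorem S36TPT_N_pow (x : L) (hx : x ∈ F1) (n : ℕ) :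
    S36TPT_N hF (x ^ n) (F1.pow_mem hx n) = S36TPT_N hF x hx ^ n := by
  letI := S34KEY_alg hF
  unfold S36TPT_N
  have : (⟨x ^ n, F1.pow_mem hx n⟩ : ↥F1) = ⟨x, hx⟩ ^ n := rfl
  rw [this, map_pow]
  rfl

theorem S36TPT_N_congr {x y : L} (hx : x ∈ F1) (hy : y ∈ F1) (h : x = y) :
    S36TPT_N hF x hx = S36TPT_N hF y hy := by
  subst h; rfl

theorem S36TPT_N_ne_zero {n : ℕ}
    (hdeg : ∃ s : Finset L, s.card ≤ n ∧ ∀ x ∈ F1, ∃ c : L → L,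
      (∀ y, c y ∈ F1') ∧ x = ∑ y ∈ s, c y * y)
    {x : L} (hx : x ∈ F1) (hx0 : x ≠ 0) : S36TPT_N hF x hx ≠ 0 := by
  letI := S34KEY_alg hF
  haveI : FiniteDimensional ↥F1' ↥F1 := (S34KEY_finrank_le hF hdeg).1
  intro h0
  have h0' : (Algebra.norm ↥F1' (⟨x, hx⟩ : ↥F1) : ↥F1') = 0 := Subtype.ext h0
  have := Algebra.norm_eq_zero_iff.1 h0'
  exact hx0 (congrArg (fun z : ↥F1 => (z : L)) this)

end Norm

/-- (B) the norm relation at one point. -/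
theorem S36TPT_rel [CharZero L] {π : L} {F1' F1 : Subfield L}
    {Va Vb V1 V2 V3 R' R : Subring L}
    (hF : F1' ≤ F1)
    (hVa : S34C2_Val π F1' Va)
    (hsepa : ∀ x ∈ F1', x ≠ 0 → ∃ (z : ℤ) (u : L), u ∈ Va ∧ u⁻¹ ∈ Va ∧ x = π ^ z * u)
    (hVb : S34C2_Val π F1' Vb)
    (hsepb : ∀ x ∈ F1', x ≠ 0 → ∃ (z : ℤ) (u : L), u ∈ Vb ∧ u⁻¹ ∈ Vb ∧ x = π ^ z * u)
    (h1 : S34C2_Val π F1 V1) (h2 : S34C2_Val π F1 V2) (h3 : S34C2_Val π F1 V3)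
    (hVa1 : Va ≤ V1) (hVa2 : Va ≤ V2) (hVb3 : Vb ≤ V3) (hne : V1 ≠ V2)
    {q : ℕ} (hq : q.Prime)
    (hdeg : ∃ s : Finset L, s.card ≤ q ∧ ∀ x ∈ F1, ∃ c : L → L,
      (∀ y, c y ∈ F1') ∧ x = ∑ y ∈ s, c y * y)
    {t : L} (ht : t ∈ V2) (ht0 : t ≠ 0) (htn : t⁻¹ ∉ V2) (htm : π * (t ^ (q - 1))⁻¹ ∈ V2)
    {y x : L} (hy : y ∈ V3) (hx : x ∈ Vb) (hyx : y ^ q - x = 0 ∨ (y ^ q - x)⁻¹ ∉ V3)
    (hxq : ∀ r ∈ Vb, ∀ v ∈ Vb, r ^ q - x ≠ π * v)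
    (hchar : ∃ v ∈ Vb, (q : L) = π * v)
    (hR : IsLocalRing ↥R) (hR'R : R' ≤ R) (hR'a : R' ≤ Va) (hR'b : R' ≤ Vb)
    (hR1 : R ≤ V1) (hR2 : R ≤ V2) (hR3 : R ≤ V3)
    (hlocal : ∀ x ∈ R', x ∈ S36TOR_nu R' → x ∈ S36TOR_nu R)
    (hnorm : letI := S34KEY_alg hF
      ∀ (u : L) (hu : u ∈ F1), u ∈ R → u⁻¹ ∈ R →
        ((Algebra.norm ↥F1' (⟨u, hu⟩ : ↥F1) : ↥F1') : L) ∈ R')
    (hroot' : ∀ x ∈ F1', ∀ n : ℕ, 0 < n → x ^ n ∈ R' → x ∈ R')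
    (hLS1 : ∀ w ∈ R, ∃ a ∈ R', w - a ∈ S36TOR_nu V1)
    (hLS2 : ∀ w ∈ R, ∃ a ∈ R', w - a ∈ S36TOR_nu V2)
    (hLS3 : ∀ w ∈ R, ∃ c ∈ R', w ^ q - c ∈ S36TOR_nu V3)
    {P : ℕ} (hP : 0 < P) {f c H G γa γb : L} (hf : f ∈ F1) (hf0 : f ≠ 0)
    (hc0 : c ≠ 0) (hc' : c⁻¹ ∈ R') (hHF : H ∈ F1') (hH0 : H ≠ 0)
    (hN : letI := S34KEY_alg hF
      ((Algebra.norm ↥F1' (⟨f, hf⟩ : ↥F1) : ↥F1') : L) = c * H ^ P)
    (hGF : G ∈ F1) (hG0 : G ≠ 0) (hγa : γa ∈ R') (hγb : γb ∈ R')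
    (hγ1 : letI := S34KEY_alg hF
      ((Algebra.norm ↥F1' (⟨G, hGF⟩ : ↥F1) : ↥F1') : L) / H - γa ∈ S36TOR_nu Va)
    (hγ2 : letI := S34KEY_alg hF
      ((Algebra.norm ↥F1' (⟨G, hGF⟩ : ↥F1) : ↥F1') : L) / H - γb ∈ S36TOR_nu Vb)
    {u g W1 W2 W3 : L} (hu : u ∈ R) (hu' : u⁻¹ ∈ R) (hg : g ∈ F1) (hfact : f = u * g ^ P)
    (hW1 : W1 ∈ R) (hW2 : W2 ∈ R) (hW3 : W3 ∈ R)
    (hr1 : G / g - W1 ∈ S36TOR_nu V1) (hr2 : G / g - W2 ∈ S36TOR_nu V2)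
    (hr3 : G / g - W3 ∈ S36TOR_nu V3) :
    γb * W1 * W2 ^ (q - 1) - γa * W3 ^ q ∈ S36TOR_nu R := by
  classical
  letI := S34KEY_alg hF
  have hm0 : 0 < q - 1 := by have := hq.two_le; omega
  have hdeg' : ∃ s : Finset L, s.card ≤ 1 + (q - 1) ∧ ∀ x ∈ F1, ∃ c : L → L,
      (∀ y, c y ∈ F1') ∧ x = ∑ y ∈ s, c y * y := by
    obtain ⟨s, hs, h⟩ := hdeg
    exact ⟨s, by omega, h⟩
  obtain ⟨-, -, -, -, -, hNram⟩ :=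
    S36RD_abs_ram_ex hF hVa hsepa h1 h2 hVa1 hVa2 hne hm0 hdeg' ht ht0 htn htm
  obtain ⟨-, hNins⟩ := S36RD_abs_insep_ex hF hVb hsepb h3 hVb3 hq hdeg hy hx hyx hxq hchar
  have hg0 : g ≠ 0 := by
    rintro rfl
    apply hf0
    rw [hfact, zero_pow hP.ne', mul_zero]
  have hu0 : u ≠ 0 := by
    rintro rfl
    apply hf0
    rw [hfact, zero_mul]
  have huF : u ∈ F1 := h1.le (hR1 hu)
  have hrF : G / g ∈ F1 := F1.div_mem hGF hg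
  have hrV1 : G / g ∈ V1 := by
    have := V1.add_mem hr1.1 (hR1 hW1)
    rwa [sub_add_cancel] at this
  have hrV2 : G / g ∈ V2 := by
    have := V2.add_mem hr2.1 (hR2 hW2)
    rwa [sub_add_cancel] at this
  have hrV3 : G / g ∈ V3 := by
    have := V3.add_mem hr3.1 (hR3 hW3)
    rwa [sub_add_cancel] at this
  have htnu : t ∈ S36TOR_nu V2 := ⟨ht, Or.inr htn⟩
  -- the split + ramified side
  obtain ⟨a, ha, b, hb, hfa, hfb, ρ, hρ, eρ, hab⟩ := hNram (G / g) hrV1 hrV2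
  have eρ' : S36TPT_N hF (G / g) hrF = ρ := eρ
  obtain ⟨ax, hax, hWax⟩ := hLS1 W1 hW1
  obtain ⟨ay, hay, hWay⟩ := hLS2 W2 hW2
  obtain ⟨cz, hcz, hWcz⟩ := hLS3 W3 hW3
  have haax : a - ax ∈ S36TOR_nu Va := by
    refine S36TPT_nu_down hVa1 (Va.sub_mem ha (hR'a hax)) ?_
    have h := S36TOR_nu_add_val h1 (S36TOR_nu_sub_val h1 hr1
      (S36TPT_nu_of_eq (S36TPT_pi_nu h1) hfa)) hWax
    have e : G / g - W1 - (G / g - a) + (W1 - ax) = a - ax := by ring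
    rwa [e] at h
  have hbay : b - ay ∈ S36TOR_nu Va := by
    refine S36TPT_nu_down hVa2 (Va.sub_mem hb (hR'a hay)) ?_
    have h := S36TOR_nu_add_val h2 (S36TOR_nu_sub_val h2 hr2
      (S36TPT_nu_of_eq htnu hfb)) hWay
    have e : G / g - W2 - (G / g - b) + (W2 - ay) = b - ay := by ring
    rwa [e] at h
  have hN1 : S36TPT_N hF (G / g) hrF - ax * ay ^ (q - 1) ∈ S36TOR_nu Va := by
    rw [eρ']
    have h := S36TOR_nu_add_val hVa (S36TPT_nu_of_eq (S36TPT_pi_nu hVa) hab)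
      (S36TPT_nu_mul_pow hVa ha hb (hR'a hax) (hR'a hay) haax hbay (q - 1))
    have e : ρ - a * b ^ (q - 1) + (a * b ^ (q - 1) - ax * ay ^ (q - 1)) =
        ρ - ax * ay ^ (q - 1) := by ring
    rwa [e] at h
  -- the inseparable side
  obtain ⟨ρ', hρ', eρ2, hins⟩ := hNins (G / g) hrV3
  have eρ2' : S36TPT_N hF (G / g) hrF = ρ' := eρ2
  have hN2 : S36TPT_N hF (G / g) hrF - cz ∈ S36TOR_nu Vb := by
    rw [eρ2']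
    refine S36TPT_nu_down hVb3 (Vb.sub_mem hρ' (hR'b hcz)) ?_
    have h := S36TOR_nu_add_val h3 (S36TOR_nu_add_val h3
      (S36TPT_nu_of_eq (S36TPT_pi_nu h3) hins)
      (S36TOR_nu_pow_sub hrV3 (hR3 hW3) hr3 q)) hWcz
    have e : ρ' - (G / g) ^ q + ((G / g) ^ q - W3 ^ q) + (W3 ^ q - cz) = ρ' - cz := by ring
    rwa [e] at h
  -- the factorisation of the norm
  have hNg0 : S36TPT_N hF g hg ≠ 0 := S36TPT_N_ne_zero hF hdeg hg hg0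
  have hNu0 : S36TPT_N hF u huF ≠ 0 := S36TPT_N_ne_zero hF hdeg huF hu0
  have hNG : S36TPT_N hF (G / g) hrF * S36TPT_N hF g hg = S36TPT_N hF G hGF := by
    rw [← S36TPT_N_mul]
    exact S36TPT_N_congr hF _ _ (div_mul_cancel₀ G hg0)
  have hNf : S36TPT_N hF u huF * S36TPT_N hF g hg ^ P = c * H ^ P := by
    rw [← S36TPT_N_pow, ← S36TPT_N_mul]
    have : S36TPT_N hF f hf = c * H ^ P := hN
    rw [← this]
    exact S36TPT_N_congr hF _ _ hfact.symm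
  have hωF : H / S36TPT_N hF g hg ∈ F1' := F1'.div_mem hHF (S36TPT_N_mem hF g hg)
  have hω : H / S36TPT_N hF g hg ∈ R' := by
    refine hroot' _ hωF P hP ?_
    have e : (H / S36TPT_N hF g hg) ^ P = S36TPT_N hF u huF * c⁻¹ := by
      rw [div_pow]
      have hHP : H ^ P ≠ 0 := pow_ne_zero _ hH0
      have hgP : S36TPT_N hF g hg ^ P ≠ 0 := pow_ne_zero _ hNg0
      field_simp
      linear_combination (-1 : L) * hNf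
    rw [e]
    exact R'.mul_mem (hnorm u huF hu hu') hc'
  have hNr : S36TPT_N hF (G / g) hrF =
      S36TPT_N hF G hGF / H * (H / S36TPT_N hF g hg) := by
    rw [← hNG]
    field_simp
  exact S36TOR_point hR hR'R hR'a hR'b hR1 hR2 hR3
    (fun x hx y hy => S36TOR_nu_add_val hVa hx hy)
    (fun x hx y hy => S36TOR_nu_add_val hVb hx hy) hlocal hNr hω hγa hγb hγ1 hγ2
    hax hay hcz hN1 hN2 hW1 hW2 hW3 hWax hWay hWcz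

/-- non-units of a DVR-like valuation ring are multiples of `π` -/
theorem S36TPT_unif {π : L} {F : Subfield L} {V : Subring L} (hV : S34C2_Val π F V)
    (hsep : ∀ x ∈ F, x ≠ 0 → ∃ (z : ℤ) (u : L), u ∈ V ∧ u⁻¹ ∈ V ∧ x = π ^ z * u)
    {x : L} (hx : x ∈ S36TOR_nu V) : ∃ v ∈ V, x = π * v := by
  by_cases hx0 : x = 0
  · exact ⟨0, V.zero_mem, by rw [hx0, mul_zero]⟩
  have hx' : x⁻¹ ∉ V := by
    rcases hx.2 with h | h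
    · exact absurd h hx0
    · exact h
  obtain ⟨k, u, hu, hu', e⟩ := S34KEY_nat_of_mem hV hsep hx.1 hx0
  rcases Nat.eq_zero_or_pos k with rfl | hk
  · exfalso
    apply hx'
    rw [e, pow_zero, one_mul]
    exact hu'
  · refine ⟨π ^ (k - 1) * u, V.mul_mem (V.pow_mem hV.π_mem _) hu, ?_⟩
    rw [e, ← mul_assoc, ← pow_succ']
    congr 2
    omega

/-- the norm of an element congruent to `1` on the three branches is congruent to `1` on the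
two lower branches -/
theorem S36TPT_norm_one [CharZero L] {π : L} {F1' F1 : Subfield L}
    {Va Vb V1 V2 V3 : Subring L}
    (hF : F1' ≤ F1)
    (hVa : S34C2_Val π F1' Va)
    (hsepa : ∀ x ∈ F1', x ≠ 0 → ∃ (z : ℤ) (u : L), u ∈ Va ∧ u⁻¹ ∈ Va ∧ x = π ^ z * u)
    (hVb : S34C2_Val π F1' Vb)
    (hsepb : ∀ x ∈ F1', x ≠ 0 → ∃ (z : ℤ) (u : L), u ∈ Vb ∧ u⁻¹ ∈ Vb ∧ x = π ^ z * u)
    (h1 : S34C2_Val π F1 V1) (h2 : S34C2_Val π F1 V2) (h3 : S34C2_Val π F1 V3)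
    (hVa1 : Va ≤ V1) (hVa2 : Va ≤ V2) (hVb3 : Vb ≤ V3) (hne : V1 ≠ V2)
    {q : ℕ} (hq : q.Prime)
    (hdeg : ∃ s : Finset L, s.card ≤ q ∧ ∀ x ∈ F1, ∃ c : L → L,
      (∀ y, c y ∈ F1') ∧ x = ∑ y ∈ s, c y * y)
    {t : L} (ht : t ∈ V2) (ht0 : t ≠ 0) (htn : t⁻¹ ∉ V2) (htm : π * (t ^ (q - 1))⁻¹ ∈ V2)
    {y x : L} (hy : y ∈ V3) (hx : x ∈ Vb) (hyx : y ^ q - x = 0 ∨ (y ^ q - x)⁻¹ ∉ V3)
    (hxq : ∀ r ∈ Vb, ∀ v ∈ Vb, r ^ q - x ≠ π * v)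
    (hchar : ∃ v ∈ Vb, (q : L) = π * v)
    {e : L} (heF : e ∈ F1) (he1 : e - 1 ∈ S36TOR_nu V1) (he2 : e - 1 ∈ S36TOR_nu V2)
    (he3 : e - 1 ∈ S36TOR_nu V3) :
    S36TPT_N hF e heF - 1 ∈ S36TOR_nu Va ∧ S36TPT_N hF e heF - 1 ∈ S36TOR_nu Vb := by
  classical
  letI := S34KEY_alg hF
  have hm0 : 0 < q - 1 := by have := hq.two_le; omega
  have hdeg' : ∃ s : Finset L, s.card ≤ 1 + (q - 1) ∧ ∀ x ∈ F1, ∃ c : L → L,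
      (∀ y, c y ∈ F1') ∧ x = ∑ y ∈ s, c y * y := by
    obtain ⟨s, hs, h⟩ := hdeg
    exact ⟨s, by omega, h⟩
  obtain ⟨-, -, -, -, -, hNram⟩ :=
    S36RD_abs_ram_ex hF hVa hsepa h1 h2 hVa1 hVa2 hne hm0 hdeg' ht ht0 htn htm
  obtain ⟨-, hNins⟩ := S36RD_abs_insep_ex hF hVb hsepb h3 hVb3 hq hdeg hy hx hyx hxq hchar
  have htnu : t ∈ S36TOR_nu V2 := ⟨ht, Or.inr htn⟩
  have heV1 : e ∈ V1 := by
    have := V1.add_mem he1.1 V1.one_mem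
    rwa [sub_add_cancel] at this
  have heV2 : e ∈ V2 := by
    have := V2.add_mem he2.1 V2.one_mem
    rwa [sub_add_cancel] at this
  have heV3 : e ∈ V3 := by
    have := V3.add_mem he3.1 V3.one_mem
    rwa [sub_add_cancel] at this
  obtain ⟨a, ha, b, hb, hfa, hfb, ρ, hρ, eρ, hab⟩ := hNram e heV1 heV2
  have eρ' : S36TPT_N hF e heF = ρ := eρ
  obtain ⟨ρ', hρ', eρ2, hins⟩ := hNins e heV3
  have eρ2' : S36TPT_N hF e heF = ρ' := eρ2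
  have ha1 : a - 1 ∈ S36TOR_nu Va := by
    refine S36TPT_nu_down hVa1 (Va.sub_mem ha Va.one_mem) ?_
    have h := S36TOR_nu_sub_val h1 he1 (S36TPT_nu_of_eq (S36TPT_pi_nu h1) hfa)
    have e' : e - 1 - (e - a) = a - 1 := by ring
    rwa [e'] at h
  have hb1 : b - 1 ∈ S36TOR_nu Va := by
    refine S36TPT_nu_down hVa2 (Va.sub_mem hb Va.one_mem) ?_
    have h := S36TOR_nu_sub_val h2 he2 (S36TPT_nu_of_eq htnu hfb)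
    have e' : e - 1 - (e - b) = b - 1 := by ring
    rwa [e'] at h
  constructor
  · rw [eρ']
    have h := S36TOR_nu_add_val hVa (S36TPT_nu_of_eq (S36TPT_pi_nu hVa) hab)
      (S36TPT_nu_mul_pow hVa ha hb Va.one_mem Va.one_mem ha1 hb1 (q - 1))
    have e' : ρ - a * b ^ (q - 1) + (a * b ^ (q - 1) - 1 * 1 ^ (q - 1)) = ρ - 1 := by ring
    rwa [e'] at h
  · rw [eρ2']
    refine S36TPT_nu_down hVb3 (Vb.sub_mem hρ' Vb.one_mem) ?_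
    have h := S36TOR_nu_add_val h3 (S36TPT_nu_of_eq (S36TPT_pi_nu h3) hins)
      (S36TOR_nu_pow_sub heV3 V3.one_mem he3 q)
    have e' : ρ' - e ^ q + (e ^ q - 1 ^ q) = ρ' - 1 := by ring
    rwa [e'] at h

/-- (A) the two constants. -/
theorem S36TPT_const [CharZero L] {π : L} {F1' F1 : Subfield L} {O Va Vb V1 V2 V3 : Subring L}
    (hF : F1' ≤ F1)
    (hVa : S34C2_Val π F1' Va)
    (hsepa : ∀ x ∈ F1', x ≠ 0 → ∃ (z : ℤ) (u : L), u ∈ Va ∧ u⁻¹ ∈ Va ∧ x = π ^ z * u)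
    (hVb : S34C2_Val π F1' Vb)
    (hsepb : ∀ x ∈ F1', x ≠ 0 → ∃ (z : ℤ) (u : L), u ∈ Vb ∧ u⁻¹ ∈ Vb ∧ x = π ^ z * u)
    (h1 : S34C2_Val π F1 V1) (h2 : S34C2_Val π F1 V2) (h3 : S34C2_Val π F1 V3)
    (hVa1 : Va ≤ V1) (hVa2 : Va ≤ V2) (hVb3 : Vb ≤ V3) (hne : V1 ≠ V2)
    {q : ℕ} (hq : q.Prime)
    (hdeg : ∃ s : Finset L, s.card ≤ q ∧ ∀ x ∈ F1, ∃ c : L → L,
      (∀ y, c y ∈ F1') ∧ x = ∑ y ∈ s, c y * y)
    {t : L} (ht : t ∈ V2) (ht0 : t ≠ 0) (htn : t⁻¹ ∉ V2) (htm : π * (t ^ (q - 1))⁻¹ ∈ V2)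
    {y x : L} (hy : y ∈ V3) (hx : x ∈ Vb) (hyx : y ^ q - x = 0 ∨ (y ^ q - x)⁻¹ ∉ V3)
    (hxq : ∀ r ∈ Vb, ∀ v ∈ Vb, r ^ q - x ≠ π * v)
    (hchar : ∃ v ∈ Vb, (q : L) = π * v)
    (hOa : O ≤ Va) (hOb : O ≤ Vb)
    (hroota : ∀ (m : ℕ), m ≠ 0 → ∀ x ∈ F1', x ≠ 0 → ∀ c₀ ∈ O, c₀⁻¹ ∈ O → c₀ ≠ 0 →
      (∃ y ∈ Va, x ^ m = c₀ * (1 + π * y)) →
      ∃ γ ∈ O, γ⁻¹ ∈ O ∧ γ ≠ 0 ∧ ∃ z ∈ Va, x = γ * (1 + π * z))
    (hrootb : ∀ (m : ℕ), m ≠ 0 → ∀ x ∈ F1', x ≠ 0 → ∀ c₀ ∈ O, c₀⁻¹ ∈ O → c₀ ≠ 0 →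
      (∃ y ∈ Vb, x ^ m = c₀ * (1 + π * y)) →
      ∃ γ ∈ O, γ⁻¹ ∈ O ∧ γ ≠ 0 ∧ ∃ z ∈ Vb, x = γ * (1 + π * z))
    {P : ℕ} (hP : 0 < P) {f c H G : L} (hf : f ∈ F1) (hf0 : f ≠ 0)
    (hc : c ≠ 0 ∧ c ∈ O ∧ c⁻¹ ∈ O) (hHF : H ∈ F1') (hH0 : H ≠ 0)
    (hN : letI := S34KEY_alg hF
      ((Algebra.norm ↥F1' (⟨f, hf⟩ : ↥F1) : ↥F1') : L) = c * H ^ P)
    (hGF : G ∈ F1)
    (hG1 : G ≠ 0 ∧ G ∈ V1 ∧ G⁻¹ ∈ V1 ∧ f - G ^ P ∈ S36TOR_nu V1)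
    (hG2 : G ≠ 0 ∧ G ∈ V2 ∧ G⁻¹ ∈ V2 ∧ f - G ^ P ∈ S36TOR_nu V2)
    (hG3 : G ≠ 0 ∧ G ∈ V3 ∧ G⁻¹ ∈ V3 ∧ f - G ^ P ∈ S36TOR_nu V3) :
    letI := S34KEY_alg hF
    ∃ γa γb : L, (γa ≠ 0 ∧ γa ∈ O ∧ γa⁻¹ ∈ O) ∧ (γb ≠ 0 ∧ γb ∈ O ∧ γb⁻¹ ∈ O) ∧
      ((Algebra.norm ↥F1' (⟨G, hGF⟩ : ↥F1) : ↥F1') : L) / H - γa ∈ S36TOR_nu Va ∧
      ((Algebra.norm ↥F1' (⟨G, hGF⟩ : ↥F1) : ↥F1') : L) / H - γb ∈ S36TOR_nu Vb := by
  classical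
  letI := S34KEY_alg hF
  obtain ⟨hG0, hGV1, hGV1', hfG1⟩ := hG1
  obtain ⟨-, hGV2, hGV2', hfG2⟩ := hG2
  obtain ⟨-, hGV3, hGV3', hfG3⟩ := hG3
  have hGP0 : G ^ P ≠ 0 := pow_ne_zero _ hG0
  have hGPF : G ^ P ∈ F1 := F1.pow_mem hGF P
  -- `e = f / G ^ P ≡ 1`
  have heF : f / G ^ P ∈ F1 := F1.div_mem hf hGPF
  have hek : ∀ {V : Subring L}, G⁻¹ ∈ V → f - G ^ P ∈ S36TOR_nu V →
      f / G ^ P - 1 ∈ S36TOR_nu V := by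
    intro V hG' h
    have e' : f / G ^ P - 1 = (f - G ^ P) * (G⁻¹) ^ P := by
      rw [inv_pow]
      field_simp
    rw [e']
    exact S36TOR_nu_mul_right h (V.pow_mem hG' P)
  obtain ⟨hea, heb⟩ := S36TPT_norm_one hF hVa hsepa hVb hsepb h1 h2 h3 hVa1 hVa2 hVb3 hne hq
    hdeg ht ht0 htn htm hy hx hyx hxq hchar heF (hek hGV1' hfG1) (hek hGV2' hfG2)
    (hek hGV3' hfG3)
  have he0 : f / G ^ P ≠ 0 := div_ne_zero hf0 hGP0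
  have hNe0 : S36TPT_N hF (f / G ^ P) heF ≠ 0 := S36TPT_N_ne_zero hF hdeg heF he0
  have hNG0 : S36TPT_N hF G hGF ≠ 0 := S36TPT_N_ne_zero hF hdeg hGF hG0
  -- `N f = N e * N G ^ P`
  have hNf : S36TPT_N hF (f / G ^ P) heF * S36TPT_N hF G hGF ^ P = c * H ^ P := by
    rw [← S36TPT_N_pow, ← S36TPT_N_mul]
    have : S36TPT_N hF f hf = c * H ^ P := hN
    rw [← this]
    exact S36TPT_N_congr hF _ _ (div_mul_cancel₀ f hGP0)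
  have hγF : S36TPT_N hF G hGF / H ∈ F1' := F1'.div_mem (S36TPT_N_mem hF G hGF) hHF
  have hγ0 : S36TPT_N hF G hGF / H ≠ 0 := div_ne_zero hNG0 hH0
  have hγP : (S36TPT_N hF G hGF / H) ^ P = c * (S36TPT_N hF (f / G ^ P) heF)⁻¹ := by
    rw [div_pow]
    have hHP : H ^ P ≠ 0 := pow_ne_zero _ hH0
    field_simp
    linear_combination hNf
  -- the key: `(N e)⁻¹ = 1 + π y`
  have key : ∀ {V : Subring L}, S34C2_Val π F1' V →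
      (∀ x ∈ F1', x ≠ 0 → ∃ (z : ℤ) (u : L), u ∈ V ∧ u⁻¹ ∈ V ∧ x = π ^ z * u) →
      S36TPT_N hF (f / G ^ P) heF - 1 ∈ S36TOR_nu V →
      ∃ y ∈ V, (S36TPT_N hF G hGF / H) ^ P = c * (1 + π * y) := by
    intro V hV hsep h
    have hu := S36TOR_unit_add_val hV V.one_mem one_ne_zero (by rw [inv_one]; exact V.one_mem) h
    rw [add_sub_cancel] at hu
    have hnu : (S36TPT_N hF (f / G ^ P) heF)⁻¹ - 1 ∈ S36TOR_nu V := by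
      have e' : (S36TPT_N hF (f / G ^ P) heF)⁻¹ - 1 =
          -((S36TPT_N hF (f / G ^ P) heF - 1) * (S36TPT_N hF (f / G ^ P) heF)⁻¹) := by
        field_simp
        ring
      rw [e']
      exact S36TOR_nu_neg (S36TOR_nu_mul_right h hu.2)
    obtain ⟨y, hy, ey⟩ := S36TPT_unif hV hsep hnu
    refine ⟨y, hy, ?_⟩
    rw [hγP, ← ey]
    ring
  obtain ⟨ya, hya, eya⟩ := key hVa hsepa hea
  obtain ⟨yb, hyb, eyb⟩ := key hVb hsepb heb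
  obtain ⟨γa, hγa, hγa', hγa0, za, hza, eza⟩ :=
    hroota P hP.ne' _ hγF hγ0 c hc.2.1 hc.2.2 hc.1 ⟨ya, hya, eya⟩
  obtain ⟨γb, hγb, hγb', hγb0, zb, hzb, ezb⟩ :=
    hrootb P hP.ne' _ hγF hγ0 c hc.2.1 hc.2.2 hc.1 ⟨yb, hyb, eyb⟩
  refine ⟨γa, γb, ⟨hγa0, hγa, hγa'⟩, ⟨hγb0, hγb, hγb'⟩, ?_, ?_⟩
  · have e' : S36TPT_N hF G hGF / H - γa = π * (γa * za) := by
      rw [eza]; ring
    show S36TPT_N hF G hGF / H - γa ∈ S36TOR_nu Va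
    rw [e']
    exact S36TPT_pi_mul_nu hVa (Va.mul_mem (hOa hγa) hza)
  · have e' : S36TPT_N hF G hGF / H - γb = π * (γb * zb) := by
      rw [ezb]; ring
    show S36TPT_N hF G hGF / H - γb ∈ S36TOR_nu Vb
    rw [e']
    exact S36TPT_pi_mul_nu hVb (Vb.mul_mem (hOb hγb) hzb)

section Integral

variable {F1' F1 : Subfield L} (hF : F1' ≤ F1) {R' R : Subring L}

/-- the norm of an element integral over `R'` lies in `R'` (`R'` integrally closed in `F1'`) -/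
theorem S36TPT_norm_mem (hR'F : ∀ x ∈ R', x ∈ F1')
    (hic : ∀ x ∈ F1', IsIntegral ↥R' x → x ∈ R')
    {u : L} (hu : u ∈ F1) (hint : IsIntegral ↥R' u) :
    S36TPT_N hF u hu ∈ R' := by
  letI := S34KEY_alg hF
  let φ' : ↥R' →+* ↥F1' :=
    { toFun := fun x => ⟨x.1, hR'F x.1 x.2⟩
      map_one' := rfl
      map_mul' := fun _ _ => rfl
      map_zero' := rfl
      map_add' := fun _ _ => rfl }
  letI : Algebra ↥R' ↥F1' := φ'.toAlgebra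
  letI : Algebra ↥R' ↥F1 := ((algebraMap ↥F1' ↥F1).comp φ').toAlgebra
  haveI : IsScalarTower ↥R' ↥F1' ↥F1 := IsScalarTower.of_algebraMap_eq (fun _ => rfl)
  have h1 : IsIntegral ↥R' (⟨u, hu⟩ : ↥F1) := by
    obtain ⟨p, hp, hpv⟩ := hint
    refine ⟨p, hp, ?_⟩
    apply F1.subtype_injective
    rw [Polynomial.hom_eval₂, map_zero]
    exact hpv
  have h2 := Algebra.isIntegral_norm ↥F1' h1
  refine hic _ (Algebra.norm ↥F1' (⟨u, hu⟩ : ↥F1)).2 ?_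
  obtain ⟨p, hp, hpv⟩ := h2
  refine ⟨p, hp, ?_⟩
  have := congrArg F1'.subtype hpv
  rw [Polynomial.hom_eval₂, map_zero] at this
  exact this

/-- **(INTEG) gives the three algebraic hypotheses of `S36TPT_rel`.** -/
theorem S36TPT_of_integral (hR'R : R' ≤ R) (hR'F : ∀ x ∈ R', x ∈ F1')
    (hint : ∀ w ∈ R, IsIntegral ↥R' w)
    (hic : ∀ x ∈ F1', IsIntegral ↥R' x → x ∈ R') :
    (∀ x ∈ R', x ∈ S36TOR_nu R' → x ∈ S36TOR_nu R) ∧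
    (letI := S34KEY_alg hF
      ∀ (u : L) (hu : u ∈ F1), u ∈ R → u⁻¹ ∈ R →
        ((Algebra.norm ↥F1' (⟨u, hu⟩ : ↥F1) : ↥F1') : L) ∈ R') ∧
    (∀ x ∈ F1', ∀ n : ℕ, 0 < n → x ^ n ∈ R' → x ∈ R') := by
  refine ⟨?_, ?_, ?_⟩
  · intro x hx hxnu
    refine ⟨hR'R hx, ?_⟩
    rcases hxnu.2 with h | h
    · exact Or.inl h
    · right
      intro h'
      exact h (hic _ (F1'.inv_mem (hR'F x hx)) (hint _ h'))
  · intro u hu huR _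
    exact S36TPT_norm_mem hF hR'F hic hu (hint u huR)
  · intro x hxF n hn hxn
    refine hic x hxF ?_
    have h1 : IsIntegral ↥R' (x ^ n) := by
      have : x ^ n = algebraMap ↥R' L ⟨x ^ n, hxn⟩ := rfl
      rw [this]
      exact isIntegral_algebraMap
    exact IsIntegral.of_pow hn h1

end Integral

section Transport

/-- an involutive ring automorphism of `F1`, given as a function on `L` -/
structure S36TPT_Inv (w : L → L) (F1 : Subfield L) : Prop where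
  mapF : ∀ x ∈ F1, w x ∈ F1
  one : w 1 = 1
  add : ∀ x ∈ F1, ∀ y ∈ F1, w (x + y) = w x + w y
  mul : ∀ x ∈ F1, ∀ y ∈ F1, w (x * y) = w x * w y
  inv : ∀ x ∈ F1, w (w x) = x

variable {w : L → L} {F1 : Subfield L}

theorem S36TPT_Inv.zero (hw : S36TPT_Inv w F1) : w 0 = 0 := by
  have h := hw.add 0 F1.zero_mem 0 F1.zero_mem
  rw [add_zero] at h
  have : w 0 + w 0 = w 0 + 0 := by rw [← h, add_zero]
  exact add_left_cancel this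

theorem S36TPT_Inv.neg (hw : S36TPT_Inv w F1) {x : L} (hx : x ∈ F1) : w (-x) = -w x := by
  have h := hw.add x hx (-x) (F1.neg_mem hx)
  rw [add_neg_cancel, hw.zero] at h
  exact (neg_eq_of_add_eq_zero_right h.symm).symm

theorem S36TPT_Inv.sub (hw : S36TPT_Inv w F1) {x y : L} (hx : x ∈ F1) (hy : y ∈ F1) :
    w (x - y) = w x - w y := by
  rw [sub_eq_add_neg, hw.add x hx (-y) (F1.neg_mem hy), hw.neg hy, ← sub_eq_add_neg]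

theorem S36TPT_Inv.pow (hw : S36TPT_Inv w F1) {x : L} (hx : x ∈ F1) (n : ℕ) :
    w (x ^ n) = w x ^ n := by
  induction n with
  | zero => rw [pow_zero, pow_zero, hw.one]
  | succ n ih => rw [pow_succ, hw.mul _ (F1.pow_mem hx n) _ hx, ih, pow_succ]

theorem S36TPT_Inv.ne_zero (hw : S36TPT_Inv w F1) {x : L} (hx : x ∈ F1) (hx0 : x ≠ 0) :
    w x ≠ 0 := by
  intro h
  apply hx0
  rw [← hw.inv x hx, h, hw.zero]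

theorem S36TPT_Inv.map_inv (hw : S36TPT_Inv w F1) {x : L} (hx : x ∈ F1) : w x⁻¹ = (w x)⁻¹ := by
  by_cases hx0 : x = 0
  · rw [hx0, inv_zero, hw.zero, inv_zero]
  · have h := hw.mul x hx x⁻¹ (F1.inv_mem hx)
    rw [mul_inv_cancel₀ hx0, hw.one] at h
    exact eq_inv_of_mul_eq_one_right h.symm

theorem S36TPT_Inv.div (hw : S36TPT_Inv w F1) {x y : L} (hx : x ∈ F1) (hy : y ∈ F1) :
    w (x / y) = w x / w y := by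
  rw [div_eq_mul_inv, hw.mul x hx _ (F1.inv_mem hy), hw.map_inv hy, ← div_eq_mul_inv]

/-- `w` maps the non-units of `V` into the non-units of `V'` when `w V ⊆ V'`, `w V' ⊆ V` -/
theorem S36TPT_Inv.nu (hw : S36TPT_Inv w F1) {V V' : Subring L} (hVF : ∀ x ∈ V, x ∈ F1)
    (h12 : ∀ x ∈ V, w x ∈ V') (h21 : ∀ x ∈ V', w x ∈ V) {x : L} (hx : x ∈ S36TOR_nu V) :
    w x ∈ S36TOR_nu V' := by
  refine ⟨h12 x hx.1, ?_⟩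
  rcases hx.2 with h | h
  · left
    rw [h, hw.zero]
  · right
    intro h'
    apply h
    have := h21 _ h'
    rwa [hw.map_inv (hw.mapF x (hVF x hx.1)), hw.inv x (hVF x hx.1)] at this

end Transport

/-- transport of a branch root along `w` -/
theorem S36TPT_root_w {w : L → L} {F1 : Subfield L} (hw : S36TPT_Inv w F1) {V V' : Subring L}
    (hVF : ∀ x ∈ V, x ∈ F1) (h12 : ∀ x ∈ V, w x ∈ V') (h21 : ∀ x ∈ V', w x ∈ V)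
    {P : ℕ} {f G : L} (hf : f ∈ F1) (hGF : G ∈ F1)
    (hG : G ≠ 0 ∧ G ∈ V ∧ G⁻¹ ∈ V ∧ f - G ^ P ∈ S36TOR_nu V) :
    w G ≠ 0 ∧ w G ∈ V' ∧ (w G)⁻¹ ∈ V' ∧ w f - w G ^ P ∈ S36TOR_nu V' := by
  obtain ⟨hG0, hGV, hGV', hfG⟩ := hG
  refine ⟨hw.ne_zero hGF hG0, h12 G hGV, ?_, ?_⟩
  · rw [← hw.map_inv hGF]
    exact h12 _ hGV'
  · rw [← hw.pow hGF, ← hw.sub hf (F1.pow_mem hGF P)]
    exact hw.nu hVF h12 h21 hfG

/-- transport of a branch value along `w` -/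
theorem S36TPT_value_w {w : L → L} {F1 : Subfield L} (hw : S36TPT_Inv w F1) {V V' : Subring L}
    (hVF : ∀ x ∈ V, x ∈ F1) (h12 : ∀ x ∈ V, w x ∈ V') (h21 : ∀ x ∈ V', w x ∈ V)
    {G g W : L} (hGF : G ∈ F1) (hg : g ∈ F1) (hW : W ∈ F1)
    (h : G / g - W ∈ S36TOR_nu V) : w G / w g - w W ∈ S36TOR_nu V' := by
  rw [← hw.div hGF hg, ← hw.sub (F1.div_mem hGF hg) hW]
  exact hw.nu hVF h12 h21 h

/-- (C1) the two constants of the `β`-side (`= ` (A) for `w f`, `w G`). -/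
theorem S36TPT_const_beta [CharZero L] {π : L} {F1' F1 : Subfield L}
    {O Va Vb V1 V2 V3 : Subring L}
    (hF : F1' ≤ F1)
    (hVa : S34C2_Val π F1' Va)
    (hsepa : ∀ x ∈ F1', x ≠ 0 → ∃ (z : ℤ) (u : L), u ∈ Va ∧ u⁻¹ ∈ Va ∧ x = π ^ z * u)
    (hVb : S34C2_Val π F1' Vb)
    (hsepb : ∀ x ∈ F1', x ≠ 0 → ∃ (z : ℤ) (u : L), u ∈ Vb ∧ u⁻¹ ∈ Vb ∧ x = π ^ z * u)
    (h1 : S34C2_Val π F1 V1) (h2 : S34C2_Val π F1 V2) (h3 : S34C2_Val π F1 V3)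
    (hVa1 : Va ≤ V1) (hVa2 : Va ≤ V2) (hVb3 : Vb ≤ V3) (hne : V1 ≠ V2)
    {q : ℕ} (hq : q.Prime)
    (hdeg : ∃ s : Finset L, s.card ≤ q ∧ ∀ x ∈ F1, ∃ c : L → L,
      (∀ y, c y ∈ F1') ∧ x = ∑ y ∈ s, c y * y)
    {t : L} (ht : t ∈ V2) (ht0 : t ≠ 0) (htn : t⁻¹ ∉ V2) (htm : π * (t ^ (q - 1))⁻¹ ∈ V2)
    {y x : L} (hy : y ∈ V3) (hx : x ∈ Vb) (hyx : y ^ q - x = 0 ∨ (y ^ q - x)⁻¹ ∉ V3)
    (hxq : ∀ r ∈ Vb, ∀ v ∈ Vb, r ^ q - x ≠ π * v)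
    (hchar : ∃ v ∈ Vb, (q : L) = π * v)
    (hOa : O ≤ Va) (hOb : O ≤ Vb)
    (hroota : ∀ (m : ℕ), m ≠ 0 → ∀ x ∈ F1', x ≠ 0 → ∀ c₀ ∈ O, c₀⁻¹ ∈ O → c₀ ≠ 0 →
      (∃ y ∈ Va, x ^ m = c₀ * (1 + π * y)) →
      ∃ γ ∈ O, γ⁻¹ ∈ O ∧ γ ≠ 0 ∧ ∃ z ∈ Va, x = γ * (1 + π * z))
    (hrootb : ∀ (m : ℕ), m ≠ 0 → ∀ x ∈ F1', x ≠ 0 → ∀ c₀ ∈ O, c₀⁻¹ ∈ O → c₀ ≠ 0 →
      (∃ y ∈ Vb, x ^ m = c₀ * (1 + π * y)) →
      ∃ γ ∈ O, γ⁻¹ ∈ O ∧ γ ≠ 0 ∧ ∃ z ∈ Vb, x = γ * (1 + π * z))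
    {w : L → L} (hw : S36TPT_Inv w F1)
    (hw13 : ∀ x ∈ V1, w x ∈ V3) (hw31 : ∀ x ∈ V3, w x ∈ V1) (hw22 : ∀ x ∈ V2, w x ∈ V2)
    {P : ℕ} (hP : 0 < P) {f c H G : L} (hf : f ∈ F1) (hf0 : f ≠ 0)
    (hc : c ≠ 0 ∧ c ∈ O ∧ c⁻¹ ∈ O) (hHF : H ∈ F1') (hH0 : H ≠ 0)
    (hN : letI := S34KEY_alg hF
      ((Algebra.norm ↥F1' (⟨w f, hw.mapF f hf⟩ : ↥F1) : ↥F1') : L) = c * H ^ P)
    (hGF : G ∈ F1)
    (hG1 : G ≠ 0 ∧ G ∈ V1 ∧ G⁻¹ ∈ V1 ∧ f - G ^ P ∈ S36TOR_nu V1)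
    (hG2 : G ≠ 0 ∧ G ∈ V2 ∧ G⁻¹ ∈ V2 ∧ f - G ^ P ∈ S36TOR_nu V2)
    (hG3 : G ≠ 0 ∧ G ∈ V3 ∧ G⁻¹ ∈ V3 ∧ f - G ^ P ∈ S36TOR_nu V3) :
    letI := S34KEY_alg hF
    ∃ γa γb : L, (γa ≠ 0 ∧ γa ∈ O ∧ γa⁻¹ ∈ O) ∧ (γb ≠ 0 ∧ γb ∈ O ∧ γb⁻¹ ∈ O) ∧
      ((Algebra.norm ↥F1' (⟨w G, hw.mapF G hGF⟩ : ↥F1) : ↥F1') : L) / H - γa ∈ S36TOR_nu Va ∧
      ((Algebra.norm ↥F1' (⟨w G, hw.mapF G hGF⟩ : ↥F1) : ↥F1') : L) / H - γb ∈ S36TOR_nu Vb :=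
  S36TPT_const hF hVa hsepa hVb hsepb h1 h2 h3 hVa1 hVa2 hVb3 hne hq hdeg ht ht0 htn htm
    hy hx hyx hxq hchar hOa hOb hroota hrootb hP (hw.mapF f hf) (hw.ne_zero hf hf0) hc hHF hH0
    hN (hw.mapF G hGF)
    (S36TPT_root_w hw (fun x hx => h3.le hx) hw31 hw13 hf hGF hG3)
    (S36TPT_root_w hw (fun x hx => h2.le hx) hw22 hw22 hf hGF hG2)
    (S36TPT_root_w hw (fun x hx => h1.le hx) hw13 hw31 hf hGF hG1)

/-- (C2) the norm relation of the `β`-side at one point `R`, from the data of (B) at the mirror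
point `Rm ⊇ Rm'` (`w R ⊆ Rm`, `w Rm ⊆ R`). -/
theorem S36TPT_rel_beta [CharZero L] {π : L} {F1' F1 : Subfield L}
    {Va Vb V1 V2 V3 Rm' Rm R : Subring L}
    (hF : F1' ≤ F1)
    (hVa : S34C2_Val π F1' Va)
    (hsepa : ∀ x ∈ F1', x ≠ 0 → ∃ (z : ℤ) (u : L), u ∈ Va ∧ u⁻¹ ∈ Va ∧ x = π ^ z * u)
    (hVb : S34C2_Val π F1' Vb)
    (hsepb : ∀ x ∈ F1', x ≠ 0 → ∃ (z : ℤ) (u : L), u ∈ Vb ∧ u⁻¹ ∈ Vb ∧ x = π ^ z * u)
    (h1 : S34C2_Val π F1 V1) (h2 : S34C2_Val π F1 V2) (h3 : S34C2_Val π F1 V3)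
    (hVa1 : Va ≤ V1) (hVa2 : Va ≤ V2) (hVb3 : Vb ≤ V3) (hne : V1 ≠ V2)
    {q : ℕ} (hq : q.Prime)
    (hdeg : ∃ s : Finset L, s.card ≤ q ∧ ∀ x ∈ F1, ∃ c : L → L,
      (∀ y, c y ∈ F1') ∧ x = ∑ y ∈ s, c y * y)
    {t : L} (ht : t ∈ V2) (ht0 : t ≠ 0) (htn : t⁻¹ ∉ V2) (htm : π * (t ^ (q - 1))⁻¹ ∈ V2)
    {y x : L} (hy : y ∈ V3) (hx : x ∈ Vb) (hyx : y ^ q - x = 0 ∨ (y ^ q - x)⁻¹ ∉ V3)
    (hxq : ∀ r ∈ Vb, ∀ v ∈ Vb, r ^ q - x ≠ π * v)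
    (hchar : ∃ v ∈ Vb, (q : L) = π * v)
    {w : L → L} (hw : S36TPT_Inv w F1)
    (hw13 : ∀ x ∈ V1, w x ∈ V3) (hw31 : ∀ x ∈ V3, w x ∈ V1) (hw22 : ∀ x ∈ V2, w x ∈ V2)
    (hRm : IsLocalRing ↥Rm) (hRm'Rm : Rm' ≤ Rm) (hRm'a : Rm' ≤ Va) (hRm'b : Rm' ≤ Vb)
    (hRm1 : Rm ≤ V1) (hRm2 : Rm ≤ V2) (hRm3 : Rm ≤ V3)
    (hlocal : ∀ x ∈ Rm', x ∈ S36TOR_nu Rm' → x ∈ S36TOR_nu Rm)
    (hnorm : letI := S34KEY_alg hF
      ∀ (u : L) (hu : u ∈ F1), u ∈ Rm → u⁻¹ ∈ Rm →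
        ((Algebra.norm ↥F1' (⟨u, hu⟩ : ↥F1) : ↥F1') : L) ∈ Rm')
    (hroot' : ∀ x ∈ F1', ∀ n : ℕ, 0 < n → x ^ n ∈ Rm' → x ∈ Rm')
    (hLS1 : ∀ w ∈ Rm, ∃ a ∈ Rm', w - a ∈ S36TOR_nu V1)
    (hLS2 : ∀ w ∈ Rm, ∃ a ∈ Rm', w - a ∈ S36TOR_nu V2)
    (hLS3 : ∀ w ∈ Rm, ∃ c ∈ Rm', w ^ q - c ∈ S36TOR_nu V3)
    (hR1 : R ≤ V1) (hwR : ∀ x ∈ R, w x ∈ Rm) (hwRm : ∀ x ∈ Rm, w x ∈ R)
    {P : ℕ} (hP : 0 < P) {f c H G γa γb : L} (hf : f ∈ F1) (hf0 : f ≠ 0)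
    (hc0 : c ≠ 0) (hc' : c⁻¹ ∈ Rm') (hHF : H ∈ F1') (hH0 : H ≠ 0)
    (hN : letI := S34KEY_alg hF
      ((Algebra.norm ↥F1' (⟨w f, hw.mapF f hf⟩ : ↥F1) : ↥F1') : L) = c * H ^ P)
    (hGF : G ∈ F1) (hG0 : G ≠ 0) (hγa : γa ∈ Rm') (hγb : γb ∈ Rm')
    (hwγa : w γa = γa) (hwγb : w γb = γb)
    (hγ1 : letI := S34KEY_alg hF
      ((Algebra.norm ↥F1' (⟨w G, hw.mapF G hGF⟩ : ↥F1) : ↥F1') : L) / H - γa ∈ S36TOR_nu Va)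
    (hγ2 : letI := S34KEY_alg hF
      ((Algebra.norm ↥F1' (⟨w G, hw.mapF G hGF⟩ : ↥F1) : ↥F1') : L) / H - γb ∈ S36TOR_nu Vb)
    {u g W1 W2 W3 : L} (hu : u ∈ R) (hu' : u⁻¹ ∈ R) (hg : g ∈ F1) (hfact : f = u * g ^ P)
    (hW1 : W1 ∈ R) (hW2 : W2 ∈ R) (hW3 : W3 ∈ R)
    (hr1 : G / g - W1 ∈ S36TOR_nu V1) (hr2 : G / g - W2 ∈ S36TOR_nu V2)
    (hr3 : G / g - W3 ∈ S36TOR_nu V3) :
    γb * W3 * W2 ^ (q - 1) - γa * W1 ^ q ∈ S36TOR_nu R := by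
  have hRF : ∀ x ∈ R, x ∈ F1 := fun x hx => h1.le (hR1 hx)
  have hRmF : ∀ x ∈ Rm, x ∈ F1 := fun x hx => h1.le (hRm1 hx)
  have huF := hRF u hu
  have hfact' : w f = w u * w g ^ P := by
    rw [hfact, hw.mul u huF _ (F1.pow_mem hg P), hw.pow hg]
  have hwu' : (w u)⁻¹ ∈ Rm := by
    rw [← hw.map_inv huF]
    exact hwR _ hu'
  have key := S36TPT_rel hF hVa hsepa hVb hsepb h1 h2 h3 hVa1 hVa2 hVb3 hne hq hdeg ht ht0 htn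
    htm hy hx hyx hxq hchar hRm hRm'Rm hRm'a hRm'b hRm1 hRm2 hRm3 hlocal hnorm hroot'
    hLS1 hLS2 hLS3 hP (hw.mapF f hf) (hw.ne_zero hf hf0) hc0 hc' hHF hH0 hN (hw.mapF G hGF)
    (hw.ne_zero hGF hG0) hγa hγb hγ1 hγ2 (hwR u hu) hwu' (hw.mapF g hg) hfact'
    (hwR W3 hW3) (hwR W2 hW2) (hwR W1 hW1)
    (S36TPT_value_w hw (fun x hx => h3.le hx) hw31 hw13 hGF hg (hRF W3 hW3) hr3)
    (S36TPT_value_w hw (fun x hx => h2.le hx) hw22 hw22 hGF hg (hRF W2 hW2) hr2)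
    (S36TPT_value_w hw (fun x hx => h1.le hx) hw13 hw31 hGF hg (hRF W1 hW1) hr1)
  have h := hw.nu hRmF hwRm hwR key
  have hγaF : γa ∈ F1 := hRmF _ (hRm'Rm hγa)
  have hγbF : γb ∈ F1 := hRmF _ (hRm'Rm hγb)
  have hwW1 := hw.mapF _ (hRF W1 hW1)
  have hwW2 := hw.mapF _ (hRF W2 hW2)
  have hwW3 := hw.mapF _ (hRF W3 hW3)
  have e : w (γb * w W3 * w W2 ^ (q - 1) - γa * w W1 ^ q) =
      γb * W3 * W2 ^ (q - 1) - γa * W1 ^ q := by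
    rw [hw.sub (F1.mul_mem (F1.mul_mem hγbF hwW3) (F1.pow_mem hwW2 _))
        (F1.mul_mem hγaF (F1.pow_mem hwW1 _)),
      hw.mul _ (F1.mul_mem hγbF hwW3) _ (F1.pow_mem hwW2 _), hw.mul _ hγbF _ hwW3,
      hw.mul _ hγaF _ (F1.pow_mem hwW1 _), hw.pow hwW2, hw.pow hwW1,
      hw.inv _ (hRF W1 hW1), hw.inv _ (hRF W2 hW2), hw.inv _ (hRF W3 hW3), hwγa, hwγb]
  rwa [e] at h

end Fermat.Agent.S36_helper6_TORPT
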