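import Mathlib
import Fermat.Agent.S36_helper13_REDK
import Fermat.Agent.S36_helper3_LOCK
import Fermat.Agent.S36_helper6_TORPT
import Fermat.Agent.S35_helper28_CONST

/-!
# S36, GEO36 NORMK (helper13): the norm data of a good function at the carriers

The hypotheses `hc`, `hHF`, `hH0`, `hN` of helper6's `S36TPT_const` / `S36TPT_const_beta` for a
function `f1` with helper3's `S36XB_Good`, at the carriers of level `M' * q * q`: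

* `S36NK_abs_alpha`, `S36NK_abs_beta` : abstract (`Subring L`): from `N f = π ^ z * ε * h ^ n`
  to `N f = ε * H ^ P` for every `P ∣ n`, with `H` a unit of the lower valuation rings;
* `S36NK_inv`   : `w = W_(q²)` is an involution of `F1` in the sense of `S36TPT_Inv`;
* `S36NK_alpha`, `S36NK_beta` : the norm of `f1`, resp. of `w f1`, is `c * H ^ P` with `c` a
  constant unit and `H ∈ F1(M' q)`, `H ≠ 0`;
* `S36NK_roota`, `S36NK_rootb` : the hypotheses `hroota`, `hrootb` at the carriers.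
-/

set_option autoImplicit false
set_option linter.style.haveILetI false
set_option linter.unusedSectionVars false
set_option linter.unusedVariables false

open HahnSeries ModularCurve
open Fermat.Agent.S18_helper13_GAUSS Fermat.Agent.S18_helper9_CDefs
  Fermat.Agent.S18_helper25_COREDefs Fermat.Agent.S34_helper12_CDefs
  Fermat.Agent.S34_helper20_WQ Fermat.Agent.S34_helper20_V0 Fermat.Agent.S34_helper20_V0K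
  Fermat.Agent.S34_helper27_V3K Fermat.Agent.S36_helper20_WQQ
  Fermat.Agent.S36_helper5_VKDefs Fermat.Agent.S36_helper23_V0QB
  Fermat.Agent.S35_helper27_XD2Defs Fermat.Agent.S36_helper4_XADefs
  Fermat.Agent.S36_helper3_LOCK Fermat.Agent.S36_helper6_TORPT

noncomputable section

namespace Fermat.Agent.S36_helper13_NORMK

open Fermat.Agent.S34_helper27_C2Defs Fermat.Agent.S34_helper13_KEY
  Fermat.Agent.S36_helper13_NORMRED Fermat.Agent.S36_helper13_RED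
  Fermat.Agent.S36_helper13_REDK Fermat.Agent.S35_helper15_TORIC

section Abs

variable {L : Type*} [Field L] {π : L} {F1' F1 : Subfield L} {O Va Vb V1 V2 V3 : Subring L}

/-- **the norm along `α`, normalised**: `N f = ε * H ^ P` for every `P ∣ n`, with `H` a unit of
`Va` and of `Vb`. -/
theorem S36NK_abs_alpha [CharZero L] (hF : F1' ≤ F1)
    (hVa : S34C2_Val π F1' Va)
    (hsepa : ∀ x ∈ F1', x ≠ 0 → ∃ (z : ℤ) (u : L), u ∈ Va ∧ u⁻¹ ∈ Va ∧ x = π ^ z * u)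
    (hVb : S34C2_Val π F1' Vb)
    (hsepb : ∀ x ∈ F1', x ≠ 0 → ∃ (z : ℤ) (u : L), u ∈ Vb ∧ u⁻¹ ∈ Vb ∧ x = π ^ z * u)
    (h1 : S34C2_Val π F1 V1) (h2 : S34C2_Val π F1 V2) (h3 : S34C2_Val π F1 V3)
    (hVa1 : Va ≤ V1) (hVa2 : Va ≤ V2) (hVb3 : Vb ≤ V3) (hne : V1 ≠ V2)
    {q : ℕ} (hq : q.Prime)
    (hdeg : ∃ s : Finset L, s.card ≤ q ∧ ∀ x ∈ F1, ∃ c : L → L,
      (∀ y, c y ∈ F1') ∧ x = ∑ y ∈ s, c y * y)
    {t : L} (ht : t ∈ V2) (ht0 : t ≠ 0) (htn : t⁻¹ ∉ V2) (htm : π * (t ^ (q - 1))⁻¹ ∈ V2)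
    {y x : L} (hy : y ∈ V3) (hx : x ∈ Vb) (hyx : y ^ q - x = 0 ∨ (y ^ q - x)⁻¹ ∉ V3)
    (hxq : ∀ r ∈ Vb, ∀ v ∈ Vb, r ^ q - x ≠ π * v)
    (hchar : ∃ v ∈ Vb, (q : L) = π * v)
    (hOa : O ≤ Va) (hOb : O ≤ Vb)
    {n P : ℕ} (hn : 0 < n) (hPn : P ∣ n)
    {f : L} (hf0 : f ≠ 0) (hf1 : f ∈ V1) (hf1' : f⁻¹ ∈ V1) (hf2 : f ∈ V2) (hf2' : f⁻¹ ∈ V2)
    (hf3 : f ∈ V3) (hf3' : f⁻¹ ∈ V3)
    {zα : ℤ} {εα hα : L} (hεα : εα ∈ O) (hεα' : εα⁻¹ ∈ O) (hεα0 : εα ≠ 0) (hhα : hα ∈ F1')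
    (hhα0 : hα ≠ 0)
    (hNα : letI := S34KEY_alg hF
      ((Algebra.norm ↥F1' (⟨f, h1.le hf1⟩ : ↥F1) : ↥F1') : L) = π ^ zα * εα * hα ^ n) :
    letI := S34KEY_alg hF
    ∃ H : L, H ∈ F1' ∧ H ≠ 0 ∧ H ∈ Va ∧ H⁻¹ ∈ Va ∧ H ∈ Vb ∧ H⁻¹ ∈ Vb ∧
      ((Algebra.norm ↥F1' (⟨f, h1.le hf1⟩ : ↥F1) : ↥F1') : L) = εα * H ^ P := by
  classical
  letI := S34KEY_alg hF
  have hm0 : 0 < q - 1 := by have := hq.two_le; omega
  have hdeg' : ∃ s : Finset L, s.card ≤ 1 + (q - 1) ∧ ∀ x ∈ F1, ∃ c : L → L,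
      (∀ y, c y ∈ F1') ∧ x = ∑ y ∈ s, c y * y := by
    obtain ⟨s, hs, h⟩ := hdeg
    exact ⟨s, by omega, h⟩
  have hπ0 : π ≠ 0 := h1.π_ne_zero
  obtain ⟨hNa0, hNa, hNa'⟩ := S36RDK_norm_unit_ram hF hVa hsepa h1 h2 hVa1 hVa2 hne hm0 hdeg'
    ht ht0 htn htm hf0 hf1 hf1' hf2 hf2'
  obtain ⟨hNb0, hNb, hNb', -⟩ := S36RDK_norm_unit_insep hF hVb hsepb h3 hVb3 hq hdeg hy hx hyx
    hxq hchar hf0 hf3 hf3'
  have eN3 : ((Algebra.norm ↥F1' (⟨f, h3.le hf3⟩ : ↥F1) : ↥F1') : L) =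
      ((Algebra.norm ↥F1' (⟨f, h1.le hf1⟩ : ↥F1) : ↥F1') : L) := rfl
  rw [eN3] at hNb0 hNb hNb'
  have hNα' : ((Algebra.norm ↥F1' (⟨f, h1.le hf1⟩ : ↥F1) : ↥F1') : L) =
      (π ^ zα * εα) * hα ^ n := hNα
  have hcα0 : π ^ zα * εα ≠ 0 := mul_ne_zero (zpow_ne_zero _ hπ0) hεα0
  rw [hNα'] at hNa hNa' hNb hNb'
  obtain ⟨za, hza, hua, hua', ea⟩ := S36RD_normalise hVa hsepa hOa hεα hεα' rfl hcα0 hhα hhα0
    hNa hNa'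
  obtain ⟨zb, hzb, hub, hub', eb⟩ := S36RD_normalise hVb hsepb hOb hεα hεα' rfl hcα0 hhα hhα0
    hNb hNb'
  have hzab : zb = za := by
    have h : (n : ℤ) * zb = (n : ℤ) * za := by linarith
    have hn' : (n : ℤ) ≠ 0 := by exact_mod_cast hn.ne'
    exact mul_left_cancel₀ hn' h
  rw [hzab] at hub hub'
  obtain ⟨k, rfl⟩ := hPn
  set u : L := hα * π ^ (-za) with hu
  have hu0 : u ≠ 0 := mul_ne_zero hhα0 (zpow_ne_zero _ hπ0)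
  refine ⟨u ^ k, F1'.pow_mem (hVa.le hua) k, pow_ne_zero _ hu0, Va.pow_mem hua k, ?_,
    Vb.pow_mem hub k, ?_, ?_⟩
  · rw [← inv_pow]; exact Va.pow_mem hua' k
  · rw [← inv_pow]; exact Vb.pow_mem hub' k
  · rw [hNα', ea, ← pow_mul, mul_comm k P]

/-- **the norm along `β`, normalised**: `N (w f) = ε * H ^ P` for every `P ∣ n`, with `H` a unit
of `Vb`. -/
theorem S36NK_abs_beta [CharZero L] (hF : F1' ≤ F1)
    (hVb : S34C2_Val π F1' Vb)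
    (hsepb : ∀ x ∈ F1', x ≠ 0 → ∃ (z : ℤ) (u : L), u ∈ Vb ∧ u⁻¹ ∈ Vb ∧ x = π ^ z * u)
    (h1 : S34C2_Val π F1 V1) (h3 : S34C2_Val π F1 V3) (hVb3 : Vb ≤ V3)
    {q : ℕ} (hq : q.Prime)
    (hdeg : ∃ s : Finset L, s.card ≤ q ∧ ∀ x ∈ F1, ∃ c : L → L,
      (∀ y, c y ∈ F1') ∧ x = ∑ y ∈ s, c y * y)
    {y x : L} (hy : y ∈ V3) (hx : x ∈ Vb) (hyx : y ^ q - x = 0 ∨ (y ^ q - x)⁻¹ ∉ V3)
    (hxq : ∀ r ∈ Vb, ∀ v ∈ Vb, r ^ q - x ≠ π * v)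
    (hchar : ∃ v ∈ Vb, (q : L) = π * v)
    (hOb : O ≤ Vb)
    {n P : ℕ} (hn : 0 < n) (hPn : P ∣ n)
    (w : L → L) (hwF : ∀ x ∈ F1, w x ∈ F1) (hw1 : w 1 = 1)
    (hwmul : ∀ x ∈ F1, ∀ y ∈ F1, w (x * y) = w x * w y)
    (hwadd : ∀ x ∈ F1, ∀ y ∈ F1, w (x + y) = w x + w y)
    (hww : ∀ x ∈ F1, w (w x) = x)
    (hw13 : ∀ x ∈ V1, w x ∈ V3)
    {f : L} (hf0 : f ≠ 0) (hf1 : f ∈ V1) (hf1' : f⁻¹ ∈ V1)
    {zβ : ℤ} {εβ hβ : L} (hεβ : εβ ∈ O) (hεβ' : εβ⁻¹ ∈ O) (hεβ0 : εβ ≠ 0) (hhβ : hβ ∈ F1')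
    (hhβ0 : hβ ≠ 0)
    (hNβ : letI := S34KEY_alg hF
      ((Algebra.norm ↥F1' (⟨w f, hwF f (h1.le hf1)⟩ : ↥F1) : ↥F1') : L) =
        π ^ zβ * εβ * hβ ^ n) :
    letI := S34KEY_alg hF
    ∃ H : L, H ∈ F1' ∧ H ≠ 0 ∧ H ∈ Vb ∧ H⁻¹ ∈ Vb ∧
      ((Algebra.norm ↥F1' (⟨w f, hwF f (h1.le hf1)⟩ : ↥F1) : ↥F1') : L) = εβ * H ^ P := by
  classical
  letI := S34KEY_alg hF
  have hπ0 : π ≠ 0 := h1.π_ne_zero
  have hfF : f ∈ F1 := h1.le hf1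
  have hwf3 : w f ∈ V3 := hw13 f hf1
  have hwfinv : w f⁻¹ = (w f)⁻¹ := S36RDK_w_inv w hw1 hwmul hfF hf0
  have hwf3' : (w f)⁻¹ ∈ V3 := by rw [← hwfinv]; exact hw13 _ hf1'
  have h00 : w 0 = 0 := by
    have := hwadd 0 (zero_mem _) 0 (zero_mem _)
    rw [add_zero] at this
    linear_combination (-1 : L) * this
  have hwf0 : w f ≠ 0 := by
    intro h0
    apply hf0
    rw [← hww f hfF, h0, h00]
  obtain ⟨hMb0, hMb, hMb', -⟩ := S36RDK_norm_unit_insep hF hVb hsepb h3 hVb3 hq hdeg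
    hy hx hyx hxq hchar hwf0 hwf3 hwf3'
  have eM : ((Algebra.norm ↥F1' (⟨w f, h3.le hwf3⟩ : ↥F1) : ↥F1') : L) =
      (π ^ zβ * εβ) * hβ ^ n := hNβ
  have eM' : ((Algebra.norm ↥F1' (⟨w f, hwF f (h1.le hf1)⟩ : ↥F1) : ↥F1') : L) =
      (π ^ zβ * εβ) * hβ ^ n := hNβ
  have hcβ0 : π ^ zβ * εβ ≠ 0 := mul_ne_zero (zpow_ne_zero _ hπ0) hεβ0
  rw [eM] at hMb hMb'
  obtain ⟨zc, hzc, huc, huc', ec⟩ := S36RD_normalise hVb hsepb hOb hεβ hεβ' rfl hcβ0 hhβ hhβ0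
    hMb hMb'
  obtain ⟨k, rfl⟩ := hPn
  set u : L := hβ * π ^ (-zc) with hu
  have hu0 : u ≠ 0 := mul_ne_zero hhβ0 (zpow_ne_zero _ hπ0)
  refine ⟨u ^ k, F1'.pow_mem (hVb.le huc) k, pow_ne_zero _ hu0, Vb.pow_mem huc k, ?_, ?_⟩
  · rw [← inv_pow]; exact Vb.pow_mem huc' k
  · rw [eM', ec, ← pow_mul, mul_comm k P]

end Abs

/-! ### At the carriers -/

section Main

local notation "Qb" => AlgebraicClosure ℚ

variable (A : ValuationSubring Qb) (K1 : IntermediateField ℚ Qb)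
  [IsDiscreteValuationRing (S18K_O1 A K1)]
  (q M' : ℕ) [NeZero M'] [NeZero q] [NeZero (M' * q)] [NeZero (M' * q * q)] [NeZero (q ^ 2)]
  [NeZero (q * q)] (hq : q.Prime) (hqM : ¬ q ∣ M')

/-- **`w = W_(q²)` is an involution of `F1`** (helper6's `S36TPT_Inv`). -/
theorem S36NK_inv :
    S36TPT_Inv (S36WQ_wL (S34V0K_emb K1) (q ^ 2) M' (M' * q * q) (S36WQ_cop hq hqM)
      (S36VK_level q M')) (S18K_F1 K1 (M' * q * q)) where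
  mapF := S36V0QB_hwF K1 q M' hq hqM
  one := S36V0QB_hw1 K1 q M' hq hqM
  add := fun x hx y hy => S36WQ_wL_add (S34V0K_emb K1) (q ^ 2) M' (M' * q * q)
    (S36WQ_cop hq hqM) (S36VK_level q M') hx hy
  mul := S36V0QB_hwmul K1 q M' hq hqM
  inv := S36V0QB_hww K1 q M' hq hqM

/-- `hroota` of `S36TPT_const` at `Va = S18K_V A K1 (M' * q)`. -/
theorem S36NK_roota (hadm : S18K_Admissible A K1 q) :
    ∀ (m : ℕ), m ≠ 0 → ∀ x ∈ S18K_F1 K1 (M' * q), x ≠ 0 →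
      ∀ c₀ ∈ S18K_O A K1, c₀⁻¹ ∈ S18K_O A K1 → c₀ ≠ 0 →
      (∃ y ∈ S18K_V A K1 (M' * q), x ^ m = c₀ * (1 + S18K_π A K1 * y)) →
      ∃ γ ∈ S18K_O A K1, γ⁻¹ ∈ S18K_O A K1 ∧ γ ≠ 0 ∧
        ∃ z ∈ S18K_V A K1 (M' * q), x = γ * (1 + S18K_π A K1 * z) :=
  Fermat.Agent.S35_helper28_CONST.S35CST_root1 A K1 hadm.res_surj (M' * q)
    (S36RDK_O_le A K1 (M' * q))

/-- `hrootb` of `S36TPT_const` at `Vb = S34V0K_V A K1 q M' (M' * q)`. -/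
theorem S36NK_rootb (hadm : S18K_Admissible A K1 q) (hN1 : M' * q = q * M') :
    ∀ (m : ℕ), m ≠ 0 → ∀ x ∈ S18K_F1 K1 (M' * q), x ≠ 0 →
      ∀ c₀ ∈ S18K_O A K1, c₀⁻¹ ∈ S18K_O A K1 → c₀ ≠ 0 →
      (∃ y ∈ S34V0K_V A K1 q M' (M' * q) hq hqM hN1, x ^ m = c₀ * (1 + S18K_π A K1 * y)) →
      ∃ γ ∈ S18K_O A K1, γ⁻¹ ∈ S18K_O A K1 ∧ γ ≠ 0 ∧
        ∃ z ∈ S34V0K_V A K1 q M' (M' * q) hq hqM hN1, x = γ * (1 + S18K_π A K1 * z) :=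
  Fermat.Agent.S35_helper28_CONST.S35CST_root2 A K1 q M' (M' * q) hq hqM hN1 hadm.res_surj
    (S36RDK_O_le_b A K1 q M' (M' * q) hq hqM hN1)

set_option maxHeartbeats 1600000 in
set_option synthInstance.maxHeartbeats 400000 in
/-- **NORMK, `α`-side**: the norm of a good function is `c * H ^ P` (`P ∣ d`), `c` a constant
unit, `H` a unit of `V'_∞` and of `V'_0`. -/
theorem S36NK_alpha (hA : A.LiesOverPrime q)
    (W2 : Subring (LaurentSeries K1)) (hmid : S36VK_IsMid A K1 q M' W2)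
    (htm : S18K_π A K1 * (S36VK_t K1 q ^ (q - 1))⁻¹ ∈ W2)
    {d P : ℕ} (hd : 0 < d) (hPd : P ∣ d)
    (f1 : LaurentSeries K1) (hf1 : f1 ∈ S18K_F1 K1 (M' * q * q))
    (hgood : S36XB_Good A K1 M' q d hq hqM W2 (S36VK_V0 A K1 q M' hq hqM) f1 hf1) :
    letI := S34KEY_alg (S34V3K_F1_mono K1 (S36XA_level_dvd M' q))
    ∃ c H : LaurentSeries K1, (c ≠ 0 ∧ c ∈ S18K_O A K1 ∧ c⁻¹ ∈ S18K_O A K1) ∧
      H ∈ S18K_F1 K1 (M' * q) ∧ H ≠ 0 ∧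
      (H ∈ S18K_V A K1 (M' * q) ∧ H⁻¹ ∈ S18K_V A K1 (M' * q)) ∧
      (H ∈ S34V0K_V A K1 q M' (M' * q) hq hqM (Nat.mul_comm M' q) ∧
        H⁻¹ ∈ S34V0K_V A K1 q M' (M' * q) hq hqM (Nat.mul_comm M' q)) ∧
      ((Algebra.norm ↥(S18K_F1 K1 (M' * q)) (⟨f1, hf1⟩ : ↥(S18K_F1 K1 (M' * q * q))) :
        ↥(S18K_F1 K1 (M' * q))) : LaurentSeries K1) = c * H ^ P := by
  classical
  haveI hcz : CharZero (LaurentSeries K1) :=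
    charZero_of_injective_ringHom (HahnSeries.C_injective (Γ := ℤ) (R := K1))
  have hN1 : M' * q = q * M' := Nat.mul_comm M' q
  have hF : S18K_F1 K1 (M' * q) ≤ S18K_F1 K1 (M' * q * q) :=
    S34V3K_F1_mono K1 (S36XA_level_dvd M' q)
  letI := S34KEY_alg hF
  obtain ⟨hf0, ⟨⟨hf1V, hf2V⟩, hf3V⟩, ⟨⟨hf1V', hf2V'⟩, hf3V'⟩, -, hα, -⟩ := hgood
  obtain ⟨cα, hcα0, hα', hhα, hhα0, hNα⟩ := hα
  obtain ⟨zα, εα, hεα, hεα', hεα0, ecα⟩ := S36RDK_const A K1 cα hcα0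
  rw [ecα] at hNα
  obtain ⟨H, hHF, hH0, hHa, hHa', hHb, hHb', e⟩ := S36NK_abs_alpha hF
    (S34V3K_val1 A K1 (M' * q))
    (Fermat.Agent.S34_helper13_KEYK.S34KEYK_sep A K1 (M' * q))
    (S34V0K_val A K1 q M' (M' * q) hq hqM hN1) (S36RDK_sepb A K1 q M' (M' * q) hq hqM hN1)
    (S34V3K_val1 A K1 (M' * q * q)) hmid.1 (S36VK_V0_val A K1 q M' hq hqM)
    (S34V3K_V_mono A K1 (S36XA_level_dvd M' q)) hmid.2.1 (S36V0QB_le_q A K1 q M' hq hqM hN1)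
    (S36V0QB_mid_ne A K1 q M' hq hqM hA hmid.2.2.2).1 hq
    (Fermat.Agent.S36_helper4_DEG.S36DG_hdeg K1 (M' * q) q hq (Dvd.intro_left M' rfl))
    hmid.2.2.1 (S36V0QB_t_ne_zero A K1 q M' hq hqM hA) hmid.2.2.2 htm
    (S36V0QB_jqq_mem A K1 q M' hq hqM) (S34V0K_jq_mem A K1 q M' (M' * q) hq hqM hN1)
    (Fermat.Agent.S36_helper23_V0QX.S36V0QY_hyx A K1 q M' hq hqM hN1 hA)
    (Fermat.Agent.S36_helper23_V0QX.S36V0QY_hxq A K1 q M' hq hqM hN1 hA)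
    (Fermat.Agent.S36_helper23_V0QX.S36V0QY_hchar A K1 q M' hq hqM hN1 hA)
    (S36RDK_O_le A K1 (M' * q)) (S36RDK_O_le_b A K1 q M' (M' * q) hq hqM hN1)
    hd hPd hf0 hf1V hf1V' hf2V hf2V' hf3V hf3V' hεα hεα' hεα0 hhα hhα0 hNα
  exact ⟨εα, H, ⟨hεα0, hεα, hεα'⟩, hHF, hH0, ⟨hHa, hHa'⟩, ⟨hHb, hHb'⟩, e⟩

set_option maxHeartbeats 1600000 in
set_option synthInstance.maxHeartbeats 400000 in
/-- **NORMK, `β`-side**: the norm of `w f1` is `c * H ^ P` (`P ∣ d`), `c` a constant unit, `H` a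
unit of `V'_0`.  (Only `f1`, `f1⁻¹ ∈ V_∞` is used.) -/
theorem S36NK_beta (hA : A.LiesOverPrime q)
    (W2 : Subring (LaurentSeries K1))
    {d P : ℕ} (hd : 0 < d) (hPd : P ∣ d)
    (f1 : LaurentSeries K1) (hf1 : f1 ∈ S18K_F1 K1 (M' * q * q))
    (hgood : S36XB_Good A K1 M' q d hq hqM W2 (S36VK_V0 A K1 q M' hq hqM) f1 hf1) :
    letI := S34KEY_alg (S34V3K_F1_mono K1 (S36XA_level_dvd M' q))
    ∃ c H : LaurentSeries K1, (c ≠ 0 ∧ c ∈ S18K_O A K1 ∧ c⁻¹ ∈ S18K_O A K1) ∧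
      H ∈ S18K_F1 K1 (M' * q) ∧ H ≠ 0 ∧
      (H ∈ S34V0K_V A K1 q M' (M' * q) hq hqM (Nat.mul_comm M' q) ∧
        H⁻¹ ∈ S34V0K_V A K1 q M' (M' * q) hq hqM (Nat.mul_comm M' q)) ∧
      ((Algebra.norm ↥(S18K_F1 K1 (M' * q))
        (⟨S36WQ_wL (S34V0K_emb K1) (q ^ 2) M' (M' * q * q) (S36WQ_cop hq hqM)
            (S36VK_level q M') f1, (S36NK_inv K1 q M' hq hqM).mapF f1 hf1⟩ :
          ↥(S18K_F1 K1 (M' * q * q))) : ↥(S18K_F1 K1 (M' * q))) : LaurentSeries K1) =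
        c * H ^ P := by
  classical
  haveI hcz : CharZero (LaurentSeries K1) :=
    charZero_of_injective_ringHom (HahnSeries.C_injective (Γ := ℤ) (R := K1))
  have hN1 : M' * q = q * M' := Nat.mul_comm M' q
  have hF : S18K_F1 K1 (M' * q) ≤ S18K_F1 K1 (M' * q * q) :=
    S34V3K_F1_mono K1 (S36XA_level_dvd M' q)
  letI := S34KEY_alg hF
  obtain ⟨hf0, ⟨⟨hf1V, -⟩, -⟩, ⟨⟨hf1V', -⟩, -⟩, -, -, hβ⟩ := hgood
  obtain ⟨cβ, hcβ0, hβ', hhβ, hhβ0, hNβ⟩ := hβ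
  obtain ⟨zβ, εβ, hεβ, hεβ', hεβ0, ecβ⟩ := S36RDK_const A K1 cβ hcβ0
  rw [ecβ] at hNβ
  obtain ⟨H, hHF, hH0, hHb, hHb', e⟩ := S36NK_abs_beta (O := S18K_O A K1) hF
    (S34V0K_val A K1 q M' (M' * q) hq hqM hN1) (S36RDK_sepb A K1 q M' (M' * q) hq hqM hN1)
    (S34V3K_val1 A K1 (M' * q * q)) (S36VK_V0_val A K1 q M' hq hqM)
    (S36V0QB_le_q A K1 q M' hq hqM hN1) hq
    (Fermat.Agent.S36_helper4_DEG.S36DG_hdeg K1 (M' * q) q hq (Dvd.intro_left M' rfl))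
    (S36V0QB_jqq_mem A K1 q M' hq hqM) (S34V0K_jq_mem A K1 q M' (M' * q) hq hqM hN1)
    (Fermat.Agent.S36_helper23_V0QX.S36V0QY_hyx A K1 q M' hq hqM hN1 hA)
    (Fermat.Agent.S36_helper23_V0QX.S36V0QY_hxq A K1 q M' hq hqM hN1 hA)
    (Fermat.Agent.S36_helper23_V0QX.S36V0QY_hchar A K1 q M' hq hqM hN1 hA)
    (S36RDK_O_le_b A K1 q M' (M' * q) hq hqM hN1) hd hPd
    (S36WQ_wL (S34V0K_emb K1) (q ^ 2) M' (M' * q * q) (S36WQ_cop hq hqM) (S36VK_level q M'))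
    (S36V0QB_hwF K1 q M' hq hqM) (S36V0QB_hw1 K1 q M' hq hqM) (S36V0QB_hwmul K1 q M' hq hqM)
    (fun x hx y hy => S36WQ_wL_add (S34V0K_emb K1) (q ^ 2) M' (M' * q * q) (S36WQ_cop hq hqM)
      (S36VK_level q M') hx hy)
    (S36V0QB_hww K1 q M' hq hqM) (S36V0QB_hw13 A K1 q M' hq hqM)
    hf0 hf1V hf1V' hεβ hεβ' hεβ0 hhβ hhβ0 hNβ
  exact ⟨εβ, H, ⟨hεβ0, hεβ, hεβ'⟩, hHF, hH0, ⟨hHb, hHb'⟩, e⟩

end Main

end Fermat.Agent.S36_helper13_NORMK
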