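import Mathlib
import Fermat.Agent.S36_helper2_REDPOW
import Fermat.Agent.S36_helper6_TORIC
import Fermat.Agent.S36_helper6_TORPT

/-!
# S36, X-D36 Part II (helper3): the field `roots` of the contract of `loc`, ABSTRACT assembly

Abstract (Subring-`L`) vocabulary.  The composite (helper6's recipe)

  branch `P`-th roots (REDK, helper13)  →  REDPOW at exponent `P` (`S36RP_redPow`, helper2):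
  ONE glued root `G`  →  the four constants (`S36TPT_const`, `S36TPT_const_beta`, helper6)  →
  at each point `R i`: FACT + BRANCH36 at exponent `P` (hypothesis `hB` = `S36BRAB_hB` at
  `p := P`, helper2)  →  the two norm relations (`S36TPT_rel`, `S36TPT_rel_beta`, helper6),

with the output = the hypotheses `hG1 hG2 hG3 hcα hcα' hcβ hcβ' hpt` of `S36TOR_main`, i.e. the
field `roots` of `S36XB_LocContract`, with `G1 = G2 = G3 = G`.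

* `S36XB_PtData`    : the data of `S36TPT_rel` at one point `R ⊇ R'`, as a structure;
* `S36XB_roots_abs` : **the assembly**.
-/

set_option autoImplicit false
set_option linter.unusedVariables false
set_option linter.unusedSectionVars false
set_option linter.style.haveILetI false

namespace Fermat.Agent.S36_helper3_ROOTS

open Fermat.Agent.S18_helper9_CDefs Fermat.Agent.S34_helper12_CDefs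
  Fermat.Agent.S34_helper27_C2Defs Fermat.Agent.S34_helper13_KEY
  Fermat.Agent.S36_helper2_REDPOW Fermat.Agent.S36_helper6_TORIC
  Fermat.Agent.S36_helper6_TORPT

variable {L : Type*} [Field L]

/-- **the data of helper6's `S36TPT_rel` at one point** `R` (a local ring at a triple point of
level `M' q q`) above `R'` (the local ring at its image at level `M' q`): `hlocal`, `hnorm`,
`hroot'`, `hLS1`, `hLS2`, `hLS3` verbatim, and `O ≤ R'`. -/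
structure S36XB_PtData {F1' F1 : Subfield L} (hF : F1' ≤ F1) (O Va Vb V1 V2 V3 : Subring L)
    (q : ℕ) (R' R : Subring L) : Prop where
  loc : IsLocalRing ↥R
  le : R' ≤ R
  le_a : R' ≤ Va
  le_b : R' ≤ Vb
  le1 : R ≤ V1
  le2 : R ≤ V2
  le3 : R ≤ V3
  O_le : O ≤ R'
  hlocal : ∀ x ∈ R', x ∈ S36TOR_nu R' → x ∈ S36TOR_nu R
  hnorm : letI := S34KEY_alg hF
    ∀ (u : L) (hu : u ∈ F1), u ∈ R → u⁻¹ ∈ R →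
      ((Algebra.norm ↥F1' (⟨u, hu⟩ : ↥F1) : ↥F1') : L) ∈ R'
  hroot' : ∀ x ∈ F1', ∀ n : ℕ, 0 < n → x ^ n ∈ R' → x ∈ R'
  hLS1 : ∀ w ∈ R, ∃ a ∈ R', w - a ∈ S36TOR_nu V1
  hLS2 : ∀ w ∈ R, ∃ a ∈ R', w - a ∈ S36TOR_nu V2
  hLS3 : ∀ w ∈ R, ∃ c ∈ R', w ^ q - c ∈ S36TOR_nu V3

/-- **X-D36 Part II, the field `roots` (abstract assembly).**

* `hF0 … htm` : the hypotheses of `S36RP_redPow` (lower level `F10`, `V00`), verbatim;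
* `hF … hrootb` : the CONFIG of `S36TPT_const` (lower level `F1'`, `Va`, `Vb`), verbatim;
* `hw … hwO` : the involution `w` (CONFIG of `S36TPT_const_beta`), fixing the constants;
* `hb1 hb2 hb3` : the branch roots of `f` with exponent `P` (REDK), multiplicative form;
* `hNα`, `hNβ` : the norms of `f` and of `w f` are a unit constant times a `P`-th power;
* `hB` : FACT + BRANCH36 with exponent `P` at every point of the family;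
* `hptα`, `hptβ` : the data of `S36TPT_rel` at every point and at its mirror. -/
theorem S36XB_roots_abs [CharZero L] {π : L} {F10 F1' F1 : Subfield L}
    {O V00 Va Vb V1 V2 V3 : Subring L}
    (hF0 : F10 ≤ F1) (hV0 : S34C2_Val π F10 V00)
    (hsep0 : ∀ x ∈ F10, x ≠ 0 → ∃ (z : ℤ) (u : L), u ∈ V00 ∧ u⁻¹ ∈ V00 ∧ x = π ^ z * u)
    (hdeg0 : ∃ s : Finset L, ∀ x ∈ F1, ∃ c : L → L, (∀ y, c y ∈ F10) ∧ x = ∑ y ∈ s, c y * y)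
    (h1 : S34C2_Val π F1 V1) (h2 : S34C2_Val π F1 V2) (h3 : S34C2_Val π F1 V3)
    (hV01 : V00 ≤ V1) (hV02 : V00 ≤ V2) (hV03 : V00 ≤ V3)
    (h12 : V1 ≠ V2) (h13 : V1 ≠ V3) (h23 : V2 ≠ V3)
    (hu1 : ∀ x ∈ V1, x⁻¹ ∉ V1 → ∃ v ∈ V1, x = π * v)
    (hu3 : ∀ x ∈ V3, x⁻¹ ∉ V3 → ∃ v ∈ V3, x = π * v)
    {t : L} (ht : t ∈ V2) (ht' : t⁻¹ ∉ V2)
    (hu2 : ∀ x ∈ V2, x⁻¹ ∉ V2 → ∃ v ∈ V2, x = t * v)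
    {m : ℕ} (htm : ∃ v ∈ V2, t ^ m = π * v)
    (hF : F1' ≤ F1)
    (hVa : S34C2_Val π F1' Va)
    (hsepa : ∀ x ∈ F1', x ≠ 0 → ∃ (z : ℤ) (u : L), u ∈ Va ∧ u⁻¹ ∈ Va ∧ x = π ^ z * u)
    (hVb : S34C2_Val π F1' Vb)
    (hsepb : ∀ x ∈ F1', x ≠ 0 → ∃ (z : ℤ) (u : L), u ∈ Vb ∧ u⁻¹ ∈ Vb ∧ x = π ^ z * u)
    (hVa1 : Va ≤ V1) (hVa2 : Va ≤ V2) (hVb3 : Vb ≤ V3)
    {q : ℕ} (hq : q.Prime)
    (hdeg : ∃ s : Finset L, s.card ≤ q ∧ ∀ x ∈ F1, ∃ c : L → L,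
      (∀ y, c y ∈ F1') ∧ x = ∑ y ∈ s, c y * y)
    (ht0 : t ≠ 0) (htmq : π * (t ^ (q - 1))⁻¹ ∈ V2)
    {y x : L} (hy : y ∈ V3) (hx : x ∈ Vb) (hyx : y ^ q - x = 0 ∨ (y ^ q - x)⁻¹ ∉ V3)
    (hxq : ∀ r ∈ Vb, ∀ v ∈ Vb, r ^ q - x ≠ π * v)
    (hchar : ∃ v ∈ Vb, (q : L) = π * v)
    (hOa : O ≤ Va) (hOb : O ≤ Vb)
    (hroota : ∀ (m : ℕ), m ≠ 0 → ∀ x ∈ F1', x ≠ 0 → ∀ c₀ ∈ O, c₀⁻¹ ∈ O → c₀ ≠ 0 →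
      (∃ y ∈ Va, x ^ m = c₀ * (1 + π * y)) →
      ∃ γ ∈ O, γ⁻¹ ∈ O ∧ γ ≠ 0 ∧ ∃ z ∈ Va, x = γ * (1 + π * z))
    (hrootb : ∀ (m : ℕ), m ≠ 0 → ∀ x ∈ F1', x ≠ 0 → ∀ c₀ ∈ O, c₀⁻¹ ∈ O → c₀ ≠ 0 →
      (∃ y ∈ Vb, x ^ m = c₀ * (1 + π * y)) →
      ∃ γ ∈ O, γ⁻¹ ∈ O ∧ γ ≠ 0 ∧ ∃ z ∈ Vb, x = γ * (1 + π * z))
    {w : L → L} (hw : S36TPT_Inv w F1)
    (hw13 : ∀ x ∈ V1, w x ∈ V3) (hw31 : ∀ x ∈ V3, w x ∈ V1) (hw22 : ∀ x ∈ V2, w x ∈ V2)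
    (hwO : ∀ c ∈ O, w c = c)
    {P : ℕ} (hP : 0 < P) (hPO : (P : L)⁻¹ ∈ O)
    {f : L} (hf : f ∈ F1) (hf0 : f ≠ 0)
    (hb1 : ∃ G1 : L, G1 ∈ V1 ∧ G1⁻¹ ∈ V1 ∧ ∃ v ∈ V1, f = G1 ^ P * (1 + π * v))
    (hb2 : ∃ G2 : L, G2 ∈ V2 ∧ G2⁻¹ ∈ V2 ∧ ∃ v ∈ V2, f = G2 ^ P * (1 + t * v))
    (hb3 : ∃ G3 : L, G3 ∈ V3 ∧ G3⁻¹ ∈ V3 ∧ ∃ v ∈ V3, f = G3 ^ P * (1 + π * v))
    (hNα : letI := S34KEY_alg hF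
      ∃ c H : L, (c ≠ 0 ∧ c ∈ O ∧ c⁻¹ ∈ O) ∧ H ∈ F1' ∧ H ≠ 0 ∧
        ((Algebra.norm ↥F1' (⟨f, hf⟩ : ↥F1) : ↥F1') : L) = c * H ^ P)
    (hNβ : letI := S34KEY_alg hF
      ∃ c H : L, (c ≠ 0 ∧ c ∈ O ∧ c⁻¹ ∈ O) ∧ H ∈ F1' ∧ H ≠ 0 ∧
        ((Algebra.norm ↥F1' (⟨w f, hw.mapF f hf⟩ : ↥F1) : ↥F1') : L) = c * H ^ P)
    {ι : Type*} (R : ι → Subring L)
    (hB : ∀ i, ∀ G : L, RedPow π (V1 ⊓ V2 ⊓ V3 : Subring L) P f G →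
      ∃ u0 g0 w1 w2 w3 : L, u0 ∈ R i ∧ u0⁻¹ ∈ R i ∧ g0 ∈ F1 ∧ f = u0 * g0 ^ P ∧
        (w1 ∈ R i ∧ w1⁻¹ ∈ R i ∧ ∃ c ∈ V1, G * g0⁻¹ = w1 * (1 + π * c)) ∧
        (w2 ∈ R i ∧ w2⁻¹ ∈ R i ∧ ∃ c ∈ V2, G * g0⁻¹ = w2 * (1 + π * c)) ∧
        (w3 ∈ R i ∧ w3⁻¹ ∈ R i ∧ ∃ c ∈ V3, G * g0⁻¹ = w3 * (1 + π * c)))
    (hptα : ∀ i, ∃ R' : Subring L, S36XB_PtData hF O Va Vb V1 V2 V3 q R' (R i))
    (hptβ : ∀ i, ∃ Rm' Rm : Subring L, S36XB_PtData hF O Va Vb V1 V2 V3 q Rm' Rm ∧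
      (∀ x ∈ R i, w x ∈ Rm) ∧ (∀ x ∈ Rm, w x ∈ R i)) :
    ∃ G1 G2 G3 cα cα' cβ cβ' : L,
      (G1 ≠ 0 ∧ G1 ∈ V1 ∧ G1⁻¹ ∈ V1 ∧ f - G1 ^ P ∈ S36TOR_nu V1) ∧
      (G2 ≠ 0 ∧ G2 ∈ V2 ∧ G2⁻¹ ∈ V2 ∧ f - G2 ^ P ∈ S36TOR_nu V2) ∧
      (G3 ≠ 0 ∧ G3 ∈ V3 ∧ G3⁻¹ ∈ V3 ∧ f - G3 ^ P ∈ S36TOR_nu V3) ∧
      (cα ≠ 0 ∧ cα ∈ O ∧ cα⁻¹ ∈ O) ∧ (cα' ≠ 0 ∧ cα' ∈ O ∧ cα'⁻¹ ∈ O) ∧
      (cβ ≠ 0 ∧ cβ ∈ O ∧ cβ⁻¹ ∈ O) ∧ (cβ' ≠ 0 ∧ cβ' ∈ O ∧ cβ'⁻¹ ∈ O) ∧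
      ∀ i, ∃ u g W1 W2 W3 : L, u ∈ R i ∧ u⁻¹ ∈ R i ∧ g ∈ F1 ∧ f = u * g ^ P ∧
        W1 ∈ R i ∧ W2 ∈ R i ∧ W3 ∈ R i ∧
        G1 / g - W1 ∈ S36TOR_nu V1 ∧ G2 / g - W2 ∈ S36TOR_nu V2 ∧
        G3 / g - W3 ∈ S36TOR_nu V3 ∧
        cα * W1 * W2 ^ (q - 1) - cα' * W3 ^ q ∈ S36TOR_nu (R i) ∧
        cβ * W3 * W2 ^ (q - 1) - cβ' * W1 ^ q ∈ S36TOR_nu (R i) := by
  classical
  letI := S34KEY_alg hF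
  obtain ⟨G1, hG1, hG1', hf1⟩ := hb1
  obtain ⟨G2, hG2, hG2', hf2⟩ := hb2
  obtain ⟨G3, hG3, hG3', hf3⟩ := hb3
  have hPL : (P : L) ≠ 0 := Nat.cast_ne_zero.mpr hP.ne'
  -- the glued root
  obtain ⟨G, hGF, hred, -, -, -⟩ :=
    S36RP_redPow hF0 hV0 hsep0 hdeg0 h1 h2 h3 hV01 hV02 hV03 h12 h13 h23 hu1 hu3 ht ht' hu2 htm
      ((hOa.trans hVa2) hPO) hPL hf0 hG1 hG1' hG2 hG2' hG3 hG3' hf1 hf2 hf3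
  obtain ⟨hGV, hGV', c, hc, hfc⟩ := hred
  have hG0 : G ≠ 0 := by
    rintro rfl
    apply hf0
    rw [hfc, zero_pow hP.ne', zero_mul]
  have hGk : ∀ {W : Subring L} (H : S34C2_Val π F1 W), G ∈ W → G⁻¹ ∈ W → c ∈ W →
      (G ≠ 0 ∧ G ∈ W ∧ G⁻¹ ∈ W ∧ f - G ^ P ∈ S36TOR_nu W) := by
    intro W H h h' hcW
    refine ⟨hG0, h, h', ?_⟩
    have e : f - G ^ P = π * (G ^ P * c) := by rw [hfc]; ring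
    rw [e]
    exact S36TPT_pi_mul_nu H (W.mul_mem (W.pow_mem h P) hcW)
  have hG1k := hGk h1 hGV.1.1 hGV'.1.1 hc.1.1
  have hG2k := hGk h2 hGV.1.2 hGV'.1.2 hc.1.2
  have hG3k := hGk h3 hGV.2 hGV'.2 hc.2
  -- the four constants
  obtain ⟨cα0, Hα, hcα0, hHα, hHα0, hNα'⟩ := hNα
  obtain ⟨γa, γb, hγa, hγb, hγ1, hγ2⟩ :=
    S36TPT_const hF hVa hsepa hVb hsepb h1 h2 h3 hVa1 hVa2 hVb3 h12 hq hdeg ht ht0 ht' htmq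
      hy hx hyx hxq hchar hOa hOb hroota hrootb hP hf hf0 hcα0 hHα hHα0 hNα' hGF
      hG1k hG2k hG3k
  obtain ⟨cβ0, Hβ, hcβ0, hHβ, hHβ0, hNβ'⟩ := hNβ
  obtain ⟨δa, δb, hδa, hδb, hδ1, hδ2⟩ :=
    S36TPT_const_beta hF hVa hsepa hVb hsepb h1 h2 h3 hVa1 hVa2 hVb3 h12 hq hdeg ht ht0 ht'
      htmq hy hx hyx hxq hchar hOa hOb hroota hrootb hw hw13 hw31 hw22 hP hf hf0 hcβ0 hHβ
      hHβ0 hNβ' hGF hG1k hG2k hG3k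
  refine ⟨G, G, G, γb, γa, δb, δa, hG1k, hG2k, hG3k, hγb, hγa, hδb, hδa, fun i => ?_⟩
  -- the points
  obtain ⟨u0, g0, w1, w2, w3, hu0, hu0', hg0, hfact, ⟨hw1, -, c1, hc1, e1⟩,
    ⟨hw2, -, c2, hc2, e2⟩, ⟨hw3, -, c3, hc3, e3⟩⟩ := hB i G ⟨hGV, hGV', c, hc, hfc⟩
  have hr : ∀ {W : Subring L} (H : S34C2_Val π F1 W) {wk ck : L}, wk ∈ W → ck ∈ W →
      G * g0⁻¹ = wk * (1 + π * ck) → G / g0 - wk ∈ S36TOR_nu W := by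
    intro W H wk ck hwk hck e
    have e' : G / g0 - wk = π * (wk * ck) := by rw [div_eq_mul_inv, e]; ring
    rw [e']
    exact S36TPT_pi_mul_nu H (W.mul_mem hwk hck)
  obtain ⟨R', D⟩ := hptα i
  obtain ⟨Rm', Rm, Dm, hwR, hwRm⟩ := hptβ i
  have hr1 := hr h1 (D.le1 hw1) hc1 e1
  have hr2 := hr h2 (D.le2 hw2) hc2 e2
  have hr3 := hr h3 (D.le3 hw3) hc3 e3
  refine ⟨u0, g0, w1, w2, w3, hu0, hu0', hg0, hfact, hw1, hw2, hw3, hr1, hr2, hr3, ?_, ?_⟩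
  · exact S36TPT_rel hF hVa hsepa hVb hsepb h1 h2 h3 hVa1 hVa2 hVb3 h12 hq hdeg ht ht0 ht'
      htmq hy hx hyx hxq hchar D.loc D.le D.le_a D.le_b D.le1 D.le2 D.le3 D.hlocal D.hnorm
      D.hroot' D.hLS1 D.hLS2 D.hLS3 hP hf hf0 hcα0.1 (D.O_le hcα0.2.2) hHα hHα0 hNα' hGF hG0
      (D.O_le hγa.2.1) (D.O_le hγb.2.1) hγ1 hγ2 hu0 hu0' hg0 hfact hw1 hw2 hw3 hr1 hr2 hr3
  · exact S36TPT_rel_beta hF hVa hsepa hVb hsepb h1 h2 h3 hVa1 hVa2 hVb3 h12 hq hdeg ht ht0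
      ht' htmq hy hx hyx hxq hchar hw hw13 hw31 hw22 Dm.loc Dm.le Dm.le_a Dm.le_b Dm.le1
      Dm.le2 Dm.le3 Dm.hlocal Dm.hnorm Dm.hroot' Dm.hLS1 Dm.hLS2 Dm.hLS3 D.le1 hwR hwRm hP hf
      hf0 hcβ0.1 (Dm.O_le hcβ0.2.2) hHβ hHβ0 hNβ' hGF hG0 (Dm.O_le hδa.2.1)
      (Dm.O_le hδb.2.1) (hwO _ hδa.2.1) (hwO _ hδb.2.1) hδ1 hδ2 hu0 hu0' hg0 hfact hw1 hw2
      hw3 hr1 hr2 hr3

end Fermat.Agent.S36_helper3_ROOTS
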