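import Mathlib
import Fermat.Agent.S36_helper3_ROOTS
import Fermat.Agent.S36_helper3_LOCK
import Fermat.Agent.S36_helper13_REDK
import Fermat.Agent.S36_helper13_NORMK
import Fermat.Agent.S36_helper12_W36VALK
import Fermat.Agent.S18_helper25_CORE

/-!
# S36, GEO36 (helper13): ROOTSK = the field `roots` of `S36XB_LocContract` AT THE CARRIERS

The concrete plug of helper3's abstract assembly `S36XB_roots_abs` at the carriers of level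
`M' * q * q`:

* `V1 = S18K_V A K1 (M' * q * q)` (Gauss), `V2 = S36VK_Vmid A K1 q M'`,
  `V3 = S36VK_V0 A K1 q M' hq hqM`, `t = S36VK_t K1 q`;
* lower level of REDPOW: `F10 = S18K_F1 K1 M'`, `V00 = S18K_V A K1 M'`;
* lower level of the norms: `F1' = S18K_F1 K1 (M' * q)`, `Va = S18K_V A K1 (M' * q)`,
  `Vb = S34V0K_V A K1 q M' (M' * q)`; `w = W_(q²)` (`S36XA_W`).

Plugged inside: REDK (`S36RDK_mid_lam`: the three branch roots with exponent `P`), NORMK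
(`S36NK_alpha`, `S36NK_beta`, `S36NK_inv`, `S36NK_roota`, `S36NK_rootb`), helper12's
`S36WV_hw22`, `S36WV_wL_O`, helper5's `S36VK_main`, helper23's `V_0` facts.

What is left as hypotheses (exact shapes of `S36XB_roots_abs`): `hB` (FACT + BRANCH36 at the
exponent `P`), `hptα`, `hptβ` (the data of helper6's `S36TPT_rel` at every point of the family
and at its mirror).

* `S36RK_deg`       : `F1(M' q q)` is finitely spanned over `F1(M')`;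
* `S36RK_pow_inv`   : `(lam ^ b)⁻¹ ∈ O` for a prime `lam ≠ q`;
* `S36RK_roots_gen` : the field `roots` for `d = lam ^ (a + b)`, `P = lam ^ b`,
  `lam ^ a ∥ q - 1`;
* `S36RK_roots`     : **the field `roots` VERBATIM** at `d = lam ^ (2 (c1 + c2) + 1 - c1)`,
  `P = lam ^ (c1 + c2 + 1)`.
-/

set_option autoImplicit false
set_option linter.unusedVariables false
set_option linter.unusedSectionVars false
set_option linter.style.haveILetI false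

open HahnSeries ModularCurve
open Fermat.Agent.S18_helper13_GAUSS Fermat.Agent.S18_helper9_CDefs
  Fermat.Agent.S18_helper25_COREDefs Fermat.Agent.S34_helper12_CDefs
  Fermat.Agent.S34_helper20_WQ Fermat.Agent.S34_helper20_V0 Fermat.Agent.S34_helper20_V0K
  Fermat.Agent.S34_helper27_V3K Fermat.Agent.S36_helper20_WQQ
  Fermat.Agent.S36_helper5_VKDefs Fermat.Agent.S36_helper5_VMIDK
  Fermat.Agent.S36_helper23_V0QB
  Fermat.Agent.S35_helper27_XD2Defs Fermat.Agent.S36_helper4_XADefs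
  Fermat.Agent.S36_helper3_LOCK Fermat.Agent.S36_helper3_ROOTS
  Fermat.Agent.S36_helper6_TORPT Fermat.Agent.S36_helper6_TORIC
  Fermat.Agent.S34_helper27_C2Defs Fermat.Agent.S34_helper13_KEY
  Fermat.Agent.S36_helper13_REDK Fermat.Agent.S36_helper13_NORMK

noncomputable section

namespace Fermat.Agent.S36_helper13_ROOTSK

local notation "Qb" => AlgebraicClosure ℚ

section Carriers

/-- `F1(N)` is finitely spanned over `F1(N')`, `N' ∣ N` arbitrary (no bound on the number of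
generators): the hypothesis `hdeg` of `S36RP_redPow`, the field `deg` of the contract. -/
theorem S36RK_deg (A : ValuationSubring Qb) (K1 : IntermediateField ℚ Qb)
    [IsDiscreteValuationRing (S18K_O1 A K1)] (N' N : ℕ) [NeZero N'] [NeZero N] :
    ∃ s : Finset (LaurentSeries K1), ∀ x ∈ S18K_F1 K1 N,
      ∃ c : LaurentSeries K1 → LaurentSeries K1, (∀ y, c y ∈ S18K_F1 K1 N') ∧
        x = ∑ y ∈ s, c y * y := by
  obtain ⟨s, hs⟩ := S34V3K_fin A K1 N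
  refine ⟨s, fun x hx => ?_⟩
  obtain ⟨c, hc, e⟩ := hs x hx
  refine ⟨c, fun y => ?_, e⟩
  have hle : Subfield.closure ((S18K_O A K1 : Set (LaurentSeries K1)) ∪ {S18K_j K1}) ≤
      S18K_F1 K1 N' := by
    rw [Subfield.closure_le]
    rintro z (hz | hz)
    · exact (S34V3K_val1 A K1 N').le (S36RDK_O_le A K1 N' hz)
    · rw [Set.mem_singleton_iff] at hz
      subst hz
      exact jqModC_mem_full K1 N'
  exact hle (hc y)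

/-- `(lam ^ b)⁻¹ ∈ O` for a prime `lam ≠ q`. -/
theorem S36RK_pow_inv (A : ValuationSubring Qb) (K1 : IntermediateField ℚ Qb)
    [IsDiscreteValuationRing (S18K_O1 A K1)] {q : ℕ} (hq : q.Prime) (hA : A.LiesOverPrime q) {lam : ℕ}
    (hlam : lam.Prime) (hlq : lam ≠ q) (b : ℕ) :
    (((lam ^ b : ℕ) : LaurentSeries K1))⁻¹ ∈ S18K_O A K1 := by
  haveI : Fact q.Prime := ⟨hq⟩
  have h := Fermat.Agent.S18_helper25_CORE.S18K_natCast_inv_mem A K1 hA lam hlam hlq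
  have e : (((lam ^ b : ℕ) : LaurentSeries K1))⁻¹ = (((lam : LaurentSeries K1))⁻¹) ^ b := by
    rw [Nat.cast_pow, inv_pow]
  rw [e]
  exact (S18K_O A K1).pow_mem h b

end Carriers

section Main

variable (A : ValuationSubring Qb) (K1 : IntermediateField ℚ Qb)
  [IsDiscreteValuationRing (S18K_O1 A K1)]
  (q M' : ℕ) [NeZero M'] [NeZero q] [NeZero (M' * q)] [NeZero (M' * q * q)] [NeZero (q ^ 2)]
  [NeZero (q * q)] (hq : q.Prime) (hqM : ¬ q ∣ M')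

set_option maxHeartbeats 3200000 in
set_option synthInstance.maxHeartbeats 400000 in
/-- **ROOTSK, general exponents**: the field `roots` of `S36XB_LocContract` at the carriers, for
`d = lam ^ (a + b)`, `P = lam ^ b`, `lam ^ a ∥ q - 1`. -/
theorem S36RK_roots_gen (hadm : S18K_Admissible A K1 q) (hA : A.LiesOverPrime q)
    (hunr : Associated (S18K_D A K1).π ((q : ℕ) : S18K_O1 A K1))
    {lam a b m' d P : ℕ} (hlam : lam.Prime) (hlq : lam ≠ q)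
    (hqm : q - 1 = lam ^ a * m') (hm' : ¬ lam ∣ m')
    (hd : d = lam ^ (a + b)) (hPe : P = lam ^ b)
    {ι : Type} (R : ι → Subring (LaurentSeries K1))
    (hB : ∀ (f1 : LaurentSeries K1) (hf1 : f1 ∈ S18K_F1 K1 (M' * q * q)),
      S36XB_Good A K1 M' q d hq hqM (S36VK_Vmid A K1 q M') (S36VK_V0 A K1 q M' hq hqM)
        f1 hf1 → ∀ i, ∀ G : LaurentSeries K1,
      RedPow (S18K_π A K1)
        (S18K_V A K1 (M' * q * q) ⊓ S36VK_Vmid A K1 q M' ⊓ S36VK_V0 A K1 q M' hq hqM :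
          Subring (LaurentSeries K1)) P f1 G →
      ∃ u0 g0 w1 w2 w3 : LaurentSeries K1, u0 ∈ R i ∧ u0⁻¹ ∈ R i ∧
        g0 ∈ S18K_F1 K1 (M' * q * q) ∧ f1 = u0 * g0 ^ P ∧
        (w1 ∈ R i ∧ w1⁻¹ ∈ R i ∧
          ∃ c ∈ S18K_V A K1 (M' * q * q), G * g0⁻¹ = w1 * (1 + S18K_π A K1 * c)) ∧
        (w2 ∈ R i ∧ w2⁻¹ ∈ R i ∧
          ∃ c ∈ S36VK_Vmid A K1 q M', G * g0⁻¹ = w2 * (1 + S18K_π A K1 * c)) ∧
        (w3 ∈ R i ∧ w3⁻¹ ∈ R i ∧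
          ∃ c ∈ S36VK_V0 A K1 q M' hq hqM, G * g0⁻¹ = w3 * (1 + S18K_π A K1 * c)))
    (hptα : ∀ i, ∃ R' : Subring (LaurentSeries K1),
      S36XB_PtData (S34V3K_F1_mono K1 (S36XA_level_dvd M' q)) (S18K_O A K1)
        (S18K_V A K1 (M' * q)) (S34V0K_V A K1 q M' (M' * q) hq hqM (Nat.mul_comm M' q))
        (S18K_V A K1 (M' * q * q)) (S36VK_Vmid A K1 q M') (S36VK_V0 A K1 q M' hq hqM) q
        R' (R i))
    (hptβ : ∀ i, ∃ Rm' Rm : Subring (LaurentSeries K1),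
      S36XB_PtData (S34V3K_F1_mono K1 (S36XA_level_dvd M' q)) (S18K_O A K1)
        (S18K_V A K1 (M' * q)) (S34V0K_V A K1 q M' (M' * q) hq hqM (Nat.mul_comm M' q))
        (S18K_V A K1 (M' * q * q)) (S36VK_Vmid A K1 q M') (S36VK_V0 A K1 q M' hq hqM) q
        Rm' Rm ∧
      (∀ x ∈ R i, S36XA_W K1 q M' hq hqM x ∈ Rm) ∧
      (∀ x ∈ Rm, S36XA_W K1 q M' hq hqM x ∈ R i)) :
    ∀ (f1 : LaurentSeries K1) (hf1 : f1 ∈ S18K_F1 K1 (M' * q * q)),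
    S36XB_Good A K1 M' q d hq hqM (S36VK_Vmid A K1 q M') (S36VK_V0 A K1 q M' hq hqM)
      f1 hf1 →
    ∃ G1 G2 G3 cα cα' cβ cβ' : LaurentSeries K1,
      (G1 ≠ 0 ∧ G1 ∈ S18K_V A K1 (M' * q * q) ∧ G1⁻¹ ∈ S18K_V A K1 (M' * q * q) ∧
        f1 - G1 ^ P ∈ S36TOR_nu (S18K_V A K1 (M' * q * q))) ∧
      (G2 ≠ 0 ∧ G2 ∈ S36VK_Vmid A K1 q M' ∧ G2⁻¹ ∈ S36VK_Vmid A K1 q M' ∧
        f1 - G2 ^ P ∈ S36TOR_nu (S36VK_Vmid A K1 q M')) ∧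
      (G3 ≠ 0 ∧ G3 ∈ S36VK_V0 A K1 q M' hq hqM ∧ G3⁻¹ ∈ S36VK_V0 A K1 q M' hq hqM ∧
        f1 - G3 ^ P ∈ S36TOR_nu (S36VK_V0 A K1 q M' hq hqM)) ∧
      (cα ≠ 0 ∧ cα ∈ S18K_O A K1 ∧ cα⁻¹ ∈ S18K_O A K1) ∧
      (cα' ≠ 0 ∧ cα' ∈ S18K_O A K1 ∧ cα'⁻¹ ∈ S18K_O A K1) ∧
      (cβ ≠ 0 ∧ cβ ∈ S18K_O A K1 ∧ cβ⁻¹ ∈ S18K_O A K1) ∧
      (cβ' ≠ 0 ∧ cβ' ∈ S18K_O A K1 ∧ cβ'⁻¹ ∈ S18K_O A K1) ∧
      ∀ i, ∃ u g w1 w2 w3 : LaurentSeries K1, u ∈ R i ∧ u⁻¹ ∈ R i ∧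
        g ∈ S18K_F1 K1 (M' * q * q) ∧ f1 = u * g ^ P ∧ w1 ∈ R i ∧ w2 ∈ R i ∧ w3 ∈ R i ∧
        G1 / g - w1 ∈ S36TOR_nu (S18K_V A K1 (M' * q * q)) ∧
        G2 / g - w2 ∈ S36TOR_nu (S36VK_Vmid A K1 q M') ∧
        G3 / g - w3 ∈ S36TOR_nu (S36VK_V0 A K1 q M' hq hqM) ∧
        cα * w1 * w2 ^ (q - 1) - cα' * w3 ^ q ∈ S36TOR_nu (R i) ∧
        cβ * w3 * w2 ^ (q - 1) - cβ' * w1 ^ q ∈ S36TOR_nu (R i) := by
  classical
  subst hd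
  subst hPe
  intro f1 hf1 hgood
  haveI hcz : CharZero (LaurentSeries K1) :=
    charZero_of_injective_ringHom (HahnSeries.C_injective (Γ := ℤ) (R := K1))
  have hN1 : M' * q = q * M' := Nat.mul_comm M' q
  have hd01 : M' ∣ M' * q := dvd_mul_right M' q
  have hd02 : M' ∣ M' * q * q := hd01.trans (dvd_mul_right (M' * q) q)
  have hF : S18K_F1 K1 (M' * q) ≤ S18K_F1 K1 (M' * q * q) :=
    S34V3K_F1_mono K1 (S36XA_level_dvd M' q)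
  have hF0 : S18K_F1 K1 M' ≤ S18K_F1 K1 (M' * q * q) := S34V3K_F1_mono K1 hd02
  obtain ⟨hmid, htmq⟩ := S36RDK_mid_inputs A K1 q M' hq hqM hA hunr
  obtain ⟨-, h12, h23, h13, ht0, -, htπ, -, -, hu2, -, -, -⟩ :=
    S36VK_main A K1 q M' hq hqM hA hunr
  have h1 := S34V3K_val1 A K1 (M' * q * q)
  have h3 := S36VK_V0_val A K1 q M' hq hqM
  have hπ0 : S18K_π A K1 ≠ 0 := h1.π_ne_zero
  have htm : ∃ v ∈ S36VK_Vmid A K1 q M', S36VK_t K1 q ^ (q - 1) = S18K_π A K1 * v :=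
    ⟨_, htπ, by field_simp⟩
  have hlpos : 0 < lam ^ b := pow_pos hlam.pos b
  have hdpos : 0 < lam ^ (a + b) := pow_pos hlam.pos (a + b)
  have hPd : lam ^ b ∣ lam ^ (a + b) := pow_dvd_pow lam (Nat.le_add_left b a)
  have hf0 : f1 ≠ 0 := hgood.1
  -- the branch roots (REDK)
  obtain ⟨G1, G2, G3, ⟨-, hG1, hG1', hf1e⟩, ⟨-, hG2, hG2', hf2e⟩, ⟨-, hG3, hG3', hf3e⟩⟩ :=
    S36RDK_mid_lam A K1 q M' hq hqM hadm hA hunr hlam hlq hqm hm' f1 hf1 hf0 hgood.2.1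
      hgood.2.2.1 hgood.2.2.2.2.1 hgood.2.2.2.2.2
  -- the norms (NORMK)
  obtain ⟨cα0, Hα, hcα0, hHα, hHα0, -, -, hNα⟩ :=
    S36NK_alpha A K1 q M' hq hqM hA _ hmid htmq hdpos hPd f1 hf1 hgood
  obtain ⟨cβ0, Hβ, hcβ0, hHβ, hHβ0, -, hNβ⟩ :=
    S36NK_beta A K1 q M' hq hqM hA _ hdpos hPd f1 hf1 hgood
  exact S36XB_roots_abs (O := S18K_O A K1) (m := q - 1) hF0 (S34V3K_val1 A K1 M')
    (Fermat.Agent.S34_helper13_KEYK.S34KEYK_sep A K1 M') (S36RK_deg A K1 M' (M' * q * q))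
    h1 hmid.1 h3 (S34V3K_V_mono A K1 hd02) ((S34V3K_V_mono A K1 hd01).trans hmid.2.1)
    (S36VK_V0_le A K1 q M' hq hqM) h12 h13 h23 (S34V3K_unif1 A K1 (M' * q * q))
    (S36VK_V0_unif A K1 q M' hq hqM) hmid.2.2.1 hmid.2.2.2 hu2 htm
    hF (S34V3K_val1 A K1 (M' * q))
    (Fermat.Agent.S34_helper13_KEYK.S34KEYK_sep A K1 (M' * q))
    (S34V0K_val A K1 q M' (M' * q) hq hqM hN1) (S36RDK_sepb A K1 q M' (M' * q) hq hqM hN1)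
    (S34V3K_V_mono A K1 (S36XA_level_dvd M' q)) hmid.2.1 (S36V0QB_le_q A K1 q M' hq hqM hN1)
    hq (Fermat.Agent.S36_helper4_DEG.S36DG_hdeg K1 (M' * q) q hq (Dvd.intro_left M' rfl))
    ht0 htmq
    (S36V0QB_jqq_mem A K1 q M' hq hqM) (S34V0K_jq_mem A K1 q M' (M' * q) hq hqM hN1)
    (Fermat.Agent.S36_helper23_V0QX.S36V0QY_hyx A K1 q M' hq hqM hN1 hA)
    (Fermat.Agent.S36_helper23_V0QX.S36V0QY_hxq A K1 q M' hq hqM hN1 hA)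
    (Fermat.Agent.S36_helper23_V0QX.S36V0QY_hchar A K1 q M' hq hqM hN1 hA)
    (S36RDK_O_le A K1 (M' * q)) (S36RDK_O_le_b A K1 q M' (M' * q) hq hqM hN1)
    (S36NK_roota A K1 q M' hadm) (S36NK_rootb A K1 q M' hq hqM hadm hN1)
    (S36NK_inv K1 q M' hq hqM) (S36V0QB_hw13 A K1 q M' hq hqM) (S36V0QB_hw31 A K1 q M' hq hqM)
    (Fermat.Agent.S36_helper12_W36VALK.S36WV_hw22 A K1 q M' hq hqM hA hunr)
    (Fermat.Agent.S36_helper12_W36VALK.S36WV_wL_O A K1 q M' hq hqM)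
    hlpos (S36RK_pow_inv A K1 hq hA hlam hlq b) hf1 hf0
    ⟨G1, hG1, hG1', hf1e⟩ ⟨G2, hG2, hG2', hf2e⟩ ⟨G3, hG3, hG3', hf3e⟩
    ⟨cα0, Hα, hcα0, hHα, hHα0, hNα⟩ ⟨cβ0, Hβ, hcβ0, hHβ, hHβ0, hNβ⟩
    R (hB f1 hf1 hgood) hptα hptβ

/-- **ROOTSK = THE FIELD `roots` OF `S36XB_LocContract` AT THE CARRIERS, VERBATIM**, at the
exponents of helper3's ruling: `c1 = v_lam (q + 1)`, `c2 = v_lam (q - 1)`,
`d = lam ^ (2 (c1 + c2) + 1 - c1)`, `P = lam ^ (c1 + c2 + 1)`. -/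
theorem S36RK_roots (hadm : S18K_Admissible A K1 q) (hA : A.LiesOverPrime q)
    (hunr : Associated (S18K_D A K1).π ((q : ℕ) : S18K_O1 A K1))
    {lam c1 c2 u m' : ℕ} (hlam : lam.Prime) (hlq : lam ≠ q)
    (hqu : q + 1 = lam ^ c1 * u) (hu : ¬ lam ∣ u)
    (hqm : q - 1 = lam ^ c2 * m') (hm' : ¬ lam ∣ m')
    {ι : Type} (R : ι → Subring (LaurentSeries K1))
    (hB : ∀ (f1 : LaurentSeries K1) (hf1 : f1 ∈ S18K_F1 K1 (M' * q * q)),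
      S36XB_Good A K1 M' q (lam ^ (2 * (c1 + c2) + 1 - c1)) hq hqM (S36VK_Vmid A K1 q M')
        (S36VK_V0 A K1 q M' hq hqM) f1 hf1 → ∀ i, ∀ G : LaurentSeries K1,
      RedPow (S18K_π A K1)
        (S18K_V A K1 (M' * q * q) ⊓ S36VK_Vmid A K1 q M' ⊓ S36VK_V0 A K1 q M' hq hqM :
          Subring (LaurentSeries K1)) (lam ^ (c1 + c2 + 1)) f1 G →
      ∃ u0 g0 w1 w2 w3 : LaurentSeries K1, u0 ∈ R i ∧ u0⁻¹ ∈ R i ∧
        g0 ∈ S18K_F1 K1 (M' * q * q) ∧ f1 = u0 * g0 ^ (lam ^ (c1 + c2 + 1)) ∧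
        (w1 ∈ R i ∧ w1⁻¹ ∈ R i ∧
          ∃ c ∈ S18K_V A K1 (M' * q * q), G * g0⁻¹ = w1 * (1 + S18K_π A K1 * c)) ∧
        (w2 ∈ R i ∧ w2⁻¹ ∈ R i ∧
          ∃ c ∈ S36VK_Vmid A K1 q M', G * g0⁻¹ = w2 * (1 + S18K_π A K1 * c)) ∧
        (w3 ∈ R i ∧ w3⁻¹ ∈ R i ∧
          ∃ c ∈ S36VK_V0 A K1 q M' hq hqM, G * g0⁻¹ = w3 * (1 + S18K_π A K1 * c)))
    (hptα : ∀ i, ∃ R' : Subring (LaurentSeries K1),
      S36XB_PtData (S34V3K_F1_mono K1 (S36XA_level_dvd M' q)) (S18K_O A K1)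
        (S18K_V A K1 (M' * q)) (S34V0K_V A K1 q M' (M' * q) hq hqM (Nat.mul_comm M' q))
        (S18K_V A K1 (M' * q * q)) (S36VK_Vmid A K1 q M') (S36VK_V0 A K1 q M' hq hqM) q
        R' (R i))
    (hptβ : ∀ i, ∃ Rm' Rm : Subring (LaurentSeries K1),
      S36XB_PtData (S34V3K_F1_mono K1 (S36XA_level_dvd M' q)) (S18K_O A K1)
        (S18K_V A K1 (M' * q)) (S34V0K_V A K1 q M' (M' * q) hq hqM (Nat.mul_comm M' q))
        (S18K_V A K1 (M' * q * q)) (S36VK_Vmid A K1 q M') (S36VK_V0 A K1 q M' hq hqM) q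
        Rm' Rm ∧
      (∀ x ∈ R i, S36XA_W K1 q M' hq hqM x ∈ Rm) ∧
      (∀ x ∈ Rm, S36XA_W K1 q M' hq hqM x ∈ R i)) :
    ∀ (f1 : LaurentSeries K1) (hf1 : f1 ∈ S18K_F1 K1 (M' * q * q)),
    S36XB_Good A K1 M' q (lam ^ (2 * (c1 + c2) + 1 - c1)) hq hqM (S36VK_Vmid A K1 q M')
      (S36VK_V0 A K1 q M' hq hqM) f1 hf1 →
    ∃ G1 G2 G3 cα cα' cβ cβ' : LaurentSeries K1,
      (G1 ≠ 0 ∧ G1 ∈ S18K_V A K1 (M' * q * q) ∧ G1⁻¹ ∈ S18K_V A K1 (M' * q * q) ∧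
        f1 - G1 ^ (lam ^ (c1 + c2 + 1)) ∈ S36TOR_nu (S18K_V A K1 (M' * q * q))) ∧
      (G2 ≠ 0 ∧ G2 ∈ S36VK_Vmid A K1 q M' ∧ G2⁻¹ ∈ S36VK_Vmid A K1 q M' ∧
        f1 - G2 ^ (lam ^ (c1 + c2 + 1)) ∈ S36TOR_nu (S36VK_Vmid A K1 q M')) ∧
      (G3 ≠ 0 ∧ G3 ∈ S36VK_V0 A K1 q M' hq hqM ∧ G3⁻¹ ∈ S36VK_V0 A K1 q M' hq hqM ∧
        f1 - G3 ^ (lam ^ (c1 + c2 + 1)) ∈ S36TOR_nu (S36VK_V0 A K1 q M' hq hqM)) ∧
      (cα ≠ 0 ∧ cα ∈ S18K_O A K1 ∧ cα⁻¹ ∈ S18K_O A K1) ∧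
      (cα' ≠ 0 ∧ cα' ∈ S18K_O A K1 ∧ cα'⁻¹ ∈ S18K_O A K1) ∧
      (cβ ≠ 0 ∧ cβ ∈ S18K_O A K1 ∧ cβ⁻¹ ∈ S18K_O A K1) ∧
      (cβ' ≠ 0 ∧ cβ' ∈ S18K_O A K1 ∧ cβ'⁻¹ ∈ S18K_O A K1) ∧
      ∀ i, ∃ u g w1 w2 w3 : LaurentSeries K1, u ∈ R i ∧ u⁻¹ ∈ R i ∧
        g ∈ S18K_F1 K1 (M' * q * q) ∧ f1 = u * g ^ (lam ^ (c1 + c2 + 1)) ∧
        w1 ∈ R i ∧ w2 ∈ R i ∧ w3 ∈ R i ∧
        G1 / g - w1 ∈ S36TOR_nu (S18K_V A K1 (M' * q * q)) ∧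
        G2 / g - w2 ∈ S36TOR_nu (S36VK_Vmid A K1 q M') ∧
        G3 / g - w3 ∈ S36TOR_nu (S36VK_V0 A K1 q M' hq hqM) ∧
        cα * w1 * w2 ^ (q - 1) - cα' * w3 ^ q ∈ S36TOR_nu (R i) ∧
        cβ * w3 * w2 ^ (q - 1) - cβ' * w1 ^ q ∈ S36TOR_nu (R i) :=
  S36RK_roots_gen A K1 q M' hq hqM hadm hA hunr (a := c2) (b := c1 + c2 + 1) hlam hlq hqm hm'
    (by congr 1; omega) rfl R hB hptα hptβ

end Main

end Fermat.Agent.S36_helper13_ROOTSK
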