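import Mathlib
import Fermat.Agent.S18_helper9_CDefs
import Fermat.Agent.S18_helper3_LOCRING
import Fermat.Agent.S36_helper7_FACT

/-!
# S36, GEO36 (d): FACT-L, the local factorisation at a point of a regular chart (helper19)

Subring-`L` vocabulary of S18 / S34.  `X` is a chart, `m` a prime of `X`, `R = locRing X m` a
unique factorisation domain with fraction field `F1` (elementwise).  `f ∈ F1` satisfies
`PowDiv O π F1 p f` (at every discrete valuation ring of `F1` containing `O[1/π]`, `f` is a unit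
times a `p`-th power) and is a unit of the valuation rings of the VERTICAL primes of `R` (the
prime elements dividing `π`).  Then `f = u₀ g₀ ^ p` with `u₀` a unit of `R` and `g₀ ∈ F1`.

* `S36FL_main`   : the general statement (`hvert` : a valuation ring for every prime dividing
  `π`);
* `S36FL_vert`   : the vertical hypothesis for a prime `q ∣ s`, from `R ∩ nonunits(W) ⊆ s R`;
* `S36FL_triple` : three vertical branches, `π v = s₁ ^ e₁ s₂ ^ e₂ s₃ ^ e₃` (triple points);
* `S36FL_one`    : one vertical branch, `π v = s ^ e` (one-branch points, thin or thick).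
-/

set_option autoImplicit false
set_option linter.unusedSectionVars false
set_option linter.unusedVariables false
set_option linter.style.haveILetI false

namespace Fermat.Agent.S36_helper19_FACTL

open Fermat.Agent.S18_helper9_CDefs Fermat.Agent.S18_helper3_LOCRING
  Fermat.Agent.S36_helper7_FACT

variable {L : Type*} [Field L] {π : L} {F1 : Subfield L} {O X : Subring L}

/-- if a positive power of `Q ∈ W` is a unit of `W`, so is `Q`. -/
theorem S36FL_inv_mem_of_pow {W : Subring L} {Q : L} (hQ : Q ∈ W) {n : ℕ} (hn : 0 < n)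
    (h : (Q ^ n)⁻¹ ∈ W) : Q⁻¹ ∈ W := by
  by_cases hQ0 : Q = 0
  · rw [hQ0, inv_zero]; exact W.zero_mem
  obtain ⟨k, rfl⟩ : ∃ k, n = k + 1 := ⟨n - 1, by omega⟩
  have : Q⁻¹ = Q ^ k * (Q ^ (k + 1))⁻¹ := by
    rw [pow_succ]
    field_simp
  rw [this]
  exact W.mul_mem (W.pow_mem hQ k) h

/-- the multiplicity of `q` in `q ^ k * a'` with `q ∤ a'`. -/
theorem S36FL_multiplicity {R : Type*} [CommRing R] [IsDomain R] {q a' : R} (hq : Prime q)
    (k : ℕ) (ha' : ¬ q ∣ a') : multiplicity q (q ^ k * a') = k := by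
  refine multiplicity_eq_of_dvd_of_not_dvd (Dvd.intro _ rfl) ?_
  intro h
  rw [pow_succ] at h
  exact ha' ((mul_dvd_mul_iff_left (pow_ne_zero k hq.ne_zero)).1 h)

/-- **FACT-L, general form.** -/
theorem S36FL_main (m : Ideal X) [hm : m.IsPrime]
    (hufd : UniqueFactorizationMonoid (locRing X m))
    (hOX : O ≤ X) (hπX : π ∈ X)
    (hRF : ∀ x ∈ locRing X m, x ∈ F1)
    (hfrac : ∀ x ∈ F1, ∃ a b : locRing X m, b ≠ 0 ∧ x * (b : L) = a)
    {p : ℕ} (hp : 0 < p) (f : L) (hfF : f ∈ F1) (hf0 : f ≠ 0)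
    (hdiv : PowDiv O π F1 p f)
    (hvert : ∀ q : locRing X m, Prime q → (∃ c ∈ locRing X m, π = (q : L) * c) →
      ∃ W : Subring L, locRing X m ≤ W ∧ (∀ r : locRing X m, ¬ q ∣ r → ((r : L))⁻¹ ∈ W) ∧
        ((q : L))⁻¹ ∉ W ∧ f ∈ W ∧ f⁻¹ ∈ W) :
    ∃ u0 g0 : L, u0 ∈ locRing X m ∧ u0⁻¹ ∈ locRing X m ∧ g0 ∈ F1 ∧ f = u0 * g0 ^ p := by
  classical
  haveI := hufd
  have hι : Function.Injective (locRing X m).subtype := Subtype.val_injective
  obtain ⟨a, b, hb0, hfab⟩ := hfrac f hfF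
  have hbL : (b : L) ≠ 0 := fun h => hb0 (Subtype.ext h)
  have ha0 : a ≠ 0 := by
    rintro rfl
    have : f * (b : L) = 0 := hfab
    rcases mul_eq_zero.1 this with h | h
    exacts [hf0 h, hbL h]
  have haL : (a : L) ≠ 0 := fun h => ha0 (Subtype.ext h)
  -- the key divisibility at every prime element
  have key : ∀ q : locRing X m, Prime q →
      (p : ℤ) ∣ (multiplicity q a : ℤ) - (multiplicity q b : ℤ) := by
    intro q hq
    by_cases hqπ : ∃ c ∈ locRing X m, π = (q : L) * c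
    · -- vertical prime
      obtain ⟨W, hRW, hunit, hqW, hfW, hfW'⟩ := hvert q hq hqπ
      obtain ⟨k, a', ha', hak⟩ := WfDvdMonoid.max_power_factor ha0 hq.irreducible
      obtain ⟨l, b', hb', hbl⟩ := WfDvdMonoid.max_power_factor hb0 hq.irreducible
      have hk : multiplicity q a = k := by rw [hak]; exact S36FL_multiplicity hq k ha'
      have hl : multiplicity q b = l := by rw [hbl]; exact S36FL_multiplicity hq l hb'
      have hqL : (q : L) ≠ 0 := fun h => hq.ne_zero (Subtype.ext h)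
      have ha'L : (a' : L) ≠ 0 := fun h => ha' (by
        have : a' = 0 := Subtype.ext h
        rw [this]; exact dvd_zero q)
      have hb'L : (b' : L) ≠ 0 := fun h => hb' (by
        have : b' = 0 := Subtype.ext h
        rw [this]; exact dvd_zero q)
      have hrel : f * ((q : L) ^ l * (b' : L)) = (q : L) ^ k * (a' : L) := by
        have h1 : (b : L) = (q : L) ^ l * (b' : L) := by rw [hbl]; push_cast; rfl
        have h2 : (a : L) = (q : L) ^ k * (a' : L) := by rw [hak]; push_cast; rfl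
        rw [← h1, ← h2]; exact hfab
      have hkl : k = l := by
        rcases lt_trichotomy k l with h | h | h
        · exfalso
          obtain ⟨d, rfl⟩ := Nat.exists_eq_add_of_lt h
          apply hqW
          refine S36FL_inv_mem_of_pow (hRW q.2) (Nat.succ_pos d) ?_
          have : ((q : L) ^ (d + 1))⁻¹ = f * (b' : L) * ((a' : L))⁻¹ := by
            have h3 : f * (b' : L) * (q : L) ^ (d + 1) = (a' : L) := by
              have h4 : (q : L) ^ k * (f * (b' : L) * (q : L) ^ (d + 1))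
                  = (q : L) ^ k * (a' : L) := by
                rw [← hrel]; ring
              exact mul_left_cancel₀ (pow_ne_zero k hqL) h4
            rw [← h3]
            field_simp
          rw [this]
          exact W.mul_mem (W.mul_mem hfW (hRW b'.2)) (hunit a' ha')
        · exact h
        · exfalso
          obtain ⟨d, rfl⟩ := Nat.exists_eq_add_of_lt h
          apply hqW
          refine S36FL_inv_mem_of_pow (hRW q.2) (Nat.succ_pos d) ?_
          have : ((q : L) ^ (d + 1))⁻¹ = f⁻¹ * (a' : L) * ((b' : L))⁻¹ := by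
            have h3 : f * (b' : L) = (q : L) ^ (d + 1) * (a' : L) := by
              have h4 : (q : L) ^ l * (f * (b' : L))
                  = (q : L) ^ l * ((q : L) ^ (d + 1) * (a' : L)) := by
                have : (q : L) ^ l * (f * (b' : L)) = f * ((q : L) ^ l * (b' : L)) := by ring
                rw [this, hrel]; ring
              exact mul_left_cancel₀ (pow_ne_zero l hqL) h4
            have h5 : (q : L) ^ (d + 1) = f * (b' : L) * ((a' : L))⁻¹ := by
              rw [h3]; field_simp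
            rw [h5]
            field_simp
          rw [this]
          exact W.mul_mem (W.mul_mem hfW' (hRW a'.2)) (hunit b' hb')
      rw [hk, hl, hkl, sub_self]
      exact dvd_zero _
    · -- horizontal prime
      have hqπ' : ¬ q ∣ (⟨π, le_locRing X m hπX⟩ : locRing X m) := by
        rintro ⟨c, hc⟩
        exact hqπ ⟨c, c.2, congrArg Subtype.val hc⟩
      obtain ⟨ε, g, hε, hε', hgF, hfεg⟩ := hdiv (primeLoc (locRing X m).subtype q hq) (by
          rintro x ⟨r, s, hs, h⟩
          have hs0 : ((s : locRing X m) : L) ≠ 0 := fun h0 =>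
            ne_zero_of_not_dvd' hs (Subtype.ext h0)
          have hx : x = (r : L) * ((s : L))⁻¹ := by
            have h' : x * (s : L) = (r : L) := h
            rw [← h']; field_simp
          show x ∈ F1
          rw [hx]
          exact F1.mul_mem (hRF _ r.2) (F1.inv_mem (hRF _ s.2)))
        (fun x hx => ι_mem_primeLoc (ι := (locRing X m).subtype) q hq
          ⟨x, le_locRing X m (hOX hx)⟩)
        (by
          have := div_mem_primeLoc (ι := (locRing X m).subtype) hι q hq 1 hqπ'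
          simpa using this)
        (by
          intro x hx
          obtain ⟨c, d, hd0, hcd⟩ := hfrac x hx
          have hd0' : ((d : locRing X m) : L) ≠ 0 := fun h0 => hd0 (Subtype.ext h0)
          have hxeq : x = (locRing X m).subtype c / (locRing X m).subtype d := by
            show x = (c : L) / (d : L)
            rw [← hcd]; field_simp
          rw [hxeq]
          exact div_mem_or_inv_mem_primeLoc hι q hq c d hd0)
        (isDiscreteValuationRing_primeLoc hι q hq)
      obtain ⟨gn, gd, hgd0, hgnd⟩ := hfrac g hgF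
      refine dvd_multiplicity_sub_of_eq hι q hq p hp a b ha0 hb0 ε g hε hε' gn gd hgd0 hgnd ?_
      show (a : L) = (b : L) * (ε * g ^ p)
      rw [← hfab, hfεg]; ring
  -- all multiplicities of `a * b ^ (p - 1)` are divisible by `p`
  obtain ⟨k, rfl⟩ : ∃ k, p = k + 1 := ⟨p - 1, by omega⟩
  have hA0 : a * b ^ k ≠ 0 := mul_ne_zero ha0 (pow_ne_zero k hb0)
  have hdvd : ∀ q : locRing X m, Prime q → (k + 1) ∣ multiplicity q (a * b ^ k) := by
    intro q hq
    have hfin : ∀ x : locRing X m, x ≠ 0 → FiniteMultiplicity q x := fun x hx =>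
      FiniteMultiplicity.of_not_isUnit hq.not_isUnit hx
    have h1 : multiplicity q (a * b ^ k) = multiplicity q a + k * multiplicity q b := by
      rw [multiplicity_mul hq (hfin _ hA0),
        FiniteMultiplicity.multiplicity_pow hq (hfin _ hb0)]
    have h2 := key q hq
    have h3 : ((k + 1 : ℕ) : ℤ) ∣ ((multiplicity q (a * b ^ k) : ℕ) : ℤ) := by
      rw [h1]
      have : ((multiplicity q a + k * multiplicity q b : ℕ) : ℤ)
          = ((multiplicity q a : ℤ) - (multiplicity q b : ℤ))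
            + ((k + 1 : ℕ) : ℤ) * (multiplicity q b : ℤ) := by
        push_cast; ring
      rw [this]
      exact dvd_add h2 (dvd_mul_right _ _)
    exact Int.natCast_dvd_natCast.1 h3
  obtain ⟨u, c, hc⟩ := S36FA_isPow (k + 1) (a * b ^ k) hA0 hdvd
  refine ⟨((u : locRing X m) : L), (c : L) / (b : L), (u : locRing X m).2, ?_, ?_, ?_⟩
  · have h1 : ((u : locRing X m) : L) * (((u⁻¹ : (locRing X m)ˣ) : locRing X m) : L) = 1 := by
      have h := congrArg (locRing X m).subtype (Units.mul_inv u)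
      rw [map_mul, map_one] at h
      exact h
    have h2 : (((u : locRing X m) : L))⁻¹ = (((u⁻¹ : (locRing X m)ˣ) : locRing X m) : L) :=
      inv_eq_of_mul_eq_one_right h1
    rw [h2]
    exact ((u⁻¹ : (locRing X m)ˣ) : locRing X m).2
  · exact F1.div_mem (hRF _ c.2) (hRF _ b.2)
  · have hcL : (a : L) * (b : L) ^ k = ((u : locRing X m) : L) * (c : L) ^ (k + 1) := by
      have := congrArg (fun z : locRing X m => (z : L)) hc
      simpa using this
    have hfa : f = (a : L) / (b : L) := by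
      rw [← hfab]; field_simp
    rw [hfa, div_pow, ← mul_div_assoc, ← hcL, pow_succ]
    field_simp

/-- **the vertical hypothesis from one branch**: if the non-units of the valuation ring `W` in
`R` are the multiples of `s` and the prime `q` divides `s`, then `W` is the valuation ring of
`q`. -/
theorem S36FL_vert (m : Ideal X) [hm : m.IsPrime] {W : Subring L} (hRW : locRing X m ≤ W)
    (s : locRing X m) (hsW : ((s : L))⁻¹ ∉ W)
    (hgen : ∀ r : locRing X m, ((r : L))⁻¹ ∉ W → s ∣ r)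
    (q : locRing X m) (hq : Prime q) (hqs : q ∣ s) :
    (∀ r : locRing X m, ¬ q ∣ r → ((r : L))⁻¹ ∈ W) ∧ ((q : L))⁻¹ ∉ W := by
  have hs0 : s ≠ 0 := by
    rintro rfl
    apply hsW
    simp
  refine ⟨fun r hr => ?_, fun hqW => ?_⟩
  · by_contra hcon
    exact hr (hqs.trans (hgen r hcon))
  · obtain ⟨c, hc⟩ := hqs
    by_cases hcW : ((c : L))⁻¹ ∈ W
    · apply hsW
      have : ((s : L))⁻¹ = ((q : L))⁻¹ * ((c : L))⁻¹ := by
        rw [hc]; push_cast; rw [mul_inv]
      rw [this]
      exact W.mul_mem hqW hcW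
    · obtain ⟨c', hc'⟩ := hgen c hcW
      have h1 : s * 1 = s * (q * c') := by
        conv_lhs => rw [mul_one, hc, hc']
        ring
      have h2 : 1 = q * c' := mul_left_cancel₀ hs0 h1
      exact hq.not_isUnit (IsUnit.of_mul_eq_one _ h2.symm)

/-- **FACT-L at a triple point**: three vertical branches. -/
theorem S36FL_triple (m : Ideal X) [hm : m.IsPrime]
    (hufd : UniqueFactorizationMonoid (locRing X m))
    (hOX : O ≤ X) (hπX : π ∈ X)
    (hRF : ∀ x ∈ locRing X m, x ∈ F1)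
    (hfrac : ∀ x ∈ F1, ∃ a b : locRing X m, b ≠ 0 ∧ x * (b : L) = a)
    {p : ℕ} (hp : 0 < p) (f : L) (hfF : f ∈ F1) (hf0 : f ≠ 0)
    (hdiv : PowDiv O π F1 p f)
    {W1 W2 W3 : Subring L} (hR1 : locRing X m ≤ W1) (hR2 : locRing X m ≤ W2)
    (hR3 : locRing X m ≤ W3)
    (s1 s2 s3 v : locRing X m) (e1 e2 e3 : ℕ)
    (hπv : π * (v : L) = (s1 : L) ^ e1 * (s2 : L) ^ e2 * (s3 : L) ^ e3)
    (hs1 : ((s1 : L))⁻¹ ∉ W1) (hs2 : ((s2 : L))⁻¹ ∉ W2) (hs3 : ((s3 : L))⁻¹ ∉ W3)
    (hgen1 : ∀ r : locRing X m, ((r : L))⁻¹ ∉ W1 → s1 ∣ r)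
    (hgen2 : ∀ r : locRing X m, ((r : L))⁻¹ ∉ W2 → s2 ∣ r)
    (hgen3 : ∀ r : locRing X m, ((r : L))⁻¹ ∉ W3 → s3 ∣ r)
    (hf1 : f ∈ W1 ∧ f⁻¹ ∈ W1) (hf2 : f ∈ W2 ∧ f⁻¹ ∈ W2) (hf3 : f ∈ W3 ∧ f⁻¹ ∈ W3) :
    ∃ u0 g0 : L, u0 ∈ locRing X m ∧ u0⁻¹ ∈ locRing X m ∧ g0 ∈ F1 ∧ f = u0 * g0 ^ p := by
  refine S36FL_main m hufd hOX hπX hRF hfrac hp f hfF hf0 hdiv ?_
  rintro q hq ⟨c, hc, hπc⟩
  have hdvd : q ∣ s1 ^ e1 * s2 ^ e2 * s3 ^ e3 := by
    refine ⟨⟨c, hc⟩ * v, Subtype.ext ?_⟩
    push_cast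
    rw [← hπv, hπc]; ring
  rcases hq.dvd_or_dvd hdvd with h12 | h3
  · rcases hq.dvd_or_dvd h12 with h1 | h2
    · obtain ⟨ha, hb⟩ := S36FL_vert m hR1 s1 hs1 hgen1 q hq (hq.dvd_of_dvd_pow h1)
      exact ⟨W1, hR1, ha, hb, hf1.1, hf1.2⟩
    · obtain ⟨ha, hb⟩ := S36FL_vert m hR2 s2 hs2 hgen2 q hq (hq.dvd_of_dvd_pow h2)
      exact ⟨W2, hR2, ha, hb, hf2.1, hf2.2⟩
  · obtain ⟨ha, hb⟩ := S36FL_vert m hR3 s3 hs3 hgen3 q hq (hq.dvd_of_dvd_pow h3)
    exact ⟨W3, hR3, ha, hb, hf3.1, hf3.2⟩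

/-- **FACT-L at a one-branch point** (thin or thick): one vertical branch. -/
theorem S36FL_one (m : Ideal X) [hm : m.IsPrime]
    (hufd : UniqueFactorizationMonoid (locRing X m))
    (hOX : O ≤ X) (hπX : π ∈ X)
    (hRF : ∀ x ∈ locRing X m, x ∈ F1)
    (hfrac : ∀ x ∈ F1, ∃ a b : locRing X m, b ≠ 0 ∧ x * (b : L) = a)
    {p : ℕ} (hp : 0 < p) (f : L) (hfF : f ∈ F1) (hf0 : f ≠ 0)
    (hdiv : PowDiv O π F1 p f)
    {W : Subring L} (hRW : locRing X m ≤ W)
    (s v : locRing X m) (e : ℕ) (hπv : π * (v : L) = (s : L) ^ e)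
    (hs : ((s : L))⁻¹ ∉ W) (hgen : ∀ r : locRing X m, ((r : L))⁻¹ ∉ W → s ∣ r)
    (hf : f ∈ W ∧ f⁻¹ ∈ W) :
    ∃ u0 g0 : L, u0 ∈ locRing X m ∧ u0⁻¹ ∈ locRing X m ∧ g0 ∈ F1 ∧ f = u0 * g0 ^ p := by
  refine S36FL_main m hufd hOX hπX hRF hfrac hp f hfF hf0 hdiv ?_
  rintro q hq ⟨c, hc, hπc⟩
  have hdvd : q ∣ s ^ e := by
    refine ⟨⟨c, hc⟩ * v, Subtype.ext ?_⟩
    push_cast
    rw [← hπv, hπc]; ring
  obtain ⟨ha, hb⟩ := S36FL_vert m hRW s hs hgen q hq (hq.dvd_of_dvd_pow hdvd)
  exact ⟨W, hRW, ha, hb, hf.1, hf.2⟩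

end Fermat.Agent.S36_helper19_FACTL
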