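import Mathlib
import Fermat.Agent.S36_helper19_LOCAL
import Fermat.Agent.S36_helper19_LOCTOR
import Fermat.Agent.S36_helper19_FACTL
import Fermat.Agent.S36_helper17_TRIPLEX

/-!
# S36, GEO36 (d): the closing step at a triple point (helper19)

`X` a chart, `m` a prime of `X`, `R = locRing X m` with helper17's regular triple point datum
`S36TX_Triple q π S1 T2 Voo Vmid V0 R`.

* `S36TT_fact`  : **FACT-L at a triple point**: `PowDiv` + "`f` is a unit of the three valuation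
  rings" give `f = u₀ g₀ ^ p`, `u₀` a unit of `R`, `g₀ ∈ F1` (for ANY exponent `p`: used with
  `p = lam * Q0` for TORIC36 and with `p = lam` for the shape);
* `S36TT_fact_redPow` : the same with `RedPow` as the source of the units;
* `S36TT_shape` : **the local shape `S34C_Shape π F1 ((Voo ⊓ Vmid) ⊓ V0) X p f G m`** from the
  triple point datum, `PowDiv`, `RedPow`, BRANCH36 on the three branches (as hypotheses in the
  output shape of helper2's `S36BRA_root`) and the conclusion of TORIC36 (helper6's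
  `S36TOR_main`) at `R`.
-/

set_option autoImplicit false
set_option linter.unusedSectionVars false
set_option linter.unusedVariables false
set_option linter.style.haveILetI false

namespace Fermat.Agent.S36_helper19_TRIPT

open Fermat.Agent.S18_helper9_CDefs Fermat.Agent.S18_helper9_CBasic
  Fermat.Agent.S18_helper3_LOCRING Fermat.Agent.S34_helper12_CDefs
  Fermat.Agent.S34_helper27_C2Defs Fermat.Agent.S34_helper27_C2SAT
  Fermat.Agent.S36_helper19_LOCAL Fermat.Agent.S36_helper19_LOCTOR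
  Fermat.Agent.S36_helper19_FACTL Fermat.Agent.S36_helper6_TORIC
  Fermat.Agent.S36_helper17_TRIPLEX

variable {L : Type*} [Field L] {π : L} {F1 : Subfield L} {O X Voo Vmid V0 : Subring L}

/-- **FACT-L at a triple point.** -/
theorem S36TT_fact (m : Ideal X) [hm : m.IsPrime] {q : ℕ} {S1 T2 : L}
    (T : S36TX_Triple q π S1 T2 Voo Vmid V0 (locRing X m))
    (hOX : O ≤ X) (hπX : π ∈ X)
    (hRF : ∀ x ∈ locRing X m, x ∈ F1)
    (hfrac : ∀ x ∈ F1, ∃ a b : locRing X m, b ≠ 0 ∧ x * (b : L) = a)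
    {p : ℕ} (hp : 0 < p) (f : L) (hfF : f ∈ F1) (hf0 : f ≠ 0)
    (hdiv : PowDiv O π F1 p f)
    (hfoo : f ∈ Voo ∧ f⁻¹ ∈ Voo) (hfmid : f ∈ Vmid ∧ f⁻¹ ∈ Vmid) (hf0' : f ∈ V0 ∧ f⁻¹ ∈ V0) :
    ∃ u0 g0 : L, u0 ∈ locRing X m ∧ u0⁻¹ ∈ locRing X m ∧ g0 ∈ F1 ∧ f = u0 * g0 ^ p := by
  have hW : T2 - S1 ∈ locRing X m := (locRing X m).sub_mem T.T2_mem T.S1_mem
  obtain ⟨v, hv, -, hπv⟩ := T.factor
  -- non-units of the three valuation rings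
  have hnu : ∀ (s : L) (hs : s ∈ locRing X m) (W : Subring L),
      Prime (⟨s, hs⟩ : locRing X m) →
      (∀ r ∈ locRing X m, (r = 0 ∨ r⁻¹ ∉ W) ↔ ∃ c ∈ locRing X m, r = s * c) →
      (((⟨s, hs⟩ : locRing X m) : L))⁻¹ ∉ W ∧
        ∀ r : locRing X m, ((r : L))⁻¹ ∉ W → (⟨s, hs⟩ : locRing X m) ∣ r := by
    intro s hs W hprime hdvd
    constructor
    · have h1 := (hdvd s hs).2 ⟨1, (locRing X m).one_mem, (mul_one s).symm⟩
      rcases h1 with h0 | h0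
      · exact absurd (Subtype.ext h0 : (⟨s, hs⟩ : locRing X m) = 0) hprime.ne_zero
      · exact h0
    · intro r hr
      obtain ⟨c, hc, hrc⟩ := (hdvd r r.2).1 (Or.inr hr)
      exact ⟨⟨c, hc⟩, Subtype.ext hrc⟩
  obtain ⟨h1a, h1b⟩ := hnu T2 T.T2_mem Voo (T.prime_T2 T.T2_mem) T.dvd_oo
  obtain ⟨h2a, h2b⟩ := hnu (T2 - S1) hW Vmid (T.prime_W hW) T.dvd_mid
  obtain ⟨h3a, h3b⟩ := hnu S1 T.S1_mem V0 (T.prime_S1 T.S1_mem) T.dvd_0
  exact S36FL_triple m T.ufd hOX hπX hRF hfrac hp f hfF hf0 hdiv T.le_oo T.le_mid T.le_0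
    ⟨T2, T.T2_mem⟩ ⟨T2 - S1, hW⟩ ⟨S1, T.S1_mem⟩ ⟨v, hv⟩ 1 (q - 1) 1
    (by
      show π * v = T2 ^ 1 * (T2 - S1) ^ (q - 1) * S1 ^ 1
      rw [hπv]; ring)
    h1a h2a h3a h1b h2b h3b hfoo hfmid hf0'

/-- FACT-L at a triple point, with `RedPow` as the source of the units. -/
theorem S36TT_fact_redPow (m : Ideal X) [hm : m.IsPrime] {q : ℕ} {S1 T2 : L}
    (T : S36TX_Triple q π S1 T2 Voo Vmid V0 (locRing X m))
    (Hoo : S34C2_Val π F1 Voo) (Hmid : S34C2_Val π F1 Vmid) (H0 : S34C2_Val π F1 V0)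
    (hOX : O ≤ X) (hπX : π ∈ X)
    (hRF : ∀ x ∈ locRing X m, x ∈ F1)
    (hfrac : ∀ x ∈ F1, ∃ a b : locRing X m, b ≠ 0 ∧ x * (b : L) = a)
    {p : ℕ} (hp : 0 < p) (f G : L) (hfF : f ∈ F1) (hf0 : f ≠ 0)
    (hdiv : PowDiv O π F1 p f)
    (hred : RedPow π ((Voo ⊓ Vmid) ⊓ V0 : Subring L) p f G) :
    ∃ u0 g0 : L, u0 ∈ locRing X m ∧ u0⁻¹ ∈ locRing X m ∧ g0 ∈ F1 ∧ f = u0 * g0 ^ p := by
  have hV1 : ((Voo ⊓ Vmid) ⊓ V0 : Subring L) ≤ Voo := inf_le_left.trans inf_le_left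
  have hV2 : ((Voo ⊓ Vmid) ⊓ V0 : Subring L) ≤ Vmid := inf_le_left.trans inf_le_right
  have hV3 : ((Voo ⊓ Vmid) ⊓ V0 : Subring L) ≤ V0 := inf_le_right
  exact S36TT_fact m T hOX hπX hRF hfrac hp f hfF hf0 hdiv
    (S36LOC_redPow_unit Hoo (S36LOC_redPow_mono hV1 hred))
    (S36LOC_redPow_unit Hmid (S36LOC_redPow_mono hV2 hred))
    (S36LOC_redPow_unit H0 (S36LOC_redPow_mono hV3 hred))

/-- **The local shape at a triple point.**  `hbr_*` are the three instances of BRANCH36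
(helper2's `S36BRA_root`, for `z = G / g₀`), `htor` is the conclusion of TORIC36 (helper6's
`S36TOR_main`) at `R = locRing X m`. -/
theorem S36TT_shape (m : Ideal X) [hm : m.IsPrime] {q : ℕ} {S1 T2 : L}
    (T : S36TX_Triple q π S1 T2 Voo Vmid V0 (locRing X m))
    (Hoo : S34C2_Val π F1 Voo) (Hmid : S34C2_Val π F1 Vmid) (H0 : S34C2_Val π F1 V0)
    (hOX : O ≤ X) (hπX : π ∈ X)
    (hRF : ∀ x ∈ locRing X m, x ∈ F1)
    (hfrac : ∀ x ∈ F1, ∃ a b : locRing X m, b ≠ 0 ∧ x * (b : L) = a)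
    {p : ℕ} (hp : 0 < p) (hpL : (p : L) ≠ 0) (hpR : ((p : L))⁻¹ ∈ locRing X m)
    (f G : L) (hfF : f ∈ F1) (hf0 : f ≠ 0)
    (hdiv : PowDiv O π F1 p f)
    (hred : RedPow π ((Voo ⊓ Vmid) ⊓ V0 : Subring L) p f G)
    (hbr_oo : ∀ z : L, z ∈ F1 → z ∈ Voo → z⁻¹ ∈ Voo →
      (∃ u0, u0 ∈ locRing X m ∧ u0⁻¹ ∈ locRing X m ∧ ∃ v ∈ Voo, z ^ p = u0 * (1 + π * v)) →
      ∃ w, S36LOC_Root π Voo X m z w)
    (hbr_mid : ∀ z : L, z ∈ F1 → z ∈ Vmid → z⁻¹ ∈ Vmid →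
      (∃ u0, u0 ∈ locRing X m ∧ u0⁻¹ ∈ locRing X m ∧ ∃ v ∈ Vmid, z ^ p = u0 * (1 + π * v)) →
      ∃ w, S36LOC_Root π Vmid X m z w)
    (hbr_0 : ∀ z : L, z ∈ F1 → z ∈ V0 → z⁻¹ ∈ V0 →
      (∃ u0, u0 ∈ locRing X m ∧ u0⁻¹ ∈ locRing X m ∧ ∃ v ∈ V0, z ^ p = u0 * (1 + π * v)) →
      ∃ w, S36LOC_Root π V0 X m z w)
    (htor : ∀ u g w1 w2 w3 : L, u ∈ locRing X m → u⁻¹ ∈ locRing X m → g ∈ F1 →
      f = u * g ^ p → w1 ∈ locRing X m → w2 ∈ locRing X m → w3 ∈ locRing X m →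
      G / g - w1 ∈ S36TOR_nu Voo → G / g - w2 ∈ S36TOR_nu Vmid → G / g - w3 ∈ S36TOR_nu V0 →
      w1 - w3 ∈ S36TOR_nu (locRing X m) ∧ w2 - w3 ∈ S36TOR_nu (locRing X m)) :
    S34C_Shape π F1 ((Voo ⊓ Vmid) ⊓ V0 : Subring L) X p f G m := by
  have hV1 : ((Voo ⊓ Vmid) ⊓ V0 : Subring L) ≤ Voo := inf_le_left.trans inf_le_left
  have hV2 : ((Voo ⊓ Vmid) ⊓ V0 : Subring L) ≤ Vmid := inf_le_left.trans inf_le_right
  have hV3 : ((Voo ⊓ Vmid) ⊓ V0 : Subring L) ≤ V0 := inf_le_right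
  have hr1 := S36LOC_redPow_mono hV1 hred
  have hr2 := S36LOC_redPow_mono hV2 hred
  have hr3 := S36LOC_redPow_mono hV3 hred
  obtain ⟨u0, g0, hu0, hu0', hg0F, hfact⟩ :=
    S36TT_fact_redPow m T Hoo Hmid H0 hOX hπX hRF hfrac hp f G hfF hf0 hdiv hred
  have hg00 : g0 ≠ 0 := by
    rintro rfl
    exact hf0 (by rw [hfact, zero_pow hp.ne', mul_zero])
  have hGF : G ∈ F1 := Hoo.le (hV1 hred.1)
  have hzF : G * g0⁻¹ ∈ F1 := F1.mul_mem hGF (F1.inv_mem hg0F)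
  have hgp : g0 ^ p = f * u0⁻¹ := by
    have hu00 : u0 ≠ 0 := by
      rintro rfl
      exact hf0 (by rw [hfact, zero_mul])
    rw [hfact]; field_simp
  have hgp' : (f * u0⁻¹)⁻¹ = f⁻¹ * u0 := by rw [mul_inv, inv_inv]
  -- `g₀` and `z = G / g₀` are units of the three valuation rings
  have hz : ∀ (W : Subring L), S34C2_Val π F1 W → locRing X m ≤ W → RedPow π W p f G →
      G * g0⁻¹ ∈ W ∧ (G * g0⁻¹)⁻¹ ∈ W := by
    intro W H hRW hr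
    have hfu := S36LOC_redPow_unit H hr
    have hg : g0 ∈ W ∧ g0⁻¹ ∈ W := by
      refine S36LOC_unit_of_pow H hp hg0F (W.mul_mem hfu.1 (hRW hu0')) ?_ hgp
      rw [hgp']
      exact W.mul_mem hfu.2 (hRW hu0)
    refine ⟨W.mul_mem hr.1 hg.2, ?_⟩
    rw [mul_inv, inv_inv]
    exact W.mul_mem hr.2.1 hg.1
  obtain ⟨w1, hw1⟩ := hbr_oo _ hzF (hz Voo Hoo T.le_oo hr1).1 (hz Voo Hoo T.le_oo hr1).2
    ⟨u0, hu0, hu0', S36LOC_z_pow Hoo hg00 hfact hr1⟩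
  obtain ⟨w2, hw2⟩ := hbr_mid _ hzF (hz Vmid Hmid T.le_mid hr2).1 (hz Vmid Hmid T.le_mid hr2).2
    ⟨u0, hu0, hu0', S36LOC_z_pow Hmid hg00 hfact hr2⟩
  obtain ⟨w3, hw3⟩ := hbr_0 _ hzF (hz V0 H0 T.le_0 hr3).1 (hz V0 H0 T.le_0 hr3).2
    ⟨u0, hu0, hu0', S36LOC_z_pow H0 hg00 hfact hr3⟩
  exact S36LT_shape3 Hoo Hmid H0 m T.le_oo T.le_mid T.le_0 hp hpL hpR f G u0 g0 w1 w2 w3 hf0
    hu0 hu0' hg0F hfact hred hw1 hw2 hw3 htor

end Fermat.Agent.S36_helper19_TRIPT
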