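import Mathlib
import Fermat.Agent.S18_helper3_LOCRING
import Fermat.Agent.S34_helper12_CDefs
import Fermat.Agent.S34_helper27_C2Defs
import Fermat.Agent.S34_helper13_VCOUNT
import Fermat.Agent.S34_helper13_KEY
import Fermat.Agent.S35_helper2_BRREG
import Fermat.Agent.S36_helper19_LOCAL
import Fermat.Agent.S36_helper2_REDPOW

/-!
# S36, BRANCH36 (helper2): branch regularity, thin AND thick, at a point of a chart

`R := locRing X m` the local ring of the chart `X` at the point `m`; `W` a branch through `m`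
with local equation `b ∈ R`:

* `S35BRG_Branch b W X m` (landed structure, with `π := b`): `X ≤ W`, `b` generates the non-units
  of `W`, `X ∩ b W ⊆ m`, and the maximal ideal of `R` is generated by ONE element modulo `b W`;
* saturation `R ∩ b W = b R`;
* `π = b ^ e * unit of W` (`e = 1` on the thin branches, `e = q - 1` on the thick one);
* `p` invertible in `R`.

**`S36BRA_root`**: if `z` is a fraction of chart elements with denominator a unit of `W` and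
`z ^ p = u0 (1 + π v)` with `u0` a unit of `R`, `v ∈ W`, then `z = w (1 + π v')` with `w` a unit
of `R`, `v' ∈ W`, i.e. `∃ w, S36LOC_Root π W X m z w` (helper19's LOCAL36 vocabulary).

Proof: modulo `b` this is the landed `S35BRG_reg_mul`; then Hensel `b ^ k → b ^ (k + 1)` INSIDE
`R` (saturation gives `u0 w ^ (-p) - 1 = b ^ k s` with `s ∈ R`, and `w (1 + b ^ k s / p)` is the
next root).

**`S36BRA_frac`**: every element of a valuation ring `W` of `F1` above the discrete valuation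
ring `V'` is a fraction `a / d` of elements INTEGRAL over `V'` with `d` a unit of `W`; hence a
fraction of chart elements of ANY chart whose ring `V` contains the integral elements
(`S36BRA_frac_chart`, `S36BRA_frac3`).
-/

set_option autoImplicit false
set_option linter.style.haveILetI false
set_option linter.unusedSectionVars false
set_option linter.unusedVariables false
set_option linter.unnecessarySimpa false

open IsDedekindDomain IsDedekindDomain.HeightOneSpectrum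

namespace Fermat.Agent.S36_helper2_BRANCH

open Fermat.Agent.S18_helper3_LOCRING Fermat.Agent.S18_helper9_CDefs
  Fermat.Agent.S34_helper12_CDefs Fermat.Agent.S34_helper27_C2Defs
  Fermat.Agent.S34_helper13_VCOUNT Fermat.Agent.S34_helper13_KEY
  Fermat.Agent.S35_helper2_BRREG Fermat.Agent.S36_helper19_LOCAL
  Fermat.Agent.S36_helper2_REDPOW

variable {L : Type*} [Field L]

section Lift

variable {π b : L} {W X : Subring L} {m : Ideal X} [hm : m.IsPrime]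

/-- iterated saturation: `R ∩ b ^ k W = b ^ k R`. -/
theorem S36BRA_sat_pow (hb0 : b ≠ 0) (hbW : b ∈ W)
    (hsat : ∀ r ∈ locRing X m, (∃ v ∈ W, r = b * v) → ∃ s ∈ locRing X m, r = b * s) (k : ℕ) :
    ∀ r ∈ locRing X m, (∃ v ∈ W, r = b ^ k * v) → ∃ s ∈ locRing X m, r = b ^ k * s := by
  induction k with
  | zero =>
    intro r hr _
    exact ⟨r, hr, by simp⟩
  | succ k ih =>
    rintro r hr ⟨v, hv, hrv⟩
    obtain ⟨s1, hs1, hrs1⟩ := hsat r hr
      ⟨b ^ k * v, W.mul_mem (W.pow_mem hbW k) hv, by rw [hrv]; ring⟩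
    have e1 : s1 = b ^ k * v := mul_left_cancel₀ hb0 (by rw [← hrs1, hrv]; ring)
    obtain ⟨s, hs, hss⟩ := ih s1 hs1 ⟨v, hv, e1⟩
    exact ⟨s, hs, by rw [hrs1, hss]; ring⟩

/-- `1 + b v` is a unit of `W` and nonzero. -/
theorem S36BRA_one_add (B : S35BRG_Branch b W X m) (hbW : b ∈ W) {v : L} (hv : v ∈ W) :
    (1 + b * v)⁻¹ ∈ W ∧ 1 + b * v ≠ 0 :=
  ⟨S35BRG_one_add_inv hbW B.unif B.nonunit hv, S36RP_one_add_ne B.nonunit hv⟩

/-- `1 + b r` is a unit of the local ring for `r` in the local ring. -/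
theorem S36BRA_one_add_R (B : S35BRG_Branch b W X m) (hbR : b ∈ locRing X m) {r : L}
    (hr : r ∈ locRing X m) : (1 + b * r)⁻¹ ∈ locRing X m := by
  have hu : IsUnit (⟨1 + b * r, Subring.add_mem _ (Subring.one_mem _)
      (Subring.mul_mem _ hbR hr)⟩ : locRing X m) := by
    refine S35BRG_isUnit_of_cong B (u := 1) isUnit_one ⟨r, S35BRG_locRing_le B hr, ?_⟩
    show 1 + b * r - 1 = b * r
    ring
  exact (S35BRG_inv_mem_of_isUnit hu).1

/-- **Hensel step inside the local ring**: from a root modulo `b ^ k` to a root modulo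
`b ^ (k + 1)`, as long as `π ∈ b ^ (k + 1) W`. -/
theorem S36BRA_step (B : S35BRG_Branch b W X m) (hbR : b ∈ locRing X m)
    (hsat : ∀ r ∈ locRing X m, (∃ v ∈ W, r = b * v) → ∃ s ∈ locRing X m, r = b * s)
    {k : ℕ} (hk : 1 ≤ k) (hπb : ∃ v ∈ W, π = b ^ (k + 1) * v)
    {p : ℕ} (hpR : ((p : L))⁻¹ ∈ locRing X m) (hp0 : (p : L) ≠ 0)
    {z u0 : L} (hz0 : z ≠ 0) (hu0 : u0 ∈ locRing X m)
    (hzp : ∃ v ∈ W, z ^ p = u0 * (1 + π * v))
    (hw : ∃ w, w ∈ locRing X m ∧ w⁻¹ ∈ locRing X m ∧ ∃ c ∈ W, z = w * (1 + b ^ k * c)) :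
    ∃ w, w ∈ locRing X m ∧ w⁻¹ ∈ locRing X m ∧ ∃ c ∈ W, z = w * (1 + b ^ (k + 1) * c) := by
  have hRW : locRing X m ≤ W := S35BRG_locRing_le B
  have hbW : b ∈ W := hRW hbR
  have hb0 : b ≠ 0 := S35BRG_pi_ne_zero B
  obtain ⟨j, rfl⟩ : ∃ j, k = j + 1 := ⟨k - 1, by omega⟩
  obtain ⟨v, hv, hzv⟩ := hzp
  obtain ⟨v0, hv0, hπv0⟩ := hπb
  obtain ⟨w, hwR, hwR', c, hc, hzw⟩ := hw
  have hw0 : w ≠ 0 := by
    rintro rfl
    exact hz0 (by rw [hzw, zero_mul])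
  -- `π v = b ^ (k + 1) v1`
  set v1 : L := v0 * v with hv1
  have hv1W : v1 ∈ W := W.mul_mem hv0 hv
  have hπv : π * v = b ^ (j + 1 + 1) * v1 := by rw [hπv0, hv1]; ring
  -- `ι = (1 + π v)⁻¹`
  have hι := S36BRA_one_add B hbW (v := b ^ (j + 1) * v1) (W.mul_mem (W.pow_mem hbW _) hv1W)
  have hιe : 1 + b * (b ^ (j + 1) * v1) = 1 + π * v := by rw [hπv]; ring
  rw [hιe] at hι
  obtain ⟨hιW, hιne⟩ := hι
  -- `ρ = u0 w ^ (-p) - 1 ∈ R`
  set ρ : L := u0 * (w⁻¹) ^ p - 1 with hρ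
  have hρR : ρ ∈ locRing X m :=
    Subring.sub_mem _ (Subring.mul_mem _ hu0 (Subring.pow_mem _ hwR' p)) (Subring.one_mem _)
  have hwp : w ^ p * (w⁻¹) ^ p = 1 := by rw [← mul_pow, mul_inv_cancel₀ hw0, one_pow]
  -- `(1 + b ^ k c) ^ p = (1 + ρ) (1 + π v)`
  have E0 : (1 + b ^ (j + 1) * c) ^ p = (1 + ρ) * (1 + π * v) := by
    have h1 : w ^ p * (1 + b ^ (j + 1) * c) ^ p = u0 * (1 + π * v) := by
      rw [← mul_pow, ← hzw, hzv]
    have h2 : (1 + b ^ (j + 1) * c) ^ p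
        = (w⁻¹) ^ p * (w ^ p * (1 + b ^ (j + 1) * c) ^ p) := by
      rw [← mul_assoc, mul_comm ((w⁻¹) ^ p), hwp, one_mul]
    rw [h2, h1, hρ]; ring
  -- the binomial expansion
  obtain ⟨d, hd, hbd⟩ := S36RP_binom (W := W) (b := b ^ (j + 1) * c)
    (W.mul_mem (W.pow_mem hbW _) hc) p
  -- `ρ ∈ b ^ k W`
  have hρW : ∃ y ∈ W, ρ = b ^ (j + 1) * y := by
    refine ⟨((p : L) * c + b ^ (j + 1) * c ^ 2 * d - b * v1) * (1 + π * v)⁻¹,
      W.mul_mem (W.sub_mem (W.add_mem (W.mul_mem (natCast_mem W p) hc)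
        (W.mul_mem (W.mul_mem (W.pow_mem hbW _) (W.pow_mem hc 2)) hd)) (W.mul_mem hbW hv1W))
        hιW, ?_⟩
    have h3 : ρ * (1 + π * v) = b ^ (j + 1) * ((p : L) * c + b ^ (j + 1) * c ^ 2 * d - b * v1) := by
      have : ρ * (1 + π * v) = (1 + ρ) * (1 + π * v) - (1 + π * v) := by ring
      rw [this, ← E0, hbd, hπv]; ring
    rw [← mul_assoc, ← h3, mul_assoc, mul_inv_cancel₀ hιne, mul_one]
  obtain ⟨s, hs, hρs⟩ := S36BRA_sat_pow hb0 hbW hsat (j + 1) ρ hρR hρW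
  -- `p c - s = b g`
  set g : L := v1 + b ^ (j + 1) * s * v1 - b ^ j * c ^ 2 * d with hg
  have hgW : g ∈ W := W.sub_mem (W.add_mem hv1W (W.mul_mem (W.mul_mem (W.pow_mem hbW _) (hRW hs))
    hv1W)) (W.mul_mem (W.mul_mem (W.pow_mem hbW _) (W.pow_mem hc 2)) hd)
  have hpc : (p : L) * c = s + b * g := by
    have h4 : b ^ (j + 1) * ((p : L) * c - s - b * g) = 0 := by
      have h5 := E0
      rw [hbd, hρs, hπv] at h5
      rw [hg]
      linear_combination h5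
    have h6 := (mul_eq_zero.1 h4).resolve_left (pow_ne_zero _ hb0)
    linear_combination h6
  -- the new root
  have hsp : b ^ j * (s * (p : L)⁻¹) ∈ locRing X m :=
    Subring.mul_mem _ (Subring.pow_mem _ hbR j) (Subring.mul_mem _ hs hpR)
  have hunit := S36BRA_one_add_R B hbR hsp
  have hune : 1 + b * (b ^ j * (s * (p : L)⁻¹)) ≠ 0 :=
    S36RP_one_add_ne B.nonunit (hRW hsp)
  refine ⟨w * (1 + b * (b ^ j * (s * (p : L)⁻¹))),
    Subring.mul_mem _ hwR (Subring.add_mem _ (Subring.one_mem _) (Subring.mul_mem _ hbR hsp)),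
    by rw [mul_inv]; exact Subring.mul_mem _ hwR' hunit,
    g * (p : L)⁻¹ * (1 + b * (b ^ j * (s * (p : L)⁻¹)))⁻¹,
    W.mul_mem (W.mul_mem hgW (hRW hpR)) (hRW hunit), ?_⟩
  rw [hzw]
  have hc' : c = (s + b * g) * (p : L)⁻¹ := by
    rw [← hpc, mul_comm ((p : L) * c), ← mul_assoc, inv_mul_cancel₀ hp0, one_mul]
  have e1 : (1 + b * (b ^ j * (s * (p : L)⁻¹))) * (1 + b * (b ^ j * (s * (p : L)⁻¹)))⁻¹ = 1 :=
    mul_inv_cancel₀ hune
  rw [hc']
  linear_combination (-(w * b ^ (j + 1 + 1) * g * (p : L)⁻¹)) * e1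

/-- **Hensel inside the local ring**: a root modulo `b ^ k` for every `1 ≤ k ≤ e`, when
`π ∈ b ^ e W`. -/
theorem S36BRA_lift [IsNoetherianRing X] (B : S35BRG_Branch b W X m) (hbR : b ∈ locRing X m)
    (hsat : ∀ r ∈ locRing X m, (∃ v ∈ W, r = b * v) → ∃ s ∈ locRing X m, r = b * s)
    {e : ℕ} (hπb : ∃ v ∈ W, π = b ^ e * v)
    {p : ℕ} (hp : 0 < p) (hpR : ((p : L))⁻¹ ∈ locRing X m) (hp0 : (p : L) ≠ 0)
    {z : L} (hz0 : z ≠ 0)
    (hz : ∃ a c : X, (c : L) ≠ 0 ∧ ((c : L))⁻¹ ∈ W ∧ z * (c : L) = a)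
    {u0 : L} (hu0 : u0 ∈ locRing X m) (hu0' : u0⁻¹ ∈ locRing X m)
    (hzp : ∃ v ∈ W, z ^ p = u0 * (1 + π * v)) (k : ℕ) (hk : 1 ≤ k) (hke : k ≤ e) :
    ∃ w, w ∈ locRing X m ∧ w⁻¹ ∈ locRing X m ∧ ∃ c ∈ W, z = w * (1 + b ^ k * c) := by
  have hRW : locRing X m ≤ W := S35BRG_locRing_le B
  have hbW : b ∈ W := hRW hbR
  obtain ⟨v0, hv0, hπv0⟩ := hπb
  have hπk : ∀ i, i ≤ e → ∃ v ∈ W, π = b ^ i * v := by
    intro i hi
    refine ⟨b ^ (e - i) * v0, W.mul_mem (W.pow_mem hbW _) hv0, ?_⟩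
    rw [hπv0, ← mul_assoc, ← pow_add, Nat.add_sub_cancel' hi]
  induction k, hk using Nat.le_induction with
  | base =>
    obtain ⟨v, hv, hzv⟩ := hzp
    obtain ⟨y, hy, hπy⟩ := hπk 1 hke
    obtain ⟨w, hw, hw', c, hc, hzw⟩ := S35BRG_reg_mul B p hp z hz
      ⟨u0, hu0, hu0', y * v, W.mul_mem hy hv, by rw [hzv, hπy]; ring⟩
    exact ⟨w, hw, hw', c, hc, by rw [pow_one]; exact hzw⟩
  | succ k hk ih =>
    exact S36BRA_step B hbR hsat hk (hπk (k + 1) hke) hpR hp0 hz0 hu0 hzp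
      (ih (Nat.le_of_succ_le hke))

/-- **BRANCH36** (thin and thick): `z ^ p = u0 (1 + π v)` with `u0` a unit of the local ring at
`m` implies `z = w (1 + π v')` with `w` a unit of the local ring: `S36LOC_Root π W X m z w`.
`b` is the local equation of the branch `W` at `m` and `π = b ^ e * unit of W`, `e ≥ 1`. -/
theorem S36BRA_root [IsNoetherianRing X] (B : S35BRG_Branch b W X m) (hbR : b ∈ locRing X m)
    (hsat : ∀ r ∈ locRing X m, (∃ v ∈ W, r = b * v) → ∃ s ∈ locRing X m, r = b * s)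
    {e : ℕ} (he : 1 ≤ e) (hπb : ∃ v ∈ W, π = b ^ e * v) (hbπ : ∃ v ∈ W, b ^ e = π * v)
    {p : ℕ} (hp : 0 < p) (hpR : ((p : L))⁻¹ ∈ locRing X m) (hp0 : (p : L) ≠ 0)
    {z : L} (hz : ∃ a c : X, (c : L) ≠ 0 ∧ ((c : L))⁻¹ ∈ W ∧ z * (c : L) = a)
    (hpow : ∃ u0, u0 ∈ locRing X m ∧ u0⁻¹ ∈ locRing X m ∧ ∃ v ∈ W, z ^ p = u0 * (1 + π * v)) :
    ∃ w, S36LOC_Root π W X m z w := by
  by_cases hz0 : z = 0
  · exact ⟨0, Subring.zero_mem _, by rw [inv_zero]; exact Subring.zero_mem _, 0, W.zero_mem,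
      by rw [hz0, zero_mul]⟩
  obtain ⟨u0, hu0, hu0', hzp⟩ := hpow
  obtain ⟨w, hw, hw', c, hc, hzw⟩ :=
    S36BRA_lift B hbR hsat hπb hp hpR hp0 hz0 hz hu0 hu0' hzp e he le_rfl
  obtain ⟨y, hy, hby⟩ := hbπ
  exact ⟨w, hw, hw', y * c, W.mul_mem hy hc, by rw [hzw, hby]; ring⟩

end Lift

/-! ### Fractions: elements of a valuation ring above `V'` are fractions of integral elements -/

section DenCore

variable {R : Type*} (S : Type*) {F' : Type*} [CommRing R] [IsDomain R] [IsDiscreteValuationRing R]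
  [CommRing S] [IsDedekindDomain S] [Field F'] [Algebra R F'] [FaithfulSMul R F']
  [Algebra R S] [Algebra S F'] [IsScalarTower R S F'] [IsFractionRing S F']
  [IsIntegralClosure S R F']
  (W : ValuationSubring F')

/-- an element of a dominating valuation subring is a fraction of elements of the integral
closure `S` with denominator a unit of `W`. -/
theorem S36BRA_den_vs (hW : S34V_Dom R W) {x : F'} (hx : x ∈ W) :
    ∃ a s : S, algebraMap S F' s ≠ 0 ∧ (algebraMap S F' s)⁻¹ ∈ W ∧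
      x * algebraMap S F' s = algebraMap S F' a := by
  have hx' : x ∈ valuationSubringAtPrime F' (S34V_hos S W hW) := by
    rw [valuationSubringAtPrime_eq_valuationSubring, ← S34V_eq_valuationSubring S W hW]
    exact hx
  obtain ⟨a, s, hs, rfl⟩ := hx'
  have hs0 : algebraMap S F' s ≠ 0 := by
    intro h0
    apply hs
    have : s = 0 := (FaithfulSMul.algebraMap_eq_zero_iff S F').1 h0
    rw [this]
    exact Ideal.zero_mem _
  have hsinv : (algebraMap S F' s)⁻¹ ∈ W := by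
    have h1 : algebraMap S F' s ∉ W.nonunits := by
      rw [← S34V_mem_centreIdeal S W hW.1]
      exact hs
    by_contra hcon
    exact h1 ((ValuationSubring.mem_nonunits_iff_or W).2 (Or.inr hcon))
  refine ⟨a, s, hs0, hsinv, ?_⟩
  field_simp

end DenCore

section DenFamily

variable (R F : Type*) {F' : Type*} [CommRing R] [IsDomain R] [IsDiscreteValuationRing R]
  [Field F] [Field F'] [Algebra R F] [IsFractionRing R F] [Algebra F F'] [Algebra R F']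
  [IsScalarTower R F F'] [FiniteDimensional F F'] [Algebra.IsSeparable F F']

include F in
/-- the same with the integral closure hidden: numerator and denominator integral over `R`. -/
theorem S36BRA_den_fam (W : ValuationSubring F') (hW : S34V_Dom R W) {x : F'} (hx : x ∈ W) :
    ∃ a d : F', IsIntegral R a ∧ IsIntegral R d ∧ d ≠ 0 ∧ d⁻¹ ∈ W ∧ x * d = a := by
  classical
  haveI := S34V_isDedekind R F F'
  haveI := S34V_isFrac R F F'
  haveI := S34V_faithful R F F'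
  obtain ⟨a, s, hs0, hsinv, hxs⟩ := S36BRA_den_vs (S34V_S R F') W hW hx
  exact ⟨algebraMap (S34V_S R F') F' a, algebraMap (S34V_S R F') F' s,
    (IsIntegralClosure.isIntegral_iff (A := S34V_S R F')).2 ⟨a, rfl⟩,
    (IsIntegralClosure.isIntegral_iff (A := S34V_S R F')).2 ⟨s, rfl⟩, hs0, hsinv, hxs⟩

end DenFamily

section DenAbs

variable {π : L} {F1' F1 : Subfield L} {V' W : Subring L}

/-- **denominators**: every element `z` of a valuation ring `W` of `F1` above the discrete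
valuation ring `V'` of `F1'` (`F1 / F1'` finite) is a fraction `a / d` with `a`, `d ∈ F1` integral
over `V'` and `d` a unit of `W`. -/
theorem S36BRA_den [CharZero L] (hF : F1' ≤ F1) (hV' : S34C2_Val π F1' V')
    (hsep : ∀ x ∈ F1', x ≠ 0 → ∃ (z : ℤ) (u : L), u ∈ V' ∧ u⁻¹ ∈ V' ∧ x = π ^ z * u)
    (hdeg : ∃ s : Finset L, ∀ x ∈ F1, ∃ c : L → L, (∀ y, c y ∈ F1') ∧ x = ∑ y ∈ s, c y * y)
    (h : S34C2_Val π F1 W) (hVW : V' ≤ W) {z : L} (hz : z ∈ W) :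
    ∃ a d : L, a ∈ F1 ∧ d ∈ F1 ∧ IsIntegral V' a ∧ IsIntegral V' d ∧ d ≠ 0 ∧ d⁻¹ ∈ W ∧
      z * d = a := by
  classical
  letI := S34KEY_alg hF
  obtain ⟨s, hs⟩ := hdeg
  obtain ⟨hfd, -⟩ := S34KEY_finrank_le hF (n := s.card) ⟨s, le_rfl, hs⟩
  haveI := hfd
  haveI : CharZero ↥F1' := by
    refine ⟨fun a b hab => ?_⟩
    have := congrArg (fun t : ↥F1' => (t : L)) hab
    simpa using this
  haveI : Algebra.IsSeparable ↥F1' ↥F1 := Algebra.IsAlgebraic.isSeparable_of_perfectField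
  haveI := S34KEY_isDVR hV' hsep
  letI := S34KEY_algR hF hV'
  haveI : IsScalarTower ↥(S34KEY_vs hV') ↥F1' ↥F1 := IsScalarTower.of_algebraMap_eq (fun _ => rfl)
  have hd : S34V_Dom ↥(S34KEY_vs hV') (S34KEY_vs h) := S34KEY_dom hF hV' hsep h hVW
  obtain ⟨a, d, ha, hdi, hd0, hdinv, hzd⟩ :=
    S36BRA_den_fam ↥(S34KEY_vs hV') ↥F1' (S34KEY_vs h) hd (x := (⟨z, h.le hz⟩ : ↥F1)) hz
  refine ⟨(a : L), (d : L), a.2, d.2, S34KEY_isIntegral_of hF hV' a ha,
    S34KEY_isIntegral_of hF hV' d hdi, ?_, ?_, ?_⟩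
  · intro h0
    exact hd0 (Subtype.ext h0)
  · have := (S34KEY_mem_vs h d⁻¹).1 hdinv
    simpa using this
  · exact congrArg (fun t : ↥F1 => (t : L)) hzd

/-- **fractions of chart elements**: if the ring `V` of the chart `X` contains the elements of
`F1` integral over `V'` and `V ≤ W`, then every `z ∈ W` is a fraction of chart elements with
denominator a unit of `W`. -/
theorem S36BRA_frac_chart [CharZero L] (hF : F1' ≤ F1) (hV' : S34C2_Val π F1' V')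
    (hsep : ∀ x ∈ F1', x ≠ 0 → ∃ (z : ℤ) (u : L), u ∈ V' ∧ u⁻¹ ∈ V' ∧ x = π ^ z * u)
    (hdeg : ∃ s : Finset L, ∀ x ∈ F1, ∃ c : L → L, (∀ y, c y ∈ F1') ∧ x = ∑ y ∈ s, c y * y)
    (h : S34C2_Val π F1 W) (hVW : V' ≤ W) {V X : Subring L} (hVle : V ≤ W)
    (hVic : ∀ y ∈ F1, IsIntegral V' y → y ∈ V)
    (hloc : ∀ v ∈ V, ∃ b ∈ X, b ≠ 0 ∧ b⁻¹ ∈ V ∧ v * b ∈ X) {z : L} (hz : z ∈ W) :
    ∃ a c : X, (c : L) ≠ 0 ∧ ((c : L))⁻¹ ∈ W ∧ z * (c : L) = a := by
  obtain ⟨a, d, haF, hdF, ha, hd, hd0, hdinv, hzd⟩ := S36BRA_den hF hV' hsep hdeg h hVW hz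
  obtain ⟨b1, hb1X, hb10, hb1inv, hdb1⟩ := hloc d (hVic d hdF hd)
  obtain ⟨b2, hb2X, hb20, hb2inv, hab2⟩ := hloc a (hVic a haF ha)
  refine ⟨⟨a * b2, hab2⟩ * ⟨b1, hb1X⟩, ⟨d * b1, hdb1⟩ * ⟨b2, hb2X⟩, ?_, ?_, ?_⟩
  · show d * b1 * b2 ≠ 0
    exact mul_ne_zero (mul_ne_zero hd0 hb10) hb20
  · show (d * b1 * b2)⁻¹ ∈ W
    rw [mul_inv, mul_inv]
    exact W.mul_mem (W.mul_mem hdinv (hVle hb1inv)) (hVle hb2inv)
  · show z * (d * b1 * b2) = a * b2 * b1
    rw [← hzd]; ring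

end DenAbs

/-! ### The three branches of `(V1 ⊓ V2) ⊓ V3` -/

section Three

variable {π : L} {F1' F1 : Subfield L} {V' V1 V2 V3 X : Subring L} {O : Subring L} {x : L}

/-- elements of `F1` integral over `V'` lie in `(V1 ⊓ V2) ⊓ V3`. -/
theorem S36BRA_ic3 (h1 : S34C2_Val π F1 V1) (h2 : S34C2_Val π F1 V2) (h3 : S34C2_Val π F1 V3)
    (hV1 : V' ≤ V1) (hV2 : V' ≤ V2) (hV3 : V' ≤ V3) :
    ∀ y ∈ F1, IsIntegral V' y → y ∈ ((V1 ⊓ V2) ⊓ V3 : Subring L) := fun y hyF hy =>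
  ⟨⟨h1.ic hyF (Fermat.Agent.S18_helper9_CBasic.isIntegral_mono hV1 hy),
    h2.ic hyF (Fermat.Agent.S18_helper9_CBasic.isIntegral_mono hV2 hy)⟩,
    h3.ic hyF (Fermat.Agent.S18_helper9_CBasic.isIntegral_mono hV3 hy)⟩

/-- **fraction lemma for three valuations**: for a chart `X` of `(V1 ⊓ V2) ⊓ V3`, every element
of `V_i` is a fraction of chart elements with denominator a unit of `V_i` (`i = 1, 2, 3`). -/
theorem S36BRA_frac3 [CharZero L] (hF : F1' ≤ F1) (hV' : S34C2_Val π F1' V')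
    (hsep : ∀ x ∈ F1', x ≠ 0 → ∃ (z : ℤ) (u : L), u ∈ V' ∧ u⁻¹ ∈ V' ∧ x = π ^ z * u)
    (hdeg : ∃ s : Finset L, ∀ x ∈ F1, ∃ c : L → L, (∀ y, c y ∈ F1') ∧ x = ∑ y ∈ s, c y * y)
    (h1 : S34C2_Val π F1 V1) (h2 : S34C2_Val π F1 V2) (h3 : S34C2_Val π F1 V3)
    (hV1 : V' ≤ V1) (hV2 : V' ≤ V2) (hV3 : V' ≤ V3)
    (hC : Chart O π x F1 ((V1 ⊓ V2) ⊓ V3) X) :
    (∀ z ∈ V1, ∃ a c : X, (c : L) ≠ 0 ∧ ((c : L))⁻¹ ∈ V1 ∧ z * (c : L) = a) ∧
    (∀ z ∈ V2, ∃ a c : X, (c : L) ≠ 0 ∧ ((c : L))⁻¹ ∈ V2 ∧ z * (c : L) = a) ∧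
    (∀ z ∈ V3, ∃ a c : X, (c : L) ≠ 0 ∧ ((c : L))⁻¹ ∈ V3 ∧ z * (c : L) = a) := by
  have hic := S36BRA_ic3 h1 h2 h3 hV1 hV2 hV3
  refine ⟨fun z hz => ?_, fun z hz => ?_, fun z hz => ?_⟩
  · exact S36BRA_frac_chart hF hV' hsep hdeg h1 hV1 (inf_le_left.trans inf_le_left) hic hC.loc hz
  · exact S36BRA_frac_chart hF hV' hsep hdeg h2 hV2 (inf_le_left.trans inf_le_right) hic hC.loc hz
  · exact S36BRA_frac_chart hF hV' hsep hdeg h3 hV3 inf_le_right hic hC.loc hz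

end Three

end Fermat.Agent.S36_helper2_BRANCH
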