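import Mathlib
import Fermat.Agent.S18_helper3_LOCRING
import Fermat.Agent.S34_helper27_C2Defs
import Fermat.Agent.S35_helper2_BRREG
import Fermat.Agent.S36_helper19_LOCAL
import Fermat.Agent.S36_helper17_TRIPLEX
import Fermat.Agent.S36_helper2_REDPOW
import Fermat.Agent.S36_helper2_BRANCH

/-!
# S36, BRANCH36, adapters (helper2): the branch data from the REG36 outputs

`R := locRing X m`.  The REG36 bricks describe a branch `W` through `m` by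

* `hRW  : R ≤ W`;
* `hdvd : ∀ r ∈ R, (r = 0 ∨ r⁻¹ ∉ W) ↔ ∃ c ∈ R, r = b * c`  (the centre of `W` on `R` is `b R`:
  fields `dvd_oo`, `dvd_mid`, `dvd_0` of helper17's `S36TX_Triple`);
* `hgen : ∀ r ∈ R, r⁻¹ ∉ R → ∃ a ∈ R, ∃ c ∈ R, r = a * g + c * b`  (the maximal ideal of `R` is
  `(g, b)`: field `gen_elt` of `S36TX_Triple`);
* the fraction lemma `hfrac` (`S36BRA_frac3`).

From these: `S36BRAK_branch : S35BRG_Branch b W X m`, `S36BRAK_sat` (saturation), and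
**`S36BRAK_root`** = BRANCH36 in this vocabulary.  **`S36BRAK_roots3`**: the three BRANCH36 roots
at a triple point, from `S36TX_Triple` (`b = T2` on `V_∞`, `b = T2 - S1` on `V_mid` with
`e = q - 1`, `b = S1` on `V_0`).
-/

set_option autoImplicit false
set_option linter.style.haveILetI false
set_option linter.unusedSectionVars false
set_option linter.unusedVariables false
set_option linter.unnecessarySimpa false

namespace Fermat.Agent.S36_helper2_BRANCHK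

open Fermat.Agent.S18_helper3_LOCRING Fermat.Agent.S18_helper9_CDefs
  Fermat.Agent.S34_helper27_C2Defs
  Fermat.Agent.S35_helper2_BRREG Fermat.Agent.S36_helper19_LOCAL
  Fermat.Agent.S36_helper17_TRIPLEX
  Fermat.Agent.S36_helper2_REDPOW Fermat.Agent.S36_helper2_BRANCH

variable {L : Type*} [Field L]

section Adapter

variable {π b g : L} {F1 : Subfield L} {W X : Subring L} {m : Ideal X} [hm : m.IsPrime]

/-- `b` is a non-unit of `W`. -/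
theorem S36BRAK_nonunit (hb0 : b ≠ 0)
    (hdvd : ∀ r ∈ locRing X m, (r = 0 ∨ r⁻¹ ∉ W) ↔ ∃ c ∈ locRing X m, r = b * c)
    (hbR : b ∈ locRing X m) : b⁻¹ ∉ W := by
  rcases (hdvd b hbR).2 ⟨1, Subring.one_mem _, by ring⟩ with h | h
  · exact absurd h hb0
  · exact h

/-- an element of `b W` is zero or a non-unit of `W`. -/
theorem S36BRAK_nonunit_of_mul (hbnu : b⁻¹ ∉ W) {r v : L} (hv : v ∈ W) (hr : r = b * v) :
    r = 0 ∨ r⁻¹ ∉ W := by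
  by_cases hr0 : r = 0
  · exact Or.inl hr0
  right
  intro hinv
  apply hbnu
  have hb0 : b ≠ 0 := by
    rintro rfl
    exact hr0 (by rw [hr, zero_mul])
  have hv0 : v ≠ 0 := by
    rintro rfl
    exact hr0 (by rw [hr, mul_zero])
  have : b⁻¹ = v * r⁻¹ := by
    rw [hr]; field_simp
  rw [this]
  exact W.mul_mem hv hinv

/-- saturation: `R ∩ b W = b R`. -/
theorem S36BRAK_sat (hb0 : b ≠ 0)
    (hdvd : ∀ r ∈ locRing X m, (r = 0 ∨ r⁻¹ ∉ W) ↔ ∃ c ∈ locRing X m, r = b * c)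
    (hbR : b ∈ locRing X m) :
    ∀ r ∈ locRing X m, (∃ v ∈ W, r = b * v) → ∃ s ∈ locRing X m, r = b * s := by
  rintro r hr ⟨v, hv, hrv⟩
  exact (hdvd r hr).1 (S36BRAK_nonunit_of_mul (S36BRAK_nonunit hb0 hdvd hbR) hv hrv)

/-- **the branch structure from the REG36 data.** -/
theorem S36BRAK_branch (hRW : locRing X m ≤ W) (hb0 : b ≠ 0)
    (hbR : b ∈ locRing X m) (hgR : g ∈ locRing X m) (hg : g⁻¹ ∉ locRing X m)
    (hdvd : ∀ r ∈ locRing X m, (r = 0 ∨ r⁻¹ ∉ W) ↔ ∃ c ∈ locRing X m, r = b * c)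
    (hgen : ∀ r ∈ locRing X m, r⁻¹ ∉ locRing X m →
      ∃ a ∈ locRing X m, ∃ c ∈ locRing X m, r = a * g + c * b)
    (hfrac : ∀ z ∈ W, ∃ a c : X, (c : L) ≠ 0 ∧ ((c : L))⁻¹ ∈ W ∧ z * (c : L) = a) :
    S35BRG_Branch b W X m := by
  have hbnu : b⁻¹ ∉ W := S36BRAK_nonunit hb0 hdvd hbR
  have hXW : X ≤ W := (le_locRing X m).trans hRW
  refine ⟨hXW, ?_, hbnu, ?_, ?_⟩
  · -- unif
    intro x hx hx'
    obtain ⟨a, c, hc0, hcinv, hxc⟩ := hfrac x hx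
    have hxa : x = (a : L) * ((c : L))⁻¹ := by
      rw [← hxc, mul_assoc, mul_inv_cancel₀ hc0, mul_one]
    have ha : (a : L) = 0 ∨ ((a : L))⁻¹ ∉ W := by
      by_cases ha0 : (a : L) = 0
      · exact Or.inl ha0
      right
      intro hinv
      apply hx'
      rw [hxa, mul_inv, inv_inv]
      exact W.mul_mem hinv (hXW c.2)
    obtain ⟨r, hr, har⟩ := (hdvd (a : L) (le_locRing X m a.2)).1 ha
    exact ⟨r * ((c : L))⁻¹, W.mul_mem (hRW hr) hcinv, by rw [hxa, har]; ring⟩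
  · -- thru
    rintro a ⟨v, hv, hav⟩
    by_contra ham
    rcases S36BRAK_nonunit_of_mul hbnu hv hav with h0 | h0
    · exact coe_ne_zero_of_notMem X m ham h0
    · exact h0 (hRW (inv_mem_locRing X m ham))
  · -- gen
    have hgmax : (⟨g, hgR⟩ : locRing X m) ∈ IsLocalRing.maximalIdeal (locRing X m) := by
      rw [IsLocalRing.mem_maximalIdeal]
      intro hu
      exact hg (S35BRG_inv_mem_of_isUnit hu).1
    refine ⟨⟨g, hgR⟩, hgmax, fun x hx => ?_⟩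
    by_cases hx0 : (x : L) = 0
    · exact ⟨0, 0, W.zero_mem, by rw [hx0]; simp⟩
    have hxinv : ((x : L))⁻¹ ∉ locRing X m := by
      intro h
      exact (IsLocalRing.mem_maximalIdeal _).1 hx (S35BRG_isUnit_of_inv_mem h hx0)
    obtain ⟨a, ha, c, hc, hxac⟩ := hgen (x : L) x.2 hxinv
    exact ⟨⟨a, ha⟩, c, hRW hc, by rw [hxac]; ring⟩

/-- **BRANCH36 from the REG36 data** (`b` the local equation of `W` at `m`, `(g, b)` the maximal
ideal of the local ring, `π = b ^ e * unit of W`). -/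
theorem S36BRAK_root [IsNoetherianRing X] (hRW : locRing X m ≤ W) (hb0 : b ≠ 0)
    (hbR : b ∈ locRing X m) (hgR : g ∈ locRing X m) (hg : g⁻¹ ∉ locRing X m)
    (hdvd : ∀ r ∈ locRing X m, (r = 0 ∨ r⁻¹ ∉ W) ↔ ∃ c ∈ locRing X m, r = b * c)
    (hgen : ∀ r ∈ locRing X m, r⁻¹ ∉ locRing X m →
      ∃ a ∈ locRing X m, ∃ c ∈ locRing X m, r = a * g + c * b)
    (hfrac : ∀ z ∈ W, ∃ a c : X, (c : L) ≠ 0 ∧ ((c : L))⁻¹ ∈ W ∧ z * (c : L) = a)
    {e : ℕ} (he : 1 ≤ e) (hπb : ∃ v ∈ W, π = b ^ e * v) (hbπ : ∃ v ∈ W, b ^ e = π * v)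
    {p : ℕ} (hp : 0 < p) (hpR : ((p : L))⁻¹ ∈ locRing X m) (hp0 : (p : L) ≠ 0)
    {z : L} (hz : z ∈ W)
    (hpow : ∃ u0, u0 ∈ locRing X m ∧ u0⁻¹ ∈ locRing X m ∧ ∃ v ∈ W, z ^ p = u0 * (1 + π * v)) :
    ∃ w, S36LOC_Root π W X m z w :=
  S36BRA_root (S36BRAK_branch hRW hb0 hbR hgR hg hdvd hgen hfrac) hbR
    (S36BRAK_sat hb0 hdvd hbR) he hπb hbπ hp hpR hp0 (hfrac z hz) hpow

end Adapter

/-! ### The three branches at a triple point -/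

section Triple

variable {π S1 T2 : L} {F1 : Subfield L} {Voo Vmid V0 X : Subring L} {m : Ideal X}
  [hm : m.IsPrime] {q : ℕ}

/-- **BRANCH36 at a triple point**: the three roots, from helper17's `S36TX_Triple` at
`R = locRing X m`.  Local equations: `T2` on `V_∞`, `T2 - S1` on `V_mid` (`π = unit * (T2 - S1) ^
(q - 1)` there), `S1` on `V_0`. -/
theorem S36BRAK_roots3 [IsNoetherianRing X]
    (T : S36TX_Triple q π S1 T2 Voo Vmid V0 (locRing X m)) (hq : 2 ≤ q)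
    (Hoo : S34C2_Val π F1 Voo) (Hmid : S34C2_Val π F1 Vmid) (H0 : S34C2_Val π F1 V0)
    (hS1_oo : S1⁻¹ ∈ Voo) (hT2_0 : T2⁻¹ ∈ V0) (hS1_mid : S1⁻¹ ∈ Vmid)
    (hfrac_oo : ∀ z ∈ Voo, ∃ a c : X, (c : L) ≠ 0 ∧ ((c : L))⁻¹ ∈ Voo ∧ z * (c : L) = a)
    (hfrac_mid : ∀ z ∈ Vmid, ∃ a c : X, (c : L) ≠ 0 ∧ ((c : L))⁻¹ ∈ Vmid ∧ z * (c : L) = a)
    (hfrac_0 : ∀ z ∈ V0, ∃ a c : X, (c : L) ≠ 0 ∧ ((c : L))⁻¹ ∈ V0 ∧ z * (c : L) = a)
    {p : ℕ} (hp : 0 < p) (hpR : ((p : L))⁻¹ ∈ locRing X m) (hp0 : (p : L) ≠ 0)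
    {z : L} (hzoo : z ∈ Voo) (hzmid : z ∈ Vmid) (hz0 : z ∈ V0)
    {u0 : L} (hu0 : u0 ∈ locRing X m) (hu0' : u0⁻¹ ∈ locRing X m)
    (hpow_oo : ∃ v ∈ Voo, z ^ p = u0 * (1 + π * v))
    (hpow_mid : ∃ v ∈ Vmid, z ^ p = u0 * (1 + π * v))
    (hpow_0 : ∃ v ∈ V0, z ^ p = u0 * (1 + π * v)) :
    (∃ w, S36LOC_Root π Voo X m z w) ∧ (∃ w, S36LOC_Root π Vmid X m z w) ∧
      ∃ w, S36LOC_Root π V0 X m z w := by
  have hne : ∀ {U : Subring L} {a : L}, a⁻¹ ∉ U → a ≠ 0 := by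
    intro U a ha h0
    apply ha
    rw [h0, inv_zero]; exact U.zero_mem
  have hS10 : S1 ≠ 0 := hne T.S1_nonunit
  have hT20 : T2 ≠ 0 := hne T.T2_nonunit
  have hWR : T2 - S1 ∈ locRing X m := Subring.sub_mem _ T.T2_mem T.S1_mem
  have hW0 : T2 - S1 ≠ 0 := by
    intro h0
    have := (T.prime_W hWR).ne_zero
    exact this (Subtype.ext h0)
  obtain ⟨v, hv, hv', hfac⟩ := T.factor
  have hv0 : v ≠ 0 := by
    rintro rfl
    rw [mul_zero] at hfac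
    exact (mul_ne_zero (mul_ne_zero hS10 hT20) (pow_ne_zero _ hW0)) hfac.symm
  have hπe : π = S1 * T2 * (T2 - S1) ^ (q - 1) * v⁻¹ := by
    rw [← hfac, mul_assoc, mul_inv_cancel₀ hv0, mul_one]
  -- non-units
  have hT2_oo : T2⁻¹ ∉ Voo := S36BRAK_nonunit hT20 T.dvd_oo T.T2_mem
  have hS1_0 : S1⁻¹ ∉ V0 := S36BRAK_nonunit hS10 T.dvd_0 T.S1_mem
  have hW_mid : (T2 - S1)⁻¹ ∉ Vmid := S36BRAK_nonunit hW0 T.dvd_mid hWR
  -- units
  have hW_oo : (T2 - S1)⁻¹ ∈ Voo := by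
    have h := Hoo.inv_add_mem (Voo.neg_mem (T.le_oo T.S1_mem))
      (by rw [inv_neg]; exact Voo.neg_mem hS1_oo) (neg_ne_zero.2 hS10) (T.le_oo T.T2_mem) hT2_oo
    have e : -S1 + T2 = T2 - S1 := by ring
    rwa [e] at h
  have hW_0 : (T2 - S1)⁻¹ ∈ V0 := by
    have hS1' : (-S1)⁻¹ ∉ V0 := by
      rw [inv_neg]
      intro h
      exact hS1_0 (by simpa using V0.neg_mem h)
    have h := H0.inv_add_mem (T.le_0 T.T2_mem) hT2_0 hT20 (V0.neg_mem (T.le_0 T.S1_mem)) hS1'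
    have e : T2 + -S1 = T2 - S1 := by ring
    rwa [e] at h
  have hT2_mid : T2⁻¹ ∈ Vmid := by
    have h := Hmid.inv_add_mem (T.le_mid T.S1_mem) hS1_mid hS10 (T.le_mid hWR) hW_mid
    have e : S1 + (T2 - S1) = T2 := by ring
    rwa [e] at h
  refine ⟨?_, ?_, ?_⟩
  · -- `V_∞`: `b = T2`, `g = S1`, `e = 1`
    refine S36BRAK_root (g := S1) T.le_oo hT20 T.T2_mem T.S1_mem T.S1_nonunit T.dvd_oo
      (fun r hr hr' => ?_) hfrac_oo (e := 1) le_rfl ?_ ?_ hp hpR hp0 hzoo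
      ⟨u0, hu0, hu0', hpow_oo⟩
    · obtain ⟨a, ha, c, hc, h⟩ := T.gen_elt r hr hr'
      exact ⟨a, ha, c, hc, h⟩
    · refine ⟨S1 * (T2 - S1) ^ (q - 1) * v⁻¹, Voo.mul_mem (Voo.mul_mem (T.le_oo T.S1_mem)
        (Voo.pow_mem (T.le_oo hWR) _)) (T.le_oo hv'), ?_⟩
      rw [hπe]; ring
    · refine ⟨v * S1⁻¹ * ((T2 - S1)⁻¹) ^ (q - 1), Voo.mul_mem (Voo.mul_mem (T.le_oo hv) hS1_oo)
        (Voo.pow_mem hW_oo _), ?_⟩
      rw [hπe, inv_pow]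
      field_simp
  · -- `V_mid`: `b = T2 - S1`, `g = S1`, `e = q - 1`
    refine S36BRAK_root (g := S1) T.le_mid hW0 hWR T.S1_mem T.S1_nonunit T.dvd_mid
      (fun r hr hr' => ?_) hfrac_mid (e := q - 1) (by omega) ?_ ?_ hp hpR hp0 hzmid
      ⟨u0, hu0, hu0', hpow_mid⟩
    · obtain ⟨a, ha, c, hc, h⟩ := T.gen_elt r hr hr'
      exact ⟨a + c, Subring.add_mem _ ha hc, c, hc, by rw [h]; ring⟩
    · refine ⟨S1 * T2 * v⁻¹, Vmid.mul_mem (Vmid.mul_mem (T.le_mid T.S1_mem)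
        (T.le_mid T.T2_mem)) (T.le_mid hv'), ?_⟩
      rw [hπe]; ring
    · refine ⟨v * S1⁻¹ * T2⁻¹, Vmid.mul_mem (Vmid.mul_mem (T.le_mid hv) hS1_mid) hT2_mid, ?_⟩
      rw [hπe]
      field_simp
  · -- `V_0`: `b = S1`, `g = T2`, `e = 1`
    refine S36BRAK_root (g := T2) T.le_0 hS10 T.S1_mem T.T2_mem T.T2_nonunit T.dvd_0
      (fun r hr hr' => ?_) hfrac_0 (e := 1) le_rfl ?_ ?_ hp hpR hp0 hz0
      ⟨u0, hu0, hu0', hpow_0⟩
    · obtain ⟨a, ha, c, hc, h⟩ := T.gen_elt r hr hr'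
      exact ⟨c, hc, a, ha, by rw [h]; ring⟩
    · refine ⟨T2 * (T2 - S1) ^ (q - 1) * v⁻¹, V0.mul_mem (V0.mul_mem (T.le_0 T.T2_mem)
        (V0.pow_mem (T.le_0 hWR) _)) (T.le_0 hv'), ?_⟩
      rw [hπe]; ring
    · refine ⟨v * T2⁻¹ * ((T2 - S1)⁻¹) ^ (q - 1), V0.mul_mem (V0.mul_mem (T.le_0 hv) hT2_0)
        (V0.pow_mem hW_0 _), ?_⟩
      rw [hπe, inv_pow]
      field_simp

end Triple

end Fermat.Agent.S36_helper2_BRANCHK
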