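import Mathlib
import Fermat.Agent.S36_helper19_TRIPT
import Fermat.Agent.S36_helper2_BRANCHK

/-!
# S36, BRANCH36 at the triple points, plugged into helper19's `S36TT_shape` (helper2)

* `S36BRAT_oo`, `S36BRAT_mid`, `S36BRAT_0` : the three instances `hbr_oo`, `hbr_mid`, `hbr_0` of
  BRANCH36 in the EXACT shape of the hypotheses of `S36TT_shape`, from helper17's
  `S36TX_Triple` at `R = locRing X m`;
* `S36BRAT_shape` : `S36TT_shape` with BRANCH36 discharged: the local shape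
  `S34C_Shape π F1 ((V_∞ ⊓ V_mid) ⊓ V_0) X p f G m` at a triple point from REG36 [TRIPLE]
  (`S36TX_Triple`), the fraction lemma, FACT-L's inputs, `RedPow` and TORIC36 (`htor`);
* `S36BRAT_shape'` : the same with the fraction lemma discharged by `S36BRA_frac3` (chart of
  `(V_∞ ⊓ V_mid) ⊓ V_0`).
-/

set_option autoImplicit false
set_option linter.style.haveILetI false
set_option linter.unusedSectionVars false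
set_option linter.unusedVariables false
set_option linter.unnecessarySimpa false

namespace Fermat.Agent.S36_helper2_BRANCHT

open Fermat.Agent.S18_helper9_CDefs Fermat.Agent.S18_helper9_CBasic
  Fermat.Agent.S18_helper3_LOCRING Fermat.Agent.S34_helper12_CDefs
  Fermat.Agent.S34_helper27_C2Defs
  Fermat.Agent.S36_helper19_LOCAL Fermat.Agent.S36_helper19_LOCTOR
  Fermat.Agent.S36_helper19_TRIPT Fermat.Agent.S36_helper6_TORIC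
  Fermat.Agent.S36_helper17_TRIPLEX
  Fermat.Agent.S36_helper2_BRANCH Fermat.Agent.S36_helper2_BRANCHK

variable {L : Type*} [Field L] {π S1 T2 : L} {F1 : Subfield L} {O X Voo Vmid V0 : Subring L}
  {m : Ideal X} [hm : m.IsPrime] {q : ℕ}

/-- the unit / non-unit pattern of `S1`, `T2`, `T2 - S1` on the three branches, and the
factorisation of `π`. -/
theorem S36BRAT_units (T : S36TX_Triple q π S1 T2 Voo Vmid V0 (locRing X m))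
    (Hoo : S34C2_Val π F1 Voo) (Hmid : S34C2_Val π F1 Vmid) (H0 : S34C2_Val π F1 V0)
    (hS1_oo : S1⁻¹ ∈ Voo) (hT2_0 : T2⁻¹ ∈ V0) (hS1_mid : S1⁻¹ ∈ Vmid) :
    S1 ≠ 0 ∧ T2 ≠ 0 ∧ T2 - S1 ≠ 0 ∧ (T2 - S1)⁻¹ ∈ Voo ∧ (T2 - S1)⁻¹ ∈ V0 ∧ T2⁻¹ ∈ Vmid ∧
      ∃ v ∈ locRing X m, v⁻¹ ∈ locRing X m ∧ v ≠ 0 ∧
        π = S1 * T2 * (T2 - S1) ^ (q - 1) * v⁻¹ := by
  have hne : ∀ {U : Subring L} {a : L}, a⁻¹ ∉ U → a ≠ 0 := by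
    intro U a ha h0
    apply ha
    rw [h0, inv_zero]; exact U.zero_mem
  have hS10 : S1 ≠ 0 := hne T.S1_nonunit
  have hT20 : T2 ≠ 0 := hne T.T2_nonunit
  have hWR : T2 - S1 ∈ locRing X m := Subring.sub_mem _ T.T2_mem T.S1_mem
  have hW0 : T2 - S1 ≠ 0 := by
    intro h0
    have := (T.prime_W hWR).ne_zero
    exact this (Subtype.ext h0)
  obtain ⟨v, hv, hv', hfac⟩ := T.factor
  have hv0 : v ≠ 0 := by
    rintro rfl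
    rw [mul_zero] at hfac
    exact (mul_ne_zero (mul_ne_zero hS10 hT20) (pow_ne_zero _ hW0)) hfac.symm
  have hπe : π = S1 * T2 * (T2 - S1) ^ (q - 1) * v⁻¹ := by
    rw [← hfac, mul_assoc, mul_inv_cancel₀ hv0, mul_one]
  have hT2_oo : T2⁻¹ ∉ Voo := S36BRAK_nonunit hT20 T.dvd_oo T.T2_mem
  have hS1_0 : S1⁻¹ ∉ V0 := S36BRAK_nonunit hS10 T.dvd_0 T.S1_mem
  have hW_mid : (T2 - S1)⁻¹ ∉ Vmid := S36BRAK_nonunit hW0 T.dvd_mid hWR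
  have hW_oo : (T2 - S1)⁻¹ ∈ Voo := by
    have h := Hoo.inv_add_mem (Voo.neg_mem (T.le_oo T.S1_mem))
      (by rw [inv_neg]; exact Voo.neg_mem hS1_oo) (neg_ne_zero.2 hS10) (T.le_oo T.T2_mem) hT2_oo
    have e : -S1 + T2 = T2 - S1 := by ring
    rwa [e] at h
  have hW_0 : (T2 - S1)⁻¹ ∈ V0 := by
    have hS1' : (-S1)⁻¹ ∉ V0 := by
      rw [inv_neg]
      intro h
      exact hS1_0 (by simpa using V0.neg_mem h)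
    have h := H0.inv_add_mem (T.le_0 T.T2_mem) hT2_0 hT20 (V0.neg_mem (T.le_0 T.S1_mem)) hS1'
    have e : T2 + -S1 = T2 - S1 := by ring
    rwa [e] at h
  have hT2_mid : T2⁻¹ ∈ Vmid := by
    have h := Hmid.inv_add_mem (T.le_mid T.S1_mem) hS1_mid hS10 (T.le_mid hWR) hW_mid
    have e : S1 + (T2 - S1) = T2 := by ring
    rwa [e] at h
  exact ⟨hS10, hT20, hW0, hW_oo, hW_0, hT2_mid, v, hv, hv', hv0, hπe⟩

/-- **BRANCH36 on `V_∞` at a triple point** (`= hbr_oo` of `S36TT_shape`). -/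
theorem S36BRAT_oo [IsNoetherianRing X]
    (T : S36TX_Triple q π S1 T2 Voo Vmid V0 (locRing X m))
    (Hoo : S34C2_Val π F1 Voo) (Hmid : S34C2_Val π F1 Vmid) (H0 : S34C2_Val π F1 V0)
    (hS1_oo : S1⁻¹ ∈ Voo) (hT2_0 : T2⁻¹ ∈ V0) (hS1_mid : S1⁻¹ ∈ Vmid)
    (hfrac : ∀ z ∈ Voo, ∃ a c : X, (c : L) ≠ 0 ∧ ((c : L))⁻¹ ∈ Voo ∧ z * (c : L) = a)
    {p : ℕ} (hp : 0 < p) (hpL : (p : L) ≠ 0) (hpR : ((p : L))⁻¹ ∈ locRing X m) :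
    ∀ z : L, z ∈ F1 → z ∈ Voo → z⁻¹ ∈ Voo →
      (∃ u0, u0 ∈ locRing X m ∧ u0⁻¹ ∈ locRing X m ∧ ∃ v ∈ Voo, z ^ p = u0 * (1 + π * v)) →
      ∃ w, S36LOC_Root π Voo X m z w := by
  obtain ⟨hS10, hT20, hW0, hW_oo, hW_0, hT2_mid, v, hv, hv', hv0, hπe⟩ :=
    S36BRAT_units T Hoo Hmid H0 hS1_oo hT2_0 hS1_mid
  have hWR : T2 - S1 ∈ locRing X m := Subring.sub_mem _ T.T2_mem T.S1_mem
  intro z _ hz _ hpow
  refine S36BRAK_root (g := S1) T.le_oo hT20 T.T2_mem T.S1_mem T.S1_nonunit T.dvd_oo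
    (fun r hr hr' => ?_) hfrac (e := 1) le_rfl ?_ ?_ hp hpR hpL hz hpow
  · obtain ⟨a, ha, c, hc, h⟩ := T.gen_elt r hr hr'
    exact ⟨a, ha, c, hc, h⟩
  · refine ⟨S1 * (T2 - S1) ^ (q - 1) * v⁻¹, Voo.mul_mem (Voo.mul_mem (T.le_oo T.S1_mem)
      (Voo.pow_mem (T.le_oo hWR) _)) (T.le_oo hv'), ?_⟩
    rw [hπe]; ring
  · refine ⟨v * S1⁻¹ * ((T2 - S1)⁻¹) ^ (q - 1), Voo.mul_mem (Voo.mul_mem (T.le_oo hv) hS1_oo)
      (Voo.pow_mem hW_oo _), ?_⟩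
    rw [hπe, inv_pow]
    field_simp

/-- **BRANCH36 on `V_mid` at a triple point** (`= hbr_mid` of `S36TT_shape`): the thick branch,
local equation `T2 - S1`, `π = unit * (T2 - S1) ^ (q - 1)`. -/
theorem S36BRAT_mid [IsNoetherianRing X]
    (T : S36TX_Triple q π S1 T2 Voo Vmid V0 (locRing X m)) (hq : 2 ≤ q)
    (Hoo : S34C2_Val π F1 Voo) (Hmid : S34C2_Val π F1 Vmid) (H0 : S34C2_Val π F1 V0)
    (hS1_oo : S1⁻¹ ∈ Voo) (hT2_0 : T2⁻¹ ∈ V0) (hS1_mid : S1⁻¹ ∈ Vmid)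
    (hfrac : ∀ z ∈ Vmid, ∃ a c : X, (c : L) ≠ 0 ∧ ((c : L))⁻¹ ∈ Vmid ∧ z * (c : L) = a)
    {p : ℕ} (hp : 0 < p) (hpL : (p : L) ≠ 0) (hpR : ((p : L))⁻¹ ∈ locRing X m) :
    ∀ z : L, z ∈ F1 → z ∈ Vmid → z⁻¹ ∈ Vmid →
      (∃ u0, u0 ∈ locRing X m ∧ u0⁻¹ ∈ locRing X m ∧ ∃ v ∈ Vmid, z ^ p = u0 * (1 + π * v)) →
      ∃ w, S36LOC_Root π Vmid X m z w := by
  obtain ⟨hS10, hT20, hW0, hW_oo, hW_0, hT2_mid, v, hv, hv', hv0, hπe⟩ :=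
    S36BRAT_units T Hoo Hmid H0 hS1_oo hT2_0 hS1_mid
  have hWR : T2 - S1 ∈ locRing X m := Subring.sub_mem _ T.T2_mem T.S1_mem
  intro z _ hz _ hpow
  refine S36BRAK_root (g := S1) T.le_mid hW0 hWR T.S1_mem T.S1_nonunit T.dvd_mid
    (fun r hr hr' => ?_) hfrac (e := q - 1) (by omega) ?_ ?_ hp hpR hpL hz hpow
  · obtain ⟨a, ha, c, hc, h⟩ := T.gen_elt r hr hr'
    exact ⟨a + c, Subring.add_mem _ ha hc, c, hc, by rw [h]; ring⟩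
  · refine ⟨S1 * T2 * v⁻¹, Vmid.mul_mem (Vmid.mul_mem (T.le_mid T.S1_mem)
      (T.le_mid T.T2_mem)) (T.le_mid hv'), ?_⟩
    rw [hπe]; ring
  · refine ⟨v * S1⁻¹ * T2⁻¹, Vmid.mul_mem (Vmid.mul_mem (T.le_mid hv) hS1_mid) hT2_mid, ?_⟩
    rw [hπe]
    field_simp

/-- **BRANCH36 on `V_0` at a triple point** (`= hbr_0` of `S36TT_shape`). -/
theorem S36BRAT_0 [IsNoetherianRing X]
    (T : S36TX_Triple q π S1 T2 Voo Vmid V0 (locRing X m))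
    (Hoo : S34C2_Val π F1 Voo) (Hmid : S34C2_Val π F1 Vmid) (H0 : S34C2_Val π F1 V0)
    (hS1_oo : S1⁻¹ ∈ Voo) (hT2_0 : T2⁻¹ ∈ V0) (hS1_mid : S1⁻¹ ∈ Vmid)
    (hfrac : ∀ z ∈ V0, ∃ a c : X, (c : L) ≠ 0 ∧ ((c : L))⁻¹ ∈ V0 ∧ z * (c : L) = a)
    {p : ℕ} (hp : 0 < p) (hpL : (p : L) ≠ 0) (hpR : ((p : L))⁻¹ ∈ locRing X m) :
    ∀ z : L, z ∈ F1 → z ∈ V0 → z⁻¹ ∈ V0 →
      (∃ u0, u0 ∈ locRing X m ∧ u0⁻¹ ∈ locRing X m ∧ ∃ v ∈ V0, z ^ p = u0 * (1 + π * v)) →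
      ∃ w, S36LOC_Root π V0 X m z w := by
  obtain ⟨hS10, hT20, hW0, hW_oo, hW_0, hT2_mid, v, hv, hv', hv0, hπe⟩ :=
    S36BRAT_units T Hoo Hmid H0 hS1_oo hT2_0 hS1_mid
  have hWR : T2 - S1 ∈ locRing X m := Subring.sub_mem _ T.T2_mem T.S1_mem
  intro z _ hz _ hpow
  refine S36BRAK_root (g := T2) T.le_0 hS10 T.S1_mem T.T2_mem T.T2_nonunit T.dvd_0
    (fun r hr hr' => ?_) hfrac (e := 1) le_rfl ?_ ?_ hp hpR hpL hz hpow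
  · obtain ⟨a, ha, c, hc, h⟩ := T.gen_elt r hr hr'
    exact ⟨c, hc, a, ha, by rw [h]; ring⟩
  · refine ⟨T2 * (T2 - S1) ^ (q - 1) * v⁻¹, V0.mul_mem (V0.mul_mem (T.le_0 T.T2_mem)
      (V0.pow_mem (T.le_0 hWR) _)) (T.le_0 hv'), ?_⟩
    rw [hπe]; ring
  · refine ⟨v * T2⁻¹ * ((T2 - S1)⁻¹) ^ (q - 1), V0.mul_mem (V0.mul_mem (T.le_0 hv) hT2_0)
      (V0.pow_mem hW_0 _), ?_⟩
    rw [hπe, inv_pow]
    field_simp

/-- **The local shape at a triple point, BRANCH36 discharged**: `S36TT_shape` with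
`hbr_oo`, `hbr_mid`, `hbr_0` proved from the triple datum and the fraction lemmas. -/
theorem S36BRAT_shape [IsNoetherianRing X]
    (T : S36TX_Triple q π S1 T2 Voo Vmid V0 (locRing X m)) (hq : 2 ≤ q)
    (Hoo : S34C2_Val π F1 Voo) (Hmid : S34C2_Val π F1 Vmid) (H0 : S34C2_Val π F1 V0)
    (hS1_oo : S1⁻¹ ∈ Voo) (hT2_0 : T2⁻¹ ∈ V0) (hS1_mid : S1⁻¹ ∈ Vmid)
    (hfrac_oo : ∀ z ∈ Voo, ∃ a c : X, (c : L) ≠ 0 ∧ ((c : L))⁻¹ ∈ Voo ∧ z * (c : L) = a)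
    (hfrac_mid : ∀ z ∈ Vmid, ∃ a c : X, (c : L) ≠ 0 ∧ ((c : L))⁻¹ ∈ Vmid ∧ z * (c : L) = a)
    (hfrac_0 : ∀ z ∈ V0, ∃ a c : X, (c : L) ≠ 0 ∧ ((c : L))⁻¹ ∈ V0 ∧ z * (c : L) = a)
    (hOX : O ≤ X) (hπX : π ∈ X)
    (hRF : ∀ x ∈ locRing X m, x ∈ F1)
    (hfrac : ∀ x ∈ F1, ∃ a b : locRing X m, b ≠ 0 ∧ x * (b : L) = a)
    {p : ℕ} (hp : 0 < p) (hpL : (p : L) ≠ 0) (hpR : ((p : L))⁻¹ ∈ locRing X m)
    (f G : L) (hfF : f ∈ F1) (hf0 : f ≠ 0)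
    (hdiv : PowDiv O π F1 p f)
    (hred : RedPow π ((Voo ⊓ Vmid) ⊓ V0 : Subring L) p f G)
    (htor : ∀ u g w1 w2 w3 : L, u ∈ locRing X m → u⁻¹ ∈ locRing X m → g ∈ F1 →
      f = u * g ^ p → w1 ∈ locRing X m → w2 ∈ locRing X m → w3 ∈ locRing X m →
      G / g - w1 ∈ S36TOR_nu Voo → G / g - w2 ∈ S36TOR_nu Vmid → G / g - w3 ∈ S36TOR_nu V0 →
      w1 - w3 ∈ S36TOR_nu (locRing X m) ∧ w2 - w3 ∈ S36TOR_nu (locRing X m)) :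
    S34C_Shape π F1 ((Voo ⊓ Vmid) ⊓ V0 : Subring L) X p f G m :=
  S36TT_shape m T Hoo Hmid H0 hOX hπX hRF hfrac hp hpL hpR f G hfF hf0 hdiv hred
    (S36BRAT_oo T Hoo Hmid H0 hS1_oo hT2_0 hS1_mid hfrac_oo hp hpL hpR)
    (S36BRAT_mid T hq Hoo Hmid H0 hS1_oo hT2_0 hS1_mid hfrac_mid hp hpL hpR)
    (S36BRAT_0 T Hoo Hmid H0 hS1_oo hT2_0 hS1_mid hfrac_0 hp hpL hpR) htor

/-- **The local shape at a triple point of a chart of `(V_∞ ⊓ V_mid) ⊓ V_0`**: the fraction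
lemmas are discharged by `S36BRA_frac3` (the three valuation rings lie above the discrete
valuation ring `V'` of `F1'`, `F1 / F1'` finite). -/
theorem S36BRAT_shape' [CharZero L] [IsNoetherianRing X] {F1' : Subfield L} {V' : Subring L}
    {x : L} (hF : F1' ≤ F1) (hV' : S34C2_Val π F1' V')
    (hsep : ∀ x ∈ F1', x ≠ 0 → ∃ (z : ℤ) (u : L), u ∈ V' ∧ u⁻¹ ∈ V' ∧ x = π ^ z * u)
    (hdeg : ∃ s : Finset L, ∀ x ∈ F1, ∃ c : L → L, (∀ y, c y ∈ F1') ∧ x = ∑ y ∈ s, c y * y)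
    (hVoo : V' ≤ Voo) (hVmid : V' ≤ Vmid) (hV0 : V' ≤ V0)
    (hC : Chart O π x F1 ((Voo ⊓ Vmid) ⊓ V0) X)
    (T : S36TX_Triple q π S1 T2 Voo Vmid V0 (locRing X m)) (hq : 2 ≤ q)
    (Hoo : S34C2_Val π F1 Voo) (Hmid : S34C2_Val π F1 Vmid) (H0 : S34C2_Val π F1 V0)
    (hS1_oo : S1⁻¹ ∈ Voo) (hT2_0 : T2⁻¹ ∈ V0) (hS1_mid : S1⁻¹ ∈ Vmid)
    (hOX : O ≤ X) (hπX : π ∈ X)
    (hRF : ∀ x ∈ locRing X m, x ∈ F1)
    (hfrac : ∀ x ∈ F1, ∃ a b : locRing X m, b ≠ 0 ∧ x * (b : L) = a)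
    {p : ℕ} (hp : 0 < p) (hpL : (p : L) ≠ 0) (hpR : ((p : L))⁻¹ ∈ locRing X m)
    (f G : L) (hfF : f ∈ F1) (hf0 : f ≠ 0)
    (hdiv : PowDiv O π F1 p f)
    (hred : RedPow π ((Voo ⊓ Vmid) ⊓ V0 : Subring L) p f G)
    (htor : ∀ u g w1 w2 w3 : L, u ∈ locRing X m → u⁻¹ ∈ locRing X m → g ∈ F1 →
      f = u * g ^ p → w1 ∈ locRing X m → w2 ∈ locRing X m → w3 ∈ locRing X m →
      G / g - w1 ∈ S36TOR_nu Voo → G / g - w2 ∈ S36TOR_nu Vmid → G / g - w3 ∈ S36TOR_nu V0 →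
      w1 - w3 ∈ S36TOR_nu (locRing X m) ∧ w2 - w3 ∈ S36TOR_nu (locRing X m)) :
    S34C_Shape π F1 ((Voo ⊓ Vmid) ⊓ V0 : Subring L) X p f G m := by
  obtain ⟨f1, f2, f3⟩ := S36BRA_frac3 hF hV' hsep hdeg Hoo Hmid H0 hVoo hVmid hV0 hC
  exact S36BRAT_shape T hq Hoo Hmid H0 hS1_oo hT2_0 hS1_mid f1 f2 f3 hOX hπX hRF hfrac hp hpL
    hpR f G hfF hf0 hdiv hred htor

end Fermat.Agent.S36_helper2_BRANCHT
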