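import Mathlib
import Fermat.Agent.S34_helper27_C2ADAPT
import Fermat.Agent.S36_helper2_C3
import Fermat.Agent.S36_helper2_BRANCHT

/-!
# S36, the triple points: hypotheses `hB` and `hic` of helper3's `S36XB_loc_abs` (helper2)

`X` a chart of an `S34C_Setup` with `V = (V1 ⊓ V2) ⊓ V3`, `m` a prime of `X` with the triple
datum `T : S36TX_Triple q π S1 T2 V1 V2 V3 (locRing X m)` (helper17).

* `S36BRAB_hB` : FACT-L + BRANCH36 at the triple point, for EVERY global root `G`: the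
  hypothesis `hB i` of `S36XB_loc_abs` at `R i = locRing X m`, verbatim (abstract form);
* `S36BRAB_hic` : `locRing X m` is integrally closed in `F1` for powers (`x ^ lam ∈ R → x ∈ R`):
  the hypothesis `hic i` of `S36XB_loc_abs` / `S36TOR_main`, from `T.ufd`;
* `S36BRAB_hB_setup`, `S36BRAB_hic_setup` : the same with the chart hypotheses discharged from
  the `S34C_Setup` (noetherian chart, `O ≤ X`, `F1 = Frac X`, the fraction lemmas).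
-/

set_option autoImplicit false
set_option linter.style.haveILetI false
set_option linter.unusedSectionVars false
set_option linter.unusedVariables false
set_option linter.unnecessarySimpa false

namespace Fermat.Agent.S36_helper2_BRANCHB

open Fermat.Agent.S18_helper9_CDefs Fermat.Agent.S18_helper9_CBasic
  Fermat.Agent.S18_helper3_LOCRING Fermat.Agent.S34_helper12_CDefs
  Fermat.Agent.S34_helper27_C2Defs Fermat.Agent.S34_helper27_C2ADAPT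
  Fermat.Agent.S36_helper19_LOCAL Fermat.Agent.S36_helper19_LOCTOR
  Fermat.Agent.S36_helper19_TRIPT Fermat.Agent.S36_helper6_TORIC
  Fermat.Agent.S36_helper17_TRIPLEX Fermat.Agent.S36_helper2_C3
  Fermat.Agent.S36_helper2_BRANCH Fermat.Agent.S36_helper2_BRANCHK
  Fermat.Agent.S36_helper2_BRANCHT

variable {L : Type*} [Field L] {π S1 T2 : L} {F1 : Subfield L} {O X Voo Vmid V0 : Subring L}
  {m : Ideal X} [hm : m.IsPrime] {q : ℕ}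

/-- **FACT-L + BRANCH36 at a triple point, for every global root `G`** (abstract form). -/
theorem S36BRAB_hB [IsNoetherianRing X]
    (T : S36TX_Triple q π S1 T2 Voo Vmid V0 (locRing X m)) (hq : 2 ≤ q)
    (Hoo : S34C2_Val π F1 Voo) (Hmid : S34C2_Val π F1 Vmid) (H0 : S34C2_Val π F1 V0)
    (hS1_oo : S1⁻¹ ∈ Voo) (hT2_0 : T2⁻¹ ∈ V0) (hS1_mid : S1⁻¹ ∈ Vmid)
    (hfrac_oo : ∀ z ∈ Voo, ∃ a c : X, (c : L) ≠ 0 ∧ ((c : L))⁻¹ ∈ Voo ∧ z * (c : L) = a)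
    (hfrac_mid : ∀ z ∈ Vmid, ∃ a c : X, (c : L) ≠ 0 ∧ ((c : L))⁻¹ ∈ Vmid ∧ z * (c : L) = a)
    (hfrac_0 : ∀ z ∈ V0, ∃ a c : X, (c : L) ≠ 0 ∧ ((c : L))⁻¹ ∈ V0 ∧ z * (c : L) = a)
    (hOX : O ≤ X) (hπX : π ∈ X)
    (hRF : ∀ x ∈ locRing X m, x ∈ F1)
    (hfrac : ∀ x ∈ F1, ∃ a b : locRing X m, b ≠ 0 ∧ x * (b : L) = a)
    {p : ℕ} (hp : 0 < p) (hpL : (p : L) ≠ 0) (hpR : ((p : L))⁻¹ ∈ locRing X m)
    (f : L) (hfF : f ∈ F1) (hf0 : f ≠ 0) (hdiv : PowDiv O π F1 p f) :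
    ∀ G : L, RedPow π ((Voo ⊓ Vmid) ⊓ V0 : Subring L) p f G →
      ∃ u0 g0 w1 w2 w3 : L, u0 ∈ locRing X m ∧ u0⁻¹ ∈ locRing X m ∧ g0 ∈ F1 ∧
        f = u0 * g0 ^ p ∧
        (w1 ∈ locRing X m ∧ w1⁻¹ ∈ locRing X m ∧ ∃ c ∈ Voo, G * g0⁻¹ = w1 * (1 + π * c)) ∧
        (w2 ∈ locRing X m ∧ w2⁻¹ ∈ locRing X m ∧ ∃ c ∈ Vmid, G * g0⁻¹ = w2 * (1 + π * c)) ∧
        (w3 ∈ locRing X m ∧ w3⁻¹ ∈ locRing X m ∧ ∃ c ∈ V0, G * g0⁻¹ = w3 * (1 + π * c)) := by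
  intro G hred
  have hV1 : ((Voo ⊓ Vmid) ⊓ V0 : Subring L) ≤ Voo := inf_le_left.trans inf_le_left
  have hV2 : ((Voo ⊓ Vmid) ⊓ V0 : Subring L) ≤ Vmid := inf_le_left.trans inf_le_right
  have hV3 : ((Voo ⊓ Vmid) ⊓ V0 : Subring L) ≤ V0 := inf_le_right
  have hr1 := S36LOC_redPow_mono hV1 hred
  have hr2 := S36LOC_redPow_mono hV2 hred
  have hr3 := S36LOC_redPow_mono hV3 hred
  obtain ⟨u0, g0, hu0, hu0', hg0F, hfact⟩ :=
    S36TT_fact_redPow m T Hoo Hmid H0 hOX hπX hRF hfrac hp f G hfF hf0 hdiv hred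
  have hg00 : g0 ≠ 0 := by
    rintro rfl
    exact hf0 (by rw [hfact, zero_pow hp.ne', mul_zero])
  have hGF : G ∈ F1 := Hoo.le (hV1 hred.1)
  have hzF : G * g0⁻¹ ∈ F1 := F1.mul_mem hGF (F1.inv_mem hg0F)
  have hgp : g0 ^ p = f * u0⁻¹ := by
    have hu00 : u0 ≠ 0 := by
      rintro rfl
      exact hf0 (by rw [hfact, zero_mul])
    rw [hfact]; field_simp
  have hgp' : (f * u0⁻¹)⁻¹ = f⁻¹ * u0 := by rw [mul_inv, inv_inv]
  have hz : ∀ (W : Subring L), S34C2_Val π F1 W → locRing X m ≤ W → RedPow π W p f G →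
      G * g0⁻¹ ∈ W ∧ (G * g0⁻¹)⁻¹ ∈ W := by
    intro W H hRW hr
    have hfu := S36LOC_redPow_unit H hr
    have hg : g0 ∈ W ∧ g0⁻¹ ∈ W := by
      refine S36LOC_unit_of_pow H hp hg0F (W.mul_mem hfu.1 (hRW hu0')) ?_ hgp
      rw [hgp']
      exact W.mul_mem hfu.2 (hRW hu0)
    refine ⟨W.mul_mem hr.1 hg.2, ?_⟩
    rw [mul_inv, inv_inv]
    exact W.mul_mem hr.2.1 hg.1
  obtain ⟨w1, hw1⟩ := S36BRAT_oo T Hoo Hmid H0 hS1_oo hT2_0 hS1_mid hfrac_oo hp hpL hpR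
    _ hzF (hz Voo Hoo T.le_oo hr1).1 (hz Voo Hoo T.le_oo hr1).2
    ⟨u0, hu0, hu0', S36LOC_z_pow Hoo hg00 hfact hr1⟩
  obtain ⟨w2, hw2⟩ := S36BRAT_mid T hq Hoo Hmid H0 hS1_oo hT2_0 hS1_mid hfrac_mid hp hpL hpR
    _ hzF (hz Vmid Hmid T.le_mid hr2).1 (hz Vmid Hmid T.le_mid hr2).2
    ⟨u0, hu0, hu0', S36LOC_z_pow Hmid hg00 hfact hr2⟩
  obtain ⟨w3, hw3⟩ := S36BRAT_0 T Hoo Hmid H0 hS1_oo hT2_0 hS1_mid hfrac_0 hp hpL hpR
    _ hzF (hz V0 H0 T.le_0 hr3).1 (hz V0 H0 T.le_0 hr3).2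
    ⟨u0, hu0, hu0', S36LOC_z_pow H0 hg00 hfact hr3⟩
  exact ⟨u0, g0, w1, w2, w3, hu0, hu0', hg0F, hfact, hw1, hw2, hw3⟩

/-- **the local ring at a triple point is closed under roots in `F1`** (it is a unique
factorisation domain with fraction field `F1`). -/
theorem S36BRAB_hic (T : S36TX_Triple q π S1 T2 Voo Vmid V0 (locRing X m))
    (hfrac : ∀ x ∈ F1, ∃ a b : locRing X m, b ≠ 0 ∧ x * (b : L) = a)
    {lam : ℕ} (hlam : 0 < lam) :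
    ∀ x ∈ F1, x ^ lam ∈ locRing X m → x ∈ locRing X m := by
  intro x hxF hxl
  haveI := T.ufd
  haveI : IsIntegrallyClosed ↥(locRing X m) := UniqueFactorizationMonoid.instIsIntegrallyClosed
  obtain ⟨a, b, hb0, hxb⟩ := hfrac x hxF
  have hbL : (b : L) ≠ 0 := fun h => hb0 (Subtype.ext h)
  -- `a ^ lam = r * b ^ lam`
  have hdvd : b ^ lam ∣ a ^ lam := by
    refine ⟨⟨x ^ lam, hxl⟩, ?_⟩
    apply Subtype.ext
    show ((a : L)) ^ lam = (b : L) ^ lam * x ^ lam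
    rw [← hxb]; ring
  obtain ⟨c, hc⟩ := (IsIntegrallyClosed.pow_dvd_pow_iff hlam.ne').1 hdvd
  have hxc : x = (c : L) := by
    have h1 : x * (b : L) = (b : L) * (c : L) := by
      rw [hxb, hc]; rfl
    have h2 : (b : L) * x = (b : L) * (c : L) := by rw [mul_comm, h1]
    exact mul_left_cancel₀ hbL h2
  rw [hxc]
  exact c.2

section Setup

variable {j x : L} {A0 Ainf : Subring L} {F1' : Subfield L} {V' : Subring L}

/-- `F1` is the fraction field of the local ring of a chart. -/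
theorem S36BRAB_frac_loc (S : S34C_Setup O π j F1 ((Voo ⊓ Vmid) ⊓ V0 : Subring L) A0 Ainf)
    (hx : x = j ∨ x = j⁻¹) (hC : Chart O π x F1 ((Voo ⊓ Vmid) ⊓ V0 : Subring L) X) :
    ∀ y ∈ F1, ∃ a b : locRing X m, b ≠ 0 ∧ y * (b : L) = a := by
  intro y hy
  obtain ⟨a, b, hb0, hyb⟩ := S36C3_frac S hC hx y hy
  refine ⟨⟨a, le_locRing X m a.2⟩, ⟨b, le_locRing X m b.2⟩, fun h => hb0 ?_, hyb⟩
  have h1 : ((⟨(b : L), le_locRing X m b.2⟩ : locRing X m) : L) = ((0 : locRing X m) : L) :=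
    congrArg (fun t : locRing X m => (t : L)) h
  exact Subtype.ext h1

/-- the local ring of a chart lies in `F1`. -/
theorem S36BRAB_loc_le_F1 (hC : Chart O π x F1 ((Voo ⊓ Vmid) ⊓ V0 : Subring L) X) :
    ∀ y ∈ locRing X m, y ∈ F1 := by
  intro y hy
  obtain ⟨a, s, hs, has⟩ := (mem_locRing_iff X m).1 hy
  have hs0 : (s : L) ≠ 0 := coe_ne_zero_of_notMem X m hs
  have : y = (a : L) * ((s : L))⁻¹ := by
    rw [← has, mul_assoc, mul_inv_cancel₀ hs0, mul_one]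
  rw [this]
  exact F1.mul_mem (S36C3_le_F1 hC a a.2) (F1.inv_mem (S36C3_le_F1 hC s s.2))

/-- **`hB` at a triple point of a chart of the setup** (everything except the triple datum, the
three unit facts and `PowDiv` discharged). -/
theorem S36BRAB_hB_setup [CharZero L]
    (S : S34C_Setup O π j F1 ((Voo ⊓ Vmid) ⊓ V0 : Subring L) A0 Ainf)
    (hx : x = j ∨ x = j⁻¹) (hC : Chart O π x F1 ((Voo ⊓ Vmid) ⊓ V0 : Subring L) X)
    (hF : F1' ≤ F1) (hV' : S34C2_Val π F1' V')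
    (hsep : ∀ x ∈ F1', x ≠ 0 → ∃ (z : ℤ) (u : L), u ∈ V' ∧ u⁻¹ ∈ V' ∧ x = π ^ z * u)
    (hdeg : ∃ s : Finset L, ∀ x ∈ F1, ∃ c : L → L, (∀ y, c y ∈ F1') ∧ x = ∑ y ∈ s, c y * y)
    (Hoo : S34C2_Val π F1 Voo) (Hmid : S34C2_Val π F1 Vmid) (H0 : S34C2_Val π F1 V0)
    (hVoo : V' ≤ Voo) (hVmid : V' ≤ Vmid) (hV0 : V' ≤ V0)
    (T : S36TX_Triple q π S1 T2 Voo Vmid V0 (locRing X m)) (hq : 2 ≤ q)
    (hS1_oo : S1⁻¹ ∈ Voo) (hT2_0 : T2⁻¹ ∈ V0) (hS1_mid : S1⁻¹ ∈ Vmid)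
    {p : ℕ} (hp : 0 < p) (hpL : (p : L) ≠ 0) (hpO : ((p : L))⁻¹ ∈ O)
    (f : L) (hfF : f ∈ F1) (hf0 : f ≠ 0) (hdiv : PowDiv O π F1 p f) :
    ∀ G : L, RedPow π ((Voo ⊓ Vmid) ⊓ V0 : Subring L) p f G →
      ∃ u0 g0 w1 w2 w3 : L, u0 ∈ locRing X m ∧ u0⁻¹ ∈ locRing X m ∧ g0 ∈ F1 ∧
        f = u0 * g0 ^ p ∧
        (w1 ∈ locRing X m ∧ w1⁻¹ ∈ locRing X m ∧ ∃ c ∈ Voo, G * g0⁻¹ = w1 * (1 + π * c)) ∧
        (w2 ∈ locRing X m ∧ w2⁻¹ ∈ locRing X m ∧ ∃ c ∈ Vmid, G * g0⁻¹ = w2 * (1 + π * c)) ∧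
        (w3 ∈ locRing X m ∧ w3⁻¹ ∈ locRing X m ∧ ∃ c ∈ V0, G * g0⁻¹ = w3 * (1 + π * c)) := by
  haveI : IsNoetherianRing ↥X := S34CA_chart_noetherian S x hx X hC
  obtain ⟨f1, f2, f3⟩ := S36BRA_frac3 hF hV' hsep hdeg Hoo Hmid H0 hVoo hVmid hV0 hC
  have hOX : O ≤ X := S36C3_O_le S hC
  exact S36BRAB_hB T hq Hoo Hmid H0 hS1_oo hT2_0 hS1_mid f1 f2 f3 hOX (S36C3_pi_mem S hC)
    (S36BRAB_loc_le_F1 hC) (S36BRAB_frac_loc S hx hC) hp hpL (le_locRing X m (hOX hpO))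
    f hfF hf0 hdiv

/-- **`hic` at a triple point of a chart of the setup.** -/
theorem S36BRAB_hic_setup
    (S : S34C_Setup O π j F1 ((Voo ⊓ Vmid) ⊓ V0 : Subring L) A0 Ainf)
    (hx : x = j ∨ x = j⁻¹) (hC : Chart O π x F1 ((Voo ⊓ Vmid) ⊓ V0 : Subring L) X)
    (T : S36TX_Triple q π S1 T2 Voo Vmid V0 (locRing X m))
    {lam : ℕ} (hlam : 0 < lam) :
    ∀ x ∈ F1, x ^ lam ∈ locRing X m → x ∈ locRing X m :=
  S36BRAB_hic T (S36BRAB_frac_loc S hx hC) hlam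

end Setup

end Fermat.Agent.S36_helper2_BRANCHB
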