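import Mathlib
import Fermat.Agent.S36_helper3_LOCK
import Fermat.Agent.S36_helper2_BRANCHB

/-!
# S36, the family of the local rings at the triple points (helper2)

The contract `S36XB_LocContract` of helper3 is parametrised by a family `R : ι → Subring L` of
local rings ("the triple points of both charts").  We index the family BY THE LOCAL RINGS
THEMSELVES: for a predicate `Tp` on subrings,

  `S36TF_ι Tp := {R // Tp R}`,  `S36TF_R Tp i := i.1`,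

so that `(∃ i, S36TF_R Tp i = locRing X m) ↔ Tp (locRing X m)` (`S36TF_exists_iff`).

`S36TF_Trip A K1 q M' W2 W3 R` is the triple datum of `R` at the carriers: `R` is the local ring
of one of the two charts at a prime, with helper17's `S36TX_Triple` and the three unit facts.
For every predicate `Tp` implying `S36TF_Trip` we prove the fields

  `trip_loc`, `trip_O`, `trip_le1`, `trip_le2`, `trip_le3`, `trip_ic`, `branch`

of `S36XB_LocContract` for the family `S36TF_R Tp`, verbatim.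
-/

set_option autoImplicit false
set_option linter.unusedSectionVars false
set_option linter.unusedVariables false
set_option linter.style.haveILetI false

open HahnSeries IntermediateField AlgebraicCurve ModularCurve
open Fermat.Agent.S18_helper9_CDefs Fermat.Agent.S18_helper3_LOCRING
  Fermat.Agent.S18_helper25_COREDefs
  Fermat.Agent.S34_helper12_CDefs Fermat.Agent.S34_helper25_Defs
  Fermat.Agent.S34_helper27_C2Defs Fermat.Agent.S34_helper27_V3K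
  Fermat.Agent.S35_helper27_XD2Defs
  Fermat.Agent.S36_helper6_TORIC Fermat.Agent.S36_helper17_TRIPLEX
  Fermat.Agent.S36_helper4_XADefs Fermat.Agent.S36_helper3_XBPT
  Fermat.Agent.S36_helper3_XBDefs Fermat.Agent.S36_helper3_LOCABS
  Fermat.Agent.S36_helper3_LOCK Fermat.Agent.S36_helper2_C3
  Fermat.Agent.S36_helper2_BRANCHB

noncomputable section

namespace Fermat.Agent.S36_helper2_TRIFAM

local notation "Qb" => AlgebraicClosure ℚ

section Abs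

variable {L : Type} [Field L]

/-- the index type of the family of the subrings satisfying `Tp`. -/
def S36TF_ι (Tp : Subring L → Prop) : Type := {R : Subring L // Tp R}

/-- the family of the subrings satisfying `Tp`. -/
def S36TF_R (Tp : Subring L → Prop) : S36TF_ι Tp → Subring L := fun i => i.1

theorem S36TF_spec (Tp : Subring L → Prop) (i : S36TF_ι Tp) : Tp (S36TF_R Tp i) := i.2

/-- a subring is a member of the family iff it satisfies `Tp`. -/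
theorem S36TF_exists_iff (Tp : Subring L → Prop) (R0 : Subring L) :
    (∃ i : S36TF_ι Tp, S36TF_R Tp i = R0) ↔ Tp R0 :=
  ⟨fun ⟨i, hi⟩ => hi ▸ i.2, fun h => ⟨⟨R0, h⟩, rfl⟩⟩

end Abs

section K

variable (A : ValuationSubring Qb) (K1 : IntermediateField ℚ Qb)
  [IsDiscreteValuationRing (S18K_O1 A K1)] (M' q lam d P Q0 : ℕ) [NeZero M'] [NeZero q]
  [NeZero (M' * q)] [NeZero (M' * q * q)] [NeZero (q ^ 2)] (hq : q.Prime) (hqM : ¬ q ∣ M')
  (W2 W3 : Subring (LaurentSeries K1))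

/-- **the triple datum of a subring `R` at the carriers**: `R` is the local ring of the finite
chart or of the chart at infinity at a prime, it carries helper17's `S36TX_Triple`, and
`S1` is a unit of `V_∞` and of `V_mid`, `T2` a unit of `V_0`. -/
def S36TF_Trip (R : Subring (LaurentSeries K1)) : Prop :=
  (∃ S1 T2 : LaurentSeries K1,
    S36TX_Triple q (S18K_π A K1) S1 T2 (S18K_V A K1 (M' * q * q)) W2 W3 R ∧
      S1⁻¹ ∈ S18K_V A K1 (M' * q * q) ∧ T2⁻¹ ∈ W3 ∧ S1⁻¹ ∈ W2) ∧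
  ((∃ (m : Ideal (S18K_A0 A K1 (M' * q * q))) (hm : m.IsPrime),
      R = @locRing _ _ (S18K_A0 A K1 (M' * q * q)) m hm) ∨
    ∃ (m : Ideal (S18K_Ainf A K1 (M' * q * q))) (hm : m.IsPrime),
      R = @locRing _ _ (S18K_Ainf A K1 (M' * q * q)) m hm)

variable {A K1 M' q W2 W3}

/-- the constructor at a prime of the finite chart. -/
theorem S36TF_trip_of_A0 {S1 T2 : LaurentSeries K1}
    (m : Ideal (S18K_A0 A K1 (M' * q * q))) [hm : m.IsPrime]
    (T : S36TX_Triple q (S18K_π A K1) S1 T2 (S18K_V A K1 (M' * q * q)) W2 W3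
      (locRing (S18K_A0 A K1 (M' * q * q)) m))
    (h1 : S1⁻¹ ∈ S18K_V A K1 (M' * q * q)) (h2 : T2⁻¹ ∈ W3) (h3 : S1⁻¹ ∈ W2) :
    S36TF_Trip A K1 M' q W2 W3 (locRing (S18K_A0 A K1 (M' * q * q)) m) :=
  ⟨⟨S1, T2, T, h1, h2, h3⟩, Or.inl ⟨m, hm, rfl⟩⟩

/-- the constructor at a prime of the chart at infinity. -/
theorem S36TF_trip_of_Ainf {S1 T2 : LaurentSeries K1}
    (m : Ideal (S18K_Ainf A K1 (M' * q * q))) [hm : m.IsPrime]
    (T : S36TX_Triple q (S18K_π A K1) S1 T2 (S18K_V A K1 (M' * q * q)) W2 W3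
      (locRing (S18K_Ainf A K1 (M' * q * q)) m))
    (h1 : S1⁻¹ ∈ S18K_V A K1 (M' * q * q)) (h2 : T2⁻¹ ∈ W3) (h3 : S1⁻¹ ∈ W2) :
    S36TF_Trip A K1 M' q W2 W3 (locRing (S18K_Ainf A K1 (M' * q * q)) m) :=
  ⟨⟨S1, T2, T, h1, h2, h3⟩, Or.inr ⟨m, hm, rfl⟩⟩

variable {Tp : Subring (LaurentSeries K1) → Prop}
  (hTp : ∀ R, Tp R → S36TF_Trip A K1 M' q W2 W3 R)

include hTp

/-- field `trip_loc`. -/
theorem S36TF_trip_loc : ∀ i, IsLocalRing ↥(S36TF_R Tp i) := fun i => by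
  obtain ⟨⟨S1, T2, T, -⟩, -⟩ := hTp (S36TF_R Tp i) (S36TF_spec Tp i)
  exact T.isLocalRing

/-- field `trip_le1`. -/
theorem S36TF_trip_le1 : ∀ i, S36TF_R Tp i ≤ S18K_V A K1 (M' * q * q) := fun i => by
  obtain ⟨⟨S1, T2, T, -⟩, -⟩ := hTp (S36TF_R Tp i) (S36TF_spec Tp i)
  exact T.le_oo

/-- field `trip_le2`. -/
theorem S36TF_trip_le2 : ∀ i, S36TF_R Tp i ≤ W2 := fun i => by
  obtain ⟨⟨S1, T2, T, -⟩, -⟩ := hTp (S36TF_R Tp i) (S36TF_spec Tp i)
  exact T.le_mid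

/-- field `trip_le3`. -/
theorem S36TF_trip_le3 : ∀ i, S36TF_R Tp i ≤ W3 := fun i => by
  obtain ⟨⟨S1, T2, T, -⟩, -⟩ := hTp (S36TF_R Tp i) (S36TF_spec Tp i)
  exact T.le_0

/-- field `trip_O`. -/
theorem S36TF_trip_O
    (S : S34C_Setup (S18K_O A K1) (S18K_π A K1) (S18K_j K1) (S18K_F1 K1 (M' * q * q))
      (S18K_V A K1 (M' * q * q) ⊓ W2 ⊓ W3 : Subring (LaurentSeries K1))
      (S18K_A0 A K1 (M' * q * q)) (S18K_Ainf A K1 (M' * q * q))) :
    ∀ i, S18K_O A K1 ≤ S36TF_R Tp i := fun i => by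
  obtain ⟨-, ⟨m, hm, hR⟩ | ⟨m, hm, hR⟩⟩ := hTp (S36TF_R Tp i) (S36TF_spec Tp i)
  · rw [hR]
    exact (S36C3_O_le S S.chart0).trans (le_locRing _ m)
  · rw [hR]
    exact (S36C3_O_le S S.chartInf).trans (le_locRing _ m)

/-- field `trip_ic`. -/
theorem S36TF_trip_ic
    (S : S34C_Setup (S18K_O A K1) (S18K_π A K1) (S18K_j K1) (S18K_F1 K1 (M' * q * q))
      (S18K_V A K1 (M' * q * q) ⊓ W2 ⊓ W3 : Subring (LaurentSeries K1))
      (S18K_A0 A K1 (M' * q * q)) (S18K_Ainf A K1 (M' * q * q)))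
    (hlam : 0 < lam) :
    ∀ i, ∀ x ∈ S18K_F1 K1 (M' * q * q), x ^ lam ∈ S36TF_R Tp i → x ∈ S36TF_R Tp i := by
  intro i
  obtain ⟨⟨S1, T2, T, -⟩, ⟨m, hm, hR⟩ | ⟨m, hm, hR⟩⟩ := hTp (S36TF_R Tp i) (S36TF_spec Tp i)
  · rw [hR] at T ⊢
    exact S36BRAB_hic_setup S (Or.inl rfl) S.chart0 T hlam
  · rw [hR] at T ⊢
    exact S36BRAB_hic_setup S (Or.inr rfl) S.chartInf T hlam

/-- field `branch`: FACT-L + BRANCH36 at every member of the family, for every global root. -/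
theorem S36TF_branch (hA : A.LiesOverPrime q) (hlam : lam.Prime) (hne : lam ≠ q)
    (hlamd : lam ∣ d)
    (S : S34C_Setup (S18K_O A K1) (S18K_π A K1) (S18K_j K1) (S18K_F1 K1 (M' * q * q))
      (S18K_V A K1 (M' * q * q) ⊓ W2 ⊓ W3 : Subring (LaurentSeries K1))
      (S18K_A0 A K1 (M' * q * q)) (S18K_Ainf A K1 (M' * q * q)))
    (H1 : S34C2_Val (S18K_π A K1) (S18K_F1 K1 (M' * q * q)) (S18K_V A K1 (M' * q * q)))
    (H2 : S34C2_Val (S18K_π A K1) (S18K_F1 K1 (M' * q * q)) W2)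
    (H3 : S34C2_Val (S18K_π A K1) (S18K_F1 K1 (M' * q * q)) W3)
    (low_val : S34C2_Val (S18K_π A K1) (S18K_F1 K1 M') (S18K_V A K1 M'))
    (low_sep : ∀ x ∈ S18K_F1 K1 M', x ≠ 0 → ∃ (z : ℤ) (u : LaurentSeries K1),
      u ∈ S18K_V A K1 M' ∧ u⁻¹ ∈ S18K_V A K1 M' ∧ x = S18K_π A K1 ^ z * u)
    (deg : ∃ s : Finset (LaurentSeries K1), ∀ x ∈ S18K_F1 K1 (M' * q * q),
      ∃ c : LaurentSeries K1 → LaurentSeries K1, (∀ y, c y ∈ S18K_F1 K1 M') ∧
        x = ∑ y ∈ s, c y * y)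
    (le1 : S18K_V A K1 M' ≤ S18K_V A K1 (M' * q * q))
    (le2 : S18K_V A K1 M' ≤ W2) (le3 : S18K_V A K1 M' ≤ W3) :
    ∀ (f1 : LaurentSeries K1) (hf1 : f1 ∈ S18K_F1 K1 (M' * q * q)),
    S36XB_Good A K1 M' q d hq hqM W2 W3 f1 hf1 → ∀ i, ∀ G : LaurentSeries K1,
    RedPow (S18K_π A K1)
      (S18K_V A K1 (M' * q * q) ⊓ W2 ⊓ W3 : Subring (LaurentSeries K1)) lam f1 G →
    ∃ u0 g0 w1 w2 w3 : LaurentSeries K1, u0 ∈ S36TF_R Tp i ∧ u0⁻¹ ∈ S36TF_R Tp i ∧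
      g0 ∈ S18K_F1 K1 (M' * q * q) ∧ f1 = u0 * g0 ^ lam ∧
      (w1 ∈ S36TF_R Tp i ∧ w1⁻¹ ∈ S36TF_R Tp i ∧
        ∃ c ∈ S18K_V A K1 (M' * q * q), G * g0⁻¹ = w1 * (1 + S18K_π A K1 * c)) ∧
      (w2 ∈ S36TF_R Tp i ∧ w2⁻¹ ∈ S36TF_R Tp i ∧
        ∃ c ∈ W2, G * g0⁻¹ = w2 * (1 + S18K_π A K1 * c)) ∧
      (w3 ∈ S36TF_R Tp i ∧ w3⁻¹ ∈ S36TF_R Tp i ∧
        ∃ c ∈ W3, G * g0⁻¹ = w3 * (1 + S18K_π A K1 * c)) := by
  intro f1 hf1 hgood i G hred
  haveI : Fact q.Prime := ⟨hq⟩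
  haveI : CharZero (LaurentSeries K1) :=
    charZero_of_injective_ringHom (HahnSeries.C_injective (Γ := ℤ) (R := K1))
  obtain ⟨hf10, -, -, hord, -, -⟩ := hgood
  have hlamO : ((lam : LaurentSeries K1))⁻¹ ∈ S18K_O A K1 :=
    Fermat.Agent.S18_helper25_CORE.S18K_natCast_inv_mem A K1 hA lam hlam hne
  have hlamL : (lam : LaurentSeries K1) ≠ 0 := Nat.cast_ne_zero.mpr hlam.ne_zero
  have hF : S18K_F1 K1 M' ≤ S18K_F1 K1 (M' * q * q) :=
    S34V3K_F1_mono K1 ⟨q * q, by ring⟩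
  -- `PowDiv`
  have hπ0 : S18K_π A K1 ≠ 0 := S36C3_pi_ne_zero S
  have hFb : coeffMap (algebraMap K1 Qb) f1 ∈ modularFunctionFieldBar (M' * q * q) :=
    (S34XD_inc K1 (M' * q * q) ⟨f1, hf1⟩).2
  have hdiv' : ∀ P : Place Qb (modularFunctionFieldBar (M' * q * q)),
      (lam : ℤ) ∣ P.ord ⟨coeffMap (algebraMap K1 Qb) f1, hFb⟩ := by
    intro P
    have e : (⟨coeffMap (algebraMap K1 Qb) f1, hFb⟩ : modularFunctionFieldBar (M' * q * q)) =
        S34XD_inc K1 (M' * q * q) ⟨f1, hf1⟩ := Subtype.ext rfl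
    rw [e]
    exact (Int.natCast_dvd_natCast.2 hlamd).trans (hord P)
  obtain ⟨hdiv, -⟩ := Fermat.Agent.S18_helper25_CORE.S18K_powDiv_and_order
    (algebraMap K1 Qb) (M' * q * q) (S18K_O A K1) (S18K_π A K1) hπ0
    (fun c => Fermat.Agent.S18_helper25_CORE.S18K_const_mul_pow A K1 c) lam f1 hf1 hf10 hFb
    hdiv'
  obtain ⟨⟨S1, T2, T, h1, h2, h3⟩, ⟨m, hm, hR⟩ | ⟨m, hm, hR⟩⟩ := hTp (S36TF_R Tp i) (S36TF_spec Tp i)
  · rw [hR] at T ⊢
    exact S36BRAB_hB_setup S (Or.inl rfl) S.chart0 hF low_val low_sep deg H1 H2 H3 le1 le2 le3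
      T hq.two_le h1 h2 h3 hlam.pos hlamL hlamO f1 hf1 hf10 hdiv G hred
  · rw [hR] at T ⊢
    exact S36BRAB_hB_setup S (Or.inr rfl) S.chartInf hF low_val low_sep deg H1 H2 H3 le1 le2
      le3 T hq.two_le h1 h2 h3 hlam.pos hlamL hlamO f1 hf1 hf10 hdiv G hred

end K

end Fermat.Agent.S36_helper2_TRIFAM
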