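import Mathlib
import Fermat.Agent.S18_helper20_CSAT
import Fermat.Agent.S34_helper18_CUSP
import Fermat.Agent.S34_helper18_CMP
import Fermat.Agent.S34_helper18_CUSPIG
import Fermat.Agent.S36_helper9_ONE

/-!
# S36, GEO36, (REG36) `[ONE 0]` at the cusps: `[IG]` at the cusps of `0`-type (helper9)

Abstract layer, Subring-of-`L` vocabulary: the three-branch port of helper18's landed
`S34CIG_main`.  No two-valuation setup is used: the chart at infinity `Ainf` (integral closure of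
`O[1/j]` in `F1`) and the chart `At` (integral closure of `O[1/θ]` in `F1`, `θ = w(j) = j_qq`)
are given by their membership criterion; the two vertical conditions are membership in `π Q`,
`π Q'` for ARBITRARY subrings `Q`, `Q'` (in the application `Q = V_∞ ⊓ V_mid`,
`Q' = V_mid ⊓ V_0 = w(Q)`).

* `S36C0_main` : `[IG]` at the cusps `m` of `Ainf` with a witness `d ∉ m`, `d ∈ π Q` (cusps of
  `0`-type), from `[IG]` at the cusps `m'` of `Ainf` with a witness `d' ∉ m'`, `d' ∈ π Q'` (cusps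
  of `∞`-type) and the ring isomorphism `σ : Ainf ≃ At` induced by the Atkin-Lehner automorphism
  `w`, which fixes `π`, maps `1/j` to `1/θ` and carries `π Q'` to `π Q`.  Input: the modular
  relation between `j` and `θ` in both directions (level `q²`);
* `S36C0_step` : ONE comparison step between the charts `X = icl O[1/u]` and `X' = icl O[1/s]` at
  a cusp `m` of `X`: the cusp `mt` of `X'` with the same local ring, transfer of `[IG]` and of the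
  vertical conditions;
* `S36C0_main2` : **the same as `S36C0_main` with the LEVEL-`q` modular relations only**: the
  comparison is made in two steps `Ainf ~ A1 ~ At` through the chart `A1 = icl O[1/θ₁]`,
  `θ₁ = j_q`, with the relations between `(j, j_q)` and between `(j_q, j_qq)` (the second one is
  the image of the first under `Q ↦ Q^q`).  No modular equation of level `q²` is needed;
* `S36C0_transfer` : a witness `d ∈ A1 ∖ m1`, `d ∈ π Q` at the cusp `m1` of `A1` gives a witness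
  in `Ainf ∖ m`;
* `S36C0_cusp_cases` : **the trichotomy at a cusp** (no crossing at the cusps, three branches),
  with the packaged witnesses of `S36ONE_cases_wit`, from the two "no crossing at the cusps"
  statements of level `q` (along `α`: a witness in `π V_0` or in `π (V_∞ ⊓ V_mid)`; along `β`: a
  witness in `π (V_mid ⊓ V_0)` or in `π V_∞`).
-/

set_option autoImplicit false
set_option linter.style.haveILetI false
set_option linter.unusedVariables false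
set_option linter.unusedSectionVars false

namespace Fermat.Agent.S36_helper9_CUSP0

open Polynomial Fermat.Agent.S18_helper9_CDefs Fermat.Agent.S34_helper12_CDefs
  Fermat.Agent.S18_helper3_LOCRING Fermat.Agent.S18_helper20_CSAT
  Fermat.Agent.S34_helper18_CUSP Fermat.Agent.S34_helper18_CMP
  Fermat.Agent.S34_helper18_CUSPIG Fermat.Agent.S36_helper9_ONE

variable {L : Type*} [Field L]

variable {O : Subring L} {π j θ : L} {F1 : Subfield L} {Ainf At Q Q' : Subring L} {n : ℕ}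

/-- a transcendental element is non-zero -/
theorem S36C0_ne_zero_of_transcendental {x : L} (h : Transcendental O x) : x ≠ 0 := by
  intro h0
  refine h ⟨Polynomial.X, Polynomial.X_ne_zero, ?_⟩
  rw [Polynomial.aeval_X, h0]

/-- **(REG36) `[ONE 0]` at the cusps**: `[IG]` at the cusps of `0`-type of the chart at infinity
(`d ∈ π Q`, `d ∉ m`) from `[IG]` at the cusps of `∞`-type (`d ∈ π Q'`, `d ∉ m'`) and the ring
isomorphism `σ : Ainf ≃ At` induced by the Atkin-Lehner automorphism. -/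
theorem S36C0_main
    (hAinf : ∀ y, y ∈ Ainf ↔ IsIntegral (adj O j⁻¹) y ∧ y ∈ F1)
    (hAt : ∀ y, y ∈ At ↔ IsIntegral (adj O θ⁻¹) y ∧ y ∈ F1)
    (hOF : (O : Set L) ⊆ F1) (hjF : j ∈ F1) (hθF : θ ∈ F1)
    (htrj : Transcendental O j) (htrθ : Transcendental O θ)
    (hrel : S34CUSP_Rel O j θ n) (hrel' : S34CUSP_Rel O θ j n)
    (hAinfQ : Ainf ≤ Q) (hAtQ : At ≤ Q)
    (hπ : π ∈ Ainf) (hu : j⁻¹ ∈ Ainf) (hπt : π ∈ At) (hut : θ⁻¹ ∈ At) (hOinf : O ≤ Ainf)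
    (hOt : O ≤ At)
    (hres : ∀ (m : Ideal Ainf), m.IsMaximal → (⟨π, hπ⟩ : Ainf) ∈ m →
      ∀ z : Ainf, ∃ c : L, ∃ hc : c ∈ O, z - ⟨c, hOinf hc⟩ ∈ m)
    (hOunit : ∀ (m : Ideal Ainf), m.IsMaximal → (⟨π, hπ⟩ : Ainf) ∈ m →
      ∀ (c : L) (hc : c ∈ O), (⟨c, hOinf hc⟩ : Ainf) ∉ m → c⁻¹ ∈ O)
    (σ : Ainf ≃+* At) (hσπ : σ ⟨π, hπ⟩ = ⟨π, hπt⟩) (hσu : σ ⟨j⁻¹, hu⟩ = ⟨θ⁻¹, hut⟩)
    (hσ : ∀ a : Ainf, (∃ v ∈ Q', (a : L) = π * v) ↔ ∃ v ∈ Q, ((σ a : At) : L) = π * v)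
    (hIG1 : ∀ (m' : Ideal Ainf), m'.IsMaximal → (⟨π, hπ⟩ : Ainf) ∈ m' →
      (⟨j⁻¹, hu⟩ : Ainf) ∈ m' → (∃ d : Ainf, d ∉ m' ∧ ∃ v ∈ Q', (d : L) = π * v) →
      IGAt π Ainf m')
    (m : Ideal Ainf) (hm : m.IsMaximal) (hπm : (⟨π, hπ⟩ : Ainf) ∈ m)
    (hum : (⟨j⁻¹, hu⟩ : Ainf) ∈ m) (hd1 : ∃ d : Ainf, d ∉ m ∧ ∃ v ∈ Q, (d : L) = π * v) :
    IGAt π Ainf m := by
  have hmp : m.IsPrime := hm.isPrime
  have hj0 : j ≠ 0 := S36C0_ne_zero_of_transcendental htrj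
  have hθ0 : θ ≠ 0 := S36C0_ne_zero_of_transcendental htrθ
  obtain ⟨d, b, hb, hdb, hd, hS, c, hc, hSc⟩ :=
    S34CIG_S_mem O F1 j θ n Ainf hAinf hOF hjF hθF hj0 hθ0 htrj hrel
  obtain ⟨d', b', hb', hdb', hd', hS', -⟩ :=
    S34CIG_S_mem O F1 θ j n At hAt hOF hθF hjF hθ0 hj0 htrθ hrel'
  have hpole : ∀ y ∈ At, ∃ k : ℕ, d ^ k * y ∈ Ainf :=
    S34CIG_pole O F1 j⁻¹ θ⁻¹ d Ainf At hAinf hAt hOinf hd hS
  have hpole' : ∀ a ∈ Ainf, ∃ k : ℕ, d' ^ k * a ∈ At :=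
    S34CIG_pole O F1 θ⁻¹ j⁻¹ d' At Ainf hAt hAinf hOt hd' hS'
  have hem : ¬ S34CMP_In Ainf m d := by
    rintro ⟨h, hmem⟩
    have h1 : (1 : Ainf) = ⟨d, h⟩ - ⟨j⁻¹, hu⟩ * ⟨b, hb⟩ := Subtype.ext (by simp [hdb])
    exact hmp.ne_top ((Ideal.eq_top_iff_one m).mpr
      (h1 ▸ m.sub_mem hmem (m.mul_mem_right _ hum)))
  have hSm : S34CMP_In Ainf m (d * θ⁻¹) := by
    refine ⟨hS, hmp.mem_of_pow_mem (n + 1) ?_⟩
    have : (⟨d * θ⁻¹, hS⟩ : Ainf) ^ (n + 1) = ⟨j⁻¹, hu⟩ * ⟨c, hc⟩ :=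
      Subtype.ext (by simpa using hSc)
    rw [this]
    exact m.mul_mem_right _ hum
  have hclear := S34CIG_clear d b' d' hd hS hb' hdb' hd' hpole hpole' m hmp hem hSm
  -- the maximal ideal of `At` below `m`
  have hmax : (S34CMP_ideal Ainf At d hd hpole m).IsMaximal :=
    S34CMP_isMaximal hd hpole m hem O hOinf hOt hm (hres m hm hπm) (hOunit m hm hπm)
  have hπmt : (⟨π, hπt⟩ : At) ∈ S34CMP_ideal Ainf At d hd hpole m :=
    (S34CMP_mem_iff hd hpole m hmp hem hπ hπt).mpr hπm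
  have humt : (⟨θ⁻¹, hut⟩ : At) ∈ S34CMP_ideal Ainf At d hd hpole m :=
    ⟨1, hSm.of_eq (by rw [pow_one])⟩
  -- `mt` is not on the branches of `Q`
  have hnot : ¬ ∀ b : At, (∃ v ∈ Q, (b : L) = π * v) → b ∈ S34CMP_ideal Ainf At d hd hpole m := by
    intro h
    obtain ⟨d1, hd1m, hd1v⟩ := hd1
    exact hd1m ((S34CMP_thru_iff hd hpole m hmp hem hclear π Q hAinfQ hAtQ).mp h d1 hd1v)
  obtain ⟨dt, hdt⟩ := not_forall.mp hnot
  obtain ⟨hdtv, hdtm⟩ := Classical.not_imp.mp hdt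
  -- pull back along `σ`
  have hmax' : (Ideal.comap (σ : Ainf →+* At) (S34CMP_ideal Ainf At d hd hpole m)).IsMaximal :=
    Ideal.comap_isMaximal_of_surjective (σ : Ainf →+* At) σ.surjective
  have hIG' := hIG1 _ hmax' (by rw [Ideal.mem_comap]; simpa [hσπ] using hπmt)
    (by rw [Ideal.mem_comap]; simpa [hσu] using humt)
    ⟨σ.symm dt, by rw [Ideal.mem_comap]; simpa using hdtm,
      (hσ (σ.symm dt)).mpr (by simpa using hdtv)⟩
  exact S34CMP_IGAt hd hpole m hmp hem hclear π hπt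
    (S34CIG_IGAt_equiv Ainf At σ π hπ hπt hσπ _ hIG')

/-- **One comparison step at a cusp.**  `X = icl O[1/u]`, `X' = icl O[1/s]` in `F1`, with the
modular relation between `u` and `s` in both directions; `m` a maximal ideal of `X` containing
`π` and `1/u`, with residue field the image of `O`.  Then there is a maximal ideal `mt` of `X'`
containing `π` and `1/s` such that `[IG]` and the vertical conditions transfer. -/
theorem S36C0_step {u s : L} {X X' : Subring L}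
    (hX : ∀ y, y ∈ X ↔ IsIntegral (adj O u⁻¹) y ∧ y ∈ F1)
    (hX' : ∀ y, y ∈ X' ↔ IsIntegral (adj O s⁻¹) y ∧ y ∈ F1)
    (hOF : (O : Set L) ⊆ F1) (huF : u ∈ F1) (hsF : s ∈ F1)
    (htru : Transcendental O u) (htrs : Transcendental O s)
    (hrel : S34CUSP_Rel O u s n) (hrel' : S34CUSP_Rel O s u n)
    (hπ : π ∈ X) (hu : u⁻¹ ∈ X) (hπ' : π ∈ X') (hs : s⁻¹ ∈ X') (hOX : O ≤ X) (hOX' : O ≤ X')
    (m : Ideal X) (hm : m.IsMaximal) (hπm : (⟨π, hπ⟩ : X) ∈ m) (hum : (⟨u⁻¹, hu⟩ : X) ∈ m)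
    (hres : ∀ z : X, ∃ c : L, ∃ hc : c ∈ O, z - ⟨c, hOX hc⟩ ∈ m)
    (hOunit : ∀ (c : L) (hc : c ∈ O), (⟨c, hOX hc⟩ : X) ∉ m → c⁻¹ ∈ O) :
    ∃ mt : Ideal X', mt.IsMaximal ∧ (⟨π, hπ'⟩ : X') ∈ mt ∧ (⟨s⁻¹, hs⟩ : X') ∈ mt ∧
      (IGAt π X' mt → IGAt π X m) ∧
      ∀ Q : Subring L, X ≤ Q → X' ≤ Q →
        ((∀ b : X', (∃ v ∈ Q, (b : L) = π * v) → b ∈ mt) ↔
          ∀ a : X, (∃ v ∈ Q, (a : L) = π * v) → a ∈ m) := by
  have hmp : m.IsPrime := hm.isPrime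
  have hu0 : u ≠ 0 := S36C0_ne_zero_of_transcendental htru
  have hs0 : s ≠ 0 := S36C0_ne_zero_of_transcendental htrs
  obtain ⟨d, b, hb, hdb, hd, hS, c, hc, hSc⟩ :=
    S34CIG_S_mem O F1 u s n X hX hOF huF hsF hu0 hs0 htru hrel
  obtain ⟨d', b', hb', hdb', hd', hS', -⟩ :=
    S34CIG_S_mem O F1 s u n X' hX' hOF hsF huF hs0 hu0 htrs hrel'
  have hpole : ∀ y ∈ X', ∃ k : ℕ, d ^ k * y ∈ X :=
    S34CIG_pole O F1 u⁻¹ s⁻¹ d X X' hX hX' hOX hd hS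
  have hpole' : ∀ a ∈ X, ∃ k : ℕ, d' ^ k * a ∈ X' :=
    S34CIG_pole O F1 s⁻¹ u⁻¹ d' X' X hX' hX hOX' hd' hS'
  have hem : ¬ S34CMP_In X m d := by
    rintro ⟨h, hmem⟩
    have h1 : (1 : X) = ⟨d, h⟩ - ⟨u⁻¹, hu⟩ * ⟨b, hb⟩ := Subtype.ext (by simp [hdb])
    exact hmp.ne_top ((Ideal.eq_top_iff_one m).mpr
      (h1 ▸ m.sub_mem hmem (m.mul_mem_right _ hum)))
  have hSm : S34CMP_In X m (d * s⁻¹) := by
    refine ⟨hS, hmp.mem_of_pow_mem (n + 1) ?_⟩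
    have : (⟨d * s⁻¹, hS⟩ : X) ^ (n + 1) = ⟨u⁻¹, hu⟩ * ⟨c, hc⟩ :=
      Subtype.ext (by simpa using hSc)
    rw [this]
    exact m.mul_mem_right _ hum
  have hclear := S34CIG_clear (Ainf := X) (At := X') (θ := s) d b' d' hd hS hb' hdb' hd'
    hpole hpole' m hmp hem hSm
  refine ⟨S34CMP_ideal X X' d hd hpole m,
    S34CMP_isMaximal hd hpole m hem O hOX hOX' hm hres hOunit,
    (S34CMP_mem_iff hd hpole m hmp hem hπ hπ').mpr hπm,
    ⟨1, hSm.of_eq (by rw [pow_one])⟩,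
    fun h => S34CMP_IGAt hd hpole m hmp hem hclear π hπ' h,
    fun Q hXQ hX'Q => S34CMP_thru_iff hd hpole m hmp hem hclear π Q hXQ hX'Q⟩

/-- **(REG36) `[ONE 0]` at the cusps, with the modular relations of level `q` only.**  Three
charts `Ainf = icl O[1/j]`, `A1 = icl O[1/θ₁]`, `At = icl O[1/θ]` (`θ₁ = j_q`, `θ = j_qq`); the
modular relation between `(j, θ₁)` and between `(θ₁, θ)` in both directions; `σ : Ainf ≃ At`
induced by the Atkin-Lehner automorphism `w_(q²)`.  `[IG]` at the cusps of `0`-type of `Ainf`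
(`d ∈ π Q`, `d ∉ m`) from `[IG]` at the cusps of `∞`-type (`d ∈ π Q'`, `d ∉ m'`). -/
theorem S36C0_main2 {θ₁ : L} {A1 : Subring L}
    (hAinf : ∀ y, y ∈ Ainf ↔ IsIntegral (adj O j⁻¹) y ∧ y ∈ F1)
    (hA1 : ∀ y, y ∈ A1 ↔ IsIntegral (adj O θ₁⁻¹) y ∧ y ∈ F1)
    (hAt : ∀ y, y ∈ At ↔ IsIntegral (adj O θ⁻¹) y ∧ y ∈ F1)
    (hOF : (O : Set L) ⊆ F1) (hjF : j ∈ F1) (hθ₁F : θ₁ ∈ F1) (hθF : θ ∈ F1)
    (htrj : Transcendental O j) (htrθ₁ : Transcendental O θ₁) (htrθ : Transcendental O θ)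
    (hrel : S34CUSP_Rel O j θ₁ n) (hrel' : S34CUSP_Rel O θ₁ j n)
    (hrel₁ : S34CUSP_Rel O θ₁ θ n) (hrel₁' : S34CUSP_Rel O θ θ₁ n)
    (hAinfQ : Ainf ≤ Q) (hA1Q : A1 ≤ Q) (hAtQ : At ≤ Q)
    (hπ : π ∈ Ainf) (hu : j⁻¹ ∈ Ainf) (hπ1 : π ∈ A1) (hu1 : θ₁⁻¹ ∈ A1)
    (hπt : π ∈ At) (hut : θ⁻¹ ∈ At) (hOinf : O ≤ Ainf) (hO1 : O ≤ A1) (hOt : O ≤ At)
    (hres : ∀ (m : Ideal Ainf), m.IsMaximal → (⟨π, hπ⟩ : Ainf) ∈ m →
      ∀ z : Ainf, ∃ c : L, ∃ hc : c ∈ O, z - ⟨c, hOinf hc⟩ ∈ m)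
    (hOunit : ∀ (m : Ideal Ainf), m.IsMaximal → (⟨π, hπ⟩ : Ainf) ∈ m →
      ∀ (c : L) (hc : c ∈ O), (⟨c, hOinf hc⟩ : Ainf) ∉ m → c⁻¹ ∈ O)
    (hres1 : ∀ (m : Ideal A1), m.IsMaximal → (⟨π, hπ1⟩ : A1) ∈ m →
      ∀ z : A1, ∃ c : L, ∃ hc : c ∈ O, z - ⟨c, hO1 hc⟩ ∈ m)
    (hOunit1 : ∀ (m : Ideal A1), m.IsMaximal → (⟨π, hπ1⟩ : A1) ∈ m →
      ∀ (c : L) (hc : c ∈ O), (⟨c, hO1 hc⟩ : A1) ∉ m → c⁻¹ ∈ O)
    (σ : Ainf ≃+* At) (hσπ : σ ⟨π, hπ⟩ = ⟨π, hπt⟩) (hσu : σ ⟨j⁻¹, hu⟩ = ⟨θ⁻¹, hut⟩)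
    (hσ : ∀ a : Ainf, (∃ v ∈ Q', (a : L) = π * v) ↔ ∃ v ∈ Q, ((σ a : At) : L) = π * v)
    (hIG1 : ∀ (m' : Ideal Ainf), m'.IsMaximal → (⟨π, hπ⟩ : Ainf) ∈ m' →
      (⟨j⁻¹, hu⟩ : Ainf) ∈ m' → (∃ d : Ainf, d ∉ m' ∧ ∃ v ∈ Q', (d : L) = π * v) →
      IGAt π Ainf m')
    (m : Ideal Ainf) (hm : m.IsMaximal) (hπm : (⟨π, hπ⟩ : Ainf) ∈ m)
    (hum : (⟨j⁻¹, hu⟩ : Ainf) ∈ m) (hd1 : ∃ d : Ainf, d ∉ m ∧ ∃ v ∈ Q, (d : L) = π * v) :
    IGAt π Ainf m := by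
  obtain ⟨m1, hm1, hπm1, hum1, hIGa, hthru_a⟩ :=
    S36C0_step hAinf hA1 hOF hjF hθ₁F htrj htrθ₁ hrel hrel' hπ hu hπ1 hu1 hOinf hO1
      m hm hπm hum (hres m hm hπm) (hOunit m hm hπm)
  obtain ⟨mt, hmt, hπmt, humt, hIGb, hthru_b⟩ :=
    S36C0_step hA1 hAt hOF hθ₁F hθF htrθ₁ htrθ hrel₁ hrel₁' hπ1 hu1 hπt hut hO1 hOt
      m1 hm1 hπm1 hum1 (hres1 m1 hm1 hπm1) (hOunit1 m1 hm1 hπm1)
  -- `mt` is not on the branches of `Q`
  have hnot : ¬ ∀ b : At, (∃ v ∈ Q, (b : L) = π * v) → b ∈ mt := by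
    intro h
    obtain ⟨d1, hd1m, hd1v⟩ := hd1
    exact hd1m ((hthru_a Q hAinfQ hA1Q).mp ((hthru_b Q hA1Q hAtQ).mp h) d1 hd1v)
  obtain ⟨dt, hdt⟩ := not_forall.mp hnot
  obtain ⟨hdtv, hdtm⟩ := Classical.not_imp.mp hdt
  have hmax' : (Ideal.comap (σ : Ainf →+* At) mt).IsMaximal :=
    Ideal.comap_isMaximal_of_surjective (σ : Ainf →+* At) σ.surjective
  have hIG' := hIG1 _ hmax' (by rw [Ideal.mem_comap]; simpa [hσπ] using hπmt)
    (by rw [Ideal.mem_comap]; simpa [hσu] using humt)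
    ⟨σ.symm dt, by rw [Ideal.mem_comap]; simpa using hdtm,
      (hσ (σ.symm dt)).mpr (by simpa using hdtv)⟩
  exact hIGa (hIGb (S34CIG_IGAt_equiv Ainf At σ π hπ hπt hσπ _ hIG'))

/-- **The trichotomy at a cusp** (no crossing at the cusps, three branches).  `X` a subring of
`V_∞`, `V_mid`, `V_0`, `m` a prime ideal of `X`; `hα`: a witness outside `m` in `π V_0` or in
`π (V_∞ ⊓ V_mid)` (the level-`q` statement for `α(m)`); `hβ`: a witness outside `m` in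
`π (V_mid ⊓ V_0)` or in `π V_∞` (the level-`q` statement for `β(m)`).  Then `m` has a packaged
witness for exactly one branch. -/
theorem S36C0_cusp_cases {Voo Vmid V0 X : Subring L} (hXoo : X ≤ Voo) (hX0 : X ≤ V0)
    (m : Ideal X) [hm : m.IsPrime]
    (hα : ∃ d : X, d ∉ m ∧ ((∃ v ∈ V0, (d : L) = π * v) ∨
      ∃ v ∈ (Voo ⊓ Vmid : Subring L), (d : L) = π * v))
    (hβ : ∃ d : X, d ∉ m ∧ ((∃ v ∈ (Vmid ⊓ V0 : Subring L), (d : L) = π * v) ∨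
      ∃ v ∈ Voo, (d : L) = π * v)) :
    (∃ d : X, d ∉ m ∧ ∃ v ∈ (Vmid ⊓ V0 : Subring L), (d : L) = π * v) ∨
    (∃ d : X, d ∉ m ∧ ∃ v ∈ (Voo ⊓ V0 : Subring L), (d : L) = π * v) ∨
    (∃ d : X, d ∉ m ∧ ∃ v ∈ (Voo ⊓ Vmid : Subring L), (d : L) = π * v) := by
  obtain ⟨d, hdm, hd⟩ := hα
  obtain ⟨e, hem, he⟩ := hβ
  rcases hd with hd | hd
  · rcases he with he | he
    · exact Or.inl ⟨e, hem, he⟩
    · refine Or.inr (Or.inl ⟨e * d, fun h => ?_, ?_⟩)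
      · rcases hm.mem_or_mem h with h1 | h1
        exacts [hem h1, hdm h1]
      · obtain ⟨v, hv, hdv⟩ := hd
        obtain ⟨w, hw, hew⟩ := he
        refine ⟨w * (d : L), ⟨Voo.mul_mem hw (hXoo d.2), ?_⟩, ?_⟩
        · have h1 : w * (d : L) = (e : L) * v := by rw [hdv, hew]; ring
          rw [h1]
          exact V0.mul_mem (hX0 e.2) hv
        · rw [Subring.coe_mul, hew]; ring
  · exact Or.inr (Or.inr ⟨d, hdm, hd⟩)

/-- **Transfer of a witness** from the chart `A1` to the chart `Ainf` at a cusp: the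
contrapositive of the transfer of the vertical conditions of `S36C0_step`. -/
theorem S36C0_transfer {X X' : Subring L} (m : Ideal X) (mt : Ideal X') (Q : Subring L)
    (hthru : (∀ b : X', (∃ v ∈ Q, (b : L) = π * v) → b ∈ mt) ↔
      ∀ a : X, (∃ v ∈ Q, (a : L) = π * v) → a ∈ m)
    (h : ∃ d : X', d ∉ mt ∧ ∃ v ∈ Q, (d : L) = π * v) :
    ∃ d : X, d ∉ m ∧ ∃ v ∈ Q, (d : L) = π * v := by
  obtain ⟨d, hdm, hd⟩ := h
  by_contra hcon
  apply hdm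
  refine hthru.mpr (fun a ha => ?_) d hd
  by_contra ham
  exact hcon ⟨a, ham, ha⟩

end Fermat.Agent.S36_helper9_CUSP0
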