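import Mathlib
import Fermat.Agent.S18_helper9_CDefs
import Fermat.Agent.S18_helper9_CBasic
import Fermat.Agent.S18_helper3_LOCRING
import Fermat.Agent.S34_helper12_CDefs
import Fermat.Agent.S34_helper27_C2Defs
import Fermat.Agent.S34_helper19_SMOOTH
import Fermat.Agent.S36_helper19_LOCAL

/-!
# S36, GEO36, (II.4) at the THIN one-branch points: the local shape from `[IG]` (helper9)

Abstract layer, Subring-of-`L` vocabulary (Mathlib + the landed S18 X-C-LOCRING + S34 SMOOTH).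

Setting: `W1` a valuation ring of `F1` with uniformiser `π` (`V_∞` or `V_0`), `W'` ANY subring
(the intersection of the two other valuation rings), `A ≤ W1`, `A ≤ W'` a noetherian subring
with fraction field `F1`, saturated (`v ∈ W1`, `v ∈ W'`, `π v ∈ A` imply `v ∈ A`); `m` a prime of
`A` containing `π` with a witness `d ∈ A`, `d ∉ m`, `d ∈ π W'` (`m` lies on the branch of `W1`
only).

* `S36THIN_inv_mem`, `S36THIN_locRing_le` : `A_m ≤ W1`;
* `S36THIN_sat` : `A_m` is `π`-saturated in `W1`;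
* `S36THIN_loc` : `W1` is a localisation of `A_m` (NEW compared with S34: no valuation property of
  `W'` is used; `W1 = (A_m)_(π)` because `A_m` is a noetherian domain in which the non-units of
  `W1` are the multiples of `π`);
* `S36THIN_locHyp` : the hypotheses `LocHyp` of S18 X-C-LOCRING for `(π, W1, A_m)`;
* `S36THIN_shape` : **`IGAt π A m` + `PowDiv` + `RedPow π W1` give `S34C_Shape π F1 W1 A p f G m`**,
  the hypothesis `hshape` of helper19's `S36LOC_locLift1` (so at the thin one-branch points,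
  finite points and cusps alike, neither FACT nor BRANCH36 is needed);
* `S36THIN_locLift_oo`, `S36THIN_locLift_0` : **the local lift `S34C_LocLift` of block C' for
  `V = (V_∞ ⊓ V_mid) ⊓ V_0` at the one-branch points of `V_∞`, resp. of `V_0`**, from `[IG]` at
  `m` and the packaged witness of `S36ONE_cases_wit` (`S36THIN_shape` + `S36LOC_locLift1`).
-/

set_option autoImplicit false
set_option linter.style.haveILetI false
set_option linter.unusedVariables false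
set_option linter.unusedSectionVars false

namespace Fermat.Agent.S36_helper9_THIN

open Fermat.Agent.S18_helper9_CDefs Fermat.Agent.S18_helper9_CBasic
  Fermat.Agent.S18_helper3_LOCRING Fermat.Agent.S34_helper12_CDefs
  Fermat.Agent.S34_helper27_C2Defs Fermat.Agent.S34_helper19_SMOOTH
  Fermat.Agent.S36_helper19_LOCAL

variable {L : Type*} [Field L] {π : L} {F1 : Subfield L} {W1 W' A : Subring L}

/-- Elements of `A` outside `m` are units of `W1`. -/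
theorem S36THIN_inv_mem (hunif1 : ∀ x ∈ W1, x⁻¹ ∉ W1 → ∃ v ∈ W1, x = π * v)
    (hA1 : A ≤ W1) (hA' : A ≤ W')
    (hsat : ∀ v : L, v ∈ W1 → v ∈ W' → π * v ∈ A → v ∈ A) (hπ : π ∈ A)
    (m : Ideal A) [hm : m.IsPrime] (hπm : (⟨π, hπ⟩ : A) ∈ m) (d : A) (hdm : d ∉ m)
    (hd : ∃ v ∈ W', (d : L) = π * v) {c : A} (hc : c ∉ m) : ((c : L))⁻¹ ∈ W1 := by
  by_contra hcon
  obtain ⟨v, hv, hcv⟩ := hunif1 _ (hA1 c.2) hcon
  obtain ⟨v₂, hv₂, hdv⟩ := hd
  have ht1 : v * (d : L) ∈ W1 := W1.mul_mem hv (hA1 d.2)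
  have ht2 : v * (d : L) ∈ W' := by
    have : v * (d : L) = (c : L) * v₂ := by rw [hdv, hcv]; ring
    rw [this]
    exact W'.mul_mem (hA' c.2) hv₂
  have htA : v * (d : L) ∈ A := hsat _ ht1 ht2 (by
    have : π * (v * (d : L)) = (c : L) * (d : L) := by rw [hcv]; ring
    rw [this]; exact A.mul_mem c.2 d.2)
  have hcd : c * d = ⟨π, hπ⟩ * ⟨v * (d : L), htA⟩ := by
    apply Subtype.ext
    show (c : L) * (d : L) = π * (v * (d : L))
    rw [hcv]; ring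
  have hmem : c * d ∈ m := by
    rw [hcd]; exact m.mul_mem_right _ hπm
  rcases hm.mem_or_mem hmem with h1 | h1
  exacts [hc h1, hdm h1]

/-- The local ring `A_m` is contained in `W1`. -/
theorem S36THIN_locRing_le (hunif1 : ∀ x ∈ W1, x⁻¹ ∉ W1 → ∃ v ∈ W1, x = π * v)
    (hA1 : A ≤ W1) (hA' : A ≤ W')
    (hsat : ∀ v : L, v ∈ W1 → v ∈ W' → π * v ∈ A → v ∈ A) (hπ : π ∈ A)
    (m : Ideal A) [hm : m.IsPrime] (hπm : (⟨π, hπ⟩ : A) ∈ m) (d : A) (hdm : d ∉ m)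
    (hd : ∃ v ∈ W', (d : L) = π * v) : locRing A m ≤ W1 := by
  rintro y ⟨a, c, hc, hy⟩
  have hc0 := coe_ne_zero_of_notMem A m hc
  have : y = (a : L) * ((c : L))⁻¹ := by rw [← hy]; field_simp
  rw [this]
  exact W1.mul_mem (hA1 a.2) (S36THIN_inv_mem hunif1 hA1 hA' hsat hπ m hπm d hdm hd hc)

/-- The local ring `A_m` is `π`-saturated in `W1`. -/
theorem S36THIN_sat (hA1 : A ≤ W1) (hA' : A ≤ W')
    (hsat : ∀ v : L, v ∈ W1 → v ∈ W' → π * v ∈ A → v ∈ A)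
    (m : Ideal A) [hm : m.IsPrime] (d : A) (hdm : d ∉ m)
    (hd : ∃ v ∈ W', (d : L) = π * v) {v : L} (hv : v ∈ W1)
    (hπv : π * v ∈ locRing A m) : v ∈ locRing A m := by
  obtain ⟨a, c, hc, hac⟩ := hπv
  obtain ⟨v₂, hv₂, hdv⟩ := hd
  have ht1 : v * (c : L) * (d : L) ∈ W1 :=
    W1.mul_mem (W1.mul_mem hv (hA1 c.2)) (hA1 d.2)
  have ht2 : v * (c : L) * (d : L) ∈ W' := by
    have : v * (c : L) * (d : L) = (a : L) * v₂ := by rw [hdv, ← hac]; ring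
    rw [this]
    exact W'.mul_mem (hA' a.2) hv₂
  have htA : v * (c : L) * (d : L) ∈ A := hsat _ ht1 ht2 (by
    have : π * (v * (c : L) * (d : L)) = (a : L) * (d : L) := by rw [← hac]; ring
    rw [this]; exact A.mul_mem a.2 d.2)
  refine ⟨⟨_, htA⟩, c * d, fun h => ?_, ?_⟩
  · rcases hm.mem_or_mem h with h1 | h1
    exacts [hc h1, hdm h1]
  · push_cast
    ring

/-- In a noetherian subring `R` of `L` which is `π`-saturated in `W1`, every non-zero element is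
`π ^ k * b'` with `b'` a unit of `W1`. -/
theorem S36THIN_factor {R : Subring L} [IsNoetherianRing R]
    (hunif1 : ∀ x ∈ W1, x⁻¹ ∉ W1 → ∃ v ∈ W1, x = π * v) (hR1 : R ≤ W1)
    (hsatR : ∀ v : L, v ∈ W1 → π * v ∈ R → v ∈ R) (hπR : π ∈ R)
    (hπu : ¬ IsUnit (⟨π, hπR⟩ : R)) {b : L} (hb : b ∈ R) (hb0 : b ≠ 0) :
    ∃ (k : ℕ) (b' : L), b' ∈ R ∧ b'⁻¹ ∈ W1 ∧ b = π ^ k * b' := by
  have hb0' : (⟨b, hb⟩ : R) ≠ 0 := fun h => hb0 (congrArg Subtype.val h)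
  obtain ⟨k, b', hndvd, hbb'⟩ := WfDvdMonoid.max_power_factor' hb0' hπu
  refine ⟨k, (b' : L), b'.2, ?_, ?_⟩
  · by_contra hcon
    obtain ⟨v, hv, hbv⟩ := hunif1 _ (hR1 b'.2) hcon
    have hvR : v ∈ R := hsatR v hv (hbv ▸ b'.2)
    apply hndvd
    exact ⟨⟨v, hvR⟩, Subtype.ext hbv⟩
  · have := congrArg Subtype.val hbb'
    simpa using this

/-- **`W1` is a localisation of the local ring `A_m`**: `W1 = (A_m)_(π)`. -/
theorem S36THIN_loc [IsNoetherianRing A] (hval1 : S34C2_Val π F1 W1)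
    (hunif1 : ∀ x ∈ W1, x⁻¹ ∉ W1 → ∃ v ∈ W1, x = π * v)
    (hA1 : A ≤ W1) (hA' : A ≤ W')
    (hsat : ∀ v : L, v ∈ W1 → v ∈ W' → π * v ∈ A → v ∈ A) (hπ : π ∈ A)
    (hfrac : ∀ x ∈ F1, ∃ a b : L, a ∈ A ∧ b ∈ A ∧ b ≠ 0 ∧ x * b = a)
    (m : Ideal A) [hm : m.IsPrime] (hπm : (⟨π, hπ⟩ : A) ∈ m) (d : A) (hdm : d ∉ m)
    (hd : ∃ v ∈ W', (d : L) = π * v) :
    ∀ v ∈ W1, ∃ b ∈ locRing A m, b ≠ 0 ∧ b⁻¹ ∈ W1 ∧ v * b ∈ locRing A m := by
  letI : IsNoetherianRing (locRing A m) := isNoetherianRing_locRing A m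
  have hπ0 : π ≠ 0 := by
    rintro rfl
    exact hval1.π_nonunit (by rw [inv_zero]; exact W1.zero_mem)
  have hR1 : locRing A m ≤ W1 := S36THIN_locRing_le hunif1 hA1 hA' hsat hπ m hπm d hdm hd
  have hsatR : ∀ v : L, v ∈ W1 → π * v ∈ locRing A m → v ∈ locRing A m :=
    fun v hv h => S36THIN_sat hA1 hA' hsat m d hdm hd hv h
  have hπR : π ∈ locRing A m := le_locRing A m hπ
  have hπu : ¬ IsUnit (⟨π, hπR⟩ : locRing A m) := by
    intro hu
    obtain ⟨z, hz⟩ := hu.exists_right_inv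
    have h1 : π * (z : L) = 1 := congrArg Subtype.val hz
    apply hval1.π_nonunit
    rw [inv_eq_of_mul_eq_one_right h1]
    exact hR1 z.2
  intro v hv
  by_cases hv0 : v = 0
  · exact ⟨1, (locRing A m).one_mem, one_ne_zero, by rw [inv_one]; exact W1.one_mem, by
      rw [hv0, zero_mul]; exact (locRing A m).zero_mem⟩
  obtain ⟨a, b, ha, hb, hb0, hvb⟩ := hfrac v (hval1.le hv)
  have ha0 : a ≠ 0 := by
    rw [← hvb]
    exact mul_ne_zero hv0 hb0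
  obtain ⟨k, b', hb'R, hb'inv, hbk⟩ :=
    S36THIN_factor hunif1 hR1 hsatR hπR hπu (le_locRing A m hb) hb0
  obtain ⟨l, a', ha'R, ha'inv, hal⟩ :=
    S36THIN_factor hunif1 hR1 hsatR hπR hπu (le_locRing A m ha) ha0
  have hb'0 : b' ≠ 0 := by
    rintro rfl
    exact hb0 (by rw [hbk, mul_zero])
  have ha'0 : a' ≠ 0 := by
    rintro rfl
    exact ha0 (by rw [hal, mul_zero])
  -- `v * π ^ k * b' = π ^ l * a'`
  have hrel : v * (π ^ k * b') = π ^ l * a' := by rw [← hbk, ← hal, hvb]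
  have hkl : k ≤ l := by
    by_contra hlt
    have hlt' : l < k := Nat.lt_of_not_ge hlt
    -- `π ^ (k - l) * v = a' / b'`, a unit of `W1`
    have h1 : π ^ (k - l - 1) * (v * (b' * a'⁻¹)) * π = 1 := by
      have hk : k = l + ((k - l - 1) + 1) := by omega
      have h2 : v * (π ^ (l + ((k - l - 1) + 1)) * b') = π ^ l * a' := by rw [← hk]; exact hrel
      have hπl : π ^ l ≠ 0 := pow_ne_zero _ hπ0
      have h3 : v * π ^ ((k - l - 1) + 1) * b' = a' := by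
        apply mul_left_cancel₀ hπl
        rw [← h2, pow_add]; ring
      have h4 : v * π ^ ((k - l - 1) + 1) * b' * a'⁻¹ = 1 := by
        rw [h3, mul_inv_cancel₀ ha'0]
      rw [← h4, pow_succ]; ring
    apply hval1.π_nonunit
    have h5 : π⁻¹ = π ^ (k - l - 1) * (v * (b' * a'⁻¹)) := by
      rw [eq_comm, ← mul_eq_one_iff_eq_inv₀ hπ0]
      exact h1
    rw [h5]
    exact W1.mul_mem (W1.pow_mem hval1.π_mem _)
      (W1.mul_mem hv (W1.mul_mem (hR1 hb'R) ha'inv))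
  refine ⟨b', hb'R, hb'0, hb'inv, ?_⟩
  have h6 : v * b' = π ^ (l - k) * a' := by
    have hl : l = k + (l - k) := by omega
    have hπk : π ^ k ≠ 0 := pow_ne_zero _ hπ0
    apply mul_left_cancel₀ hπk
    have h7 : π ^ k * (π ^ (l - k) * a') = π ^ l * a' := by
      rw [← mul_assoc, ← pow_add, ← hl]
    rw [h7, ← hrel]; ring
  rw [h6]
  exact (locRing A m).mul_mem ((locRing A m).pow_mem hπR _) ha'R

/-- **The hypotheses of S18 X-C-LOCRING hold for the local ring `A_m` and the valuation ring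
`W1` of the branch through `m`.** -/
theorem S36THIN_locHyp [IsNoetherianRing A] (hval1 : S34C2_Val π F1 W1)
    (hunif1 : ∀ x ∈ W1, x⁻¹ ∉ W1 → ∃ v ∈ W1, x = π * v)
    (hA1 : A ≤ W1) (hA' : A ≤ W')
    (hsat : ∀ v : L, v ∈ W1 → v ∈ W' → π * v ∈ A → v ∈ A) (hπ : π ∈ A)
    (hfrac : ∀ x ∈ F1, ∃ a b : L, a ∈ A ∧ b ∈ A ∧ b ≠ 0 ∧ x * b = a)
    (m : Ideal A) [hm : m.IsPrime] (hπm : (⟨π, hπ⟩ : A) ∈ m) (d : A) (hdm : d ∉ m)
    (hd : ∃ v ∈ W', (d : L) = π * v) :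
    LocHyp π W1 (locRing A m) (IsLocalRing.maximalIdeal (locRing A m)) where
  π_mem := le_locRing A m hπ
  π_mem_m := fun _ => incl_mem_maximalIdeal A m hπm
  le_V := S36THIN_locRing_le hunif1 hA1 hA' hsat hπ m hπm d hdm hd
  sat := fun _ hv h => S36THIN_sat hA1 hA' hsat m d hdm hd hv h
  V_unif := hunif1
  π_nonunit := hval1.π_nonunit
  loc := S36THIN_loc hval1 hunif1 hA1 hA' hsat hπ hfrac m hπm d hdm hd

/-- **(II.4) at a thin one-branch point.**  At a prime `m ∋ π` of `A` lying on the branch of `W1`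
only (witness `d`), with `[IG]` at `m`: the local shape of `f` at `m` with respect to the single
valuation ring `W1`.  This is the hypothesis `hshape` of helper19's `S36LOC_locLift1`. -/
theorem S36THIN_shape [IsNoetherianRing A] (hval1 : S34C2_Val π F1 W1)
    (hunif1 : ∀ x ∈ W1, x⁻¹ ∉ W1 → ∃ v ∈ W1, x = π * v)
    (hA1 : A ≤ W1) (hA' : A ≤ W')
    (hsat : ∀ v : L, v ∈ W1 → v ∈ W' → π * v ∈ A → v ∈ A) (hπ : π ∈ A)
    (hfrac : ∀ x ∈ F1, ∃ a b : L, a ∈ A ∧ b ∈ A ∧ b ≠ 0 ∧ x * b = a)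
    (m : Ideal A) [hm : m.IsPrime] (hπm : (⟨π, hπ⟩ : A) ∈ m) (d : A) (hdm : d ∉ m)
    (hd : ∃ v ∈ W', (d : L) = π * v) (hIG : IGAt π A m) (O : Subring L) (hOA : O ≤ A)
    {p : ℕ} (hp : p.Prime) (f G : L) (hf0 : f ≠ 0)
    (hdiv : PowDiv O π F1 p f) (hred : RedPow π W1 p f G) :
    S34C_Shape π F1 W1 A p f G m := by
  letI : IsNoetherianRing (locRing A m) := isNoetherianRing_locRing A m
  have H := S36THIN_locHyp hval1 hunif1 hA1 hA' hsat hπ hfrac m hπm d hdm hd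
  have hIG' := S34SM_IGAt m hπ hIG
  obtain ⟨u, w, g, hgF, hgV, hgV', hg0, hfug, c, hc, hG⟩ :=
    H.locring_core hIG' O F1 (hOA.trans (le_locRing A m)) hval1.le hval1.val p hp f G hf0
      hdiv hred
  obtain ⟨hu1, hu2⟩ := unit_mem_locRing u
  obtain ⟨hw1, hw2⟩ := unit_mem_locRing w
  have hu1' := S34SM_locRing_locRing_le m hu1
  have hu2' := S34SM_locRing_locRing_le m hu2
  have hw1' := S34SM_locRing_locRing_le m hw1
  have hw2' := S34SM_locRing_locRing_le m hw2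
  exact ⟨_, g, _, hu1', hu2', hgF, hgV, hgV', hfug, hw1', hw2', c, hc, hG⟩

variable {Voo Vmid V0 X : Subring L}

/-- **(II.4) at the one-branch points of `V_∞`**: the local lift of block C' for
`V = (V_∞ ⊓ V_mid) ⊓ V_0`, from `[IG]` at `m` and a witness `d ∉ m`, `d ∈ π (V_mid ⊓ V_0)`. -/
theorem S36THIN_locLift_oo [IsNoetherianRing X] (Hoo : S34C2_Val π F1 Voo)
    (Hmid : S34C2_Val π F1 Vmid) (H0 : S34C2_Val π F1 V0)
    (hunifoo : ∀ x ∈ Voo, x⁻¹ ∉ Voo → ∃ v ∈ Voo, x = π * v)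
    (hX : X ≤ (Voo ⊓ Vmid ⊓ V0 : Subring L))
    (hsat : ∀ v : L, v ∈ Voo → v ∈ Vmid → v ∈ V0 → π * v ∈ X → v ∈ X) (hπ : π ∈ X)
    (hfrac : ∀ x ∈ F1, ∃ a b : L, a ∈ X ∧ b ∈ X ∧ b ≠ 0 ∧ x * b = a)
    (m : Ideal X) [hm : m.IsPrime] (hπm : (⟨π, hπ⟩ : X) ∈ m) (d : X) (hdm : d ∉ m)
    (hd : ∃ v ∈ (Vmid ⊓ V0 : Subring L), (d : L) = π * v) (hIG : IGAt π X m)
    (O : Subring L) (hOX : O ≤ X)
    {p : ℕ} (hp : p.Prime) (f h G : L) (hf0 : f ≠ 0) (hh : h ^ p = f)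
    (hdiv : PowDiv O π F1 p f) (hred : RedPow π (Voo ⊓ Vmid ⊓ V0 : Subring L) p f G) :
    S34C_LocLift π F1 (Voo ⊓ Vmid ⊓ V0 : Subring L) X h G m := by
  have hXoo : X ≤ Voo := fun y hy => (hX hy).1.1
  have hXmid : X ≤ Vmid := fun y hy => (hX hy).1.2
  have hX0 : X ≤ V0 := fun y hy => (hX hy).2
  have hX' : X ≤ (Vmid ⊓ V0 : Subring L) := fun y hy => ⟨hXmid hy, hX0 hy⟩
  have hsat' : ∀ v : L, v ∈ Voo → v ∈ (Vmid ⊓ V0 : Subring L) → π * v ∈ X → v ∈ X :=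
    fun v h1 h2 h3 => hsat v h1 h2.1 h2.2 h3
  have hred1 : RedPow π Voo p f G :=
    S36LOC_redPow_mono (inf_le_left.trans inf_le_left) hred
  have hshape := S36THIN_shape Hoo hunifoo hXoo hX' hsat' hπ hfrac m hπm d hdm hd hIG O hOX hp
    f G hf0 hdiv hred1
  obtain ⟨v, hv, hdv⟩ := hd
  exact S36LOC_locLift1 Hoo Hmid H0 hX m d hdm ⟨v, hv.1, hdv⟩ ⟨v, hv.2, hdv⟩ hp.pos f h G hf0
    hh hred hshape

/-- **(II.4) at the one-branch points of `V_0`**: the local lift of block C' for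
`V = (V_∞ ⊓ V_mid) ⊓ V_0`, from `[IG]` at `m` and a witness `d ∉ m`, `d ∈ π (V_∞ ⊓ V_mid)`. -/
theorem S36THIN_locLift_0 [IsNoetherianRing X] (Hoo : S34C2_Val π F1 Voo)
    (Hmid : S34C2_Val π F1 Vmid) (H0 : S34C2_Val π F1 V0)
    (hunif0 : ∀ x ∈ V0, x⁻¹ ∉ V0 → ∃ v ∈ V0, x = π * v)
    (hX : X ≤ (Voo ⊓ Vmid ⊓ V0 : Subring L))
    (hsat : ∀ v : L, v ∈ Voo → v ∈ Vmid → v ∈ V0 → π * v ∈ X → v ∈ X) (hπ : π ∈ X)
    (hfrac : ∀ x ∈ F1, ∃ a b : L, a ∈ X ∧ b ∈ X ∧ b ≠ 0 ∧ x * b = a)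
    (m : Ideal X) [hm : m.IsPrime] (hπm : (⟨π, hπ⟩ : X) ∈ m) (d : X) (hdm : d ∉ m)
    (hd : ∃ v ∈ (Voo ⊓ Vmid : Subring L), (d : L) = π * v) (hIG : IGAt π X m)
    (O : Subring L) (hOX : O ≤ X)
    {p : ℕ} (hp : p.Prime) (f h G : L) (hf0 : f ≠ 0) (hh : h ^ p = f)
    (hdiv : PowDiv O π F1 p f) (hred : RedPow π (Voo ⊓ Vmid ⊓ V0 : Subring L) p f G) :
    S34C_LocLift π F1 (Voo ⊓ Vmid ⊓ V0 : Subring L) X h G m := by
  have hXoo : X ≤ Voo := fun y hy => (hX hy).1.1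
  have hXmid : X ≤ Vmid := fun y hy => (hX hy).1.2
  have hX0 : X ≤ V0 := fun y hy => (hX hy).2
  have hX' : X ≤ (Voo ⊓ Vmid : Subring L) := fun y hy => ⟨hXoo hy, hXmid hy⟩
  have hsat' : ∀ v : L, v ∈ V0 → v ∈ (Voo ⊓ Vmid : Subring L) → π * v ∈ X → v ∈ X :=
    fun v h1 h2 h3 => hsat v h2.1 h2.2 h1 h3
  have hEq : (V0 ⊓ Voo ⊓ Vmid : Subring L) = Voo ⊓ Vmid ⊓ V0 := by
    rw [inf_assoc, inf_comm]
  have hred' : RedPow π (V0 ⊓ Voo ⊓ Vmid : Subring L) p f G := by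
    rw [hEq]; exact hred
  have hred1 : RedPow π V0 p f G := S36LOC_redPow_mono inf_le_right hred
  have hshape := S36THIN_shape H0 hunif0 hX0 hX' hsat' hπ hfrac m hπm d hdm hd hIG O hOX hp
    f G hf0 hdiv hred1
  obtain ⟨v, hv, hdv⟩ := hd
  have hX'' : X ≤ (V0 ⊓ Voo ⊓ Vmid : Subring L) := by
    rw [hEq]; exact hX
  have key := S36LOC_locLift1 H0 Hoo Hmid hX'' m d hdm ⟨v, hv.1, hdv⟩ ⟨v, hv.2, hdv⟩ hp.pos
    f h G hf0 hh hred' hshape
  rw [hEq] at key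
  exact key

end Fermat.Agent.S36_helper9_THIN
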