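import Mathlib
import Fermat.Agent.S18_helper9_CDefs
import Fermat.Agent.S18_helper3_LOCRING
import Fermat.Agent.S34_helper12_CDefs
import Fermat.Agent.S34_helper27_C2Defs
import Fermat.Agent.S36_helper19_LOCAL
import Fermat.Agent.S36_helper3_XBPT
import Fermat.Agent.S36_helper9_ONE
import Fermat.Agent.S36_helper9_THIN
import Fermat.Agent.S36_helper9_DICH
import Fermat.Agent.S36_helper9_CUSP0

/-!
# S36, GEO36, (REG36): the local contract `S36XB_Pt` at every maximal ideal over `π` (helper9)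

Abstract composite (Subring-of-`L` vocabulary).  `V_∞, V_mid, V_0` the three valuation rings,
`X ≤ (V_∞ ⊓ V_mid) ⊓ V_0` a noetherian saturated chart with fraction field `F1`.

* `S36PT_one_oo`, `S36PT_one_0` : at a thin one-branch point, `IGAt π X m` and the packaged
  witness give the one-branch datum `S36XB_One` (first / third one-branch alternative of
  `S36XB_Pt`);
* `S36PT_main` : **the finite chart**: the case split `S36DI_main` and the four providers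
  (`IGAt` on `C_∞`, `IGAt` on `C_0`, the one-branch datum on `C_mid`, the triple point shape at
  the crossings) give `S36XB_Pt` at EVERY maximal ideal over `π`;
* `S36PT_cusp` : the same at a cusp (no crossing at the cusps: `S36C0_cusp_cases`);
* `S36PT_inf` : **the chart at infinity**: the cusps by `S36PT_cusp`, the other points by
  transfer from the finite chart (hypothesis).
-/

set_option autoImplicit false
set_option linter.style.haveILetI false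
set_option linter.unusedVariables false
set_option linter.unusedSectionVars false

namespace Fermat.Agent.S36_helper9_PT

open Fermat.Agent.S18_helper9_CDefs Fermat.Agent.S18_helper3_LOCRING
  Fermat.Agent.S34_helper12_CDefs Fermat.Agent.S34_helper27_C2Defs
  Fermat.Agent.S36_helper19_LOCAL Fermat.Agent.S36_helper3_XBPT
  Fermat.Agent.S36_helper9_ONE Fermat.Agent.S36_helper9_THIN
  Fermat.Agent.S36_helper9_DICH Fermat.Agent.S36_helper9_CUSP0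

variable {L : Type*} [Field L] {π : L} {F1 : Subfield L} {Voo Vmid V0 A' X : Subring L}

/-- **thin one-branch point on `C_∞`**: `IGAt` and the witness give the one-branch datum. -/
theorem S36PT_one_oo [IsNoetherianRing X] (Hoo : S34C2_Val π F1 Voo)
    (hunifoo : ∀ x ∈ Voo, x⁻¹ ∉ Voo → ∃ v ∈ Voo, x = π * v)
    (hX : X ≤ (Voo ⊓ Vmid ⊓ V0 : Subring L))
    (hsat : ∀ v : L, v ∈ Voo → v ∈ Vmid → v ∈ V0 → π * v ∈ X → v ∈ X) (hπ : π ∈ X)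
    (hfrac : ∀ x ∈ F1, ∃ a b : L, a ∈ X ∧ b ∈ X ∧ b ≠ 0 ∧ x * b = a)
    (m : Ideal X) [hm : m.IsPrime] (hπm : (⟨π, hπ⟩ : X) ∈ m) (d : X) (hdm : d ∉ m)
    (hd : ∃ v ∈ (Vmid ⊓ V0 : Subring L), (d : L) = π * v) (hIG : IGAt π X m)
    (O : Subring L) (hOX : O ≤ X) {p : ℕ} (hp : p.Prime) (f G : L) (hf0 : f ≠ 0)
    (hdiv : PowDiv O π F1 p f) (hred : RedPow π (Voo ⊓ Vmid ⊓ V0 : Subring L) p f G) :
    S36XB_One π F1 Voo Vmid V0 X p f G m := by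
  have hXoo : X ≤ Voo := fun x hx => (hX hx).1.1
  have hX' : X ≤ (Vmid ⊓ V0 : Subring L) := fun x hx => ⟨(hX hx).1.2, (hX hx).2⟩
  have hsat' : ∀ v : L, v ∈ Voo → v ∈ (Vmid ⊓ V0 : Subring L) → π * v ∈ X → v ∈ X :=
    fun v h1 h2 h3 => hsat v h1 h2.1 h2.2 h3
  have hle : (Voo ⊓ Vmid ⊓ V0 : Subring L) ≤ Voo := inf_le_left.trans inf_le_left
  have hred' : RedPow π Voo p f G := S36LOC_redPow_mono hle hred
  refine ⟨S36THIN_shape Hoo hunifoo hXoo hX' hsat' hπ hfrac m hπm d hdm hd hIG O hOX hp f G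
    hf0 hdiv hred', d, hdm, ?_, ?_⟩
  · obtain ⟨v, hv, hdv⟩ := hd
    exact ⟨v, hv.1, hdv⟩
  · obtain ⟨v, hv, hdv⟩ := hd
    exact ⟨v, hv.2, hdv⟩

/-- **thin one-branch point on `C_0`**: `IGAt` and the witness give the one-branch datum. -/
theorem S36PT_one_0 [IsNoetherianRing X] (H0 : S34C2_Val π F1 V0)
    (hunif0 : ∀ x ∈ V0, x⁻¹ ∉ V0 → ∃ v ∈ V0, x = π * v)
    (hX : X ≤ (Voo ⊓ Vmid ⊓ V0 : Subring L))
    (hsat : ∀ v : L, v ∈ Voo → v ∈ Vmid → v ∈ V0 → π * v ∈ X → v ∈ X) (hπ : π ∈ X)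
    (hfrac : ∀ x ∈ F1, ∃ a b : L, a ∈ X ∧ b ∈ X ∧ b ≠ 0 ∧ x * b = a)
    (m : Ideal X) [hm : m.IsPrime] (hπm : (⟨π, hπ⟩ : X) ∈ m) (d : X) (hdm : d ∉ m)
    (hd : ∃ v ∈ (Voo ⊓ Vmid : Subring L), (d : L) = π * v) (hIG : IGAt π X m)
    (O : Subring L) (hOX : O ≤ X) {p : ℕ} (hp : p.Prime) (f G : L) (hf0 : f ≠ 0)
    (hdiv : PowDiv O π F1 p f) (hred : RedPow π (Voo ⊓ Vmid ⊓ V0 : Subring L) p f G) :
    S36XB_One π F1 V0 Voo Vmid X p f G m := by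
  have hX0 : X ≤ V0 := fun x hx => (hX hx).2
  have hX' : X ≤ (Voo ⊓ Vmid : Subring L) := fun x hx => (hX hx).1
  have hsat' : ∀ v : L, v ∈ V0 → v ∈ (Voo ⊓ Vmid : Subring L) → π * v ∈ X → v ∈ X :=
    fun v h1 h2 h3 => hsat v h2.1 h2.2 h1 h3
  have hle : (Voo ⊓ Vmid ⊓ V0 : Subring L) ≤ V0 := inf_le_right
  have hred' : RedPow π V0 p f G := S36LOC_redPow_mono hle hred
  refine ⟨S36THIN_shape H0 hunif0 hX0 hX' hsat' hπ hfrac m hπm d hdm hd hIG O hOX hp f G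
    hf0 hdiv hred', d, hdm, ?_, ?_⟩
  · obtain ⟨v, hv, hdv⟩ := hd
    exact ⟨v, hv.1, hdv⟩
  · obtain ⟨v, hv, hdv⟩ := hd
    exact ⟨v, hv.2, hdv⟩

/-- **(REG36) on the finite chart: the local contract at every maximal ideal over `π`.**
The case split `S36DI_main` with the four providers:

* `hIGoo`, `hIG0` : `IGAt π X m` at the thin one-branch points (with the packaged witness);
* `hmid` : the one-branch datum at the thick one-branch points;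
* `hcross` : at a crossing of level `M' q`: `m` lies on the branch of `V_∞` and the local shape
  with respect to `(V_∞ ⊓ V_mid) ⊓ V_0` holds (triple point theorem + closing step). -/
theorem S36PT_main [IsNoetherianRing X] (Hoo : S34C2_Val π F1 Voo)
    (H0 : S34C2_Val π F1 V0) (hX : X ≤ (Voo ⊓ Vmid ⊓ V0 : Subring L))
    (hsat : ∀ v : L, v ∈ Voo → v ∈ Vmid → v ∈ V0 → π * v ∈ X → v ∈ X) (hπ0 : π ≠ 0)
    (hunifoo : ∀ y ∈ Voo, y⁻¹ ∉ Voo → ∃ v ∈ Voo, y = π * v)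
    (hunif0 : ∀ y ∈ V0, y⁻¹ ∉ V0 → ∃ v ∈ V0, y = π * v)
    (t : L) (e : ℕ) (hte : t ^ e * π⁻¹ ∈ Vmid)
    (hunifmid : ∀ y ∈ Vmid, y⁻¹ ∉ Vmid → ∃ v ∈ Vmid, y = t * v)
    (hA'mid : ∀ a ∈ A', a⁻¹ ∉ Voo → a⁻¹ ∉ Vmid) (hπ : π ∈ X)
    (σ : X ≃+* X) (hσπ : σ ⟨π, hπ⟩ = ⟨π, hπ⟩)
    (hσ0 : ∀ a : X, ((a : L))⁻¹ ∉ V0 → (((σ a : X) : L))⁻¹ ∉ Voo)
    (hσmid : ∀ a : X, ((a : L))⁻¹ ∉ Vmid → (((σ a : X) : L))⁻¹ ∉ Vmid)
    (hσ0' : ∀ a : X, ((a : L))⁻¹ ∉ V0 → (((σ.symm a : X) : L))⁻¹ ∉ Voo)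
    (hfrac : ∀ x ∈ F1, ∃ a b : L, a ∈ X ∧ b ∈ X ∧ b ≠ 0 ∧ x * b = a)
    (O : Subring L) (hOX : O ≤ X) {p : ℕ} (hp : p.Prime) (f G : L) (hf0 : f ≠ 0)
    (hdiv : PowDiv O π F1 p f) (hred : RedPow π (Voo ⊓ Vmid ⊓ V0 : Subring L) p f G)
    (hIGoo : ∀ m : Ideal X, m.IsMaximal → (⟨π, hπ⟩ : X) ∈ m → ∀ d : X, d ∉ m →
      (∃ v ∈ (Vmid ⊓ V0 : Subring L), (d : L) = π * v) → IGAt π X m)
    (hIG0 : ∀ m : Ideal X, m.IsMaximal → (⟨π, hπ⟩ : X) ∈ m → ∀ d : X, d ∉ m →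
      (∃ v ∈ (Voo ⊓ Vmid : Subring L), (d : L) = π * v) → IGAt π X m)
    (hmid : ∀ m : Ideal X, m.IsMaximal → (⟨π, hπ⟩ : X) ∈ m → S36ONE_On Vmid X m →
      ∀ d : X, d ∉ m → (∃ v ∈ (Voo ⊓ V0 : Subring L), (d : L) = π * v) →
      S36XB_One π F1 Vmid Voo V0 X p f G m)
    (hcross : ∀ m : Ideal X, m.IsMaximal → (⟨π, hπ⟩ : X) ∈ m → S36DI_Cross Voo V0 A' X m →
      S36ONE_On Voo X m ∧ S34C_Shape π F1 (Voo ⊓ Vmid ⊓ V0 : Subring L) X p f G m)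
    (m : Ideal X) (hm : m.IsMaximal) (hπm : (⟨π, hπ⟩ : X) ∈ m) :
    S36XB_Pt π F1 Voo Vmid V0 X p f G m := by
  haveI hmp : m.IsPrime := hm.isPrime
  have hXoo : X ≤ Voo := fun x hx => (hX hx).1.1
  have hXmid : X ≤ Vmid := fun x hx => (hX hx).1.2
  have hX0 : X ≤ V0 := fun x hx => (hX hx).2
  have htriple : ∀ m' : Ideal X, m'.IsMaximal → (⟨π, hπ⟩ : X) ∈ m' →
      S36DI_Cross Voo V0 A' X m' → S36ONE_On Voo X m' :=
    fun m' hm' hπm' hc => (hcross m' hm' hπm' hc).1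
  rcases S36DI_main hXoo hXmid hX0 hsat hπ0 hunifoo hunif0 t e hte hunifmid hA'mid hπ σ hσπ
    hσ0 hσmid hσ0' htriple m hm hπm with ⟨_, d, hdm, hd⟩ | ⟨hon, d, hdm, hd⟩ |
    ⟨_, d, hdm, hd⟩ | hc
  · exact Or.inr (Or.inl (S36PT_one_oo Hoo hunifoo hX hsat hπ hfrac m hπm d hdm hd
      (hIGoo m hm hπm d hdm hd) O hOX hp f G hf0 hdiv hred))
  · exact Or.inr (Or.inr (Or.inl (hmid m hm hπm hon d hdm hd)))
  · exact Or.inr (Or.inr (Or.inr (S36PT_one_0 H0 hunif0 hX hsat hπ hfrac m hπm d hdm hd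
      (hIG0 m hm hπm d hdm hd) O hOX hp f G hf0 hdiv hred)))
  · exact Or.inl (hcross m hm hπm hc).2

/-- **(REG36) at a cusp: the local contract.**  No crossing at the cusps (`S36C0_cusp_cases`,
inputs `hα`, `hβ` from the level `M' q` along `α` and `β`); then the three one-branch
providers. -/
theorem S36PT_cusp [IsNoetherianRing X] (Hoo : S34C2_Val π F1 Voo)
    (H0 : S34C2_Val π F1 V0) (hX : X ≤ (Voo ⊓ Vmid ⊓ V0 : Subring L))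
    (hsat : ∀ v : L, v ∈ Voo → v ∈ Vmid → v ∈ V0 → π * v ∈ X → v ∈ X)
    (hunifoo : ∀ y ∈ Voo, y⁻¹ ∉ Voo → ∃ v ∈ Voo, y = π * v)
    (hunif0 : ∀ y ∈ V0, y⁻¹ ∉ V0 → ∃ v ∈ V0, y = π * v) (hπ : π ∈ X)
    (hfrac : ∀ x ∈ F1, ∃ a b : L, a ∈ X ∧ b ∈ X ∧ b ≠ 0 ∧ x * b = a)
    (O : Subring L) (hOX : O ≤ X) {p : ℕ} (hp : p.Prime) (f G : L) (hf0 : f ≠ 0)
    (hdiv : PowDiv O π F1 p f) (hred : RedPow π (Voo ⊓ Vmid ⊓ V0 : Subring L) p f G)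
    (m : Ideal X) (hm : m.IsMaximal) (hπm : (⟨π, hπ⟩ : X) ∈ m)
    (hα : ∃ d : X, d ∉ m ∧ ((∃ v ∈ V0, (d : L) = π * v) ∨
      ∃ v ∈ (Voo ⊓ Vmid : Subring L), (d : L) = π * v))
    (hβ : ∃ d : X, d ∉ m ∧ ((∃ v ∈ (Vmid ⊓ V0 : Subring L), (d : L) = π * v) ∨
      ∃ v ∈ Voo, (d : L) = π * v))
    (hIGoo : ∀ d : X, d ∉ m → (∃ v ∈ (Vmid ⊓ V0 : Subring L), (d : L) = π * v) →
      IGAt π X m)
    (hIG0 : ∀ d : X, d ∉ m → (∃ v ∈ (Voo ⊓ Vmid : Subring L), (d : L) = π * v) →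
      IGAt π X m)
    (hmid : ∀ d : X, d ∉ m → (∃ v ∈ (Voo ⊓ V0 : Subring L), (d : L) = π * v) →
      S36XB_One π F1 Vmid Voo V0 X p f G m) :
    S36XB_Pt π F1 Voo Vmid V0 X p f G m := by
  haveI hmp : m.IsPrime := hm.isPrime
  have hXoo : X ≤ Voo := fun x hx => (hX hx).1.1
  have hX0 : X ≤ V0 := fun x hx => (hX hx).2
  rcases S36C0_cusp_cases (π := π) hXoo hX0 m hα hβ with ⟨d, hdm, hd⟩ | ⟨d, hdm, hd⟩ |
    ⟨d, hdm, hd⟩
  · exact Or.inr (Or.inl (S36PT_one_oo Hoo hunifoo hX hsat hπ hfrac m hπm d hdm hd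
      (hIGoo d hdm hd) O hOX hp f G hf0 hdiv hred))
  · exact Or.inr (Or.inr (Or.inl (hmid d hdm hd)))
  · exact Or.inr (Or.inr (Or.inr (S36PT_one_0 H0 hunif0 hX hsat hπ hfrac m hπm d hdm hd
      (hIG0 d hdm hd) O hOX hp f G hf0 hdiv hred)))

/-- **(REG36) on the chart at infinity: the local contract at every maximal ideal over `π`.**
`u = j⁻¹` the coordinate of the chart; the points with `u ∉ m` are points of the finite chart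
(hypothesis `hfin`: transfer), the cusps are treated by `S36PT_cusp`. -/
theorem S36PT_inf [IsNoetherianRing X] (Hoo : S34C2_Val π F1 Voo)
    (H0 : S34C2_Val π F1 V0) (hX : X ≤ (Voo ⊓ Vmid ⊓ V0 : Subring L))
    (hsat : ∀ v : L, v ∈ Voo → v ∈ Vmid → v ∈ V0 → π * v ∈ X → v ∈ X)
    (hunifoo : ∀ y ∈ Voo, y⁻¹ ∉ Voo → ∃ v ∈ Voo, y = π * v)
    (hunif0 : ∀ y ∈ V0, y⁻¹ ∉ V0 → ∃ v ∈ V0, y = π * v) (hπ : π ∈ X)
    (hfrac : ∀ x ∈ F1, ∃ a b : L, a ∈ X ∧ b ∈ X ∧ b ≠ 0 ∧ x * b = a)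
    (O : Subring L) (hOX : O ≤ X) {p : ℕ} (hp : p.Prime) (f G : L) (hf0 : f ≠ 0)
    (hdiv : PowDiv O π F1 p f) (hred : RedPow π (Voo ⊓ Vmid ⊓ V0 : Subring L) p f G)
    (u : L) (hu : u ∈ X)
    (hfin : ∀ m : Ideal X, m.IsMaximal → (⟨π, hπ⟩ : X) ∈ m → (⟨u, hu⟩ : X) ∉ m →
      S36XB_Pt π F1 Voo Vmid V0 X p f G m)
    (hα : ∀ m : Ideal X, m.IsMaximal → (⟨π, hπ⟩ : X) ∈ m → (⟨u, hu⟩ : X) ∈ m →
      ∃ d : X, d ∉ m ∧ ((∃ v ∈ V0, (d : L) = π * v) ∨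
        ∃ v ∈ (Voo ⊓ Vmid : Subring L), (d : L) = π * v))
    (hβ : ∀ m : Ideal X, m.IsMaximal → (⟨π, hπ⟩ : X) ∈ m → (⟨u, hu⟩ : X) ∈ m →
      ∃ d : X, d ∉ m ∧ ((∃ v ∈ (Vmid ⊓ V0 : Subring L), (d : L) = π * v) ∨
        ∃ v ∈ Voo, (d : L) = π * v))
    (hIGoo : ∀ m : Ideal X, m.IsMaximal → (⟨π, hπ⟩ : X) ∈ m → (⟨u, hu⟩ : X) ∈ m →
      ∀ d : X, d ∉ m → (∃ v ∈ (Vmid ⊓ V0 : Subring L), (d : L) = π * v) → IGAt π X m)
    (hIG0 : ∀ m : Ideal X, m.IsMaximal → (⟨π, hπ⟩ : X) ∈ m → (⟨u, hu⟩ : X) ∈ m →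
      ∀ d : X, d ∉ m → (∃ v ∈ (Voo ⊓ Vmid : Subring L), (d : L) = π * v) → IGAt π X m)
    (hmid : ∀ m : Ideal X, m.IsMaximal → (⟨π, hπ⟩ : X) ∈ m → (⟨u, hu⟩ : X) ∈ m →
      ∀ d : X, d ∉ m → (∃ v ∈ (Voo ⊓ V0 : Subring L), (d : L) = π * v) →
      S36XB_One π F1 Vmid Voo V0 X p f G m)
    (m : Ideal X) (hm : m.IsMaximal) (hπm : (⟨π, hπ⟩ : X) ∈ m) :
    S36XB_Pt π F1 Voo Vmid V0 X p f G m := by
  by_cases hum : (⟨u, hu⟩ : X) ∈ m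
  · exact S36PT_cusp Hoo H0 hX hsat hunifoo hunif0 hπ hfrac O hOX hp f G hf0 hdiv hred m hm
      hπm (hα m hm hπm hum) (hβ m hm hπm hum) (hIGoo m hm hπm hum) (hIG0 m hm hπm hum)
      (hmid m hm hπm hum)
  · exact hfin m hm hπm hum

end Fermat.Agent.S36_helper9_PT
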