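import Mathlib
import Fermat.Agent.S18_helper9_CDefs
import Fermat.Agent.S18_helper3_LOCRING
import Fermat.Agent.S34_helper12_CDefs
import Fermat.Agent.S34_helper27_C2Defs
import Fermat.Agent.S36_helper3_XBPT
import Fermat.Agent.S36_helper3_LOCABS
import Fermat.Agent.S36_helper9_ONE
import Fermat.Agent.S36_helper9_DICH
import Fermat.Agent.S36_helper9_CUSP0
import Fermat.Agent.S36_helper9_PT

/-!
# S36, GEO36, (REG36): the fields `pts0` / `ptsInf` of the contract of `loc` (helper9)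

Abstract layer.  The dichotomy "triple point or one-branch datum" in the shape of the hypotheses
`hpts0`, `hptsInf` of helper3's `S36XB_loc_abs` (= the fields `pts0`, `ptsInf` of
`S36XB_LocContract`): at every maximal ideal `m ∋ π` of the chart,

  `(∃ i, R i = locRing X m) ∨ ∀ G, RedPow π V p f G → S36XB_OneAlt π F1 V_∞ V_mid V_0 X p f G m`.

* `S36PTS_I`, `S36PTS_R` : the canonical family: the crossings of the finite chart and their
  local rings;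
* `S36PTS_pts0` : the finite chart, from the case split `S36DI_main` and the three one-branch
  providers; `S36PTS_pts0_canon` : the same for the canonical family;
* `S36PTS_shape_transfer`, `S36PTS_one_transfer`, `S36PTS_oneAlt_transfer` : transport of the
  one-branch datum between two charts with the same local ring;
* `S36PTS_fin` : the points of the chart at infinity which are points of the finite chart;
* `S36PTS_ptsInf` : the chart at infinity (cusps: `S36C0_cusp_cases`).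
-/

set_option autoImplicit false
set_option linter.style.haveILetI false
set_option linter.unusedVariables false
set_option linter.unusedSectionVars false

namespace Fermat.Agent.S36_helper9_PTS

open Fermat.Agent.S18_helper9_CDefs Fermat.Agent.S18_helper3_LOCRING
  Fermat.Agent.S34_helper12_CDefs Fermat.Agent.S34_helper27_C2Defs
  Fermat.Agent.S36_helper3_XBPT Fermat.Agent.S36_helper3_LOCABS
  Fermat.Agent.S36_helper9_ONE Fermat.Agent.S36_helper9_DICH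
  Fermat.Agent.S36_helper9_CUSP0 Fermat.Agent.S36_helper9_PT

variable {L : Type*} [Field L] {π : L} {F1 : Subfield L} {Voo Vmid V0 A' X X' : Subring L}

/-- the crossings of the chart `X` over `π` -/
def S36PTS_I (π : L) (Voo V0 A' X : Subring L) : Type _ :=
  {m : Ideal X // m.IsMaximal ∧ (∃ hπ : π ∈ X, (⟨π, hπ⟩ : X) ∈ m) ∧ S36DI_Cross Voo V0 A' X m}

/-- the local rings at the crossings -/
def S36PTS_R (π : L) (Voo V0 A' X : Subring L) (i : S36PTS_I π Voo V0 A' X) : Subring L :=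
  @locRing _ _ X i.1 i.2.1.isPrime

/-- **the field `pts0`**: at every maximal ideal over `π` of the finite chart, either the local
ring is a member of the family `R` (crossing), or the one-branch datum holds for every root
`G`. -/
theorem S36PTS_pts0 [IsNoetherianRing X] (Hoo : S34C2_Val π F1 Voo)
    (H0 : S34C2_Val π F1 V0) (hX : X ≤ (Voo ⊓ Vmid ⊓ V0 : Subring L))
    (hsat : ∀ v : L, v ∈ Voo → v ∈ Vmid → v ∈ V0 → π * v ∈ X → v ∈ X) (hπ0 : π ≠ 0)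
    (hunifoo : ∀ y ∈ Voo, y⁻¹ ∉ Voo → ∃ v ∈ Voo, y = π * v)
    (hunif0 : ∀ y ∈ V0, y⁻¹ ∉ V0 → ∃ v ∈ V0, y = π * v)
    (t : L) (e : ℕ) (hte : t ^ e * π⁻¹ ∈ Vmid)
    (hunifmid : ∀ y ∈ Vmid, y⁻¹ ∉ Vmid → ∃ v ∈ Vmid, y = t * v)
    (hA'mid : ∀ a ∈ A', a⁻¹ ∉ Voo → a⁻¹ ∉ Vmid) (hπ : π ∈ X)
    (σ : X ≃+* X) (hσπ : σ ⟨π, hπ⟩ = ⟨π, hπ⟩)
    (hσ0 : ∀ a : X, ((a : L))⁻¹ ∉ V0 → (((σ a : X) : L))⁻¹ ∉ Voo)
    (hσmid : ∀ a : X, ((a : L))⁻¹ ∉ Vmid → (((σ a : X) : L))⁻¹ ∉ Vmid)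
    (hσ0' : ∀ a : X, ((a : L))⁻¹ ∉ V0 → (((σ.symm a : X) : L))⁻¹ ∉ Voo)
    (htriple : ∀ m' : Ideal X, m'.IsMaximal → (⟨π, hπ⟩ : X) ∈ m' →
      S36DI_Cross Voo V0 A' X m' → S36ONE_On Voo X m')
    (hfrac : ∀ x ∈ F1, ∃ a b : L, a ∈ X ∧ b ∈ X ∧ b ≠ 0 ∧ x * b = a)
    (O : Subring L) (hOX : O ≤ X) {p : ℕ} (hp : p.Prime) (f : L) (hf0 : f ≠ 0)
    (hdiv : PowDiv O π F1 p f)
    (hIGoo : ∀ m : Ideal X, m.IsMaximal → (⟨π, hπ⟩ : X) ∈ m → ∀ d : X, d ∉ m →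
      (∃ v ∈ (Vmid ⊓ V0 : Subring L), (d : L) = π * v) → IGAt π X m)
    (hIG0 : ∀ m : Ideal X, m.IsMaximal → (⟨π, hπ⟩ : X) ∈ m → ∀ d : X, d ∉ m →
      (∃ v ∈ (Voo ⊓ Vmid : Subring L), (d : L) = π * v) → IGAt π X m)
    (hmid : ∀ m : Ideal X, m.IsMaximal → (⟨π, hπ⟩ : X) ∈ m → S36ONE_On Vmid X m →
      ∀ d : X, d ∉ m → (∃ v ∈ (Voo ⊓ V0 : Subring L), (d : L) = π * v) →
      ∀ G : L, RedPow π (Voo ⊓ Vmid ⊓ V0 : Subring L) p f G →
      S36XB_One π F1 Vmid Voo V0 X p f G m)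
    {ι : Type*} (R : ι → Subring L)
    (hR : ∀ (m : Ideal X) (hm : m.IsMaximal), (⟨π, hπ⟩ : X) ∈ m →
      S36DI_Cross Voo V0 A' X m → ∃ i, R i = @locRing _ _ X m hm.isPrime)
    (m : Ideal X) (hm : m.IsMaximal) (hπm : (⟨π, hπ⟩ : X) ∈ m) :
    (∃ i, R i = @locRing _ _ X m hm.isPrime) ∨
      ∀ G : L, RedPow π (Voo ⊓ Vmid ⊓ V0 : Subring L) p f G →
        S36XB_OneAlt π F1 Voo Vmid V0 X p f G m := by
  haveI hmp : m.IsPrime := hm.isPrime
  have hXoo : X ≤ Voo := fun x hx => (hX hx).1.1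
  have hXmid : X ≤ Vmid := fun x hx => (hX hx).1.2
  have hX0 : X ≤ V0 := fun x hx => (hX hx).2
  rcases S36DI_main hXoo hXmid hX0 hsat hπ0 hunifoo hunif0 t e hte hunifmid hA'mid hπ σ hσπ
    hσ0 hσmid hσ0' htriple m hm hπm with ⟨_, d, hdm, hd⟩ | ⟨hon, d, hdm, hd⟩ |
    ⟨_, d, hdm, hd⟩ | hc
  · exact Or.inr fun G hred => Or.inl (S36PT_one_oo Hoo hunifoo hX hsat hπ hfrac m hπm d hdm
      hd (hIGoo m hm hπm d hdm hd) O hOX hp f G hf0 hdiv hred)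
  · exact Or.inr fun G hred => Or.inr (Or.inl (hmid m hm hπm hon d hdm hd G hred))
  · exact Or.inr fun G hred => Or.inr (Or.inr (S36PT_one_0 H0 hunif0 hX hsat hπ hfrac m hπm d
      hdm hd (hIG0 m hm hπm d hdm hd) O hOX hp f G hf0 hdiv hred))
  · exact Or.inl (hR m hm hπm hc)

/-- the canonical family contains the local ring of every crossing -/
theorem S36PTS_canon (hπ : π ∈ X) (m : Ideal X) (hm : m.IsMaximal)
    (hπm : (⟨π, hπ⟩ : X) ∈ m) (hc : S36DI_Cross Voo V0 A' X m) :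
    ∃ i, S36PTS_R π Voo V0 A' X i = @locRing _ _ X m hm.isPrime :=
  ⟨⟨m, hm, ⟨hπ, hπm⟩, hc⟩, rfl⟩

section Transfer

variable {Wa Wb Wc : Subring L} (m' : Ideal X') [hm' : m'.IsPrime] (m : Ideal X)
  [hm : m.IsPrime]

/-- transport of the local shape between two charts with the same local ring -/
theorem S36PTS_shape_transfer (hloc : locRing X' m' = locRing X m) {p : ℕ} {f G : L}
    (h : S34C_Shape π F1 Wa X' p f G m') : S34C_Shape π F1 Wa X p f G m := by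
  obtain ⟨u, g, w, hu, hu', hgF, hg, hg', hf, hw, hw', hG⟩ := h
  have e1 : ∀ y : L, (∃ a c : X', c ∉ m' ∧ y * (c : L) = a) →
      ∃ a c : X, c ∉ m ∧ y * (c : L) = a := by
    intro y hy
    have h1 : y ∈ locRing X' m' := hy
    rw [hloc] at h1
    exact h1
  exact ⟨u, g, w, e1 _ hu, e1 _ hu', hgF, hg, hg', hf, e1 _ hw, e1 _ hw', hG⟩

/-- transport of the witness -/
theorem S36PTS_witness_transfer (hloc : locRing X' m' = locRing X m) (hXb : X ≤ Wb)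
    (hXc : X ≤ Wc)
    (h : ∃ d : X', d ∉ m' ∧ (∃ v ∈ Wb, (d : L) = π * v) ∧ (∃ v ∈ Wc, (d : L) = π * v)) :
    ∃ d : X, d ∉ m ∧ (∃ v ∈ Wb, (d : L) = π * v) ∧ (∃ v ∈ Wc, (d : L) = π * v) := by
  obtain ⟨d, hdm, ⟨vb, hvb, hdb⟩, ⟨vc, hvc, hdc⟩⟩ := h
  have hd0 : (d : L) ≠ 0 := coe_ne_zero_of_notMem X' m' hdm
  have h1 : (d : L) ∈ locRing X m := by
    rw [← hloc]
    exact le_locRing X' m' d.2
  have h2 : ((d : L))⁻¹ ∈ locRing X m := by
    rw [← hloc]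
    exact inv_mem_locRing X' m' hdm
  obtain ⟨a, c, hc, hac⟩ := h1
  obtain ⟨a', c', hc', hac'⟩ := h2
  have hprod : a * a' = c * c' := by
    apply Subtype.ext
    push_cast
    rw [← hac, ← hac']
    field_simp
  refine ⟨a, fun ha => ?_, ⟨vb * (c : L), Wb.mul_mem hvb (hXb c.2), ?_⟩,
    ⟨vc * (c : L), Wc.mul_mem hvc (hXc c.2), ?_⟩⟩
  · have h3 : c * c' ∈ m := by
      rw [← hprod]
      exact m.mul_mem_right _ ha
    rcases hm.mem_or_mem h3 with h4 | h4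
    · exact hc h4
    · exact hc' h4
  · rw [← hac, hdb]; ring
  · rw [← hac, hdc]; ring

/-- transport of the one-branch datum -/
theorem S36PTS_one_transfer (hloc : locRing X' m' = locRing X m) (hXb : X ≤ Wb)
    (hXc : X ≤ Wc) {p : ℕ} {f G : L} (h : S36XB_One π F1 Wa Wb Wc X' p f G m') :
    S36XB_One π F1 Wa Wb Wc X p f G m :=
  ⟨S36PTS_shape_transfer m' m hloc h.1, S36PTS_witness_transfer m' m hloc hXb hXc h.2⟩

/-- transport of the three one-branch alternatives -/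
theorem S36PTS_oneAlt_transfer (hloc : locRing X' m' = locRing X m)
    (hX : X ≤ (Voo ⊓ Vmid ⊓ V0 : Subring L)) {p : ℕ} {f G : L}
    (h : S36XB_OneAlt π F1 Voo Vmid V0 X' p f G m') :
    S36XB_OneAlt π F1 Voo Vmid V0 X p f G m := by
  have hXoo : X ≤ Voo := fun x hx => (hX hx).1.1
  have hXmid : X ≤ Vmid := fun x hx => (hX hx).1.2
  have hX0 : X ≤ V0 := fun x hx => (hX hx).2
  rcases h with h | h | h
  · exact Or.inl (S36PTS_one_transfer m' m hloc hXmid hX0 h)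
  · exact Or.inr (Or.inl (S36PTS_one_transfer m' m hloc hXoo hX0 h))
  · exact Or.inr (Or.inr (S36PTS_one_transfer m' m hloc hXoo hXmid h))

end Transfer

/-- **the points of the chart at infinity which are points of the finite chart**: if the local
ring at `m` is the local ring of the finite chart `X'` at a maximal ideal `m'` over `π`, the
dichotomy at `m'` gives the dichotomy at `m`. -/
theorem S36PTS_fin (hX : X ≤ (Voo ⊓ Vmid ⊓ V0 : Subring L)) (hπ' : π ∈ X')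
    {p : ℕ} {f : L} {ι : Type*} (R : ι → Subring L)
    (hpts0 : ∀ (m' : Ideal X') (hm' : m'.IsMaximal), (⟨π, hπ'⟩ : X') ∈ m' →
      (∃ i, R i = @locRing _ _ X' m' hm'.isPrime) ∨
        ∀ G : L, RedPow π (Voo ⊓ Vmid ⊓ V0 : Subring L) p f G →
          S36XB_OneAlt π F1 Voo Vmid V0 X' p f G m')
    (m : Ideal X) (hm : m.IsMaximal)
    (hcmp : ∃ (m' : Ideal X') (hm' : m'.IsMaximal), (⟨π, hπ'⟩ : X') ∈ m' ∧
      @locRing _ _ X' m' hm'.isPrime = @locRing _ _ X m hm.isPrime) :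
    (∃ i, R i = @locRing _ _ X m hm.isPrime) ∨
      ∀ G : L, RedPow π (Voo ⊓ Vmid ⊓ V0 : Subring L) p f G →
        S36XB_OneAlt π F1 Voo Vmid V0 X p f G m := by
  obtain ⟨m', hm', hπm', hloc⟩ := hcmp
  haveI := hm'.isPrime
  haveI := hm.isPrime
  rcases hpts0 m' hm' hπm' with ⟨i, hi⟩ | h
  · exact Or.inl ⟨i, hi.trans hloc⟩
  · exact Or.inr fun G hred => S36PTS_oneAlt_transfer m' m hloc hX (h G hred)

/-- **the field `ptsInf`**: the chart at infinity.  `u = j⁻¹`; the points with `u ∉ m` are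
points of the finite chart (`hfin`, e.g. by `S36PTS_fin`); at the cusps there is no crossing
(`S36C0_cusp_cases`) and the three one-branch providers apply. -/
theorem S36PTS_ptsInf [IsNoetherianRing X] (Hoo : S34C2_Val π F1 Voo)
    (H0 : S34C2_Val π F1 V0) (hX : X ≤ (Voo ⊓ Vmid ⊓ V0 : Subring L))
    (hsat : ∀ v : L, v ∈ Voo → v ∈ Vmid → v ∈ V0 → π * v ∈ X → v ∈ X)
    (hunifoo : ∀ y ∈ Voo, y⁻¹ ∉ Voo → ∃ v ∈ Voo, y = π * v)
    (hunif0 : ∀ y ∈ V0, y⁻¹ ∉ V0 → ∃ v ∈ V0, y = π * v) (hπ : π ∈ X)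
    (hfrac : ∀ x ∈ F1, ∃ a b : L, a ∈ X ∧ b ∈ X ∧ b ≠ 0 ∧ x * b = a)
    (O : Subring L) (hOX : O ≤ X) {p : ℕ} (hp : p.Prime) (f : L) (hf0 : f ≠ 0)
    (hdiv : PowDiv O π F1 p f) (u : L) (hu : u ∈ X)
    {ι : Type*} (R : ι → Subring L)
    (hfin : ∀ (m : Ideal X) (hm : m.IsMaximal), (⟨π, hπ⟩ : X) ∈ m → (⟨u, hu⟩ : X) ∉ m →
      (∃ i, R i = @locRing _ _ X m hm.isPrime) ∨
        ∀ G : L, RedPow π (Voo ⊓ Vmid ⊓ V0 : Subring L) p f G →
          S36XB_OneAlt π F1 Voo Vmid V0 X p f G m)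
    (hα : ∀ m : Ideal X, m.IsMaximal → (⟨π, hπ⟩ : X) ∈ m → (⟨u, hu⟩ : X) ∈ m →
      ∃ d : X, d ∉ m ∧ ((∃ v ∈ V0, (d : L) = π * v) ∨
        ∃ v ∈ (Voo ⊓ Vmid : Subring L), (d : L) = π * v))
    (hβ : ∀ m : Ideal X, m.IsMaximal → (⟨π, hπ⟩ : X) ∈ m → (⟨u, hu⟩ : X) ∈ m →
      ∃ d : X, d ∉ m ∧ ((∃ v ∈ (Vmid ⊓ V0 : Subring L), (d : L) = π * v) ∨
        ∃ v ∈ Voo, (d : L) = π * v))
    (hIGoo : ∀ m : Ideal X, m.IsMaximal → (⟨π, hπ⟩ : X) ∈ m → (⟨u, hu⟩ : X) ∈ m →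
      ∀ d : X, d ∉ m → (∃ v ∈ (Vmid ⊓ V0 : Subring L), (d : L) = π * v) → IGAt π X m)
    (hIG0 : ∀ m : Ideal X, m.IsMaximal → (⟨π, hπ⟩ : X) ∈ m → (⟨u, hu⟩ : X) ∈ m →
      ∀ d : X, d ∉ m → (∃ v ∈ (Voo ⊓ Vmid : Subring L), (d : L) = π * v) → IGAt π X m)
    (hmid : ∀ m : Ideal X, m.IsMaximal → (⟨π, hπ⟩ : X) ∈ m → (⟨u, hu⟩ : X) ∈ m →
      ∀ d : X, d ∉ m → (∃ v ∈ (Voo ⊓ V0 : Subring L), (d : L) = π * v) →
      ∀ G : L, RedPow π (Voo ⊓ Vmid ⊓ V0 : Subring L) p f G →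
      S36XB_One π F1 Vmid Voo V0 X p f G m)
    (m : Ideal X) (hm : m.IsMaximal) (hπm : (⟨π, hπ⟩ : X) ∈ m) :
    (∃ i, R i = @locRing _ _ X m hm.isPrime) ∨
      ∀ G : L, RedPow π (Voo ⊓ Vmid ⊓ V0 : Subring L) p f G →
        S36XB_OneAlt π F1 Voo Vmid V0 X p f G m := by
  haveI hmp : m.IsPrime := hm.isPrime
  have hXoo : X ≤ Voo := fun x hx => (hX hx).1.1
  have hX0 : X ≤ V0 := fun x hx => (hX hx).2
  by_cases hum : (⟨u, hu⟩ : X) ∈ m
  · refine Or.inr fun G hred => ?_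
    rcases S36C0_cusp_cases (π := π) hXoo hX0 m (hα m hm hπm hum) (hβ m hm hπm hum) with
      ⟨d, hdm, hd⟩ | ⟨d, hdm, hd⟩ | ⟨d, hdm, hd⟩
    · exact Or.inl (S36PT_one_oo Hoo hunifoo hX hsat hπ hfrac m hπm d hdm hd
        (hIGoo m hm hπm hum d hdm hd) O hOX hp f G hf0 hdiv hred)
    · exact Or.inr (Or.inl (hmid m hm hπm hum d hdm hd G hred))
    · exact Or.inr (Or.inr (S36PT_one_0 H0 hunif0 hX hsat hπ hfrac m hπm d hdm hd
        (hIG0 m hm hπm hum d hdm hd) O hOX hp f G hf0 hdiv hred))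
  · exact hfin m hm hπm hum

end Fermat.Agent.S36_helper9_PTS
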