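import Mathlib
import Fermat.Agent.S36_helper3_LOCK
import Fermat.Agent.S36_helper2_TRIFAM
import Fermat.Agent.S36_helper9_PTS

/-!
# S36, the fields `trip_*` and `branch` of `S36XB_LocContract` for the canonical family (helper2)

Ruling of helper3 (owner of the contract): the family `(ι, R)` of `S36XB_LocContract` is
helper9's canonical family

  `ι := S36PTS_I π V1 W3 A' A0`,  `R := S36PTS_R π V1 W3 A' A0`

(the crossings of the finite chart `A0 = S18K_A0 A K1 (M' * q * q)` and their local rings), for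
any subring `A'` (the chart of the smaller level).

From the ONE hypothesis

  `hTX : ∀ m' maximal ∋ π of A0, S36DI_Cross V1 W3 A' A0 m' →
      ∃ S1 T2, S36TX_Triple q π S1 T2 V1 W2 W3 (locRing A0 m') ∧ S1⁻¹ ∈ V1 ∧ T2⁻¹ ∈ W3 ∧ S1⁻¹ ∈ W2`

(= helper17's TRIPLEK + the unit facts of helper23) we prove the fields

  `trip_loc`, `trip_O`, `trip_le1`, `trip_le2`, `trip_le3`, `trip_ic`, `branch`

of `S36XB_LocContract` for THIS family, verbatim (`S36TFC_*`).  The same fields for an arbitrary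
family `R : ι → Subring L` all of whose members carry the triple datum `S36TF_Trip`:
`S36TFC_fam_*`.
-/

set_option autoImplicit false
set_option linter.unusedSectionVars false
set_option linter.unusedVariables false
set_option linter.style.haveILetI false

open HahnSeries IntermediateField AlgebraicCurve ModularCurve
open Fermat.Agent.S18_helper9_CDefs Fermat.Agent.S18_helper3_LOCRING
  Fermat.Agent.S18_helper25_COREDefs
  Fermat.Agent.S34_helper12_CDefs Fermat.Agent.S34_helper25_Defs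
  Fermat.Agent.S34_helper27_C2Defs Fermat.Agent.S34_helper27_V3K
  Fermat.Agent.S35_helper27_XD2Defs
  Fermat.Agent.S36_helper6_TORIC Fermat.Agent.S36_helper17_TRIPLEX
  Fermat.Agent.S36_helper4_XADefs Fermat.Agent.S36_helper3_XBPT
  Fermat.Agent.S36_helper3_XBDefs Fermat.Agent.S36_helper3_LOCABS
  Fermat.Agent.S36_helper3_LOCK Fermat.Agent.S36_helper2_C3
  Fermat.Agent.S36_helper2_BRANCHB Fermat.Agent.S36_helper2_TRIFAM
  Fermat.Agent.S36_helper9_DICH Fermat.Agent.S36_helper9_PTS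

noncomputable section

namespace Fermat.Agent.S36_helper2_TRIFAMC

local notation "Qb" => AlgebraicClosure ℚ

variable {A : ValuationSubring Qb} {K1 : IntermediateField ℚ Qb}
  [IsDiscreteValuationRing (S18K_O1 A K1)] {M' q : ℕ} (lam d : ℕ) [NeZero M'] [NeZero q]
  [NeZero (M' * q)] [NeZero (M' * q * q)] [NeZero (q ^ 2)] (hq : q.Prime) (hqM : ¬ q ∣ M')
  {W2 W3 : Subring (LaurentSeries K1)}

/-! ## an arbitrary family of triple points -/

section Fam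

variable {ι : Type} {R : ι → Subring (LaurentSeries K1)}
  (hR : ∀ i, S36TF_Trip A K1 M' q W2 W3 (R i))

/-- the predicate "member of the family `R`". -/
def S36TFC_Mem (R : ι → Subring (LaurentSeries K1)) (R0 : Subring (LaurentSeries K1)) : Prop :=
  ∃ i, R i = R0

include hR

theorem S36TFC_mem_trip : ∀ R0, S36TFC_Mem R R0 → S36TF_Trip A K1 M' q W2 W3 R0 := by
  rintro R0 ⟨i, rfl⟩
  exact hR i

/-- field `trip_loc` for an arbitrary family of triple points. -/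
theorem S36TFC_fam_trip_loc : ∀ i, IsLocalRing ↥(R i) := fun i =>
  S36TF_trip_loc (S36TFC_mem_trip hR) (⟨R i, i, rfl⟩ : {R0 // S36TFC_Mem R R0})

/-- field `trip_le1` for an arbitrary family of triple points. -/
theorem S36TFC_fam_trip_le1 : ∀ i, R i ≤ S18K_V A K1 (M' * q * q) := fun i =>
  S36TF_trip_le1 (S36TFC_mem_trip hR) (⟨R i, i, rfl⟩ : {R0 // S36TFC_Mem R R0})

/-- field `trip_le2` for an arbitrary family of triple points. -/
theorem S36TFC_fam_trip_le2 : ∀ i, R i ≤ W2 := fun i =>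
  S36TF_trip_le2 (S36TFC_mem_trip hR) (⟨R i, i, rfl⟩ : {R0 // S36TFC_Mem R R0})

/-- field `trip_le3` for an arbitrary family of triple points. -/
theorem S36TFC_fam_trip_le3 : ∀ i, R i ≤ W3 := fun i =>
  S36TF_trip_le3 (S36TFC_mem_trip hR) (⟨R i, i, rfl⟩ : {R0 // S36TFC_Mem R R0})

/-- field `trip_O` for an arbitrary family of triple points. -/
theorem S36TFC_fam_trip_O
    (S : S34C_Setup (S18K_O A K1) (S18K_π A K1) (S18K_j K1) (S18K_F1 K1 (M' * q * q))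
      (S18K_V A K1 (M' * q * q) ⊓ W2 ⊓ W3 : Subring (LaurentSeries K1))
      (S18K_A0 A K1 (M' * q * q)) (S18K_Ainf A K1 (M' * q * q))) :
    ∀ i, S18K_O A K1 ≤ R i := fun i =>
  S36TF_trip_O (S36TFC_mem_trip hR) S (⟨R i, i, rfl⟩ : {R0 // S36TFC_Mem R R0})

/-- field `trip_ic` for an arbitrary family of triple points. -/
theorem S36TFC_fam_trip_ic
    (S : S34C_Setup (S18K_O A K1) (S18K_π A K1) (S18K_j K1) (S18K_F1 K1 (M' * q * q))
      (S18K_V A K1 (M' * q * q) ⊓ W2 ⊓ W3 : Subring (LaurentSeries K1))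
      (S18K_A0 A K1 (M' * q * q)) (S18K_Ainf A K1 (M' * q * q)))
    (hlam : 0 < lam) :
    ∀ i, ∀ x ∈ S18K_F1 K1 (M' * q * q), x ^ lam ∈ R i → x ∈ R i := fun i =>
  S36TF_trip_ic lam (S36TFC_mem_trip hR) S hlam (⟨R i, i, rfl⟩ : {R0 // S36TFC_Mem R R0})

/-- field `branch` for an arbitrary family of triple points. -/
theorem S36TFC_fam_branch (hA : A.LiesOverPrime q) (hlam : lam.Prime) (hne : lam ≠ q)
    (hlamd : lam ∣ d)
    (S : S34C_Setup (S18K_O A K1) (S18K_π A K1) (S18K_j K1) (S18K_F1 K1 (M' * q * q))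
      (S18K_V A K1 (M' * q * q) ⊓ W2 ⊓ W3 : Subring (LaurentSeries K1))
      (S18K_A0 A K1 (M' * q * q)) (S18K_Ainf A K1 (M' * q * q)))
    (H1 : S34C2_Val (S18K_π A K1) (S18K_F1 K1 (M' * q * q)) (S18K_V A K1 (M' * q * q)))
    (H2 : S34C2_Val (S18K_π A K1) (S18K_F1 K1 (M' * q * q)) W2)
    (H3 : S34C2_Val (S18K_π A K1) (S18K_F1 K1 (M' * q * q)) W3)
    (low_val : S34C2_Val (S18K_π A K1) (S18K_F1 K1 M') (S18K_V A K1 M'))
    (low_sep : ∀ x ∈ S18K_F1 K1 M', x ≠ 0 → ∃ (z : ℤ) (u : LaurentSeries K1),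
      u ∈ S18K_V A K1 M' ∧ u⁻¹ ∈ S18K_V A K1 M' ∧ x = S18K_π A K1 ^ z * u)
    (deg : ∃ s : Finset (LaurentSeries K1), ∀ x ∈ S18K_F1 K1 (M' * q * q),
      ∃ c : LaurentSeries K1 → LaurentSeries K1, (∀ y, c y ∈ S18K_F1 K1 M') ∧
        x = ∑ y ∈ s, c y * y)
    (le1 : S18K_V A K1 M' ≤ S18K_V A K1 (M' * q * q))
    (le2 : S18K_V A K1 M' ≤ W2) (le3 : S18K_V A K1 M' ≤ W3) :
    ∀ (f1 : LaurentSeries K1) (hf1 : f1 ∈ S18K_F1 K1 (M' * q * q)),
    S36XB_Good A K1 M' q d hq hqM W2 W3 f1 hf1 → ∀ i, ∀ G : LaurentSeries K1,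
    RedPow (S18K_π A K1)
      (S18K_V A K1 (M' * q * q) ⊓ W2 ⊓ W3 : Subring (LaurentSeries K1)) lam f1 G →
    ∃ u0 g0 w1 w2 w3 : LaurentSeries K1, u0 ∈ R i ∧ u0⁻¹ ∈ R i ∧
      g0 ∈ S18K_F1 K1 (M' * q * q) ∧ f1 = u0 * g0 ^ lam ∧
      (w1 ∈ R i ∧ w1⁻¹ ∈ R i ∧
        ∃ c ∈ S18K_V A K1 (M' * q * q), G * g0⁻¹ = w1 * (1 + S18K_π A K1 * c)) ∧
      (w2 ∈ R i ∧ w2⁻¹ ∈ R i ∧ ∃ c ∈ W2, G * g0⁻¹ = w2 * (1 + S18K_π A K1 * c)) ∧
      (w3 ∈ R i ∧ w3⁻¹ ∈ R i ∧ ∃ c ∈ W3, G * g0⁻¹ = w3 * (1 + S18K_π A K1 * c)) :=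
  fun f1 hf1 hgood i G hred =>
    S36TF_branch lam d hq hqM (S36TFC_mem_trip hR) hA hlam hne hlamd S H1 H2 H3 low_val low_sep
      deg le1 le2 le3 f1 hf1 hgood (⟨R i, i, rfl⟩ : {R0 // S36TFC_Mem R R0}) G hred

end Fam

/-! ## helper9's canonical family: the crossings of the finite chart -/

section Canon

variable {A' : Subring (LaurentSeries K1)}
  (hTX : ∀ (hπ : S18K_π A K1 ∈ S18K_A0 A K1 (M' * q * q))
    (m' : Ideal (S18K_A0 A K1 (M' * q * q))) (hm' : m'.IsMaximal),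
    (⟨S18K_π A K1, hπ⟩ : S18K_A0 A K1 (M' * q * q)) ∈ m' →
    S36DI_Cross (S18K_V A K1 (M' * q * q)) W3 A' (S18K_A0 A K1 (M' * q * q)) m' →
    ∃ S1 T2 : LaurentSeries K1,
      S36TX_Triple q (S18K_π A K1) S1 T2 (S18K_V A K1 (M' * q * q)) W2 W3
        (@locRing _ _ (S18K_A0 A K1 (M' * q * q)) m' hm'.isPrime) ∧
      S1⁻¹ ∈ S18K_V A K1 (M' * q * q) ∧ T2⁻¹ ∈ W3 ∧ S1⁻¹ ∈ W2)

include hTX

/-- every member of the canonical family carries the triple datum. -/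
theorem S36TFC_canon_trip :
    ∀ i : S36PTS_I (S18K_π A K1) (S18K_V A K1 (M' * q * q)) W3 A' (S18K_A0 A K1 (M' * q * q)),
      S36TF_Trip A K1 M' q W2 W3
        (S36PTS_R (S18K_π A K1) (S18K_V A K1 (M' * q * q)) W3 A'
          (S18K_A0 A K1 (M' * q * q)) i) := by
  rintro ⟨m, hm, ⟨hπ, hπm⟩, hc⟩
  exact ⟨hTX hπ m hm hπm hc, Or.inl ⟨m, hm.isPrime, rfl⟩⟩

/-- **field `trip_loc`** for the canonical family. -/
theorem S36TFC_trip_loc :
    ∀ i, IsLocalRing ↥(S36PTS_R (S18K_π A K1) (S18K_V A K1 (M' * q * q)) W3 A'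
      (S18K_A0 A K1 (M' * q * q)) i) :=
  S36TFC_fam_trip_loc (S36TFC_canon_trip hTX)

/-- **field `trip_le1`** for the canonical family. -/
theorem S36TFC_trip_le1 :
    ∀ i, S36PTS_R (S18K_π A K1) (S18K_V A K1 (M' * q * q)) W3 A'
      (S18K_A0 A K1 (M' * q * q)) i ≤ S18K_V A K1 (M' * q * q) :=
  S36TFC_fam_trip_le1 (S36TFC_canon_trip hTX)

/-- **field `trip_le2`** for the canonical family. -/
theorem S36TFC_trip_le2 :
    ∀ i, S36PTS_R (S18K_π A K1) (S18K_V A K1 (M' * q * q)) W3 A'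
      (S18K_A0 A K1 (M' * q * q)) i ≤ W2 :=
  S36TFC_fam_trip_le2 (S36TFC_canon_trip hTX)

/-- **field `trip_le3`** for the canonical family. -/
theorem S36TFC_trip_le3 :
    ∀ i, S36PTS_R (S18K_π A K1) (S18K_V A K1 (M' * q * q)) W3 A'
      (S18K_A0 A K1 (M' * q * q)) i ≤ W3 :=
  S36TFC_fam_trip_le3 (S36TFC_canon_trip hTX)

/-- **field `trip_O`** for the canonical family. -/
theorem S36TFC_trip_O
    (S : S34C_Setup (S18K_O A K1) (S18K_π A K1) (S18K_j K1) (S18K_F1 K1 (M' * q * q))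
      (S18K_V A K1 (M' * q * q) ⊓ W2 ⊓ W3 : Subring (LaurentSeries K1))
      (S18K_A0 A K1 (M' * q * q)) (S18K_Ainf A K1 (M' * q * q))) :
    ∀ i, S18K_O A K1 ≤ S36PTS_R (S18K_π A K1) (S18K_V A K1 (M' * q * q)) W3 A'
      (S18K_A0 A K1 (M' * q * q)) i :=
  S36TFC_fam_trip_O (S36TFC_canon_trip hTX) S

/-- **field `trip_ic`** for the canonical family. -/
theorem S36TFC_trip_ic
    (S : S34C_Setup (S18K_O A K1) (S18K_π A K1) (S18K_j K1) (S18K_F1 K1 (M' * q * q))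
      (S18K_V A K1 (M' * q * q) ⊓ W2 ⊓ W3 : Subring (LaurentSeries K1))
      (S18K_A0 A K1 (M' * q * q)) (S18K_Ainf A K1 (M' * q * q)))
    (hlam : 0 < lam) :
    ∀ i, ∀ x ∈ S18K_F1 K1 (M' * q * q),
      x ^ lam ∈ S36PTS_R (S18K_π A K1) (S18K_V A K1 (M' * q * q)) W3 A'
        (S18K_A0 A K1 (M' * q * q)) i →
      x ∈ S36PTS_R (S18K_π A K1) (S18K_V A K1 (M' * q * q)) W3 A'
        (S18K_A0 A K1 (M' * q * q)) i :=
  S36TFC_fam_trip_ic lam (S36TFC_canon_trip hTX) S hlam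

/-- **field `branch`** for the canonical family. -/
theorem S36TFC_branch (hA : A.LiesOverPrime q) (hlam : lam.Prime) (hne : lam ≠ q)
    (hlamd : lam ∣ d)
    (S : S34C_Setup (S18K_O A K1) (S18K_π A K1) (S18K_j K1) (S18K_F1 K1 (M' * q * q))
      (S18K_V A K1 (M' * q * q) ⊓ W2 ⊓ W3 : Subring (LaurentSeries K1))
      (S18K_A0 A K1 (M' * q * q)) (S18K_Ainf A K1 (M' * q * q)))
    (H1 : S34C2_Val (S18K_π A K1) (S18K_F1 K1 (M' * q * q)) (S18K_V A K1 (M' * q * q)))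
    (H2 : S34C2_Val (S18K_π A K1) (S18K_F1 K1 (M' * q * q)) W2)
    (H3 : S34C2_Val (S18K_π A K1) (S18K_F1 K1 (M' * q * q)) W3)
    (low_val : S34C2_Val (S18K_π A K1) (S18K_F1 K1 M') (S18K_V A K1 M'))
    (low_sep : ∀ x ∈ S18K_F1 K1 M', x ≠ 0 → ∃ (z : ℤ) (u : LaurentSeries K1),
      u ∈ S18K_V A K1 M' ∧ u⁻¹ ∈ S18K_V A K1 M' ∧ x = S18K_π A K1 ^ z * u)
    (deg : ∃ s : Finset (LaurentSeries K1), ∀ x ∈ S18K_F1 K1 (M' * q * q),
      ∃ c : LaurentSeries K1 → LaurentSeries K1, (∀ y, c y ∈ S18K_F1 K1 M') ∧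
        x = ∑ y ∈ s, c y * y)
    (le1 : S18K_V A K1 M' ≤ S18K_V A K1 (M' * q * q))
    (le2 : S18K_V A K1 M' ≤ W2) (le3 : S18K_V A K1 M' ≤ W3) :
    ∀ (f1 : LaurentSeries K1) (hf1 : f1 ∈ S18K_F1 K1 (M' * q * q)),
    S36XB_Good A K1 M' q d hq hqM W2 W3 f1 hf1 → ∀ i, ∀ G : LaurentSeries K1,
    RedPow (S18K_π A K1)
      (S18K_V A K1 (M' * q * q) ⊓ W2 ⊓ W3 : Subring (LaurentSeries K1)) lam f1 G →
    ∃ u0 g0 w1 w2 w3 : LaurentSeries K1,
      u0 ∈ S36PTS_R (S18K_π A K1) (S18K_V A K1 (M' * q * q)) W3 A'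
        (S18K_A0 A K1 (M' * q * q)) i ∧
      u0⁻¹ ∈ S36PTS_R (S18K_π A K1) (S18K_V A K1 (M' * q * q)) W3 A'
        (S18K_A0 A K1 (M' * q * q)) i ∧
      g0 ∈ S18K_F1 K1 (M' * q * q) ∧ f1 = u0 * g0 ^ lam ∧
      (w1 ∈ S36PTS_R (S18K_π A K1) (S18K_V A K1 (M' * q * q)) W3 A'
          (S18K_A0 A K1 (M' * q * q)) i ∧
        w1⁻¹ ∈ S36PTS_R (S18K_π A K1) (S18K_V A K1 (M' * q * q)) W3 A'
          (S18K_A0 A K1 (M' * q * q)) i ∧
        ∃ c ∈ S18K_V A K1 (M' * q * q), G * g0⁻¹ = w1 * (1 + S18K_π A K1 * c)) ∧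
      (w2 ∈ S36PTS_R (S18K_π A K1) (S18K_V A K1 (M' * q * q)) W3 A'
          (S18K_A0 A K1 (M' * q * q)) i ∧
        w2⁻¹ ∈ S36PTS_R (S18K_π A K1) (S18K_V A K1 (M' * q * q)) W3 A'
          (S18K_A0 A K1 (M' * q * q)) i ∧
        ∃ c ∈ W2, G * g0⁻¹ = w2 * (1 + S18K_π A K1 * c)) ∧
      (w3 ∈ S36PTS_R (S18K_π A K1) (S18K_V A K1 (M' * q * q)) W3 A'
          (S18K_A0 A K1 (M' * q * q)) i ∧
        w3⁻¹ ∈ S36PTS_R (S18K_π A K1) (S18K_V A K1 (M' * q * q)) W3 A'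
          (S18K_A0 A K1 (M' * q * q)) i ∧
        ∃ c ∈ W3, G * g0⁻¹ = w3 * (1 + S18K_π A K1 * c)) :=
  S36TFC_fam_branch lam d hq hqM (S36TFC_canon_trip hTX) hA hlam hne hlamd S H1 H2 H3 low_val
    low_sep deg le1 le2 le3

end Canon

end Fermat.Agent.S36_helper2_TRIFAMC
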