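import Mathlib
import Fermat.Agent.S36_helper3_LOCK
import Fermat.Agent.S36_helper2_TRIFAM
import Fermat.Agent.S36_helper2_TRIFAMC
import Fermat.Agent.S36_helper9_PTS

/-!
# S36, FACT + BRANCH36 at the triple points WITH AN ARBITRARY EXPONENT (helper2)

The hypothesis `hB` of helper3's `S36XB_roots_abs` is the field `branch` of `S36XB_LocContract`
with the exponent `P = lam ^ (c1 + c2 + 1)` instead of `lam`.  Here: the same statement for an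
arbitrary exponent `p` with `0 < p`, `p⁻¹ ∈ O`, `p ∣ d`:

* `S36TFP_fam_branch` : for an arbitrary family of triple points (`S36TF_Trip` at every member);
* `S36TFP_branch`     : for helper9's canonical family `S36PTS_R π V1 W3 A' A0`, from `hTX`;
* `S36TFP_branch_pow` : the same at `p = lam ^ k`, `lam` a prime `≠ q`, `lam ^ k ∣ d`
  (`hB` of `S36XB_roots_abs` VERBATIM at `P := lam ^ k`);
* `S36TFP_pow_inv_mem` : `(lam ^ k)⁻¹ ∈ O`.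
-/

set_option autoImplicit false
set_option linter.unusedSectionVars false
set_option linter.unusedVariables false
set_option linter.style.haveILetI false

open HahnSeries IntermediateField AlgebraicCurve ModularCurve
open Fermat.Agent.S18_helper9_CDefs Fermat.Agent.S18_helper3_LOCRING
  Fermat.Agent.S18_helper25_COREDefs
  Fermat.Agent.S34_helper12_CDefs Fermat.Agent.S34_helper25_Defs
  Fermat.Agent.S34_helper27_C2Defs Fermat.Agent.S34_helper27_V3K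
  Fermat.Agent.S35_helper27_XD2Defs
  Fermat.Agent.S36_helper6_TORIC Fermat.Agent.S36_helper17_TRIPLEX
  Fermat.Agent.S36_helper4_XADefs Fermat.Agent.S36_helper3_XBPT
  Fermat.Agent.S36_helper3_XBDefs Fermat.Agent.S36_helper3_LOCABS
  Fermat.Agent.S36_helper3_LOCK Fermat.Agent.S36_helper2_C3
  Fermat.Agent.S36_helper2_BRANCHB Fermat.Agent.S36_helper2_TRIFAM
  Fermat.Agent.S36_helper2_TRIFAMC
  Fermat.Agent.S36_helper9_DICH Fermat.Agent.S36_helper9_PTS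

noncomputable section

namespace Fermat.Agent.S36_helper2_TRIFAMP

local notation "Qb" => AlgebraicClosure ℚ

variable {A : ValuationSubring Qb} {K1 : IntermediateField ℚ Qb}
  [IsDiscreteValuationRing (S18K_O1 A K1)] {M' q : ℕ} (d : ℕ) [NeZero M'] [NeZero q]
  [NeZero (M' * q)] [NeZero (M' * q * q)] [NeZero (q ^ 2)] (hq : q.Prime) (hqM : ¬ q ∣ M')
  {W2 W3 : Subring (LaurentSeries K1)}

include hq in
omit [NeZero M'] [NeZero q] [NeZero (M' * q)] [NeZero (M' * q * q)] [NeZero (q ^ 2)] in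
/-- `(lam ^ k)⁻¹ ∈ O` for a prime `lam ≠ q`. -/
theorem S36TFP_pow_inv_mem (hA : A.LiesOverPrime q) {lam : ℕ} (hlam : lam.Prime)
    (hne : lam ≠ q) (k : ℕ) :
    (((lam ^ k : ℕ) : LaurentSeries K1))⁻¹ ∈ S18K_O A K1 := by
  haveI : Fact q.Prime := ⟨hq⟩
  have h := Fermat.Agent.S18_helper25_CORE.S18K_natCast_inv_mem A K1 hA lam hlam hne
  rw [Nat.cast_pow, ← inv_pow]
  exact pow_mem h k

/-- FACT + BRANCH36 with exponent `p` at every member of an arbitrary family of triple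
points. -/
theorem S36TFP_fam_branch {ι : Type} {R : ι → Subring (LaurentSeries K1)}
    (hR : ∀ i, S36TF_Trip A K1 M' q W2 W3 (R i))
    {p : ℕ} (hp : 0 < p) (hpO : ((p : LaurentSeries K1))⁻¹ ∈ S18K_O A K1) (hpd : p ∣ d)
    (S : S34C_Setup (S18K_O A K1) (S18K_π A K1) (S18K_j K1) (S18K_F1 K1 (M' * q * q))
      (S18K_V A K1 (M' * q * q) ⊓ W2 ⊓ W3 : Subring (LaurentSeries K1))
      (S18K_A0 A K1 (M' * q * q)) (S18K_Ainf A K1 (M' * q * q)))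
    (H1 : S34C2_Val (S18K_π A K1) (S18K_F1 K1 (M' * q * q)) (S18K_V A K1 (M' * q * q)))
    (H2 : S34C2_Val (S18K_π A K1) (S18K_F1 K1 (M' * q * q)) W2)
    (H3 : S34C2_Val (S18K_π A K1) (S18K_F1 K1 (M' * q * q)) W3)
    (low_val : S34C2_Val (S18K_π A K1) (S18K_F1 K1 M') (S18K_V A K1 M'))
    (low_sep : ∀ x ∈ S18K_F1 K1 M', x ≠ 0 → ∃ (z : ℤ) (u : LaurentSeries K1),
      u ∈ S18K_V A K1 M' ∧ u⁻¹ ∈ S18K_V A K1 M' ∧ x = S18K_π A K1 ^ z * u)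
    (deg : ∃ s : Finset (LaurentSeries K1), ∀ x ∈ S18K_F1 K1 (M' * q * q),
      ∃ c : LaurentSeries K1 → LaurentSeries K1, (∀ y, c y ∈ S18K_F1 K1 M') ∧
        x = ∑ y ∈ s, c y * y)
    (le1 : S18K_V A K1 M' ≤ S18K_V A K1 (M' * q * q))
    (le2 : S18K_V A K1 M' ≤ W2) (le3 : S18K_V A K1 M' ≤ W3) :
    ∀ (f1 : LaurentSeries K1) (hf1 : f1 ∈ S18K_F1 K1 (M' * q * q)),
    S36XB_Good A K1 M' q d hq hqM W2 W3 f1 hf1 → ∀ i, ∀ G : LaurentSeries K1,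
    RedPow (S18K_π A K1)
      (S18K_V A K1 (M' * q * q) ⊓ W2 ⊓ W3 : Subring (LaurentSeries K1)) p f1 G →
    ∃ u0 g0 w1 w2 w3 : LaurentSeries K1, u0 ∈ R i ∧ u0⁻¹ ∈ R i ∧
      g0 ∈ S18K_F1 K1 (M' * q * q) ∧ f1 = u0 * g0 ^ p ∧
      (w1 ∈ R i ∧ w1⁻¹ ∈ R i ∧
        ∃ c ∈ S18K_V A K1 (M' * q * q), G * g0⁻¹ = w1 * (1 + S18K_π A K1 * c)) ∧
      (w2 ∈ R i ∧ w2⁻¹ ∈ R i ∧ ∃ c ∈ W2, G * g0⁻¹ = w2 * (1 + S18K_π A K1 * c)) ∧
      (w3 ∈ R i ∧ w3⁻¹ ∈ R i ∧ ∃ c ∈ W3, G * g0⁻¹ = w3 * (1 + S18K_π A K1 * c)) := by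
  intro f1 hf1 hgood i G hred
  haveI : Fact q.Prime := ⟨hq⟩
  haveI : CharZero (LaurentSeries K1) :=
    charZero_of_injective_ringHom (HahnSeries.C_injective (Γ := ℤ) (R := K1))
  obtain ⟨hf10, -, -, hord, -, -⟩ := hgood
  have hpL : (p : LaurentSeries K1) ≠ 0 := Nat.cast_ne_zero.mpr hp.ne'
  have hF : S18K_F1 K1 M' ≤ S18K_F1 K1 (M' * q * q) :=
    S34V3K_F1_mono K1 ⟨q * q, by ring⟩
  -- `PowDiv`
  have hπ0 : S18K_π A K1 ≠ 0 := S36C3_pi_ne_zero S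
  have hFb : coeffMap (algebraMap K1 Qb) f1 ∈ modularFunctionFieldBar (M' * q * q) :=
    (S34XD_inc K1 (M' * q * q) ⟨f1, hf1⟩).2
  have hdiv' : ∀ P : Place Qb (modularFunctionFieldBar (M' * q * q)),
      (p : ℤ) ∣ P.ord ⟨coeffMap (algebraMap K1 Qb) f1, hFb⟩ := by
    intro P
    have e : (⟨coeffMap (algebraMap K1 Qb) f1, hFb⟩ : modularFunctionFieldBar (M' * q * q)) =
        S34XD_inc K1 (M' * q * q) ⟨f1, hf1⟩ := Subtype.ext rfl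
    rw [e]
    exact (Int.natCast_dvd_natCast.2 hpd).trans (hord P)
  obtain ⟨hdiv, -⟩ := Fermat.Agent.S18_helper25_CORE.S18K_powDiv_and_order
    (algebraMap K1 Qb) (M' * q * q) (S18K_O A K1) (S18K_π A K1) hπ0
    (fun c => Fermat.Agent.S18_helper25_CORE.S18K_const_mul_pow A K1 c) p f1 hf1 hf10 hFb
    hdiv'
  obtain ⟨⟨S1, T2, T, h1, h2, h3⟩, ⟨m, hm, hRm⟩ | ⟨m, hm, hRm⟩⟩ := hR i
  · rw [hRm] at T ⊢
    exact S36BRAB_hB_setup S (Or.inl rfl) S.chart0 hF low_val low_sep deg H1 H2 H3 le1 le2 le3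
      T hq.two_le h1 h2 h3 hp hpL hpO f1 hf1 hf10 hdiv G hred
  · rw [hRm] at T ⊢
    exact S36BRAB_hB_setup S (Or.inr rfl) S.chartInf hF low_val low_sep deg H1 H2 H3 le1 le2
      le3 T hq.two_le h1 h2 h3 hp hpL hpO f1 hf1 hf10 hdiv G hred

section Canon

variable {A' : Subring (LaurentSeries K1)}
  (hTX : ∀ (hπ : S18K_π A K1 ∈ S18K_A0 A K1 (M' * q * q))
    (m' : Ideal (S18K_A0 A K1 (M' * q * q))) (hm' : m'.IsMaximal),
    (⟨S18K_π A K1, hπ⟩ : S18K_A0 A K1 (M' * q * q)) ∈ m' →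
    S36DI_Cross (S18K_V A K1 (M' * q * q)) W3 A' (S18K_A0 A K1 (M' * q * q)) m' →
    ∃ S1 T2 : LaurentSeries K1,
      S36TX_Triple q (S18K_π A K1) S1 T2 (S18K_V A K1 (M' * q * q)) W2 W3
        (@locRing _ _ (S18K_A0 A K1 (M' * q * q)) m' hm'.isPrime) ∧
      S1⁻¹ ∈ S18K_V A K1 (M' * q * q) ∧ T2⁻¹ ∈ W3 ∧ S1⁻¹ ∈ W2)

include hTX

/-- **FACT + BRANCH36 with exponent `p` for the canonical family** (= `hB` of
`S36XB_roots_abs` at `R := S36PTS_R π V1 W3 A' A0`, for every good `f1`). -/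
theorem S36TFP_branch {p : ℕ} (hp : 0 < p)
    (hpO : ((p : LaurentSeries K1))⁻¹ ∈ S18K_O A K1) (hpd : p ∣ d)
    (S : S34C_Setup (S18K_O A K1) (S18K_π A K1) (S18K_j K1) (S18K_F1 K1 (M' * q * q))
      (S18K_V A K1 (M' * q * q) ⊓ W2 ⊓ W3 : Subring (LaurentSeries K1))
      (S18K_A0 A K1 (M' * q * q)) (S18K_Ainf A K1 (M' * q * q)))
    (H1 : S34C2_Val (S18K_π A K1) (S18K_F1 K1 (M' * q * q)) (S18K_V A K1 (M' * q * q)))
    (H2 : S34C2_Val (S18K_π A K1) (S18K_F1 K1 (M' * q * q)) W2)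
    (H3 : S34C2_Val (S18K_π A K1) (S18K_F1 K1 (M' * q * q)) W3)
    (low_val : S34C2_Val (S18K_π A K1) (S18K_F1 K1 M') (S18K_V A K1 M'))
    (low_sep : ∀ x ∈ S18K_F1 K1 M', x ≠ 0 → ∃ (z : ℤ) (u : LaurentSeries K1),
      u ∈ S18K_V A K1 M' ∧ u⁻¹ ∈ S18K_V A K1 M' ∧ x = S18K_π A K1 ^ z * u)
    (deg : ∃ s : Finset (LaurentSeries K1), ∀ x ∈ S18K_F1 K1 (M' * q * q),
      ∃ c : LaurentSeries K1 → LaurentSeries K1, (∀ y, c y ∈ S18K_F1 K1 M') ∧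
        x = ∑ y ∈ s, c y * y)
    (le1 : S18K_V A K1 M' ≤ S18K_V A K1 (M' * q * q))
    (le2 : S18K_V A K1 M' ≤ W2) (le3 : S18K_V A K1 M' ≤ W3) :
    ∀ (f1 : LaurentSeries K1) (hf1 : f1 ∈ S18K_F1 K1 (M' * q * q)),
    S36XB_Good A K1 M' q d hq hqM W2 W3 f1 hf1 → ∀ i, ∀ G : LaurentSeries K1,
    RedPow (S18K_π A K1)
      (S18K_V A K1 (M' * q * q) ⊓ W2 ⊓ W3 : Subring (LaurentSeries K1)) p f1 G →
    ∃ u0 g0 w1 w2 w3 : LaurentSeries K1,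
      u0 ∈ S36PTS_R (S18K_π A K1) (S18K_V A K1 (M' * q * q)) W3 A'
        (S18K_A0 A K1 (M' * q * q)) i ∧
      u0⁻¹ ∈ S36PTS_R (S18K_π A K1) (S18K_V A K1 (M' * q * q)) W3 A'
        (S18K_A0 A K1 (M' * q * q)) i ∧
      g0 ∈ S18K_F1 K1 (M' * q * q) ∧ f1 = u0 * g0 ^ p ∧
      (w1 ∈ S36PTS_R (S18K_π A K1) (S18K_V A K1 (M' * q * q)) W3 A'
          (S18K_A0 A K1 (M' * q * q)) i ∧
        w1⁻¹ ∈ S36PTS_R (S18K_π A K1) (S18K_V A K1 (M' * q * q)) W3 A'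
          (S18K_A0 A K1 (M' * q * q)) i ∧
        ∃ c ∈ S18K_V A K1 (M' * q * q), G * g0⁻¹ = w1 * (1 + S18K_π A K1 * c)) ∧
      (w2 ∈ S36PTS_R (S18K_π A K1) (S18K_V A K1 (M' * q * q)) W3 A'
          (S18K_A0 A K1 (M' * q * q)) i ∧
        w2⁻¹ ∈ S36PTS_R (S18K_π A K1) (S18K_V A K1 (M' * q * q)) W3 A'
          (S18K_A0 A K1 (M' * q * q)) i ∧
        ∃ c ∈ W2, G * g0⁻¹ = w2 * (1 + S18K_π A K1 * c)) ∧
      (w3 ∈ S36PTS_R (S18K_π A K1) (S18K_V A K1 (M' * q * q)) W3 A'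
          (S18K_A0 A K1 (M' * q * q)) i ∧
        w3⁻¹ ∈ S36PTS_R (S18K_π A K1) (S18K_V A K1 (M' * q * q)) W3 A'
          (S18K_A0 A K1 (M' * q * q)) i ∧
        ∃ c ∈ W3, G * g0⁻¹ = w3 * (1 + S18K_π A K1 * c)) :=
  S36TFP_fam_branch d hq hqM (S36TFC_canon_trip hTX) hp hpO hpd S H1 H2 H3 low_val low_sep deg
    le1 le2 le3

/-- **the same at `p = lam ^ k`**, `lam` a prime `≠ q`, `lam ^ k ∣ d`. -/
theorem S36TFP_branch_pow (hA : A.LiesOverPrime q) {lam : ℕ} (hlam : lam.Prime)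
    (hne : lam ≠ q) (k : ℕ) (hkd : lam ^ k ∣ d)
    (S : S34C_Setup (S18K_O A K1) (S18K_π A K1) (S18K_j K1) (S18K_F1 K1 (M' * q * q))
      (S18K_V A K1 (M' * q * q) ⊓ W2 ⊓ W3 : Subring (LaurentSeries K1))
      (S18K_A0 A K1 (M' * q * q)) (S18K_Ainf A K1 (M' * q * q)))
    (H1 : S34C2_Val (S18K_π A K1) (S18K_F1 K1 (M' * q * q)) (S18K_V A K1 (M' * q * q)))
    (H2 : S34C2_Val (S18K_π A K1) (S18K_F1 K1 (M' * q * q)) W2)
    (H3 : S34C2_Val (S18K_π A K1) (S18K_F1 K1 (M' * q * q)) W3)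
    (low_val : S34C2_Val (S18K_π A K1) (S18K_F1 K1 M') (S18K_V A K1 M'))
    (low_sep : ∀ x ∈ S18K_F1 K1 M', x ≠ 0 → ∃ (z : ℤ) (u : LaurentSeries K1),
      u ∈ S18K_V A K1 M' ∧ u⁻¹ ∈ S18K_V A K1 M' ∧ x = S18K_π A K1 ^ z * u)
    (deg : ∃ s : Finset (LaurentSeries K1), ∀ x ∈ S18K_F1 K1 (M' * q * q),
      ∃ c : LaurentSeries K1 → LaurentSeries K1, (∀ y, c y ∈ S18K_F1 K1 M') ∧
        x = ∑ y ∈ s, c y * y)
    (le1 : S18K_V A K1 M' ≤ S18K_V A K1 (M' * q * q))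
    (le2 : S18K_V A K1 M' ≤ W2) (le3 : S18K_V A K1 M' ≤ W3) :
    ∀ (f1 : LaurentSeries K1) (hf1 : f1 ∈ S18K_F1 K1 (M' * q * q)),
    S36XB_Good A K1 M' q d hq hqM W2 W3 f1 hf1 → ∀ i, ∀ G : LaurentSeries K1,
    RedPow (S18K_π A K1)
      (S18K_V A K1 (M' * q * q) ⊓ W2 ⊓ W3 : Subring (LaurentSeries K1)) (lam ^ k) f1 G →
    ∃ u0 g0 w1 w2 w3 : LaurentSeries K1,
      u0 ∈ S36PTS_R (S18K_π A K1) (S18K_V A K1 (M' * q * q)) W3 A'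
        (S18K_A0 A K1 (M' * q * q)) i ∧
      u0⁻¹ ∈ S36PTS_R (S18K_π A K1) (S18K_V A K1 (M' * q * q)) W3 A'
        (S18K_A0 A K1 (M' * q * q)) i ∧
      g0 ∈ S18K_F1 K1 (M' * q * q) ∧ f1 = u0 * g0 ^ (lam ^ k) ∧
      (w1 ∈ S36PTS_R (S18K_π A K1) (S18K_V A K1 (M' * q * q)) W3 A'
          (S18K_A0 A K1 (M' * q * q)) i ∧
        w1⁻¹ ∈ S36PTS_R (S18K_π A K1) (S18K_V A K1 (M' * q * q)) W3 A'
          (S18K_A0 A K1 (M' * q * q)) i ∧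
        ∃ c ∈ S18K_V A K1 (M' * q * q), G * g0⁻¹ = w1 * (1 + S18K_π A K1 * c)) ∧
      (w2 ∈ S36PTS_R (S18K_π A K1) (S18K_V A K1 (M' * q * q)) W3 A'
          (S18K_A0 A K1 (M' * q * q)) i ∧
        w2⁻¹ ∈ S36PTS_R (S18K_π A K1) (S18K_V A K1 (M' * q * q)) W3 A'
          (S18K_A0 A K1 (M' * q * q)) i ∧
        ∃ c ∈ W2, G * g0⁻¹ = w2 * (1 + S18K_π A K1 * c)) ∧
      (w3 ∈ S36PTS_R (S18K_π A K1) (S18K_V A K1 (M' * q * q)) W3 A'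
          (S18K_A0 A K1 (M' * q * q)) i ∧
        w3⁻¹ ∈ S36PTS_R (S18K_π A K1) (S18K_V A K1 (M' * q * q)) W3 A'
          (S18K_A0 A K1 (M' * q * q)) i ∧
        ∃ c ∈ W3, G * g0⁻¹ = w3 * (1 + S18K_π A K1 * c)) :=
  S36TFP_branch d hq hqM hTX (pow_pos hlam.pos k) (S36TFP_pow_inv_mem hq hA hlam hne k) hkd S H1 H2
    H3 low_val low_sep deg le1 le2 le3

end Canon

end Fermat.Agent.S36_helper2_TRIFAMP
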