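import Mathlib

/-!
# S36, X-D36 Part II (helper3): the arithmetic of the exponents

`lam`, `q` primes.  `c1 = v_lam (q + 1)`, `c2 = v_lam (q - 1)`, `c0 = c1 + c2 = v_lam (q² - 1)`;
`c = 2 * c0`, `d = lam ^ (c + 1 - c1)`, `P = lam ^ (c0 + 1)`, `Q0 = lam ^ c0`.

* `S36XB_gcd_pow`  : `gcd (lam ^ (k + 1), lam ^ k * w) = lam ^ k` for `lam ∤ w`;
* `S36XB_exps`     : the exponents and all their divisibilities, as one statement.
-/

set_option autoImplicit false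

namespace Fermat.Agent.S36_helper3_ARITH

theorem S36XB_gcd_pow {lam : ℕ} (hlam : lam.Prime) (k w : ℕ) (hw : ¬ lam ∣ w) :
    Nat.gcd (lam ^ (k + 1)) (lam ^ k * w) = lam ^ k := by
  have hcop : Nat.Coprime lam w := (Nat.Prime.coprime_iff_not_dvd hlam).2 hw
  rw [pow_succ, Nat.gcd_mul_left, hcop.gcd_eq_one, mul_one]

/-- **the exponents.**  `c1`, `c2` the exact powers of `lam` in `q + 1`, `q - 1`; with
`c0 = c1 + c2`, `Q0 = lam ^ c0`, `P = lam ^ (c0 + 1)`, `c = 2 * c0`, `d = lam ^ (c + 1 - c1)`: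
`gcd (P, q² - 1) ∣ Q0`, `P ∣ d`, `d ∣ lam ^ (c + 1)`, `lam ∣ d`, and
`d = lam ^ c2 * P`, `d = P * lam ^ (c0 - c1)`. -/
theorem S36XB_exps {lam q : ℕ} (hlam : lam.Prime) (hq : q.Prime) :
    ∃ c1 c2 u m' : ℕ, q + 1 = lam ^ c1 * u ∧ ¬ lam ∣ u ∧ q - 1 = lam ^ c2 * m' ∧ ¬ lam ∣ m' ∧
      c1 ≤ 2 * (c1 + c2) ∧
      0 < lam ^ (c1 + c2) ∧
      lam ^ (c1 + c2 + 1) = lam * lam ^ (c1 + c2) ∧
      Nat.gcd (lam ^ (c1 + c2 + 1)) (q ^ 2 - 1) ∣ lam ^ (c1 + c2) ∧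
      lam ^ (c1 + c2 + 1) ∣ lam ^ (2 * (c1 + c2) + 1 - c1) ∧
      lam ^ (2 * (c1 + c2) + 1 - c1) ∣ lam ^ (2 * (c1 + c2) + 1) ∧
      lam ∣ lam ^ (2 * (c1 + c2) + 1 - c1) ∧
      lam ^ (2 * (c1 + c2) + 1 - c1) = lam ^ c2 * lam ^ (c1 + c2 + 1) ∧
      lam ^ (2 * (c1 + c2) + 1 - c1) = lam ^ (c1 + c2 + 1) * lam ^ (c1 + c2 - c1) := by
  have hq2 := hq.two_le
  obtain ⟨c1, u, hu, hqu⟩ :=
    Nat.exists_eq_pow_mul_and_not_dvd (n := q + 1) (by omega) lam hlam.ne_one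
  obtain ⟨c2, m', hm', hqm⟩ :=
    Nat.exists_eq_pow_mul_and_not_dvd (n := q - 1) (by omega) lam hlam.ne_one
  refine ⟨c1, c2, u, m', hqu, hu, hqm, hm', by omega, pow_pos hlam.pos _, pow_succ' lam _,
    ?_, pow_dvd_pow lam (by omega), pow_dvd_pow lam (by omega), dvd_pow_self lam (by omega),
    ?_, ?_⟩
  · have e : q ^ 2 - 1 = lam ^ (c1 + c2) * (u * m') := by
      have h1 : q ^ 2 - 1 = (q + 1) * (q - 1) := by
        have : q ^ 2 = (q + 1) * (q - 1) + 1 := by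
          obtain ⟨k, rfl⟩ : ∃ k, q = k + 1 := ⟨q - 1, by omega⟩
          simp only [Nat.add_sub_cancel]
          ring
        omega
      rw [h1, hqu, hqm, pow_add]
      ring
    have hw : ¬ lam ∣ u * m' := fun h => (hlam.dvd_mul.1 h).elim hu hm'
    rw [e, S36XB_gcd_pow hlam _ _ hw]
  · rw [← pow_add]
    congr 1
    omega
  · rw [← pow_add]
    congr 1
    omega

end Fermat.Agent.S36_helper3_ARITH
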