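import Mathlib
import Fermat.Agent.S36_helper3_ARITH

/-!
# S36, X-D36 Part II (helper3): the arithmetic of the exponents, for GIVEN `c1`, `c2`

`S36XB_exps_of` : for `q + 1 = lam ^ c1 * u`, `q - 1 = lam ^ c2 * m'` (`lam ∤ u`, `lam ∤ m'`):
`Q0 = lam ^ (c1 + c2) > 0`, `P = lam ^ (c1 + c2 + 1) = lam * Q0`, `gcd (P, q² - 1) ∣ Q0`,
`P ∣ d = lam ^ (2 (c1 + c2) + 1 - c1)`, `lam ∣ d`.
-/

set_option autoImplicit false

namespace Fermat.Agent.S36_helper3_ARITH2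

open Fermat.Agent.S36_helper3_ARITH

theorem S36XB_exps_of {lam q c1 c2 u m' : ℕ} (hlam : lam.Prime) (hq : q.Prime)
    (hqu : q + 1 = lam ^ c1 * u) (hu : ¬ lam ∣ u)
    (hqm : q - 1 = lam ^ c2 * m') (hm' : ¬ lam ∣ m') :
    0 < lam ^ (c1 + c2) ∧ lam ^ (c1 + c2 + 1) = lam * lam ^ (c1 + c2) ∧
      Nat.gcd (lam ^ (c1 + c2 + 1)) (q ^ 2 - 1) ∣ lam ^ (c1 + c2) ∧
      lam ^ (c1 + c2 + 1) ∣ lam ^ (2 * (c1 + c2) + 1 - c1) ∧
      lam ∣ lam ^ (2 * (c1 + c2) + 1 - c1) := by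
  have hq2 := hq.two_le
  refine ⟨pow_pos hlam.pos _, pow_succ' lam _, ?_, pow_dvd_pow lam (by omega),
    dvd_pow_self lam (by omega)⟩
  have e : q ^ 2 - 1 = lam ^ (c1 + c2) * (u * m') := by
    have h1 : q ^ 2 - 1 = (q + 1) * (q - 1) := by
      have : q ^ 2 = (q + 1) * (q - 1) + 1 := by
        obtain ⟨k, rfl⟩ : ∃ k, q = k + 1 := ⟨q - 1, by omega⟩
        simp only [Nat.add_sub_cancel]
        ring
      omega
    rw [h1, hqu, hqm, pow_add]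
    ring
  have hw : ¬ lam ∣ u * m' := fun h => (hlam.dvd_mul.1 h).elim hu hm'
  rw [e, S36XB_gcd_pow hlam _ _ hw]

end Fermat.Agent.S36_helper3_ARITH2
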