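import Fermat.Agent.S36_helper23_V0Q
import Fermat.Agent.S34_helper20_V0K

/-!
# S36, piece V0QK (helper23): the valuation ring `V_0` at the level `q² M'` for the concrete
carriers `S18K_*`, and the Atkin–Lehner involution `W_(q²)` on the carriers

`N = q² M'`, `N1 = q M'`, `q ∤ M'`, `A` a valuation subring of `ℚ̄` over `q`, `K1` a level with
`O1 = A ∩ K1` a discrete valuation ring, `V1 = S18K_V A K1 N` the Gauss ring of
`F1 = S18K_F1 K1 N`, `w = S36WQ_wL (S34V0K_emb K1) (q ^ 2) M' N _ hN`.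

* `S36V0QK_V`       : `V_0 := w(V1)`;
* `S36V0QK_val`, `S36V0QK_unif` : `V_0` is a valuation ring of `F1` with uniformiser `π`;
* `S36V0QK_le`      : the Gauss ring of level `M'` is contained in `V_0`;
* `S36V0QK_le_q`    : the ring `V'_0 = w_q(V'_∞)` of level `q M'` (landed `S34V0K_V`) is contained
                      in `V_0` (`V_0` lies over `V'_0`);
* `S36V0QK_frob1`   : `j(Q^(q²)) - j^(q²) ∈ π V1`;  `S36V0QK_frob` : `j - j(Q^(q²))^(q²) ∈ π V_0`;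
  `S36V0QK_frob_nonunit` (the shape `hyx` of KEY3 with `y = j(Q^(q²))`, `x = j`);
* `S36V0QK_ne`, `S36V0QK_sep` : `V_0 ≠ V1`;
* `t := j(Q^(q²)) - j` : `S36V0QK_wt` (`w t = - t`), `S36V0QK_t_unit1`, `S36V0QK_t_unit0`
  (`t` is a unit of `V1` and of `V_0`);
* the hypotheses on `w` of the vertical scaling: `S36V0QK_hwF`, `_hw1`, `_hwmul`, `_hwπ`,
  `_hw13`, `_hw31`, `_hww`.
-/

set_option autoImplicit false
set_option linter.unusedSectionVars false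
set_option linter.unusedVariables false
set_option linter.style.haveILetI false

noncomputable section

open ModularCurve Fermat.Agent.S24
open Fermat.Agent.S18_helper13_GAUSS Fermat.Agent.S18_helper9_CDefs
open Fermat.Agent.S18_helper25_COREDefs Fermat.Agent.S34_helper12_CDefs
open Fermat.Agent.S34_helper27_C2Defs Fermat.Agent.S34_helper20_WQ Fermat.Agent.S34_helper20_V0
open Fermat.Agent.S34_helper27_V3K Fermat.Agent.S34_helper20_V0K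
open Fermat.Agent.S36_helper20_WQQ Fermat.Agent.S36_helper23_V0Q

namespace Fermat.Agent.S36_helper23_V0QK

/-! ### Gauss rings: the reductions -/

section Gauss

variable {O K κ : Type*} [CommRing O] [IsDomain O] [Field K] [Field κ] (D : GaussData O K κ)

/-- `j(Q^(q²)) = (j^q)^q` in characteristic `q`. -/
theorem S36V0QK_jqq_char (q : ℕ) [NeZero q] [NeZero (q ^ 2)] [ExpChar κ q] :
    qExpand κ (q ^ 2) (jqModC κ) = (jqModC κ ^ q) ^ q := by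
  have h1 : jqModC κ ^ q = qExpand κ q (jqModC κ) := by
    rw [Fermat.Agent.S37K2.S37K2_pow_char κ q (jqModC κ), coeffMap_jqModC]
  haveI : NeZero (q * q) := ⟨mul_ne_zero (NeZero.ne q) (NeZero.ne q)⟩
  rw [h1, ← map_pow, h1, qExpand_qExpand]
  exact S34WQ_qExpand_congr (pow_two q) _

/-- the Frobenius congruence `j(Q^(q²)) ≡ j^(q²)`. -/
theorem S36V0QK_frob_red (q : ℕ) [NeZero q] [NeZero (q ^ 2)] [ExpChar κ q] :
    D.redFun (qExpand K (q ^ 2) (jqModC K) - (jqModC K) ^ (q ^ 2)) = 0 := by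
  have hj := D.jqModC_mem_Vring
  have hjq := S34V0K_qExpand_mem D (q ^ 2) hj
  rw [D.redFun_sub hjq.1 (D.Vring.pow_mem hj (q ^ 2)), hjq.2, D.redFun_pow hj, D.redFun_jqModC,
    S36V0QK_jqq_char q, ← pow_mul, ← pow_two, sub_self]

/-- `j - j(Q^(q²))^(q²)` has nonzero reduction. -/
theorem S36V0QK_unit_red (q : ℕ) [hqf : Fact q.Prime] [NeZero (q ^ 2)] [CharP κ q] :
    D.redFun (jqModC K - (qExpand K (q ^ 2) (jqModC K)) ^ (q ^ 2)) ≠ 0 := by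
  haveI : NeZero q := ⟨hqf.out.ne_zero⟩
  have hj := D.jqModC_mem_Vring
  have hjq := S34V0K_qExpand_mem D (q ^ 2) hj
  rw [D.redFun_sub hj (D.Vring.pow_mem hjq.1 (q ^ 2)), D.redFun_pow hjq.1, hjq.2,
    D.redFun_jqModC]
  intro h0
  have h1 : ((qExpand κ (q ^ 2) (jqModC κ)) ^ q) ^ q = jqModC κ := by
    rw [← pow_mul, ← pow_two]
    exact (sub_eq_zero.mp h0).symm
  exact Fermat.Agent.S34_helper24_QPOWC.S34QP_jq_not_pow κ q _ h1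

/-- `t = j(Q^(q²)) - j` has nonzero reduction. -/
theorem S36V0QK_t_red (q : ℕ) [hqf : Fact q.Prime] [NeZero (q ^ 2)] [CharP κ q] :
    D.redFun (qExpand K (q ^ 2) (jqModC K) - jqModC K) ≠ 0 := by
  haveI : NeZero q := ⟨hqf.out.ne_zero⟩
  have hj := D.jqModC_mem_Vring
  have hjq := S34V0K_qExpand_mem D (q ^ 2) hj
  rw [D.redFun_sub hjq.1 hj, hjq.2, D.redFun_jqModC, S36V0QK_jqq_char q]
  intro h0
  exact Fermat.Agent.S34_helper24_QPOWC.S34QP_jq_not_pow κ q _ (sub_eq_zero.mp h0)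

end Gauss

/-! ### The concrete carriers -/

variable (A : ValuationSubring (AlgebraicClosure ℚ))
  (K1 : IntermediateField ℚ (AlgebraicClosure ℚ))

variable [IsDiscreteValuationRing (S18K_O1 A K1)]

variable (q M' N1 N : ℕ) [NeZero M'] [NeZero N1] [NeZero N] [NeZero q] [NeZero (q ^ 2)]
  (hq : q.Prime) (hqM : ¬ q ∣ M') (hN1 : N1 = q * M') (hN : N = q ^ 2 * M')

/-- **the third valuation ring** `V_0 = w_(q²)(V_∞)` of `F1 = K1(j(Q^d) : d ∣ q² M')`. -/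
def S36V0QK_V : Subring (LaurentSeries K1) :=
  S36V0Q_image (S34V0K_emb K1) (q ^ 2) M' N (S36WQ_cop hq hqM) hN (S18K_V A K1 N)

theorem S36V0QK_mem_V {y : LaurentSeries K1} :
    y ∈ S36V0QK_V A K1 q M' N hq hqM hN ↔
      y ∈ modularFunctionFieldFullC K1 N ∧
        S36WQ_wL (S34V0K_emb K1) (q ^ 2) M' N (S36WQ_cop hq hqM) hN y ∈ S18K_V A K1 N :=
  Iff.rfl

/-- `V_0` is a valuation ring of `F1` in which `π` is a non-unit. -/
theorem S36V0QK_val :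
    S34C2_Val (S18K_π A K1) (S18K_F1 K1 N) (S36V0QK_V A K1 q M' N hq hqM hN) :=
  S36V0Q_val (S34V0K_emb K1) (q ^ 2) M' N (S36WQ_cop hq hqM) hN ⟨_, rfl⟩ (S34V3K_val1 A K1 N)

/-- `π` is a uniformiser of `V_0`. -/
theorem S36V0QK_unif :
    ∀ x ∈ S36V0QK_V A K1 q M' N hq hqM hN, x⁻¹ ∉ S36V0QK_V A K1 q M' N hq hqM hN →
      ∃ v ∈ S36V0QK_V A K1 q M' N hq hqM hN, x = S18K_π A K1 * v :=
  S36V0Q_unif (S34V0K_emb K1) (q ^ 2) M' N (S36WQ_cop hq hqM) hN ⟨_, rfl⟩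
    (S18K_D A K1).πK_ne_zero (S34V3K_unif1 A K1 N)

/-! ### the hypotheses on `w` of the vertical scaling -/

/-- `w` maps `F1` to `F1` (in fact everything). -/
theorem S36V0QK_hwF : ∀ x ∈ S18K_F1 K1 N,
    S36WQ_wL (S34V0K_emb K1) (q ^ 2) M' N (S36WQ_cop hq hqM) hN x ∈ S18K_F1 K1 N :=
  fun x _ => S36WQ_wL_mem (S34V0K_emb K1) (q ^ 2) M' N (S36WQ_cop hq hqM) hN x

theorem S36V0QK_hw1 :
    S36WQ_wL (S34V0K_emb K1) (q ^ 2) M' N (S36WQ_cop hq hqM) hN 1 = 1 :=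
  S36V0Q_wL_one (S34V0K_emb K1) (q ^ 2) M' N (S36WQ_cop hq hqM) hN

theorem S36V0QK_hwmul : ∀ x ∈ S18K_F1 K1 N, ∀ y ∈ S18K_F1 K1 N,
    S36WQ_wL (S34V0K_emb K1) (q ^ 2) M' N (S36WQ_cop hq hqM) hN (x * y) =
      S36WQ_wL (S34V0K_emb K1) (q ^ 2) M' N (S36WQ_cop hq hqM) hN x *
        S36WQ_wL (S34V0K_emb K1) (q ^ 2) M' N (S36WQ_cop hq hqM) hN y :=
  fun x hx y hy => S36WQ_wL_mul (S34V0K_emb K1) (q ^ 2) M' N (S36WQ_cop hq hqM) hN hx hy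

theorem S36V0QK_hwπ :
    S36WQ_wL (S34V0K_emb K1) (q ^ 2) M' N (S36WQ_cop hq hqM) hN (S18K_π A K1) = S18K_π A K1 :=
  S36WQ_wL_C (S34V0K_emb K1) (q ^ 2) M' N (S36WQ_cop hq hqM) hN _

/-- `w ∘ w = id` on `F1`. -/
theorem S36V0QK_hww : ∀ x ∈ S18K_F1 K1 N,
    S36WQ_wL (S34V0K_emb K1) (q ^ 2) M' N (S36WQ_cop hq hqM) hN
      (S36WQ_wL (S34V0K_emb K1) (q ^ 2) M' N (S36WQ_cop hq hqM) hN x) = x :=
  fun x hx => S36WQ_wL_wL (S34V0K_emb K1) (q ^ 2) M' N (S36WQ_cop hq hqM) hN hx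

/-- `w V_∞ ⊆ V_0`. -/
theorem S36V0QK_hw13 : ∀ x ∈ S18K_V A K1 N,
    S36WQ_wL (S34V0K_emb K1) (q ^ 2) M' N (S36WQ_cop hq hqM) hN x ∈
      S36V0QK_V A K1 q M' N hq hqM hN :=
  fun x hx => S36V0Q_wL_mem_image (S34V0K_emb K1) (q ^ 2) M' N (S36WQ_cop hq hqM) hN hx.2 hx

/-- `w V_0 ⊆ V_∞`. -/
theorem S36V0QK_hw31 : ∀ x ∈ S36V0QK_V A K1 q M' N hq hqM hN,
    S36WQ_wL (S34V0K_emb K1) (q ^ 2) M' N (S36WQ_cop hq hqM) hN x ∈ S18K_V A K1 N :=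
  fun x hx => hx.2

include hq hqM hN

/-- on the function field of level `M'`, `w` is `f(Q) ↦ f(Q^(q²))`. -/
theorem S36V0QK_wL_level {x : LaurentSeries K1} (hx : x ∈ modularFunctionFieldFullC K1 M') :
    S36WQ_wL (S34V0K_emb K1) (q ^ 2) M' N (S36WQ_cop hq hqM) hN x = qExpand K1 (q ^ 2) x :=
  S36WQ_wL_level (S34V0K_emb K1) (q ^ 2) M' N (S36WQ_cop hq hqM) hN hx

/-- **the Gauss ring of level `M'` is contained in `V_0`.** -/
theorem S36V0QK_le : S18K_V A K1 M' ≤ S36V0QK_V A K1 q M' N hq hqM hN := by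
  rintro x ⟨hxV, hxF⟩
  have hxF' : x ∈ modularFunctionFieldFullC K1 M' := hxF
  have hM'N : M' ∣ N := hN ▸ dvd_mul_left M' (q ^ 2)
  have hxN : x ∈ modularFunctionFieldFullC K1 N := S34V3K_F1_mono K1 hM'N hxF'
  refine ⟨hxN, ?_, S36WQ_wL_mem (S34V0K_emb K1) (q ^ 2) M' N (S36WQ_cop hq hqM) hN x⟩
  rw [S36V0QK_wL_level K1 q M' N hq hqM hN hxF']
  exact (S34V0K_qExpand_mem (S18K_D A K1) (q ^ 2) hxV).1

include hN1 in
/-- **`V_0` lies over `V'_0`**: the second valuation ring `w_q(V'_∞)` of level `q M'` is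
contained in `V_0`. -/
theorem S36V0QK_le_q :
    S34V0K_V A K1 q M' N1 hq hqM hN1 ≤ S36V0QK_V A K1 q M' N hq hqM hN := by
  rintro x ⟨hxF1, hxV⟩
  have hN1N : N1 ∣ N := S36WQ_N1_dvd hN1 hN
  have hxN : x ∈ modularFunctionFieldFullC K1 N := S34V3K_F1_mono K1 hN1N hxF1
  refine ⟨hxN, ?_, S36WQ_wL_mem (S34V0K_emb K1) (q ^ 2) M' N (S36WQ_cop hq hqM) hN x⟩
  have h1 := S36WQ_beta' (S34V0K_emb K1) q M' N1 N hq hqM hN1 hN
    (⟨x, hxF1⟩ : modularFunctionFieldFullC K1 N1)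
  rw [S34V0_wL_of_mem (S34V0K_emb K1) q M' N1 hq hqM hN1 hxF1] at hxV
  have h2 : S36WQ_wL (S34V0K_emb K1) (q ^ 2) M' N (S36WQ_cop hq hqM) hN x =
      qExpand K1 q ((S34V0_w (S34V0K_emb K1) q M' N1 hq hqM hN1 ⟨x, hxF1⟩ :
        modularFunctionFieldFullC K1 N1) : LaurentSeries K1) := h1
  rw [h2]
  exact (S34V0K_qExpand_mem (S18K_D A K1) q hxV.1).1

/-- `j ∈ V_0`. -/
theorem S36V0QK_j_mem : jqModC K1 ∈ S36V0QK_V A K1 q M' N hq hqM hN :=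
  S36V0QK_le A K1 q M' N hq hqM hN
    ⟨(S18K_D A K1).jqModC_mem_Vring, jqModC_mem_full K1 M'⟩

/-- `j(Q^(q²)) ∈ F1`. -/
theorem S36V0QK_jqq_mem_F :
    qExpand K1 (q ^ 2) (jqModC K1) ∈ modularFunctionFieldFullC K1 N :=
  S36V0Q_jQ_mem (S34V0K_emb K1) (q ^ 2) M' N (S36WQ_cop hq hqM) hN

/-- `j(Q^(q²)) ∈ V1`. -/
theorem S36V0QK_jqq_mem_V1 : qExpand K1 (q ^ 2) (jqModC K1) ∈ S18K_V A K1 N :=
  ⟨(S34V0K_qExpand_mem (S18K_D A K1) (q ^ 2) (S18K_D A K1).jqModC_mem_Vring).1,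
    S36V0QK_jqq_mem_F K1 q M' N hq hqM hN⟩

/-- `j(Q^(q²)) ∈ V_0`. -/
theorem S36V0QK_jqq_mem :
    qExpand K1 (q ^ 2) (jqModC K1) ∈ S36V0QK_V A K1 q M' N hq hqM hN := by
  refine ⟨S36V0QK_jqq_mem_F K1 q M' N hq hqM hN, ?_⟩
  rw [S36V0Q_wL_jQ (S34V0K_emb K1) (q ^ 2) M' N (S36WQ_cop hq hqM) hN]
  exact S34V0K_j_mem_V1 A K1 N

/-- **Frobenius congruence on `V1`**: `j(Q^(q²)) - j^(q²) ∈ π V1`. -/
theorem S36V0QK_frob1 (hA : A.LiesOverPrime q) :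
    ∃ v ∈ S18K_V A K1 N,
      qExpand K1 (q ^ 2) (jqModC K1) - jqModC K1 ^ (q ^ 2) = S18K_π A K1 * v := by
  haveI : ExpChar (IsLocalRing.ResidueField A) q := Fermat.Agent.S37K2.S37K2_expChar A q hq hA
  have hj := (S18K_D A K1).jqModC_mem_Vring
  have hjq := (S34V0K_qExpand_mem (S18K_D A K1) (q ^ 2) hj).1
  obtain ⟨y, hy, hxy⟩ := (S18K_D A K1).exists_eq_mul_of_redFun_eq_zero
    (sub_mem hjq ((S18K_D A K1).Vring.pow_mem hj (q ^ 2))) (S36V0QK_frob_red (S18K_D A K1) q)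
  refine ⟨y, S34V0K_div_mem A K1 N ?_ hy hxy, hxy⟩
  exact sub_mem (S36V0QK_jqq_mem_F K1 q M' N hq hqM hN) (pow_mem (jqModC_mem_full K1 N) (q ^ 2))

/-- **Frobenius congruence on `V_0`**: `j - j(Q^(q²))^(q²) ∈ π V_0`. -/
theorem S36V0QK_frob (hA : A.LiesOverPrime q) :
    ∃ v ∈ S36V0QK_V A K1 q M' N hq hqM hN,
      jqModC K1 - qExpand K1 (q ^ 2) (jqModC K1) ^ (q ^ 2) = S18K_π A K1 * v := by
  obtain ⟨v, hv, h⟩ := S36V0QK_frob1 A K1 q M' N hq hqM hN hA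
  exact S36V0Q_frob (S34V0K_emb K1) (q ^ 2) M' N (S36WQ_cop hq hqM) hN (q ^ 2) ⟨_, rfl⟩
    (S18K_D A K1).πK_ne_zero (jqModC_mem_full K1 M') hv h

/-- the shape consumed by KEY3 (`hyx`): `y := j(Q^(q²)) ∈ V_0`, `y^(q²) - j` is a non-unit of
`V_0`. -/
theorem S36V0QK_frob_nonunit (hA : A.LiesOverPrime q) :
    qExpand K1 (q ^ 2) (jqModC K1) ^ (q ^ 2) - jqModC K1 = 0 ∨
      (qExpand K1 (q ^ 2) (jqModC K1) ^ (q ^ 2) - jqModC K1)⁻¹ ∉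
        S36V0QK_V A K1 q M' N hq hqM hN := by
  obtain ⟨v, hv, h⟩ := S36V0QK_frob A K1 q M' N hq hqM hN hA
  by_cases h0 : qExpand K1 (q ^ 2) (jqModC K1) ^ (q ^ 2) - jqModC K1 = 0
  · exact Or.inl h0
  refine Or.inr fun hinv => ?_
  have hπ0 : S18K_π A K1 ≠ 0 := (S18K_D A K1).πK_ne_zero
  have e : qExpand K1 (q ^ 2) (jqModC K1) ^ (q ^ 2) - jqModC K1 = S18K_π A K1 * (-v) := by
    linear_combination (-1 : LaurentSeries K1) * h
  have hv0 : -v ≠ 0 := by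
    intro hv0
    rw [hv0, mul_zero] at e
    exact h0 e
  have e2 : (S18K_π A K1)⁻¹ =
      (-v) * (qExpand K1 (q ^ 2) (jqModC K1) ^ (q ^ 2) - jqModC K1)⁻¹ := by
    rw [e, mul_inv, ← mul_assoc, mul_comm (-v), mul_assoc, mul_inv_cancel₀ hv0, mul_one]
  exact (S36V0QK_val A K1 q M' N hq hqM hN).π_nonunit
    (by rw [e2]; exact mul_mem (neg_mem hv) hinv)

/-- `j - j(Q^(q²))^(q²)` is a unit of `V1`. -/
theorem S36V0QK_unit1 (hA : A.LiesOverPrime q) :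
    jqModC K1 - qExpand K1 (q ^ 2) (jqModC K1) ^ (q ^ 2) ≠ 0 ∧
      (jqModC K1 - qExpand K1 (q ^ 2) (jqModC K1) ^ (q ^ 2))⁻¹ ∈ S18K_V A K1 N := by
  haveI : Fact q.Prime := ⟨hq⟩
  haveI : CharP (IsLocalRing.ResidueField A) q := S34V0K_charP A hq hA
  have hj := (S18K_D A K1).jqModC_mem_Vring
  have hjq := (S34V0K_qExpand_mem (S18K_D A K1) (q ^ 2) hj).1
  have hred := S36V0QK_unit_red (S18K_D A K1) q
  refine ⟨?_, (S18K_D A K1).inv_mem_Vring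
    (sub_mem hj ((S18K_D A K1).Vring.pow_mem hjq (q ^ 2))) hred, ?_⟩
  · intro h0
    rw [h0] at hred
    exact hred (S18K_D A K1).redFun_zero
  · show _ ∈ modularFunctionFieldFullC K1 N
    exact inv_mem (sub_mem (jqModC_mem_full K1 N)
      (pow_mem (S36V0QK_jqq_mem_F K1 q M' N hq hqM hN) (q ^ 2)))

/-- **separating element**: `c = j - j(Q^(q²))^(q²)` is a unit of `V1` and lies in `π V_0`. -/
theorem S36V0QK_sep (hA : A.LiesOverPrime q) :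
    ∃ c : LaurentSeries K1, c ≠ 0 ∧ c ∈ S18K_V A K1 N ∧ c⁻¹ ∈ S18K_V A K1 N ∧
      ∃ v ∈ S36V0QK_V A K1 q M' N hq hqM hN, c = S18K_π A K1 * v := by
  refine ⟨jqModC K1 - qExpand K1 (q ^ 2) (jqModC K1) ^ (q ^ 2),
    (S36V0QK_unit1 A K1 q M' N hq hqM hN hA).1, ?_,
    (S36V0QK_unit1 A K1 q M' N hq hqM hN hA).2, S36V0QK_frob A K1 q M' N hq hqM hN hA⟩
  exact sub_mem (S34V0K_j_mem_V1 A K1 N)
    (pow_mem (S36V0QK_jqq_mem_V1 A K1 q M' N hq hqM hN) (q ^ 2))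

/-- **`V_0 ≠ V_∞`**. -/
theorem S36V0QK_ne (hA : A.LiesOverPrime q) :
    S36V0QK_V A K1 q M' N hq hqM hN ≠ S18K_V A K1 N := by
  intro heq
  obtain ⟨c, hc0, hc, hci, v, hv, hcv⟩ := S36V0QK_sep A K1 q M' N hq hqM hN hA
  rw [heq] at hv
  have e : (S18K_π A K1)⁻¹ = v * c⁻¹ := by
    have hv0 : v ≠ 0 := by
      rintro rfl
      rw [mul_zero] at hcv
      exact hc0 hcv
    rw [hcv, mul_inv, ← mul_assoc, mul_comm v, mul_assoc, mul_inv_cancel₀ hv0, mul_one]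
  exact (S34V3K_val1 A K1 N).π_nonunit (by rw [e]; exact mul_mem hv hci)

/-! ### the element `t = j(Q^(q²)) - j` -/

/-- `w t = - t`. -/
theorem S36V0QK_wt :
    S36WQ_wL (S34V0K_emb K1) (q ^ 2) M' N (S36WQ_cop hq hqM) hN
      (qExpand K1 (q ^ 2) (jqModC K1) - jqModC K1) =
      - (qExpand K1 (q ^ 2) (jqModC K1) - jqModC K1) := by
  rw [S36V0Q_wL_sub (S34V0K_emb K1) (q ^ 2) M' N (S36WQ_cop hq hqM) hN
      (S36V0QK_jqq_mem_F K1 q M' N hq hqM hN) (jqModC_mem_full K1 N),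
    S36V0Q_wL_jQ, S36V0Q_wL_j]
  ring

/-- `t ∈ F1`. -/
theorem S36V0QK_t_mem_F :
    qExpand K1 (q ^ 2) (jqModC K1) - jqModC K1 ∈ modularFunctionFieldFullC K1 N :=
  sub_mem (S36V0QK_jqq_mem_F K1 q M' N hq hqM hN) (jqModC_mem_full K1 N)

/-- `t` is a unit of `V1 = V_∞`. -/
theorem S36V0QK_t_unit1 (hA : A.LiesOverPrime q) :
    qExpand K1 (q ^ 2) (jqModC K1) - jqModC K1 ≠ 0 ∧
      qExpand K1 (q ^ 2) (jqModC K1) - jqModC K1 ∈ S18K_V A K1 N ∧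
      (qExpand K1 (q ^ 2) (jqModC K1) - jqModC K1)⁻¹ ∈ S18K_V A K1 N := by
  haveI : Fact q.Prime := ⟨hq⟩
  haveI : CharP (IsLocalRing.ResidueField A) q := S34V0K_charP A hq hA
  have hj := (S18K_D A K1).jqModC_mem_Vring
  have hjq := (S34V0K_qExpand_mem (S18K_D A K1) (q ^ 2) hj).1
  have hred := S36V0QK_t_red (S18K_D A K1) q
  refine ⟨?_, ⟨sub_mem hjq hj, S36V0QK_t_mem_F K1 q M' N hq hqM hN⟩,
    (S18K_D A K1).inv_mem_Vring (sub_mem hjq hj) hred, ?_⟩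
  · intro h0
    rw [h0] at hred
    exact hred (S18K_D A K1).redFun_zero
  · show _ ∈ modularFunctionFieldFullC K1 N
    exact inv_mem (S36V0QK_t_mem_F K1 q M' N hq hqM hN)

/-- `t` is a unit of `V_0`. -/
theorem S36V0QK_t_unit0 (hA : A.LiesOverPrime q) :
    qExpand K1 (q ^ 2) (jqModC K1) - jqModC K1 ∈ S36V0QK_V A K1 q M' N hq hqM hN ∧
      (qExpand K1 (q ^ 2) (jqModC K1) - jqModC K1)⁻¹ ∈ S36V0QK_V A K1 q M' N hq hqM hN := by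
  obtain ⟨-, h1, h2⟩ := S36V0QK_t_unit1 A K1 q M' N hq hqM hN hA
  have htF := S36V0QK_t_mem_F K1 q M' N hq hqM hN
  refine ⟨⟨htF, ?_⟩, ⟨inv_mem htF, ?_⟩⟩
  · rw [S36V0QK_wt K1 q M' N hq hqM hN]
    exact neg_mem h1
  · rw [S36V0Q_wL_inv (S34V0K_emb K1) (q ^ 2) M' N (S36WQ_cop hq hqM) hN htF,
      S36V0QK_wt K1 q M' N hq hqM hN, inv_neg]
    exact neg_mem h2

end Fermat.Agent.S36_helper23_V0QK
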