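import Mathlib
import Fermat.Agent.S34_helper13_VCOUNT

/-!
# S36, GEO36 (II.2): the order of a norm (helper28) - valuation-subring layer

`R` a discrete valuation ring with fraction field `F`, `F'/F` finite separable (the vocabulary of
helper13's landed `S34_helper13_VCOUNT`).

* `S36NO_norm_int`     : the norm of an element integral over `R` comes from `R`;
* `S36NO_norm_unit`    : the norm of `x` with `x`, `x⁻¹` integral over `R` is a unit of `R`;
* `S36NO_norm_nonunit` : the norm of an integral element which is a non-unit of ONE dominating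
  valuation subring lies in the maximal ideal of `R`;
* `S36NO_two`          : **two extensions, the second one ramified**: if the elements of
  `W1 ∩ W2` are integral over `R`, `[F' : F] ≤ 1 + m`, and `ϖ = y1 * y2 ^ m * u` with `y1` a
  non-unit of `W1` and a unit of `W2`, `y2` a non-unit of `W2` and a unit of `W1`, `u` a common
  unit, then `N(y1)` and `N(y2)` are uniformisers of `R` (and `[F' : F] = 1 + m`);
  consequently `N(y1 ^ a1 * y2 ^ a2 * v) = ϖ ^ (a1 + a2) * unit` for a common unit `v`;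
* `S36NO_one`          : **one extension**: if the elements of `W` are integral over `R` then
  `N(ϖ ^ a * v) = ϖ ^ ([F' : F] * a) * unit` for a unit `v` of `W`.
-/

set_option autoImplicit false
set_option linter.style.haveILetI false
set_option linter.unusedSectionVars false
set_option linter.unusedVariables false

open IsLocalRing Module IsDedekindDomain
open Fermat.Agent.S34_helper13_VCOUNT

namespace Fermat.Agent.S36_helper28_NORD

section Val

variable (R F : Type*) {F' : Type*} [CommRing R] [IsDomain R] [IsDiscreteValuationRing R]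
  [Field F] [Field F'] [Algebra R F] [IsFractionRing R F] [Algebra F F'] [Algebra R F']
  [IsScalarTower R F F'] [FiniteDimensional F F'] [Algebra.IsSeparable F F']

include F in
/-- the norm over `R` of an element of the integral closure and the field norm -/
theorem S36NO_norm_eq (s : S34V_S R F') :
    haveI := S34V_finite R F F'
    haveI := S34V_torsionFree R F F'
    algebraMap R F (Algebra.norm R s) = Algebra.norm F (s : F') := by
  haveI := S34V_isDedekind R F F'
  haveI := S34V_isFrac R F F'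
  haveI := S34V_faithful R F F'
  haveI := S34V_finite R F F'
  haveI := S34V_torsionFree R F F'
  haveI := S34V_flat R F F'
  haveI : Module.Free R (S34V_S R F') := Module.free_of_finite_type_torsion_free'
  have := Algebra.norm_localization (Rₘ := F) (Sₘ := F') R (nonZeroDivisors R) s
  rw [← this]
  rfl

include F in
/-- the norm of an integral element comes from `R` -/
theorem S36NO_norm_int {x : F'} (hx : IsIntegral R x) :
    ∃ r : R, algebraMap R F r = Algebra.norm F x :=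
  ⟨_, S36NO_norm_eq R F (⟨x, hx⟩ : S34V_S R F')⟩

include F in
/-- the norm of an integral element with integral inverse is a unit of `R` -/
theorem S36NO_norm_unit {x : F'} (hx0 : x ≠ 0) (hx : IsIntegral R x) (hx' : IsIntegral R x⁻¹) :
    ∃ r : R, IsUnit r ∧ algebraMap R F r = Algebra.norm F x := by
  haveI := S34V_finite R F F'
  haveI := S34V_torsionFree R F F'
  refine ⟨Algebra.norm R (⟨x, hx⟩ : S34V_S R F'), ?_, S36NO_norm_eq R F _⟩
  have h1 : (⟨x, hx⟩ : S34V_S R F') * ⟨x⁻¹, hx'⟩ = 1 := by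
    apply Subtype.ext
    show x * x⁻¹ = 1
    exact mul_inv_cancel₀ hx0
  have h2 : Algebra.norm R (⟨x, hx⟩ : S34V_S R F') * Algebra.norm R (⟨x⁻¹, hx'⟩ : S34V_S R F')
      = 1 := by
    rw [← map_mul, h1, map_one]
  exact IsUnit.of_mul_eq_one _ h2

include F in
/-- the norm of an integral element which is a non-unit of a dominating valuation subring lies
in the maximal ideal -/
theorem S36NO_norm_nonunit (W : ValuationSubring F') (hW : S34V_Dom R W) {x : F'}
    (hx : IsIntegral R x) (hxW : x ∈ W.nonunits) :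
    ∃ r : R, r ∈ maximalIdeal R ∧ algebraMap R F r = Algebra.norm F x := by
  haveI := S34V_isDedekind R F F'
  haveI := S34V_isFrac R F F'
  haveI := S34V_faithful R F F'
  haveI := S34V_finite R F F'
  haveI := S34V_torsionFree R F F'
  haveI := S34V_flat R F F'
  haveI : Algebra.IsIntegral R (S34V_S R F') := IsIntegralClosure.isIntegral_algebra R F'
  haveI : Module.Free R (S34V_S R F') := Module.free_of_finite_type_torsion_free'
  set s : S34V_S R F' := ⟨x, hx⟩ with hs
  refine ⟨Algebra.norm R s, ?_, S36NO_norm_eq R F s⟩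
  apply S34V_mem_maximalIdeal_of_mem_nonunits W hW
  -- `s` divides the image of its norm
  have hdvd : s ∣ algebraMap R (S34V_S R F') (Algebra.intNorm R (S34V_S R F') s) :=
    Algebra.dvd_algebraMap_intNorm_self R (S34V_S R F') s
  rw [Algebra.intNorm_eq_norm] at hdvd
  obtain ⟨c, hc⟩ := hdvd
  have h1 : algebraMap R F' (Algebra.norm R s) = x * (c : F') := by
    have := congrArg (fun z : S34V_S R F' => (z : F')) hc
    simpa [hs] using this
  rw [h1, mul_comm]
  exact S34V_nonunits_mul_mem W (S34V_algebraMap_mem W hW.1 c) hxW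

omit [IsDomain R] [IsDiscreteValuationRing R] [Algebra R F'] [IsScalarTower R F F']
  [Algebra.IsSeparable F F'] [CommRing R] [Algebra R F] [IsFractionRing R F]
  [FiniteDimensional F F'] in
/-- the field norm of an inverse -/
theorem S36NO_norm_inv {x : F'} (hx : x ≠ 0) : Algebra.norm F x⁻¹ = (Algebra.norm F x)⁻¹ := by
  have h : Algebra.norm F x * Algebra.norm F x⁻¹ = 1 := by
    rw [← map_mul, mul_inv_cancel₀ hx, map_one]
  exact (eq_inv_of_mul_eq_one_right h)

omit [IsDomain R] [IsDiscreteValuationRing R] [Algebra R F'] [IsScalarTower R F F']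
  [Algebra.IsSeparable F F'] [CommRing R] [Algebra R F] [IsFractionRing R F]
  [FiniteDimensional F F'] in
/-- the field norm of an integral power -/
theorem S36NO_norm_zpow {x : F'} (hx : x ≠ 0) (a : ℤ) :
    Algebra.norm F (x ^ a) = (Algebra.norm F x) ^ a := by
  cases a with
  | ofNat n => simp [map_pow]
  | negSucc n =>
    rw [zpow_negSucc, zpow_negSucc, S36NO_norm_inv F (pow_ne_zero _ hx), map_pow]

omit [IsDomain R] [IsDiscreteValuationRing R] [Algebra R F'] [IsScalarTower R F F']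
  [Algebra.IsSeparable F F'] [CommRing R] [Algebra R F] [IsFractionRing R F]
  [FiniteDimensional F F'] in
/-- the norm of a nonzero element of `F'` is nonzero -/
theorem S36NO_norm_ne_zero {x : F'} (hx : x ≠ 0) : Algebra.norm F x ≠ 0 := by
  intro h0
  have h : Algebra.norm F x * Algebra.norm F x⁻¹ = 1 := by
    rw [← map_mul, mul_inv_cancel₀ hx, map_one]
  rw [h0, zero_mul] at h
  exact zero_ne_one h

include F in
/-- the norm of (the image of) an element of `R` -/
theorem S36NO_norm_algebraMap (r : R) :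
    Algebra.norm F (algebraMap R F' r) = algebraMap R F (r ^ Module.finrank F F') := by
  rw [IsScalarTower.algebraMap_apply R F F', Algebra.norm_algebraMap, map_pow]

include F in
/-- **Two extensions, the second one ramified.** -/
theorem S36NO_two (W1 W2 : ValuationSubring F') (h1 : S34V_Dom R W1) (h2 : S34V_Dom R W2)
    (hint : ∀ x : F', x ∈ W1 → x ∈ W2 → IsIntegral R x)
    {m : ℕ} (hm : 1 ≤ m) (hdeg : Module.finrank F F' ≤ 1 + m)
    {ϖ : R} (hϖ : Irreducible ϖ) {y1 y2 u : F'}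
    (hy1 : y1 ∈ W1.nonunits) (hy1' : y1 ∈ W2) (hy10 : y1 ≠ 0)
    (hy2 : y2 ∈ W2.nonunits) (hy2' : y2 ∈ W1) (hy20 : y2 ≠ 0)
    (hu0 : u ≠ 0) (hu1 : u ∈ W1) (hu1' : u⁻¹ ∈ W1) (hu2 : u ∈ W2) (hu2' : u⁻¹ ∈ W2)
    (hϖy : algebraMap R F' ϖ = y1 * y2 ^ m * u) :
    (∃ r : R, IsUnit r ∧ Algebra.norm F y1 = algebraMap R F (ϖ * r)) ∧
    (∃ r : R, IsUnit r ∧ Algebra.norm F y2 = algebraMap R F (ϖ * r)) ∧
    Module.finrank F F' = 1 + m := by
  have hinj : Function.Injective (algebraMap R F) := IsFractionRing.injective R F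
  -- the three norms
  obtain ⟨r1, hr1m, hr1⟩ := S36NO_norm_nonunit R F W1 h1
    (hint y1 (W1.nonunits_le hy1) hy1') hy1
  obtain ⟨r2, hr2m, hr2⟩ := S36NO_norm_nonunit R F W2 h2
    (hint y2 hy2' (W2.nonunits_le hy2)) hy2
  obtain ⟨r3, hr3u, hr3⟩ := S36NO_norm_unit R F hu0 (hint u hu1 hu2) (hint u⁻¹ hu1' hu2')
  have hr10 : r1 ≠ 0 := by
    rintro rfl
    rw [map_zero] at hr1
    exact S36NO_norm_ne_zero F hy10 hr1.symm
  have hr20 : r2 ≠ 0 := by
    rintro rfl
    rw [map_zero] at hr2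
    exact S36NO_norm_ne_zero F hy20 hr2.symm
  obtain ⟨c1, v1, hv1⟩ := IsDiscreteValuationRing.eq_unit_mul_pow_irreducible hr10 hϖ
  obtain ⟨c2, v2, hv2⟩ := IsDiscreteValuationRing.eq_unit_mul_pow_irreducible hr20 hϖ
  have hc1 : 1 ≤ c1 := by
    rcases Nat.eq_zero_or_pos c1 with rfl | h
    · exfalso
      rw [pow_zero, mul_one] at hv1
      rw [IsLocalRing.mem_maximalIdeal] at hr1m
      exact hr1m (hv1 ▸ v1.isUnit)
    · exact h
  have hc2 : 1 ≤ c2 := by
    rcases Nat.eq_zero_or_pos c2 with rfl | h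
    · exfalso
      rw [pow_zero, mul_one] at hv2
      rw [IsLocalRing.mem_maximalIdeal] at hr2m
      exact hr2m (hv2 ▸ v2.isUnit)
    · exact h
  -- the norm of `ϖ`
  have hN : algebraMap R F (ϖ ^ Module.finrank F F') = algebraMap R F (r1 * r2 ^ m * r3) := by
    rw [← S36NO_norm_algebraMap R F ϖ, hϖy, map_mul, map_mul, map_pow, ← hr1, ← hr2, ← hr3,
      map_mul, map_mul, map_pow]
  have hN' : ϖ ^ Module.finrank F F' = r1 * r2 ^ m * r3 := hinj hN
  obtain ⟨v3, rfl⟩ := hr3u
  have hN'' : ((1 : Rˣ) : R) * ϖ ^ Module.finrank F F' =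
      ((v1 * v2 ^ m * v3 : Rˣ) : R) * ϖ ^ (c1 + m * c2) := by
    rw [Units.val_one, one_mul, hN', hv1, hv2]
    push_cast
    ring
  have hd : Module.finrank F F' = c1 + m * c2 :=
    IsDiscreteValuationRing.unit_mul_pow_congr_pow hϖ hϖ _ _ _ _ hN''
  have hle : c1 + m * c2 ≤ 1 + m := hd ▸ hdeg
  have hmc : m * 1 ≤ m * c2 := Nat.mul_le_mul_left m hc2
  have hc1' : c1 = 1 := by nlinarith
  have hc2' : c2 = 1 := by
    have : m * c2 ≤ m * 1 := by omega
    exact le_antisymm (Nat.le_of_mul_le_mul_left this (by omega)) hc2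
  subst hc1' hc2'
  refine ⟨⟨v1, v1.isUnit, ?_⟩, ⟨v2, v2.isUnit, ?_⟩, by omega⟩
  · rw [← hr1, hv1, pow_one, mul_comm]
  · rw [← hr2, hv2, pow_one, mul_comm]

include F in
/-- **Two extensions: the order of a norm.**  `N(y1 ^ a1 * y2 ^ a2 * v) = ϖ ^ (a1 + a2) * unit`
for a common unit `v`. -/
theorem S36NO_two_zpow (W1 W2 : ValuationSubring F') (h1 : S34V_Dom R W1) (h2 : S34V_Dom R W2)
    (hint : ∀ x : F', x ∈ W1 → x ∈ W2 → IsIntegral R x)
    {m : ℕ} (hm : 1 ≤ m) (hdeg : Module.finrank F F' ≤ 1 + m)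
    {ϖ : R} (hϖ : Irreducible ϖ) {y1 y2 u : F'}
    (hy1 : y1 ∈ W1.nonunits) (hy1' : y1 ∈ W2) (hy10 : y1 ≠ 0)
    (hy2 : y2 ∈ W2.nonunits) (hy2' : y2 ∈ W1) (hy20 : y2 ≠ 0)
    (hu0 : u ≠ 0) (hu1 : u ∈ W1) (hu1' : u⁻¹ ∈ W1) (hu2 : u ∈ W2) (hu2' : u⁻¹ ∈ W2)
    (hϖy : algebraMap R F' ϖ = y1 * y2 ^ m * u)
    (a1 a2 : ℤ) {v : F'} (hv0 : v ≠ 0) (hv1 : v ∈ W1) (hv1' : v⁻¹ ∈ W1) (hv2 : v ∈ W2)
    (hv2' : v⁻¹ ∈ W2) :
    ∃ r : R, IsUnit r ∧ Algebra.norm F (y1 ^ a1 * y2 ^ a2 * v) =
      (algebraMap R F ϖ) ^ (a1 + a2) * algebraMap R F r := by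
  obtain ⟨⟨r1, hr1u, hr1⟩, ⟨r2, hr2u, hr2⟩, -⟩ := S36NO_two R F W1 W2 h1 h2 hint hm hdeg hϖ
    hy1 hy1' hy10 hy2 hy2' hy20 hu0 hu1 hu1' hu2 hu2' hϖy
  obtain ⟨r3, hr3u, hr3⟩ := S36NO_norm_unit R F hv0 (hint v hv1 hv2) (hint v⁻¹ hv1' hv2')
  obtain ⟨w1, rfl⟩ := hr1u
  obtain ⟨w2, rfl⟩ := hr2u
  obtain ⟨w3, rfl⟩ := hr3u
  have hϖ0 : algebraMap R F ϖ ≠ 0 := by
    intro h
    exact hϖ.ne_zero ((map_eq_zero_iff _ (IsFractionRing.injective R F)).1 h)
  have hw : ∀ w : Rˣ, algebraMap R F (w : R) ≠ 0 := fun w h =>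
    w.ne_zero ((map_eq_zero_iff _ (IsFractionRing.injective R F)).1 h)
  -- the unit `w1 ^ a1 * w2 ^ a2 * w3`
  refine ⟨((w1 ^ a1 * w2 ^ a2 * w3 : Rˣ) : R), Units.isUnit _, ?_⟩
  have hz : ∀ (w : Rˣ) (a : ℤ), algebraMap R F ((w ^ a : Rˣ) : R) = (algebraMap R F (w : R)) ^ a := by
    intro w a
    cases a with
    | ofNat n => simp
    | negSucc n =>
      rw [zpow_negSucc, zpow_negSucc]
      have h1 : algebraMap R F (((w ^ (n + 1))⁻¹ : Rˣ) : R) * (algebraMap R F (w : R)) ^ (n + 1)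
          = 1 := by
        rw [← map_pow, ← map_mul, ← Units.val_pow_eq_pow_val, ← Units.val_mul, inv_mul_cancel,
          Units.val_one, map_one]
      exact eq_inv_of_mul_eq_one_left h1
  have e1 : algebraMap R F (ϖ * (w1 : R)) = algebraMap R F ϖ * algebraMap R F (w1 : R) :=
    map_mul _ _ _
  have e2 : algebraMap R F (ϖ * (w2 : R)) = algebraMap R F ϖ * algebraMap R F (w2 : R) :=
    map_mul _ _ _
  have e3 : algebraMap R F ((w1 ^ a1 * w2 ^ a2 * w3 : Rˣ) : R) =
      (algebraMap R F (w1 : R)) ^ a1 * (algebraMap R F (w2 : R)) ^ a2 *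
        algebraMap R F (w3 : R) := by
    rw [Units.val_mul, Units.val_mul, map_mul, map_mul, hz, hz]
  rw [map_mul, map_mul, S36NO_norm_zpow F hy10, S36NO_norm_zpow F hy20, hr1, hr2, ← hr3,
    e1, e2, e3, mul_zpow, mul_zpow, zpow_add₀ hϖ0]
  ring

include F in
/-- **One extension: the order of a norm.**  If every element of `W` is integral over `R`, then
`N(ϖ ^ a * v) = ϖ ^ ([F' : F] * a) * unit` for a unit `v` of `W`. -/
theorem S36NO_one (W : ValuationSubring F')
    (hint : ∀ x : F', x ∈ W → IsIntegral R x) (ϖ : R) (hϖ0 : ϖ ≠ 0)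
    (a : ℤ) {v : F'} (hv0 : v ≠ 0) (hv : v ∈ W) (hv' : v⁻¹ ∈ W) :
    ∃ r : R, IsUnit r ∧ Algebra.norm F ((algebraMap R F' ϖ) ^ a * v) =
      (algebraMap R F ϖ) ^ ((Module.finrank F F' : ℤ) * a) * algebraMap R F r := by
  haveI := S34V_faithful R F F'
  obtain ⟨r, hru, hr⟩ := S36NO_norm_unit R F hv0 (hint v hv) (hint v⁻¹ hv')
  refine ⟨r, hru, ?_⟩
  have h0 : algebraMap R F' ϖ ≠ 0 := by
    intro h
    exact hϖ0 ((FaithfulSMul.algebraMap_eq_zero_iff R F').1 h)
  rw [map_mul, S36NO_norm_zpow F h0, S36NO_norm_algebraMap R F ϖ, ← hr, map_pow, ← zpow_natCast,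
    ← zpow_mul]

end Val

end Fermat.Agent.S36_helper28_NORD
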