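import Mathlib

/-!
# S36, GEO36 (II.2): weak approximation for three discrete valuation rings (helper28)

`Subring L` vocabulary, Mathlib only.  `S36WA_DV τ F1 W` : `W` is a valuation ring of the
subfield `F1` (elementwise) in which every nonzero element of `F1` is `τ ^ z * unit`.  The three
rings may have DIFFERENT uniformisers (at level `q²` the middle component has uniformiser `t`
with `π = t ^ (q - 1) * unit`).

* `S36WA_M τ W x`  : `x ∈ τ W` (the maximal ideal);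
* `S36WA_U W x`    : `x` is a unit of `W`;
* `S36WA_Ord τ W x z` : `x = τ ^ z * unit`;
* `S36WA_swap`, `S36WA_idem2`, `S36WA_adjust`, `S36WA_idem3`, `S36WA_sharp` : the approximation
  lemmas; `S36WA_unif3` : an element of `F1` of order `1` at `W1` and order `0` at `W2`, `W3`.
-/

set_option autoImplicit false
set_option linter.style.haveILetI false
set_option linter.unusedSectionVars false
set_option linter.unusedVariables false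

namespace Fermat.Agent.S36_helper28_WAPP

variable {L : Type*} [Field L]

/-- A discrete valuation ring `W` of `F1` (elementwise) with uniformiser `τ`. -/
structure S36WA_DV (τ : L) (F1 : Subfield L) (W : Subring L) : Prop where
  le : (W : Set L) ⊆ F1
  val : ∀ x ∈ F1, x ∈ W ∨ x⁻¹ ∈ W
  τ_mem : τ ∈ W
  τ_nonunit : τ⁻¹ ∉ W
  sep : ∀ x ∈ F1, x ≠ 0 → ∃ (z : ℤ) (u : L), u ∈ W ∧ u⁻¹ ∈ W ∧ x = τ ^ z * u

/-- `x ∈ τ W`. -/
def S36WA_M (τ : L) (W : Subring L) (x : L) : Prop := ∃ v ∈ W, x = τ * v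

/-- `x` is a unit of `W`. -/
def S36WA_U (W : Subring L) (x : L) : Prop := x ≠ 0 ∧ x ∈ W ∧ x⁻¹ ∈ W

/-- `x = τ ^ z * unit`. -/
def S36WA_Ord (τ : L) (W : Subring L) (x : L) (z : ℤ) : Prop :=
  ∃ u, S36WA_U W u ∧ x = τ ^ z * u

section Basic

variable {τ : L} {W : Subring L}

theorem S36WA_M.mem (hτ : τ ∈ W) {x : L} (h : S36WA_M τ W x) : x ∈ W := by
  obtain ⟨v, hv, rfl⟩ := h
  exact W.mul_mem hτ hv

theorem S36WA_M.zero : S36WA_M τ W 0 := ⟨0, W.zero_mem, by rw [mul_zero]⟩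

theorem S36WA_M.add {x y : L} (hx : S36WA_M τ W x) (hy : S36WA_M τ W y) :
    S36WA_M τ W (x + y) := by
  obtain ⟨v, hv, rfl⟩ := hx
  obtain ⟨w, hw, rfl⟩ := hy
  exact ⟨v + w, W.add_mem hv hw, by ring⟩

theorem S36WA_M.neg {x : L} (hx : S36WA_M τ W x) : S36WA_M τ W (-x) := by
  obtain ⟨v, hv, rfl⟩ := hx
  exact ⟨-v, W.neg_mem hv, by ring⟩

theorem S36WA_M.sub {x y : L} (hx : S36WA_M τ W x) (hy : S36WA_M τ W y) :
    S36WA_M τ W (x - y) := by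
  rw [sub_eq_add_neg]
  exact hx.add hy.neg

theorem S36WA_M.mul_left {x y : L} (hx : S36WA_M τ W x) (hy : y ∈ W) :
    S36WA_M τ W (y * x) := by
  obtain ⟨v, hv, rfl⟩ := hx
  exact ⟨y * v, W.mul_mem hy hv, by ring⟩

theorem S36WA_M.mul_right {x y : L} (hx : S36WA_M τ W x) (hy : y ∈ W) :
    S36WA_M τ W (x * y) := by
  rw [mul_comm]
  exact hx.mul_left hy

theorem S36WA_U.one : S36WA_U W 1 := ⟨one_ne_zero, W.one_mem, by rw [inv_one]; exact W.one_mem⟩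

theorem S36WA_U.mul {x y : L} (hx : S36WA_U W x) (hy : S36WA_U W y) : S36WA_U W (x * y) :=
  ⟨mul_ne_zero hx.1 hy.1, W.mul_mem hx.2.1 hy.2.1, by
    rw [mul_inv]; exact W.mul_mem hx.2.2 hy.2.2⟩

theorem S36WA_U.inv {x : L} (hx : S36WA_U W x) : S36WA_U W x⁻¹ :=
  ⟨inv_ne_zero hx.1, hx.2.2, by rw [inv_inv]; exact hx.2.1⟩

theorem S36WA_U.pow {x : L} (hx : S36WA_U W x) (n : ℕ) : S36WA_U W (x ^ n) :=
  ⟨pow_ne_zero n hx.1, W.pow_mem hx.2.1 n, by rw [← inv_pow]; exact W.pow_mem hx.2.2 n⟩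

theorem S36WA_U.zpow {x : L} (hx : S36WA_U W x) (z : ℤ) : S36WA_U W (x ^ z) := by
  cases z with
  | ofNat n =>
    rw [Int.ofNat_eq_natCast, zpow_natCast]
    exact hx.pow n
  | negSucc n =>
    rw [zpow_negSucc]
    exact (hx.pow (n + 1)).inv

theorem S36WA_U.neg {x : L} (hx : S36WA_U W x) : S36WA_U W (-x) :=
  ⟨neg_ne_zero.2 hx.1, W.neg_mem hx.2.1, by rw [inv_neg]; exact W.neg_mem hx.2.2⟩

theorem S36WA_zpow_mem (hτ : τ ∈ W) {z : ℤ} (hz : 0 ≤ z) : τ ^ z ∈ W := by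
  lift z to ℕ using hz
  rw [zpow_natCast]
  exact W.pow_mem hτ z

/-- A multiple of `τ` is not a unit. -/
theorem S36WA_M.not_unit (hτ' : τ⁻¹ ∉ W) {x : L} (hx : S36WA_M τ W x) : ¬ S36WA_U W x := by
  rintro ⟨hx0, -, hxi⟩
  obtain ⟨v, hv, rfl⟩ := hx
  apply hτ'
  have hτ0 : τ ≠ 0 := left_ne_zero_of_mul hx0
  have hv0 : v ≠ 0 := right_ne_zero_of_mul hx0
  have : τ⁻¹ = v * (τ * v)⁻¹ := by
    field_simp
  rw [this]
  exact W.mul_mem hv hxi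

end Basic

section DV

variable {τ : L} {F1 : Subfield L} {W : Subring L}

theorem S36WA_DV.τ_ne_zero (H : S36WA_DV τ F1 W) : τ ≠ 0 := by
  intro h
  apply H.τ_nonunit
  rw [h, inv_zero]
  exact W.zero_mem

/-- Non-units are multiples of `τ`. -/
theorem S36WA_DV.unif (H : S36WA_DV τ F1 W) {x : L} (hx : x ∈ W) (hx' : x⁻¹ ∉ W) :
    S36WA_M τ W x := by
  have hx0 : x ≠ 0 := fun h => hx' (by rw [h, inv_zero]; exact W.zero_mem)
  obtain ⟨z, u, hu, hu', hxu⟩ := H.sep x (H.le hx) hx0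
  have hτ0 := H.τ_ne_zero
  by_cases hz : 1 ≤ z
  · refine ⟨τ ^ (z - 1) * u, W.mul_mem (S36WA_zpow_mem H.τ_mem (by omega)) hu, ?_⟩
    rw [hxu, ← mul_assoc, ← zpow_one_add₀ hτ0]
    congr 2
    ring
  · exfalso
    apply hx'
    rw [hxu, mul_inv, ← zpow_neg]
    exact W.mul_mem (S36WA_zpow_mem H.τ_mem (by omega)) hu'

/-- Every element of `W` is a unit or a multiple of `τ`. -/
theorem S36WA_DV.unit_or (H : S36WA_DV τ F1 W) {x : L} (hx : x ∈ W) :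
    S36WA_U W x ∨ S36WA_M τ W x := by
  by_cases hx0 : x = 0
  · right
    rw [hx0]
    exact S36WA_M.zero
  by_cases hxi : x⁻¹ ∈ W
  · exact Or.inl ⟨hx0, hx, hxi⟩
  · exact Or.inr (H.unif hx hxi)

/-- `1 + τ c` is a unit. -/
theorem S36WA_DV.one_add (H : S36WA_DV τ F1 W) {c : L} (hc : S36WA_M τ W c) :
    S36WA_U W (1 + c) := by
  have hmem : 1 + c ∈ W := W.add_mem W.one_mem (hc.mem H.τ_mem)
  rcases H.unit_or hmem with h | h
  · exact h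
  · exfalso
    have h1 : S36WA_M τ W 1 := by
      have : (1 : L) = (1 + c) - c := by ring
      rw [this]
      exact h.sub hc
    exact h1.not_unit H.τ_nonunit S36WA_U.one

/-- A unit plus a multiple of `τ` is a unit. -/
theorem S36WA_DV.unit_add (H : S36WA_DV τ F1 W) {a c : L} (ha : S36WA_U W a)
    (hc : S36WA_M τ W c) : S36WA_U W (a + c) := by
  have h1 : a + c = a * (1 + a⁻¹ * c) := by
    have := ha.1
    field_simp
  rw [h1]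
  exact ha.mul (H.one_add (hc.mul_left ha.2.2))

/-- The maximal ideal is prime. -/
theorem S36WA_DV.mul_mem (H : S36WA_DV τ F1 W) {x y : L} (hx : x ∈ W) (hy : y ∈ W)
    (hxy : S36WA_M τ W (x * y)) : S36WA_M τ W x ∨ S36WA_M τ W y := by
  rcases H.unit_or hx with h | h
  · right
    have : y = x⁻¹ * (x * y) := by
      have := h.1
      field_simp
    rw [this]
    exact hxy.mul_left h.2.2
  · exact Or.inl h

/-- An element of `F1` outside `W` has its inverse in `τ W`. -/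
theorem S36WA_DV.inv_of_not_mem (H : S36WA_DV τ F1 W) {x : L} (hxF : x ∈ F1) (hx : x ∉ W) :
    S36WA_M τ W x⁻¹ := by
  have h2 : x⁻¹ ∈ W := (H.val x hxF).resolve_left hx
  exact H.unif h2 (by rwa [inv_inv])

theorem S36WA_DV.ord_exists (H : S36WA_DV τ F1 W) {x : L} (hxF : x ∈ F1) (hx0 : x ≠ 0) :
    ∃ z, S36WA_Ord τ W x z := by
  obtain ⟨z, u, hu, hu', hxu⟩ := H.sep x hxF hx0
  refine ⟨z, u, ⟨?_, hu, hu'⟩, hxu⟩
  rintro rfl
  exact hx0 (by rw [hxu, mul_zero])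

end DV

section Ord

variable {τ : L} {W : Subring L}

theorem S36WA_Ord.ne_zero (hτ0 : τ ≠ 0) {x : L} {z : ℤ} (h : S36WA_Ord τ W x z) : x ≠ 0 := by
  obtain ⟨u, hu, rfl⟩ := h
  exact mul_ne_zero (zpow_ne_zero z hτ0) hu.1

theorem S36WA_Ord.of_unit {x : L} (h : S36WA_U W x) : S36WA_Ord τ W x 0 :=
  ⟨x, h, by rw [zpow_zero, one_mul]⟩

theorem S36WA_Ord.unit {x : L} (h : S36WA_Ord τ W x 0) : S36WA_U W x := by
  obtain ⟨u, hu, rfl⟩ := h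
  rw [zpow_zero, one_mul]
  exact hu

theorem S36WA_Ord.self : S36WA_Ord τ W τ 1 := ⟨1, S36WA_U.one, by rw [zpow_one, mul_one]⟩

theorem S36WA_Ord.mul (hτ0 : τ ≠ 0) {x y : L} {a b : ℤ} (hx : S36WA_Ord τ W x a)
    (hy : S36WA_Ord τ W y b) : S36WA_Ord τ W (x * y) (a + b) := by
  obtain ⟨u, hu, rfl⟩ := hx
  obtain ⟨v, hv, rfl⟩ := hy
  refine ⟨u * v, hu.mul hv, ?_⟩
  rw [zpow_add₀ hτ0]
  ring

theorem S36WA_Ord.inv {x : L} {a : ℤ} (hx : S36WA_Ord τ W x a) : S36WA_Ord τ W x⁻¹ (-a) := by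
  obtain ⟨u, hu, rfl⟩ := hx
  refine ⟨u⁻¹, hu.inv, ?_⟩
  rw [mul_inv, zpow_neg]

theorem S36WA_Ord.zpow {x : L} {a : ℤ} (hx : S36WA_Ord τ W x a) (k : ℤ) :
    S36WA_Ord τ W (x ^ k) (a * k) := by
  obtain ⟨u, hu, rfl⟩ := hx
  refine ⟨u ^ k, hu.zpow k, ?_⟩
  rw [mul_zpow, zpow_mul]

theorem S36WA_Ord.pow {x : L} {a : ℤ} (hx : S36WA_Ord τ W x a) (k : ℕ) :
    S36WA_Ord τ W (x ^ k) (a * k) := by
  have := hx.zpow (k : ℤ)
  rwa [zpow_natCast] at this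

theorem S36WA_Ord.div (hτ0 : τ ≠ 0) {x y : L} {a b : ℤ} (hx : S36WA_Ord τ W x a)
    (hy : S36WA_Ord τ W y b) : S36WA_Ord τ W (x / y) (a - b) := by
  rw [div_eq_mul_inv, sub_eq_add_neg]
  exact hx.mul hτ0 hy.inv

theorem S36WA_Ord.congr {x : L} {a b : ℤ} (hx : S36WA_Ord τ W x a) (hab : a = b) :
    S36WA_Ord τ W x b := hab ▸ hx

/-- Uniqueness of the order. -/
theorem S36WA_Ord.unique (hτ : τ ∈ W) (hτ' : τ⁻¹ ∉ W) {x : L} {a b : ℤ}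
    (hx : S36WA_Ord τ W x a) (hy : S36WA_Ord τ W x b) : a = b := by
  have hτ0 : τ ≠ 0 := fun h => hτ' (by rw [h, inv_zero]; exact W.zero_mem)
  -- it suffices to exclude `a < b`
  have key : ∀ {a b : ℤ}, S36WA_Ord τ W x a → S36WA_Ord τ W x b → ¬ a < b := by
    intro a b hx hy hab
    obtain ⟨u, hu, hxu⟩ := hx
    obtain ⟨v, hv, hxv⟩ := hy
    -- `u = τ ^ (b - a) * v`
    have h1 : u = τ ^ (b - a) * v := by
      have h2 : τ ^ a * u = τ ^ a * (τ ^ (b - a) * v) := by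
        rw [← hxu, hxv, ← mul_assoc, ← zpow_add₀ hτ0]
        congr 2
        ring
      exact mul_left_cancel₀ (zpow_ne_zero a hτ0) h2
    have h3 : S36WA_M τ W u := by
      refine ⟨τ ^ (b - a - 1) * v, W.mul_mem (S36WA_zpow_mem hτ (by omega)) hv.2.1, ?_⟩
      rw [h1, ← mul_assoc, ← zpow_one_add₀ hτ0]
      congr 2
      ring
    exact h3.not_unit hτ' hu
  rcases lt_trichotomy a b with h | h | h
  · exact absurd h (key hx hy)
  · exact h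
  · exact absurd h (key hy hx)

/-- Change of uniformiser: `σ = τ ^ m * unit`. -/
theorem S36WA_Ord.change {σ x : L} {m a : ℤ} (hσ : S36WA_Ord τ W σ m)
    (hx : S36WA_Ord σ W x a) : S36WA_Ord τ W x (m * a) := by
  obtain ⟨u, hu, rfl⟩ := hx
  obtain ⟨v, hv, rfl⟩ := hσ
  refine ⟨v ^ a * u, (hv.zpow a).mul hu, ?_⟩
  rw [mul_zpow, zpow_mul]
  ring

end Ord

section Approx

variable {τ1 τ2 τ3 : L} {F1 : Subfield L} {W1 W2 W3 : Subring L}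

/-- From `x ∈ W1 ∖ W2`: a unit of `W1` lying in `τ2 W2`. -/
theorem S36WA_sep (H1 : S36WA_DV τ1 F1 W1) (H2 : S36WA_DV τ2 F1 W2) {x : L} (hx1 : x ∈ W1)
    (hx2 : x ∉ W2) : ∃ s : L, S36WA_U W1 s ∧ S36WA_M τ2 W2 s := by
  have hxF : x ∈ F1 := H1.le hx1
  rcases H1.unit_or hx1 with h | h
  · exact ⟨x⁻¹, h.inv, H2.inv_of_not_mem hxF hx2⟩
  · have h1x2 : 1 + x ∉ W2 := fun h' => hx2 (by
      have : x = (1 + x) - 1 := by ring
      rw [this]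
      exact W2.sub_mem h' W2.one_mem)
    have h1xF : 1 + x ∈ F1 := F1.add_mem F1.one_mem hxF
    exact ⟨(1 + x)⁻¹, (H1.one_add h).inv, H2.inv_of_not_mem h1xF h1x2⟩

/-- `W1 ⊄ W2` implies `W2 ⊄ W1` (both are discrete, `W1 ≠ F1`). -/
theorem S36WA_swap (H1 : S36WA_DV τ1 F1 W1) (H2 : S36WA_DV τ2 F1 W2)
    (hne : ∃ x ∈ W1, x ∉ W2) : ∃ y ∈ W2, y ∉ W1 := by
  by_contra hcon0
  have hcon : ∀ y ∈ W2, y ∈ W1 := fun y hy => by_contra fun h => hcon0 ⟨y, hy, h⟩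
  obtain ⟨x, hx1, hx2⟩ := hne
  have hτ20 := H2.τ_ne_zero
  have hx0 : x ≠ 0 := fun h => hx2 (h ▸ W2.zero_mem)
  obtain ⟨z, u, hu, hu', hxu⟩ := H2.sep x (H1.le hx1) hx0
  have hu0 : u ≠ 0 := by
    rintro rfl
    exact hx0 (by rw [hxu, mul_zero])
  have hz : z < 0 := by
    by_contra hz
    apply hx2
    rw [hxu]
    exact W2.mul_mem (S36WA_zpow_mem H2.τ_mem (by omega)) hu
  -- `τ2⁻¹ ∈ W1`
  have h1 : τ2 ^ z ∈ W1 := by
    have : τ2 ^ z = x * u⁻¹ := by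
      rw [hxu]
      field_simp
    rw [this]
    exact W1.mul_mem hx1 (hcon _ hu')
  have h2 : τ2⁻¹ ∈ W1 := by
    have : τ2⁻¹ = τ2 ^ (-z - 1) * τ2 ^ z := by
      rw [← zpow_add₀ hτ20, ← zpow_neg_one]
      congr 1
      ring
    rw [this]
    exact W1.mul_mem (hcon _ (S36WA_zpow_mem H2.τ_mem (by omega))) h1
  -- every power of `τ2` lies in `W1`
  have h3 : ∀ k : ℤ, τ2 ^ k ∈ W1 := by
    intro k
    rcases le_or_gt 0 k with hk | hk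
    · exact hcon _ (S36WA_zpow_mem H2.τ_mem hk)
    · have : τ2 ^ k = τ2⁻¹ ^ (-k) := by
        rw [inv_zpow, zpow_neg, inv_inv]
      rw [this]
      exact S36WA_zpow_mem h2 (by omega)
  -- hence `τ1⁻¹ ∈ W1`
  apply H1.τ_nonunit
  have hτ1F : τ1⁻¹ ∈ F1 := F1.inv_mem (H1.le H1.τ_mem)
  obtain ⟨z', u', hu1, -, hτu⟩ := H2.sep τ1⁻¹ hτ1F (inv_ne_zero H1.τ_ne_zero)
  rw [hτu]
  exact W1.mul_mem (h3 z') (hcon _ hu1)

/-- **The "idempotent" for two rings**: `e ≡ 1` mod `τ1 W1`, `e ≡ 0` mod `τ2 W2`. -/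
theorem S36WA_idem2 (H1 : S36WA_DV τ1 F1 W1) (H2 : S36WA_DV τ2 F1 W2)
    (hne : ∃ x ∈ W1, x ∉ W2) :
    ∃ e : L, e ∈ F1 ∧ S36WA_M τ1 W1 (e - 1) ∧ S36WA_M τ2 W2 e := by
  obtain ⟨x, hx1, hx2⟩ := hne
  obtain ⟨y, hy2, hy1⟩ := S36WA_swap H1 H2 ⟨x, hx1, hx2⟩
  obtain ⟨t, htU, htM⟩ := S36WA_sep H1 H2 hx1 hx2
  obtain ⟨s, hsU, hsM⟩ := S36WA_sep H2 H1 hy2 hy1
  have hts1 : S36WA_U W1 (t + s) := H1.unit_add htU hsM
  have hts2 : S36WA_U W2 (t + s) := by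
    rw [add_comm]
    exact H2.unit_add hsU htM
  refine ⟨t * (t + s)⁻¹, ?_, ?_, ?_⟩
  · exact F1.mul_mem (H1.le htU.2.1) (F1.inv_mem (H1.le hts1.2.1))
  · have : t * (t + s)⁻¹ - 1 = -(s * (t + s)⁻¹) := by
      have := hts1.1
      field_simp
      ring
    rw [this]
    exact (hsM.mul_right hts1.2.2).neg
  · exact htM.mul_right hts2.2.2

/-- **Adjusting at a third ring**: keep the residues at `W1`, `W2` and move into `W3`. -/
theorem S36WA_adjust (H1 : S36WA_DV τ1 F1 W1) (H2 : S36WA_DV τ2 F1 W2)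
    (H3 : S36WA_DV τ3 F1 W3) {a : L} (haF : a ∈ F1) (ha1 : S36WA_M τ1 W1 (a - 1))
    (ha2 : S36WA_M τ2 W2 a) :
    ∃ a' : L, a' ∈ F1 ∧ S36WA_M τ1 W1 (a' - 1) ∧ S36WA_M τ2 W2 a' ∧ a' ∈ W3 := by
  have ha1W : a ∈ W1 := by
    have : a = 1 + (a - 1) := by ring
    rw [this]
    exact W1.add_mem W1.one_mem (ha1.mem H1.τ_mem)
  have ha2W : a ∈ W2 := ha2.mem H2.τ_mem
  -- the denominators `D k = 1 - a + a ^ k` for `k = j + 2`
  have hD1 : ∀ j : ℕ, S36WA_M τ1 W1 (a * (a ^ (j + 1) - 1)) := by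
    intro j
    have : a * (a ^ (j + 1) - 1) = (a - 1) * (a * ∑ i ∈ Finset.range (j + 1), a ^ i) := by
      rw [← mul_geom_sum a (j + 1)]
      ring
    rw [this]
    exact ha1.mul_right (W1.mul_mem ha1W (W1.sum_mem fun i _ => W1.pow_mem ha1W i))
  have hDU1 : ∀ j : ℕ, S36WA_U W1 (1 - a + a ^ (j + 2)) := by
    intro j
    have : 1 - a + a ^ (j + 2) = 1 + a * (a ^ (j + 1) - 1) := by ring
    rw [this]
    exact H1.one_add (hD1 j)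
  have hDU2 : ∀ j : ℕ, S36WA_U W2 (1 - a + a ^ (j + 2)) := by
    intro j
    have : 1 - a + a ^ (j + 2) = 1 + a * (a ^ (j + 1) - 1) := by ring
    rw [this]
    exact H2.one_add (ha2.mul_right (W2.sub_mem (W2.pow_mem ha2W _) W2.one_mem))
  -- the candidate `ψ j = a / D (j + 2)` has the right residues at `W1` and `W2`
  have hψ : ∀ j : ℕ, a * (1 - a + a ^ (j + 2))⁻¹ ∈ F1 ∧
      S36WA_M τ1 W1 (a * (1 - a + a ^ (j + 2))⁻¹ - 1) ∧
      S36WA_M τ2 W2 (a * (1 - a + a ^ (j + 2))⁻¹) := by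
    intro j
    refine ⟨F1.mul_mem haF (F1.inv_mem (H1.le (hDU1 j).2.1)), ?_, ha2.mul_right (hDU2 j).2.2⟩
    have : a * (1 - a + a ^ (j + 2))⁻¹ - 1 =
        ((a - 1) - a * (a ^ (j + 1) - 1)) * (1 - a + a ^ (j + 2))⁻¹ := by
      have := (hDU1 j).1
      field_simp
      ring
    rw [this]
    exact (ha1.sub (hD1 j)).mul_right (hDU1 j).2.2
  by_cases ha3 : a ∈ W3
  · -- one of `D 2`, `D 3` is a unit of `W3`
    have hDW : ∀ j : ℕ, 1 - a + a ^ (j + 2) ∈ W3 := fun j =>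
      W3.add_mem (W3.sub_mem W3.one_mem ha3) (W3.pow_mem ha3 _)
    rcases H3.unit_or (hDW 0) with h | h
    · exact ⟨_, (hψ 0).1, (hψ 0).2.1, (hψ 0).2.2, W3.mul_mem ha3 h.2.2⟩
    · rcases H3.unit_or (hDW 1) with h' | h'
      · exact ⟨_, (hψ 1).1, (hψ 1).2.1, (hψ 1).2.2, W3.mul_mem ha3 h'.2.2⟩
      · exfalso
        -- `a ^ 2 * (a - 1) ∈ τ3 W3`
        have h1 : S36WA_M τ3 W3 (a ^ 2 * (a - 1)) := by
          have : a ^ 2 * (a - 1) = (1 - a + a ^ (1 + 2)) - (1 - a + a ^ (0 + 2)) := by ring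
          rw [this]
          exact h'.sub h
        have h2 : S36WA_M τ3 W3 (a * (a - 1)) := by
          rcases H3.mul_mem (W3.pow_mem ha3 2) (W3.sub_mem ha3 W3.one_mem) h1 with h3 | h3
          · rw [pow_two] at h3
            rcases H3.mul_mem ha3 ha3 h3 with h4 | h4
            · exact h4.mul_right (W3.sub_mem ha3 W3.one_mem)
            · exact h4.mul_right (W3.sub_mem ha3 W3.one_mem)
          · exact h3.mul_left ha3
        have h5 : S36WA_U W3 (1 - a + a ^ (0 + 2)) := by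
          have : 1 - a + a ^ (0 + 2) = 1 + a * (a - 1) := by ring
          rw [this]
          exact H3.one_add h2
        exact h.not_unit H3.τ_nonunit h5
  · -- `a⁻¹ ∈ τ3 W3`
    have hinv : S36WA_M τ3 W3 a⁻¹ := H3.inv_of_not_mem haF ha3
    have ha0 : a ≠ 0 := fun h => ha3 (h ▸ W3.zero_mem)
    have hinvW : a⁻¹ ∈ W3 := hinv.mem H3.τ_mem
    refine ⟨_, (hψ 0).1, (hψ 0).2.1, (hψ 0).2.2, ?_⟩
    have hU : S36WA_U W3 (1 + a⁻¹ * (a⁻¹ - 1)) :=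
      H3.one_add (hinv.mul_right (W3.sub_mem hinvW W3.one_mem))
    have hUD : 1 + a⁻¹ * (a⁻¹ - 1) = (1 - a + a ^ (0 + 2)) * (a⁻¹) ^ 2 := by
      field_simp
      ring
    have : a * (1 - a + a ^ (0 + 2))⁻¹ = a⁻¹ * (1 + a⁻¹ * (a⁻¹ - 1))⁻¹ := by
      have hD0 := (hDU1 0).1
      rw [hUD, mul_inv, inv_pow, inv_inv]
      field_simp
    rw [this]
    exact W3.mul_mem hinvW hU.2.2

/-- **The "idempotent" for three rings**: `E ≡ 1` mod `τ1 W1`, `E ≡ 0` mod `τ2 W2`, `τ3 W3`. -/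
theorem S36WA_idem3 (H1 : S36WA_DV τ1 F1 W1) (H2 : S36WA_DV τ2 F1 W2)
    (H3 : S36WA_DV τ3 F1 W3) (hne12 : ∃ x ∈ W1, x ∉ W2) (hne13 : ∃ x ∈ W1, x ∉ W3) :
    ∃ E : L, E ∈ F1 ∧ S36WA_M τ1 W1 (E - 1) ∧ S36WA_M τ2 W2 E ∧ S36WA_M τ3 W3 E := by
  obtain ⟨a, haF, ha1, ha2⟩ := S36WA_idem2 H1 H2 hne12
  obtain ⟨b, hbF, hb1, hb3⟩ := S36WA_idem2 H1 H3 hne13
  obtain ⟨a', ha'F, ha'1, ha'2, ha'3⟩ := S36WA_adjust H1 H2 H3 haF ha1 ha2
  obtain ⟨b', hb'F, hb'1, hb'3, hb'2⟩ := S36WA_adjust H1 H3 H2 hbF hb1 hb3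
  have hb'W1 : b' ∈ W1 := by
    have : b' = 1 + (b' - 1) := by ring
    rw [this]
    exact W1.add_mem W1.one_mem (hb'1.mem H1.τ_mem)
  refine ⟨a' * b', F1.mul_mem ha'F hb'F, ?_, ha'2.mul_right hb'2, hb'3.mul_left ha'3⟩
  have : a' * b' - 1 = (a' - 1) * b' + (b' - 1) := by ring
  rw [this]
  exact (ha'1.mul_right hb'W1).add hb'1

/-- **Sharpening**: `E' ≡ 1` mod `τ1 ^ 2 W1`, `E' ≡ 0` mod `τ2 ^ (N + 1) W2`, `τ3 ^ (N + 1) W3`. -/
theorem S36WA_sharp (H1 : S36WA_DV τ1 F1 W1) (H2 : S36WA_DV τ2 F1 W2)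
    (H3 : S36WA_DV τ3 F1 W3) {E : L} (hEF : E ∈ F1) (hE1 : S36WA_M τ1 W1 (E - 1))
    (hE2 : S36WA_M τ2 W2 E) (hE3 : S36WA_M τ3 W3 E) (N : ℕ) :
    ∃ E' : L, E' ∈ F1 ∧ (∃ v ∈ W1, E' - 1 = τ1 ^ 2 * v) ∧ (∃ v ∈ W2, E' = τ2 ^ (N + 1) * v) ∧
      ∃ v ∈ W3, E' = τ3 ^ (N + 1) * v := by
  have hE1W : E ∈ W1 := by
    have : E = 1 + (E - 1) := by ring
    rw [this]
    exact W1.add_mem W1.one_mem (hE1.mem H1.τ_mem)
  have hE2W : E ∈ W2 := hE2.mem H2.τ_mem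
  have hE3W : E ∈ W3 := hE3.mem H3.τ_mem
  refine ⟨1 - (1 - E ^ (N + 1)) ^ 2, ?_, ?_, ?_, ?_⟩
  · exact F1.sub_mem F1.one_mem (F1.pow_mem (F1.sub_mem F1.one_mem (F1.pow_mem hEF _)) 2)
  · obtain ⟨v, hv, hEv⟩ := hE1
    refine ⟨-(v * ∑ i ∈ Finset.range (N + 1), E ^ i) ^ 2,
      W1.neg_mem (W1.pow_mem (W1.mul_mem hv (W1.sum_mem fun i _ => W1.pow_mem hE1W i)) 2), ?_⟩
    have h1 : E ^ (N + 1) - 1 = τ1 * v * ∑ i ∈ Finset.range (N + 1), E ^ i := by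
      rw [← mul_geom_sum E (N + 1), hEv]
    have h2 : 1 - E ^ (N + 1) = -(τ1 * v * ∑ i ∈ Finset.range (N + 1), E ^ i) := by
      rw [← h1]
      ring
    rw [h2]
    ring
  · obtain ⟨v, hv, hEv⟩ := hE2
    refine ⟨v ^ (N + 1) * (2 - E ^ (N + 1)), W2.mul_mem (W2.pow_mem hv _)
      (W2.sub_mem (W2.add_mem W2.one_mem W2.one_mem |> fun h => by
        have : (2 : L) = 1 + 1 := by norm_num
        rw [this]; exact h) (W2.pow_mem hE2W _)), ?_⟩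
    have : E ^ (N + 1) = τ2 ^ (N + 1) * v ^ (N + 1) := by
      rw [hEv, mul_pow]
    rw [← mul_assoc, ← this]
    ring
  · obtain ⟨v, hv, hEv⟩ := hE3
    refine ⟨v ^ (N + 1) * (2 - E ^ (N + 1)), W3.mul_mem (W3.pow_mem hv _)
      (W3.sub_mem (W3.add_mem W3.one_mem W3.one_mem |> fun h => by
        have : (2 : L) = 1 + 1 := by norm_num
        rw [this]; exact h) (W3.pow_mem hE3W _)), ?_⟩
    have : E ^ (N + 1) = τ3 ^ (N + 1) * v ^ (N + 1) := by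
      rw [hEv, mul_pow]
    rw [← mul_assoc, ← this]
    ring

/-- A power of the uniformiser of `W2` moving a given element of `F1` into `W2`. -/
theorem S36WA_bound (H2 : S36WA_DV τ2 F1 W2) {s : L} (hs : s ∈ F1) :
    ∃ N : ℕ, ∀ k : ℕ, N ≤ k → τ2 ^ k * s ∈ W2 := by
  by_cases hs0 : s = 0
  · exact ⟨0, fun k _ => by rw [hs0, mul_zero]; exact W2.zero_mem⟩
  obtain ⟨z, u, hu, -, hsu⟩ := H2.sep s hs hs0
  refine ⟨(-z).toNat, fun k hk => ?_⟩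
  have : τ2 ^ k * s = τ2 ^ ((k : ℤ) + z) * u := by
    rw [hsu, ← mul_assoc, zpow_add₀ H2.τ_ne_zero, zpow_natCast]
  rw [this]
  exact W2.mul_mem (S36WA_zpow_mem H2.τ_mem (by omega)) hu

/-- **A uniformiser of `W1` which is a unit of `W2` and of `W3`.** -/
theorem S36WA_unif3 (H1 : S36WA_DV τ1 F1 W1) (H2 : S36WA_DV τ2 F1 W2)
    (H3 : S36WA_DV τ3 F1 W3) (hne12 : ∃ x ∈ W1, x ∉ W2) (hne13 : ∃ x ∈ W1, x ∉ W3) :
    ∃ x : L, x ∈ F1 ∧ S36WA_Ord τ1 W1 x 1 ∧ S36WA_U W2 x ∧ S36WA_U W3 x := by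
  obtain ⟨E, hEF, hE1, hE2, hE3⟩ := S36WA_idem3 H1 H2 H3 hne12 hne13
  have hτ1F : τ1 ∈ F1 := H1.le H1.τ_mem
  obtain ⟨N2, hN2⟩ := S36WA_bound H2 hτ1F
  obtain ⟨N3, hN3⟩ := S36WA_bound H3 hτ1F
  obtain ⟨E', hE'F, ⟨v1, hv1, hE'1⟩, ⟨v2, hv2, hE'2⟩, v3, hv3, hE'3⟩ :=
    S36WA_sharp H1 H2 H3 hEF hE1 hE2 hE3 (max N2 N3)
  refine ⟨1 + E' * (τ1 - 1), ?_, ?_, ?_, ?_⟩
  · exact F1.add_mem F1.one_mem (F1.mul_mem hE'F (F1.sub_mem hτ1F F1.one_mem))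
  · refine ⟨1 + τ1 * (v1 * (τ1 - 1)), H1.one_add ⟨_, W1.mul_mem hv1
      (W1.sub_mem H1.τ_mem W1.one_mem), rfl⟩, ?_⟩
    have : E' = 1 + τ1 ^ 2 * v1 := by rw [← hE'1]; ring
    rw [this, zpow_one]
    ring
  · have : 1 + E' * (τ1 - 1) =
        1 + τ2 * (v2 * (τ2 ^ (max N2 N3) * τ1) - τ2 ^ (max N2 N3) * v2) := by
      rw [hE'2]
      ring
    rw [this]
    exact H2.one_add ⟨_, W2.sub_mem (W2.mul_mem hv2 (hN2 _ (le_max_left _ _)))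
      (W2.mul_mem (W2.pow_mem H2.τ_mem _) hv2), rfl⟩
  · have : 1 + E' * (τ1 - 1) =
        1 + τ3 * (v3 * (τ3 ^ (max N2 N3) * τ1) - τ3 ^ (max N2 N3) * v3) := by
      rw [hE'3]
      ring
    rw [this]
    exact H3.one_add ⟨_, W3.sub_mem (W3.mul_mem hv3 (hN3 _ (le_max_right _ _)))
      (W3.mul_mem (W3.pow_mem H3.τ_mem _) hv3), rfl⟩

/-- Distinct discrete valuation rings of `F1` are incomparable. -/
theorem S36WA_incomp (H1 : S36WA_DV τ1 F1 W1) (H2 : S36WA_DV τ2 F1 W2) (hne : W1 ≠ W2) :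
    (∃ x ∈ W1, x ∉ W2) ∧ ∃ x ∈ W2, x ∉ W1 := by
  by_cases h : ∃ x ∈ W1, x ∉ W2
  · exact ⟨h, S36WA_swap H1 H2 h⟩
  · by_cases h' : ∃ x ∈ W2, x ∉ W1
    · exact ⟨S36WA_swap H2 H1 h', h'⟩
    · exfalso
      have k : ∀ x ∈ W1, x ∈ W2 := fun x hx => by_contra fun hx' => h ⟨x, hx, hx'⟩
      have k' : ∀ x ∈ W2, x ∈ W1 := fun x hx => by_contra fun hx' => h' ⟨x, hx, hx'⟩
      exact hne (le_antisymm k k')

end Approx

end Fermat.Agent.S36_helper28_WAPP
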