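import Mathlib
import Fermat.Agent.S36_helper28_NORD
import Fermat.Agent.S36_helper28_WAPP
import Fermat.Agent.S34_helper13_KEY

/-!
# S36, GEO36 (II.2): VERTICAL SCALING (helper28) - abstract form in the `Subring L` vocabulary

Level `q² M'`: three valuation rings `V1 = V_∞`, `V2 = V_mid`, `V3 = V_0` of `F1` with
uniformisers `π`, `t`, `π` (`π = t ^ m * unit` in `V2`, `m = q - 1`); level `q M'`: two valuation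
rings `Va = V'_∞`, `Vb = V'_0` of `F1' ≤ F1` with uniformiser `π`; `Va ≤ V1, V2`, `Vb ≤ V3`,
`[F1 : F1'] ≤ m + 1`; `w` the Atkin-Lehner involution (`V1 ↔ V3`, `V2 ↔ V2`).

If `N(f0)` and `N(w f0)` are constants times `n`-th powers (NEWNESS along `α` and `β`), and `d ∣ n`
is such that `n ∣ (q + 1) x → d ∣ x` (`d = lam ^ (k - c0)`, `lam ^ c0 ∥ q + 1`: the exponent of the
component group), then `f0 = π ^ z * g0 ^ d * f1` with `f1` a unit of `V1 ⊓ V2 ⊓ V3`.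

* `S36SC_normTwo` : the order at `Va` of the norm of `f` is `ord_1 f + ord_2 f`;
* `S36SC_normOne` : the order at `Vb` of the norm of `f` is `[F1 : F1'] * ord_3 f`;
* `S36SC_abs`     : the vertical scaling.
-/

set_option autoImplicit false
set_option linter.style.haveILetI false
set_option linter.unusedSectionVars false
set_option linter.unusedVariables false

open Fermat.Agent.S34_helper13_VCOUNT Fermat.Agent.S34_helper27_C2Defs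
  Fermat.Agent.S34_helper13_KEY Fermat.Agent.S36_helper28_NORD Fermat.Agent.S36_helper28_WAPP

namespace Fermat.Agent.S36_helper28_SCALE

variable {L : Type*} [Field L]

/-- The discrete valuation ring attached to `S34C2_Val` + `hsep`. -/
theorem S36SC_dv {π : L} {F : Subfield L} {V : Subring L} (hV : S34C2_Val π F V)
    (hsep : ∀ x ∈ F, x ≠ 0 → ∃ (z : ℤ) (u : L), u ∈ V ∧ u⁻¹ ∈ V ∧ x = π ^ z * u) :
    S36WA_DV π F V := ⟨hV.le, hV.val, hV.π_mem, hV.π_nonunit, hsep⟩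

/-- The same with another uniformiser `t`. -/
theorem S36SC_dv' {π t : L} {F : Subfield L} {V : Subring L} (hV : S34C2_Val π F V)
    (ht : t ∈ V) (ht' : t⁻¹ ∉ V)
    (hsep : ∀ x ∈ F, x ≠ 0 → ∃ (z : ℤ) (u : L), u ∈ V ∧ u⁻¹ ∈ V ∧ x = t ^ z * u) :
    S36WA_DV t F V := ⟨hV.le, hV.val, ht, ht', hsep⟩

theorem S36SC_coe_zpow (F : Subfield L) (x : ↥F) (z : ℤ) : ((x ^ z : ↥F) : L) = (x : L) ^ z :=
  map_zpow₀ F.subtype x z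

/-- An element of order `1` is a non-unit. -/
theorem S36SC_nonunit {τ : L} {W : Subring L} (hτ' : τ⁻¹ ∉ W) {x : L}
    (hx : S36WA_Ord τ W x 1) : x = 0 ∨ x⁻¹ ∉ W := by
  right
  intro hxi
  obtain ⟨u, hu, hxu⟩ := hx
  have hM : S36WA_M τ W x := ⟨u, hu.2.1, by rw [hxu, zpow_one]⟩
  have hτ0 : τ ≠ 0 := fun h => hτ' (by rw [h, inv_zero]; exact W.zero_mem)
  have hx0 : x ≠ 0 := by
    rw [hxu, zpow_one]
    exact mul_ne_zero hτ0 hu.1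
  have hτW : τ ∈ W := by
    have : τ = x * u⁻¹ := by
      rw [hxu, zpow_one]
      have := hu.1
      field_simp
    rw [this]
    -- `x ∈ W` is not known a priori; use `x = τ * u` and `x⁻¹ ∈ W`
    exact absurd (show τ⁻¹ ∈ W by
      have : τ⁻¹ = u * x⁻¹ := by
        rw [hxu, zpow_one]
        have := hu.1
        field_simp
      rw [this]
      exact W.mul_mem hu.2.1 hxi) hτ'
  exact hM.not_unit hτ' ⟨hx0, hM.mem hτW, hxi⟩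

/-- **Two extensions: the order of the norm.** -/
theorem S36SC_normTwo [CharZero L] {π t : L} {F1' F1 : Subfield L} (hF : F1' ≤ F1)
    {Va V1 V2 : Subring L}
    (hVa : S34C2_Val π F1' Va)
    (hsepa : ∀ x ∈ F1', x ≠ 0 → ∃ (z : ℤ) (u : L), u ∈ Va ∧ u⁻¹ ∈ Va ∧ x = π ^ z * u)
    (h1 : S34C2_Val π F1 V1) (h2 : S34C2_Val π F1 V2)
    (hVa1 : Va ≤ V1) (hVa2 : Va ≤ V2)
    (hkeya : ∀ v ∈ F1, v ∈ V1 → v ∈ V2 → IsIntegral Va v)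
    {m : ℕ} (hm : 1 ≤ m)
    (hdeg : ∃ s : Finset L, s.card ≤ m + 1 ∧ ∀ x ∈ F1, ∃ c : L → L,
      (∀ y, c y ∈ F1') ∧ x = ∑ y ∈ s, c y * y)
    (ht2 : t ∈ V2) (ht2' : t⁻¹ ∉ V2) (hπ2 : S36WA_Ord t V2 π m)
    {y2 : L} (hy2F : y2 ∈ F1) (hy21 : S36WA_U V1 y2) (hy22 : S36WA_Ord t V2 y2 1)
    {f : L} (hf : f ∈ F1) {a1 a2 : ℤ} (hf1 : S36WA_Ord π V1 f a1)
    (hf2 : S36WA_Ord t V2 f a2) :
    letI := S34KEY_alg hF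
    (∃ r, S36WA_U Va r ∧
      ((Algebra.norm ↥F1' (⟨f, hf⟩ : ↥F1) : ↥F1') : L) = π ^ (a1 + a2) * r) ∧
    Module.finrank ↥F1' ↥F1 = 1 + m := by
  classical
  letI := S34KEY_alg hF
  obtain ⟨hfd, hfr⟩ := S34KEY_finrank_le hF hdeg
  haveI := hfd
  have hfr' : Module.finrank ↥F1' ↥F1 ≤ 1 + m := by omega
  haveI : CharZero ↥F1' := by
    refine ⟨fun a b hab => ?_⟩
    have := congrArg (fun t : ↥F1' => (t : L)) hab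
    simpa using this
  haveI : Algebra.IsSeparable ↥F1' ↥F1 := Algebra.IsAlgebraic.isSeparable_of_perfectField
  haveI := S34KEY_isDVR hVa hsepa
  letI := S34KEY_algR hF hVa
  haveI : IsScalarTower ↥(S34KEY_vs hVa) ↥F1' ↥F1 := IsScalarTower.of_algebraMap_eq (fun _ => rfl)
  have hd1 := S34KEY_dom hF hVa hsepa h1 hVa1
  have hd2 := S34KEY_dom hF hVa hsepa h2 hVa2
  have hπ0 : π ≠ 0 := S34KEY_pi_ne_zero hVa
  have ht0 : t ≠ 0 := fun h => ht2' (by rw [h, inv_zero]; exact V2.zero_mem)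
  have hy20 : y2 ≠ 0 := hy21.1
  -- the element `y1` of orders `(1, 0)`
  have hy1F : π * (y2 ^ m)⁻¹ ∈ F1 :=
    F1.mul_mem (h1.le h1.π_mem) (F1.inv_mem (F1.pow_mem hy2F m))
  have hy1_1 : S36WA_Ord π V1 (π * (y2 ^ m)⁻¹) 1 :=
    ((S36WA_Ord.self (τ := π) (W := V1)).mul hπ0
      (S36WA_Ord.of_unit (τ := π) (hy21.pow m).inv)).congr (by ring)
  have hy1_2 : S36WA_U V2 (π * (y2 ^ m)⁻¹) :=
    ((hπ2.mul ht0 (hy22.pow m).inv).congr (by ring)).unit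
  have hy10 : π * (y2 ^ m)⁻¹ ≠ 0 := hy1_2.1
  -- the unit `v`
  have hv1 : S36WA_U V1 (f / ((π * (y2 ^ m)⁻¹) ^ a1 * y2 ^ a2)) :=
    ((hf1.div hπ0 ((hy1_1.zpow a1).mul hπ0
      ((S36WA_Ord.of_unit (τ := π) hy21).zpow a2))).congr (by ring)).unit
  have hv2 : S36WA_U V2 (f / ((π * (y2 ^ m)⁻¹) ^ a1 * y2 ^ a2)) :=
    ((hf2.div ht0 (((S36WA_Ord.of_unit (τ := t) hy1_2).zpow a1).mul ht0
      (hy22.zpow a2))).congr (by ring)).unit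
  have hvF : f / ((π * (y2 ^ m)⁻¹) ^ a1 * y2 ^ a2) ∈ F1 := h1.le hv1.2.1
  -- the elements of `↥F1`
  set Y1 : ↥F1 := ⟨π * (y2 ^ m)⁻¹, hy1F⟩ with hY1
  set Y2 : ↥F1 := ⟨y2, hy2F⟩ with hY2
  set Vv : ↥F1 := ⟨f / ((π * (y2 ^ m)⁻¹) ^ a1 * y2 ^ a2), hvF⟩ with hVv
  have hfeq : (⟨f, hf⟩ : ↥F1) = Y1 ^ a1 * Y2 ^ a2 * Vv := by
    apply Subtype.ext
    show f = ((Y1 ^ a1 * Y2 ^ a2 * Vv : ↥F1) : L)
    rw [Subfield.coe_mul, Subfield.coe_mul, S36SC_coe_zpow, S36SC_coe_zpow]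
    show f = (π * (y2 ^ m)⁻¹) ^ a1 * y2 ^ a2 * (f / ((π * (y2 ^ m)⁻¹) ^ a1 * y2 ^ a2))
    have h1' : (π * (y2 ^ m)⁻¹) ^ a1 ≠ 0 := zpow_ne_zero _ hy10
    have h2' : y2 ^ a2 ≠ 0 := zpow_ne_zero _ hy20
    field_simp
  have hint : ∀ x : ↥F1, x ∈ S34KEY_vs h1 → x ∈ S34KEY_vs h2 → IsIntegral ↥(S34KEY_vs hVa) x :=
    fun x hx1 hx2 => S34KEY_isIntegral_to hF hVa x (hkeya x x.2 hx1 hx2)
  have hY1n : Y1 ∈ (S34KEY_vs h1).nonunits := by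
    rw [S34KEY_mem_nonunits]
    exact S36SC_nonunit h1.π_nonunit hy1_1
  have hY2n : Y2 ∈ (S34KEY_vs h2).nonunits := by
    rw [S34KEY_mem_nonunits]
    exact S36SC_nonunit ht2' hy22
  have hY10 : Y1 ≠ 0 := fun h => hy10 (congrArg (fun x : ↥F1 => (x : L)) h)
  have hY20 : Y2 ≠ 0 := fun h => hy20 (congrArg (fun x : ↥F1 => (x : L)) h)
  have hVv0 : Vv ≠ 0 := fun h => hv1.1 (congrArg (fun x : ↥F1 => (x : L)) h)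
  have hϖy : algebraMap ↥(S34KEY_vs hVa) ↥F1 (S34KEY_pi hVa) = Y1 * Y2 ^ m * 1 := by
    apply Subtype.ext
    show π = ((Y1 * Y2 ^ m * 1 : ↥F1) : L)
    rw [mul_one, Subfield.coe_mul]
    show π = π * (y2 ^ m)⁻¹ * ((Y2 ^ m : ↥F1) : L)
    have : ((Y2 ^ m : ↥F1) : L) = y2 ^ m := by
      rw [← zpow_natCast, S36SC_coe_zpow, zpow_natCast]
    rw [this]
    have := pow_ne_zero m hy20
    field_simp
  have hone1 : (1 : ↥F1)⁻¹ ∈ S34KEY_vs h1 := by rw [inv_one]; exact (S34KEY_vs h1).one_mem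
  have hone2 : (1 : ↥F1)⁻¹ ∈ S34KEY_vs h2 := by rw [inv_one]; exact (S34KEY_vs h2).one_mem
  have hinvmem : ∀ {W : Subring L} (hW : S34C2_Val π F1 W) (x : ↥F1), (x : L)⁻¹ ∈ W →
      x⁻¹ ∈ S34KEY_vs hW := by
    intro W hW x hx
    rw [S34KEY_mem_vs]
    simpa using hx
  have hpi_irr := S34KEY_pi_irreducible hVa hsepa
  refine ⟨?_, ?_⟩
  · obtain ⟨r, hru, hr⟩ := S36NO_two_zpow ↥(S34KEY_vs hVa) ↥F1' (S34KEY_vs h1) (S34KEY_vs h2)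
      hd1 hd2 hint hm hfr' hpi_irr hY1n hy1_2.2.1 hY10 hY2n hy21.2.1 hY20
      (u := 1) one_ne_zero (S34KEY_vs h1).one_mem hone1 (S34KEY_vs h2).one_mem hone2 hϖy
      a1 a2 (v := Vv) hVv0 hv1.2.1 (hinvmem h1 Vv hv1.2.2) hv2.2.1 (hinvmem h2 Vv hv2.2.2)
    have hru' := (S34KEY_isUnit_iff hVa r).1 hru
    refine ⟨((r : ↥F1') : L), ⟨hru'.1, r.2, hru'.2⟩, ?_⟩
    rw [hfeq, hr, Subfield.coe_mul, S36SC_coe_zpow]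
    rfl
  · exact (S36NO_two ↥(S34KEY_vs hVa) ↥F1' (S34KEY_vs h1) (S34KEY_vs h2)
      hd1 hd2 hint hm hfr' hpi_irr hY1n hy1_2.2.1 hY10 hY2n hy21.2.1 hY20
      (u := 1) one_ne_zero (S34KEY_vs h1).one_mem hone1 (S34KEY_vs h2).one_mem hone2 hϖy).2.2

/-- **One extension: the order of the norm.** -/
theorem S36SC_normOne [CharZero L] {π : L} {F1' F1 : Subfield L} (hF : F1' ≤ F1)
    {Vb V3 : Subring L}
    (hVb : S34C2_Val π F1' Vb)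
    (hsepb : ∀ x ∈ F1', x ≠ 0 → ∃ (z : ℤ) (u : L), u ∈ Vb ∧ u⁻¹ ∈ Vb ∧ x = π ^ z * u)
    (h3 : S34C2_Val π F1 V3) (hVb3 : Vb ≤ V3)
    (hkeyb : ∀ v ∈ F1, v ∈ V3 → IsIntegral Vb v)
    {k : ℕ}
    (hdeg : ∃ s : Finset L, s.card ≤ k ∧ ∀ x ∈ F1, ∃ c : L → L,
      (∀ y, c y ∈ F1') ∧ x = ∑ y ∈ s, c y * y)
    {f : L} (hf : f ∈ F1) {a : ℤ} (hf3 : S36WA_Ord π V3 f a) :
    letI := S34KEY_alg hF
    ∃ r, S36WA_U Vb r ∧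
      ((Algebra.norm ↥F1' (⟨f, hf⟩ : ↥F1) : ↥F1') : L) =
        π ^ ((Module.finrank ↥F1' ↥F1 : ℤ) * a) * r := by
  classical
  letI := S34KEY_alg hF
  obtain ⟨hfd, hfr⟩ := S34KEY_finrank_le hF hdeg
  haveI := hfd
  haveI : CharZero ↥F1' := by
    refine ⟨fun a b hab => ?_⟩
    have := congrArg (fun t : ↥F1' => (t : L)) hab
    simpa using this
  haveI : Algebra.IsSeparable ↥F1' ↥F1 := Algebra.IsAlgebraic.isSeparable_of_perfectField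
  haveI := S34KEY_isDVR hVb hsepb
  letI := S34KEY_algR hF hVb
  haveI : IsScalarTower ↥(S34KEY_vs hVb) ↥F1' ↥F1 := IsScalarTower.of_algebraMap_eq (fun _ => rfl)
  have hπ0 : π ≠ 0 := S34KEY_pi_ne_zero hVb
  obtain ⟨u, hu, hfu⟩ := hf3
  have huF : u ∈ F1 := h3.le hu.2.1
  have hint : ∀ x : ↥F1, x ∈ S34KEY_vs h3 → IsIntegral ↥(S34KEY_vs hVb) x :=
    fun x hx => S34KEY_isIntegral_to hF hVb x (hkeyb x x.2 hx)
  have hpi0 : S34KEY_pi hVb ≠ 0 := (S34KEY_pi_irreducible hVb hsepb).ne_zero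
  have hU0 : (⟨u, huF⟩ : ↥F1) ≠ 0 := fun h => hu.1 (congrArg (fun x : ↥F1 => (x : L)) h)
  have hUi : (⟨u, huF⟩ : ↥F1)⁻¹ ∈ S34KEY_vs h3 := by
    rw [S34KEY_mem_vs]
    simpa using hu.2.2
  obtain ⟨r, hru, hr⟩ := S36NO_one ↥(S34KEY_vs hVb) ↥F1' (S34KEY_vs h3) hint (S34KEY_pi hVb)
    hpi0 a (v := ⟨u, huF⟩) hU0 hu.2.1 hUi
  have hru' := (S34KEY_isUnit_iff hVb r).1 hru
  have hfeq : (⟨f, hf⟩ : ↥F1) =
      (algebraMap ↥(S34KEY_vs hVb) ↥F1 (S34KEY_pi hVb)) ^ a * ⟨u, huF⟩ := by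
    apply Subtype.ext
    rw [Subfield.coe_mul, S36SC_coe_zpow]
    exact hfu
  refine ⟨((r : ↥F1') : L), ⟨hru'.1, r.2, hru'.2⟩, ?_⟩
  rw [hfeq, hr, Subfield.coe_mul, S36SC_coe_zpow]
  rfl

section W

variable {F1 : Subfield L} (w : L → L) (hwF : ∀ x ∈ F1, w x ∈ F1) (hw1 : w 1 = 1)
  (hwmul : ∀ x ∈ F1, ∀ y ∈ F1, w (x * y) = w x * w y)

include hw1 hwmul in
theorem S36SC_w_inv {x : L} (hx : x ∈ F1) (hx0 : x ≠ 0) : w x ≠ 0 ∧ w x⁻¹ = (w x)⁻¹ := by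
  have h : w x * w x⁻¹ = 1 := by
    rw [← hwmul x hx x⁻¹ (F1.inv_mem hx), mul_inv_cancel₀ hx0, hw1]
  exact ⟨left_ne_zero_of_mul_eq_one h, eq_inv_of_mul_eq_one_right h⟩

include hw1 hwmul in
theorem S36SC_w_pow {x : L} (hx : x ∈ F1) (n : ℕ) : w (x ^ n) = (w x) ^ n := by
  induction n with
  | zero => rw [pow_zero, pow_zero, hw1]
  | succ n ih => rw [pow_succ, hwmul _ (F1.pow_mem hx n) _ hx, ih, pow_succ]

include hw1 hwmul in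
theorem S36SC_w_zpow {x : L} (hx : x ∈ F1) (hx0 : x ≠ 0) (z : ℤ) : w (x ^ z) = (w x) ^ z := by
  cases z with
  | ofNat n =>
    rw [Int.ofNat_eq_natCast, zpow_natCast, zpow_natCast]
    exact S36SC_w_pow w hw1 hwmul hx n
  | negSucc n =>
    rw [zpow_negSucc, zpow_negSucc,
      (S36SC_w_inv w hw1 hwmul (F1.pow_mem hx (n + 1)) (pow_ne_zero _ hx0)).2,
      S36SC_w_pow w hw1 hwmul hx]

include hw1 hwmul in
/-- `w` maps units of `W` to units of `W'` if it maps `W` into `W'`. -/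
theorem S36SC_w_unit {W W' : Subring L} (hW : (W : Set L) ⊆ F1) (hWW' : ∀ x ∈ W, w x ∈ W')
    {u : L} (hu : S36WA_U W u) : S36WA_U W' (w u) := by
  obtain ⟨h0, h1⟩ := S36SC_w_inv w hw1 hwmul (hW hu.2.1) hu.1
  refine ⟨h0, hWW' u hu.2.1, ?_⟩
  rw [← h1]
  exact hWW' _ hu.2.2

include hw1 hwmul in
/-- Transport of orders along `w`. -/
theorem S36SC_w_ord {W W' : Subring L} (hW : (W : Set L) ⊆ F1) (hWW' : ∀ x ∈ W, w x ∈ W')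
    {τ : L} (hτF : τ ∈ F1) (hτ0 : τ ≠ 0) {e : ℤ} (hτw : S36WA_Ord τ W' (w τ) e)
    {x : L} {a : ℤ} (hx : S36WA_Ord τ W x a) : S36WA_Ord τ W' (w x) (e * a) := by
  obtain ⟨u, hu, rfl⟩ := hx
  rw [hwmul _ (F1.zpow_mem hτF a) _ (hW hu.2.1), S36SC_w_zpow w hw1 hwmul hτF hτ0]
  have h1 := hτw.zpow a
  have h2 : S36WA_Ord τ W' (w u) 0 :=
    S36WA_Ord.of_unit (S36SC_w_unit w hw1 hwmul hW hWW' hu)
  exact (h1.mul hτ0 h2).congr (by ring)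

end W

/-- **VERTICAL SCALING, abstract form.** -/
theorem S36SC_abs [CharZero L] {π t : L} {F1' F1 : Subfield L} (hF : F1' ≤ F1)
    {Va Vb V1 V2 V3 : Subring L}
    -- the two valuation rings of the lower level
    (hVa : S34C2_Val π F1' Va)
    (hsepa : ∀ x ∈ F1', x ≠ 0 → ∃ (z : ℤ) (u : L), u ∈ Va ∧ u⁻¹ ∈ Va ∧ x = π ^ z * u)
    (hVb : S34C2_Val π F1' Vb)
    (hsepb : ∀ x ∈ F1', x ≠ 0 → ∃ (z : ℤ) (u : L), u ∈ Vb ∧ u⁻¹ ∈ Vb ∧ x = π ^ z * u)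
    -- the three valuation rings of the upper level
    (h1 : S34C2_Val π F1 V1) (h2 : S34C2_Val π F1 V2) (h3 : S34C2_Val π F1 V3)
    (hsep1 : ∀ x ∈ F1, x ≠ 0 → ∃ (z : ℤ) (u : L), u ∈ V1 ∧ u⁻¹ ∈ V1 ∧ x = π ^ z * u)
    (hsep2 : ∀ x ∈ F1, x ≠ 0 → ∃ (z : ℤ) (u : L), u ∈ V2 ∧ u⁻¹ ∈ V2 ∧ x = t ^ z * u)
    (hsep3 : ∀ x ∈ F1, x ≠ 0 → ∃ (z : ℤ) (u : L), u ∈ V3 ∧ u⁻¹ ∈ V3 ∧ x = π ^ z * u)
    (htF : t ∈ F1) (ht2 : t ∈ V2) (ht2' : t⁻¹ ∉ V2)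
    {m : ℕ} (hm : 1 ≤ m) (hπt : ∃ u, u ∈ V2 ∧ u⁻¹ ∈ V2 ∧ π = t ^ m * u)
    (hne12 : V1 ≠ V2) (hne13 : V1 ≠ V3) (hne23 : V2 ≠ V3)
    (hVa1 : Va ≤ V1) (hVa2 : Va ≤ V2) (hVb3 : Vb ≤ V3)
    (hkeya : ∀ v ∈ F1, v ∈ V1 → v ∈ V2 → IsIntegral Va v)
    (hkeyb : ∀ v ∈ F1, v ∈ V3 → IsIntegral Vb v)
    (hdeg : ∃ s : Finset L, s.card ≤ m + 1 ∧ ∀ x ∈ F1, ∃ c : L → L,
      (∀ y, c y ∈ F1') ∧ x = ∑ y ∈ s, c y * y)
    -- the Atkin-Lehner involution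
    (w : L → L) (hwF : ∀ x ∈ F1, w x ∈ F1) (hw1 : w 1 = 1)
    (hwmul : ∀ x ∈ F1, ∀ y ∈ F1, w (x * y) = w x * w y) (hwπ : w π = π)
    (hw13 : ∀ x ∈ V1, w x ∈ V3) (hw31 : ∀ x ∈ V3, w x ∈ V1) (hw22 : ∀ x ∈ V2, w x ∈ V2)
    (hwt : ∃ u, u ∈ V2 ∧ u⁻¹ ∈ V2 ∧ w t = t * u)
    -- the function and its newness
    {n d : ℕ} (hdn : d ∣ n) (hd : ∀ x : ℤ, (n : ℤ) ∣ ((m : ℤ) + 2) * x → (d : ℤ) ∣ x)
    {f0 : L} (hf0 : f0 ∈ F1) (hf00 : f0 ≠ 0)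
    (hα : letI := S34KEY_alg hF
      ∃ (zc : ℤ) (uc h : L), uc ∈ Va ∧ uc⁻¹ ∈ Va ∧ uc ∈ Vb ∧ uc⁻¹ ∈ Vb ∧ h ∈ F1' ∧ h ≠ 0 ∧
        ((Algebra.norm ↥F1' (⟨f0, hf0⟩ : ↥F1) : ↥F1') : L) = π ^ zc * uc * h ^ n)
    (hβ : letI := S34KEY_alg hF
      ∃ (zc : ℤ) (uc h : L), uc ∈ Va ∧ uc⁻¹ ∈ Va ∧ uc ∈ Vb ∧ uc⁻¹ ∈ Vb ∧ h ∈ F1' ∧ h ≠ 0 ∧
        ((Algebra.norm ↥F1' (⟨w f0, hwF f0 hf0⟩ : ↥F1) : ↥F1') : L) = π ^ zc * uc * h ^ n) :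
    ∃ (z : ℤ) (g0 f1 : L), g0 ∈ F1 ∧ g0 ≠ 0 ∧ f0 = π ^ z * g0 ^ d * f1 ∧
      f1 ∈ (V1 ⊓ V2 ⊓ V3 : Subring L) ∧ f1⁻¹ ∈ (V1 ⊓ V2 ⊓ V3 : Subring L) := by
  classical
  letI := S34KEY_alg hF
  -- the five discrete valuation rings
  have D1 : S36WA_DV π F1 V1 := S36SC_dv h1 hsep1
  have D2 : S36WA_DV t F1 V2 := S36SC_dv' h2 ht2 ht2' hsep2
  have D3 : S36WA_DV π F1 V3 := S36SC_dv h3 hsep3
  have Da : S36WA_DV π F1' Va := S36SC_dv hVa hsepa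
  have Db : S36WA_DV π F1' Vb := S36SC_dv hVb hsepb
  have hπ0 : π ≠ 0 := D1.τ_ne_zero
  have ht0 : t ≠ 0 := D2.τ_ne_zero
  have hπF : π ∈ F1 := h1.le h1.π_mem
  obtain ⟨i12, i21⟩ := S36WA_incomp D1 D2 hne12
  obtain ⟨i13, i31⟩ := S36WA_incomp D1 D3 hne13
  obtain ⟨i23, i32⟩ := S36WA_incomp D2 D3 hne23
  -- the two separating uniformisers
  obtain ⟨x2, hx2F, hx2_2, hx2_1, hx2_3⟩ := S36WA_unif3 D2 D1 D3 i21 i23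
  obtain ⟨x3, hx3F, hx3_3, hx3_1, hx3_2⟩ := S36WA_unif3 D3 D1 D2 i31 i32
  -- `π` has order `m` at `V2`
  have hπ2 : S36WA_Ord t V2 π m := by
    obtain ⟨u, hu, hu', hπu⟩ := hπt
    refine ⟨u, ⟨?_, hu, hu'⟩, ?_⟩
    · rintro rfl
      exact hπ0 (by rw [hπu, mul_zero])
    · rw [zpow_natCast]
      exact hπu
  -- the orders of `f0`
  obtain ⟨a1, ha1⟩ := D1.ord_exists hf0 hf00
  obtain ⟨a2, ha2⟩ := D2.ord_exists hf0 hf00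
  obtain ⟨a3, ha3⟩ := D3.ord_exists hf0 hf00
  -- the orders of `w f0`
  have hwt' : S36WA_Ord t V2 (w t) 1 := by
    obtain ⟨u, hu, hu', hwtu⟩ := hwt
    refine ⟨u, ⟨?_, hu, hu'⟩, ?_⟩
    · rintro rfl
      exact (S36SC_w_inv w hw1 hwmul htF ht0).1 (by rw [hwtu, mul_zero])
    · rw [zpow_one]
      exact hwtu
  have hwπ1 : S36WA_Ord π V1 (w π) 1 := by
    rw [hwπ]
    exact S36WA_Ord.self
  have hwπ3 : S36WA_Ord π V3 (w π) 1 := by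
    rw [hwπ]
    exact S36WA_Ord.self
  have hb1 : S36WA_Ord π V1 (w f0) a3 :=
    (S36SC_w_ord w hw1 hwmul h3.le hw31 hπF hπ0 hwπ1 ha3).congr (by ring)
  have hb2 : S36WA_Ord t V2 (w f0) a2 :=
    (S36SC_w_ord w hw1 hwmul h2.le hw22 htF ht0 hwt' ha2).congr (by ring)
  have hb3 : S36WA_Ord π V3 (w f0) a1 :=
    (S36SC_w_ord w hw1 hwmul h1.le hw13 hπF hπ0 hwπ3 ha1).congr (by ring)
  -- the four norm orders
  obtain ⟨⟨r1, hr1, hN1⟩, hfin⟩ := S36SC_normTwo hF hVa hsepa h1 h2 hVa1 hVa2 hkeya hm hdeg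
    ht2 ht2' hπ2 hx2F hx2_1 hx2_2 hf0 ha1 ha2
  obtain ⟨r2, hr2, hN2⟩ := S36SC_normOne hF hVb hsepb h3 hVb3 hkeyb hdeg hf0 ha3
  obtain ⟨⟨r3, hr3, hN3⟩, -⟩ := S36SC_normTwo hF hVa hsepa h1 h2 hVa1 hVa2 hkeya hm hdeg
    ht2 ht2' hπ2 hx2F hx2_1 hx2_2 (hwF f0 hf0) hb1 hb2
  obtain ⟨r4, hr4, hN4⟩ := S36SC_normOne hF hVb hsepb h3 hVb3 hkeyb hdeg (hwF f0 hf0) hb3
  rw [hfin] at hN2 hN4
  -- comparison with the newness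
  have key : ∀ {N : L} {c1 c2 : ℤ}, S36WA_Ord π Va N c1 → S36WA_Ord π Vb N c2 →
      (∃ (zc : ℤ) (uc h : L), uc ∈ Va ∧ uc⁻¹ ∈ Va ∧ uc ∈ Vb ∧ uc⁻¹ ∈ Vb ∧ h ∈ F1' ∧ h ≠ 0 ∧
        N = π ^ zc * uc * h ^ n) → ∃ k : ℤ, c1 - c2 = k * n := by
    intro N c1 c2 hc1 hc2 hnew
    obtain ⟨zc, uc, h, huca, huca', hucb, hucb', hhF, hh0, hNeq⟩ := hnew
    have hN0 : N ≠ 0 := hc1.ne_zero hπ0
    have huc0 : uc ≠ 0 := by
      rintro rfl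
      exact hN0 (by rw [hNeq, mul_zero, zero_mul])
    obtain ⟨za, hza⟩ := Da.ord_exists hhF hh0
    obtain ⟨zb, hzb⟩ := Db.ord_exists hhF hh0
    have e1 : S36WA_Ord π Va N (1 * zc + 0 + za * n) := by
      rw [hNeq]
      exact (((S36WA_Ord.self (τ := π) (W := Va)).zpow zc).mul hπ0
        (S36WA_Ord.of_unit ⟨huc0, huca, huca'⟩)).mul hπ0 (hza.pow n)
    have e2 : S36WA_Ord π Vb N (1 * zc + 0 + zb * n) := by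
      rw [hNeq]
      exact (((S36WA_Ord.self (τ := π) (W := Vb)).zpow zc).mul hπ0
        (S36WA_Ord.of_unit ⟨huc0, hucb, hucb'⟩)).mul hπ0 (hzb.pow n)
    have u1 := S36WA_Ord.unique hVa.π_mem hVa.π_nonunit hc1 e1
    have u2 := S36WA_Ord.unique hVb.π_mem hVb.π_nonunit hc2 e2
    exact ⟨za - zb, by rw [u1, u2]; ring⟩
  obtain ⟨k1, hk1⟩ := key ⟨r1, hr1, hN1⟩ ⟨r2, hr2, hN2⟩ hα
  obtain ⟨k2, hk2⟩ := key ⟨r3, hr3, hN3⟩ ⟨r4, hr4, hN4⟩ hβ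
  push_cast at hk1 hk2
  -- the arithmetic
  have hdiv : (n : ℤ) ∣ ((m : ℤ) + 2) * (a1 - a3) :=
    ⟨k1 - k2, by linear_combination hk1 - hk2⟩
  obtain ⟨δ, hδ⟩ := hd _ hdiv
  obtain ⟨e, he⟩ := hdn
  have hδ3 : a3 - a1 = (d : ℤ) * (-δ) := by linear_combination -hδ
  have hδ2 : a2 - (m : ℤ) * a1 = (d : ℤ) * ((1 + (m : ℤ)) * (-δ) + k1 * e) := by
    have he' : (n : ℤ) = (d : ℤ) * (e : ℤ) := by exact_mod_cast he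
    linear_combination hk1 + k1 * he' - (1 + (m : ℤ)) * hδ
  -- the scaling element
  set δ2 : ℤ := (1 + (m : ℤ)) * (-δ) + k1 * e with hδ2def
  set δ3 : ℤ := -δ with hδ3def
  have hg0 : x2 ^ δ2 * x3 ^ δ3 ≠ 0 :=
    mul_ne_zero (zpow_ne_zero _ hx2_1.1) (zpow_ne_zero _ hx3_1.1)
  have hg0F : x2 ^ δ2 * x3 ^ δ3 ∈ F1 := F1.mul_mem (F1.zpow_mem hx2F _) (F1.zpow_mem hx3F _)
  have hden0 : π ^ a1 * (x2 ^ δ2 * x3 ^ δ3) ^ d ≠ 0 :=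
    mul_ne_zero (zpow_ne_zero _ hπ0) (pow_ne_zero _ hg0)
  have o1 : S36WA_U V1 (f0 / (π ^ a1 * (x2 ^ δ2 * x3 ^ δ3) ^ d)) :=
    ((ha1.div hπ0 (((S36WA_Ord.self (τ := π) (W := V1)).zpow a1).mul hπ0
      ((((S36WA_Ord.of_unit (τ := π) hx2_1).zpow δ2).mul hπ0
        ((S36WA_Ord.of_unit (τ := π) hx3_1).zpow δ3)).pow d))).congr (by ring)).unit
  have o2 : S36WA_U V2 (f0 / (π ^ a1 * (x2 ^ δ2 * x3 ^ δ3) ^ d)) :=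
    ((ha2.div ht0 ((hπ2.zpow a1).mul ht0
      (((hx2_2.zpow δ2).mul ht0
        ((S36WA_Ord.of_unit (τ := t) hx3_2).zpow δ3)).pow d))).congr (by
          linear_combination hδ2)).unit
  have o3 : S36WA_U V3 (f0 / (π ^ a1 * (x2 ^ δ2 * x3 ^ δ3) ^ d)) :=
    ((ha3.div hπ0 (((S36WA_Ord.self (τ := π) (W := V3)).zpow a1).mul hπ0
      ((((S36WA_Ord.of_unit (τ := π) hx2_3).zpow δ2).mul hπ0
        (hx3_3.zpow δ3)).pow d))).congr (by linear_combination hδ3)).unit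
  refine ⟨a1, x2 ^ δ2 * x3 ^ δ3, f0 / (π ^ a1 * (x2 ^ δ2 * x3 ^ δ3) ^ d), hg0F, hg0, ?_, ?_, ?_⟩
  · field_simp
  · exact Subring.mem_inf.2 ⟨Subring.mem_inf.2 ⟨o1.2.1, o2.2.1⟩, o3.2.1⟩
  · exact Subring.mem_inf.2 ⟨Subring.mem_inf.2 ⟨o1.2.2, o2.2.2⟩, o3.2.2⟩

end Fermat.Agent.S36_helper28_SCALE
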