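import Mathlib
import Fermat.Agent.S36_helper28_SCALE

/-!
# S36, GEO36 (II.2): VERTICAL SCALING, second part (helper28) - the norms of the scaled function

After the vertical scaling `f0 = π ^ z * g0 ^ d * f1` (`S36SC_abs`) the function `f1` is a unit of
the three valuation rings of the upper level, and its norms are still `d`-th powers up to the
SAME unit constants:  `N(f1) = uα * Hα ^ d`, `N(w f1) = uβ * Hβ ^ d` with `Hα`, `Hβ` units of both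
valuation rings of the lower level.  This is the input of the norm reduction (II.3).

* `S36SC2_normUnit` : the norm of a common unit of `V1`, `V2`, `V3` is a unit of `Va` and of `Vb`;
* `S36SC2_normScaled` : `F = π ^ z * G ^ d * f`, `N(F) = π ^ zc * uc * h ^ n`, `d ∣ n`, `f` a unit
  of `V1`, `V2`, `V3`  ⟹  `N(f) = uc * H ^ d` with `H` a unit of `Va` and of `Vb`;
* `S36SC2_abs` : the vertical scaling with the two norm relations for `f1`.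
-/

set_option autoImplicit false
set_option linter.style.haveILetI false
set_option linter.unusedSectionVars false
set_option linter.unusedVariables false

open Fermat.Agent.S34_helper13_VCOUNT Fermat.Agent.S34_helper27_C2Defs
  Fermat.Agent.S34_helper13_KEY Fermat.Agent.S36_helper28_NORD Fermat.Agent.S36_helper28_WAPP
  Fermat.Agent.S36_helper28_SCALE

namespace Fermat.Agent.S36_helper28_SCALE2

variable {L : Type*} [Field L]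

theorem S36SC2_coe_pow (F : Subfield L) (x : ↥F) (k : ℕ) : ((x ^ k : ↥F) : L) = (x : L) ^ k :=
  map_pow F.subtype x k

section Setup

variable [CharZero L] {π t : L} {F1' F1 : Subfield L} (hF : F1' ≤ F1)
    {Va Vb V1 V2 V3 : Subring L}
    (hVa : S34C2_Val π F1' Va)
    (hsepa : ∀ x ∈ F1', x ≠ 0 → ∃ (z : ℤ) (u : L), u ∈ Va ∧ u⁻¹ ∈ Va ∧ x = π ^ z * u)
    (hVb : S34C2_Val π F1' Vb)
    (hsepb : ∀ x ∈ F1', x ≠ 0 → ∃ (z : ℤ) (u : L), u ∈ Vb ∧ u⁻¹ ∈ Vb ∧ x = π ^ z * u)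
    (h1 : S34C2_Val π F1 V1) (h2 : S34C2_Val π F1 V2) (h3 : S34C2_Val π F1 V3)
    (hsep1 : ∀ x ∈ F1, x ≠ 0 → ∃ (z : ℤ) (u : L), u ∈ V1 ∧ u⁻¹ ∈ V1 ∧ x = π ^ z * u)
    (hsep2 : ∀ x ∈ F1, x ≠ 0 → ∃ (z : ℤ) (u : L), u ∈ V2 ∧ u⁻¹ ∈ V2 ∧ x = t ^ z * u)
    (hsep3 : ∀ x ∈ F1, x ≠ 0 → ∃ (z : ℤ) (u : L), u ∈ V3 ∧ u⁻¹ ∈ V3 ∧ x = π ^ z * u)
    (ht2 : t ∈ V2) (ht2' : t⁻¹ ∉ V2)
    {m : ℕ} (hm : 1 ≤ m) (hπt : ∃ u, u ∈ V2 ∧ u⁻¹ ∈ V2 ∧ π = t ^ m * u)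
    (hne12 : V1 ≠ V2) (hne23 : V2 ≠ V3)
    (hVa1 : Va ≤ V1) (hVa2 : Va ≤ V2) (hVb3 : Vb ≤ V3)
    (hkeya : ∀ v ∈ F1, v ∈ V1 → v ∈ V2 → IsIntegral Va v)
    (hkeyb : ∀ v ∈ F1, v ∈ V3 → IsIntegral Vb v)
    (hdeg : ∃ s : Finset L, s.card ≤ m + 1 ∧ ∀ x ∈ F1, ∃ c : L → L,
      (∀ y, c y ∈ F1') ∧ x = ∑ y ∈ s, c y * y)

include hVa hsepa hVb hsepb h1 h2 h3 hsep1 hsep2 hsep3 ht2 ht2' hm hπt hne12 hne23 hVa1 hVa2 hVb3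
  hkeya hkeyb hdeg in
/-- The norm of a common unit of `V1`, `V2`, `V3` is a unit of `Va` and of `Vb`; the degree is
`1 + m`. -/
theorem S36SC2_normUnit {f : L} (hf : f ∈ F1) (hf1 : S36WA_U V1 f) (hf2 : S36WA_U V2 f)
    (hf3 : S36WA_U V3 f) :
    letI := S34KEY_alg hF
    S36WA_U Va ((Algebra.norm ↥F1' (⟨f, hf⟩ : ↥F1) : ↥F1') : L) ∧
    S36WA_U Vb ((Algebra.norm ↥F1' (⟨f, hf⟩ : ↥F1) : ↥F1') : L) ∧
    Module.finrank ↥F1' ↥F1 = 1 + m := by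
  classical
  letI := S34KEY_alg hF
  have D1 : S36WA_DV π F1 V1 := S36SC_dv h1 hsep1
  have D2 : S36WA_DV t F1 V2 := S36SC_dv' h2 ht2 ht2' hsep2
  have D3 : S36WA_DV π F1 V3 := S36SC_dv h3 hsep3
  obtain ⟨i12, i21⟩ := S36WA_incomp D1 D2 hne12
  obtain ⟨i23, i32⟩ := S36WA_incomp D2 D3 hne23
  obtain ⟨x2, hx2F, hx2_2, hx2_1, hx2_3⟩ := S36WA_unif3 D2 D1 D3 i21 i23
  have hπ0 : π ≠ 0 := D1.τ_ne_zero
  have hπ2 : S36WA_Ord t V2 π m := by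
    obtain ⟨u, hu, hu', hπu⟩ := hπt
    refine ⟨u, ⟨?_, hu, hu'⟩, ?_⟩
    · rintro rfl
      exact hπ0 (by rw [hπu, mul_zero])
    · rw [zpow_natCast]
      exact hπu
  obtain ⟨⟨r1, hr1, hN1⟩, hfin⟩ := S36SC_normTwo hF hVa hsepa h1 h2 hVa1 hVa2 hkeya hm hdeg
    ht2 ht2' hπ2 hx2F hx2_1 hx2_2 hf (S36WA_Ord.of_unit (τ := π) hf1)
    (S36WA_Ord.of_unit (τ := t) hf2)
  obtain ⟨r2, hr2, hN2⟩ := S36SC_normOne hF hVb hsepb h3 hVb3 hkeyb hdeg hf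
    (S36WA_Ord.of_unit (τ := π) hf3)
  refine ⟨?_, ?_, hfin⟩
  · rw [hN1, add_zero, zpow_zero, one_mul]
    exact hr1
  · rw [hN2, mul_zero, zpow_zero, one_mul]
    exact hr2

include hVa hsepa hVb hsepb h1 h2 h3 hsep1 hsep2 hsep3 ht2 ht2' hm hπt hne12 hne23 hVa1 hVa2 hVb3
  hkeya hkeyb hdeg in
/-- **The norm of the scaled function.** -/
theorem S36SC2_normScaled {n d : ℕ} (hdn : d ∣ n) {F G f : L} (hFF : F ∈ F1) (hGF : G ∈ F1)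
    (hG0 : G ≠ 0) (hf : f ∈ F1) (hf1 : S36WA_U V1 f) (hf2 : S36WA_U V2 f) (hf3 : S36WA_U V3 f)
    {z : ℤ} (hFeq : F = π ^ z * G ^ d * f)
    {zc : ℤ} {uc h : L} (huca : S36WA_U Va uc) (hucb : S36WA_U Vb uc) (hhF : h ∈ F1')
    (hh0 : h ≠ 0)
    (hN : letI := S34KEY_alg hF
      ((Algebra.norm ↥F1' (⟨F, hFF⟩ : ↥F1) : ↥F1') : L) = π ^ zc * uc * h ^ n) :
    letI := S34KEY_alg hF
    ∃ H : L, H ∈ F1' ∧ S36WA_U Va H ∧ S36WA_U Vb H ∧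
      ((Algebra.norm ↥F1' (⟨f, hf⟩ : ↥F1) : ↥F1') : L) = uc * H ^ d := by
  classical
  letI := S34KEY_alg hF
  obtain ⟨hNa, hNb, hfin⟩ := S36SC2_normUnit hF hVa hsepa hVb hsepb h1 h2 h3 hsep1 hsep2 hsep3
    ht2 ht2' hm hπt hne12 hne23 hVa1 hVa2 hVb3 hkeya hkeyb hdeg hf hf1 hf2 hf3
  have Da : S36WA_DV π F1' Va := S36SC_dv hVa hsepa
  have Db : S36WA_DV π F1' Vb := S36SC_dv hVb hsepb
  have hπ0 : π ≠ 0 := Da.τ_ne_zero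
  have hπF' : π ∈ F1' := hVa.le hVa.π_mem
  have hπF : π ∈ F1 := hF hπF'
  -- the norm is multiplicative
  have hFeq' : (⟨F, hFF⟩ : ↥F1) =
      (algebraMap ↥F1' ↥F1 ⟨π, hπF'⟩) ^ z * (⟨G, hGF⟩ : ↥F1) ^ d * ⟨f, hf⟩ := by
    apply Subtype.ext
    rw [Subfield.coe_mul, Subfield.coe_mul, S36SC_coe_zpow, S36SC2_coe_pow]
    exact hFeq
  have hNF : ((Algebra.norm ↥F1' (⟨F, hFF⟩ : ↥F1) : ↥F1') : L) =
      π ^ (((1 + m : ℕ) : ℤ) * z) * ((Algebra.norm ↥F1' (⟨G, hGF⟩ : ↥F1) : ↥F1') : L) ^ d *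
        ((Algebra.norm ↥F1' (⟨f, hf⟩ : ↥F1) : ↥F1') : L) := by
    have hP0 : algebraMap ↥F1' ↥F1 ⟨π, hπF'⟩ ≠ 0 := fun h =>
      hπ0 (congrArg (fun x : ↥F1 => (x : L)) h)
    rw [hFeq', map_mul, map_mul, S36NO_norm_zpow ↥F1' hP0, map_pow, Algebra.norm_algebraMap,
      hfin, Subfield.coe_mul, Subfield.coe_mul, S36SC_coe_zpow, S36SC2_coe_pow, S36SC2_coe_pow,
      ← zpow_natCast, ← zpow_mul]
  set NG : L := ((Algebra.norm ↥F1' (⟨G, hGF⟩ : ↥F1) : ↥F1') : L) with hNG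
  set Nf : L := ((Algebra.norm ↥F1' (⟨f, hf⟩ : ↥F1) : ↥F1') : L) with hNf
  have hNGF : NG ∈ F1' := (Algebra.norm ↥F1' (⟨G, hGF⟩ : ↥F1)).2
  have hNf0 : Nf ≠ 0 := hNa.1
  have hNG0 : NG ≠ 0 := by
    intro h0
    have hF0 : F ≠ 0 := by
      rw [hFeq]
      exact mul_ne_zero (mul_ne_zero (zpow_ne_zero _ hπ0) (pow_ne_zero _ hG0)) hf1.1
    have : ((Algebra.norm ↥F1' (⟨F, hFF⟩ : ↥F1) : ↥F1') : L) = 0 := by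
      rw [hNF, h0]
      rcases Nat.eq_zero_or_pos d with hd0 | hd0
      · -- `d = 0`: then `n = 0` and the norm of `F` is `π ^ zc * uc`; use the other formula
        exfalso
        -- `G ^ 0 = 1`, so `NG` does not matter: recompute
        subst hd0
        have hG1 : (⟨G, hGF⟩ : ↥F1) ≠ 0 := fun h => hG0 (congrArg (fun x : ↥F1 => (x : L)) h)
        have : Algebra.norm ↥F1' (⟨G, hGF⟩ : ↥F1) ≠ 0 := by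
          haveI : FiniteDimensional ↥F1' ↥F1 := (S34KEY_finrank_le hF hdeg).1
          exact fun h => hG1 (Algebra.norm_eq_zero_iff.1 h)
        exact this (Subtype.ext h0)
      · rw [zero_pow (by omega), mul_zero, zero_mul]
    rw [hN] at this
    exact mul_ne_zero (mul_ne_zero (zpow_ne_zero _ hπ0) huca.1) (pow_ne_zero _ hh0) this
  obtain ⟨e, he⟩ := hdn
  -- `Nf = uc * π ^ zc' * H ^ d` with `H = h ^ e / NG`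
  have hHF : h ^ e / NG ∈ F1' := F1'.div_mem (F1'.pow_mem hhF e) hNGF
  have hH0 : h ^ e / NG ≠ 0 := div_ne_zero (pow_ne_zero _ hh0) hNG0
  have hNfeq : Nf = uc * π ^ (zc - ((1 + m : ℕ) : ℤ) * z) * (h ^ e / NG) ^ d := by
    have h1' : π ^ (((1 + m : ℕ) : ℤ) * z) * NG ^ d * Nf = π ^ zc * uc * h ^ n := by
      rw [← hNF, hN]
    have h1'' : π ^ (((1 + m : ℕ) : ℤ) * z) * NG ^ d * Nf = π ^ zc * uc * (h ^ e) ^ d := by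
      rw [h1', he, mul_comm d e, pow_mul]
    have h2' : π ^ (((1 + m : ℕ) : ℤ) * z) ≠ 0 := zpow_ne_zero _ hπ0
    have h3' : NG ^ d ≠ 0 := pow_ne_zero _ hNG0
    rw [zpow_sub₀ hπ0, div_pow]
    field_simp
    linear_combination h1''
  obtain ⟨oa, hoa⟩ := Da.ord_exists hHF hH0
  obtain ⟨ob, hob⟩ := Db.ord_exists hHF hH0
  have ea : S36WA_Ord π Va Nf (0 + 1 * (zc - ((1 + m : ℕ) : ℤ) * z) + oa * d) := by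
    rw [hNfeq]
    exact ((S36WA_Ord.of_unit (τ := π) huca).mul hπ0
      ((S36WA_Ord.self (τ := π) (W := Va)).zpow _)).mul hπ0 (hoa.pow d)
  have eb : S36WA_Ord π Vb Nf (0 + 1 * (zc - ((1 + m : ℕ) : ℤ) * z) + ob * d) := by
    rw [hNfeq]
    exact ((S36WA_Ord.of_unit (τ := π) hucb).mul hπ0
      ((S36WA_Ord.self (τ := π) (W := Vb)).zpow _)).mul hπ0 (hob.pow d)
  have ua := S36WA_Ord.unique hVa.π_mem hVa.π_nonunit (S36WA_Ord.of_unit (τ := π) hNa) ea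
  have ub := S36WA_Ord.unique hVb.π_mem hVb.π_nonunit (S36WA_Ord.of_unit (τ := π) hNb) eb
  rcases Nat.eq_zero_or_pos d with hd0 | hd0
  · -- `d = 0`
    subst hd0
    refine ⟨1, F1'.one_mem, S36WA_U.one, S36WA_U.one, ?_⟩
    have hz0 : zc - ((1 + m : ℕ) : ℤ) * z = 0 := by
      simp only [Nat.cast_zero, mul_zero, add_zero] at ua
      linarith
    show Nf = uc * 1 ^ 0
    rw [hNfeq, hz0, zpow_zero, pow_zero, pow_zero, mul_one, mul_one]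
  · have hoab : oa = ob := by
      have h4 : oa * (d : ℤ) = ob * (d : ℤ) := by linarith
      have hd0' : (d : ℤ) ≠ 0 := by exact_mod_cast (by omega : d ≠ 0)
      exact mul_right_cancel₀ hd0' h4
    subst hoab
    have hπa : S36WA_Ord π Va (π ^ oa) (1 * oa) := (S36WA_Ord.self (τ := π) (W := Va)).zpow oa
    have hπb : S36WA_Ord π Vb (π ^ oa) (1 * oa) := (S36WA_Ord.self (τ := π) (W := Vb)).zpow oa
    refine ⟨h ^ e / NG / π ^ oa, F1'.div_mem hHF (F1'.zpow_mem hπF' oa),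
      ((hoa.div hπ0 hπa).congr (by ring)).unit, ((hob.div hπ0 hπb).congr (by ring)).unit, ?_⟩
    show Nf = uc * (h ^ e / NG / π ^ oa) ^ d
    have h5 : (h ^ e / NG / π ^ oa) ^ d = (h ^ e / NG) ^ d * π ^ (-(oa * (d : ℤ))) := by
      rw [div_pow, zpow_neg, zpow_mul, zpow_natCast, div_eq_mul_inv]
    have h6 : zc - ((1 + m : ℕ) : ℤ) * z = -(oa * (d : ℤ)) := by linarith
    rw [hNfeq, h5, h6]
    ring

end Setup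

/-- **VERTICAL SCALING with the norms of the scaled function, abstract form.**  Same hypotheses
as `S36SC_abs`, with the newness data `(zα, uα, hα)`, `(zβ, uβ, hβ)` as explicit parameters; the
conclusion contains in addition `N(f1) = uα * Hα ^ d` and `N(w f1) = uβ * Hβ ^ d` with `Hα`, `Hβ`
units of `Va` and of `Vb`. -/
theorem S36SC2_abs [CharZero L] {π t : L} {F1' F1 : Subfield L} (hF : F1' ≤ F1)
    {Va Vb V1 V2 V3 : Subring L}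
    (hVa : S34C2_Val π F1' Va)
    (hsepa : ∀ x ∈ F1', x ≠ 0 → ∃ (z : ℤ) (u : L), u ∈ Va ∧ u⁻¹ ∈ Va ∧ x = π ^ z * u)
    (hVb : S34C2_Val π F1' Vb)
    (hsepb : ∀ x ∈ F1', x ≠ 0 → ∃ (z : ℤ) (u : L), u ∈ Vb ∧ u⁻¹ ∈ Vb ∧ x = π ^ z * u)
    (h1 : S34C2_Val π F1 V1) (h2 : S34C2_Val π F1 V2) (h3 : S34C2_Val π F1 V3)
    (hsep1 : ∀ x ∈ F1, x ≠ 0 → ∃ (z : ℤ) (u : L), u ∈ V1 ∧ u⁻¹ ∈ V1 ∧ x = π ^ z * u)
    (hsep2 : ∀ x ∈ F1, x ≠ 0 → ∃ (z : ℤ) (u : L), u ∈ V2 ∧ u⁻¹ ∈ V2 ∧ x = t ^ z * u)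
    (hsep3 : ∀ x ∈ F1, x ≠ 0 → ∃ (z : ℤ) (u : L), u ∈ V3 ∧ u⁻¹ ∈ V3 ∧ x = π ^ z * u)
    (htF : t ∈ F1) (ht2 : t ∈ V2) (ht2' : t⁻¹ ∉ V2)
    {m : ℕ} (hm : 1 ≤ m) (hπt : ∃ u, u ∈ V2 ∧ u⁻¹ ∈ V2 ∧ π = t ^ m * u)
    (hne12 : V1 ≠ V2) (hne13 : V1 ≠ V3) (hne23 : V2 ≠ V3)
    (hVa1 : Va ≤ V1) (hVa2 : Va ≤ V2) (hVb3 : Vb ≤ V3)
    (hkeya : ∀ v ∈ F1, v ∈ V1 → v ∈ V2 → IsIntegral Va v)
    (hkeyb : ∀ v ∈ F1, v ∈ V3 → IsIntegral Vb v)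
    (hdeg : ∃ s : Finset L, s.card ≤ m + 1 ∧ ∀ x ∈ F1, ∃ c : L → L,
      (∀ y, c y ∈ F1') ∧ x = ∑ y ∈ s, c y * y)
    (w : L → L) (hwF : ∀ x ∈ F1, w x ∈ F1) (hw1 : w 1 = 1)
    (hwmul : ∀ x ∈ F1, ∀ y ∈ F1, w (x * y) = w x * w y) (hwπ : w π = π)
    (hw13 : ∀ x ∈ V1, w x ∈ V3) (hw31 : ∀ x ∈ V3, w x ∈ V1) (hw22 : ∀ x ∈ V2, w x ∈ V2)
    (hwt : ∃ u, u ∈ V2 ∧ u⁻¹ ∈ V2 ∧ w t = t * u)
    {n d : ℕ} (hdn : d ∣ n) (hd : ∀ x : ℤ, (n : ℤ) ∣ ((m : ℤ) + 2) * x → (d : ℤ) ∣ x)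
    {f0 : L} (hf0 : f0 ∈ F1) (hf00 : f0 ≠ 0)
    {zα : ℤ} {uα hα : L} (huαa : uα ∈ Va) (huαa' : uα⁻¹ ∈ Va) (huαb : uα ∈ Vb)
    (huαb' : uα⁻¹ ∈ Vb) (hhαF : hα ∈ F1') (hhα0 : hα ≠ 0)
    (hNα : letI := S34KEY_alg hF
      ((Algebra.norm ↥F1' (⟨f0, hf0⟩ : ↥F1) : ↥F1') : L) = π ^ zα * uα * hα ^ n)
    {zβ : ℤ} {uβ hβ : L} (huβa : uβ ∈ Va) (huβa' : uβ⁻¹ ∈ Va) (huβb : uβ ∈ Vb)
    (huβb' : uβ⁻¹ ∈ Vb) (hhβF : hβ ∈ F1') (hhβ0 : hβ ≠ 0)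
    (hNβ : letI := S34KEY_alg hF
      ((Algebra.norm ↥F1' (⟨w f0, hwF f0 hf0⟩ : ↥F1) : ↥F1') : L) = π ^ zβ * uβ * hβ ^ n) :
    letI := S34KEY_alg hF
    ∃ (z : ℤ) (g0 f1 : L) (hf1F : f1 ∈ F1) (Hα Hβ : L), g0 ∈ F1 ∧ g0 ≠ 0 ∧
      f0 = π ^ z * g0 ^ d * f1 ∧
      f1 ∈ (V1 ⊓ V2 ⊓ V3 : Subring L) ∧ f1⁻¹ ∈ (V1 ⊓ V2 ⊓ V3 : Subring L) ∧
      Hα ∈ F1' ∧ Hα ∈ Va ∧ Hα⁻¹ ∈ Va ∧ Hα ∈ Vb ∧ Hα⁻¹ ∈ Vb ∧
      ((Algebra.norm ↥F1' (⟨f1, hf1F⟩ : ↥F1) : ↥F1') : L) = uα * Hα ^ d ∧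
      Hβ ∈ F1' ∧ Hβ ∈ Va ∧ Hβ⁻¹ ∈ Va ∧ Hβ ∈ Vb ∧ Hβ⁻¹ ∈ Vb ∧
      ((Algebra.norm ↥F1' (⟨w f1, hwF f1 hf1F⟩ : ↥F1) : ↥F1') : L) = uβ * Hβ ^ d := by
  classical
  letI := S34KEY_alg hF
  have hπ0 : π ≠ 0 := S34KEY_pi_ne_zero hVa
  have hπF : π ∈ F1 := h1.le h1.π_mem
  obtain ⟨z, g0, f1, hg0F, hg00, hfeq, hf1V, hf1V'⟩ := S36SC_abs hF hVa hsepa hVb hsepb h1 h2 h3
    hsep1 hsep2 hsep3 htF ht2 ht2' hm hπt hne12 hne13 hne23 hVa1 hVa2 hVb3 hkeya hkeyb hdeg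
    w hwF hw1 hwmul hwπ hw13 hw31 hw22 hwt hdn hd hf0 hf00
    ⟨zα, uα, hα, huαa, huαa', huαb, huαb', hhαF, hhα0, hNα⟩
    ⟨zβ, uβ, hβ, huβa, huβa', huβb, huβb', hhβF, hhβ0, hNβ⟩
  obtain ⟨⟨hf1_1, hf1_2⟩, hf1_3⟩ : (f1 ∈ V1 ∧ f1 ∈ V2) ∧ f1 ∈ V3 := by
    have := Subring.mem_inf.1 hf1V
    exact ⟨Subring.mem_inf.1 this.1, this.2⟩
  obtain ⟨⟨hf1i_1, hf1i_2⟩, hf1i_3⟩ : (f1⁻¹ ∈ V1 ∧ f1⁻¹ ∈ V2) ∧ f1⁻¹ ∈ V3 := by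
    have := Subring.mem_inf.1 hf1V'
    exact ⟨Subring.mem_inf.1 this.1, this.2⟩
  have hf1F : f1 ∈ F1 := h1.le hf1_1
  have hf10 : f1 ≠ 0 := by
    rintro rfl
    exact hf00 (by rw [hfeq, mul_zero])
  have hU1 : S36WA_U V1 f1 := ⟨hf10, hf1_1, hf1i_1⟩
  have hU2 : S36WA_U V2 f1 := ⟨hf10, hf1_2, hf1i_2⟩
  have hU3 : S36WA_U V3 f1 := ⟨hf10, hf1_3, hf1i_3⟩
  have huα0 : uα ≠ 0 := by
    rintro rfl
    have h0 : ((Algebra.norm ↥F1' (⟨f0, hf0⟩ : ↥F1) : ↥F1') : L) = 0 := by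
      rw [hNα, mul_zero, zero_mul]
    haveI : FiniteDimensional ↥F1' ↥F1 := (S34KEY_finrank_le hF hdeg).1
    have h0' : (⟨f0, hf0⟩ : ↥F1) = 0 := Algebra.norm_eq_zero_iff.1 (Subtype.ext h0)
    exact hf00 (congrArg (fun x : ↥F1 => (x : L)) h0')
  have hwf00 : w f0 ≠ 0 := (S36SC_w_inv w hw1 hwmul hf0 hf00).1
  have huβ0 : uβ ≠ 0 := by
    rintro rfl
    have h0 : ((Algebra.norm ↥F1' (⟨w f0, hwF f0 hf0⟩ : ↥F1) : ↥F1') : L) = 0 := by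
      rw [hNβ, mul_zero, zero_mul]
    haveI : FiniteDimensional ↥F1' ↥F1 := (S34KEY_finrank_le hF hdeg).1
    have h0' : (⟨w f0, hwF f0 hf0⟩ : ↥F1) = 0 := Algebra.norm_eq_zero_iff.1 (Subtype.ext h0)
    exact hwf00 (congrArg (fun x : ↥F1 => (x : L)) h0')
  -- the `α`-side
  obtain ⟨Hα, hHαF, hHαa, hHαb, hHα⟩ := S36SC2_normScaled hF hVa hsepa hVb hsepb h1 h2 h3
    hsep1 hsep2 hsep3 ht2 ht2' hm hπt hne12 hne23 hVa1 hVa2 hVb3 hkeya hkeyb hdeg hdn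
    hf0 hg0F hg00 hf1F hU1 hU2 hU3 hfeq ⟨huα0, huαa, huαa'⟩ ⟨huα0, huαb, huαb'⟩ hhαF hhα0 hNα
  -- the `β`-side
  have hwfeq : w f0 = π ^ z * (w g0) ^ d * w f1 := by
    rw [hfeq, hwmul _ (F1.mul_mem (F1.zpow_mem hπF z) (F1.pow_mem hg0F d)) _ hf1F,
      hwmul _ (F1.zpow_mem hπF z) _ (F1.pow_mem hg0F d),
      S36SC_w_zpow w hw1 hwmul hπF hπ0, hwπ, S36SC_w_pow w hw1 hwmul hg0F]
  have hwU1 : S36WA_U V1 (w f1) := S36SC_w_unit w hw1 hwmul h3.le hw31 hU3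
  have hwU2 : S36WA_U V2 (w f1) := S36SC_w_unit w hw1 hwmul h2.le hw22 hU2
  have hwU3 : S36WA_U V3 (w f1) := S36SC_w_unit w hw1 hwmul h1.le hw13 hU1
  obtain ⟨Hβ, hHβF, hHβa, hHβb, hHβ⟩ := S36SC2_normScaled hF hVa hsepa hVb hsepb h1 h2 h3
    hsep1 hsep2 hsep3 ht2 ht2' hm hπt hne12 hne23 hVa1 hVa2 hVb3 hkeya hkeyb hdeg hdn
    (hwF f0 hf0) (hwF g0 hg0F) (S36SC_w_inv w hw1 hwmul hg0F hg00).1 (hwF f1 hf1F)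
    hwU1 hwU2 hwU3 hwfeq ⟨huβ0, huβa, huβa'⟩ ⟨huβ0, huβb, huβb'⟩ hhβF hhβ0 hNβ
  exact ⟨z, g0, f1, hf1F, Hα, Hβ, hg0F, hg00, hfeq, hf1V, hf1V', hHαF, hHαa.2.1, hHαa.2.2,
    hHαb.2.1, hHαb.2.2, hHα, hHβF, hHβa.2.1, hHβa.2.2, hHβb.2.1, hHβb.2.2, hHβ⟩

end Fermat.Agent.S36_helper28_SCALE2
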