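import Mathlib
import Fermat.Agent.S36_helper28_SCALE2
import Fermat.Agent.S36_helper13_NORMRED

/-!
# S36, GEO36 (II.2): VERTICAL SCALING, consumer form (helper28)

The hypotheses `hkeya`, `hkeyb` of `S36SC_abs` / `S36SC2_abs` (the integral closure of the lower
valuation rings in the upper field) are DERIVED from the counting inputs:

* `S36SC3_keya` : `V1 ≠ V2` above `Va`, `[F1 : F1'] ≤ m + 1`, `π / t ^ m ∈ V2`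
  ⟹ every element of `V1 ∩ V2` is integral over `Va` (helper13's `S36NR_two_ram`);
* `S36SC3_keyb` : `V3` above `Vb` with residue degree `≥ q` (`y ^ q ≡ x`, `x` not a `q`-th power
  mod `π`), `[F1 : F1'] ≤ q`  ⟹ every element of `V3` is integral over `Vb`;
* `S36SC3_hd`   : the arithmetic hypothesis `hd` for `n = lam ^ k`, `d = lam ^ (k - c1)`,
  `m + 2 = lam ^ c1 * u`, `lam ∤ u`;
* `S36SC3_abs`  : `S36SC2_abs` with `hkeya`, `hkeyb` replaced by these inputs.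
-/

set_option autoImplicit false
set_option linter.style.haveILetI false
set_option linter.unusedSectionVars false
set_option linter.unusedVariables false

open IsLocalRing Module IsDedekindDomain
open Fermat.Agent.S34_helper13_VCOUNT Fermat.Agent.S34_helper27_C2Defs
  Fermat.Agent.S34_helper13_KEY Fermat.Agent.S36_helper28_NORD Fermat.Agent.S36_helper28_WAPP
  Fermat.Agent.S36_helper28_SCALE Fermat.Agent.S36_helper28_SCALE2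
  Fermat.Agent.S36_helper13_NORMRED Fermat.Agent.S36_helper5_V3COUNT

namespace Fermat.Agent.S36_helper28_SCALE3

section Val

variable (R F : Type*) {F' : Type*} [CommRing R] [IsDomain R] [IsDiscreteValuationRing R]
  [Field F] [Field F'] [Algebra R F] [IsFractionRing R F] [Algebra F F'] [Algebra R F']
  [IsScalarTower R F F'] [FiniteDimensional F F'] [Algebra.IsSeparable F F']

include F in
/-- One extension of residue degree `≥ q ≥ [F' : F]`: it is the integral closure. -/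
theorem S36SC3_int_one (W0 : ValuationSubring F') (h0 : S34V_Dom R W0) {q : ℕ}
    (hab : Module.finrank F F' ≤ q) (hb : S34V_ResDegGe R W0 q) :
    ∀ x : F', x ∈ W0 → IsIntegral R x := by
  haveI := S34V_isDedekind R F F'
  haveI := S34V_isFrac R F F'
  haveI := S34V_faithful R F F'
  haveI := S34V_finite R F F'
  haveI := S34V_torsionFree R F F'
  haveI := S34V_flat R F F'
  haveI : Algebra.IsIntegral R (S34V_S R F') := IsIntegralClosure.isIntegral_algebra R F'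
  have hn : Module.finrank R (S34V_S R F') = Module.finrank F F' :=
    (IsFractionRing.finrank_eq R F (S34V_S R F') F').symm
  have hqQ := S34V_le_inertiaDeg (S34V_S R F') W0 h0 hb
  obtain ⟨hall, -, -, -⟩ :=
    S36NR_count_one (R := R) (S34V_S R F') (S34V_hos (S34V_S R F') W0 h0) (hn ▸ hab) hqQ
  have hW : ∀ W : ValuationSubring F', S34V_Dom R W → W = W0 := fun W hW =>
    S34V_hos_injective (S34V_S R F') hW h0 (hall _)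
  intro x hx
  rw [S34V_isIntegral_iff_forall R F x]
  intro W hWd
  rw [hW W hWd]
  exact hx

end Val

variable {L : Type*} [Field L]

/-- **`hkeya` from the count.** -/
theorem S36SC3_keya [CharZero L] {π t : L} {F1' F1 : Subfield L} (hF : F1' ≤ F1)
    {Va V1 V2 : Subring L}
    (hVa : S34C2_Val π F1' Va)
    (hsepa : ∀ x ∈ F1', x ≠ 0 → ∃ (z : ℤ) (u : L), u ∈ Va ∧ u⁻¹ ∈ Va ∧ x = π ^ z * u)
    (h1 : S34C2_Val π F1 V1) (h2 : S34C2_Val π F1 V2) (hVa1 : Va ≤ V1) (hVa2 : Va ≤ V2)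
    (hne : V1 ≠ V2) {m : ℕ} (hm : 1 ≤ m)
    (hdeg : ∃ s : Finset L, s.card ≤ m + 1 ∧ ∀ x ∈ F1, ∃ c : L → L,
      (∀ y, c y ∈ F1') ∧ x = ∑ y ∈ s, c y * y)
    (ht2 : t ∈ V2) (ht2' : t⁻¹ ∉ V2) (hπt : ∃ u, u ∈ V2 ∧ u⁻¹ ∈ V2 ∧ π = t ^ m * u) :
    ∀ v ∈ F1, v ∈ V1 → v ∈ V2 → IsIntegral Va v := by
  classical
  letI := S34KEY_alg hF
  obtain ⟨hfd, hfr⟩ := S34KEY_finrank_le hF hdeg
  haveI := hfd
  have hfr' : Module.finrank ↥F1' ↥F1 ≤ 1 + m := by omega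
  haveI : CharZero ↥F1' := by
    refine ⟨fun a b hab => ?_⟩
    have := congrArg (fun t : ↥F1' => (t : L)) hab
    simpa using this
  haveI : Algebra.IsSeparable ↥F1' ↥F1 := Algebra.IsAlgebraic.isSeparable_of_perfectField
  haveI := S34KEY_isDVR hVa hsepa
  letI := S34KEY_algR hF hVa
  haveI : IsScalarTower ↥(S34KEY_vs hVa) ↥F1' ↥F1 := IsScalarTower.of_algebraMap_eq (fun _ => rfl)
  have hd1 := S34KEY_dom hF hVa hsepa h1 hVa1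
  have hd2 := S34KEY_dom hF hVa hsepa h2 hVa2
  have hne' : S34KEY_vs h1 ≠ S34KEY_vs h2 := fun h => hne (S34KEY_vs_injective h1 h2 h)
  have ht0 : t ≠ 0 := fun h => ht2' (by rw [h, inv_zero]; exact V2.zero_mem)
  have htm : π * (t ^ m)⁻¹ ∈ V2 := by
    obtain ⟨u, hu, -, hπu⟩ := hπt
    have : π * (t ^ m)⁻¹ = u := by
      rw [hπu]
      have := pow_ne_zero m ht0
      field_simp
    rw [this]
    exact hu
  have hram : S36NR_RamGe ↥(S34KEY_vs hVa) (S34KEY_vs h2) m := by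
    refine ⟨⟨t, h2.le ht2⟩, ?_, ?_, ?_⟩
    · rw [S34KEY_mem_nonunits]
      exact Or.inr ht2'
    · intro h
      exact ht0 (congrArg (fun x : ↥F1 => (x : L)) h)
    · intro r hr
      rw [S34KEY_mem_maximalIdeal hVa hsepa] at hr
      obtain ⟨v, hv, hrv⟩ := hr
      rw [S34KEY_mem_vs]
      have e : ((algebraMap ↥(S34KEY_vs hVa) ↥F1 r * ((⟨t, h2.le ht2⟩ : ↥F1) ^ m)⁻¹ : ↥F1) : L)
          = v * (π * (t ^ m)⁻¹) := by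
        have e0 : ((algebraMap ↥(S34KEY_vs hVa) ↥F1 r : ↥F1) : L) = π * v := hrv
        push_cast
        rw [e0]
        ring
      rw [e]
      exact V2.mul_mem (hVa2 hv) htm
  obtain ⟨-, -, -, -, -, hint, -⟩ := S36NR_two_ram ↥(S34KEY_vs hVa) ↥F1' (S34KEY_vs h1)
    (S34KEY_vs h2) hd1 hd2 hne' (by omega : 0 < m) hfr' hram
  intro v hvF hv1 hv2
  exact S34KEY_isIntegral_of hF hVa ⟨v, hvF⟩ ((hint ⟨v, hvF⟩).2 ⟨hv1, hv2⟩)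

/-- **`hkeyb` from the residue degree.** -/
theorem S36SC3_keyb [CharZero L] {π : L} {F1' F1 : Subfield L} (hF : F1' ≤ F1)
    {Vb V3 : Subring L}
    (hVb : S34C2_Val π F1' Vb)
    (hsepb : ∀ x ∈ F1', x ≠ 0 → ∃ (z : ℤ) (u : L), u ∈ Vb ∧ u⁻¹ ∈ Vb ∧ x = π ^ z * u)
    (h3 : S34C2_Val π F1 V3) (hVb3 : Vb ≤ V3) {q : ℕ} (hq : q.Prime)
    (hdeg : ∃ s : Finset L, s.card ≤ q ∧ ∀ x ∈ F1, ∃ c : L → L,
      (∀ y, c y ∈ F1') ∧ x = ∑ y ∈ s, c y * y)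
    {y x : L} (hy : y ∈ V3) (hx : x ∈ Vb) (hyx : y ^ q - x = 0 ∨ (y ^ q - x)⁻¹ ∉ V3)
    (hxq : ∀ r ∈ Vb, ∀ v ∈ Vb, r ^ q - x ≠ π * v) :
    ∀ v ∈ F1, v ∈ V3 → IsIntegral Vb v := by
  classical
  letI := S34KEY_alg hF
  obtain ⟨hfd, hfr⟩ := S34KEY_finrank_le hF hdeg
  haveI := hfd
  haveI : CharZero ↥F1' := by
    refine ⟨fun a b hab => ?_⟩
    have := congrArg (fun t : ↥F1' => (t : L)) hab
    simpa using this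
  haveI : Algebra.IsSeparable ↥F1' ↥F1 := Algebra.IsAlgebraic.isSeparable_of_perfectField
  haveI := S34KEY_isDVR hVb hsepb
  letI := S34KEY_algR hF hVb
  haveI : IsScalarTower ↥(S34KEY_vs hVb) ↥F1' ↥F1 := IsScalarTower.of_algebraMap_eq (fun _ => rfl)
  have hd0 := S34KEY_dom hF hVb hsepb h3 hVb3
  have hb : S34V_ResDegGe ↥(S34KEY_vs hVb) (S34KEY_vs h3) q := by
    refine S34V_resDegGe_of_pow (S34KEY_vs h3) hd0 hq (y := ⟨y, h3.le hy⟩) hy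
      (x := S34KEY_ofV hVb ⟨x, hx⟩) ?_ ?_
    · rw [S34KEY_mem_nonunits]
      exact hyx
    · intro r hr
      rw [S34KEY_mem_maximalIdeal hVb hsepb] at hr
      obtain ⟨v, hv, hrv⟩ := hr
      exact hxq _ r.2 v hv hrv
  have hint := S36SC3_int_one ↥(S34KEY_vs hVb) ↥F1' (S34KEY_vs h3) hd0 hfr hb
  intro v hvF hv3
  exact S34KEY_isIntegral_of hF hVb ⟨v, hvF⟩ (hint ⟨v, hvF⟩ hv3)

/-- **The arithmetic hypothesis `hd`**: `n = lam ^ k`, `m + 2 = q + 1 = lam ^ c1 * u` with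
`lam ∤ u`, `d = lam ^ (k - c1)`. -/
theorem S36SC3_hd {lam : ℕ} (hlam : lam.Prime) {m k c1 u : ℕ} (hq : m + 2 = lam ^ c1 * u)
    (hu : ¬ lam ∣ u) (hc : c1 ≤ k) :
    ∀ x : ℤ, ((lam ^ k : ℕ) : ℤ) ∣ ((m : ℤ) + 2) * x → ((lam ^ (k - c1) : ℕ) : ℤ) ∣ x := by
  intro x hx
  have hlamZ : Prime (lam : ℤ) := Nat.prime_iff_prime_int.mp hlam
  have hlam0 : (lam : ℤ) ≠ 0 := hlamZ.ne_zero
  have hq' : (m : ℤ) + 2 = (lam : ℤ) ^ c1 * (u : ℤ) := by exact_mod_cast hq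
  have hk : (lam : ℤ) ^ k = (lam : ℤ) ^ c1 * (lam : ℤ) ^ (k - c1) := by
    rw [← pow_add, Nat.add_sub_cancel' hc]
  have hu' : ¬ (lam : ℤ) ∣ (u : ℤ) := by
    intro h
    exact hu (by exact_mod_cast h)
  push_cast at hx ⊢
  have h5 : (lam : ℤ) ^ (k - c1) ∣ (u : ℤ) * x := by
    rw [hq', hk, mul_assoc] at hx
    exact (mul_dvd_mul_iff_left (pow_ne_zero c1 hlam0)).1 hx
  have hcop : IsCoprime ((lam : ℤ) ^ (k - c1)) (u : ℤ) :=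
    ((hlamZ.coprime_iff_not_dvd).2 hu').pow_left
  exact hcop.dvd_of_dvd_mul_left h5

/-- `d ∣ n` for `n = lam ^ k`, `d = lam ^ (k - c1)`. -/
theorem S36SC3_hdn (lam k c1 : ℕ) : lam ^ (k - c1) ∣ lam ^ k :=
  pow_dvd_pow lam (Nat.sub_le k c1)

/-- **VERTICAL SCALING, consumer form**: `S36SC2_abs` with `hkeya`, `hkeyb` derived from the
counting inputs (`q = m + 1` prime, residue degree `q` of `V3` over `Vb` through `(y, x)`). -/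
theorem S36SC3_abs [CharZero L] {π t : L} {F1' F1 : Subfield L} (hF : F1' ≤ F1)
    {Va Vb V1 V2 V3 : Subring L}
    (hVa : S34C2_Val π F1' Va)
    (hsepa : ∀ x ∈ F1', x ≠ 0 → ∃ (z : ℤ) (u : L), u ∈ Va ∧ u⁻¹ ∈ Va ∧ x = π ^ z * u)
    (hVb : S34C2_Val π F1' Vb)
    (hsepb : ∀ x ∈ F1', x ≠ 0 → ∃ (z : ℤ) (u : L), u ∈ Vb ∧ u⁻¹ ∈ Vb ∧ x = π ^ z * u)
    (h1 : S34C2_Val π F1 V1) (h2 : S34C2_Val π F1 V2) (h3 : S34C2_Val π F1 V3)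
    (hsep1 : ∀ x ∈ F1, x ≠ 0 → ∃ (z : ℤ) (u : L), u ∈ V1 ∧ u⁻¹ ∈ V1 ∧ x = π ^ z * u)
    (hsep2 : ∀ x ∈ F1, x ≠ 0 → ∃ (z : ℤ) (u : L), u ∈ V2 ∧ u⁻¹ ∈ V2 ∧ x = t ^ z * u)
    (hsep3 : ∀ x ∈ F1, x ≠ 0 → ∃ (z : ℤ) (u : L), u ∈ V3 ∧ u⁻¹ ∈ V3 ∧ x = π ^ z * u)
    (htF : t ∈ F1) (ht2 : t ∈ V2) (ht2' : t⁻¹ ∉ V2)
    {m : ℕ} (hm : 1 ≤ m) (hπt : ∃ u, u ∈ V2 ∧ u⁻¹ ∈ V2 ∧ π = t ^ m * u)
    (hne12 : V1 ≠ V2) (hne13 : V1 ≠ V3) (hne23 : V2 ≠ V3)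
    (hVa1 : Va ≤ V1) (hVa2 : Va ≤ V2) (hVb3 : Vb ≤ V3)
    (hq : (m + 1).Prime)
    {y x : L} (hy : y ∈ V3) (hx : x ∈ Vb)
    (hyx : y ^ (m + 1) - x = 0 ∨ (y ^ (m + 1) - x)⁻¹ ∉ V3)
    (hxq : ∀ r ∈ Vb, ∀ v ∈ Vb, r ^ (m + 1) - x ≠ π * v)
    (hdeg : ∃ s : Finset L, s.card ≤ m + 1 ∧ ∀ x ∈ F1, ∃ c : L → L,
      (∀ y, c y ∈ F1') ∧ x = ∑ y ∈ s, c y * y)
    (w : L → L) (hwF : ∀ x ∈ F1, w x ∈ F1) (hw1 : w 1 = 1)
    (hwmul : ∀ x ∈ F1, ∀ y ∈ F1, w (x * y) = w x * w y) (hwπ : w π = π)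
    (hw13 : ∀ x ∈ V1, w x ∈ V3) (hw31 : ∀ x ∈ V3, w x ∈ V1) (hw22 : ∀ x ∈ V2, w x ∈ V2)
    (hwt : ∃ u, u ∈ V2 ∧ u⁻¹ ∈ V2 ∧ w t = t * u)
    {n d : ℕ} (hdn : d ∣ n) (hd : ∀ x : ℤ, (n : ℤ) ∣ ((m : ℤ) + 2) * x → (d : ℤ) ∣ x)
    {f0 : L} (hf0 : f0 ∈ F1) (hf00 : f0 ≠ 0)
    {zα : ℤ} {uα hα : L} (huαa : uα ∈ Va) (huαa' : uα⁻¹ ∈ Va) (huαb : uα ∈ Vb)
    (huαb' : uα⁻¹ ∈ Vb) (hhαF : hα ∈ F1') (hhα0 : hα ≠ 0)
    (hNα : letI := S34KEY_alg hF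
      ((Algebra.norm ↥F1' (⟨f0, hf0⟩ : ↥F1) : ↥F1') : L) = π ^ zα * uα * hα ^ n)
    {zβ : ℤ} {uβ hβ : L} (huβa : uβ ∈ Va) (huβa' : uβ⁻¹ ∈ Va) (huβb : uβ ∈ Vb)
    (huβb' : uβ⁻¹ ∈ Vb) (hhβF : hβ ∈ F1') (hhβ0 : hβ ≠ 0)
    (hNβ : letI := S34KEY_alg hF
      ((Algebra.norm ↥F1' (⟨w f0, hwF f0 hf0⟩ : ↥F1) : ↥F1') : L) = π ^ zβ * uβ * hβ ^ n) :
    letI := S34KEY_alg hF
    ∃ (z : ℤ) (g0 f1 : L) (hf1F : f1 ∈ F1) (Hα Hβ : L), g0 ∈ F1 ∧ g0 ≠ 0 ∧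
      f0 = π ^ z * g0 ^ d * f1 ∧
      f1 ∈ (V1 ⊓ V2 ⊓ V3 : Subring L) ∧ f1⁻¹ ∈ (V1 ⊓ V2 ⊓ V3 : Subring L) ∧
      Hα ∈ F1' ∧ Hα ∈ Va ∧ Hα⁻¹ ∈ Va ∧ Hα ∈ Vb ∧ Hα⁻¹ ∈ Vb ∧
      ((Algebra.norm ↥F1' (⟨f1, hf1F⟩ : ↥F1) : ↥F1') : L) = uα * Hα ^ d ∧
      Hβ ∈ F1' ∧ Hβ ∈ Va ∧ Hβ⁻¹ ∈ Va ∧ Hβ ∈ Vb ∧ Hβ⁻¹ ∈ Vb ∧
      ((Algebra.norm ↥F1' (⟨w f1, hwF f1 hf1F⟩ : ↥F1) : ↥F1') : L) = uβ * Hβ ^ d :=
  S36SC2_abs hF hVa hsepa hVb hsepb h1 h2 h3 hsep1 hsep2 hsep3 htF ht2 ht2' hm hπt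
    hne12 hne13 hne23 hVa1 hVa2 hVb3
    (S36SC3_keya hF hVa hsepa h1 h2 hVa1 hVa2 hne12 hm hdeg ht2 ht2' hπt)
    (S36SC3_keyb hF hVb hsepb h3 hVb3 hq hdeg hy hx hyx hxq)
    hdeg w hwF hw1 hwmul hwπ hw13 hw31 hw22 hwt hdn hd hf0 hf00
    huαa huαa' huαb huαb' hhαF hhα0 hNα huβa huβa' huβb huβb' hhβF hhβ0 hNβ

end Fermat.Agent.S36_helper28_SCALE3
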