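import Mathlib
import Fermat.Agent.S36_helper13_NORMRED
import Fermat.Agent.S34_helper13_KEY

/-!
# S36, GEO36 (II.2): `unif ⟹ sep` for a valuation ring above a discrete valuation ring (helper28)

The landed counting theorems (`S36K3_abs`, `S34KEY_abs`, ...) deliver the uniformiser of a
valuation ring `W` of `F1` in the shape `hunif : ∀ x ∈ W, x⁻¹ ∉ W → ∃ v ∈ W, x = τ * v`; the
vertical scaling `S36SC_abs` consumes the shape `hsep : ∀ x ∈ F1, x ≠ 0 → ∃ z u, u, u⁻¹ ∈ W ∧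
x = τ ^ z * u`.  The second follows from the first when `W` contains a discrete valuation ring
`V'` of a subfield `F1'` over which `F1` is finite (then `W` is discrete).

* `S36SU_sep_val`     : valuation-subring form;
* `S36SU_sep_of_unif` : `Subring L` form.
-/

set_option autoImplicit false
set_option linter.style.haveILetI false
set_option linter.unusedSectionVars false
set_option linter.unusedVariables false

open IsLocalRing Module IsDedekindDomain IsDedekindDomain.HeightOneSpectrum WithZero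
open Fermat.Agent.S34_helper13_VCOUNT Fermat.Agent.S34_helper27_C2Defs
  Fermat.Agent.S34_helper13_KEY Fermat.Agent.S36_helper13_NORMRED

namespace Fermat.Agent.S36_helper28_SEPU

section Val

variable (R F : Type*) {F' : Type*} [CommRing R] [IsDomain R] [IsDiscreteValuationRing R]
  [Field F] [Field F'] [Algebra R F] [IsFractionRing R F] [Algebra F F'] [Algebra R F']
  [IsScalarTower R F F'] [FiniteDimensional F F'] [Algebra.IsSeparable F F']

include F in
/-- A valuation subring dominating a discrete valuation ring in a finite separable extension, with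
maximal ideal generated by `τ`: every nonzero element is `τ ^ z * unit`. -/
theorem S36SU_sep_val (W : ValuationSubring F') (hW : S34V_Dom R W) {τ : F'}
    (hτ : τ ∈ W.nonunits) (hunif : ∀ x ∈ W.nonunits, ∃ v ∈ W, x = τ * v) :
    ∀ x : F', x ≠ 0 → ∃ (z : ℤ) (u : F'), u ∈ W ∧ u⁻¹ ∈ W ∧ x = τ ^ z * u := by
  haveI := S34V_isDedekind R F F'
  haveI := S34V_isFrac R F F'
  haveI := S34V_faithful R F F'
  have hmem := S34V_mem_iff (S34V_S R F') W hW
  have hnu := S34V_mem_nonunits_iff (S34V_S R F') W hW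
  set P := S34V_hos (S34V_S R F') W hW with hP
  obtain ⟨ϖ, hϖ⟩ := P.valuation_exists_uniformizer F'
  have hlt : (exp (-1 : ℤ) : ℤᵐ⁰) < 1 := by
    rw [← exp_zero, exp_lt_exp]
    norm_num
  have hϖnu : ϖ ∈ W.nonunits := by
    rw [hnu, hϖ]
    exact hlt
  obtain ⟨v, hv, hϖv⟩ := hunif ϖ hϖnu
  have hvτ : P.valuation F' τ = exp (-1 : ℤ) := by
    apply le_antisymm
    · exact S36NR_valuation_le_of_nonunit (S34V_S R F') W hW hτ
    · rw [← hϖ, hϖv, map_mul]
      exact mul_le_of_le_one_right zero_le ((hmem v).1 hv)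
  have hτ0 : τ ≠ 0 := by
    intro h
    rw [h, map_zero] at hvτ
    exact exp_ne_zero hvτ.symm
  intro x hx
  have hvx : P.valuation F' x ≠ 0 := by
    rw [Valuation.ne_zero_iff]
    exact hx
  have hk : P.valuation F' x = exp (log (P.valuation F' x)) := (exp_log hvx).symm
  set k : ℤ := log (P.valuation F' x) with hkdef
  have hτk : P.valuation F' (τ ^ k) = exp (-k) := by
    rw [map_zpow₀, hvτ, ← exp_zsmul]
    congr 1
    simp
  have hone : P.valuation F' (x * τ ^ k) = 1 := by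
    rw [map_mul, hτk, hk, ← exp_add, add_neg_cancel, exp_zero]
  refine ⟨-k, x * τ ^ k, ?_, ?_, ?_⟩
  · rw [hmem, hone]
  · rw [hmem, map_inv₀, hone, inv_one]
  · rw [zpow_neg]
    have := zpow_ne_zero k hτ0
    field_simp

end Val

variable {L : Type*} [Field L]

/-- **`unif ⟹ sep`, `Subring L` form.** -/
theorem S36SU_sep_of_unif [CharZero L] {π τ : L} {F1' F1 : Subfield L} (hF : F1' ≤ F1)
    {V' W : Subring L}
    (hV' : S34C2_Val π F1' V')
    (hsep : ∀ x ∈ F1', x ≠ 0 → ∃ (z : ℤ) (u : L), u ∈ V' ∧ u⁻¹ ∈ V' ∧ x = π ^ z * u)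
    {n : ℕ}
    (hdeg : ∃ s : Finset L, s.card ≤ n ∧ ∀ x ∈ F1, ∃ c : L → L,
      (∀ y, c y ∈ F1') ∧ x = ∑ y ∈ s, c y * y)
    (hW : S34C2_Val π F1 W) (hVW : V' ≤ W) (hτ : τ ∈ W) (hτ' : τ⁻¹ ∉ W)
    (hunif : ∀ x ∈ W, x⁻¹ ∉ W → ∃ v ∈ W, x = τ * v) :
    ∀ x ∈ F1, x ≠ 0 → ∃ (z : ℤ) (u : L), u ∈ W ∧ u⁻¹ ∈ W ∧ x = τ ^ z * u := by
  classical
  letI := S34KEY_alg hF
  obtain ⟨hfd, -⟩ := S34KEY_finrank_le hF hdeg
  haveI := hfd
  haveI : CharZero ↥F1' := by
    refine ⟨fun a b hab => ?_⟩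
    have := congrArg (fun t : ↥F1' => (t : L)) hab
    simpa using this
  haveI : Algebra.IsSeparable ↥F1' ↥F1 := Algebra.IsAlgebraic.isSeparable_of_perfectField
  haveI := S34KEY_isDVR hV' hsep
  letI := S34KEY_algR hF hV'
  haveI : IsScalarTower ↥(S34KEY_vs hV') ↥F1' ↥F1 := IsScalarTower.of_algebraMap_eq (fun _ => rfl)
  have hd := S34KEY_dom hF hV' hsep hW hVW
  have hτF : τ ∈ F1 := hW.le hτ
  have hτnu : (⟨τ, hτF⟩ : ↥F1) ∈ (S34KEY_vs hW).nonunits := by
    rw [S34KEY_mem_nonunits]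
    exact Or.inr hτ'
  have hunif' : ∀ x ∈ (S34KEY_vs hW).nonunits, ∃ v ∈ S34KEY_vs hW, x = (⟨τ, hτF⟩ : ↥F1) * v := by
    intro x hx
    have hxW : (x : L) ∈ W := (S34KEY_vs hW).nonunits_le hx
    rw [S34KEY_mem_nonunits] at hx
    rcases hx with hx | hx
    · exact ⟨0, (S34KEY_vs hW).zero_mem, by rw [mul_zero]; exact Subtype.ext hx⟩
    · obtain ⟨v, hv, hxv⟩ := hunif (x : L) hxW hx
      exact ⟨⟨v, hW.le hv⟩, hv, Subtype.ext hxv⟩
  intro x hxF hx0
  have hx0' : (⟨x, hxF⟩ : ↥F1) ≠ 0 := fun h => hx0 (congrArg (fun y : ↥F1 => (y : L)) h)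
  obtain ⟨z, u, hu, hu', hxu⟩ := S36SU_sep_val ↥(S34KEY_vs hV') ↥F1' (S34KEY_vs hW) hd hτnu
    hunif' ⟨x, hxF⟩ hx0'
  refine ⟨z, (u : L), hu, ?_, ?_⟩
  · have : ((u⁻¹ : ↥F1) : L) ∈ W := hu'
    simpa using this
  · have := congrArg (fun y : ↥F1 => (y : L)) hxu
    simp only [Subfield.coe_mul] at this
    rw [this]
    congr 1

end Fermat.Agent.S36_helper28_SEPU
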