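import Mathlib
import Fermat.Agent.S36_helper28_SCALE3
import Fermat.Agent.S36_helper28_SEPU
import Fermat.Agent.S36_helper4_XADefs
import Fermat.Agent.S36_helper4_DEG
import Fermat.Agent.S36_helper23_V0QK
import Fermat.Agent.S36_helper5_VKDefs
import Fermat.Agent.S34_helper20_VFIN
import Fermat.Agent.S34_helper24_QPOWK
import Fermat.Agent.S34_helper13_KEYK

/-!
# S36, GEO36 (II.2): VERTICAL SCALING at the carriers (helper28)

The concrete plug of `S36SC3_abs` at the level `M' * q * q` over `M' * q`: the field `scale` of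
helper3's `S36XB_Contract`, for ANY middle valuation ring `W2` with the (landed shapes of the)
properties of `V_mid`, and `W3 = V_0 = w_(q²)(V_∞)`.
-/

set_option autoImplicit false
set_option linter.style.haveILetI false
set_option linter.unusedSectionVars false
set_option linter.unusedVariables false

open HahnSeries IntermediateField ModularCurve
open Fermat.Agent.S18_helper13_GAUSS Fermat.Agent.S18_helper9_CDefs
open Fermat.Agent.S18_helper25_COREDefs Fermat.Agent.S34_helper12_CDefs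
open Fermat.Agent.S34_helper27_C2Defs Fermat.Agent.S34_helper20_WQ Fermat.Agent.S34_helper20_V0
open Fermat.Agent.S34_helper27_V3K Fermat.Agent.S34_helper20_V0K
open Fermat.Agent.S36_helper20_WQQ Fermat.Agent.S36_helper23_V0Q Fermat.Agent.S36_helper23_V0QK
open Fermat.Agent.S34_helper13_KEY Fermat.Agent.S34_helper13_KEYK
open Fermat.Agent.S35_helper27_XD2Defs Fermat.Agent.S36_helper4_XADefs
open Fermat.Agent.S36_helper28_WAPP Fermat.Agent.S36_helper28_SCALE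
open Fermat.Agent.S36_helper28_SCALE3 Fermat.Agent.S36_helper28_SEPU

noncomputable section

namespace Fermat.Agent.S36_helper28_SCALEK

local notation "Qb" => AlgebraicClosure ℚ

variable (A : ValuationSubring Qb) (K1 : IntermediateField ℚ Qb)
  [IsDiscreteValuationRing (S18K_O1 A K1)]
  (q M' : ℕ) [NeZero M'] [NeZero q] [NeZero (M' * q)] [NeZero (M' * q * q)] [NeZero (q ^ 2)]
  (hq : q.Prime) (hqM : ¬ q ∣ M')

/-- `V'_0`, the second valuation ring of level `M' * q`. -/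
abbrev S36SCK_Vb : Subring (LaurentSeries K1) :=
  S34V0K_V A K1 q M' (M' * q) hq hqM (Nat.mul_comm M' q)

/-- `V_0`, the third valuation ring of level `M' * q * q`. -/
abbrev S36SCK_V3 : Subring (LaurentSeries K1) :=
  S36V0QK_V A K1 q M' (M' * q * q) hq hqM S36XA_level_eq

/-- the inclusion of the function fields. -/
theorem S36SCK_hF : S18K_F1 K1 (M' * q) ≤ S18K_F1 K1 (M' * q * q) :=
  S34V3K_F1_mono K1 (S36XA_level_dvd M' q)

theorem S36SCK_hF0 : S18K_F1 K1 M' ≤ S18K_F1 K1 (M' * q) :=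
  S34V3K_F1_mono K1 (Dvd.intro q rfl)

/-- `hsep` for `V'_0`. -/
theorem S36SCK_sepb : ∀ x ∈ S18K_F1 K1 (M' * q), x ≠ 0 →
    ∃ (z : ℤ) (u : LaurentSeries K1), u ∈ S36SCK_Vb A K1 q M' hq hqM ∧
      u⁻¹ ∈ S36SCK_Vb A K1 q M' hq hqM ∧ x = S18K_π A K1 ^ z * u := by
  haveI hcz : CharZero (LaurentSeries K1) :=
    charZero_of_injective_ringHom (HahnSeries.C_injective (Γ := ℤ) (R := K1))
  exact S36SU_sep_of_unif (S36SCK_hF0 K1 q M') (S34V3K_val1 A K1 M') (S34KEYK_sep A K1 M')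
    (Fermat.Agent.S34_helper20_VFIN.S34VF_hdeg K1 q M' hq hqM)
    (S34V0K_val A K1 q M' (M' * q) hq hqM (Nat.mul_comm M' q))
    (S34V0K_le A K1 q M' (M' * q) hq hqM (Nat.mul_comm M' q))
    (S34V0K_val A K1 q M' (M' * q) hq hqM (Nat.mul_comm M' q)).π_mem
    (S34V0K_val A K1 q M' (M' * q) hq hqM (Nat.mul_comm M' q)).π_nonunit
    (S34V0K_unif A K1 q M' (M' * q) hq hqM (Nat.mul_comm M' q))

include hq in
/-- the spanning set of `F1(M' q q)` over `F1(M' q)`. -/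
theorem S36SCK_hdeg :
    ∃ s : Finset (LaurentSeries K1), s.card ≤ (q - 1) + 1 ∧ ∀ x ∈ S18K_F1 K1 (M' * q * q),
      ∃ c : LaurentSeries K1 → LaurentSeries K1,
        (∀ y, c y ∈ S18K_F1 K1 (M' * q)) ∧ x = ∑ y ∈ s, c y * y := by
  have h := Fermat.Agent.S36_helper4_DEG.S36DG_hdeg K1 (M' * q) q hq (Dvd.intro_left M' rfl)
  have e : q - 1 + 1 = q := Nat.sub_add_cancel hq.one_lt.le
  rw [e]
  exact h

/-- `V'_0 ≤ V_0`. -/
theorem S36SCK_hVb3 : S36SCK_Vb A K1 q M' hq hqM ≤ S36SCK_V3 A K1 q M' hq hqM :=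
  S36V0QK_le_q A K1 q M' (M' * q) (M' * q * q) hq hqM (Nat.mul_comm M' q) S36XA_level_eq

/-- `hsep` for `V_0`. -/
theorem S36SCK_sep3 : ∀ x ∈ S18K_F1 K1 (M' * q * q), x ≠ 0 →
    ∃ (z : ℤ) (u : LaurentSeries K1), u ∈ S36SCK_V3 A K1 q M' hq hqM ∧
      u⁻¹ ∈ S36SCK_V3 A K1 q M' hq hqM ∧ x = S18K_π A K1 ^ z * u := by
  haveI hcz : CharZero (LaurentSeries K1) :=
    charZero_of_injective_ringHom (HahnSeries.C_injective (Γ := ℤ) (R := K1))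
  exact S36SU_sep_of_unif (S36SCK_hF K1 q M')
    (S34V0K_val A K1 q M' (M' * q) hq hqM (Nat.mul_comm M' q))
    (S36SCK_sepb A K1 q M' hq hqM) (S36SCK_hdeg K1 q M' hq)
    (S36V0QK_val A K1 q M' (M' * q * q) hq hqM S36XA_level_eq)
    (S36SCK_hVb3 A K1 q M' hq hqM)
    (S36V0QK_val A K1 q M' (M' * q * q) hq hqM S36XA_level_eq).π_mem
    (S36V0QK_val A K1 q M' (M' * q * q) hq hqM S36XA_level_eq).π_nonunit
    (S36V0QK_unif A K1 q M' (M' * q * q) hq hqM S36XA_level_eq)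

/-! ### the residue degree of `V_0` over `V'_0`: the pair `(y, x) = (j(Q^(q²)), j(Q^q))` -/

include hq hqM in
/-- `j(Q^q) ∈ F1(M' q)`. -/
theorem S36SCK_jq_mem_F : qExpand K1 q (jqModC K1) ∈ modularFunctionFieldFullC K1 (M' * q) :=
  S34V0K_jq_mem_F K1 q M' (M' * q) hq hqM (Nat.mul_comm M' q)

/-- `w_(q²)` fixes `j(Q^q)`. -/
theorem S36SCK_w_jq :
    S36WQ_wL (S34V0K_emb K1) (q ^ 2) M' (M' * q * q) (S36WQ_cop hq hqM) S36XA_level_eq
      (qExpand K1 q (jqModC K1)) = qExpand K1 q (jqModC K1) := by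
  have h1 := S36WQ_beta' (S34V0K_emb K1) q M' (M' * q) (M' * q * q) hq hqM (Nat.mul_comm M' q)
    S36XA_level_eq (⟨qExpand K1 q (jqModC K1), S36SCK_jq_mem_F K1 q M' hq hqM⟩ :
      modularFunctionFieldFullC K1 (M' * q))
  have h2 : ((S34V0_w (S34V0K_emb K1) q M' (M' * q) hq hqM (Nat.mul_comm M' q)
      ⟨qExpand K1 q (jqModC K1), S36SCK_jq_mem_F K1 q M' hq hqM⟩ :
        modularFunctionFieldFullC K1 (M' * q)) : LaurentSeries K1) = jqModC K1 := by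
    rw [← S34V0_wL_of_mem (S34V0K_emb K1) q M' (M' * q) hq hqM (Nat.mul_comm M' q)
      (S36SCK_jq_mem_F K1 q M' hq hqM)]
    exact S34V0_wL_jq (S34V0K_emb K1) q M' (M' * q) hq hqM (Nat.mul_comm M' q)
  rw [h2] at h1
  exact h1

/-- **Frobenius congruence on `V_0`**: `j(Q^(q²)) ^ q - j(Q^q) ∈ π V_0`. -/
theorem S36SCK_frob (hA : A.LiesOverPrime q) :
    ∃ v ∈ S36SCK_V3 A K1 q M' hq hqM,
      qExpand K1 (q ^ 2) (jqModC K1) ^ q - qExpand K1 q (jqModC K1) = S18K_π A K1 * v := by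
  haveI : ExpChar (IsLocalRing.ResidueField A) q := Fermat.Agent.S37K2.S37K2_expChar A q hq hA
  have hj := (S18K_D A K1).jqModC_mem_Vring
  have hjq := (S34V0K_qExpand_mem (S18K_D A K1) q hj).1
  have hjF : jqModC K1 ∈ modularFunctionFieldFullC K1 (M' * q * q) := jqModC_mem_full K1 _
  have hjqF : qExpand K1 q (jqModC K1) ∈ modularFunctionFieldFullC K1 (M' * q * q) :=
    S34V3K_F1_mono K1 (S36XA_level_dvd M' q) (S36SCK_jq_mem_F K1 q M' hq hqM)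
  have hjqqF := S36V0QK_jqq_mem_F K1 q M' (M' * q * q) hq hqM S36XA_level_eq
  obtain ⟨y, hy, hxy⟩ := (S18K_D A K1).exists_eq_mul_of_redFun_eq_zero
    (sub_mem hjq ((S18K_D A K1).Vring.pow_mem hj q)) (S34V0K_frob_red (S18K_D A K1) q)
  have hyV : y ∈ S18K_V A K1 (M' * q * q) :=
    S34V0K_div_mem A K1 (M' * q * q) (sub_mem hjqF (pow_mem hjF q)) hy hxy
  have hyF : y ∈ modularFunctionFieldFullC K1 (M' * q * q) := hyV.2
  have hπF : S18K_π A K1 ∈ modularFunctionFieldFullC K1 (M' * q * q) :=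
    Fermat.Agent.S18_helper25_CORE.S18K_π_mem_F1 A K1 (M' * q * q)
  have hxy' : qExpand K1 q (jqModC K1) - jqModC K1 ^ q = S18K_π A K1 * y := hxy
  -- apply `w`
  have hww := S36V0QK_hww K1 q M' (M' * q * q) hq hqM S36XA_level_eq
  have hwmul := S36V0QK_hwmul K1 q M' (M' * q * q) hq hqM S36XA_level_eq
  have hwπ := S36V0QK_hwπ A K1 q M' (M' * q * q) hq hqM S36XA_level_eq
  have hwy := S36V0QK_hw13 A K1 q M' (M' * q * q) hq hqM S36XA_level_eq (-y) (neg_mem hyV)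
  refine ⟨_, hwy, ?_⟩
  have e1 : S36WQ_wL (S34V0K_emb K1) (q ^ 2) M' (M' * q * q) (S36WQ_cop hq hqM) S36XA_level_eq
      (qExpand K1 (q ^ 2) (jqModC K1) ^ q - qExpand K1 q (jqModC K1)) =
      S18K_π A K1 * (-y) := by
    rw [S36V0Q_wL_sub (S34V0K_emb K1) (q ^ 2) M' (M' * q * q) (S36WQ_cop hq hqM)
      S36XA_level_eq (pow_mem hjqqF q) hjqF,
      S36V0Q_wL_pow (S34V0K_emb K1) (q ^ 2) M' (M' * q * q) (S36WQ_cop hq hqM)
      S36XA_level_eq hjqqF, S36V0Q_wL_jQ, S36SCK_w_jq K1 q M' hq hqM]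
    linear_combination -hxy'
  have e2 := congrArg (S36WQ_wL (S34V0K_emb K1) (q ^ 2) M' (M' * q * q) (S36WQ_cop hq hqM)
    S36XA_level_eq) e1
  rw [hww _ (sub_mem (pow_mem hjqqF q) hjqF), hwmul _ hπF _ (neg_mem hyF), hwπ] at e2
  exact e2

/-- the shape `hyx` of the count. -/
theorem S36SCK_hyx (hA : A.LiesOverPrime q) :
    qExpand K1 (q ^ 2) (jqModC K1) ^ q - qExpand K1 q (jqModC K1) = 0 ∨
      (qExpand K1 (q ^ 2) (jqModC K1) ^ q - qExpand K1 q (jqModC K1))⁻¹ ∉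
        S36SCK_V3 A K1 q M' hq hqM := by
  obtain ⟨v, hv, h⟩ := S36SCK_frob A K1 q M' hq hqM hA
  rw [h]
  exact S34KEY_pi_mul_nonunit (S36V0QK_val A K1 q M' (M' * q * q) hq hqM S36XA_level_eq) hv

/-- `j(Q^q)` is not a `q`-th power modulo `π` in `V'_0`. -/
theorem S36SCK_hxq (hA : A.LiesOverPrime q) :
    ∀ r ∈ S36SCK_Vb A K1 q M' hq hqM, ∀ v ∈ S36SCK_Vb A K1 q M' hq hqM,
      r ^ q - qExpand K1 q (jqModC K1) ≠ S18K_π A K1 * v := by
  intro r hr v hv h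
  have hrF : r ∈ modularFunctionFieldFullC K1 (M' * q) := hr.1
  have hvF : v ∈ modularFunctionFieldFullC K1 (M' * q) := hv.1
  have hπF : S18K_π A K1 ∈ modularFunctionFieldFullC K1 (M' * q) := Fermat.Agent.S18_helper25_CORE.S18K_π_mem_F1 A K1 (M' * q)
  have hjqF := S36SCK_jq_mem_F K1 q M' hq hqM
  have h1 := congrArg (S34V0_wL (S34V0K_emb K1) q M' (M' * q) hq hqM (Nat.mul_comm M' q)) h
  rw [sub_eq_add_neg, S34V0_wL_add (S34V0K_emb K1) q M' (M' * q) hq hqM (Nat.mul_comm M' q)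
      (pow_mem hrF q) (neg_mem hjqF),
    S34V0_wL_neg (S34V0K_emb K1) q M' (M' * q) hq hqM (Nat.mul_comm M' q) hjqF,
    S34V0_wL_pow (S34V0K_emb K1) q M' (M' * q) hq hqM (Nat.mul_comm M' q) hrF,
    S34V0_wL_jq, S34V0_wL_mul (S34V0K_emb K1) q M' (M' * q) hq hqM (Nat.mul_comm M' q) hπF hvF,
    ← sub_eq_add_neg] at h1
  have hπw : S34V0_wL (S34V0K_emb K1) q M' (M' * q) hq hqM (Nat.mul_comm M' q) (S18K_π A K1) =
      S18K_π A K1 := S34V0_wL_C (S34V0K_emb K1) q M' (M' * q) hq hqM (Nat.mul_comm M' q) _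
  rw [hπw] at h1
  exact Fermat.Agent.S34_helper24_QPOWK.S34QPK_hxq A K1 hq hA (M' * q) _ hr.2 _ hv.2 h1

/-! ### constants -/

/-- a nonzero constant is `π ^ z` times a common unit of `V'_∞` and `V'_0`. -/
theorem S36SCK_const {c : K1} (hc : c ≠ 0) :
    ∃ (zc : ℤ) (uc : LaurentSeries K1), uc ∈ S18K_V A K1 (M' * q) ∧
      uc⁻¹ ∈ S18K_V A K1 (M' * q) ∧ uc ∈ S36SCK_Vb A K1 q M' hq hqM ∧
      uc⁻¹ ∈ S36SCK_Vb A K1 q M' hq hqM ∧ HahnSeries.C c = S18K_π A K1 ^ zc * uc := by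
  have hCF : ∀ a : K1, HahnSeries.C a ∈ modularFunctionFieldFullC K1 (M' * q) :=
    fun a => S34V0_C_mem (M' * q) a
  have hC0 : (HahnSeries.C c : LaurentSeries K1) ≠ 0 := by
    intro h
    exact hc (HahnSeries.C_injective (by rw [h, map_zero]))
  obtain ⟨z, u, hu, hu', hcu⟩ := S34KEYK_sep A K1 (M' * q) _ (hCF c) hC0
  have hπ0 : S18K_π A K1 ≠ 0 := Fermat.Agent.S18_helper25_CORE.S18K_π_ne_zero A K1
  -- `u` is a constant
  have hπC : S18K_π A K1 = HahnSeries.C ((S18K_D A K1).inc (S18K_D A K1).π) := rfl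
  have huC : u = HahnSeries.C (c * (((S18K_D A K1).inc (S18K_D A K1).π) ^ z)⁻¹) := by
    have : u = HahnSeries.C c * (S18K_π A K1 ^ z)⁻¹ := by
      rw [hcu]
      have := zpow_ne_zero z hπ0
      field_simp
    rw [this, hπC, map_mul, map_inv₀, map_zpow₀]
  have huiC : u⁻¹ = HahnSeries.C (c * (((S18K_D A K1).inc (S18K_D A K1).π) ^ z)⁻¹)⁻¹ := by
    rw [huC, map_inv₀]
  refine ⟨z, u, hu, hu', ⟨hu.2, ?_⟩, ⟨hu'.2, ?_⟩, hcu⟩
  · rw [huC, S34V0_wL_C]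
    rw [← huC]
    exact hu
  · rw [huiC, S34V0_wL_C]
    rw [← huiC]
    exact hu'

/-! ### the plug -/

/-- `t = j(Q^(q q)) - j` in the `q ^ 2` spelling. -/
theorem S36SCK_t_eq [NeZero (q * q)] :
    Fermat.Agent.S36_helper5_VKDefs.S36VK_t K1 q =
      qExpand K1 (q ^ 2) (jqModC K1) - jqModC K1 := by
  unfold Fermat.Agent.S36_helper5_VKDefs.S36VK_t
  rw [S34WQ_qExpand_congr (show q * q = q ^ 2 by ring)]

/-- **VERTICAL SCALING at the carriers** = the field `scale` of helper3's `S36XB_Contract` with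
`W3 = V_0 = w_(q²)(V_∞)`, `d = lam ^ (c + 1 - c1)`, `lam ^ c1 ∥ q + 1`, for ANY middle valuation
ring `W2` with the landed properties of `V_mid`. -/
theorem S36SCK_scale [NeZero (q * q)] (hA : A.LiesOverPrime q) {lam c c1 u : ℕ}
    (hlam : lam.Prime) (hqu : q + 1 = lam ^ c1 * u) (hu : ¬ lam ∣ u) (hc1 : c1 ≤ c + 1)
    (W2 : Subring (LaurentSeries K1))
    (hmid : Fermat.Agent.S36_helper5_VKDefs.S36VK_IsMid A K1 q M' W2)
    (hunif2 : ∀ x ∈ W2, x⁻¹ ∉ W2 →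
      ∃ v ∈ W2, x = Fermat.Agent.S36_helper5_VKDefs.S36VK_t K1 q * v)
    (hπt : S18K_π A K1 / Fermat.Agent.S36_helper5_VKDefs.S36VK_t K1 q ^ (q - 1) ∈ W2)
    (htπ : Fermat.Agent.S36_helper5_VKDefs.S36VK_t K1 q ^ (q - 1) / S18K_π A K1 ∈ W2)
    (hne12 : S18K_V A K1 (M' * q * q) ≠ W2) (hne23 : W2 ≠ S36SCK_V3 A K1 q M' hq hqM)
    (hw22 : ∀ x ∈ W2, S36XA_W K1 q M' hq hqM x ∈ W2) :
    ∀ (f0 : LaurentSeries K1) (hf0 : f0 ∈ S18K_F1 K1 (M' * q * q)), f0 ≠ 0 →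
      S35XD2_NewAlpha K1 q (M' * q) (lam ^ (c + 1)) f0 hf0 →
      S36XA_NewBeta K1 q M' hq hqM (lam ^ (c + 1)) f0 →
      ∃ (z : ℤ) (g0 f1 : LaurentSeries K1), g0 ∈ S18K_F1 K1 (M' * q * q) ∧ g0 ≠ 0 ∧
        f0 = S18K_π A K1 ^ z * g0 ^ (lam ^ (c + 1 - c1)) * f1 ∧
        f1 ∈ (S18K_V A K1 (M' * q * q) ⊓ W2 ⊓ S36SCK_V3 A K1 q M' hq hqM :
          Subring (LaurentSeries K1)) ∧
        f1⁻¹ ∈ (S18K_V A K1 (M' * q * q) ⊓ W2 ⊓ S36SCK_V3 A K1 q M' hq hqM :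
          Subring (LaurentSeries K1)) := by
  classical
  haveI hcz : CharZero (LaurentSeries K1) :=
    charZero_of_injective_ringHom (HahnSeries.C_injective (Γ := ℤ) (R := K1))
  intro f0 hf0 hf00 hNα hNβ
  obtain ⟨h2, hVa2, ht2, ht2'⟩ := hmid
  set t := Fermat.Agent.S36_helper5_VKDefs.S36VK_t K1 q with ht
  have hteq : t = qExpand K1 (q ^ 2) (jqModC K1) - jqModC K1 := S36SCK_t_eq K1 q
  have ht0 : t ≠ 0 := fun h => ht2' (by rw [h, inv_zero]; exact W2.zero_mem)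
  have htF : t ∈ S18K_F1 K1 (M' * q * q) := h2.le ht2
  have hq1 : 1 ≤ q - 1 := by have := hq.two_le; omega
  have hqm : q - 1 + 1 = q := Nat.sub_add_cancel hq.one_lt.le
  -- the base rings
  have hVa := S34V3K_val1 A K1 (M' * q)
  have hsepa := S34KEYK_sep A K1 (M' * q)
  have hVb := S34V0K_val A K1 q M' (M' * q) hq hqM (Nat.mul_comm M' q)
  have hsepb := S36SCK_sepb A K1 q M' hq hqM
  have h1 := S34V3K_val1 A K1 (M' * q * q)
  have hsep1 := S34KEYK_sep A K1 (M' * q * q)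
  have h3 := S36V0QK_val A K1 q M' (M' * q * q) hq hqM S36XA_level_eq
  have hsep3 := S36SCK_sep3 A K1 q M' hq hqM
  have hdeg := S36SCK_hdeg K1 q M' hq
  have hdegq : ∃ s : Finset (LaurentSeries K1), s.card ≤ q ∧ ∀ x ∈ S18K_F1 K1 (M' * q * q),
      ∃ c : LaurentSeries K1 → LaurentSeries K1,
        (∀ y, c y ∈ S18K_F1 K1 (M' * q)) ∧ x = ∑ y ∈ s, c y * y :=
    Fermat.Agent.S36_helper4_DEG.S36DG_hdeg K1 (M' * q) q hq (Dvd.intro_left M' rfl)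
  have hF := S36SCK_hF K1 q M'
  have hsep2 : ∀ x ∈ S18K_F1 K1 (M' * q * q), x ≠ 0 →
      ∃ (z : ℤ) (u : LaurentSeries K1), u ∈ W2 ∧ u⁻¹ ∈ W2 ∧ x = t ^ z * u :=
    S36SU_sep_of_unif hF hVa hsepa hdeg h2 hVa2 ht2 ht2' hunif2
  have hπt' : ∃ u, u ∈ W2 ∧ u⁻¹ ∈ W2 ∧ S18K_π A K1 = t ^ (q - 1) * u := by
    refine ⟨S18K_π A K1 / t ^ (q - 1), hπt, ?_, ?_⟩
    · rw [inv_div]
      exact htπ
    · have := pow_ne_zero (q - 1) ht0
      field_simp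
  have hVa1 : S18K_V A K1 (M' * q) ≤ S18K_V A K1 (M' * q * q) :=
    S34V3K_V_mono A K1 (S36XA_level_dvd M' q)
  have hVb3 := S36SCK_hVb3 A K1 q M' hq hqM
  have hne13 : S18K_V A K1 (M' * q * q) ≠ S36SCK_V3 A K1 q M' hq hqM :=
    (S36V0QK_ne A K1 q M' (M' * q * q) hq hqM S36XA_level_eq hA).symm
  have hkeya := S36SC3_keya hF hVa hsepa h1 h2 hVa1 hVa2 hne12 hq1 hdeg ht2 ht2' hπt'
  have hkeyb := S36SC3_keyb hF hVb hsepb h3 hVb3 hq hdegq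
    (S36V0QK_jqq_mem A K1 q M' (M' * q * q) hq hqM S36XA_level_eq)
    (S34V0K_jq_mem A K1 q M' (M' * q) hq hqM (Nat.mul_comm M' q))
    (S36SCK_hyx A K1 q M' hq hqM hA) (S36SCK_hxq A K1 q M' hq hqM hA)
  -- the involution
  have hwF : ∀ x ∈ S18K_F1 K1 (M' * q * q), S36XA_W K1 q M' hq hqM x ∈ S18K_F1 K1 (M' * q * q) :=
    fun x _ => S36XA_W_mem K1 q M' hq hqM x
  have hw1 : S36XA_W K1 q M' hq hqM 1 = 1 :=
    S36V0QK_hw1 K1 q M' (M' * q * q) hq hqM S36XA_level_eq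
  have hwmul : ∀ x ∈ S18K_F1 K1 (M' * q * q), ∀ y ∈ S18K_F1 K1 (M' * q * q),
      S36XA_W K1 q M' hq hqM (x * y) = S36XA_W K1 q M' hq hqM x * S36XA_W K1 q M' hq hqM y :=
    S36V0QK_hwmul K1 q M' (M' * q * q) hq hqM S36XA_level_eq
  have hwπ : S36XA_W K1 q M' hq hqM (S18K_π A K1) = S18K_π A K1 :=
    S36V0QK_hwπ A K1 q M' (M' * q * q) hq hqM S36XA_level_eq
  have hw13 : ∀ x ∈ S18K_V A K1 (M' * q * q),
      S36XA_W K1 q M' hq hqM x ∈ S36SCK_V3 A K1 q M' hq hqM :=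
    S36V0QK_hw13 A K1 q M' (M' * q * q) hq hqM S36XA_level_eq
  have hw31 : ∀ x ∈ S36SCK_V3 A K1 q M' hq hqM,
      S36XA_W K1 q M' hq hqM x ∈ S18K_V A K1 (M' * q * q) :=
    S36V0QK_hw31 A K1 q M' (M' * q * q) hq hqM S36XA_level_eq
  have hwt : ∃ u, u ∈ W2 ∧ u⁻¹ ∈ W2 ∧ S36XA_W K1 q M' hq hqM t = t * u := by
    refine ⟨-1, W2.neg_mem W2.one_mem, ?_, ?_⟩
    · have e : ((-1 : LaurentSeries K1))⁻¹ = -1 := by norm_num
      rw [e]
      exact W2.neg_mem W2.one_mem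
    · rw [hteq]
      have e2 : S36XA_W K1 q M' hq hqM (qExpand K1 (q ^ 2) (jqModC K1) - jqModC K1) =
          -(qExpand K1 (q ^ 2) (jqModC K1) - jqModC K1) :=
        S36V0QK_wt K1 q M' (M' * q * q) hq hqM S36XA_level_eq
      rw [e2]
      ring
  -- the arithmetic
  have hqu' : q - 1 + 2 = lam ^ c1 * u := by omega
  have hd := S36SC3_hd hlam hqu' hu hc1
  have hdn := S36SC3_hdn lam (c + 1) c1
  -- the newness
  have hα : letI := S34KEY_alg hF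
      ∃ (zc : ℤ) (uc h : LaurentSeries K1), uc ∈ S18K_V A K1 (M' * q) ∧
        uc⁻¹ ∈ S18K_V A K1 (M' * q) ∧ uc ∈ S36SCK_Vb A K1 q M' hq hqM ∧
        uc⁻¹ ∈ S36SCK_Vb A K1 q M' hq hqM ∧ h ∈ S18K_F1 K1 (M' * q) ∧ h ≠ 0 ∧
        ((Algebra.norm ↥(S18K_F1 K1 (M' * q)) (⟨f0, hf0⟩ : ↥(S18K_F1 K1 (M' * q * q))) :
          ↥(S18K_F1 K1 (M' * q))) : LaurentSeries K1) =
          S18K_π A K1 ^ zc * uc * h ^ (lam ^ (c + 1)) := by
    obtain ⟨c0, hc0, h, hhF, hh0, hN⟩ := hNα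
    obtain ⟨zc, uc, hu1, hu2, hu3, hu4, hcu⟩ := S36SCK_const A K1 q M' hq hqM hc0
    refine ⟨zc, uc, h, hu1, hu2, hu3, hu4, hhF, hh0, ?_⟩
    rw [← hcu]
    exact hN
  have hβ : letI := S34KEY_alg hF
      ∃ (zc : ℤ) (uc h : LaurentSeries K1), uc ∈ S18K_V A K1 (M' * q) ∧
        uc⁻¹ ∈ S18K_V A K1 (M' * q) ∧ uc ∈ S36SCK_Vb A K1 q M' hq hqM ∧
        uc⁻¹ ∈ S36SCK_Vb A K1 q M' hq hqM ∧ h ∈ S18K_F1 K1 (M' * q) ∧ h ≠ 0 ∧
        ((Algebra.norm ↥(S18K_F1 K1 (M' * q))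
          (⟨S36XA_W K1 q M' hq hqM f0, hwF f0 hf0⟩ : ↥(S18K_F1 K1 (M' * q * q))) :
          ↥(S18K_F1 K1 (M' * q))) : LaurentSeries K1) =
          S18K_π A K1 ^ zc * uc * h ^ (lam ^ (c + 1)) := by
    obtain ⟨c0, hc0, h, hhF, hh0, hN⟩ := hNβ
    obtain ⟨zc, uc, hu1, hu2, hu3, hu4, hcu⟩ := S36SCK_const A K1 q M' hq hqM hc0
    refine ⟨zc, uc, h, hu1, hu2, hu3, hu4, hhF, hh0, ?_⟩
    rw [← hcu]
    exact hN
  exact S36SC_abs hF hVa hsepa hVb hsepb h1 h2 h3 hsep1 hsep2 hsep3 htF ht2 ht2' hq1 hπt'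
    hne12 hne13 hne23 hVa1 hVa2 hVb3 hkeya hkeyb hdeg (S36XA_W K1 q M' hq hqM) hwF hw1 hwmul
    hwπ hw13 hw31 hw22 hwt hdn hd hf0 hf00 hα hβ

end Fermat.Agent.S36_helper28_SCALEK
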