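import Fermat.Agent.S36_helper12_W36VALX
import Fermat.Agent.S36_helper28_SCALEK
import Fermat.Agent.S36_helper23_V0QB

/-!
# S36, GEO36 (II.2): the field `scale` of `S36XB_Contract`, no hypothesis left (helper12)

One application of helper28's `S36SCK_scale` to helper5's `S36VK_main` (the middle valuation
ring `S36VK_Vmid` with its uniformiser `t`), helper12's `S36WV_hw22_XA` (`w V_mid ⊆ V_mid`) and
helper23's `S36V0QB_V0_eq` (the two carriers of `V_0` agree).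

* `S36SF_scale` : the field `scale` at `W2 := S36VK_Vmid A K1 q M'`,
  `W3 := S36VK_V0 A K1 q M' hq hqM`, `d := lam ^ (c + 1 - c1)`, `lam ^ c1 ∥ q + 1`.
-/

set_option autoImplicit false
set_option linter.unusedSectionVars false
set_option linter.unusedVariables false
set_option linter.style.haveILetI false

noncomputable section

open ModularCurve
open Fermat.Agent.S18_helper13_GAUSS Fermat.Agent.S18_helper9_CDefs
open Fermat.Agent.S18_helper25_COREDefs Fermat.Agent.S34_helper27_C2Defs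
open Fermat.Agent.S36_helper5_VKDefs Fermat.Agent.S36_helper5_VMIDK
open Fermat.Agent.S35_helper27_XD2Defs Fermat.Agent.S36_helper4_XADefs
open Fermat.Agent.S36_helper23_V0QB Fermat.Agent.S36_helper28_SCALEK
open Fermat.Agent.S36_helper12_W36VALX

namespace Fermat.Agent.S36_helper12_SCALEF

variable (A : ValuationSubring (AlgebraicClosure ℚ))
  (K1 : IntermediateField ℚ (AlgebraicClosure ℚ)) [IsDiscreteValuationRing (S18K_O1 A K1)]
  (q M' : ℕ) [NeZero M'] [NeZero q] [NeZero (M' * q)] [NeZero (M' * q * q)] [NeZero (q ^ 2)]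
  (hq : q.Prime) (hqM : ¬ q ∣ M')

/-- **VERTICAL SCALING, final form**: the field `scale` of helper3's `S36XB_Contract` at
`W2 = V_mid`, `W3 = V_0`, with `d = lam ^ (c + 1 - c1)`, `lam ^ c1 ∥ q + 1`. -/
theorem S36SF_scale [NeZero (q * q)] (hA : A.LiesOverPrime q)
    (hunr : Associated (S18K_D A K1).π ((q : ℕ) : S18K_O1 A K1)) {lam c c1 u : ℕ}
    (hlam : lam.Prime) (hqu : q + 1 = lam ^ c1 * u) (hu : ¬ lam ∣ u) (hc1 : c1 ≤ c + 1) :
    ∀ (f0 : LaurentSeries K1) (hf0 : f0 ∈ S18K_F1 K1 (M' * q * q)), f0 ≠ 0 →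
      S35XD2_NewAlpha K1 q (M' * q) (lam ^ (c + 1)) f0 hf0 →
      S36XA_NewBeta K1 q M' hq hqM (lam ^ (c + 1)) f0 →
      ∃ (z : ℤ) (g0 f1 : LaurentSeries K1), g0 ∈ S18K_F1 K1 (M' * q * q) ∧ g0 ≠ 0 ∧
        f0 = S18K_π A K1 ^ z * g0 ^ (lam ^ (c + 1 - c1)) * f1 ∧
        f1 ∈ (S18K_V A K1 (M' * q * q) ⊓ S36VK_Vmid A K1 q M' ⊓ S36VK_V0 A K1 q M' hq hqM :
          Subring (LaurentSeries K1)) ∧
        f1⁻¹ ∈ (S18K_V A K1 (M' * q * q) ⊓ S36VK_Vmid A K1 q M' ⊓ S36VK_V0 A K1 q M' hq hqM :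
          Subring (LaurentSeries K1)) := by
  obtain ⟨hmid, h12, h23, -, -, hπt, htπ, -, -, hunif2, -, -, -⟩ :=
    S36VK_main A K1 q M' hq hqM hA hunr
  have hV3 : S36VK_V0 A K1 q M' hq hqM = S36SCK_V3 A K1 q M' hq hqM :=
    S36V0QB_V0_eq A K1 q M' hq hqM
  rw [hV3] at h23 ⊢
  exact S36SCK_scale A K1 q M' hq hqM hA hlam hqu hu hc1 (S36VK_Vmid A K1 q M') hmid hunif2
    hπt htπ h12 h23 (S36WV_hw22_XA A K1 q M' hq hqM hA hunr)

end Fermat.Agent.S36_helper12_SCALEF
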