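import Mathlib
import Fermat.Agent.S34_helper21_D
import Fermat.Agent.S36_helper3_XBDefs
import Fermat.Agent.S36_helper3_CLOSE

/-!
# S36, X-D36 Part II (helper3): the key statement at one level from the contract

`S36XB_keyK1 : S36XB_Input M' q lam c hq hqM A → S36XA_KeyK1 M' q lam c hq hqM A`
(`lam` prime, `lam ≠ q`, `A` over `q`).

* `S36XB_new_scale` : (abstract) newness passes from `f0 = a * g0 ^ d * f1` (`a` a constant of
  the lower field) to `f1`, with the exponent `d`;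
* `S36XB_W_pow`     : `W_(q²)` commutes with powers;
* `S36XB_newAlpha_scale`, `S36XB_newBeta_scale` : the two concrete instances;
* `S36XB_ord_scale` : the divisor of `f1`;
* `S36XB_keyK1`     : the key statement.
-/

set_option autoImplicit false
set_option linter.unusedSectionVars false
set_option linter.unusedVariables false
set_option linter.style.haveILetI false

open HahnSeries IntermediateField AlgebraicCurve ModularCurve
open Fermat.Agent.S18_helper9_CDefs Fermat.Agent.S18_helper25_COREDefs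
  Fermat.Agent.S34_helper12_CDefs Fermat.Agent.S34_helper25_Defs
  Fermat.Agent.S34_helper27_C2Defs Fermat.Agent.S34_helper13_KEY
  Fermat.Agent.S34_helper27_V3K Fermat.Agent.S34_helper20_V0K
  Fermat.Agent.S35_helper27_XD2Defs Fermat.Agent.S36_helper20_WQQ
  Fermat.Agent.S36_helper4_XADefs Fermat.Agent.S36_helper3_XBPT
  Fermat.Agent.S36_helper3_XBDefs Fermat.Agent.S36_helper3_CLOSE

noncomputable section

namespace Fermat.Agent.S36_helper3_XBKEY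

local notation "Qb" => AlgebraicClosure ℚ

/-! ### Newness and scaling, abstract -/

section Abstract

variable {L : Type*} [Field L] {F1' F1 : Subfield L} (hF : F1' ≤ F1)

/-- **newness passes to the scaled function**: if `f0 = a * g0 ^ d * f1` with `a ∈ F1'` a nonzero
element of the lower field and `N(f0) = c * h0 ^ (d * e)`, then
`N(f1) = (c / a ^ [F1 : F1']) * h' ^ d` for some `h' ∈ F1'`, `h' ≠ 0`. -/
theorem S36XB_new_scale {d e : ℕ} (hd : d ≠ 0) {a c h0 g0 f1 f0 : L} (ha : a ∈ F1')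
    (hc : c ∈ F1')
    (hc0 : c ≠ 0) (hh : h0 ∈ F1') (hh0 : h0 ≠ 0) (hg0 : g0 ∈ F1) (hf1 : f1 ∈ F1)
    (hf0 : f0 ∈ F1) (hf : f0 = a * g0 ^ d * f1)
    (hN : letI := S34KEY_alg hF
      ((Algebra.norm ↥F1' (⟨f0, hf0⟩ : ↥F1) : ↥F1') : L) = c * h0 ^ (d * e)) :
    letI := S34KEY_alg hF
    ∃ h' ∈ F1', h' ≠ 0 ∧ ((Algebra.norm ↥F1' (⟨f1, hf1⟩ : ↥F1) : ↥F1') : L) =
      (c * (a ^ Module.finrank ↥F1' ↥F1)⁻¹) * h' ^ d := by
  letI := S34KEY_alg hF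
  have e1 : (⟨f0, hf0⟩ : ↥F1) =
      algebraMap ↥F1' ↥F1 ⟨a, ha⟩ * (⟨g0, hg0⟩ : ↥F1) ^ d * ⟨f1, hf1⟩ := by
    apply Subtype.ext
    show f0 = a * g0 ^ d * f1
    exact hf
  have e2 : Algebra.norm ↥F1' (⟨f0, hf0⟩ : ↥F1) =
      (⟨a, ha⟩ : ↥F1') ^ Module.finrank ↥F1' ↥F1 * Algebra.norm ↥F1' (⟨g0, hg0⟩ : ↥F1) ^ d *
        Algebra.norm ↥F1' (⟨f1, hf1⟩ : ↥F1) := by
    rw [e1, map_mul, map_mul, map_pow, Algebra.norm_algebraMap]
  have e3 : Algebra.norm ↥F1' (⟨f0, hf0⟩ : ↥F1) = (⟨c, hc⟩ : ↥F1') * (⟨h0, hh⟩ : ↥F1') ^ (d * e) :=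
    Subtype.ext hN
  set Ng : ↥F1' := Algebra.norm ↥F1' (⟨g0, hg0⟩ : ↥F1) with hNg
  set Nf : ↥F1' := Algebra.norm ↥F1' (⟨f1, hf1⟩ : ↥F1) with hNf
  set r : ℕ := Module.finrank ↥F1' ↥F1 with hr
  have hc0' : (⟨c, hc⟩ : ↥F1') ≠ 0 := fun h => hc0 (congrArg Subtype.val h)
  have hh0' : (⟨h0, hh⟩ : ↥F1') ≠ 0 := fun h => hh0 (congrArg Subtype.val h)
  have e4 : (⟨a, ha⟩ : ↥F1') ^ r * Ng ^ d * Nf = (⟨c, hc⟩ : ↥F1') * (⟨h0, hh⟩ : ↥F1') ^ (d * e) := by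
    rw [← e2, e3]
  have hne : (⟨a, ha⟩ : ↥F1') ^ r * Ng ^ d * Nf ≠ 0 := by
    rw [e4]
    exact mul_ne_zero hc0' (pow_ne_zero _ hh0')
  have har : (⟨a, ha⟩ : ↥F1') ^ r ≠ 0 := left_ne_zero_of_mul (left_ne_zero_of_mul hne)
  have hNgd : Ng ^ d ≠ 0 := right_ne_zero_of_mul (left_ne_zero_of_mul hne)
  have hNg0 : Ng ≠ 0 := by
    intro h0
    exact hNgd (by rw [h0, zero_pow hd])
  refine ⟨((⟨h0, hh⟩ : ↥F1') ^ e * Ng⁻¹ : ↥F1'), (((⟨h0, hh⟩ : ↥F1') ^ e * Ng⁻¹ : ↥F1')).2, ?_, ?_⟩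
  · intro h
    have : ((⟨h0, hh⟩ : ↥F1') ^ e * Ng⁻¹ : ↥F1') = 0 := Subtype.ext h
    exact mul_ne_zero (pow_ne_zero _ hh0') (inv_ne_zero hNg0) this
  · have e5 : Nf = ((⟨c, hc⟩ : ↥F1') * ((⟨a, ha⟩ : ↥F1') ^ r)⁻¹) *
        ((⟨h0, hh⟩ : ↥F1') ^ e * Ng⁻¹) ^ d := by
      have h1 : ((⟨h0, hh⟩ : ↥F1') ^ e * Ng⁻¹) ^ d = (⟨h0, hh⟩ : ↥F1') ^ (d * e) * (Ng ^ d)⁻¹ := by
        rw [mul_pow, ← pow_mul, inv_pow, mul_comm e d]
      rw [h1]
      field_simp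
      linear_combination e4
    have := congrArg (Subtype.val : ↥F1' → L) e5
    simpa using this

end Abstract

/-! ### The concrete instances -/

section Concrete

variable (K1 : IntermediateField ℚ Qb)

/-- constants lie in every `F1`. -/
theorem S36XB_C_mem_F1 (N : ℕ) (a : K1) :
    (HahnSeries.C a : LaurentSeries K1) ∈ S18K_F1 K1 N := by
  have h2 : algebraMap K1 (LaurentSeries K1) a = HahnSeries.C a := by
    rw [algebraMap_laurentSeries_eq_single, HahnSeries.C_apply]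
  rw [← h2]
  exact IntermediateField.algebraMap_mem (modularFunctionFieldFullC K1 N) a

/-- **`NewAlpha` passes to the scaled function.** -/
theorem S36XB_newAlpha_scale (q N' : ℕ) [NeZero N'] [NeZero (N' * q)] {d e : ℕ} (hd : d ≠ 0)
    {a : K1} (ha0 : a ≠ 0) {f0 g0 f1 : LaurentSeries K1} (hf0 : f0 ∈ S18K_F1 K1 (N' * q))
    (hg0 : g0 ∈ S18K_F1 K1 (N' * q)) (hf1 : f1 ∈ S18K_F1 K1 (N' * q))
    (hf : f0 = HahnSeries.C a * g0 ^ d * f1)
    (hα : S35XD2_NewAlpha K1 q N' (d * e) f0 hf0) :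
    S35XD2_NewAlpha K1 q N' d f1 hf1 := by
  obtain ⟨c, hc0, h, hh, hh0, hN⟩ := hα
  have hCc0 : (HahnSeries.C c : LaurentSeries K1) ≠ 0 := fun h0 =>
    hc0 (HahnSeries.C_injective (by rw [h0, map_zero]))
  obtain ⟨h', hh', hh'0, hN'⟩ :=
    S36XB_new_scale (S34V3K_F1_mono K1 (S34V0K_dvd (Nat.mul_comm N' q))) hd
      (S36XB_C_mem_F1 K1 N' a) (S36XB_C_mem_F1 K1 N' c) hCc0 hh hh0 hg0 hf1 hf0 hf hN
  letI := S34KEY_alg (S34V3K_F1_mono K1 (S34V0K_dvd (Nat.mul_comm N' q)))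
  refine ⟨c * (a ^ Module.finrank ↥(S18K_F1 K1 N') ↥(S18K_F1 K1 (N' * q)))⁻¹,
    mul_ne_zero hc0 (inv_ne_zero (pow_ne_zero _ ha0)), h', hh', hh'0, ?_⟩
  rw [hN', map_mul, map_inv₀, map_pow]

variable (q M' : ℕ) [NeZero M'] [NeZero q] [NeZero (M' * q)] [NeZero (M' * q * q)]
  [NeZero (q ^ 2)] (hq : q.Prime) (hqM : ¬ q ∣ M')

theorem S36XB_W_mul {x y : LaurentSeries K1} (hx : x ∈ S18K_F1 K1 (M' * q * q))
    (hy : y ∈ S18K_F1 K1 (M' * q * q)) :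
    S36XA_W K1 q M' hq hqM (x * y) = S36XA_W K1 q M' hq hqM x * S36XA_W K1 q M' hq hqM y :=
  S36WQ_wL_mul (S34V0K_emb K1) (q ^ 2) M' (M' * q * q) (S36WQ_cop hq hqM) S36XA_level_eq hx hy

theorem S36XB_W_C (a : K1) :
    S36XA_W K1 q M' hq hqM (HahnSeries.C a) = HahnSeries.C a :=
  S36WQ_wL_C (S34V0K_emb K1) (q ^ 2) M' (M' * q * q) (S36WQ_cop hq hqM) S36XA_level_eq a

/-- `W_(q²)` commutes with powers. -/
theorem S36XB_W_pow {x : LaurentSeries K1} (hx : x ∈ S18K_F1 K1 (M' * q * q)) (n : ℕ) :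
    S36XA_W K1 q M' hq hqM (x ^ n) = S36XA_W K1 q M' hq hqM x ^ n := by
  induction n with
  | zero =>
    rw [pow_zero, pow_zero]
    have := S36XB_W_C K1 q M' hq hqM 1
    rwa [map_one] at this
  | succ n ih =>
    rw [pow_succ, pow_succ, S36XB_W_mul K1 q M' hq hqM (pow_mem hx n) hx, ih]

/-- **`NewBeta` passes to the scaled function.** -/
theorem S36XB_newBeta_scale {d e : ℕ} (hd : d ≠ 0)
    {a : K1} (ha0 : a ≠ 0) {f0 g0 f1 : LaurentSeries K1}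
    (hg0 : g0 ∈ S18K_F1 K1 (M' * q * q)) (hf1 : f1 ∈ S18K_F1 K1 (M' * q * q))
    (hf : f0 = HahnSeries.C a * g0 ^ d * f1)
    (hβ : S36XA_NewBeta K1 q M' hq hqM (d * e) f0) :
    S36XA_NewBeta K1 q M' hq hqM d f1 := by
  obtain ⟨c, hc0, h, hh, hh0, hN⟩ := hβ
  have hCc0 : (HahnSeries.C c : LaurentSeries K1) ≠ 0 := fun h0 =>
    hc0 (HahnSeries.C_injective (by rw [h0, map_zero]))
  have hWf : S36XA_W K1 q M' hq hqM f0 =
      HahnSeries.C a * S36XA_W K1 q M' hq hqM g0 ^ d * S36XA_W K1 q M' hq hqM f1 := by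
    rw [hf, S36XB_W_mul K1 q M' hq hqM
        (mul_mem (S36XB_C_mem_F1 K1 (M' * q * q) a) (pow_mem hg0 d)) hf1,
      S36XB_W_mul K1 q M' hq hqM (S36XB_C_mem_F1 K1 (M' * q * q) a) (pow_mem hg0 d),
      S36XB_W_C, S36XB_W_pow K1 q M' hq hqM hg0]
  obtain ⟨h', hh', hh'0, hN'⟩ :=
    S36XB_new_scale (S34V3K_F1_mono K1 (S36XA_level_dvd M' q)) hd
      (S36XB_C_mem_F1 K1 (M' * q) a) (S36XB_C_mem_F1 K1 (M' * q) c) hCc0 hh hh0
      (S36XA_W_mem K1 q M' hq hqM g0) (S36XA_W_mem K1 q M' hq hqM f1)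
      (S36XA_W_mem K1 q M' hq hqM f0) hWf hN
  letI := S34KEY_alg (S34V3K_F1_mono K1 (S36XA_level_dvd M' q))
  refine ⟨c * (a ^ Module.finrank ↥(S18K_F1 K1 (M' * q)) ↥(S18K_F1 K1 (M' * q * q)))⁻¹,
    mul_ne_zero hc0 (inv_ne_zero (pow_ne_zero _ ha0)), h', hh', hh'0, ?_⟩
  rw [hN', map_mul, map_inv₀, map_pow]

end Concrete

/-! ### The divisor of the scaled function and the key statement -/

section Key

variable (K1 : IntermediateField ℚ Qb)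

/-- the inclusion `F1(K1) → F̄` on constants. -/
theorem S36XB_inc_C (N : ℕ) [NeZero N] (a : K1) :
    S34XD_inc K1 N ⟨HahnSeries.C a, S36XB_C_mem_F1 K1 N a⟩ =
      algebraMap Qb (modularFunctionFieldBar N) (algebraMap K1 Qb a) := by
  apply Subtype.ext
  show coeffMap (algebraMap K1 Qb) (HahnSeries.C a) =
    algebraMap Qb (LaurentSeries Qb) (algebraMap K1 Qb a)
  rw [HahnSeries.C_apply, coeffMap_single, algebraMap_laurentSeries_eq_single]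

/-- **the divisor of the scaled function.** -/
theorem S36XB_ord_scale (N : ℕ) [NeZero N] {d : ℕ} {a : K1} (ha0 : a ≠ 0)
    {f0 g0 f1 : LaurentSeries K1} (hf0 : f0 ∈ S18K_F1 K1 N) (hg0 : g0 ∈ S18K_F1 K1 N)
    (hf1 : f1 ∈ S18K_F1 K1 N) (hg00 : g0 ≠ 0) (hf10 : f1 ≠ 0)
    (hf : f0 = HahnSeries.C a * g0 ^ d * f1) (P : Place Qb (modularFunctionFieldBar N)) :
    P.ord (S34XD_inc K1 N ⟨f0, hf0⟩) =
      (d : ℤ) * P.ord (S34XD_inc K1 N ⟨g0, hg0⟩) + P.ord (S34XD_inc K1 N ⟨f1, hf1⟩) := by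
  have e1 : (⟨f0, hf0⟩ : modularFunctionFieldFullC K1 N) =
      ⟨HahnSeries.C a, S36XB_C_mem_F1 K1 N a⟩ * ⟨g0, hg0⟩ ^ d * ⟨f1, hf1⟩ :=
    Subtype.ext hf
  have hinj : Function.Injective (S34XD_inc K1 N) := (S34XD_inc K1 N).injective
  have hg' : S34XD_inc K1 N ⟨g0, hg0⟩ ≠ 0 := by
    intro h
    have := hinj (h.trans (map_zero _).symm)
    exact hg00 (congrArg Subtype.val this)
  have hf' : S34XD_inc K1 N ⟨f1, hf1⟩ ≠ 0 := by
    intro h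
    have := hinj (h.trans (map_zero _).symm)
    exact hf10 (congrArg Subtype.val this)
  have ha' : algebraMap K1 Qb a ≠ 0 := by
    intro h
    exact ha0 ((algebraMap K1 Qb).injective (h.trans (map_zero _).symm))
  have hC' : algebraMap Qb (modularFunctionFieldBar N) (algebraMap K1 Qb a) ≠ 0 := by
    intro h
    exact ha' ((algebraMap Qb (modularFunctionFieldBar N)).injective (h.trans (map_zero _).symm))
  rw [e1, map_mul, map_mul, map_pow, S36XB_inc_C,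
    Place.ord_mul P (mul_ne_zero hC' (pow_ne_zero _ hg')) hf',
    Place.ord_mul P hC' (pow_ne_zero _ hg'),
    Fermat.Agent.S34_helper21_D.S34D_ord_const P _ ha', ← zpow_natCast, Place.ord_zpow]
  ring

variable (M' q lam c : ℕ) [NeZero M'] [NeZero q] [NeZero (M' * q)] [NeZero (M' * q * q)]
  [NeZero (q ^ 2)] (hq : q.Prime) (hqM : ¬ q ∣ M') (A : ValuationSubring Qb)

/-- **X-D36 Part II: the key statement at one level from the contract with the bricks.** -/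
theorem S36XB_keyK1 (hlam : lam.Prime) (hne : lam ≠ q) (hA : A.LiesOverPrime q)
    (hin : S36XB_Input M' q lam c hq hqM A) : S36XA_KeyK1 M' q lam c hq hqM A := by
  intro K1 hK1 D hD f0 hf0 hf00 hdiv hα hβ
  letI := hK1.adm.dvr
  haveI : Fact q.Prime := ⟨hq⟩
  obtain ⟨d, W2, W3, C⟩ := hin K1 hK1
  obtain ⟨z, g0, f1, hg0, hg00, hf, hf1V, hf1V'⟩ := C.scale f0 hf0 hf00 hα hβ
  have hf1 : f1 ∈ S18K_F1 K1 (M' * q * q) := C.setup.V_le hf1V
  have hf10 : f1 ≠ 0 := by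
    rintro rfl
    exact hf00 (by rw [hf, mul_zero])
  obtain ⟨e, he⟩ := C.dvd
  have hd0 : d ≠ 0 := by
    rintro rfl
    rw [zero_mul] at he
    exact (pow_ne_zero _ hlam.ne_zero) he
  -- the constant `π ^ z = C (ϖ ^ z)`
  set ϖ : K1 := (((S18K_D A K1).π : S18K_O1 A K1) : K1) with hϖ
  have hϖ0 : ϖ ≠ 0 := fun h0 => (S18K_D A K1).π_ne_zero (Subtype.ext h0)
  have hπz : S18K_π A K1 ^ z = HahnSeries.C (ϖ ^ z) := by
    rw [S36XB_pi_eq, map_zpow₀]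
  have ha0 : ϖ ^ z ≠ 0 := zpow_ne_zero _ hϖ0
  have hf' : f0 = HahnSeries.C (ϖ ^ z) * g0 ^ d * f1 := by rw [← hπz]; exact hf
  -- the divisor of `f1`
  have hord1 : ∀ P : Place Qb (modularFunctionFieldBar (M' * q * q)),
      (d : ℤ) ∣ P.ord (S34XD_inc K1 (M' * q * q) ⟨f1, hf1⟩) := by
    intro P
    have h1 := S36XB_ord_scale K1 (M' * q * q) ha0 hf0 hg0 hf1 hg00 hf10 hf' P
    rw [hdiv P] at h1
    have h2 : P.ord (S34XD_inc K1 (M' * q * q) ⟨f1, hf1⟩) =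
        (d : ℤ) * ((e : ℤ) * D P - P.ord (S34XD_inc K1 (M' * q * q) ⟨g0, hg0⟩)) := by
      have h3 : ((lam ^ (c + 1) : ℕ) : ℤ) = (d : ℤ) * (e : ℤ) := by
        rw [he]; push_cast; ring
      rw [h3] at h1
      linear_combination -h1
    rw [h2]
    exact dvd_mul_right _ _
  -- newness of `f1`
  have hα1 : S35XD2_NewAlpha K1 q (M' * q) d f1 hf1 :=
    S36XB_newAlpha_scale K1 q (M' * q) hd0 ha0 hf0 hg0 hf1 hf' (by rw [← he]; exact hα)
  have hβ1 : S36XA_NewBeta K1 q M' hq hqM d f1 :=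
    S36XB_newBeta_scale K1 q M' hq hqM hd0 ha0 hg0 hf1 hf' (by rw [← he]; exact hβ)
  -- the bricks
  obtain ⟨G, hred, hpt0, hptInf⟩ := C.loc f1 hf1 hf10 hf1V hf1V' hord1 hα1 hβ1
  obtain ⟨d', hd'⟩ := C.lam_dvd
  obtain ⟨ε, h, hε0, hhF, hfh⟩ := S36XB_close A K1 (M' * q * q) hA hK1.adm C.setup C.val1 C.val2
    C.val3 hlam hne f1 G hf1 hf10
    (fun P => dvd_trans (by rw [hd']; push_cast; exact dvd_mul_right _ _) (hord1 P))
    hred hpt0 hptInf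
  refine ⟨ϖ ^ z * ε, g0 ^ d' * h, mul_ne_zero ha0 hε0,
    mul_mem (pow_mem hg0 d') hhF, ?_⟩
  rw [hf', hfh, hd', map_mul, mul_pow, ← pow_mul, mul_comm d' lam]
  ring

end Key

end Fermat.Agent.S36_helper3_XBKEY
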