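import Mathlib
import Fermat.Agent.S13_helper26_MKLIFT
import Fermat.Agent.S34_helper5_K0

/-!
# S36, GEO36 (a), piece UNRAM: the inertia field is unramified

`A` a valuation subring of `ℚ̄` over the prime `q`, `I_A = A.inertiaSubgroupIn ℚ`.

* `S36DS_E A` : the inertia field `ℚ̄ ^ I_A`;
* `S36DS_unram` : the valuation of every nonzero element fixed by `I_A` is an integral power of
  the valuation of `q`;
* `S36DS_unif` : `q` is a uniformiser of `A ∩ K1` for every `K1 ≤ S36DS_E A`;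
* `S36DS_admissible` : every level `K1` between `K0 = ℚ(roots of unity of order prime to q)` and
  the inertia field is admissible (S18 sense); `S36DS_pi_associated` : the uniformiser chosen by
  the S18 carriers is `q` up to a unit.

Proof of `S36DS_unram`: no completions and no Hilbert theory.  Let `Γ` be the fixator of `K0` and
`L = K0(x)`.  An element of the decomposition group fixing `K0` is in `I_A` (the residue field of
`K0` is the residue field of `A`).  For `τ ∈ Γ` with `τ x ≠ x` the centres of `A` and `τ⁻¹ A` on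
the integers of `L` differ (transitivity of the fixator of `L` on the primes above a prime), which
gives an algebraic integer `b ∈ L`, a unit of `A`, with `τ b` a non-unit.  The product `t` of
these `b` over the conjugates of `x` is a unit of `A` with `τ t` a non-unit whenever `τ x ≠ x`,
and the sum of the `Γ`-conjugates of `x t ^ K` (an element of `K0`) has the valuation of `x` for
`K` large.
-/

set_option autoImplicit false
set_option linter.unusedSectionVars false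
set_option linter.unusedVariables false
set_option linter.style.haveILetI false

open scoped Pointwise
open IntermediateField
open Fermat.Agent.S54Frob Fermat.Agent.S13_helper26_MKLIFT Fermat.Agent.S18_helper5_BASE
  Fermat.Agent.S18_helper25_COREDefs Fermat.Agent.S34_helper5_K0

noncomputable section

namespace Fermat.Agent.S36_helper21_UNRAM

attribute [local instance] isAlgQb isAlgClosureQb normalQb actZb smulComm_Zb topZb discrete_Zb
  contSMul_Zb isInvariant_Zb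

/-! ### The inertia field -/

/-- **The inertia field** of `A`. -/
def S36DS_E (A : ValuationSubring Qb) : IntermediateField ℚ Qb :=
  IntermediateField.fixedField (A.inertiaSubgroupIn ℚ)

theorem S36DS_mem_E (A : ValuationSubring Qb) (x : Qb) :
    x ∈ S36DS_E A ↔ ∀ τ ∈ A.inertiaSubgroupIn ℚ, τ x = x := by
  unfold S36DS_E
  rw [IntermediateField.mem_fixedField_iff]

theorem S36DS_K0_le_E {q : ℕ} (hq : q.Prime) (A : ValuationSubring Qb)
    (hA : A.LiesOverPrime q) : S34K0_K0 q ≤ S36DS_E A := by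
  intro x hx
  rw [S36DS_mem_E]
  intro τ hτ
  exact S34K0_inertia_fixed hq A hA τ hτ x hx

/-! ### Automorphisms stabilising the centre -/

/-- An automorphism stabilising the centre of `A` maps non-units of `A` to non-units. -/
theorem S36DS_stab_lt {q : ℕ} (hq : q.Prime) (A : ValuationSubring Qb) (hA : A.LiesOverPrime q)
    (σ : GQ) (hstab : ∀ b : Zb, b ∈ mkliftPrime A ↔ σ • b ∈ mkliftPrime A)
    (x : Qb) (hx : A.valuation x < 1) : A.valuation (σ x) < 1 := by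
  have hxA : x ∈ A := (A.valuation_le_one_iff _).1 hx.le
  obtain ⟨s, b, hs, hsb⟩ := mklift_frac A q hq hA x hxA
  have hs1 : A.valuation (s : Qb) = 1 := mklift_val_eq_one A _ hs
  have hσs : A.valuation ((σ • s : Zb) : Qb) = 1 :=
    mklift_val_eq_one A _ (fun h => hs ((hstab s).2 h))
  have hb : b ∈ mkliftPrime A := by
    rw [mem_mkliftPrime, ← hsb, map_mul, hs1, mul_one]
    exact hx
  have hσb : A.valuation ((σ • b : Zb) : Qb) < 1 := (mem_mkliftPrime A _).1 ((hstab b).1 hb)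
  have e : σ x * ((σ • s : Zb) : Qb) = ((σ • b : Zb) : Qb) := by
    rw [actZb_coe, actZb_coe, ← map_mul, hsb]
  have := congrArg A.valuation e
  rw [map_mul, hσs, mul_one] at this
  rw [this]
  exact hσb

/-- **An element of the decomposition group which fixes `K0` pointwise is in the inertia
group.** -/
theorem S36DS_mem_inertia {q : ℕ} (hq : q.Prime) (A : ValuationSubring Qb)
    (hA : A.LiesOverPrime q) (σ : GQ)
    (hstab : ∀ b : Zb, b ∈ mkliftPrime A ↔ σ • b ∈ mkliftPrime A)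
    (hK0 : ∀ ζ ∈ S34K0_K0 q, σ ζ = ζ) : σ ∈ A.inertiaSubgroupIn ℚ := by
  refine mklift_mem_inertia A q hq hA σ hstab ?_
  intro b
  obtain ⟨η, hηK, hηA, hv⟩ := S18A1_residue_surj A hq hA ∅ (b : Qb) (mklift_int_mem A _ b.2)
  rw [mem_mkliftPrime]
  have e : ((σ • b - b : Zb) : Qb) = σ ((b : Qb) - η) - ((b : Qb) - η) := by
    push_cast
    rw [actZb_coe, map_sub, hK0 η hηK]
    ring
  rw [e]
  have h1 := S36DS_stab_lt hq A hA σ hstab _ hv
  exact lt_of_le_of_lt (A.valuation.map_sub _ _) (max_lt h1 hv)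

/-! ### Separation of the conjugate valuations -/

theorem S36DS_isIntegral_fixed (U : Subgroup GQ) :
    Algebra.IsIntegral ℤ (FixedPoints.subalgebra ℤ Zb U) := by
  constructor
  intro a
  have h1 : IsIntegral ℤ ((a : Zb) : Qb) := (a : Zb).2
  have h2 : IsIntegral ℤ (a : Zb) := by
    rw [← isIntegral_algebraMap_iff (B := Qb) (Subtype.val_injective)]
    exact h1
  rw [← isIntegral_algebraMap_iff (B := Zb) (Subtype.val_injective)]
  exact h2

set_option synthInstance.maxHeartbeats 400000 in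
set_option maxHeartbeats 1600000 in
/-- **Separation**, for a closed subgroup `U` fixing `K0`: if `τ` fixes `K0` pointwise and no
`τ g`, `g ∈ U`, lies in the inertia group, then some `U`-invariant algebraic integer `b` is a unit
of `A` while `τ b` is not. -/
theorem S36DS_sepU {q : ℕ} (hq : q.Prime) (A : ValuationSubring Qb) (hA : A.LiesOverPrime q)
    (U : Subgroup GQ) (hUc : IsClosed (U : Set GQ))
    (hU0 : ∀ g ∈ U, ∀ ζ ∈ S34K0_K0 q, g ζ = ζ) (τ : GQ)
    (hτ0 : ∀ ζ ∈ S34K0_K0 q, τ ζ = ζ)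
    (hτ : ∀ g ∈ U, τ * g ∉ A.inertiaSubgroupIn ℚ) :
    ∃ b : Zb, (∀ g ∈ U, g • b = b) ∧ A.valuation (b : Qb) = 1 ∧
      A.valuation (τ (b : Qb)) < 1 := by
  classical
  by_contra hcon
  push Not at hcon
  haveI hQ := mkliftPrime_isPrime A
  haveI : CompactSpace U := isCompact_iff_compactSpace.mp hUc.isCompact
  haveI : Algebra.IsInvariant (FixedPoints.subalgebra ℤ Zb U) Zb U :=
    ⟨fun b hb => ⟨⟨b, hb⟩, rfl⟩⟩
  haveI := S36DS_isIntegral_fixed U
  have hle : (τ⁻¹ • mkliftPrime A).under (FixedPoints.subalgebra ℤ Zb U) ≤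
      (mkliftPrime A).under (FixedPoints.subalgebra ℤ Zb U) := by
    intro a ha
    rw [Ideal.mem_comap, Ideal.mem_pointwise_smul_iff_inv_smul_mem, inv_inv] at ha
    rw [Ideal.mem_comap]
    by_contra hnot
    have h1 : A.valuation ((a : Zb) : Qb) = 1 := mklift_val_eq_one A _ hnot
    have h2 := hcon (a : Zb) (fun g hg => a.2 ⟨g, hg⟩) h1
    have h3 : A.valuation (τ ((a : Zb) : Qb)) < 1 := (mem_mkliftPrime A _).1 ha
    exact absurd h3 (not_lt.2 h2)
  -- the smaller ideal is maximal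
  have hqmem : ((q : ℤ) : Zb) ∈ τ⁻¹ • mkliftPrime A := by
    rw [Ideal.mem_pointwise_smul_iff_inv_smul_mem, inv_inv, mem_mkliftPrime, actZb_coe]
    have h1 : (((q : ℤ) : Zb) : Qb) = (q : Qb) := by simp
    rw [h1, map_natCast]
    exact (A.mem_nonunits_iff).1 hA
  have hmax : ((τ⁻¹ • mkliftPrime A).under (FixedPoints.subalgebra ℤ Zb U)).IsMaximal := by
    apply Ideal.isMaximal_of_isIntegral_of_isMaximal_comap (R := ℤ)
    have hprime : (Ideal.comap (algebraMap ℤ (FixedPoints.subalgebra ℤ Zb U))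
        ((τ⁻¹ • mkliftPrime A).under (FixedPoints.subalgebra ℤ Zb U))).IsPrime :=
      Ideal.comap_isPrime _ _
    apply hprime.isMaximal
    intro hbot
    have h1 : (q : ℤ) ∈ Ideal.comap (algebraMap ℤ (FixedPoints.subalgebra ℤ Zb U))
        ((τ⁻¹ • mkliftPrime A).under (FixedPoints.subalgebra ℤ Zb U)) := by
      rw [Ideal.mem_comap, Ideal.under, Ideal.mem_comap]
      have h2 : (algebraMap (FixedPoints.subalgebra ℤ Zb U) Zb)
          ((algebraMap ℤ (FixedPoints.subalgebra ℤ Zb U)) (q : ℤ)) = ((q : ℤ) : Zb) := by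
        simp
      rw [h2]
      exact hqmem
    rw [hbot, Ideal.mem_bot] at h1
    exact hq.ne_zero (by exact_mod_cast h1)
  have hne : (mkliftPrime A).under (FixedPoints.subalgebra ℤ Zb U) ≠ ⊤ :=
    (Ideal.comap_isPrime _ _).ne_top
  have heq : (mkliftPrime A).under (FixedPoints.subalgebra ℤ Zb U) =
      (τ⁻¹ • mkliftPrime A).under (FixedPoints.subalgebra ℤ Zb U) :=
    (hmax.eq_of_le hne hle).symm
  obtain ⟨g, hg⟩ := Algebra.IsInvariant.exists_smul_of_under_eq_of_profinite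
    (A := FixedPoints.subalgebra ℤ Zb U) (G := U) (mkliftPrime A) (τ⁻¹ • mkliftPrime A) heq
  -- `τ g` stabilises the centre and fixes `K0`
  have hstab : ∀ b : Zb, b ∈ mkliftPrime A ↔ (τ * (g : GQ)) • b ∈ mkliftPrime A := by
    intro b
    have h1 : (τ * (g : GQ)) • b ∈ mkliftPrime A ↔ g • b ∈ τ⁻¹ • mkliftPrime A := by
      rw [Ideal.mem_pointwise_smul_iff_inv_smul_mem, inv_inv, mul_smul]
      rfl
    rw [h1, hg, Ideal.smul_mem_pointwise_smul_iff]
  refine hτ (g : GQ) g.2 (S36DS_mem_inertia hq A hA _ hstab ?_)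
  intro ζ hζ
  rw [AlgEquiv.mul_apply, hU0 (g : GQ) g.2 ζ hζ, hτ0 ζ hζ]

/-- **Separation.** Let `L ⊇ K0` and let `τ` fix `K0` pointwise.  If no `τ g`, `g` in the fixator
of `L`, lies in the inertia group, then some algebraic integer `b ∈ L` is a unit of `A` while
`τ b` is not. -/
theorem S36DS_sep {q : ℕ} (hq : q.Prime) (A : ValuationSubring Qb) (hA : A.LiesOverPrime q)
    (L : IntermediateField ℚ Qb) (hK0L : S34K0_K0 q ≤ L) (τ : GQ)
    (hτ0 : ∀ ζ ∈ S34K0_K0 q, τ ζ = ζ)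
    (hτ : ∀ g ∈ L.fixingSubgroup, τ * g ∉ A.inertiaSubgroupIn ℚ) :
    ∃ b : Zb, (b : Qb) ∈ L ∧ A.valuation (b : Qb) = 1 ∧ A.valuation (τ (b : Qb)) < 1 := by
  obtain ⟨b, hb, h1, h2⟩ := S36DS_sepU hq A hA L.fixingSubgroup
    (InfiniteGalois.fixingSubgroup_isClosed L)
    (fun g hg ζ hζ => (IntermediateField.mem_fixingSubgroup_iff _ _).1 hg ζ (hK0L hζ)) τ hτ0 hτ
  refine ⟨b, ?_, h1, h2⟩
  rw [← InfiniteGalois.fixedField_fixingSubgroup L, IntermediateField.mem_fixedField_iff]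
  intro g hg
  exact congrArg Subtype.val (hb g hg)

/-! ### Conjugates and the archimedean property -/

/-- An automorphism fixing `K0` and `x` fixes `K0(x)` pointwise. -/
theorem S36DS_fix_L (q : ℕ) (x : Qb) (g : GQ) (hg0 : ∀ ζ ∈ S34K0_K0 q, g ζ = ζ) (hgx : g x = x)
    (y : Qb) (hy : y ∈ S34K0_K0 q ⊔ ℚ⟮x⟯) : g y = y := by
  have h : S34K0_K0 q ⊔ ℚ⟮x⟯ ≤ S34K0_fixed g := by
    refine sup_le (fun ζ hζ => hg0 ζ hζ) ?_
    rw [adjoin_simple_le_iff]
    exact hgx
  exact h hy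

/-- The (finite) set of the conjugates of `y` over `ℚ`. -/
def S36DS_conj (y : Qb) : Finset Qb := (S34K0_conj_finite {y}).toFinset

theorem S36DS_map_mem_conj (y : Qb) (σ : GQ) : σ y ∈ S36DS_conj y := by
  unfold S36DS_conj
  rw [Set.Finite.mem_toFinset]
  exact S34K0_conj_stable {y} σ y (S34K0_subset_conj {y} (Finset.mem_singleton_self y))

theorem S36DS_conj_stable (y : Qb) (σ : GQ) (z : Qb) (hz : z ∈ S36DS_conj y) :
    σ z ∈ S36DS_conj y := by
  unfold S36DS_conj at hz ⊢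
  rw [Set.Finite.mem_toFinset] at hz ⊢
  exact S34K0_conj_stable {y} σ z hz

/-- Archimedean property: `v a · v c ^ K < v x` for `K` large, when `v c < 1` and `x ≠ 0`. -/
theorem S36DS_arch {q : ℕ} (hq : q.Prime) (A : ValuationSubring Qb) (hA : A.LiesOverPrime q)
    (a c x : Qb) (hc : A.valuation c < 1) (hx : x ≠ 0) :
    ∃ K : ℕ, ∀ K' : ℕ, K ≤ K' → A.valuation a * A.valuation c ^ K' < A.valuation x := by
  have hvx : 0 < A.valuation x := (A.valuation.pos_iff).2 hx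
  by_cases ha : a = 0
  · refine ⟨0, fun K' _ => ?_⟩
    rw [ha, map_zero, zero_mul]
    exact hvx
  have hva : 0 < A.valuation a := (A.valuation.pos_iff).2 ha
  obtain ⟨M, hM⟩ := S18A1_arch_lower A hq hA (x / a) (div_ne_zero hx ha)
  obtain ⟨N, hN0, hN⟩ := S18A1_arch_upper A hq hA c hc
  have hvq1 : A.valuation (q : Qb) < 1 := S18A1_val_l_lt A hA
  have hvq0 : 0 < A.valuation (q : Qb) := S18A1_val_l_pos A hq
  refine ⟨N * (M + 1), fun K' hK' => ?_⟩
  have h1 : A.valuation c ^ K' ≤ A.valuation c ^ (N * (M + 1)) :=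
    pow_le_pow_right_of_le_one' hc.le hK'
  have h2 : A.valuation c ^ (N * (M + 1)) ≤ A.valuation (q : Qb) ^ (M + 1) := by
    rw [pow_mul]
    exact pow_le_pow_left₀ zero_le hN (M + 1)
  have h3 : A.valuation (q : Qb) ^ (M + 1) < A.valuation (q : Qb) ^ M :=
    pow_lt_pow_right_of_lt_one₀ hvq0 hvq1 (Nat.lt_succ_self M)
  have h4 : A.valuation c ^ K' < A.valuation (x / a) :=
    lt_of_le_of_lt (h1.trans h2) (lt_of_lt_of_le h3 hM)
  have h5 : A.valuation a * A.valuation c ^ K' < A.valuation a * A.valuation (x / a) :=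
    mul_lt_mul_of_pos_left h4 hva
  have h6 : A.valuation a * A.valuation (x / a) = A.valuation x := by
    rw [← map_mul, mul_div_cancel₀ x ha]
  rw [h6] at h5
  exact h5

/-- The archimedean property, uniformly on a finite set of pairs. -/
theorem S36DS_arch_finset {q : ℕ} (hq : q.Prime) (A : ValuationSubring Qb)
    (hA : A.LiesOverPrime q) (x : Qb) (hx : x ≠ 0) (F : Finset (Qb × Qb)) :
    ∃ K : ℕ, ∀ K' : ℕ, K ≤ K' → ∀ p ∈ F, A.valuation p.2 < 1 →
      A.valuation p.1 * A.valuation p.2 ^ K' < A.valuation x := by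
  classical
  induction F using Finset.induction_on with
  | empty => exact ⟨0, fun K' _ p hp => absurd hp (Finset.notMem_empty p)⟩
  | insert p0 F hp0 ih =>
    obtain ⟨K1, hK1⟩ := ih
    by_cases hc : A.valuation p0.2 < 1
    · obtain ⟨K2, hK2⟩ := S36DS_arch hq A hA p0.1 p0.2 x hc hx
      refine ⟨max K1 K2, fun K' hK' p hp hp1 => ?_⟩
      rcases Finset.mem_insert.1 hp with rfl | hp
      · exact hK2 K' (le_trans (le_max_right _ _) hK')
      · exact hK1 K' (le_trans (le_max_left _ _) hK') p hp hp1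
    · refine ⟨K1, fun K' hK' p hp hp1 => ?_⟩
      rcases Finset.mem_insert.1 hp with rfl | hp
      · exact absurd hp1 hc
      · exact hK1 K' hK' p hp hp1

/-! ### The separating unit -/

/-- For every candidate conjugate `x'` of `x`: an integer `b ∈ K0(x)`, unit of `A`, such that
`τ b` is a non-unit for every `τ` fixing `K0` with `τ x = x' ≠ x`. -/
theorem S36DS_exists_b {q : ℕ} (hq : q.Prime) (A : ValuationSubring Qb)
    (hA : A.LiesOverPrime q) (x : Qb) (hx : ∀ τ ∈ A.inertiaSubgroupIn ℚ, τ x = x) (x' : Qb) :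
    ∃ b : Zb, (b : Qb) ∈ S34K0_K0 q ⊔ ℚ⟮x⟯ ∧ A.valuation (b : Qb) = 1 ∧
      ∀ τ : GQ, (∀ ζ ∈ S34K0_K0 q, τ ζ = ζ) → τ x = x' → x' ≠ x →
        A.valuation (τ (b : Qb)) < 1 := by
  classical
  by_cases h : ∃ τ : GQ, (∀ ζ ∈ S34K0_K0 q, τ ζ = ζ) ∧ τ x = x' ∧ x' ≠ x
  · obtain ⟨τ₀, hτ₀, hτ₀x, hne⟩ := h
    have hxL : x ∈ S34K0_K0 q ⊔ ℚ⟮x⟯ :=
      (le_sup_right : ℚ⟮x⟯ ≤ S34K0_K0 q ⊔ ℚ⟮x⟯) (mem_adjoin_simple_self ℚ x)
    have hno : ∀ g ∈ (S34K0_K0 q ⊔ ℚ⟮x⟯).fixingSubgroup,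
        τ₀ * g ∉ A.inertiaSubgroupIn ℚ := by
      intro g hg hmem
      have h1 : g x = x := (IntermediateField.mem_fixingSubgroup_iff _ _).1 hg x hxL
      have h2 := hx _ hmem
      rw [AlgEquiv.mul_apply, h1, hτ₀x] at h2
      exact hne h2
    obtain ⟨b, hbL, hb1, hb2⟩ := S36DS_sep hq A hA (S34K0_K0 q ⊔ ℚ⟮x⟯) le_sup_left τ₀ hτ₀ hno
    refine ⟨b, hbL, hb1, fun τ hτ hτx _ => ?_⟩
    -- `τ₀⁻¹ τ` fixes `K0(x)` pointwise
    have h1 : (τ₀⁻¹ * τ) (b : Qb) = (b : Qb) := by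
      apply S36DS_fix_L q x (τ₀⁻¹ * τ) _ _ _ hbL
      · intro ζ hζ
        rw [AlgEquiv.mul_apply, hτ ζ hζ]
        have := hτ₀ ζ hζ
        calc τ₀⁻¹ ζ = τ₀⁻¹ (τ₀ ζ) := by rw [this]
          _ = ζ := τ₀.symm_apply_apply ζ
      · rw [AlgEquiv.mul_apply, hτx, ← hτ₀x]
        exact τ₀.symm_apply_apply x
    have h2 : τ (b : Qb) = τ₀ (b : Qb) := by
      have := congrArg τ₀ h1
      rw [AlgEquiv.mul_apply] at this
      rw [← this]
      exact (τ₀.apply_symm_apply _).symm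
    rw [h2]
    exact hb2
  · refine ⟨1, ?_, by simp, fun τ hτ hτx hne => absurd ⟨τ, hτ, hτx, hne⟩ h⟩
    simp

/-- **The separating unit** `t ∈ K0(x)`: a unit of `A`, all of whose conjugates are integral,
and `τ t` is a non-unit as soon as `τ` fixes `K0` and moves `x`. -/
theorem S36DS_exists_t {q : ℕ} (hq : q.Prime) (A : ValuationSubring Qb)
    (hA : A.LiesOverPrime q) (x : Qb) (hx : ∀ τ ∈ A.inertiaSubgroupIn ℚ, τ x = x) :
    ∃ t : Qb, t ∈ S34K0_K0 q ⊔ ℚ⟮x⟯ ∧ A.valuation t = 1 ∧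
      (∀ τ : GQ, A.valuation (τ t) ≤ 1) ∧
      ∀ τ : GQ, (∀ ζ ∈ S34K0_K0 q, τ ζ = ζ) → τ x ≠ x → A.valuation (τ t) < 1 := by
  classical
  choose b hbL hb1 hb2 using S36DS_exists_b hq A hA x hx
  have hle : ∀ (τ : GQ) (x' : Qb), A.valuation (τ (b x' : Qb)) ≤ 1 := by
    intro τ x'
    have : τ (b x' : Qb) = ((τ • b x' : Zb) : Qb) := rfl
    rw [this]
    exact mklift_val_le A _
  refine ⟨∏ x' ∈ S36DS_conj x, (b x' : Qb), ?_, ?_, ?_, ?_⟩
  · exact prod_mem (fun x' _ => hbL x')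
  · rw [map_prod]
    exact Finset.prod_eq_one (fun x' _ => hb1 x')
  · intro τ
    rw [map_prod, map_prod]
    exact Finset.prod_le_one' (fun x' _ => hle τ x')
  · intro τ hτ hτx
    rw [map_prod, map_prod, ← Finset.mul_prod_erase _ _ (S36DS_map_mem_conj x τ)]
    have h1 : A.valuation (τ (b (τ x) : Qb)) < 1 := hb2 (τ x) τ hτ rfl hτx
    have h2 : ∏ x' ∈ (S36DS_conj x).erase (τ x), A.valuation (τ (b x' : Qb)) ≤ 1 :=
      Finset.prod_le_one' (fun x' _ => hle τ x')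
    calc A.valuation (τ (b (τ x) : Qb)) *
          ∏ x' ∈ (S36DS_conj x).erase (τ x), A.valuation (τ (b x' : Qb))
        ≤ A.valuation (τ (b (τ x) : Qb)) * 1 := by gcongr
      _ = A.valuation (τ (b (τ x) : Qb)) := mul_one _
      _ < 1 := h1

/-! ### The trace argument -/

/-- The sum of the conjugates of `w` under the fixator of `K0` lies in `K0`. -/
theorem S36DS_orbit_sum_mem (q : ℕ) (w : Qb) :
    ∃ Y : Finset Qb, w ∈ Y ∧
      (∀ y ∈ Y, ∃ γ : GQ, (∀ ζ ∈ S34K0_K0 q, γ ζ = ζ) ∧ γ w = y) ∧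
      ∑ y ∈ Y, y ∈ S34K0_K0 q := by
  classical
  set Y : Finset Qb := (S36DS_conj w).filter
    (fun y => ∃ γ : GQ, (∀ ζ ∈ S34K0_K0 q, γ ζ = ζ) ∧ γ w = y) with hY
  have hmemY : ∀ y, y ∈ Y ↔ ∃ γ : GQ, (∀ ζ ∈ S34K0_K0 q, γ ζ = ζ) ∧ γ w = y := by
    intro y
    rw [hY, Finset.mem_filter]
    constructor
    · exact fun h => h.2
    · rintro ⟨γ, hγ, rfl⟩
      exact ⟨S36DS_map_mem_conj w γ, γ, hγ, rfl⟩
  refine ⟨Y, (hmemY w).2 ⟨1, fun _ _ => rfl, rfl⟩, fun y hy => (hmemY y).1 hy, ?_⟩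
  rw [← InfiniteGalois.fixedField_fixingSubgroup (S34K0_K0 q),
    IntermediateField.mem_fixedField_iff]
  intro γ hγ
  have hγ0 : ∀ ζ ∈ S34K0_K0 q, γ ζ = ζ :=
    fun ζ hζ => (IntermediateField.mem_fixingSubgroup_iff _ _).1 hγ ζ hζ
  have hγ0' : ∀ ζ ∈ S34K0_K0 q, γ⁻¹ ζ = ζ := by
    intro ζ hζ
    calc γ⁻¹ ζ = γ⁻¹ (γ ζ) := by rw [hγ0 ζ hζ]
      _ = ζ := γ.symm_apply_apply ζ
  rw [map_sum]
  refine Finset.sum_bij (fun y _ => γ y) ?_ ?_ ?_ ?_
  · intro y hy
    obtain ⟨γ', hγ', rfl⟩ := (hmemY y).1 hy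
    refine (hmemY _).2 ⟨γ * γ', fun ζ hζ => ?_, rfl⟩
    rw [AlgEquiv.mul_apply, hγ' ζ hζ, hγ0 ζ hζ]
  · intro y₁ _ y₂ _ h
    exact γ.injective h
  · intro y hy
    obtain ⟨γ', hγ', rfl⟩ := (hmemY y).1 hy
    refine ⟨γ⁻¹ (γ' w), (hmemY _).2 ⟨γ⁻¹ * γ', fun ζ hζ => ?_, rfl⟩, γ.apply_symm_apply _⟩
    rw [AlgEquiv.mul_apply, hγ' ζ hζ, hγ0' ζ hζ]
  · intro y _
    rfl

/-- **UNRAM.** The valuation of a nonzero element fixed by the inertia group of `A` is an
integral power of the valuation of `q`. -/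
theorem S36DS_unram {q : ℕ} (hq : q.Prime) (A : ValuationSubring Qb) (hA : A.LiesOverPrime q)
    (x : Qb) (hx : ∀ τ ∈ A.inertiaSubgroupIn ℚ, τ x = x) (hx0 : x ≠ 0) :
    ∃ k : ℤ, A.valuation x = A.valuation (q : Qb) ^ k := by
  classical
  obtain ⟨t, htL, ht1, htle, htlt⟩ := S36DS_exists_t hq A hA x hx
  obtain ⟨K, hK⟩ := S36DS_arch_finset hq A hA x hx0 (S36DS_conj x ×ˢ S36DS_conj t)
  have hxL : x ∈ S34K0_K0 q ⊔ ℚ⟮x⟯ :=
    (le_sup_right : ℚ⟮x⟯ ≤ S34K0_K0 q ⊔ ℚ⟮x⟯) (mem_adjoin_simple_self ℚ x)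
  set w : Qb := x * t ^ K with hw
  have hwL : w ∈ S34K0_K0 q ⊔ ℚ⟮x⟯ := mul_mem hxL (pow_mem htL K)
  have hvw : A.valuation w = A.valuation x := by
    rw [hw, map_mul, map_pow, ht1, one_pow, mul_one]
  obtain ⟨Y, hwY, hY, hsum⟩ := S36DS_orbit_sum_mem q w
  have hdom : ∀ y ∈ Y, y ≠ w → A.valuation y < A.valuation w := by
    intro y hy hne
    obtain ⟨γ, hγ, rfl⟩ := hY y hy
    have hγx : γ x ≠ x := by
      intro h
      exact hne (S36DS_fix_L q x γ hγ h w hwL)
    rw [hvw, hw, map_mul, map_pow, map_mul, map_pow]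
    exact hK K le_rfl (γ x, γ t)
      (Finset.mem_product.2 ⟨S36DS_map_mem_conj x γ, S36DS_map_mem_conj t γ⟩)
      (htlt γ hγ hγx)
  have hval : A.valuation (∑ y ∈ Y, y) = A.valuation x := by
    rw [S18A1_val_sum_eq A Y (fun y => y) w hwY hdom, hvw]
  have hS0 : (∑ y ∈ Y, y) ≠ 0 := by
    intro h
    rw [h, map_zero] at hval
    exact ((A.valuation.pos_iff).2 hx0).ne hval
  obtain ⟨k, hk⟩ := S34K0_val hq A hA _ hsum hS0
  exact ⟨k, by rw [← hval, hk]⟩

/-! ### Levels inside the inertia field -/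

section Level


/-- The value group of a level inside the inertia field is generated by `v q`. -/
theorem S36DS_val_K1 {q : ℕ} (hq : q.Prime) (A : ValuationSubring Qb)
    (hA : A.LiesOverPrime q) (K1 : IntermediateField ℚ Qb) (hK1 : K1 ≤ S36DS_E A) (x : Qb) (hx : x ∈ K1) (hx0 : x ≠ 0) :
    ∃ k : ℤ, A.valuation x = A.valuation (q : Qb) ^ k :=
  S36DS_unram hq A hA x ((S36DS_mem_E A x).1 (hK1 hx)) hx0

/-- **`q` is a uniformiser of `A ∩ K1`** for every level `K1` inside the inertia field. -/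
theorem S36DS_unif {q : ℕ} (hq : q.Prime) (A : ValuationSubring Qb)
    (hA : A.LiesOverPrime q) (K1 : IntermediateField ℚ Qb) (hK1 : K1 ≤ S36DS_E A) (x : Qb) (hx : x ∈ K1) (hlt : A.valuation x < 1) :
    ∃ y : Qb, y ∈ K1 ∧ y ∈ A ∧ x = (q : Qb) * y := by
  have hq0 : (q : Qb) ≠ 0 := Nat.cast_ne_zero.2 hq.ne_zero
  refine ⟨x * (q : Qb)⁻¹, mul_mem hx (inv_mem (_root_.natCast_mem _ q)), ?_, ?_⟩
  · by_cases hx0 : x = 0
    · rw [hx0, zero_mul]; exact zero_mem _
    obtain ⟨k, hk⟩ := S36DS_val_K1 hq A hA K1 hK1 x hx hx0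
    set v := A.valuation (q : Qb) with hv
    have hv1 : v < 1 := S18A1_val_l_lt A hA
    have hv0 : 0 < v := S18A1_val_l_pos A hq
    have hk1 : 1 ≤ k := by
      by_contra hk0
      rw [not_le] at hk0
      have hk0' : k ≤ 0 := by omega
      have : (1 : A.ValueGroup) ≤ v ^ k := by
        obtain ⟨n, rfl⟩ : ∃ n : ℕ, k = -(n : ℤ) := ⟨(-k).toNat, by omega⟩
        rw [zpow_neg, zpow_natCast]
        exact one_le_inv₀ (pow_pos hv0 n) |>.2 (pow_le_one' hv1.le n)
      rw [hk] at hlt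
      exact absurd hlt (not_lt.2 this)
    rw [← ValuationSubring.valuation_le_one_iff, map_mul, map_inv₀, hk, ← hv]
    obtain ⟨n, rfl⟩ : ∃ n : ℕ, k = (n : ℤ) + 1 := ⟨(k - 1).toNat, by omega⟩
    rw [zpow_add₀ hv0.ne', zpow_one, zpow_natCast, mul_assoc, mul_inv_cancel₀ hv0.ne', mul_one]
    exact pow_le_one' hv1.le n
  · rw [mul_comm x, ← mul_assoc, mul_inv_cancel₀ hq0, one_mul]

theorem S36DS_O1_val_le (A : ValuationSubring Qb) (K1 : IntermediateField ℚ Qb) (x : S18K_O1 A K1) : A.valuation ((x : K1) : Qb) ≤ 1 :=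
  (A.valuation_le_one_iff _).2 x.2

theorem S36DS_isUnit_iff (A : ValuationSubring Qb) (K1 : IntermediateField ℚ Qb) (x : S18K_O1 A K1) :
    IsUnit x ↔ A.valuation ((x : K1) : Qb) = 1 := by
  constructor
  · rintro ⟨u, rfl⟩
    have h1 := S36DS_O1_val_le A K1 (u : S18K_O1 A K1)
    have h2 := S36DS_O1_val_le A K1 ((u⁻¹ : (S18K_O1 A K1)ˣ) : S18K_O1 A K1)
    have h3 : A.valuation (((u : S18K_O1 A K1) : K1) : Qb) *
        A.valuation ((((u⁻¹ : (S18K_O1 A K1)ˣ) : S18K_O1 A K1) : K1) : Qb) = 1 := by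
      rw [← map_mul]
      have : (((u : S18K_O1 A K1) : K1) : Qb) *
          ((((u⁻¹ : (S18K_O1 A K1)ˣ) : S18K_O1 A K1) : K1) : Qb) = 1 := by
        exact congrArg (fun z : S18K_O1 A K1 => ((z : K1) : Qb)) u.mul_inv
      rw [this, map_one]
    refine le_antisymm h1 ?_
    by_contra hlt
    push Not at hlt
    have : A.valuation (((u : S18K_O1 A K1) : K1) : Qb) *
        A.valuation ((((u⁻¹ : (S18K_O1 A K1)ˣ) : S18K_O1 A K1) : K1) : Qb) < 1 := by
      calc _ ≤ A.valuation (((u : S18K_O1 A K1) : K1) : Qb) * 1 :=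
            mul_le_mul_right h2 _
        _ = A.valuation (((u : S18K_O1 A K1) : K1) : Qb) := mul_one _
        _ < 1 := hlt
    rw [h3] at this
    exact lt_irrefl _ this
  · intro h
    have hx0 : ((x : K1) : Qb) ≠ 0 := by
      intro h0
      rw [h0, map_zero] at h
      exact zero_ne_one h
    have hx0' : (x : K1) ≠ 0 := by
      intro h0
      apply hx0
      rw [h0]; rfl
    have hinv : (x : K1)⁻¹ ∈ S18K_O1 A K1 := by
      rw [S18K_mem_O1]
      refine (A.valuation_le_one_iff _).1 ?_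
      have : (((x : K1)⁻¹ : K1) : Qb) = ((x : K1) : Qb)⁻¹ := rfl
      rw [this, map_inv₀, h, inv_one]
    refine isUnit_iff_exists_inv.2 ⟨⟨_, hinv⟩, ?_⟩
    apply Subtype.ext
    exact mul_inv_cancel₀ hx0'

theorem S36DS_q_coe (q : ℕ) (A : ValuationSubring Qb) (K1 : IntermediateField ℚ Qb) : ((((q : ℕ) : S18K_O1 A K1) : K1) : Qb) = (q : Qb) := by
  simp

theorem S36DS_zpow_inj {q : ℕ} (hq : q.Prime) (A : ValuationSubring Qb)
    (hA : A.LiesOverPrime q) {k l : ℤ} (h : A.valuation (q : Qb) ^ k = A.valuation (q : Qb) ^ l) :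
    k = l := by
  have hv1 : A.valuation (q : Qb) < 1 := S18A1_val_l_lt A hA
  have hv0 : 0 < A.valuation (q : Qb) := S18A1_val_l_pos A hq
  exact (zpow_right_strictAnti₀ hv0 hv1).injective h

/-- Every nonzero element of `O1` is associated to a power of `q`. -/
theorem S36DS_exists_associated_pow {q : ℕ} (hq : q.Prime) (A : ValuationSubring Qb)
    (hA : A.LiesOverPrime q) (K1 : IntermediateField ℚ Qb) (hK1 : K1 ≤ S36DS_E A) (x : S18K_O1 A K1) (hx : x ≠ 0) :
    ∃ n : ℕ, Associated (((q : ℕ) : S18K_O1 A K1) ^ n) x := by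
  have hq0 : (q : Qb) ≠ 0 := Nat.cast_ne_zero.2 hq.ne_zero
  have hv1 : A.valuation (q : Qb) < 1 := S18A1_val_l_lt A hA
  have hv0 : 0 < A.valuation (q : Qb) := S18A1_val_l_pos A hq
  have hx0 : ((x : K1) : Qb) ≠ 0 := by
    intro h0
    apply hx
    apply Subtype.ext
    apply Subtype.ext
    exact h0
  obtain ⟨k, hk⟩ := S36DS_val_K1 hq A hA K1 hK1 _ (x : K1).2 hx0
  have hk0 : 0 ≤ k := by
    have h1 := S36DS_O1_val_le A K1 x
    rw [hk] at h1
    exact (zpow_le_one_iff_right_of_lt_one₀ hv0 hv1).1 h1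
  obtain ⟨n, rfl⟩ := Int.eq_ofNat_of_zero_le hk0
  refine ⟨n, ?_⟩
  -- the unit `u = x / q ^ n`
  have huK : ((x : K1) : Qb) * ((q : Qb) ^ n)⁻¹ ∈ K1 :=
    mul_mem (x : K1).2 (inv_mem (pow_mem (_root_.natCast_mem _ q) n))
  have hvu : A.valuation (((x : K1) : Qb) * ((q : Qb) ^ n)⁻¹) = 1 := by
    rw [map_mul, map_inv₀, map_pow, hk, zpow_natCast]
    exact mul_inv_cancel₀ (pow_ne_zero _ hv0.ne')
  have huA : ((x : K1) : Qb) * ((q : Qb) ^ n)⁻¹ ∈ A := (A.valuation_le_one_iff _).1 hvu.le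
  have huU : IsUnit (⟨⟨_, huK⟩, huA⟩ : S18K_O1 A K1) := (S36DS_isUnit_iff A K1 _).2 hvu
  obtain ⟨w, hw⟩ := huU
  refine ⟨w, ?_⟩
  apply Subtype.ext
  apply Subtype.ext
  rw [hw]
  change ((((q : ℕ) : S18K_O1 A K1) ^ n : S18K_O1 A K1) : K1) *
    (((x : K1) : Qb) * ((q : Qb) ^ n)⁻¹) = ((x : K1) : Qb)
  have e : (((((q : ℕ) : S18K_O1 A K1) ^ n : S18K_O1 A K1) : K1) : Qb) = (q : Qb) ^ n := by
    simp
  rw [e, mul_comm ((x : K1) : Qb), ← mul_assoc, mul_inv_cancel₀ (pow_ne_zero _ hq0), one_mul]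

theorem S36DS_q_not_isUnit {q : ℕ} (A : ValuationSubring Qb) (hA : A.LiesOverPrime q)
    (K1 : IntermediateField ℚ Qb) : ¬ IsUnit ((q : ℕ) : S18K_O1 A K1) := by
  rw [S36DS_isUnit_iff, S36DS_q_coe q A K1]
  exact (S18A1_val_l_lt A hA).ne

theorem S36DS_q_ne_zero {q : ℕ} (hq : q.Prime) (A : ValuationSubring Qb)
    (K1 : IntermediateField ℚ Qb) : ((q : ℕ) : S18K_O1 A K1) ≠ 0 := by
  intro h
  have h1 := congrArg (fun z : S18K_O1 A K1 => ((z : K1) : Qb)) h
  have h2 : (q : Qb) = 0 := by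
    rw [← S36DS_q_coe q A K1]
    exact h1
  exact Nat.cast_ne_zero.2 hq.ne_zero h2

/-- `q` is irreducible in `O1`. -/
theorem S36DS_q_irreducible {q : ℕ} (hq : q.Prime) (A : ValuationSubring Qb)
    (hA : A.LiesOverPrime q) (K1 : IntermediateField ℚ Qb) (hK1 : K1 ≤ S36DS_E A) : Irreducible ((q : ℕ) : S18K_O1 A K1) := by
  have hv1 : A.valuation (q : Qb) < 1 := S18A1_val_l_lt A hA
  have hv0 : 0 < A.valuation (q : Qb) := S18A1_val_l_pos A hq
  rw [irreducible_iff]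
  refine ⟨S36DS_q_not_isUnit A hA K1, ?_⟩
  intro a b hab
  have ha0 : a ≠ 0 := by
    rintro rfl
    rw [zero_mul] at hab
    exact S36DS_q_ne_zero hq A K1 hab
  have hb0 : b ≠ 0 := by
    rintro rfl
    rw [mul_zero] at hab
    exact S36DS_q_ne_zero hq A K1 hab
  obtain ⟨m, u, hu⟩ := S36DS_exists_associated_pow hq A hA K1 hK1 a ha0
  obtain ⟨n, w, hw⟩ := S36DS_exists_associated_pow hq A hA K1 hK1 b hb0
  rcases Nat.eq_zero_or_pos m with hm | hm
  · left
    rw [← hu, hm, pow_zero, one_mul]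
    exact u.isUnit
  rcases Nat.eq_zero_or_pos n with hn | hn
  · right
    rw [← hw, hn, pow_zero, one_mul]
    exact w.isUnit
  exfalso
  have hva : A.valuation ((a : K1) : Qb) = A.valuation (q : Qb) ^ m := by
    have h1 := congrArg (fun z : S18K_O1 A K1 => A.valuation ((z : K1) : Qb)) hu
    rw [← h1]
    have h2 : ((((((q : ℕ) : S18K_O1 A K1) ^ m * (u : S18K_O1 A K1) :
        S18K_O1 A K1) : K1) : Qb)) =
        (q : Qb) ^ m * (((u : S18K_O1 A K1) : K1) : Qb) := by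
      simp
    show A.valuation ((((((q : ℕ) : S18K_O1 A K1) ^ m * (u : S18K_O1 A K1) :
        S18K_O1 A K1) : K1) : Qb)) = _
    rw [h2, map_mul, map_pow, (S36DS_isUnit_iff A K1 _).1 u.isUnit, mul_one]
  have hvb : A.valuation ((b : K1) : Qb) = A.valuation (q : Qb) ^ n := by
    have h1 := congrArg (fun z : S18K_O1 A K1 => A.valuation ((z : K1) : Qb)) hw
    rw [← h1]
    have h2 : ((((((q : ℕ) : S18K_O1 A K1) ^ n * (w : S18K_O1 A K1) :
        S18K_O1 A K1) : K1) : Qb)) =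
        (q : Qb) ^ n * (((w : S18K_O1 A K1) : K1) : Qb) := by
      simp
    show A.valuation ((((((q : ℕ) : S18K_O1 A K1) ^ n * (w : S18K_O1 A K1) :
        S18K_O1 A K1) : K1) : Qb)) = _
    rw [h2, map_mul, map_pow, (S36DS_isUnit_iff A K1 _).1 w.isUnit, mul_one]
  have hvq : A.valuation (q : Qb) = A.valuation (q : Qb) ^ m * A.valuation (q : Qb) ^ n := by
    have h1 := congrArg (fun z : S18K_O1 A K1 => A.valuation ((z : K1) : Qb)) hab
    have h2 : (((a * b : S18K_O1 A K1) : K1) : Qb) = ((a : K1) : Qb) * ((b : K1) : Qb) := rfl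
    have h3 : A.valuation ((((q : ℕ) : S18K_O1 A K1) : K1) : Qb) =
        A.valuation (((a * b : S18K_O1 A K1) : K1) : Qb) := h1
    rw [S36DS_q_coe q A K1, h2, map_mul, hva, hvb] at h3
    exact h3
  have h1 : A.valuation (q : Qb) ^ m ≤ A.valuation (q : Qb) := by
    obtain ⟨d, rfl⟩ : ∃ d, m = d + 1 := ⟨m - 1, by omega⟩
    exact S18A1_pow_succ_le A hv1.le d
  have h2 : A.valuation (q : Qb) ^ n < 1 := by
    obtain ⟨d, rfl⟩ : ∃ d, n = d + 1 := ⟨n - 1, by omega⟩
    exact lt_of_le_of_lt (S18A1_pow_succ_le A hv1.le d) hv1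
  have h3 : A.valuation (q : Qb) ^ m * A.valuation (q : Qb) ^ n < A.valuation (q : Qb) := by
    calc A.valuation (q : Qb) ^ m * A.valuation (q : Qb) ^ n
        < A.valuation (q : Qb) ^ m * 1 := mul_lt_mul_of_pos_left h2 (pow_pos hv0 m)
      _ = A.valuation (q : Qb) ^ m := mul_one _
      _ ≤ A.valuation (q : Qb) := h1
  rw [← hvq] at h3
  exact lt_irrefl _ h3

/-- **`O1 = A ∩ K1` is a discrete valuation ring** for every level inside the inertia field. -/
theorem S36DS_isDVR {q : ℕ} (hq : q.Prime) (A : ValuationSubring Qb)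
    (hA : A.LiesOverPrime q) (K1 : IntermediateField ℚ Qb) (hK1 : K1 ≤ S36DS_E A) : IsDiscreteValuationRing (S18K_O1 A K1) :=
  IsDiscreteValuationRing.ofHasUnitMulPowIrreducibleFactorization
    ⟨((q : ℕ) : S18K_O1 A K1), S36DS_q_irreducible hq A hA K1 hK1,
      fun {x} hx => S36DS_exists_associated_pow hq A hA K1 hK1 x hx⟩

/-- The residue field of a level containing `K0` is the residue field of `A`. -/
theorem S36DS_res_surj {q : ℕ} (hq : q.Prime) (A : ValuationSubring Qb)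
    (hA : A.LiesOverPrime q) (K1 : IntermediateField ℚ Qb) (hK0 : S34K0_K0 q ≤ K1) : Function.Surjective (S18K_res A K1) := by
  intro y
  obtain ⟨a, rfl⟩ := IsLocalRing.residue_surjective y
  obtain ⟨b, hbK, hbA, hv⟩ := S18A1_residue_surj A hq hA ∅ (a : Qb) a.2
  refine ⟨⟨⟨b, hK0 hbK⟩, hbA⟩, ?_⟩
  show IsLocalRing.residue A (S18K_incl A K1 _) = _
  symm
  rw [← sub_eq_zero, ← map_sub, IsLocalRing.residue_eq_zero_iff,
    ValuationSubring.valuation_lt_one_iff]
  exact hv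

/-- **Every level between `K0` and the inertia field is admissible.** -/
theorem S36DS_admissible {q : ℕ} (hq : q.Prime) (A : ValuationSubring Qb)
    (hA : A.LiesOverPrime q) (K1 : IntermediateField ℚ Qb) (hK0 : S34K0_K0 q ≤ K1)
    (hK1 : K1 ≤ S36DS_E A) : S18K_Admissible A K1 q where
  dvr := S36DS_isDVR hq A hA K1 hK1
  roots := fun n hn ζ hζ => hK0 (S34K0_root_mem q hn hζ)
  res_surj := S36DS_res_surj hq A hA K1 hK0

/-- **The uniformiser of the S18 carriers is `q` up to a unit**, at every level inside the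
inertia field. -/
theorem S36DS_pi_associated {q : ℕ} (hq : q.Prime) (A : ValuationSubring Qb)
    (hA : A.LiesOverPrime q) (K1 : IntermediateField ℚ Qb) (hK1 : K1 ≤ S36DS_E A) 
    [IsDiscreteValuationRing (S18K_O1 A K1)] :
    Associated (S18K_D A K1).π ((q : ℕ) : S18K_O1 A K1) :=
  IsDiscreteValuationRing.associated_of_irreducible _ (S34K0_pi_irreducible A K1)
    (S36DS_q_irreducible hq A hA K1 hK1)

end Level

/-- The inertia field itself is an admissible level with uniformiser `q`. -/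
theorem S36DS_admissible_E {q : ℕ} (hq : q.Prime) (A : ValuationSubring Qb)
    (hA : A.LiesOverPrime q) : S18K_Admissible A (S36DS_E A) q :=
  S36DS_admissible hq A hA (S36DS_E A) (S36DS_K0_le_E hq A hA) le_rfl

end Fermat.Agent.S36_helper21_UNRAM
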