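import Fermat.Agent.S36_helper25_PRGEN
import Fermat.Agent.S36_helper18_Contracts

/-!
# S36, descent pieces (g1) + (g3) (helper25): (GEO36) at the auxiliary level `N' * r`
implies (GEO36) at the level `N'`

`pr : X₀(N' r q q) → X₀(N' q q)`.  For a NEW, inertia fixed, `lam`-power torsion point `x` of
`J₀(N' q q)` the pull-back `pr^* x` is `lam`-power torsion, inertia fixed (`pr^*` is Galois
equivariant) and NEW (this is the base change input, piece (g2): `α''_* pr^* = pr'^* α_*`), so
`lam ^ c • pr^* x = 0` by (GEO36) at the level `N' r`; and `pr_* pr^* = deg`, so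
`(lam ^ c * deg) • x = 0`, hence `lam ^ (c + v_lam(deg)) • x = 0`.

* `S36PR_kill` : the elementary torsion lemma;
* `S36PR_dvd1`, `S36PR_dvd2` : `N' q ∣ N' r q`, `N' q q ∣ N' r q q`;
* `S36PR_NewPull N' q r lam` : the input (g2) in the weak form that is used (`pr^*` preserves
  NEW on `lam`-power torsion points);
* `S36PR_BaseChange N' q r` : the input (g2) in the strong form (base change
  `α''_* pr^* = pr'^* α_*`, `β''_* pr^* = pr'^* β_*` on torsion points);
  `S36PR_newPull_of_baseChange`;
* `S36PR_descent_geo` : the descent for one valuation subring `A`, with the exponent;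
* `S36PR_descent` : `S36C_GeoAt (N' * r) q lam → S36C_GeoAt N' q lam` (owner's contract);
  `S36PR_descent_of_baseChange` : the same from the strong form.

`r` is a PARAMETER (`r = 4` for odd `q`, `r = 9` for `q = 2` are the uses); no hypothesis on
`r`, `q`, `N'` is needed here beyond `lam` prime.
-/

set_option autoImplicit false
set_option linter.style.haveILetI false
set_option linter.unusedSectionVars false
set_option linter.unusedVariables false

open AlgebraicCurve ModularCurve

namespace Fermat.Agent.S36_helper25_DESC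

noncomputable section

open Fermat.Agent.S35_helper6_PUSH Fermat.Agent.S36_helper25_PRGEN
  Fermat.Agent.S36_helper18_Contracts

local notation "Qb" => AlgebraicClosure ℚ
local notation "GQ" => (AlgebraicClosure ℚ ≃ₐ[ℚ] AlgebraicClosure ℚ)

/-- the elementary torsion lemma: a `lam`-power torsion element killed by `lam ^ c * d` is
killed by `lam ^ (c + v_lam(d))`. -/
theorem S36PR_kill {G : Type*} [AddCommGroup G] {lam : ℕ} (hlam : lam.Prime) {d : ℕ}
    (hd : d ≠ 0) (k c : ℕ) (y : G) (h1 : lam ^ k • y = 0) (h2 : (lam ^ c * d) • y = 0) :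
    lam ^ (c + d.factorization lam) • y = 0 := by
  rw [← addOrderOf_dvd_iff_nsmul_eq_zero] at h1 h2 ⊢
  have hcop : Nat.Coprime (addOrderOf y) (d / lam ^ d.factorization lam) :=
    Nat.Coprime.coprime_dvd_left h1 ((Nat.coprime_ordCompl hlam hd).pow_left k)
  have hd' : lam ^ c * d = lam ^ (c + d.factorization lam) * (d / lam ^ d.factorization lam) := by
    rw [pow_add, mul_assoc, Nat.ordProj_mul_ordCompl_eq_self]
  rw [hd'] at h2
  exact hcop.dvd_of_dvd_mul_right h2

theorem S36PR_dvd1 (N' q r : ℕ) : N' * q ∣ N' * r * q :=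
  ⟨r, by ring⟩

theorem S36PR_dvd2 (N' q r : ℕ) : N' * q * q ∣ N' * r * q * q :=
  ⟨r, by ring⟩

/-- **the input (g2), weak form** (this is all the descent uses): the pull-back
`J₀(N' q q) → J₀(N' r q q)` of a NEW `lam`-power torsion point is NEW. -/
def S36PR_NewPull (N' q r lam : ℕ) [NeZero N'] [NeZero q] [NeZero r] : Prop :=
  ∀ (k : ℕ) (x : JZero (N' * q * q)), lam ^ k • x = 0 →
    S35PU_alpha (N' * q) q x = 0 → S35PU_beta (N' * q) q x = 0 →
      S35PU_alpha (N' * r * q) q (S36PR_pull (S36PR_dvd2 N' q r) x) = 0 ∧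
        S35PU_beta (N' * r * q) q (S36PR_pull (S36PR_dvd2 N' q r) x) = 0

/-- **the input (g2), strong form, on torsion points** (helper23's typing): base change for the
two squares `X₀(N' r q q) → X₀(N' r q)`, `X₀(N' q q) → X₀(N' q)`:
`α''_* pr^* x = pr'^* α_* x` and `β''_* pr^* x = pr'^* β_* x` for every torsion point `x`. -/
def S36PR_BaseChange (N' q r : ℕ) [NeZero N'] [NeZero q] [NeZero r] : Prop :=
  (∀ (n : ℕ) (x : JZero (N' * q * q)), 0 < n → n • x = 0 →
    S35PU_alpha (N' * r * q) q (S36PR_pull (S36PR_dvd2 N' q r) x)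
      = S36PR_pull (S36PR_dvd1 N' q r) (S35PU_alpha (N' * q) q x)) ∧
  (∀ (n : ℕ) (x : JZero (N' * q * q)), 0 < n → n • x = 0 →
    S35PU_beta (N' * r * q) q (S36PR_pull (S36PR_dvd2 N' q r) x)
      = S36PR_pull (S36PR_dvd1 N' q r) (S35PU_beta (N' * q) q x))

theorem S36PR_newPull_of_baseChange (N' q r lam : ℕ) [NeZero N'] [NeZero q] [NeZero r]
    (hlam : 0 < lam) (h : S36PR_BaseChange N' q r) : S36PR_NewPull N' q r lam := by
  intro k x hx hα hβ
  refine ⟨?_, ?_⟩
  · rw [h.1 (lam ^ k) x (pow_pos hlam k) hx, hα, map_zero]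
  · rw [h.2 (lam ^ k) x (pow_pos hlam k) hx, hβ, map_zero]

/-- **descent of (GEO36) from the level `N' * r` to the level `N'`**, for one valuation
subring, with the exponent. -/
theorem S36PR_descent_geo (N' q r lam : ℕ) [NeZero N'] [NeZero q] [NeZero r] (hlam : lam.Prime)
    (hnew : S36PR_NewPull N' q r lam) (A : ValuationSubring Qb) (c : ℕ)
    (h : S36C_Geo (N' * r * q * q) lam A (S35PU_alpha (N' * r * q) q)
      (S35PU_beta (N' * r * q) q) c) :
    S36C_Geo (N' * q * q) lam A (S35PU_alpha (N' * q) q) (S35PU_beta (N' * q) q)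
      (c + (S36PR_deg (S36PR_dvd2 N' q r)).factorization lam) := by
  intro k x hx hα hβ hfix
  have h1 : lam ^ k • S36PR_pull (S36PR_dvd2 N' q r) x = 0 := by
    rw [← map_nsmul, hx, map_zero]
  obtain ⟨h2, h3⟩ := hnew k x hx hα hβ
  have h4 : ∀ τ ∈ A.inertiaSubgroupIn ℚ,
      τ • S36PR_pull (S36PR_dvd2 N' q r) x = S36PR_pull (S36PR_dvd2 N' q r) x := by
    intro τ hτ
    rw [← S36PR_pull_smul, hfix τ hτ]
  have h5 : lam ^ c • S36PR_pull (S36PR_dvd2 N' q r) x = 0 := h k _ h1 h2 h3 h4
  have h6 : (lam ^ c * S36PR_deg (S36PR_dvd2 N' q r)) • x = 0 :=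
    S36PR_pull_torsion (S36PR_dvd2 N' q r) (lam ^ c) x h5
  exact S36PR_kill hlam (S36PR_deg_pos (S36PR_dvd2 N' q r)).ne' k c x hx h6

/-- **descent of (GEO36), owner's contract**: (GEO36) at `(N' * r, q)` gives (GEO36) at
`(N', q)`. -/
theorem S36PR_descent (N' q r lam : ℕ) [NeZero N'] [NeZero q] [NeZero r] (hlam : lam.Prime)
    (hnew : S36PR_NewPull N' q r lam) (h : S36C_GeoAt (N' * r) q lam) : S36C_GeoAt N' q lam := by
  intro A hA
  obtain ⟨c, hc⟩ := h A hA
  exact ⟨_, S36PR_descent_geo N' q r lam hlam hnew A c hc⟩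

/-- the same from the strong form of (g2) (base change on torsion points). -/
theorem S36PR_descent_of_baseChange (N' q r lam : ℕ) [NeZero N'] [NeZero q] [NeZero r]
    (hlam : lam.Prime) (hBC : S36PR_BaseChange N' q r) (h : S36C_GeoAt (N' * r) q lam) :
    S36C_GeoAt N' q lam :=
  S36PR_descent N' q r lam hlam (S36PR_newPull_of_baseChange N' q r lam hlam.pos hBC) h

end

end Fermat.Agent.S36_helper25_DESC
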