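import Fermat.Agent.S36_helper23_BC
import Fermat.Agent.S36_helper25_DESC

/-!
# S36 (g2), plug (helper23): the base change input of helper25's descent, and the descent
with no hypothesis left

* `S36BC_baseChange` : `S36PR_BaseChange N' q r` for `q` prime, `q ∤ N'`, `q ∤ r`;
* `S36BC_descent`    : `S36C_GeoAt (N' * r) q lam → S36C_GeoAt N' q lam`;
* `S36BC_geoInput_of_aux`, `S36BC_geoInput` : (GEO36) at the auxiliary levels `N' * r(q)`
  (`r(q) = 9` for `q = 2`, `r(q) = 4` otherwise) gives the owner's `S36C_GeoInput`.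
-/

set_option autoImplicit false
set_option linter.style.haveILetI false
set_option linter.unusedSectionVars false
set_option linter.unusedVariables false

open AlgebraicCurve ModularCurve

namespace Fermat.Agent.S36_helper23_BCPLUG

noncomputable section

open Fermat.Agent.S35_helper6_PUSH Fermat.Agent.S36_helper25_PRGEN
  Fermat.Agent.S36_helper25_DESC Fermat.Agent.S36_helper18_Contracts
  Fermat.Agent.S36_helper23_BC Fermat.Agent.G_helper21_B0L

local notation "Qb" => AlgebraicClosure ℚ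

/-- **(g2)**: base change for the two degeneracy push-forwards, on torsion points. -/
theorem S36BC_baseChange (N' q r : ℕ) [NeZero N'] [NeZero q] [NeZero r] (hq : q.Prime)
    (hqN' : ¬ q ∣ N') (hqr : ¬ q ∣ r) : S36PR_BaseChange N' q r := by
  haveI h1 : HasPrincipalDivisors Qb (modularFunctionFieldBar (N' * r * q)) :=
    PG_B0L_hasPrincipalDivisors Qb (N' * r * q)
  haveI h2 : HasPrincipalDivisors Qb (modularFunctionFieldBar (N' * r * q * q)) :=
    PG_B0L_hasPrincipalDivisors Qb (N' * r * q * q)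
  refine ⟨fun n x hn hx => ?_, fun n x hn hx => ?_⟩
  · exact S36BC_alpha N' r q hq hqN' hqr (S36PR_incl Qb (S36PR_dvd1 N' q r))
      (S36PR_isIntegral Qb (S36PR_dvd1 N' q r)) (S36PR_incl Qb (S36PR_dvd2 N' q r))
      (S36PR_isIntegral Qb (S36PR_dvd2 N' q r)) (S36PR_coe_incl Qb (S36PR_dvd1 N' q r))
      (S36PR_coe_incl Qb (S36PR_dvd2 N' q r)) (S36PR_pull (S36PR_dvd2 N' q r))
      (S36PR_pull (S36PR_dvd1 N' q r)) (fun D => ⟨_, rfl, rfl⟩) (fun D => ⟨_, rfl, rfl⟩)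
      n hn x hx
  · exact S36BC_beta N' r q hq hqN' hqr (S36PR_incl Qb (S36PR_dvd1 N' q r))
      (S36PR_isIntegral Qb (S36PR_dvd1 N' q r)) (S36PR_incl Qb (S36PR_dvd2 N' q r))
      (S36PR_isIntegral Qb (S36PR_dvd2 N' q r)) (S36PR_coe_incl Qb (S36PR_dvd1 N' q r))
      (S36PR_coe_incl Qb (S36PR_dvd2 N' q r)) (S36PR_pull (S36PR_dvd2 N' q r))
      (S36PR_pull (S36PR_dvd1 N' q r)) (fun D => ⟨_, rfl, rfl⟩) (fun D => ⟨_, rfl, rfl⟩)
      n hn x hx

/-- **the descent of (GEO36)** from the auxiliary level `N' * r` to the level `N'`, with no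
hypothesis left. -/
theorem S36BC_descent (N' q r lam : ℕ) [NeZero N'] [NeZero q] [NeZero r] (hq : q.Prime)
    (hqN' : ¬ q ∣ N') (hqr : ¬ q ∣ r) (hlam : lam.Prime) (h : S36C_GeoAt (N' * r) q lam) :
    S36C_GeoAt N' q lam :=
  S36PR_descent_of_baseChange N' q r lam hlam (S36BC_baseChange N' q r hq hqN' hqr) h

/-- (GEO36) at the auxiliary levels `N' * r q` gives the owner's input `S36C_GeoInput`. -/
theorem S36BC_geoInput_of_aux (r : ℕ → ℕ) (hr0 : ∀ q, r q ≠ 0)
    (hr : ∀ q, q.Prime → ¬ q ∣ r q)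
    (hgeo : ∀ (N' q lam : ℕ) [NeZero N'] [NeZero q], q.Prime → lam.Prime → q ≠ lam → lam ≠ 2 →
      ¬ q ∣ N' → @S36C_GeoAt (N' * r q) q lam ⟨mul_ne_zero (NeZero.ne N') (hr0 q)⟩ _) :
    S36C_GeoInput := by
  intro N' q lam _ _ hq hlam hqlam hlam2 hqN'
  haveI : NeZero (r q) := ⟨hr0 q⟩
  exact S36BC_descent N' q (r q) lam hq hqN' (hr q hq) hlam
    (hgeo N' q lam hq hlam hqlam hlam2 hqN')

/-- the auxiliary level: `9` for `q = 2`, `4` otherwise. -/
def S36BC_aux (q : ℕ) : ℕ := if q = 2 then 9 else 4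

theorem S36BC_aux_ne_zero (q : ℕ) : S36BC_aux q ≠ 0 := by
  unfold S36BC_aux
  split_ifs <;> norm_num

theorem S36BC_aux_two : S36BC_aux 2 = 9 := by
  unfold S36BC_aux
  rw [if_pos rfl]

theorem S36BC_aux_odd {q : ℕ} (hq2 : q ≠ 2) : S36BC_aux q = 4 := by
  unfold S36BC_aux
  rw [if_neg hq2]

theorem S36BC_aux_not_dvd (q : ℕ) (hq : q.Prime) : ¬ q ∣ S36BC_aux q := by
  by_cases hq2 : q = 2
  · subst hq2
    rw [S36BC_aux_two]
    norm_num
  · rw [S36BC_aux_odd hq2]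
    intro h
    have h4 : q ∣ 2 ^ 2 := by simpa using h
    have h2 : q ∣ 2 := hq.dvd_of_dvd_pow h4
    exact hq2 ((Nat.prime_dvd_prime_iff_eq hq Nat.prime_two).mp h2)

/-- **(GEO36) at the levels `N' * 4` (`q` odd) and `N' * 9` (`q = 2`) gives `S36C_GeoInput`.** -/
theorem S36BC_geoInput
    (hgeo : ∀ (N' q lam : ℕ) [NeZero N'] [NeZero q], q.Prime → lam.Prime → q ≠ lam → lam ≠ 2 →
      ¬ q ∣ N' →
        @S36C_GeoAt (N' * S36BC_aux q) q lam ⟨mul_ne_zero (NeZero.ne N') (S36BC_aux_ne_zero q)⟩ _) :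
    S36C_GeoInput :=
  S36BC_geoInput_of_aux S36BC_aux S36BC_aux_ne_zero S36BC_aux_not_dvd hgeo

end

end Fermat.Agent.S36_helper23_BCPLUG
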