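import Mathlib
import Fermat.Prelude.Def_ModularCurve_X0ModL

/-!
# S36 (helper12): descent of coefficients for the modular function fields

For a field extension `K / K1` and a Laurent series `g` over `K1`: if the image of `g` over `K`
lies in the function field `F(K, N) = K(j(Q^d), d ∣ N)`, then `g` lies in `F(K1, N)`.

* `S36DC_mem_gen` : the statement for an arbitrary field extension;
* `S36DC_mem` : for an intermediate field `K1` of `ℚ̄ / ℚ`;
* `S36DS_coeff_descent` : the same in the form "a series over `ℚ̄` with coefficients in `K1`".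

Proof.  Let `ι` be the coefficientwise embedding and `S` the `K`-span of `ι(F(K1, N))`, a subring
of `K((Q))`.  Every element of `F(K, N)` is a fraction `P / Q` with `P, Q ∈ S`, `Q ≠ 0`.  A
`K1`-linear functional `λ : K → K1`, applied coefficientwise, gives `Λ : K((Q)) → K1((Q))` with
`Λ (ι g * h) = g * Λ h` and `Λ S ⊆ F(K1, N)`.  From `Q * ι g = P` we get `g * Λ Q = Λ P`, and
`Λ Q ≠ 0` for a suitable `λ`.
-/

set_option autoImplicit false
set_option linter.unusedSectionVars false
set_option linter.unusedVariables false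
set_option linter.style.haveILetI false

open HahnSeries ModularCurve

noncomputable section

namespace Fermat.Agent.S36_helper12_COEFF

local notation "Qb" => AlgebraicClosure ℚ

section General

variable {K1 K : Type*} [Field K1] [Field K] [Algebra K1 K]

/-- a `K1`-linear functional, applied coefficientwise -/
def S36CO_app (lam : K →ₗ[K1] K1) (h : LaurentSeries K) : LaurentSeries K1 :=
  h.map lam

@[simp]
theorem S36CO_app_coeff (lam : K →ₗ[K1] K1) (h : LaurentSeries K) (n : ℤ) :
    (S36CO_app lam h).coeff n = lam (h.coeff n) := rfl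

theorem S36CO_app_add (lam : K →ₗ[K1] K1) (h h' : LaurentSeries K) :
    S36CO_app lam (h + h') = S36CO_app lam h + S36CO_app lam h' := by
  ext n
  simp

theorem S36CO_app_zero (lam : K →ₗ[K1] K1) : S36CO_app lam (0 : LaurentSeries K) = 0 := by
  ext n
  simp

theorem S36CO_app_support (lam : K →ₗ[K1] K1) (h : LaurentSeries K) :
    (S36CO_app lam h).support ⊆ h.support := by
  intro n hn
  rw [HahnSeries.mem_support] at hn ⊢
  intro h0
  apply hn
  rw [S36CO_app_coeff, h0, map_zero]

theorem S36CO_coeffMap_support (g : LaurentSeries K1) :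
    (coeffMap (algebraMap K1 K) g).support ⊆ g.support := by
  intro n hn
  rw [HahnSeries.mem_support] at hn ⊢
  intro h0
  apply hn
  rw [coeffMap_coeff, h0, map_zero]

/-- `Λ (ι g * h) = g * Λ h` -/
theorem S36CO_app_mul (lam : K →ₗ[K1] K1) (g : LaurentSeries K1) (h : LaurentSeries K) :
    S36CO_app lam (coeffMap (algebraMap K1 K) g * h) = g * S36CO_app lam h := by
  ext n
  rw [S36CO_app_coeff,
    HahnSeries.coeff_mul_left' g.isPWO_support (S36CO_coeffMap_support g),
    HahnSeries.coeff_mul_right' h.isPWO_support (S36CO_app_support lam h), map_sum]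
  refine Finset.sum_congr rfl fun ij _ => ?_
  rw [coeffMap_coeff, S36CO_app_coeff, ← Algebra.smul_def, map_smul, smul_eq_mul]

/-- `Λ_λ (c • P) = Λ_{λ ∘ c} P` -/
theorem S36CO_app_smul (lam : K →ₗ[K1] K1) (c : K) (P : LaurentSeries K) :
    S36CO_app lam (c • P) =
      S36CO_app (lam.comp (LinearMap.mulLeft K1 c)) P := by
  ext n
  simp

theorem S36CO_app_coeffMap (lam : K →ₗ[K1] K1) (x : LaurentSeries K1) :
    S36CO_app lam (coeffMap (algebraMap K1 K) x) = (lam 1) • x := by
  ext n
  rw [S36CO_app_coeff, coeffMap_coeff, HahnSeries.coeff_smul, Algebra.algebraMap_eq_smul_one,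
    map_smul, smul_eq_mul, smul_eq_mul, mul_comm]

/-- the scalar multiplication of a Laurent series by a constant, as a product -/
theorem S36CO_smul_eq {L : Type*} [Field L] (c : L) (y : LaurentSeries L) :
    c • y = algebraMap L (LaurentSeries L) c * y := by
  rw [algebraMap_laurentSeries_eq_single]
  exact (HahnSeries.C_mul_eq_smul (r := c) (x := y)).symm

theorem S36CO_coeffMap_injective : Function.Injective (coeffMap (algebraMap K1 K)) := by
  intro x y h
  ext k
  have := congrArg (fun z => z.coeff k) h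
  simp only [coeffMap_coeff] at this
  exact (algebraMap K1 K).injective this

variable (K) in
/-- the `K`-span of the image of `F(K1, N)` -/
def S36CO_span (N : ℕ) [NeZero N] : Submodule K (LaurentSeries K) :=
  Submodule.span K (⇑(coeffMap (algebraMap K1 K)) '' (modularFunctionFieldFullC K1 N : Set _))

theorem S36CO_span_gen (N : ℕ) [NeZero N] {x : LaurentSeries K1}
    (hx : x ∈ modularFunctionFieldFullC K1 N) :
    coeffMap (algebraMap K1 K) x ∈ S36CO_span (K1 := K1) K N :=
  Submodule.subset_span ⟨x, hx, rfl⟩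

theorem S36CO_span_one (N : ℕ) [NeZero N] :
    (1 : LaurentSeries K) ∈ S36CO_span (K1 := K1) K N := by
  have h := S36CO_span_gen (K := K) N (one_mem (modularFunctionFieldFullC K1 N))
  rwa [map_one] at h

theorem S36CO_span_mul (N : ℕ) [NeZero N] {P Q : LaurentSeries K}
    (hP : P ∈ S36CO_span (K1 := K1) K N) (hQ : Q ∈ S36CO_span (K1 := K1) K N) :
    P * Q ∈ S36CO_span (K1 := K1) K N := by
  unfold S36CO_span at hP hQ ⊢
  induction hP using Submodule.span_induction with
  | mem x hx =>
    obtain ⟨x, hx, rfl⟩ := hx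
    induction hQ using Submodule.span_induction with
    | mem y hy =>
      obtain ⟨y, hy, rfl⟩ := hy
      rw [← map_mul]
      exact Submodule.subset_span ⟨x * y, mul_mem hx hy, rfl⟩
    | zero => rw [mul_zero]; exact Submodule.zero_mem _
    | add y z _ _ hy hz => rw [mul_add]; exact Submodule.add_mem _ hy hz
    | smul c y _ hy =>
      have e : coeffMap (algebraMap K1 K) x * (c • y) = c • (coeffMap (algebraMap K1 K) x * y) := by
        rw [S36CO_smul_eq, S36CO_smul_eq, mul_left_comm]
      rw [e]
      exact Submodule.smul_mem _ c hy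
  | zero => rw [zero_mul]; exact Submodule.zero_mem _
  | add y z _ _ hy hz => rw [add_mul]; exact Submodule.add_mem _ hy hz
  | smul c y _ hy =>
    have e : (c • y) * Q = c • (y * Q) := by
      rw [S36CO_smul_eq, S36CO_smul_eq, mul_assoc]
    rw [e]
    exact Submodule.smul_mem _ c hy

/-- `Λ` maps the span into `F(K1, N)` -/
theorem S36CO_app_span (N : ℕ) [NeZero N] {P : LaurentSeries K}
    (hP : P ∈ S36CO_span (K1 := K1) K N) :
    ∀ lam : K →ₗ[K1] K1, S36CO_app lam P ∈ modularFunctionFieldFullC K1 N := by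
  unfold S36CO_span at hP
  induction hP using Submodule.span_induction with
  | mem x hx =>
    obtain ⟨x, hx, rfl⟩ := hx
    intro lam
    rw [S36CO_app_coeffMap, S36CO_smul_eq]
    exact mul_mem (IntermediateField.algebraMap_mem _ _) hx
  | zero =>
    intro lam
    rw [S36CO_app_zero]
    exact zero_mem _
  | add y z _ _ hy hz =>
    intro lam
    rw [S36CO_app_add]
    exact add_mem (hy lam) (hz lam)
  | smul c y _ hy =>
    intro lam
    rw [S36CO_app_smul]
    exact hy _

/-- every element of `F(K, N)` is a fraction of elements of the span -/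
theorem S36CO_frac (N : ℕ) [NeZero N] {h : LaurentSeries K}
    (hh : h ∈ modularFunctionFieldFullC K N) :
    ∃ P ∈ S36CO_span (K1 := K1) K N, ∃ Q ∈ S36CO_span (K1 := K1) K N, Q ≠ 0 ∧ Q * h = P := by
  classical
  unfold modularFunctionFieldFullC at hh
  induction hh using IntermediateField.adjoin_induction with
  | mem y hy =>
    obtain ⟨d, hd0, hd, rfl⟩ := hy
    haveI := hd0
    refine ⟨_, ?_, 1, S36CO_span_one N, one_ne_zero, one_mul _⟩
    have h1 : coeffMap (algebraMap K1 K) (qExpand K1 d (jqModC K1)) = qExpand K d (jqModC K) := by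
      rw [coeffMap_qExpand, coeffMap_jqModC]
    rw [← h1]
    exact S36CO_span_gen N (jqModCd_mem_full K1 N hd)
  | algebraMap c =>
    refine ⟨_, ?_, 1, S36CO_span_one N, one_ne_zero, one_mul _⟩
    rw [← mul_one (algebraMap K (LaurentSeries K) c), ← S36CO_smul_eq]
    exact Submodule.smul_mem _ c (S36CO_span_one N)
  | add x y _ _ h1 h2 =>
    obtain ⟨P1, hP1, Q1, hQ1, hQ10, e1⟩ := h1
    obtain ⟨P2, hP2, Q2, hQ2, hQ20, e2⟩ := h2
    refine ⟨P1 * Q2 + Q1 * P2, Submodule.add_mem _ (S36CO_span_mul N hP1 hQ2)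
      (S36CO_span_mul N hQ1 hP2), Q1 * Q2, S36CO_span_mul N hQ1 hQ2,
      mul_ne_zero hQ10 hQ20, ?_⟩
    rw [← e1, ← e2]
    ring
  | inv x _ h1 =>
    obtain ⟨P1, hP1, Q1, hQ1, hQ10, e1⟩ := h1
    by_cases hx : x = 0
    · refine ⟨0, Submodule.zero_mem _, 1, S36CO_span_one N, one_ne_zero, ?_⟩
      rw [hx, inv_zero, mul_zero]
    · have hP10 : P1 ≠ 0 := by
        rw [← e1]
        exact mul_ne_zero hQ10 hx
      refine ⟨Q1, hQ1, P1, hP1, hP10, ?_⟩
      rw [← e1, mul_assoc, mul_inv_cancel₀ hx, mul_one]
  | mul x y _ _ h1 h2 =>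
    obtain ⟨P1, hP1, Q1, hQ1, hQ10, e1⟩ := h1
    obtain ⟨P2, hP2, Q2, hQ2, hQ20, e2⟩ := h2
    refine ⟨P1 * P2, S36CO_span_mul N hP1 hP2, Q1 * Q2, S36CO_span_mul N hQ1 hQ2,
      mul_ne_zero hQ10 hQ20, ?_⟩
    rw [← e1, ← e2]
    ring

/-- a functional which does not vanish at a given nonzero element -/
theorem S36CO_exists_functional (v : K) (hv : v ≠ 0) : ∃ lam : K →ₗ[K1] K1, lam v ≠ 0 := by
  have hinj : LinearMap.ker (LinearMap.toSpanSingleton K1 K v) = ⊥ := by
    rw [LinearMap.ker_eq_bot]
    intro a b hab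
    simp only [LinearMap.toSpanSingleton_apply] at hab
    exact smul_left_injective K1 hv hab
  obtain ⟨lam, hlam⟩ := LinearMap.exists_leftInverse_of_injective _ hinj
  refine ⟨lam, fun h0 => ?_⟩
  have h1 := congrArg (fun φ : K1 →ₗ[K1] K1 => φ 1) hlam
  simp only [LinearMap.comp_apply, LinearMap.toSpanSingleton_apply, one_smul,
    LinearMap.id_apply] at h1
  rw [h0] at h1
  exact zero_ne_one h1

/-- **descent of coefficients**, for an arbitrary field extension. -/
theorem S36DC_mem_gen (N : ℕ) [NeZero N] (g : LaurentSeries K1)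
    (h : coeffMap (algebraMap K1 K) g ∈ modularFunctionFieldFullC K N) :
    g ∈ modularFunctionFieldFullC K1 N := by
  obtain ⟨P, hP, Q, hQ, hQ0, e⟩ := S36CO_frac (K1 := K1) N h
  -- a nonzero coefficient of `Q`
  obtain ⟨n, hn⟩ : ∃ n : ℤ, Q.coeff n ≠ 0 := by
    by_contra hcon
    apply hQ0
    ext n
    by_contra h1
    exact hcon ⟨n, h1⟩
  obtain ⟨lam, hlam⟩ := S36CO_exists_functional (K1 := K1) (Q.coeff n) hn
  have hΛQ : S36CO_app lam Q ≠ 0 := by
    intro h0
    apply hlam
    have := congrArg (fun z : LaurentSeries K1 => z.coeff n) h0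
    simpa using this
  have h1 : g * S36CO_app lam Q = S36CO_app lam P := by
    rw [← S36CO_app_mul, mul_comm, e]
  have h2 : g = S36CO_app lam P * (S36CO_app lam Q)⁻¹ := by
    rw [← h1, mul_assoc, mul_inv_cancel₀ hΛQ, mul_one]
  rw [h2]
  exact mul_mem (S36CO_app_span N hP lam) (inv_mem (S36CO_app_span N hQ lam))

end General

/-- **descent of coefficients** for an intermediate field of `ℚ̄ / ℚ`. -/
theorem S36DC_mem (K1 : IntermediateField ℚ Qb) (N : ℕ) [NeZero N] (g : LaurentSeries K1) :
    coeffMap (algebraMap K1 Qb) g ∈ modularFunctionFieldFullC Qb N →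
      g ∈ modularFunctionFieldFullC K1 N :=
  S36DC_mem_gen N g

/-- **descent of coefficients**: an element of the function field over `ℚ̄` with coefficients in
`K1` comes from the function field over `K1`. -/
theorem S36DS_coeff_descent (N : ℕ) [NeZero N] (K1 : IntermediateField ℚ Qb)
    (f : LaurentSeries Qb) (hf : f ∈ modularFunctionFieldFullC Qb N)
    (hc : ∀ n : ℤ, f.coeff n ∈ K1) :
    ∃ w ∈ modularFunctionFieldFullC K1 N, coeffMap (algebraMap K1 Qb) w = f := by
  -- the series over `K1`
  let w : LaurentSeries K1 :=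
    { coeff := fun n => ⟨f.coeff n, hc n⟩
      isPWO_support' := by
        refine f.isPWO_support.mono ?_
        intro n hn
        rw [Function.mem_support] at hn
        rw [HahnSeries.mem_support]
        intro h0
        apply hn
        exact Subtype.ext h0 }
  have hw : coeffMap (algebraMap K1 Qb) w = f := by
    ext n
    rfl
  refine ⟨w, S36DC_mem K1 N w ?_, hw⟩
  rw [hw]
  exact hf

end Fermat.Agent.S36_helper12_COEFF
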