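import Fermat.Agent.S36_helper4_XADefs
import Fermat.Agent.S36_helper12_COEFF
import Fermat.Agent.S37_helper4_B1Defs

/-!
# S36, GEO36 (a), (M)-GLUE (helper25): the descent `S36XA_Desc` from (D) DIV and (F) FUN

For a subgroup `H` of `G_ℚ` and an intermediate field `K1` of `ℚ̄ / ℚ` containing the elements
fixed by `H`:

* `S36MG_Div N H` : (D), every `H`-fixed class of `J₀(N)` has an `H`-invariant representative
  divisor (the conclusion of `S36DS_divisor N H`, verbatim);
* `S36MG_Fun N H` : (F), a function with `H`-invariant divisor has `H`-fixed coefficients after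
  normalisation by a constant (`S36DS_function N H`, verbatim);
* `S36MG_main` : (M), from (D), (F) and the landed descent of coefficients (C)
  (`S36DS_coeff_descent`, helper12): an `H`-fixed class killed by `n` is represented by a divisor
  `D` and a function `f0` over `K1` with `div f0 = n • D`;
* `S36MG_desc` : helper4's contract `S36XA_Desc M A q`, for `H` the inertia group of `A` and
  `K1` an unramified level containing the inertia-fixed elements.
-/

set_option autoImplicit false
set_option linter.style.haveILetI false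
set_option linter.unusedSectionVars false
set_option linter.unusedVariables false

open AlgebraicCurve ModularCurve IntermediateField

namespace Fermat.Agent.S36_helper25_MGLUE

noncomputable section

open Fermat.Agent.S18_helper25_COREDefs Fermat.Agent.S34_helper25_Defs
  Fermat.Agent.S37_helper4_B1Defs Fermat.Agent.S36_helper4_XADefs
  Fermat.Agent.S18_helper19_PLACEMOD

local notation "Qb" => AlgebraicClosure ℚ
local notation "GQ" => (AlgebraicClosure ℚ ≃ₐ[ℚ] AlgebraicClosure ℚ)

/-- **(D)**: every `H`-fixed class has an `H`-invariant representative divisor. -/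
def S36MG_Div (N : ℕ) [NeZero N] (H : Subgroup GQ) : Prop :=
  ∀ x : JZero N, (∀ τ ∈ H, τ • x = x) →
    ∃ D : Divisor.degZero (K := Qb) (F := modularFunctionFieldBar N), Pic0.mk D = x ∧
      ∀ τ ∈ H, ∀ P : Place Qb (modularFunctionFieldBar N),
        (D : Divisor Qb (modularFunctionFieldBar N))
            (arithmeticGalois (modularFunctionFieldFull N) τ • P)
          = (D : Divisor Qb (modularFunctionFieldBar N)) P

/-- **(F)**: a function with `H`-invariant divisor has `H`-fixed coefficients after
normalisation by a constant. -/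
def S36MG_Fun (N : ℕ) [NeZero N] (H : Subgroup GQ) : Prop :=
  ∀ g : modularFunctionFieldBar N, g ≠ 0 →
    (∀ τ ∈ H, ∀ P : Place Qb (modularFunctionFieldBar N),
      (arithmeticGalois (modularFunctionFieldFull N) τ • P).ord g = P.ord g) →
    ∃ c : Qb, c ≠ 0 ∧ ∀ τ ∈ H, ∀ n : ℤ,
      τ ((HahnSeries.C c * (g : LaurentSeries Qb)).coeff n)
        = (HahnSeries.C c * (g : LaurentSeries Qb)).coeff n

/-- a class killed by `n` has a representative whose `n`-th multiple is principal. -/
theorem S36MG_principal (N : ℕ) [NeZero N] (n : ℕ)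
    (D : Divisor.degZero (K := Qb) (F := modularFunctionFieldBar N))
    (hx : n • (Pic0.mk D : JZero N) = 0) :
    (n • (D : Divisor Qb (modularFunctionFieldBar N))).IsPrincipal := by
  have h0 : Pic0.mk (n • D) = 0 := hx
  unfold Pic0.mk at h0
  rw [QuotientAddGroup.eq_zero_iff, AddSubgroup.mem_addSubgroupOf, AddSubgroup.coe_nsmul] at h0
  exact h0

/-- **(M)**: the descent of an `H`-fixed torsion class to `K1`. -/
theorem S36MG_main (N : ℕ) [NeZero N] (H : Subgroup GQ) (K1 : IntermediateField ℚ Qb)
    (hK1 : ∀ x : Qb, (∀ τ ∈ H, τ x = x) → x ∈ K1) (hD : S36MG_Div N H) (hF : S36MG_Fun N H)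
    (n : ℕ) (hn : 0 < n) (x : JZero N) (hx : n • x = 0) (hfix : ∀ τ ∈ H, τ • x = x) :
    ∃ (D : Divisor.degZero (K := Qb) (F := modularFunctionFieldBar N))
      (f0 : LaurentSeries K1),
      Pic0.mk D = x ∧ f0 ∈ S18K_F1 K1 N ∧ f0 ≠ 0 ∧
        ∀ P : Place Qb (modularFunctionFieldBar N),
          S37B1_ordP N K1 P f0 = (n : ℤ) * (D : Divisor Qb (modularFunctionFieldBar N)) P := by
  obtain ⟨D, hDx, hDinv⟩ := hD x hfix
  have hprin : (n • (D : Divisor Qb (modularFunctionFieldBar N))).IsPrincipal :=
    S36MG_principal N n D (by rw [hDx]; exact hx)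
  obtain ⟨g, hg0, hg⟩ := hprin
  have hdiv : ∀ τ ∈ H, ∀ P : Place Qb (modularFunctionFieldBar N),
      (arithmeticGalois (modularFunctionFieldFull N) τ • P).ord g = P.ord g := by
    intro τ hτ P
    rw [← hg, ← hg, Finsupp.smul_apply, Finsupp.smul_apply, hDinv τ hτ P]
  obtain ⟨c, hc0, hcfix⟩ := hF g hg0 hdiv
  -- the normalised function, as an element of `F̄(N)`
  have hcg : ((algebraMap Qb (modularFunctionFieldBar N) c * g : modularFunctionFieldBar N) :
      LaurentSeries Qb) = HahnSeries.C c * (g : LaurentSeries Qb) := by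
    have h1 : ((algebraMap Qb (modularFunctionFieldBar N) c : modularFunctionFieldBar N) :
        LaurentSeries Qb) = HahnSeries.C c := by
      have h2 : ((algebraMap Qb (modularFunctionFieldBar N) c : modularFunctionFieldBar N) :
          LaurentSeries Qb) = algebraMap Qb (LaurentSeries Qb) c :=
        (IsScalarTower.algebraMap_apply Qb (modularFunctionFieldBar N)
          (LaurentSeries Qb) c).symm
      rw [h2, algebraMap_laurentSeries_eq_single]
      rfl
    rw [MulMemClass.coe_mul, h1]
  have hfmem : HahnSeries.C c * (g : LaurentSeries Qb) ∈ modularFunctionFieldFullC Qb N := by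
    rw [← Fermat.Agent.S18_helper25_GLUE.S18G_bar_eq, ← hcg]
    exact (algebraMap Qb (modularFunctionFieldBar N) c * g).2
  obtain ⟨w, hw, hwf⟩ := Fermat.Agent.S36_helper12_COEFF.S36DS_coeff_descent N K1 _ hfmem
    (fun m => hK1 _ (fun τ hτ => hcfix τ hτ m))
  have hinc : S18A3C_inc N (algebraMap K1 Qb) ⟨w, hw⟩
      = algebraMap Qb (modularFunctionFieldBar N) c * g := by
    apply Subtype.ext
    rw [S18A3C_inc_coe, hcg]
    exact hwf
  have hc0' : algebraMap Qb (modularFunctionFieldBar N) c ≠ 0 := by
    rw [Ne, map_eq_zero_iff _ (algebraMap Qb (modularFunctionFieldBar N)).injective]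
    exact hc0
  refine ⟨D, w, hDx, hw, ?_, ?_⟩
  · intro hw0
    have h1 : S18A3C_inc N (algebraMap K1 Qb) ⟨w, hw⟩ = 0 := by
      have : (⟨w, hw⟩ : modularFunctionFieldFullC K1 N) = 0 := Subtype.ext hw0
      rw [this, map_zero]
    rw [hinc] at h1
    exact mul_ne_zero hc0' hg0 h1
  · intro P
    have hw' : w ∈ modularFunctionFieldFullC K1 N := hw
    rw [S37B1_ordP, dif_pos hw', hinc, P.ord_mul hc0' hg0,
      Fermat.Agent.S24_helper6_A2.ord_algebraMap_eq_zero, zero_add, ← hg, Finsupp.smul_apply,
      nsmul_eq_mul]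

/-- **helper4's contract (H90)** from (D), (F), for an unramified level `K1` containing the
inertia-fixed elements. -/
theorem S36MG_desc (M : ℕ) [NeZero M] (A : ValuationSubring Qb) (q : ℕ)
    (K1 : IntermediateField ℚ Qb) (hL : S36XA_Level A K1 q)
    (hK1 : ∀ x : Qb, (∀ τ ∈ A.inertiaSubgroupIn ℚ, τ x = x) → x ∈ K1)
    (hD : S36MG_Div M (A.inertiaSubgroupIn ℚ)) (hF : S36MG_Fun M (A.inertiaSubgroupIn ℚ)) :
    S36XA_Desc M A q := by
  intro n hn x hx hfix
  obtain ⟨D, f0, hDx, hf0, hf00, hord⟩ :=
    S36MG_main M (A.inertiaSubgroupIn ℚ) K1 hK1 hD hF n hn x hx hfix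
  refine ⟨K1, hL, D.1, D.2, hDx, f0, hf0, hf00, fun P => ?_⟩
  have hf0' : f0 ∈ modularFunctionFieldFullC K1 M := (S18K_mem_F1 K1 M f0).1 hf0
  rw [← hord P, S37B1_ordP, dif_pos hf0']

/-- the inertia field contains the inertia-fixed elements (the hypothesis `hK1` for
`K1 := IntermediateField.fixedField (A.inertiaSubgroupIn ℚ)`). -/
theorem S36MG_mem_fixedField (H : Subgroup GQ) (x : Qb) (hx : ∀ τ ∈ H, τ x = x) :
    x ∈ IntermediateField.fixedField H := by
  rw [IntermediateField.mem_fixedField_iff]
  exact hx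

/-- the elements of the inertia field are inertia-fixed (the field `fix` of `S36XA_Level` for
`K1 ≤ IntermediateField.fixedField (A.inertiaSubgroupIn ℚ)`). -/
theorem S36MG_fix_of_le (H : Subgroup GQ) (K1 : IntermediateField ℚ Qb)
    (hK1 : K1 ≤ IntermediateField.fixedField H) (τ : GQ) (hτ : τ ∈ H) (x : Qb) (hx : x ∈ K1) :
    τ x = x :=
  (IntermediateField.mem_fixedField_iff H x).1 (hK1 hx) τ hτ

/-- **helper4's contract (H90)** at the inertia field, from admissibility (U), (D), (F). -/
theorem S36MG_desc_inertiaField (M : ℕ) [NeZero M] (A : ValuationSubring Qb) (q : ℕ)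
    (hadm : S18K_Admissible A (IntermediateField.fixedField (A.inertiaSubgroupIn ℚ)) q)
    (hD : S36MG_Div M (A.inertiaSubgroupIn ℚ)) (hF : S36MG_Fun M (A.inertiaSubgroupIn ℚ)) :
    S36XA_Desc M A q :=
  S36MG_desc M A q (IntermediateField.fixedField (A.inertiaSubgroupIn ℚ))
    ⟨hadm, fun τ hτ x hx => S36MG_fix_of_le _ _ le_rfl τ hτ x hx⟩
    (S36MG_mem_fixedField _) hD hF

end

end Fermat.Agent.S36_helper25_MGLUE
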