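import Mathlib
import Fermat.Agent.G_helper12_OPENSTAB
import Fermat.Agent.S34_helper21_D
import Fermat.Agent.S18_helper25_CORE

/-!
# S36, GEO36 (a), piece (D) (helper26): an invariant representative of an invariant class

`H` a subgroup of `G_ℚ` and `x` a point of `J₀(N)(ℚ̄)` fixed by `H`.  Then `x` is the class of a
divisor of degree `0` which is itself invariant under `H` (`S36DS_divisor`).

No cohomology: the place `∞` (the `Q`-adic valuation) is fixed by the whole Galois group; if
`D₀` is any divisor in the class `x` and `s` is minimal with `L(D₀ + s (∞)) ≠ 0`, then this space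
is a line `K f`, and `D₀ + div f` is the invariant representative.

* `S36DV_neg`      : `L(D) = 0` if `deg D < 0`;
* `S36DV_abstract` : the statement for a function field `F / K` (`K` algebraically closed of
  characteristic `0`), a group `G` of semilinear automorphisms and a place fixed by `G`;
* `S36DV_order_t`, `S36DV_cusp_fixed` : the place `∞` of `X₀(N)` and its invariance;
* `S36DS_divisor`  : the statement (D) of the descent plan.
-/

set_option autoImplicit false
set_option linter.unusedSectionVars false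
set_option linter.unusedVariables false
set_option linter.style.haveILetI false
set_option maxHeartbeats 1600000
set_option synthInstance.maxHeartbeats 400000

open ModularCurve AlgebraicCurve IntermediateField HahnSeries
open Fermat.Agent.S37_helper21_RI Fermat.Agent.S18_helper25_COREA Fermat.Agent.S18_helper25_CORE

noncomputable section

namespace Fermat.Agent.S36_helper26_DIV

/-! ### The abstract statement -/

section Abstract

variable {K F : Type*} [Field K] [Field F] [Algebra K F]
variable [IsAlgClosed K] [CharZero K] (x : F) (hx : Transcendental K x)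
  [FiniteDimensional K⟮x⟯ F]

include hx in
/-- `L(D) = 0` for a divisor of negative degree -/
theorem S36DV_neg (hdeg : ∀ v : Place K F, v.deg = 1) (D : Divisor K F)
    (hD : Divisor.degree D < 0) (f : F) (hf : f ∈ S37RI_LSpace D) : f = 0 := by
  by_contra hf0
  obtain ⟨Df, hDf, hDf0⟩ := Fermat.Agent.S24_helper6_A2.exists_divisor x hx hdeg f hf0
  have hnn : ∀ v, 0 ≤ (Df + D) v := fun v => by
    rw [Finsupp.add_apply, hDf v]
    exact (S37RI_mem_LSpace_iff_ord hf0).mp hf v
  have h := S37RI_degree_nonneg hdeg (Df + D) hnn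
  rw [map_add, hDf0, zero_add] at h
  omega

include hx in
/-- **an invariant class has an invariant representative**, if some place is invariant. -/
theorem S36DV_abstract (hdeg : ∀ v : Place K F, v.deg = 1) (Pinf : Place K F)
    (G : Subgroup (SemilinearAut K F)) (hP : ∀ g ∈ G, g • Pinf = Pinf)
    (X : Pic0 K F) (hX : ∀ g ∈ G, g • X = X) :
    ∃ D : Divisor.degZero (K := K) (F := F), Pic0.mk D = X ∧
      ∀ g ∈ G, ∀ P : Place K F, (D : Divisor K F) (g • P) = (D : Divisor K F) P := by
  classical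
  have halg : Algebra.IsAlgebraic K⟮x⟯ F := Algebra.IsAlgebraic.of_finite _ _
  obtain ⟨D₀, rfl⟩ := Pic0.mk_surjective X
  have hD₀ : Divisor.degree (D₀ : Divisor K F) = 0 := D₀.2
  -- the divisors `E s = D₀ + (s - 1) (∞)`
  obtain ⟨E, hE⟩ : ∃ E : ℕ → Divisor K F,
      ∀ s, E s = (D₀ : Divisor K F) + Finsupp.single Pinf ((s : ℤ) - 1) := ⟨_, fun _ => rfl⟩
  have hEsucc : ∀ s, E (s + 1) = E s + Finsupp.single Pinf (1 : ℤ) := by
    intro s
    rw [hE, hE, add_assoc, ← Finsupp.single_add]
    congr 2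
    push_cast
    ring
  have hEdeg : ∀ s, Divisor.degree (E s) = (s : ℤ) - 1 := by
    intro s
    rw [hE, map_add, Divisor.degree_single, hdeg Pinf, hD₀]
    simp
  have hEapp : ∀ (s : ℕ) (g : SemilinearAut K F), g ∈ G → ∀ w : Place K F,
      E s (g⁻¹ • w) = (D₀ : Divisor K F) (g⁻¹ • w) + (E s w - (D₀ : Divisor K F) w) := by
    intro s g hg w
    rw [hE, Finsupp.add_apply, Finsupp.add_apply, add_sub_cancel_left]
    congr 1
    rw [Finsupp.single_apply, Finsupp.single_apply]
    have hiff : (Pinf = g⁻¹ • w) ↔ (Pinf = w) := by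
      constructor
      · intro h
        have h1 : g • Pinf = w := by rw [h, smul_inv_smul]
        rw [← h1, hP g hg]
      · intro h
        rw [← h]
        have h1 : g⁻¹ • (g • Pinf) = g⁻¹ • Pinf := by rw [hP g hg]
        rw [inv_smul_smul] at h1
        exact h1
    by_cases h : Pinf = w
    · rw [if_pos h, if_pos (hiff.2 h)]
    · rw [if_neg h, if_neg (fun h' => h (hiff.1 h'))]
  -- some `L(E s)` is not zero
  obtain ⟨γ, hγ⟩ := S37RI_riemann_inequality x hx
  have hex : ∃ s : ℕ, ∃ f : F, f ∈ S37RI_LSpace (E s) ∧ f ≠ 0 := by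
    refine ⟨(γ + 2).toNat, ?_⟩
    by_contra hcon
    have hall : ∀ f : F, f ∈ S37RI_LSpace (E (γ + 2).toNat) → f = 0 := by
      intro f hf
      by_contra hf0
      exact hcon ⟨f, hf, hf0⟩
    haveI hsub : Subsingleton (S37RI_LSpace (E (γ + 2).toNat)) :=
      ⟨fun a b => Subtype.ext ((hall a a.2).trans (hall b b.2).symm)⟩
    have h0 : Module.finrank K (S37RI_LSpace (E (γ + 2).toNat)) = 0 :=
      Module.finrank_zero_of_subsingleton
    have h1 := hγ (E (γ + 2).toNat)
    rw [hEdeg, h0] at h1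
    have h3 : γ + 2 ≤ ((γ + 2).toNat : ℤ) := Int.self_le_toNat _
    have h4 : (((γ + 2).toNat : ℤ)) - 1 - γ ≤ 0 := by exact_mod_cast h1
    omega
  -- the minimal one
  obtain ⟨k, f, hfE, hf0, hmin⟩ : ∃ (k : ℕ) (f : F), f ∈ S37RI_LSpace (E (k + 1)) ∧ f ≠ 0 ∧
      ∀ f' : F, f' ∈ S37RI_LSpace (E k) → f' = 0 := by
    have hs := Nat.find_spec hex
    have hm : ∀ m : ℕ, m < Nat.find hex → ¬ ∃ f : F, f ∈ S37RI_LSpace (E m) ∧ f ≠ 0 :=
      fun m hm => Nat.find_min hex hm
    generalize Nat.find hex = s0 at hs hm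
    obtain ⟨f, hfE, hf0⟩ := hs
    rcases s0 with _ | k
    · exact absurd (S36DV_neg x hx hdeg (E 0) (by rw [hEdeg]; norm_num) f hfE) hf0
    · refine ⟨k, f, hfE, hf0, fun f' hf' => ?_⟩
      by_contra hne
      exact hm k (Nat.lt_succ_self k) ⟨f', hf', hne⟩
  have hfnot : f ∉ S37RI_LSpace (E k) := fun h => hf0 (hmin f h)
  have huniq : ∀ f' : F, f' ∈ S37RI_LSpace (E (k + 1)) → ∃ c : K, f' = c • f := by
    intro f' hf'
    rw [hEsucc] at hf'
    have hfE' := hfE
    rw [hEsucc] at hfE'
    obtain ⟨c, hc⟩ := S37RI_step x halg (E k) Pinf f' f hf' hfE' hfnot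
    exact ⟨c, sub_eq_zero.1 (hmin _ hc)⟩
  -- the divisor of `f`
  obtain ⟨Df, hDf, hDf0⟩ := Fermat.Agent.S24_helper6_A2.exists_divisor x hx hdeg f hf0
  have hkey : ∀ g ∈ G, ∀ w : Place K F,
      (D₀ : Divisor K F) (g⁻¹ • w) + Df (g⁻¹ • w) = (D₀ : Divisor K F) w + Df w := by
    intro g hg w
    -- the function `h` with `div h = D₀ - g D₀`
    have h1 : Pic0.mk (SemilinearAut.degZeroSMulHom g D₀) = Pic0.mk D₀ := hX g hg
    have h2 : -(SemilinearAut.degZeroSMulHom g D₀) + D₀ ∈
        (Divisor.principal (K := K) (F := F)).addSubgroupOf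
          (Divisor.degZero (K := K) (F := F)) := QuotientAddGroup.eq.1 h1
    rw [AddSubgroup.mem_addSubgroupOf] at h2
    obtain ⟨h, hh0, hh⟩ := h2
    have hh' : ∀ v : Place K F,
        v.ord h = (D₀ : Divisor K F) v - (D₀ : Divisor K F) (g⁻¹ • v) := by
      intro v
      rw [← hh v]
      simp only [AddSubgroup.coe_add, AddSubgroup.coe_neg, SemilinearAut.coe_degZeroSMulHom,
        Finsupp.add_apply, Finsupp.neg_apply, SemilinearAut.divisor_smul_apply]
      ring
    have hgf0 : g • f ≠ 0 := by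
      rw [SemilinearAut.smul_def]
      exact (map_ne_zero_iff _ (SemilinearAut.toRingAut g).injective).mpr hf0
    have hf''0 : (g • f) * h⁻¹ ≠ 0 := mul_ne_zero hgf0 (inv_ne_zero hh0)
    have hord : ∀ v : Place K F,
        v.ord ((g • f) * h⁻¹) = (g⁻¹ • v).ord f - v.ord h := by
      intro v
      rw [v.ord_mul hgf0 (inv_ne_zero hh0), v.ord_inv,
        Fermat.Agent.S34_helper21_D.S34D_ord_smul]
      ring
    have hmem : (g • f) * h⁻¹ ∈ S37RI_LSpace (E (k + 1)) := by
      rw [S37RI_mem_LSpace_iff_ord hf''0]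
      intro v
      have h3 := (S37RI_mem_LSpace_iff_ord hf0).mp hfE (g⁻¹ • v)
      rw [hEapp (k + 1) g hg v] at h3
      rw [hord v, hh' v]
      linarith
    obtain ⟨c, hc⟩ := huniq _ hmem
    have hc0 : c ≠ 0 := by
      rintro rfl
      rw [zero_smul] at hc
      exact hf''0 hc
    have hord2 : w.ord ((g • f) * h⁻¹) = w.ord f := by
      rw [hc, Algebra.smul_def,
        w.ord_mul ((map_ne_zero_iff _ (algebraMap K F).injective).mpr hc0) hf0,
        Fermat.Agent.S34_helper21_D.S34D_ord_const w c hc0, zero_add]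
    rw [hord w, hh' w] at hord2
    rw [hDf, hDf]
    linarith
  refine ⟨D₀ + ⟨Df, Divisor.mem_degZero.2 hDf0⟩, ?_, ?_⟩
  · rw [Pic0.mk_add]
    have h0 : Pic0.mk (⟨Df, Divisor.mem_degZero.2 hDf0⟩ :
        Divisor.degZero (K := K) (F := F)) = 0 := by
      apply (QuotientAddGroup.eq_zero_iff _).mpr
      rw [AddSubgroup.mem_addSubgroupOf]
      exact ⟨f, hf0, hDf⟩
    rw [h0, add_zero]
  · intro g hg P
    have h := hkey g⁻¹ (G.inv_mem hg) P
    rw [inv_inv] at h
    show ((D₀ : Divisor K F) + Df) (g • P) = ((D₀ : Divisor K F) + Df) P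
    rw [Finsupp.add_apply, Finsupp.add_apply]
    exact h

end Abstract

/-! ### The modular curve -/

local notation "Qb" => AlgebraicClosure ℚ
local notation "GQ" => (AlgebraicClosure ℚ ≃ₐ[ℚ] AlgebraicClosure ℚ)

variable (N : ℕ) [NeZero N]

/-- `1 / j` has order `1` at the cusp `∞`. -/
theorem S36DV_order_t :
    (((Fermat.Agent.S24.jElt N)⁻¹ : modularFunctionFieldBar N) : LaurentSeries Qb).order = 1 := by
  have h1 : ((Fermat.Agent.S24.jElt N : modularFunctionFieldBar N) : LaurentSeries Qb) =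
      coeffMap (algebraMap ℚ Qb) (jqModC ℚ) := by
    show coeffEmb Qb (qExpand ℚ 1 jq) = _
    rw [qExpand_one_apply]
    rfl
  rw [IntermediateField.coe_inv, h1, ← map_inv₀, S18K_order_coeffMap]
  exact S18K_order_jqModC_inv

/-- the place `∞` of `X₀(N)` over `ℚ̄`. -/
def S36DV_inf : Place Qb (modularFunctionFieldBar N) :=
  S18K_cuspPlace (Fermat.Agent.S24.jElt N)⁻¹ (S36DV_order_t N)

/-- the place `∞` is fixed by the Galois group. -/
theorem S36DV_cusp_fixed (τ : GQ) :
    arithmeticGalois (modularFunctionFieldFull N) τ • S36DV_inf N = S36DV_inf N := by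
  apply Place.ext
  rw [SemilinearAut.smul_toValuationSubring]
  ext y
  rw [ValuationSubring.mem_pointwise_smul_iff_inv_smul_mem, ← map_inv]
  show (arithmeticGalois (modularFunctionFieldFull N) τ⁻¹ • y) ∈
      S18K_cuspVS (modularFunctionFieldBar N) ↔ y ∈ S18K_cuspVS (modularFunctionFieldBar N)
  rw [S18K_mem_cuspVS, S18K_mem_cuspVS, coe_arithmeticGalois_smul, S18K_order_coeffMap]

/-- **(D)**: a class fixed by `H` is the class of a divisor invariant under `H`. -/
theorem S36DS_divisor (H : Subgroup GQ) (x : JZero N) (hx : ∀ τ ∈ H, τ • x = x) :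
    ∃ D : Divisor.degZero (K := Qb) (F := modularFunctionFieldBar N), Pic0.mk D = x ∧
      ∀ τ ∈ H, ∀ P : Place Qb (modularFunctionFieldBar N),
        (D : Divisor Qb (modularFunctionFieldBar N))
            (arithmeticGalois (modularFunctionFieldFull N) τ • P) =
          (D : Divisor Qb (modularFunctionFieldBar N)) P := by
  haveI := (Fermat.Agent.S24_helper23_DEG.DEG N).1
  obtain ⟨D, hD, hinv⟩ := S36DV_abstract (Fermat.Agent.S24.jElt N)
    (Fermat.Agent.S24_helper23_GEN.TR N) (Fermat.Agent.S37_helper21_B2.S37B2_deg_eq_one N)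
    (S36DV_inf N) (H.map (arithmeticGalois (modularFunctionFieldFull N)))
    (by
      rintro _ ⟨τ, hτ, rfl⟩
      exact S36DV_cusp_fixed N τ)
    x
    (by
      rintro _ ⟨τ, hτ, rfl⟩
      exact hx τ hτ)
  exact ⟨D, hD, fun τ hτ P => hinv _ (Subgroup.mem_map_of_mem _ hτ) P⟩

end Fermat.Agent.S36_helper26_DIV
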