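import Mathlib
import Fermat.Agent.G_helper12_OPENSTAB
import Fermat.Agent.S34_helper21_D

/-!
# S36, GEO36 (a), piece (F) (helper26): functions with a Galois-invariant divisor

`H` a subgroup of `G_ℚ`, `g ≠ 0` a function on `X₀(N)` over `ℚ̄` whose divisor is invariant under
`H`.  Then, after division by one of its nonzero coefficients, all the `Q`-expansion coefficients
of `g` are fixed by `H` (`S36DS_function`).

* `S36FN_const` : a function all of whose orders vanish is a nonzero constant;
* `S36FN_ord`   : `τ • g` has the orders of `g` for `τ ∈ H`;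
* `S36FN_smul`  : `τ • g = c_τ g` with a constant `c_τ ≠ 0`;
* `S36DS_function` : the statement (F) of the descent plan.
-/

set_option autoImplicit false
set_option linter.unusedSectionVars false
set_option linter.unusedVariables false
set_option linter.style.haveILetI false
set_option maxHeartbeats 1600000
set_option synthInstance.maxHeartbeats 400000

open ModularCurve AlgebraicCurve IntermediateField HahnSeries

noncomputable section

namespace Fermat.Agent.S36_helper26_FUN

local notation "Qb" => AlgebraicClosure ℚ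
local notation "GQ" => (AlgebraicClosure ℚ ≃ₐ[ℚ] AlgebraicClosure ℚ)

variable (N : ℕ) [NeZero N]

/-- a function all of whose orders vanish is a nonzero constant -/
theorem S36FN_const (h : modularFunctionFieldBar N) (h0 : h ≠ 0)
    (hord : ∀ P : Place Qb (modularFunctionFieldBar N), P.ord h = 0) :
    ∃ c : Qb, c ≠ 0 ∧ h = algebraMap Qb (modularFunctionFieldBar N) c := by
  haveI := (Fermat.Agent.S24_helper23_DEG.DEG N).1
  have hmem : h ∈ Fermat.Agent.S37_helper21_RI.S37RI_LSpace
      (0 : Divisor Qb (modularFunctionFieldBar N)) := by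
    rw [Fermat.Agent.S37_helper21_RI.S37RI_mem_LSpace_iff_ord h0]
    intro v
    rw [hord v, Finsupp.zero_apply, add_zero]
  have h1 := Fermat.Agent.S37_helper21_RI.S37RI_LSpace_zero_le
    (Fermat.Agent.S24.jElt N) (Fermat.Agent.S24_helper23_GEN.TR N) hmem
  rw [Submodule.mem_span_singleton] at h1
  obtain ⟨c, hc⟩ := h1
  refine ⟨c, ?_, ?_⟩
  · rintro rfl
    rw [zero_smul] at hc
    exact h0 hc.symm
  · rw [← hc, Algebra.smul_def, mul_one]

/-- for `τ ∈ H`, the function `τ • g` has the orders of `g`. -/
theorem S36FN_ord (H : Subgroup GQ) (g : modularFunctionFieldBar N)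
    (hdiv : ∀ τ ∈ H, ∀ P : Place Qb (modularFunctionFieldBar N),
      (arithmeticGalois (modularFunctionFieldFull N) τ • P).ord g = P.ord g)
    (τ : GQ) (hτ : τ ∈ H) (P : Place Qb (modularFunctionFieldBar N)) :
    P.ord (arithmeticGalois (modularFunctionFieldFull N) τ • g) = P.ord g := by
  rw [Fermat.Agent.S34_helper21_D.S34D_ord_smul, ← map_inv]
  exact hdiv τ⁻¹ (H.inv_mem hτ) P

/-- for `τ ∈ H`, `τ • g = c_τ g` with a constant `c_τ ≠ 0`. -/
theorem S36FN_smul (H : Subgroup GQ) (g : modularFunctionFieldBar N) (hg : g ≠ 0)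
    (hdiv : ∀ τ ∈ H, ∀ P : Place Qb (modularFunctionFieldBar N),
      (arithmeticGalois (modularFunctionFieldFull N) τ • P).ord g = P.ord g)
    (τ : GQ) (hτ : τ ∈ H) :
    ∃ c : Qb, c ≠ 0 ∧ arithmeticGalois (modularFunctionFieldFull N) τ • g =
      algebraMap Qb (modularFunctionFieldBar N) c * g := by
  have hτg : arithmeticGalois (modularFunctionFieldFull N) τ • g ≠ 0 := by
    rw [SemilinearAut.smul_def]
    exact (map_ne_zero_iff _
      (SemilinearAut.toRingAut (arithmeticGalois (modularFunctionFieldFull N) τ)).injective).mpr hg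
  obtain ⟨c, hc0, hc⟩ := S36FN_const N
    ((arithmeticGalois (modularFunctionFieldFull N) τ • g) * g⁻¹)
    (mul_ne_zero hτg (inv_ne_zero hg)) (fun P => by
      rw [P.ord_mul hτg (inv_ne_zero hg), P.ord_inv, S36FN_ord N H g hdiv τ hτ P]
      ring)
  refine ⟨c, hc0, ?_⟩
  rw [← hc, mul_assoc, inv_mul_cancel₀ hg, mul_one]

/-- **(F)**: a function whose divisor is invariant under `H` has, after normalisation by a
constant, all its coefficients fixed by `H`. -/
theorem S36DS_function (H : Subgroup GQ) (g : modularFunctionFieldBar N) (hg : g ≠ 0)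
    (hdiv : ∀ τ ∈ H, ∀ P : Place Qb (modularFunctionFieldBar N),
      (arithmeticGalois (modularFunctionFieldFull N) τ • P).ord g = P.ord g) :
    ∃ c : Qb, c ≠ 0 ∧ ∀ τ ∈ H, ∀ n : ℤ,
      τ ((HahnSeries.C c * (g : LaurentSeries Qb)).coeff n) =
        (HahnSeries.C c * (g : LaurentSeries Qb)).coeff n := by
  -- a nonzero coefficient
  have hg' : (g : LaurentSeries Qb) ≠ 0 := fun h => hg (Subtype.ext h)
  obtain ⟨n0, hn0⟩ : ∃ n0 : ℤ, (g : LaurentSeries Qb).coeff n0 ≠ 0 := by
    by_contra hcon
    exact hg' (HahnSeries.ext (funext fun k => by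
      by_contra hk
      exact hcon ⟨k, hk⟩))
  set a : Qb := (g : LaurentSeries Qb).coeff n0 with ha
  refine ⟨a⁻¹, inv_ne_zero hn0, fun τ hτ n => ?_⟩
  obtain ⟨c, hc0, hc⟩ := S36FN_smul N H g hg hdiv τ hτ
  -- on the coefficients
  have hcoef : ∀ k : ℤ, τ ((g : LaurentSeries Qb).coeff k) = c * (g : LaurentSeries Qb).coeff k := by
    intro k
    have h1 := congrArg (fun y : modularFunctionFieldBar N => (y : LaurentSeries Qb).coeff k) hc
    have h2 : ((arithmeticGalois (modularFunctionFieldFull N) τ • g : modularFunctionFieldBar N) :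
        LaurentSeries Qb).coeff k = τ ((g : LaurentSeries Qb).coeff k) := by
      rw [coe_arithmeticGalois_smul, coeffMap_coeff]
      rfl
    have h3 : ((algebraMap Qb (modularFunctionFieldBar N) c * g : modularFunctionFieldBar N) :
        LaurentSeries Qb).coeff k = c * (g : LaurentSeries Qb).coeff k := by
      show ((algebraMap Qb (LaurentSeries Qb) c) * (g : LaurentSeries Qb)).coeff k = _
      rw [algebraMap_laurentSeries_eq_single, ← HahnSeries.C_apply, HahnSeries.C_mul_eq_smul,
        HahnSeries.coeff_smul, smul_eq_mul]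
    exact h2.symm.trans (h1.trans h3)
  have hτa : τ a = c * a := hcoef n0
  rw [HahnSeries.C_mul_eq_smul, HahnSeries.coeff_smul, smul_eq_mul, map_mul, map_inv₀, hτa,
    hcoef n]
  field_simp

end Fermat.Agent.S36_helper26_FUN
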