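import Fermat.Agent.S36_helper4_NB
import Fermat.Agent.S36_helper4_XADefs

/-!
# S36, NORM-BRIDGE36, the `β` side (helper20)

Level `M' * q * q`, `q` prime, `q ∤ M'`.  The mirror of helper4's landed `S36NB_alpha_main` /
`S36NB_alpha_finset`:

* `S36NBB_wL_coeffMap` : the change of constants commutes with `W_(q²)`;
* `S36NBB_wbar2`       : `W_(q²)` as a ring automorphism of `F̄(M' q q)`;
* `S36NBB_wbar2_beta`  : `W_(q²) ∘ β = α ∘ w_q` over `ℚ̄`;
* `S36NBB_norm_beta`   : `N_α (W_(q²) x) = w_q (N_β x)`;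
* `S36NBB_beta_main`   : if `div f = n • D` and `β_* D` is principal, the norm of `W_(q²) f`
  along the inclusion is an `n`-th power, over every field of constants;
* `S36NBB_beta_finset` : helper4's predicate `S36XA_NewBeta K1 q M' hq hqM n f1` over every
  `K1` containing a finite set of constants.
-/

set_option autoImplicit false
set_option linter.unusedSectionVars false
set_option linter.unusedVariables false
set_option linter.style.haveILetI false

open HahnSeries IntermediateField AlgebraicCurve ModularCurve Module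
open Fermat.Agent.S35_helper20_NORMB Fermat.Agent.S35_helper20_NORMBK
  Fermat.Agent.S36_helper4_DEG Fermat.Agent.S36_helper4_NB Fermat.Agent.S36_helper4_XADefs
  Fermat.Agent.S18_helper25_COREDefs Fermat.Agent.S18_helper25_GLUE
  Fermat.Agent.S34_helper13_KEY Fermat.Agent.S34_helper27_V3K Fermat.Agent.S34_helper20_V0K
  Fermat.Agent.S34_helper20_WQ Fermat.Agent.S34_helper20_V0 Fermat.Agent.S36_helper20_WQQ
  Fermat.Agent.S24

noncomputable section

namespace Fermat.Agent.S36_helper20_NBB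

local notation "Qb" => AlgebraicClosure ℚ

/-! ### The change of constants commutes with `W_Q` -/

section WComm

variable {K1 K : Type*} [Field K1] [Field K] (emb1 : K1 →+* Kbar) (emb : K →+* Kbar)
  (φ : K1 →+* K) (Q M' N : ℕ) [NeZero M'] [NeZero N] [NeZero Q]
  (hcop : Nat.Coprime Q M') (hN : N = Q * M')

theorem S36NBB_fg (y : modularFunctionFieldFullC K1 N) :
    coeffMap φ ((S36WQ_w emb1 Q M' N hcop hN y : modularFunctionFieldFullC K1 N) :
      LaurentSeries K1) =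
    ((S36WQ_w emb Q M' N hcop hN (S35NBK_Φr φ N y) : modularFunctionFieldFullC K N) :
      LaurentSeries K) := by
  set f : modularFunctionFieldFullC K1 N →+* LaurentSeries K :=
    (coeffMap φ).comp ((algebraMap (modularFunctionFieldFullC K1 N) (LaurentSeries K1)).comp
      (S36WQ_w emb1 Q M' N hcop hN : modularFunctionFieldFullC K1 N →+*
        modularFunctionFieldFullC K1 N)) with hf
  set g : modularFunctionFieldFullC K1 N →+* LaurentSeries K :=
    (algebraMap (modularFunctionFieldFullC K N) (LaurentSeries K)).comp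
      ((S36WQ_w emb Q M' N hcop hN : modularFunctionFieldFullC K N →+*
        modularFunctionFieldFullC K N).comp (S35NBK_Φr φ N)) with hg
  have hfx : ∀ z, f z = coeffMap φ ((S36WQ_w emb1 Q M' N hcop hN z :
      modularFunctionFieldFullC K1 N) : LaurentSeries K1) := fun z => rfl
  have hgx : ∀ z, g z = ((S36WQ_w emb Q M' N hcop hN (S35NBK_Φr φ N z) :
      modularFunctionFieldFullC K N) : LaurentSeries K) := fun z => rfl
  rw [← hfx, ← hgx]
  refine S34WQ_ringHom_ext N f g ?_ ?_ y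
  · intro c hc
    rw [hfx, hgx, S36WQ_w_C]
    have e : S35NBK_Φr φ N ⟨HahnSeries.C c, hc⟩ =
        ⟨HahnSeries.C (φ c), S34V0_C_mem N _⟩ :=
      Subtype.ext (S35NBK_coeffMap_C φ c)
    rw [e, S36WQ_w_C]
    exact S35NBK_coeffMap_C φ c
  · intro d hd0 hd hm
    obtain ⟨a, a', d', hQ, hd', rfl⟩ := S36WQ_decomp hcop (hN ▸ hd)
    have hadpos : 0 < a * d' := Nat.pos_of_ne_zero (NeZero.ne (a * d'))
    have hd'pos : 0 < d' := Nat.pos_of_mul_pos_left hadpos
    have ha'pos : 0 < a' := by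
      rcases Nat.eq_zero_or_pos a' with h0 | h0
      · rw [h0, mul_zero] at hQ
        exact absurd hQ (NeZero.ne Q)
      · exact h0
    haveI : NeZero (a' * d') := ⟨Nat.mul_ne_zero ha'pos.ne' hd'pos.ne'⟩
    rw [hfx, hgx, S36WQ_w_gen emb1 Q M' N hcop hN a a' d' hQ hd' hm]
    have hm1 : qExpand K (a * d') (jqModC K) ∈ modularFunctionFieldFullC K N := by
      rw [← S18G_coeffMap_gen φ (a * d')]
      exact S18G_coeffMap_mem φ N hm
    have e : S35NBK_Φr φ N ⟨qExpand K1 (a * d') (jqModC K1), hm⟩ =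
        ⟨qExpand K (a * d') (jqModC K), hm1⟩ :=
      Subtype.ext (S18G_coeffMap_gen φ (a * d'))
    rw [e, S36WQ_w_gen emb Q M' N hcop hN a a' d' hQ hd' hm1]
    exact S18G_coeffMap_gen φ (a' * d')

/-- **the change of constants commutes with the Atkin–Lehner involution `W_Q`** -/
theorem S36NBB_wL_coeffMap {x : LaurentSeries K1} (hx : x ∈ modularFunctionFieldFullC K1 N) :
    coeffMap φ (S36WQ_wL emb1 Q M' N hcop hN x) =
      S36WQ_wL emb Q M' N hcop hN (coeffMap φ x) := by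
  rw [S36WQ_wL_of_mem emb1 Q M' N hcop hN hx,
    S36WQ_wL_of_mem emb Q M' N hcop hN (S18G_coeffMap_mem φ N hx)]
  exact S36NBB_fg emb1 emb φ Q M' N hcop hN ⟨x, hx⟩

end WComm

/-! ### The involution `W_(q²)` over `ℚ̄` and the norm along `β` -/

section Beta

variable (M' q : ℕ) [NeZero M'] [NeZero q] [NeZero (M' * q)] [NeZero (M' * q * q)]
  [NeZero (q ^ 2)] (hq : q.Prime) (hqM : ¬ q ∣ M')

/-- the Atkin–Lehner involution `W_(q²)` over `ℚ̄`, elementwise -/
abbrev S36NBB_wQ : LaurentSeries Qb → LaurentSeries Qb :=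
  S36WQ_wL (RingHom.id Qb) (q ^ 2) M' (M' * q * q) (S36WQ_cop hq hqM) S36XA_level_eq

/-- the Atkin–Lehner involution `W_(q²)` of `F̄(M' q q)` -/
def S36NBB_wbar2 :
    ↥(modularFunctionFieldBar (M' * q * q)) ≃+* ↥(modularFunctionFieldBar (M' * q * q)) where
  toFun x := ⟨S36NBB_wQ M' q hq hqM (x : LaurentSeries Qb),
    S18G_le_bar _ (S36WQ_wL_mem _ (q ^ 2) M' (M' * q * q) _ _ _)⟩
  invFun x := ⟨S36NBB_wQ M' q hq hqM (x : LaurentSeries Qb),
    S18G_le_bar _ (S36WQ_wL_mem _ (q ^ 2) M' (M' * q * q) _ _ _)⟩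
  left_inv x := Subtype.ext
    (S36WQ_wL_wL _ (q ^ 2) M' (M' * q * q) _ _ (S18G_bar_le _ x.2))
  right_inv x := Subtype.ext
    (S36WQ_wL_wL _ (q ^ 2) M' (M' * q * q) _ _ (S18G_bar_le _ x.2))
  map_mul' x y := Subtype.ext
    (S36WQ_wL_mul _ (q ^ 2) M' (M' * q * q) _ _ (S18G_bar_le _ x.2) (S18G_bar_le _ y.2))
  map_add' x y := Subtype.ext
    (S36WQ_wL_add _ (q ^ 2) M' (M' * q * q) _ _ (S18G_bar_le _ x.2) (S18G_bar_le _ y.2))

theorem S36NBB_wbar2_coe (x : ↥(modularFunctionFieldBar (M' * q * q))) :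
    ((S36NBB_wbar2 M' q hq hqM x : ↥(modularFunctionFieldBar (M' * q * q))) :
      LaurentSeries Qb) = S36NBB_wQ M' q hq hqM (x : LaurentSeries Qb) := rfl

theorem S36NBB_wbar2_wbar2 (x : ↥(modularFunctionFieldBar (M' * q * q))) :
    S36NBB_wbar2 M' q hq hqM (S36NBB_wbar2 M' q hq hqM x) = x :=
  (S36NBB_wbar2 M' q hq hqM).left_inv x

/-- `W_(q²) ∘ α ∘ w_q = β` over `ℚ̄` -/
theorem S36NBB_wbar2_alpha (c : ↥(modularFunctionFieldBar (M' * q))) :
    S36NBB_wbar2 M' q hq hqM ((heckeAlphaBar Qb (M' * q) q).toRingHom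
      (S35NBK_wbar M' q hq hqM (Nat.mul_comm M' q) c)) =
      (heckeBetaBar Qb (M' * q) q).toRingHom c := by
  apply Subtype.ext
  rw [S36NBB_wbar2_coe]
  have h1 : (((heckeAlphaBar Qb (M' * q) q).toRingHom
      (S35NBK_wbar M' q hq hqM (Nat.mul_comm M' q) c) :
      ↥(modularFunctionFieldBar (M' * q * q))) : LaurentSeries Qb) =
      ((S35NBK_wbar M' q hq hqM (Nat.mul_comm M' q) c : ↥(modularFunctionFieldBar (M' * q))) :
        LaurentSeries Qb) := coe_heckeAlphaBar (M' * q) q _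
  have h2 : (((heckeBetaBar Qb (M' * q) q).toRingHom c :
      ↥(modularFunctionFieldBar (M' * q * q))) : LaurentSeries Qb) =
      qExpand Qb q (c : LaurentSeries Qb) := coe_heckeBetaBar (M' * q) q c
  rw [h1, h2, S35NBK_wbar_coe]
  have hc : (c : LaurentSeries Qb) ∈ modularFunctionFieldFullC Qb (M' * q) :=
    S18G_bar_le (M' * q) c.2
  show S36WQ_wL (RingHom.id Qb) (q ^ 2) M' (M' * q * q) (S36WQ_cop hq hqM) S36XA_level_eq
    (S34V0_wL (RingHom.id Qb) q M' (M' * q) hq hqM (Nat.mul_comm M' q) (c : LaurentSeries Qb)) = _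
  rw [S34V0_wL_of_mem _ q M' (M' * q) hq hqM (Nat.mul_comm M' q) hc]
  exact S36WQ_beta (RingHom.id Qb) q M' (M' * q) (M' * q * q) hq hqM (Nat.mul_comm M' q)
    S36XA_level_eq ⟨(c : LaurentSeries Qb), hc⟩

/-- `W_(q²) ∘ β = α ∘ w_q` over `ℚ̄` -/
theorem S36NBB_wbar2_beta (c : ↥(modularFunctionFieldBar (M' * q))) :
    S36NBB_wbar2 M' q hq hqM ((heckeBetaBar Qb (M' * q) q).toRingHom c) =
      (heckeAlphaBar Qb (M' * q) q).toRingHom
        (S35NBK_wbar M' q hq hqM (Nat.mul_comm M' q) c) := by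
  rw [← S36NBB_wbar2_alpha M' q hq hqM c, S36NBB_wbar2_wbar2]

/-- **the norm along `α` of `W_(q²) x` is `w_q` of the norm along `β` of `x`.** -/
theorem S36NBB_norm_beta (x : ↥(modularFunctionFieldBar (M' * q * q))) :
    (letI := algebraAlong (heckeAlphaBar Qb (M' * q) q)
     Algebra.norm ↥(modularFunctionFieldBar (M' * q)) (S36NBB_wbar2 M' q hq hqM x)) =
    S35NBK_wbar M' q hq hqM (Nat.mul_comm M' q)
      (letI := algebraAlong (heckeBetaBar Qb (M' * q) q)
       Algebra.norm ↥(modularFunctionFieldBar (M' * q)) x) := by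
  have h := @Algebra.norm_eq_of_equiv_equiv ↥(modularFunctionFieldBar (M' * q))
    ↥(modularFunctionFieldBar (M' * q * q)) ↥(modularFunctionFieldBar (M' * q))
    ↥(modularFunctionFieldBar (M' * q * q)) _ _ _ _
    (heckeBetaBar Qb (M' * q) q).toRingHom.toAlgebra
    (heckeAlphaBar Qb (M' * q) q).toRingHom.toAlgebra
    (S35NBK_wbar M' q hq hqM (Nat.mul_comm M' q)) (S36NBB_wbar2 M' q hq hqM)
      (RingHom.ext fun c => (S36NBB_wbar2_beta M' q hq hqM c).symm) x
  have h' := congrArg (S35NBK_wbar M' q hq hqM (Nat.mul_comm M' q)) h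
  rw [RingEquiv.apply_symm_apply] at h'
  exact h'.symm

end Beta

/-! ### The bridge -/

section Main

variable (M' q : ℕ) [NeZero M'] [NeZero q] [NeZero (M' * q)] [NeZero (M' * q * q)]
  [NeZero (q ^ 2)] (hq : q.Prime) (hqM : ¬ q ∣ M')

/-- **NORM-BRIDGE36, `β` side.**  `D` a divisor on `X₀(M' q q)` over `ℚ̄` with `div f = n • D`
whose push-forward to `X₀(M' q)` along `β` is principal: there is `hB` of level `M' q` over `ℚ̄`
such that over EVERY field of constants `K1` over which `f` and `hB` are defined, the norm of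
`W_(q²) f` (along the inclusion) is `hB ^ n`. -/
theorem S36NBB_beta_main (n : ℕ) (hn : 0 < n)
    (hβ : HeckeBetaBarIntegral Qb (M' * q) q)
    (D : Divisor Qb (modularFunctionFieldBar (M' * q * q)))
    (f : modularFunctionFieldBar (M' * q * q)) (hf : f ≠ 0)
    (hord : ∀ P : Place Qb (modularFunctionFieldBar (M' * q * q)), P.ord f = (n : ℤ) * D P)
    (hprβ : (Divisor.pushforwardAlong (heckeBetaBar Qb (M' * q) q) hβ D).IsPrincipal) :
    ∃ hB : LaurentSeries Qb,
      hB ∈ modularFunctionFieldFullC Qb (M' * q) ∧ hB ≠ 0 ∧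
      ∀ (K1 : IntermediateField ℚ Qb) (f1 h2 : LaurentSeries K1)
        (hf1 : f1 ∈ modularFunctionFieldFullC K1 (M' * q * q)),
        coeffMap (algebraMap K1 Qb) f1 = (f : LaurentSeries Qb) →
        h2 ∈ modularFunctionFieldFullC K1 (M' * q) → coeffMap (algebraMap K1 Qb) h2 = hB →
        letI := S34KEY_alg (S34V3K_F1_mono K1 (S36XA_level_dvd M' q))
        ((Algebra.norm ↥(S18K_F1 K1 (M' * q))
          (⟨S36XA_W K1 q M' hq hqM f1, S36XA_W_mem K1 q M' hq hqM f1⟩ :
            ↥(S18K_F1 K1 (M' * q * q))) : ↥(S18K_F1 K1 (M' * q))) : LaurentSeries K1) =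
          h2 ^ n := by
  obtain ⟨hB, hB0, eB⟩ := S35NBK_norm_pow (heckeBetaBar Qb (M' * q) q) hβ
    (Fermat.Agent.S37_helper21_B0c.S37B0_finiteAlong_beta (M' * q) q)
    (S35NBK_normFormula (M' * q) q _ _) (S35NBK_const (M' * q)) n hn D f hf hord hprβ
  have eB' : (letI := algebraAlong (heckeAlphaBar Qb (M' * q) q)
      Algebra.norm ↥(modularFunctionFieldBar (M' * q)) (S36NBB_wbar2 M' q hq hqM f)) =
      (S35NBK_wbar M' q hq hqM (Nat.mul_comm M' q) hB) ^ n := by
    rw [S36NBB_norm_beta M' q hq hqM f, eB, map_pow]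
  have hB0' : S35NBK_wbar M' q hq hqM (Nat.mul_comm M' q) hB ≠ 0 := by
    intro h
    exact hB0 ((map_eq_zero_iff _ (S35NBK_wbar M' q hq hqM (Nat.mul_comm M' q)).injective).mp h)
  refine ⟨((S35NBK_wbar M' q hq hqM (Nat.mul_comm M' q) hB :
      ↥(modularFunctionFieldBar (M' * q))) : LaurentSeries Qb),
    S18G_bar_le (M' * q) (S35NBK_wbar M' q hq hqM (Nat.mul_comm M' q) hB).2,
    fun h => hB0' (Subtype.ext h), ?_⟩
  intro K1 f1 h2 hf1 ef hh2 e2
  letI := S34KEY_alg (S34V3K_F1_mono K1 (S36XA_level_dvd M' q))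
  apply S18G_coeffMap_injective (algebraMap K1 Qb)
  rw [map_pow, e2]
  have h := S36NB_desc_mul K1 (M' * q) q hq (dvd_mul_left q M') (Nat.mul_comm (M' * q) q)
    ⟨S36XA_W K1 q M' hq hqM f1, S36XA_W_mem K1 q M' hq hqM f1⟩
  have hinc : S35NBK_inc K1 (M' * q * q)
      ⟨S36XA_W K1 q M' hq hqM f1, S36XA_W_mem K1 q M' hq hqM f1⟩ =
      S36NBB_wbar2 M' q hq hqM f := by
    apply Subtype.ext
    rw [S35NBK_inc_coe, S36NBB_wbar2_coe, ← ef]
    exact S36NBB_wL_coeffMap (S34V0K_emb K1) (RingHom.id Qb) (algebraMap K1 Qb) (q ^ 2) M'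
      (M' * q * q) (S36WQ_cop hq hqM) S36XA_level_eq hf1
  rw [hinc, eB'] at h
  have h' := congrArg (fun z : ↥(modularFunctionFieldBar (M' * q)) => (z : LaurentSeries Qb)) h
  exact h'.symm

/-- **NORM-BRIDGE36, `β` side, with the level chosen by the consumer**: a finite set `S` of
constants such that over every `K1 ⊇ S` every `K1`-form `f1` of `f` is new along `β` in norm
form (helper4's `S36XA_NewBeta K1 q M' hq hqM n f1`, with the constant `c = 1`). -/
theorem S36NBB_beta_finset (n : ℕ) (hn : 0 < n)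
    (hβ : HeckeBetaBarIntegral Qb (M' * q) q)
    (D : Divisor Qb (modularFunctionFieldBar (M' * q * q)))
    (f : modularFunctionFieldBar (M' * q * q)) (hf : f ≠ 0)
    (hord : ∀ P : Place Qb (modularFunctionFieldBar (M' * q * q)), P.ord f = (n : ℤ) * D P)
    (hprβ : (Divisor.pushforwardAlong (heckeBetaBar Qb (M' * q) q) hβ D).IsPrincipal) :
    ∃ S : Finset Qb, ∀ (K1 : IntermediateField ℚ Qb), (∀ s ∈ S, s ∈ K1) →
      ∀ (f1 : LaurentSeries K1) (hf1 : f1 ∈ S18K_F1 K1 (M' * q * q)),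
        coeffMap (algebraMap K1 Qb) f1 = (f : LaurentSeries Qb) →
        S36XA_NewBeta K1 q M' hq hqM n f1 := by
  classical
  obtain ⟨hB, hBF, hB0, H⟩ := S36NBB_beta_main M' q hq hqM n hn hβ D f hf hord hprβ
  obtain ⟨S₁, hS₁⟩ := S18G_exists_finset (k₀ := ℚ) (M' * q) hBF
  refine ⟨S₁, fun K1 hK f1 hf1 ef => ?_⟩
  obtain ⟨h2, hh2, e2⟩ := hS₁ K1 hK
  have E2 := H K1 f1 h2 hf1 ef hh2 e2
  have h20 : h2 ≠ 0 := by
    rintro rfl
    rw [map_zero] at e2
    exact hB0 e2.symm
  refine ⟨1, one_ne_zero, h2, hh2, h20, ?_⟩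
  rw [map_one, one_mul]
  exact E2

end Main

end Fermat.Agent.S36_helper20_NBB
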