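import Mathlib
import Fermat.Agent.S36_helper20_NBB
import Fermat.Agent.S36_helper12_COEFF
import Fermat.Agent.S18_helper5_KERNEL
import Fermat.Agent.S18_helper25_CORE

/-!
# S36, NORM-BRIDGE36 at a FIXED field of constants (helper4)

Level `M' * q * q`, `K1` ANY intermediate field of `ℚ̄ / ℚ` (no enlargement: for S36 the level
`K1` is unramified at `A` and must not change).

* `S36N2_root`  : `g ∈ F(K1, N)` whose image over `ℚ̄` is an `n`-th power in `F(ℚ̄, N)` is a
  constant times an `n`-th power in `F(K1, N)` (root extraction in `K1((Q))`, the quotient of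
  two roots is algebraic over `ℚ̄`, hence constant; helper12's descent of coefficients);
* `S36N2_alpha` : `div f0 = n • D`, `α_* D` principal ⟹ `S35XD2_NewAlpha K1 q (M' q) n f0`;
* `S36N2_beta`  : `div f0 = n • D`, `β_* D` principal ⟹ `S36XA_NewBeta K1 q M' n f0`.
-/

set_option autoImplicit false
set_option linter.unusedSectionVars false
set_option linter.unusedVariables false
set_option linter.style.haveILetI false

open HahnSeries IntermediateField AlgebraicCurve ModularCurve Module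
open Fermat.Agent.S35_helper20_NORMB Fermat.Agent.S35_helper20_NORMBK
  Fermat.Agent.S36_helper4_DEG Fermat.Agent.S36_helper4_NB Fermat.Agent.S36_helper4_XADefs
  Fermat.Agent.S18_helper25_COREDefs Fermat.Agent.S18_helper25_GLUE
  Fermat.Agent.S18_helper25_COREA Fermat.Agent.S18_helper25_CORE
  Fermat.Agent.S34_helper13_KEY Fermat.Agent.S34_helper27_V3K Fermat.Agent.S34_helper20_V0K
  Fermat.Agent.S34_helper20_WQ Fermat.Agent.S34_helper20_V0 Fermat.Agent.S36_helper20_WQQ
  Fermat.Agent.S35_helper27_XD2Defs Fermat.Agent.S36_helper20_NBB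
  Fermat.Agent.S36_helper12_COEFF Fermat.Agent.S18_helper5_KERNEL
  Fermat.Agent.S34_helper25_Defs
  Fermat.Agent.S24

noncomputable section

namespace Fermat.Agent.S36_helper4_NB2

local notation "Qb" => AlgebraicClosure ℚ

section Root

/-- the order of a power -/
theorem S36N2_order_pow {K : Type*} [Field K] (x : LaurentSeries K) (hx : x ≠ 0) (n : ℕ) :
    (x ^ n).order = (n : ℤ) * x.order := by
  induction n with
  | zero => simp
  | succ k ih =>
    rw [pow_succ, HahnSeries.order_mul (pow_ne_zero k hx) hx, ih]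
    push_cast
    ring

/-- **root descent**: `g` over `K1` of level `N` whose image over `ℚ̄` is an `n`-th power of a
function of level `N` over `ℚ̄` is a constant times an `n`-th power over `K1`. -/
theorem S36N2_root (K1 : IntermediateField ℚ Qb) (N : ℕ) [NeZero N] (n : ℕ) (hn : 0 < n)
    (g : LaurentSeries K1) (hg0 : g ≠ 0)
    (hA : LaurentSeries Qb) (hAF : hA ∈ modularFunctionFieldFullC Qb N)
    (e : coeffMap (algebraMap K1 Qb) g = hA ^ n) :
    ∃ c : K1, c ≠ 0 ∧ ∃ h ∈ S18K_F1 K1 N, h ≠ 0 ∧ g = HahnSeries.C c * h ^ n := by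
  have hcg0 : coeffMap (algebraMap K1 Qb) g ≠ 0 := fun h =>
    hg0 (S18G_coeffMap_injective _ (by rw [h, map_zero]))
  have hA0 : hA ≠ 0 := by
    rintro rfl
    rw [zero_pow hn.ne'] at e
    exact hcg0 e
  -- the order of `g` is divisible by `n`
  have hord : ((n : ℕ) : ℤ) ∣ g.order := by
    rw [← S18K_order_coeffMap (algebraMap K1 Qb) g, e, S36N2_order_pow hA hA0]
    exact Dvd.intro _ rfl
  -- normalise the leading coefficient
  set a : K1 := g.coeff g.order with ha
  have ha0 : a ≠ 0 := fun h => hg0 (HahnSeries.coeff_order_eq_zero.mp h)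
  have hCa0 : (HahnSeries.C a⁻¹ : LaurentSeries K1) ≠ 0 := by
    intro h
    have := congrArg (fun z : LaurentSeries K1 => z.coeff 0) h
    simp at this
    exact ha0 this
  set g1 : LaurentSeries K1 := HahnSeries.C a⁻¹ * g with hg1
  have hg10 : g1 ≠ 0 := mul_ne_zero hCa0 hg0
  have hg1ord : g1.order = g.order := by
    rw [hg1, HahnSeries.order_mul hCa0 hg0, HahnSeries.order_C, zero_add]
  have hlead : g1.coeff g1.order = 1 := by
    rw [hg1ord, hg1, HahnSeries.C_mul_eq_smul, HahnSeries.coeff_smul, smul_eq_mul,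
      inv_mul_cancel₀ ha0]
  have hnK : ((n : ℕ) : K1) ≠ 0 := Nat.cast_ne_zero.mpr hn.ne'
  obtain ⟨h1, hh1⟩ := S18K_exists_root n hnK g1 hg10 (by rw [hg1ord]; exact hord)
    ⟨1, by rw [one_pow, hlead]⟩
  have hh10 : h1 ≠ 0 := by
    rintro rfl
    rw [zero_pow hn.ne'] at hh1
    exact hg10 hh1.symm
  have hch10 : coeffMap (algebraMap K1 Qb) h1 ≠ 0 := fun h =>
    hh10 (S18G_coeffMap_injective _ (by rw [h, map_zero]))
  -- the quotient of the two roots is a constant
  have eH : (coeffMap (algebraMap K1 Qb) h1) ^ n =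
      algebraMap Qb (LaurentSeries Qb) (algebraMap K1 Qb a⁻¹) *
        coeffMap (algebraMap K1 Qb) g := by
    rw [← map_pow, hh1, hg1, map_mul, ← S18G_coeffMap_algebraMap,
      algebraMap_laurentSeries_eq_single]
    rfl
  have ha'0 : algebraMap Qb (LaurentSeries Qb) (algebraMap K1 Qb a⁻¹) ≠ 0 := by
    rw [Ne, map_eq_zero_iff _ (algebraMap Qb (LaurentSeries Qb)).injective,
      map_eq_zero_iff _ (algebraMap K1 Qb).injective]
    exact inv_ne_zero ha0
  set ρ : LaurentSeries Qb := hA * (coeffMap (algebraMap K1 Qb) h1)⁻¹ with hρ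
  have hρ0 : ρ ≠ 0 := mul_ne_zero hA0 (inv_ne_zero hch10)
  have hρn : ρ ^ n = algebraMap Qb (LaurentSeries Qb) (algebraMap K1 Qb a) := by
    have h1' : ρ ^ n * (algebraMap Qb (LaurentSeries Qb) (algebraMap K1 Qb a⁻¹)) = 1 := by
      rw [hρ, mul_pow, inv_pow, eH, ← e, mul_inv, mul_assoc, mul_comm _ (coeffMap _ g)⁻¹,
        mul_assoc, inv_mul_cancel₀ ha'0, mul_one, mul_inv_cancel₀ hcg0]
    have h2' : algebraMap Qb (LaurentSeries Qb) (algebraMap K1 Qb a) *
        algebraMap Qb (LaurentSeries Qb) (algebraMap K1 Qb a⁻¹) = 1 := by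
      rw [← map_mul, ← map_mul, mul_inv_cancel₀ ha0, map_one, map_one]
    exact mul_right_cancel₀ ha'0 (h1'.trans h2'.symm)
  have hint : IsIntegral Qb ρ := by
    refine IsIntegral.of_pow hn ?_
    rw [hρn]
    exact isIntegral_algebraMap
  obtain ⟨r, hr⟩ := S18KER_mem_range_of_isAlgebraic hint.isAlgebraic
  have hr0 : r ≠ 0 := by
    rintro rfl
    rw [map_zero] at hr
    exact hρ0 hr.symm
  have hmem : coeffMap (algebraMap K1 Qb) h1 ∈ modularFunctionFieldFullC Qb N := by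
    have e1 : coeffMap (algebraMap K1 Qb) h1 = hA * algebraMap Qb (LaurentSeries Qb) r⁻¹ := by
      rw [map_inv₀, hr, hρ]
      field_simp
    rw [e1]
    exact mul_mem hAF (IntermediateField.algebraMap_mem _ _)
  refine ⟨a, ha0, h1, S36DC_mem K1 N h1 hmem, hh10, ?_⟩
  rw [hh1, hg1, ← mul_assoc, ← map_mul, mul_inv_cancel₀ ha0, map_one, one_mul]

end Root

/-! ### The `α` side at a fixed `K1` -/

section Alpha

variable (K1 : IntermediateField ℚ Qb) (N q : ℕ) [NeZero N] [NeZero q] [NeZero (N * q)]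
  (hq : q.Prime) (hqN : q ∣ N)

include hq hqN

/-- **NORM-BRIDGE36 at a fixed `K1`, `α` side**: `div f0 = n • D` and `α_* D` principal give the
newness of `f0` along `α` in norm form over the SAME `K1`. -/
theorem S36N2_alpha (n : ℕ) (hn : 0 < n)
    (hα : HeckeAlphaBarIntegral Qb N q)
    (D : Divisor Qb (modularFunctionFieldBar (N * q)))
    (f0 : LaurentSeries K1) (hf0 : f0 ∈ S18K_F1 K1 (N * q)) (hf00 : f0 ≠ 0)
    (hord : ∀ P : Place Qb (modularFunctionFieldBar (N * q)),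
      P.ord (S34XD_inc K1 (N * q) ⟨f0, hf0⟩) = (n : ℤ) * D P)
    (hprα : (Divisor.pushforwardAlong (heckeAlphaBar Qb N q) hα D).IsPrincipal) :
    S35XD2_NewAlpha K1 q N n f0 hf0 := by
  have hf : S35NBK_inc K1 (N * q) ⟨f0, hf0⟩ ≠ 0 := by
    intro h
    have h' := congrArg (fun z : ↥(modularFunctionFieldBar (N * q)) => (z : LaurentSeries Qb)) h
    exact hf00 (S18G_coeffMap_injective (algebraMap K1 Qb) (by
      rw [map_zero]; exact h'))
  obtain ⟨hA, hA0, eA⟩ := S35NBK_norm_pow (heckeAlphaBar Qb N q) hα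
    (Fermat.Agent.S37_helper21_B0c.S37B0_finiteAlong_alpha N q)
    (S35NBK_normFormula N q _ _) (S35NBK_const N) n hn D
    (S35NBK_inc K1 (N * q) ⟨f0, hf0⟩) hf hord hprα
  letI := S34KEY_alg (S34V3K_F1_mono K1 (S34V0K_dvd (Nat.mul_comm N q)))
  have h := S36NB_desc_mul K1 N q hq hqN (Nat.mul_comm N q) ⟨f0, hf0⟩
  rw [eA] at h
  have e : coeffMap (algebraMap K1 Qb)
      ((Algebra.norm ↥(S18K_F1 K1 N) (⟨f0, hf0⟩ : ↥(S18K_F1 K1 (N * q))) :
        ↥(S18K_F1 K1 N)) : LaurentSeries K1) = (hA : LaurentSeries Qb) ^ n := by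
    have h' := congrArg (fun z : ↥(modularFunctionFieldBar N) => (z : LaurentSeries Qb)) h
    exact h'.symm
  have hA0' : (hA : LaurentSeries Qb) ≠ 0 := fun h => hA0 (Subtype.ext h)
  have hg0 : ((Algebra.norm ↥(S18K_F1 K1 N) (⟨f0, hf0⟩ : ↥(S18K_F1 K1 (N * q))) :
        ↥(S18K_F1 K1 N)) : LaurentSeries K1) ≠ 0 := by
    intro h0
    rw [h0, map_zero] at e
    exact pow_ne_zero n hA0' e.symm
  exact S36N2_root K1 N n hn _ hg0 (hA : LaurentSeries Qb) (S18G_bar_le N hA.2) e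

end Alpha

/-! ### The `β` side at a fixed `K1` -/

section Beta

variable (K1 : IntermediateField ℚ Qb) (M' q : ℕ) [NeZero M'] [NeZero q] [NeZero (M' * q)]
  [NeZero (M' * q * q)] [NeZero (q ^ 2)] (hq : q.Prime) (hqM : ¬ q ∣ M')

/-- **NORM-BRIDGE36 at a fixed `K1`, `β` side**: `div f0 = n • D` and `β_* D` principal give the
newness of `f0` along `β` in norm form (`S36XA_NewBeta`) over the SAME `K1`. -/
theorem S36N2_beta (n : ℕ) (hn : 0 < n)
    (hβ : HeckeBetaBarIntegral Qb (M' * q) q)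
    (D : Divisor Qb (modularFunctionFieldBar (M' * q * q)))
    (f0 : LaurentSeries K1) (hf0 : f0 ∈ S18K_F1 K1 (M' * q * q)) (hf00 : f0 ≠ 0)
    (hord : ∀ P : Place Qb (modularFunctionFieldBar (M' * q * q)),
      P.ord (S34XD_inc K1 (M' * q * q) ⟨f0, hf0⟩) = (n : ℤ) * D P)
    (hprβ : (Divisor.pushforwardAlong (heckeBetaBar Qb (M' * q) q) hβ D).IsPrincipal) :
    S36XA_NewBeta K1 q M' hq hqM n f0 := by
  have hf : S35NBK_inc K1 (M' * q * q) ⟨f0, hf0⟩ ≠ 0 := by
    intro h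
    have h' := congrArg
      (fun z : ↥(modularFunctionFieldBar (M' * q * q)) => (z : LaurentSeries Qb)) h
    exact hf00 (S18G_coeffMap_injective (algebraMap K1 Qb) (by
      rw [map_zero]; exact h'))
  obtain ⟨hB, hB0, eB⟩ := S35NBK_norm_pow (heckeBetaBar Qb (M' * q) q) hβ
    (Fermat.Agent.S37_helper21_B0c.S37B0_finiteAlong_beta (M' * q) q)
    (S35NBK_normFormula (M' * q) q _ _) (S35NBK_const (M' * q)) n hn D
    (S35NBK_inc K1 (M' * q * q) ⟨f0, hf0⟩) hf hord hprβ
  have eB' : (letI := algebraAlong (heckeAlphaBar Qb (M' * q) q)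
      Algebra.norm ↥(modularFunctionFieldBar (M' * q))
        (S36NBB_wbar2 M' q hq hqM (S35NBK_inc K1 (M' * q * q) ⟨f0, hf0⟩))) =
      (S35NBK_wbar M' q hq hqM (Nat.mul_comm M' q) hB) ^ n := by
    rw [S36NBB_norm_beta M' q hq hqM _, eB, map_pow]
  have hB0' : S35NBK_wbar M' q hq hqM (Nat.mul_comm M' q) hB ≠ 0 := by
    intro h
    exact hB0 ((map_eq_zero_iff _ (S35NBK_wbar M' q hq hqM (Nat.mul_comm M' q)).injective).mp h)
  letI := S34KEY_alg (S34V3K_F1_mono K1 (S36XA_level_dvd M' q))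
  have h := S36NB_desc_mul K1 (M' * q) q hq (dvd_mul_left q M') (Nat.mul_comm (M' * q) q)
    ⟨S36XA_W K1 q M' hq hqM f0, S36XA_W_mem K1 q M' hq hqM f0⟩
  have hinc : S35NBK_inc K1 (M' * q * q)
      ⟨S36XA_W K1 q M' hq hqM f0, S36XA_W_mem K1 q M' hq hqM f0⟩ =
      S36NBB_wbar2 M' q hq hqM (S35NBK_inc K1 (M' * q * q) ⟨f0, hf0⟩) := by
    apply Subtype.ext
    rw [S35NBK_inc_coe, S36NBB_wbar2_coe, S35NBK_inc_coe]
    exact S36NBB_wL_coeffMap (S34V0K_emb K1) (RingHom.id Qb) (algebraMap K1 Qb) (q ^ 2) M'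
      (M' * q * q) (S36WQ_cop hq hqM) S36XA_level_eq hf0
  rw [hinc, eB'] at h
  have e : coeffMap (algebraMap K1 Qb)
      ((Algebra.norm ↥(S18K_F1 K1 (M' * q))
        (⟨S36XA_W K1 q M' hq hqM f0, S36XA_W_mem K1 q M' hq hqM f0⟩ :
          ↥(S18K_F1 K1 (M' * q * q))) : ↥(S18K_F1 K1 (M' * q))) : LaurentSeries K1) =
      ((S35NBK_wbar M' q hq hqM (Nat.mul_comm M' q) hB : ↥(modularFunctionFieldBar (M' * q))) :
        LaurentSeries Qb) ^ n := by
    have h' := congrArg (fun z : ↥(modularFunctionFieldBar (M' * q)) => (z : LaurentSeries Qb)) h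
    exact h'.symm
  have hB0'' : ((S35NBK_wbar M' q hq hqM (Nat.mul_comm M' q) hB :
      ↥(modularFunctionFieldBar (M' * q))) : LaurentSeries Qb) ≠ 0 :=
    fun h => hB0' (Subtype.ext h)
  have hg0 : ((Algebra.norm ↥(S18K_F1 K1 (M' * q))
        (⟨S36XA_W K1 q M' hq hqM f0, S36XA_W_mem K1 q M' hq hqM f0⟩ :
          ↥(S18K_F1 K1 (M' * q * q))) : ↥(S18K_F1 K1 (M' * q))) : LaurentSeries K1) ≠ 0 := by
    intro h0
    rw [h0, map_zero] at e
    exact pow_ne_zero n hB0'' e.symm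
  exact S36N2_root K1 (M' * q) n hn _ hg0 _
    (S18G_bar_le (M' * q) (S35NBK_wbar M' q hq hqM (Nat.mul_comm M' q) hB).2) e

end Beta

end Fermat.Agent.S36_helper4_NB2
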