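import Mathlib
import Fermat.Agent.S36_helper4_NB2
import Fermat.Agent.S34_helper6_RED
import Fermat.Agent.S24_helper6_A2

/-!
# S36, X-D36 Part I (helper4): `S36XA_Desc` + `S36XA_KeyK1` ⟹ `S36C_Geo`

Level `M' * q * q`, `q ∤ M'`, `A` a valuation subring of `ℚ̄`.

* `S36XA_abs`  : abstract reduction of the exponent (a property stable under multiples; if the
  classes killed by `p ^ (c + 1)` with the property are killed by `p ^ c`, so are all classes of
  `p`-power order with the property);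
* `S36XA_core` : a new, inertia-fixed class killed by `lam ^ (c + 1)` is killed by `lam ^ c`
  (descent `S36XA_Desc` to an unramified level `K1`, norm bridge at the fixed `K1`
  (`S36N2_alpha`, `S36N2_beta`), the key statement `S36XA_KeyK1`, ascent);
* `S36XA_geo`  : **Part I**: `S36C_Geo (M' * q * q) lam A α_* β_* c`.
-/

set_option autoImplicit false
set_option linter.unusedSectionVars false
set_option linter.unusedVariables false
set_option linter.style.haveILetI false

open HahnSeries IntermediateField AlgebraicCurve ModularCurve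
open Fermat.Agent.S18_helper25_COREDefs Fermat.Agent.S34_helper25_Defs
  Fermat.Agent.S18_helper25_GLUE Fermat.Agent.S18_helper19_PLACEMOD
  Fermat.Agent.S34_helper6_RED Fermat.Agent.S35_helper6_PUSH
  Fermat.Agent.S35_helper27_XD2Defs Fermat.Agent.S36_helper20_WQQ
  Fermat.Agent.S36_helper18_Contracts Fermat.Agent.S36_helper4_XADefs
  Fermat.Agent.S36_helper4_NB2 Fermat.Agent.G_helper21_B0L

noncomputable section

namespace Fermat.Agent.S36_helper4_XA

local notation "Qb" => AlgebraicClosure ℚ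
local notation "GQ" => (AlgebraicClosure ℚ ≃ₐ[ℚ] AlgebraicClosure ℚ)

/-- **abstract reduction of the exponent** -/
theorem S36XA_abs {J : Type*} [AddCommGroup J] (Good : J → Prop)
    (hGood : ∀ (n : ℕ) (x : J), Good x → Good (n • x)) (p c : ℕ)
    (core : ∀ x : J, (p ^ (c + 1)) • x = 0 → Good x → (p ^ c) • x = 0) :
    ∀ (k : ℕ) (x : J), (p ^ k) • x = 0 → Good x → (p ^ c) • x = 0 := by
  intro k
  induction k with
  | zero =>
    intro x hx _
    rw [pow_zero, one_smul] at hx
    rw [hx, smul_zero]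
  | succ k ih =>
    intro x hx hg
    by_cases hk : k + 1 ≤ c
    · obtain ⟨d, rfl⟩ := Nat.exists_eq_add_of_le hk
      rw [_root_.pow_add, mul_comm, mul_smul, hx, smul_zero]
    · have hck : c ≤ k := by omega
      obtain ⟨d, rfl⟩ := Nat.exists_eq_add_of_le hck
      have h1 : (p ^ (c + 1)) • ((p ^ d) • x) = 0 := by
        rw [← mul_smul, ← _root_.pow_add]
        have : c + 1 + d = c + d + 1 := by ring
        rw [this]
        exact hx
      have h2 := core _ h1 (hGood _ _ hg)
      apply ih x _ hg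
      rw [_root_.pow_add, mul_smul]
      exact h2

section Core

variable (M' q lam c : ℕ) [NeZero M'] [NeZero q] [NeZero (M' * q)] [NeZero (M' * q * q)]
  [NeZero (q ^ 2)] (hq : q.Prime) (hqM : ¬ q ∣ M') (hlam : lam.Prime)
  (A : ValuationSubring Qb)

include hlam

/-- **the core of Part I**: a NEW inertia-fixed class killed by `lam ^ (c + 1)` is killed by
`lam ^ c`. -/
theorem S36XA_core (hDesc : S36XA_Desc (M' * q * q) A q)
    (hKey : S36XA_KeyK1 M' q lam c hq hqM A)
    (x : JZero (M' * q * q)) (hx : (lam ^ (c + 1)) • x = 0)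
    (hα : S35PU_alpha (M' * q) q x = 0) (hβ : S35PU_beta (M' * q) q x = 0)
    (hfix : ∀ τ : GQ, τ ∈ A.inertiaSubgroupIn ℚ → τ • x = x) :
    (lam ^ c) • x = 0 := by
  have hn : 0 < lam ^ (c + 1) := pow_pos hlam.pos _
  obtain ⟨K1, hL, D, hD, hDx, f0, hf0, hf00, hord⟩ := hDesc (lam ^ (c + 1)) hn x hx hfix
  subst hDx
  have hprα := (S35PU_alpha_eq_zero_iff (M' * q) q ⟨D, hD⟩).mp hα
  have hprβ := (S35PU_beta_eq_zero_iff (M' * q) q ⟨D, hD⟩).mp hβ
  have hNA : S35XD2_NewAlpha K1 q (M' * q) (lam ^ (c + 1)) f0 hf0 :=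
    S36N2_alpha K1 (M' * q) q hq (dvd_mul_left q M') (lam ^ (c + 1)) hn
      (PG_B0L_heckeAlphaBarIntegral Qb (M' * q) q) D f0 hf0 hf00 hord hprα
  have hNB : S36XA_NewBeta K1 q M' hq hqM (lam ^ (c + 1)) f0 :=
    S36N2_beta K1 M' q hq hqM (lam ^ (c + 1)) hn
      (PG_B0L_heckeBetaBarIntegral Qb (M' * q) q) D f0 hf0 hf00 hord hprβ
  obtain ⟨e, w, he, hw, hfw⟩ := hKey K1 hL D hD f0 hf0 hf00 hord hNA hNB
  have hw0 : w ≠ 0 := by
    rintro rfl
    rw [zero_pow hlam.ne_zero, mul_zero] at hfw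
    exact hf00 hfw
  have hW0 : S34XD_inc K1 (M' * q * q) ⟨w, hw⟩ ≠ 0 := by
    intro h
    have h' := congrArg
      (fun z : ↥(modularFunctionFieldBar (M' * q * q)) => (z : LaurentSeries Qb)) h
    exact hw0 (S18G_coeffMap_injective (algebraMap K1 Qb) (by rw [map_zero]; exact h'))
  have he' : algebraMap Qb (modularFunctionFieldBar (M' * q * q)) (algebraMap K1 Qb e) ≠ 0 := by
    intro h
    have h1 := (algebraMap Qb (modularFunctionFieldBar (M' * q * q))).injective
      (by rw [h, map_zero] : algebraMap Qb (modularFunctionFieldBar (M' * q * q))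
        (algebraMap K1 Qb e) = algebraMap Qb (modularFunctionFieldBar (M' * q * q)) 0)
    exact he ((algebraMap K1 Qb).injective (by rw [h1, map_zero]))
  have e1 : S34XD_inc K1 (M' * q * q) ⟨f0, hf0⟩ =
      algebraMap Qb (modularFunctionFieldBar (M' * q * q)) (algebraMap K1 Qb e) *
        (S34XD_inc K1 (M' * q * q) ⟨w, hw⟩) ^ lam := by
    apply Subtype.ext
    show coeffMap (algebraMap K1 Qb) f0 =
      algebraMap Qb (LaurentSeries Qb) (algebraMap K1 Qb e) *
        (coeffMap (algebraMap K1 Qb) w) ^ lam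
    rw [hfw, map_mul, map_pow, ← S18G_coeffMap_algebraMap, algebraMap_laurentSeries_eq_single]
    rfl
  have hordw : ∀ P : Place Qb (modularFunctionFieldBar (M' * q * q)),
      P.ord (S34XD_inc K1 (M' * q * q) ⟨w, hw⟩) = ((lam ^ c : ℕ) : ℤ) * D P := by
    intro P
    have h1 := hord P
    rw [e1, Place.ord_mul _ he' (pow_ne_zero _ hW0),
      Fermat.Agent.S24_helper6_A2.ord_algebraMap_eq_zero, zero_add, ← zpow_natCast,
      Place.ord_zpow] at h1
    have h2 : (lam : ℤ) * P.ord (S34XD_inc K1 (M' * q * q) ⟨w, hw⟩) =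
        (lam : ℤ) * (((lam ^ c : ℕ) : ℤ) * D P) := by
      rw [h1]
      push_cast
      ring
    exact mul_left_cancel₀ (Int.natCast_ne_zero.2 hlam.ne_zero) h2
  have hmk : (lam ^ c) • (Pic0.mk ⟨D, hD⟩ : JZero (M' * q * q)) =
      Pic0.mk ((lam ^ c) • (⟨D, hD⟩ :
        Divisor.degZero (K := Qb) (F := modularFunctionFieldBar (M' * q * q)))) := rfl
  rw [hmk, S34R_mk_eq_zero_iff]
  refine ⟨S34XD_inc K1 (M' * q * q) ⟨w, hw⟩, hW0, fun P => ?_⟩
  rw [hordw P]
  simp [Finsupp.smul_apply]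

/-- **X-D36, Part I.**  The descent contract (`S36XA_Desc`, helper21) and the key statement at
one unramified level (`S36XA_KeyK1`, Part II, helper3) give (GEO36) at the level `M' * q * q`
with the exponent `c`. -/
theorem S36XA_geo (hDesc : S36XA_Desc (M' * q * q) A q)
    (hKey : S36XA_KeyK1 M' q lam c hq hqM A) :
    S36C_Geo (M' * q * q) lam A (S35PU_alpha (M' * q) q) (S35PU_beta (M' * q) q) c := by
  intro k x hx hα hβ hfix
  refine S36XA_abs (J := JZero (M' * q * q))
    (fun y => S35PU_alpha (M' * q) q y = 0 ∧ S35PU_beta (M' * q) q y = 0 ∧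
      ∀ τ : GQ, τ ∈ A.inertiaSubgroupIn ℚ → τ • y = y) ?_ lam c ?_ k x hx ⟨hα, hβ, hfix⟩
  · rintro n y ⟨h1, h2, h3⟩
    refine ⟨by rw [map_nsmul, h1, smul_zero], by rw [map_nsmul, h2, smul_zero], fun τ hτ => ?_⟩
    have h4 : τ • (n • y) = n • (τ • y) :=
      map_nsmul (DistribSMul.toAddMonoidHom (JZero (M' * q * q)) τ) n y
    rw [h4, h3 τ hτ]
  · rintro y hy ⟨h1, h2, h3⟩
    exact S36XA_core M' q lam c hq hqM hlam A hDesc hKey y hy h1 h2 h3

end Core

end Fermat.Agent.S36_helper4_XA
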