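import Mathlib
import Fermat.Agent.S36_helper4_XA
import Fermat.Agent.S36_helper25_MGLUE
import Fermat.Agent.S36_helper21_UNRAM
import Fermat.Agent.S36_helper26_DIV
import Fermat.Agent.S36_helper26_FUN
import Fermat.Agent.S36_helper23_BCPLUG

/-!
# S36, (GEO36) from the key statement at one level ALONE (helper4)

Everything of (GEO36) except Part II is discharged here:

* `S36GM_desc`     : **the H90 descent, no hypothesis**: `S36XA_Desc M A q` for every level `M`
  and every valuation subring `A` over a prime `q` (helper21's UNRAM: the inertia field is an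
  admissible level; helper26's (D) DIV and (F) FUN; helper25's (M)-GLUE; helper12's COEFF);
* `S36GM_geoAt`    : `S36C_GeoAt M' q lam` from `∀ A over q, ∃ c, S36XA_KeyK1 M' q lam c hq hqM A`
  (Part I, `S36XA_geo`);
* `S36GM_geoInput` : **`S36C_GeoInput`** from the key statement at the levels `N' * r`,
  `r = S36BC_aux q` (`4` for `q` odd, `9` for `q = 2`; helper23 + helper25's descent
  `N' * r → N'`).
-/

set_option autoImplicit false
set_option linter.unusedSectionVars false
set_option linter.unusedVariables false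
set_option linter.style.haveILetI false

open AlgebraicCurve ModularCurve
open Fermat.Agent.S36_helper18_Contracts Fermat.Agent.S36_helper4_XADefs
  Fermat.Agent.S36_helper4_XA Fermat.Agent.S36_helper25_MGLUE
  Fermat.Agent.S36_helper21_UNRAM Fermat.Agent.S36_helper26_DIV Fermat.Agent.S36_helper26_FUN
  Fermat.Agent.S36_helper23_BCPLUG Fermat.Agent.S35_helper6_PUSH

noncomputable section

namespace Fermat.Agent.S36_helper4_GEOMAIN

local notation "Qb" => AlgebraicClosure ℚ
local notation "GQ" => (AlgebraicClosure ℚ ≃ₐ[ℚ] AlgebraicClosure ℚ)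

/-- **the H90 descent, no hypothesis left**: an inertia-fixed torsion class of `J₀(M)` is
represented by a divisor `D` and a function `f0` over the inertia field of `A` (an unramified
admissible level) with `div f0 = n • D`. -/
theorem S36GM_desc (M : ℕ) [NeZero M] {q : ℕ} (hq : q.Prime) (A : ValuationSubring Qb)
    (hA : A.LiesOverPrime q) : S36XA_Desc M A q :=
  S36MG_desc_inertiaField M A q (S36DS_admissible_E hq A hA)
    (fun x hx => S36DS_divisor M (A.inertiaSubgroupIn ℚ) x hx)
    (fun g hg hdiv => S36DS_function M (A.inertiaSubgroupIn ℚ) g hg hdiv)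

/-- **(GEO36) at the level `M' * q * q`** from the key statement at one level. -/
theorem S36GM_geoAt (M' q lam : ℕ) [NeZero M'] [NeZero q] [NeZero (M' * q)]
    [NeZero (M' * q * q)] [NeZero (q ^ 2)] (hq : q.Prime) (hqM : ¬ q ∣ M') (hlam : lam.Prime)
    (hKey : ∀ A : ValuationSubring Qb, A.LiesOverPrime q →
      ∃ c : ℕ, S36XA_KeyK1 M' q lam c hq hqM A) :
    S36C_GeoAt M' q lam := by
  intro A hA
  obtain ⟨c, hc⟩ := hKey A hA
  exact ⟨c, S36XA_geo M' q lam c hq hqM hlam A (S36GM_desc (M' * q * q) hq A hA) hc⟩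

/-- `q ∤ N' * r` for `r = S36BC_aux q`. -/
theorem S36GM_not_dvd {N' q : ℕ} (hq : q.Prime) (hqN : ¬ q ∣ N') :
    ¬ q ∣ N' * S36BC_aux q := by
  intro h
  rcases (Nat.Prime.dvd_mul hq).mp h with h1 | h1
  · exact hqN h1
  · exact S36BC_aux_not_dvd q hq h1

/-- **`S36C_GeoInput` from the key statement at the levels `N' * r`.** -/
theorem S36GM_geoInput
    (hKey : ∀ (N' q lam : ℕ) [NeZero N'] [NeZero q] (hq : q.Prime), lam.Prime → q ≠ lam →
      lam ≠ 2 → ∀ (hqN : ¬ q ∣ N') (A : ValuationSubring Qb), A.LiesOverPrime q →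
      ∃ c : ℕ, @S36XA_KeyK1 (N' * S36BC_aux q) q lam c
        ⟨mul_ne_zero (NeZero.ne N') (S36BC_aux_ne_zero q)⟩ _
        ⟨mul_ne_zero (mul_ne_zero (NeZero.ne N') (S36BC_aux_ne_zero q)) (NeZero.ne q)⟩
        ⟨mul_ne_zero (mul_ne_zero (mul_ne_zero (NeZero.ne N') (S36BC_aux_ne_zero q))
          (NeZero.ne q)) (NeZero.ne q)⟩
        ⟨pow_ne_zero 2 (NeZero.ne q)⟩ hq (S36GM_not_dvd hq hqN) A) :
    S36C_GeoInput := by
  refine S36BC_geoInput (fun N' q lam _ _ hq hlam hne hlam2 hqN => ?_)
  exact @S36GM_geoAt (N' * S36BC_aux q) q lam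
    ⟨mul_ne_zero (NeZero.ne N') (S36BC_aux_ne_zero q)⟩ _
    ⟨mul_ne_zero (mul_ne_zero (NeZero.ne N') (S36BC_aux_ne_zero q)) (NeZero.ne q)⟩
    ⟨mul_ne_zero (mul_ne_zero (mul_ne_zero (NeZero.ne N') (S36BC_aux_ne_zero q))
      (NeZero.ne q)) (NeZero.ne q)⟩
    ⟨pow_ne_zero 2 (NeZero.ne q)⟩ hq (S36GM_not_dvd hq hqN) hlam
    (fun A hA => hKey N' q lam hq hlam hne hlam2 hqN A hA)

end Fermat.Agent.S36_helper4_GEOMAIN
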