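import Fermat.Agent.S36_helper23_V0QB
import Fermat.Agent.S34_helper13_KEYK

/-!
# S36, `hsep` for the valuation rings `V'_0` and `V_0` (helper23)

Every nonzero element of the function field is `π ^ z * u` with `u` a unit of the valuation
ring: for the Gauss rings this is the landed `S34KEYK_sep`; here it is transported by the
Atkin–Lehner involutions to `V'_0 = w_q(V'_∞)` (level `M' * q`) and `V_0 = w_(q²)(V_∞)`
(level `M' * q * q`).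

* `S36V0QS_abs`   : the abstract transport along an involution `w`;
* `S36V0QS_sepb`  : `hsepb` for `S34V0K_V A K1 q M' N1 hq hqM hN1` (any spelling of the level);
* `S36V0QS_sep3`  : `hsep3` for `S36V0QK_V A K1 q M' N hq hqM hN` (any spelling of the level);
* `S36V0QS_sep3'` : `hsep3` VERBATIM on helper5's `S36VK_V0 A K1 q M' hq hqM`;
* `S36V0QS_sepa`, `S36V0QS_sep1` : the Gauss rings (restated from `S34KEYK_sep`).
-/

set_option autoImplicit false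
set_option linter.unusedSectionVars false
set_option linter.unusedVariables false
set_option linter.style.haveILetI false

noncomputable section

open ModularCurve Fermat.Agent.S24
open Fermat.Agent.S18_helper13_GAUSS Fermat.Agent.S18_helper9_CDefs
open Fermat.Agent.S18_helper25_COREDefs Fermat.Agent.S34_helper12_CDefs
open Fermat.Agent.S34_helper27_C2Defs Fermat.Agent.S34_helper20_WQ Fermat.Agent.S34_helper20_V0
open Fermat.Agent.S34_helper27_V3K Fermat.Agent.S34_helper20_V0K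
open Fermat.Agent.S36_helper20_WQQ Fermat.Agent.S36_helper23_V0Q
open Fermat.Agent.S36_helper23_V0QK Fermat.Agent.S36_helper5_VKDefs
open Fermat.Agent.S36_helper23_V0QB

namespace Fermat.Agent.S36_helper23_V0QS

/-- **abstract transport of `hsep` along an involution.** -/
theorem S36V0QS_abs {L : Type*} [Field L] (F : Subfield L) (w : L → L) (V : Subring L) (π : L)
    (hwF : ∀ x, w x ∈ F) (hww : ∀ x ∈ F, w (w x) = x)
    (hwmul : ∀ x ∈ F, ∀ y ∈ F, w (x * y) = w x * w y) (hw0 : w 0 = 0)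
    (hwinv : ∀ x ∈ F, w x⁻¹ = (w x)⁻¹) (hπF : π ∈ F) (hwπ : ∀ z : ℤ, w (π ^ z) = π ^ z)
    (hπ0 : π ≠ 0)
    (hsep : ∀ x ∈ F, x ≠ 0 → ∃ (z : ℤ) (u : L), u ∈ V ∧ u⁻¹ ∈ V ∧ x = π ^ z * u) :
    ∀ x ∈ F, x ≠ 0 → ∃ (z : ℤ) (u : L), (u ∈ F ∧ w u ∈ V) ∧ (u⁻¹ ∈ F ∧ w u⁻¹ ∈ V) ∧
      x = π ^ z * u := by
  intro x hx hx0
  have hwx0 : w x ≠ 0 := by
    intro h0
    apply hx0
    rw [← hww x hx, h0, hw0]
  obtain ⟨z, u, hu, hu', e⟩ := hsep (w x) (hwF x) hwx0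
  have hπz : π ^ z ∈ F := zpow_mem hπF z
  have huF : u ∈ F := by
    have : u = (π ^ z)⁻¹ * w x := by
      rw [e, ← mul_assoc, inv_mul_cancel₀ (zpow_ne_zero z hπ0), one_mul]
    rw [this]
    exact mul_mem (inv_mem hπz) (hwF x)
  refine ⟨z, w u, ⟨hwF u, ?_⟩, ⟨inv_mem (hwF u), ?_⟩, ?_⟩
  · rw [hww u huF]
    exact hu
  · rw [← hwinv u huF, hww _ (inv_mem huF)]
    exact hu'
  · have h2 := congrArg w e
    rw [hww x hx, hwmul _ hπz _ huF, hwπ] at h2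
    exact h2

variable (A : ValuationSubring (AlgebraicClosure ℚ))
  (K1 : IntermediateField ℚ (AlgebraicClosure ℚ))

variable [IsDiscreteValuationRing (S18K_O1 A K1)]

/-- `π ^ z` is a constant. -/
theorem S36V0QS_zpow_const (z : ℤ) : ∃ c : K1, HahnSeries.C c = S18K_π A K1 ^ z := by
  obtain ⟨c, hc⟩ : ∃ c : K1, HahnSeries.C c = S18K_π A K1 := ⟨_, rfl⟩
  exact ⟨c ^ z, by rw [map_zpow₀, hc]⟩

/-- `hsepa` / `hsep1` : the Gauss ring of any level (restated). -/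
theorem S36V0QS_sep1 (N : ℕ) : ∀ x ∈ S18K_F1 K1 N, x ≠ 0 →
    ∃ (z : ℤ) (u : LaurentSeries K1), u ∈ S18K_V A K1 N ∧ u⁻¹ ∈ S18K_V A K1 N ∧
      x = S18K_π A K1 ^ z * u :=
  Fermat.Agent.S34_helper13_KEYK.S34KEYK_sep A K1 N

section LevelQ

variable (q M' N1 : ℕ) [NeZero M'] [NeZero N1]
  (hq : q.Prime) (hqM : ¬ q ∣ M') (hN1 : N1 = q * M')

/-- **`hsepb`** : every nonzero element of `F1(N1)` is `π ^ z * u`, `u` a unit of
`V'_0 = w_q(V'_∞)`. -/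
theorem S36V0QS_sepb : ∀ x ∈ S18K_F1 K1 N1, x ≠ 0 →
    ∃ (z : ℤ) (u : LaurentSeries K1), u ∈ S34V0K_V A K1 q M' N1 hq hqM hN1 ∧
      u⁻¹ ∈ S34V0K_V A K1 q M' N1 hq hqM hN1 ∧ x = S18K_π A K1 ^ z * u := by
  intro x hx hx0
  obtain ⟨z, u, hu, hu', e⟩ := S36V0QS_abs (S18K_F1 K1 N1)
    (S34V0_wL (S34V0K_emb K1) q M' N1 hq hqM hN1) (S18K_V A K1 N1) (S18K_π A K1)
    (fun x => S34V0_wL_mem (S34V0K_emb K1) q M' N1 hq hqM hN1 x)
    (fun x hx => S34V0_wL_wL (S34V0K_emb K1) q M' N1 hq hqM hN1 hx)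
    (fun x hx y hy => S34V0_wL_mul (S34V0K_emb K1) q M' N1 hq hqM hN1 hx hy)
    (S34V0_wL_zero (S34V0K_emb K1) q M' N1 hq hqM hN1)
    (fun x hx => S34V0_wL_inv (S34V0K_emb K1) q M' N1 hq hqM hN1 hx)
    (S34V0_C_mem N1 _)
    (fun z => by
      obtain ⟨c, hc⟩ := S36V0QS_zpow_const A K1 z
      rw [← hc]
      exact S34V0_wL_C (S34V0K_emb K1) q M' N1 hq hqM hN1 c)
    (S18K_D A K1).πK_ne_zero (S36V0QS_sep1 A K1 N1) x hx hx0
  exact ⟨z, u, hu, hu', e⟩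

end LevelQ

section LevelQQ

variable (q M' N : ℕ) [NeZero M'] [NeZero N] [NeZero q] [NeZero (q ^ 2)]
  (hq : q.Prime) (hqM : ¬ q ∣ M') (hN : N = q ^ 2 * M')

/-- **`hsep3`** : every nonzero element of `F1(N)` is `π ^ z * u`, `u` a unit of
`V_0 = w_(q²)(V_∞)`. -/
theorem S36V0QS_sep3 : ∀ x ∈ S18K_F1 K1 N, x ≠ 0 →
    ∃ (z : ℤ) (u : LaurentSeries K1), u ∈ S36V0QK_V A K1 q M' N hq hqM hN ∧
      u⁻¹ ∈ S36V0QK_V A K1 q M' N hq hqM hN ∧ x = S18K_π A K1 ^ z * u := by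
  intro x hx hx0
  obtain ⟨z, u, hu, hu', e⟩ := S36V0QS_abs (S18K_F1 K1 N)
    (S36WQ_wL (S34V0K_emb K1) (q ^ 2) M' N (S36WQ_cop hq hqM) hN) (S18K_V A K1 N)
    (S18K_π A K1)
    (fun x => S36WQ_wL_mem (S34V0K_emb K1) (q ^ 2) M' N (S36WQ_cop hq hqM) hN x)
    (fun x hx => S36WQ_wL_wL (S34V0K_emb K1) (q ^ 2) M' N (S36WQ_cop hq hqM) hN hx)
    (fun x hx y hy => S36WQ_wL_mul (S34V0K_emb K1) (q ^ 2) M' N (S36WQ_cop hq hqM) hN hx hy)
    (S36V0Q_wL_zero (S34V0K_emb K1) (q ^ 2) M' N (S36WQ_cop hq hqM) hN)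
    (fun x hx => S36V0Q_wL_inv (S34V0K_emb K1) (q ^ 2) M' N (S36WQ_cop hq hqM) hN hx)
    (S34V0_C_mem N _)
    (fun z => by
      obtain ⟨c, hc⟩ := S36V0QS_zpow_const A K1 z
      rw [← hc]
      exact S36WQ_wL_C (S34V0K_emb K1) (q ^ 2) M' N (S36WQ_cop hq hqM) hN c)
    (S18K_D A K1).πK_ne_zero (S36V0QS_sep1 A K1 N) x hx hx0
  exact ⟨z, u, hu, hu', e⟩

end LevelQQ

section Typed

variable (q M' : ℕ) [NeZero M'] [NeZero (M' * q * q)] [NeZero (q ^ 2)]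
  (hq : q.Prime) (hqM : ¬ q ∣ M')

/-- **`hsep3`** VERBATIM on the typed carrier `S36VK_V0`. -/
theorem S36V0QS_sep3' [NeZero q] : ∀ x ∈ S18K_F1 K1 (M' * q * q), x ≠ 0 →
    ∃ (z : ℤ) (u : LaurentSeries K1), u ∈ S36VK_V0 A K1 q M' hq hqM ∧
      u⁻¹ ∈ S36VK_V0 A K1 q M' hq hqM ∧ x = S18K_π A K1 ^ z * u := by
  rw [S36V0QB_V0_eq]
  exact S36V0QS_sep3 A K1 q M' (M' * q * q) hq hqM (S36VK_level q M')

/-- **`hsepb`** at the level `M' * q`. -/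
theorem S36V0QS_sepb' [NeZero (M' * q)] (hN1 : M' * q = q * M') :
    ∀ x ∈ S18K_F1 K1 (M' * q), x ≠ 0 →
      ∃ (z : ℤ) (u : LaurentSeries K1), u ∈ S34V0K_V A K1 q M' (M' * q) hq hqM hN1 ∧
        u⁻¹ ∈ S34V0K_V A K1 q M' (M' * q) hq hqM hN1 ∧ x = S18K_π A K1 ^ z * u :=
  S36V0QS_sepb A K1 q M' (M' * q) hq hqM hN1

/-- `hsepa` : the Gauss ring of level `M' * q`. -/
theorem S36V0QS_sepa : ∀ x ∈ S18K_F1 K1 (M' * q), x ≠ 0 →
    ∃ (z : ℤ) (u : LaurentSeries K1), u ∈ S18K_V A K1 (M' * q) ∧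
      u⁻¹ ∈ S18K_V A K1 (M' * q) ∧ x = S18K_π A K1 ^ z * u :=
  S36V0QS_sep1 A K1 (M' * q)

end Typed

end Fermat.Agent.S36_helper23_V0QS
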