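import Mathlib
import Fermat.Agent.S36_helper3_XBDefs
import Fermat.Agent.S36_helper5_VMIDK
import Fermat.Agent.S36_helper23_V0QS
import Fermat.Agent.S36_helper23_V0QX
import Fermat.Agent.S36_helper28_SCALE3
import Fermat.Agent.S36_helper28_SEPU
import Fermat.Agent.S36_helper21_UNRAM
import Fermat.Agent.S36_helper4_DEG

/-!
# S36, X-D36 Part II, the field `scale` of `S36XB_Contract` (helper4)

The concrete plug of helper28's vertical scaling `S36SC3_abs` at the carriers of level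
`M' * q * q`: `V_∞ = S18K_V A K1 (M' q q)`, `V_mid = S36VK_Vmid A K1 q M'`,
`V_0 = S36VK_V0 A K1 q M' hq hqM` over `V'_∞ = S18K_V A K1 (M' q)`,
`V'_0 = S34V0K_V A K1 q M' (M' q)`, `t = S36VK_t K1 q`, `w = W_(q²) = S36XA_W`.

* `S36SK_scale_unr` : a function `f0` new along `α` and `β` with exponent `lam ^ (c + 1)` is
  `π ^ z * g0 ^ d * f1`, `d = lam ^ (c + 1 - c1)` (`lam ^ c1 ∥ q + 1`), `f1` a unit of
  `(V_∞ ⊓ V_mid) ⊓ V_0`; hypothesis `hunr : π ~ q` (`K1` unramified);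
* `S36SK_scale`     : the field `scale` of helper3's contract, verbatim, at an unramified level
  (`S36XA_Level A K1 q`; `hunr` from helper21's `S36DS_pi_associated`).

The only hypothesis which is not a landed theorem is `hw22` (`W_(q²)` preserves `V_mid`,
helper12's W36VAL).
-/

set_option autoImplicit false
set_option linter.unusedSectionVars false
set_option linter.unusedVariables false
set_option linter.style.haveILetI false

open HahnSeries IntermediateField AlgebraicCurve ModularCurve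
open Fermat.Agent.S18_helper9_CDefs Fermat.Agent.S18_helper25_COREDefs
  Fermat.Agent.S34_helper12_CDefs Fermat.Agent.S34_helper25_Defs
  Fermat.Agent.S34_helper27_C2Defs Fermat.Agent.S34_helper13_KEY
  Fermat.Agent.S34_helper27_V3K Fermat.Agent.S34_helper20_V0K Fermat.Agent.S34_helper20_V0
  Fermat.Agent.S35_helper27_XD2Defs
  Fermat.Agent.S36_helper20_WQQ Fermat.Agent.S36_helper4_XADefs Fermat.Agent.S36_helper4_DEG
  Fermat.Agent.S36_helper5_VKDefs Fermat.Agent.S36_helper5_VMIDK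
  Fermat.Agent.S36_helper23_V0QB Fermat.Agent.S36_helper23_V0QS Fermat.Agent.S36_helper23_V0QX
  Fermat.Agent.S36_helper28_SCALE3 Fermat.Agent.S36_helper28_SEPU
  Fermat.Agent.S36_helper21_UNRAM

noncomputable section

namespace Fermat.Agent.S36_helper4_SCALEK

local notation "Qb" => AlgebraicClosure ℚ

variable (A : ValuationSubring Qb) (K1 : IntermediateField ℚ Qb)
  [IsDiscreteValuationRing (S18K_O1 A K1)]
  (q M' : ℕ) [NeZero M'] [NeZero q] [NeZero (M' * q)] [NeZero (M' * q * q)] [NeZero (q ^ 2)]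
  [NeZero (q * q)] (hq : q.Prime) (hqM : ¬ q ∣ M')

/-- **VERTICAL SCALING AT THE CARRIERS**, with the hypothesis `π ~ q`. -/
theorem S36SK_scale_unr (hA : A.LiesOverPrime q)
    (hunr : Associated (S18K_D A K1).π ((q : ℕ) : S18K_O1 A K1))
    (lam c c1 u : ℕ) (hlam : lam.Prime) (hqu : q + 1 = lam ^ c1 * u) (hu : ¬ lam ∣ u)
    (hc1 : c1 ≤ c + 1)
    (hw22 : ∀ x ∈ S36VK_Vmid A K1 q M', S36XA_W K1 q M' hq hqM x ∈ S36VK_Vmid A K1 q M')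
    (f0 : LaurentSeries K1) (hf0 : f0 ∈ S18K_F1 K1 (M' * q * q)) (hf00 : f0 ≠ 0)
    (hNA : S35XD2_NewAlpha K1 q (M' * q) (lam ^ (c + 1)) f0 hf0)
    (hNB : S36XA_NewBeta K1 q M' hq hqM (lam ^ (c + 1)) f0) :
    ∃ (z : ℤ) (g0 f1 : LaurentSeries K1), g0 ∈ S18K_F1 K1 (M' * q * q) ∧ g0 ≠ 0 ∧
      f0 = S18K_π A K1 ^ z * g0 ^ (lam ^ (c + 1 - c1)) * f1 ∧
      f1 ∈ (S18K_V A K1 (M' * q * q) ⊓ S36VK_Vmid A K1 q M' ⊓ S36VK_V0 A K1 q M' hq hqM :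
        Subring (LaurentSeries K1)) ∧
      f1⁻¹ ∈ (S18K_V A K1 (M' * q * q) ⊓ S36VK_Vmid A K1 q M' ⊓ S36VK_V0 A K1 q M' hq hqM :
        Subring (LaurentSeries K1)) := by
  classical
  haveI hcz : CharZero (LaurentSeries K1) :=
    charZero_of_injective_ringHom (HahnSeries.C_injective (Γ := ℤ) (R := K1))
  have hN1 : M' * q = q * M' := Nat.mul_comm M' q
  have hd12 : M' * q ∣ M' * q * q := S36XA_level_dvd M' q
  have hd01 : M' ∣ M' * q := dvd_mul_right M' q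
  have hF : S18K_F1 K1 (M' * q) ≤ S18K_F1 K1 (M' * q * q) := S34V3K_F1_mono K1 hd12
  obtain ⟨hmid, h12, h23, h13, ht0, hπt, htπ, hkey, hconv, hunif2, hthree, hres1, hres2⟩ :=
    S36VK_main A K1 q M' hq hqM hA hunr
  obtain ⟨h2, hVa2, ht2, ht2'⟩ := hmid
  have hm1 : q - 1 + 1 = q := Nat.sub_add_cancel hq.one_le
  have hm2 : ((q - 1 : ℕ) : ℤ) + 2 = ((q + 1 : ℕ) : ℤ) := by
    have : q - 1 + 2 = q + 1 := by omega
    exact_mod_cast this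
  -- the carriers
  have hVa : S34C2_Val (S18K_π A K1) (S18K_F1 K1 (M' * q)) (S18K_V A K1 (M' * q)) :=
    S34V3K_val1 A K1 (M' * q)
  have hsepa := S36V0QS_sepa A K1 q M'
  have hVb : S34C2_Val (S18K_π A K1) (S18K_F1 K1 (M' * q))
      (S34V0K_V A K1 q M' (M' * q) hq hqM hN1) := S34V0K_val A K1 q M' (M' * q) hq hqM hN1
  have hsepb := S36V0QS_sepb' A K1 q M' hq hqM hN1
  have h1 : S34C2_Val (S18K_π A K1) (S18K_F1 K1 (M' * q * q)) (S18K_V A K1 (M' * q * q)) :=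
    S34V3K_val1 A K1 (M' * q * q)
  have h3 := S36VK_V0_val A K1 q M' hq hqM
  have hsep1 := S36V0QS_sep1 A K1 (M' * q * q)
  have hsep3 := S36V0QS_sep3' A K1 q M' hq hqM
  have hdeg := S36DG_hdeg K1 (M' * q) q hq (dvd_mul_left q M')
  have hdeg' : ∃ s : Finset (LaurentSeries K1), s.card ≤ q - 1 + 1 ∧
      ∀ x ∈ S18K_F1 K1 (M' * q * q), ∃ c : LaurentSeries K1 → LaurentSeries K1,
        (∀ y, c y ∈ S18K_F1 K1 (M' * q)) ∧ x = ∑ y ∈ s, c y * y := by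
    rw [hm1]; exact hdeg
  have hsep2 : ∀ x ∈ S18K_F1 K1 (M' * q * q), x ≠ 0 → ∃ (z : ℤ) (u : LaurentSeries K1),
      u ∈ S36VK_Vmid A K1 q M' ∧ u⁻¹ ∈ S36VK_Vmid A K1 q M' ∧ x = S36VK_t K1 q ^ z * u :=
    S36SU_sep_of_unif hF hVa hsepa hdeg h2 hVa2 ht2 ht2' hunif2
  have htF : S36VK_t K1 q ∈ S18K_F1 K1 (M' * q * q) := S36VK_t_mem_F K1 q M' hq hqM
  have hm : 1 ≤ q - 1 := by have := hq.two_le; omega
  have hπ0 : S18K_π A K1 ≠ 0 := (S18K_D A K1).πK_ne_zero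
  have hπt' : ∃ u, u ∈ S36VK_Vmid A K1 q M' ∧ u⁻¹ ∈ S36VK_Vmid A K1 q M' ∧
      S18K_π A K1 = S36VK_t K1 q ^ (q - 1) * u := by
    refine ⟨S18K_π A K1 / S36VK_t K1 q ^ (q - 1), hπt, ?_, ?_⟩
    · rw [inv_div]; exact htπ
    · rw [mul_div_cancel₀ _ (pow_ne_zero _ ht0)]
  have hVa1 : S18K_V A K1 (M' * q) ≤ S18K_V A K1 (M' * q * q) := S34V3K_V_mono A K1 hd12
  have hVb3 := S36V0QB_le_q A K1 q M' hq hqM hN1
  have hqp : (q - 1 + 1).Prime := by rw [hm1]; exact hq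
  have hy := S36V0QY_hy A K1 q M' hq hqM
  have hx := S36V0QY_hx A K1 q M' hq hqM hN1
  have hyx := S36V0QY_hyx A K1 q M' hq hqM hN1 hA
  have hxq := S36V0QY_hxq A K1 q M' hq hqM hN1 hA
  -- the involution
  have hwF : ∀ x ∈ S18K_F1 K1 (M' * q * q), S36XA_W K1 q M' hq hqM x ∈ S18K_F1 K1 (M' * q * q) :=
    fun x _ => S36XA_W_mem K1 q M' hq hqM x
  have hw1 : S36XA_W K1 q M' hq hqM 1 = 1 :=
    S36VK_wL_one (S34V0K_emb K1) (q ^ 2) M' (M' * q * q) (S36WQ_cop hq hqM) S36XA_level_eq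
  have hwmul : ∀ x ∈ S18K_F1 K1 (M' * q * q), ∀ y ∈ S18K_F1 K1 (M' * q * q),
      S36XA_W K1 q M' hq hqM (x * y) = S36XA_W K1 q M' hq hqM x * S36XA_W K1 q M' hq hqM y :=
    fun x hx y hy => S36WQ_wL_mul (S34V0K_emb K1) (q ^ 2) M' (M' * q * q) (S36WQ_cop hq hqM)
      S36XA_level_eq hx hy
  have hwπ : S36XA_W K1 q M' hq hqM (S18K_π A K1) = S18K_π A K1 :=
    S36WQ_wL_C (S34V0K_emb K1) (q ^ 2) M' (M' * q * q) (S36WQ_cop hq hqM) S36XA_level_eq _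
  have hw13 : ∀ x ∈ S18K_V A K1 (M' * q * q),
      S36XA_W K1 q M' hq hqM x ∈ S36VK_V0 A K1 q M' hq hqM :=
    fun x hx => S36VK_wL_mem_image (S34V0K_emb K1) (q ^ 2) M' (M' * q * q) (S36WQ_cop hq hqM)
      (S36VK_level q M') (h1.le hx) hx
  have hw31 : ∀ x ∈ S36VK_V0 A K1 q M' hq hqM,
      S36XA_W K1 q M' hq hqM x ∈ S18K_V A K1 (M' * q * q) :=
    fun x hx => ((S36VK_mem_image (S34V0K_emb K1) (q ^ 2) M' (M' * q * q) (S36WQ_cop hq hqM)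
      (S36VK_level q M')).1 hx).2
  have hwt : ∃ u, u ∈ S36VK_Vmid A K1 q M' ∧ u⁻¹ ∈ S36VK_Vmid A K1 q M' ∧
      S36XA_W K1 q M' hq hqM (S36VK_t K1 q) = S36VK_t K1 q * u := by
    have e1 : ((-1 : LaurentSeries K1))⁻¹ = -1 := by norm_num
    have e2 : S36VK_t K1 q * (-1 : LaurentSeries K1) = - S36VK_t K1 q := by ring
    refine ⟨-1, neg_mem (one_mem _), ?_, ?_⟩
    · rw [e1]; exact neg_mem (one_mem _)
    · rw [e2]
      exact S36VK_wL_t K1 q M' hq hqM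
  -- the exponents
  have hdn : lam ^ (c + 1 - c1) ∣ lam ^ (c + 1) := S36SC3_hdn lam (c + 1) c1
  have hd : ∀ x : ℤ, ((lam ^ (c + 1) : ℕ) : ℤ) ∣ (((q - 1 : ℕ) : ℤ) + 2) * x →
      ((lam ^ (c + 1 - c1) : ℕ) : ℤ) ∣ x :=
    S36SC3_hd hlam (m := q - 1) (k := c + 1) (c1 := c1) (u := u)
      (by rw [← hqu]; have := hq.one_le; omega) hu hc1
  -- the newness
  obtain ⟨c₁, hc₁, h₁, hh₁, hh₁0, e₁⟩ := hNA
  obtain ⟨c₂, hc₂, h₂, hh₂, hh₂0, e₂⟩ := hNB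
  have hCne : ∀ c : K1, c ≠ 0 → (HahnSeries.C c : LaurentSeries K1) ≠ 0 := fun c hc h =>
    hc (HahnSeries.C_injective (Γ := ℤ) (by rw [h, map_zero]))
  obtain ⟨zα, uα, huα, huα', eα⟩ := S36V0QS_sep1 A K1 M' (HahnSeries.C c₁)
    (S34V0_C_mem M' c₁) (hCne c₁ hc₁)
  obtain ⟨zβ, uβ, huβ, huβ', eβ⟩ := S36V0QS_sep1 A K1 M' (HahnSeries.C c₂)
    (S34V0_C_mem M' c₂) (hCne c₂ hc₂)
  have hVM : S18K_V A K1 M' ≤ S18K_V A K1 (M' * q) := S34V3K_V_mono A K1 hd01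
  have hVMb : S18K_V A K1 M' ≤ S34V0K_V A K1 q M' (M' * q) hq hqM hN1 :=
    S34V0K_le A K1 q M' (M' * q) hq hqM hN1
  obtain ⟨z, g0, f1, hf1F, Hα, Hβ, hg0, hg00, hf, hf1V, hf1V', -⟩ :=
    S36SC3_abs (m := q - 1) hF hVa hsepa hVb hsepb h1 h2 h3 hsep1 hsep2 hsep3 htF ht2 ht2' hm
      hπt' h12 h13 h23 hVa1 hVa2 hVb3 hqp hy hx (by rw [hm1]; exact hyx)
      (by rw [hm1]; exact hxq) hdeg'
      (S36XA_W K1 q M' hq hqM) hwF hw1 hwmul hwπ hw13 hw31 hw22 hwt hdn hd hf0 hf00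
      (hVM huα) (hVM huα') (hVMb huα) (hVMb huα') hh₁ hh₁0
      (by rw [← eα]; exact e₁)
      (hVM huβ) (hVM huβ') (hVMb huβ) (hVMb huβ') hh₂ hh₂0
      (by rw [← eβ]; exact e₂)
  exact ⟨z, g0, f1, hg0, hg00, hf, hf1V, hf1V'⟩

include hq in
/-- the uniformiser of an unramified level is `q` (helper21). -/
theorem S36SK_hunr (hA : A.LiesOverPrime q) (hL : S36XA_Level A K1 q) :
    Associated (S18K_D A K1).π ((q : ℕ) : S18K_O1 A K1) :=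
  S36DS_pi_associated hq A hA K1
    (fun x hx => (S36DS_mem_E A x).2 (fun τ hτ => hL.fix τ hτ x hx))

/-- **the field `scale` of `S36XB_Contract`**, for `W2 = S36VK_Vmid A K1 q M'`,
`W3 = S36VK_V0 A K1 q M' hq hqM`, `d = lam ^ (c + 1 - c1)` with `lam ^ c1 ∥ q + 1`. -/
theorem S36SK_scale (hA : A.LiesOverPrime q) (hL : S36XA_Level A K1 q)
    (lam c c1 u : ℕ) (hlam : lam.Prime) (hqu : q + 1 = lam ^ c1 * u) (hu : ¬ lam ∣ u)
    (hc1 : c1 ≤ c + 1)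
    (hw22 : ∀ x ∈ S36VK_Vmid A K1 q M', S36XA_W K1 q M' hq hqM x ∈ S36VK_Vmid A K1 q M') :
    ∀ (f0 : LaurentSeries K1) (hf0 : f0 ∈ S18K_F1 K1 (M' * q * q)), f0 ≠ 0 →
    S35XD2_NewAlpha K1 q (M' * q) (lam ^ (c + 1)) f0 hf0 →
    S36XA_NewBeta K1 q M' hq hqM (lam ^ (c + 1)) f0 →
    ∃ (z : ℤ) (g0 f1 : LaurentSeries K1), g0 ∈ S18K_F1 K1 (M' * q * q) ∧ g0 ≠ 0 ∧
      f0 = S18K_π A K1 ^ z * g0 ^ (lam ^ (c + 1 - c1)) * f1 ∧
      f1 ∈ (S18K_V A K1 (M' * q * q) ⊓ S36VK_Vmid A K1 q M' ⊓ S36VK_V0 A K1 q M' hq hqM :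
        Subring (LaurentSeries K1)) ∧
      f1⁻¹ ∈ (S18K_V A K1 (M' * q * q) ⊓ S36VK_Vmid A K1 q M' ⊓ S36VK_V0 A K1 q M' hq hqM :
        Subring (LaurentSeries K1)) :=
  fun f0 hf0 hf00 hNA hNB =>
    S36SK_scale_unr A K1 q M' hq hqM hA (S36SK_hunr A K1 q hq hA hL) lam c c1 u hlam hqu hu hc1
      hw22 f0 hf0 hf00 hNA hNB

/-- the exponents of the contract: `lam ∣ d ∣ lam ^ (c + 1)` for `d = lam ^ (c + 1 - c1)`,
`c1 ≤ c`. -/
theorem S36SK_dvd (lam c c1 : ℕ) : lam ^ (c + 1 - c1) ∣ lam ^ (c + 1) :=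
  pow_dvd_pow lam (Nat.sub_le _ _)

theorem S36SK_lam_dvd (lam c c1 : ℕ) (hc1 : c1 ≤ c) : lam ∣ lam ^ (c + 1 - c1) :=
  dvd_pow_self lam (by omega)

end Fermat.Agent.S36_helper4_SCALEK
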