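import Mathlib
import Fermat.Agent.S36_helper3_XBKEY
import Fermat.Agent.S36_helper3_LOCK
import Fermat.Agent.S36_helper3_ARITH
import Fermat.Agent.S36_helper2_SETUP3
import Fermat.Agent.S36_helper12_SCALEF
import Fermat.Agent.S36_helper4_SCALEK
import Fermat.Agent.S36_helper4_GEOMAIN

/-!
# S36, X-D36 Part II (helper3): THE FINAL PLUG

Everything of `S36XB_Contract` except the field `loc` is on main:
`setup`, `val1`, `val2`, `val3` (helper2, `S36S3_setupMid` on helper5's `S36VK_main`),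
`dvd`, `lam_dvd` (helper4), `scale` (helper12 `S36SF_scale`).  The field `loc` is the contract
`S36XB_LocContract` (file `S36_helper3_LOCK.lean`).

* `S36XB_LocInput`  : **the open part**: at every unramified level `K1` and for the exponents
  of `S36XB_exps`, a uniformiser `t` of `V_mid`, its exponent `e` and a family `R` of local rings
  with the contract of `loc`;
* `S36XB_input_of`  : `S36XB_LocInput` gives `S36XB_Input` with `c = 2 * (c1 + c2)`;
* `S36XB_key_of`    : ... gives helper4's `S36XA_KeyK1`;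
* `S36XB_hKey_of`   : the hypothesis `hKey` of helper4's `S36GM_geoInput`, verbatim;
* `S36XB_geoInput_of` : `S36C_GeoInput`.
-/

set_option autoImplicit false
set_option linter.unusedSectionVars false
set_option linter.unusedVariables false
set_option linter.style.haveILetI false

open HahnSeries IntermediateField AlgebraicCurve ModularCurve
open Fermat.Agent.S18_helper9_CDefs Fermat.Agent.S18_helper25_COREDefs
  Fermat.Agent.S34_helper12_CDefs Fermat.Agent.S34_helper25_Defs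
  Fermat.Agent.S34_helper27_C2Defs Fermat.Agent.S35_helper27_XD2Defs
  Fermat.Agent.S36_helper4_XADefs Fermat.Agent.S36_helper3_XBPT
  Fermat.Agent.S36_helper3_XBDefs Fermat.Agent.S36_helper3_XBKEY
  Fermat.Agent.S36_helper3_LOCK Fermat.Agent.S36_helper3_ARITH
  Fermat.Agent.S36_helper5_VKDefs Fermat.Agent.S36_helper5_VMIDK
  Fermat.Agent.S36_helper2_SETUP3 Fermat.Agent.S36_helper12_SCALEF
  Fermat.Agent.S36_helper4_SCALEK Fermat.Agent.S36_helper4_GEOMAIN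
  Fermat.Agent.S36_helper23_BCPLUG

noncomputable section

namespace Fermat.Agent.S36_helper3_FINAL

local notation "Qb" => AlgebraicClosure ℚ

/-- **THE OPEN PART OF GEO36**: at every unramified level `K1` of `A` and for the exponents
`c1 = v_lam (q + 1)`, `c2 = v_lam (q - 1)`, the contract of `loc` at the carriers
`V_mid = S36VK_Vmid`, `V_0 = S36VK_V0`, with `d = lam ^ (2 (c1 + c2) + 1 - c1)`,
`P = lam ^ (c1 + c2 + 1)`, `Q0 = lam ^ (c1 + c2)`. -/
def S36XB_LocInput (M' q lam : ℕ) [NeZero M'] [NeZero q] [NeZero (M' * q)]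
    [NeZero (M' * q * q)] [NeZero (q ^ 2)] [NeZero (q * q)] (hq : q.Prime) (hqM : ¬ q ∣ M')
    (A : ValuationSubring Qb) : Prop :=
  ∀ (K1 : IntermediateField ℚ Qb) (hK1 : S36XA_Level A K1 q),
    letI := hK1.adm.dvr
    ∀ c1 c2 u m' : ℕ, q + 1 = lam ^ c1 * u → ¬ lam ∣ u → q - 1 = lam ^ c2 * m' → ¬ lam ∣ m' →
    ∃ (t : LaurentSeries K1) (e : ℕ) (ι : Type) (R : ι → Subring (LaurentSeries K1)),
      S36XB_LocContract A K1 M' q lam (lam ^ (2 * (c1 + c2) + 1 - c1)) (lam ^ (c1 + c2 + 1))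
        (lam ^ (c1 + c2)) hq hqM (S36VK_Vmid A K1 q M') (S36VK_V0 A K1 q M' hq hqM) t e R

section Main

variable (M' q lam : ℕ) [NeZero M'] [NeZero q] [NeZero (M' * q)] [NeZero (M' * q * q)]
  [NeZero (q ^ 2)] [NeZero (q * q)] (hq : q.Prime) (hqM : ¬ q ∣ M') (A : ValuationSubring Qb)

/-- **the contract at one level** from the contract of `loc`. -/
theorem S36XB_contract_at (hlam : lam.Prime) (hne : lam ≠ q) (hA : A.LiesOverPrime q)
    (K1 : IntermediateField ℚ Qb) [IsDiscreteValuationRing (S18K_O1 A K1)]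
    (hK1 : S36XA_Level A K1 q) {c1 c2 u : ℕ} (hqu : q + 1 = lam ^ c1 * u) (hu : ¬ lam ∣ u)
    {t : LaurentSeries K1} {e : ℕ} {ι : Type} {R : ι → Subring (LaurentSeries K1)}
    (C : S36XB_LocContract A K1 M' q lam (lam ^ (2 * (c1 + c2) + 1 - c1))
      (lam ^ (c1 + c2 + 1)) (lam ^ (c1 + c2)) hq hqM (S36VK_Vmid A K1 q M')
      (S36VK_V0 A K1 q M' hq hqM) t e R) :
    S36XB_Contract A K1 M' q lam (2 * (c1 + c2)) (lam ^ (2 * (c1 + c2) + 1 - c1)) hq hqM
      (S36VK_Vmid A K1 q M') (S36VK_V0 A K1 q M' hq hqM) := by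
  have hunr := S36SK_hunr A K1 q hq hA hK1
  obtain ⟨hmid, -, -, -, -, -, -, hkey, -⟩ := S36VK_main A K1 q M' hq hqM hA hunr
  obtain ⟨S, H1, H2, H3⟩ := S36S3_setupMid A K1 q M' hq hqM hA hmid hkey
  exact S36XB_contract_of A K1 M' q lam (2 * (c1 + c2)) (lam ^ (2 * (c1 + c2) + 1 - c1))
    (lam ^ (c1 + c2 + 1)) (lam ^ (c1 + c2)) hq hqM _ _ hA hlam hne S H1 H2 H3
    (S36SK_dvd lam (2 * (c1 + c2)) c1) (S36SK_lam_dvd lam (2 * (c1 + c2)) c1 (by omega))
    (S36SF_scale A K1 q M' hq hqM hA hunr hlam hqu hu (by omega)) C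

/-- **`S36XB_Input` from the contract of `loc`.** -/
theorem S36XB_input_of (hlam : lam.Prime) (hne : lam ≠ q) (hA : A.LiesOverPrime q)
    {c1 c2 u m' : ℕ} (hqu : q + 1 = lam ^ c1 * u) (hu : ¬ lam ∣ u)
    (hqm : q - 1 = lam ^ c2 * m') (hm' : ¬ lam ∣ m')
    (hloc : S36XB_LocInput M' q lam hq hqM A) :
    S36XB_Input M' q lam (2 * (c1 + c2)) hq hqM A := by
  intro K1 hK1
  letI := hK1.adm.dvr
  obtain ⟨t, e, ι, R, C⟩ := hloc K1 hK1 c1 c2 u m' hqu hu hqm hm'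
  exact ⟨lam ^ (2 * (c1 + c2) + 1 - c1), S36VK_Vmid A K1 q M', S36VK_V0 A K1 q M' hq hqM,
    S36XB_contract_at M' q lam hq hqM A hlam hne hA K1 hK1 hqu hu C⟩

/-- **helper4's key statement from the contract of `loc`.** -/
theorem S36XB_key_of (hlam : lam.Prime) (hne : lam ≠ q) (hA : A.LiesOverPrime q)
    (hloc : S36XB_LocInput M' q lam hq hqM A) :
    ∃ c : ℕ, S36XA_KeyK1 M' q lam c hq hqM A := by
  obtain ⟨c1, c2, u, m', hqu, hu, hqm, hm', -⟩ := S36XB_exps hlam hq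
  exact ⟨2 * (c1 + c2), S36XB_keyK1 M' q lam (2 * (c1 + c2)) hq hqM A hlam hne hA
    (S36XB_input_of M' q lam hq hqM A hlam hne hA hqu hu hqm hm' hloc)⟩

end Main

/-- **the hypothesis `hKey` of helper4's `S36GM_geoInput`, verbatim**, from the contract of
`loc` at the levels `M' = N' * r`, `r = S36BC_aux q`. -/
theorem S36XB_hKey_of
    (hloc : ∀ (N' q lam : ℕ) [NeZero N'] [NeZero q] (hq : q.Prime), lam.Prime → q ≠ lam →
      lam ≠ 2 → ∀ (hqN : ¬ q ∣ N') (A : ValuationSubring Qb), A.LiesOverPrime q →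
      @S36XB_LocInput (N' * S36BC_aux q) q lam
        ⟨mul_ne_zero (NeZero.ne N') (S36BC_aux_ne_zero q)⟩ _
        ⟨mul_ne_zero (mul_ne_zero (NeZero.ne N') (S36BC_aux_ne_zero q)) (NeZero.ne q)⟩
        ⟨mul_ne_zero (mul_ne_zero (mul_ne_zero (NeZero.ne N') (S36BC_aux_ne_zero q))
          (NeZero.ne q)) (NeZero.ne q)⟩
        ⟨pow_ne_zero 2 (NeZero.ne q)⟩ ⟨mul_ne_zero (NeZero.ne q) (NeZero.ne q)⟩
        hq (S36GM_not_dvd hq hqN) A) :
    ∀ (N' q lam : ℕ) [NeZero N'] [NeZero q] (hq : q.Prime), lam.Prime → q ≠ lam →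
      lam ≠ 2 → ∀ (hqN : ¬ q ∣ N') (A : ValuationSubring Qb), A.LiesOverPrime q →
      ∃ c : ℕ, @S36XA_KeyK1 (N' * S36BC_aux q) q lam c
        ⟨mul_ne_zero (NeZero.ne N') (S36BC_aux_ne_zero q)⟩ _
        ⟨mul_ne_zero (mul_ne_zero (NeZero.ne N') (S36BC_aux_ne_zero q)) (NeZero.ne q)⟩
        ⟨mul_ne_zero (mul_ne_zero (mul_ne_zero (NeZero.ne N') (S36BC_aux_ne_zero q))
          (NeZero.ne q)) (NeZero.ne q)⟩
        ⟨pow_ne_zero 2 (NeZero.ne q)⟩ hq (S36GM_not_dvd hq hqN) A := by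
  intro N' q lam _ _ hq hlam hne hlam2 hqN A hA
  exact @S36XB_key_of (N' * S36BC_aux q) q lam
    ⟨mul_ne_zero (NeZero.ne N') (S36BC_aux_ne_zero q)⟩ _
    ⟨mul_ne_zero (mul_ne_zero (NeZero.ne N') (S36BC_aux_ne_zero q)) (NeZero.ne q)⟩
    ⟨mul_ne_zero (mul_ne_zero (mul_ne_zero (NeZero.ne N') (S36BC_aux_ne_zero q))
      (NeZero.ne q)) (NeZero.ne q)⟩
    ⟨pow_ne_zero 2 (NeZero.ne q)⟩ ⟨mul_ne_zero (NeZero.ne q) (NeZero.ne q)⟩
    hq (S36GM_not_dvd hq hqN) A hlam hne.symm hA (hloc N' q lam hq hlam hne hlam2 hqN A hA)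

/-- **`S36C_GeoInput` from the contract of `loc`.** -/
theorem S36XB_geoInput_of
    (hloc : ∀ (N' q lam : ℕ) [NeZero N'] [NeZero q] (hq : q.Prime), lam.Prime → q ≠ lam →
      lam ≠ 2 → ∀ (hqN : ¬ q ∣ N') (A : ValuationSubring Qb), A.LiesOverPrime q →
      @S36XB_LocInput (N' * S36BC_aux q) q lam
        ⟨mul_ne_zero (NeZero.ne N') (S36BC_aux_ne_zero q)⟩ _
        ⟨mul_ne_zero (mul_ne_zero (NeZero.ne N') (S36BC_aux_ne_zero q)) (NeZero.ne q)⟩
        ⟨mul_ne_zero (mul_ne_zero (mul_ne_zero (NeZero.ne N') (S36BC_aux_ne_zero q))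
          (NeZero.ne q)) (NeZero.ne q)⟩
        ⟨pow_ne_zero 2 (NeZero.ne q)⟩ ⟨mul_ne_zero (NeZero.ne q) (NeZero.ne q)⟩
        hq (S36GM_not_dvd hq hqN) A) :
    Fermat.Agent.S36_helper18_Contracts.S36C_GeoInput :=
  S36GM_geoInput (S36XB_hKey_of hloc)

end Fermat.Agent.S36_helper3_FINAL
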