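import Fermat.Agent.S36_helper14_N1Q
import Fermat.Agent.S34_helper14_N1K
import Fermat.Agent.S36_helper20_WQQ
import Fermat.Agent.S34_helper13_HJQM

/-!
# S36, GEO36 (REG36, thin one-branch points), concrete plug (helper14)

Level `N = q² M'`, `q ∤ M'`, `A` over `q`, `K1` admissible.  `V1 = S18K_V A K1 N` (Gauss ring,
the component `C_∞`), `V2`, `V3` ANY subrings (in the application `V_mid`, `V_0`) such that the
weak setup `S34C_Setup … (V1 ⊓ V2 ⊓ V3) A0 Ainf` holds (helper2's bracketing).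

* `S36N1K_oo_A0`, `S36N1K_oo_Ainf` : `IGAt` at the maximal ideals of the two charts which lie on
  `C_∞` only (witness `d ∉ m`, `d ∈ π (V2 ⊓ V3)`), cusps included;
* `S36N1K_sigma` : the Atkin–Lehner involution `W_(q²)` as an automorphism of the finite chart;
* `S36N1K_zero_A0` : `IGAt` at the maximal ideals of the finite chart which lie on `C_0` only
  (witness `d ∉ m`, `d ∈ π (V1 ⊓ V2)`), for `V3 = W_(q²)(V1)`;
* `S36N1K_transfer`, `S36N1K_zero_Ainf` : the non-cuspidal points of the chart at infinity.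
-/

set_option autoImplicit false
set_option linter.style.haveILetI false
set_option linter.unusedVariables false
set_option linter.unusedSectionVars false
set_option synthInstance.maxHeartbeats 400000
set_option maxHeartbeats 1600000

open ModularCurve Fermat.Agent.S24
open Fermat.Agent.S18_helper13_GAUSS Fermat.Agent.S18_helper9_CDefs
  Fermat.Agent.S18_helper9_CBasic
open Fermat.Agent.S18_helper25_COREDefs Fermat.Agent.S34_helper12_CDefs
open Fermat.Agent.S34_helper27_C2Defs Fermat.Agent.S34_helper20_WQ Fermat.Agent.S34_helper20_V0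
open Fermat.Agent.S34_helper27_V3K Fermat.Agent.S34_helper20_V0K
open Fermat.Agent.S18_helper3_LOCRING
open Fermat.Agent.S34_helper14_N1S Fermat.Agent.S34_helper14_N1K
open Fermat.Agent.S36_helper14_N1Q Fermat.Agent.S36_helper20_WQQ
open Fermat.Agent.S37_helper20_KAPPAEMB

noncomputable section

namespace Fermat.Agent.S36_helper14_N1K

variable (A : ValuationSubring (AlgebraicClosure ℚ))
  (K1 : IntermediateField ℚ (AlgebraicClosure ℚ)) [IsDiscreteValuationRing (S18K_O1 A K1)]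

/-! ### The component at infinity -/

/-- **REG36 [ONE ∞], finite chart**: `IGAt` at the maximal ideals of the finite chart of level
`N` (`N' ∣ N`, `q ∤ N'`) which lie on the component of the Gauss ring only. -/
theorem S36N1K_oo_A0 {q : ℕ} (hq : q.Prime) (hA : A.LiesOverPrime q) (N' N : ℕ) [NeZero N']
    [NeZero N] (hqN' : ¬ q ∣ N') (hN : N' ∣ N) (h : S18K_Admissible A K1 q)
    (V2 V3 : Subring (LaurentSeries K1))
    (S : S34C_Setup (S18K_O A K1) (S18K_π A K1) (S18K_j K1) (S18K_F1 K1 N)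
      (S18K_V A K1 N ⊓ V2 ⊓ V3) (S18K_A0 A K1 N) (S18K_Ainf A K1 N))
    (hres : ∀ x ∈ S18K_V A K1 N, ∃ r ∈ S18K_V A K1 N', ∃ v ∈ S18K_V A K1 N,
      x = r + S18K_π A K1 * v)
    (hπ : S18K_π A K1 ∈ S18K_A0 A K1 N) (m : Ideal (S18K_A0 A K1 N)) (hm : m.IsMaximal)
    (hπm : (⟨S18K_π A K1, hπ⟩ : S18K_A0 A K1 N) ∈ m)
    (d : S18K_A0 A K1 N) (hdm : d ∉ m)
    (hdW : ∃ v ∈ V2 ⊓ V3, (d : LaurentSeries K1) = S18K_π A K1 * v) :
    IGAt (S18K_π A K1) (S18K_A0 A K1 N) m := by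
  haveI := S34N1K_charZero K1
  haveI : Fact q.Prime := ⟨hq⟩
  have hAB := Fermat.Agent.S18_helper25_FINAL.S18K_blocksAB_of_blockB N' hqN' A hA
    (Fermat.Agent.S18_helper12_TOP.S18TOP_blockB N' hqN' A hA)
  obtain ⟨S', hIG0, -⟩ := hAB K1 h
  haveI : IsNoetherianRing (S18K_A0 A K1 N') :=
    Fermat.Agent.S18_helper27_CNOETH.S18CNOETH_chart_noetherian S' (S18K_j K1) (Or.inl rfl)
      (S18K_A0 A K1 N') S'.chart0
  have hF := S34V3K_F1_mono K1 hN
  exact S36N1Q_thru1 (W := V2 ⊓ V3) S' (S34V3K_V_mono A K1 hN) (S34V3K_val1 A K1 N).π_nonunit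
    (S34V3K_unif1 A K1 N) hres (S18K_j K1) S'.j_mem (S18K_A0 A K1 N') (S18K_A0 A K1 N)
    S'.chart0 (S34N1S_chart_le hF S'.chart0 S.chart0)
    (fun y hy => ((S.chart0.mem_iff y).1 hy).1)
    (fun y hy => (S.chart0.le_V hy).1.1)
    (fun y hy => ⟨(S.chart0.le_V hy).1.2, (S.chart0.le_V hy).2⟩)
    (fun v hv1 hvW hπv => S.chart0.sat v ⟨⟨hv1, hvW.1⟩, hvW.2⟩ hπv)
    hIG0 hπ m hm hπm d hdm hdW

/-- **REG36 [ONE ∞], chart at infinity** (cusps of `∞`-type included). -/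
theorem S36N1K_oo_Ainf {q : ℕ} (hq : q.Prime) (hA : A.LiesOverPrime q) (N' N : ℕ) [NeZero N']
    [NeZero N] (hqN' : ¬ q ∣ N') (hN : N' ∣ N) (h : S18K_Admissible A K1 q)
    (V2 V3 : Subring (LaurentSeries K1))
    (S : S34C_Setup (S18K_O A K1) (S18K_π A K1) (S18K_j K1) (S18K_F1 K1 N)
      (S18K_V A K1 N ⊓ V2 ⊓ V3) (S18K_A0 A K1 N) (S18K_Ainf A K1 N))
    (hres : ∀ x ∈ S18K_V A K1 N, ∃ r ∈ S18K_V A K1 N', ∃ v ∈ S18K_V A K1 N,
      x = r + S18K_π A K1 * v)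
    (hπ : S18K_π A K1 ∈ S18K_Ainf A K1 N) (m : Ideal (S18K_Ainf A K1 N)) (hm : m.IsMaximal)
    (hπm : (⟨S18K_π A K1, hπ⟩ : S18K_Ainf A K1 N) ∈ m)
    (d : S18K_Ainf A K1 N) (hdm : d ∉ m)
    (hdW : ∃ v ∈ V2 ⊓ V3, (d : LaurentSeries K1) = S18K_π A K1 * v) :
    IGAt (S18K_π A K1) (S18K_Ainf A K1 N) m := by
  haveI := S34N1K_charZero K1
  haveI : Fact q.Prime := ⟨hq⟩
  have hAB := Fermat.Agent.S18_helper25_FINAL.S18K_blocksAB_of_blockB N' hqN' A hA
    (Fermat.Agent.S18_helper12_TOP.S18TOP_blockB N' hqN' A hA)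
  obtain ⟨S', -, hIGinf⟩ := hAB K1 h
  haveI : IsNoetherianRing (S18K_Ainf A K1 N') :=
    Fermat.Agent.S18_helper27_CNOETH.S18CNOETH_chart_noetherian S' (S18K_j K1)⁻¹ (Or.inr rfl)
      (S18K_Ainf A K1 N') S'.chartInf
  have hF := S34V3K_F1_mono K1 hN
  exact S36N1Q_thru1 (W := V2 ⊓ V3) S' (S34V3K_V_mono A K1 hN) (S34V3K_val1 A K1 N).π_nonunit
    (S34V3K_unif1 A K1 N) hres (S18K_j K1)⁻¹ ((S18K_F1 K1 N').inv_mem S'.j_mem)
    (S18K_Ainf A K1 N') (S18K_Ainf A K1 N)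
    S'.chartInf (S34N1S_chart_le hF S'.chartInf S.chartInf)
    (fun y hy => ((S.chartInf.mem_iff y).1 hy).1)
    (fun y hy => (S.chartInf.le_V hy).1.1)
    (fun y hy => ⟨(S.chartInf.le_V hy).1.2, (S.chartInf.le_V hy).2⟩)
    (fun v hv1 hvW hπv => S.chartInf.sat v ⟨⟨hv1, hvW.1⟩, hvW.2⟩ hπv)
    hIGinf hπ m hm hπm d hdm hdW

/-! ### Generic lemmas on helper20's `S36WQ_wL` -/

section WL

variable {K : Type*} [Field K] (emb : K →+* Kbar) (Q M' N : ℕ) [NeZero M'] [NeZero N]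
  (hcop : Nat.Coprime Q M') (hN : N = Q * M') [NeZero Q]

theorem S36N1K_wL_zero : S36WQ_wL emb Q M' N hcop hN 0 = 0 := by
  rw [S36WQ_wL_of_mem emb Q M' N hcop hN (zero_mem _)]
  have h : (⟨0, zero_mem _⟩ : modularFunctionFieldFullC K N) = 0 := rfl
  rw [h, map_zero]
  rfl

theorem S36N1K_wL_one : S36WQ_wL emb Q M' N hcop hN 1 = 1 := by
  rw [S36WQ_wL_of_mem emb Q M' N hcop hN (one_mem _)]
  have h : (⟨1, one_mem _⟩ : modularFunctionFieldFullC K N) = 1 := rfl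
  rw [h, map_one]
  rfl

theorem S36N1K_wL_neg {x : LaurentSeries K} (hx : x ∈ modularFunctionFieldFullC K N) :
    S36WQ_wL emb Q M' N hcop hN (-x) = - S36WQ_wL emb Q M' N hcop hN x := by
  rw [S36WQ_wL_of_mem emb Q M' N hcop hN hx,
    S36WQ_wL_of_mem emb Q M' N hcop hN (neg_mem hx)]
  have h : (⟨-x, neg_mem hx⟩ : modularFunctionFieldFullC K N) = -⟨x, hx⟩ := rfl
  rw [h, map_neg]
  rfl

theorem S36N1K_wL_pow {x : LaurentSeries K} (hx : x ∈ modularFunctionFieldFullC K N) (n : ℕ) :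
    S36WQ_wL emb Q M' N hcop hN (x ^ n) = (S36WQ_wL emb Q M' N hcop hN x) ^ n := by
  induction n with
  | zero => rw [pow_zero, pow_zero, S36N1K_wL_one]
  | succ n ih =>
      rw [pow_succ, pow_succ, S36WQ_wL_mul emb Q M' N hcop hN (pow_mem hx n) hx, ih]

/-- `W_Q j = j(q^Q)` -/
theorem S36N1K_wL_j :
    S36WQ_wL emb Q M' N hcop hN (jqModC K) = qExpand K Q (jqModC K) :=
  S36WQ_wL_level emb Q M' N hcop hN (jqModC_mem_full K M')

include emb hcop hN in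
/-- `j(q^Q) ∈ F` -/
theorem S36N1K_jQ_mem : qExpand K Q (jqModC K) ∈ modularFunctionFieldFullC K N := by
  rw [← S36N1K_wL_j emb Q M' N hcop hN]
  exact S36WQ_wL_mem emb Q M' N hcop hN _

variable (O : Subring (LaurentSeries K)) (hO : ∀ a ∈ O, ∃ c : K, HahnSeries.C c = a)

include hO in
/-- `W_Q` maps `O[g]` into `O[W_Q g]` -/
theorem S36N1K_wL_adj {g : LaurentSeries K} (hg : g ∈ modularFunctionFieldFullC K N)
    {r : LaurentSeries K} (hr : r ∈ adj O g) :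
    S36WQ_wL emb Q M' N hcop hN r ∈ adj O (S36WQ_wL emb Q M' N hcop hN g) := by
  have hle := S34V0_adj_le N O hO hg
  unfold adj at hr
  induction hr using Subring.closure_induction with
  | mem x hx =>
      rcases hx with hx | hx
      · obtain ⟨c, rfl⟩ := hO x hx
        rw [S36WQ_wL_C]
        exact Subring.subset_closure (Or.inl hx)
      · rw [Set.mem_singleton_iff] at hx
        rw [hx]
        exact Subring.subset_closure (Or.inr rfl)
  | zero => rw [S36N1K_wL_zero]; exact zero_mem _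
  | one => rw [S36N1K_wL_one]; exact one_mem _
  | add x y hx hy ihx ihy =>
      rw [S36WQ_wL_add emb Q M' N hcop hN (hle x hx) (hle y hy)]
      exact add_mem ihx ihy
  | neg x hx ihx =>
      rw [S36N1K_wL_neg emb Q M' N hcop hN (hle x hx)]
      exact neg_mem ihx
  | mul x y hx hy ihx ihy =>
      rw [S36WQ_wL_mul emb Q M' N hcop hN (hle x hx) (hle y hy)]
      exact mul_mem ihx ihy

include hO in
/-- **transport of integrality**: if `x ∈ F` is integral over `O[g]`, then `W_Q x` is integral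
over `O[W_Q g]`. -/
theorem S36N1K_isIntegral_wL {g : LaurentSeries K} (hg : g ∈ modularFunctionFieldFullC K N)
    {x : LaurentSeries K} (hxF : x ∈ modularFunctionFieldFullC K N)
    (hx : IsIntegral (adj O g) x) :
    IsIntegral (adj O (S36WQ_wL emb Q M' N hcop hN g)) (S36WQ_wL emb Q M' N hcop hN x) := by
  have hle := S34V0_adj_le N O hO hg
  let φ : adj O g →+* adj O (S36WQ_wL emb Q M' N hcop hN g) :=
    { toFun := fun r => ⟨S36WQ_wL emb Q M' N hcop hN (r : LaurentSeries K),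
        S36N1K_wL_adj emb Q M' N hcop hN O hO hg r.2⟩
      map_one' := Subtype.ext (S36N1K_wL_one emb Q M' N hcop hN)
      map_mul' := fun a b => Subtype.ext
        (S36WQ_wL_mul emb Q M' N hcop hN (hle a a.2) (hle b b.2))
      map_zero' := Subtype.ext (S36N1K_wL_zero emb Q M' N hcop hN)
      map_add' := fun a b => Subtype.ext
        (S36WQ_wL_add emb Q M' N hcop hN (hle a a.2) (hle b b.2)) }
  obtain ⟨P, hP, hPx⟩ := hx
  refine ⟨P.map φ, hP.map φ, ?_⟩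
  rw [Polynomial.eval₂_map, Polynomial.eval₂_eq_sum_range]
  rw [Polynomial.eval₂_eq_sum_range] at hPx
  have key : ∀ (n : ℕ),
      S36WQ_wL emb Q M' N hcop hN
        (∑ i ∈ Finset.range n, algebraMap (adj O g) (LaurentSeries K) (P.coeff i) * x ^ i) =
      ∑ i ∈ Finset.range n,
        ((algebraMap (adj O (S36WQ_wL emb Q M' N hcop hN g)) (LaurentSeries K)).comp φ)
          (P.coeff i) * (S36WQ_wL emb Q M' N hcop hN x) ^ i ∧
      (∑ i ∈ Finset.range n, algebraMap (adj O g) (LaurentSeries K) (P.coeff i) * x ^ i) ∈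
        modularFunctionFieldFullC K N := by
    intro n
    induction n with
    | zero =>
        simp only [Finset.range_zero, Finset.sum_empty]
        exact ⟨S36N1K_wL_zero emb Q M' N hcop hN, zero_mem _⟩
    | succ n ih =>
        have hcF : algebraMap (adj O g) (LaurentSeries K) (P.coeff n) ∈
            modularFunctionFieldFullC K N := hle _ (P.coeff n).2
        have hterm : algebraMap (adj O g) (LaurentSeries K) (P.coeff n) * x ^ n ∈
            modularFunctionFieldFullC K N :=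
          mul_mem hcF (pow_mem hxF n)
        rw [Finset.sum_range_succ, Finset.sum_range_succ,
          S36WQ_wL_add emb Q M' N hcop hN ih.2 hterm, ih.1,
          S36WQ_wL_mul emb Q M' N hcop hN hcF (pow_mem hxF n),
          S36N1K_wL_pow emb Q M' N hcop hN hxF]
        exact ⟨rfl, add_mem ih.2 hterm⟩
  rw [← (key (P.natDegree + 1)).1, hPx, S36N1K_wL_zero]

include hO in
/-- transport of integrality along the substitution `q ↦ q^n` -/
theorem S36N1K_isIntegral_qExpand (n : ℕ) [NeZero n] {g x : LaurentSeries K}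
    (hx : IsIntegral (adj O g) x) :
    IsIntegral (adj O (qExpand K n g)) (qExpand K n x) := by
  have hadj : ∀ r ∈ adj O g, qExpand K n r ∈ adj O (qExpand K n g) := by
    intro r hr
    unfold adj at hr
    induction hr using Subring.closure_induction with
    | mem y hy =>
        rcases hy with hy | hy
        · obtain ⟨c, rfl⟩ := hO y hy
          rw [qExpand_C]
          exact Subring.subset_closure (Or.inl hy)
        · rw [Set.mem_singleton_iff] at hy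
          rw [hy]
          exact Subring.subset_closure (Or.inr rfl)
    | zero => rw [map_zero]; exact zero_mem _
    | one => rw [map_one]; exact one_mem _
    | add y z _ _ ihy ihz => rw [map_add]; exact add_mem ihy ihz
    | neg y _ ihy => rw [map_neg]; exact neg_mem ihy
    | mul y z _ _ ihy ihz => rw [map_mul]; exact mul_mem ihy ihz
  let φ : adj O g →+* adj O (qExpand K n g) :=
    { toFun := fun r => ⟨qExpand K n (r : LaurentSeries K), hadj r r.2⟩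
      map_one' := Subtype.ext (map_one _)
      map_mul' := fun a b => Subtype.ext (map_mul _ _ _)
      map_zero' := Subtype.ext (map_zero _)
      map_add' := fun a b => Subtype.ext (map_add _ _ _) }
  obtain ⟨P, hP, hPx⟩ := hx
  refine ⟨P.map φ, hP.map φ, ?_⟩
  rw [Polynomial.eval₂_map]
  have h1 := Polynomial.hom_eval₂ P (algebraMap (adj O g) (LaurentSeries K)) (qExpand K n) x
  rw [hPx, map_zero] at h1
  rw [h1]
  rfl

end WL

/-! ### The Atkin–Lehner involution `W_(q²)` on the finite chart -/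

section Sigma

variable (q M' N : ℕ) [NeZero M'] [NeZero N] [NeZero (q ^ 2)] (hq : q.Prime) (hqM : ¬ q ∣ M')
  (hN : N = q ^ 2 * M')

include hN in
theorem S36N1K_dvd : M' ∣ N := ⟨q ^ 2, by rw [hN, mul_comm]⟩

include hN in
theorem S36N1K_q_dvd : q ∣ N := ⟨q * M', by rw [hN]; ring⟩

include hq hN in
/-- **the modular equation at level `q²`**: `j(q^(q²))` is integral over `O[j]`. -/
theorem S36N1K_hjqq (hA : A.LiesOverPrime q) :
    IsIntegral (adj (S18K_O A K1) (S18K_j K1)) (qExpand K1 (q ^ 2) (jqModC K1)) := by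
  haveI : NeZero q := ⟨hq.ne_zero⟩
  have h1 : IsIntegral (adj (S18K_O A K1) (S18K_j K1)) (qExpand K1 q (S18K_j K1)) :=
    Fermat.Agent.S34_helper13_HJQM.S34HJQ_main A K1 q hq hA
  have h2 : IsIntegral (adj (S18K_O A K1) (qExpand K1 q (S18K_j K1)))
      (qExpand K1 q (qExpand K1 q (S18K_j K1))) :=
    S36N1K_isIntegral_qExpand (S18K_O A K1) (S34N1K_hO A K1) q h1
  have h3 : qExpand K1 q (qExpand K1 q (S18K_j K1)) = qExpand K1 (q ^ 2) (jqModC K1) := by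
    rw [qExpand_qExpand]
    exact S34WQ_qExpand_congr (by ring) _
  rw [h3] at h2
  have hle : adj (S18K_O A K1) (qExpand K1 q (S18K_j K1)) ≤
      (integralClosure (adj (S18K_O A K1) (S18K_j K1)) (LaurentSeries K1)).toSubring := by
    refine adj_le ?_ h1
    intro a ha
    exact isIntegral_of_mem _ (le_adj _ _ ha)
  exact isIntegral_trans' (fun b hb => hle hb) h2

/-- `W_(q²)` maps the finite chart into itself. -/
theorem S36N1K_wL_mem_A0 (hA : A.LiesOverPrime q) {a : LaurentSeries K1}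
    (ha : a ∈ S18K_A0 A K1 N) :
    S36WQ_wL (S34V0K_emb K1) (q ^ 2) M' N (S36WQ_cop hq hqM) hN a ∈ S18K_A0 A K1 N := by
  obtain ⟨hint, haF⟩ := mem_icl.1 ha
  have hjq := S36N1K_hjqq A K1 q M' N hq hN hA
  have hjF : S18K_j K1 ∈ modularFunctionFieldFullC K1 N := jqModC_mem_full K1 N
  have h1 := S36N1K_isIntegral_wL (S34V0K_emb K1) (q ^ 2) M' N (S36WQ_cop hq hqM) hN
    (S18K_O A K1) (S34N1K_hO A K1) hjF haF hint
  have hwj : S36WQ_wL (S34V0K_emb K1) (q ^ 2) M' N (S36WQ_cop hq hqM) hN (S18K_j K1) =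
      qExpand K1 (q ^ 2) (jqModC K1) :=
    S36N1K_wL_j (S34V0K_emb K1) (q ^ 2) M' N (S36WQ_cop hq hqM) hN
  rw [hwj] at h1
  have hjqA0 : qExpand K1 (q ^ 2) (jqModC K1) ∈ S18K_A0 A K1 N :=
    mem_icl.2 ⟨hjq, S36N1K_jQ_mem (S34V0K_emb K1) (q ^ 2) M' N (S36WQ_cop hq hqM) hN⟩
  have hle : adj (S18K_O A K1) (qExpand K1 (q ^ 2) (jqModC K1)) ≤ S18K_A0 A K1 N :=
    adj_le (S34N1K_O_le_A0 A K1 N) hjqA0
  have h2 : IsIntegral (S18K_A0 A K1 N)
      (S36WQ_wL (S34V0K_emb K1) (q ^ 2) M' N (S36WQ_cop hq hqM) hN a) :=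
    isIntegral_mono hle h1
  have h3 : IsIntegral (adj (S18K_O A K1) (S18K_j K1))
      (S36WQ_wL (S34V0K_emb K1) (q ^ 2) M' N (S36WQ_cop hq hqM) hN a) :=
    isIntegral_trans' (fun b hb => (mem_icl.1 hb).1) h2
  exact mem_icl.2 ⟨h3, S36WQ_wL_mem (S34V0K_emb K1) (q ^ 2) M' N (S36WQ_cop hq hqM) hN a⟩

/-- **The Atkin–Lehner involution `W_(q²)` as an automorphism of the finite chart.** -/
def S36N1K_sigma (hA : A.LiesOverPrime q) : S18K_A0 A K1 N ≃+* S18K_A0 A K1 N where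
  toFun a := ⟨S36WQ_wL (S34V0K_emb K1) (q ^ 2) M' N (S36WQ_cop hq hqM) hN
    (a : LaurentSeries K1), S36N1K_wL_mem_A0 A K1 q M' N hq hqM hN hA a.2⟩
  invFun a := ⟨S36WQ_wL (S34V0K_emb K1) (q ^ 2) M' N (S36WQ_cop hq hqM) hN
    (a : LaurentSeries K1), S36N1K_wL_mem_A0 A K1 q M' N hq hqM hN hA a.2⟩
  left_inv a := Subtype.ext
    (S36WQ_wL_wL (S34V0K_emb K1) (q ^ 2) M' N (S36WQ_cop hq hqM) hN
      (S34N1K_A0_le_F A K1 N a.2))
  right_inv a := Subtype.ext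
    (S36WQ_wL_wL (S34V0K_emb K1) (q ^ 2) M' N (S36WQ_cop hq hqM) hN
      (S34N1K_A0_le_F A K1 N a.2))
  map_mul' a b := Subtype.ext
    (S36WQ_wL_mul (S34V0K_emb K1) (q ^ 2) M' N (S36WQ_cop hq hqM) hN
      (S34N1K_A0_le_F A K1 N a.2) (S34N1K_A0_le_F A K1 N b.2))
  map_add' a b := Subtype.ext
    (S36WQ_wL_add (S34V0K_emb K1) (q ^ 2) M' N (S36WQ_cop hq hqM) hN
      (S34N1K_A0_le_F A K1 N a.2) (S34N1K_A0_le_F A K1 N b.2))

theorem S36N1K_sigma_coe (hA : A.LiesOverPrime q) (a : S18K_A0 A K1 N) :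
    ((S36N1K_sigma A K1 q M' N hq hqM hN hA a : S18K_A0 A K1 N) : LaurentSeries K1) =
      S36WQ_wL (S34V0K_emb K1) (q ^ 2) M' N (S36WQ_cop hq hqM) hN (a : LaurentSeries K1) :=
  rfl

theorem S36N1K_sigma_symm_coe (hA : A.LiesOverPrime q) (a : S18K_A0 A K1 N) :
    (((S36N1K_sigma A K1 q M' N hq hqM hN hA).symm a : S18K_A0 A K1 N) : LaurentSeries K1) =
      S36WQ_wL (S34V0K_emb K1) (q ^ 2) M' N (S36WQ_cop hq hqM) hN (a : LaurentSeries K1) :=
  rfl

/-- `W_(q²) π = π`. -/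
theorem S36N1K_wL_pi :
    S36WQ_wL (S34V0K_emb K1) (q ^ 2) M' N (S36WQ_cop hq hqM) hN (S18K_π A K1) =
      S18K_π A K1 :=
  S36WQ_wL_C (S34V0K_emb K1) (q ^ 2) M' N (S36WQ_cop hq hqM) hN _

/-- `σ` exchanges the vertical primes of `V_∞` and of `V_0 = W_(q²)(V_∞)` (ANY carrier `V3` with
the membership characterisation `hV3`). -/
theorem S36N1K_sigma_vert (hA : A.LiesOverPrime q) (V3 : Subring (LaurentSeries K1))
    (hV3 : ∀ y : LaurentSeries K1, y ∈ V3 ↔ y ∈ modularFunctionFieldFullC K1 N ∧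
      S36WQ_wL (S34V0K_emb K1) (q ^ 2) M' N (S36WQ_cop hq hqM) hN y ∈ S18K_V A K1 N)
    (a : S18K_A0 A K1 N) :
    (∃ v ∈ V3, (a : LaurentSeries K1) = S18K_π A K1 * v) ↔
      ∃ v ∈ S18K_V A K1 N,
        (((S36N1K_sigma A K1 q M' N hq hqM hN hA).symm a : S18K_A0 A K1 N) :
          LaurentSeries K1) = S18K_π A K1 * v := by
  rw [S36N1K_sigma_symm_coe]
  have hπF := S34N1K_pi_mem_F A K1 N
  constructor
  · rintro ⟨v, hv, hav⟩
    obtain ⟨hvF, hwv⟩ := (hV3 v).1 hv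
    refine ⟨_, hwv, ?_⟩
    rw [hav, S36WQ_wL_mul (S34V0K_emb K1) (q ^ 2) M' N (S36WQ_cop hq hqM) hN hπF hvF,
      S36N1K_wL_pi A K1 q M' N hq hqM hN]
  · rintro ⟨v, hv, hav⟩
    have hvF : v ∈ modularFunctionFieldFullC K1 N := hv.2
    refine ⟨S36WQ_wL (S34V0K_emb K1) (q ^ 2) M' N (S36WQ_cop hq hqM) hN v,
      (hV3 _).2 ⟨S36WQ_wL_mem (S34V0K_emb K1) (q ^ 2) M' N (S36WQ_cop hq hqM) hN v, ?_⟩, ?_⟩
    · rw [S36WQ_wL_wL (S34V0K_emb K1) (q ^ 2) M' N (S36WQ_cop hq hqM) hN hvF]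
      exact hv
    · have h1 := congrArg (S36WQ_wL (S34V0K_emb K1) (q ^ 2) M' N (S36WQ_cop hq hqM) hN) hav
      rw [S36WQ_wL_wL (S34V0K_emb K1) (q ^ 2) M' N (S36WQ_cop hq hqM) hN
          (S34N1K_A0_le_F A K1 N a.2),
        S36WQ_wL_mul (S34V0K_emb K1) (q ^ 2) M' N (S36WQ_cop hq hqM) hN hπF hvF,
        S36N1K_wL_pi A K1 q M' N hq hqM hN] at h1
      exact h1

/-- **REG36 [ONE 0], finite chart**: `IGAt` at the maximal ideals of the finite chart of level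
`N = q² M'` which lie on the component of `V3 = W_(q²)(V_∞)` only (witness `d ∉ m`,
`d ∈ π (V_∞ ⊓ V2)`).  `V2` is ANY subring, `V3` ANY carrier with the membership
characterisation `hV3`; the modular equation at level `q²` is discharged. -/
theorem S36N1K_zero_A0 (hA : A.LiesOverPrime q) (h : S18K_Admissible A K1 q)
    (V2 V3 : Subring (LaurentSeries K1))
    (hV3 : ∀ y : LaurentSeries K1, y ∈ V3 ↔ y ∈ modularFunctionFieldFullC K1 N ∧
      S36WQ_wL (S34V0K_emb K1) (q ^ 2) M' N (S36WQ_cop hq hqM) hN y ∈ S18K_V A K1 N)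
    (S : S34C_Setup (S18K_O A K1) (S18K_π A K1) (S18K_j K1) (S18K_F1 K1 N)
      (S18K_V A K1 N ⊓ V2 ⊓ V3) (S18K_A0 A K1 N) (S18K_Ainf A K1 N))
    (hres : ∀ x ∈ S18K_V A K1 N, ∃ r ∈ S18K_V A K1 M', ∃ v ∈ S18K_V A K1 N,
      x = r + S18K_π A K1 * v)
    (hπ : S18K_π A K1 ∈ S18K_A0 A K1 N) (m : Ideal (S18K_A0 A K1 N)) (hm : m.IsMaximal)
    (hπm : (⟨S18K_π A K1, hπ⟩ : S18K_A0 A K1 N) ∈ m)
    (d : S18K_A0 A K1 N) (hdm : d ∉ m)
    (hdQ : ∃ v ∈ S18K_V A K1 N ⊓ V2, (d : LaurentSeries K1) = S18K_π A K1 * v) :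
    IGAt (S18K_π A K1) (S18K_A0 A K1 N) m := by
  have hdvd : M' ∣ N := S36N1K_dvd q M' N hN
  haveI := S34N1K_charZero K1
  haveI : Fact q.Prime := ⟨hq⟩
  have hAB := Fermat.Agent.S18_helper25_FINAL.S18K_blocksAB_of_blockB M' hqM A hA
    (Fermat.Agent.S18_helper12_TOP.S18TOP_blockB M' hqM A hA)
  obtain ⟨S', hIG0, -⟩ := hAB K1 h
  haveI : IsNoetherianRing (S18K_A0 A K1 M') :=
    Fermat.Agent.S18_helper27_CNOETH.S18CNOETH_chart_noetherian S' (S18K_j K1) (Or.inl rfl)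
      (S18K_A0 A K1 M') S'.chart0
  have hF := S34V3K_F1_mono K1 hdvd
  exact S36N1Q_thru0 S' (S34V3K_V_mono A K1 hdvd) (S34V3K_val1 A K1 N).π_nonunit
    (S34V3K_unif1 A K1 N) hres (S18K_j K1) S'.j_mem (S18K_A0 A K1 M') (S18K_A0 A K1 N)
    S'.chart0 (S34N1S_chart_le hF S'.chart0 S.chart0)
    (fun y hy => ((S.chart0.mem_iff y).1 hy).1)
    (fun y hy => (S.chart0.le_V hy).1.1)
    V3 (S18K_V A K1 N ⊓ V2)
    (fun y hy => (S.chart0.le_V hy).2)
    (fun y hy => (S.chart0.le_V hy).1)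
    (fun v hv3 hvQ hπv => S.chart0.sat v ⟨hvQ, hv3⟩ hπv)
    hIG0 hπ (S36N1K_sigma A K1 q M' N hq hqM hN hA)
    (Subtype.ext (S36N1K_wL_pi A K1 q M' N hq hqM hN))
    (S36N1K_sigma_vert A K1 q M' N hq hqM hN hA V3 hV3) m hm hπm d hdm hdQ

end Sigma

/-! ### Transfer to the non-cuspidal points of the chart at infinity (weak setup) -/

section Transfer

open Fermat.Agent.S18_helper18_IGMID Fermat.Agent.S18_helper20_CSAT
  Fermat.Agent.S18_helper18_IGINF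

variable {L : Type} [Field L] {O : Subring L} {π j : L} {F1 : Subfield L}
  {V A0 Ainf : Subring L}

theorem S36N1K_j_ne_zero (S : S34C_Setup O π j F1 V A0 Ainf) : j ≠ 0 := by
  intro h
  refine S.j_trans ?_
  rw [h]
  exact isAlgebraic_zero

theorem S36N1K_O_le_A0 (S : S34C_Setup O π j F1 V A0 Ainf) : O ≤ A0 := fun a ha =>
  (S.chart0.mem_iff a).mpr
    ⟨isIntegral_algebraMap (x := (⟨a, CSAT_O_le_adj O j ha⟩ : adj O j)), S.O_le ha⟩

theorem S36N1K_O_le_Ainf (S : S34C_Setup O π j F1 V A0 Ainf) : O ≤ Ainf := fun a ha =>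
  (S.chartInf.mem_iff a).mpr
    ⟨isIntegral_algebraMap (x := (⟨a, CSAT_O_le_adj O j⁻¹ ha⟩ : adj O j⁻¹)), S.O_le ha⟩

theorem S36N1K_j_mem (S : S34C_Setup O π j F1 V A0 Ainf) : j ∈ A0 :=
  (S.chart0.mem_iff j).mpr
    ⟨isIntegral_algebraMap (x := (⟨j, CSAT_mem_adj O j⟩ : adj O j)), S.j_mem⟩

theorem S36N1K_jinv_mem (S : S34C_Setup O π j F1 V A0 Ainf) : j⁻¹ ∈ Ainf :=
  (S.chartInf.mem_iff j⁻¹).mpr
    ⟨isIntegral_algebraMap (x := (⟨j⁻¹, CSAT_mem_adj O j⁻¹⟩ : adj O j⁻¹)), F1.inv_mem S.j_mem⟩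

/-- every element of the chart at infinity is moved into the finite chart by a power of `j` -/
theorem S36N1K_poleInf (S : S34C_Setup O π j F1 V A0 Ainf) :
    ∀ z ∈ Ainf, ∃ n : ℕ, j ^ n * z ∈ A0 := by
  intro z hz
  obtain ⟨h1, h2⟩ := (S.chartInf.mem_iff z).mp hz
  have h3 : IsIntegral (adjMid O j) z := CSAT_isIntegral_mono (CSAT_adj_inv_le_adjMid O j) h1
  obtain ⟨n, hn⟩ := CSAT_exists_pow_mul_isIntegral (adj O j) (adjMid O j) j (CSAT_mem_adj O j)
    (fun r hr => CSAT_pow_mul_mem_adj O j (S36N1K_j_ne_zero S) hr) h3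
  exact ⟨n, (S.chart0.mem_iff _).mpr ⟨hn, F1.mul_mem (F1.pow_mem S.j_mem n) h2⟩⟩

/-- every element of the finite chart is moved into the chart at infinity by a power of `j⁻¹` -/
theorem S36N1K_pole0 (S : S34C_Setup O π j F1 V A0 Ainf) :
    ∀ a ∈ A0, ∃ n : ℕ, j⁻¹ ^ n * a ∈ Ainf := by
  intro a ha
  obtain ⟨h1, h2⟩ := (S.chart0.mem_iff a).mp ha
  have h3 : IsIntegral (adjMid O j) a := CSAT_isIntegral_mono (CSAT_adj_le_adjMid O j) h1
  obtain ⟨n, hn⟩ := CSAT_exists_pow_mul_isIntegral (adj O j⁻¹) (adjMid O j) j⁻¹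
    (CSAT_mem_adj O j⁻¹)
    (fun r hr => CSAT_pow_mul_mem_adj O j⁻¹ (inv_ne_zero (S36N1K_j_ne_zero S))
      (by rw [CSAT_adjMid_inv]; exact hr)) h3
  exact ⟨n, (S.chartInf.mem_iff _).mpr
    ⟨hn, F1.mul_mem (F1.pow_mem (F1.inv_mem S.j_mem) n) h2⟩⟩

/-- the maximal ideal of `O` is generated by `π` -/
theorem S36N1K_pi_gen (S : S34C_Setup O π j F1 V A0 Ainf) [IsLocalRing O] :
    ∀ c ∈ IsLocalRing.maximalIdeal O, ∃ c' : O, c = (⟨π, S.π_mem⟩ : O) * c' := by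
  have := S.dvr
  intro c hc
  have h1 : IsLocalRing.maximalIdeal O = Ideal.span {(⟨π, S.π_mem⟩ : O)} :=
    (IsDiscreteValuationRing.irreducible_iff_uniformizer _).mp (S.π_irr S.π_mem)
  rw [h1, Ideal.mem_span_singleton] at hc
  exact hc

/-- **Transfer of `IGAt`, weak setup**: from the finite chart to the non-cuspidal points of the
chart at infinity.  `W` is any subring containing `j` (the intersection of the valuation rings
of the components which do NOT pass through the point). -/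
theorem S36N1K_transfer (S : S34C_Setup O π j F1 V A0 Ainf) [IsLocalRing O]
    [IsAlgClosed (IsLocalRing.ResidueField O)] (W : Subring L) (hjW : j ∈ W)
    (hIG0 : ∀ (hπ : π ∈ A0) (m0 : Ideal A0), m0.IsMaximal → (⟨π, hπ⟩ : A0) ∈ m0 →
      (∃ d : A0, d ∉ m0 ∧ ∃ v ∈ W, (d : L) = π * v) → IGAt π A0 m0)
    (hπ : π ∈ Ainf) (m : Ideal Ainf) (hm : m.IsMaximal) (hπm : (⟨π, hπ⟩ : Ainf) ∈ m)
    (hjm : (⟨j⁻¹, S36N1K_jinv_mem S⟩ : Ainf) ∉ m)
    (d : Ainf) (hdm : d ∉ m) (hdW : ∃ v ∈ W, (d : L) = π * v) :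
    IGAt π Ainf m := by
  have hj0 := S36N1K_j_ne_zero S
  have hO0 := S36N1K_O_le_A0 S
  have hOinf := S36N1K_O_le_Ainf S
  have hjinv := S36N1K_jinv_mem S
  have hpole0 := S36N1K_pole0 S
  have hpoleInf := S36N1K_poleInf S
  have hπO := S.π_mem
  have hres : ∀ z : Ainf, ∃ c : L, ∃ hc : c ∈ O, z - ⟨c, hOinf hc⟩ ∈ m := fun z =>
    S18IGINF_hres_gen j⁻¹ Ainf S.π_mem (S36N1K_pi_gen S) hOinf hjinv
      (fun y hy => ((S.chartInf.mem_iff y).mp hy).1) m hm hπm z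
  have hm0 := idealZero_isMaximal hO0 hOinf hjinv hpole0 m hm hjm hres
  have hπm0 := pi_mem_idealZero hO0 hOinf hπO hjinv hpole0 m hπm
  obtain ⟨k, hk⟩ := hpoleInf d d.2
  have hjm' : ¬ InIdeal Ainf m j⁻¹ := fun h => hjm ((InIdeal.mk_iff hjinv).1 h)
  have hd0 : (⟨j ^ k * (d : L), hk⟩ : A0) ∉ idealZero A0 Ainf j hjinv hpole0 m := by
    rintro ⟨n, hn⟩
    have h1 : j⁻¹ ^ k * (j ^ k * (d : L)) = d := by
      rw [← mul_assoc, ← mul_pow, inv_mul_cancel₀ hj0, one_pow, one_mul]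
    have h2 : InIdeal Ainf m (j⁻¹ ^ k * (j ^ k * (d : L))) :=
      inIdeal_of_pow_mul (hjinv := hjinv) hm.isPrime hjm' hn (by rw [h1]; exact d.2)
    rw [h1] at h2
    exact hdm ((InIdeal.iff_mem d).1 h2)
  obtain ⟨v, hv, hdv⟩ := hdW
  have hd0W : ∃ v' ∈ W, ((⟨j ^ k * (d : L), hk⟩ : A0) : L) = π * v' :=
    ⟨j ^ k * v, W.mul_mem (W.pow_mem hjW k) hv, by
      show j ^ k * (d : L) = π * (j ^ k * v)
      rw [hdv]; ring⟩
  obtain ⟨y0, ⟨N, hN⟩, hgen⟩ := hIG0 (hO0 hπO) _ hm0 hπm0 ⟨_, hd0, hd0W⟩ (hO0 hπO)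
  intro hπ'
  exact ⟨⟨j⁻¹ ^ N * (y0 : L), hN.1⟩, hN.2,
    gen_transfer hj0 hO0 hOinf hπO hjinv hpole0 hpoleInf m y0 N hN hgen⟩

end Transfer

/-! ### The component `C_0` on the chart at infinity, non-cuspidal points -/

section ZeroInf

variable (q M' N : ℕ) [NeZero M'] [NeZero N] [NeZero (q ^ 2)] (hq : q.Prime) (hqM : ¬ q ∣ M')
  (hN : N = q ^ 2 * M')

/-- **REG36 [ONE 0], chart at infinity, non-cuspidal points** (`j⁻¹ ∉ m`): transfer from the
finite chart. -/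
theorem S36N1K_zero_Ainf (hA : A.LiesOverPrime q) (h : S18K_Admissible A K1 q)
    (V2 V3 : Subring (LaurentSeries K1))
    (hV3 : ∀ y : LaurentSeries K1, y ∈ V3 ↔ y ∈ modularFunctionFieldFullC K1 N ∧
      S36WQ_wL (S34V0K_emb K1) (q ^ 2) M' N (S36WQ_cop hq hqM) hN y ∈ S18K_V A K1 N)
    (S : S34C_Setup (S18K_O A K1) (S18K_π A K1) (S18K_j K1) (S18K_F1 K1 N)
      (S18K_V A K1 N ⊓ V2 ⊓ V3) (S18K_A0 A K1 N) (S18K_Ainf A K1 N))
    (hres : ∀ x ∈ S18K_V A K1 N, ∃ r ∈ S18K_V A K1 M', ∃ v ∈ S18K_V A K1 N,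
      x = r + S18K_π A K1 * v)
    (hπ : S18K_π A K1 ∈ S18K_Ainf A K1 N) (m : Ideal (S18K_Ainf A K1 N)) (hm : m.IsMaximal)
    (hπm : (⟨S18K_π A K1, hπ⟩ : S18K_Ainf A K1 N) ∈ m)
    (hjm : (⟨(S18K_j K1)⁻¹, S36N1K_jinv_mem S⟩ : S18K_Ainf A K1 N) ∉ m)
    (d : S18K_Ainf A K1 N) (hdm : d ∉ m)
    (hdQ : ∃ v ∈ S18K_V A K1 N ⊓ V2, (d : LaurentSeries K1) = S18K_π A K1 * v) :
    IGAt (S18K_π A K1) (S18K_Ainf A K1 N) m := by
  haveI : IsDiscreteValuationRing (S18K_O A K1) := S.dvr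
  haveI : IsAlgClosed (IsLocalRing.ResidueField (S18K_O A K1)) :=
    S34N1K_isAlgClosed A K1 q h
  have hjW : S18K_j K1 ∈ S18K_V A K1 N ⊓ V2 := (S.chart0.le_V (S36N1K_j_mem S)).1
  refine S36N1K_transfer S (S18K_V A K1 N ⊓ V2) hjW ?_ hπ m hm hπm hjm d hdm hdQ
  rintro hπ0 m0 hm0 hπm0 ⟨d0, hd0m, hd0W⟩
  exact S36N1K_zero_A0 A K1 q M' N hq hqM hN hA h V2 V3 hV3 S hres hπ0 m0 hm0 hπm0 d0 hd0m
    hd0W

end ZeroInf

end Fermat.Agent.S36_helper14_N1K
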