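import Fermat.Agent.S36_helper9_PTS
import Fermat.Agent.S36_helper14_N1K
import Fermat.Agent.S36_helper5_VKDefs
import Fermat.Agent.S36_helper2_C3
import Fermat.Agent.S34_helper27_C2ADAPT

/-!
# S36, GEO36, (REG36): the field `pts0` at the concrete carriers (helper9)

* `S36DK_chart` : what a chart of the weak setup `S34C_Setup` gives for the case split
  (noetherian, `O ≤ X`, `π ∈ X`, saturation in the four-argument form, fraction field);
* `S36DK_sigma_0`, `S36DK_sigma_mid`, `S36DK_sigma_pi` : the Atkin-Lehner involution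
  `σ = W_(q²)` of the finite chart exchanges the non-units of `V_0` and `V_∞` and preserves
  the non-units of every `W_(q²)`-stable ring;
* `S36DK_A'mid`, `S36DK_A'mid'` : on the chart of level `M' q`, the non-units of `V_∞` and of
  a middle ring are the same;
* `S36DK_pts0` : **the field `pts0` of `S36XB_LocContract` at the carriers**, from the three
  providers which are not thin: `htriple` / `hR` (crossings) and `hmid` (thick one-branch
  points).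
-/

set_option autoImplicit false
set_option linter.style.haveILetI false
set_option linter.unusedVariables false
set_option linter.unusedSectionVars false
set_option synthInstance.maxHeartbeats 400000
set_option maxHeartbeats 1600000

open ModularCurve Fermat.Agent.S24
open Fermat.Agent.S18_helper13_GAUSS Fermat.Agent.S18_helper9_CDefs
  Fermat.Agent.S18_helper9_CBasic
open Fermat.Agent.S18_helper25_COREDefs Fermat.Agent.S34_helper12_CDefs
open Fermat.Agent.S34_helper27_C2Defs Fermat.Agent.S34_helper27_C2ADAPT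
open Fermat.Agent.S34_helper20_WQ Fermat.Agent.S34_helper20_V0
open Fermat.Agent.S34_helper27_V3K Fermat.Agent.S34_helper20_V0K
open Fermat.Agent.S18_helper3_LOCRING
open Fermat.Agent.S34_helper14_N1K
open Fermat.Agent.S36_helper14_N1K Fermat.Agent.S36_helper20_WQQ
open Fermat.Agent.S36_helper5_VKDefs Fermat.Agent.S36_helper2_C3
open Fermat.Agent.S36_helper3_XBPT Fermat.Agent.S36_helper3_LOCABS
open Fermat.Agent.S36_helper9_ONE Fermat.Agent.S36_helper9_DICH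
open Fermat.Agent.S36_helper9_PT Fermat.Agent.S36_helper9_PTS

noncomputable section

namespace Fermat.Agent.S36_helper9_DICHK

section Abstract

variable {L : Type*} [Field L] {O : Subring L} {π j x : L} {F1 : Subfield L}
  {Voo Vmid V0 A0 Ainf X : Subring L}

/-- what a chart of the weak setup gives for the case split -/
theorem S36DK_chart [CharZero L]
    (S : S34C_Setup O π j F1 (Voo ⊓ Vmid ⊓ V0 : Subring L) A0 Ainf)
    (hx : x = j ∨ x = j⁻¹) (hC : Chart O π x F1 (Voo ⊓ Vmid ⊓ V0 : Subring L) X) :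
    IsNoetherianRing X ∧ O ≤ X ∧ π ∈ X ∧ π ≠ 0 ∧
      (∀ v : L, v ∈ Voo → v ∈ Vmid → v ∈ V0 → π * v ∈ X → v ∈ X) ∧
      (∀ y ∈ F1, ∃ a b : L, a ∈ X ∧ b ∈ X ∧ b ≠ 0 ∧ y * b = a) := by
  have hOX : O ≤ X := fun a ha =>
    (hC.mem_iff a).2 ⟨isIntegral_of_mem _ (le_adj _ _ ha), S.O_le ha⟩
  refine ⟨S34CA_chart_noetherian S x hx X hC, hOX, hOX S.π_mem, ?_, ?_, ?_⟩
  · intro h0
    apply S.π_nonunit
    rw [h0, inv_zero]
    exact Subring.zero_mem _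
  · intro v h1 h2 h3 h
    exact hC.sat v ⟨⟨h1, h2⟩, h3⟩ h
  · intro y hy
    obtain ⟨a, b, hb0, hyb⟩ := S36C3_frac S hC hx y hy
    exact ⟨a, b, a.2, b.2, fun h => hb0 (Subtype.ext h), hyb⟩

end Abstract

section Concrete

variable (A : ValuationSubring (AlgebraicClosure ℚ))
  (K1 : IntermediateField ℚ (AlgebraicClosure ℚ)) [IsDiscreteValuationRing (S18K_O1 A K1)]
  (q M' N : ℕ) [NeZero M'] [NeZero N] [NeZero (q ^ 2)] (hq : q.Prime) (hqM : ¬ q ∣ M')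
  (hN : N = q ^ 2 * M')

/-- `σ π = π` -/
theorem S36DK_sigma_pi (hA : A.LiesOverPrime q) (hπ : S18K_π A K1 ∈ S18K_A0 A K1 N) :
    S36N1K_sigma A K1 q M' N hq hqM hN hA ⟨S18K_π A K1, hπ⟩ = ⟨S18K_π A K1, hπ⟩ :=
  Subtype.ext (S36N1K_wL_pi A K1 q M' N hq hqM hN)

/-- `σ` maps the non-units of `V_0 = W_(q²)(V_∞)` to non-units of `V_∞` -/
theorem S36DK_sigma_0 (hA : A.LiesOverPrime q) (V3 : Subring (LaurentSeries K1))
    (hV3 : ∀ y : LaurentSeries K1, y ∈ V3 ↔ y ∈ modularFunctionFieldFullC K1 N ∧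
      S36WQ_wL (S34V0K_emb K1) (q ^ 2) M' N (S36WQ_cop hq hqM) hN y ∈ S18K_V A K1 N)
    (a : S18K_A0 A K1 N) (ha : ((a : LaurentSeries K1))⁻¹ ∉ V3) :
    (((S36N1K_sigma A K1 q M' N hq hqM hN hA a : S18K_A0 A K1 N) :
      LaurentSeries K1))⁻¹ ∉ S18K_V A K1 N := by
  intro hc
  apply ha
  have haF : (a : LaurentSeries K1) ∈ modularFunctionFieldFullC K1 N :=
    S34N1K_A0_le_F A K1 N a.2
  rw [hV3]
  refine ⟨inv_mem haF, ?_⟩
  rw [S36VK_wL_inv (S34V0K_emb K1) (q ^ 2) M' N (S36WQ_cop hq hqM) hN haF]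
  exact hc

/-- the same for `σ.symm` -/
theorem S36DK_sigma_0' (hA : A.LiesOverPrime q) (V3 : Subring (LaurentSeries K1))
    (hV3 : ∀ y : LaurentSeries K1, y ∈ V3 ↔ y ∈ modularFunctionFieldFullC K1 N ∧
      S36WQ_wL (S34V0K_emb K1) (q ^ 2) M' N (S36WQ_cop hq hqM) hN y ∈ S18K_V A K1 N)
    (a : S18K_A0 A K1 N) (ha : ((a : LaurentSeries K1))⁻¹ ∉ V3) :
    ((((S36N1K_sigma A K1 q M' N hq hqM hN hA).symm a : S18K_A0 A K1 N) :
      LaurentSeries K1))⁻¹ ∉ S18K_V A K1 N :=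
  S36DK_sigma_0 A K1 q M' N hq hqM hN hA V3 hV3 a ha

/-- `σ` preserves the non-units of every `W_(q²)`-stable subring of `F1` -/
theorem S36DK_sigma_mid (hA : A.LiesOverPrime q) (V2 : Subring (LaurentSeries K1))
    (hw22 : ∀ x ∈ V2,
      S36WQ_wL (S34V0K_emb K1) (q ^ 2) M' N (S36WQ_cop hq hqM) hN x ∈ V2)
    (a : S18K_A0 A K1 N) (ha : ((a : LaurentSeries K1))⁻¹ ∉ V2) :
    (((S36N1K_sigma A K1 q M' N hq hqM hN hA a : S18K_A0 A K1 N) :
      LaurentSeries K1))⁻¹ ∉ V2 := by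
  intro hc
  apply ha
  have haF : (a : LaurentSeries K1) ∈ modularFunctionFieldFullC K1 N :=
    S34N1K_A0_le_F A K1 N a.2
  have h1 := hw22 _ hc
  rw [S36N1K_sigma_coe,
    ← S36VK_wL_inv (S34V0K_emb K1) (q ^ 2) M' N (S36WQ_cop hq hqM) hN haF,
    S36WQ_wL_wL (S34V0K_emb K1) (q ^ 2) M' N (S36WQ_cop hq hqM) hN (inv_mem haF)] at h1
  exact h1

omit [NeZero M'] [NeZero N] [NeZero (q ^ 2)] in
/-- on the level `N'`, a non-unit of the Gauss ring of level `N` is a non-unit of every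
valuation ring `W2` containing the Gauss ring of level `N'` -/
theorem S36DK_A'mid (N' : ℕ) (hN' : N' ∣ N) (W2 : Subring (LaurentSeries K1))
    (hW2nu : (S18K_π A K1)⁻¹ ∉ W2) (hV'2 : S18K_V A K1 N' ≤ W2)
    (hA'V : S18K_A0 A K1 N' ≤ S18K_V A K1 N') :
    ∀ a ∈ S18K_A0 A K1 N', a⁻¹ ∉ S18K_V A K1 N → a⁻¹ ∉ W2 := by
  intro a ha hinv hc
  have haV : a ∈ S18K_V A K1 N' := hA'V ha
  have hinv' : a⁻¹ ∉ S18K_V A K1 N' := fun h => hinv (S34V3K_V_mono A K1 hN' h)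
  obtain ⟨v, hv, hav⟩ := S34V3K_unif1 A K1 N' a haV hinv'
  have ha0 : a ≠ 0 := by
    rintro rfl
    apply hinv
    rw [inv_zero]
    exact Subring.zero_mem _
  have hv0 : v ≠ 0 := by
    rintro rfl
    rw [mul_zero] at hav
    exact ha0 hav
  have hπ0 : S18K_π A K1 ≠ 0 := by
    intro h
    rw [h, zero_mul] at hav
    exact ha0 hav
  apply hW2nu
  have : (S18K_π A K1)⁻¹ = v * a⁻¹ := by
    rw [hav, mul_inv, mul_comm (S18K_π A K1)⁻¹, ← mul_assoc, mul_inv_cancel₀ hv0, one_mul]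
  rw [this]
  exact W2.mul_mem (hV'2 hv) hc

omit [NeZero M'] [NeZero N] [NeZero (q ^ 2)] in
/-- the converse -/
theorem S36DK_A'mid' (N' : ℕ) (W2 : Subring (LaurentSeries K1))
    (hV'2 : S18K_V A K1 N' ≤ W2) :
    ∀ a ∈ S18K_A0 A K1 N', a⁻¹ ∉ W2 → a⁻¹ ∉ S18K_V A K1 N := by
  intro a ha hinv hc
  apply hinv
  apply hV'2
  exact ⟨hc.1, (S18K_F1 K1 N').inv_mem (mem_icl.1 ha).2⟩

omit [NeZero M'] [NeZero N] [NeZero (q ^ 2)] in
/-- the finite chart of level `N' ∣ N` lies in the Gauss ring of level `N'` -/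
theorem S36DK_A'V (N' : ℕ) (hN' : N' ∣ N) (W2 W3 : Subring (LaurentSeries K1))
    (S : S34C_Setup (S18K_O A K1) (S18K_π A K1) (S18K_j K1) (S18K_F1 K1 N)
      (S18K_V A K1 N ⊓ W2 ⊓ W3) (S18K_A0 A K1 N) (S18K_Ainf A K1 N)) :
    S18K_A0 A K1 N' ≤ S18K_V A K1 N' := by
  intro a ha
  obtain ⟨hint, haF⟩ := mem_icl.1 ha
  have haN : a ∈ S18K_A0 A K1 N := mem_icl.2 ⟨hint, S34V3K_F1_mono K1 hN' haF⟩
  have h1 : a ∈ S18K_V A K1 N := (S.chart0.le_V haN).1.1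
  exact ⟨h1.1, haF⟩

/-- **the field `pts0` at the carriers.**  Level `N = q² M'`, `V_∞ = S18K_V A K1 N`, `W2` a
`W_(q²)`-stable valuation ring containing the Gauss ring of level `N'` (`M' ∣ N' ∣ N`, in the
application `N' = M' q`), `W3 = W_(q²)(V_∞)`.  Inputs which are not discharged here:
`htriple` + `hR` (crossings: triple point theorem) and `hmid` (thick one-branch points). -/
theorem S36DK_pts0 (hA : A.LiesOverPrime q) (h : S18K_Admissible A K1 q)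
    (N' : ℕ) (hN' : N' ∣ N) (W2 W3 : Subring (LaurentSeries K1))
    (hV3 : ∀ y : LaurentSeries K1, y ∈ W3 ↔ y ∈ modularFunctionFieldFullC K1 N ∧
      S36WQ_wL (S34V0K_emb K1) (q ^ 2) M' N (S36WQ_cop hq hqM) hN y ∈ S18K_V A K1 N)
    (S : S34C_Setup (S18K_O A K1) (S18K_π A K1) (S18K_j K1) (S18K_F1 K1 N)
      (S18K_V A K1 N ⊓ W2 ⊓ W3) (S18K_A0 A K1 N) (S18K_Ainf A K1 N))
    (H2 : S34C2_Val (S18K_π A K1) (S18K_F1 K1 N) W2)
    (H3 : S34C2_Val (S18K_π A K1) (S18K_F1 K1 N) W3)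
    (unif3 : ∀ x ∈ W3, x⁻¹ ∉ W3 → ∃ v ∈ W3, x = S18K_π A K1 * v)
    (t : LaurentSeries K1) (e : ℕ) (t_pow : ∃ v ∈ W2, t ^ e = S18K_π A K1 * v)
    (unif2 : ∀ x ∈ W2, x⁻¹ ∉ W2 → ∃ v ∈ W2, x = t * v)
    (hV'2 : S18K_V A K1 N' ≤ W2)
    (hw22 : ∀ x ∈ W2,
      S36WQ_wL (S34V0K_emb K1) (q ^ 2) M' N (S36WQ_cop hq hqM) hN x ∈ W2)
    (hres : ∀ x ∈ S18K_V A K1 N, ∃ r ∈ S18K_V A K1 M', ∃ v ∈ S18K_V A K1 N,
      x = r + S18K_π A K1 * v)
    {lam : ℕ} (hlam : lam.Prime) (f : LaurentSeries K1) (hf0 : f ≠ 0)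
    (hdiv : PowDiv (S18K_O A K1) (S18K_π A K1) (S18K_F1 K1 N) lam f)
    (hπ : S18K_π A K1 ∈ S18K_A0 A K1 N)
    (htriple : ∀ m' : Ideal (S18K_A0 A K1 N), m'.IsMaximal →
      (⟨S18K_π A K1, hπ⟩ : S18K_A0 A K1 N) ∈ m' →
      S36DI_Cross (S18K_V A K1 N) W3 (S18K_A0 A K1 N') (S18K_A0 A K1 N) m' →
      S36ONE_On (S18K_V A K1 N) (S18K_A0 A K1 N) m')
    (hmid : ∀ m : Ideal (S18K_A0 A K1 N), m.IsMaximal →
      (⟨S18K_π A K1, hπ⟩ : S18K_A0 A K1 N) ∈ m → S36ONE_On W2 (S18K_A0 A K1 N) m →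
      ∀ d : S18K_A0 A K1 N, d ∉ m →
      (∃ v ∈ (S18K_V A K1 N ⊓ W3 : Subring (LaurentSeries K1)),
        (d : LaurentSeries K1) = S18K_π A K1 * v) →
      ∀ G : LaurentSeries K1, RedPow (S18K_π A K1)
        (S18K_V A K1 N ⊓ W2 ⊓ W3 : Subring (LaurentSeries K1)) lam f G →
      S36XB_One (S18K_π A K1) (S18K_F1 K1 N) W2 (S18K_V A K1 N) W3 (S18K_A0 A K1 N) lam f G m)
    {ι : Type*} (R : ι → Subring (LaurentSeries K1))
    (hR : ∀ (m : Ideal (S18K_A0 A K1 N)) (hm : m.IsMaximal),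
      (⟨S18K_π A K1, hπ⟩ : S18K_A0 A K1 N) ∈ m →
      S36DI_Cross (S18K_V A K1 N) W3 (S18K_A0 A K1 N') (S18K_A0 A K1 N) m →
      ∃ i, R i = @locRing _ _ (S18K_A0 A K1 N) m hm.isPrime)
    (m : Ideal (S18K_A0 A K1 N)) (hm : m.IsMaximal)
    (hπm : (⟨S18K_π A K1, hπ⟩ : S18K_A0 A K1 N) ∈ m) :
    (∃ i, R i = @locRing _ _ (S18K_A0 A K1 N) m hm.isPrime) ∨
      ∀ G : LaurentSeries K1, RedPow (S18K_π A K1)
        (S18K_V A K1 N ⊓ W2 ⊓ W3 : Subring (LaurentSeries K1)) lam f G →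
        S36XB_OneAlt (S18K_π A K1) (S18K_F1 K1 N) (S18K_V A K1 N) W2 W3
          (S18K_A0 A K1 N) lam f G m := by
  haveI := S34N1K_charZero K1
  obtain ⟨hnoeth, hOX, -, hπ0, hsat, hfrac⟩ := S36DK_chart S (Or.inl rfl) S.chart0
  haveI := hnoeth
  have hdvd : M' ∣ N := S36N1K_dvd q M' N hN
  have hte : t ^ e * (S18K_π A K1)⁻¹ ∈ W2 := by
    obtain ⟨v, hv, hvt⟩ := t_pow
    rw [hvt, mul_comm (S18K_π A K1) v, mul_assoc, mul_inv_cancel₀ hπ0, mul_one]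
    exact hv
  exact S36PTS_pts0 (A' := S18K_A0 A K1 N') (S34V3K_val1 A K1 N) H3 S.chart0.le_V hsat hπ0
    (S34V3K_unif1 A K1 N) unif3 t e hte unif2
    (S36DK_A'mid A K1 N N' hN' W2 H2.π_nonunit hV'2 (S36DK_A'V A K1 N N' hN' W2 W3 S)) hπ
    (S36N1K_sigma A K1 q M' N hq hqM hN hA) (S36DK_sigma_pi A K1 q M' N hq hqM hN hA hπ)
    (S36DK_sigma_0 A K1 q M' N hq hqM hN hA W3 hV3)
    (S36DK_sigma_mid A K1 q M' N hq hqM hN hA W2 hw22)
    (S36DK_sigma_0' A K1 q M' N hq hqM hN hA W3 hV3) htriple hfrac (S18K_O A K1) hOX hlam f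
    hf0 hdiv
    (fun m hm hπm d hdm hd =>
      S36N1K_oo_A0 A K1 hq hA M' N hqM hdvd h W2 W3 S hres hπ m hm hπm d hdm hd)
    (fun m hm hπm d hdm hd =>
      S36N1K_zero_A0 A K1 q M' N hq hqM hN hA h W2 W3 hV3 S hres hπ m hm hπm d hdm hd)
    hmid R hR m hm hπm

end Concrete

end Fermat.Agent.S36_helper9_DICHK
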