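import Fermat.Agent.S36_helper14_N1K

/-!
# S36, GEO36 (II.4): comparison of the two charts at the non-cuspidal points (helper14)

`S : S34C_Setup O π j F1 V A0 Ainf` (weak setup, ANY `V`).  At a maximal ideal `m ∋ π` of the
chart at infinity with `j⁻¹ ∉ m` (a non-cuspidal point), the contracted ideal
`m' = m · Ainf[j] ∩ A0` is a maximal ideal of the finite chart containing `π`, and the two local
rings coincide as subrings of `L`:  `locRing A0 m' = locRing Ainf m`.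

* `S36CMP_locRing_eq` : the equality of the local rings for the contracted ideal;
* `S36CMP_inf`        : the comparison in the shape `hcmp` of helper9's `S36PTS_fin`;
* `S36CMP_infK`       : the same at the carriers `S18K_*` (the residue field of the constants is
  algebraically closed for an admissible `K1`).
-/

set_option autoImplicit false
set_option linter.style.haveILetI false
set_option linter.unusedVariables false
set_option linter.unusedSectionVars false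
set_option synthInstance.maxHeartbeats 400000
set_option maxHeartbeats 1600000

open Fermat.Agent.S18_helper9_CDefs Fermat.Agent.S18_helper9_CBasic
open Fermat.Agent.S18_helper25_COREDefs Fermat.Agent.S34_helper12_CDefs
open Fermat.Agent.S18_helper3_LOCRING
open Fermat.Agent.S18_helper18_IGMID Fermat.Agent.S18_helper20_CSAT
  Fermat.Agent.S18_helper18_IGINF
open Fermat.Agent.S34_helper14_N1K Fermat.Agent.S36_helper14_N1K

noncomputable section

namespace Fermat.Agent.S36_helper14_CMP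

section Abstract

variable {L : Type} [Field L] {O : Subring L} {π j : L} {F1 : Subfield L}
  {V A0 Ainf : Subring L}

/-- **the local rings of the two charts coincide** at a prime `m` of `Ainf` with `j⁻¹ ∉ m` and
its contraction to `A0` (assumed prime). -/
theorem S36CMP_locRing_eq (hj0 : j ≠ 0) (hj : j ∈ A0) (hjinv : j⁻¹ ∈ Ainf)
    (hpole0 : ∀ a ∈ A0, ∃ n : ℕ, j⁻¹ ^ n * a ∈ Ainf)
    (hpoleInf : ∀ z ∈ Ainf, ∃ n : ℕ, j ^ n * z ∈ A0)
    (m : Ideal Ainf) [hm : m.IsPrime] (hjm : (⟨j⁻¹, hjinv⟩ : Ainf) ∉ m)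
    [hm0 : (idealZero A0 Ainf j hjinv hpole0 m).IsPrime] :
    locRing A0 (idealZero A0 Ainf j hjinv hpole0 m) = locRing Ainf m := by
  have hjm' : ¬ InIdeal Ainf m j⁻¹ := fun h => hjm ((InIdeal.mk_iff hjinv).1 h)
  apply le_antisymm
  · rintro y ⟨a, c, hc, hy⟩
    obtain ⟨n1, hn1⟩ := hpole0 a a.2
    obtain ⟨n2, hn2⟩ := hpole0 c c.2
    have haB : j⁻¹ ^ (n1 + n2) * (a : L) ∈ Ainf := by
      have : j⁻¹ ^ (n1 + n2) * (a : L) = j⁻¹ ^ n2 * (j⁻¹ ^ n1 * (a : L)) := by ring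
      rw [this]; exact Ainf.mul_mem (Ainf.pow_mem hjinv n2) hn1
    have hcB : j⁻¹ ^ (n1 + n2) * (c : L) ∈ Ainf := by
      have : j⁻¹ ^ (n1 + n2) * (c : L) = j⁻¹ ^ n1 * (j⁻¹ ^ n2 * (c : L)) := by ring
      rw [this]; exact Ainf.mul_mem (Ainf.pow_mem hjinv n1) hn2
    refine ⟨⟨_, haB⟩, ⟨_, hcB⟩, fun hmem => hc ⟨n1 + n2, hcB, hmem⟩, ?_⟩
    show y * (j⁻¹ ^ (n1 + n2) * (c : L)) = j⁻¹ ^ (n1 + n2) * (a : L)
    rw [← hy]; ring
  · rintro y ⟨a, c, hc, hy⟩
    obtain ⟨n1, hn1⟩ := hpoleInf a a.2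
    obtain ⟨n2, hn2⟩ := hpoleInf c c.2
    have haB : j ^ (n1 + n2) * (a : L) ∈ A0 := by
      have : j ^ (n1 + n2) * (a : L) = j ^ n2 * (j ^ n1 * (a : L)) := by ring
      rw [this]; exact A0.mul_mem (A0.pow_mem hj n2) hn1
    have hcB : j ^ (n1 + n2) * (c : L) ∈ A0 := by
      have : j ^ (n1 + n2) * (c : L) = j ^ n1 * (j ^ n2 * (c : L)) := by ring
      rw [this]; exact A0.mul_mem (A0.pow_mem hj n1) hn2
    refine ⟨⟨_, haB⟩, ⟨_, hcB⟩, ?_, ?_⟩
    · rintro ⟨k, hk⟩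
      have h1 : j⁻¹ ^ (n1 + n2) * (j ^ (n1 + n2) * (c : L)) = c := by
        rw [← mul_assoc, ← mul_pow, inv_mul_cancel₀ hj0, one_pow, one_mul]
      have h2 : InIdeal Ainf m (j⁻¹ ^ (n1 + n2) * (j ^ (n1 + n2) * (c : L))) :=
        inIdeal_of_pow_mul (hjinv := hjinv) hm hjm' hk (by rw [h1]; exact c.2)
      rw [h1] at h2
      exact hc ((InIdeal.iff_mem c).1 h2)
    · show y * (j ^ (n1 + n2) * (c : L)) = j ^ (n1 + n2) * (a : L)
      rw [← hy]; ring

/-- **Chart comparison at a non-cuspidal point of the chart at infinity**, in the shape of the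
hypothesis `hcmp` of helper9's `S36PTS_fin`. -/
theorem S36CMP_inf (S : S34C_Setup O π j F1 V A0 Ainf) [IsLocalRing O]
    [IsAlgClosed (IsLocalRing.ResidueField O)] (hπ0 : π ∈ A0) (hπ : π ∈ Ainf)
    (m : Ideal Ainf) (hm : m.IsMaximal) (hπm : (⟨π, hπ⟩ : Ainf) ∈ m)
    (hjm : (⟨j⁻¹, S36N1K_jinv_mem S⟩ : Ainf) ∉ m) :
    ∃ (m' : Ideal A0) (hm' : m'.IsMaximal), (⟨π, hπ0⟩ : A0) ∈ m' ∧
      @locRing _ _ A0 m' hm'.isPrime = @locRing _ _ Ainf m hm.isPrime := by
  have hj0 := S36N1K_j_ne_zero S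
  have hO0 := S36N1K_O_le_A0 S
  have hOinf := S36N1K_O_le_Ainf S
  have hjinv := S36N1K_jinv_mem S
  have hpole0 := S36N1K_pole0 S
  have hpoleInf := S36N1K_poleInf S
  have hπO := S.π_mem
  have hres : ∀ z : Ainf, ∃ c : L, ∃ hc : c ∈ O, z - ⟨c, hOinf hc⟩ ∈ m := fun z =>
    S18IGINF_hres_gen j⁻¹ Ainf S.π_mem (S36N1K_pi_gen S) hOinf hjinv
      (fun y hy => ((S.chartInf.mem_iff y).mp hy).1) m hm hπm z
  have hm0 := idealZero_isMaximal hO0 hOinf hjinv hpole0 m hm hjm hres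
  have hπm0 := pi_mem_idealZero hO0 hOinf hπO hjinv hpole0 m hπm
  haveI := hm.isPrime
  haveI := hm0.isPrime
  exact ⟨idealZero A0 Ainf j hjinv hpole0 m, hm0, hπm0,
    S36CMP_locRing_eq hj0 (S36N1K_j_mem S) hjinv hpole0 hpoleInf m hjm⟩

end Abstract

section Concrete

variable (A : ValuationSubring (AlgebraicClosure ℚ))
  (K1 : IntermediateField ℚ (AlgebraicClosure ℚ)) [IsDiscreteValuationRing (S18K_O1 A K1)]

/-- **Chart comparison at the carriers** (any level `N`, ANY `V`): at a maximal ideal `m ∋ π` of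
the chart at infinity with `j⁻¹ ∉ m` there is a maximal ideal `m' ∋ π` of the finite chart with
the same local ring. -/
theorem S36CMP_infK {q : ℕ} (h : S18K_Admissible A K1 q) (N : ℕ) [NeZero N]
    (V : Subring (LaurentSeries K1))
    (S : S34C_Setup (S18K_O A K1) (S18K_π A K1) (S18K_j K1) (S18K_F1 K1 N) V
      (S18K_A0 A K1 N) (S18K_Ainf A K1 N))
    (hπ0 : S18K_π A K1 ∈ S18K_A0 A K1 N) (hπ : S18K_π A K1 ∈ S18K_Ainf A K1 N)
    (m : Ideal (S18K_Ainf A K1 N)) (hm : m.IsMaximal)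
    (hπm : (⟨S18K_π A K1, hπ⟩ : S18K_Ainf A K1 N) ∈ m)
    (hjm : (⟨(S18K_j K1)⁻¹, S36N1K_jinv_mem S⟩ : S18K_Ainf A K1 N) ∉ m) :
    ∃ (m' : Ideal (S18K_A0 A K1 N)) (hm' : m'.IsMaximal),
      (⟨S18K_π A K1, hπ0⟩ : S18K_A0 A K1 N) ∈ m' ∧
      @locRing _ _ (S18K_A0 A K1 N) m' hm'.isPrime =
        @locRing _ _ (S18K_Ainf A K1 N) m hm.isPrime := by
  haveI : IsDiscreteValuationRing (S18K_O A K1) := S.dvr
  haveI : IsAlgClosed (IsLocalRing.ResidueField (S18K_O A K1)) :=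
    S34N1K_isAlgClosed A K1 q h
  exact S36CMP_inf S hπ0 hπ m hm hπm hjm

end Concrete

end Fermat.Agent.S36_helper14_CMP
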