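import Fermat.Agent.S36_helper9_CUSPK
import Fermat.Agent.S36_helper9_PTS
import Fermat.Agent.S36_helper9_DICHK
import Fermat.Agent.S36_helper14_CMP
import Fermat.Agent.S36_helper23_V0QK
import Fermat.Agent.S34_helper20_VFIN

/-!
# S36, GEO36, (REG36): the field `ptsInf` at the concrete carriers (helper9)

Level `N = q² M'`, chart at infinity `Ainf = S18K_Ainf A K1 N`, `V_∞ = S18K_V A K1 N`, `W2` a
`W_(q²)`-stable valuation ring above the Gauss ring of level `M' q`, `W3 = W_(q²)(V_∞)`.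

* `S36PK_alpha` : **no crossing at the cusps, along `α`**: at a cusp `m` there is `d ∉ m` in
  `π W3` or in `π (V_∞ ⊓ W2)` (the decomposition `S34CUSP_decomp` of level `M' q`, read in the
  chart of level `N`);
* `S36PK_beta`  : **no crossing at the cusps, along `β`**: `d ∉ m` in `π (W2 ⊓ W3)` or in
  `π V_∞` (`S36PK_alpha` at the mirror cusp);
* `S36PK_IG0`   : **`[IG]` at the cusps of `0`-type** (helper14's `S36N1K_oo_Ainf` at the mirror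
  cusp);
* `S36PK_ptsInf` : **the field `ptsInf` of `S36XB_LocContract` at the carriers**, from the field
  `pts0` (non-cuspidal points: helper14's chart comparison `S36CMP_infK`) and the one-branch
  datum at the thick cusps (`hmid`).
-/

set_option autoImplicit false
set_option linter.style.haveILetI false
set_option linter.unusedVariables false
set_option linter.unusedSectionVars false
set_option synthInstance.maxHeartbeats 400000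
set_option maxHeartbeats 1600000

open ModularCurve Fermat.Agent.S24
open Fermat.Agent.S18_helper13_GAUSS Fermat.Agent.S18_helper9_CDefs
  Fermat.Agent.S18_helper9_CBasic
open Fermat.Agent.S18_helper25_COREDefs Fermat.Agent.S34_helper12_CDefs
open Fermat.Agent.S34_helper27_C2Defs
open Fermat.Agent.S34_helper20_WQ Fermat.Agent.S34_helper20_V0
open Fermat.Agent.S34_helper27_V3K Fermat.Agent.S34_helper20_V0K
open Fermat.Agent.S18_helper3_LOCRING Fermat.Agent.S18_helper20_CSAT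
open Fermat.Agent.S34_helper14_N1K
open Fermat.Agent.S36_helper14_N1K Fermat.Agent.S36_helper20_WQQ
open Fermat.Agent.S34_helper18_CUSP
open Fermat.Agent.S36_helper3_XBPT Fermat.Agent.S36_helper3_LOCABS
open Fermat.Agent.S36_helper9_ONE Fermat.Agent.S36_helper9_DICH
open Fermat.Agent.S36_helper9_PT Fermat.Agent.S36_helper9_PTS
open Fermat.Agent.S36_helper9_DICHK
open Fermat.Agent.S36_helper9_CUSP0 Fermat.Agent.S36_helper9_CUSPM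
open Fermat.Agent.S36_helper9_CUSPK

noncomputable section

namespace Fermat.Agent.S36_helper9_PTSINFK

variable (A : ValuationSubring (AlgebraicClosure ℚ))
  (K1 : IntermediateField ℚ (AlgebraicClosure ℚ)) [IsDiscreteValuationRing (S18K_O1 A K1)]
  (q M' N : ℕ) [NeZero M'] [NeZero N] [NeZero q] [NeZero (q ^ 2)] (hq : q.Prime)
  (hqM : ¬ q ∣ M') (hN : N = q ^ 2 * M')

include hN in
theorem S36PK_dvd : M' * q ∣ N := ⟨q, by rw [hN]; ring⟩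

/-- **No crossing at the cusps, along `α`.** -/
theorem S36PK_alpha (hA : A.LiesOverPrime q) (W2 W3 : Subring (LaurentSeries K1))
    (hV3 : ∀ y : LaurentSeries K1, y ∈ W3 ↔ y ∈ modularFunctionFieldFullC K1 N ∧
      S36WQ_wL (S34V0K_emb K1) (q ^ 2) M' N (S36WQ_cop hq hqM) hN y ∈ S18K_V A K1 N)
    (hV'2 : S18K_V A K1 (M' * q) ≤ W2)
    (hπ : S18K_π A K1 ∈ S18K_Ainf A K1 N) (hu : (S18K_j K1)⁻¹ ∈ S18K_Ainf A K1 N)
    (m : Ideal (S18K_Ainf A K1 N)) (hm : m.IsMaximal)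
    (hπm : (⟨S18K_π A K1, hπ⟩ : S18K_Ainf A K1 N) ∈ m)
    (hum : (⟨(S18K_j K1)⁻¹, hu⟩ : S18K_Ainf A K1 N) ∈ m) :
    ∃ d : S18K_Ainf A K1 N, d ∉ m ∧
      ((∃ v ∈ W3, (d : LaurentSeries K1) = S18K_π A K1 * v) ∨
        ∃ v ∈ (S18K_V A K1 N ⊓ W2 : Subring (LaurentSeries K1)),
          (d : LaurentSeries K1) = S18K_π A K1 * v) := by
  haveI hmp : m.IsPrime := hm.isPrime
  haveI : NeZero (M' * q) := ⟨mul_ne_zero (NeZero.ne M') hq.ne_zero⟩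
  have hN1 : M' * q = q * M' := mul_comm M' q
  have hdvd : M' * q ∣ N := S36PK_dvd q M' N hN
  have S' : S34C_Setup2 (S18K_O A K1) (S18K_π A K1) (S18K_j K1) (S18K_F1 K1 (M' * q))
      (S18K_V A K1 (M' * q)) (S34V0K_V A K1 q M' (M' * q) hq hqM hN1)
      (S18K_A0 A K1 (M' * q)) (S18K_Ainf A K1 (M' * q)) :=
    Fermat.Agent.S34_helper20_VFIN.S34VF_setup2 A K1 q M' hq hqM hA
  obtain ⟨x, y, z, D, b, c, hx, hy, hz, hD, hb, hc, ⟨vx, hvx, hxv⟩, ⟨vy, hvy, hyv⟩, hzc, hDb,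
      hsum⟩ :=
    S34CUSP_decomp S' hq.one_lt.le (S34V0K_jq_mem_F K1 q M' (M' * q) hq hqM hN1)
      (Fermat.Agent.S34_helper8_MODEQ.S34ME_cuspRel (S18K_O A K1) q hq).1
      (S34V0K_frob1 A K1 q M' (M' * q) hq hqM hN1 hA)
      (S34V0K_frob A K1 q M' (M' * q) hq hqM hN1 hA)
      (S34V0K_jq_mem A K1 q M' (M' * q) hq hqM hN1)
      (Fermat.Agent.S34_helper18_CUSPK.S34CUSPK_tinv_mem_V2 A K1 q M' (M' * q) hq hqM hN1
        (S'.chart0.x_inv_mem).1)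
  have hle : S18K_Ainf A K1 (M' * q) ≤ S18K_Ainf A K1 N := fun a ha =>
    mem_icl.2 ⟨(mem_icl.1 ha).1, S34V3K_F1_mono K1 hdvd (mem_icl.1 ha).2⟩
  have hx' := hle hx
  have hy' := hle hy
  have hz' := hle hz
  have hD' := hle hD
  have hb' := hle hb
  have hc' := hle hc
  -- `z ∈ m`
  have hzm : (⟨z, hz'⟩ : S18K_Ainf A K1 N) ∈ m := by
    refine hmp.mem_of_pow_mem (q + 1) ?_
    have : (⟨z, hz'⟩ : S18K_Ainf A K1 N) ^ (q + 1) = ⟨(S18K_j K1)⁻¹, hu⟩ * ⟨c, hc'⟩ :=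
      Subtype.ext (by simpa using hzc)
    rw [this]
    exact m.mul_mem_right _ hum
  -- `D ∉ m`
  have hDm : (⟨D, hD'⟩ : S18K_Ainf A K1 N) ∉ m := by
    intro h
    have h1 : (1 : S18K_Ainf A K1 N) = ⟨D, hD'⟩ - ⟨(S18K_j K1)⁻¹, hu⟩ * ⟨b, hb'⟩ :=
      Subtype.ext (by simp [hDb])
    exact hmp.ne_top ((Ideal.eq_top_iff_one m).mpr
      (h1 ▸ m.sub_mem h (m.mul_mem_right _ hum)))
  have hq2 : q ^ 2 - 1 ≠ 0 := by
    have : 2 ^ 2 ≤ q ^ 2 := Nat.pow_le_pow_left hq.two_le 2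
    omega
  have hxy : (⟨x, hx'⟩ : S18K_Ainf A K1 N) + ⟨y, hy'⟩ ∉ m := by
    intro h
    have h1 : (⟨D, hD'⟩ : S18K_Ainf A K1 N) = (⟨x, hx'⟩ + ⟨y, hy'⟩) + ⟨z, hz'⟩ ^ (q ^ 2 - 1) :=
      Subtype.ext (by simp [hsum])
    exact hDm (h1 ▸ m.add_mem h (m.pow_mem_of_mem hzm _ (Nat.pos_of_ne_zero hq2)))
  by_cases hym : (⟨y, hy'⟩ : S18K_Ainf A K1 N) ∈ m
  · have hxm : (⟨x, hx'⟩ : S18K_Ainf A K1 N) ∉ m := fun h => hxy (m.add_mem h hym)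
    exact ⟨⟨x, hx'⟩, hxm, Or.inr ⟨vx, ⟨S34V3K_V_mono A K1 hdvd hvx, hV'2 hvx⟩, hxv⟩⟩
  · refine ⟨⟨y, hy'⟩, hym, Or.inl ⟨vy, ?_, hyv⟩⟩
    have h1 := Fermat.Agent.S36_helper23_V0QK.S36V0QK_le_q A K1 q M' (M' * q) N hq hqM hN1 hN
      hvy
    exact (hV3 vy).2 h1

/-- `W_(q²)` maps `V_∞` into `W3` -/
theorem S36PK_w_oo (W3 : Subring (LaurentSeries K1))
    (hV3 : ∀ y : LaurentSeries K1, y ∈ W3 ↔ y ∈ modularFunctionFieldFullC K1 N ∧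
      S36WQ_wL (S34V0K_emb K1) (q ^ 2) M' N (S36WQ_cop hq hqM) hN y ∈ S18K_V A K1 N) :
    ∀ x ∈ S18K_V A K1 N,
      S36WQ_wL (S34V0K_emb K1) (q ^ 2) M' N (S36WQ_cop hq hqM) hN x ∈ W3 := by
  intro x hx
  refine (hV3 _).2 ⟨S36WQ_wL_mem (S34V0K_emb K1) (q ^ 2) M' N (S36WQ_cop hq hqM) hN x, ?_⟩
  rw [S36WQ_wL_wL (S34V0K_emb K1) (q ^ 2) M' N (S36WQ_cop hq hqM) hN hx.2]
  exact hx

/-- **No crossing at the cusps, along `β`.** -/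
theorem S36PK_beta (hA : A.LiesOverPrime q) (h : S18K_Admissible A K1 q)
    (W2 W3 : Subring (LaurentSeries K1))
    (hV3 : ∀ y : LaurentSeries K1, y ∈ W3 ↔ y ∈ modularFunctionFieldFullC K1 N ∧
      S36WQ_wL (S34V0K_emb K1) (q ^ 2) M' N (S36WQ_cop hq hqM) hN y ∈ S18K_V A K1 N)
    (S : S34C_Setup (S18K_O A K1) (S18K_π A K1) (S18K_j K1) (S18K_F1 K1 N)
      (S18K_V A K1 N ⊓ W2 ⊓ W3) (S18K_A0 A K1 N) (S18K_Ainf A K1 N))
    (H2 : S34C2_Val (S18K_π A K1) (S18K_F1 K1 N) W2)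
    (H3 : S34C2_Val (S18K_π A K1) (S18K_F1 K1 N) W3)
    (hV'2 : S18K_V A K1 (M' * q) ≤ W2)
    (hw22 : ∀ x ∈ W2,
      S36WQ_wL (S34V0K_emb K1) (q ^ 2) M' N (S36WQ_cop hq hqM) hN x ∈ W2)
    (hπ : S18K_π A K1 ∈ S18K_Ainf A K1 N) (hu : (S18K_j K1)⁻¹ ∈ S18K_Ainf A K1 N)
    (m : Ideal (S18K_Ainf A K1 N)) (hm : m.IsMaximal)
    (hπm : (⟨S18K_π A K1, hπ⟩ : S18K_Ainf A K1 N) ∈ m)
    (hum : (⟨(S18K_j K1)⁻¹, hu⟩ : S18K_Ainf A K1 N) ∈ m) :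
    ∃ d : S18K_Ainf A K1 N, d ∉ m ∧
      ((∃ v ∈ (W2 ⊓ W3 : Subring (LaurentSeries K1)),
          (d : LaurentSeries K1) = S18K_π A K1 * v) ∨
        ∃ v ∈ S18K_V A K1 N, (d : LaurentSeries K1) = S18K_π A K1 * v) := by
  haveI : NeZero (M' * q) := ⟨mul_ne_zero (NeZero.ne M') hq.ne_zero⟩
  obtain ⟨hA1, hAt⟩ := S36CK_charts_le A K1 q M' N hq hqM hN (M' * q) (dvd_mul_left q M')
    W2 W3 hV3 S H2 H3 hV'2 hw22
  have hAinf := S.chartInf.le_V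
  obtain ⟨ms, hms, hπms, hums, -, hwit⟩ :=
    S36CK_mirror A K1 q M' N hq hqM hN hA h _ S hπ hu m hm hπm hum
  obtain ⟨ds, hdsm, hds | hds⟩ :=
    S36PK_alpha A K1 q M' N hq hqM hN hA W2 W3 hV3 hV'2 hπ hu ms hms hπms hums
  · -- `ds ∈ π W3`: the mirror of `π V_∞`
    obtain ⟨d, hdm, hd⟩ := (hwit (S18K_V A K1 N) W3 (fun x hx => (hAinf hx).1.1)
      (fun x hx => (hA1 hx).1.1) (fun x hx => (hAt hx).1.1) (fun x hx => hx.2)
      (fun x hx => H3.le hx) (fun x hx => ((hV3 x).1 hx).2)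
      (S36PK_w_oo A K1 q M' N hq hqM hN W3 hV3)).mpr ⟨ds, hdsm, hds⟩
    exact ⟨d, hdm, Or.inr hd⟩
  · -- `ds ∈ π (V_∞ ⊓ W2)`: the mirror of `π (W2 ⊓ W3)`
    obtain ⟨d, hdm, hd⟩ := (hwit (W2 ⊓ W3 : Subring (LaurentSeries K1))
      (S18K_V A K1 N ⊓ W2 : Subring (LaurentSeries K1))
      (fun x hx => ⟨(hAinf hx).1.2, (hAinf hx).2⟩)
      (fun x hx => ⟨(hA1 hx).1.2, (hA1 hx).2⟩) (fun x hx => ⟨(hAt hx).1.2, (hAt hx).2⟩)
      (fun x hx => H2.le hx.1) (fun x hx => H2.le hx.2)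
      (fun x hx => ⟨hw22 x hx.2, S36PK_w_oo A K1 q M' N hq hqM hN W3 hV3 x hx.1⟩)
      (fun x hx => ⟨((hV3 x).1 hx.2).2, hw22 x hx.1⟩)).mpr ⟨ds, hdsm, hds⟩
    exact ⟨d, hdm, Or.inl hd⟩

/-- **`[IG]` at the cusps of `0`-type.** -/
theorem S36PK_IG0 (hA : A.LiesOverPrime q) (h : S18K_Admissible A K1 q)
    (W2 W3 : Subring (LaurentSeries K1))
    (hV3 : ∀ y : LaurentSeries K1, y ∈ W3 ↔ y ∈ modularFunctionFieldFullC K1 N ∧
      S36WQ_wL (S34V0K_emb K1) (q ^ 2) M' N (S36WQ_cop hq hqM) hN y ∈ S18K_V A K1 N)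
    (S : S34C_Setup (S18K_O A K1) (S18K_π A K1) (S18K_j K1) (S18K_F1 K1 N)
      (S18K_V A K1 N ⊓ W2 ⊓ W3) (S18K_A0 A K1 N) (S18K_Ainf A K1 N))
    (H2 : S34C2_Val (S18K_π A K1) (S18K_F1 K1 N) W2)
    (H3 : S34C2_Val (S18K_π A K1) (S18K_F1 K1 N) W3)
    (hV'2 : S18K_V A K1 (M' * q) ≤ W2)
    (hw22 : ∀ x ∈ W2,
      S36WQ_wL (S34V0K_emb K1) (q ^ 2) M' N (S36WQ_cop hq hqM) hN x ∈ W2)
    (hres : ∀ x ∈ S18K_V A K1 N, ∃ r ∈ S18K_V A K1 M', ∃ v ∈ S18K_V A K1 N,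
      x = r + S18K_π A K1 * v)
    (hπ : S18K_π A K1 ∈ S18K_Ainf A K1 N) (hu : (S18K_j K1)⁻¹ ∈ S18K_Ainf A K1 N)
    (m : Ideal (S18K_Ainf A K1 N)) (hm : m.IsMaximal)
    (hπm : (⟨S18K_π A K1, hπ⟩ : S18K_Ainf A K1 N) ∈ m)
    (hum : (⟨(S18K_j K1)⁻¹, hu⟩ : S18K_Ainf A K1 N) ∈ m)
    (d : S18K_Ainf A K1 N) (hdm : d ∉ m)
    (hd : ∃ v ∈ (S18K_V A K1 N ⊓ W2 : Subring (LaurentSeries K1)),
      (d : LaurentSeries K1) = S18K_π A K1 * v) :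
    IGAt (S18K_π A K1) (S18K_Ainf A K1 N) m := by
  haveI : NeZero (M' * q) := ⟨mul_ne_zero (NeZero.ne M') hq.ne_zero⟩
  obtain ⟨hA1, hAt⟩ := S36CK_charts_le A K1 q M' N hq hqM hN (M' * q) (dvd_mul_left q M')
    W2 W3 hV3 S H2 H3 hV'2 hw22
  have hAinf := S.chartInf.le_V
  obtain ⟨ms, hms, hπms, hums, hIG, hwit⟩ :=
    S36CK_mirror A K1 q M' N hq hqM hN hA h _ S hπ hu m hm hπm hum
  obtain ⟨ds, hdsm, hds⟩ := (hwit (S18K_V A K1 N ⊓ W2 : Subring (LaurentSeries K1))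
    (W2 ⊓ W3 : Subring (LaurentSeries K1))
    (fun x hx => (hAinf hx).1) (fun x hx => (hA1 hx).1) (fun x hx => (hAt hx).1)
    (fun x hx => H2.le hx.2) (fun x hx => H2.le hx.1)
    (fun x hx => ⟨((hV3 x).1 hx.2).2, hw22 x hx.1⟩)
    (fun x hx => ⟨hw22 x hx.2, S36PK_w_oo A K1 q M' N hq hqM hN W3 hV3 x hx.1⟩)).mp
    ⟨d, hdm, hd⟩
  have hdvd : M' ∣ N := S36N1K_dvd q M' N hN
  exact hIG (S36N1K_oo_Ainf A K1 hq hA M' N hqM hdvd h W2 W3 S hres hπ ms hms hπms ds hdsm hds)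

/-- **the field `ptsInf` at the carriers.**  Inputs which are not discharged here: the field
`pts0` (`hpts0`, e.g. `S36DK_pts0`) and the one-branch datum at the thick cusps (`hmid`). -/
theorem S36PK_ptsInf (hA : A.LiesOverPrime q) (h : S18K_Admissible A K1 q)
    (W2 W3 : Subring (LaurentSeries K1))
    (hV3 : ∀ y : LaurentSeries K1, y ∈ W3 ↔ y ∈ modularFunctionFieldFullC K1 N ∧
      S36WQ_wL (S34V0K_emb K1) (q ^ 2) M' N (S36WQ_cop hq hqM) hN y ∈ S18K_V A K1 N)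
    (S : S34C_Setup (S18K_O A K1) (S18K_π A K1) (S18K_j K1) (S18K_F1 K1 N)
      (S18K_V A K1 N ⊓ W2 ⊓ W3) (S18K_A0 A K1 N) (S18K_Ainf A K1 N))
    (H2 : S34C2_Val (S18K_π A K1) (S18K_F1 K1 N) W2)
    (H3 : S34C2_Val (S18K_π A K1) (S18K_F1 K1 N) W3)
    (unif3 : ∀ x ∈ W3, x⁻¹ ∉ W3 → ∃ v ∈ W3, x = S18K_π A K1 * v)
    (hV'2 : S18K_V A K1 (M' * q) ≤ W2)
    (hw22 : ∀ x ∈ W2,
      S36WQ_wL (S34V0K_emb K1) (q ^ 2) M' N (S36WQ_cop hq hqM) hN x ∈ W2)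
    (hres : ∀ x ∈ S18K_V A K1 N, ∃ r ∈ S18K_V A K1 M', ∃ v ∈ S18K_V A K1 N,
      x = r + S18K_π A K1 * v)
    {lam : ℕ} (hlam : lam.Prime) (f : LaurentSeries K1) (hf0 : f ≠ 0)
    (hdiv : PowDiv (S18K_O A K1) (S18K_π A K1) (S18K_F1 K1 N) lam f)
    (hπ0 : S18K_π A K1 ∈ S18K_A0 A K1 N) (hπ : S18K_π A K1 ∈ S18K_Ainf A K1 N)
    (hu : (S18K_j K1)⁻¹ ∈ S18K_Ainf A K1 N)
    {ι : Type*} (R : ι → Subring (LaurentSeries K1))
    (hpts0 : ∀ (m' : Ideal (S18K_A0 A K1 N)) (hm' : m'.IsMaximal),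
      (⟨S18K_π A K1, hπ0⟩ : S18K_A0 A K1 N) ∈ m' →
      (∃ i, R i = @locRing _ _ (S18K_A0 A K1 N) m' hm'.isPrime) ∨
        ∀ G : LaurentSeries K1, RedPow (S18K_π A K1)
          (S18K_V A K1 N ⊓ W2 ⊓ W3 : Subring (LaurentSeries K1)) lam f G →
          S36XB_OneAlt (S18K_π A K1) (S18K_F1 K1 N) (S18K_V A K1 N) W2 W3
            (S18K_A0 A K1 N) lam f G m')
    (hmid : ∀ m : Ideal (S18K_Ainf A K1 N), m.IsMaximal →
      (⟨S18K_π A K1, hπ⟩ : S18K_Ainf A K1 N) ∈ m →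
      (⟨(S18K_j K1)⁻¹, hu⟩ : S18K_Ainf A K1 N) ∈ m →
      ∀ d : S18K_Ainf A K1 N, d ∉ m →
      (∃ v ∈ (S18K_V A K1 N ⊓ W3 : Subring (LaurentSeries K1)),
        (d : LaurentSeries K1) = S18K_π A K1 * v) →
      ∀ G : LaurentSeries K1, RedPow (S18K_π A K1)
        (S18K_V A K1 N ⊓ W2 ⊓ W3 : Subring (LaurentSeries K1)) lam f G →
      S36XB_One (S18K_π A K1) (S18K_F1 K1 N) W2 (S18K_V A K1 N) W3 (S18K_Ainf A K1 N)
        lam f G m)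
    (m : Ideal (S18K_Ainf A K1 N)) (hm : m.IsMaximal)
    (hπm : (⟨S18K_π A K1, hπ⟩ : S18K_Ainf A K1 N) ∈ m) :
    (∃ i, R i = @locRing _ _ (S18K_Ainf A K1 N) m hm.isPrime) ∨
      ∀ G : LaurentSeries K1, RedPow (S18K_π A K1)
        (S18K_V A K1 N ⊓ W2 ⊓ W3 : Subring (LaurentSeries K1)) lam f G →
        S36XB_OneAlt (S18K_π A K1) (S18K_F1 K1 N) (S18K_V A K1 N) W2 W3
          (S18K_Ainf A K1 N) lam f G m := by
  haveI := S34N1K_charZero K1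
  obtain ⟨hnoeth, hOX, -, -, hsat, hfrac⟩ := S36DK_chart S (Or.inr rfl) S.chartInf
  haveI := hnoeth
  have hdvd : M' ∣ N := S36N1K_dvd q M' N hN
  exact S36PTS_ptsInf (S34V3K_val1 A K1 N) H3 S.chartInf.le_V hsat (S34V3K_unif1 A K1 N)
    unif3 hπ hfrac (S18K_O A K1) hOX hlam f hf0 hdiv (S18K_j K1)⁻¹ hu R
    (fun m hm hπm hjm => S36PTS_fin S.chartInf.le_V hπ0 R hpts0 m hm
      (Fermat.Agent.S36_helper14_CMP.S36CMP_infK A K1 h N _ S hπ0 hπ m hm hπm hjm))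
    (fun m hm hπm hum =>
      S36PK_alpha A K1 q M' N hq hqM hN hA W2 W3 hV3 hV'2 hπ hu m hm hπm hum)
    (fun m hm hπm hum =>
      S36PK_beta A K1 q M' N hq hqM hN hA h W2 W3 hV3 S H2 H3 hV'2 hw22 hπ hu m hm hπm hum)
    (fun m hm hπm hum d hdm hd =>
      S36N1K_oo_Ainf A K1 hq hA M' N hqM hdvd h W2 W3 S hres hπ m hm hπm d hdm hd)
    (fun m hm hπm hum d hdm hd =>
      S36PK_IG0 A K1 q M' N hq hqM hN hA h W2 W3 hV3 S H2 H3 hV'2 hw22 hres hπ hu m hm hπm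
        hum d hdm hd)
    hmid m hm hπm

end Fermat.Agent.S36_helper9_PTSINFK
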