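import Mathlib
import Fermat.Agent.S36_helper3_FINAL
import Fermat.Agent.S36_helper3_ARITH2
import Fermat.Agent.S36_helper13_ROOTSK
import Fermat.Agent.S36_helper2_TRIFAMP
import Fermat.Agent.S36_helper2_TRIFAMC
import Fermat.Agent.S36_helper9_DICHK
import Fermat.Agent.S36_helper9_DICHX
import Fermat.Agent.S36_helper9_PTSINFK
import Fermat.Agent.S36_helper12_GOODPD
import Fermat.Agent.S36_helper12_W36VALK

/-!
# S36, X-D36 Part II (helper3): the contract of `loc` at the carriers, assembled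

`W2 = S36VK_Vmid A K1 q M'`, `W3 = S36VK_V0 A K1 q M' hq hqM`, `t = S36VK_t K1 q`, `e = q - 1`,
`R = S36XB_Rk` = helper9's canonical family (the local rings of the finite chart at the
crossings), `A' = S18K_A0 A K1 (M' * q)`.

Plugged (all landed): the carriers (helper5 VMIDK, helper23, helper13), `trip_*` and `branch`
(helper2 TRIFAMC), `roots` (helper13 ROOTSK on helper2's TRIFAMP), `pts0` / `ptsInf` (helper9
DICHK / PTSINFK, helper12 GOODPD, W36VAL, helper14 CMP), the setup (helper2 SETUP3).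

* `S36XB_Rk`             : the canonical family at the carriers;
* `S36XB_HTX`, `S36XB_HPt`, `S36XB_HMid0`, `S36XB_HMidInf` : **the four open inputs**;
* `S36XB_locContract_of` : `S36XB_LocContract` from the four open inputs;
* `S36XB_Open`, `S36XB_locInput_of`, `S36XB_geoInput_of_open` : `S36C_GeoInput` from the four
  open inputs at every unramified level.
-/

set_option autoImplicit false
set_option linter.unusedSectionVars false
set_option linter.unusedVariables false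
set_option linter.style.haveILetI false
set_option synthInstance.maxHeartbeats 400000
set_option maxHeartbeats 1600000

open HahnSeries IntermediateField AlgebraicCurve ModularCurve
open Fermat.Agent.S18_helper9_CDefs Fermat.Agent.S18_helper3_LOCRING
  Fermat.Agent.S18_helper25_COREDefs
  Fermat.Agent.S34_helper12_CDefs Fermat.Agent.S34_helper25_Defs
  Fermat.Agent.S34_helper27_C2Defs Fermat.Agent.S34_helper27_V3K
  Fermat.Agent.S35_helper27_XD2Defs
  Fermat.Agent.S36_helper6_TORIC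
  Fermat.Agent.S36_helper4_XADefs Fermat.Agent.S36_helper3_XBPT
  Fermat.Agent.S36_helper3_XBDefs Fermat.Agent.S36_helper3_LOCABS
  Fermat.Agent.S36_helper3_LOCK Fermat.Agent.S36_helper3_FINAL
  Fermat.Agent.S36_helper3_ARITH2
  Fermat.Agent.S36_helper5_VKDefs Fermat.Agent.S36_helper5_VMIDK
  Fermat.Agent.S36_helper2_SETUP3 Fermat.Agent.S36_helper4_SCALEK
  Fermat.Agent.S36_helper13_ROOTSK Fermat.Agent.S36_helper2_TRIFAMP
  Fermat.Agent.S36_helper3_ROOTS Fermat.Agent.S34_helper20_V0K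
  Fermat.Agent.S36_helper2_TRIFAMC
  Fermat.Agent.S36_helper9_ONE Fermat.Agent.S36_helper9_DICH Fermat.Agent.S36_helper9_DICHX
  Fermat.Agent.S36_helper9_PTS Fermat.Agent.S36_helper9_DICHK
  Fermat.Agent.S36_helper9_PTSINFK
  Fermat.Agent.S36_helper17_TRIPLEX
  Fermat.Agent.S36_helper12_GOODPD Fermat.Agent.S36_helper12_W36VALK
  Fermat.Agent.S36_helper4_GEOMAIN Fermat.Agent.S36_helper23_BCPLUG

noncomputable section

namespace Fermat.Agent.S36_helper3_GEO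

local notation "Qb" => AlgebraicClosure ℚ

variable (A : ValuationSubring Qb) (K1 : IntermediateField ℚ Qb)
  [IsDiscreteValuationRing (S18K_O1 A K1)] (M' q lam : ℕ) [NeZero M'] [NeZero q]
  [NeZero (M' * q)] [NeZero (M' * q * q)] [NeZero (q ^ 2)] [NeZero (q * q)]
  (hq : q.Prime) (hqM : ¬ q ∣ M')

/-- **the canonical family at the carriers**: the local rings of the finite chart of level
`M' q q` at the crossings (relative to the chart of level `M' q`). -/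
abbrev S36XB_Rk :
    S36PTS_I (S18K_π A K1) (S18K_V A K1 (M' * q * q)) (S36VK_V0 A K1 q M' hq hqM)
      (S18K_A0 A K1 (M' * q)) (S18K_A0 A K1 (M' * q * q)) → Subring (LaurentSeries K1) :=
  S36PTS_R (S18K_π A K1) (S18K_V A K1 (M' * q * q)) (S36VK_V0 A K1 q M' hq hqM)
    (S18K_A0 A K1 (M' * q)) (S18K_A0 A K1 (M' * q * q))

/-- **OPEN INPUT (I), triple points** (helper26 HTX): at every crossing of the finite chart the
local ring carries helper17's triple point datum. -/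
def S36XB_HTX : Prop :=
  ∀ (hπ : S18K_π A K1 ∈ S18K_A0 A K1 (M' * q * q))
    (m' : Ideal (S18K_A0 A K1 (M' * q * q))) (hm' : m'.IsMaximal),
    (⟨S18K_π A K1, hπ⟩ : S18K_A0 A K1 (M' * q * q)) ∈ m' →
    S36DI_Cross (S18K_V A K1 (M' * q * q)) (S36VK_V0 A K1 q M' hq hqM)
      (S18K_A0 A K1 (M' * q)) (S18K_A0 A K1 (M' * q * q)) m' →
    ∃ S1 T2 : LaurentSeries K1,
      S36TX_Triple q (S18K_π A K1) S1 T2 (S18K_V A K1 (M' * q * q))
        (S36VK_Vmid A K1 q M') (S36VK_V0 A K1 q M' hq hqM)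
        (@locRing _ _ (S18K_A0 A K1 (M' * q * q)) m' hm'.isPrime) ∧
      S1⁻¹ ∈ S18K_V A K1 (M' * q * q) ∧ T2⁻¹ ∈ S36VK_V0 A K1 q M' hq hqM ∧
      S1⁻¹ ∈ S36VK_Vmid A K1 q M'

/-- **OPEN INPUT (II), the data of TORPT at the triple points and at their mirrors**
(helper6 TORK). -/
def S36XB_HPt : Prop :=
  (∀ i, ∃ R' : Subring (LaurentSeries K1),
    S36XB_PtData (S34V3K_F1_mono K1 (S36XA_level_dvd M' q)) (S18K_O A K1)
      (S18K_V A K1 (M' * q)) (S34V0K_V A K1 q M' (M' * q) hq hqM (Nat.mul_comm M' q))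
      (S18K_V A K1 (M' * q * q)) (S36VK_Vmid A K1 q M') (S36VK_V0 A K1 q M' hq hqM) q
      R' (S36XB_Rk A K1 M' q hq hqM i)) ∧
  ∀ i, ∃ Rm' Rm : Subring (LaurentSeries K1),
    S36XB_PtData (S34V3K_F1_mono K1 (S36XA_level_dvd M' q)) (S18K_O A K1)
      (S18K_V A K1 (M' * q)) (S34V0K_V A K1 q M' (M' * q) hq hqM (Nat.mul_comm M' q))
      (S18K_V A K1 (M' * q * q)) (S36VK_Vmid A K1 q M') (S36VK_V0 A K1 q M' hq hqM) q
      Rm' Rm ∧
    (∀ x ∈ S36XB_Rk A K1 M' q hq hqM i, S36XA_W K1 q M' hq hqM x ∈ Rm) ∧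
    (∀ x ∈ Rm, S36XA_W K1 q M' hq hqM x ∈ S36XB_Rk A K1 M' q hq hqM i)

/-- **OPEN INPUT (III), the thick one-branch points of the finite chart** (helper14 MIDKH): the
hypothesis `hmid` of helper9's `S36DK_pts0`, for every Good `f1` (exponent `d`). -/
def S36XB_HMid0 (d : ℕ) : Prop :=
  ∀ (f1 : LaurentSeries K1) (hf1 : f1 ∈ S18K_F1 K1 (M' * q * q)),
    S36XB_Good A K1 M' q d hq hqM (S36VK_Vmid A K1 q M') (S36VK_V0 A K1 q M' hq hqM)
      f1 hf1 →
    ∀ (hπ : S18K_π A K1 ∈ S18K_A0 A K1 (M' * q * q))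
      (m : Ideal (S18K_A0 A K1 (M' * q * q))), m.IsMaximal →
      (⟨S18K_π A K1, hπ⟩ : S18K_A0 A K1 (M' * q * q)) ∈ m →
      S36ONE_On (S36VK_Vmid A K1 q M') (S18K_A0 A K1 (M' * q * q)) m →
      ∀ d' : S18K_A0 A K1 (M' * q * q), d' ∉ m →
      (∃ v ∈ (S18K_V A K1 (M' * q * q) ⊓ S36VK_V0 A K1 q M' hq hqM :
        Subring (LaurentSeries K1)), (d' : LaurentSeries K1) = S18K_π A K1 * v) →
      ∀ G : LaurentSeries K1, RedPow (S18K_π A K1)
        (S18K_V A K1 (M' * q * q) ⊓ S36VK_Vmid A K1 q M' ⊓ S36VK_V0 A K1 q M' hq hqM :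
          Subring (LaurentSeries K1)) lam f1 G →
      S36XB_One (S18K_π A K1) (S18K_F1 K1 (M' * q * q)) (S36VK_Vmid A K1 q M')
        (S18K_V A K1 (M' * q * q)) (S36VK_V0 A K1 q M' hq hqM)
        (S18K_A0 A K1 (M' * q * q)) lam f1 G m

/-- **OPEN INPUT (IV), the thick cusps** (helper20 TCUSPX): the hypothesis `hmid` of helper9's
`S36PK_ptsInf`, for every Good `f1` (exponent `d`). -/
def S36XB_HMidInf (d : ℕ) : Prop :=
  ∀ (f1 : LaurentSeries K1) (hf1 : f1 ∈ S18K_F1 K1 (M' * q * q)),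
    S36XB_Good A K1 M' q d hq hqM (S36VK_Vmid A K1 q M') (S36VK_V0 A K1 q M' hq hqM)
      f1 hf1 →
    ∀ (hπ : S18K_π A K1 ∈ S18K_Ainf A K1 (M' * q * q))
      (hu : (S18K_j K1)⁻¹ ∈ S18K_Ainf A K1 (M' * q * q))
      (m : Ideal (S18K_Ainf A K1 (M' * q * q))), m.IsMaximal →
      (⟨S18K_π A K1, hπ⟩ : S18K_Ainf A K1 (M' * q * q)) ∈ m →
      (⟨(S18K_j K1)⁻¹, hu⟩ : S18K_Ainf A K1 (M' * q * q)) ∈ m →
      ∀ d' : S18K_Ainf A K1 (M' * q * q), d' ∉ m →
      (∃ v ∈ (S18K_V A K1 (M' * q * q) ⊓ S36VK_V0 A K1 q M' hq hqM :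
        Subring (LaurentSeries K1)), (d' : LaurentSeries K1) = S18K_π A K1 * v) →
      ∀ G : LaurentSeries K1, RedPow (S18K_π A K1)
        (S18K_V A K1 (M' * q * q) ⊓ S36VK_Vmid A K1 q M' ⊓ S36VK_V0 A K1 q M' hq hqM :
          Subring (LaurentSeries K1)) lam f1 G →
      S36XB_One (S18K_π A K1) (S18K_F1 K1 (M' * q * q)) (S36VK_Vmid A K1 q M')
        (S18K_V A K1 (M' * q * q)) (S36VK_V0 A K1 q M' hq hqM)
        (S18K_Ainf A K1 (M' * q * q)) lam f1 G m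

/-- **the contract of `loc` at the carriers** from the four open inputs. -/
theorem S36XB_locContract_of (hA : A.LiesOverPrime q) (hK1 : S36XA_Level A K1 q)
    (hlam : lam.Prime) (hne : lam ≠ q) {c1 c2 u m' : ℕ}
    (hqu : q + 1 = lam ^ c1 * u) (hu : ¬ lam ∣ u)
    (hqm : q - 1 = lam ^ c2 * m') (hm' : ¬ lam ∣ m')
    (hTX : S36XB_HTX A K1 M' q hq hqM) (hpt : S36XB_HPt A K1 M' q hq hqM)
    (hmid0 : S36XB_HMid0 A K1 M' q lam hq hqM (lam ^ (2 * (c1 + c2) + 1 - c1)))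
    (hmidInf : S36XB_HMidInf A K1 M' q lam hq hqM (lam ^ (2 * (c1 + c2) + 1 - c1))) :
    S36XB_LocContract A K1 M' q lam (lam ^ (2 * (c1 + c2) + 1 - c1)) (lam ^ (c1 + c2 + 1))
      (lam ^ (c1 + c2)) hq hqM (S36VK_Vmid A K1 q M')
      (S36VK_V0 A K1 q M' hq hqM) (S36VK_t K1 q) (q - 1) (S36XB_Rk A K1 M' q hq hqM) := by
  obtain ⟨hptα, hptβ⟩ := hpt
  have hunr := S36SK_hunr A K1 q hq hA hK1
  obtain ⟨hmid, h12, h23, h13, ht0, -, htπ, hkey, -, unif2, -, hres1, -⟩ :=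
    S36VK_main A K1 q M' hq hqM hA hunr
  obtain ⟨S, H1, H2, H3⟩ := S36S3_setupMid A K1 q M' hq hqM hA hmid hkey
  have hw22 := S36WV_hw22 A K1 q M' hq hqM hA hunr
  have hd01 : M' ∣ M' * q := dvd_mul_right M' q
  have hd02 : M' ∣ M' * q * q := hd01.trans (dvd_mul_right (M' * q) q)
  have hπne : S18K_π A K1 ≠ 0 := H1.π_ne_zero
  have low_val := S34V3K_val1 A K1 M'
  have low_sep := Fermat.Agent.S34_helper13_KEYK.S34KEYK_sep A K1 M'
  have deg := S36RK_deg A K1 M' (M' * q * q)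
  have le1 : S18K_V A K1 M' ≤ S18K_V A K1 (M' * q * q) := S34V3K_V_mono A K1 hd02
  have le2 : S18K_V A K1 M' ≤ S36VK_Vmid A K1 q M' :=
    (S34V3K_V_mono A K1 hd01).trans hmid.2.1
  have le3 := S36VK_V0_le A K1 q M' hq hqM
  have unif3 := S36VK_V0_unif A K1 q M' hq hqM
  have t_pow : ∃ v ∈ S36VK_Vmid A K1 q M', S36VK_t K1 q ^ (q - 1) = S18K_π A K1 * v :=
    ⟨_, htπ, by field_simp⟩
  obtain ⟨hQ0, hP, hgcd, hPd, hlamd⟩ :
      0 < lam ^ (c1 + c2) ∧ lam ^ (c1 + c2 + 1) = lam * lam ^ (c1 + c2) ∧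
      Nat.gcd (lam ^ (c1 + c2 + 1)) (q ^ 2 - 1) ∣ lam ^ (c1 + c2) ∧
      lam ^ (c1 + c2 + 1) ∣ lam ^ (2 * (c1 + c2) + 1 - c1) ∧
      lam ∣ lam ^ (2 * (c1 + c2) + 1 - c1) :=
    S36XB_exps_of hlam hq hqu hu hqm hm'
  have hπ0 : S18K_π A K1 ∈ S18K_A0 A K1 (M' * q * q) :=
    Fermat.Agent.S36_helper3_XBCORE.S36XB_O_le_chart S S.chart0 S.π_mem
  have pts0 : ∀ (f1 : LaurentSeries K1) (hf1 : f1 ∈ S18K_F1 K1 (M' * q * q)),
      S36XB_Good A K1 M' q (lam ^ (2 * (c1 + c2) + 1 - c1)) hq hqM (S36VK_Vmid A K1 q M') (S36VK_V0 A K1 q M' hq hqM)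
        f1 hf1 →
      ∀ (hπ : S18K_π A K1 ∈ S18K_A0 A K1 (M' * q * q))
        (m : Ideal (S18K_A0 A K1 (M' * q * q))) (hm : m.IsMaximal),
        (⟨S18K_π A K1, hπ⟩ : S18K_A0 A K1 (M' * q * q)) ∈ m →
        (∃ i, S36XB_Rk A K1 M' q hq hqM i =
          @locRing _ _ (S18K_A0 A K1 (M' * q * q)) m hm.isPrime) ∨
        ∀ G : LaurentSeries K1, RedPow (S18K_π A K1)
          (S18K_V A K1 (M' * q * q) ⊓ S36VK_Vmid A K1 q M' ⊓ S36VK_V0 A K1 q M' hq hqM :
            Subring (LaurentSeries K1)) lam f1 G →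
          S36XB_OneAlt (S18K_π A K1) (S18K_F1 K1 (M' * q * q)) (S18K_V A K1 (M' * q * q))
            (S36VK_Vmid A K1 q M') (S36VK_V0 A K1 q M' hq hqM)
            (S18K_A0 A K1 (M' * q * q)) lam f1 G m :=
    fun f1 hf1 hgood hπ m hm hπm =>
      S36DK_pts0 A K1 q M' (M' * q * q) hq hqM (S36VK_level q M') hA hK1.adm (M' * q)
        (S36XA_level_dvd M' q) (S36VK_Vmid A K1 q M') (S36VK_V0 A K1 q M' hq hqM)
        (fun y => Iff.rfl) S H2 H3 unif3 (S36VK_t K1 q) (q - 1) t_pow unif2 hmid.2.1 hw22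
        hres1 hlam f1 hgood.1
        (S36GP_powDiv A K1 M' q _ hq hqM _ _ hlamd f1 hf1 hgood) hπ
        (fun m' hm' hπm' hc => by
          haveI := hm'.isPrime
          obtain ⟨S1, T2, T, -⟩ := hTX hπ m' hm' hπm' hc
          exact S36DIX_on_oo m' T)
        (hmid0 f1 hf1 hgood hπ) (S36XB_Rk A K1 M' q hq hqM)
        (fun m hm hπm hc => S36PTS_canon hπ m hm hπm hc) m hm hπm
  exact
    { low_val := low_val
      low_sep := low_sep
      deg := deg
      le1 := le1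
      le2 := le2
      le3 := le3
      ne12 := h12
      ne13 := h13
      ne23 := h23
      unif1 := S34V3K_unif1 A K1 (M' * q * q)
      unif3 := unif3
      t_mem := hmid.2.2.1
      t_nonunit := hmid.2.2.2
      unif2 := unif2
      t_pow := t_pow
      Q0_pos := hQ0
      P_eq := hP
      gcd_dvd := hgcd
      trip_loc := S36TFC_trip_loc hTX
      trip_O := S36TFC_trip_O hTX S
      trip_le1 := S36TFC_trip_le1 hTX
      trip_le2 := S36TFC_trip_le2 hTX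
      trip_le3 := S36TFC_trip_le3 hTX
      trip_ic := S36TFC_trip_ic lam hTX S hlam.pos
      roots := S36RK_roots A K1 q M' hq hqM hK1.adm hA hunr hlam hne hqu hu hqm hm'
        (S36XB_Rk A K1 M' q hq hqM)
        (S36TFP_branch_pow _ hq hqM hTX hA hlam hne (c1 + c2 + 1) hPd S H1 H2 H3 low_val
          low_sep deg le1 le2 le3) hptα hptβ
      branch := S36TFC_branch lam _ hq hqM hTX hA hlam hne hlamd S H1 H2 H3 low_val low_sep
        deg le1 le2 le3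
      pts0 := pts0
      ptsInf := fun f1 hf1 hgood hπ m hm hπm =>
        S36PK_ptsInf A K1 q M' (M' * q * q) hq hqM (S36VK_level q M') hA hK1.adm
          (S36VK_Vmid A K1 q M') (S36VK_V0 A K1 q M' hq hqM) (fun y => Iff.rfl) S H2 H3
          unif3 hmid.2.1 hw22 hres1 hlam f1 hgood.1
          (S36GP_powDiv A K1 M' q _ hq hqM _ _ hlamd f1 hf1 hgood) hπ0 hπ
          (Fermat.Agent.S36_helper14_N1K.S36N1K_jinv_mem S) (S36XB_Rk A K1 M' q hq hqM)
          (fun m' hm' hπm' => pts0 f1 hf1 hgood hπ0 m' hm' hπm')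
          (hmidInf f1 hf1 hgood hπ (Fermat.Agent.S36_helper14_N1K.S36N1K_jinv_mem S))
          m hm hπm }

/-- **THE OPEN PART OF GEO36 (as of 04:30Z)**: the four inputs at every unramified level. -/
def S36XB_Open (A : ValuationSubring Qb) (M' q lam : ℕ) [NeZero M'] [NeZero q]
    [NeZero (M' * q)] [NeZero (M' * q * q)] [NeZero (q ^ 2)] [NeZero (q * q)]
    (hq : q.Prime) (hqM : ¬ q ∣ M') : Prop :=
  ∀ (K1 : IntermediateField ℚ Qb) (hK1 : S36XA_Level A K1 q),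
    letI := hK1.adm.dvr
    S36XB_HTX A K1 M' q hq hqM ∧ S36XB_HPt A K1 M' q hq hqM ∧
      ∀ d : ℕ, lam ∣ d → S36XB_HMid0 A K1 M' q lam hq hqM d ∧
        S36XB_HMidInf A K1 M' q lam hq hqM d

/-- **`S36XB_LocInput` from the four open inputs.** -/
theorem S36XB_locInput_of (A : ValuationSubring Qb) (M' q lam : ℕ) [NeZero M'] [NeZero q]
    [NeZero (M' * q)] [NeZero (M' * q * q)] [NeZero (q ^ 2)] [NeZero (q * q)]
    (hq : q.Prime) (hqM : ¬ q ∣ M') (hA : A.LiesOverPrime q) (hlam : lam.Prime)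
    (hne : lam ≠ q) (hopen : S36XB_Open A M' q lam hq hqM) :
    S36XB_LocInput M' q lam hq hqM A := by
  intro K1 hK1 c1 c2 u m' hqu hu hqm hm'
  letI := hK1.adm.dvr
  obtain ⟨hTX, hpt, hmid⟩ := hopen K1 hK1
  have hlamd : lam ∣ lam ^ (2 * (c1 + c2) + 1 - c1) := dvd_pow_self lam (by omega)
  exact ⟨S36VK_t K1 q, q - 1, _, S36XB_Rk A K1 M' q hq hqM,
    S36XB_locContract_of A K1 M' q lam hq hqM hA hK1 hlam hne hqu hu hqm hm' hTX hpt
      (hmid _ hlamd).1 (hmid _ hlamd).2⟩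

/-- **`S36C_GeoInput` from the four open inputs** at the levels `M' = N' * r`,
`r = S36BC_aux q`. -/
theorem S36XB_geoInput_of_open
    (hopen : ∀ (N' q lam : ℕ) [NeZero N'] [NeZero q] (hq : q.Prime), lam.Prime → q ≠ lam →
      lam ≠ 2 → ∀ (hqN : ¬ q ∣ N') (A : ValuationSubring Qb), A.LiesOverPrime q →
      @S36XB_Open A (N' * S36BC_aux q) q lam
        ⟨mul_ne_zero (NeZero.ne N') (S36BC_aux_ne_zero q)⟩ _
        ⟨mul_ne_zero (mul_ne_zero (NeZero.ne N') (S36BC_aux_ne_zero q)) (NeZero.ne q)⟩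
        ⟨mul_ne_zero (mul_ne_zero (mul_ne_zero (NeZero.ne N') (S36BC_aux_ne_zero q))
          (NeZero.ne q)) (NeZero.ne q)⟩
        ⟨pow_ne_zero 2 (NeZero.ne q)⟩ ⟨mul_ne_zero (NeZero.ne q) (NeZero.ne q)⟩
        hq (S36GM_not_dvd hq hqN)) :
    Fermat.Agent.S36_helper18_Contracts.S36C_GeoInput :=
  S36XB_geoInput_of (fun N' q lam _ _ hq hlam hne hlam2 hqN A hA =>
    @S36XB_locInput_of A (N' * S36BC_aux q) q lam
      ⟨mul_ne_zero (NeZero.ne N') (S36BC_aux_ne_zero q)⟩ _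
      ⟨mul_ne_zero (mul_ne_zero (NeZero.ne N') (S36BC_aux_ne_zero q)) (NeZero.ne q)⟩
      ⟨mul_ne_zero (mul_ne_zero (mul_ne_zero (NeZero.ne N') (S36BC_aux_ne_zero q))
        (NeZero.ne q)) (NeZero.ne q)⟩
      ⟨pow_ne_zero 2 (NeZero.ne q)⟩ ⟨mul_ne_zero (NeZero.ne q) (NeZero.ne q)⟩
      hq (S36GM_not_dvd hq hqN) hA hlam hne.symm (hopen N' q lam hq hlam hne hlam2 hqN A hA))

end Fermat.Agent.S36_helper3_GEO
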