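import Mathlib
import Fermat.Agent.S36_helper6_TORIC
import Fermat.Agent.S36_helper6_TORPT
import Fermat.Agent.S36_helper17_TRIPLEX

/-!
# S36, GEO36: TORLS = the point hypotheses of `S36TPT_rel` at a triple point (helper6)

`A' ≤ A` the charts of level `q M'` and `q² M'`, `z ∈ A`, `m` a prime of `A`,
`R := locRing A m`, `R' := locRing A' (m ∩ A')`.  From helper17's generation statement
`locRing A m = locRing A'[z] (m ∩ A'[z])` (second conclusion of `S36TX_main`):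

* `S36TLS_red1`, `S36TLS_redq` : reduction of `A'[z]` (resp. of its `q`-th powers) to `A'`
  along a branch on which `z ≡ c` (resp. `z ^ q ≡ c`, residue characteristic `q`);
* `S36TLS_loc`   : localisation of such a reduction;
* `S36TLS_main`  : **the LS facts** `hLS1`, `hLS2`, `hLS3` of `S36TPT_rel`;
* `S36TLS_integ` : **(INTEG)** `R` is integral over `R'` (from the uniqueness of the prime of
  `A'[z]` over `m ∩ A'`, helper17's `S36TX_prime_unique`);
* `S36TLS_hic`   : the localisation of an integrally closed chart is integrally closed;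
* `S36TLS_hlocal`: non-units of `R'` are non-units of `R`;
* `S36TLS_point` : ALL the point hypotheses of `S36TPT_rel` (`hlocal`, `hnorm`, `hroot'`,
  `hLS1`, `hLS2`, `hLS3`) at once.
-/

set_option autoImplicit false
set_option linter.style.haveILetI false
set_option linter.unusedSectionVars false
set_option linter.unusedVariables false

namespace Fermat.Agent.S36_helper6_TORLS

open Fermat.Agent.S18_helper3_LOCRING Fermat.Agent.S34_helper27_C2Defs
  Fermat.Agent.S34_helper13_KEY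
  Fermat.Agent.S36_helper6_TORIC Fermat.Agent.S36_helper17_TRIPLEX
  Fermat.Agent.S36_helper6_TORPT

variable {L : Type*} [Field L]

section Red

variable {π : L} {F1 : Subfield L} {V : Subring L} (A' : Subring L) (z : L)

/-- reduction of `A'[z]` to `A'` along a branch on which `z ≡ c`, `c ∈ A'` -/
theorem S36TLS_red1 (hXV : S36TX_adj A' z ≤ V) {c : L} (hc : c ∈ A')
    (hzc : z - c ∈ S36TOR_nu V) :
    ∀ f ∈ S36TX_adj A' z, ∃ a ∈ A', f ^ 1 - a ∈ S36TOR_nu V := by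
  intro f hf
  obtain ⟨a, ha, g, hg, e⟩ := S36TX_adj_decomp A' z hc hf
  refine ⟨a, ha, ?_⟩
  have e' : f ^ 1 - a = (z - c) * g := by rw [pow_one, e]; ring
  rw [e']
  exact S36TOR_nu_mul_right hzc (hXV hg)

/-- `(x + y) ^ q ≡ x ^ q + y ^ q` modulo the non-units, when `q` is a non-unit -/
theorem S36TLS_add_pow (H : S34C2_Val π F1 V) {q : ℕ} (hq : q.Prime)
    (hqV : (q : L) ∈ S36TOR_nu V) {x y : L} (hx : x ∈ V) (hy : y ∈ V) :
    (x + y) ^ q - (x ^ q + y ^ q) ∈ S36TOR_nu V := by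
  have h := add_pow_prime_eq hq x y
  have e : (x + y) ^ q - (x ^ q + y ^ q) = (q : L) * (x * y *
      ∑ k ∈ Finset.Ioo 0 q, x ^ (k - 1) * y ^ (q - k - 1) * ((q.choose k / q : ℕ) : L)) := by
    rw [h]; ring
  rw [e]
  refine S36TOR_nu_mul_right hqV (V.mul_mem (V.mul_mem hx hy) (V.sum_mem fun k _ => ?_))
  exact V.mul_mem (V.mul_mem (V.pow_mem hx _) (V.pow_mem hy _)) (natCast_mem V _)

/-- reduction of the `q`-th powers of `A'[z]` to `A'` along a branch of residue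
characteristic `q` on which `z ^ q ≡ c`, `c ∈ A'` -/
theorem S36TLS_redq (H : S34C2_Val π F1 V) (hA'V : A' ≤ V) (hzV : z ∈ V) {q : ℕ}
    (hq : q.Prime) (hqV : (q : L) ∈ S36TOR_nu V) {c : L} (hc : c ∈ A')
    (hzc : z ^ q - c ∈ S36TOR_nu V) :
    ∀ f ∈ S36TX_adj A' z, ∃ a ∈ A', f ^ q - a ∈ S36TOR_nu V := by
  have hXV : S36TX_adj A' z ≤ V := S36TX_adj_le A' z hA'V hzV
  intro f hf
  have hf' := hf
  unfold S36TX_adj at hf
  induction hf using Subring.closure_induction with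
  | mem f hf =>
    rcases hf with hf | hf
    · exact ⟨f ^ q, A'.pow_mem hf q, by rw [sub_self]; exact S36TOR_nu_zero⟩
    · rw [Set.mem_singleton_iff] at hf
      rw [hf]
      exact ⟨c, hc, hzc⟩
  | zero =>
    exact ⟨0, A'.zero_mem, by rw [zero_pow hq.ne_zero, sub_zero]; exact S36TOR_nu_zero⟩
  | one => exact ⟨1, A'.one_mem, by rw [one_pow, sub_self]; exact S36TOR_nu_zero⟩
  | add f g hf hg ihf ihg =>
    obtain ⟨a, ha, hfa⟩ := ihf hf
    obtain ⟨b, hb, hgb⟩ := ihg hg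
    refine ⟨a + b, A'.add_mem ha hb, ?_⟩
    have e : (f + g) ^ q - (a + b) =
        ((f + g) ^ q - (f ^ q + g ^ q)) + ((f ^ q - a) + (g ^ q - b)) := by ring
    rw [e]
    exact S36TOR_nu_add_val H (S36TLS_add_pow H hq hqV (hXV hf) (hXV hg))
      (S36TOR_nu_add_val H hfa hgb)
  | neg f hf ihf =>
    obtain ⟨a, ha, hfa⟩ := ihf hf
    refine ⟨(-1) ^ q * a, A'.mul_mem (A'.pow_mem (A'.neg_mem A'.one_mem) q) ha, ?_⟩
    have e : (-f) ^ q - (-1) ^ q * a = (-1) ^ q * (f ^ q - a) := by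
      rw [neg_pow]; ring
    rw [e]
    exact S36TOR_nu_mul_left (V.pow_mem (V.neg_mem V.one_mem) q) hfa
  | mul f g hf hg ihf ihg =>
    obtain ⟨a, ha, hfa⟩ := ihf hf
    obtain ⟨b, hb, hgb⟩ := ihg hg
    refine ⟨a * b, A'.mul_mem ha hb, ?_⟩
    have e : (f * g) ^ q - a * b = f ^ q * (g ^ q - b) + b * (f ^ q - a) := by
      rw [mul_pow]; ring
    rw [e]
    exact S36TOR_nu_add_val H (S36TOR_nu_mul_left (V.pow_mem (hXV hf) q) hgb)
      (S36TOR_nu_mul_left (hA'V hb) hfa)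

end Red

section Loc

variable {π : L} {F1 : Subfield L} {V : Subring L}
  (A' A : Subring L) (hA'A : A' ≤ A) (z : L) (hzA : z ∈ A) (m : Ideal A) [hm : m.IsPrime]

/-- the trace of `m` on `A'` -/
abbrev S36TLS_m' : Ideal A' := m.comap (Subring.inclusion hA'A)

/-- an element of `A` which is a non-unit of a valuation ring containing `locRing A m` lies in
`m` -/
theorem S36TLS_mem_of_nu (hRV : locRing A m ≤ V) (d : A) (hd : (d : L) ∈ S36TOR_nu V) :
    d ∈ m := by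
  by_contra hdm
  have h1 : ((d : L))⁻¹ ∈ V := hRV (inv_mem_locRing A m hdm)
  exact S36TOR_not_nu (coe_ne_zero_of_notMem A m hdm) h1 hd

/-- **localisation of a reduction**: if the `k`-th powers of `A'[z]` reduce to `A'` along `V`,
the `k`-th powers of `locRing A m = locRing A'[z] (m ∩ A'[z])` reduce to `locRing A' (m ∩ A')`. -/
theorem S36TLS_loc
    (heq : locRing A m = locRing (S36TX_adj A' z)
      (S36TX_m0 A' A z (S36TX_adj_le A' z hA'A hzA) m))
    (H : S34C2_Val π F1 V) (hRV : locRing A m ≤ V) {k : ℕ}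
    (hred : ∀ f ∈ S36TX_adj A' z, ∃ a ∈ A', f ^ k - a ∈ S36TOR_nu V) :
    ∀ w ∈ locRing A m, ∃ a ∈ locRing A' (S36TLS_m' A' A hA'A m),
      w ^ k - a ∈ S36TOR_nu V := by
  intro w hw
  have hwV : w ∈ V := hRV hw
  rw [heq] at hw
  obtain ⟨a, c, hc, hac⟩ := hw
  have hXA := S36TX_adj_le A' z hA'A hzA
  obtain ⟨a', ha', haa'⟩ := hred a a.2
  obtain ⟨c', hc', hcc'⟩ := hred c c.2
  -- `c' ∉ m'`
  have hc'm : (⟨c', hc'⟩ : A') ∉ S36TLS_m' A' A hA'A m := by
    intro hmem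
    have h1 : (⟨c', hA'A hc'⟩ : A) ∈ m := hmem
    have h2 : (⟨(c : L), hXA c.2⟩ : A) ^ k - ⟨c', hA'A hc'⟩ ∈ m :=
      S36TLS_mem_of_nu A m hRV _ (by push_cast; exact hcc')
    have h3 : (⟨(c : L), hXA c.2⟩ : A) ^ k ∈ m := by
      have := m.add_mem h2 h1
      rwa [sub_add_cancel] at this
    exact hc (hm.mem_of_pow_mem k h3)
  have hc'0 : c' ≠ 0 := fun h => hc'm (by
    have : (⟨c', hc'⟩ : A') = 0 := Subtype.ext h
    rw [this]; exact Ideal.zero_mem _)
  have hc'inv : c'⁻¹ ∈ V := by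
    have hn : (⟨c', hA'A hc'⟩ : A) ∉ m := hc'm
    exact hRV (inv_mem_locRing A m hn)
  refine ⟨a' / c', div_mem_locRing A' _ ⟨a', ha'⟩ hc'm, ?_⟩
  have hwk : w ^ k * (c : L) ^ k = (a : L) ^ k := by rw [← mul_pow, hac]
  have e : w ^ k - a' / c' =
      (w ^ k * -((c : L) ^ k - c') + ((a : L) ^ k - a')) * c'⁻¹ := by
    field_simp
    linear_combination hwk
  rw [e]
  exact S36TOR_nu_mul_right (S36TOR_nu_add_val H
    (S36TOR_nu_mul_left (V.pow_mem hwV k) (S36TOR_nu_neg hcc')) haa') hc'inv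

/-- **(INTEG)**: if `z` is integral over `A'` and `m ∩ A'[z]` is the only prime of `A'[z]` over
`m ∩ A'`, then `locRing A m = locRing A'[z] (m ∩ A'[z])` is integral over
`locRing A' (m ∩ A')`. -/
theorem S36TLS_integ
    (heq : locRing A m = locRing (S36TX_adj A' z)
      (S36TX_m0 A' A z (S36TX_adj_le A' z hA'A hzA) m))
    (hz : IsIntegral A' z)
    (huniq : ∀ n : Ideal (S36TX_adj A' z), n.IsPrime →
      n.comap (S36TX_ι A' z) =
        (S36TX_m0 A' A z (S36TX_adj_le A' z hA'A hzA) m).comap (S36TX_ι A' z) →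
      n = S36TX_m0 A' A z (S36TX_adj_le A' z hA'A hzA) m) :
    ∀ w ∈ locRing A m, IsIntegral ↥(locRing A' (S36TLS_m' A' A hA'A m)) w := by
  intro w hw
  rw [heq] at hw
  obtain ⟨a, c, hc, hac⟩ := hw
  set 𝔪0 := S36TX_m0 A' A z (S36TX_adj_le A' z hA'A hzA) m with h𝔪0
  letI : Algebra A' (S36TX_adj A' z) := (S36TX_ι A' z).toAlgebra
  haveI : Algebra.IsIntegral A' (S36TX_adj A' z) := ⟨S36TX_ι_isIntegral A' z hz⟩
  haveI hP : (𝔪0.comap (S36TX_ι A' z)).IsPrime := Ideal.comap_isPrime _ _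
  -- `c` divides an element of `A' ∖ m'`
  have hcl : ∃ (b : S36TX_adj A' z) (s : A'), s ∉ S36TLS_m' A' A hA'A m ∧
      c * b = S36TX_ι A' z s := by
    by_contra hcon
    push_neg at hcon
    have hle : (Ideal.span ({c} : Set (S36TX_adj A' z))).comap
        (algebraMap A' (S36TX_adj A' z)) ≤ 𝔪0.comap (S36TX_ι A' z) := by
      intro s hs
      rw [Ideal.mem_comap, Ideal.mem_span_singleton] at hs
      obtain ⟨b, hb⟩ := hs
      by_contra hsm
      exact hcon b s hsm hb.symm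
    obtain ⟨Q, hQ, hQp, hQc⟩ := Ideal.exists_ideal_over_prime_of_isIntegral
      (𝔪0.comap (S36TX_ι A' z)) (Ideal.span ({c} : Set (S36TX_adj A' z))) hle
    have hQ𝔪 : Q = 𝔪0 := huniq Q hQp hQc
    exact hc (hQ𝔪 ▸ hQ (Ideal.mem_span_singleton_self c))
  obtain ⟨b, s, hs, hcb⟩ := hcl
  have hs0 : (s : L) ≠ 0 := coe_ne_zero_of_notMem A' _ hs
  have hcbL : (c : L) * (b : L) = (s : L) := congrArg Subtype.val hcb
  have hw' : w = (a : L) * (b : L) * ((s : L))⁻¹ := by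
    have : w * (s : L) = (a : L) * (b : L) := by
      rw [← hcbL, ← mul_assoc, hac]
    rw [← this, mul_assoc, mul_inv_cancel₀ hs0, mul_one]
  rw [hw']
  have h1 : IsIntegral ↥(locRing A' (S36TLS_m' A' A hA'A m)) ((a : L) * (b : L)) := by
    obtain ⟨p, hp, hpe⟩ := S36TX_isIntegral_of_mem A' z hz
      ((S36TX_adj A' z).mul_mem a.2 b.2)
    refine ⟨p.map (incl A' (S36TLS_m' A' A hA'A m)), hp.map _, ?_⟩
    rw [Polynomial.eval₂_map]
    exact hpe
  have h2 : IsIntegral ↥(locRing A' (S36TLS_m' A' A hA'A m)) ((s : L))⁻¹ :=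
    isIntegral_algebraMap (x := (⟨((s : L))⁻¹, inv_mem_locRing A' _ hs⟩ :
      locRing A' (S36TLS_m' A' A hA'A m)))
  exact h1.mul h2

end Loc

section IC

variable (A' : Subring L) (m' : Ideal A') [hm' : m'.IsPrime]

/-- **the localisation of an integrally closed chart is integrally closed** (elementwise, in a
subfield `F1'` of `L`). -/
theorem S36TLS_hic {F1' : Subfield L}
    (hicA : ∀ x ∈ F1', IsIntegral ↥A' x → x ∈ A') (hA'F : ∀ x ∈ A', x ∈ F1') :
    ∀ x ∈ F1', IsIntegral ↥(locRing A' m') x → x ∈ locRing A' m' := by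
  classical
  rintro x hxF ⟨p, hp, hpx⟩
  -- a common denominator of the coefficients
  have hden : ∃ s : A', s ∉ m' ∧
      ∀ i, ∃ a : A', ((p.coeff i : locRing A' m') : L) * (s : L) = a := by
    choose a c hc hac using fun i => (p.coeff i).2
    refine ⟨∏ i ∈ p.support, c i, ?_, ?_⟩
    · intro h
      obtain ⟨i, -, hi⟩ := (Ideal.IsPrime.prod_mem_iff).1 h
      exact hc i hi
    · intro i
      by_cases hi : i ∈ p.support
      · refine ⟨a i * ∏ j ∈ p.support.erase i, c j, ?_⟩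
        rw [← Finset.mul_prod_erase _ _ hi]
        push_cast
        rw [← mul_assoc, hac i]
      · refine ⟨0, ?_⟩
        rw [Polynomial.notMem_support_iff.1 hi]
        simp
  obtain ⟨s, hs, hcoef⟩ := hden
  have hs0 : (s : L) ≠ 0 := coe_ne_zero_of_notMem A' m' hs
  -- the scaled polynomial has coefficients in `A'`
  have hlift : p.scaleRoots (incl A' m' s) ∈ Polynomial.lifts (incl A' m') := by
    rw [Polynomial.lifts_iff_coeff_lifts]
    intro i
    rw [Polynomial.coeff_scaleRoots]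
    rcases lt_trichotomy i p.natDegree with hi | hi | hi
    · obtain ⟨a, ha⟩ := hcoef i
      refine ⟨a * s ^ (p.natDegree - i - 1), Subtype.ext ?_⟩
      have e : p.natDegree - i = (p.natDegree - i - 1) + 1 := by omega
      rw [e, pow_succ]
      show ((a * s ^ (p.natDegree - i - 1) : A') : L) =
        ((p.coeff i : locRing A' m') : L) * ((s : L) ^ (p.natDegree - i - 1) * (s : L))
      push_cast
      rw [← ha]
      ring
    · refine ⟨1, Subtype.ext ?_⟩
      rw [hi, Nat.sub_self, pow_zero, mul_one, hp.coeff_natDegree]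
      rfl
    · refine ⟨0, Subtype.ext ?_⟩
      rw [Polynomial.coeff_eq_zero_of_natDegree_lt hi, zero_mul]
      rfl
  obtain ⟨p', hp'map, -, hp'monic⟩ := Polynomial.lifts_and_natDegree_eq_and_monic hlift
    ((Polynomial.monic_scaleRoots_iff _).2 hp)
  have hsx : IsIntegral ↥A' ((s : L) * x) := by
    refine ⟨p', hp'monic, ?_⟩
    have h1 : Polynomial.eval₂ (algebraMap ↥A' L) ((s : L) * x) p' =
        Polynomial.eval₂ (algebraMap ↥(locRing A' m') L) ((s : L) * x)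
          (p'.map (incl A' m')) := by
      rw [Polynomial.eval₂_map]
      rfl
    rw [h1, hp'map]
    exact Polynomial.scaleRoots_eval₂_eq_zero (algebraMap ↥(locRing A' m') L)
      (s := incl A' m' s) hpx
  have hsxA : (s : L) * x ∈ A' := hicA _ (F1'.mul_mem (hA'F _ s.2) hxF) hsx
  refine ⟨⟨(s : L) * x, hsxA⟩, s, hs, ?_⟩
  show x * (s : L) = (s : L) * x
  ring

end IC

section Main

variable {π : L} {F1' F1 : Subfield L} {V1 V2 V3 : Subring L}
  (A' A : Subring L) (hA'A : A' ≤ A) (z : L) (hzA : z ∈ A) (m : Ideal A) [hm : m.IsPrime]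

/-- **The LS facts and (INTEG) at a triple point**, from helper17's generation statement
`locRing A m = locRing A'[z] (m ∩ A'[z])`: with `R := locRing A m`, `R' := locRing A' (m ∩ A')`,
`z ≡ c1` on `V1`, `z ≡ c2` on `V2`, `z ^ q ≡ c3` on `V3` (`c_i ∈ A'`), `q` a non-unit of `V3`. -/
theorem S36TLS_main
    (heq : locRing A m = locRing (S36TX_adj A' z)
      (S36TX_m0 A' A z (S36TX_adj_le A' z hA'A hzA) m))
    (H1 : S34C2_Val π F1 V1) (H2 : S34C2_Val π F1 V2) (H3 : S34C2_Val π F1 V3)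
    (hR1 : locRing A m ≤ V1) (hR2 : locRing A m ≤ V2) (hR3 : locRing A m ≤ V3)
    {q : ℕ} (hq : q.Prime) (hqV : (q : L) ∈ S36TOR_nu V3)
    {c1 c2 c3 : L} (hc1 : c1 ∈ A') (hc2 : c2 ∈ A') (hc3 : c3 ∈ A')
    (hz1 : z - c1 ∈ S36TOR_nu V1) (hz2 : z - c2 ∈ S36TOR_nu V2)
    (hz3 : z ^ q - c3 ∈ S36TOR_nu V3) :
    (∀ w ∈ locRing A m, ∃ a ∈ locRing A' (S36TLS_m' A' A hA'A m), w - a ∈ S36TOR_nu V1) ∧
    (∀ w ∈ locRing A m, ∃ a ∈ locRing A' (S36TLS_m' A' A hA'A m), w - a ∈ S36TOR_nu V2) ∧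
    (∀ w ∈ locRing A m, ∃ c ∈ locRing A' (S36TLS_m' A' A hA'A m),
      w ^ q - c ∈ S36TOR_nu V3) := by
  have hXA := S36TX_adj_le A' z hA'A hzA
  have hAR : A ≤ locRing A m := le_locRing A m
  refine ⟨?_, ?_, ?_⟩
  · intro w hw
    obtain ⟨a, ha, h⟩ := S36TLS_loc A' A hA'A z hzA m heq H1 hR1
      (S36TLS_red1 A' z (hXA.trans (hAR.trans hR1)) hc1 hz1) w hw
    exact ⟨a, ha, by rwa [pow_one] at h⟩
  · intro w hw
    obtain ⟨a, ha, h⟩ := S36TLS_loc A' A hA'A z hzA m heq H2 hR2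
      (S36TLS_red1 A' z (hXA.trans (hAR.trans hR2)) hc2 hz2) w hw
    exact ⟨a, ha, by rwa [pow_one] at h⟩
  · exact S36TLS_loc A' A hA'A z hzA m heq H3 hR3
      (S36TLS_redq A' z H3 (hA'A.trans (hAR.trans hR3)) (hR3 (hAR hzA)) hq hqV hc3 hz3)

/-- the trace of a local ring: non-units of `locRing A' (m ∩ A')` are non-units of
`locRing A m` (`hlocal` of `S36TPT_rel`). -/
theorem S36TLS_hlocal :
    ∀ x ∈ locRing A' (S36TLS_m' A' A hA'A m), x ∈ S36TOR_nu (locRing A' (S36TLS_m' A' A hA'A m)) →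
      x ∈ S36TOR_nu (locRing A m) := by
  rintro x ⟨a, c, hc, hac⟩ hx
  have hxR : x ∈ locRing A m :=
    ⟨Subring.inclusion hA'A a, Subring.inclusion hA'A c, hc, hac⟩
  refine ⟨hxR, ?_⟩
  rcases hx.2 with h | h
  · exact Or.inl h
  · right
    intro hinv
    apply h
    -- `a ∉ m'`, otherwise `x` is in the maximal ideal of `locRing A m`
    have ham : a ∉ S36TLS_m' A' A hA'A m := by
      intro ha
      have hmem : (⟨x, hxR⟩ : locRing A m) ∈ IsLocalRing.maximalIdeal (locRing A m) := by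
        rw [mem_maximalIdeal_iff]
        exact ⟨Subring.inclusion hA'A a, Subring.inclusion hA'A c, ha, hc, hac⟩
      have hx0 : x ≠ 0 := by
        rintro rfl
        apply h
        rw [inv_zero]
        exact Subring.zero_mem _
      have hu : IsUnit (⟨x, hxR⟩ : locRing A m) := by
        refine ⟨⟨⟨x, hxR⟩, ⟨x⁻¹, hinv⟩, Subtype.ext ?_, Subtype.ext ?_⟩, rfl⟩
        · exact mul_inv_cancel₀ hx0
        · exact inv_mul_cancel₀ hx0
      exact (IsLocalRing.mem_maximalIdeal _).1 hmem hu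
    exact inv_mem_locRing_of_notMem A' _ ham hc hac

end Main

section Point

variable {π : L} {F1' F1 : Subfield L} {V1 V2 V3 : Subring L}
  (A' A : Subring L) (hA'A : A' ≤ A) (z : L) (hzA : z ∈ A) (m : Ideal A) [hm : m.IsPrime]

theorem S36TLS_locRing_le :
    locRing A' (S36TLS_m' A' A hA'A m) ≤ locRing A m := by
  rintro x ⟨a, c, hc, hac⟩
  exact ⟨Subring.inclusion hA'A a, Subring.inclusion hA'A c, hc, hac⟩

theorem S36TLS_locRing_mem_F (hA'F : ∀ x ∈ A', x ∈ F1') :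
    ∀ x ∈ locRing A' (S36TLS_m' A' A hA'A m), x ∈ F1' := by
  rintro x ⟨a, c, hc, hac⟩
  have hc0 : (c : L) ≠ 0 := coe_ne_zero_of_notMem A' _ hc
  have : x = (a : L) * ((c : L))⁻¹ := by
    rw [← hac, mul_assoc, mul_inv_cancel₀ hc0, mul_one]
  rw [this]
  exact F1'.mul_mem (hA'F _ a.2) (F1'.inv_mem (hA'F _ c.2))

/-- **ALL the point hypotheses of `S36TPT_rel` at a triple point**, for
`R := locRing A m`, `R' := locRing A' (m ∩ A')`, from helper17's generation statement, the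
uniqueness of the prime of `A'[z]` over `m ∩ A'` (`S36TX_prime_unique`), the integrality of
`z`, the integral closedness of the chart `A'` in `F1'`, and the three congruences of `z`. -/
theorem S36TLS_point (hF : F1' ≤ F1)
    (heq : locRing A m = locRing (S36TX_adj A' z)
      (S36TX_m0 A' A z (S36TX_adj_le A' z hA'A hzA) m))
    (hz : IsIntegral A' z)
    (huniq : ∀ n : Ideal (S36TX_adj A' z), n.IsPrime →
      n.comap (S36TX_ι A' z) =
        (S36TX_m0 A' A z (S36TX_adj_le A' z hA'A hzA) m).comap (S36TX_ι A' z) →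
      n = S36TX_m0 A' A z (S36TX_adj_le A' z hA'A hzA) m)
    (hicA : ∀ x ∈ F1', IsIntegral ↥A' x → x ∈ A') (hA'F : ∀ x ∈ A', x ∈ F1')
    (H1 : S34C2_Val π F1 V1) (H2 : S34C2_Val π F1 V2) (H3 : S34C2_Val π F1 V3)
    (hR1 : locRing A m ≤ V1) (hR2 : locRing A m ≤ V2) (hR3 : locRing A m ≤ V3)
    {q : ℕ} (hq : q.Prime) (hqV : (q : L) ∈ S36TOR_nu V3)
    {c1 c2 c3 : L} (hc1 : c1 ∈ A') (hc2 : c2 ∈ A') (hc3 : c3 ∈ A')
    (hz1 : z - c1 ∈ S36TOR_nu V1) (hz2 : z - c2 ∈ S36TOR_nu V2)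
    (hz3 : z ^ q - c3 ∈ S36TOR_nu V3) :
    (∀ x ∈ locRing A' (S36TLS_m' A' A hA'A m),
      x ∈ S36TOR_nu (locRing A' (S36TLS_m' A' A hA'A m)) → x ∈ S36TOR_nu (locRing A m)) ∧
    (letI := S34KEY_alg hF
      ∀ (u : L) (hu : u ∈ F1), u ∈ locRing A m → u⁻¹ ∈ locRing A m →
        ((Algebra.norm ↥F1' (⟨u, hu⟩ : ↥F1) : ↥F1') : L) ∈
          locRing A' (S36TLS_m' A' A hA'A m)) ∧
    (∀ x ∈ F1', ∀ n : ℕ, 0 < n → x ^ n ∈ locRing A' (S36TLS_m' A' A hA'A m) →
      x ∈ locRing A' (S36TLS_m' A' A hA'A m)) ∧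
    (∀ w ∈ locRing A m, ∃ a ∈ locRing A' (S36TLS_m' A' A hA'A m), w - a ∈ S36TOR_nu V1) ∧
    (∀ w ∈ locRing A m, ∃ a ∈ locRing A' (S36TLS_m' A' A hA'A m), w - a ∈ S36TOR_nu V2) ∧
    (∀ w ∈ locRing A m, ∃ c ∈ locRing A' (S36TLS_m' A' A hA'A m),
      w ^ q - c ∈ S36TOR_nu V3) := by
  obtain ⟨h1, h2, h3⟩ := S36TPT_of_integral hF (S36TLS_locRing_le A' A hA'A m)
    (S36TLS_locRing_mem_F A' A hA'A m hA'F)
    (S36TLS_integ A' A hA'A z hzA m heq hz huniq)
    (S36TLS_hic A' (S36TLS_m' A' A hA'A m) hicA hA'F)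
  obtain ⟨l1, l2, l3⟩ := S36TLS_main A' A hA'A z hzA m heq H1 H2 H3 hR1 hR2 hR3 hq hqV
    hc1 hc2 hc3 hz1 hz2 hz3
  exact ⟨h1, h2, h3, l1, l2, l3⟩

end Point

end Fermat.Agent.S36_helper6_TORLS
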