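import Mathlib
import Fermat.Agent.S36_helper6_TORIC
import Fermat.Agent.S36_helper6_TORPT
import Fermat.Agent.S36_helper6_TORLS
import Fermat.Agent.S36_helper17_TRIPLEX
import Fermat.Agent.S36_helper9_ONE
import Fermat.Agent.S36_helper9_DICH
import Fermat.Agent.S36_helper3_ROOTS

/-!
# S36, GEO36: TORK = the CONFIG of `S36TPT_rel` / `S36TPT_rel_beta` at a crossing (helper6)

Abstract layer (Subring-`L` vocabulary).  `A' ≤ A` the charts of level `q M'` and `q² M'`,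
`z ∈ A`, `m` a maximal ideal of `A` which is a crossing (`S36DI_Cross V_∞ V_0 A' A m`),
`R := locRing A m`, `R' := locRing A' (m ∩ A')`.

* `S36TK_huniq`  : the uniqueness of the prime of `A'[z]` over `m ∩ A'` from the Kronecker
  relation `Φ(y, z) = 0 = Φ(y, x)` (= the hypothesis `huniq` of `S36TLS_point`);
* `S36TK_low_le` : `R' ≤ V'` for the valuation ring `V'` of the lower level below a branch `V`
  through the crossing (= `hR'a`, `hR'b` of `S36TPT_rel`);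
* `S36TK_pt`     : **all the point hypotheses of `S36TPT_rel`** at a crossing, packaged as
  helper3's `S36XB_PtData`;
* `S36TK_mirror_max`, `S36TK_mirror_pi`, `S36TK_mirror_cross`, `S36TK_w_loc`, `S36TK_w_loc'` :
  the mirror point `σ⁻¹(m)` (`σ = w|A`): it is a crossing over `π`, and `w` exchanges the two
  local rings (= `hwR`, `hwRm` of `S36TPT_rel_beta`);
* `S36TK_gen`    : the generation statement `locRing A m = locRing A'[z] (m ∩ A'[z])`, the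
  uniqueness and the triple point datum from the hypotheses of helper17's `S36TXK_abs`.
-/

set_option autoImplicit false
set_option linter.style.haveILetI false
set_option linter.unusedSectionVars false
set_option linter.unusedVariables false

namespace Fermat.Agent.S36_helper6_TORK

open Fermat.Agent.S18_helper3_LOCRING Fermat.Agent.S34_helper27_C2Defs
  Fermat.Agent.S34_helper13_KEY
  Fermat.Agent.S36_helper6_TORIC Fermat.Agent.S36_helper17_TRIPLEX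
  Fermat.Agent.S36_helper17_TRIPLE Fermat.Agent.S36_helper18_THICK
  Fermat.Agent.S36_helper6_TORPT Fermat.Agent.S36_helper6_TORLS
  Fermat.Agent.S36_helper9_ONE Fermat.Agent.S36_helper9_DICH
  Fermat.Agent.S36_helper3_ROOTS

variable {L : Type*} [Field L]

section Uniq

variable (q : ℕ) [hq : Fact q.Prime] (A' A : Subring L) (hA'A : A' ≤ A) (z : L) (hzA : z ∈ A)
  (m : Ideal A) [hm : m.IsPrime]

/-- **the uniqueness of the prime of `A'[z]` over `m ∩ A'`** from the Kronecker relation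
(the hypotheses are hypotheses of helper17's `S36TX_main`). -/
theorem S36TK_huniq (π w x y : A') (hqπ : (q : A') = π * w)
    (hπm : Subring.inclusion hA'A π ∈ m)
    (hS1m : Subring.inclusion hA'A (x - y ^ q) ∈ m)
    (hT1m : Subring.inclusion hA'A (x ^ q - y) ∈ m)
    (G : MvPolynomial (Fin 2) ℤ)
    (hyz : S36TH_ev ![(y : L), z] (S36TH_Phi q G) = 0)
    (hyx : S36TH_ev ![(y : L), (x : L)] (S36TH_Phi q G) = 0)
    (hWne : z - (x : L) ≠ 0) :
    ∀ n : Ideal (S36TX_adj A' z), n.IsPrime →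
      n.comap (S36TX_ι A' z) =
        (S36TX_m0 A' A z (S36TX_adj_le A' z hA'A hzA) m).comap (S36TX_ι A' z) →
      n = S36TX_m0 A' A z (S36TX_adj_le A' z hA'A hzA) m := by
  intro n hn hcomap
  have hsub : ∀ (a b : S36TX_adj A' z) (P : MvPolynomial (Fin 2) ℤ),
      ((S36TH_ev ![a, b] P : S36TX_adj A' z) : L) = S36TH_ev ![(a : L), (b : L)] P := by
    intro a b P
    have := S36TH_map_ev (S36TX_adj A' z).subtype ![a, b] P
    rw [S36TH_vec] at this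
    exact this
  have hyz' : S36TH_ev ![S36TX_ι A' z y, S36TX_Z A' z] (S36TH_Phi q G) = 0 :=
    Subtype.ext (by rw [hsub]; exact hyz)
  have hyx' : S36TH_ev ![S36TX_ι A' z y, S36TX_ι A' z x] (S36TH_Phi q G) = 0 :=
    Subtype.ext (by rw [hsub]; exact hyx)
  have hzx' : ∀ r : S36TX_adj A' z, (S36TX_Z A' z - S36TX_ι A' z x) * r = 0 → r = 0 := by
    intro r hr
    have h1 : (z - (x : L)) * (r : L) = 0 := congrArg Subtype.val hr
    rcases mul_eq_zero.1 h1 with h | h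
    · exact absurd h hWne
    · exact Subtype.ext h
  obtain ⟨G', hΨ0⟩ := S36TX_hΨ q G (S36TX_ι A' z x) (S36TX_ι A' z y) (S36TX_Z A' z) hzx'
    hyz' hyx'
  have hΨ : S36TX_ι A' z (x ^ q - y) + (S36TX_Z A' z - S36TX_ι A' z (y ^ q)) *
      S36TP_delta q (S36TX_ι A' z x) (S36TX_Z A' z) + (q : S36TX_adj A' z) * G' = 0 := by
    rw [map_sub, map_pow, map_pow]
    exact hΨ0
  haveI := hn
  exact S36TX_prime_unique q A' z (S36TX_m0 A' A z (S36TX_adj_le A' z hA'A hzA) m) π w x y hqπ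
    hπm hS1m hT1m G' hΨ n hcomap

/-- **generation, uniqueness and the triple point datum at a crossing**, from the hypotheses
of helper17's `S36TXK_abs` verbatim (crossing in the form `S36DI_Cross`, THICK in the shapes of
`S36THW_node` / `S36THW_gen` at the ideal `m ∩ A'`). -/
theorem S36TK_gen {π : L} {F1 : Subfield L} {Voo Vmid V0 : Subring L}
    [IsNoetherianRing A'] (hmax : m.IsMaximal)
    (Hoo : S34C2_Val π F1 Voo) (Hmid : S34C2_Val π F1 Vmid) (H0 : S34C2_Val π F1 V0)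
    (hAoo : A ≤ Voo) (hAmid : A ≤ Vmid) (hA0 : A ≤ V0)
    (hint : ∀ a ∈ A, IsIntegral A' a)
    (hfrac : ∀ a ∈ A, ∃ b ∈ S36TX_adj A' z, ∃ d ∈ S36TX_adj A' z, d ≠ 0 ∧ a * d = b)
    (hπA' : π ∈ A') (hπ0 : π ≠ 0) (w : L) (hw : w ∈ A') (hqw : (q : L) = π * w)
    (x y : L) (hx : x ∈ A') (hy : y ∈ A')
    (hcross : S36DI_Cross Voo V0 A' A m)
    (hdown : ∀ a ∈ A', a⁻¹ ∈ Voo → a⁻¹ ∈ Vmid)
    (hnode : ∃ u : A', u ∉ m.comap (Subring.inclusion hA'A) ∧
      (x ^ q - y) * (x - y ^ q) = π * (u : L))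
    (hgen : ∀ a : A', a ∈ m.comap (Subring.inclusion hA'A) →
      ∃ s : A', s ∉ m.comap (Subring.inclusion hA'A) ∧
        ∃ β γ : A', (s : L) * (a : L) = (β : L) * (x ^ q - y) + (γ : L) * (x - y ^ q))
    (G : MvPolynomial (Fin 2) ℤ)
    (hyz : S36TH_ev ![y, z] (S36TH_Phi q G) = 0)
    (hyx : S36TH_ev ![y, x] (S36TH_Phi q G) = 0)
    (hT2_oo : (z - y ^ q)⁻¹ ∉ Voo) (hS1_oo : (x - y ^ q)⁻¹ ∈ Voo)
    (hS1_0 : (x - y ^ q)⁻¹ ∉ V0) (hT2_0 : (z - y ^ q)⁻¹ ∈ V0)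
    (hW_mid : (z - x)⁻¹ ∉ Vmid) :
    S36TX_Triple q π (x - y ^ q) (z - y ^ q) Voo Vmid V0 (locRing A m) ∧
      locRing A m = locRing (S36TX_adj A' z)
        (S36TX_m0 A' A z (S36TX_adj_le A' z hA'A hzA) m) ∧
      ∀ n : Ideal (S36TX_adj A' z), n.IsPrime →
        n.comap (S36TX_ι A' z) =
          (S36TX_m0 A' A z (S36TX_adj_le A' z hA'A hzA) m).comap (S36TX_ι A' z) →
        n = S36TX_m0 A' A z (S36TX_adj_le A' z hA'A hzA) m := by
  obtain ⟨hOnoo, hOn0⟩ := (S36DI_cross_iff hA'A m).1 hcross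
  have hOnmid : ∀ a : A', ((a : L))⁻¹ ∉ Vmid → Subring.inclusion hA'A a ∈ m :=
    fun a ha => hOnoo a fun h => ha (hdown a a.2 h)
  have hS1A' : x - y ^ q ∈ A' := Subring.sub_mem _ hx (Subring.pow_mem _ hy q)
  have hS1_mid : (x - y ^ q)⁻¹ ∈ Vmid := hdown _ hS1A' hS1_oo
  have hπm : Subring.inclusion hA'A ⟨π, hπA'⟩ ∈ m := hOnoo _ Hoo.π_nonunit
  have hS1m : Subring.inclusion hA'A (⟨x, hx⟩ - ⟨y, hy⟩ ^ q) ∈ m := by
    refine hOn0 _ ?_
    rw [AddSubgroupClass.coe_sub, SubmonoidClass.coe_pow]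
    exact hS1_0
  obtain ⟨u, hum, hnode'⟩ := hnode
  have hT1m : Subring.inclusion hA'A (⟨x, hx⟩ ^ q - ⟨y, hy⟩) ∈ m := by
    by_cases h0 : x ^ q - y = 0
    · have : (⟨x, hx⟩ ^ q - ⟨y, hy⟩ : A') = 0 := by
        apply Subtype.ext
        rw [AddSubgroupClass.coe_sub, SubmonoidClass.coe_pow, ZeroMemClass.coe_zero]
        exact h0
      rw [this, map_zero]
      exact m.zero_mem
    · refine hOnoo _ fun hinv => Hoo.π_nonunit ?_
      rw [AddSubgroupClass.coe_sub, SubmonoidClass.coe_pow] at hinv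
      have hS10 : x - y ^ q ≠ 0 := by
        rintro h
        rw [h, inv_zero] at hS1_0
        exact hS1_0 V0.zero_mem
      have e : π⁻¹ = (u : L) * (x - y ^ q)⁻¹ * (x ^ q - y)⁻¹ := by
        have hu0 : π * (u : L) ≠ 0 := by
          rw [← hnode']; exact mul_ne_zero h0 hS10
        have hu0' : (u : L) ≠ 0 := right_ne_zero_of_mul hu0
        field_simp
        linear_combination hnode'
      rw [e]
      exact Subring.mul_mem _ (Subring.mul_mem _ (hAoo (hA'A u.2)) hS1_oo) hinv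
  have hgen' : ∀ a : A', Subring.inclusion hA'A a ∈ m →
      ∃ s α β γ : A', Subring.inclusion hA'A s ∉ m ∧
        s * a = α * ⟨π, hπA'⟩ + β * (⟨x, hx⟩ ^ q - ⟨y, hy⟩) + γ * (⟨x, hx⟩ - ⟨y, hy⟩ ^ q) := by
    intro a ha
    obtain ⟨s, hs, β, γ, h⟩ := hgen a ha
    refine ⟨s, 0, β, γ, hs, Subtype.ext ?_⟩
    push_cast
    rw [h]
    ring
  have hnode'' : ∃ u c : A', Subring.inclusion hA'A u ∉ m ∧ Subring.inclusion hA'A c ∉ m ∧
      c * ((⟨x, hx⟩ ^ q - ⟨y, hy⟩) * (⟨x, hx⟩ - ⟨y, hy⟩ ^ q)) = ⟨π, hπA'⟩ * u := by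
    refine ⟨u, 1, hum, ?_, Subtype.ext ?_⟩
    · rw [map_one]
      exact fun h1 => hm.ne_top ((Ideal.eq_top_iff_one m).2 h1)
    · push_cast
      rw [one_mul]
      exact hnode'
  have hqπ : ((q : ℕ) : A') = ⟨π, hπA'⟩ * ⟨w, hw⟩ :=
    Subtype.ext (by push_cast; exact hqw)
  have hWne : z - x ≠ 0 := by
    rintro h
    rw [h, inv_zero] at hW_mid
    exact hW_mid Vmid.zero_mem
  obtain ⟨T, heq⟩ := S36TX_main q A' A hA'A z hzA m hmax Hoo Hmid H0 hAoo hAmid hA0 hint hfrac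
    ⟨π, hπA'⟩ ⟨w, hw⟩ ⟨x, hx⟩ ⟨y, hy⟩ hqπ hπm hS1m hT1m hgen' hnode'' G hyz hyx hOnoo hOnmid
    hOn0 hS1_0 hT2_0 hT2_oo hS1_oo hW_mid hS1_mid
  exact ⟨T, heq, S36TK_huniq q A' A hA'A z hzA m ⟨π, hπA'⟩ ⟨w, hw⟩ ⟨x, hx⟩ ⟨y, hy⟩ hqπ hπm
    hS1m hT1m G hyz hyx hWne⟩

end Uniq

section Low

variable {π : L} {Va V : Subring L}
  (A' A : Subring L) (hA'A : A' ≤ A) (m : Ideal A) [hm : m.IsPrime]

/-- **`R' ≤ V'`**: the local ring of the lower chart at the trace of a crossing lies in the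
valuation ring `V'` (uniformiser `π`) of the lower level below a branch `V` through the
crossing. -/
theorem S36TK_low_le (hunif : ∀ x ∈ Va, x⁻¹ ∉ Va → ∃ v ∈ Va, x = π * v)
    (hVaV : Va ≤ V) (hπV : π⁻¹ ∉ V) (hA'Va : A' ≤ Va)
    (hcross : ∀ a : A, (a : L) ∈ A' → ((a : L))⁻¹ ∉ V → a ∈ m) :
    locRing A' (S36TLS_m' A' A hA'A m) ≤ Va := by
  rintro y ⟨a, c, hc, hy⟩
  have hcm : Subring.inclusion hA'A c ∉ m := hc
  have hc0 : (c : L) ≠ 0 := coe_ne_zero_of_notMem A' _ hc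
  have hcV : ((c : L))⁻¹ ∈ V := by
    by_contra h
    exact hcm (hcross (Subring.inclusion hA'A c) c.2 h)
  have hcVa : ((c : L))⁻¹ ∈ Va := by
    by_contra h
    obtain ⟨v, hv, hcv⟩ := hunif c (hA'Va c.2) h
    apply hπV
    have hv0 : v ≠ 0 := by
      rintro rfl
      rw [mul_zero] at hcv
      exact hc0 hcv
    have : π⁻¹ = v * ((c : L))⁻¹ := by
      rw [hcv, mul_inv, mul_comm π⁻¹, ← mul_assoc, mul_inv_cancel₀ hv0, one_mul]
    rw [this]
    exact V.mul_mem (hVaV hv) hcV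
  have : y = a * ((c : L))⁻¹ := by
    rw [← hy, mul_assoc, mul_inv_cancel₀ hc0, mul_one]
  rw [this]
  exact Va.mul_mem (hA'Va a.2) hcVa

end Low

section Pt

variable {π : L} {F1' F1 : Subfield L}

variable {O Va Vb V1 V2 V3 : Subring L}
  (A' A : Subring L) (hA'A : A' ≤ A) (z : L) (hzA : z ∈ A) (m : Ideal A) [hm : m.IsPrime]

/-- **all the point hypotheses of `S36TPT_rel` at a crossing**, for `R := locRing A m`,
`R' := locRing A' (m ∩ A')`. -/
theorem S36TK_pt (hF : F1' ≤ F1)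
    (hunifa : ∀ x ∈ Va, x⁻¹ ∉ Va → ∃ v ∈ Va, x = π * v)
    (hunifb : ∀ x ∈ Vb, x⁻¹ ∉ Vb → ∃ v ∈ Vb, x = π * v)
    (H1 : S34C2_Val π F1 V1) (H2 : S34C2_Val π F1 V2) (H3 : S34C2_Val π F1 V3)
    (hVa1 : Va ≤ V1) (hVb3 : Vb ≤ V3)
    (hA'Va : A' ≤ Va) (hA'Vb : A' ≤ Vb) (hOA' : O ≤ A')
    (hicA : ∀ x ∈ F1', IsIntegral ↥A' x → x ∈ A') (hA'F : ∀ x ∈ A', x ∈ F1')
    (hz : IsIntegral A' z)
    {q : ℕ} (hq : q.Prime) (hqV : (q : L) ∈ S36TOR_nu V3)
    {c1 c2 c3 : L} (hc1 : c1 ∈ A') (hc2 : c2 ∈ A') (hc3 : c3 ∈ A')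
    (hz1 : z - c1 ∈ S36TOR_nu V1) (hz2 : z - c2 ∈ S36TOR_nu V2)
    (hz3 : z ^ q - c3 ∈ S36TOR_nu V3)
    (hcross : S36DI_Cross V1 V3 A' A m)
    (hR1 : locRing A m ≤ V1) (hR2 : locRing A m ≤ V2) (hR3 : locRing A m ≤ V3)
    (heq : locRing A m = locRing (S36TX_adj A' z)
      (S36TX_m0 A' A z (S36TX_adj_le A' z hA'A hzA) m))
    (huniq : ∀ n : Ideal (S36TX_adj A' z), n.IsPrime →
      n.comap (S36TX_ι A' z) =
        (S36TX_m0 A' A z (S36TX_adj_le A' z hA'A hzA) m).comap (S36TX_ι A' z) →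
      n = S36TX_m0 A' A z (S36TX_adj_le A' z hA'A hzA) m) :
    S36XB_PtData hF O Va Vb V1 V2 V3 q (locRing A' (S36TLS_m' A' A hA'A m)) (locRing A m) := by
  obtain ⟨h1, h2, h3, l1, l2, l3⟩ := S36TLS_point A' A hA'A z hzA m hF heq hz huniq hicA hA'F
    H1 H2 H3 hR1 hR2 hR3 hq hqV hc1 hc2 hc3 hz1 hz2 hz3
  exact
    { loc := isLocalRing_locRing A m
      O_le := fun x hx => le_locRing A' _ (hOA' hx)
      le := S36TLS_locRing_le A' A hA'A m
      le_a := S36TK_low_le A' A hA'A m hunifa hVa1 H1.π_nonunit hA'Va hcross.1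
      le_b := S36TK_low_le A' A hA'A m hunifb hVb3 H3.π_nonunit hA'Vb hcross.2
      le1 := hR1
      le2 := hR2
      le3 := hR3
      hlocal := h1
      hnorm := h2
      hroot' := h3
      hLS1 := l1
      hLS2 := l2
      hLS3 := l3 }

end Pt

section Mirror

variable {F1 : Subfield L} {Voo V0 : Subring L} {w : L → L}
  (A' A : Subring L) (σ : A ≃+* A) (m : Ideal A)

/-- the mirror `σ⁻¹(m)` of a maximal ideal is maximal -/
theorem S36TK_mirror_max (hm : m.IsMaximal) : (m.comap (σ : A →+* A)).IsMaximal :=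
  Ideal.comap_isMaximal_of_equiv σ

/-- `π ∈ σ⁻¹(m)` -/
theorem S36TK_mirror_pi {π : L} (hπ : π ∈ A) (hσπ : σ ⟨π, hπ⟩ = ⟨π, hπ⟩)
    (hπm : (⟨π, hπ⟩ : A) ∈ m) : (⟨π, hπ⟩ : A) ∈ m.comap (σ : A →+* A) := by
  rw [Ideal.mem_comap]
  show σ ⟨π, hπ⟩ ∈ m
  rw [hσπ]
  exact hπm

/-- **the mirror of a point on the branches of `V_∞` and `V_0` is a crossing** -/
theorem S36TK_mirror_cross
    (hσoo : ∀ a : A, ((a : L))⁻¹ ∉ Voo → (((σ a : A) : L))⁻¹ ∉ V0)
    (hσ0 : ∀ a : A, ((a : L))⁻¹ ∉ V0 → (((σ a : A) : L))⁻¹ ∉ Voo)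
    (hoo : S36ONE_On Voo A m) (h0 : S36ONE_On V0 A m) :
    S36DI_Cross Voo V0 A' A (m.comap (σ : A →+* A)) :=
  ⟨fun a _ ha => h0 (σ a) (hσoo a ha), fun a _ ha => hoo (σ a) (hσ0 a ha)⟩

/-- a point whose local ring lies in `V` is on the branch of `V` -/
theorem S36TK_on_of_le {V : Subring L} [hm : m.IsPrime] (hRV : locRing A m ≤ V) :
    S36ONE_On V A m := by
  intro a ha
  by_contra ham
  exact ha (hRV (inv_mem_locRing A m ham))

variable [hm : m.IsPrime]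

/-- **`w` maps the local ring at `m` into the local ring at the mirror `σ⁻¹(m)`** -/
theorem S36TK_w_loc (hw : S36TPT_Inv w F1) (hAF : ∀ x ∈ A, x ∈ F1)
    (hσ : ∀ a : A, ((σ a : A) : L) = w a)
    (hmσ : (m.comap (σ : A →+* A)).IsPrime) :
    ∀ x ∈ locRing A m, w x ∈ @locRing _ _ A (m.comap (σ : A →+* A)) hmσ := by
  rintro x ⟨a, c, hc, hx⟩
  have hc0 : (c : L) ≠ 0 := coe_ne_zero_of_notMem A m hc
  have hxe : x = (a : L) / (c : L) := by
    rw [← hx, mul_div_assoc, div_self hc0, mul_one]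
  have hσσ : σ (σ c) = c := by
    apply Subtype.ext
    rw [hσ, hσ]
    exact hw.inv _ (hAF _ c.2)
  refine ⟨σ a, σ c, ?_, ?_⟩
  · intro h
    rw [Ideal.mem_comap] at h
    have h' : σ (σ c) ∈ m := h
    rw [hσσ] at h'
    exact hc h'
  · rw [hxe, hw.div (hAF _ a.2) (hAF _ c.2), hσ, hσ]
    have hwc0 : w (c : L) ≠ 0 := hw.ne_zero (hAF _ c.2) hc0
    rw [div_mul_cancel₀ _ hwc0]

/-- **`w` maps the local ring at the mirror `σ⁻¹(m)` into the local ring at `m`** -/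
theorem S36TK_w_loc' (hw : S36TPT_Inv w F1) (hAF : ∀ x ∈ A, x ∈ F1)
    (hσ : ∀ a : A, ((σ a : A) : L) = w a)
    (hmσ : (m.comap (σ : A →+* A)).IsPrime) :
    ∀ x ∈ @locRing _ _ A (m.comap (σ : A →+* A)) hmσ, w x ∈ locRing A m := by
  rintro x ⟨a, c, hc, hx⟩
  have hc0 : (c : L) ≠ 0 := @coe_ne_zero_of_notMem _ _ A _ hmσ c hc
  have hxe : x = (a : L) / (c : L) := by
    rw [← hx, mul_div_assoc, div_self hc0, mul_one]
  refine ⟨σ a, σ c, ?_, ?_⟩
  · intro h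
    exact hc (Ideal.mem_comap.2 h)
  · rw [hxe, hw.div (hAF _ a.2) (hAF _ c.2), hσ, hσ]
    have hwc0 : w (c : L) ≠ 0 := hw.ne_zero (hAF _ c.2) hc0
    rw [div_mul_cancel₀ _ hwc0]

end Mirror

end Fermat.Agent.S36_helper6_TORK
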