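import Mathlib
import Fermat.Agent.S36_helper6_TORK
import Fermat.Agent.S36_helper17_TRIPLEK
import Fermat.Agent.S36_helper2_HTXIN
import Fermat.Agent.S36_helper9_PTS
import Fermat.Agent.S36_helper9_DICHK
import Fermat.Agent.S36_helper13_NORMK
import Fermat.Agent.S36_helper2_SETUP3
import Fermat.Agent.S36_helper3_ROOTS

/-!
# S36, GEO36: TORKK = the point data of `S36TPT_rel` / `S36TPT_rel_beta` at the carriers,
for helper9's canonical family (helper6)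

Level `M' * q * q`, `A0 = S18K_A0 A K1 (M' * q * q)`, `A' = S18K_A0 A K1 (M' * q)`,
`V1 = S18K_V A K1 (M' * q * q)`, `V2 = S36VK_Vmid`, `V3 = S36VK_V0`,
`Va = S18K_V A K1 (M' * q)`, `Vb = S34V0K_V ..`, `w = W_(q²)`, Hauptmodul coordinates
`x = S36AUX_hK K1 D.u`, `y = x(Q^q)`, `z = x(Q^(q q))`; family `R = S36PTS_R π V1 V3 A' A0`
(the local rings at the crossings of the finite chart).

* `S36TKK_Thick` : the ONE open input, [THICK] at every crossing, in the shapes `hnode` / `hgen`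
  of helper17's `S36TXK_main` verbatim;
* `S36TKK_gen`   : the triple point datum, the generation `locRing A0 m = locRing A'[z] ..` and
  the uniqueness of the prime, at every crossing;
* `S36TKK_pt`    : helper3's `S36XB_PtData` at every crossing, `R' = locRing A' (m ∩ A')`;
* `S36TKK_mirror`: the mirror `σ⁻¹(m)` of a crossing is a crossing over `π`;
* `S36TKK_ptα`, `S36TKK_ptβ` : **the hypotheses `hptα`, `hptβ` of helper3's `S36XB_roots_abs`
  for the canonical family**.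
-/

set_option autoImplicit false
set_option linter.unusedSectionVars false
set_option linter.unusedVariables false
set_option linter.style.haveILetI false
set_option synthInstance.maxHeartbeats 400000
set_option maxHeartbeats 1600000

open HahnSeries ModularCurve Polynomial
open Fermat.Agent.S18_helper13_GAUSS Fermat.Agent.S18_helper9_CDefs
  Fermat.Agent.S18_helper9_CBasic
  Fermat.Agent.S18_helper3_LOCRING Fermat.Agent.S18_helper25_COREDefs
  Fermat.Agent.S34_helper12_CDefs Fermat.Agent.S34_helper27_C2Defs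
  Fermat.Agent.S34_helper27_C2ADAPT
  Fermat.Agent.S34_helper27_V3K Fermat.Agent.S34_helper20_V0K
  Fermat.Agent.S34_helper20_WQ Fermat.Agent.S34_helper20_V0
  Fermat.Agent.S34_helper13_KEY Fermat.Agent.S34_helper13_KEYK
  Fermat.Agent.S34_helper14_N1K
  Fermat.Agent.S36_helper8_AUXDefs Fermat.Agent.S36_helper18_THICK
  Fermat.Agent.S36_helper5_VKDefs Fermat.Agent.S36_helper5_VMIDK
  Fermat.Agent.S36_helper23_UNITSK Fermat.Agent.S36_helper23_V0QB
  Fermat.Agent.S36_helper23_V0QX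
  Fermat.Agent.S36_helper20_WQQ
  Fermat.Agent.S36_helper14_N1K
  Fermat.Agent.S36_helper2_C3 Fermat.Agent.S36_helper2_SETUP3
  Fermat.Agent.S36_helper2_HTXIN
  Fermat.Agent.S36_helper4_XADefs
  Fermat.Agent.S36_helper9_ONE Fermat.Agent.S36_helper9_DICH
  Fermat.Agent.S36_helper9_PTS Fermat.Agent.S36_helper9_DICHK
  Fermat.Agent.S36_helper13_REDK Fermat.Agent.S36_helper13_NORMK
  Fermat.Agent.S36_helper17_TRIPLEX Fermat.Agent.S36_helper17_TRIPLEY
  Fermat.Agent.S36_helper17_TRIPLEK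
  Fermat.Agent.S36_helper3_ROOTS
  Fermat.Agent.S36_helper6_TORIC Fermat.Agent.S36_helper6_TORPT
  Fermat.Agent.S36_helper6_TORLS Fermat.Agent.S36_helper6_TORK

noncomputable section

namespace Fermat.Agent.S36_helper6_TORKK

local notation "Qb" => AlgebraicClosure ℚ

section Main

variable (A : ValuationSubring Qb) (K1 : IntermediateField ℚ Qb)
  [IsDiscreteValuationRing (S18K_O1 A K1)] {r : ℕ} [NeZero r] (D : S36AUX_Data r)
  (q M' : ℕ) [NeZero M'] [NeZero q] [NeZero (M' * q)] [NeZero (M' * q * q)] [NeZero (q ^ 2)]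
  [NeZero (q * q)] (hq : q.Prime) (hqM : ¬ q ∣ M') (hr : r ∣ M')

/-- **[THICK] at every crossing** of the finite chart of level `M' * q * q`: the node relation
and the generation of the maximal ideal at the trace `m ∩ A'` on the chart of level `M' * q`
(the hypotheses `hnode`, `hgen` of helper17's `S36TXK_main`, verbatim, in the Hauptmodul
coordinate). -/
def S36TKK_Thick : Prop :=
  ∀ (hπ : S18K_π A K1 ∈ S18K_A0 A K1 (M' * q * q))
    (m : Ideal (S18K_A0 A K1 (M' * q * q))) (hm : m.IsMaximal),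
    (⟨S18K_π A K1, hπ⟩ : S18K_A0 A K1 (M' * q * q)) ∈ m →
    S36DI_Cross (S18K_V A K1 (M' * q * q)) (S36VK_V0 A K1 q M' hq hqM)
      (S18K_A0 A K1 (M' * q)) (S18K_A0 A K1 (M' * q * q)) m →
    (∃ u : S18K_A0 A K1 (M' * q),
      u ∉ m.comap (Subring.inclusion (S36TXK_le A K1 q M')) ∧
      ((S36AUX_hK K1 D.u) ^ q - qExpand K1 q (S36AUX_hK K1 D.u)) *
          (S36AUX_hK K1 D.u - (qExpand K1 q (S36AUX_hK K1 D.u)) ^ q) =
        S18K_π A K1 * (u : LaurentSeries K1)) ∧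
    (∀ a : S18K_A0 A K1 (M' * q),
      a ∈ m.comap (Subring.inclusion (S36TXK_le A K1 q M')) →
      ∃ s : S18K_A0 A K1 (M' * q), s ∉ m.comap (Subring.inclusion (S36TXK_le A K1 q M')) ∧
        ∃ β γ : S18K_A0 A K1 (M' * q),
          (s : LaurentSeries K1) * (a : LaurentSeries K1) =
            (β : LaurentSeries K1) *
                ((S36AUX_hK K1 D.u) ^ q - qExpand K1 q (S36AUX_hK K1 D.u)) +
              (γ : LaurentSeries K1) *
                (S36AUX_hK K1 D.u - (qExpand K1 q (S36AUX_hK K1 D.u)) ^ q))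

include hq hqM hr in
/-- `z ∉ F1(M' q)` -/
theorem S36TKK_hzF (hA : A.LiesOverPrime q)
    (hunr : Associated (S18K_D A K1).π ((q : ℕ) : S18K_O1 A K1)) :
    qExpand K1 (q * q) (S36AUX_hK K1 D.u) ∉ S18K_F1 K1 (M' * q) := by
  intro hz
  have hN1 : M' * q = q * M' := Nat.mul_comm M' q
  have hmid := (S36VK_main A K1 q M' hq hqM hA hunr).1
  obtain ⟨-, -, hWinv⟩ := S36UH_W_unit1 A K1 D q M' hq hqM hN1 hr hA
  have hWmid := (S36HTI_units A K1 D q M' hq hqM hr hA hunr).2.2.2.2.2.1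
  have hxF : S36AUX_hK K1 D.u ∈ S18K_F1 K1 (M' * q) :=
    (S36HTI_mem A K1 D q M' hq hqM hr).1.2
  apply hWmid
  apply hmid.2.1
  exact ⟨hWinv.1, (S18K_F1 K1 (M' * q)).inv_mem ((S18K_F1 K1 (M' * q)).sub_mem hz hxF)⟩

include hr in
/-- **the triple point datum, the generation and the uniqueness at a crossing.** -/
theorem S36TKK_gen (hA : A.LiesOverPrime q)
    (hunr : Associated (S18K_D A K1).π ((q : ℕ) : S18K_O1 A K1))
    (hTH : S36TKK_Thick A K1 D q M' hq hqM)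
    (m : Ideal (S18K_A0 A K1 (M' * q * q))) (hm : m.IsMaximal)
    (hcross : S36DI_Cross (S18K_V A K1 (M' * q * q)) (S36VK_V0 A K1 q M' hq hqM)
      (S18K_A0 A K1 (M' * q)) (S18K_A0 A K1 (M' * q * q)) m) :
    haveI := hm.isPrime
    S36TX_Triple q (S18K_π A K1)
        (S36AUX_hK K1 D.u - (qExpand K1 q (S36AUX_hK K1 D.u)) ^ q)
        (qExpand K1 (q * q) (S36AUX_hK K1 D.u) - (qExpand K1 q (S36AUX_hK K1 D.u)) ^ q)
        (S18K_V A K1 (M' * q * q)) (S36VK_Vmid A K1 q M') (S36VK_V0 A K1 q M' hq hqM)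
        (locRing (S18K_A0 A K1 (M' * q * q)) m) ∧
      locRing (S18K_A0 A K1 (M' * q * q)) m =
        locRing (S36TX_adj (S18K_A0 A K1 (M' * q)) (qExpand K1 (q * q) (S36AUX_hK K1 D.u)))
          (S36TX_m0 (S18K_A0 A K1 (M' * q)) (S18K_A0 A K1 (M' * q * q))
            (qExpand K1 (q * q) (S36AUX_hK K1 D.u))
            (S36TX_adj_le (S18K_A0 A K1 (M' * q)) (qExpand K1 (q * q) (S36AUX_hK K1 D.u))
              (S36TXK_le A K1 q M') (S36HTI_mem A K1 D q M' hq hqM hr).2.2) m) ∧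
      ∀ n : Ideal (S36TX_adj (S18K_A0 A K1 (M' * q))
          (qExpand K1 (q * q) (S36AUX_hK K1 D.u))), n.IsPrime →
        n.comap (S36TX_ι (S18K_A0 A K1 (M' * q)) (qExpand K1 (q * q) (S36AUX_hK K1 D.u))) =
          (S36TX_m0 (S18K_A0 A K1 (M' * q)) (S18K_A0 A K1 (M' * q * q))
            (qExpand K1 (q * q) (S36AUX_hK K1 D.u))
            (S36TX_adj_le (S18K_A0 A K1 (M' * q)) (qExpand K1 (q * q) (S36AUX_hK K1 D.u))
              (S36TXK_le A K1 q M') (S36HTI_mem A K1 D q M' hq hqM hr).2.2) m).comap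
            (S36TX_ι (S18K_A0 A K1 (M' * q)) (qExpand K1 (q * q) (S36AUX_hK K1 D.u))) →
        n = S36TX_m0 (S18K_A0 A K1 (M' * q)) (S18K_A0 A K1 (M' * q * q))
            (qExpand K1 (q * q) (S36AUX_hK K1 D.u))
            (S36TX_adj_le (S18K_A0 A K1 (M' * q)) (qExpand K1 (q * q) (S36AUX_hK K1 D.u))
              (S36TXK_le A K1 q M') (S36HTI_mem A K1 D q M' hq hqM hr).2.2) m := by
  haveI hmp : m.IsPrime := hm.isPrime
  haveI : Fact q.Prime := ⟨hq⟩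
  haveI hNoeth : IsNoetherianRing (S18K_A0 A K1 (M' * q)) := S36TXK_noeth A K1 q M' hq hqM hA
  obtain ⟨hmid, -, -, -, -, -, -, hkey, -⟩ := S36VK_main A K1 q M' hq hqM hA hunr
  obtain ⟨S, H1, H2, H3⟩ := S36S3_setupMid A K1 q M' hq hqM hA hmid hkey
  have S' := S36TXK_setup' A K1 q M' hq hqM hA
  have hF : S18K_F1 K1 (M' * q) ≤ S18K_F1 K1 (M' * q * q) := S34V3K_F1_mono K1 ⟨q, rfl⟩
  obtain ⟨hx, hy, hz⟩ := S36HTI_mem A K1 D q M' hq hqM hr
  have hzF := S36TKK_hzF A K1 D q M' hq hqM hr hA hunr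
  obtain ⟨G, hyz, hyx⟩ := S36HTI_kron K1 D q M' hq hqM hr
  obtain ⟨hT1_oo, hS1_0, hT2_0, hT2_oo, hS1_oo, hW_mid, hS1_mid⟩ :=
    S36HTI_units A K1 D q M' hq hqM hr hA hunr
  have hXoo : S18K_A0 A K1 (M' * q * q) ≤ S18K_V A K1 (M' * q * q) :=
    fun a ha => (S.chart0.le_V ha).1.1
  have hX2 : S18K_A0 A K1 (M' * q * q) ≤ S36VK_Vmid A K1 q M' :=
    fun a ha => (S.chart0.le_V ha).1.2
  have hX3 : S18K_A0 A K1 (M' * q * q) ≤ S36VK_V0 A K1 q M' hq hqM :=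
    fun a ha => (S.chart0.le_V ha).2
  have hint : ∀ a ∈ S18K_A0 A K1 (M' * q * q), IsIntegral (S18K_A0 A K1 (M' * q)) a :=
    fun a ha => S36TY_hint (S36TXK_adj_le A K1 q M' hq hqM hA) ha.1
  have hfr : ∀ y ∈ S18K_F1 K1 (M' * q), ∃ a ∈ S18K_A0 A K1 (M' * q),
      ∃ b ∈ S18K_A0 A K1 (M' * q), b ≠ 0 ∧ y * b = a := by
    intro y hy
    obtain ⟨a, b, hb0, hab⟩ := S36C3_frac S' S'.chart0 (Or.inl rfl) y hy
    refine ⟨a, a.2, b, b.2, fun h => hb0 ?_, hab⟩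
    apply Subtype.ext
    rw [ZeroMemClass.coe_zero]
    exact h
  have hfrac : ∀ a ∈ S18K_A0 A K1 (M' * q * q),
      ∃ b ∈ S36TX_adj (S18K_A0 A K1 (M' * q)) (qExpand K1 (q * q) (S36AUX_hK K1 D.u)),
        ∃ d ∈ S36TX_adj (S18K_A0 A K1 (M' * q)) (qExpand K1 (q * q) (S36AUX_hK K1 D.u)),
          d ≠ 0 ∧ a * d = b :=
    fun a ha => S36TY_hfrac hF hq
      (Fermat.Agent.S36_helper4_DEG.S36DG_hdeg K1 (M' * q) q hq (dvd_mul_left q M'))
      (S36TXK_hind K1 q M' hq) hz.2 hzF _ hfr ha.2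
  have hdown : ∀ a ∈ S18K_A0 A K1 (M' * q), a⁻¹ ∈ S18K_V A K1 (M' * q * q) →
      a⁻¹ ∈ S36VK_Vmid A K1 q M' :=
    fun a ha hinv => hmid.2.1 ⟨hinv.1, (S18K_F1 K1 (M' * q)).inv_mem ha.2⟩
  obtain ⟨w, hw, hqw⟩ := S36TXK_q_eq A K1 q M' hq hqM hA
  have hπA' := S36TXK_pi_mem A K1 q M' hq hqM hA
  have hπ : S18K_π A K1 ∈ S18K_A0 A K1 (M' * q * q) := S36TXK_le A K1 q M' hπA'
  have hπm : (⟨S18K_π A K1, hπ⟩ : S18K_A0 A K1 (M' * q * q)) ∈ m :=
    hcross.1 ⟨S18K_π A K1, hπ⟩ hπA' H1.π_nonunit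
  obtain ⟨hnode, hgen⟩ := hTH hπ m hm hπm hcross
  exact S36TK_gen q (S18K_A0 A K1 (M' * q)) (S18K_A0 A K1 (M' * q * q))
    (S36TXK_le A K1 q M') _ hz m hm H1 H2 H3 hXoo hX2 hX3
    hint hfrac hπA' (S18K_D A K1).πK_ne_zero w hw hqw _ _ hx hy
    hcross hdown hnode hgen G hyz hyx hT2_oo hS1_oo hS1_0 hT2_0 hW_mid

include hr in
/-- **helper3's `S36XB_PtData` at a crossing**, `R = locRing A0 m`,
`R' = locRing A' (m ∩ A')`. -/
theorem S36TKK_pt (hA : A.LiesOverPrime q)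
    (hunr : Associated (S18K_D A K1).π ((q : ℕ) : S18K_O1 A K1))
    (hTH : S36TKK_Thick A K1 D q M' hq hqM)
    (m : Ideal (S18K_A0 A K1 (M' * q * q))) (hm : m.IsMaximal)
    (hcross : S36DI_Cross (S18K_V A K1 (M' * q * q)) (S36VK_V0 A K1 q M' hq hqM)
      (S18K_A0 A K1 (M' * q)) (S18K_A0 A K1 (M' * q * q)) m) :
    haveI := hm.isPrime
    S36XB_PtData (S34V3K_F1_mono K1 (S36XA_level_dvd M' q)) (S18K_O A K1)
      (S18K_V A K1 (M' * q)) (S34V0K_V A K1 q M' (M' * q) hq hqM (Nat.mul_comm M' q))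
      (S18K_V A K1 (M' * q * q)) (S36VK_Vmid A K1 q M') (S36VK_V0 A K1 q M' hq hqM) q
      (locRing (S18K_A0 A K1 (M' * q))
        (S36TLS_m' (S18K_A0 A K1 (M' * q)) (S18K_A0 A K1 (M' * q * q))
          (S36TXK_le A K1 q M') m))
      (locRing (S18K_A0 A K1 (M' * q * q)) m) := by
  haveI hmp : m.IsPrime := hm.isPrime
  have hN1 : M' * q = q * M' := Nat.mul_comm M' q
  obtain ⟨T, heq, huniq⟩ := S36TKK_gen A K1 D q M' hq hqM hr hA hunr hTH m hm hcross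
  obtain ⟨hmid, -⟩ := S36VK_main A K1 q M' hq hqM hA hunr
  have H1 := S34V3K_val1 A K1 (M' * q * q)
  have H2 := hmid.1
  have H3 := S36VK_V0_val A K1 q M' hq hqM
  have S' := S36TXK_setup' A K1 q M' hq hqM hA
  obtain ⟨hx, hy, hz⟩ := S36HTI_mem A K1 D q M' hq hqM hr
  have hw := S36NK_inv K1 q M' hq hqM
  have hxF : S36AUX_hK K1 D.u ∈ S18K_F1 K1 (M' * q * q) :=
    (S36TXK_le A K1 q M' hx).2
  have hyF : qExpand K1 q (S36AUX_hK K1 D.u) ∈ S18K_F1 K1 (M' * q * q) :=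
    (S36TXK_le A K1 q M' hy).2
  have hW_mid := (S36HTI_units A K1 D q M' hq hqM hr hA hunr).2.2.2.2.2.1
  -- the three congruences of `z`
  have hz1 : qExpand K1 (q * q) (S36AUX_hK K1 D.u) - (qExpand K1 q (S36AUX_hK K1 D.u)) ^ q ∈
      S36TOR_nu (S18K_V A K1 (M' * q * q)) :=
    S36TPT_nu_of_eq (S36TPT_pi_nu H1) (S36UH_T2 A K1 D q M' hq hqM hN1 hr hA)
  have hz2 : qExpand K1 (q * q) (S36AUX_hK K1 D.u) - S36AUX_hK K1 D.u ∈
      S36TOR_nu (S36VK_Vmid A K1 q M') :=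
    ⟨T.le_mid (le_locRing _ m (Subring.sub_mem _ hz (S36TXK_le A K1 q M' hx))),
      Or.inr hW_mid⟩
  have hz3 : (qExpand K1 (q * q) (S36AUX_hK K1 D.u)) ^ q - qExpand K1 q (S36AUX_hK K1 D.u) ∈
      S36TOR_nu (S36VK_V0 A K1 q M' hq hqM) := by
    have hT1 : (S36AUX_hK K1 D.u) ^ q - qExpand K1 q (S36AUX_hK K1 D.u) ∈
        S36TOR_nu (S18K_V A K1 (M' * q * q)) :=
      S36TPT_nu_of_eq (S36TPT_pi_nu H1) (S36UH_T1_oo A K1 D q M' hq hqM hN1 hr hA)
    have h := hw.nu (fun x hx => H1.le hx) (S36V0QB_hw13 A K1 q M' hq hqM)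
      (S36V0QB_hw31 A K1 q M' hq hqM) hT1
    rw [hw.sub ((S18K_F1 K1 (M' * q * q)).pow_mem hxF q) hyF, hw.pow hxF,
      S36UH_w_x K1 D q M' hq hqM hN1 hr, S36UH_w_y K1 D q M' hq hqM hN1 hr] at h
    exact h
  have hqV : ((q : ℕ) : LaurentSeries K1) ∈ S36TOR_nu (S36VK_V0 A K1 q M' hq hqM) :=
    S36TPT_nu_of_eq (S36TPT_pi_nu H3) (S36V0QY_hchar3 A K1 q M' hq hqM hA)
  exact S36TK_pt (S18K_A0 A K1 (M' * q)) (S18K_A0 A K1 (M' * q * q)) (S36TXK_le A K1 q M')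
    _ hz m (S34V3K_F1_mono K1 (S36XA_level_dvd M' q))
    (S34V3K_unif1 A K1 (M' * q)) (S34V0K_unif A K1 q M' (M' * q) hq hqM hN1)
    H1 H2 H3 (S34V3K_V_mono A K1 (S36XA_level_dvd M' q))
    (S36V0QB_le_q A K1 q M' hq hqM hN1)
    (fun a ha => (S'.chart0.le_V ha).1) (fun a ha => (S'.chart0.le_V ha).2)
    (S34N1K_O_le_A0 A K1 (M' * q))
    (fun x hxF hint => mem_icl.2 ⟨isIntegral_trans' (fun b hb => (mem_icl.1 hb).1) hint, hxF⟩)
    (fun x hx => hx.2)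
    (S36TY_hint (S36TXK_adj_le A K1 q M' hq hqM hA) hz.1)
    hq hqV (Subring.pow_mem _ hy q) hx hy hz1 hz2 hz3 hcross T.le_oo T.le_mid T.le_0 heq huniq

include hr in
/-- **the mirror of a crossing is a crossing over `π`** (`σ = W_(q²)|A0`). -/
theorem S36TKK_mirror (hA : A.LiesOverPrime q)
    (hunr : Associated (S18K_D A K1).π ((q : ℕ) : S18K_O1 A K1))
    (hTH : S36TKK_Thick A K1 D q M' hq hqM)
    (m : Ideal (S18K_A0 A K1 (M' * q * q))) (hm : m.IsMaximal)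
    (hcross : S36DI_Cross (S18K_V A K1 (M' * q * q)) (S36VK_V0 A K1 q M' hq hqM)
      (S18K_A0 A K1 (M' * q)) (S18K_A0 A K1 (M' * q * q)) m) :
    (m.comap ((S36N1K_sigma A K1 q M' (M' * q * q) hq hqM (S36VK_level q M') hA :
        S18K_A0 A K1 (M' * q * q) ≃+* S18K_A0 A K1 (M' * q * q)) :
        S18K_A0 A K1 (M' * q * q) →+* S18K_A0 A K1 (M' * q * q))).IsMaximal ∧
      S36DI_Cross (S18K_V A K1 (M' * q * q)) (S36VK_V0 A K1 q M' hq hqM)
        (S18K_A0 A K1 (M' * q)) (S18K_A0 A K1 (M' * q * q))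
        (m.comap ((S36N1K_sigma A K1 q M' (M' * q * q) hq hqM (S36VK_level q M') hA :
          S18K_A0 A K1 (M' * q * q) ≃+* S18K_A0 A K1 (M' * q * q)) :
          S18K_A0 A K1 (M' * q * q) →+* S18K_A0 A K1 (M' * q * q))) := by
  haveI hmp : m.IsPrime := hm.isPrime
  obtain ⟨T, -, -⟩ := S36TKK_gen A K1 D q M' hq hqM hr hA hunr hTH m hm hcross
  have hw := S36NK_inv K1 q M' hq hqM
  refine ⟨S36TK_mirror_max _ _ m hm, ?_⟩
  refine S36TK_mirror_cross (S18K_A0 A K1 (M' * q)) (S18K_A0 A K1 (M' * q * q)) _ m ?_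
    (S36DK_sigma_0 A K1 q M' (M' * q * q) hq hqM (S36VK_level q M') hA
      (S36VK_V0 A K1 q M' hq hqM) (fun y => Iff.rfl))
    (S36TK_on_of_le _ m T.le_oo) (S36TK_on_of_le _ m T.le_0)
  intro a ha hc
  apply ha
  have haF : (a : LaurentSeries K1) ∈ S18K_F1 K1 (M' * q * q) := a.2.2
  have h1 := S36V0QB_hw31 A K1 q M' hq hqM _ hc
  rw [S36N1K_sigma_coe, hw.map_inv (hw.mapF _ haF), hw.inv _ haF] at h1
  exact h1

include hr in
/-- **`hptα` of helper3's `S36XB_roots_abs` for the canonical family.** -/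
theorem S36TKK_ptα (hA : A.LiesOverPrime q)
    (hunr : Associated (S18K_D A K1).π ((q : ℕ) : S18K_O1 A K1))
    (hTH : S36TKK_Thick A K1 D q M' hq hqM) :
    ∀ i : S36PTS_I (S18K_π A K1) (S18K_V A K1 (M' * q * q)) (S36VK_V0 A K1 q M' hq hqM)
        (S18K_A0 A K1 (M' * q)) (S18K_A0 A K1 (M' * q * q)),
      ∃ R' : Subring (LaurentSeries K1),
        S36XB_PtData (S34V3K_F1_mono K1 (S36XA_level_dvd M' q)) (S18K_O A K1)
          (S18K_V A K1 (M' * q)) (S34V0K_V A K1 q M' (M' * q) hq hqM (Nat.mul_comm M' q))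
          (S18K_V A K1 (M' * q * q)) (S36VK_Vmid A K1 q M') (S36VK_V0 A K1 q M' hq hqM) q R'
          (S36PTS_R (S18K_π A K1) (S18K_V A K1 (M' * q * q)) (S36VK_V0 A K1 q M' hq hqM)
            (S18K_A0 A K1 (M' * q)) (S18K_A0 A K1 (M' * q * q)) i) :=
  fun i => ⟨_, S36TKK_pt A K1 D q M' hq hqM hr hA hunr hTH i.1 i.2.1 i.2.2.2⟩

include hr in
/-- **`hptβ` of helper3's `S36XB_roots_abs` for the canonical family**: the point data at the
mirror point, and `w` exchanges the two local rings. -/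
theorem S36TKK_ptβ (hA : A.LiesOverPrime q)
    (hunr : Associated (S18K_D A K1).π ((q : ℕ) : S18K_O1 A K1))
    (hTH : S36TKK_Thick A K1 D q M' hq hqM) :
    ∀ i : S36PTS_I (S18K_π A K1) (S18K_V A K1 (M' * q * q)) (S36VK_V0 A K1 q M' hq hqM)
        (S18K_A0 A K1 (M' * q)) (S18K_A0 A K1 (M' * q * q)),
      ∃ Rm' Rm : Subring (LaurentSeries K1),
        S36XB_PtData (S34V3K_F1_mono K1 (S36XA_level_dvd M' q)) (S18K_O A K1)
          (S18K_V A K1 (M' * q)) (S34V0K_V A K1 q M' (M' * q) hq hqM (Nat.mul_comm M' q))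
          (S18K_V A K1 (M' * q * q)) (S36VK_Vmid A K1 q M') (S36VK_V0 A K1 q M' hq hqM) q
          Rm' Rm ∧
        (∀ x ∈ S36PTS_R (S18K_π A K1) (S18K_V A K1 (M' * q * q))
            (S36VK_V0 A K1 q M' hq hqM) (S18K_A0 A K1 (M' * q))
            (S18K_A0 A K1 (M' * q * q)) i, S36XA_W K1 q M' hq hqM x ∈ Rm) ∧
        (∀ x ∈ Rm, S36XA_W K1 q M' hq hqM x ∈
          S36PTS_R (S18K_π A K1) (S18K_V A K1 (M' * q * q))
            (S36VK_V0 A K1 q M' hq hqM) (S18K_A0 A K1 (M' * q))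
            (S18K_A0 A K1 (M' * q * q)) i) := by
  intro i
  obtain ⟨hmax, hcr⟩ := S36TKK_mirror A K1 D q M' hq hqM hr hA hunr hTH i.1 i.2.1 i.2.2.2
  have hw := S36NK_inv K1 q M' hq hqM
  haveI hmp : (i.1).IsPrime := i.2.1.isPrime
  refine ⟨_, _, S36TKK_pt A K1 D q M' hq hqM hr hA hunr hTH _ hmax hcr, ?_, ?_⟩
  · exact S36TK_w_loc (S18K_A0 A K1 (M' * q * q))
      (S36N1K_sigma A K1 q M' (M' * q * q) hq hqM (S36VK_level q M') hA) i.1 hw
      (fun x hx => hx.2) (fun a => rfl) hmax.isPrime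
  · exact S36TK_w_loc' (S18K_A0 A K1 (M' * q * q))
      (S36N1K_sigma A K1 q M' (M' * q * q) hq hqM (S36VK_level q M') hA) i.1 hw
      (fun x hx => hx.2) (fun a => rfl) hmax.isPrime

end Main

end Fermat.Agent.S36_helper6_TORKK
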