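import Mathlib
import Fermat.Agent.S36_helper3_GEO
import Fermat.Agent.S36_helper6_TORKK

/-!
# S36, X-D36 Part II (helper3): the open inputs (I), (II) from [THICK] at the crossings

helper6's `S36TKK_Thick A K1 D q M' hq hqM` ([THICK] at every crossing of the finite chart, in
the Hauptmodul coordinate of an AUX datum `D : S36AUX_Data r`, `r ∣ M'`) gives

* `S36XB_hTX_of_thick` : the open input (I) `S36XB_HTX` (helper6's `S36TKK_gen` + helper2's
  `S36HTI_units`);
* `S36XB_hPt_of_thick` : the open input (II) `S36XB_HPt` (helper6's `S36TKK_ptα`,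
  `S36TKK_ptβ`).
-/

set_option autoImplicit false
set_option linter.unusedSectionVars false
set_option linter.unusedVariables false
set_option linter.style.haveILetI false
set_option synthInstance.maxHeartbeats 400000
set_option maxHeartbeats 1600000

open HahnSeries IntermediateField AlgebraicCurve ModularCurve
open Fermat.Agent.S18_helper9_CDefs Fermat.Agent.S18_helper3_LOCRING
  Fermat.Agent.S18_helper25_COREDefs
  Fermat.Agent.S34_helper12_CDefs Fermat.Agent.S34_helper27_C2Defs
  Fermat.Agent.S36_helper8_AUXDefs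
  Fermat.Agent.S36_helper4_XADefs Fermat.Agent.S36_helper3_XBPT
  Fermat.Agent.S36_helper3_LOCK Fermat.Agent.S36_helper3_GEO
  Fermat.Agent.S36_helper5_VKDefs Fermat.Agent.S36_helper5_VMIDK
  Fermat.Agent.S36_helper4_SCALEK Fermat.Agent.S36_helper2_HTXIN
  Fermat.Agent.S36_helper6_TORKK

noncomputable section

namespace Fermat.Agent.S36_helper3_IN12

local notation "Qb" => AlgebraicClosure ℚ

variable (A : ValuationSubring Qb) (K1 : IntermediateField ℚ Qb)
  [IsDiscreteValuationRing (S18K_O1 A K1)] {r : ℕ} [NeZero r] (D : S36AUX_Data r)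
  (M' q : ℕ) [NeZero M'] [NeZero q]
  [NeZero (M' * q)] [NeZero (M' * q * q)] [NeZero (q ^ 2)] [NeZero (q * q)]
  (hq : q.Prime) (hqM : ¬ q ∣ M') (hr : r ∣ M')

include hr in
/-- **the open input (I) from [THICK].** -/
theorem S36XB_hTX_of_thick (hA : A.LiesOverPrime q) (hK1 : S36XA_Level A K1 q)
    (hTH : S36TKK_Thick A K1 D q M' hq hqM) : S36XB_HTX A K1 M' q hq hqM := by
  have hunr := S36SK_hunr A K1 q hq hA hK1
  have hU := S36HTI_units A K1 D q M' hq hqM hr hA hunr
  intro hπ m' hm' hπm' hc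
  obtain ⟨T, -, -⟩ := S36TKK_gen A K1 D q M' hq hqM hr hA hunr hTH m' hm' hc
  exact ⟨_, _, T, hU.2.2.2.2.1, hU.2.2.1, hU.2.2.2.2.2.2⟩

include hr in
/-- **the open input (II) from [THICK].** -/
theorem S36XB_hPt_of_thick (hA : A.LiesOverPrime q) (hK1 : S36XA_Level A K1 q)
    (hTH : S36TKK_Thick A K1 D q M' hq hqM) : S36XB_HPt A K1 M' q hq hqM := by
  have hunr := S36SK_hunr A K1 q hq hA hK1
  exact ⟨S36TKK_ptα A K1 D q M' hq hqM hr hA hunr hTH,
    S36TKK_ptβ A K1 D q M' hq hqM hr hA hunr hTH⟩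

end Fermat.Agent.S36_helper3_IN12
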