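import Fermat.Agent.S36_helper19_MIDINF
import Fermat.Agent.S36_helper9_DICHK

/-!
# S36, GEO36 (f): `hmid` at the carriers from the local uniformiser (helper19)

* `S36MIK_loc_of_wit` : the witnesses `t, c, s, s₀` of helper20's `S36TC_main`
  (`t = s₀ (j / θ₂ - 1)`, `c π = s t ^ (q - 1)`) give (MID-LOC);
* `S36MIK_hmid_inf`   : **the hypothesis `hmid` of helper9's `S36PTS_ptsInf` at the carriers**
  (`X = S18K_Ainf A K1 N`, the cusps) from (MID-LOC) at every thick cusp;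
* `S36MIK_hmid_inf_wit` : the same from the witnesses of `S36TC_main`;
* `S36MIK_hmid_A0`    : the hypothesis `hmid` of helper9's `S36DK_pts0` (finite chart) from
  (MID-LOC) at every thick point of the finite chart.
-/

set_option autoImplicit false
set_option linter.style.haveILetI false
set_option linter.unusedVariables false
set_option linter.unusedSectionVars false
set_option synthInstance.maxHeartbeats 400000
set_option maxHeartbeats 1600000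

open ModularCurve Fermat.Agent.S24
open Fermat.Agent.S18_helper13_GAUSS Fermat.Agent.S18_helper9_CDefs
  Fermat.Agent.S18_helper9_CBasic
open Fermat.Agent.S18_helper25_COREDefs Fermat.Agent.S34_helper12_CDefs
open Fermat.Agent.S34_helper27_C2Defs Fermat.Agent.S34_helper27_C2ADAPT
open Fermat.Agent.S34_helper27_V3K
open Fermat.Agent.S18_helper3_LOCRING
open Fermat.Agent.S34_helper14_N1S Fermat.Agent.S34_helper14_N1K
open Fermat.Agent.S36_helper14_N1K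
open Fermat.Agent.S36_helper3_XBPT
open Fermat.Agent.S36_helper9_ONE Fermat.Agent.S36_helper9_DICHK
open Fermat.Agent.S36_helper19_MIDINF

noncomputable section

namespace Fermat.Agent.S36_helper19_MIDINFK

section Abstract

variable {L : Type*} [Field L] {π : L} {X V2 : Subring L}

/-- **the witnesses of `S36TC_main` give (MID-LOC).** -/
theorem S36MIK_loc_of_wit (hXV2 : X ≤ V2) (m : Ideal X) [hm : m.IsPrime]
    (hOn : S36ONE_On V2 X m) {q : ℕ} (hq : 2 ≤ q)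
    {t0 j θ₂ : L} (ht0 : t0 = θ₂ - j) (ht0nu : t0⁻¹ ∉ V2)
    (hunif0 : ∀ y ∈ V2, y⁻¹ ∉ V2 → ∃ v ∈ V2, y = t0 * v)
    (hθ0 : θ₂ ≠ 0) (hθ₂ : θ₂ ∈ V2) (hθ₂' : θ₂⁻¹ ∈ V2)
    (t c s s₀ : X) (hcm : c ∉ m) (hs₀m : s₀ ∉ m)
    (ht : (t : L) = (s₀ : L) * (j * θ₂⁻¹ - 1))
    (hc : (c : L) * π = (s : L) * (t : L) ^ (q - 1)) :
    ∃ τ u : L, τ ∈ locRing X m ∧ u ∈ locRing X m ∧ τ⁻¹ ∉ V2 ∧
      (∀ y ∈ V2, y⁻¹ ∉ V2 → ∃ v ∈ V2, y = τ * v) ∧ π = τ * u := by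
  have hc0 := coe_ne_zero_of_notMem X m hcm
  have hs₀0 := coe_ne_zero_of_notMem X m hs₀m
  have hs₀inv : ((s₀ : L))⁻¹ ∈ V2 := by
    by_contra hcon
    exact hs₀m (hOn s₀ hcon)
  -- `t = t0 * κ`, `κ = - s₀ / θ₂` a unit of `V2`
  have hκ : -((s₀ : L) * θ₂⁻¹) ∈ V2 := V2.neg_mem (V2.mul_mem (hXV2 s₀.2) hθ₂')
  have hκ' : -(((s₀ : L))⁻¹ * θ₂) ∈ V2 := V2.neg_mem (V2.mul_mem hs₀inv hθ₂)
  have htκ : (t : L) = t0 * (-((s₀ : L) * θ₂⁻¹)) := by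
    rw [ht, ht0]; field_simp; ring
  have ht0κ : t0 = (t : L) * (-(((s₀ : L))⁻¹ * θ₂)) := by
    rw [htκ]; field_simp
  obtain ⟨k, hk⟩ : ∃ k, q - 1 = k + 1 := ⟨q - 2, by omega⟩
  refine ⟨(t : L), (s : L) * (t : L) ^ k * ((c : L))⁻¹, le_locRing X m t.2,
    (locRing X m).mul_mem (le_locRing X m (X.mul_mem s.2 (X.pow_mem t.2 k)))
      (inv_mem_locRing X m hcm), ?_, ?_, ?_⟩
  · intro hinv
    apply ht0nu
    have : t0⁻¹ = ((t : L))⁻¹ * (-((s₀ : L) * θ₂⁻¹)) := by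
      rw [ht0κ, mul_inv]
      congr 1
      rw [inv_neg, mul_inv, inv_inv]
    rw [this]
    exact V2.mul_mem hinv hκ
  · intro y hy hynu
    obtain ⟨v, hv, hyv⟩ := hunif0 y hy hynu
    refine ⟨-(((s₀ : L))⁻¹ * θ₂) * v, V2.mul_mem hκ' hv, ?_⟩
    rw [hyv, ht0κ]; ring
  · rw [hk, pow_succ] at hc
    field_simp
    linear_combination hc

end Abstract

section Concrete

variable (A : ValuationSubring (AlgebraicClosure ℚ))
  (K1 : IntermediateField ℚ (AlgebraicClosure ℚ)) [IsDiscreteValuationRing (S18K_O1 A K1)]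

/-- `f ∈ F1` from `RedPow`. -/
theorem S36MIK_mem_of_redPow {L : Type*} [Field L] {O : Subring L} {π j : L} {F1 : Subfield L}
    {V A0 Ainf : Subring L} (S : S34C_Setup O π j F1 V A0 Ainf) {p : ℕ} {f G : L}
    (hred : RedPow π V p f G) : f ∈ F1 := by
  obtain ⟨hG, -, c, hc, hf⟩ := hred
  rw [hf]
  exact F1.mul_mem (F1.pow_mem (S.V_le hG) p)
    (F1.add_mem F1.one_mem (F1.mul_mem (S.O_le S.π_mem) (S.V_le hc)))

/-- **`hmid` at the thick cusps (and at every thick point of the chart at infinity), at the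
carriers, from (MID-LOC).**  `M' ∣ N`, `q ∤ M'`; `W2` (= `V_mid`) a valuation ring above the
Gauss ring of level `M'`, with uniformiser `t`, residue degree one over it. -/
theorem S36MIK_one_inf {q : ℕ} (hq : q.Prime) (hA : A.LiesOverPrime q) (M' N : ℕ) [NeZero M']
    [NeZero N] (hqM : ¬ q ∣ M') (hdvd : M' ∣ N) (h : S18K_Admissible A K1 q)
    (W2 W3 : Subring (LaurentSeries K1))
    (S : S34C_Setup (S18K_O A K1) (S18K_π A K1) (S18K_j K1) (S18K_F1 K1 N)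
      (S18K_V A K1 N ⊓ W2 ⊓ W3) (S18K_A0 A K1 N) (S18K_Ainf A K1 N))
    (H2 : S34C2_Val (S18K_π A K1) (S18K_F1 K1 N) W2)
    (t : LaurentSeries K1) (e : ℕ) (t_mem : t ∈ W2) (t_nonunit : t⁻¹ ∉ W2)
    (unif2 : ∀ x ∈ W2, x⁻¹ ∉ W2 → ∃ v ∈ W2, x = t * v)
    (t_pow : ∃ v ∈ W2, t ^ e = S18K_π A K1 * v)
    (hV'2 : S18K_V A K1 M' ≤ W2)
    (hres2 : ∀ x ∈ W2, ∃ r ∈ S18K_V A K1 M', ∃ v ∈ W2, x = r + t * v)
    {lam : ℕ} (hlam : lam.Prime) (hne : lam ≠ q) (f : LaurentSeries K1) (hf0 : f ≠ 0)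
    (hdiv : PowDiv (S18K_O A K1) (S18K_π A K1) (S18K_F1 K1 N) lam f)
    (hπ : S18K_π A K1 ∈ S18K_Ainf A K1 N)
    (m : Ideal (S18K_Ainf A K1 N)) (hm : m.IsMaximal)
    (hπm : (⟨S18K_π A K1, hπ⟩ : S18K_Ainf A K1 N) ∈ m)
    (hloc : S36ONE_On W2 (S18K_Ainf A K1 N) m →
      ∃ τ u : LaurentSeries K1, τ ∈ @locRing _ _ (S18K_Ainf A K1 N) m hm.isPrime ∧
        u ∈ @locRing _ _ (S18K_Ainf A K1 N) m hm.isPrime ∧ τ⁻¹ ∉ W2 ∧
        (∀ y ∈ W2, y⁻¹ ∉ W2 → ∃ v ∈ W2, y = τ * v) ∧ S18K_π A K1 = τ * u)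
    (d : S18K_Ainf A K1 N) (hdm : d ∉ m)
    (hdW : ∃ v ∈ (S18K_V A K1 N ⊓ W3 : Subring (LaurentSeries K1)),
      (d : LaurentSeries K1) = S18K_π A K1 * v)
    (G : LaurentSeries K1)
    (hred : RedPow (S18K_π A K1)
      (S18K_V A K1 N ⊓ W2 ⊓ W3 : Subring (LaurentSeries K1)) lam f G) :
    S36XB_One (S18K_π A K1) (S18K_F1 K1 N) W2 (S18K_V A K1 N) W3 (S18K_Ainf A K1 N)
      lam f G m := by
  haveI := S34N1K_charZero K1
  haveI : Fact q.Prime := ⟨hq⟩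
  haveI hmp : m.IsPrime := hm.isPrime
  have hAB := Fermat.Agent.S18_helper25_FINAL.S18K_blocksAB_of_blockB M' hqM A hA
    (Fermat.Agent.S18_helper12_TOP.S18TOP_blockB M' hqM A hA)
  obtain ⟨S', -, hIGinf⟩ := hAB K1 h
  haveI : IsNoetherianRing (S18K_Ainf A K1 M') :=
    Fermat.Agent.S18_helper27_CNOETH.S18CNOETH_chart_noetherian S' (S18K_j K1)⁻¹ (Or.inr rfl)
      (S18K_Ainf A K1 M') S'.chartInf
  have hF := S34V3K_F1_mono K1 hdvd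
  obtain ⟨hnoeth, hOX, -, hπ0, hsat, hfrac⟩ := S36DK_chart S (Or.inr rfl) S.chartInf
  haveI := hnoeth
  have hX : S18K_Ainf A K1 N ≤
      (S18K_V A K1 N ⊓ W2 ⊓ W3 : Subring (LaurentSeries K1)) := S.chartInf.le_V
  have hOn : S36ONE_On W2 (S18K_Ainf A K1 N) m :=
    S36MI_on hX hsat hπ0 unif2 t_pow m hπ hπm d hdm hdW
  have hlamO : ((lam : LaurentSeries K1))⁻¹ ∈ S18K_O A K1 :=
    Fermat.Agent.S18_helper25_CORE.S18K_natCast_inv_mem A K1 hA lam hlam hne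
  have hlam0 : ((lam : ℕ) : LaurentSeries K1) ≠ 0 := Nat.cast_ne_zero.2 hlam.ne_zero
  exact S36MI_one S' hV'2 H2 t_mem t_nonunit hres2 H2.π_mem H2.π_nonunit (S18K_j K1)⁻¹
    ((S18K_F1 K1 M').inv_mem S'.j_mem) (S18K_Ainf A K1 M') S'.chartInf
    (S34N1S_chart_le hF S'.chartInf S.chartInf)
    (fun y hy => ((S.chartInf.mem_iff y).1 hy).1) hIGinf hX hsat hfrac hOX hπ m hm hπm hOn
    (hloc hOn) d hdm hdW hlam.pos hlam0 hlamO f G (S36MIK_mem_of_redPow S hred) hf0 hdiv hred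

/-- **`hmid` at the thick points of the finite chart, at the carriers, from (MID-LOC).** -/
theorem S36MIK_one_A0 {q : ℕ} (hq : q.Prime) (hA : A.LiesOverPrime q) (M' N : ℕ) [NeZero M']
    [NeZero N] (hqM : ¬ q ∣ M') (hdvd : M' ∣ N) (h : S18K_Admissible A K1 q)
    (W2 W3 : Subring (LaurentSeries K1))
    (S : S34C_Setup (S18K_O A K1) (S18K_π A K1) (S18K_j K1) (S18K_F1 K1 N)
      (S18K_V A K1 N ⊓ W2 ⊓ W3) (S18K_A0 A K1 N) (S18K_Ainf A K1 N))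
    (H2 : S34C2_Val (S18K_π A K1) (S18K_F1 K1 N) W2)
    (t : LaurentSeries K1) (e : ℕ) (t_mem : t ∈ W2) (t_nonunit : t⁻¹ ∉ W2)
    (unif2 : ∀ x ∈ W2, x⁻¹ ∉ W2 → ∃ v ∈ W2, x = t * v)
    (t_pow : ∃ v ∈ W2, t ^ e = S18K_π A K1 * v)
    (hV'2 : S18K_V A K1 M' ≤ W2)
    (hres2 : ∀ x ∈ W2, ∃ r ∈ S18K_V A K1 M', ∃ v ∈ W2, x = r + t * v)
    {lam : ℕ} (hlam : lam.Prime) (hne : lam ≠ q) (f : LaurentSeries K1) (hf0 : f ≠ 0)
    (hdiv : PowDiv (S18K_O A K1) (S18K_π A K1) (S18K_F1 K1 N) lam f)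
    (hπ : S18K_π A K1 ∈ S18K_A0 A K1 N)
    (m : Ideal (S18K_A0 A K1 N)) (hm : m.IsMaximal)
    (hπm : (⟨S18K_π A K1, hπ⟩ : S18K_A0 A K1 N) ∈ m)
    (hloc : S36ONE_On W2 (S18K_A0 A K1 N) m →
      ∃ τ u : LaurentSeries K1, τ ∈ @locRing _ _ (S18K_A0 A K1 N) m hm.isPrime ∧
        u ∈ @locRing _ _ (S18K_A0 A K1 N) m hm.isPrime ∧ τ⁻¹ ∉ W2 ∧
        (∀ y ∈ W2, y⁻¹ ∉ W2 → ∃ v ∈ W2, y = τ * v) ∧ S18K_π A K1 = τ * u)
    (d : S18K_A0 A K1 N) (hdm : d ∉ m)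
    (hdW : ∃ v ∈ (S18K_V A K1 N ⊓ W3 : Subring (LaurentSeries K1)),
      (d : LaurentSeries K1) = S18K_π A K1 * v)
    (G : LaurentSeries K1)
    (hred : RedPow (S18K_π A K1)
      (S18K_V A K1 N ⊓ W2 ⊓ W3 : Subring (LaurentSeries K1)) lam f G) :
    S36XB_One (S18K_π A K1) (S18K_F1 K1 N) W2 (S18K_V A K1 N) W3 (S18K_A0 A K1 N)
      lam f G m := by
  haveI := S34N1K_charZero K1
  haveI : Fact q.Prime := ⟨hq⟩
  haveI hmp : m.IsPrime := hm.isPrime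
  have hAB := Fermat.Agent.S18_helper25_FINAL.S18K_blocksAB_of_blockB M' hqM A hA
    (Fermat.Agent.S18_helper12_TOP.S18TOP_blockB M' hqM A hA)
  obtain ⟨S', hIG0, -⟩ := hAB K1 h
  haveI : IsNoetherianRing (S18K_A0 A K1 M') :=
    Fermat.Agent.S18_helper27_CNOETH.S18CNOETH_chart_noetherian S' (S18K_j K1) (Or.inl rfl)
      (S18K_A0 A K1 M') S'.chart0
  have hF := S34V3K_F1_mono K1 hdvd
  obtain ⟨hnoeth, hOX, -, hπ0, hsat, hfrac⟩ := S36DK_chart S (Or.inl rfl) S.chart0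
  haveI := hnoeth
  have hX : S18K_A0 A K1 N ≤
      (S18K_V A K1 N ⊓ W2 ⊓ W3 : Subring (LaurentSeries K1)) := S.chart0.le_V
  have hOn : S36ONE_On W2 (S18K_A0 A K1 N) m :=
    S36MI_on hX hsat hπ0 unif2 t_pow m hπ hπm d hdm hdW
  have hlamO : ((lam : LaurentSeries K1))⁻¹ ∈ S18K_O A K1 :=
    Fermat.Agent.S18_helper25_CORE.S18K_natCast_inv_mem A K1 hA lam hlam hne
  have hlam0 : ((lam : ℕ) : LaurentSeries K1) ≠ 0 := Nat.cast_ne_zero.2 hlam.ne_zero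
  exact S36MI_one S' hV'2 H2 t_mem t_nonunit hres2 H2.π_mem H2.π_nonunit (S18K_j K1)
    S'.j_mem (S18K_A0 A K1 M') S'.chart0
    (S34N1S_chart_le hF S'.chart0 S.chart0)
    (fun y hy => ((S.chart0.mem_iff y).1 hy).1) hIG0 hX hsat hfrac hOX hπ m hm hπm hOn
    (hloc hOn) d hdm hdW hlam.pos hlam0 hlamO f G (S36MIK_mem_of_redPow S hred) hf0 hdiv hred

/-- **`hmid` at a thick cusp from the witnesses of helper20's `S36TC_main`**
(`t' = s₀ (j / θ₂ - 1)`, `c π = s t' ^ (q - 1)`), for the uniformiser `t = θ₂ - j` of `W2`. -/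
theorem S36MIK_one_inf_wit {q : ℕ} (hq : q.Prime) (hA : A.LiesOverPrime q) (M' N : ℕ)
    [NeZero M'] [NeZero N] (hqM : ¬ q ∣ M') (hdvd : M' ∣ N) (h : S18K_Admissible A K1 q)
    (W2 W3 : Subring (LaurentSeries K1))
    (S : S34C_Setup (S18K_O A K1) (S18K_π A K1) (S18K_j K1) (S18K_F1 K1 N)
      (S18K_V A K1 N ⊓ W2 ⊓ W3) (S18K_A0 A K1 N) (S18K_Ainf A K1 N))
    (H2 : S34C2_Val (S18K_π A K1) (S18K_F1 K1 N) W2)
    (t θ₂ : LaurentSeries K1) (ht : t = θ₂ - S18K_j K1) (hθ0 : θ₂ ≠ 0) (hθ₂ : θ₂ ∈ W2)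
    (hθ₂' : θ₂⁻¹ ∈ W2)
    (e : ℕ) (t_mem : t ∈ W2) (t_nonunit : t⁻¹ ∉ W2)
    (unif2 : ∀ x ∈ W2, x⁻¹ ∉ W2 → ∃ v ∈ W2, x = t * v)
    (t_pow : ∃ v ∈ W2, t ^ e = S18K_π A K1 * v)
    (hV'2 : S18K_V A K1 M' ≤ W2)
    (hres2 : ∀ x ∈ W2, ∃ r ∈ S18K_V A K1 M', ∃ v ∈ W2, x = r + t * v)
    {lam : ℕ} (hlam : lam.Prime) (hne : lam ≠ q) (f : LaurentSeries K1) (hf0 : f ≠ 0)
    (hdiv : PowDiv (S18K_O A K1) (S18K_π A K1) (S18K_F1 K1 N) lam f)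
    (hπ : S18K_π A K1 ∈ S18K_Ainf A K1 N)
    (m : Ideal (S18K_Ainf A K1 N)) (hm : m.IsMaximal)
    (hπm : (⟨S18K_π A K1, hπ⟩ : S18K_Ainf A K1 N) ∈ m)
    (hwit : S36ONE_On W2 (S18K_Ainf A K1 N) m →
      ∃ t' c s s₀ : S18K_Ainf A K1 N, t' ∈ m ∧ c ∉ m ∧ s ∉ m ∧ s₀ ∉ m ∧
        (t' : LaurentSeries K1) = (s₀ : LaurentSeries K1) * (S18K_j K1 * θ₂⁻¹ - 1) ∧
        (c : LaurentSeries K1) * S18K_π A K1 =
          (s : LaurentSeries K1) * (t' : LaurentSeries K1) ^ (q - 1))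
    (d : S18K_Ainf A K1 N) (hdm : d ∉ m)
    (hdW : ∃ v ∈ (S18K_V A K1 N ⊓ W3 : Subring (LaurentSeries K1)),
      (d : LaurentSeries K1) = S18K_π A K1 * v)
    (G : LaurentSeries K1)
    (hred : RedPow (S18K_π A K1)
      (S18K_V A K1 N ⊓ W2 ⊓ W3 : Subring (LaurentSeries K1)) lam f G) :
    S36XB_One (S18K_π A K1) (S18K_F1 K1 N) W2 (S18K_V A K1 N) W3 (S18K_Ainf A K1 N)
      lam f G m := by
  haveI hmp : m.IsPrime := hm.isPrime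
  have hXW2 : S18K_Ainf A K1 N ≤ W2 := fun y hy => (S.chartInf.le_V hy).1.2
  refine S36MIK_one_inf A K1 hq hA M' N hqM hdvd h W2 W3 S H2 t e t_mem t_nonunit unif2 t_pow
    hV'2 hres2 hlam hne f hf0 hdiv hπ m hm hπm (fun hOn => ?_) d hdm hdW G hred
  obtain ⟨t', c, s, s₀, -, hcm, -, hs₀m, ht', hc⟩ := hwit hOn
  exact S36MIK_loc_of_wit hXW2 m hOn hq.two_le ht t_nonunit unif2 hθ0 hθ₂ hθ₂' t' c s s₀ hcm
    hs₀m ht' hc

end Concrete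

end Fermat.Agent.S36_helper19_MIDINFK
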