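import Mathlib

/-!
# S36, piece GEO36-TCUSP-A (helper20): the algebraic core of the regularity at the thick cusps

Mathlib only.  `R` a local domain, `q` a prime, elements `e₁, E', a, ρ ∈ R` and a polynomial
`Θ ∈ R[W]` with `a, E', ρ - 1` in the maximal ideal, `ρ ≠ 1`, and the two relations

* `(1 - e₁)(1 - E') + q Θ(a) = 0`                (the modular equation at `Z = 1`),
* `(ρ^q - e₁)(ρ - E') + q ρ Θ(a ρ) = 0`           (the modular equation at `Z = ρ`).

Then `(ρ - 1)^(q-1) = q · unit`  (`S36TCA_core`).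

In the application `R` is the local ring of the chart at infinity of `X₀(q² M')` at a cusp of the
thick component, `a = 1/j`, `ρ = j / j(Q^(q²))`, `e₁ = j^q / j(Q^q)`, `E' = j / j(Q^q)^q`, and
`Θ` comes from the Kronecker congruence `Φ_q ≡ (X^q - Y)(X - Y^q) mod q`.
-/

set_option autoImplicit false

open Polynomial IsLocalRing

namespace Fermat.Agent.S36_helper20_TCA

variable {R : Type*} [CommRing R]

/-- `∑_{i<q} (1 + τ)^i = τ^(q-1) + q B` with `B ≡ 1` modulo `τ` -/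
theorem S36TCA_geom (q : ℕ) (hq : q.Prime) (τ : R) :
    ∃ B r : R, ∑ i ∈ Finset.range q, (τ + 1) ^ i = τ ^ (q - 1) + (q : R) * B ∧
      B = 1 + τ * r := by
  have h := congrArg (Polynomial.eval τ)
    (Polynomial.geom_sum_X_comp_X_add_one_eq_sum (R := R) q)
  rw [Polynomial.eval_comp, Polynomial.eval_finset_sum, Polynomial.eval_finset_sum] at h
  simp only [Polynomial.eval_pow, Polynomial.eval_X, Polynomial.eval_add, Polynomial.eval_one,
    Polynomial.eval_mul, Polynomial.eval_natCast] at h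
  obtain ⟨n, hn⟩ : ∃ n, q = n + 2 := ⟨q - 2, by have := hq.two_le; omega⟩
  subst hn
  -- the coefficients `choose (n+2) (k+1) / (n+2)`
  have hdiv : ∀ k, k < n + 1 → ∃ c : ℕ, (n + 2).choose (k + 1) = (n + 2) * c := by
    intro k hk
    exact hq.dvd_choose_self (by omega) (by omega)
  choose! c hc using hdiv
  refine ⟨∑ k ∈ Finset.range (n + 1), (c k : R) * τ ^ k,
    ∑ k ∈ Finset.range n, (c (k + 1) : R) * τ ^ k, ?_, ?_⟩
  · rw [h, Finset.sum_range_succ, Nat.choose_self, Nat.cast_one, one_mul, add_comm]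
    congr 1
    rw [Finset.mul_sum]
    refine Finset.sum_congr rfl fun k hk => ?_
    rw [Finset.mem_range] at hk
    rw [hc k hk]
    push_cast
    ring
  · rw [Finset.sum_range_succ', pow_zero, mul_one]
    have h0 : c 0 = 1 := by
      have h1 := hc 0 (by omega)
      rw [zero_add, Nat.choose_one_right] at h1
      have : (n + 2) * 1 = (n + 2) * c 0 := by rw [mul_one]; exact h1
      exact (Nat.eq_of_mul_eq_mul_left (by omega) this).symm
    rw [h0, Nat.cast_one, add_comm, Finset.mul_sum]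
    congr 1
    refine Finset.sum_congr rfl fun k _ => ?_
    ring

variable [IsDomain R] [IsLocalRing R]

/-- **the algebraic core**: `(ρ - 1)^(q-1) = q · unit`. -/
theorem S36TCA_core (q : ℕ) (hq : q.Prime) (e₁ E' a ρ : R) (Θ : Polynomial R)
    (ha : a ∈ maximalIdeal R) (hE : E' ∈ maximalIdeal R) (hτ : ρ - 1 ∈ maximalIdeal R)
    (hρ : ρ ≠ 1)
    (h1 : (1 - e₁) * (1 - E') + (q : R) * Θ.eval a = 0)
    (hρ0 : (ρ ^ q - e₁) * (ρ - E') + (q : R) * (ρ * Θ.eval (a * ρ)) = 0) :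
    ∃ u : R, IsUnit u ∧ (ρ - 1) ^ (q - 1) = (q : R) * u := by
  set τ : R := ρ - 1 with hτdef
  have hρτ : ρ = τ + 1 := by rw [hτdef]; ring
  have hτ0 : τ ≠ 0 := sub_ne_zero.mpr hρ
  -- the divided difference of `Θ`
  obtain ⟨Θ₁, hΘ₁⟩ : ∃ Θ₁ : R, Θ.eval (a * ρ) - Θ.eval a = (a * ρ - a) * Θ₁ :=
    Polynomial.sub_dvd_eval_sub (a * ρ) a Θ
  -- the geometric sum
  obtain ⟨B, r, hB, hBr⟩ := S36TCA_geom q hq τ
  have hgeom : (ρ - 1) * ∑ i ∈ Finset.range q, ρ ^ i = ρ ^ q - 1 := by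
    rw [mul_comm]; exact geom_sum_mul ρ q
  rw [← hρτ] at hB
  -- the key identity
  have key : τ * (τ ^ (q - 1) * ((ρ - E') * (1 - E')) + (q : R) *
      (B * ((ρ - E') * (1 - E')) - Θ.eval a + (1 - E') * (Θ.eval (a * ρ) + a * Θ₁))) = 0 := by
    have e1 : Θ.eval (a * ρ) = Θ.eval a + (a * ρ - a) * Θ₁ := by rw [← hΘ₁]; ring
    have e2 : ρ ^ q = 1 + (ρ - 1) * (τ ^ (q - 1) + (q : R) * B) := by
      rw [← hB, hgeom]; ring
    have e3 : (1 - e₁) * (1 - E') = -((q : R) * Θ.eval a) := eq_neg_of_add_eq_zero_left h1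
    have e4 : (ρ ^ q - e₁) * (ρ - E') * (1 - E') +
        (q : R) * (ρ * Θ.eval (a * ρ)) * (1 - E') = 0 := by
      rw [← add_mul, hρ0, zero_mul]
    have e5 : (ρ ^ q - e₁) * (ρ - E') * (1 - E') =
        (ρ ^ q - 1) * (ρ - E') * (1 - E') + (1 - e₁) * (1 - E') * (ρ - E') := by ring
    rw [e5, e3, e2] at e4
    rw [← e4, hτdef]
    rw [e1]
    ring
  have key2 : τ ^ (q - 1) * ((ρ - E') * (1 - E')) + (q : R) *
      (B * ((ρ - E') * (1 - E')) - Θ.eval a + (1 - E') * (Θ.eval (a * ρ) + a * Θ₁)) = 0 :=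
    (mul_eq_zero.mp key).resolve_left hτ0
  -- units
  have rE : residue R E' = 0 := (residue_eq_zero_iff _).mpr hE
  have ra : residue R a = 0 := (residue_eq_zero_iff _).mpr ha
  have rτ : residue R τ = 0 := (residue_eq_zero_iff _).mpr hτ
  have rρ : residue R ρ = 1 := by rw [hρτ, map_add, rτ, zero_add, map_one]
  have rB : residue R B = 1 := by rw [hBr, map_add, map_mul, rτ, zero_mul, add_zero, map_one]
  have rΘ : residue R (Θ.eval (a * ρ)) = residue R (Θ.eval a) := by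
    have : Θ.eval (a * ρ) = Θ.eval a + (a * ρ - a) * Θ₁ := by rw [← hΘ₁]; ring
    rw [this, map_add, map_mul, map_sub, map_mul, ra, zero_mul, sub_zero, zero_mul, add_zero]
  have hu1 : IsUnit ((ρ - E') * (1 - E')) := by
    rw [← residue_ne_zero_iff_isUnit]
    rw [map_mul, map_sub, map_sub, rρ, rE, map_one, sub_zero, mul_one]
    exact one_ne_zero
  have hu2 : IsUnit (B * ((ρ - E') * (1 - E')) - Θ.eval a +
      (1 - E') * (Θ.eval (a * ρ) + a * Θ₁)) := by
    rw [← residue_ne_zero_iff_isUnit]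
    rw [map_add, map_sub, map_mul, map_mul, map_sub, map_sub, map_mul, map_sub, map_add,
      map_mul, rρ, rE, rB, ra, rΘ, map_one]
    simp
  obtain ⟨v, hv⟩ := hu1
  obtain ⟨w, hw⟩ := hu2
  refine ⟨-(w * v⁻¹ : Rˣ), (w * v⁻¹).isUnit.neg, ?_⟩
  have h3 : τ ^ (q - 1) * (v : R) = -((q : R) * (w : R)) := by
    rw [hv, hw]; exact eq_neg_of_add_eq_zero_left key2
  calc τ ^ (q - 1) = τ ^ (q - 1) * (v : R) * ((v⁻¹ : Rˣ) : R) := by
        rw [mul_assoc, Units.mul_inv, mul_one]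
    _ = (q : R) * -(((w * v⁻¹ : Rˣ)) : R) := by
        rw [h3, Units.val_mul]; ring

end Fermat.Agent.S36_helper20_TCA
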