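import Mathlib
import Fermat.Agent.S18_helper3_LOCRING
import Fermat.Agent.S18_helper9_CBasic
import Fermat.Agent.S34_helper18_CUSP
import Fermat.Agent.S36_helper20_TCA

/-!
# S36, piece GEO36-TCUSP (helper20): regularity at the cusps of the thick component

Abstract layer, Subring-of-`L` vocabulary.  `X` is the chart at infinity (the integral closure of
`O[1/j]` in `F1`), `m` a prime of `X` containing `1/j` through which the valuation ring `V2`
(`= V_mid`) passes, `θ₁ = j(Q^q)`, `θ₂ = j(Q^(q²))`.  With `ρ = j / θ₂` and `τ = ρ - 1`: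

* `S36TC_locIcl`  : the local ring `locRing X m` is integrally closed in `F1`;
* `S36TC_inv`     : `1/θ` is a non-unit of the local ring if `1/u` is and `(u, θ)` satisfy the
  modular relation `S34CUSP_Rel`;
* `S36TC_main`    : **`τ ^ (q - 1) = q · unit` in `locRing X m`**, in the form of the witnesses
  consumed by the `[ONE mid]` theorems: `t, c, s ∈ X`, `t ∈ m`, `c, s ∉ m`,
  `c * π = s * t ^ (q - 1)`, `t = s₀ * (j / θ₂ - 1)` with `s₀ ∈ X \ m`.
-/

set_option autoImplicit false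
set_option linter.unusedVariables false
set_option linter.unusedSectionVars false

open Polynomial Fermat.Agent.S18_helper9_CDefs Fermat.Agent.S18_helper9_CBasic
  Fermat.Agent.S18_helper3_LOCRING Fermat.Agent.S34_helper18_CUSP
  Fermat.Agent.S36_helper20_TCA

namespace Fermat.Agent.S36_helper20_TCUSP

variable {L : Type*} [Field L]

/-! ### the local ring is integrally closed -/

section LocIcl

variable (X : Subring L) (m : Ideal X) [hm : m.IsPrime]

/-- a common denominator for the coefficients of a polynomial over the local ring -/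
theorem S36TC_common_den (P : Polynomial (locRing X m)) :
    ∃ s : X, s ∉ m ∧ ∀ i, ((P.coeff i : locRing X m) : L) * (s : L) ∈ X := by
  classical
  have h : ∀ i, ∃ a c : X, c ∉ m ∧ ((P.coeff i : locRing X m) : L) * (c : L) = a :=
    fun i => (P.coeff i).2
  choose a c hc hac using h
  refine ⟨∏ i ∈ Finset.range (P.natDegree + 1), c i, ?_, fun i => ?_⟩
  · rw [Ideal.IsPrime.prod_mem_iff]
    rintro ⟨i, -, hi⟩
    exact hc i hi
  · by_cases hi : i ∈ Finset.range (P.natDegree + 1)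
    · rw [← Finset.mul_prod_erase _ _ hi]
      have e : ((P.coeff i : locRing X m) : L) *
          ((c i * ∏ k ∈ (Finset.range (P.natDegree + 1)).erase i, c k : X) : L) =
          ((a i * ∏ k ∈ (Finset.range (P.natDegree + 1)).erase i, c k : X) : L) := by
        rw [Subring.coe_mul, Subring.coe_mul, ← mul_assoc, hac i]
      rw [e]
      exact (a i * ∏ k ∈ (Finset.range (P.natDegree + 1)).erase i, c k).2
    · rw [Finset.mem_range, not_lt] at hi
      rw [Polynomial.coeff_eq_zero_of_natDegree_lt (by omega)]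
      simp

/-- **the local ring of a chart which is integrally closed in `F1` is integrally closed in
`F1`** -/
theorem S36TC_locIcl (F1 : Subfield L) (hXicl : ∀ y ∈ F1, IsIntegral X y → y ∈ X)
    (hXF : ∀ x ∈ X, x ∈ F1) {y : L} (hyF : y ∈ F1) (hy : IsIntegral (locRing X m) y) :
    y ∈ locRing X m := by
  obtain ⟨P, hPm, hPy⟩ := hy
  obtain ⟨s, hs, hsc⟩ := S36TC_common_den X m P
  set PL : L[X] := P.map (locRing X m).subtype with hPL
  have hPLm : PL.Monic := hPm.map _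
  have hPLd : PL.natDegree = P.natDegree := hPm.natDegree_map _
  have hPLy : PL.eval y = 0 := by
    rw [hPL, Polynomial.eval_map]
    exact hPy
  have hint : IsIntegral X ((s : L) * y) := by
    refine S34CUSP_isIntegral_of_coeff_mem X (Polynomial.scaleRoots PL (s : L))
      ((Polynomial.monic_scaleRoots_iff _).mpr hPLm) ?_ _ ?_
    · intro i
      rw [Polynomial.coeff_scaleRoots, hPLd]
      rcases Nat.lt_or_ge P.natDegree i with hi | hi
      · rw [Polynomial.coeff_eq_zero_of_natDegree_lt (by omega), zero_mul]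
        exact X.zero_mem
      rcases Nat.eq_or_lt_of_le hi with hi | hi
      · rw [hi, ← hPLd, hPLm.coeff_natDegree, Nat.sub_self, pow_zero, mul_one]
        exact X.one_mem
      · have h1 : P.natDegree - i = (P.natDegree - i - 1) + 1 := by omega
        rw [h1, pow_succ, ← mul_assoc, mul_right_comm]
        refine X.mul_mem ?_ (X.pow_mem s.2 _)
        rw [hPL, Polynomial.coeff_map]
        exact hsc i
    · rw [Polynomial.scaleRoots_eval_mul, hPLy, mul_zero]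
  have hmem : (s : L) * y ∈ X := hXicl _ (F1.mul_mem (hXF _ s.2) hyF) hint
  exact ⟨⟨_, hmem⟩, s, hs, mul_comm _ _⟩

end LocIcl

/-! ### non-units of the local ring -/

section NonUnit

variable (X : Subring L) (m : Ideal X) [hm : m.IsPrime]

/-- `y` is a non-unit of the local ring -/
def S36TC_NU (y : L) : Prop := ∃ a c : X, a ∈ m ∧ c ∉ m ∧ y * (c : L) = a

variable {X m}

theorem S36TC_NU.mem {y : L} (h : S36TC_NU X m y) : y ∈ locRing X m := by
  obtain ⟨a, c, -, hc, hac⟩ := h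
  exact ⟨a, c, hc, hac⟩

theorem S36TC_NU.mem_max {y : L} (h : S36TC_NU X m y) :
    (⟨y, h.mem⟩ : locRing X m) ∈ IsLocalRing.maximalIdeal (locRing X m) :=
  (mem_maximalIdeal_iff X m _).mpr h

theorem S36TC_NU_of_mem_max {y : locRing X m}
    (h : y ∈ IsLocalRing.maximalIdeal (locRing X m)) : S36TC_NU X m (y : L) :=
  (mem_maximalIdeal_iff X m _).mp h

theorem S36TC_NU_of_mem {a : X} (ha : a ∈ m) : S36TC_NU X m (a : L) :=
  ⟨a, 1, ha, fun h1 => hm.ne_top ((Ideal.eq_top_iff_one m).2 h1), by simp⟩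

theorem S36TC_NU.mul_left {y z : L} (hz : z ∈ locRing X m) (h : S36TC_NU X m y) :
    S36TC_NU X m (z * y) := by
  have := (IsLocalRing.maximalIdeal (locRing X m)).mul_mem_left ⟨z, hz⟩ h.mem_max
  exact S36TC_NU_of_mem_max this

theorem S36TC_NU.add {y z : L} (hy : S36TC_NU X m y) (hz : S36TC_NU X m z) :
    S36TC_NU X m (y + z) := by
  have := (IsLocalRing.maximalIdeal (locRing X m)).add_mem hy.mem_max hz.mem_max
  exact S36TC_NU_of_mem_max this

theorem S36TC_NU.of_pow {y : L} (hy : y ∈ locRing X m) (n : ℕ) (h : S36TC_NU X m (y ^ n)) :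
    S36TC_NU X m y := by
  have h1 : (⟨y, hy⟩ : locRing X m) ^ n ∈ IsLocalRing.maximalIdeal (locRing X m) := by
    have := h.mem_max
    convert this using 1
    exact Subtype.ext (by rw [SubmonoidClass.coe_pow])
  have := (IsLocalRing.maximalIdeal.isMaximal (locRing X m)).isPrime.mem_of_pow_mem n h1
  exact S36TC_NU_of_mem_max this

/-- `1 + (non-unit)` is a unit -/
theorem S36TC_inv_one_add {y : L} (h : S36TC_NU X m y) : (1 + y)⁻¹ ∈ locRing X m := by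
  have hu : IsUnit ((1 : locRing X m) + ⟨y, h.mem⟩) := by
    have h2 : (1 : locRing X m) + ⟨y, h.mem⟩ ∉ IsLocalRing.maximalIdeal (locRing X m) := by
      intro h3
      have h4 := (IsLocalRing.maximalIdeal (locRing X m)).sub_mem h3 h.mem_max
      rw [add_sub_cancel_right] at h4
      exact (IsLocalRing.maximalIdeal.isMaximal (locRing X m)).ne_top
        ((Ideal.eq_top_iff_one _).2 h4)
    by_contra hnu
    exact h2 ((IsLocalRing.mem_maximalIdeal _).mpr hnu)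
  obtain ⟨z, hz⟩ := hu.exists_right_inv
  have h1 : (1 + y) * (z : L) = 1 := congrArg Subtype.val hz
  have h2 : (1 + y)⁻¹ = (z : L) := by
    have h0 : (1 + y) ≠ 0 := fun h0 => by rw [h0, zero_mul] at h1; exact zero_ne_one h1
    field_simp
    linear_combination -h1
  rw [h2]
  exact z.2

end NonUnit

/-! ### the inverse of the second coordinate at a cusp -/

section Inv

variable {O X : Subring L} {F1 : Subfield L} {m : Ideal X} [hm : m.IsPrime] {q : ℕ}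

/-- **`1/θ` is a non-unit of the local ring at a cusp** if `1/u` is, for `(u, θ)` related by the
modular relation. -/
theorem S36TC_inv (hOX : O ≤ X) (hOF : (O : Set L) ⊆ F1)
    (hXicl : ∀ y ∈ F1, IsIntegral X y → y ∈ X) (hXF : ∀ x ∈ X, x ∈ F1)
    {u θ : L} (hu : u ≠ 0) (hθ : θ ≠ 0) (huF : u ∈ F1) (hθF : θ ∈ F1)
    (htr : Transcendental O u) (hrel : S34CUSP_Rel O u θ q)
    (hNU : S36TC_NU X m u⁻¹) : S36TC_NU X m θ⁻¹ := by
  obtain ⟨d, b, hb, hd, Q, hQm, hQd, hQS, hQc⟩ := S34CUSP_S_poly hu hθ htr hrel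
  have hadj : adj O u⁻¹ ≤ locRing X m :=
    adj_le (hOX.trans (le_locRing X m)) hNU.mem
  have hadjF : (adj O u⁻¹ : Set L) ⊆ F1 := S34CUSP_adj_le_F1 hOF (F1.inv_mem huF)
  have hbR : b ∈ locRing X m := hadj hb
  have hdF : d ∈ F1 := by
    rw [hd]
    exact F1.add_mem F1.one_mem (F1.mul_mem (F1.inv_mem huF) (hadjF hb))
  -- `S = d θ⁻¹` is integral over the local ring
  have hSint : IsIntegral (locRing X m) (d * θ⁻¹) := by
    refine S34CUSP_isIntegral_of_coeff_mem _ Q hQm ?_ _ hQS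
    intro i
    rcases Nat.lt_or_ge (q + 1) i with hi | hi
    · rw [Polynomial.coeff_eq_zero_of_natDegree_lt (by omega)]
      exact Subring.zero_mem _
    rcases Nat.eq_or_lt_of_le hi with hi | hi
    · rw [hi, ← hQd, hQm.coeff_natDegree]
      exact Subring.one_mem _
    · obtain ⟨c, hc, hcc⟩ := hQc i (by omega)
      rw [hcc]
      exact Subring.mul_mem _ hNU.mem (hadj hc)
  have hSR : d * θ⁻¹ ∈ locRing X m :=
    S36TC_locIcl X m F1 hXicl hXF (F1.mul_mem hdF (F1.inv_mem hθF)) hSint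
  -- `S ^ (q+1) ∈ u⁻¹ R`
  have hSpow : S36TC_NU X m ((d * θ⁻¹) ^ (q + 1)) := by
    have h1 : Q.eval (d * θ⁻¹) = (d * θ⁻¹) ^ (q + 1) +
        ∑ i ∈ Finset.range (q + 1), Q.coeff i * (d * θ⁻¹) ^ i := by
      rw [Polynomial.eval_eq_sum_range, hQd, Finset.sum_range_succ, ← hQd,
        hQm.coeff_natDegree, one_mul, add_comm]
    rw [hQS] at h1
    have h2 : (d * θ⁻¹) ^ (q + 1) =
        -∑ i ∈ Finset.range (q + 1), Q.coeff i * (d * θ⁻¹) ^ i :=
      eq_neg_of_add_eq_zero_left h1.symm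
    rw [h2]
    have h3 : S36TC_NU X m (∑ i ∈ Finset.range (q + 1), Q.coeff i * (d * θ⁻¹) ^ i) := by
      have h4 : ∀ i ∈ Finset.range (q + 1), ∃ hmem : Q.coeff i * (d * θ⁻¹) ^ i ∈ locRing X m,
          (⟨_, hmem⟩ : locRing X m) ∈ IsLocalRing.maximalIdeal (locRing X m) := by
        intro i hi
        obtain ⟨c, hc, hcc⟩ := hQc i (by rw [Finset.mem_range] at hi; omega)
        have h5 : S36TC_NU X m (Q.coeff i * (d * θ⁻¹) ^ i) := by
          rw [hcc, mul_assoc, mul_comm]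
          exact hNU.mul_left (Subring.mul_mem _ (hadj hc) (Subring.pow_mem _ hSR i))
        exact ⟨h5.mem, h5.mem_max⟩
      have h6 : ∀ s : Finset ℕ, s ⊆ Finset.range (q + 1) →
          S36TC_NU X m (∑ i ∈ s, Q.coeff i * (d * θ⁻¹) ^ i) := by
        intro s
        classical
        induction s using Finset.induction_on with
        | empty =>
            intro _
            rw [Finset.sum_empty]
            exact ⟨0, 1, m.zero_mem, fun h1 => hm.ne_top ((Ideal.eq_top_iff_one m).2 h1),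
              by simp⟩
        | insert i s hi ih =>
            intro hs
            rw [Finset.sum_insert hi]
            obtain ⟨hmem, hmax⟩ := h4 i (hs (Finset.mem_insert_self i s))
            exact (S36TC_NU_of_mem_max hmax).add
              (ih (fun k hk => hs (Finset.mem_insert_of_mem hk)))
      exact h6 _ (Finset.Subset.refl _)
    have h7 := (IsLocalRing.maximalIdeal (locRing X m)).neg_mem h3.mem_max
    exact S36TC_NU_of_mem_max h7
  have hSNU : S36TC_NU X m (d * θ⁻¹) := S36TC_NU.of_pow hSR (q + 1) hSpow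
  -- `d` is a unit
  have hdinv : d⁻¹ ∈ locRing X m := by
    rw [hd]
    exact S36TC_inv_one_add (hNU.mul_left hbR |> fun h => by rwa [mul_comm] at h)
  have hd0 : d ≠ 0 := by
    intro h0
    have h1 : (1 : L) + u⁻¹ * b = 0 := by rw [← hd, h0]
    have h2 : S36TC_NU X m (u⁻¹ * b) := by
      have := hNU.mul_left hbR
      rwa [mul_comm] at this
    have h3 := S36TC_inv_one_add h2
    rw [h1, inv_zero] at h3
    -- `1 = -(u⁻¹ b)` is a non-unit: contradiction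
    have h4 : (1 : L) = -(u⁻¹ * b) := by linear_combination h1
    have h5 := (IsLocalRing.maximalIdeal (locRing X m)).neg_mem h2.mem_max
    have h6 : (1 : locRing X m) ∈ IsLocalRing.maximalIdeal (locRing X m) := by
      convert h5 using 1
      exact Subtype.ext h4
    exact (IsLocalRing.maximalIdeal.isMaximal (locRing X m)).ne_top
      ((Ideal.eq_top_iff_one _).2 h6)
  have e : θ⁻¹ = d⁻¹ * (d * θ⁻¹) := by
    rw [← mul_assoc, inv_mul_cancel₀ hd0, one_mul]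
  rw [e]
  exact hSNU.mul_left hdinv

end Inv

/-! ### the modular equation at a cusp, Kronecker form -/

section Identity

variable (q : ℕ) (G : ℕ → ℤ[X])

/-- `Θ(w) = e₁ ∑_i b^(q-i) (reflect q G_i)(w)` -/
noncomputable def S36TC_ThetaL (e₁ b w : L) : L :=
  e₁ * ∑ i ∈ Finset.range (q + 1),
    b ^ (q - i) * eval₂ (Int.castRingHom L) w (reflect q (G i))

variable {q G}

/-- one term of the sum -/
theorem S36TC_term (hG : ∀ i, (G i).natDegree ≤ q) {j θ₁ Z : L} (hj : j ≠ 0) (hθ : θ₁ ≠ 0)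
    (hZ : Z ≠ 0) {i : ℕ} (hi : i ≤ q) :
    (Z * θ₁⁻¹) ^ (q + 1) * (eval₂ (Int.castRingHom L) (j / Z) (G i) * θ₁ ^ i) =
      Z * ((j ^ q * θ₁⁻¹) * (θ₁⁻¹ ^ (q - i) *
        eval₂ (Int.castRingHom L) (j⁻¹ * Z) (reflect q (G i)))) := by
  have hx : j / Z ≠ 0 := div_ne_zero hj hZ
  letI : Invertible (j / Z) := invertibleOfNonzero hx
  have h1 := Polynomial.eval₂_reflect_mul_pow (Int.castRingHom L) (j / Z) q (G i) (hG i)
  have h2 : ⅟(j / Z) = j⁻¹ * Z := by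
    rw [invOf_eq_inv, inv_div, div_eq_inv_mul]
  rw [h2] at h1
  rw [← h1]
  generalize eval₂ (Int.castRingHom L) (j⁻¹ * Z) (reflect q (G i)) = E
  obtain ⟨k, rfl⟩ : ∃ k, q = i + k := ⟨q - i, by omega⟩
  rw [Nat.add_sub_cancel_left, div_eq_mul_inv]
  have hxθ : θ₁⁻¹ * θ₁ = 1 := inv_mul_cancel₀ hθ
  have hZy : Z * Z⁻¹ = 1 := mul_inv_cancel₀ hZ
  generalize θ₁⁻¹ = x at hxθ ⊢
  generalize Z⁻¹ = y at hZy ⊢
  have hA : Z ^ (i + k) * y ^ (i + k) = 1 := by rw [← mul_pow, hZy, one_pow]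
  have hB : x ^ i * θ₁ ^ i = 1 := by rw [← mul_pow, hxθ, one_pow]
  linear_combination (Z * x * x ^ k * E * j ^ (i + k) * (x ^ i * θ₁ ^ i)) * hA +
    (Z * x * x ^ k * E * j ^ (i + k)) * hB

/-- **the modular equation in the coordinates of the cusp**, at `Z` -/
theorem S36TC_identity (hG : ∀ i, (G i).natDegree ≤ q) {j θ₁ Z : L} (hj : j ≠ 0)
    (hθ : θ₁ ≠ 0) (hZ : Z ≠ 0) :
    (Z * θ₁⁻¹) ^ (q + 1) * ((θ₁ ^ q - j / Z) * (θ₁ - (j / Z) ^ q) +
        (q : L) * ∑ i ∈ Finset.range (q + 1),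
          eval₂ (Int.castRingHom L) (j / Z) (G i) * θ₁ ^ i) =
      (Z ^ q - j ^ q * θ₁⁻¹) * (Z - j * θ₁⁻¹ ^ q) +
        (q : L) * (Z * S36TC_ThetaL q G (j ^ q * θ₁⁻¹) θ₁⁻¹ (j⁻¹ * Z)) := by
  have e1 : (Z * θ₁⁻¹) ^ (q + 1) * ((θ₁ ^ q - j / Z) * (θ₁ - (j / Z) ^ q)) =
      (Z ^ q - j ^ q * θ₁⁻¹) * (Z - j * θ₁⁻¹ ^ q) := by
    rw [div_eq_mul_inv]
    have hxθ : θ₁⁻¹ * θ₁ = 1 := inv_mul_cancel₀ hθ
    have hZy : Z * Z⁻¹ = 1 := mul_inv_cancel₀ hZ
    generalize θ₁⁻¹ = x at hxθ ⊢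
    generalize Z⁻¹ = y at hZy ⊢
    have hA : x ^ q * θ₁ ^ q = 1 := by rw [← mul_pow, hxθ, one_pow]
    have hD : Z ^ q * y ^ q = 1 := by rw [← mul_pow, hZy, one_pow]
    linear_combination (Z * (Z ^ q * (x * θ₁) - j ^ q * x * (Z ^ q * y ^ q))) * hA -
      (j * x ^ q * (Z ^ q * (x * θ₁) - j ^ q * x * (Z ^ q * y ^ q))) * hZy +
      ((Z - j * x ^ q) * Z ^ q) * hxθ - ((Z - j * x ^ q) * j ^ q * x) * hD
  have e2 : (Z * θ₁⁻¹) ^ (q + 1) * ∑ i ∈ Finset.range (q + 1),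
      eval₂ (Int.castRingHom L) (j / Z) (G i) * θ₁ ^ i =
      Z * S36TC_ThetaL q G (j ^ q * θ₁⁻¹) θ₁⁻¹ (j⁻¹ * Z) := by
    unfold S36TC_ThetaL
    rw [Finset.mul_sum, Finset.mul_sum, Finset.mul_sum]
    refine Finset.sum_congr rfl fun i hi => ?_
    rw [Finset.mem_range] at hi
    exact S36TC_term hG hj hθ hZ (by omega)
  rw [mul_add, e1, ← mul_assoc, mul_comm _ (q : L), mul_assoc, e2]

end Identity

/-! ### the main theorem -/

section Main

variable {O X : Subring L} {F1 : Subfield L} {m : Ideal X} [hm : m.IsPrime] {q : ℕ}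

/-- the polynomial `Θ` over the local ring -/
noncomputable def S36TC_Theta (G : ℕ → ℤ[X]) (e₁ b : locRing X m) : Polynomial (locRing X m) :=
  Polynomial.C e₁ * ∑ i ∈ Finset.range (q + 1),
    Polynomial.C (b ^ (q - i)) * (reflect q (G i)).map (Int.castRingHom (locRing X m))

theorem S36TC_Theta_eval (G : ℕ → ℤ[X]) (e₁ b w : locRing X m) :
    (((S36TC_Theta (q := q) G e₁ b).eval w : locRing X m) : L) =
      S36TC_ThetaL q G (e₁ : L) (b : L) (w : L) := by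
  unfold S36TC_Theta S36TC_ThetaL
  rw [Polynomial.eval_mul, Polynomial.eval_C, Polynomial.eval_finsetSum, Subring.coe_mul]
  congr 1
  have h1 : ∀ x : locRing X m, ((x : locRing X m) : L) = (locRing X m).subtype x := fun _ => rfl
  rw [h1, map_sum]
  refine Finset.sum_congr rfl fun i _ => ?_
  rw [Polynomial.eval_mul, Polynomial.eval_C, Polynomial.eval_map, map_mul, map_pow,
    Polynomial.hom_eval₂]
  have h2 : (locRing X m).subtype.comp (Int.castRingHom (locRing X m)) = Int.castRingHom L :=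
    RingHom.ext_int _ _
  rw [h2]
  rfl

/-- **Regularity at the cusps of the thick component**: the witnesses. -/
theorem S36TC_main (hq : q.Prime) {π j θ₁ θ₂ : L} {V2 : Subring L}
    (hOX : O ≤ X) (hOF : (O : Set L) ⊆ F1)
    (hXicl : ∀ y ∈ F1, IsIntegral X y → y ∈ X) (hXF : ∀ x ∈ X, x ∈ F1)
    (hjX : j⁻¹ ∈ X) (hjm : (⟨j⁻¹, hjX⟩ : X) ∈ m)
    (hj : j ≠ 0) (hθ₁ : θ₁ ≠ 0) (hθ₂ : θ₂ ≠ 0)
    (hjF : j ∈ F1) (hθ₁F : θ₁ ∈ F1) (hθ₂F : θ₂ ∈ F1)
    (htrj : Transcendental O j) (htrθ : Transcendental O θ₁)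
    (hrel1 : S34CUSP_Rel O j θ₁ q) (hrel1' : S34CUSP_Rel O θ₁ j q)
    (hrel2 : S34CUSP_Rel O θ₁ θ₂ q) (hrel2' : S34CUSP_Rel O θ₂ θ₁ q)
    (G : ℕ → ℤ[X]) (hG : ∀ i, (G i).natDegree ≤ q)
    (hKI : (θ₁ ^ q - j) * (θ₁ - j ^ q) + (q : L) * ∑ i ∈ Finset.range (q + 1),
      eval₂ (Int.castRingHom L) j (G i) * θ₁ ^ i = 0)
    (hKII : (θ₁ ^ q - θ₂) * (θ₁ - θ₂ ^ q) + (q : L) * ∑ i ∈ Finset.range (q + 1),
      eval₂ (Int.castRingHom L) θ₂ (G i) * θ₁ ^ i = 0)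
    (hXV : X ≤ V2) (hOn : ∀ x : X, (x : L)⁻¹ ∉ V2 → x ∈ m)
    (hπ : π⁻¹ ∉ V2) (hfrob : ∃ v ∈ V2, θ₁ - j ^ q = π * v)
    (hθ₂V : θ₂⁻¹ ∈ V2) (ht : (θ₂ - j)⁻¹ ∉ V2)
    (u₀ : L) (hu₀ : u₀ ∈ O) (hu₀' : u₀⁻¹ ∈ O) (hqπ : (q : L) = π * u₀) :
    ∃ t c s s₀ : X, t ∈ m ∧ c ∉ m ∧ s ∉ m ∧ s₀ ∉ m ∧
      (t : L) = (s₀ : L) * (j * θ₂⁻¹ - 1) ∧ (c : L) * π = (s : L) * (t : L) ^ (q - 1) := by
  have hq1 : 1 ≤ q := hq.one_lt.le
  have hq2 : 2 ≤ q := hq.two_le
  have h1m : (1 : X) ∉ m := fun h1 => hm.ne_top ((Ideal.eq_top_iff_one m).2 h1)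
  have hOR : O ≤ locRing X m := hOX.trans (le_locRing X m)
  -- the three inverses
  have ha : S36TC_NU X m j⁻¹ := S36TC_NU_of_mem hjm
  have hb : S36TC_NU X m θ₁⁻¹ :=
    S36TC_inv hOX hOF hXicl hXF hj hθ₁ hjF hθ₁F htrj hrel1 ha
  have hc₂ : S36TC_NU X m θ₂⁻¹ :=
    S36TC_inv hOX hOF hXicl hXF hθ₁ hθ₂ hθ₁F hθ₂F htrθ hrel2 hb
  -- `E₁ = j⁻¹ ^ q θ₁ ∈ X`
  have hE₁X : j⁻¹ ^ q * θ₁ ∈ X :=
    hXicl _ (F1.mul_mem (F1.pow_mem (F1.inv_mem hjF) q) hθ₁F)
      (isIntegral_mono (adj_le hOX hjX) (S34CUSP_H_isIntegral hq1 hj hrel1))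
  -- `1 - E₁ ∈ m`
  have h1E₁ : (1 - ⟨j⁻¹ ^ q * θ₁, hE₁X⟩ : X) ∈ m := by
    by_cases h0 : ((1 - ⟨j⁻¹ ^ q * θ₁, hE₁X⟩ : X) : L) = 0
    · have : (1 - ⟨j⁻¹ ^ q * θ₁, hE₁X⟩ : X) = 0 := Subtype.ext h0
      rw [this]; exact m.zero_mem
    · refine hOn _ fun hinv => hπ ?_
      obtain ⟨v, hv, hvv⟩ := hfrob
      have e1 : ((1 - ⟨j⁻¹ ^ q * θ₁, hE₁X⟩ : X) : L) = π * (-(j⁻¹ ^ q * v)) := by
        have : ((1 - ⟨j⁻¹ ^ q * θ₁, hE₁X⟩ : X) : L) = j⁻¹ ^ q * (j ^ q - θ₁) := by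
          push_cast
          rw [mul_sub, ← mul_pow, inv_mul_cancel₀ hj, one_pow]
        rw [this]
        have : j ^ q - θ₁ = -(π * v) := by rw [← hvv]; ring
        rw [this]; ring
      have hπ0 : π ≠ 0 := fun h => by rw [h, zero_mul] at e1; exact h0 e1
      have e2 : π⁻¹ = ((1 - ⟨j⁻¹ ^ q * θ₁, hE₁X⟩ : X) : L)⁻¹ * (-(j⁻¹ ^ q * v)) := by
        rw [e1, mul_inv, mul_assoc, inv_mul_cancel₀, mul_one]
        intro h
        rw [h, mul_zero] at e1
        exact h0 e1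
      rw [e2]
      exact V2.mul_mem hinv (V2.neg_mem (V2.mul_mem (V2.pow_mem (hXV hjX) q) hv))
  have hE₁m : (⟨j⁻¹ ^ q * θ₁, hE₁X⟩ : X) ∉ m := by
    intro h
    apply h1m
    have := m.add_mem h1E₁ h
    rwa [sub_add_cancel] at this
  -- `e₁ = j ^ q θ₁⁻¹ ∈ R`
  have he₁R : j ^ q * θ₁⁻¹ ∈ locRing X m := by
    have := inv_mem_locRing X m hE₁m
    have e : j ^ q * θ₁⁻¹ = (j⁻¹ ^ q * θ₁)⁻¹ := by
      rw [mul_inv, inv_pow, inv_inv]
    rw [e]; exact this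
  -- `E' = j θ₁⁻¹ ^ q`
  have hE'R : j * θ₁⁻¹ ^ q ∈ locRing X m := by
    refine S36TC_locIcl X m F1 hXicl hXF
      (F1.mul_mem hjF (F1.pow_mem (F1.inv_mem hθ₁F) q)) ?_
    have := S34CUSP_H_isIntegral hq1 hθ₁ hrel1'
    rw [mul_comm] at this
    exact isIntegral_mono (adj_le hOR hb.mem) this
  have hE'NU : S36TC_NU X m (j * θ₁⁻¹ ^ q) := by
    obtain ⟨n, hn⟩ : ∃ n, q = n + 2 := ⟨q - 2, by omega⟩
    have e : j * θ₁⁻¹ ^ q = (j ^ q * θ₁⁻¹) * (θ₁⁻¹ ^ (n + 1) * j⁻¹ ^ n) * j⁻¹ := by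
      rw [hn]
      have hjj : j * j⁻¹ = 1 := mul_inv_cancel₀ hj
      generalize j⁻¹ = ji at hjj ⊢
      generalize θ₁⁻¹ = x
      have hA : j ^ (n + 1) * ji ^ (n + 1) = 1 := by rw [← mul_pow, hjj, one_pow]
      linear_combination (-(j * x ^ (n + 2))) * hA
    rw [e]
    exact ha.mul_left (Subring.mul_mem _ he₁R
      (Subring.mul_mem _ (Subring.pow_mem _ hb.mem _) (Subring.pow_mem _ ha.mem _)))
  -- `E₂' = θ₂⁻¹ ^ q θ₁`
  have hE₂R : θ₂⁻¹ ^ q * θ₁ ∈ locRing X m := by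
    refine S36TC_locIcl X m F1 hXicl hXF
      (F1.mul_mem (F1.pow_mem (F1.inv_mem hθ₂F) q) hθ₁F) ?_
    exact isIntegral_mono (adj_le hOR hc₂.mem) (S34CUSP_H_isIntegral hq1 hθ₂ hrel2')
  -- `ρ = j θ₂⁻¹`
  have hρR : j * θ₂⁻¹ ∈ locRing X m := by
    refine S36TC_locIcl X m F1 hXicl hXF (F1.mul_mem hjF (F1.inv_mem hθ₂F)) ?_
    refine IsIntegral.of_pow (n := q) (by omega) ?_
    have e : (j * θ₂⁻¹) ^ q = (j ^ q * θ₁⁻¹) * (θ₂⁻¹ ^ q * θ₁) := by
      have hxθ : θ₁⁻¹ * θ₁ = 1 := inv_mul_cancel₀ hθ₁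
      generalize θ₁⁻¹ = x at hxθ ⊢
      generalize θ₂⁻¹ = y
      linear_combination (-(j ^ q * y ^ q)) * hxθ
    rw [e]
    exact isIntegral_of_mem _ (Subring.mul_mem _ he₁R hE₂R)
  -- `τ = ρ - 1` is a non-unit
  have htj0 : θ₂ - j ≠ 0 := by
    intro h
    apply ht
    rw [h, inv_zero]
    exact V2.zero_mem
  have hτR : j * θ₂⁻¹ - 1 ∈ locRing X m := Subring.sub_mem _ hρR (Subring.one_mem _)
  have hτ0 : j * θ₂⁻¹ - 1 ≠ 0 := by
    intro h
    apply htj0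
    field_simp at h
    linear_combination -h
  obtain ⟨x₀, s₀, hs₀, hxs⟩ := hτR
  have hx₀m : x₀ ∈ m := by
    refine hOn x₀ fun hinv => ht ?_
    have hx0 : (x₀ : L) ≠ 0 := by
      rw [← hxs]
      exact mul_ne_zero hτ0 (coe_ne_zero_of_notMem X m hs₀)
    have e : (θ₂ - j)⁻¹ = -(θ₂⁻¹ * ((s₀ : L) * (x₀ : L)⁻¹)) := by
      refine inv_eq_of_mul_eq_one_right ?_
      have h1 : θ₂ * θ₂⁻¹ = 1 := mul_inv_cancel₀ hθ₂
      have h2 : (x₀ : L) * (x₀ : L)⁻¹ = 1 := mul_inv_cancel₀ hx0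
      have h3 := hxs
      generalize θ₂⁻¹ = y at h1 h3 ⊢
      generalize (x₀ : L)⁻¹ = w at h2 ⊢
      linear_combination (-((s₀ : L) * w)) * h1 + h2 + w * h3
    rw [e]
    exact V2.neg_mem (V2.mul_mem hθ₂V (V2.mul_mem (hXV s₀.2) hinv))
  have hτNU : S36TC_NU X m (j * θ₂⁻¹ - 1) := ⟨x₀, s₀, hx₀m, hs₀, hxs⟩
  -- the data in the local ring
  set R := locRing X m with hR
  set e₁ : R := ⟨j ^ q * θ₁⁻¹, he₁R⟩ with he₁
  set E' : R := ⟨j * θ₁⁻¹ ^ q, hE'R⟩ with hE'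
  set a : R := ⟨j⁻¹, ha.mem⟩ with hadef
  set b : R := ⟨θ₁⁻¹, hb.mem⟩ with hbdef
  set ρ : R := ⟨j * θ₂⁻¹, hρR⟩ with hρ
  have hρ1 : ρ ≠ 1 := by
    intro h
    apply hτ0
    have := congrArg Subtype.val h
    simp only [hρ] at this
    rw [this]
    simp
  have hidρ := S36TC_identity (q := q) (G := G) hG hj hθ₁ (Z := j * θ₂⁻¹)
    (mul_ne_zero hj (inv_ne_zero hθ₂))
  have hjρ : j / (j * θ₂⁻¹) = θ₂ := by field_simp
  rw [hjρ, hKII, mul_zero] at hidρ
  have hid1 := S36TC_identity (q := q) (G := G) hG hj hθ₁ (Z := 1) one_ne_zero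
  rw [div_one, hKI, mul_zero] at hid1
  have h1 : (1 - e₁) * (1 - E') + (q : R) * (S36TC_Theta (q := q) G e₁ b).eval a = 0 := by
    apply Subtype.ext
    push_cast
    rw [S36TC_Theta_eval]
    simp only [he₁, hE', hadef, hbdef]
    have := hid1.symm
    rw [one_pow, mul_one, one_mul] at this
    exact this
  have hρ0 : (ρ ^ q - e₁) * (ρ - E') +
      (q : R) * (ρ * (S36TC_Theta (q := q) G e₁ b).eval (a * ρ)) = 0 := by
    apply Subtype.ext
    push_cast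
    rw [S36TC_Theta_eval]
    simp only [he₁, hE', hadef, hbdef, hρ]
    exact hidρ.symm
  obtain ⟨u, hu, hτu⟩ := S36TCA_core q hq e₁ E' a ρ (S36TC_Theta (q := q) G e₁ b)
    ha.mem_max hE'NU.mem_max (by
      have := hτNU.mem_max
      have e : (ρ - 1 : R) = ⟨j * θ₂⁻¹ - 1, hτNU.mem⟩ := Subtype.ext rfl
      rw [e]; exact this) hρ1 h1 hρ0
  -- clear the denominators
  obtain ⟨y₁, s₁, hs₁, hus⟩ := u.2
  have hy₁ : y₁ ∉ m := (isUnit_iff X m u).mp hu y₁ s₁ hs₁ hus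
  have hu₀X : u₀ ∈ X := hOX hu₀
  have hu₀m : (⟨u₀, hu₀X⟩ : X) ∉ m := by
    intro h
    apply h1m
    have h2 : (⟨u₀⁻¹, hOX hu₀'⟩ : X) * ⟨u₀, hu₀X⟩ = 1 := by
      apply Subtype.ext
      show u₀⁻¹ * u₀ = 1
      refine inv_mul_cancel₀ fun h0 => ?_
      have hq0 : (q : L) = 0 := by rw [hqπ, h0, mul_zero]
      have hτq : ((ρ - 1) ^ (q - 1) : R) = 0 := by
        rw [hτu]
        apply Subtype.ext
        push_cast
        rw [hq0, zero_mul]
      have := pow_eq_zero_iff (n := q - 1) (by omega) |>.mp hτq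
      exact hρ1 (sub_eq_zero.mp this)
    rw [← h2]
    exact m.mul_mem_left _ h
  refine ⟨x₀, ⟨u₀, hu₀X⟩ * s₀ ^ (q - 1) * y₁, s₁, s₀, hx₀m, ?_, hs₁, hs₀, ?_, ?_⟩
  · intro h
    rcases hm.mem_or_mem h with h | h
    · rcases hm.mem_or_mem h with h | h
      · exact hu₀m h
      · exact hs₀ (hm.mem_of_pow_mem _ h)
    · exact hy₁ h
  · rw [← hxs, mul_comm]
  · have hτL : (j * θ₂⁻¹ - 1) ^ (q - 1) = (q : L) * (u : L) := by
      have := congrArg Subtype.val hτu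
      simpa [hρ] using this
    push_cast
    rw [← hxs, mul_pow, hτL, hqπ, ← hus]
    ring

end Main

end Fermat.Agent.S36_helper20_TCUSP
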