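import Mathlib
import Fermat.Agent.S36_helper20_TCUSP

/-!
# S36, piece GEO36-TCUSP-LOC (helper20): (MID-LOC) at the cusps of the thick component

The output of `S36TC_main` in the consumer shape of helper19's `S36MI_one` (hypothesis `hloc`):
`τ, u ∈ locRing X m`, `τ` a uniformiser of `V_mid`, `π = τ * u`.

`τ := t = s₀ (j / θ₂ - 1) = -(s₀ / θ₂) (θ₂ - j)` (`s₀ ∈ X ∖ m` is a unit of `V_mid` since `V_mid`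
passes through `m`, `θ₂` is a unit of `V_mid`, `θ₂ - j` is a uniformiser of `V_mid`),
`u := s t ^ (q - 2) / c`.
-/

set_option autoImplicit false
set_option linter.unusedVariables false
set_option linter.unusedSectionVars false

open Polynomial Fermat.Agent.S18_helper9_CDefs Fermat.Agent.S18_helper9_CBasic
  Fermat.Agent.S18_helper3_LOCRING Fermat.Agent.S34_helper18_CUSP
  Fermat.Agent.S36_helper20_TCA Fermat.Agent.S36_helper20_TCUSP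

namespace Fermat.Agent.S36_helper20_TCUSPL

variable {L : Type*} [Field L]

/-- from the chart witnesses to (MID-LOC): pure algebra. -/
theorem S36TCL_of_witness {X V2 : Subring L} {m : Ideal X} [hm : m.IsPrime] {q : ℕ}
    (hq2 : 2 ≤ q) {π j θ₂ : L} (hXV : X ≤ V2) (hOn : ∀ x : X, (x : L)⁻¹ ∉ V2 → x ∈ m)
    (hθ₂ : θ₂ ≠ 0) (hθ₂V : θ₂⁻¹ ∈ V2) (hθ₂V' : θ₂ ∈ V2) (ht : (θ₂ - j)⁻¹ ∉ V2)
    (hunif : ∀ y ∈ V2, y⁻¹ ∉ V2 → ∃ v ∈ V2, y = (θ₂ - j) * v)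
    (t c s s₀ : X) (hc : c ∉ m) (hs₀ : s₀ ∉ m)
    (hts : (t : L) = (s₀ : L) * (j * θ₂⁻¹ - 1))
    (hcπ : (c : L) * π = (s : L) * (t : L) ^ (q - 1)) :
    ∃ τ u : L, τ ∈ locRing X m ∧ u ∈ locRing X m ∧ τ⁻¹ ∉ V2 ∧
      (∀ y ∈ V2, y⁻¹ ∉ V2 → ∃ v ∈ V2, y = τ * v) ∧ π = τ * u := by
  have hs₀0 : (s₀ : L) ≠ 0 := coe_ne_zero_of_notMem X m hs₀
  have hc0 : (c : L) ≠ 0 := coe_ne_zero_of_notMem X m hc
  have hs₀inv : (s₀ : L)⁻¹ ∈ V2 := by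
    by_contra hcon
    exact hs₀ (hOn s₀ hcon)
  -- `t = w * (θ₂ - j)` with `w = -(s₀ θ₂⁻¹)` a unit of `V2`
  have htw : (t : L) = (-((s₀ : L) * θ₂⁻¹)) * (θ₂ - j) := by
    rw [hts]
    have h1 : θ₂⁻¹ * θ₂ = 1 := inv_mul_cancel₀ hθ₂
    generalize θ₂⁻¹ = y at h1 ⊢
    linear_combination (s₀ : L) * h1
  have hwV : -((s₀ : L) * θ₂⁻¹) ∈ V2 := V2.neg_mem (V2.mul_mem (hXV s₀.2) hθ₂V)
  have hwinv : (-((s₀ : L) * θ₂⁻¹))⁻¹ = -((s₀ : L)⁻¹ * θ₂) := by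
    rw [inv_neg, mul_inv, inv_inv]
  have hwV' : (-((s₀ : L) * θ₂⁻¹))⁻¹ ∈ V2 := by
    rw [hwinv]
    exact V2.neg_mem (V2.mul_mem hs₀inv hθ₂V')
  have hw0 : -((s₀ : L) * θ₂⁻¹) ≠ 0 :=
    neg_ne_zero.mpr (mul_ne_zero hs₀0 (inv_ne_zero hθ₂))
  refine ⟨(t : L), (s : L) * (t : L) ^ (q - 2) * (c : L)⁻¹, le_locRing X m t.2,
    Subring.mul_mem _ (le_locRing X m (X.mul_mem s.2 (X.pow_mem t.2 _)))
      (inv_mem_locRing X m hc), ?_, ?_, ?_⟩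
  · intro h
    apply ht
    have e : (θ₂ - j)⁻¹ = (-((s₀ : L) * θ₂⁻¹)) * (t : L)⁻¹ := by
      rw [htw, mul_inv, ← mul_assoc, mul_inv_cancel₀ hw0, one_mul]
    rw [e]
    exact V2.mul_mem hwV h
  · intro y hy hynu
    obtain ⟨v, hv, hyv⟩ := hunif y hy hynu
    refine ⟨(-((s₀ : L) * θ₂⁻¹))⁻¹ * v, V2.mul_mem hwV' hv, ?_⟩
    rw [hyv, htw]
    have h1 : (-((s₀ : L) * θ₂⁻¹)) * (-((s₀ : L) * θ₂⁻¹))⁻¹ = 1 := mul_inv_cancel₀ hw0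
    generalize (-((s₀ : L) * θ₂⁻¹))⁻¹ = w' at h1 ⊢
    generalize (-((s₀ : L) * θ₂⁻¹)) = w at h1 ⊢
    linear_combination (-((θ₂ - j) * v)) * h1
  · obtain ⟨n, rfl⟩ : ∃ n, q = n + 2 := ⟨q - 2, by omega⟩
    have e1 : n + 2 - 1 = n + 1 := by omega
    have e2 : n + 2 - 2 = n := by omega
    rw [e1] at hcπ
    rw [e2]
    have h1 : (c : L) * (c : L)⁻¹ = 1 := mul_inv_cancel₀ hc0
    generalize (c : L)⁻¹ = ci at h1 ⊢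
    linear_combination (-π) * h1 + ci * hcπ

variable {O X : Subring L} {F1 : Subfield L} {m : Ideal X} [hm : m.IsPrime] {q : ℕ}

/-- **(MID-LOC) at the cusps of the thick component**: the hypothesis `hloc` of helper19's
`S36MI_one`, from the hypotheses of `S36TC_main` and the fact that `θ₂ - j` is a uniformiser of
`V2 = V_mid`. -/
theorem S36TCL_hloc (hq : q.Prime) {π j θ₁ θ₂ : L} {V2 : Subring L}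
    (hOX : O ≤ X) (hOF : (O : Set L) ⊆ F1)
    (hXicl : ∀ y ∈ F1, IsIntegral X y → y ∈ X) (hXF : ∀ x ∈ X, x ∈ F1)
    (hjX : j⁻¹ ∈ X) (hjm : (⟨j⁻¹, hjX⟩ : X) ∈ m)
    (hj : j ≠ 0) (hθ₁ : θ₁ ≠ 0) (hθ₂ : θ₂ ≠ 0)
    (hjF : j ∈ F1) (hθ₁F : θ₁ ∈ F1) (hθ₂F : θ₂ ∈ F1)
    (htrj : Transcendental O j) (htrθ : Transcendental O θ₁)
    (hrel1 : S34CUSP_Rel O j θ₁ q) (hrel1' : S34CUSP_Rel O θ₁ j q)
    (hrel2 : S34CUSP_Rel O θ₁ θ₂ q) (hrel2' : S34CUSP_Rel O θ₂ θ₁ q)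
    (G : ℕ → ℤ[X]) (hG : ∀ i, (G i).natDegree ≤ q)
    (hKI : (θ₁ ^ q - j) * (θ₁ - j ^ q) + (q : L) * ∑ i ∈ Finset.range (q + 1),
      eval₂ (Int.castRingHom L) j (G i) * θ₁ ^ i = 0)
    (hKII : (θ₁ ^ q - θ₂) * (θ₁ - θ₂ ^ q) + (q : L) * ∑ i ∈ Finset.range (q + 1),
      eval₂ (Int.castRingHom L) θ₂ (G i) * θ₁ ^ i = 0)
    (hXV : X ≤ V2) (hOn : ∀ x : X, (x : L)⁻¹ ∉ V2 → x ∈ m)
    (hπ : π⁻¹ ∉ V2) (hfrob : ∃ v ∈ V2, θ₁ - j ^ q = π * v)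
    (hθ₂V : θ₂⁻¹ ∈ V2) (hθ₂V' : θ₂ ∈ V2) (ht : (θ₂ - j)⁻¹ ∉ V2)
    (hunif : ∀ y ∈ V2, y⁻¹ ∉ V2 → ∃ v ∈ V2, y = (θ₂ - j) * v)
    (u₀ : L) (hu₀ : u₀ ∈ O) (hu₀' : u₀⁻¹ ∈ O) (hqπ : (q : L) = π * u₀) :
    ∃ τ u : L, τ ∈ locRing X m ∧ u ∈ locRing X m ∧ τ⁻¹ ∉ V2 ∧
      (∀ y ∈ V2, y⁻¹ ∉ V2 → ∃ v ∈ V2, y = τ * v) ∧ π = τ * u := by
  obtain ⟨t, c, s, s₀, -, hc, -, hs₀, hts, hcπ⟩ :=
    S36TC_main hq hOX hOF hXicl hXF hjX hjm hj hθ₁ hθ₂ hjF hθ₁F hθ₂F htrj htrθ hrel1 hrel1'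
      hrel2 hrel2' G hG hKI hKII hXV hOn hπ hfrob hθ₂V ht u₀ hu₀ hu₀' hqπ
  exact S36TCL_of_witness hq.two_le hXV hOn hθ₂ hθ₂V hθ₂V' ht hunif t c s s₀ hc hs₀ hts hcπ

end Fermat.Agent.S36_helper20_TCUSPL
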