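import Mathlib
import Fermat.Agent.S36_helper20_TCUSPL
import Fermat.Agent.S36_helper23_TCUSPIN
import Fermat.Agent.S34_helper8_MODEQ
import Fermat.Agent.S34_helper18_CUSPK
import Fermat.Agent.S18_helper14_AK

/-!
# S36, piece GEO36-TCUSP-K (helper20): the thick cusps at the carriers

`X = S18K_Ainf A K1 (M' * q * q)` (the chart at infinity of level `M' q²`), `V2` any ring with
`S36VK_IsMid A K1 q M' V2` (e.g. `S36VK_Vmid`), `m` a prime of `X` containing `1 / j` through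
which `V2` passes (`S36ONE_On V2 X m`), `θ₂ = j(Q^(q²))`:

* `S36TCK_trans_j`, `S36TCK_trans_th1` : `j`, `j(Q^q)` are transcendental over `O`;
* `S36TCK_rels` : the four modular relations `S34CUSP_Rel` for `(j, θ₁)`, `(θ₁, j)`,
  `(θ₁, θ₂)`, `(θ₂, θ₁)`, over any subring `O`;
* `S36TCK_wit_of_kron` : **the witnesses `t, c, s, s₀ ∈ X`** (`t ∈ m`, `c, s, s₀ ∉ m`,
  `t = s₀ (j / θ₂ - 1)`, `c π = s t ^ (q - 1)`) = the hypothesis `hwit` of helper19's
  `S36MIK_one_inf_wit`, from a Kronecker family `G` (`hKI`, `hKII`);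
* `S36TCK_hloc_of_kron` : the same in the (MID-LOC) form `hloc`.
-/

set_option autoImplicit false
set_option linter.unusedVariables false
set_option linter.unusedSectionVars false
set_option linter.style.haveILetI false

noncomputable section

open ModularCurve Polynomial
open Fermat.Agent.S18_helper13_GAUSS Fermat.Agent.S18_helper9_CDefs
  Fermat.Agent.S18_helper9_CBasic Fermat.Agent.S18_helper3_LOCRING
  Fermat.Agent.S18_helper25_COREDefs Fermat.Agent.S34_helper12_CDefs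
  Fermat.Agent.S34_helper27_C2Defs Fermat.Agent.S34_helper18_CUSP
  Fermat.Agent.S34_helper14_MEW Fermat.Agent.S34_helper8_MODEQ
  Fermat.Agent.S36_helper5_VKDefs Fermat.Agent.S36_helper23_TCUSPIN
  Fermat.Agent.S36_helper20_TCUSP Fermat.Agent.S36_helper20_TCUSPL

namespace Fermat.Agent.S36_helper20_TCUSPK

/-! ### the modular relations for `(θ₁, θ₂)` -/

section Rels

variable {K1 : Type*} [Field K1] (O : Subring (LaurentSeries K1)) (q : ℕ) [NeZero q]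
  [NeZero (q * q)]

/-- **the four modular relations** between `j`, `θ₁ = j(Q^q)` and `θ₂ = j(Q^(q²))`. -/
theorem S36TCK_rels (hq : q.Prime) :
    S34CUSP_Rel O (jqModC K1) (qExpand K1 q (jqModC K1)) q ∧
    S34CUSP_Rel O (qExpand K1 q (jqModC K1)) (jqModC K1) q ∧
    S34CUSP_Rel O (qExpand K1 q (jqModC K1)) (qExpand K1 (q * q) (jqModC K1)) q ∧
    S34CUSP_Rel O (qExpand K1 (q * q) (jqModC K1)) (qExpand K1 q (jqModC K1)) q := by
  obtain ⟨a, h1, h2, h3, h4, h5⟩ := S34ME_rel K1 q hq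
  have h4' := congrArg (qExpand K1 q) h4
  have h5' := congrArg (qExpand K1 q) h5
  simp only [map_add, map_pow, map_sum, map_mul, map_zero, S34MEW_map_eval₂,
    qExpand_qExpand] at h4' h5'
  exact ⟨(S34ME_cuspRel O q hq).1, (S34ME_cuspRel O q hq).2,
    S34CUSP_rel_of_relSum (S34MEW_relSum_of O _ _ q a h1 h2 h3 h4'),
    S34CUSP_rel_of_relSum (S34MEW_relSum_of O _ _ q a h1 h2 h3 h5')⟩

end Rels

/-! ### the carriers -/

section Carriers

variable (A : ValuationSubring (AlgebraicClosure ℚ))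
  (K1 : IntermediateField ℚ (AlgebraicClosure ℚ))

variable [IsDiscreteValuationRing (S18K_O1 A K1)]

/-- `j` is transcendental over the constants -/
theorem S36TCK_trans_j : Transcendental (S18K_O A K1) (jqModC K1) := by
  rw [Fermat.Agent.S18AK.S18K_O_eq]
  exact Fermat.Agent.S18A.jq_transcendental

/-- `θ₁ = j(Q^q)` is transcendental over the constants -/
theorem S36TCK_trans_th1 (q : ℕ) [NeZero q] :
    Transcendental (S18K_O A K1) (qExpand K1 q (jqModC K1)) :=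
  Fermat.Agent.S34_helper18_CUSPK.S34CUSPK_trans A K1 q (S36TCK_trans_j A K1)

variable (q M' : ℕ) [NeZero M'] [NeZero (M' * q)] [NeZero (M' * q * q)] [NeZero q]
  [NeZero (q ^ 2)] [NeZero (q * q)]

/-- **THE WITNESSES AT A THICK CUSP, AT THE CARRIERS** (hypothesis `hwit` of helper19's
`S36MIK_one_inf_wit`), from a Kronecker family `G`. -/
theorem S36TCK_wit_of_kron (hq : q.Prime) (hqM : ¬ q ∣ M') (hA : A.LiesOverPrime q)
    (hunr : Associated (S18K_D A K1).π ((q : ℕ) : S18K_O1 A K1))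
    {V2 : Subring (LaurentSeries K1)} (hmid : S36VK_IsMid A K1 q M' V2)
    (hXV : S18K_Ainf A K1 (M' * q * q) ≤ V2)
    (G : ℕ → ℤ[X]) (hG : ∀ i, (G i).natDegree ≤ q)
    (hKI : ((qExpand K1 q (jqModC K1)) ^ q - jqModC K1) *
        (qExpand K1 q (jqModC K1) - (jqModC K1) ^ q) +
      (q : LaurentSeries K1) * ∑ i ∈ Finset.range (q + 1),
        eval₂ (Int.castRingHom (LaurentSeries K1)) (jqModC K1) (G i) *
          (qExpand K1 q (jqModC K1)) ^ i = 0)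
    (hKII : ((qExpand K1 q (jqModC K1)) ^ q - qExpand K1 (q * q) (jqModC K1)) *
        (qExpand K1 q (jqModC K1) - (qExpand K1 (q * q) (jqModC K1)) ^ q) +
      (q : LaurentSeries K1) * ∑ i ∈ Finset.range (q + 1),
        eval₂ (Int.castRingHom (LaurentSeries K1)) (qExpand K1 (q * q) (jqModC K1)) (G i) *
          (qExpand K1 q (jqModC K1)) ^ i = 0)
    (m : Ideal (S18K_Ainf A K1 (M' * q * q))) [hm : m.IsPrime]
    (hjX : (S18K_j K1)⁻¹ ∈ S18K_Ainf A K1 (M' * q * q))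
    (hjm : (⟨(S18K_j K1)⁻¹, hjX⟩ : S18K_Ainf A K1 (M' * q * q)) ∈ m)
    (hOn : ∀ a : S18K_Ainf A K1 (M' * q * q), ((a : LaurentSeries K1))⁻¹ ∉ V2 → a ∈ m) :
    ∃ t c s s₀ : S18K_Ainf A K1 (M' * q * q), t ∈ m ∧ c ∉ m ∧ s ∉ m ∧ s₀ ∉ m ∧
      (t : LaurentSeries K1) = (s₀ : LaurentSeries K1) *
        (S18K_j K1 * (qExpand K1 (q * q) (jqModC K1))⁻¹ - 1) ∧
      (c : LaurentSeries K1) * S18K_π A K1 =
        (s : LaurentSeries K1) * (t : LaurentSeries K1) ^ (q - 1) := by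
  have hN1 : M' * q = q * M' := Nat.mul_comm _ _
  have hXF : ∀ x ∈ S18K_Ainf A K1 (M' * q * q), x ∈ S18K_F1 K1 (M' * q * q) :=
    fun x hx => hx.2
  have hOX := S36TCI_O_le A K1 (M' * q * q)
  obtain ⟨hrel1, hrel1', hrel2, hrel2'⟩ := S36TCK_rels (K1 := K1) (S18K_O A K1) q hq
  obtain ⟨u₀, -, hu₀, hu₀', hqπ⟩ := S36TCI_q_pi A K1 q hunr
  have hV2F : ∀ x ∈ V2, x ∈ S18K_F1 K1 (M' * q * q) := fun x hx => hmid.1.le hx
  exact S36TC_main (O := S18K_O A K1) (X := S18K_Ainf A K1 (M' * q * q))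
    (F1 := S18K_F1 K1 (M' * q * q)) (m := m) (π := S18K_π A K1) (j := jqModC K1)
    (θ₁ := qExpand K1 q (jqModC K1)) (θ₂ := qExpand K1 (q * q) (jqModC K1)) (V2 := V2)
    hq hOX (fun x hx => hXF x (hOX hx)) (S36TCI_ic A K1 (M' * q * q)) hXF hjX hjm
    (jqModC_ne_zero_of_nontrivial K1) (S36TCI_jn_unit A K1 q).1 (S36TCI_jn_unit A K1 (q * q)).1
    (hV2F _ (S36TCI_j_unit_mid A K1 q M' hmid).1)
    (hV2F _ (S36TCI_th1_unit_mid A K1 q M' hq hqM hN1 hmid).1)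
    (hV2F _ (S36TCI_th2_unit_mid A K1 q M' hmid).1)
    (S36TCK_trans_j A K1) (S36TCK_trans_th1 A K1 q) hrel1 hrel1' hrel2 hrel2' G hG hKI hKII
    hXV hOn hmid.1.π_nonunit (S36TCI_frob_mid A K1 q M' hq hqM hN1 hA hmid)
    (S36TCI_th2_unit_mid A K1 q M' hmid).2 (S36TCI_t_nonunit A K1 q M' hmid)
    u₀ hu₀ hu₀' hqπ

/-- **(MID-LOC) AT A THICK CUSP, AT THE CARRIERS** (hypothesis `hloc` of helper19's
`S36MIK_one_inf` / `S36MI_one`), from a Kronecker family `G` and the uniformiser property of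
`t = θ₂ - j`. -/
theorem S36TCK_hloc_of_kron (hq : q.Prime) (hqM : ¬ q ∣ M') (hA : A.LiesOverPrime q)
    (hunr : Associated (S18K_D A K1).π ((q : ℕ) : S18K_O1 A K1))
    {V2 : Subring (LaurentSeries K1)} (hmid : S36VK_IsMid A K1 q M' V2)
    (hunif : ∀ y ∈ V2, y⁻¹ ∉ V2 → ∃ v ∈ V2, y = S36VK_t K1 q * v)
    (hXV : S18K_Ainf A K1 (M' * q * q) ≤ V2)
    (G : ℕ → ℤ[X]) (hG : ∀ i, (G i).natDegree ≤ q)
    (hKI : ((qExpand K1 q (jqModC K1)) ^ q - jqModC K1) *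
        (qExpand K1 q (jqModC K1) - (jqModC K1) ^ q) +
      (q : LaurentSeries K1) * ∑ i ∈ Finset.range (q + 1),
        eval₂ (Int.castRingHom (LaurentSeries K1)) (jqModC K1) (G i) *
          (qExpand K1 q (jqModC K1)) ^ i = 0)
    (hKII : ((qExpand K1 q (jqModC K1)) ^ q - qExpand K1 (q * q) (jqModC K1)) *
        (qExpand K1 q (jqModC K1) - (qExpand K1 (q * q) (jqModC K1)) ^ q) +
      (q : LaurentSeries K1) * ∑ i ∈ Finset.range (q + 1),
        eval₂ (Int.castRingHom (LaurentSeries K1)) (qExpand K1 (q * q) (jqModC K1)) (G i) *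
          (qExpand K1 q (jqModC K1)) ^ i = 0)
    (m : Ideal (S18K_Ainf A K1 (M' * q * q))) [hm : m.IsPrime]
    (hjX : (S18K_j K1)⁻¹ ∈ S18K_Ainf A K1 (M' * q * q))
    (hjm : (⟨(S18K_j K1)⁻¹, hjX⟩ : S18K_Ainf A K1 (M' * q * q)) ∈ m)
    (hOn : ∀ a : S18K_Ainf A K1 (M' * q * q), ((a : LaurentSeries K1))⁻¹ ∉ V2 → a ∈ m) :
    ∃ τ u : LaurentSeries K1, τ ∈ locRing (S18K_Ainf A K1 (M' * q * q)) m ∧
      u ∈ locRing (S18K_Ainf A K1 (M' * q * q)) m ∧ τ⁻¹ ∉ V2 ∧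
      (∀ y ∈ V2, y⁻¹ ∉ V2 → ∃ v ∈ V2, y = τ * v) ∧ S18K_π A K1 = τ * u := by
  obtain ⟨t, c, s, s₀, -, hc, -, hs₀, hts, hcπ⟩ :=
    S36TCK_wit_of_kron A K1 q M' hq hqM hA hunr hmid hXV G hG hKI hKII m hjX hjm hOn
  exact S36TCL_of_witness (j := jqModC K1) hq.two_le hXV hOn (S36TCI_jn_unit A K1 (q * q)).1
    (S36TCI_th2_unit_mid A K1 q M' hmid).2 (S36TCI_th2_unit_mid A K1 q M' hmid).1
    (S36TCI_t_nonunit A K1 q M' hmid) hunif t c s s₀ hc hs₀ hts hcπ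

end Carriers

end Fermat.Agent.S36_helper20_TCUSPK
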