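import Mathlib
import Fermat.Agent.S36_helper1_KRON

/-!
# S36, GEO36 / thick cusps (helper21): the Kronecker form of the modular equation

`Ψ(X, Y) = Y^(q+1) + ∑_{i ≤ q} a_i(X) Y^i`, `Ψ(j, j_q) = 0 = Ψ(j_q, j)`, and modulo `q`
`Ψ = (Y^q - X)(Y - X^q)`.  Hence there are `G_i ∈ ℤ[X]` of degree `≤ q` with

  `Ψ(X, Y) = (Y^q - X)(Y - X^q) + q ∑_{i ≤ q} G_i(X) Y^i`,

and over every coefficient ring `K`: `Ψ(j, θ₁) = 0` and `Ψ(θ₂, θ₁) = 0` for `θ₁ = j(Q^q)`,
`θ₂ = j(Q^(q q))` in this form.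
-/

set_option autoImplicit false
set_option linter.unusedVariables false
set_option linter.unusedSectionVars false

open Polynomial Finset ModularCurve

noncomputable section

namespace Fermat.Agent.S36_helper21_TC2K

open Fermat.Agent.S36_helper1_KRON

/-- the Kronecker part of the coefficients -/
def S36T2K_k (q i : ℕ) : ℤ[X] :=
  if i = 0 then X ^ (q + 1) else if i = 1 then - X else if i = q then - X ^ q else 0

/-- a polynomial over `ℤ` vanishing modulo `q` is `q` times a polynomial of the same degree -/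
theorem S36T2K_div (q : ℕ) (hq0 : q ≠ 0) (P : ℤ[X])
    (hP : P.map (Int.castRingHom (ZMod q)) = 0) :
    ∃ G : ℤ[X], P = C (q : ℤ) * G ∧ G.natDegree = P.natDegree := by
  have hdvd : C (q : ℤ) ∣ P := by
    rw [C_dvd_iff_dvd_coeff]
    intro i
    have := congrArg (fun p => p.coeff i) hP
    simp only [coeff_map, coeff_zero, eq_intCast] at this
    exact (ZMod.intCast_zmod_eq_zero_iff_dvd _ _).mp this
  obtain ⟨G, hG⟩ := hdvd
  refine ⟨G, hG, ?_⟩
  rw [hG, natDegree_C_mul (by exact_mod_cast hq0)]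

theorem S36T2K_k_natDegree (q i : ℕ) (hq1 : 1 ≤ q) (hi : 1 ≤ i) : (S36T2K_k q i).natDegree ≤ q := by
  unfold S36T2K_k
  rw [if_neg (by omega)]
  split_ifs
  · rw [natDegree_neg]; exact natDegree_X_le.trans hq1
  · rw [natDegree_neg]; exact (natDegree_X_pow_le _)
  · simp

/-- the coefficients of the modular equation with their Kronecker decomposition -/
theorem S36T2K_exists (q : ℕ) [NeZero q] (hq : q.Prime) :
    ∃ a G : ℕ → ℤ[X], S36VM_IsModEq q a ∧ (∀ i, (G i).natDegree ≤ q) ∧
      ∀ i, i ≤ q → a i = S36T2K_k q i + C (q : ℤ) * G i := by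
  have hfact : Fact q.Prime := ⟨hq⟩
  obtain ⟨a, hdeg, hmon, hd0, h4, h5⟩ := Fermat.Agent.S34_helper8_MODEQ.S34ME_hyp q hq
  have h : S36VM_IsModEq q a := ⟨h4, h5⟩
  obtain ⟨k0, k1, kq, kmid⟩ := S36VM_kron q (ZMod q) h
  have hq2 : 2 ≤ q := hq.two_le
  have hmap : ∀ i, i ≤ q → (a i - S36T2K_k q i).map (Int.castRingHom (ZMod q)) = 0 := by
    intro i hi
    rw [Polynomial.map_sub, sub_eq_zero]
    unfold S36T2K_k
    by_cases h0 : i = 0
    · subst h0
      rw [if_pos rfl, k0, Polynomial.map_pow, map_X]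
    · rw [if_neg h0]
      by_cases h1 : i = 1
      · subst h1
        rw [if_pos rfl, k1, Polynomial.map_neg, map_X]
      · rw [if_neg h1]
        by_cases hiq : i = q
        · subst hiq
          rw [if_pos rfl, kq, Polynomial.map_neg, Polynomial.map_pow, map_X]
        · rw [if_neg hiq, kmid i (by omega) (by omega), Polynomial.map_zero]
  have hnat : ∀ i, i ≤ q → (a i - S36T2K_k q i).natDegree ≤ q := by
    intro i hi
    by_cases h0 : i = 0
    · subst h0
      have e0 : (a 0).eraseLead + C (a 0).leadingCoeff * X ^ (a 0).natDegree = a 0 :=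
        eraseLead_add_C_mul_X_pow (a 0)
      rw [hmon.leadingCoeff, hd0, C_1, one_mul] at e0
      have e1 : a 0 - S36T2K_k q 0 = (a 0).eraseLead := by
        unfold S36T2K_k
        rw [if_pos rfl]
        conv_lhs => rw [← e0]
        ring
      rw [e1]
      have := eraseLead_natDegree_le (a 0)
      rw [hd0] at this
      simpa using this
    · exact (natDegree_sub_le _ _).trans
        (max_le (hdeg i (by omega) hi) (S36T2K_k_natDegree q i (by omega) (by omega)))
  refine ⟨a, fun i => if hi : i ≤ q then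
    Classical.choose (S36T2K_div q hq.ne_zero _ (hmap i hi)) else 0, h, fun i => ?_,
    fun i hi => ?_⟩
  · by_cases hi : i ≤ q
    · dsimp only
      rw [dif_pos hi, (Classical.choose_spec (S36T2K_div q hq.ne_zero _ (hmap i hi))).2]
      exact hnat i hi
    · dsimp only
      rw [dif_neg hi]
      simp
  · dsimp only
    rw [dif_pos hi, ← (Classical.choose_spec (S36T2K_div q hq.ne_zero _ (hmap i hi))).1]
    ring

/-- splitting off the Kronecker part, over any commutative ring -/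
theorem S36T2K_split {S : Type*} [CommRing S] (q : ℕ) (hq2 : 2 ≤ q) (a G : ℕ → ℤ[X])
    (hK : ∀ i, i ≤ q → a i = S36T2K_k q i + C (q : ℤ) * G i) (θ x : S) :
    x ^ (q + 1) + ∑ i ∈ range (q + 1), eval₂ (Int.castRingHom S) θ (a i) * x ^ i =
      (x ^ q - θ) * (x - θ ^ q) +
        (q : S) * ∑ i ∈ range (q + 1), eval₂ (Int.castRingHom S) θ (G i) * x ^ i := by
  obtain ⟨m, rfl⟩ : ∃ m, q = m + 2 := ⟨q - 2, by omega⟩
  have hC : ∀ P : ℤ[X], eval₂ (Int.castRingHom S) θ (C ((m + 2 : ℕ) : ℤ) * P) =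
      ((m + 2 : ℕ) : S) * eval₂ (Int.castRingHom S) θ P := by
    intro P
    rw [eval₂_mul, eval₂_C]
    simp
  have hmid : ∀ i ∈ range m, eval₂ (Int.castRingHom S) θ (a (i + 2)) * x ^ (i + 2) =
      ((m + 2 : ℕ) : S) * (eval₂ (Int.castRingHom S) θ (G (i + 2)) * x ^ (i + 2)) := by
    intro i hi
    have := mem_range.mp hi
    have hk : S36T2K_k (m + 2) (i + 2) = 0 := by
      unfold S36T2K_k
      rw [if_neg (by omega), if_neg (by omega), if_neg (by omega)]
    rw [hK (i + 2) (by omega), hk, zero_add, hC, mul_assoc]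
  have e0 : eval₂ (Int.castRingHom S) θ (a 0) =
      θ ^ (m + 2 + 1) + ((m + 2 : ℕ) : S) * eval₂ (Int.castRingHom S) θ (G 0) := by
    have hk : S36T2K_k (m + 2) 0 = X ^ (m + 2 + 1) := by
      unfold S36T2K_k
      rw [if_pos rfl]
    rw [hK 0 (by omega), hk, eval₂_add, hC, eval₂_pow, eval₂_X]
  have e1 : eval₂ (Int.castRingHom S) θ (a 1) =
      - θ + ((m + 2 : ℕ) : S) * eval₂ (Int.castRingHom S) θ (G 1) := by
    have hk : S36T2K_k (m + 2) 1 = - X := by
      unfold S36T2K_k
      rw [if_neg (by omega), if_pos rfl]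
    rw [hK 1 (by omega), hk, eval₂_add, hC, eval₂_neg, eval₂_X]
  have eq : eval₂ (Int.castRingHom S) θ (a (m + 2)) =
      - θ ^ (m + 2) + ((m + 2 : ℕ) : S) * eval₂ (Int.castRingHom S) θ (G (m + 2)) := by
    have hk : S36T2K_k (m + 2) (m + 2) = - X ^ (m + 2) := by
      unfold S36T2K_k
      rw [if_neg (by omega), if_neg (by omega), if_pos rfl]
    rw [hK (m + 2) le_rfl, hk, eval₂_add, hC, eval₂_neg, eval₂_pow, eval₂_X]
  have hsum : ∀ F : ℕ → S, ∑ i ∈ range (m + 2 + 1), F i =
      ∑ i ∈ range m, F (i + 2) + F 1 + F 0 + F (m + 2) := by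
    intro F
    rw [Finset.sum_range_succ, Finset.sum_range_succ', Finset.sum_range_succ']
  rw [hsum, hsum, Finset.sum_congr rfl hmid, ← Finset.mul_sum, e0, e1, eq]
  ring

/-- **the Kronecker form of the modular equation at `(j, θ₁)` and `(θ₂, θ₁)`**, over every
coefficient ring (`θ₁ = j(Q^q)`, `θ₂ = j(Q^(q q))`). -/
theorem S36T2K_kron (q : ℕ) [NeZero q] [NeZero (q * q)] (hq : q.Prime) :
    ∃ G : ℕ → ℤ[X], (∀ i, (G i).natDegree ≤ q) ∧ ∀ (K : Type*) [CommRing K],
      ((qExpand K q (jqModC K)) ^ q - jqModC K) * (qExpand K q (jqModC K) - (jqModC K) ^ q) +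
        (q : LaurentSeries K) * ∑ i ∈ Finset.range (q + 1),
          eval₂ (Int.castRingHom (LaurentSeries K)) (jqModC K) (G i) *
            (qExpand K q (jqModC K)) ^ i = 0 ∧
      ((qExpand K q (jqModC K)) ^ q - qExpand K (q * q) (jqModC K)) *
          (qExpand K q (jqModC K) - (qExpand K (q * q) (jqModC K)) ^ q) +
        (q : LaurentSeries K) * ∑ i ∈ Finset.range (q + 1),
          eval₂ (Int.castRingHom (LaurentSeries K)) (qExpand K (q * q) (jqModC K)) (G i) *
            (qExpand K q (jqModC K)) ^ i = 0 := by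
  obtain ⟨a, G, h, hG, hK⟩ := S36T2K_exists q hq
  refine ⟨G, hG, fun K _ => ?_⟩
  obtain ⟨r1, r2⟩ := S36VM_modEq_map K h
  constructor
  · rw [← S36T2K_split q hq.two_le a G hK]
    exact r1
  · rw [← S36T2K_split q hq.two_le a G hK]
    have h2 := congrArg (qExpand K q) r2
    rw [map_add, map_pow, map_sum, map_zero] at h2
    rw [← h2]
    congr 1
    refine Finset.sum_congr rfl fun i _ => ?_
    rw [map_mul, map_pow, Polynomial.hom_eval₂, qExpand_qExpand]
    congr 2
    exact RingHom.ext_int _ _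

end Fermat.Agent.S36_helper21_TC2K
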