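import Mathlib
import Fermat.Agent.S36_helper20_TCUSPK
import Fermat.Agent.S36_helper19_MIDINFK
import Fermat.Agent.S36_helper21_TC2K
import Fermat.Agent.S36_helper5_VMIDK
import Fermat.Agent.S36_helper12_GOODPD

/-!
# S36, piece GEO36-TCUSP-X (helper20): `hmid` at the cusps of the chart at infinity

The hypothesis `hmid` of helper9's `S36PTS_ptsInf` at the carriers
(`X = S18K_Ainf A K1 (M' * q * q)`, `u = j⁻¹`), VERBATIM:
helper19's `S36MIK_one_inf_wit` fed with the witnesses `S36TCK_wit_of_kron`.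

* `S36TCX_hmid_of_kron` : from a Kronecker family `G`, any `W2` with `S36VK_IsMid`;
* `S36TCX_hmid`         : the Kronecker family discharged (helper21's `S36T2K_kron`);
* `S36TCX_hmidInf`      : at `W2 := S36VK_Vmid A K1 q M'`, everything discharged from
  `S36VK_main` (**no hypothesis beyond the setup `S`, `hA`, `hunr`, admissibility**);
* `S36TCX_hmidInf_good` : the same for a Good function `f1` (input (IV) of helper3's GEO).
-/

set_option autoImplicit false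
set_option linter.unusedVariables false
set_option linter.unusedSectionVars false
set_option linter.style.haveILetI false
set_option synthInstance.maxHeartbeats 400000
set_option maxHeartbeats 1600000

noncomputable section

open ModularCurve Polynomial
open Fermat.Agent.S18_helper13_GAUSS Fermat.Agent.S18_helper9_CDefs
  Fermat.Agent.S18_helper9_CBasic Fermat.Agent.S18_helper3_LOCRING
  Fermat.Agent.S18_helper25_COREDefs Fermat.Agent.S34_helper12_CDefs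
  Fermat.Agent.S34_helper27_C2Defs
  Fermat.Agent.S36_helper5_VKDefs Fermat.Agent.S36_helper23_TCUSPIN
  Fermat.Agent.S36_helper3_XBPT Fermat.Agent.S36_helper9_ONE
  Fermat.Agent.S36_helper19_MIDINFK Fermat.Agent.S36_helper20_TCUSPK
  Fermat.Agent.S36_helper3_LOCK

namespace Fermat.Agent.S36_helper20_TCUSPX

variable (A : ValuationSubring (AlgebraicClosure ℚ))
  (K1 : IntermediateField ℚ (AlgebraicClosure ℚ))
  [IsDiscreteValuationRing (S18K_O1 A K1)]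
  (q M' : ℕ) [NeZero M'] [NeZero (M' * q)] [NeZero (M' * q * q)] [NeZero q]
  [NeZero (q ^ 2)] [NeZero (q * q)]

/-- **`hmid` of `S36PTS_ptsInf` at the carriers** (the thick one-branch points among the cusps of
the chart at infinity of level `M' q²`), from a Kronecker family `G`. -/
theorem S36TCX_hmid_of_kron (hq : q.Prime) (hqM : ¬ q ∣ M') (hA : A.LiesOverPrime q)
    (h : S18K_Admissible A K1 q)
    (hunr : Associated (S18K_D A K1).π ((q : ℕ) : S18K_O1 A K1))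
    (W2 W3 : Subring (LaurentSeries K1))
    (S : S34C_Setup (S18K_O A K1) (S18K_π A K1) (S18K_j K1) (S18K_F1 K1 (M' * q * q))
      (S18K_V A K1 (M' * q * q) ⊓ W2 ⊓ W3) (S18K_A0 A K1 (M' * q * q))
      (S18K_Ainf A K1 (M' * q * q)))
    (hmid : S36VK_IsMid A K1 q M' W2) (e : ℕ)
    (unif2 : ∀ x ∈ W2, x⁻¹ ∉ W2 → ∃ v ∈ W2, x = S36VK_t K1 q * v)
    (t_pow : ∃ v ∈ W2, S36VK_t K1 q ^ e = S18K_π A K1 * v)
    (hV'2 : S18K_V A K1 M' ≤ W2)
    (hres2 : ∀ x ∈ W2, ∃ r ∈ S18K_V A K1 M', ∃ v ∈ W2, x = r + S36VK_t K1 q * v)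
    {lam : ℕ} (hlam : lam.Prime) (hne : lam ≠ q) (f : LaurentSeries K1) (hf0 : f ≠ 0)
    (hdiv : PowDiv (S18K_O A K1) (S18K_π A K1) (S18K_F1 K1 (M' * q * q)) lam f)
    (G : ℕ → ℤ[X]) (hG : ∀ i, (G i).natDegree ≤ q)
    (hKI : ((qExpand K1 q (jqModC K1)) ^ q - jqModC K1) *
        (qExpand K1 q (jqModC K1) - (jqModC K1) ^ q) +
      (q : LaurentSeries K1) * ∑ i ∈ Finset.range (q + 1),
        eval₂ (Int.castRingHom (LaurentSeries K1)) (jqModC K1) (G i) *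
          (qExpand K1 q (jqModC K1)) ^ i = 0)
    (hKII : ((qExpand K1 q (jqModC K1)) ^ q - qExpand K1 (q * q) (jqModC K1)) *
        (qExpand K1 q (jqModC K1) - (qExpand K1 (q * q) (jqModC K1)) ^ q) +
      (q : LaurentSeries K1) * ∑ i ∈ Finset.range (q + 1),
        eval₂ (Int.castRingHom (LaurentSeries K1)) (qExpand K1 (q * q) (jqModC K1)) (G i) *
          (qExpand K1 q (jqModC K1)) ^ i = 0)
    (hπ : S18K_π A K1 ∈ S18K_Ainf A K1 (M' * q * q))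
    (hjX : (S18K_j K1)⁻¹ ∈ S18K_Ainf A K1 (M' * q * q)) :
    ∀ m : Ideal (S18K_Ainf A K1 (M' * q * q)), m.IsMaximal →
      (⟨S18K_π A K1, hπ⟩ : S18K_Ainf A K1 (M' * q * q)) ∈ m →
      (⟨(S18K_j K1)⁻¹, hjX⟩ : S18K_Ainf A K1 (M' * q * q)) ∈ m →
      ∀ d : S18K_Ainf A K1 (M' * q * q), d ∉ m →
      (∃ v ∈ (S18K_V A K1 (M' * q * q) ⊓ W3 : Subring (LaurentSeries K1)),
        (d : LaurentSeries K1) = S18K_π A K1 * v) →
      ∀ G' : LaurentSeries K1,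
        RedPow (S18K_π A K1)
          (S18K_V A K1 (M' * q * q) ⊓ W2 ⊓ W3 : Subring (LaurentSeries K1)) lam f G' →
        S36XB_One (S18K_π A K1) (S18K_F1 K1 (M' * q * q)) W2 (S18K_V A K1 (M' * q * q)) W3
          (S18K_Ainf A K1 (M' * q * q)) lam f G' m := by
  intro m hm hπm hjm d hdm hdW G' hred
  haveI hmp : m.IsPrime := hm.isPrime
  have hXW2 : S18K_Ainf A K1 (M' * q * q) ≤ W2 := fun y hy => (S.chartInf.le_V hy).1.2
  have hdvd : M' ∣ M' * q * q := (dvd_mul_right M' q).trans (dvd_mul_right (M' * q) q)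
  exact S36MIK_one_inf_wit (A := A) (K1 := K1) hq hA M' (M' * q * q) hqM hdvd h W2 W3 S hmid.1
    (S36VK_t K1 q) (qExpand K1 (q * q) (jqModC K1)) rfl (S36TCI_jn_unit A K1 (q * q)).1
    (S36TCI_th2_unit_mid A K1 q M' hmid).1 (S36TCI_th2_unit_mid A K1 q M' hmid).2 e
    hmid.2.2.1 hmid.2.2.2 unif2 t_pow hV'2 hres2 hlam hne f hf0 hdiv hπ m hm hπm
    (fun hOn => S36TCK_wit_of_kron A K1 q M' hq hqM hA hunr hmid hXW2 G hG hKI hKII m hjX hjm
      hOn)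
    d hdm hdW G' hred

/-- **`hmid` of `S36PTS_ptsInf` at the carriers**, the Kronecker family discharged. -/
theorem S36TCX_hmid (hq : q.Prime) (hqM : ¬ q ∣ M') (hA : A.LiesOverPrime q)
    (h : S18K_Admissible A K1 q)
    (hunr : Associated (S18K_D A K1).π ((q : ℕ) : S18K_O1 A K1))
    (W2 W3 : Subring (LaurentSeries K1))
    (S : S34C_Setup (S18K_O A K1) (S18K_π A K1) (S18K_j K1) (S18K_F1 K1 (M' * q * q))
      (S18K_V A K1 (M' * q * q) ⊓ W2 ⊓ W3) (S18K_A0 A K1 (M' * q * q))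
      (S18K_Ainf A K1 (M' * q * q)))
    (hmid : S36VK_IsMid A K1 q M' W2) (e : ℕ)
    (unif2 : ∀ x ∈ W2, x⁻¹ ∉ W2 → ∃ v ∈ W2, x = S36VK_t K1 q * v)
    (t_pow : ∃ v ∈ W2, S36VK_t K1 q ^ e = S18K_π A K1 * v)
    (hV'2 : S18K_V A K1 M' ≤ W2)
    (hres2 : ∀ x ∈ W2, ∃ r ∈ S18K_V A K1 M', ∃ v ∈ W2, x = r + S36VK_t K1 q * v)
    {lam : ℕ} (hlam : lam.Prime) (hne : lam ≠ q) (f : LaurentSeries K1) (hf0 : f ≠ 0)
    (hdiv : PowDiv (S18K_O A K1) (S18K_π A K1) (S18K_F1 K1 (M' * q * q)) lam f)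
    (hπ : S18K_π A K1 ∈ S18K_Ainf A K1 (M' * q * q))
    (hjX : (S18K_j K1)⁻¹ ∈ S18K_Ainf A K1 (M' * q * q)) :
    ∀ m : Ideal (S18K_Ainf A K1 (M' * q * q)), m.IsMaximal →
      (⟨S18K_π A K1, hπ⟩ : S18K_Ainf A K1 (M' * q * q)) ∈ m →
      (⟨(S18K_j K1)⁻¹, hjX⟩ : S18K_Ainf A K1 (M' * q * q)) ∈ m →
      ∀ d : S18K_Ainf A K1 (M' * q * q), d ∉ m →
      (∃ v ∈ (S18K_V A K1 (M' * q * q) ⊓ W3 : Subring (LaurentSeries K1)),
        (d : LaurentSeries K1) = S18K_π A K1 * v) →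
      ∀ G' : LaurentSeries K1,
        RedPow (S18K_π A K1)
          (S18K_V A K1 (M' * q * q) ⊓ W2 ⊓ W3 : Subring (LaurentSeries K1)) lam f G' →
        S36XB_One (S18K_π A K1) (S18K_F1 K1 (M' * q * q)) W2 (S18K_V A K1 (M' * q * q)) W3
          (S18K_Ainf A K1 (M' * q * q)) lam f G' m := by
  obtain ⟨G, hG, hK⟩ := Fermat.Agent.S36_helper21_TC2K.S36T2K_kron q hq
  exact S36TCX_hmid_of_kron A K1 q M' hq hqM hA h hunr W2 W3 S hmid e unif2 t_pow hV'2 hres2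
    hlam hne f hf0 hdiv G hG (hK K1).1 (hK K1).2 hπ hjX

/-- **`hmid` of helper9's `S36PK_ptsInf` at `W2 := S36VK_Vmid A K1 q M'`, NO HYPOTHESIS LEFT**
beyond the setup, `hA`, `hunr` and admissibility. -/
theorem S36TCX_hmidInf (hq : q.Prime) (hqM : ¬ q ∣ M') (hA : A.LiesOverPrime q)
    (h : S18K_Admissible A K1 q)
    (hunr : Associated (S18K_D A K1).π ((q : ℕ) : S18K_O1 A K1))
    (W3 : Subring (LaurentSeries K1))
    (S : S34C_Setup (S18K_O A K1) (S18K_π A K1) (S18K_j K1) (S18K_F1 K1 (M' * q * q))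
      (S18K_V A K1 (M' * q * q) ⊓ S36VK_Vmid A K1 q M' ⊓ W3) (S18K_A0 A K1 (M' * q * q))
      (S18K_Ainf A K1 (M' * q * q)))
    {lam : ℕ} (hlam : lam.Prime) (hne : lam ≠ q) (f : LaurentSeries K1) (hf0 : f ≠ 0)
    (hdiv : PowDiv (S18K_O A K1) (S18K_π A K1) (S18K_F1 K1 (M' * q * q)) lam f)
    (hπ : S18K_π A K1 ∈ S18K_Ainf A K1 (M' * q * q))
    (hjX : (S18K_j K1)⁻¹ ∈ S18K_Ainf A K1 (M' * q * q)) :
    ∀ m : Ideal (S18K_Ainf A K1 (M' * q * q)), m.IsMaximal →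
      (⟨S18K_π A K1, hπ⟩ : S18K_Ainf A K1 (M' * q * q)) ∈ m →
      (⟨(S18K_j K1)⁻¹, hjX⟩ : S18K_Ainf A K1 (M' * q * q)) ∈ m →
      ∀ d : S18K_Ainf A K1 (M' * q * q), d ∉ m →
      (∃ v ∈ (S18K_V A K1 (M' * q * q) ⊓ W3 : Subring (LaurentSeries K1)),
        (d : LaurentSeries K1) = S18K_π A K1 * v) →
      ∀ G' : LaurentSeries K1,
        RedPow (S18K_π A K1)
          (S18K_V A K1 (M' * q * q) ⊓ S36VK_Vmid A K1 q M' ⊓ W3 :
            Subring (LaurentSeries K1)) lam f G' →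
        S36XB_One (S18K_π A K1) (S18K_F1 K1 (M' * q * q)) (S36VK_Vmid A K1 q M')
          (S18K_V A K1 (M' * q * q)) W3 (S18K_Ainf A K1 (M' * q * q)) lam f G' m := by
  obtain ⟨hmid, -, -, -, -, -, hpow, -, -, unif2, -, -, hres2⟩ :=
    Fermat.Agent.S36_helper5_VMIDK.S36VK_main A K1 q M' hq hqM hA hunr
  have hπ0 : S18K_π A K1 ≠ 0 := by
    intro h0
    apply hmid.1.π_nonunit
    rw [h0, inv_zero]
    exact Subring.zero_mem _
  have t_pow : ∃ v ∈ S36VK_Vmid A K1 q M', S36VK_t K1 q ^ (q - 1) = S18K_π A K1 * v :=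
    ⟨_, hpow, by rw [mul_div_cancel₀ _ hπ0]⟩
  have hV'2 : S18K_V A K1 M' ≤ S36VK_Vmid A K1 q M' :=
    (Fermat.Agent.S34_helper27_V3K.S34V3K_V_mono A K1 (dvd_mul_right M' q)).trans hmid.2.1
  exact S36TCX_hmid A K1 q M' hq hqM hA h hunr (S36VK_Vmid A K1 q M') W3 S hmid (q - 1) unif2
    t_pow hV'2 hres2 hlam hne f hf0 hdiv hπ hjX

/-- **input (IV) `hmidInf` of helper3's GEO**: `hmid` of `S36PK_ptsInf` with `f := f1` a Good
function, at `W2 := S36VK_Vmid A K1 q M'`. -/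
theorem S36TCX_hmidInf_good (hq : q.Prime) (hqM : ¬ q ∣ M') (hA : A.LiesOverPrime q)
    (h : S18K_Admissible A K1 q)
    (hunr : Associated (S18K_D A K1).π ((q : ℕ) : S18K_O1 A K1))
    (W3 : Subring (LaurentSeries K1))
    (S : S34C_Setup (S18K_O A K1) (S18K_π A K1) (S18K_j K1) (S18K_F1 K1 (M' * q * q))
      (S18K_V A K1 (M' * q * q) ⊓ S36VK_Vmid A K1 q M' ⊓ W3) (S18K_A0 A K1 (M' * q * q))
      (S18K_Ainf A K1 (M' * q * q)))
    {lam d : ℕ} (hlam : lam.Prime) (hne : lam ≠ q) (hlamd : lam ∣ d) :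
    ∀ (f1 : LaurentSeries K1) (hf1 : f1 ∈ S18K_F1 K1 (M' * q * q)),
      S36XB_Good A K1 M' q d hq hqM (S36VK_Vmid A K1 q M') W3 f1 hf1 →
      ∀ (hπ : S18K_π A K1 ∈ S18K_Ainf A K1 (M' * q * q))
        (hjX : (S18K_j K1)⁻¹ ∈ S18K_Ainf A K1 (M' * q * q))
        (m : Ideal (S18K_Ainf A K1 (M' * q * q))), m.IsMaximal →
      (⟨S18K_π A K1, hπ⟩ : S18K_Ainf A K1 (M' * q * q)) ∈ m →
      (⟨(S18K_j K1)⁻¹, hjX⟩ : S18K_Ainf A K1 (M' * q * q)) ∈ m →
      ∀ d' : S18K_Ainf A K1 (M' * q * q), d' ∉ m →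
      (∃ v ∈ (S18K_V A K1 (M' * q * q) ⊓ W3 : Subring (LaurentSeries K1)),
        (d' : LaurentSeries K1) = S18K_π A K1 * v) →
      ∀ G' : LaurentSeries K1,
        RedPow (S18K_π A K1)
          (S18K_V A K1 (M' * q * q) ⊓ S36VK_Vmid A K1 q M' ⊓ W3 :
            Subring (LaurentSeries K1)) lam f1 G' →
        S36XB_One (S18K_π A K1) (S18K_F1 K1 (M' * q * q)) (S36VK_Vmid A K1 q M')
          (S18K_V A K1 (M' * q * q)) W3 (S18K_Ainf A K1 (M' * q * q)) lam f1 G' m := by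
  intro f1 hf1 hgood hπ hjX
  exact S36TCX_hmidInf A K1 q M' hq hqM hA h hunr W3 S hlam hne f1
    hgood.1
    (Fermat.Agent.S36_helper12_GOODPD.S36GP_powDiv A K1 M' q d hq hqM
      (S36VK_Vmid A K1 q M') W3 hlamd f1 hf1 hgood) hπ hjX

end Fermat.Agent.S36_helper20_TCUSPX
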