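import Mathlib
import Fermat.Agent.S36_helper3_GEO
import Fermat.Agent.S36_helper20_TCUSPX

/-!
# S36, X-D36 Part II (helper3): the open input (IV) `S36XB_HMidInf` is closed

`S36XB_hMidInf` : the thick cusps (helper20's `S36TCX_hmidInf_good`, on helper23's TCUSPIN,
helper21's TC2K, helper19's MIDINFK, helper11's TCORE) at helper5's carriers.
-/

set_option autoImplicit false
set_option linter.unusedSectionVars false
set_option linter.unusedVariables false
set_option linter.style.haveILetI false
set_option synthInstance.maxHeartbeats 400000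
set_option maxHeartbeats 1600000

open HahnSeries IntermediateField AlgebraicCurve ModularCurve
open Fermat.Agent.S18_helper9_CDefs Fermat.Agent.S18_helper25_COREDefs
  Fermat.Agent.S34_helper12_CDefs Fermat.Agent.S34_helper27_C2Defs
  Fermat.Agent.S36_helper4_XADefs Fermat.Agent.S36_helper3_XBPT
  Fermat.Agent.S36_helper3_LOCK Fermat.Agent.S36_helper3_GEO
  Fermat.Agent.S36_helper5_VKDefs Fermat.Agent.S36_helper5_VMIDK
  Fermat.Agent.S36_helper2_SETUP3 Fermat.Agent.S36_helper4_SCALEK
  Fermat.Agent.S36_helper20_TCUSPX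

noncomputable section

namespace Fermat.Agent.S36_helper3_IN4

local notation "Qb" => AlgebraicClosure ℚ

variable (A : ValuationSubring Qb) (K1 : IntermediateField ℚ Qb)
  [IsDiscreteValuationRing (S18K_O1 A K1)] (M' q lam : ℕ) [NeZero M'] [NeZero q]
  [NeZero (M' * q)] [NeZero (M' * q * q)] [NeZero (q ^ 2)] [NeZero (q * q)]
  (hq : q.Prime) (hqM : ¬ q ∣ M')

/-- **the open input (IV): the thick cusps.** -/
theorem S36XB_hMidInf (hA : A.LiesOverPrime q) (hK1 : S36XA_Level A K1 q)
    (hlam : lam.Prime) (hne : lam ≠ q) (d : ℕ) (hlamd : lam ∣ d) :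
    S36XB_HMidInf A K1 M' q lam hq hqM d := by
  have hunr := S36SK_hunr A K1 q hq hA hK1
  obtain ⟨hmid, -, -, -, -, -, -, hkey, -⟩ := S36VK_main A K1 q M' hq hqM hA hunr
  obtain ⟨S, -, -, -⟩ := S36S3_setupMid A K1 q M' hq hqM hA hmid hkey
  exact S36TCX_hmidInf_good A K1 q M' hq hqM hA hK1.adm hunr _ S hlam hne hlamd

end Fermat.Agent.S36_helper3_IN4
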