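import Mathlib
import Fermat.Agent.S36_helper3_GEO
import Fermat.Agent.S36_helper3_IN4
import Fermat.Agent.S36_helper3_IN12
import Fermat.Agent.S36_helper8_A4Q
import Fermat.Agent.S36_helper24_A9Q

/-!
# S36, X-D36 Part II (helper3): GEO36 from the two last bricks (T) and (M)

* `S36XB_open_of_TM` : `S36XB_Open` (the four open inputs of `S36_helper3_GEO.lean` at every
  unramified level) from

  (T) helper6's `S36TKK_Thick A K1 D q M' hq hqM` ([THICK] at every crossing, in the Hauptmodul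
      coordinate of an AUX datum `D : S36AUX_Data r`, `r ∣ M'`), and
  (M) `S36XB_HMid0 A K1 M' q lam hq hqM d` for `lam ∣ d` (the thick one-branch points of the
      finite chart);

* `S36XB_auxData` : the AUX datum at `r = S36BC_aux q` (`9` for `q = 2`, `4` otherwise);
* `S36XB_geoInput_of_TM` : **`S36C_GeoInput` from (T) and (M)** at the levels
  `M' = N' * S36BC_aux q`.
-/

set_option autoImplicit false
set_option linter.unusedSectionVars false
set_option linter.unusedVariables false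
set_option linter.style.haveILetI false
set_option synthInstance.maxHeartbeats 400000
set_option maxHeartbeats 1600000

open HahnSeries IntermediateField AlgebraicCurve ModularCurve
open Fermat.Agent.S18_helper9_CDefs Fermat.Agent.S18_helper25_COREDefs
  Fermat.Agent.S34_helper12_CDefs Fermat.Agent.S34_helper27_C2Defs
  Fermat.Agent.S36_helper8_AUXDefs Fermat.Agent.S36_helper8_A4Q Fermat.Agent.S36_helper24_A9Q
  Fermat.Agent.S36_helper4_XADefs Fermat.Agent.S36_helper3_XBPT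
  Fermat.Agent.S36_helper3_LOCK Fermat.Agent.S36_helper3_FINAL Fermat.Agent.S36_helper3_GEO
  Fermat.Agent.S36_helper3_IN4 Fermat.Agent.S36_helper3_IN12
  Fermat.Agent.S36_helper5_VKDefs Fermat.Agent.S36_helper5_VMIDK
  Fermat.Agent.S36_helper4_SCALEK Fermat.Agent.S36_helper4_GEOMAIN
  Fermat.Agent.S36_helper23_BCPLUG Fermat.Agent.S36_helper6_TORKK

noncomputable section

namespace Fermat.Agent.S36_helper3_GEO2

local notation "Qb" => AlgebraicClosure ℚ

/-- **`S36XB_Open` from (T) and (M).** -/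
theorem S36XB_open_of_TM (A : ValuationSubring Qb) (M' q lam : ℕ) [NeZero M'] [NeZero q]
    [NeZero (M' * q)] [NeZero (M' * q * q)] [NeZero (q ^ 2)] [NeZero (q * q)]
    (hq : q.Prime) (hqM : ¬ q ∣ M') (hA : A.LiesOverPrime q) (hlam : lam.Prime)
    (hne : lam ≠ q) {r : ℕ} [NeZero r] (D : S36AUX_Data r) (hr : r ∣ M')
    (hT : ∀ (K1 : IntermediateField ℚ Qb) (hK1 : S36XA_Level A K1 q),
      letI := hK1.adm.dvr
      S36TKK_Thick A K1 D q M' hq hqM)
    (hM : ∀ (K1 : IntermediateField ℚ Qb) (hK1 : S36XA_Level A K1 q),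
      letI := hK1.adm.dvr
      ∀ d : ℕ, lam ∣ d → S36XB_HMid0 A K1 M' q lam hq hqM d) :
    S36XB_Open A M' q lam hq hqM := by
  intro K1 hK1
  letI := hK1.adm.dvr
  exact ⟨S36XB_hTX_of_thick A K1 D M' q hq hqM hr hA hK1 (hT K1 hK1),
    S36XB_hPt_of_thick A K1 D M' q hq hqM hr hA hK1 (hT K1 hK1),
    fun d hd => ⟨hM K1 hK1 d hd, S36XB_hMidInf A K1 M' q lam hq hqM hA hK1 hlam hne d hd⟩⟩

/-- **the AUX datum at `r = S36BC_aux q`**: `9` for `q = 2`, `4` otherwise. -/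
theorem S36XB_auxData (q : ℕ) :
    ∃ (r : ℕ) (hr0 : NeZero r), r = S36BC_aux q ∧ Nonempty (@S36AUX_Data r hr0) := by
  by_cases hq2 : q = 2
  · subst hq2
    exact ⟨9, _, S36BC_aux_two.symm, ⟨S36AUX_nineData⟩⟩
  · exact ⟨4, _, (S36BC_aux_odd hq2).symm, ⟨S36AUX_fourData⟩⟩

/-- **`S36C_GeoInput` from (T) and (M)**, stated for an arbitrary AUX datum `D` of level
`r ∣ M'`, `q ∤ r`. -/
theorem S36XB_geoInput_of_TM
    (hT : ∀ (A : ValuationSubring Qb) (M' q : ℕ) [NeZero M'] [NeZero q] [NeZero (M' * q)]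
      [NeZero (M' * q * q)] [NeZero (q ^ 2)] [NeZero (q * q)] (hq : q.Prime)
      (hqM : ¬ q ∣ M'), A.LiesOverPrime q → ∀ {r : ℕ} [NeZero r] (D : S36AUX_Data r),
      r ∣ M' → r = S36BC_aux q →
      ∀ (K1 : IntermediateField ℚ Qb) (hK1 : S36XA_Level A K1 q),
        letI := hK1.adm.dvr
        S36TKK_Thick A K1 D q M' hq hqM)
    (hM : ∀ (A : ValuationSubring Qb) (M' q lam : ℕ) [NeZero M'] [NeZero q]
      [NeZero (M' * q)] [NeZero (M' * q * q)] [NeZero (q ^ 2)] [NeZero (q * q)]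
      (hq : q.Prime) (hqM : ¬ q ∣ M'), A.LiesOverPrime q → lam.Prime → lam ≠ q → lam ≠ 2 →
      ∀ {r : ℕ} [NeZero r] (D : S36AUX_Data r), r ∣ M' → r = S36BC_aux q →
      ∀ (K1 : IntermediateField ℚ Qb) (hK1 : S36XA_Level A K1 q),
        letI := hK1.adm.dvr
        ∀ d : ℕ, lam ∣ d → S36XB_HMid0 A K1 M' q lam hq hqM d) :
    Fermat.Agent.S36_helper18_Contracts.S36C_GeoInput := by
  refine S36XB_geoInput_of_open (fun N' q lam _ _ hq hlam hne hlam2 hqN A hA => ?_)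
  obtain ⟨r, hr0, hr, ⟨D⟩⟩ := S36XB_auxData q
  haveI := hr0
  have hrM : r ∣ N' * S36BC_aux q := hr ▸ Dvd.intro_left N' rfl
  exact @S36XB_open_of_TM A (N' * S36BC_aux q) q lam
    ⟨mul_ne_zero (NeZero.ne N') (S36BC_aux_ne_zero q)⟩ _
    ⟨mul_ne_zero (mul_ne_zero (NeZero.ne N') (S36BC_aux_ne_zero q)) (NeZero.ne q)⟩
    ⟨mul_ne_zero (mul_ne_zero (mul_ne_zero (NeZero.ne N') (S36BC_aux_ne_zero q))
      (NeZero.ne q)) (NeZero.ne q)⟩
    ⟨pow_ne_zero 2 (NeZero.ne q)⟩ ⟨mul_ne_zero (NeZero.ne q) (NeZero.ne q)⟩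
    hq (S36GM_not_dvd hq hqN) hA hlam hne.symm r hr0 D hrM
    (fun K1 hK1 => @hT A (N' * S36BC_aux q) q
      ⟨mul_ne_zero (NeZero.ne N') (S36BC_aux_ne_zero q)⟩ _
      ⟨mul_ne_zero (mul_ne_zero (NeZero.ne N') (S36BC_aux_ne_zero q)) (NeZero.ne q)⟩
      ⟨mul_ne_zero (mul_ne_zero (mul_ne_zero (NeZero.ne N') (S36BC_aux_ne_zero q))
        (NeZero.ne q)) (NeZero.ne q)⟩
      ⟨pow_ne_zero 2 (NeZero.ne q)⟩ ⟨mul_ne_zero (NeZero.ne q) (NeZero.ne q)⟩
      hq (S36GM_not_dvd hq hqN) hA r hr0 D hrM hr K1 hK1)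
    (fun K1 hK1 => @hM A (N' * S36BC_aux q) q lam
      ⟨mul_ne_zero (NeZero.ne N') (S36BC_aux_ne_zero q)⟩ _
      ⟨mul_ne_zero (mul_ne_zero (NeZero.ne N') (S36BC_aux_ne_zero q)) (NeZero.ne q)⟩
      ⟨mul_ne_zero (mul_ne_zero (mul_ne_zero (NeZero.ne N') (S36BC_aux_ne_zero q))
        (NeZero.ne q)) (NeZero.ne q)⟩
      ⟨pow_ne_zero 2 (NeZero.ne q)⟩ ⟨mul_ne_zero (NeZero.ne q) (NeZero.ne q)⟩
      hq (S36GM_not_dvd hq hqN) hA hlam hne.symm hlam2 r hr0 D hrM hr K1 hK1)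

end Fermat.Agent.S36_helper3_GEO2
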