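import Mathlib
import Fermat.Agent.S36_helper3_GEO2
import Fermat.Agent.S36_helper18_THICKQ
import Fermat.Agent.S36_helper14_MIDKH

/-!
# S36, X-D36 Part II (helper3): GEO36 CLOSED — `S36XB_geoInput : S36C_GeoInput`

* `S36XB_thick_of_E1` : helper6's `S36TKK_Thick` from (E1) in the Hauptmodul coordinate
  (helper18's `S36THQ_triple` + helper15's `S36HXK_main`);
* `S36XB_thick_four`, `S36XB_thick_nine` : `S36TKK_Thick` for the two AUX data
  (`r = 4`, `q` odd; `r = 9`, `q ≠ 3`);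
* `S36XB_hMid0` : the open input (III) (helper14's `S36MKH_main`);
* `S36XB_open` : `S36XB_Open` at every level `M'` with `S36BC_aux q ∣ M'`;
* `S36XB_geoInput` : **`S36C_GeoInput`**, no hypothesis left.
-/

set_option autoImplicit false
set_option linter.unusedSectionVars false
set_option linter.unusedVariables false
set_option linter.style.haveILetI false
set_option synthInstance.maxHeartbeats 400000
set_option maxHeartbeats 1600000

open HahnSeries IntermediateField AlgebraicCurve ModularCurve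
open Fermat.Agent.S18_helper9_CDefs Fermat.Agent.S18_helper25_COREDefs
  Fermat.Agent.S34_helper12_CDefs Fermat.Agent.S34_helper27_C2Defs
  Fermat.Agent.S36_helper8_AUXDefs Fermat.Agent.S36_helper8_A4Q Fermat.Agent.S36_helper24_A9Q
  Fermat.Agent.S36_helper4_XADefs Fermat.Agent.S36_helper3_XBPT
  Fermat.Agent.S36_helper3_LOCK Fermat.Agent.S36_helper3_FINAL Fermat.Agent.S36_helper3_GEO
  Fermat.Agent.S36_helper3_IN4 Fermat.Agent.S36_helper3_IN12 Fermat.Agent.S36_helper3_GEO2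
  Fermat.Agent.S36_helper5_VKDefs Fermat.Agent.S36_helper5_VMIDK
  Fermat.Agent.S36_helper2_SETUP3
  Fermat.Agent.S36_helper4_SCALEK Fermat.Agent.S36_helper4_GEOMAIN
  Fermat.Agent.S36_helper23_BCPLUG Fermat.Agent.S36_helper6_TORKK
  Fermat.Agent.S36_helper18_THICKQ Fermat.Agent.S36_helper18_THICKP
  Fermat.Agent.S36_helper15_HXK Fermat.Agent.S36_helper14_MIDKH
  Fermat.Agent.S36_helper12_GOODPD

noncomputable section

namespace Fermat.Agent.S36_helper3_GEO3

local notation "Qb" => AlgebraicClosure ℚ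

section Level

variable (A : ValuationSubring Qb) (K1 : IntermediateField ℚ Qb)
  [IsDiscreteValuationRing (S18K_O1 A K1)] (M' q : ℕ) [NeZero M'] [NeZero q]
  [NeZero (M' * q)] [NeZero (M' * q * q)] [NeZero (q ^ 2)] [NeZero (q * q)]
  (hq : q.Prime) (hqM : ¬ q ∣ M')

/-- **(T) from (E1)** in the Hauptmodul coordinate of the AUX datum `D`. -/
theorem S36XB_thick_of_E1 {r : ℕ} [NeZero r] (D : S36AUX_Data r) (hr : r ∣ M')
    (hA : A.LiesOverPrime q) (hK1 : S36XA_Level A K1 q)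
    (hE1 : S36THP_E1 A K1 M' (S36AUX_hK K1 D.u)) :
    S36TKK_Thick A K1 D q M' hq hqM := by
  have hunr := S36SK_hunr A K1 q hq hA hK1
  have hqr : ¬ q ∣ r := fun h => hqM (h.trans hr)
  obtain ⟨G, -, hG⟩ := S36HXK_main D q hq hqr
  intro hπ m hm hπm hcross
  exact S36THQ_triple A K1 D q M' hq hqM hr hqr hA hK1.adm hunr hE1 G (hG K1).1 m hm hcross

/-- **(T), `r = 4`, `q` odd.** -/
theorem S36XB_thick_four (hq2 : q ≠ 2) (h4 : 4 ∣ M') (hA : A.LiesOverPrime q)
    (hK1 : S36XA_Level A K1 q) : S36TKK_Thick A K1 S36AUX_fourData q M' hq hqM :=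
  S36XB_thick_of_E1 A K1 M' q hq hqM S36AUX_fourData h4 hA hK1
    (S36THQ_E1_four A K1 q M' hq hqM hq2 h4 hA hK1.adm)

/-- **(T), `r = 9`, `q ≠ 3`.** -/
theorem S36XB_thick_nine (hq3 : q ≠ 3) (h9 : 9 ∣ M') (hA : A.LiesOverPrime q)
    (hK1 : S36XA_Level A K1 q) : S36TKK_Thick A K1 S36AUX_nineData q M' hq hqM :=
  S36XB_thick_of_E1 A K1 M' q hq hqM S36AUX_nineData h9 hA hK1
    (S36THQ_E1_nine A K1 q M' hq hqM hq3 h9 hA hK1.adm)

/-- **(M) = the open input (III): the thick one-branch points of the finite chart.** -/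
theorem S36XB_hMid0 {r : ℕ} [NeZero r] (D : S36AUX_Data r) (hr : r ∣ M')
    (hA : A.LiesOverPrime q) (hK1 : S36XA_Level A K1 q) (lam : ℕ) (hlam : lam.Prime)
    (hne : lam ≠ q) (d : ℕ) (hlamd : lam ∣ d) : S36XB_HMid0 A K1 M' q lam hq hqM d := by
  have hunr := S36SK_hunr A K1 q hq hA hK1
  obtain ⟨hmid, -, -, -, -, -, -, hkey, -⟩ := S36VK_main A K1 q M' hq hqM hA hunr
  obtain ⟨S, -, -, -⟩ := S36S3_setupMid A K1 q M' hq hqM hA hmid hkey
  intro f1 hf1 hgood hπ
  exact S36MKH_main A K1 q M' D hq hqM hr hA hK1.adm hunr (S36VK_V0 A K1 q M' hq hqM) S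
    hlam hne f1 hgood.1 (S36GP_powDiv A K1 M' q _ hq hqM _ _ hlamd f1 hf1 hgood) hπ

end Level

/-- **`S36XB_Open` at every level divisible by the auxiliary level `S36BC_aux q`.** -/
theorem S36XB_open (A : ValuationSubring Qb) (M' q lam : ℕ) [NeZero M'] [NeZero q]
    [NeZero (M' * q)] [NeZero (M' * q * q)] [NeZero (q ^ 2)] [NeZero (q * q)]
    (hq : q.Prime) (hqM : ¬ q ∣ M') (hA : A.LiesOverPrime q) (hlam : lam.Prime)
    (hne : lam ≠ q) (haux : S36BC_aux q ∣ M') : S36XB_Open A M' q lam hq hqM := by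
  by_cases hq2 : q = 2
  · have h9 : 9 ∣ M' := by
      have h := haux
      rw [hq2, S36BC_aux_two] at h
      exact h
    have hq3 : q ≠ 3 := by omega
    exact S36XB_open_of_TM A M' q lam hq hqM hA hlam hne S36AUX_nineData h9
      (fun K1 hK1 => by
        letI := hK1.adm.dvr
        exact S36XB_thick_nine A K1 M' q hq hqM hq3 h9 hA hK1)
      (fun K1 hK1 => by
        letI := hK1.adm.dvr
        exact fun d hd => S36XB_hMid0 A K1 M' q hq hqM S36AUX_nineData h9 hA hK1 lam hlam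
          hne d hd)
  · have h4 : 4 ∣ M' := by
      have h := haux
      rw [S36BC_aux_odd hq2] at h
      exact h
    exact S36XB_open_of_TM A M' q lam hq hqM hA hlam hne S36AUX_fourData h4
      (fun K1 hK1 => by
        letI := hK1.adm.dvr
        exact S36XB_thick_four A K1 M' q hq hqM hq2 h4 hA hK1)
      (fun K1 hK1 => by
        letI := hK1.adm.dvr
        exact fun d hd => S36XB_hMid0 A K1 M' q hq hqM S36AUX_fourData h4 hA hK1 lam hlam
          hne d hd)

/-- **GEO36: `S36C_GeoInput`, NO HYPOTHESIS LEFT.** -/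
theorem S36XB_geoInput : Fermat.Agent.S36_helper18_Contracts.S36C_GeoInput :=
  S36XB_geoInput_of_open (fun N' q lam _ _ hq hlam hne hlam2 hqN A hA =>
    @S36XB_open A (N' * S36BC_aux q) q lam
      ⟨mul_ne_zero (NeZero.ne N') (S36BC_aux_ne_zero q)⟩ _
      ⟨mul_ne_zero (mul_ne_zero (NeZero.ne N') (S36BC_aux_ne_zero q)) (NeZero.ne q)⟩
      ⟨mul_ne_zero (mul_ne_zero (mul_ne_zero (NeZero.ne N') (S36BC_aux_ne_zero q))
        (NeZero.ne q)) (NeZero.ne q)⟩
      ⟨pow_ne_zero 2 (NeZero.ne q)⟩ ⟨mul_ne_zero (NeZero.ne q) (NeZero.ne q)⟩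
      hq (S36GM_not_dvd hq hqN) hA hlam hne.symm (Dvd.intro_left N' rfl))

end Fermat.Agent.S36_helper3_GEO3
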