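import Fermat.Agent.S36_helper10_AUX9Glue

/-!
# S36, piece AUX, instance `r = 9` (helper10): the coefficient equations of the modular equation

From a relation `θ⁴ + ∑ aᵢ(j) θⁱ = 0` (and the swapped one) with integer polynomials `aᵢ` of
bounded degree: the linear equations satisfied by the coefficients of the `aᵢ`, one for each
Laurent coefficient of order `-12, …, 0`.
-/

set_option autoImplicit false
set_option linter.unusedVariables false

noncomputable section

namespace Fermat.Agent.S36_helper10_AUX9Eq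

open ModularCurve Finset
open Fermat.Agent.S36_helper10_AUX9Poly Fermat.Agent.S36_helper10_AUX9J
open Fermat.Agent.S36_helper10_AUX9Glue

local notation "Lz" => LaurentSeries ℤ
local notation "jz" => jqModC ℤ
local notation "θz" => qExpand ℤ 3 (jqModC ℤ)

theorem S36A9_cast_eq (c : ℤ) :
    (Int.castRingHom Lz) c = HahnSeries.ofPowerSeries ℤ ℤ (PowerSeries.C c) := by
  have h : Int.castRingHom Lz
      = (HahnSeries.ofPowerSeries ℤ ℤ).comp (PowerSeries.C : ℤ →+* PowerSeries ℤ) :=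
    RingHom.ext_int _ _
  rw [h]; rfl

/-- a term `aᵢ(j) θⁱ` of the first relation -/
theorem S36A9_term1 (p : Polynomial ℤ) (n i : ℕ) (hp : p.natDegree < n)
    (h : n - 1 + 3 * i ≤ 12) :
    S36A9_Q 12 * (Polynomial.eval₂ (Int.castRingHom Lz) jz p * θz ^ i)
      = HahnSeries.ofPowerSeries ℤ ℤ
          (∑ k ∈ range n, PowerSeries.C (p.coeff k) * S36A9_W k i) := by
  rw [Polynomial.eval₂_eq_sum_range' _ hp, Finset.sum_mul, Finset.mul_sum, map_sum]
  refine Finset.sum_congr rfl fun k hk => ?_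
  have hk' : k < n := Finset.mem_range.mp hk
  rw [map_mul, ← S36A9_monomial k i (by omega), S36A9_cast_eq]
  ring

/-- a term `aᵢ(θ) jⁱ` of the swapped relation -/
theorem S36A9_term2 (p : Polynomial ℤ) (n i : ℕ) (hp : p.natDegree < n)
    (h : i + 3 * (n - 1) ≤ 12) :
    S36A9_Q 12 * (Polynomial.eval₂ (Int.castRingHom Lz) θz p * jz ^ i)
      = HahnSeries.ofPowerSeries ℤ ℤ
          (∑ k ∈ range n, PowerSeries.C (p.coeff k) * S36A9_W i k) := by
  rw [Polynomial.eval₂_eq_sum_range' _ hp, Finset.sum_mul, Finset.mul_sum, map_sum]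
  refine Finset.sum_congr rfl fun k hk => ?_
  have hk' : k < n := Finset.mem_range.mp hk
  rw [map_mul, ← S36A9_monomial i k (by omega), S36A9_cast_eq]
  ring

theorem S36A9_lead1 : S36A9_Q 12 * θz ^ 4 = HahnSeries.ofPowerSeries ℤ ℤ (S36A9_W 0 4) := by
  rw [← S36A9_monomial 0 4 (by norm_num), pow_zero, one_mul]

theorem S36A9_lead2 : S36A9_Q 12 * jz ^ 4 = HahnSeries.ofPowerSeries ℤ ℤ (S36A9_W 4 0) := by
  rw [← S36A9_monomial 4 0 (by norm_num), pow_zero, mul_one]

/-- **the first relation as an identity of power series** -/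
theorem S36A9_ps1 (a : ℕ → Polynomial ℤ) (h0 : (a 0).natDegree < 5)
    (h1 : (a 1).natDegree < 4) (h2 : (a 2).natDegree < 4) (h3 : (a 3).natDegree < 4)
    (hE : θz ^ 4 + ∑ i ∈ range 4, Polynomial.eval₂ (Int.castRingHom Lz) jz (a i) * θz ^ i = 0) :
    S36A9_W 0 4 + (∑ k ∈ range 5, PowerSeries.C ((a 0).coeff k) * S36A9_W k 0)
      + (∑ k ∈ range 4, PowerSeries.C ((a 1).coeff k) * S36A9_W k 1)
      + (∑ k ∈ range 4, PowerSeries.C ((a 2).coeff k) * S36A9_W k 2)
      + (∑ k ∈ range 4, PowerSeries.C ((a 3).coeff k) * S36A9_W k 3) = 0 := by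
  apply HahnSeries.ofPowerSeries_injective (Γ := ℤ) (R := ℤ)
  rw [map_zero, map_add, map_add, map_add, map_add, ← S36A9_lead1,
    ← S36A9_term1 (a 0) 5 0 h0 (by norm_num), ← S36A9_term1 (a 1) 4 1 h1 (by norm_num),
    ← S36A9_term1 (a 2) 4 2 h2 (by norm_num), ← S36A9_term1 (a 3) 4 3 h3 (by norm_num)]
  have : S36A9_Q 12 * (θz ^ 4 +
      ∑ i ∈ range 4, Polynomial.eval₂ (Int.castRingHom Lz) jz (a i) * θz ^ i) = 0 := by
    rw [hE, mul_zero]
  rw [← this]
  simp only [Finset.sum_range_succ, Finset.sum_range_zero, zero_add]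
  ring

/-- **the swapped relation as an identity of power series** -/
theorem S36A9_ps2 (a : ℕ → Polynomial ℤ) (h0 : (a 0).natDegree < 5)
    (h1 : (a 1).natDegree < 4) (h2 : (a 2).natDegree < 4) (h3 : (a 3).natDegree < 4)
    (hE : jz ^ 4 + ∑ i ∈ range 4, Polynomial.eval₂ (Int.castRingHom Lz) θz (a i) * jz ^ i = 0) :
    S36A9_W 4 0 + (∑ k ∈ range 5, PowerSeries.C ((a 0).coeff k) * S36A9_W 0 k)
      + (∑ k ∈ range 4, PowerSeries.C ((a 1).coeff k) * S36A9_W 1 k)
      + (∑ k ∈ range 4, PowerSeries.C ((a 2).coeff k) * S36A9_W 2 k)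
      + (∑ k ∈ range 4, PowerSeries.C ((a 3).coeff k) * S36A9_W 3 k) = 0 := by
  apply HahnSeries.ofPowerSeries_injective (Γ := ℤ) (R := ℤ)
  rw [map_zero, map_add, map_add, map_add, map_add, ← S36A9_lead2,
    ← S36A9_term2 (a 0) 5 0 h0 (by norm_num), ← S36A9_term2 (a 1) 4 1 h1 (by norm_num),
    ← S36A9_term2 (a 2) 4 2 h2 (by norm_num), ← S36A9_term2 (a 3) 4 3 h3 (by norm_num)]
  have : S36A9_Q 12 * (jz ^ 4 +
      ∑ i ∈ range 4, Polynomial.eval₂ (Int.castRingHom Lz) θz (a i) * jz ^ i) = 0 := by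
    rw [hE, mul_zero]
  rw [← this]
  simp only [Finset.sum_range_succ, Finset.sum_range_zero, zero_add]
  ring

/-- the value of a table -/
def S36A9_tv (n x y : ℕ) : ℤ := (S36A9_tab x y).getD n 0

theorem S36A9_coeff_CW (c : ℤ) (x y : ℕ) {n : ℕ} (hn : n < 13) :
    PowerSeries.coeff n (PowerSeries.C c * S36A9_W x y) = c * S36A9_tv n x y := by
  rw [PowerSeries.coeff_C_mul, S36A9_coeff_W x y hn, S36A9_tv]

/-- **the coefficient equations of the first relation** -/
theorem S36A9_eq1 (a : ℕ → Polynomial ℤ) (h0 : (a 0).natDegree < 5)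
    (h1 : (a 1).natDegree < 4) (h2 : (a 2).natDegree < 4) (h3 : (a 3).natDegree < 4)
    (hE : θz ^ 4 + ∑ i ∈ range 4, Polynomial.eval₂ (Int.castRingHom Lz) jz (a i) * θz ^ i = 0)
    {n : ℕ} (hn : n < 13) :
    S36A9_tv n 0 4 + (∑ k ∈ range 5, (a 0).coeff k * S36A9_tv n k 0)
      + (∑ k ∈ range 4, (a 1).coeff k * S36A9_tv n k 1)
      + (∑ k ∈ range 4, (a 2).coeff k * S36A9_tv n k 2)
      + (∑ k ∈ range 4, (a 3).coeff k * S36A9_tv n k 3) = 0 := by
  have h := congrArg (PowerSeries.coeff n) (S36A9_ps1 a h0 h1 h2 h3 hE)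
  simp only [map_add, map_sum, map_zero, S36A9_coeff_CW _ _ _ hn, S36A9_coeff_W _ _ hn] at h
  exact h

/-- **the coefficient equations of the swapped relation** -/
theorem S36A9_eq2 (a : ℕ → Polynomial ℤ) (h0 : (a 0).natDegree < 5)
    (h1 : (a 1).natDegree < 4) (h2 : (a 2).natDegree < 4) (h3 : (a 3).natDegree < 4)
    (hE : jz ^ 4 + ∑ i ∈ range 4, Polynomial.eval₂ (Int.castRingHom Lz) θz (a i) * jz ^ i = 0)
    {n : ℕ} (hn : n < 13) :
    S36A9_tv n 4 0 + (∑ k ∈ range 5, (a 0).coeff k * S36A9_tv n 0 k)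
      + (∑ k ∈ range 4, (a 1).coeff k * S36A9_tv n 1 k)
      + (∑ k ∈ range 4, (a 2).coeff k * S36A9_tv n 2 k)
      + (∑ k ∈ range 4, (a 3).coeff k * S36A9_tv n 3 k) = 0 := by
  have h := congrArg (PowerSeries.coeff n) (S36A9_ps2 a h0 h1 h2 h3 hE)
  simp only [map_add, map_sum, map_zero, S36A9_coeff_CW _ _ _ hn, S36A9_coeff_W _ _ hn] at h
  exact h

end Fermat.Agent.S36_helper10_AUX9Eq
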