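import Mathlib

/-!
# S36, piece AUX, instance `r = 9` (helper10): verified arithmetic on coefficient lists

A tiny reflection layer: polynomials with integer coefficients are lists `[c₀, c₁, …]`,
`S36A9_ev x l = ∑ cᵢ xⁱ` in any commutative ring, and the list operations `S36A9_add`,
`S36A9_smul`, `S36A9_mul`, `S36A9_pow` are sound.  Identities between explicit polynomials are
then checked by kernel computation on lists (`decide +kernel`).

* `S36A9_ev_add`, `S36A9_ev_smul`, `S36A9_ev_mul`, `S36A9_ev_pow`, `S36A9_ev_neg`;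
* `S36A9_ev_eq_zero` : a list of zeros evaluates to `0`;
* `S36A9_ev_take_drop` : `ev x l = ev x (l.take n) + x ^ n * ev x (l.drop n)`;
* `S36A9_Cong n F l` : the power series `F` is `ev X l` modulo `X ^ n`; `S36A9_Cong.mul`,
  `S36A9_Cong.add`, `S36A9_Cong.pow`, `S36A9_Cong.coeff`.
-/

set_option autoImplicit false

namespace Fermat.Agent.S36_helper10_AUX9Poly

/-- evaluation of a coefficient list (Horner) -/
def S36A9_ev {R : Type*} [CommRing R] (x : R) : List ℤ → R
  | [] => 0
  | a :: l => (a : R) + x * S36A9_ev x l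

/-- addition of coefficient lists -/
def S36A9_add : List ℤ → List ℤ → List ℤ
  | [], m => m
  | l, [] => l
  | a :: l, b :: m => (a + b) :: S36A9_add l m

/-- scalar multiplication of a coefficient list -/
def S36A9_smul (c : ℤ) : List ℤ → List ℤ
  | [] => []
  | a :: l => (c * a) :: S36A9_smul c l

/-- multiplication of coefficient lists -/
def S36A9_mul : List ℤ → List ℤ → List ℤ
  | [], _ => []
  | a :: l, m => S36A9_add (S36A9_smul a m) (0 :: S36A9_mul l m)

/-- powers of coefficient lists -/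
def S36A9_pow (l : List ℤ) : ℕ → List ℤ
  | 0 => [1]
  | n + 1 => S36A9_mul l (S36A9_pow l n)

/-- all entries are zero -/
def S36A9_isZero : List ℤ → Bool
  | [] => true
  | a :: l => (a == 0) && S36A9_isZero l

section Sound

variable {R : Type*} [CommRing R] (x : R)

@[simp] theorem S36A9_ev_nil : S36A9_ev x [] = 0 := rfl

@[simp] theorem S36A9_ev_cons (a : ℤ) (l : List ℤ) :
    S36A9_ev x (a :: l) = (a : R) + x * S36A9_ev x l := rfl

theorem S36A9_ev_add (l m : List ℤ) :
    S36A9_ev x (S36A9_add l m) = S36A9_ev x l + S36A9_ev x m := by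
  induction l generalizing m with
  | nil => simp [S36A9_add]
  | cons a l ih =>
    cases m with
    | nil => simp [S36A9_add]
    | cons b m =>
      simp only [S36A9_add, S36A9_ev_cons, ih, Int.cast_add]
      ring

theorem S36A9_ev_smul (c : ℤ) (l : List ℤ) :
    S36A9_ev x (S36A9_smul c l) = (c : R) * S36A9_ev x l := by
  induction l with
  | nil => simp [S36A9_smul]
  | cons a l ih =>
    simp only [S36A9_smul, S36A9_ev_cons, ih, Int.cast_mul]
    ring

theorem S36A9_ev_mul (l m : List ℤ) :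
    S36A9_ev x (S36A9_mul l m) = S36A9_ev x l * S36A9_ev x m := by
  induction l with
  | nil => simp [S36A9_mul]
  | cons a l ih =>
    simp only [S36A9_mul, S36A9_ev_add, S36A9_ev_smul, S36A9_ev_cons, ih, Int.cast_zero]
    ring

theorem S36A9_ev_pow (l : List ℤ) (n : ℕ) :
    S36A9_ev x (S36A9_pow l n) = S36A9_ev x l ^ n := by
  induction n with
  | zero => simp [S36A9_pow]
  | succ n ih => simp only [S36A9_pow, S36A9_ev_mul, ih]; ring

theorem S36A9_ev_eq_zero (l : List ℤ) (h : S36A9_isZero l = true) : S36A9_ev x l = 0 := by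
  induction l with
  | nil => rfl
  | cons a l ih =>
    simp only [S36A9_isZero, Bool.and_eq_true, beq_iff_eq] at h
    simp [S36A9_ev_cons, h.1, ih h.2]

/-- two lists with zero difference have the same value -/
theorem S36A9_ev_eq_of_sub (l m : List ℤ)
    (h : S36A9_isZero (S36A9_add l (S36A9_smul (-1) m)) = true) :
    S36A9_ev x l = S36A9_ev x m := by
  have := S36A9_ev_eq_zero x _ h
  rw [S36A9_ev_add, S36A9_ev_smul] at this
  have h2 : S36A9_ev x l - S36A9_ev x m = 0 := by
    rw [← this]; push_cast; ring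
  exact sub_eq_zero.mp h2

theorem S36A9_ev_take_drop (l : List ℤ) (n : ℕ) :
    S36A9_ev x l = S36A9_ev x (l.take n) + x ^ n * S36A9_ev x (l.drop n) := by
  induction n generalizing l with
  | zero => simp
  | succ n ih =>
    cases l with
    | nil => simp
    | cons a l =>
      simp only [List.take_succ_cons, List.drop_succ_cons, S36A9_ev_cons]
      rw [ih l]
      ring

theorem S36A9_ev_single (a : ℤ) : S36A9_ev x [a] = (a : R) := by simp

theorem S36A9_ev_X : S36A9_ev x [0, 1] = x := by simp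

end Sound

/-! ### congruences of power series modulo `X ^ n` -/

open PowerSeries

/-- `F ≡ ev X l` modulo `X ^ n` -/
def S36A9_Cong (n : ℕ) (F : PowerSeries ℤ) (l : List ℤ) : Prop :=
  ∃ S : PowerSeries ℤ, F = S36A9_ev (PowerSeries.X : PowerSeries ℤ) l + PowerSeries.X ^ n * S

theorem S36A9_Cong.of_eq {n : ℕ} {F : PowerSeries ℤ} {l : List ℤ}
    (h : F = S36A9_ev (PowerSeries.X : PowerSeries ℤ) l) : S36A9_Cong n F l :=
  ⟨0, by rw [h]; ring⟩

theorem S36A9_Cong.take {n : ℕ} {F : PowerSeries ℤ} {l : List ℤ} (h : S36A9_Cong n F l) :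
    S36A9_Cong n F (l.take n) := by
  obtain ⟨S, hS⟩ := h
  refine ⟨S36A9_ev PowerSeries.X (l.drop n) + S, ?_⟩
  rw [hS, S36A9_ev_take_drop PowerSeries.X l n]
  ring

theorem S36A9_Cong.mul {n : ℕ} {F G : PowerSeries ℤ} {l m : List ℤ}
    (hF : S36A9_Cong n F l) (hG : S36A9_Cong n G m) :
    S36A9_Cong n (F * G) ((S36A9_mul l m).take n) := by
  obtain ⟨S, hS⟩ := hF
  obtain ⟨T, hT⟩ := hG
  refine S36A9_Cong.take ⟨S36A9_ev PowerSeries.X l * T + S * S36A9_ev PowerSeries.X m
    + PowerSeries.X ^ n * S * T, ?_⟩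
  rw [hS, hT, S36A9_ev_mul]
  ring

theorem S36A9_Cong.add {n : ℕ} {F G : PowerSeries ℤ} {l m : List ℤ}
    (hF : S36A9_Cong n F l) (hG : S36A9_Cong n G m) :
    S36A9_Cong n (F + G) (S36A9_add l m) := by
  obtain ⟨S, hS⟩ := hF
  obtain ⟨T, hT⟩ := hG
  refine ⟨S + T, ?_⟩
  rw [hS, hT, S36A9_ev_add]
  ring

theorem S36A9_Cong.smul {n : ℕ} {F : PowerSeries ℤ} {l : List ℤ} (c : ℤ)
    (hF : S36A9_Cong n F l) :
    S36A9_Cong n (PowerSeries.C c * F) (S36A9_smul c l) := by
  obtain ⟨S, hS⟩ := hF
  refine ⟨PowerSeries.C c * S, ?_⟩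
  rw [hS, S36A9_ev_smul]
  have : ((c : ℤ) : PowerSeries ℤ) = PowerSeries.C c := by simp
  rw [this]
  ring

theorem S36A9_Cong.one (n : ℕ) : S36A9_Cong n 1 [1] :=
  S36A9_Cong.of_eq (by simp)

theorem S36A9_Cong.pow {n : ℕ} {F : PowerSeries ℤ} {l : List ℤ} (hF : S36A9_Cong n F l)
    (k : ℕ) : ∃ m : List ℤ, S36A9_Cong n (F ^ k) m := by
  induction k with
  | zero => exact ⟨[1], by simpa using S36A9_Cong.one n⟩
  | succ k ih =>
    obtain ⟨m, hm⟩ := ih
    exact ⟨_, by rw [pow_succ]; exact hm.mul hF⟩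

/-- the coefficients of `ev X l` -/
theorem S36A9_coeff_ev (l : List ℤ) (k : ℕ) :
    PowerSeries.coeff k (S36A9_ev (PowerSeries.X : PowerSeries ℤ) l) = l.getD k 0 := by
  induction l generalizing k with
  | nil => simp
  | cons a l ih =>
    rw [S36A9_ev_cons]
    cases k with
    | zero =>
      simp only [map_add, List.getD_cons_zero]
      rw [PowerSeries.coeff_zero_X_mul, add_zero]
      simp
    | succ k =>
      simp only [map_add, List.getD_cons_succ]
      rw [PowerSeries.coeff_succ_X_mul, ih]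
      have : PowerSeries.coeff (k + 1) ((a : ℤ) : PowerSeries ℤ) = 0 := by
        have h : ((a : ℤ) : PowerSeries ℤ) = PowerSeries.C a := by simp
        rw [h, PowerSeries.coeff_C]
        simp
      rw [this, zero_add]

theorem S36A9_Cong.coeff {n : ℕ} {F : PowerSeries ℤ} {l : List ℤ} (h : S36A9_Cong n F l)
    {k : ℕ} (hk : k < n) : PowerSeries.coeff k F = l.getD k 0 := by
  obtain ⟨S, hS⟩ := h
  rw [hS, map_add, S36A9_coeff_ev, PowerSeries.coeff_X_pow_mul', if_neg (by omega), add_zero]

/-- a power series is congruent to the list of its first `n` coefficients -/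
theorem S36A9_cong_of_coeff (n : ℕ) (F : PowerSeries ℤ) (l : List ℤ) (hl : l.length = n)
    (h : ∀ k, k < n → PowerSeries.coeff k F = l.getD k 0) : S36A9_Cong n F l := by
  refine ⟨PowerSeries.mk fun k => PowerSeries.coeff (k + n) F, ?_⟩
  ext k
  rw [map_add, S36A9_coeff_ev, PowerSeries.coeff_X_pow_mul']
  by_cases hk : k < n
  · rw [if_neg (by omega), add_zero, h k hk]
  · have hkn : n ≤ k := not_lt.mp hk
    rw [if_pos hkn, PowerSeries.coeff_mk, List.getD_eq_default _ _ (by omega), zero_add,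
      Nat.sub_add_cancel hkn]

/-- multiplication by a power of `X` -/
theorem S36A9_Cong.X_pow_mul {n : ℕ} {F : PowerSeries ℤ} {l : List ℤ} (d : ℕ)
    (hF : S36A9_Cong n F l) :
    S36A9_Cong n (PowerSeries.X ^ d * F) ((List.replicate d 0 ++ l).take n) := by
  obtain ⟨S, hS⟩ := hF
  refine S36A9_Cong.take ⟨PowerSeries.X ^ d * S, ?_⟩
  have hrep : ∀ (d : ℕ) (l : List ℤ), S36A9_ev (PowerSeries.X : PowerSeries ℤ)
      (List.replicate d 0 ++ l) = PowerSeries.X ^ d * S36A9_ev PowerSeries.X l := by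
    intro d l
    induction d with
    | zero => simp
    | succ d ih =>
      rw [List.replicate_succ, List.cons_append, S36A9_ev_cons, ih]
      push_cast
      ring
  rw [hS, hrep]
  ring

/-! ### further tools -/

/-- truncated powers of coefficient lists -/
def S36A9_powT (n : ℕ) (l : List ℤ) : ℕ → List ℤ
  | 0 => [1]
  | k + 1 => (S36A9_mul (S36A9_powT n l k) l).take n

theorem S36A9_Cong.powT {n : ℕ} {F : PowerSeries ℤ} {l : List ℤ} (hF : S36A9_Cong n F l)
    (k : ℕ) : S36A9_Cong n (F ^ k) (S36A9_powT n l k) := by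
  induction k with
  | zero => simpa [S36A9_powT] using S36A9_Cong.one n
  | succ k ih => rw [pow_succ]; exact ih.mul hF

theorem S36A9_Cong.mono {n m : ℕ} {F : PowerSeries ℤ} {l : List ℤ} (hF : S36A9_Cong n F l)
    (hmn : m ≤ n) : S36A9_Cong m F l := by
  obtain ⟨S, hS⟩ := hF
  refine ⟨PowerSeries.X ^ (n - m) * S, ?_⟩
  rw [hS, ← mul_assoc, ← pow_add, Nat.add_sub_cancel' hmn]

theorem S36A9_Cong.congr {n : ℕ} {F : PowerSeries ℤ} {l m : List ℤ} (hF : S36A9_Cong n F l)
    (h : l = m) : S36A9_Cong n F m := h ▸ hF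

theorem S36A9_Cong.sub {n : ℕ} {F G : PowerSeries ℤ} {l m : List ℤ}
    (hF : S36A9_Cong n F l) (hG : S36A9_Cong n G m) :
    S36A9_Cong n (F - G) (S36A9_add l (S36A9_smul (-1) m)) := by
  have h := hF.add (hG.smul (-1))
  have e : F + PowerSeries.C (-1 : ℤ) * G = F - G := by
    rw [map_neg, map_one]; ring
  rwa [e] at h

theorem S36A9_getD_smul (c : ℤ) (l : List ℤ) (k : ℕ) :
    (S36A9_smul c l).getD k 0 = c * l.getD k 0 := by
  induction l generalizing k with
  | nil => simp [S36A9_smul]
  | cons a l ih =>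
    cases k with
    | zero => simp [S36A9_smul]
    | succ k => simpa [S36A9_smul] using ih k

theorem S36A9_ev_one_zeros {R : Type*} [CommRing R] (x : R) (k : ℕ) :
    S36A9_ev x (1 :: List.replicate k 0) = 1 := by
  have h : ∀ k : ℕ, S36A9_ev x (List.replicate k 0) = 0 := by
    intro k
    induction k with
    | zero => rfl
    | succ k ih => rw [List.replicate_succ, S36A9_ev_cons, ih]; simp
  rw [S36A9_ev_cons, h]
  simp

/-- the inverse of a unit power series -/
theorem S36A9_Cong.of_mul_eq_one {n : ℕ} {F G : PowerSeries ℤ} {l m : List ℤ}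
    (hFG : F * G = 1) (hF : S36A9_Cong n F l) (k : ℕ)
    (h : (S36A9_mul l m).take n = 1 :: List.replicate k 0) : S36A9_Cong n G m := by
  have h1 : S36A9_Cong n (F * S36A9_ev PowerSeries.X m) ((S36A9_mul l m).take n) :=
    hF.mul (S36A9_Cong.of_eq rfl)
  rw [h] at h1
  obtain ⟨S, hS⟩ := h1
  rw [S36A9_ev_one_zeros] at hS
  refine ⟨-(G * S), ?_⟩
  have h2 : G * (F * S36A9_ev PowerSeries.X m) = S36A9_ev PowerSeries.X m := by
    rw [← mul_assoc, mul_comm G F, hFG, one_mul]
  have h3 : S36A9_ev (PowerSeries.X : PowerSeries ℤ) m = G + PowerSeries.X ^ n * (G * S) := by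
    rw [← h2, hS]; ring
  rw [h3]; ring

/-- `ev` commutes with ring homomorphisms -/
theorem S36A9_ev_map {R S : Type*} [CommRing R] [CommRing S] (g : R →+* S) (x : R)
    (l : List ℤ) : g (S36A9_ev x l) = S36A9_ev (g x) l := by
  induction l with
  | nil => simp
  | cons a l ih => simp [S36A9_ev_cons, ih]

/-- the polynomial with a given coefficient list -/
noncomputable def S36A9_poly (l : List ℤ) : Polynomial ℤ := S36A9_ev Polynomial.X l

theorem S36A9_coeff_poly (l : List ℤ) (k : ℕ) : (S36A9_poly l).coeff k = l.getD k 0 := by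
  unfold S36A9_poly
  induction l generalizing k with
  | nil => simp
  | cons a l ih =>
    rw [S36A9_ev_cons]
    cases k with
    | zero => simp
    | succ k =>
      rw [Polynomial.coeff_add, Polynomial.coeff_X_mul, ih]
      have : ((a : ℤ) : Polynomial ℤ) = Polynomial.C a := by simp
      rw [this, Polynomial.coeff_C_succ, zero_add]
      simp

theorem S36A9_eval₂_poly {R : Type*} [CommRing R] (x : R) (l : List ℤ) :
    Polynomial.eval₂ (Int.castRingHom R) x (S36A9_poly l) = S36A9_ev x l := by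
  have h := S36A9_ev_map (Polynomial.eval₂RingHom (Int.castRingHom R) x) Polynomial.X l
  simpa [S36A9_poly] using h

theorem S36A9_aeval_poly {R : Type*} [CommRing R] [Algebra ℤ R] (x : R) (l : List ℤ) :
    Polynomial.aeval x (S36A9_poly l) = S36A9_ev x l := by
  have h := S36A9_ev_map (Polynomial.aeval (R := ℤ) x).toRingHom Polynomial.X l
  simpa [S36A9_poly] using h

/-- a polynomial is determined by its coefficient list -/
theorem S36A9_poly_eq (p : Polynomial ℤ) (l : List ℤ) (h : ∀ k, p.coeff k = l.getD k 0) :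
    p = S36A9_poly l := by
  ext k
  rw [h, S36A9_coeff_poly]

end Fermat.Agent.S36_helper10_AUX9Poly
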