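import Fermat.Agent.S16_helper28_TE
import Fermat.Agent.S36_helper10_AUX9Poly

/-!
# S36, piece AUX, instance `r = 9` (helper10): the first coefficients of `j`

`jNum = Q · j = 1 + 744 Q + 196884 Q² + ⋯` (the prelude's `ModularCurve.jNum`): its first `13`
coefficients, from the landed identity `1728 Δ = E₄³ - E₆²` (`S16_helper28_TE.delta_identity`).

* `S36A9_lJ`          : the list `[1, 744, 196884, …]` (13 entries);
* `S36A9_cong_jNum`   : `jNum ≡ ev X S36A9_lJ` modulo `X ^ 13`;
* `S36A9_coeff_jNum`  : the coefficients.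
-/

set_option autoImplicit false

noncomputable section

namespace Fermat.Agent.S36_helper10_AUX9J

open PowerSeries Fermat.Agent.S36_helper10_AUX9Poly
open Fermat.Agent.S16_helper28_TE Fermat.Agent.S16_helper18_TRALG

/-- the first coefficients of `E₄` -/
def S36A9_lE4 : List ℤ :=
  [1, 240, 2160, 6720, 17520, 30240, 60480, 82560, 140400, 181680, 272160, 319680, 490560, 527520]

/-- the first coefficients of `E₆` -/
def S36A9_lE6 : List ℤ :=
  [1, -504, -16632, -122976, -532728, -1575504, -4058208, -8471232, -17047800, -29883672, -51991632, -81170208, -129985632, -187132176]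

/-- the first coefficients of `∏ (1 - Qⁿ)²⁴` -/
def S36A9_lD : List ℤ :=
  [1, -24, 252, -1472, 4830, -6048, -16744, 84480, -113643, -115920, 534612, -370944, -577738]

/-- the first coefficients of `∏ (1 - Qⁿ)⁻²⁴` -/
def S36A9_lDinv : List ℤ :=
  [1, 24, 324, 3200, 25650, 176256, 1073720, 5930496, 30178575, 143184000, 639249300, 2705114880, 10914317934]

/-- the first coefficients of `Q · j` -/
def S36A9_lJ : List ℤ :=
  [1, 744, 196884, 21493760, 864299970, 20245856256, 333202640600, 4252023300096, 44656994071935, 401490886656000, 3176440229784420, 22567393309593600, 146211911499519294]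

theorem S36A9_sigma3_table : ∀ k : ℕ, k < 14 →
    (if k = 0 then (1 : ℤ) else 240 * ((ArithmeticFunction.sigma 3 k : ℕ) : ℤ))
      = S36A9_lE4.getD k 0 := by
  decide +kernel

theorem S36A9_sigma5_table : ∀ k : ℕ, k < 14 →
    (if k = 0 then (1 : ℤ) else -504 * ((ArithmeticFunction.sigma 5 k : ℕ) : ℤ))
      = S36A9_lE6.getD k 0 := by
  decide +kernel

theorem S36A9_cong_e4 : S36A9_Cong 14 e4Ser S36A9_lE4 :=
  S36A9_cong_of_coeff 14 _ _ rfl fun k hk => by rw [coeff_e4Ser]; exact S36A9_sigma3_table k hk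

theorem S36A9_cong_e6 : S36A9_Cong 14 e6Ser S36A9_lE6 :=
  S36A9_cong_of_coeff 14 _ _ rfl fun k hk => by rw [coeff_e6Ser]; exact S36A9_sigma5_table k hk

theorem S36A9_cong_delta :
    S36A9_Cong 14 (e4Ser ^ 3 - e6Ser ^ 2) (0 :: S36A9_smul 1728 S36A9_lD) := by
  have h := ((S36A9_cong_e4.powT 3).sub (S36A9_cong_e6.powT 2)).take
  refine h.congr ?_
  decide +kernel

theorem S36A9_cong_D : S36A9_Cong 13 ModularCurve.dedekindEtaUnit S36A9_lD := by
  refine S36A9_cong_of_coeff 13 _ _ rfl fun k hk => ?_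
  have h1 := S36A9_cong_delta.coeff (k := k + 1) (by omega)
  rw [← delta_identity, deltaSer, List.getD_cons_succ, S36A9_getD_smul, coeff_C_mul,
    coeff_succ_X_mul] at h1
  exact mul_left_cancel₀ (by norm_num) h1

theorem S36A9_cong_Dinv : S36A9_Cong 13 ModularCurve.dedekindEtaUnitInv S36A9_lDinv :=
  S36A9_Cong.of_mul_eq_one ModularCurve.dedekindEtaUnit_mul_inv S36A9_cong_D 12
    (by decide +kernel)

/-- **`Q · j` modulo `Q ^ 13`.** -/
theorem S36A9_cong_jNum : S36A9_Cong 13 ModularCurve.jNum S36A9_lJ := by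
  have h := ((S36A9_cong_e4.mono (m := 13) (by norm_num)).powT 3).mul S36A9_cong_Dinv
  rw [e4Ser_eq_eisenstein4] at h
  refine h.congr ?_
  decide +kernel

theorem S36A9_coeff_jNum {k : ℕ} (hk : k < 13) :
    PowerSeries.coeff k ModularCurve.jNum = S36A9_lJ.getD k 0 :=
  S36A9_cong_jNum.coeff hk

end Fermat.Agent.S36_helper10_AUX9J
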