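import Fermat.Agent.S34_helper8_MODEQ
import Fermat.Agent.S36_helper10_AUX9J

/-!
# S36, piece AUX, instance `r = 9` (helper10): Laurent series versus power series

`j = Q⁻¹ · J`, `θ = j(Q³) = Q⁻³ · J₃` with `J = jNum`, `J₃ = J(Q³)`, and the monomials
`Q¹² jˣ θʸ = X^(12 - x - 3y) Jˣ J₃ʸ` as power series, with their coefficient tables modulo
`X ^ 13`.
-/

set_option autoImplicit false
set_option linter.unusedVariables false

noncomputable section

namespace Fermat.Agent.S36_helper10_AUX9Glue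

open ModularCurve
open Fermat.Agent.S36_helper10_AUX9Poly Fermat.Agent.S36_helper10_AUX9J

local notation "Lz" => LaurentSeries ℤ

/-- `J(Q³)` -/
def S36A9_J3 : PowerSeries ℤ := PowerSeries.expand 3 (by norm_num) ModularCurve.jNum

/-- the Laurent monomial `Q ^ n` -/
def S36A9_Q (n : ℤ) : Lz := HahnSeries.single n 1

theorem S36A9_Q_mul (m n : ℤ) : S36A9_Q m * S36A9_Q n = S36A9_Q (m + n) := by
  simp [S36A9_Q]

theorem S36A9_Q_zero : S36A9_Q 0 = 1 := rfl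

theorem S36A9_Q_pow (m : ℤ) (k : ℕ) : S36A9_Q m ^ k = S36A9_Q (k * m) := by
  induction k with
  | zero => simp [S36A9_Q_zero]
  | succ k ih => rw [pow_succ, ih, S36A9_Q_mul]; congr 1; push_cast; ring

theorem S36A9_Q_nat (n : ℕ) :
    S36A9_Q (n : ℤ) = HahnSeries.ofPowerSeries ℤ ℤ (PowerSeries.X ^ n) := by
  rw [S36A9_Q, HahnSeries.ofPowerSeries_X_pow]

theorem S36A9_map_jNum : ModularCurve.jNum.map (Int.castRingHom ℤ) = ModularCurve.jNum := by
  have : Int.castRingHom ℤ = RingHom.id ℤ := RingHom.ext_int _ _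
  rw [this]
  exact congrFun PowerSeries.map_id _

theorem S36A9_j_eq :
    jqModC ℤ = S36A9_Q (-1) * HahnSeries.ofPowerSeries ℤ ℤ ModularCurve.jNum := by
  rw [jqModC, S36A9_map_jNum]; rfl

theorem S36A9_qExpand_ofPowerSeries (N : ℕ) [NeZero N] (g : PowerSeries ℤ) :
    qExpand ℤ N (HahnSeries.ofPowerSeries ℤ ℤ g)
      = HahnSeries.ofPowerSeries ℤ ℤ (PowerSeries.expand N (NeZero.ne N) g) := by
  ext n
  by_cases hn : (N : ℤ) ∣ n
  · obtain ⟨m, rfl⟩ := hn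
    rw [qExpand_coeff_mul]
    rcases le_or_gt 0 m with hm | hm
    · lift m to ℕ using hm
      rw [HahnSeries.ofPowerSeries_apply_coeff, ← Nat.cast_mul,
        HahnSeries.ofPowerSeries_apply_coeff, PowerSeries.coeff_expand_mul]
    · have hN : (0 : ℤ) < N := by exact_mod_cast Nat.pos_of_ne_zero (NeZero.ne N)
      rw [ofPowerSeries_coeff_of_neg _ hm,
        ofPowerSeries_coeff_of_neg _ (mul_neg_of_pos_of_neg hN hm)]
  · rw [qExpand_coeff_of_not_dvd N _ hn]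
    rcases le_or_gt 0 n with hn0 | hn0
    · lift n to ℕ using hn0
      rw [HahnSeries.ofPowerSeries_apply_coeff, PowerSeries.coeff_expand_of_not_dvd]
      exact fun h => hn (by exact_mod_cast h)
    · rw [ofPowerSeries_coeff_of_neg _ hn0]

theorem S36A9_theta_eq :
    qExpand ℤ 3 (jqModC ℤ) = S36A9_Q (-3) * HahnSeries.ofPowerSeries ℤ ℤ S36A9_J3 := by
  rw [S36A9_j_eq, map_mul, S36A9_qExpand_ofPowerSeries, S36A9_Q, qExpand_single]
  rfl

/-- the power series `X^(12 - x - 3y) Jˣ J₃ʸ` -/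
def S36A9_W (x y : ℕ) : PowerSeries ℤ :=
  PowerSeries.X ^ (12 - (x + 3 * y)) * (ModularCurve.jNum ^ x * S36A9_J3 ^ y)

/-- **the monomials `Q¹² jˣ θʸ` as power series** -/
theorem S36A9_monomial (x y : ℕ) (h : x + 3 * y ≤ 12) :
    S36A9_Q 12 * ((jqModC ℤ) ^ x * (qExpand ℤ 3 (jqModC ℤ)) ^ y)
      = HahnSeries.ofPowerSeries ℤ ℤ (S36A9_W x y) := by
  have hW : HahnSeries.ofPowerSeries ℤ ℤ (S36A9_W x y)
      = S36A9_Q ((12 - (x + 3 * y) : ℕ) : ℤ) *
        ((HahnSeries.ofPowerSeries ℤ ℤ) jNum ^ x * (HahnSeries.ofPowerSeries ℤ ℤ) S36A9_J3 ^ y) := by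
    rw [S36A9_Q_nat, S36A9_W]
    simp only [map_mul, map_pow]
  rw [hW, S36A9_theta_eq, S36A9_j_eq, mul_pow, mul_pow, S36A9_Q_pow, S36A9_Q_pow]
  have e : S36A9_Q 12 * (S36A9_Q ((x : ℤ) * -1) * (HahnSeries.ofPowerSeries ℤ ℤ) jNum ^ x *
        (S36A9_Q ((y : ℤ) * -3) * (HahnSeries.ofPowerSeries ℤ ℤ) S36A9_J3 ^ y))
      = (S36A9_Q 12 * S36A9_Q ((x : ℤ) * -1) * S36A9_Q ((y : ℤ) * -3)) *
        ((HahnSeries.ofPowerSeries ℤ ℤ) jNum ^ x * (HahnSeries.ofPowerSeries ℤ ℤ) S36A9_J3 ^ y) := by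
    ring
  rw [e, S36A9_Q_mul, S36A9_Q_mul]
  congr 2
  push_cast [Nat.cast_sub h]
  ring

/-- the first coefficients of `J(Q³)` -/
def S36A9_lJ3 : List ℤ :=
  [1, 0, 0, 744, 0, 0, 196884, 0, 0, 21493760, 0, 0, 864299970]

theorem S36A9_coeff_expand (p : ℕ) (hp : p ≠ 0) (f : PowerSeries ℤ) (k : ℕ) :
    PowerSeries.coeff k (PowerSeries.expand p hp f)
      = if p ∣ k then PowerSeries.coeff (k / p) f else 0 := by
  split_ifs with h
  · obtain ⟨m, rfl⟩ := h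
    rw [PowerSeries.coeff_expand_mul, Nat.mul_div_cancel_left _ (Nat.pos_of_ne_zero hp)]
  · exact PowerSeries.coeff_expand_of_not_dvd p hp f h

theorem S36A9_cong_J3 : S36A9_Cong 13 S36A9_J3 S36A9_lJ3 := by
  refine S36A9_cong_of_coeff 13 _ _ rfl fun k hk => ?_
  rw [S36A9_J3, S36A9_coeff_expand]
  have key : ∀ k : ℕ, k < 13 →
      (if 3 ∣ k then S36A9_lJ.getD (k / 3) 0 else 0) = S36A9_lJ3.getD k 0 := by
    decide +kernel
  rw [← key k hk]
  split_ifs with h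
  · exact S36A9_coeff_jNum (by omega)
  · rfl

/-- the coefficient table of `W x y` modulo `X ^ 13` -/
def S36A9_tab (x y : ℕ) : List ℤ :=
  (List.replicate (12 - (x + 3 * y)) 0 ++
    (S36A9_mul (S36A9_powT 13 S36A9_lJ x) (S36A9_powT 13 S36A9_lJ3 y)).take 13).take 13

theorem S36A9_cong_W (x y : ℕ) : S36A9_Cong 13 (S36A9_W x y) (S36A9_tab x y) :=
  ((S36A9_cong_jNum.powT x).mul (S36A9_cong_J3.powT y)).X_pow_mul _

theorem S36A9_coeff_W (x y : ℕ) {n : ℕ} (hn : n < 13) :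
    PowerSeries.coeff n (S36A9_W x y) = (S36A9_tab x y).getD n 0 :=
  (S36A9_cong_W x y).coeff hn

end Fermat.Agent.S36_helper10_AUX9Glue
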