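import Fermat.Agent.S36_helper10_AUX9Eq

/-!
# S36, piece AUX, instance `r = 9` (helper10): the modular equation of level `3` is the classical
`Φ₃` (GENERATED FILE: tables and certificates computed by exact integer arithmetic, checked here
by the kernel)

* `S36A9_tv_n_x_y` : the Laurent coefficient of order `n - 12` of `jˣ θʸ`;
* `S36A9_solve`    : the coefficients of the polynomials `aᵢ` of any relation of the shape of the
  modular equation (both relations) are those of the classical `Φ₃`.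
-/

set_option autoImplicit false
set_option linter.unusedVariables false
set_option maxHeartbeats 1600000

noncomputable section

namespace Fermat.Agent.S36_helper10_AUX9Sol

open ModularCurve Finset
open Fermat.Agent.S36_helper10_AUX9Poly Fermat.Agent.S36_helper10_AUX9J
open Fermat.Agent.S36_helper10_AUX9Glue Fermat.Agent.S36_helper10_AUX9Eq

local notation "Lz" => LaurentSeries ℤ
local notation "jz" => jqModC ℤ
local notation "θz" => qExpand ℤ 3 (jqModC ℤ)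

theorem S36A9_tv_0_0_0 : S36A9_tv 0 0 0 = 0 := by decide +kernel
theorem S36A9_tv_0_0_1 : S36A9_tv 0 0 1 = 0 := by decide +kernel
theorem S36A9_tv_0_0_2 : S36A9_tv 0 0 2 = 0 := by decide +kernel
theorem S36A9_tv_0_0_3 : S36A9_tv 0 0 3 = 0 := by decide +kernel
theorem S36A9_tv_0_0_4 : S36A9_tv 0 0 4 = 1 := by decide +kernel
theorem S36A9_tv_0_1_0 : S36A9_tv 0 1 0 = 0 := by decide +kernel
theorem S36A9_tv_0_1_1 : S36A9_tv 0 1 1 = 0 := by decide +kernel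
theorem S36A9_tv_0_1_2 : S36A9_tv 0 1 2 = 0 := by decide +kernel
theorem S36A9_tv_0_1_3 : S36A9_tv 0 1 3 = 0 := by decide +kernel
theorem S36A9_tv_0_2_0 : S36A9_tv 0 2 0 = 0 := by decide +kernel
theorem S36A9_tv_0_2_1 : S36A9_tv 0 2 1 = 0 := by decide +kernel
theorem S36A9_tv_0_2_2 : S36A9_tv 0 2 2 = 0 := by decide +kernel
theorem S36A9_tv_0_2_3 : S36A9_tv 0 2 3 = 0 := by decide +kernel
theorem S36A9_tv_0_3_0 : S36A9_tv 0 3 0 = 0 := by decide +kernel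
theorem S36A9_tv_0_3_1 : S36A9_tv 0 3 1 = 0 := by decide +kernel
theorem S36A9_tv_0_3_2 : S36A9_tv 0 3 2 = 0 := by decide +kernel
theorem S36A9_tv_0_3_3 : S36A9_tv 0 3 3 = 1 := by decide +kernel
theorem S36A9_tv_0_4_0 : S36A9_tv 0 4 0 = 0 := by decide +kernel

theorem S36A9_tv_1_0_0 : S36A9_tv 1 0 0 = 0 := by decide +kernel
theorem S36A9_tv_1_0_1 : S36A9_tv 1 0 1 = 0 := by decide +kernel
theorem S36A9_tv_1_0_2 : S36A9_tv 1 0 2 = 0 := by decide +kernel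
theorem S36A9_tv_1_0_3 : S36A9_tv 1 0 3 = 0 := by decide +kernel
theorem S36A9_tv_1_0_4 : S36A9_tv 1 0 4 = 0 := by decide +kernel
theorem S36A9_tv_1_1_0 : S36A9_tv 1 1 0 = 0 := by decide +kernel
theorem S36A9_tv_1_1_1 : S36A9_tv 1 1 1 = 0 := by decide +kernel
theorem S36A9_tv_1_1_2 : S36A9_tv 1 1 2 = 0 := by decide +kernel
theorem S36A9_tv_1_1_3 : S36A9_tv 1 1 3 = 0 := by decide +kernel
theorem S36A9_tv_1_2_0 : S36A9_tv 1 2 0 = 0 := by decide +kernel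
theorem S36A9_tv_1_2_1 : S36A9_tv 1 2 1 = 0 := by decide +kernel
theorem S36A9_tv_1_2_2 : S36A9_tv 1 2 2 = 0 := by decide +kernel
theorem S36A9_tv_1_2_3 : S36A9_tv 1 2 3 = 1 := by decide +kernel
theorem S36A9_tv_1_3_0 : S36A9_tv 1 3 0 = 0 := by decide +kernel
theorem S36A9_tv_1_3_1 : S36A9_tv 1 3 1 = 0 := by decide +kernel
theorem S36A9_tv_1_3_2 : S36A9_tv 1 3 2 = 0 := by decide +kernel
theorem S36A9_tv_1_3_3 : S36A9_tv 1 3 3 = 2232 := by decide +kernel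
theorem S36A9_tv_1_4_0 : S36A9_tv 1 4 0 = 0 := by decide +kernel

theorem S36A9_tv_2_0_0 : S36A9_tv 2 0 0 = 0 := by decide +kernel
theorem S36A9_tv_2_0_1 : S36A9_tv 2 0 1 = 0 := by decide +kernel
theorem S36A9_tv_2_0_2 : S36A9_tv 2 0 2 = 0 := by decide +kernel
theorem S36A9_tv_2_0_3 : S36A9_tv 2 0 3 = 0 := by decide +kernel
theorem S36A9_tv_2_0_4 : S36A9_tv 2 0 4 = 0 := by decide +kernel
theorem S36A9_tv_2_1_0 : S36A9_tv 2 1 0 = 0 := by decide +kernel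
theorem S36A9_tv_2_1_1 : S36A9_tv 2 1 1 = 0 := by decide +kernel
theorem S36A9_tv_2_1_2 : S36A9_tv 2 1 2 = 0 := by decide +kernel
theorem S36A9_tv_2_1_3 : S36A9_tv 2 1 3 = 1 := by decide +kernel
theorem S36A9_tv_2_2_0 : S36A9_tv 2 2 0 = 0 := by decide +kernel
theorem S36A9_tv_2_2_1 : S36A9_tv 2 2 1 = 0 := by decide +kernel
theorem S36A9_tv_2_2_2 : S36A9_tv 2 2 2 = 0 := by decide +kernel
theorem S36A9_tv_2_2_3 : S36A9_tv 2 2 3 = 1488 := by decide +kernel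
theorem S36A9_tv_2_3_0 : S36A9_tv 2 3 0 = 0 := by decide +kernel
theorem S36A9_tv_2_3_1 : S36A9_tv 2 3 1 = 0 := by decide +kernel
theorem S36A9_tv_2_3_2 : S36A9_tv 2 3 2 = 0 := by decide +kernel
theorem S36A9_tv_2_3_3 : S36A9_tv 2 3 3 = 2251260 := by decide +kernel
theorem S36A9_tv_2_4_0 : S36A9_tv 2 4 0 = 0 := by decide +kernel

theorem S36A9_tv_3_0_0 : S36A9_tv 3 0 0 = 0 := by decide +kernel
theorem S36A9_tv_3_0_1 : S36A9_tv 3 0 1 = 0 := by decide +kernel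
theorem S36A9_tv_3_0_2 : S36A9_tv 3 0 2 = 0 := by decide +kernel
theorem S36A9_tv_3_0_3 : S36A9_tv 3 0 3 = 1 := by decide +kernel
theorem S36A9_tv_3_0_4 : S36A9_tv 3 0 4 = 2976 := by decide +kernel
theorem S36A9_tv_3_1_0 : S36A9_tv 3 1 0 = 0 := by decide +kernel
theorem S36A9_tv_3_1_1 : S36A9_tv 3 1 1 = 0 := by decide +kernel
theorem S36A9_tv_3_1_2 : S36A9_tv 3 1 2 = 0 := by decide +kernel
theorem S36A9_tv_3_1_3 : S36A9_tv 3 1 3 = 744 := by decide +kernel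
theorem S36A9_tv_3_2_0 : S36A9_tv 3 2 0 = 0 := by decide +kernel
theorem S36A9_tv_3_2_1 : S36A9_tv 3 2 1 = 0 := by decide +kernel
theorem S36A9_tv_3_2_2 : S36A9_tv 3 2 2 = 0 := by decide +kernel
theorem S36A9_tv_3_2_3 : S36A9_tv 3 2 3 = 947304 := by decide +kernel
theorem S36A9_tv_3_3_0 : S36A9_tv 3 3 0 = 0 := by decide +kernel
theorem S36A9_tv_3_3_1 : S36A9_tv 3 3 1 = 0 := by decide +kernel
theorem S36A9_tv_3_3_2 : S36A9_tv 3 3 2 = 1 := by decide +kernel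
theorem S36A9_tv_3_3_3 : S36A9_tv 3 3 3 = 1355204472 := by decide +kernel
theorem S36A9_tv_3_4_0 : S36A9_tv 3 4 0 = 0 := by decide +kernel

theorem S36A9_tv_4_0_0 : S36A9_tv 4 0 0 = 0 := by decide +kernel
theorem S36A9_tv_4_0_1 : S36A9_tv 4 0 1 = 0 := by decide +kernel
theorem S36A9_tv_4_0_2 : S36A9_tv 4 0 2 = 0 := by decide +kernel
theorem S36A9_tv_4_0_3 : S36A9_tv 4 0 3 = 0 := by decide +kernel
theorem S36A9_tv_4_0_4 : S36A9_tv 4 0 4 = 0 := by decide +kernel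
theorem S36A9_tv_4_1_0 : S36A9_tv 4 1 0 = 0 := by decide +kernel
theorem S36A9_tv_4_1_1 : S36A9_tv 4 1 1 = 0 := by decide +kernel
theorem S36A9_tv_4_1_2 : S36A9_tv 4 1 2 = 0 := by decide +kernel
theorem S36A9_tv_4_1_3 : S36A9_tv 4 1 3 = 196884 := by decide +kernel
theorem S36A9_tv_4_2_0 : S36A9_tv 4 2 0 = 0 := by decide +kernel
theorem S36A9_tv_4_2_1 : S36A9_tv 4 2 1 = 0 := by decide +kernel
theorem S36A9_tv_4_2_2 : S36A9_tv 4 2 2 = 1 := by decide +kernel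
theorem S36A9_tv_4_2_3 : S36A9_tv 4 2 3 = 335953144 := by decide +kernel
theorem S36A9_tv_4_3_0 : S36A9_tv 4 3 0 = 0 := by decide +kernel
theorem S36A9_tv_4_3_1 : S36A9_tv 4 3 1 = 0 := by decide +kernel
theorem S36A9_tv_4_3_2 : S36A9_tv 4 3 2 = 2232 := by decide +kernel
theorem S36A9_tv_4_3_3 : S36A9_tv 4 3 3 = 541783100214 := by decide +kernel
theorem S36A9_tv_4_4_0 : S36A9_tv 4 4 0 = 0 := by decide +kernel

theorem S36A9_tv_5_0_0 : S36A9_tv 5 0 0 = 0 := by decide +kernel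
theorem S36A9_tv_5_0_1 : S36A9_tv 5 0 1 = 0 := by decide +kernel
theorem S36A9_tv_5_0_2 : S36A9_tv 5 0 2 = 0 := by decide +kernel
theorem S36A9_tv_5_0_3 : S36A9_tv 5 0 3 = 0 := by decide +kernel
theorem S36A9_tv_5_0_4 : S36A9_tv 5 0 4 = 0 := by decide +kernel
theorem S36A9_tv_5_1_0 : S36A9_tv 5 1 0 = 0 := by decide +kernel
theorem S36A9_tv_5_1_1 : S36A9_tv 5 1 1 = 0 := by decide +kernel
theorem S36A9_tv_5_1_2 : S36A9_tv 5 1 2 = 1 := by decide +kernel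
theorem S36A9_tv_5_1_3 : S36A9_tv 5 1 3 = 21495992 := by decide +kernel
theorem S36A9_tv_5_2_0 : S36A9_tv 5 2 0 = 0 := by decide +kernel
theorem S36A9_tv_5_2_1 : S36A9_tv 5 2 1 = 0 := by decide +kernel
theorem S36A9_tv_5_2_2 : S36A9_tv 5 2 2 = 1488 := by decide +kernel
theorem S36A9_tv_5_2_3 : S36A9_tv 5 2 3 = 72477945492 := by decide +kernel
theorem S36A9_tv_5_3_0 : S36A9_tv 5 3 0 = 0 := by decide +kernel
theorem S36A9_tv_5_3_1 : S36A9_tv 5 3 1 = 0 := by decide +kernel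
theorem S36A9_tv_5_3_2 : S36A9_tv 5 3 2 = 2251260 := by decide +kernel
theorem S36A9_tv_5_3_3 : S36A9_tv 5 3 3 = 151527078622080 := by decide +kernel
theorem S36A9_tv_5_4_0 : S36A9_tv 5 4 0 = 0 := by decide +kernel

theorem S36A9_tv_6_0_0 : S36A9_tv 6 0 0 = 0 := by decide +kernel
theorem S36A9_tv_6_0_1 : S36A9_tv 6 0 1 = 0 := by decide +kernel
theorem S36A9_tv_6_0_2 : S36A9_tv 6 0 2 = 1 := by decide +kernel
theorem S36A9_tv_6_0_3 : S36A9_tv 6 0 3 = 2232 := by decide +kernel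
theorem S36A9_tv_6_0_4 : S36A9_tv 6 0 4 = 4108752 := by decide +kernel
theorem S36A9_tv_6_1_0 : S36A9_tv 6 1 0 = 0 := by decide +kernel
theorem S36A9_tv_6_1_1 : S36A9_tv 6 1 1 = 0 := by decide +kernel
theorem S36A9_tv_6_1_2 : S36A9_tv 6 1 2 = 744 := by decide +kernel
theorem S36A9_tv_6_1_3 : S36A9_tv 6 1 3 = 865960578 := by decide +kernel
theorem S36A9_tv_6_2_0 : S36A9_tv 6 2 0 = 0 := by decide +kernel
theorem S36A9_tv_6_2_1 : S36A9_tv 6 2 1 = 0 := by decide +kernel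
theorem S36A9_tv_6_2_2 : S36A9_tv 6 2 2 = 947304 := by decide +kernel
theorem S36A9_tv_6_2_3 : S36A9_tv 6 2 3 = 9792239338080 := by decide +kernel
theorem S36A9_tv_6_3_0 : S36A9_tv 6 3 0 = 0 := by decide +kernel
theorem S36A9_tv_6_3_1 : S36A9_tv 6 3 1 = 1 := by decide +kernel
theorem S36A9_tv_6_3_2 : S36A9_tv 6 3 2 = 1355203728 := by decide +kernel
theorem S36A9_tv_6_3_3 : S36A9_tv 6 3 3 = 30459141465291828 := by decide +kernel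
theorem S36A9_tv_6_4_0 : S36A9_tv 6 4 0 = 0 := by decide +kernel

theorem S36A9_tv_7_0_0 : S36A9_tv 7 0 0 = 0 := by decide +kernel
theorem S36A9_tv_7_0_1 : S36A9_tv 7 0 1 = 0 := by decide +kernel
theorem S36A9_tv_7_0_2 : S36A9_tv 7 0 2 = 0 := by decide +kernel
theorem S36A9_tv_7_0_3 : S36A9_tv 7 0 3 = 0 := by decide +kernel
theorem S36A9_tv_7_0_4 : S36A9_tv 7 0 4 = 0 := by decide +kernel
theorem S36A9_tv_7_1_0 : S36A9_tv 7 1 0 = 0 := by decide +kernel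
theorem S36A9_tv_7_1_1 : S36A9_tv 7 1 1 = 0 := by decide +kernel
theorem S36A9_tv_7_1_2 : S36A9_tv 7 1 2 = 196884 := by decide +kernel
theorem S36A9_tv_7_1_3 : S36A9_tv 7 1 3 = 20685301344 := by decide +kernel
theorem S36A9_tv_7_2_0 : S36A9_tv 7 2 0 = 0 := by decide +kernel
theorem S36A9_tv_7_2_1 : S36A9_tv 7 2 1 = 1 := by decide +kernel
theorem S36A9_tv_7_2_2 : S36A9_tv 7 2 2 = 335952400 := by decide +kernel
theorem S36A9_tv_7_2_3 : S36A9_tv 7 2 3 = 833857473601532 := by decide +kernel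
theorem S36A9_tv_7_3_0 : S36A9_tv 7 3 0 = 0 := by decide +kernel
theorem S36A9_tv_7_3_1 : S36A9_tv 7 3 1 = 2232 := by decide +kernel
theorem S36A9_tv_7_3_2 : S36A9_tv 7 3 2 = 541781439606 := by decide +kernel
theorem S36A9_tv_7_3_3 : S36A9_tv 7 3 3 = 4461984465203723760 := by decide +kernel
theorem S36A9_tv_7_4_0 : S36A9_tv 7 4 0 = 0 := by decide +kernel

theorem S36A9_tv_8_0_0 : S36A9_tv 8 0 0 = 0 := by decide +kernel
theorem S36A9_tv_8_0_1 : S36A9_tv 8 0 1 = 0 := by decide +kernel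
theorem S36A9_tv_8_0_2 : S36A9_tv 8 0 2 = 0 := by decide +kernel
theorem S36A9_tv_8_0_3 : S36A9_tv 8 0 3 = 0 := by decide +kernel
theorem S36A9_tv_8_0_4 : S36A9_tv 8 0 4 = 0 := by decide +kernel
theorem S36A9_tv_8_1_0 : S36A9_tv 8 1 0 = 0 := by decide +kernel
theorem S36A9_tv_8_1_1 : S36A9_tv 8 1 1 = 1 := by decide +kernel
theorem S36A9_tv_8_1_2 : S36A9_tv 8 1 2 = 21495248 := by decide +kernel
theorem S36A9_tv_8_1_3 : S36A9_tv 8 1 3 = 381178964180 := by decide +kernel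
theorem S36A9_tv_8_2_0 : S36A9_tv 8 2 0 = 0 := by decide +kernel
theorem S36A9_tv_8_2_1 : S36A9_tv 8 2 1 = 1488 := by decide +kernel
theorem S36A9_tv_8_2_2 : S36A9_tv 8 2 2 = 72476838420 := by decide +kernel
theorem S36A9_tv_8_2_3 : S36A9_tv 8 2 3 = 45792358859658912 := by decide +kernel
theorem S36A9_tv_8_3_0 : S36A9_tv 8 3 0 = 0 := by decide +kernel
theorem S36A9_tv_8_3_1 : S36A9_tv 8 3 1 = 2251260 := by decide +kernel
theorem S36A9_tv_8_3_2 : S36A9_tv 8 3 2 = 151525403684640 := by decide +kernel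
theorem S36A9_tv_8_3_3 : S36A9_tv 8 3 3 = 480257921200323487545 := by decide +kernel
theorem S36A9_tv_8_4_0 : S36A9_tv 8 4 0 = 1 := by decide +kernel

theorem S36A9_tv_9_0_0 : S36A9_tv 9 0 0 = 0 := by decide +kernel
theorem S36A9_tv_9_0_1 : S36A9_tv 9 0 1 = 1 := by decide +kernel
theorem S36A9_tv_9_0_2 : S36A9_tv 9 0 2 = 1488 := by decide +kernel
theorem S36A9_tv_9_0_3 : S36A9_tv 9 0 3 = 2251260 := by decide +kernel
theorem S36A9_tv_9_0_4 : S36A9_tv 9 0 4 = 3491078528 := by decide +kernel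
theorem S36A9_tv_9_1_0 : S36A9_tv 9 1 0 = 0 := by decide +kernel
theorem S36A9_tv_9_1_1 : S36A9_tv 9 1 1 = 744 := by decide +kernel
theorem S36A9_tv_9_1_2 : S36A9_tv 9 1 2 = 865407042 := by decide +kernel
theorem S36A9_tv_9_1_3 : S36A9_tv 9 1 3 = 6182815770576 := by decide +kernel
theorem S36A9_tv_9_2_0 : S36A9_tv 9 2 0 = 0 := by decide +kernel
theorem S36A9_tv_9_2_1 : S36A9_tv 9 2 1 = 947304 := by decide +kernel
theorem S36A9_tv_9_2_2 : S36A9_tv 9 2 2 = 9791534543904 := by decide +kernel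
theorem S36A9_tv_9_2_3 : S36A9_tv 9 2 3 = 1776808142434788642 := by decide +kernel
theorem S36A9_tv_9_3_0 : S36A9_tv 9 3 0 = 1 := by decide +kernel
theorem S36A9_tv_9_3_1 : S36A9_tv 9 3 1 = 1355202984 := by decide +kernel
theorem S36A9_tv_9_3_2 : S36A9_tv 9 3 2 = 30458133193521312 := by decide +kernel
theorem S36A9_tv_9_3_3 : S36A9_tv 9 3 3 = 38360228325195786383216 := by decide +kernel
theorem S36A9_tv_9_4_0 : S36A9_tv 9 4 0 = 2976 := by decide +kernel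

theorem S36A9_tv_10_0_0 : S36A9_tv 10 0 0 = 0 := by decide +kernel
theorem S36A9_tv_10_0_1 : S36A9_tv 10 0 1 = 0 := by decide +kernel
theorem S36A9_tv_10_0_2 : S36A9_tv 10 0 2 = 0 := by decide +kernel
theorem S36A9_tv_10_0_3 : S36A9_tv 10 0 3 = 0 := by decide +kernel
theorem S36A9_tv_10_0_4 : S36A9_tv 10 0 4 = 0 := by decide +kernel
theorem S36A9_tv_10_1_0 : S36A9_tv 10 1 0 = 0 := by decide +kernel
theorem S36A9_tv_10_1_1 : S36A9_tv 10 1 1 = 196884 := by decide +kernel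
theorem S36A9_tv_10_1_2 : S36A9_tv 10 1 2 = 20538819648 := by decide +kernel
theorem S36A9_tv_10_1_3 : S36A9_tv 10 1 3 = 90288982309167 := by decide +kernel
theorem S36A9_tv_10_2_0 : S36A9_tv 10 2 0 = 1 := by decide +kernel
theorem S36A9_tv_10_2_1 : S36A9_tv 10 2 1 = 335951656 := by decide +kernel
theorem S36A9_tv_10_2_2 : S36A9_tv 10 2 2 = 833607524819048 := by decide +kernel
theorem S36A9_tv_10_2_3 : S36A9_tv 10 2 3 = 52922356927943024624 := by decide +kernel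
theorem S36A9_tv_10_3_0 : S36A9_tv 10 3 0 = 2232 := by decide +kernel
theorem S36A9_tv_10_3_1 : S36A9_tv 10 3 1 = 541779778998 := by decide +kernel
theorem S36A9_tv_10_3_2 : S36A9_tv 10 3 2 = 4461581379373211808 := by decide +kernel
theorem S36A9_tv_10_3_3 : S36A9_tv 10 3 3 = 2319314637883533604808364 := by decide +kernel
theorem S36A9_tv_10_4_0 : S36A9_tv 10 4 0 = 4108752 := by decide +kernel

theorem S36A9_tv_11_0_0 : S36A9_tv 11 0 0 = 0 := by decide +kernel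
theorem S36A9_tv_11_0_1 : S36A9_tv 11 0 1 = 0 := by decide +kernel
theorem S36A9_tv_11_0_2 : S36A9_tv 11 0 2 = 0 := by decide +kernel
theorem S36A9_tv_11_0_3 : S36A9_tv 11 0 3 = 0 := by decide +kernel
theorem S36A9_tv_11_0_4 : S36A9_tv 11 0 4 = 0 := by decide +kernel
theorem S36A9_tv_11_1_0 : S36A9_tv 11 1 0 = 1 := by decide +kernel
theorem S36A9_tv_11_1_1 : S36A9_tv 11 1 1 = 21494504 := by decide +kernel
theorem S36A9_tv_11_1_2 : S36A9_tv 11 1 2 = 365186302784 := by decide +kernel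
theorem S36A9_tv_11_1_3 : S36A9_tv 11 1 3 = 1193588577815040 := by decide +kernel
theorem S36A9_tv_11_2_0 : S36A9_tv 11 2 0 = 1488 := by decide +kernel
theorem S36A9_tv_11_2_1 : S36A9_tv 11 2 1 = 72475731348 := by decide +kernel
theorem S36A9_tv_11_2_2 : S36A9_tv 11 2 2 = 45738435798911040 := by decide +kernel
theorem S36A9_tv_11_2_3 : S36A9_tv 11 2 3 = 1288851606216897422256 := by decide +kernel
theorem S36A9_tv_11_3_0 : S36A9_tv 11 3 0 = 2251260 := by decide +kernel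
theorem S36A9_tv_11_3_1 : S36A9_tv 11 3 1 = 151523728747200 := by decide +kernel
theorem S36A9_tv_11_3_2 : S36A9_tv 11 3 2 = 480145185856745041545 := by decide +kernel
theorem S36A9_tv_11_3_3 : S36A9_tv 11 3 3 = 109642480943384830620762360 := by decide +kernel
theorem S36A9_tv_11_4_0 : S36A9_tv 11 4 0 = 3491078528 := by decide +kernel

theorem S36A9_tv_12_0_0 : S36A9_tv 12 0 0 = 1 := by decide +kernel
theorem S36A9_tv_12_0_1 : S36A9_tv 12 0 1 = 744 := by decide +kernel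
theorem S36A9_tv_12_0_2 : S36A9_tv 12 0 2 = 947304 := by decide +kernel
theorem S36A9_tv_12_0_3 : S36A9_tv 12 0 3 = 1355202240 := by decide +kernel
theorem S36A9_tv_12_0_4 : S36A9_tv 12 0 4 = 2042124031080 := by decide +kernel
theorem S36A9_tv_12_1_0 : S36A9_tv 12 1 0 = 744 := by decide +kernel
theorem S36A9_tv_12_1_1 : S36A9_tv 12 1 1 = 864853506 := by decide +kernel
theorem S36A9_tv_12_1_2 : S36A9_tv 12 1 2 = 5538806449632 := by decide +kernel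
theorem S36A9_tv_12_1_3 : S36A9_tv 12 1 3 = 14613728456527452 := by decide +kernel
theorem S36A9_tv_12_2_0 : S36A9_tv 12 2 0 = 947304 := by decide +kernel
theorem S36A9_tv_12_2_1 : S36A9_tv 12 2 1 = 9790829749728 := by decide +kernel
theorem S36A9_tv_12_2_2 : S36A9_tv 12 2 2 = 1769523054225123330 := by decide +kernel
theorem S36A9_tv_12_2_3 : S36A9_tv 12 2 3 = 26863651854870501378096 := by decide +kernel
theorem S36A9_tv_12_3_0 : S36A9_tv 12 3 0 = 1355202240 := by decide +kernel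
theorem S36A9_tv_12_3_1 : S36A9_tv 12 3 1 = 30457124922304332 := by decide +kernel
theorem S36A9_tv_12_3_2 : S36A9_tv 12 3 2 = 38337567207281854249776 := by decide +kernel
theorem S36A9_tv_12_3_3 : S36A9_tv 12 3 3 = 4197391688509451809042817340 := by decide +kernel
theorem S36A9_tv_12_4_0 : S36A9_tv 12 4 0 = 2042124031080 := by decide +kernel

theorem S36A9_e1_0 (a : ℕ → Polynomial ℤ) (h0 : (a 0).natDegree < 5)
    (h1 : (a 1).natDegree < 4) (h2 : (a 2).natDegree < 4) (h3 : (a 3).natDegree < 4)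
    (hE : θz ^ 4 + ∑ i ∈ range 4, Polynomial.eval₂ (Int.castRingHom Lz) jz (a i) * θz ^ i = 0) :
    1 + (a 0).coeff 0 * 0 + (a 0).coeff 1 * 0 + (a 0).coeff 2 * 0 + (a 0).coeff 3 * 0 + (a 0).coeff 4 * 0 + (a 1).coeff 0 * 0 + (a 1).coeff 1 * 0 + (a 1).coeff 2 * 0 + (a 1).coeff 3 * 0 + (a 2).coeff 0 * 0 + (a 2).coeff 1 * 0 + (a 2).coeff 2 * 0 + (a 2).coeff 3 * 0 + (a 3).coeff 0 * 0 + (a 3).coeff 1 * 0 + (a 3).coeff 2 * 0 + (a 3).coeff 3 * 1 = 0 := by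
  have h := S36A9_eq1 a h0 h1 h2 h3 hE (n := 0) (by norm_num)
  simp only [Finset.sum_range_succ, Finset.sum_range_zero, zero_add, S36A9_tv_0_0_0, S36A9_tv_0_0_1, S36A9_tv_0_0_2, S36A9_tv_0_0_3, S36A9_tv_0_0_4, S36A9_tv_0_1_0, S36A9_tv_0_1_1, S36A9_tv_0_1_2, S36A9_tv_0_1_3, S36A9_tv_0_2_0, S36A9_tv_0_2_1, S36A9_tv_0_2_2, S36A9_tv_0_2_3, S36A9_tv_0_3_0, S36A9_tv_0_3_1, S36A9_tv_0_3_2, S36A9_tv_0_3_3, S36A9_tv_0_4_0] at h
  linear_combination h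

theorem S36A9_e2_0 (a : ℕ → Polynomial ℤ) (h0 : (a 0).natDegree < 5)
    (h1 : (a 1).natDegree < 4) (h2 : (a 2).natDegree < 4) (h3 : (a 3).natDegree < 4)
    (hE : jz ^ 4 + ∑ i ∈ range 4, Polynomial.eval₂ (Int.castRingHom Lz) θz (a i) * jz ^ i = 0) :
    0 + (a 0).coeff 0 * 0 + (a 0).coeff 1 * 0 + (a 0).coeff 2 * 0 + (a 0).coeff 3 * 0 + (a 0).coeff 4 * 1 + (a 1).coeff 0 * 0 + (a 1).coeff 1 * 0 + (a 1).coeff 2 * 0 + (a 1).coeff 3 * 0 + (a 2).coeff 0 * 0 + (a 2).coeff 1 * 0 + (a 2).coeff 2 * 0 + (a 2).coeff 3 * 0 + (a 3).coeff 0 * 0 + (a 3).coeff 1 * 0 + (a 3).coeff 2 * 0 + (a 3).coeff 3 * 1 = 0 := by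
  have h := S36A9_eq2 a h0 h1 h2 h3 hE (n := 0) (by norm_num)
  simp only [Finset.sum_range_succ, Finset.sum_range_zero, zero_add, S36A9_tv_0_0_0, S36A9_tv_0_0_1, S36A9_tv_0_0_2, S36A9_tv_0_0_3, S36A9_tv_0_0_4, S36A9_tv_0_1_0, S36A9_tv_0_1_1, S36A9_tv_0_1_2, S36A9_tv_0_1_3, S36A9_tv_0_2_0, S36A9_tv_0_2_1, S36A9_tv_0_2_2, S36A9_tv_0_2_3, S36A9_tv_0_3_0, S36A9_tv_0_3_1, S36A9_tv_0_3_2, S36A9_tv_0_3_3, S36A9_tv_0_4_0] at h
  linear_combination h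

theorem S36A9_e1_1 (a : ℕ → Polynomial ℤ) (h0 : (a 0).natDegree < 5)
    (h1 : (a 1).natDegree < 4) (h2 : (a 2).natDegree < 4) (h3 : (a 3).natDegree < 4)
    (hE : θz ^ 4 + ∑ i ∈ range 4, Polynomial.eval₂ (Int.castRingHom Lz) jz (a i) * θz ^ i = 0) :
    0 + (a 0).coeff 0 * 0 + (a 0).coeff 1 * 0 + (a 0).coeff 2 * 0 + (a 0).coeff 3 * 0 + (a 0).coeff 4 * 0 + (a 1).coeff 0 * 0 + (a 1).coeff 1 * 0 + (a 1).coeff 2 * 0 + (a 1).coeff 3 * 0 + (a 2).coeff 0 * 0 + (a 2).coeff 1 * 0 + (a 2).coeff 2 * 0 + (a 2).coeff 3 * 0 + (a 3).coeff 0 * 0 + (a 3).coeff 1 * 0 + (a 3).coeff 2 * 1 + (a 3).coeff 3 * 2232 = 0 := by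
  have h := S36A9_eq1 a h0 h1 h2 h3 hE (n := 1) (by norm_num)
  simp only [Finset.sum_range_succ, Finset.sum_range_zero, zero_add, S36A9_tv_1_0_0, S36A9_tv_1_0_1, S36A9_tv_1_0_2, S36A9_tv_1_0_3, S36A9_tv_1_0_4, S36A9_tv_1_1_0, S36A9_tv_1_1_1, S36A9_tv_1_1_2, S36A9_tv_1_1_3, S36A9_tv_1_2_0, S36A9_tv_1_2_1, S36A9_tv_1_2_2, S36A9_tv_1_2_3, S36A9_tv_1_3_0, S36A9_tv_1_3_1, S36A9_tv_1_3_2, S36A9_tv_1_3_3, S36A9_tv_1_4_0] at h
  linear_combination h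

theorem S36A9_e2_1 (a : ℕ → Polynomial ℤ) (h0 : (a 0).natDegree < 5)
    (h1 : (a 1).natDegree < 4) (h2 : (a 2).natDegree < 4) (h3 : (a 3).natDegree < 4)
    (hE : jz ^ 4 + ∑ i ∈ range 4, Polynomial.eval₂ (Int.castRingHom Lz) θz (a i) * jz ^ i = 0) :
    0 + (a 0).coeff 0 * 0 + (a 0).coeff 1 * 0 + (a 0).coeff 2 * 0 + (a 0).coeff 3 * 0 + (a 0).coeff 4 * 0 + (a 1).coeff 0 * 0 + (a 1).coeff 1 * 0 + (a 1).coeff 2 * 0 + (a 1).coeff 3 * 0 + (a 2).coeff 0 * 0 + (a 2).coeff 1 * 0 + (a 2).coeff 2 * 0 + (a 2).coeff 3 * 1 + (a 3).coeff 0 * 0 + (a 3).coeff 1 * 0 + (a 3).coeff 2 * 0 + (a 3).coeff 3 * 2232 = 0 := by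
  have h := S36A9_eq2 a h0 h1 h2 h3 hE (n := 1) (by norm_num)
  simp only [Finset.sum_range_succ, Finset.sum_range_zero, zero_add, S36A9_tv_1_0_0, S36A9_tv_1_0_1, S36A9_tv_1_0_2, S36A9_tv_1_0_3, S36A9_tv_1_0_4, S36A9_tv_1_1_0, S36A9_tv_1_1_1, S36A9_tv_1_1_2, S36A9_tv_1_1_3, S36A9_tv_1_2_0, S36A9_tv_1_2_1, S36A9_tv_1_2_2, S36A9_tv_1_2_3, S36A9_tv_1_3_0, S36A9_tv_1_3_1, S36A9_tv_1_3_2, S36A9_tv_1_3_3, S36A9_tv_1_4_0] at h
  linear_combination h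

theorem S36A9_e1_2 (a : ℕ → Polynomial ℤ) (h0 : (a 0).natDegree < 5)
    (h1 : (a 1).natDegree < 4) (h2 : (a 2).natDegree < 4) (h3 : (a 3).natDegree < 4)
    (hE : θz ^ 4 + ∑ i ∈ range 4, Polynomial.eval₂ (Int.castRingHom Lz) jz (a i) * θz ^ i = 0) :
    0 + (a 0).coeff 0 * 0 + (a 0).coeff 1 * 0 + (a 0).coeff 2 * 0 + (a 0).coeff 3 * 0 + (a 0).coeff 4 * 0 + (a 1).coeff 0 * 0 + (a 1).coeff 1 * 0 + (a 1).coeff 2 * 0 + (a 1).coeff 3 * 0 + (a 2).coeff 0 * 0 + (a 2).coeff 1 * 0 + (a 2).coeff 2 * 0 + (a 2).coeff 3 * 0 + (a 3).coeff 0 * 0 + (a 3).coeff 1 * 1 + (a 3).coeff 2 * 1488 + (a 3).coeff 3 * 2251260 = 0 := by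
  have h := S36A9_eq1 a h0 h1 h2 h3 hE (n := 2) (by norm_num)
  simp only [Finset.sum_range_succ, Finset.sum_range_zero, zero_add, S36A9_tv_2_0_0, S36A9_tv_2_0_1, S36A9_tv_2_0_2, S36A9_tv_2_0_3, S36A9_tv_2_0_4, S36A9_tv_2_1_0, S36A9_tv_2_1_1, S36A9_tv_2_1_2, S36A9_tv_2_1_3, S36A9_tv_2_2_0, S36A9_tv_2_2_1, S36A9_tv_2_2_2, S36A9_tv_2_2_3, S36A9_tv_2_3_0, S36A9_tv_2_3_1, S36A9_tv_2_3_2, S36A9_tv_2_3_3, S36A9_tv_2_4_0] at h
  linear_combination h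

theorem S36A9_e2_2 (a : ℕ → Polynomial ℤ) (h0 : (a 0).natDegree < 5)
    (h1 : (a 1).natDegree < 4) (h2 : (a 2).natDegree < 4) (h3 : (a 3).natDegree < 4)
    (hE : jz ^ 4 + ∑ i ∈ range 4, Polynomial.eval₂ (Int.castRingHom Lz) θz (a i) * jz ^ i = 0) :
    0 + (a 0).coeff 0 * 0 + (a 0).coeff 1 * 0 + (a 0).coeff 2 * 0 + (a 0).coeff 3 * 0 + (a 0).coeff 4 * 0 + (a 1).coeff 0 * 0 + (a 1).coeff 1 * 0 + (a 1).coeff 2 * 0 + (a 1).coeff 3 * 1 + (a 2).coeff 0 * 0 + (a 2).coeff 1 * 0 + (a 2).coeff 2 * 0 + (a 2).coeff 3 * 1488 + (a 3).coeff 0 * 0 + (a 3).coeff 1 * 0 + (a 3).coeff 2 * 0 + (a 3).coeff 3 * 2251260 = 0 := by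
  have h := S36A9_eq2 a h0 h1 h2 h3 hE (n := 2) (by norm_num)
  simp only [Finset.sum_range_succ, Finset.sum_range_zero, zero_add, S36A9_tv_2_0_0, S36A9_tv_2_0_1, S36A9_tv_2_0_2, S36A9_tv_2_0_3, S36A9_tv_2_0_4, S36A9_tv_2_1_0, S36A9_tv_2_1_1, S36A9_tv_2_1_2, S36A9_tv_2_1_3, S36A9_tv_2_2_0, S36A9_tv_2_2_1, S36A9_tv_2_2_2, S36A9_tv_2_2_3, S36A9_tv_2_3_0, S36A9_tv_2_3_1, S36A9_tv_2_3_2, S36A9_tv_2_3_3, S36A9_tv_2_4_0] at h
  linear_combination h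

theorem S36A9_e1_3 (a : ℕ → Polynomial ℤ) (h0 : (a 0).natDegree < 5)
    (h1 : (a 1).natDegree < 4) (h2 : (a 2).natDegree < 4) (h3 : (a 3).natDegree < 4)
    (hE : θz ^ 4 + ∑ i ∈ range 4, Polynomial.eval₂ (Int.castRingHom Lz) jz (a i) * θz ^ i = 0) :
    2976 + (a 0).coeff 0 * 0 + (a 0).coeff 1 * 0 + (a 0).coeff 2 * 0 + (a 0).coeff 3 * 0 + (a 0).coeff 4 * 0 + (a 1).coeff 0 * 0 + (a 1).coeff 1 * 0 + (a 1).coeff 2 * 0 + (a 1).coeff 3 * 0 + (a 2).coeff 0 * 0 + (a 2).coeff 1 * 0 + (a 2).coeff 2 * 0 + (a 2).coeff 3 * 1 + (a 3).coeff 0 * 1 + (a 3).coeff 1 * 744 + (a 3).coeff 2 * 947304 + (a 3).coeff 3 * 1355204472 = 0 := by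
  have h := S36A9_eq1 a h0 h1 h2 h3 hE (n := 3) (by norm_num)
  simp only [Finset.sum_range_succ, Finset.sum_range_zero, zero_add, S36A9_tv_3_0_0, S36A9_tv_3_0_1, S36A9_tv_3_0_2, S36A9_tv_3_0_3, S36A9_tv_3_0_4, S36A9_tv_3_1_0, S36A9_tv_3_1_1, S36A9_tv_3_1_2, S36A9_tv_3_1_3, S36A9_tv_3_2_0, S36A9_tv_3_2_1, S36A9_tv_3_2_2, S36A9_tv_3_2_3, S36A9_tv_3_3_0, S36A9_tv_3_3_1, S36A9_tv_3_3_2, S36A9_tv_3_3_3, S36A9_tv_3_4_0] at h
  linear_combination h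

theorem S36A9_e2_3 (a : ℕ → Polynomial ℤ) (h0 : (a 0).natDegree < 5)
    (h1 : (a 1).natDegree < 4) (h2 : (a 2).natDegree < 4) (h3 : (a 3).natDegree < 4)
    (hE : jz ^ 4 + ∑ i ∈ range 4, Polynomial.eval₂ (Int.castRingHom Lz) θz (a i) * jz ^ i = 0) :
    0 + (a 0).coeff 0 * 0 + (a 0).coeff 1 * 0 + (a 0).coeff 2 * 0 + (a 0).coeff 3 * 1 + (a 0).coeff 4 * 2976 + (a 1).coeff 0 * 0 + (a 1).coeff 1 * 0 + (a 1).coeff 2 * 0 + (a 1).coeff 3 * 744 + (a 2).coeff 0 * 0 + (a 2).coeff 1 * 0 + (a 2).coeff 2 * 0 + (a 2).coeff 3 * 947304 + (a 3).coeff 0 * 0 + (a 3).coeff 1 * 0 + (a 3).coeff 2 * 1 + (a 3).coeff 3 * 1355204472 = 0 := by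
  have h := S36A9_eq2 a h0 h1 h2 h3 hE (n := 3) (by norm_num)
  simp only [Finset.sum_range_succ, Finset.sum_range_zero, zero_add, S36A9_tv_3_0_0, S36A9_tv_3_0_1, S36A9_tv_3_0_2, S36A9_tv_3_0_3, S36A9_tv_3_0_4, S36A9_tv_3_1_0, S36A9_tv_3_1_1, S36A9_tv_3_1_2, S36A9_tv_3_1_3, S36A9_tv_3_2_0, S36A9_tv_3_2_1, S36A9_tv_3_2_2, S36A9_tv_3_2_3, S36A9_tv_3_3_0, S36A9_tv_3_3_1, S36A9_tv_3_3_2, S36A9_tv_3_3_3, S36A9_tv_3_4_0] at h
  linear_combination h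

theorem S36A9_e1_4 (a : ℕ → Polynomial ℤ) (h0 : (a 0).natDegree < 5)
    (h1 : (a 1).natDegree < 4) (h2 : (a 2).natDegree < 4) (h3 : (a 3).natDegree < 4)
    (hE : θz ^ 4 + ∑ i ∈ range 4, Polynomial.eval₂ (Int.castRingHom Lz) jz (a i) * θz ^ i = 0) :
    0 + (a 0).coeff 0 * 0 + (a 0).coeff 1 * 0 + (a 0).coeff 2 * 0 + (a 0).coeff 3 * 0 + (a 0).coeff 4 * 0 + (a 1).coeff 0 * 0 + (a 1).coeff 1 * 0 + (a 1).coeff 2 * 0 + (a 1).coeff 3 * 0 + (a 2).coeff 0 * 0 + (a 2).coeff 1 * 0 + (a 2).coeff 2 * 1 + (a 2).coeff 3 * 2232 + (a 3).coeff 0 * 0 + (a 3).coeff 1 * 196884 + (a 3).coeff 2 * 335953144 + (a 3).coeff 3 * 541783100214 = 0 := by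
  have h := S36A9_eq1 a h0 h1 h2 h3 hE (n := 4) (by norm_num)
  simp only [Finset.sum_range_succ, Finset.sum_range_zero, zero_add, S36A9_tv_4_0_0, S36A9_tv_4_0_1, S36A9_tv_4_0_2, S36A9_tv_4_0_3, S36A9_tv_4_0_4, S36A9_tv_4_1_0, S36A9_tv_4_1_1, S36A9_tv_4_1_2, S36A9_tv_4_1_3, S36A9_tv_4_2_0, S36A9_tv_4_2_1, S36A9_tv_4_2_2, S36A9_tv_4_2_3, S36A9_tv_4_3_0, S36A9_tv_4_3_1, S36A9_tv_4_3_2, S36A9_tv_4_3_3, S36A9_tv_4_4_0] at h
  linear_combination h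

theorem S36A9_e2_4 (a : ℕ → Polynomial ℤ) (h0 : (a 0).natDegree < 5)
    (h1 : (a 1).natDegree < 4) (h2 : (a 2).natDegree < 4) (h3 : (a 3).natDegree < 4)
    (hE : jz ^ 4 + ∑ i ∈ range 4, Polynomial.eval₂ (Int.castRingHom Lz) θz (a i) * jz ^ i = 0) :
    0 + (a 0).coeff 0 * 0 + (a 0).coeff 1 * 0 + (a 0).coeff 2 * 0 + (a 0).coeff 3 * 0 + (a 0).coeff 4 * 0 + (a 1).coeff 0 * 0 + (a 1).coeff 1 * 0 + (a 1).coeff 2 * 0 + (a 1).coeff 3 * 196884 + (a 2).coeff 0 * 0 + (a 2).coeff 1 * 0 + (a 2).coeff 2 * 1 + (a 2).coeff 3 * 335953144 + (a 3).coeff 0 * 0 + (a 3).coeff 1 * 0 + (a 3).coeff 2 * 2232 + (a 3).coeff 3 * 541783100214 = 0 := by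
  have h := S36A9_eq2 a h0 h1 h2 h3 hE (n := 4) (by norm_num)
  simp only [Finset.sum_range_succ, Finset.sum_range_zero, zero_add, S36A9_tv_4_0_0, S36A9_tv_4_0_1, S36A9_tv_4_0_2, S36A9_tv_4_0_3, S36A9_tv_4_0_4, S36A9_tv_4_1_0, S36A9_tv_4_1_1, S36A9_tv_4_1_2, S36A9_tv_4_1_3, S36A9_tv_4_2_0, S36A9_tv_4_2_1, S36A9_tv_4_2_2, S36A9_tv_4_2_3, S36A9_tv_4_3_0, S36A9_tv_4_3_1, S36A9_tv_4_3_2, S36A9_tv_4_3_3, S36A9_tv_4_4_0] at h
  linear_combination h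

theorem S36A9_e1_5 (a : ℕ → Polynomial ℤ) (h0 : (a 0).natDegree < 5)
    (h1 : (a 1).natDegree < 4) (h2 : (a 2).natDegree < 4) (h3 : (a 3).natDegree < 4)
    (hE : θz ^ 4 + ∑ i ∈ range 4, Polynomial.eval₂ (Int.castRingHom Lz) jz (a i) * θz ^ i = 0) :
    0 + (a 0).coeff 0 * 0 + (a 0).coeff 1 * 0 + (a 0).coeff 2 * 0 + (a 0).coeff 3 * 0 + (a 0).coeff 4 * 0 + (a 1).coeff 0 * 0 + (a 1).coeff 1 * 0 + (a 1).coeff 2 * 0 + (a 1).coeff 3 * 0 + (a 2).coeff 0 * 0 + (a 2).coeff 1 * 1 + (a 2).coeff 2 * 1488 + (a 2).coeff 3 * 2251260 + (a 3).coeff 0 * 0 + (a 3).coeff 1 * 21495992 + (a 3).coeff 2 * 72477945492 + (a 3).coeff 3 * 151527078622080 = 0 := by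
  have h := S36A9_eq1 a h0 h1 h2 h3 hE (n := 5) (by norm_num)
  simp only [Finset.sum_range_succ, Finset.sum_range_zero, zero_add, S36A9_tv_5_0_0, S36A9_tv_5_0_1, S36A9_tv_5_0_2, S36A9_tv_5_0_3, S36A9_tv_5_0_4, S36A9_tv_5_1_0, S36A9_tv_5_1_1, S36A9_tv_5_1_2, S36A9_tv_5_1_3, S36A9_tv_5_2_0, S36A9_tv_5_2_1, S36A9_tv_5_2_2, S36A9_tv_5_2_3, S36A9_tv_5_3_0, S36A9_tv_5_3_1, S36A9_tv_5_3_2, S36A9_tv_5_3_3, S36A9_tv_5_4_0] at h
  linear_combination h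

theorem S36A9_e2_5 (a : ℕ → Polynomial ℤ) (h0 : (a 0).natDegree < 5)
    (h1 : (a 1).natDegree < 4) (h2 : (a 2).natDegree < 4) (h3 : (a 3).natDegree < 4)
    (hE : jz ^ 4 + ∑ i ∈ range 4, Polynomial.eval₂ (Int.castRingHom Lz) θz (a i) * jz ^ i = 0) :
    0 + (a 0).coeff 0 * 0 + (a 0).coeff 1 * 0 + (a 0).coeff 2 * 0 + (a 0).coeff 3 * 0 + (a 0).coeff 4 * 0 + (a 1).coeff 0 * 0 + (a 1).coeff 1 * 0 + (a 1).coeff 2 * 1 + (a 1).coeff 3 * 21495992 + (a 2).coeff 0 * 0 + (a 2).coeff 1 * 0 + (a 2).coeff 2 * 1488 + (a 2).coeff 3 * 72477945492 + (a 3).coeff 0 * 0 + (a 3).coeff 1 * 0 + (a 3).coeff 2 * 2251260 + (a 3).coeff 3 * 151527078622080 = 0 := by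
  have h := S36A9_eq2 a h0 h1 h2 h3 hE (n := 5) (by norm_num)
  simp only [Finset.sum_range_succ, Finset.sum_range_zero, zero_add, S36A9_tv_5_0_0, S36A9_tv_5_0_1, S36A9_tv_5_0_2, S36A9_tv_5_0_3, S36A9_tv_5_0_4, S36A9_tv_5_1_0, S36A9_tv_5_1_1, S36A9_tv_5_1_2, S36A9_tv_5_1_3, S36A9_tv_5_2_0, S36A9_tv_5_2_1, S36A9_tv_5_2_2, S36A9_tv_5_2_3, S36A9_tv_5_3_0, S36A9_tv_5_3_1, S36A9_tv_5_3_2, S36A9_tv_5_3_3, S36A9_tv_5_4_0] at h
  linear_combination h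

theorem S36A9_e1_6 (a : ℕ → Polynomial ℤ) (h0 : (a 0).natDegree < 5)
    (h1 : (a 1).natDegree < 4) (h2 : (a 2).natDegree < 4) (h3 : (a 3).natDegree < 4)
    (hE : θz ^ 4 + ∑ i ∈ range 4, Polynomial.eval₂ (Int.castRingHom Lz) jz (a i) * θz ^ i = 0) :
    4108752 + (a 0).coeff 0 * 0 + (a 0).coeff 1 * 0 + (a 0).coeff 2 * 0 + (a 0).coeff 3 * 0 + (a 0).coeff 4 * 0 + (a 1).coeff 0 * 0 + (a 1).coeff 1 * 0 + (a 1).coeff 2 * 0 + (a 1).coeff 3 * 1 + (a 2).coeff 0 * 1 + (a 2).coeff 1 * 744 + (a 2).coeff 2 * 947304 + (a 2).coeff 3 * 1355203728 + (a 3).coeff 0 * 2232 + (a 3).coeff 1 * 865960578 + (a 3).coeff 2 * 9792239338080 + (a 3).coeff 3 * 30459141465291828 = 0 := by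
  have h := S36A9_eq1 a h0 h1 h2 h3 hE (n := 6) (by norm_num)
  simp only [Finset.sum_range_succ, Finset.sum_range_zero, zero_add, S36A9_tv_6_0_0, S36A9_tv_6_0_1, S36A9_tv_6_0_2, S36A9_tv_6_0_3, S36A9_tv_6_0_4, S36A9_tv_6_1_0, S36A9_tv_6_1_1, S36A9_tv_6_1_2, S36A9_tv_6_1_3, S36A9_tv_6_2_0, S36A9_tv_6_2_1, S36A9_tv_6_2_2, S36A9_tv_6_2_3, S36A9_tv_6_3_0, S36A9_tv_6_3_1, S36A9_tv_6_3_2, S36A9_tv_6_3_3, S36A9_tv_6_4_0] at h
  linear_combination h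

theorem S36A9_e2_6 (a : ℕ → Polynomial ℤ) (h0 : (a 0).natDegree < 5)
    (h1 : (a 1).natDegree < 4) (h2 : (a 2).natDegree < 4) (h3 : (a 3).natDegree < 4)
    (hE : jz ^ 4 + ∑ i ∈ range 4, Polynomial.eval₂ (Int.castRingHom Lz) θz (a i) * jz ^ i = 0) :
    0 + (a 0).coeff 0 * 0 + (a 0).coeff 1 * 0 + (a 0).coeff 2 * 1 + (a 0).coeff 3 * 2232 + (a 0).coeff 4 * 4108752 + (a 1).coeff 0 * 0 + (a 1).coeff 1 * 0 + (a 1).coeff 2 * 744 + (a 1).coeff 3 * 865960578 + (a 2).coeff 0 * 0 + (a 2).coeff 1 * 0 + (a 2).coeff 2 * 947304 + (a 2).coeff 3 * 9792239338080 + (a 3).coeff 0 * 0 + (a 3).coeff 1 * 1 + (a 3).coeff 2 * 1355203728 + (a 3).coeff 3 * 30459141465291828 = 0 := by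
  have h := S36A9_eq2 a h0 h1 h2 h3 hE (n := 6) (by norm_num)
  simp only [Finset.sum_range_succ, Finset.sum_range_zero, zero_add, S36A9_tv_6_0_0, S36A9_tv_6_0_1, S36A9_tv_6_0_2, S36A9_tv_6_0_3, S36A9_tv_6_0_4, S36A9_tv_6_1_0, S36A9_tv_6_1_1, S36A9_tv_6_1_2, S36A9_tv_6_1_3, S36A9_tv_6_2_0, S36A9_tv_6_2_1, S36A9_tv_6_2_2, S36A9_tv_6_2_3, S36A9_tv_6_3_0, S36A9_tv_6_3_1, S36A9_tv_6_3_2, S36A9_tv_6_3_3, S36A9_tv_6_4_0] at h
  linear_combination h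

theorem S36A9_e1_7 (a : ℕ → Polynomial ℤ) (h0 : (a 0).natDegree < 5)
    (h1 : (a 1).natDegree < 4) (h2 : (a 2).natDegree < 4) (h3 : (a 3).natDegree < 4)
    (hE : θz ^ 4 + ∑ i ∈ range 4, Polynomial.eval₂ (Int.castRingHom Lz) jz (a i) * θz ^ i = 0) :
    0 + (a 0).coeff 0 * 0 + (a 0).coeff 1 * 0 + (a 0).coeff 2 * 0 + (a 0).coeff 3 * 0 + (a 0).coeff 4 * 0 + (a 1).coeff 0 * 0 + (a 1).coeff 1 * 0 + (a 1).coeff 2 * 1 + (a 1).coeff 3 * 2232 + (a 2).coeff 0 * 0 + (a 2).coeff 1 * 196884 + (a 2).coeff 2 * 335952400 + (a 2).coeff 3 * 541781439606 + (a 3).coeff 0 * 0 + (a 3).coeff 1 * 20685301344 + (a 3).coeff 2 * 833857473601532 + (a 3).coeff 3 * 4461984465203723760 = 0 := by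
  have h := S36A9_eq1 a h0 h1 h2 h3 hE (n := 7) (by norm_num)
  simp only [Finset.sum_range_succ, Finset.sum_range_zero, zero_add, S36A9_tv_7_0_0, S36A9_tv_7_0_1, S36A9_tv_7_0_2, S36A9_tv_7_0_3, S36A9_tv_7_0_4, S36A9_tv_7_1_0, S36A9_tv_7_1_1, S36A9_tv_7_1_2, S36A9_tv_7_1_3, S36A9_tv_7_2_0, S36A9_tv_7_2_1, S36A9_tv_7_2_2, S36A9_tv_7_2_3, S36A9_tv_7_3_0, S36A9_tv_7_3_1, S36A9_tv_7_3_2, S36A9_tv_7_3_3, S36A9_tv_7_4_0] at h
  linear_combination h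

theorem S36A9_e2_7 (a : ℕ → Polynomial ℤ) (h0 : (a 0).natDegree < 5)
    (h1 : (a 1).natDegree < 4) (h2 : (a 2).natDegree < 4) (h3 : (a 3).natDegree < 4)
    (hE : jz ^ 4 + ∑ i ∈ range 4, Polynomial.eval₂ (Int.castRingHom Lz) θz (a i) * jz ^ i = 0) :
    0 + (a 0).coeff 0 * 0 + (a 0).coeff 1 * 0 + (a 0).coeff 2 * 0 + (a 0).coeff 3 * 0 + (a 0).coeff 4 * 0 + (a 1).coeff 0 * 0 + (a 1).coeff 1 * 0 + (a 1).coeff 2 * 196884 + (a 1).coeff 3 * 20685301344 + (a 2).coeff 0 * 0 + (a 2).coeff 1 * 1 + (a 2).coeff 2 * 335952400 + (a 2).coeff 3 * 833857473601532 + (a 3).coeff 0 * 0 + (a 3).coeff 1 * 2232 + (a 3).coeff 2 * 541781439606 + (a 3).coeff 3 * 4461984465203723760 = 0 := by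
  have h := S36A9_eq2 a h0 h1 h2 h3 hE (n := 7) (by norm_num)
  simp only [Finset.sum_range_succ, Finset.sum_range_zero, zero_add, S36A9_tv_7_0_0, S36A9_tv_7_0_1, S36A9_tv_7_0_2, S36A9_tv_7_0_3, S36A9_tv_7_0_4, S36A9_tv_7_1_0, S36A9_tv_7_1_1, S36A9_tv_7_1_2, S36A9_tv_7_1_3, S36A9_tv_7_2_0, S36A9_tv_7_2_1, S36A9_tv_7_2_2, S36A9_tv_7_2_3, S36A9_tv_7_3_0, S36A9_tv_7_3_1, S36A9_tv_7_3_2, S36A9_tv_7_3_3, S36A9_tv_7_4_0] at h
  linear_combination h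

theorem S36A9_e1_8 (a : ℕ → Polynomial ℤ) (h0 : (a 0).natDegree < 5)
    (h1 : (a 1).natDegree < 4) (h2 : (a 2).natDegree < 4) (h3 : (a 3).natDegree < 4)
    (hE : θz ^ 4 + ∑ i ∈ range 4, Polynomial.eval₂ (Int.castRingHom Lz) jz (a i) * θz ^ i = 0) :
    0 + (a 0).coeff 0 * 0 + (a 0).coeff 1 * 0 + (a 0).coeff 2 * 0 + (a 0).coeff 3 * 0 + (a 0).coeff 4 * 1 + (a 1).coeff 0 * 0 + (a 1).coeff 1 * 1 + (a 1).coeff 2 * 1488 + (a 1).coeff 3 * 2251260 + (a 2).coeff 0 * 0 + (a 2).coeff 1 * 21495248 + (a 2).coeff 2 * 72476838420 + (a 2).coeff 3 * 151525403684640 + (a 3).coeff 0 * 0 + (a 3).coeff 1 * 381178964180 + (a 3).coeff 2 * 45792358859658912 + (a 3).coeff 3 * 480257921200323487545 = 0 := by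
  have h := S36A9_eq1 a h0 h1 h2 h3 hE (n := 8) (by norm_num)
  simp only [Finset.sum_range_succ, Finset.sum_range_zero, zero_add, S36A9_tv_8_0_0, S36A9_tv_8_0_1, S36A9_tv_8_0_2, S36A9_tv_8_0_3, S36A9_tv_8_0_4, S36A9_tv_8_1_0, S36A9_tv_8_1_1, S36A9_tv_8_1_2, S36A9_tv_8_1_3, S36A9_tv_8_2_0, S36A9_tv_8_2_1, S36A9_tv_8_2_2, S36A9_tv_8_2_3, S36A9_tv_8_3_0, S36A9_tv_8_3_1, S36A9_tv_8_3_2, S36A9_tv_8_3_3, S36A9_tv_8_4_0] at h
  linear_combination h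

theorem S36A9_e2_8 (a : ℕ → Polynomial ℤ) (h0 : (a 0).natDegree < 5)
    (h1 : (a 1).natDegree < 4) (h2 : (a 2).natDegree < 4) (h3 : (a 3).natDegree < 4)
    (hE : jz ^ 4 + ∑ i ∈ range 4, Polynomial.eval₂ (Int.castRingHom Lz) θz (a i) * jz ^ i = 0) :
    1 + (a 0).coeff 0 * 0 + (a 0).coeff 1 * 0 + (a 0).coeff 2 * 0 + (a 0).coeff 3 * 0 + (a 0).coeff 4 * 0 + (a 1).coeff 0 * 0 + (a 1).coeff 1 * 1 + (a 1).coeff 2 * 21495248 + (a 1).coeff 3 * 381178964180 + (a 2).coeff 0 * 0 + (a 2).coeff 1 * 1488 + (a 2).coeff 2 * 72476838420 + (a 2).coeff 3 * 45792358859658912 + (a 3).coeff 0 * 0 + (a 3).coeff 1 * 2251260 + (a 3).coeff 2 * 151525403684640 + (a 3).coeff 3 * 480257921200323487545 = 0 := by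
  have h := S36A9_eq2 a h0 h1 h2 h3 hE (n := 8) (by norm_num)
  simp only [Finset.sum_range_succ, Finset.sum_range_zero, zero_add, S36A9_tv_8_0_0, S36A9_tv_8_0_1, S36A9_tv_8_0_2, S36A9_tv_8_0_3, S36A9_tv_8_0_4, S36A9_tv_8_1_0, S36A9_tv_8_1_1, S36A9_tv_8_1_2, S36A9_tv_8_1_3, S36A9_tv_8_2_0, S36A9_tv_8_2_1, S36A9_tv_8_2_2, S36A9_tv_8_2_3, S36A9_tv_8_3_0, S36A9_tv_8_3_1, S36A9_tv_8_3_2, S36A9_tv_8_3_3, S36A9_tv_8_4_0] at h
  linear_combination h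

theorem S36A9_e1_9 (a : ℕ → Polynomial ℤ) (h0 : (a 0).natDegree < 5)
    (h1 : (a 1).natDegree < 4) (h2 : (a 2).natDegree < 4) (h3 : (a 3).natDegree < 4)
    (hE : θz ^ 4 + ∑ i ∈ range 4, Polynomial.eval₂ (Int.castRingHom Lz) jz (a i) * θz ^ i = 0) :
    3491078528 + (a 0).coeff 0 * 0 + (a 0).coeff 1 * 0 + (a 0).coeff 2 * 0 + (a 0).coeff 3 * 1 + (a 0).coeff 4 * 2976 + (a 1).coeff 0 * 1 + (a 1).coeff 1 * 744 + (a 1).coeff 2 * 947304 + (a 1).coeff 3 * 1355202984 + (a 2).coeff 0 * 1488 + (a 2).coeff 1 * 865407042 + (a 2).coeff 2 * 9791534543904 + (a 2).coeff 3 * 30458133193521312 + (a 3).coeff 0 * 2251260 + (a 3).coeff 1 * 6182815770576 + (a 3).coeff 2 * 1776808142434788642 + (a 3).coeff 3 * 38360228325195786383216 = 0 := by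
  have h := S36A9_eq1 a h0 h1 h2 h3 hE (n := 9) (by norm_num)
  simp only [Finset.sum_range_succ, Finset.sum_range_zero, zero_add, S36A9_tv_9_0_0, S36A9_tv_9_0_1, S36A9_tv_9_0_2, S36A9_tv_9_0_3, S36A9_tv_9_0_4, S36A9_tv_9_1_0, S36A9_tv_9_1_1, S36A9_tv_9_1_2, S36A9_tv_9_1_3, S36A9_tv_9_2_0, S36A9_tv_9_2_1, S36A9_tv_9_2_2, S36A9_tv_9_2_3, S36A9_tv_9_3_0, S36A9_tv_9_3_1, S36A9_tv_9_3_2, S36A9_tv_9_3_3, S36A9_tv_9_4_0] at h
  linear_combination h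

theorem S36A9_e2_9 (a : ℕ → Polynomial ℤ) (h0 : (a 0).natDegree < 5)
    (h1 : (a 1).natDegree < 4) (h2 : (a 2).natDegree < 4) (h3 : (a 3).natDegree < 4)
    (hE : jz ^ 4 + ∑ i ∈ range 4, Polynomial.eval₂ (Int.castRingHom Lz) θz (a i) * jz ^ i = 0) :
    2976 + (a 0).coeff 0 * 0 + (a 0).coeff 1 * 1 + (a 0).coeff 2 * 1488 + (a 0).coeff 3 * 2251260 + (a 0).coeff 4 * 3491078528 + (a 1).coeff 0 * 0 + (a 1).coeff 1 * 744 + (a 1).coeff 2 * 865407042 + (a 1).coeff 3 * 6182815770576 + (a 2).coeff 0 * 0 + (a 2).coeff 1 * 947304 + (a 2).coeff 2 * 9791534543904 + (a 2).coeff 3 * 1776808142434788642 + (a 3).coeff 0 * 1 + (a 3).coeff 1 * 1355202984 + (a 3).coeff 2 * 30458133193521312 + (a 3).coeff 3 * 38360228325195786383216 = 0 := by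
  have h := S36A9_eq2 a h0 h1 h2 h3 hE (n := 9) (by norm_num)
  simp only [Finset.sum_range_succ, Finset.sum_range_zero, zero_add, S36A9_tv_9_0_0, S36A9_tv_9_0_1, S36A9_tv_9_0_2, S36A9_tv_9_0_3, S36A9_tv_9_0_4, S36A9_tv_9_1_0, S36A9_tv_9_1_1, S36A9_tv_9_1_2, S36A9_tv_9_1_3, S36A9_tv_9_2_0, S36A9_tv_9_2_1, S36A9_tv_9_2_2, S36A9_tv_9_2_3, S36A9_tv_9_3_0, S36A9_tv_9_3_1, S36A9_tv_9_3_2, S36A9_tv_9_3_3, S36A9_tv_9_4_0] at h
  linear_combination h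

theorem S36A9_e1_10 (a : ℕ → Polynomial ℤ) (h0 : (a 0).natDegree < 5)
    (h1 : (a 1).natDegree < 4) (h2 : (a 2).natDegree < 4) (h3 : (a 3).natDegree < 4)
    (hE : θz ^ 4 + ∑ i ∈ range 4, Polynomial.eval₂ (Int.castRingHom Lz) jz (a i) * θz ^ i = 0) :
    0 + (a 0).coeff 0 * 0 + (a 0).coeff 1 * 0 + (a 0).coeff 2 * 1 + (a 0).coeff 3 * 2232 + (a 0).coeff 4 * 4108752 + (a 1).coeff 0 * 0 + (a 1).coeff 1 * 196884 + (a 1).coeff 2 * 335951656 + (a 1).coeff 3 * 541779778998 + (a 2).coeff 0 * 0 + (a 2).coeff 1 * 20538819648 + (a 2).coeff 2 * 833607524819048 + (a 2).coeff 3 * 4461581379373211808 + (a 3).coeff 0 * 0 + (a 3).coeff 1 * 90288982309167 + (a 3).coeff 2 * 52922356927943024624 + (a 3).coeff 3 * 2319314637883533604808364 = 0 := by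
  have h := S36A9_eq1 a h0 h1 h2 h3 hE (n := 10) (by norm_num)
  simp only [Finset.sum_range_succ, Finset.sum_range_zero, zero_add, S36A9_tv_10_0_0, S36A9_tv_10_0_1, S36A9_tv_10_0_2, S36A9_tv_10_0_3, S36A9_tv_10_0_4, S36A9_tv_10_1_0, S36A9_tv_10_1_1, S36A9_tv_10_1_2, S36A9_tv_10_1_3, S36A9_tv_10_2_0, S36A9_tv_10_2_1, S36A9_tv_10_2_2, S36A9_tv_10_2_3, S36A9_tv_10_3_0, S36A9_tv_10_3_1, S36A9_tv_10_3_2, S36A9_tv_10_3_3, S36A9_tv_10_4_0] at h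
  linear_combination h

theorem S36A9_e2_10 (a : ℕ → Polynomial ℤ) (h0 : (a 0).natDegree < 5)
    (h1 : (a 1).natDegree < 4) (h2 : (a 2).natDegree < 4) (h3 : (a 3).natDegree < 4)
    (hE : jz ^ 4 + ∑ i ∈ range 4, Polynomial.eval₂ (Int.castRingHom Lz) θz (a i) * jz ^ i = 0) :
    4108752 + (a 0).coeff 0 * 0 + (a 0).coeff 1 * 0 + (a 0).coeff 2 * 0 + (a 0).coeff 3 * 0 + (a 0).coeff 4 * 0 + (a 1).coeff 0 * 0 + (a 1).coeff 1 * 196884 + (a 1).coeff 2 * 20538819648 + (a 1).coeff 3 * 90288982309167 + (a 2).coeff 0 * 1 + (a 2).coeff 1 * 335951656 + (a 2).coeff 2 * 833607524819048 + (a 2).coeff 3 * 52922356927943024624 + (a 3).coeff 0 * 2232 + (a 3).coeff 1 * 541779778998 + (a 3).coeff 2 * 4461581379373211808 + (a 3).coeff 3 * 2319314637883533604808364 = 0 := by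
  have h := S36A9_eq2 a h0 h1 h2 h3 hE (n := 10) (by norm_num)
  simp only [Finset.sum_range_succ, Finset.sum_range_zero, zero_add, S36A9_tv_10_0_0, S36A9_tv_10_0_1, S36A9_tv_10_0_2, S36A9_tv_10_0_3, S36A9_tv_10_0_4, S36A9_tv_10_1_0, S36A9_tv_10_1_1, S36A9_tv_10_1_2, S36A9_tv_10_1_3, S36A9_tv_10_2_0, S36A9_tv_10_2_1, S36A9_tv_10_2_2, S36A9_tv_10_2_3, S36A9_tv_10_3_0, S36A9_tv_10_3_1, S36A9_tv_10_3_2, S36A9_tv_10_3_3, S36A9_tv_10_4_0] at h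
  linear_combination h

theorem S36A9_e1_11 (a : ℕ → Polynomial ℤ) (h0 : (a 0).natDegree < 5)
    (h1 : (a 1).natDegree < 4) (h2 : (a 2).natDegree < 4) (h3 : (a 3).natDegree < 4)
    (hE : θz ^ 4 + ∑ i ∈ range 4, Polynomial.eval₂ (Int.castRingHom Lz) jz (a i) * θz ^ i = 0) :
    0 + (a 0).coeff 0 * 0 + (a 0).coeff 1 * 1 + (a 0).coeff 2 * 1488 + (a 0).coeff 3 * 2251260 + (a 0).coeff 4 * 3491078528 + (a 1).coeff 0 * 0 + (a 1).coeff 1 * 21494504 + (a 1).coeff 2 * 72475731348 + (a 1).coeff 3 * 151523728747200 + (a 2).coeff 0 * 0 + (a 2).coeff 1 * 365186302784 + (a 2).coeff 2 * 45738435798911040 + (a 2).coeff 3 * 480145185856745041545 + (a 3).coeff 0 * 0 + (a 3).coeff 1 * 1193588577815040 + (a 3).coeff 2 * 1288851606216897422256 + (a 3).coeff 3 * 109642480943384830620762360 = 0 := by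
  have h := S36A9_eq1 a h0 h1 h2 h3 hE (n := 11) (by norm_num)
  simp only [Finset.sum_range_succ, Finset.sum_range_zero, zero_add, S36A9_tv_11_0_0, S36A9_tv_11_0_1, S36A9_tv_11_0_2, S36A9_tv_11_0_3, S36A9_tv_11_0_4, S36A9_tv_11_1_0, S36A9_tv_11_1_1, S36A9_tv_11_1_2, S36A9_tv_11_1_3, S36A9_tv_11_2_0, S36A9_tv_11_2_1, S36A9_tv_11_2_2, S36A9_tv_11_2_3, S36A9_tv_11_3_0, S36A9_tv_11_3_1, S36A9_tv_11_3_2, S36A9_tv_11_3_3, S36A9_tv_11_4_0] at h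
  linear_combination h

theorem S36A9_e2_11 (a : ℕ → Polynomial ℤ) (h0 : (a 0).natDegree < 5)
    (h1 : (a 1).natDegree < 4) (h2 : (a 2).natDegree < 4) (h3 : (a 3).natDegree < 4)
    (hE : jz ^ 4 + ∑ i ∈ range 4, Polynomial.eval₂ (Int.castRingHom Lz) θz (a i) * jz ^ i = 0) :
    3491078528 + (a 0).coeff 0 * 0 + (a 0).coeff 1 * 0 + (a 0).coeff 2 * 0 + (a 0).coeff 3 * 0 + (a 0).coeff 4 * 0 + (a 1).coeff 0 * 1 + (a 1).coeff 1 * 21494504 + (a 1).coeff 2 * 365186302784 + (a 1).coeff 3 * 1193588577815040 + (a 2).coeff 0 * 1488 + (a 2).coeff 1 * 72475731348 + (a 2).coeff 2 * 45738435798911040 + (a 2).coeff 3 * 1288851606216897422256 + (a 3).coeff 0 * 2251260 + (a 3).coeff 1 * 151523728747200 + (a 3).coeff 2 * 480145185856745041545 + (a 3).coeff 3 * 109642480943384830620762360 = 0 := by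
  have h := S36A9_eq2 a h0 h1 h2 h3 hE (n := 11) (by norm_num)
  simp only [Finset.sum_range_succ, Finset.sum_range_zero, zero_add, S36A9_tv_11_0_0, S36A9_tv_11_0_1, S36A9_tv_11_0_2, S36A9_tv_11_0_3, S36A9_tv_11_0_4, S36A9_tv_11_1_0, S36A9_tv_11_1_1, S36A9_tv_11_1_2, S36A9_tv_11_1_3, S36A9_tv_11_2_0, S36A9_tv_11_2_1, S36A9_tv_11_2_2, S36A9_tv_11_2_3, S36A9_tv_11_3_0, S36A9_tv_11_3_1, S36A9_tv_11_3_2, S36A9_tv_11_3_3, S36A9_tv_11_4_0] at h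
  linear_combination h

theorem S36A9_e1_12 (a : ℕ → Polynomial ℤ) (h0 : (a 0).natDegree < 5)
    (h1 : (a 1).natDegree < 4) (h2 : (a 2).natDegree < 4) (h3 : (a 3).natDegree < 4)
    (hE : θz ^ 4 + ∑ i ∈ range 4, Polynomial.eval₂ (Int.castRingHom Lz) jz (a i) * θz ^ i = 0) :
    2042124031080 + (a 0).coeff 0 * 1 + (a 0).coeff 1 * 744 + (a 0).coeff 2 * 947304 + (a 0).coeff 3 * 1355202240 + (a 0).coeff 4 * 2042124031080 + (a 1).coeff 0 * 744 + (a 1).coeff 1 * 864853506 + (a 1).coeff 2 * 9790829749728 + (a 1).coeff 3 * 30457124922304332 + (a 2).coeff 0 * 947304 + (a 2).coeff 1 * 5538806449632 + (a 2).coeff 2 * 1769523054225123330 + (a 2).coeff 3 * 38337567207281854249776 + (a 3).coeff 0 * 1355202240 + (a 3).coeff 1 * 14613728456527452 + (a 3).coeff 2 * 26863651854870501378096 + (a 3).coeff 3 * 4197391688509451809042817340 = 0 := by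
  have h := S36A9_eq1 a h0 h1 h2 h3 hE (n := 12) (by norm_num)
  simp only [Finset.sum_range_succ, Finset.sum_range_zero, zero_add, S36A9_tv_12_0_0, S36A9_tv_12_0_1, S36A9_tv_12_0_2, S36A9_tv_12_0_3, S36A9_tv_12_0_4, S36A9_tv_12_1_0, S36A9_tv_12_1_1, S36A9_tv_12_1_2, S36A9_tv_12_1_3, S36A9_tv_12_2_0, S36A9_tv_12_2_1, S36A9_tv_12_2_2, S36A9_tv_12_2_3, S36A9_tv_12_3_0, S36A9_tv_12_3_1, S36A9_tv_12_3_2, S36A9_tv_12_3_3, S36A9_tv_12_4_0] at h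
  linear_combination h

theorem S36A9_e2_12 (a : ℕ → Polynomial ℤ) (h0 : (a 0).natDegree < 5)
    (h1 : (a 1).natDegree < 4) (h2 : (a 2).natDegree < 4) (h3 : (a 3).natDegree < 4)
    (hE : jz ^ 4 + ∑ i ∈ range 4, Polynomial.eval₂ (Int.castRingHom Lz) θz (a i) * jz ^ i = 0) :
    2042124031080 + (a 0).coeff 0 * 1 + (a 0).coeff 1 * 744 + (a 0).coeff 2 * 947304 + (a 0).coeff 3 * 1355202240 + (a 0).coeff 4 * 2042124031080 + (a 1).coeff 0 * 744 + (a 1).coeff 1 * 864853506 + (a 1).coeff 2 * 5538806449632 + (a 1).coeff 3 * 14613728456527452 + (a 2).coeff 0 * 947304 + (a 2).coeff 1 * 9790829749728 + (a 2).coeff 2 * 1769523054225123330 + (a 2).coeff 3 * 26863651854870501378096 + (a 3).coeff 0 * 1355202240 + (a 3).coeff 1 * 30457124922304332 + (a 3).coeff 2 * 38337567207281854249776 + (a 3).coeff 3 * 4197391688509451809042817340 = 0 := by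
  have h := S36A9_eq2 a h0 h1 h2 h3 hE (n := 12) (by norm_num)
  simp only [Finset.sum_range_succ, Finset.sum_range_zero, zero_add, S36A9_tv_12_0_0, S36A9_tv_12_0_1, S36A9_tv_12_0_2, S36A9_tv_12_0_3, S36A9_tv_12_0_4, S36A9_tv_12_1_0, S36A9_tv_12_1_1, S36A9_tv_12_1_2, S36A9_tv_12_1_3, S36A9_tv_12_2_0, S36A9_tv_12_2_1, S36A9_tv_12_2_2, S36A9_tv_12_2_3, S36A9_tv_12_3_0, S36A9_tv_12_3_1, S36A9_tv_12_3_2, S36A9_tv_12_3_3, S36A9_tv_12_4_0] at h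
  linear_combination h

/-- **the modular equation of level `3` has the classical coefficients** -/
theorem S36A9_solve (a : ℕ → Polynomial ℤ) (h0 : (a 0).natDegree < 5)
    (h1 : (a 1).natDegree < 4) (h2 : (a 2).natDegree < 4) (h3 : (a 3).natDegree < 4)
    (hmon : (a 0).coeff 4 = 1)
    (hE1 : θz ^ 4 + ∑ i ∈ range 4, Polynomial.eval₂ (Int.castRingHom Lz) jz (a i) * θz ^ i = 0)
    (hE2 : jz ^ 4 + ∑ i ∈ range 4, Polynomial.eval₂ (Int.castRingHom Lz) θz (a i) * jz ^ i = 0) :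
    (a 0).coeff 0 = 0 ∧
    (a 0).coeff 1 = 1855425871872000000000 ∧
    (a 0).coeff 2 = 452984832000000 ∧
    (a 0).coeff 3 = 36864000 ∧
    (a 1).coeff 0 = 1855425871872000000000 ∧
    (a 1).coeff 1 = (-770845966336000000 : ℤ) ∧
    (a 1).coeff 2 = 8900222976000 ∧
    (a 1).coeff 3 = (-1069956 : ℤ) ∧
    (a 2).coeff 0 = 452984832000000 ∧
    (a 2).coeff 1 = 8900222976000 ∧
    (a 2).coeff 2 = 2587918086 ∧
    (a 2).coeff 3 = 2232 ∧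
    (a 3).coeff 0 = 36864000 ∧
    (a 3).coeff 1 = (-1069956 : ℤ) ∧
    (a 3).coeff 2 = 2232 ∧
    (a 3).coeff 3 = (-1 : ℤ) := by
  have e1_0 := S36A9_e1_0 a h0 h1 h2 h3 hE1
  have e2_0 := S36A9_e2_0 a h0 h1 h2 h3 hE2
  have e1_1 := S36A9_e1_1 a h0 h1 h2 h3 hE1
  have e2_1 := S36A9_e2_1 a h0 h1 h2 h3 hE2
  have e1_2 := S36A9_e1_2 a h0 h1 h2 h3 hE1
  have e2_2 := S36A9_e2_2 a h0 h1 h2 h3 hE2
  have e1_3 := S36A9_e1_3 a h0 h1 h2 h3 hE1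
  have e2_3 := S36A9_e2_3 a h0 h1 h2 h3 hE2
  have e1_4 := S36A9_e1_4 a h0 h1 h2 h3 hE1
  have e2_4 := S36A9_e2_4 a h0 h1 h2 h3 hE2
  have e1_5 := S36A9_e1_5 a h0 h1 h2 h3 hE1
  have e2_5 := S36A9_e2_5 a h0 h1 h2 h3 hE2
  have e1_6 := S36A9_e1_6 a h0 h1 h2 h3 hE1
  have e2_6 := S36A9_e2_6 a h0 h1 h2 h3 hE2
  have e1_7 := S36A9_e1_7 a h0 h1 h2 h3 hE1
  have e2_7 := S36A9_e2_7 a h0 h1 h2 h3 hE2
  have e1_8 := S36A9_e1_8 a h0 h1 h2 h3 hE1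
  have e2_8 := S36A9_e2_8 a h0 h1 h2 h3 hE2
  have e1_9 := S36A9_e1_9 a h0 h1 h2 h3 hE1
  have e2_9 := S36A9_e2_9 a h0 h1 h2 h3 hE2
  have e1_10 := S36A9_e1_10 a h0 h1 h2 h3 hE1
  have e2_10 := S36A9_e2_10 a h0 h1 h2 h3 hE2
  have e1_11 := S36A9_e1_11 a h0 h1 h2 h3 hE1
  have e2_11 := S36A9_e2_11 a h0 h1 h2 h3 hE2
  have e1_12 := S36A9_e1_12 a h0 h1 h2 h3 hE1
  have e2_12 := S36A9_e2_12 a h0 h1 h2 h3 hE2
  have s0 : (a 0).coeff 0 = 0 := by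
    linear_combination 33343001490 * e1_0 + 95401870251591816599481683784 * e1_1 + 68350475811650163397176636 * e1_2 + (-36866976 : ℤ) * e1_3 + (-69523395923108725722 : ℤ) * e1_4 + (-2556821179379334576 : ℤ) * e1_5 + 159768 * e1_6 + 14753785027680 * e1_7 + (-16328151906 : ℤ) * e1_8 + (-744 : ℤ) * e1_9 + 159768 * e1_10 + (-744 : ℤ) * e1_11 + 1 * e1_12 + (-1855762920251406636408 : ℤ) * e2_1 + (-453039687883260 : ℤ) * e2_2 + (-36866232 : ℤ) * e2_3 - (-24835576698 : ℤ) * hmon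
  have s1 : (a 0).coeff 1 = 1855425871872000000000 := by
    linear_combination (-1855425871872832913496 : ℤ) * e1_0 + 857664298602272445860003388 * e1_1 + 2360074635957076811019216 * e1_2 + (-10851707509312421472 : ℤ) * e1_4 + (-10426873042620208 : ℤ) * e1_5 + 23474627436 * e1_7 + 271468888 * e1_8 + (-1488 : ℤ) * e1_10 + 1 * e1_11 + 764225003358237519 * e2_1 + (-8898630881472 : ℤ) * e2_2 + 1069956 * e2_3 - 832913496 * hmon
  have s2 : (a 0).coeff 2 = 452984832000000 := by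
    linear_combination (-452984829269436 : ℤ) * e1_0 + (-857516739520644889152872 : ℤ) * e1_1 + (-2046842201910110518719 : ℤ) * e1_2 + 9017186153341352 * e1_4 + 12675232956960 * e1_5 + (-42988264 : ℤ) * e1_7 + (-196884 : ℤ) * e1_8 + 1 * e1_10 + (-10827308969424 : ℤ) * e2_1 + (-2591239302 : ℤ) * e2_2 + (-2232 : ℤ) * e2_3 - (-2730564 : ℤ) * hmon
  have s3 : (a 0).coeff 3 = 36864000 := by
    linear_combination (-36866976 : ℤ) * e1_0 + (-1 : ℤ) * e1_1 + 159768 * e2_1 + (-744 : ℤ) * e2_2 + 1 * e2_3 - 2976 * hmon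
  have s4 : (a 1).coeff 0 = 1855425871872000000000 := by
    linear_combination (-1855425871872561443864 : ℤ) * e1_0 + (-69534372682187742905 : ℤ) * e1_1 + (-2556809031499665600 : ℤ) * e1_2 + 1069956 * e1_3 + 14753666160288 * e1_4 + (-16327598370 : ℤ) * e1_5 + (-1488 : ℤ) * e1_6 + 159768 * e1_7 + (-744 : ℤ) * e1_8 + 1 * e1_9 + (-453012259566420 : ℤ) * e2_1 + (-36865488 : ℤ) * e2_2 + (-1 : ℤ) * e2_3 - (-744 : ℤ) * hmon
  have s5 : (a 1).coeff 1 = (-770845966336000000 : ℤ) := by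
    linear_combination 770845966335999999 * e1_0 + (-10851724974965932032 : ℤ) * e1_1 + (-10427075015116228 : ℤ) * e1_2 + 23475734508 * e1_4 + 271468144 * e1_5 + (-1488 : ℤ) * e1_7 + 1 * e1_8 + (-8899426928736 : ℤ) * e2_1 + 1069956 * e2_2 - 1 * hmon
  have s6 : (a 1).coeff 2 = 8900222976000 := by
    linear_combination (-8900222976000 : ℤ) * e1_0 + 9017218136966420 * e1_1 + 12675379438656 * e1_2 + (-42989008 : ℤ) * e1_4 + (-196884 : ℤ) * e1_5 + 1 * e1_7 + (-2589578694 : ℤ) * e2_1 + (-2232 : ℤ) * e2_2 - 0 * hmon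
  have s7 : (a 1).coeff 3 = (-1069956 : ℤ) := by
    linear_combination 1069956 * e1_0 + (-1488 : ℤ) * e2_1 + 1 * e2_2 - 0 * hmon
  have s8 : (a 2).coeff 0 = 452984832000000 := by
    linear_combination (-452984829466320 : ℤ) * e1_0 + 14753547292896 * e1_1 + (-16327044834 : ℤ) * e1_2 + (-2232 : ℤ) * e1_3 + 159768 * e1_4 + (-744 : ℤ) * e1_5 + 1 * e1_6 + (-36864744 : ℤ) * e2_1 + (-1 : ℤ) * e2_2 - 0 * hmon
  have s9 : (a 2).coeff 1 = 8900222976000 := by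
    linear_combination (-8900222976000 : ℤ) * e1_0 + 23476841580 * e1_1 + 271467400 * e1_2 + (-1488 : ℤ) * e1_4 + 1 * e1_5 + 1069956 * e2_1 - 0 * hmon
  have s10 : (a 2).coeff 2 = 2587918086 := by
    linear_combination (-2587918086 : ℤ) * e1_0 + (-42989752 : ℤ) * e1_1 + (-196884 : ℤ) * e1_2 + 1 * e1_4 + (-2232 : ℤ) * e2_1 - 0 * hmon
  have s11 : (a 2).coeff 3 = 2232 := by
    linear_combination (-2232 : ℤ) * e1_0 + 1 * e2_1 - 0 * hmon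
  have s12 : (a 3).coeff 0 = 36864000 := by
    linear_combination (-36866976 : ℤ) * e1_0 + 159768 * e1_1 + (-744 : ℤ) * e1_2 + 1 * e1_3 + (-1 : ℤ) * e2_1 - 0 * hmon
  have s13 : (a 3).coeff 1 = (-1069956 : ℤ) := by
    linear_combination 1069956 * e1_0 + (-1488 : ℤ) * e1_1 + 1 * e1_2 - 0 * hmon
  have s14 : (a 3).coeff 2 = 2232 := by
    linear_combination (-2232 : ℤ) * e1_0 + 1 * e1_1 - 0 * hmon
  have s15 : (a 3).coeff 3 = (-1 : ℤ) := by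
    linear_combination 1 * e1_0 - 0 * hmon
  exact ⟨s0, s1, s2, s3, s4, s5, s6, s7, s8, s9, s10, s11, s12, s13, s14, s15⟩

end Fermat.Agent.S36_helper10_AUX9Sol
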