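import Fermat.Agent.S36_helper8_AUXDefs
import Fermat.Agent.S18_helper26_DEGK1
import Fermat.Agent.S20_helper29_A1

/-!
# S36, piece AUX (helper10): the field `mem` of `S36AUX_Data r` from `gen`, `rel` and the degree

`F(r) = K(j(Q^d) : d ∣ r)` has degree `μ(r)` over `K(j)` (landed `S18DEG_finrank`); the Hauptmodul
`h` is a root of the monic polynomial `a(T)³ - j B(T)` of degree `3 deg a` over `K(j)`; so if
`F(r) ⊆ K(h)` and `3 deg a ≤ μ(r)` then `F(r) = K(h)`, in particular `h ∈ F(r)`.
-/

set_option autoImplicit false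
set_option linter.unusedVariables false
set_option linter.style.haveILetI false
set_option maxHeartbeats 1600000

open ModularCurve Polynomial IntermediateField
open Fermat.Agent.S20 Fermat.Agent.S24
open Fermat.Agent.S36_helper8_AUXDefs
open Fermat.Agent.S18_helper26_CONST Fermat.Agent.S18_helper26_DEGK1

noncomputable section

namespace Fermat.Agent.S36_helper10_AUXMEM

/-- abstract form: `k ⊆ F ⊆ E` fields, `E = K(h)`, `h` a root of a monic polynomial of degree
`≤ [F : k]` over `k`: then `h` comes from `F`. -/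
theorem S36AM_abs {K k F E : Type*} [Field K] [Field k] [Field F] [Field E]
    [Algebra K E] [Algebra k F] [Algebra F E] [Algebra k E]
    [IsScalarTower k F E]
    (hK : ∀ x : K, ∃ y : k, algebraMap k E y = algebraMap K E x)
    (h : E) (htop : IntermediateField.adjoin K {h} = ⊤)
    (P : Polynomial k) (hP : P.Monic) (hroot : Polynomial.aeval h P = 0)
    (hdeg : P.natDegree ≤ Module.finrank k F) :
    ∃ f : F, algebraMap F E f = h := by
  have hint : IsIntegral k h := ⟨P, hP, hroot⟩
  have htop' : IntermediateField.adjoin k {h} = ⊤ := by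
    have hmem : ∀ x, x ∈ IntermediateField.adjoin K {h} → x ∈ IntermediateField.adjoin k {h} := by
      intro x hx
      induction hx using IntermediateField.adjoin_induction with
      | mem x hx =>
        rw [Set.mem_singleton_iff] at hx
        subst hx
        exact IntermediateField.mem_adjoin_simple_self k x
      | algebraMap x =>
        obtain ⟨y, hy⟩ := hK x
        rw [← hy]
        exact (IntermediateField.adjoin k {h}).algebraMap_mem y
      | add x y _ _ hx hy => exact add_mem hx hy
      | inv x _ hx => exact inv_mem hx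
      | mul x y _ _ hx hy => exact mul_mem hx hy
    rw [eq_top_iff]
    intro x _
    exact hmem x (by rw [htop]; trivial)
  have h1 : Module.finrank k E = (minpoly k h).natDegree := by
    rw [← IntermediateField.finrank_top', ← htop']
    exact IntermediateField.adjoin.finrank hint
  have h2 : (minpoly k h).natDegree ≤ P.natDegree :=
    Polynomial.natDegree_le_natDegree (minpoly.min k h hP hroot)
  have h3 : 0 < (minpoly k h).natDegree := minpoly.natDegree_pos hint
  have h4 := Module.finrank_mul_finrank k F E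
  have h5 : Module.finrank F E = 1 := by
    have h6 : Module.finrank k E ≤ Module.finrank k F := by
      rw [h1]; exact h2.trans hdeg
    have h7 : 0 < Module.finrank k E := by rw [h1]; exact h3
    rw [← h4] at h6 h7
    have h8 : 0 < Module.finrank k F := by
      rcases Nat.eq_zero_or_pos (Module.finrank k F) with h0 | h0
      · rw [h0, zero_mul] at h7; exact absurd h7 (lt_irrefl 0)
      · exact h0
    have h9 : 0 < Module.finrank F E := by
      rcases Nat.eq_zero_or_pos (Module.finrank F E) with h0 | h0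
      · rw [h0, mul_zero] at h7; exact absurd h7 (lt_irrefl 0)
      · exact h0
    have h10 : Module.finrank F E ≤ 1 := by
      by_contra hcon
      have hcon' : 2 ≤ Module.finrank F E := by omega
      have : Module.finrank k F * 2 ≤ Module.finrank k F * Module.finrank F E :=
        Nat.mul_le_mul_left _ hcon'
      omega
    omega
  obtain ⟨c, hc⟩ := (finrank_eq_one_iff_of_nonzero' (1 : E) one_ne_zero).mp h5 h
  refine ⟨c, ?_⟩
  rw [← hc, Algebra.smul_def, mul_one]

/-- the same with ring homomorphisms instead of instances -/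
theorem S36AM_abs' {K k F E : Type*} [Field K] [Field k] [Field F] [Field E]
    [Algebra K E] [Algebra k F] (i : F →+* E)
    (hK : ∀ x : K, ∃ y : k, i (algebraMap k F y) = algebraMap K E x)
    (h : E) (htop : IntermediateField.adjoin K {h} = ⊤)
    (P : Polynomial k) (hP : P.Monic)
    (hroot : Polynomial.eval₂ (i.comp (algebraMap k F)) h P = 0)
    (hdeg : P.natDegree ≤ Module.finrank k F) :
    ∃ f : F, i f = h := by
  letI algFE : Algebra F E := i.toAlgebra
  letI algkE : Algebra k E := (i.comp (algebraMap k F)).toAlgebra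
  haveI t1 : IsScalarTower k F E := IsScalarTower.of_algebraMap_eq (fun x => rfl)
  exact S36AM_abs (K := K) (k := k) (F := F) (E := E) hK h htop P hP hroot hdeg

/-- **generic `mem`**: over any field `K1` of characteristic `0` (with an embedding into `ℚ̄`). -/
theorem S36AM_mem {K1 : Type*} [Field K1] [CharZero K1] (emb : K1 →+* Kbar) (N : ℕ) [NeZero N]
    (h : LaurentSeries K1) (a B : Polynomial ℤ) (ha : a.Monic)
    (hdeg : B.natDegree < 3 * a.natDegree) (hmu : 3 * a.natDegree ≤ mu N)
    (rel : jqModC K1 * Polynomial.aeval h B = (Polynomial.aeval h a) ^ 3)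
    (gen : modularFunctionFieldFullC K1 N ≤ IntermediateField.adjoin K1 {h}) :
    h ∈ modularFunctionFieldFullC K1 N := by
  classical
  have hfin : Module.finrank K1⟮S18P15_jbar K1 N⟯ (modularFunctionFieldFullC K1 N) = mu N :=
    S18DEG_finrank emb N
  have htop : IntermediateField.adjoin K1 {IntermediateField.AdjoinSimple.gen K1 h} = ⊤ := by
    apply IntermediateField.lift_injective
    rw [IntermediateField.lift_adjoin_simple, IntermediateField.lift_top]
    rfl
  -- the polynomial
  obtain ⟨φ, hφ⟩ : ∃ φ : ℤ →+* K1⟮S18P15_jbar K1 N⟯,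
      φ = Int.castRingHom K1⟮S18P15_jbar K1 N⟯ := ⟨_, rfl⟩
  obtain ⟨g, hg⟩ : ∃ g : K1⟮S18P15_jbar K1 N⟯,
      g = IntermediateField.AdjoinSimple.gen K1 (S18P15_jbar K1 N) := ⟨_, rfl⟩
  obtain ⟨P, hPdef⟩ : ∃ P : Polynomial K1⟮S18P15_jbar K1 N⟯,
      P = (a.map φ) ^ 3 - Polynomial.C g * B.map φ := ⟨_, rfl⟩
  have ha' : (a.map φ).Monic := ha.map _
  have ha3 : ((a.map φ) ^ 3).Monic := ha'.pow 3
  have hd3 : ((a.map φ) ^ 3).natDegree = 3 * a.natDegree := by
    rw [ha'.natDegree_pow, ha.natDegree_map]
  have hB1 : (Polynomial.C g * B.map φ).natDegree < 3 * a.natDegree :=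
    lt_of_le_of_lt ((Polynomial.natDegree_C_mul_le _ _).trans Polynomial.natDegree_map_le) hdeg
  have hdB : (Polynomial.C g * B.map φ).degree < ((a.map φ) ^ 3).degree := by
    rw [Polynomial.degree_eq_natDegree ha3.ne_zero, hd3]
    refine lt_of_le_of_lt (Polynomial.degree_le_natDegree) ?_
    exact_mod_cast hB1
  have hPm : P.Monic := by
    rw [hPdef]
    exact ha3.sub_of_left hdB
  have hPd : P.natDegree = 3 * a.natDegree := by
    rw [hPdef, Polynomial.natDegree_sub_eq_left_of_natDegree_lt, hd3]
    rw [hd3]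
    exact hB1
  obtain ⟨i, hi⟩ : ∃ i : modularFunctionFieldFullC K1 N →+* IntermediateField.adjoin K1 {h},
      i = (IntermediateField.inclusion gen).toRingHom := ⟨_, rfl⟩
  have hival : ∀ x, ((i x : IntermediateField.adjoin K1 {h}) : LaurentSeries K1) = x := by
    intro x
    rw [hi]
    rfl
  have hroot : Polynomial.eval₂
      (i.comp (algebraMap K1⟮S18P15_jbar K1 N⟯ (modularFunctionFieldFullC K1 N)))
      (IntermediateField.AdjoinSimple.gen K1 h) P = 0 := by
    apply Subtype.ext
    have key : ∀ p : Polynomial ℤ,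
        ((Polynomial.eval₂
          (i.comp (algebraMap K1⟮S18P15_jbar K1 N⟯ (modularFunctionFieldFullC K1 N)))
          (IntermediateField.AdjoinSimple.gen K1 h) (p.map φ) :
            IntermediateField.adjoin K1 {h}) : LaurentSeries K1) = Polynomial.aeval h p := by
      intro p
      rw [Polynomial.eval₂_map]
      have e0 := Polynomial.hom_eval₂ p
        ((i.comp (algebraMap K1⟮S18P15_jbar K1 N⟯ (modularFunctionFieldFullC K1 N))).comp φ)
        (IntermediateField.adjoin K1 {h}).val.toRingHom (IntermediateField.AdjoinSimple.gen K1 h)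
      have e1 : (IntermediateField.adjoin K1 {h}).val.toRingHom.comp
          ((i.comp (algebraMap K1⟮S18P15_jbar K1 N⟯ (modularFunctionFieldFullC K1 N))).comp φ)
          = algebraMap ℤ (LaurentSeries K1) := RingHom.ext_int _ _
      rw [e1] at e0
      rw [Polynomial.aeval_def]
      exact e0
    rw [hPdef, Polynomial.eval₂_sub, Polynomial.eval₂_pow, Polynomial.eval₂_mul,
      Polynomial.eval₂_C]
    push_cast
    rw [key, key, RingHom.comp_apply, hival, hg]
    have e2 : (((algebraMap K1⟮S18P15_jbar K1 N⟯ (modularFunctionFieldFullC K1 N))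
        (IntermediateField.AdjoinSimple.gen K1 (S18P15_jbar K1 N)) :
          modularFunctionFieldFullC K1 N) : LaurentSeries K1) = jqModC K1 := rfl
    rw [e2, ← rel, sub_self]
  have hcompat : ∀ x : K1, ∃ y : K1⟮S18P15_jbar K1 N⟯,
      i (algebraMap K1⟮S18P15_jbar K1 N⟯ (modularFunctionFieldFullC K1 N) y)
        = algebraMap K1 (IntermediateField.adjoin K1 {h}) x := by
    intro x
    refine ⟨⟨algebraMap K1 (modularFunctionFieldFullC K1 N) x,
      (K1⟮S18P15_jbar K1 N⟯).algebraMap_mem x⟩, ?_⟩
    apply Subtype.ext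
    rw [hival]
    rfl
  have hdegP : P.natDegree ≤
      Module.finrank K1⟮S18P15_jbar K1 N⟯ (modularFunctionFieldFullC K1 N) := by
    rw [hPd, hfin]; exact hmu
  obtain ⟨f, hf⟩ := S36AM_abs' (K := K1) (k := K1⟮S18P15_jbar K1 N⟯)
    (F := modularFunctionFieldFullC K1 N) (E := IntermediateField.adjoin K1 {h}) i hcompat
    (IntermediateField.AdjoinSimple.gen K1 h) htop P hPm hroot hdegP
  have hf' : (f : LaurentSeries K1) = h := by
    rw [← hival f, hf]
    rfl
  rw [← hf']
  exact f.2

/-- the coefficient map sends `Q⁻¹ u` over `ℤ` to `Q⁻¹ u` over `K` -/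
theorem S36AM_coeffMap_h (K : Type*) [CommRing K] (u : PowerSeries ℤ) :
    coeffMap (Int.castRingHom K) (S36AUX_h u) = S36AUX_hK K u := by
  rw [S36AUX_h, S36AUX_hK, map_mul, coeffMap_single, coeffMap_ofPowerSeries, map_one]

/-- the coefficient map commutes with the evaluation of integer polynomials -/
theorem S36AM_coeffMap_aeval (K : Type*) [CommRing K] (x : LaurentSeries ℤ) (p : Polynomial ℤ) :
    coeffMap (Int.castRingHom K) (Polynomial.aeval x p)
      = Polynomial.aeval (coeffMap (Int.castRingHom K) x) p := by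
  rw [Polynomial.aeval_def, Polynomial.aeval_def, Polynomial.hom_eval₂]
  congr 1
  exact RingHom.ext_int _ _

/-- **`rel` pushed to any coefficient ring** -/
theorem S36AM_relK (K : Type*) [CommRing K] (u : PowerSeries ℤ) (a B : Polynomial ℤ)
    (rel : jqModC ℤ * Polynomial.aeval (S36AUX_h u) B = (Polynomial.aeval (S36AUX_h u) a) ^ 3) :
    jqModC K * Polynomial.aeval (S36AUX_hK K u) B = (Polynomial.aeval (S36AUX_hK K u) a) ^ 3 := by
  have h := congrArg (coeffMap (Int.castRingHom K)) rel
  rw [map_mul, map_pow, S36AM_coeffMap_aeval, S36AM_coeffMap_aeval, S36AM_coeffMap_h,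
    coeffMap_jqModC] at h
  exact h

/-- **the field `mem` of `S36AUX_Data r` from the other fields** -/
theorem S36AM_mem_int (r : ℕ) [NeZero r] (u : PowerSeries ℤ) (a B : Polynomial ℤ) (ha : a.Monic)
    (hdeg : B.natDegree + 1 = 3 * a.natDegree) (hmu : 3 * a.natDegree ≤ mu r)
    (rel : jqModC ℤ * Polynomial.aeval (S36AUX_h u) B = (Polynomial.aeval (S36AUX_h u) a) ^ 3)
    (gen : modularFunctionFieldFullC ℚ r ≤ IntermediateField.adjoin ℚ {S36AUX_hK ℚ u}) :
    S36AUX_hK ℚ u ∈ modularFunctionFieldFullC ℚ r :=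
  S36AM_mem (algebraMap ℚ Kbar) r (S36AUX_hK ℚ u) a B ha (by omega) hmu
    (S36AM_relK ℚ u a B rel) gen

theorem S36AM_mu_four : mu 4 = 6 := by
  rw [Fermat.Agent.S20_helper29_A1.A1 4]
  have h2 : ModularCurve.dedekindPsi (2 * 1) = 3 := by
    rw [Fermat.Agent.S20_helper29_A1.psi_mul_of_not_dvd 2 1 Nat.prime_two one_ne_zero
      (by norm_num), dedekindPsi_one]
  have h4 : ModularCurve.dedekindPsi (2 * (2 * 1)) = 6 := by
    rw [Fermat.Agent.S20_helper29_A1.psi_mul_of_dvd 2 (2 * 1) Nat.prime_two (by norm_num)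
      (by norm_num), h2]
  exact h4

theorem S36AM_mu_nine : mu 9 = 12 := by
  rw [Fermat.Agent.S20_helper29_A1.A1 9]
  have h3 : ModularCurve.dedekindPsi (3 * 1) = 4 := by
    rw [Fermat.Agent.S20_helper29_A1.psi_mul_of_not_dvd 3 1 Nat.prime_three one_ne_zero
      (by norm_num), dedekindPsi_one]
  have h9 : ModularCurve.dedekindPsi (3 * (3 * 1)) = 12 := by
    rw [Fermat.Agent.S20_helper29_A1.psi_mul_of_dvd 3 (3 * 1) Nat.prime_three (by norm_num)
      (by norm_num), h3]
  exact h9

/-- the field `mem` at level `4` -/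
theorem S36AM_mem_four (u : PowerSeries ℤ) (a B : Polynomial ℤ) (ha : a.Monic)
    (hdeg : B.natDegree + 1 = 3 * a.natDegree) (hda : a.natDegree = 2)
    (rel : jqModC ℤ * Polynomial.aeval (S36AUX_h u) B = (Polynomial.aeval (S36AUX_h u) a) ^ 3)
    (gen : modularFunctionFieldFullC ℚ 4 ≤ IntermediateField.adjoin ℚ {S36AUX_hK ℚ u}) :
    S36AUX_hK ℚ u ∈ modularFunctionFieldFullC ℚ 4 :=
  S36AM_mem_int 4 u a B ha hdeg (by rw [S36AM_mu_four, hda]) rel gen

/-- the field `mem` at level `9` -/
theorem S36AM_mem_nine (u : PowerSeries ℤ) (a B : Polynomial ℤ) (ha : a.Monic)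
    (hdeg : B.natDegree + 1 = 3 * a.natDegree) (hda : a.natDegree = 4)
    (rel : jqModC ℤ * Polynomial.aeval (S36AUX_h u) B = (Polynomial.aeval (S36AUX_h u) a) ^ 3)
    (gen : modularFunctionFieldFullC ℚ 9 ≤ IntermediateField.adjoin ℚ {S36AUX_hK ℚ u}) :
    S36AUX_hK ℚ u ∈ modularFunctionFieldFullC ℚ 9 :=
  S36AM_mem_int 9 u a B ha hdeg (by rw [S36AM_mu_nine, hda]) rel gen

end Fermat.Agent.S36_helper10_AUXMEM
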