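import Mathlib

/-!
# S36, GEO36 (REG36, `[ONE mid]`): the witness `c ∉ m` on the thick branch ("D-trick")

Pure algebra, Mathlib only, Subring-`L` vocabulary (`V` = `V_mid`, `A` = the chart,
`m` a prime of `A` through which `V` passes).

Notation of THICK: `Φ = (X^q - Y)(X - Y^q) + q G`, `x = h`, `y = V_q h`, `z = V_(q²) h`,
`t = z - x`, `S = x - y^q`, `Ψ(Z) = Φ(Z, y) / (Z - x)`, `P(T) = Ψ(T + x) = ∑ p k T^k`
(monic of degree `q = n + 2`, `p 0 = Φ_X(x, y) = Q H`), `D = - Φ_Y(x, y) / H`.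
In `V_mid`: `p (q-1) ≡ S`, `Q ∣ p k` (`1 ≤ k ≤ q - 2`), `Φ_Y ≡ -S`, `t` a non-unit,
`S`, `H` units.

* `S36DT_core`    : `t^(q-1) / Q ∈ V` and `D * (t^(q-1) / Q) + 1 ∈ τ V`.
* `S36DT_Hyp`     : the hypotheses, bundled.
* `S36DT_unit`    : `t^(q-1) / Q` is a unit of `V`.
* `S36DT_unif`    : `t` is a uniformiser of `V` as soon as `Q = τ^(q-1) * unit`.
* `S36DT_witness` : for `d ∉ m`, `c ∈ A` with `c Q = d t^(q-1)` and `D ∈ A`: `c ∉ m`.
* `S36DT_witness_pi` : the same in the shape of the witnesses of `S36N1M_thruMid`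
  (`c * π = t * b`).

Here `τ` is ANY uniformiser of `V` (e.g. `j_qq - j`), `q = n + 2`.
-/

set_option autoImplicit false

namespace Fermat.Agent.S36_helper11_DTRICK

variable {L : Type*} [Field L]

/-- the uniformiser is not zero -/
theorem S36DT_tau_ne_zero (V : Subring L) (τ : L) (hτ : τ⁻¹ ∉ V) : τ ≠ 0 := by
  rintro rfl
  exact hτ (by rw [inv_zero]; exact V.zero_mem)

/-- `u + τ v` is a unit of `V` if `u` is. -/
theorem S36DT_unit_add (V : Subring L) (τ : L) (hτV : τ ∈ V) (hτ : τ⁻¹ ∉ V)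
    (hunif : ∀ y ∈ V, y⁻¹ ∉ V → ∃ v ∈ V, y = τ * v)
    {u v : L} (hu : u ∈ V) (hu' : u⁻¹ ∈ V) (hu0 : u ≠ 0) (hv : v ∈ V) :
    (u + τ * v)⁻¹ ∈ V ∧ u + τ * v ≠ 0 := by
  have hτ0 := S36DT_tau_ne_zero V τ hτ
  have hy : u + τ * v ∈ V := V.add_mem hu (V.mul_mem hτV hv)
  have key : (u + τ * v)⁻¹ ∈ V := by
    by_contra hcon
    obtain ⟨v', hv', h⟩ := hunif _ hy hcon
    apply hτ
    have h1 : u = τ * (v' - v) := by linear_combination h
    have h2 : τ⁻¹ = (v' - v) * u⁻¹ := by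
      rw [h1]
      have hw : v' - v ≠ 0 := by
        intro h0
        rw [h0, mul_zero] at h1
        exact hu0 h1
      field_simp
    rw [h2]
    exact V.mul_mem (V.sub_mem hv' hv) hu'
  refine ⟨key, ?_⟩
  intro h0
  rw [h0, inv_zero] at key
  -- `u = - τ v`, so `τ⁻¹ = - v u⁻¹ ∈ V`
  apply hτ
  have h1 : u = τ * (-v) := by linear_combination h0
  have hv0 : v ≠ 0 := by
    intro h00
    rw [h00, neg_zero, mul_zero] at h1
    exact hu0 h1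
  have h2 : τ⁻¹ = (-v) * u⁻¹ := by
    rw [h1]
    field_simp
  rw [h2]
  exact V.mul_mem (V.neg_mem hv) hu'

/-- **The congruence.** -/
theorem S36DT_core (V : Subring L) (τ : L) (hτV : τ ∈ V) (hτ : τ⁻¹ ∉ V)
    (hunif : ∀ y ∈ V, y⁻¹ ∉ V → ∃ v ∈ V, y = τ * v)
    (n : ℕ) (Q t S H D ΦY : L) (p : ℕ → L) (hQ0 : Q ≠ 0)
    (ht : ∃ v ∈ V, t = τ * v)
    (hS : S ∈ V) (hS' : S⁻¹ ∈ V) (hS0 : S ≠ 0)
    (hH : H ∈ V) (hH' : H⁻¹ ∈ V) (hH0 : H ≠ 0)
    (hpq : p (n + 2) = 1)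
    (hroot : ∑ k ∈ Finset.range (n + 3), p k * t ^ k = 0)
    (hp0 : p 0 = Q * H)
    (hmid : ∀ k, 1 ≤ k → k ≤ n → ∃ e ∈ V, p k = Q * e)
    (htop : ∃ v ∈ V, p (n + 1) - S = τ * v)
    (hΦY : ∃ v ∈ V, ΦY + S = τ * v)
    (hD : D * H + ΦY = 0) :
    t ^ (n + 1) / Q ∈ V ∧ ∃ v ∈ V, D * (t ^ (n + 1) / Q) + 1 = τ * v := by
  obtain ⟨vt, hvt, htv⟩ := ht
  obtain ⟨vtop, hvtop, htopv⟩ := htop
  obtain ⟨vΦ, hvΦ, hΦv⟩ := hΦY
  have htV : t ∈ V := by rw [htv]; exact V.mul_mem hτV hvt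
  -- the coefficients `e k`
  have hmid' : ∀ k, ∃ e ∈ V, (1 ≤ k → k ≤ n → p k = Q * e) := by
    intro k
    by_cases hk : 1 ≤ k ∧ k ≤ n
    · obtain ⟨e, he, hpe⟩ := hmid k hk.1 hk.2
      exact ⟨e, he, fun _ _ => hpe⟩
    · exact ⟨0, V.zero_mem, fun h1 h2 => absurd ⟨h1, h2⟩ hk⟩
  choose e he hpe using hmid'
  -- the equation
  have hsum : ∑ k ∈ Finset.range (n + 3), p k * t ^ k =
      t ^ (n + 2) + p (n + 1) * t ^ (n + 1) +
        Q * (H + τ * ∑ k ∈ Finset.range n, e (k + 1) * vt * t ^ k) := by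
    rw [Finset.sum_range_succ, Finset.sum_range_succ, Finset.sum_range_succ', hpq, hp0]
    have h1 : ∑ k ∈ Finset.range n, p (k + 1) * t ^ (k + 1) =
        Q * (τ * ∑ k ∈ Finset.range n, e (k + 1) * vt * t ^ k) := by
      rw [Finset.mul_sum, Finset.mul_sum]
      refine Finset.sum_congr rfl fun k hk => ?_
      have hk' := Finset.mem_range.1 hk
      rw [hpe (k + 1) (by omega) (by omega), pow_succ]
      nth_rewrite 2 [htv]
      ring
    rw [h1]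
    ring
  rw [hsum] at hroot
  set y' : L := ∑ k ∈ Finset.range n, e (k + 1) * vt * t ^ k with hy'
  have hy'V : y' ∈ V := by
    rw [hy']
    refine Subring.sum_mem V fun k _ => ?_
    exact V.mul_mem (V.mul_mem (he _) hvt) (V.pow_mem htV k)
  -- `U = t + p (n+1) = S + τ (vt + vtop)` is a unit
  have hU : t + p (n + 1) = S + τ * (vt + vtop) := by
    rw [htv]; linear_combination htopv
  obtain ⟨hU', hU0⟩ := S36DT_unit_add V τ hτV hτ hunif hS hS' hS0 (V.add_mem hvt hvtop)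
  rw [← hU] at hU' hU0
  have hkey : t ^ (n + 1) / Q = -(H + τ * y') * (t + p (n + 1))⁻¹ := by
    field_simp
    linear_combination hroot
  have hmem : t ^ (n + 1) / Q ∈ V := by
    rw [hkey]
    exact V.mul_mem (V.neg_mem (V.add_mem hH (V.mul_mem hτV hy'V))) hU'
  refine ⟨hmem, (-S * y' + vΦ * H + τ * vΦ * y' + H * (vt + vtop)) * H⁻¹ * (t + p (n + 1))⁻¹,
    ?_, ?_⟩
  · refine V.mul_mem (V.mul_mem ?_ hH') hU'
    refine V.add_mem (V.add_mem (V.add_mem (V.mul_mem (V.neg_mem hS) hy'V) (V.mul_mem hvΦ hH))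
      (V.mul_mem (V.mul_mem hτV hvΦ) hy'V)) (V.mul_mem hH (V.add_mem hvt hvtop))
  · have hDe : D = -ΦY * H⁻¹ := by
      field_simp
      linear_combination hD
    have hΦe : ΦY = -S + τ * vΦ := by linear_combination hΦv
    rw [hkey, hDe, hΦe]
    have hUe : (t + p (n + 1)) = S + τ * (vt + vtop) := hU
    have hU0' : S + τ * (vt + vtop) ≠ 0 := by rw [← hUe]; exact hU0
    rw [hUe]
    field_simp
    ring

/-- **The hypotheses of the D-trick**, bundled (all fields are the hypotheses of `S36DT_core`). -/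
structure S36DT_Hyp (V : Subring L) (τ : L) (n : ℕ) (Q t S H D ΦY : L) (p : ℕ → L) : Prop where
  τ_mem : τ ∈ V
  τ_nonunit : τ⁻¹ ∉ V
  unif : ∀ y ∈ V, y⁻¹ ∉ V → ∃ v ∈ V, y = τ * v
  Q_ne : Q ≠ 0
  t_mem : ∃ v ∈ V, t = τ * v
  S_mem : S ∈ V
  S_inv : S⁻¹ ∈ V
  S_ne : S ≠ 0
  H_mem : H ∈ V
  H_inv : H⁻¹ ∈ V
  H_ne : H ≠ 0
  monic : p (n + 2) = 1
  root : ∑ k ∈ Finset.range (n + 3), p k * t ^ k = 0
  p_zero : p 0 = Q * H
  p_mid : ∀ k, 1 ≤ k → k ≤ n → ∃ e ∈ V, p k = Q * e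
  p_top : ∃ v ∈ V, p (n + 1) - S = τ * v
  ΦY_cong : ∃ v ∈ V, ΦY + S = τ * v
  D_eq : D * H + ΦY = 0

section Hyp

variable {V : Subring L} {τ : L} {n : ℕ} {Q t S H D ΦY : L} {p : ℕ → L}

theorem S36DT_Hyp.core (h : S36DT_Hyp V τ n Q t S H D ΦY p) :
    t ^ (n + 1) / Q ∈ V ∧ ∃ v ∈ V, D * (t ^ (n + 1) / Q) + 1 = τ * v :=
  S36DT_core V τ h.τ_mem h.τ_nonunit h.unif n Q t S H D ΦY p h.Q_ne h.t_mem h.S_mem h.S_inv
    h.S_ne h.H_mem h.H_inv h.H_ne h.monic h.root h.p_zero h.p_mid h.p_top h.ΦY_cong h.D_eq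

/-- `D` lies in `V`. -/
theorem S36DT_Hyp.D_mem (h : S36DT_Hyp V τ n Q t S H D ΦY p) : D ∈ V := by
  obtain ⟨vΦ, hvΦ, hΦv⟩ := h.ΦY_cong
  have hH0 := h.H_ne
  have hDe : D = -ΦY * H⁻¹ := by
    field_simp
    linear_combination h.D_eq
  have hΦe : ΦY = -S + τ * vΦ := by linear_combination hΦv
  rw [hDe, hΦe]
  exact V.mul_mem (V.neg_mem (V.add_mem (V.neg_mem h.S_mem) (V.mul_mem h.τ_mem hvΦ))) h.H_inv

/-- **`t ^ (q - 1) / Q` is a unit of `V`.** -/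
theorem S36DT_unit (h : S36DT_Hyp V τ n Q t S H D ΦY p) :
    t ^ (n + 1) / Q ∈ V ∧ (t ^ (n + 1) / Q)⁻¹ ∈ V ∧ t ^ (n + 1) / Q ≠ 0 := by
  obtain ⟨hX, v, hv, hXv⟩ := h.core
  have hone : (-1 : L) ∈ V := V.neg_mem V.one_mem
  have hone' : (-1 : L)⁻¹ ∈ V := by
    have : (-1 : L)⁻¹ = -1 := by norm_num
    rw [this]; exact hone
  obtain ⟨hu, hu0⟩ := S36DT_unit_add V τ h.τ_mem h.τ_nonunit h.unif hone hone'
    (by norm_num) hv
  have hDX : D * (t ^ (n + 1) / Q) = -1 + τ * v := by linear_combination hXv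
  rw [← hDX] at hu hu0
  have hX0 : t ^ (n + 1) / Q ≠ 0 := right_ne_zero_of_mul hu0
  have hD0 : D ≠ 0 := left_ne_zero_of_mul hu0
  refine ⟨hX, ?_, hX0⟩
  have : (t ^ (n + 1) / Q)⁻¹ = D * (D * (t ^ (n + 1) / Q))⁻¹ := by
    rw [mul_inv]
    field_simp
  rw [this]
  exact V.mul_mem h.D_mem hu

/-- `t ≠ 0`. -/
theorem S36DT_Hyp.t_ne (h : S36DT_Hyp V τ n Q t S H D ΦY p) : t ≠ 0 := by
  intro h0
  have := (S36DT_unit h).2.2
  rw [h0, zero_pow (Nat.succ_ne_zero n), zero_div] at this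
  exact this rfl

/-- **`t` is a uniformiser of `V`** as soon as `Q = τ ^ (q - 1) * unit`. -/
theorem S36DT_unif (h : S36DT_Hyp V τ n Q t S H D ΦY p)
    (hQτ : ∃ u ∈ V, u⁻¹ ∈ V ∧ Q = τ ^ (n + 1) * u) :
    t ∈ V ∧ t⁻¹ ∉ V ∧ ∀ y ∈ V, y⁻¹ ∉ V → ∃ v ∈ V, y = t * v := by
  obtain ⟨u, hu, hu', hQu⟩ := hQτ
  obtain ⟨vt, hvt, htv⟩ := h.t_mem
  obtain ⟨hX, hX', hX0⟩ := S36DT_unit h
  have hτ0 := S36DT_tau_ne_zero V τ h.τ_nonunit
  have hQ0 := h.Q_ne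
  have hu0 : u ≠ 0 := by
    rintro rfl
    rw [mul_zero] at hQu
    exact hQ0 hQu
  have ht0 := h.t_ne
  have hvt0 : vt ≠ 0 := by
    rintro rfl
    rw [mul_zero] at htv
    exact ht0 htv
  -- `vt ^ (n + 1) = X * u`
  have hpow : vt ^ (n + 1) = t ^ (n + 1) / Q * u := by
    rw [htv, hQu, mul_pow]
    field_simp
  have hvt' : vt⁻¹ ∈ V := by
    have : vt⁻¹ = vt ^ n * ((t ^ (n + 1) / Q)⁻¹ * u⁻¹) := by
      rw [← mul_inv, ← hpow, pow_succ, mul_inv]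
      field_simp
    rw [this]
    exact V.mul_mem (V.pow_mem hvt n) (V.mul_mem hX' hu')
  have htV : t ∈ V := by rw [htv]; exact V.mul_mem h.τ_mem hvt
  refine ⟨htV, ?_, ?_⟩
  · intro ht'
    apply h.τ_nonunit
    have : τ⁻¹ = vt * t⁻¹ := by
      rw [htv, mul_inv]
      field_simp
    rw [this]
    exact V.mul_mem hvt ht'
  · intro y hy hy'
    obtain ⟨v, hv, hyv⟩ := h.unif y hy hy'
    refine ⟨vt⁻¹ * v, V.mul_mem hvt' hv, ?_⟩
    rw [hyv, htv]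
    field_simp

/-- **The witness.**  `A ≤ V` a subring, `m` a prime of `A` through which `V` passes
(`S36ONE_On V A m`), `d ∈ A \ m`, `c ∈ A` with `c * Q = d * t ^ (q - 1)`, `D ∈ A`: then
`c ∉ m`. -/
theorem S36DT_witness (h : S36DT_Hyp V τ n Q t S H D ΦY p)
    (A : Subring L) (hAV : A ≤ V) (m : Ideal A)
    (hOn : ∀ a : A, ((a : L))⁻¹ ∉ V → a ∈ m)
    (d c Da : A) (hdm : d ∉ m) (hc : (c : L) * Q = (d : L) * t ^ (n + 1))
    (hDa : (Da : L) = D) : c ∉ m := by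
  obtain ⟨hX, v, hv, hXv⟩ := h.core
  have hQ0 := h.Q_ne
  have hτ0 := S36DT_tau_ne_zero V τ h.τ_nonunit
  have hce : (c : L) = (d : L) * (t ^ (n + 1) / Q) := by
    field_simp
    exact hc
  -- `a := D c + d = τ (d v)`
  have ha : ((Da * c + d : A) : L) = τ * ((d : L) * v) := by
    push_cast
    rw [hDa, hce]
    linear_combination (d : L) * hXv
  have hdv : (d : L) * v ∈ V := V.mul_mem (hAV d.2) hv
  have ham : Da * c + d ∈ m := by
    by_cases h0 : ((Da * c + d : A) : L) = 0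
    · have : (Da * c + d : A) = 0 := Subtype.ext h0
      rw [this]
      exact m.zero_mem
    · apply hOn
      intro hinv
      apply h.τ_nonunit
      have hdv0 : (d : L) * v ≠ 0 := by
        intro h00
        rw [h00, mul_zero] at ha
        exact h0 ha
      have : τ⁻¹ = ((d : L) * v) * (((Da * c + d : A) : L))⁻¹ := by
        rw [ha, mul_inv, mul_comm τ⁻¹, ← mul_assoc, mul_inv_cancel₀ hdv0, one_mul]
      rw [this]
      exact V.mul_mem hdv hinv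
  intro hcm
  apply hdm
  have : d = (Da * c + d) - Da * c := by ring
  rw [this]
  exact m.sub_mem ham (m.mul_mem_left _ hcm)

/-- **The witnesses of `S36N1M_thruMid`**: with `Q = π * w`, `w ∈ A \ m`, and `b = d * t ^ n`
in `A`: `c' := c * w` satisfies `c' ∉ m` and `c' * π = t * b`. -/
theorem S36DT_witness_pi (h : S36DT_Hyp V τ n Q t S H D ΦY p)
    (A : Subring L) (hAV : A ≤ V) (m : Ideal A) [hm : m.IsPrime]
    (hOn : ∀ a : A, ((a : L))⁻¹ ∉ V → a ∈ m)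
    (d c Da w b : A) (hdm : d ∉ m) (hc : (c : L) * Q = (d : L) * t ^ (n + 1))
    (hDa : (Da : L) = D) (π : L) (hwm : w ∉ m) (hQπ : Q = π * (w : L))
    (hb : (b : L) = (d : L) * t ^ n) :
    ∃ c' : A, c' ∉ m ∧ (c' : L) * π = t * (b : L) := by
  have hcm := S36DT_witness h A hAV m hOn d c Da hdm hc hDa
  refine ⟨c * w, fun hmem => ?_, ?_⟩
  · rcases hm.mem_or_mem hmem with h1 | h1
    · exact hcm h1
    · exact hwm h1
  · push_cast
    rw [hb]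
    have : (c : L) * (w : L) * π = (c : L) * Q := by rw [hQπ]; ring
    rw [this, hc]
    ring

end Hyp

end Fermat.Agent.S36_helper11_DTRICK
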