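import Mathlib

/-!
# S36 GEO36, thick cusps: the pure-algebra core of step (3)

`S36T3_core`: in a commutative ring `R` with an ideal `I`, from the two root relations
`Φ~(1) = 0` and `Φ~(ρ) = 0` of `Φ~(Z) = (Z^q - e1)(Z - E') + q Z Θ(a Z)` with
`E', a, ρ - 1 ∈ I` and `ρ - 1` a non-zero-divisor, one gets
`(ρ - 1)^(q-1) * α + q * β = 0` with `α ≡ β ≡ 1 mod I`.
-/

namespace Fermat.Agent.S36_helper26_TC3

open Finset

/-- The binomial part: for `q` prime, `ρ ^ q - 1 = (ρ - 1) * ((ρ - 1) ^ (q - 1) + q * B)`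
with `B ≡ 1` modulo `ρ - 1`. -/
theorem S36T3_binom {R : Type*} [CommRing R] (q : ℕ) (hq : q.Prime) (ρ : R) :
    ∃ B c : R, B - 1 = (ρ - 1) * c ∧
      ρ ^ q - 1 = (ρ - 1) * ((ρ - 1) ^ (q - 1) + (q : R) * B) := by
  set τ : R := ρ - 1 with hτ
  have hρ : ρ = τ + 1 := by rw [hτ]; ring
  have h1 : (1 : ℕ) ∈ Ioo 0 q := by
    rw [mem_Ioo]; exact ⟨Nat.one_pos, hq.one_lt⟩
  refine ⟨∑ k ∈ Ioo 0 q, τ ^ (k - 1) * (1 : R) ^ (q - k - 1) * ((q.choose k / q : ℕ) : R),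
    ∑ k ∈ (Ioo 0 q).erase 1, τ ^ (k - 2) * ((q.choose k / q : ℕ) : R), ?_, ?_⟩
  · rw [← Finset.add_sum_erase _ _ h1, Finset.mul_sum]
    have e1 : τ ^ (1 - 1) * (1 : R) ^ (q - 1 - 1) * ((q.choose 1 / q : ℕ) : R) = 1 := by
      rw [Nat.choose_one_right, Nat.div_self hq.pos]; simp
    rw [e1, add_sub_cancel_left]
    refine Finset.sum_congr rfl fun k hk => ?_
    obtain ⟨hk1, hk⟩ := Finset.mem_erase.1 hk
    obtain ⟨hk0, -⟩ := mem_Ioo.1 hk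
    have hk2 : k - 1 = (k - 2) + 1 := by omega
    rw [hk2, pow_succ, one_pow]; ring
  · have hpos : q = (q - 1) + 1 := by have := hq.pos; omega
    have key := add_pow_prime_eq hq τ (1 : R)
    rw [hρ, key]
    have e2 : τ ^ q = τ * τ ^ (q - 1) := by
      conv_lhs => rw [hpos, pow_succ]
      ring
    rw [e2, one_pow]; ring

/-- **Step (3) of the thick-cusp computation, abstract.**
`Φ~(Z) = (Z ^ q - e1) * (Z - E') + q * Z * Θ(a Z)`; `h1` is `Φ~(1) = 0`, `hρ` is `Φ~(ρ) = 0`,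
`Θa = Θ(a)`, `Θρ = Θ(a ρ)`, `Θ1` the divided difference. -/
theorem S36T3_core {R : Type*} [CommRing R] (q : ℕ) (hq : q.Prime) (I : Ideal R)
    (e1 E' ρ a Θa Θρ Θ1 : R) (hE' : E' ∈ I) (ha : a ∈ I) (hτ : ρ - 1 ∈ I)
    (hΘ : Θρ - Θa = a * (ρ - 1) * Θ1)
    (h1 : (1 - e1) * (1 - E') + (q : R) * Θa = 0)
    (hρ : (ρ ^ q - e1) * (ρ - E') + (q : R) * ρ * Θρ = 0)
    (hreg : ∀ x : R, (ρ - 1) * x = 0 → x = 0) :
    ∃ α β : R, α - 1 ∈ I ∧ β - 1 ∈ I ∧ (ρ - 1) ^ (q - 1) * α + (q : R) * β = 0 := by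
  obtain ⟨B, c, hB, hpow⟩ := S36T3_binom q hq ρ
  refine ⟨(ρ - E') * (1 - E'), B * ((ρ - E') * (1 - E')) - Θa + (Θρ + a * Θ1) * (1 - E'),
    ?_, ?_, ?_⟩
  · have : (ρ - E') * (1 - E') - 1 = (ρ - 1) * (1 - E') - E' * (2 - E') := by ring
    rw [this]
    exact I.sub_mem (I.mul_mem_right _ hτ) (I.mul_mem_right _ hE')
  · have : B * ((ρ - E') * (1 - E')) - Θa + (Θρ + a * Θ1) * (1 - E') - 1
        = (B - 1) * ((ρ - E') * (1 - E')) + ((ρ - 1) * (1 - E') - E' * (2 - E'))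
          + (Θρ - Θa) - E' * Θρ + a * (Θ1 * (1 - E')) := by ring
    rw [this, hB, hΘ]
    refine I.add_mem (I.sub_mem (I.add_mem (I.add_mem ?_ ?_) ?_) ?_) ?_
    · rw [mul_assoc]; exact I.mul_mem_right _ hτ
    · exact I.sub_mem (I.mul_mem_right _ hτ) (I.mul_mem_right _ hE')
    · rw [mul_assoc]; exact I.mul_mem_right _ ha
    · exact I.mul_mem_right _ hE'
    · exact I.mul_mem_right _ ha
  · -- the bracket vanishes since `ρ - 1` is regular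
    have hbr : ((ρ - 1) ^ (q - 1) + (q : R) * B) * (ρ - E') + (1 - e1)
        + (q : R) * (Θρ + a * Θ1) = 0 := by
      apply hreg
      have hΘ' : Θρ = Θa + a * (ρ - 1) * Θ1 := by rw [← hΘ]; ring
      have e : (ρ - 1) * (((ρ - 1) ^ (q - 1) + (q : R) * B) * (ρ - E') + (1 - e1)
          + (q : R) * (Θρ + a * Θ1))
          = ((ρ ^ q - e1) * (ρ - E') + (q : R) * ρ * Θρ)
            - ((1 - e1) * (1 - E') + (q : R) * Θa)
            + ((ρ - 1) * ((ρ - 1) ^ (q - 1) + (q : R) * B) - (ρ ^ q - 1)) * (ρ - E')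
            + (q : R) * (Θa + a * (ρ - 1) * Θ1 - Θρ) := by ring
      rw [e, hρ, h1, ← hpow, ← hΘ']; ring
    have e : (ρ - 1) ^ (q - 1) * ((ρ - E') * (1 - E'))
        + (q : R) * (B * ((ρ - E') * (1 - E')) - Θa + (Θρ + a * Θ1) * (1 - E'))
        = (((ρ - 1) ^ (q - 1) + (q : R) * B) * (ρ - E') + (1 - e1)
          + (q : R) * (Θρ + a * Θ1)) * (1 - E')
          - ((1 - e1) * (1 - E') + (q : R) * Θa) := by ring
    rw [e, hbr, h1]; ring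

/-- Local-ring form: if moreover every element `≡ 1 mod I` is a unit, then
`(ρ - 1) ^ (q - 1) = q * w` with `w` a unit. -/
theorem S36T3_unit {R : Type*} [CommRing R] (q : ℕ) (hq : q.Prime) (I : Ideal R)
    (hI : ∀ x : R, x - 1 ∈ I → IsUnit x)
    (e1 E' ρ a Θa Θρ Θ1 : R) (hE' : E' ∈ I) (ha : a ∈ I) (hτ : ρ - 1 ∈ I)
    (hΘ : Θρ - Θa = a * (ρ - 1) * Θ1)
    (h1 : (1 - e1) * (1 - E') + (q : R) * Θa = 0)
    (hρ : (ρ ^ q - e1) * (ρ - E') + (q : R) * ρ * Θρ = 0)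
    (hreg : ∀ x : R, (ρ - 1) * x = 0 → x = 0) :
    ∃ w : R, IsUnit w ∧ (ρ - 1) ^ (q - 1) = (q : R) * w := by
  obtain ⟨α, β, hα, hβ, h⟩ := S36T3_core q hq I e1 E' ρ a Θa Θρ Θ1 hE' ha hτ hΘ h1 hρ hreg
  obtain ⟨uα, rfl⟩ := hI α hα
  have hβu := hI β hβ
  refine ⟨-(β * ((uα⁻¹ : Rˣ) : R)), (hβu.mul (Units.isUnit _)).neg, ?_⟩
  have h' : (ρ - 1) ^ (q - 1) * (uα : R) = -((q : R) * β) := by
    rw [eq_neg_iff_add_eq_zero]; exact h
  calc (ρ - 1) ^ (q - 1) = (ρ - 1) ^ (q - 1) * (uα : R) * ((uα⁻¹ : Rˣ) : R) := by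
        rw [mul_assoc, Units.mul_inv, mul_one]
    _ = (q : R) * -(β * ((uα⁻¹ : Rˣ) : R)) := by rw [h']; ring

end Fermat.Agent.S36_helper26_TC3
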