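import Mathlib
import Fermat.Agent.S36_helper26_TC3

/-!
# S36, GEO36 REG36 [ONE mid] at the THICK CUSPS: from the core identity to (MID-LOC) (helper11)

Plan: board #1839 (helper20); core algebra = helper26's landed `S36T3_core` / `S36T3_unit`
(NOT duplicated here, ruling #1874); this file is the glue between it and helper19's landed
`S36ML_witness` / the hypothesis `hloc` of `S36MI_one`.

At a cusp `m` of the chart at infinity through which only the middle component passes, put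
`R = locRing X m`, `a = 1/j`, `e1 = j^q / j_q`, `E' = j / j_q^q`, `ρ = j / j_qq`, `τ = ρ - 1`,
`Φ~(Z) = (Z^q - e1) (Z - E') + q Z Θ(a Z)`, `Φ~(1) = 0 = Φ~(ρ)`.

* `S36TCA_unif` : `t^(n+1) = τ0^(n+1) · unit` in `V`, `τ0` a uniformiser ⟹ `t` a uniformiser.
* `S36TCA_midloc` : `τ ∈ R ≤ V`, `τ^(q-1) = q · w1` with `w1` a unit of `R`, `q = π w` with `w` a
  unit of `R`, `π = τ0^(q-1) · unit of V` ⟹ (MID-LOC): `τ` is a uniformiser of `V` and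
  `π = τ * u`, `u ∈ R`.  (Pure Subring-`L` vocabulary, `R` any subring.)
* `S36TCA_coreL` : helper26's `S36T3_unit` lifted to a local subring `R` of `L`, all data
  given as elements of `L` with memberships (the output shape of helper21's `S36T2_main`).
* `S36TCA_hloc` : the composite, in the shape of `hloc` of helper19's `S36MI_one` VERBATIM.
-/

set_option autoImplicit false

namespace Fermat.Agent.S36_helper11_TCORE

open Polynomial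

/-- in a local ring, `x - 1 ∈ m` implies `x` is a unit. -/
theorem S36TCA_isUnit_of_sub_one {R : Type*} [CommRing R] [IsLocalRing R] {x : R}
    (h : x - 1 ∈ IsLocalRing.maximalIdeal R) : IsUnit x := by
  by_contra hx
  have hx' : x ∈ IsLocalRing.maximalIdeal R := (IsLocalRing.mem_maximalIdeal x).2 hx
  have h1 : (1 : R) ∈ IsLocalRing.maximalIdeal R := by
    have := (IsLocalRing.maximalIdeal R).sub_mem hx' h
    rwa [sub_sub_cancel] at this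
  exact (IsLocalRing.maximalIdeal.isMaximal R).ne_top
    ((Ideal.eq_top_iff_one _).2 h1)

section SubringL

variable {L : Type*} [Field L]

/-- `t^(n+1) = τ0^(n+1) · unit` in `V` and `τ0` a uniformiser of `V` ⟹ `t` is a uniformiser
of `V`. -/
theorem S36TCA_unif (V : Subring L) (τ0 t w : L) (n : ℕ) (hτV : τ0 ∈ V) (hτ0 : τ0⁻¹ ∉ V)
    (hunif : ∀ y ∈ V, y⁻¹ ∉ V → ∃ v ∈ V, y = τ0 * v)
    (ht : t ∈ V) (hw : w ∈ V) (hw' : w⁻¹ ∈ V) (hw0 : w ≠ 0)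
    (h : t ^ (n + 1) = τ0 ^ (n + 1) * w) :
    t⁻¹ ∉ V ∧ ∀ y ∈ V, y⁻¹ ∉ V → ∃ v ∈ V, y = t * v := by
  have hτ00 : τ0 ≠ 0 := by
    rintro rfl
    exact hτ0 (by rw [inv_zero]; exact V.zero_mem)
  have ht0 : t ≠ 0 := by
    rintro rfl
    rw [zero_pow (Nat.succ_ne_zero n)] at h
    exact (mul_ne_zero (pow_ne_zero _ hτ00) hw0) h.symm
  have htnu : t⁻¹ ∉ V := by
    intro hti
    apply hτ0
    have : τ0⁻¹ = τ0 ^ n * (t⁻¹ ^ (n + 1) * w) := by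
      have h3 : t⁻¹ ^ (n + 1) * t ^ (n + 1) = 1 := by
        rw [← mul_pow, inv_mul_cancel₀ ht0, one_pow]
      have h4 : τ0 ^ n * (t⁻¹ ^ (n + 1) * w) * τ0 = 1 := by
        calc τ0 ^ n * (t⁻¹ ^ (n + 1) * w) * τ0 = t⁻¹ ^ (n + 1) * (τ0 ^ (n + 1) * w) := by ring
          _ = 1 := by rw [← h, h3]
      exact (eq_inv_of_mul_eq_one_left h4).symm
    rw [this]
    exact V.mul_mem (V.pow_mem hτV n) (V.mul_mem (V.pow_mem hti _) hw)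
  obtain ⟨v, hv, htv⟩ := hunif t ht htnu
  have hv0 : v ≠ 0 := by
    rintro rfl
    exact ht0 (by rw [htv, mul_zero])
  have hvpow : v ^ (n + 1) = w := by
    have : τ0 ^ (n + 1) * v ^ (n + 1) = τ0 ^ (n + 1) * w := by
      rw [← mul_pow, ← htv, h]
    exact mul_left_cancel₀ (pow_ne_zero _ hτ00) this
  have hvinv : v⁻¹ ∈ V := by
    have : v⁻¹ = v ^ n * w⁻¹ := by
      rw [← hvpow, pow_succ]
      field_simp
    rw [this]
    exact V.mul_mem (V.pow_mem hv n) hw'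
  refine ⟨htnu, fun y hy hynu => ?_⟩
  obtain ⟨v', hv', hyv'⟩ := hunif y hy hynu
  refine ⟨v⁻¹ * v', V.mul_mem hvinv hv', ?_⟩
  rw [hyv', htv]
  field_simp

/-- **(MID-LOC) from `τ^(q-1) = q · unit`.**  Output in the order of `hloc` of helper19's
`S36MI_one`: `τ ∈ R`, `u ∈ R`, `τ⁻¹ ∉ V`, `τ` generates the non-units of `V`, `π = τ * u`. -/
theorem S36TCA_midloc (R V : Subring L) (hRV : R ≤ V)
    (q : ℕ) (hq2 : 2 ≤ q) (π w : L) (hq0 : (q : L) ≠ 0)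
    (hw : w ∈ R) (hw' : w⁻¹ ∈ R) (hqπ : (q : L) = π * w)
    (τ0 : L) (hτV : τ0 ∈ V) (hτ0 : τ0⁻¹ ∉ V)
    (hunif : ∀ y ∈ V, y⁻¹ ∉ V → ∃ v ∈ V, y = τ0 * v)
    (hπ1 : τ0 ^ (q - 1) / π ∈ V) (hπ2 : π / τ0 ^ (q - 1) ∈ V)
    (τ w1 : L) (hτR : τ ∈ R) (hw1 : w1 ∈ R) (hw1' : w1⁻¹ ∈ R) (hw10 : w1 ≠ 0)
    (h : τ ^ (q - 1) = (q : L) * w1) :
    ∃ u : L, u ∈ R ∧ τ⁻¹ ∉ V ∧ (∀ y ∈ V, y⁻¹ ∉ V → ∃ v ∈ V, y = τ * v) ∧ π = τ * u := by
  obtain ⟨n, hn⟩ : ∃ n, q - 1 = n + 1 := ⟨q - 2, by omega⟩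
  rw [hn] at h hπ1 hπ2
  have hπ0 : π ≠ 0 := by
    rintro rfl
    exact hq0 (by rw [hqπ, zero_mul])
  have hw0 : w ≠ 0 := by
    rintro rfl
    exact hq0 (by rw [hqπ, mul_zero])
  have hτ00 : τ0 ≠ 0 := by
    rintro rfl
    exact hτ0 (by rw [inv_zero]; exact V.zero_mem)
  have hL : τ ^ (n + 1) = π * w * w1 := by rw [h, hqπ]
  have hU := S36TCA_unif V τ0 τ (π / τ0 ^ (n + 1) * (w * w1)) n hτV hτ0 hunif (hRV hτR)
    (V.mul_mem hπ2 (V.mul_mem (hRV hw) (hRV hw1)))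
    (by
      have : (π / τ0 ^ (n + 1) * (w * w1))⁻¹ = τ0 ^ (n + 1) / π * (w⁻¹ * w1⁻¹) := by
        field_simp
      rw [this]
      exact V.mul_mem hπ1 (V.mul_mem (hRV hw') (hRV hw1')))
    (mul_ne_zero (div_ne_zero hπ0 (pow_ne_zero _ hτ00)) (mul_ne_zero hw0 hw10))
    (by rw [hL]; field_simp)
  refine ⟨τ ^ n * (w⁻¹ * w1⁻¹), R.mul_mem (R.pow_mem hτR n) (R.mul_mem hw' hw1'), hU.1, hU.2, ?_⟩
  have : τ * (τ ^ n * (w⁻¹ * w1⁻¹)) = τ ^ (n + 1) * (w⁻¹ * w1⁻¹) := by ring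
  rw [this, hL]
  field_simp

/-- **helper26's `S36T3_unit` lifted to a local subring `R` of `L`**: all data are elements of
`L` with memberships in `R` (the output shape of helper21's `S36T2_main`). -/
theorem S36TCA_coreL (R : Subring L) [IsLocalRing R] (q : ℕ) (hq : q.Prime)
    (e1 E' ρ a Θa Θρ Θ1 : L)
    (he1 : e1 ∈ R) (hE'R : E' ∈ R) (hρR : ρ ∈ R) (haR : a ∈ R)
    (hΘa : Θa ∈ R) (hΘρ : Θρ ∈ R) (hΘ1 : Θ1 ∈ R)
    (hE' : (⟨E', hE'R⟩ : R) ∈ IsLocalRing.maximalIdeal R)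
    (ha : (⟨a, haR⟩ : R) ∈ IsLocalRing.maximalIdeal R)
    (hτ : (ρ - 1)⁻¹ ∉ R)
    (hΘ : Θρ - Θa = a * (ρ - 1) * Θ1)
    (h1 : (1 - e1) * (1 - E') + (q : L) * Θa = 0)
    (hρΦ : (ρ ^ q - e1) * (ρ - E') + (q : L) * ρ * Θρ = 0) :
    ∃ w1 : L, w1 ∈ R ∧ w1⁻¹ ∈ R ∧ w1 ≠ 0 ∧ (ρ - 1) ^ (q - 1) = (q : L) * w1 := by
  have hτ0 : ρ - 1 ≠ 0 := by
    intro h0
    apply hτ
    rw [h0, inv_zero]
    exact R.zero_mem
  have hτm : (⟨ρ, hρR⟩ : R) - 1 ∈ IsLocalRing.maximalIdeal R := by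
    rw [IsLocalRing.mem_maximalIdeal, mem_nonunits_iff]
    rintro ⟨u, hu⟩
    apply hτ
    have h2 : (((u⁻¹ : Rˣ) : R) : L) * (ρ - 1) = 1 := by
      have := congrArg (fun x : R => (x : L)) (Units.inv_mul u)
      rw [Subring.coe_mul, Subring.coe_one, hu] at this
      exact this
    rw [← eq_inv_of_mul_eq_one_left h2]
    exact SetLike.coe_mem _
  obtain ⟨w, hwu, hw⟩ := Fermat.Agent.S36_helper26_TC3.S36T3_unit q hq
    (IsLocalRing.maximalIdeal R) (fun x hx => S36TCA_isUnit_of_sub_one hx)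
    (⟨e1, he1⟩ : R) ⟨E', hE'R⟩ ⟨ρ, hρR⟩ ⟨a, haR⟩ ⟨Θa, hΘa⟩ ⟨Θρ, hΘρ⟩ ⟨Θ1, hΘ1⟩
    hE' ha hτm (Subtype.ext (by push_cast; exact hΘ))
    (Subtype.ext (by push_cast; exact h1)) (Subtype.ext (by push_cast; exact hρΦ))
    (fun x hx => by
      rcases mul_eq_zero.1 hx with h | h
      · exact absurd (congrArg (fun x : R => (x : L)) h) (by simpa using hτ0)
      · exact h)
  obtain ⟨u, rfl⟩ := hwu
  refine ⟨((u : R) : L), SetLike.coe_mem _, ?_, ?_, ?_⟩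
  · have h2 : (((u⁻¹ : Rˣ) : R) : L) * ((u : R) : L) = 1 := by
      have := congrArg (fun x : R => (x : L)) (Units.inv_mul u)
      rw [Subring.coe_mul, Subring.coe_one] at this
      exact this
    rw [← eq_inv_of_mul_eq_one_left h2]
    exact SetLike.coe_mem _
  · intro h
    exact u.ne_zero (Subtype.ext h)
  · have := congrArg (fun x : R => (x : L)) hw
    push_cast at this
    exact this

/-- **THICK CUSPS: the hypothesis `hloc` of helper19's `S36MI_one`** (`R := locRing X m`,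
`V := V_mid`) from the Kronecker data in `R`.  `τ = ρ - 1`. -/
theorem S36TCA_hloc (R V : Subring L) [IsLocalRing R] (hRV : R ≤ V)
    (q : ℕ) (hq : q.Prime) (π w : L) (hq0 : (q : L) ≠ 0)
    (hw : w ∈ R) (hw' : w⁻¹ ∈ R) (hqπ : (q : L) = π * w)
    (τ0 : L) (hτV : τ0 ∈ V) (hτ0 : τ0⁻¹ ∉ V)
    (hunif : ∀ y ∈ V, y⁻¹ ∉ V → ∃ v ∈ V, y = τ0 * v)
    (hπ1 : τ0 ^ (q - 1) / π ∈ V) (hπ2 : π / τ0 ^ (q - 1) ∈ V)
    (e1 E' ρ a Θa Θρ Θ1 : L)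
    (he1 : e1 ∈ R) (hE'R : E' ∈ R) (hρR : ρ ∈ R) (haR : a ∈ R)
    (hΘa : Θa ∈ R) (hΘρ : Θρ ∈ R) (hΘ1 : Θ1 ∈ R)
    (hE' : (⟨E', hE'R⟩ : R) ∈ IsLocalRing.maximalIdeal R)
    (ha : (⟨a, haR⟩ : R) ∈ IsLocalRing.maximalIdeal R)
    (hτ : (ρ - 1)⁻¹ ∉ V)
    (hΘ : Θρ - Θa = a * (ρ - 1) * Θ1)
    (h1 : (1 - e1) * (1 - E') + (q : L) * Θa = 0)
    (hρΦ : (ρ ^ q - e1) * (ρ - E') + (q : L) * ρ * Θρ = 0) :
    ∃ τ u : L, τ ∈ R ∧ u ∈ R ∧ τ⁻¹ ∉ V ∧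
      (∀ y ∈ V, y⁻¹ ∉ V → ∃ v ∈ V, y = τ * v) ∧ π = τ * u := by
  obtain ⟨w1, hw1, hw1', hw10, hcore⟩ := S36TCA_coreL R q hq e1 E' ρ a Θa Θρ Θ1
    he1 hE'R hρR haR hΘa hΘρ hΘ1 hE' ha (fun h => hτ (hRV h)) hΘ h1 hρΦ
  have hτR : ρ - 1 ∈ R := R.sub_mem hρR R.one_mem
  obtain ⟨u, hu, h2, h3, h4⟩ := S36TCA_midloc R V hRV q hq.two_le π w hq0 hw hw' hqπ τ0 hτV hτ0
    hunif hπ1 hπ2 (ρ - 1) w1 hτR hw1 hw1' hw10 hcore
  exact ⟨ρ - 1, u, hτR, hu, h2, h3, h4⟩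

end SubringL

end Fermat.Agent.S36_helper11_TCORE
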