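import Fermat.Agent.S36_helper14_END
import Fermat.Agent.S36_helper26_BR36
import Fermat.Agent.S36_helper12_TOPF

/-!
# S36 (helper12): TOP36, assembled

`S36TOPM_main : S36C_GeoInput → S36C_Frozen`: **the frozen statement S36 from (GEO36)**
(helper18's contract `S36C_GeoInput`), by helper14's endgame `S36END_frozen` with its two plugs

* (B) `S36TOPM_B : S36END_B` = helper26's flat descent `S36BR_noFixed`,
* (C) `S36TOPM_C : S36END_C` = the abstract top `S36TOPF_of_fix` (Kolchin on the eigenlattice).
-/

set_option autoImplicit false
set_option linter.unusedSectionVars false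
set_option linter.unusedVariables false
set_option linter.style.haveILetI false
set_option linter.overlappingInstances false

open Polynomial
open scoped TensorProduct
open CuspForm

noncomputable section

namespace Fermat.Agent.S36_helper12_TOPMAIN

open Fermat.Agent.S36_helper18_Contracts Fermat.Agent.S36_helper14_END

/-- the plug (B) of the endgame -/
theorem S36TOPM_B : S36END_B := by
  intro N' q lam _ _ _ _ _ O' _ _ _ _ A c hGeo v h₁ h₂ hfix
  exact Fermat.Agent.S36_helper26_BR36.S36BR_noFixed (N' * q * q) lam O' A _ _ c hGeo v h₁ h₂ hfix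

/-- the plug (C) of the endgame -/
theorem S36TOPM_C : S36END_C := by
  intro M _ g hg lam _ S O' _ _ _ _ _ _ hlamO' chig hchig iota hlamS hMS hfix
  exact Fermat.Agent.S36_helper12_TOPF.S36TOPF_of_fix lam S O' hlamO'
    (iota.comp chig.rangeRestrict) hlamS hMS hfix

/-- **TOP36: the frozen statement S36 from (GEO36).** -/
theorem S36TOPM_main (hGeo : S36C_GeoInput) : S36C_Frozen :=
  S36END_frozen hGeo S36TOPM_B S36TOPM_C

end Fermat.Agent.S36_helper12_TOPMAIN
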