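import Fermat.Agent.S18_helper26_DEGK1
import Fermat.Agent.S18_helper25_COREDefs
import Fermat.Agent.S18_helper13_GAUSS2

/-!
# S37, B1-KAPPA-EMB (helper20): the `ψ(N)` Laurent embeddings over an admissible level

For an admissible level `K1` (valuation subring `A` of `ℚ̄` over `ℓ`, `ℓ ∤ N`) the `ψ(N)`
embeddings `iotaInf N q` of the modular function field into `ℂ((t))` (`t = q^{1/N}`) descend to
ring homomorphisms `F1 = K1(j(q^d) : d ∣ N) → K1((t))` which

1. are the identity on constants,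
2. send `j` to `j(t^N)`,
3. send every generator `j(q^d)` to a series with coefficients in `O1 = A ∩ K1`
   (explicitly `j(u t^e)` for a root of unity `u` of order dividing `N`),
4. have pairwise distinct reductions of the image of `j(q^N)`.
-/

set_option autoImplicit false
set_option linter.unusedSectionVars false
set_option linter.unusedVariables false
set_option linter.style.haveILetI false

noncomputable section

open UpperHalfPlane ModularForm CongruenceSubgroup
open scoped MatrixGroups ModularForm Manifold Real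
open ModularCurve Fermat.Agent.S20 Fermat.Agent.S24
open Fermat.Agent.S18_helper13_GAUSS Fermat.Agent.S18_helper25_COREDefs
open Fermat.Agent.S28_helper14_ADefs Fermat.Agent.S28_SUBST

namespace Fermat.Agent.S37_helper20_KAPPAEMB

/-! ### Part 1: the twisted `j`-series `j(u q)` over a commutative ring -/

section Twist

variable (R : Type*) [CommRing R]

/-- the series `j(u q) = u⁻¹ q⁻¹ + 744 + 196884 u q + ⋯` -/
def S37KE_tw (u : Rˣ) : LaurentSeries R :=
  HahnSeries.single (-1 : ℤ) (1 : R) * HahnSeries.ofPowerSeries ℤ R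
    (PowerSeries.mk fun m => ((u⁻¹ : Rˣ) : R) * (u : R) ^ m * ((jNum.coeff m : ℤ) : R))

theorem S37KE_coeff_single_mul_ofPowerSeries (A : ℕ) (P : PowerSeries R) (k : ℤ) :
    (HahnSeries.single (-(A : ℤ)) (1 : R) * HahnSeries.ofPowerSeries ℤ R P).coeff k =
      if 0 ≤ k + A then P.coeff (k + A).toNat else 0 := by
  rw [HahnSeries.coeff_single_mul, one_mul, sub_neg_eq_add]
  split_ifs with h
  · obtain ⟨m, hm⟩ := Int.eq_ofNat_of_zero_le h
    rw [hm, HahnSeries.ofPowerSeries_apply_coeff, Int.toNat_natCast]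
  · exact ModularCurve.ofPowerSeries_coeff_of_neg P (not_le.mp h)

theorem S37KE_tw_coeff (u : Rˣ) (k : ℤ) :
    (S37KE_tw R u).coeff k =
      if 0 ≤ k + 1 then
        ((u⁻¹ : Rˣ) : R) * (u : R) ^ (k + 1).toNat * ((jNum.coeff (k + 1).toNat : ℤ) : R)
      else 0 := by
  unfold S37KE_tw
  have h := S37KE_coeff_single_mul_ofPowerSeries R 1
    (PowerSeries.mk fun m => ((u⁻¹ : Rˣ) : R) * (u : R) ^ m * ((jNum.coeff m : ℤ) : R)) k
  simp only [Nat.cast_one, PowerSeries.coeff_mk] at h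
  exact h

theorem S37KE_tw_coeff_neg_one (u : Rˣ) : (S37KE_tw R u).coeff (-1) = ((u⁻¹ : Rˣ) : R) := by
  rw [S37KE_tw_coeff]
  have h0 : ((-1 : ℤ) + 1).toNat = 0 := rfl
  have h1 : (PowerSeries.coeff 0) jNum = 1 := by
    rw [PowerSeries.coeff_zero_eq_constantCoeff_apply, constantCoeff_jNum]
  rw [if_pos (by norm_num), h0, h1]
  simp

theorem S37KE_tw_coeff_of_lt (u : Rˣ) {k : ℤ} (hk : k < -1) : (S37KE_tw R u).coeff k = 0 := by
  rw [S37KE_tw_coeff, if_neg (by omega)]

theorem S37KE_jqModC_coeff (k : ℤ) :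
    (jqModC R).coeff k =
      if 0 ≤ k + 1 then ((jNum.coeff (k + 1).toNat : ℤ) : R) else 0 := by
  unfold jqModC
  have h := S37KE_coeff_single_mul_ofPowerSeries R 1 (jNum.map (Int.castRingHom R)) k
  simpa using h

theorem S37KE_tw_one : S37KE_tw R 1 = jqModC R := by
  ext k
  rw [S37KE_tw_coeff, S37KE_jqModC_coeff]
  simp

variable {R}

theorem S37KE_coeffMap_tw {S : Type*} [CommRing S] (f : R →+* S) (u : Rˣ) :
    coeffMap f (S37KE_tw R u) = S37KE_tw S (Units.map (f : R →* S) u) := by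
  ext k
  rw [coeffMap_coeff, S37KE_tw_coeff, S37KE_tw_coeff]
  split_ifs with h
  · rw [map_mul, map_mul, map_pow, map_intCast]
    rfl
  · exact map_zero f

end Twist

/-! ### Part 2: the expansion at `i∞` of `z ↦ j((a z + b) / d)` -/

section Analytic

/-- the root of unity `exp(2πi b/d)` as a unit of `ℂ` -/
def S37KE_w (d : ℕ) (b : ℤ) : ℂˣ :=
  Units.mk0 (Complex.exp (2 * π * Complex.I * (b : ℂ) / (d : ℂ))) (Complex.exp_ne_zero _)

theorem S37KE_w_val (d : ℕ) (b : ℤ) :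
    ((S37KE_w d b : ℂˣ) : ℂ) = Complex.exp (2 * π * Complex.I * (b : ℂ) / (d : ℂ)) := rfl

theorem S37KE_w_inv_val (d : ℕ) (b : ℤ) :
    (((S37KE_w d b)⁻¹ : ℂˣ) : ℂ) = (Complex.exp (2 * π * Complex.I * (b : ℂ) / (d : ℂ)))⁻¹ := by
  rw [Units.val_inv_eq_inv_val, S37KE_w_val]

theorem S37KE_w_pow_val (d : ℕ) (hd : 0 < d) (b : ℤ) : ((S37KE_w d b : ℂˣ) : ℂ) ^ d = 1 := by
  rw [S37KE_w_val, ← Complex.exp_nat_mul]
  have hd0 : (d : ℂ) ≠ 0 := by exact_mod_cast hd.ne'
  have h : (d : ℂ) * (2 * π * Complex.I * (b : ℂ) / (d : ℂ)) = (b : ℂ) * (2 * π * Complex.I) := by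
    field_simp
  rw [h]
  exact Complex.exp_int_mul_two_pi_mul_I b

theorem S37KE_laurentInf_tri (N : ℕ) [NeZero N] {a d : ℕ} (ha : 0 < a) (hd : 0 < d)
    (hdN : d ∣ N) (b : ℤ) (e : ℕ) [NeZero e] (he : e = a * (N / d))
    (hdiff : MDifferentiable 𝓘(ℂ) 𝓘(ℂ) (tri a d b jfun)) :
    laurentInf N (tri a d b jfun) = qExpand ℂ e (S37KE_tw ℂ (S37KE_w d b)) := by
  have hN : 0 < N := Nat.pos_of_ne_zero (NeZero.ne N)
  have he0 : 0 < e := Nat.pos_of_ne_zero (NeZero.ne e)
  have heZ : (0 : ℤ) < (e : ℤ) := by exact_mod_cast he0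
  rw [Fermat.Agent.S24_helper24_JD.laurentInf_tri_jfun N ha hd hdN b hdiff, ← he]
  have hQ : ∀ m : ℕ, (qExpansion (N : ℝ) (tri a d b Fermat.Agent.S24_helper24_JD.J0)).coeff m =
      if e ∣ m then
        (jNum.map (Int.castRingHom ℂ)).coeff (m / e) *
          Complex.exp (2 * π * Complex.I * (b : ℂ) * ((m / e : ℕ) : ℂ) / (d : ℂ))
      else 0 := by
    intro m
    rw [Fermat.Agent.S28_SUBST.qExpansion_tri_coeff Fermat.Agent.S24_helper24_JD.nice_J0 ha hd hN
      hdN b m, ← he, Fermat.Agent.S24_helper24_JD.qExpansion_J0]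
  ext k
  rw [S37KE_coeff_single_mul_ofPowerSeries]
  by_cases hek : (e : ℤ) ∣ k
  · obtain ⟨k', rfl⟩ := hek
    rw [qExpand_coeff_mul, S37KE_tw_coeff]
    have hsum : (e : ℤ) * k' + (e : ℤ) = (e : ℤ) * (k' + 1) := by ring
    rw [hsum]
    by_cases hk : 0 ≤ k' + 1
    · rw [if_pos hk, if_pos (mul_nonneg heZ.le hk)]
      obtain ⟨t, ht⟩ := Int.eq_ofNat_of_zero_le hk
      have htn : ((e : ℤ) * (k' + 1)).toNat = e * t := by
        rw [ht]
        have : (e : ℤ) * (t : ℤ) = ((e * t : ℕ) : ℤ) := by push_cast; ring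
        rw [this, Int.toNat_natCast]
      rw [htn, PowerSeries.coeff_smul, hQ, if_pos (dvd_mul_right _ _),
        Nat.mul_div_cancel_left _ he0, ht, Int.toNat_natCast, smul_eq_mul, S37KE_w_inv_val,
        S37KE_w_val, PowerSeries.coeff_map, ← Complex.exp_nat_mul]
      have hexp : (t : ℂ) * (2 * π * Complex.I * (b : ℂ) / (d : ℂ)) =
          2 * π * Complex.I * (b : ℂ) * (t : ℂ) / (d : ℂ) := by ring
      rw [hexp]
      simp only [eq_intCast]
      ring
    · rw [if_neg hk, if_neg]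
      intro h
      exact hk (nonneg_of_mul_nonneg_right h heZ)
  · rw [qExpand_coeff_of_not_dvd _ _ hek]
    split_ifs with h
    · rw [PowerSeries.coeff_smul, hQ, if_neg, smul_zero]
      intro hdvd
      apply hek
      have h1 : (e : ℤ) ∣ k + (e : ℤ) := by
        have := Int.natCast_dvd_natCast.mpr hdvd
        rwa [Int.toNat_of_nonneg h] at this
      exact (Int.dvd_add_left (dvd_refl _)).mp h1
    · rfl

end Analytic

/-! ### Part 3: the images of the generators under `iotaInf` -/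

section Images

variable (N : ℕ) [NeZero N]

/-- the image of `j(q^d)` under the embedding attached to a coset is `j(w t^e)` for a root of
unity `w` of order dividing `N` -/
theorem S37KE_iotaInf_jF (q : Q N) (d : ℕ) [NeZero d] (hd : d ∣ N) :
    ∃ (e d' : ℕ) (b : ℤ), 0 < d' ∧ d' ∣ N ∧
      Fermat.Agent.S24_helper10_LOCinf.iotaInf N q (jF N d hd) =
        qExpand ℂ (e + 1) (S37KE_tw ℂ (S37KE_w d' b)) := by
  have hN : 0 < N := Nat.pos_of_ne_zero (NeZero.ne N)
  have hdpos : 0 < d := Nat.pos_of_ne_zero (NeZero.ne d)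
  obtain ⟨a, d', b, ha, hd', had, -, hjd⟩ :=
    Fermat.Agent.S24_helper24_JD.jd_eq_tri d hdpos (q.out⁻¹)
  have hd'N : d' ∣ N := (Dvd.intro_left a had).trans hd
  have hdiff : MDifferentiable 𝓘(ℂ) 𝓘(ℂ) (tri a d' b jfun) := by
    rw [← hjd]
    exact Fermat.Agent.S24_helper27_J1.jd_mdiff d hdpos (q.out⁻¹)
  have hNd : 0 < N / d' := Nat.div_pos (Nat.le_of_dvd hN hd'N) hd'
  have he : 0 < a * (N / d') := Nat.mul_pos ha hNd
  refine ⟨a * (N / d') - 1, d', b, hd', hd'N, ?_⟩
  rw [Fermat.Agent.S24_helper10_LOCinf.iotaInf_jF, hjd]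
  exact S37KE_laurentInf_tri N ha hd' hd'N b _ (by omega) hdiff

/-- roots of unity of `ℂ` come from `ℚ̄` -/
theorem S37KE_exists_root (n : ℕ) (hn : 0 < n) (w : ℂ) (hw : w ^ n = 1) :
    ∃ ζ : Kbar, ζ ^ n = 1 ∧ phi0 ζ = w := by
  haveI : NeZero n := ⟨hn.ne'⟩
  haveI : NeZero ((n : ℕ) : ℚ) := ⟨by exact_mod_cast hn.ne'⟩
  obtain ⟨ζ0, hζ0⟩ := HasEnoughRootsOfUnity.exists_primitiveRoot Kbar n
  have h1 : IsPrimitiveRoot (phi0 ζ0) n := hζ0.map_of_injective phi0.injective
  obtain ⟨i, -, hi⟩ := h1.eq_pow_of_pow_eq_one hw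
  refine ⟨ζ0 ^ i, ?_, ?_⟩
  · rw [← pow_mul, mul_comm, pow_mul, hζ0.pow_eq_one, one_pow]
  · rw [map_pow, hi]

/-- the equality of two images of `j(q^N)` forces the equality of the cosets -/
theorem S37KE_iotaInf_jFN_injective (q q' : Q N)
    (h1 : Fermat.Agent.S24_helper10_LOCinf.iotaInf N q (jF N N dvd_rfl) =
      Fermat.Agent.S24_helper10_LOCinf.iotaInf N q' (jF N N dvd_rfl)) : q = q' := by
  rw [Fermat.Agent.S24_helper10_LOCinf.iotaInf_jF,
    Fermat.Agent.S24_helper10_LOCinf.iotaInf_jF] at h1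
  have hd1 := Fermat.Agent.S24_helper24_JD.hasPoleInf_jd N (dvd_refl N) (q.out⁻¹)
  have hd2 := Fermat.Agent.S24_helper24_JD.hasPoleInf_jd N (dvd_refl N) (q'.out⁻¹)
  have h3 : jd N (q.out⁻¹) - jd N (q'.out⁻¹) = 0 :=
    Fermat.Agent.S24_helper21_LINF.laurentInf_eq_zero N
      (Fermat.Agent.S24_helper10_LOCinf.hasPoleInf_sub N hd1 hd2)
      (by rw [Fermat.Agent.S24_helper10_LOCinf.laurentInf_sub N hd1 hd2, h1, sub_self])
  have h4 : jd N (q.out⁻¹) = jd N (q'.out⁻¹) := sub_eq_zero.mp h3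
  have h5 : jd N (q.out⁻¹ * q'.out) = jd N 1 := by
    funext z
    rw [Fermat.Agent.S24_helper27_J1.jd_mul, h4, ← Fermat.Agent.S24_helper27_J1.jd_mul,
      inv_mul_cancel]
  have h6 := Fermat.Agent.S24_helper24_JD.jd_stab N _ h5
  have h7 : (QuotientGroup.mk q.out : Q N) = QuotientGroup.mk q'.out :=
    QuotientGroup.eq.mpr h6
  rwa [QuotientGroup.out_eq', QuotientGroup.out_eq'] at h7

end Images

/-! ### Part 4: descent of a ring homomorphism along an injective one -/

section Descent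

theorem S37KE_descend {F L M : Type*} [Ring F] [Ring L] [Ring M] (Φ : F →+* M) (ψ : L →+* M)
    (hψ : Function.Injective ψ) (h : ∀ y, ∃ x, ψ x = Φ y) :
    ∃ ι : F →+* L, ∀ y, ψ (ι y) = Φ y := by
  choose f hf using h
  exact ⟨{ toFun := f
           map_one' := hψ (by rw [hf, map_one, map_one])
           map_mul' := fun x y => hψ (by rw [hf, map_mul, map_mul, hf, hf])
           map_zero' := hψ (by rw [hf, map_zero, map_zero])
           map_add' := fun x y => hψ (by rw [hf, map_add, map_add, hf, hf]) }, hf⟩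

end Descent

/-! ### Part 5: leading terms -/

section Leading

variable {R : Type*} [CommRing R]

theorem S37KE_qExpand_tw_coeff_lead (e : ℕ) (u : Rˣ) :
    (qExpand R (e + 1) (S37KE_tw R u)).coeff (-((e + 1 : ℕ) : ℤ)) = ((u⁻¹ : Rˣ) : R) := by
  have h : (-((e + 1 : ℕ) : ℤ)) = ((e + 1 : ℕ) : ℤ) * (-1) := by ring
  rw [h, qExpand_coeff_mul, S37KE_tw_coeff_neg_one]

theorem S37KE_qExpand_tw_coeff_of_lt (e : ℕ) (u : Rˣ) {k : ℤ} (hk : k < -((e + 1 : ℕ) : ℤ)) :
    (qExpand R (e + 1) (S37KE_tw R u)).coeff k = 0 := by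
  by_cases hek : ((e + 1 : ℕ) : ℤ) ∣ k
  · obtain ⟨k', rfl⟩ := hek
    rw [qExpand_coeff_mul]
    apply S37KE_tw_coeff_of_lt
    have he : (0 : ℤ) < ((e + 1 : ℕ) : ℤ) := by exact_mod_cast Nat.succ_pos e
    by_contra hcon
    have h1 : -1 ≤ k' := not_lt.mp hcon
    have h2 : ((e + 1 : ℕ) : ℤ) * (-1) ≤ ((e + 1 : ℕ) : ℤ) * k' :=
      mul_le_mul_of_nonneg_left h1 he.le
    linarith
  · exact qExpand_coeff_of_not_dvd _ _ hek

theorem S37KE_qExpand_tw_le [Nontrivial R] {e e' : ℕ} {u u' : Rˣ}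
    (h : qExpand R (e + 1) (S37KE_tw R u) = qExpand R (e' + 1) (S37KE_tw R u')) : e ≤ e' := by
  by_contra hcon
  have hlt : (-((e + 1 : ℕ) : ℤ)) < -((e' + 1 : ℕ) : ℤ) := by
    push_cast
    omega
  have h1 := S37KE_qExpand_tw_coeff_lead e u
  rw [h, S37KE_qExpand_tw_coeff_of_lt e' u' hlt] at h1
  exact (Units.ne_zero (u⁻¹)) h1.symm

theorem S37KE_qExpand_tw_inj [Nontrivial R] {e e' : ℕ} {u u' : Rˣ}
    (h : qExpand R (e + 1) (S37KE_tw R u) = qExpand R (e' + 1) (S37KE_tw R u')) :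
    e = e' ∧ u = u' := by
  have he : e = e' := le_antisymm (S37KE_qExpand_tw_le h) (S37KE_qExpand_tw_le h.symm)
  subst he
  refine ⟨rfl, ?_⟩
  have h1 := S37KE_qExpand_tw_coeff_lead e u
  rw [h, S37KE_qExpand_tw_coeff_lead] at h1
  have h2 : u'⁻¹ = u⁻¹ := Units.ext h1
  exact (inv_injective h2).symm

/-- reduction is injective on roots of unity of order prime to the residue characteristic -/
theorem S37KE_unit_eq_of_res_eq {O κ : Type*} [CommRing O] [IsDomain O] [CommRing κ]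
    (res : O →+* κ) (n : ℕ) (hn : res (n : O) ≠ 0) {u u' : Oˣ} (hu : u ^ n = 1)
    (hu' : u' ^ n = 1) (h : res (u : O) = res (u' : O)) : u = u' := by
  set v : Oˣ := u * u'⁻¹ with hv
  have hvn : (v : O) ^ n = 1 := by
    have : v ^ n = 1 := by rw [hv, mul_pow, inv_pow, hu, hu', inv_one, mul_one]
    rw [← Units.val_pow_eq_pow_val, this, Units.val_one]
  have hres : res (v : O) = 1 := by
    have h1 : res (v : O) * res (u' : O) = res (u : O) := by
      rw [← map_mul, hv, Units.val_mul, mul_assoc, Units.inv_mul, mul_one]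
    have h2 : IsUnit (res (u' : O)) := (u'.isUnit).map res
    rw [h] at h1
    exact h2.mul_right_cancel (by rw [h1, one_mul])
  have hgeom : ((v : O) - 1) * ∑ i ∈ Finset.range n, (v : O) ^ i = 0 := by
    rw [mul_geom_sum, hvn, sub_self]
  have hsum : (∑ i ∈ Finset.range n, (v : O) ^ i) ≠ 0 := by
    intro h0
    apply hn
    have := congrArg res h0
    rw [map_sum, map_zero] at this
    simp only [map_pow, hres, one_pow, Finset.sum_const, Finset.card_range, nsmul_eq_mul,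
      mul_one] at this
    rw [map_natCast]
    exact this
  have hv1 : (v : O) = 1 := by
    rcases mul_eq_zero.mp hgeom with h0 | h0
    · exact sub_eq_zero.mp h0
    · exact absurd h0 hsum
  have hv1' : v = 1 := Units.ext hv1
  rw [hv] at hv1'
  exact mul_inv_eq_one.mp hv1'

end Leading

/-! ### Part 6: the family over abstract Gauss data -/

section Family

variable {O K1 κ : Type*} [CommRing O] [IsDomain O] [Field K1] [Field κ]
  (D : GaussData O K1 κ) (emb : K1 →+* Kbar) (N : ℕ) [NeZero N]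

theorem S37KE_coeffMap_incS_tw (e : ℕ) (u : Oˣ) :
    coeffMap (phi0.comp emb) (D.incS (qExpand O (e + 1) (S37KE_tw O u))) =
      qExpand ℂ (e + 1) (S37KE_tw ℂ
        (Units.map ((((phi0.comp emb).comp D.inc : O →+* ℂ)) : O →* ℂ) u)) := by
  rw [GaussData.incS, coeffMap_coeffMap, coeffMap_qExpand, S37KE_coeffMap_tw]

/-- **the image of a generator is integral**: `ι_q (j(q^d)) = j(u t^(e+1))` with `u ∈ O` a root
of unity. -/
theorem S37KE_iotaInf_jF_integral
    (hroots : ∀ w : ℂ, w ^ N = 1 → ∃ u : Oˣ, u ^ N = 1 ∧ phi0 (emb (D.inc (u : O))) = w)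
    (q : Q N) (d : ℕ) [NeZero d] (hd : d ∣ N) :
    ∃ (e : ℕ) (u : Oˣ), u ^ N = 1 ∧
      Fermat.Agent.S24_helper10_LOCinf.iotaInf N q (jF N d hd) =
        coeffMap (phi0.comp emb) (D.incS (qExpand O (e + 1) (S37KE_tw O u))) := by
  obtain ⟨e, d', b, hd', hd'N, hι⟩ := S37KE_iotaInf_jF N q d hd
  have hwN : ((S37KE_w d' b : ℂˣ) : ℂ) ^ N = 1 := by
    obtain ⟨c, rfl⟩ := hd'N
    rw [pow_mul, S37KE_w_pow_val d' hd' b, one_pow]
  obtain ⟨u, huN, huw⟩ := hroots _ hwN
  refine ⟨e, u, huN, ?_⟩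
  rw [hι, S37KE_coeffMap_incS_tw]
  congr 2
  apply Units.ext
  rw [Units.coe_map]
  exact huw.symm

/-- every element of the function field over `K1` has its image in `K1((t))` -/
theorem S37KE_exists_preimage
    (hroots : ∀ w : ℂ, w ^ N = 1 → ∃ u : Oˣ, u ^ N = 1 ∧ phi0 (emb (D.inc (u : O))) = w)
    (q : Q N) (y : modularFunctionFieldFullC K1 N) :
    ∃ x : LaurentSeries K1, coeffMap (phi0.comp emb) x =
      ((Fermat.Agent.S24_helper10_LOCinf.iotaInf N q).comp
        (Fermat.Agent.S18_helper26_DEGK1.S18DEG_inc emb N)) y := by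
  set Φ := (Fermat.Agent.S24_helper10_LOCinf.iotaInf N q).comp
    (Fermat.Agent.S18_helper26_DEGK1.S18DEG_inc emb N) with hΦ
  obtain ⟨x, hx⟩ := y
  have key : ∀ (x : LaurentSeries K1) (hx : x ∈ modularFunctionFieldFullC K1 N),
      Φ ⟨x, hx⟩ ∈ (coeffMap (phi0.comp emb)).fieldRange := by
    intro x hx
    unfold modularFunctionFieldFullC at hx
    induction hx using IntermediateField.adjoin_induction with
    | mem y hy =>
        obtain ⟨d, hd0, hd, rfl⟩ := hy
        obtain ⟨e, u, -, h⟩ := S37KE_iotaInf_jF_integral D emb N hroots q d hd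
        refine ⟨D.incS (qExpand O (e + 1) (S37KE_tw O u)), ?_⟩
        rw [← h, hΦ, RingHom.comp_apply]
        congr 1
        exact (Fermat.Agent.S18_helper26_DEGK1.S18DEG_inc_jbard emb N d hd).symm
    | algebraMap c =>
        refine ⟨HahnSeries.C c, ?_⟩
        rw [hΦ, RingHom.comp_apply]
        have h1 := Fermat.Agent.S18_helper26_DEGK1.S18DEG_inc_algebraMap emb N c
        have h2 : (⟨algebraMap K1 (LaurentSeries K1) c,
            IntermediateField.algebraMap_mem _ c⟩ : modularFunctionFieldFullC K1 N) =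
            algebraMap K1 (modularFunctionFieldFullC K1 N) c := rfl
        rw [h2, h1, Fermat.Agent.S24_helper10_LOCinf.iotaInf_const, HahnSeries.C_apply,
          coeffMap_single, HahnSeries.C_apply]
        rfl
    | add x y hx hy ihx ihy =>
        have h : (⟨x + y, add_mem hx hy⟩ : modularFunctionFieldFullC K1 N) =
            ⟨x, hx⟩ + ⟨y, hy⟩ := rfl
        rw [h, map_add]
        exact add_mem ihx ihy
    | inv x hx ihx =>
        have h : (⟨x⁻¹, inv_mem hx⟩ : modularFunctionFieldFullC K1 N) = (⟨x, hx⟩)⁻¹ := rfl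
        rw [h, map_inv₀]
        exact inv_mem ihx
    | mul x y hx hy ihx ihy =>
        have h : (⟨x * y, mul_mem hx hy⟩ : modularFunctionFieldFullC K1 N) =
            ⟨x, hx⟩ * ⟨y, hy⟩ := rfl
        rw [h, map_mul]
        exact mul_mem ihx ihy
  obtain ⟨z, hz⟩ := key x hx
  exact ⟨z, hz⟩

theorem S37KE_laurentInf_jfun : laurentInf N jfun = qExpand ℂ N (jqModC ℂ) := by
  rw [Fermat.Agent.S24_helper10_LOCinf.laurentInf_jfun_eq]
  congr 1
  have h1 := Fermat.Agent.S24_helper24_JD.laurentInf_jd_one (d := 1)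
  rw [Fermat.Agent.S24_helper27_J1.jd_one, Fermat.Agent.S24_helper24_JD.coeffMap_phi0_jLaur,
    qExpand_one_apply] at h1
  exact h1

/-- **B1-KAPPA-EMB, abstract base.**  The `ψ(N)` Laurent embeddings over `K1`. -/
theorem S37KE_family_gen
    (hroots : ∀ w : ℂ, w ^ N = 1 → ∃ u : Oˣ, u ^ N = 1 ∧ phi0 (emb (D.inc (u : O))) = w)
    (hNres : D.res ((N : ℕ) : O) ≠ 0) :
    ∃ ι : Q N → (modularFunctionFieldFullC K1 N →+* LaurentSeries K1),
      (∀ q y, coeffMap (phi0.comp emb) (ι q y) =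
        Fermat.Agent.S24_helper10_LOCinf.iotaInf N q
          (Fermat.Agent.S18_helper26_DEGK1.S18DEG_inc emb N y)) ∧
      (∀ q (c : K1) (hc : HahnSeries.C c ∈ modularFunctionFieldFullC K1 N),
        ι q ⟨HahnSeries.C c, hc⟩ = HahnSeries.C c) ∧
      (∀ q (hj : jqModC K1 ∈ modularFunctionFieldFullC K1 N),
        ι q ⟨jqModC K1, hj⟩ = qExpand K1 N (jqModC K1)) ∧
      (∀ q (d : ℕ) [NeZero d] (hd : d ∣ N)
        (hm : qExpand K1 d (jqModC K1) ∈ modularFunctionFieldFullC K1 N),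
        ∃ (e : ℕ) (u : Oˣ), u ^ N = 1 ∧
          ι q ⟨qExpand K1 d (jqModC K1), hm⟩ = D.incS (qExpand O (e + 1) (S37KE_tw O u))) ∧
      (∀ q q' (hm : qExpand K1 N (jqModC K1) ∈ modularFunctionFieldFullC K1 N),
        D.redFun (ι q ⟨qExpand K1 N (jqModC K1), hm⟩) =
          D.redFun (ι q' ⟨qExpand K1 N (jqModC K1), hm⟩) → q = q') := by
  have hψ : Function.Injective (coeffMap (phi0.comp emb)) := (coeffMap (phi0.comp emb)).injective
  have hex : ∀ q : Q N, ∃ ι : modularFunctionFieldFullC K1 N →+* LaurentSeries K1,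
      ∀ y, coeffMap (phi0.comp emb) (ι y) =
        ((Fermat.Agent.S24_helper10_LOCinf.iotaInf N q).comp
          (Fermat.Agent.S18_helper26_DEGK1.S18DEG_inc emb N)) y :=
    fun q => S37KE_descend _ _ hψ (S37KE_exists_preimage D emb N hroots q)
  choose ι hι using hex
  have hgen : ∀ q (d : ℕ) [NeZero d] (hd : d ∣ N)
      (hm : qExpand K1 d (jqModC K1) ∈ modularFunctionFieldFullC K1 N),
      ∃ (e : ℕ) (u : Oˣ), u ^ N = 1 ∧
        ι q ⟨qExpand K1 d (jqModC K1), hm⟩ = D.incS (qExpand O (e + 1) (S37KE_tw O u)) := by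
    intro q d _ hd hm
    obtain ⟨e, u, hu, h⟩ := S37KE_iotaInf_jF_integral D emb N hroots q d hd
    refine ⟨e, u, hu, hψ ?_⟩
    rw [hι, RingHom.comp_apply, ← h]
    congr 1
    exact Fermat.Agent.S18_helper26_DEGK1.S18DEG_inc_jbard emb N d hd
  refine ⟨ι, fun q y => hι q y, ?_, ?_, hgen, ?_⟩
  · intro q c hc
    apply hψ
    rw [hι, RingHom.comp_apply]
    have h1 := Fermat.Agent.S18_helper26_DEGK1.S18DEG_inc_algebraMap emb N c
    have h2 : (⟨HahnSeries.C c, hc⟩ : modularFunctionFieldFullC K1 N) =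
        algebraMap K1 (modularFunctionFieldFullC K1 N) c := by
      apply Subtype.ext
      show HahnSeries.C c = algebraMap K1 (LaurentSeries K1) c
      rw [algebraMap_laurentSeries_eq_single, HahnSeries.C_apply]
    rw [h2, h1, Fermat.Agent.S24_helper10_LOCinf.iotaInf_const, HahnSeries.C_apply,
      HahnSeries.C_apply, coeffMap_single]
    rfl
  · intro q hj
    apply hψ
    rw [hι, RingHom.comp_apply]
    have h1 : Fermat.Agent.S18_helper26_DEGK1.S18DEG_inc emb N ⟨jqModC K1, hj⟩ = jElt N :=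
      Fermat.Agent.S18_helper26_DEGK1.S18DEG_inc_jbar emb N
    rw [h1, Fermat.Agent.S24_helper10_LOCinf.iotaInf_jElt, S37KE_laurentInf_jfun,
      coeffMap_qExpand, coeffMap_jqModC]
  · intro q q' hm h
    obtain ⟨e, u, hu, h1⟩ := hgen q N dvd_rfl hm
    obtain ⟨e', u', hu', h1'⟩ := hgen q' N dvd_rfl hm
    rw [h1, h1', D.redFun_incS, D.redFun_incS, GaussData.redS, coeffMap_qExpand,
      coeffMap_qExpand, S37KE_coeffMap_tw, S37KE_coeffMap_tw] at h
    obtain ⟨he, hu2⟩ := S37KE_qExpand_tw_inj h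
    have hu3 : D.res (u : O) = D.res (u' : O) := by
      have := congrArg (fun v : κˣ => (v : κ)) hu2
      simpa using this
    have hu4 : u = u' := S37KE_unit_eq_of_res_eq D.res N hNres hu hu' hu3
    subst he
    subst hu4
    apply S37KE_iotaInf_jFN_injective N q q'
    have e1 := hι q ⟨qExpand K1 N (jqModC K1), hm⟩
    have e2 := hι q' ⟨qExpand K1 N (jqModC K1), hm⟩
    rw [RingHom.comp_apply] at e1 e2
    have e3 : Fermat.Agent.S18_helper26_DEGK1.S18DEG_inc emb N
        ⟨qExpand K1 N (jqModC K1), hm⟩ = jF N N dvd_rfl :=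
      Fermat.Agent.S18_helper26_DEGK1.S18DEG_inc_jbard emb N N dvd_rfl
    rw [e3] at e1 e2
    rw [← e1, ← e2, h1, h1']

/-- induction principle: a ring homomorphism from the function field maps into a subfield as soon
as it does so on the constants and on the generators `j(q^d)` -/
theorem S37KE_ringHom_mem {M : Type*} [Field M]
    (f : modularFunctionFieldFullC K1 N →+* M) (S : Subfield M)
    (hC : ∀ (c : K1) (hc : HahnSeries.C c ∈ modularFunctionFieldFullC K1 N),
      f ⟨HahnSeries.C c, hc⟩ ∈ S)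
    (hgen : ∀ (d : ℕ) [NeZero d] (hd : d ∣ N)
      (hm : qExpand K1 d (jqModC K1) ∈ modularFunctionFieldFullC K1 N),
      f ⟨qExpand K1 d (jqModC K1), hm⟩ ∈ S)
    (y : modularFunctionFieldFullC K1 N) : f y ∈ S := by
  obtain ⟨x, hx⟩ := y
  have key : ∀ (x : LaurentSeries K1) (hx : x ∈ modularFunctionFieldFullC K1 N),
      f ⟨x, hx⟩ ∈ S := by
    intro x hx
    unfold modularFunctionFieldFullC at hx
    induction hx using IntermediateField.adjoin_induction with
    | mem y hy =>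
        obtain ⟨d, hd0, hd, rfl⟩ := hy
        exact hgen d hd _
    | algebraMap c =>
        have h2 : algebraMap K1 (LaurentSeries K1) c = HahnSeries.C c := by
          rw [algebraMap_laurentSeries_eq_single, HahnSeries.C_apply]
        have hc : HahnSeries.C c ∈ modularFunctionFieldFullC K1 N := by
          rw [← h2]
          exact IntermediateField.algebraMap_mem _ c
        have h3 : (⟨algebraMap K1 (LaurentSeries K1) c,
            IntermediateField.algebraMap_mem _ c⟩ : modularFunctionFieldFullC K1 N) =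
            ⟨HahnSeries.C c, hc⟩ := Subtype.ext h2
        rw [h3]
        exact hC c hc
    | add x y hx hy ihx ihy =>
        have h : (⟨x + y, add_mem hx hy⟩ : modularFunctionFieldFullC K1 N) =
            ⟨x, hx⟩ + ⟨y, hy⟩ := rfl
        rw [h, map_add]
        exact add_mem ihx ihy
    | inv x hx ihx =>
        have h : (⟨x⁻¹, inv_mem hx⟩ : modularFunctionFieldFullC K1 N) = (⟨x, hx⟩)⁻¹ := rfl
        rw [h, map_inv₀]
        exact inv_mem ihx
    | mul x y hx hy ihx ihy =>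
        have h : (⟨x * y, mul_mem hx hy⟩ : modularFunctionFieldFullC K1 N) =
            ⟨x, hx⟩ * ⟨y, hy⟩ := rfl
        rw [h, map_mul]
        exact mul_mem ihx ihy
  exact key x hx

/-- an embedding with (1) and (3) takes its values in the fractions of `O((t))` -/
theorem S37KE_mem_fracField (hK : ∀ c : K1, ∃ a b : O, b ≠ 0 ∧ D.inc b * c = D.inc a)
    (f : modularFunctionFieldFullC K1 N →+* LaurentSeries K1)
    (h1 : ∀ (c : K1) (hc : HahnSeries.C c ∈ modularFunctionFieldFullC K1 N),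
      f ⟨HahnSeries.C c, hc⟩ = HahnSeries.C c)
    (h3 : ∀ (d : ℕ) [NeZero d] (hd : d ∣ N)
      (hm : qExpand K1 d (jqModC K1) ∈ modularFunctionFieldFullC K1 N),
      ∃ a : LaurentSeries O, f ⟨qExpand K1 d (jqModC K1), hm⟩ = D.incS a)
    (y : modularFunctionFieldFullC K1 N) : f y ∈ D.fracField := by
  refine S37KE_ringHom_mem N f D.fracField ?_ ?_ y
  · intro c hc
    rw [h1 c hc]
    exact D.C_mem_fracField hK c
  · intro d _ hd hm
    obtain ⟨a, ha⟩ := h3 d hd hm
    rw [ha]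
    exact D.incS_mem_fracField a

end Family

/-! ### Part 7: the family over an admissible level -/

section Level

variable (A : ValuationSubring (AlgebraicClosure ℚ))
  (K1 : IntermediateField ℚ (AlgebraicClosure ℚ))

/-- roots of unity lie in every valuation subring -/
theorem S37KE_root_mem (ζ : AlgebraicClosure ℚ) (n : ℕ) (hn : 0 < n) (h : ζ ^ n = 1) :
    ζ ∈ A := by
  rcases A.mem_or_inv_mem ζ with h1 | h1
  · exact h1
  · have h2 : ζ = (ζ⁻¹) ^ (n - 1) := by
      have h3 : ζ * ζ ^ (n - 1) = 1 := by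
        rw [← pow_succ', Nat.sub_add_cancel hn, h]
      rw [inv_pow]
      exact eq_inv_of_mul_eq_one_left h3
    rw [h2]
    exact pow_mem h1 _

theorem S37KE_exists_unit (ζ : AlgebraicClosure ℚ) (hζ : ζ ∈ K1) (n : ℕ) (hn : 0 < n)
    (h : ζ ^ n = 1) :
    ∃ u : (S18K_O1 A K1)ˣ, (((u : S18K_O1 A K1) : K1) : AlgebraicClosure ℚ) = ζ ∧ u ^ n = 1 := by
  have hA : ζ ∈ A := S37KE_root_mem A ζ n hn h
  set z : S18K_O1 A K1 := ⟨⟨ζ, hζ⟩, hA⟩ with hz
  have hzn : z ^ n = 1 := by
    apply Subtype.ext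
    apply Subtype.ext
    show ζ ^ n = 1
    exact h
  have hu : IsUnit z := IsUnit.of_pow_eq_one hzn hn.ne'
  refine ⟨hu.unit, rfl, ?_⟩
  apply Units.ext
  rw [Units.val_pow_eq_pow_val, Units.val_one]
  exact hzn

/-- the residue characteristic: `N` is a unit of the residue field when `ℓ ∤ N` -/
theorem S37KE_natCast_residue_ne_zero {ℓ : ℕ} (hℓ : ℓ.Prime) (hA : A.LiesOverPrime ℓ)
    (N : ℕ) (hℓN : ¬ ℓ ∣ N) : ((N : ℕ) : IsLocalRing.ResidueField A) ≠ 0 := by
  have hℓ0 : ((ℓ : ℕ) : IsLocalRing.ResidueField A) = 0 := by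
    obtain ⟨ha, hmem⟩ := (ValuationSubring.mem_nonunits_iff_exists_mem_maximalIdeal).mp hA
    have h1 : (⟨((ℓ : ℕ) : AlgebraicClosure ℚ), ha⟩ : A) = ((ℓ : ℕ) : A) := Subtype.ext (by simp)
    rw [h1] at hmem
    have h2 := (IsLocalRing.residue_eq_zero_iff ((ℓ : ℕ) : A)).mpr hmem
    rwa [map_natCast] at h2
  have hcop : IsCoprime (ℓ : ℤ) (N : ℤ) :=
    Nat.isCoprime_iff_coprime.mpr ((Nat.Prime.coprime_iff_not_dvd hℓ).mpr hℓN)
  obtain ⟨x, y, hxy⟩ := hcop
  intro hN0
  have h3 := congrArg (Int.cast : ℤ → IsLocalRing.ResidueField A) hxy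
  push_cast at h3
  rw [hℓ0, hN0, mul_zero, mul_zero, add_zero] at h3
  exact zero_ne_one h3

/-- `K1` is the field of fractions of `O1` -/
theorem S37KE_hK [IsDiscreteValuationRing (S18K_O1 A K1)] (c : K1) :
    ∃ a b : S18K_O1 A K1, b ≠ 0 ∧ (S18K_D A K1).inc b * c = (S18K_D A K1).inc a := by
  rcases (S18K_O1 A K1).mem_or_inv_mem c with hc | hc
  · exact ⟨⟨c, hc⟩, 1, one_ne_zero, by rw [map_one, one_mul]; rfl⟩
  · rcases eq_or_ne c 0 with rfl | hc0
    · exact ⟨0, 1, one_ne_zero, by rw [map_one, one_mul, map_zero]⟩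
    · refine ⟨1, ⟨c⁻¹, hc⟩, ?_, ?_⟩
      · intro h0
        have := congrArg (fun x : S18K_O1 A K1 => (x : K1)) h0
        exact inv_ne_zero hc0 this
      · rw [map_one]
        show c⁻¹ * c = 1
        exact inv_mul_cancel₀ hc0

/-- **B1-KAPPA-EMB** (row 352): for an admissible level `K1` the `ψ(N)` embeddings of the
function field `F1 = K1(j(q^d) : d ∣ N)` into `K1((t))`:

* (0) they are the descents of `iotaInf N q`;
* (1) they fix the constants;
* (2) they send `j` to `j(t^N)`;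
* (3) they send `j(q^d)` to an integral series `j(u t^(e+1))`, `u ∈ O1` a root of unity;
* (4) the reductions of the images of `j(q^N)` are pairwise distinct. -/
theorem S37KE_family (N : ℕ) [NeZero N] {ℓ : ℕ} (hℓ : ℓ.Prime) (hℓN : ¬ ℓ ∣ N)
    (hA : A.LiesOverPrime ℓ) (h : S18K_Admissible A K1 ℓ) :
    letI := h.dvr
    ∃ ι : Q N → (modularFunctionFieldFullC K1 N →+* LaurentSeries K1),
      (∀ q y, coeffMap (phi0.comp (algebraMap K1 (AlgebraicClosure ℚ))) (ι q y) =
        Fermat.Agent.S24_helper10_LOCinf.iotaInf N q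
          (Fermat.Agent.S18_helper26_DEGK1.S18DEG_inc
            (algebraMap K1 (AlgebraicClosure ℚ)) N y)) ∧
      (∀ q (c : K1) (hc : HahnSeries.C c ∈ modularFunctionFieldFullC K1 N),
        ι q ⟨HahnSeries.C c, hc⟩ = HahnSeries.C c) ∧
      (∀ q (hj : jqModC K1 ∈ modularFunctionFieldFullC K1 N),
        ι q ⟨jqModC K1, hj⟩ = qExpand K1 N (jqModC K1)) ∧
      (∀ q (d : ℕ) [NeZero d] (hd : d ∣ N)
        (hm : qExpand K1 d (jqModC K1) ∈ modularFunctionFieldFullC K1 N),
        ∃ (e : ℕ) (u : (S18K_O1 A K1)ˣ), u ^ N = 1 ∧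
          ι q ⟨qExpand K1 d (jqModC K1), hm⟩ =
            (S18K_D A K1).incS (qExpand (S18K_O1 A K1) (e + 1) (S37KE_tw (S18K_O1 A K1) u))) ∧
      (∀ q q' (hm : qExpand K1 N (jqModC K1) ∈ modularFunctionFieldFullC K1 N),
        (S18K_D A K1).redFun (ι q ⟨qExpand K1 N (jqModC K1), hm⟩) =
          (S18K_D A K1).redFun (ι q' ⟨qExpand K1 N (jqModC K1), hm⟩) → q = q') := by
  letI := h.dvr
  have hN : 0 < N := Nat.pos_of_ne_zero (NeZero.ne N)
  refine S37KE_family_gen (S18K_D A K1) (algebraMap K1 (AlgebraicClosure ℚ)) N ?_ ?_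
  · intro w hw
    obtain ⟨ζ, hζN, hζw⟩ := S37KE_exists_root N hN w hw
    obtain ⟨u, huζ, huN⟩ := S37KE_exists_unit A K1 ζ (h.roots N hℓN ζ hζN) N hN hζN
    refine ⟨u, huN, ?_⟩
    rw [← hζw, ← huζ]
    rfl
  · have h1 : (S18K_D A K1).res ((N : ℕ) : S18K_O1 A K1) =
        ((N : ℕ) : IsLocalRing.ResidueField A) := map_natCast (S18K_res A K1) N
    rw [h1]
    exact S37KE_natCast_residue_ne_zero A hℓ hA N hℓN

end Level

end Fermat.Agent.S37_helper20_KAPPAEMB
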