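import Mathlib
import Fermat.Agent.S37_helper20_KAPPAEMB

/-!
# S36 (helper12): the twist `f(Q) ↦ f(u Q)` of Laurent series

For a unit `u` of a commutative ring `R`:

* `S36TW_twist u : LaurentSeries R ≃+* LaurentSeries R`, `coeff n ↦ u ^ n * coeff n`;
* `S36TW_twist_qExpand` : `twist u (f(Q^d)) = (twist (u ^ d) f)(Q^d)`;
* `S36TW_twist_jqModC` : `twist u j = S37KE_tw R u` (the series `j(u Q)` of KAPPAEMB);
* `S36TW_twist_coeffMap` : compatibility with a change of coefficients;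
* `S36TW_geom`, `S36TW_twist_sub` : `twist u g - g = C (u - 1) * g₁` with
  `g₁.coeff n = S36TW_geom u n * g.coeff n`, where `S36TW_geom u n = 1 + u + ⋯ + u^(n-1)` for
  `n ≥ 0` and `= - (u⁻¹ + ⋯ + u^(-|n|))` for `n < 0`; `S36TW_geom u (-1) = - u⁻¹` is a unit.
-/

set_option autoImplicit false
set_option linter.unusedSectionVars false
set_option linter.unusedVariables false
set_option linter.style.haveILetI false
set_option linter.deprecated false

open HahnSeries ModularCurve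

noncomputable section

namespace Fermat.Agent.S36_helper12_TWIST

open Fermat.Agent.S37_helper20_KAPPAEMB

section Twist

variable {R : Type*} [CommRing R]

/-- the coefficient formula of a product, over arbitrary PWO sets containing the supports -/
theorem S36TW_coeff_mul' {x y : LaurentSeries R} {a : ℤ} {s t : Set ℤ} (hs : s.IsPWO)
    (ht : t.IsPWO) (hxs : x.support ⊆ s) (hyt : y.support ⊆ t) :
    (x * y).coeff a = ∑ ij ∈ Finset.antidiagonal hs ht a, x.coeff ij.1 * y.coeff ij.2 := by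
  rw [HahnSeries.coeff_mul]
  apply Finset.sum_subset
  · intro ij hij
    rw [Finset.mem_antidiagonal] at hij ⊢
    exact ⟨hxs hij.1, hyt hij.2.1, hij.2.2⟩
  · intro ij hij hnot
    rw [Finset.mem_antidiagonal] at hij hnot
    by_cases h1 : x.coeff ij.1 = 0
    · rw [h1, zero_mul]
    · by_cases h2 : y.coeff ij.2 = 0
      · rw [h2, mul_zero]
      · exact absurd ⟨h1, h2, hij.2.2⟩ hnot

/-- the twist, as a function -/
def S36TW_fun (u : Rˣ) (f : LaurentSeries R) : LaurentSeries R where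
  coeff n := ((u ^ n : Rˣ) : R) * f.coeff n
  isPWO_support' := f.isPWO_support.mono (fun n hn => by
    rw [Function.mem_support] at hn
    rw [HahnSeries.mem_support]
    intro h0
    apply hn
    rw [h0, mul_zero])

@[simp]
theorem S36TW_fun_coeff (u : Rˣ) (f : LaurentSeries R) (n : ℤ) :
    (S36TW_fun u f).coeff n = ((u ^ n : Rˣ) : R) * f.coeff n := rfl

theorem S36TW_fun_support (u : Rˣ) (f : LaurentSeries R) :
    (S36TW_fun u f).support ⊆ f.support := by
  intro n hn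
  rw [HahnSeries.mem_support] at hn ⊢
  intro h0
  apply hn
  rw [S36TW_fun_coeff, h0, mul_zero]

theorem S36TW_fun_mul (u : Rˣ) (f g : LaurentSeries R) :
    S36TW_fun u (f * g) = S36TW_fun u f * S36TW_fun u g := by
  ext n
  rw [S36TW_fun_coeff, HahnSeries.coeff_mul,
    S36TW_coeff_mul' f.isPWO_support g.isPWO_support (S36TW_fun_support u f)
      (S36TW_fun_support u g), Finset.mul_sum]
  refine Finset.sum_congr rfl fun ij hij => ?_
  rw [Finset.mem_antidiagonal] at hij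
  rw [S36TW_fun_coeff, S36TW_fun_coeff, ← hij.2.2, zpow_add, Units.val_mul]
  ring

theorem S36TW_fun_add (u : Rˣ) (f g : LaurentSeries R) :
    S36TW_fun u (f + g) = S36TW_fun u f + S36TW_fun u g := by
  ext n
  simp [mul_add]

theorem S36TW_fun_one (u : Rˣ) : S36TW_fun u (1 : LaurentSeries R) = 1 := by
  ext n
  rw [S36TW_fun_coeff, HahnSeries.coeff_one]
  split_ifs with h
  · subst h
    simp
  · simp

theorem S36TW_fun_zero (u : Rˣ) : S36TW_fun u (0 : LaurentSeries R) = 0 := by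
  ext n
  simp

theorem S36TW_fun_fun (u v : Rˣ) (f : LaurentSeries R) :
    S36TW_fun u (S36TW_fun v f) = S36TW_fun (u * v) f := by
  ext n
  rw [S36TW_fun_coeff, S36TW_fun_coeff, S36TW_fun_coeff, mul_zpow, Units.val_mul, mul_assoc]

theorem S36TW_fun_unit_one (f : LaurentSeries R) : S36TW_fun (1 : Rˣ) f = f := by
  ext n
  simp

/-- **the twist** `f(Q) ↦ f(u Q)`. -/
def S36TW_twist (u : Rˣ) : LaurentSeries R ≃+* LaurentSeries R where
  toFun := S36TW_fun u
  invFun := S36TW_fun u⁻¹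
  left_inv f := by rw [S36TW_fun_fun, inv_mul_cancel, S36TW_fun_unit_one]
  right_inv f := by rw [S36TW_fun_fun, mul_inv_cancel, S36TW_fun_unit_one]
  map_mul' := S36TW_fun_mul u
  map_add' := S36TW_fun_add u

@[simp]
theorem S36TW_twist_coeff (u : Rˣ) (f : LaurentSeries R) (n : ℤ) :
    (S36TW_twist u f).coeff n = ((u ^ n : Rˣ) : R) * f.coeff n := rfl

theorem S36TW_twist_one (f : LaurentSeries R) : S36TW_twist (1 : Rˣ) f = f :=
  S36TW_fun_unit_one f

theorem S36TW_twist_twist (u v : Rˣ) (f : LaurentSeries R) :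
    S36TW_twist u (S36TW_twist v f) = S36TW_twist (u * v) f :=
  S36TW_fun_fun u v f

theorem S36TW_twist_C (u : Rˣ) (c : R) : S36TW_twist u (HahnSeries.C c) = HahnSeries.C c := by
  rw [HahnSeries.C_apply]
  ext n
  rw [S36TW_twist_coeff, HahnSeries.coeff_single]
  split_ifs with h
  · subst h
    simp
  · simp

theorem S36TW_twist_single (u : Rˣ) (k : ℤ) (c : R) :
    S36TW_twist u (HahnSeries.single k c) = HahnSeries.single k (((u ^ k : Rˣ) : R) * c) := by
  ext n
  rw [S36TW_twist_coeff, HahnSeries.coeff_single, HahnSeries.coeff_single]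
  split_ifs with h
  · subst h
    rfl
  · simp

/-- `twist u (f(Q^d)) = (twist (u ^ d) f)(Q^d)` -/
theorem S36TW_twist_qExpand (u : Rˣ) (d : ℕ) [NeZero d] (f : LaurentSeries R) :
    S36TW_twist u (qExpand R d f) = qExpand R d (S36TW_twist (u ^ d) f) := by
  ext n
  by_cases hn : (d : ℤ) ∣ n
  · obtain ⟨k, rfl⟩ := hn
    rw [S36TW_twist_coeff, qExpand_coeff_mul, qExpand_coeff_mul, S36TW_twist_coeff, zpow_mul,
      zpow_natCast]
  · rw [S36TW_twist_coeff, qExpand_coeff_of_not_dvd d f hn,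
      qExpand_coeff_of_not_dvd d _ hn, mul_zero]

/-- `twist u j = j(u Q)` -/
theorem S36TW_twist_jqModC (u : Rˣ) : S36TW_twist u (jqModC R) = S37KE_tw R u := by
  ext k
  rw [S36TW_twist_coeff, S37KE_tw_coeff, S37KE_jqModC_coeff]
  split_ifs with h
  · obtain ⟨m, hm⟩ := Int.eq_ofNat_of_zero_le h
    have hk : k = (m : ℤ) - 1 := by omega
    subst hk
    rw [hm, Int.toNat_natCast]
    have e : ((u ^ ((m : ℤ) - 1) : Rˣ) : R) = ((u⁻¹ : Rˣ) : R) * (u : R) ^ m := by
      rw [zpow_sub, zpow_natCast, zpow_one, Units.val_mul, Units.val_pow_eq_pow_val, mul_comm]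
    rw [e]
  · rw [mul_zero]

/-- compatibility with a change of coefficients -/
theorem S36TW_twist_coeffMap {S : Type*} [CommRing S] (φ : R →+* S) (u : Rˣ)
    (f : LaurentSeries R) :
    coeffMap φ (S36TW_twist u f) = S36TW_twist (Units.map (φ : R →* S) u) (coeffMap φ f) := by
  ext n
  rw [coeffMap_coeff, S36TW_twist_coeff, S36TW_twist_coeff, coeffMap_coeff, map_mul,
    ← map_zpow (Units.map (φ : R →* S)) u n]
  rfl

end Twist

/-! ### The difference `f(u Q) - f(Q)` -/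

section Geom

variable {R : Type*} [CommRing R]

/-- `1 + u + ⋯ + u^(n-1)` for `n ≥ 0`, and `-(u⁻¹ + ⋯ + u^(-m))` for `n = -m < 0`: the quotient
`(u ^ n - 1) / (u - 1)`. -/
def S36TW_geom (u : Rˣ) : ℤ → R
  | Int.ofNat n => ∑ i ∈ Finset.range n, (u : R) ^ i
  | Int.negSucc n => - (((u⁻¹ : Rˣ) : R) * ∑ i ∈ Finset.range (n + 1), ((u⁻¹ : Rˣ) : R) ^ i)

theorem S36TW_geom_ofNat (u : Rˣ) (n : ℕ) :
    S36TW_geom u (n : ℤ) = ∑ i ∈ Finset.range n, (u : R) ^ i := rfl

theorem S36TW_geom_negSucc (u : Rˣ) (n : ℕ) :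
    S36TW_geom u (Int.negSucc n) =
      - (((u⁻¹ : Rˣ) : R) * ∑ i ∈ Finset.range (n + 1), ((u⁻¹ : Rˣ) : R) ^ i) := rfl

theorem S36TW_geom_zero (u : Rˣ) : S36TW_geom u 0 = 0 := by
  have h := S36TW_geom_ofNat u 0
  simpa using h

theorem S36TW_geom_one (u : Rˣ) : S36TW_geom u 1 = 1 := by
  have h := S36TW_geom_ofNat u 1
  simpa using h

/-- the value at `-1` is the unit `- u⁻¹` -/
theorem S36TW_geom_neg_one (u : Rˣ) : S36TW_geom u (-1) = - ((u⁻¹ : Rˣ) : R) := by
  have h := S36TW_geom_negSucc u 0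
  have e : Int.negSucc 0 = -1 := rfl
  rw [e] at h
  rw [h]
  simp

/-- **`u ^ n - 1 = (u - 1) * S36TW_geom u n`** for every integer `n`. -/
theorem S36TW_geom_spec (u : Rˣ) (n : ℤ) :
    ((u ^ n : Rˣ) : R) - 1 = ((u : R) - 1) * S36TW_geom u n := by
  cases n with
  | ofNat m =>
    rw [Int.ofNat_eq_natCast, S36TW_geom_ofNat, mul_geom_sum, zpow_natCast,
      Units.val_pow_eq_pow_val]
  | negSucc m =>
    rw [S36TW_geom_negSucc, zpow_negSucc, ← inv_pow, Units.val_pow_eq_pow_val]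
    have h1 := mul_geom_sum (((u⁻¹ : Rˣ) : R)) (m + 1)
    have h2 : ((u : R) - 1) * ((u⁻¹ : Rˣ) : R) = 1 - ((u⁻¹ : Rˣ) : R) := by
      rw [sub_mul, Units.mul_inv, one_mul]
    rw [← h1, mul_neg, ← mul_assoc, h2]
    ring

/-- the values lie in every subring containing `u` and `u⁻¹` -/
theorem S36TW_geom_mem (O : Subring R) (u : Rˣ) (hu : (u : R) ∈ O)
    (hu' : ((u⁻¹ : Rˣ) : R) ∈ O) (n : ℤ) : S36TW_geom u n ∈ O := by
  cases n with
  | ofNat m =>
    rw [Int.ofNat_eq_natCast, S36TW_geom_ofNat]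
    exact O.sum_mem fun i _ => O.pow_mem hu i
  | negSucc m =>
    rw [S36TW_geom_negSucc]
    exact O.neg_mem (O.mul_mem hu' (O.sum_mem fun i _ => O.pow_mem hu' i))

/-- `S36TW_geom u n ≡ n` modulo `u - 1` -/
theorem S36TW_geom_sub_cast (O : Subring R) (u : Rˣ) (hu : (u : R) ∈ O)
    (hu' : ((u⁻¹ : Rˣ) : R) ∈ O) (n : ℤ) :
    ∃ r ∈ O, S36TW_geom u n = (n : R) + ((u : R) - 1) * r := by
  cases n with
  | ofNat m =>
    refine ⟨∑ i ∈ Finset.range m, S36TW_geom u (i : ℤ),
      O.sum_mem fun i _ => S36TW_geom_mem O u hu hu' _, ?_⟩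
    rw [Int.ofNat_eq_natCast, S36TW_geom_ofNat, Finset.mul_sum]
    have h : ∀ i ∈ Finset.range m, ((u : R) - 1) * S36TW_geom u (i : ℤ) = (u : R) ^ i - 1 := by
      intro i _
      rw [← S36TW_geom_spec, zpow_natCast, Units.val_pow_eq_pow_val]
    rw [Finset.sum_congr rfl h, Finset.sum_sub_distrib]
    simp
  | negSucc m =>
    refine ⟨- ∑ i ∈ Finset.range (m + 1), S36TW_geom u (Int.negSucc i),
      O.neg_mem (O.sum_mem fun i _ => S36TW_geom_mem O u hu hu' _), ?_⟩
    rw [S36TW_geom_negSucc, mul_neg, Finset.mul_sum, Finset.mul_sum]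
    have h : ∀ i ∈ Finset.range (m + 1),
        ((u : R) - 1) * S36TW_geom u (Int.negSucc i) =
          ((u⁻¹ : Rˣ) : R) * ((u⁻¹ : Rˣ) : R) ^ i - 1 := by
      intro i _
      rw [← S36TW_geom_spec, zpow_negSucc, ← inv_pow, Units.val_pow_eq_pow_val, pow_succ,
        mul_comm]
    rw [Finset.sum_congr rfl h, Finset.sum_sub_distrib]
    simp only [Finset.sum_const, Finset.card_range, nsmul_eq_mul, mul_one, Int.cast_negSucc]
    push_cast
    ring

/-- the series `g₁` with `f(u Q) - f(Q) = (u - 1) g₁`: `coeff n ↦ S36TW_geom u n * coeff n` -/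
def S36TW_delta (u : Rˣ) (g : LaurentSeries R) : LaurentSeries R where
  coeff n := S36TW_geom u n * g.coeff n
  isPWO_support' := g.isPWO_support.mono (fun n hn => by
    rw [Function.mem_support] at hn
    rw [HahnSeries.mem_support]
    intro h0
    apply hn
    rw [h0, mul_zero])

@[simp]
theorem S36TW_delta_coeff (u : Rˣ) (g : LaurentSeries R) (n : ℤ) :
    (S36TW_delta u g).coeff n = S36TW_geom u n * g.coeff n := rfl

/-- **`f(u Q) - f(Q) = C (u - 1) * g₁`**. -/
theorem S36TW_twist_sub (u : Rˣ) (g : LaurentSeries R) :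
    S36TW_twist u g - g = HahnSeries.C ((u : R) - 1) * S36TW_delta u g := by
  rw [HahnSeries.C_mul_eq_smul]
  ext n
  rw [HahnSeries.coeff_sub, S36TW_twist_coeff, HahnSeries.coeff_smul, S36TW_delta_coeff,
    smul_eq_mul, ← mul_assoc, ← S36TW_geom_spec, sub_mul, one_mul]

/-- the coefficients of `g₁` lie in every subring containing `u`, `u⁻¹` and the coefficients of
`g` -/
theorem S36TW_delta_mem (O : Subring R) (u : Rˣ) (hu : (u : R) ∈ O)
    (hu' : ((u⁻¹ : Rˣ) : R) ∈ O) (g : LaurentSeries R) (hg : ∀ n, g.coeff n ∈ O) (n : ℤ) :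
    (S36TW_delta u g).coeff n ∈ O :=
  O.mul_mem (S36TW_geom_mem O u hu hu' n) (hg n)

/-- the coefficient of `Q⁻¹` of `g₁` is `- u⁻¹` times the one of `g` -/
theorem S36TW_delta_coeff_neg_one (u : Rˣ) (g : LaurentSeries R) :
    (S36TW_delta u g).coeff (-1) = - ((u⁻¹ : Rˣ) : R) * g.coeff (-1) := by
  rw [S36TW_delta_coeff, S36TW_geom_neg_one]

/-- the constant coefficient of `g₁` vanishes -/
theorem S36TW_delta_coeff_zero (u : Rˣ) (g : LaurentSeries R) :
    (S36TW_delta u g).coeff 0 = 0 := by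
  rw [S36TW_delta_coeff, S36TW_geom_zero, zero_mul]

/-- `g₁ ≡ θ g = Q dg/dQ` modulo `u - 1`, coefficientwise -/
theorem S36TW_delta_congr (O : Subring R) (u : Rˣ) (hu : (u : R) ∈ O)
    (hu' : ((u⁻¹ : Rˣ) : R) ∈ O) (g : LaurentSeries R) (hg : ∀ n, g.coeff n ∈ O) (n : ℤ) :
    ∃ r ∈ O, (S36TW_delta u g).coeff n = (n : R) * g.coeff n + ((u : R) - 1) * r := by
  obtain ⟨r, hr, e⟩ := S36TW_geom_sub_cast O u hu hu' n
  refine ⟨r * g.coeff n, O.mul_mem hr (hg n), ?_⟩
  rw [S36TW_delta_coeff, e]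
  ring

end Geom

end Fermat.Agent.S36_helper12_TWIST
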