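import Fermat.Agent.S36_helper20_CUSPQ
import Fermat.Agent.S36_helper12_TWIST

/-!
# S36 (helper12): the embedding at the cusp `1/q` on the functions `g(Q^(q²))`

`S36TWQ_iota_new`: for every function `g` of level `M'` (prime to `q`) the embedding
`S36CQ_iota` of helper20 at the cusp `1/q` of level `q² M'` maps `g(Q^(q²))` to the twist
`g(u Q)`, `u = S36CQ_unit` the primitive `q`-th root of unity of the cusp.

Together with `S36CQ_iota_level` (the identity on the level `q M'`) this computes the embedding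
on every Hauptmodul `x` of a level `r ∣ M'`:
`ι (x(Q^(q²)) - x(Q)) = x(u Q) - x(Q) = C (u - 1) * S36TW_delta u x`.
-/

set_option autoImplicit false
set_option linter.unusedSectionVars false
set_option linter.unusedVariables false
set_option linter.style.haveILetI false

open HahnSeries ModularCurve

noncomputable section

namespace Fermat.Agent.S36_helper12_TWISTQ

open Fermat.Agent.S24 Fermat.Agent.S37_helper20_KAPPAEMB Fermat.Agent.S34_helper20_WQ
  Fermat.Agent.S36_helper20_CUSPQ Fermat.Agent.S36_helper12_TWIST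

variable {K : Type*} [Field K] (emb : K →+* Kbar)

variable (q M' N : ℕ) [NeZero M'] [NeZero N]

/-- `g(Q^(q²))` has level `q² M'` for `g` of level `M'` -/
theorem S36TWQ_mem [NeZero (q ^ 2)] (hN : N = q ^ 2 * M') {g : LaurentSeries K}
    (hg : g ∈ modularFunctionFieldFullC K M') :
    qExpand K (q ^ 2) g ∈ modularFunctionFieldFullC K N := by
  haveI : NeZero (M' * q ^ 2) := ⟨by rw [mul_comm, ← hN]; exact NeZero.ne N⟩
  have h := full_degeneracyC_map_le K M' (q ^ 2)
  have h1 : qExpand K (q ^ 2) g ∈ modularFunctionFieldFullC K (M' * q ^ 2) :=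
    h ⟨g, hg, rfl⟩
  have e : M' * q ^ 2 = N := by rw [hN, mul_comm]
  subst e
  exact h1

variable (hq : q.Prime) (hqM : ¬ q ∣ M') (hN : N = q ^ 2 * M') (ζ : K)
  (hζ : IsPrimitiveRoot ζ q)

/-- the ring homomorphism `g ↦ g(Q^(q²))` from level `M'` to level `q² M'` -/
def S36TWQ_V [NeZero (q ^ 2)] (hN : N = q ^ 2 * M') :
    modularFunctionFieldFullC K M' →+* modularFunctionFieldFullC K N where
  toFun x := ⟨qExpand K (q ^ 2) (x : LaurentSeries K), S36TWQ_mem q M' N hN x.2⟩
  map_one' := Subtype.ext (map_one _)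
  map_mul' x y := Subtype.ext (map_mul _ _ _)
  map_zero' := Subtype.ext (map_zero _)
  map_add' x y := Subtype.ext (map_add _ _ _)

/-- **the embedding at the cusp `1/q` on `g(Q^(q²))`**: it is the twist `g(u Q)`. -/
theorem S36TWQ_iota_new [NeZero (q ^ 2)] (g : LaurentSeries K)
    (hg : g ∈ modularFunctionFieldFullC K M')
    (hm : qExpand K (q ^ 2) g ∈ modularFunctionFieldFullC K N) :
    S36CQ_iota emb q M' N hq hqM hN ζ hζ ⟨qExpand K (q ^ 2) g, hm⟩ =
      S36TW_twist (S36CQ_unit emb q M' N hq hqM hN ζ hζ) g := by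
  set u := S36CQ_unit emb q M' N hq hqM hN ζ hζ with hu
  set f : modularFunctionFieldFullC K M' →+* LaurentSeries K :=
    (S36CQ_iota emb q M' N hq hqM hN ζ hζ).comp (S36TWQ_V q M' N hN) with hf
  set g' : modularFunctionFieldFullC K M' →+* LaurentSeries K :=
    ((S36TW_twist u).toRingHom).comp (modularFunctionFieldFullC K M').val.toRingHom with hg'
  have key : ∀ y : modularFunctionFieldFullC K M', f y = g' y := by
    intro y
    refine S34WQ_ringHom_ext M' f g' ?_ ?_ y
    · intro c hc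
      have hc' : HahnSeries.C c ∈ modularFunctionFieldFullC K N := by
        have := S36TWQ_mem (K := K) q M' N hN hc
        rwa [qExpand_C] at this
      have h1 : S36TWQ_V (K := K) q M' N hN ⟨HahnSeries.C c, hc⟩ = ⟨HahnSeries.C c, hc'⟩ :=
        Subtype.ext (qExpand_C (q ^ 2) c)
      rw [hf, RingHom.comp_apply, h1, S36CQ_iota_C]
      rw [hg', RingHom.comp_apply]
      exact (S36TW_twist_C u c).symm
    · intro d _ hd hm'
      haveI : NeZero (q ^ 2 * d) := ⟨Nat.mul_ne_zero (NeZero.ne _) (NeZero.ne d)⟩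
      have hqq : qExpand K (q ^ 2) (qExpand K d (jqModC K)) =
          qExpand K (q ^ 2 * d) (jqModC K) := qExpand_qExpand d (q ^ 2) (jqModC K)
      have hmem : qExpand K (q ^ 2 * d) (jqModC K) ∈ modularFunctionFieldFullC K N := by
        have := S36TWQ_mem (K := K) q M' N hN hm'
        rwa [hqq] at this
      have h1 : S36TWQ_V (K := K) q M' N hN ⟨qExpand K d (jqModC K), hm'⟩ =
          ⟨qExpand K (q ^ 2 * d) (jqModC K), hmem⟩ :=
        Subtype.ext hqq
      rw [hf, RingHom.comp_apply, h1, S36CQ_iota_gen_new emb q M' N hq hqM hN ζ hζ d hd hmem]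
      rw [hg', RingHom.comp_apply]
      show _ = S36TW_twist u (qExpand K d (jqModC K))
      rw [S36TW_twist_qExpand, S36TW_twist_jqModC]
  have h1 := key ⟨g, hg⟩
  rw [hf, RingHom.comp_apply] at h1
  have h2 : S36TWQ_V (K := K) q M' N hN ⟨g, hg⟩ = ⟨qExpand K (q ^ 2) g, hm⟩ := Subtype.ext rfl
  rw [h2] at h1
  exact h1

/-- **the difference `g(Q^(q²)) - g(Q)` at the cusp `1/q`**: for `g` of level `M'` the
embedding maps it to `C (u - 1) * S36TW_delta u g`. -/
theorem S36TWQ_iota_sub [NeZero (q ^ 2)] [NeZero (q * M')] (g : LaurentSeries K)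
    (hg : g ∈ modularFunctionFieldFullC K M')
    (hm : qExpand K (q ^ 2) g - g ∈ modularFunctionFieldFullC K N) :
    S36CQ_iota emb q M' N hq hqM hN ζ hζ ⟨qExpand K (q ^ 2) g - g, hm⟩ =
      HahnSeries.C (((S36CQ_unit emb q M' N hq hqM hN ζ hζ : Kˣ) : K) - 1) *
        S36TW_delta (S36CQ_unit emb q M' N hq hqM hN ζ hζ) g := by
  have hm1 : qExpand K (q ^ 2) g ∈ modularFunctionFieldFullC K N := S36TWQ_mem q M' N hN hg
  have hle : modularFunctionFieldFullC K M' ≤ modularFunctionFieldFullC K (q * M') :=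
    full_degeneracyC_le K (Dvd.intro_left q rfl)
  have hN1N : q * M' ∣ N := by
    rw [hN]
    exact Dvd.intro q (by ring)
  have hm2 : g ∈ modularFunctionFieldFullC K N := full_degeneracyC_le K hN1N (hle hg)
  have e : (⟨qExpand K (q ^ 2) g - g, hm⟩ : modularFunctionFieldFullC K N) =
      ⟨qExpand K (q ^ 2) g, hm1⟩ - ⟨g, hm2⟩ := Subtype.ext rfl
  rw [e, map_sub, S36TWQ_iota_new emb q M' N hq hqM hN ζ hζ g hg hm1,
    S36CQ_iota_level emb q M' N hq hqM hN ζ hζ ⟨g, hm2⟩ (hle hg), S36TW_twist_sub]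

end Fermat.Agent.S36_helper12_TWISTQ
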