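import Mathlib
import Fermat.Agent.S18_helper9_CDefs
import Fermat.Agent.S18_helper9_CBasic
import Fermat.Agent.S18_helper20_CSAT
import Fermat.Agent.S34_helper27_C2Defs

/-!
# S36, GEO36 W36-VAL (helper12): the Atkin-Lehner involution preserves the middle valuation ring

Abstract form, in the `Subring L` vocabulary of `S36SC_abs`.

* `S36WV_unique` : at a good level (the S18 `Setup`: `chart0.sat`, `chart0.loc`) the Gauss ring
  `V'` is contained in EVERY valuation ring `W` of `F1'` which contains `O[j]` and in which the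
  Gauss units of `O[j]` are units ("`V'` is the only extension of the Gauss valuation of `O[j]`").
* `S36WV_image` : the subring `{y ∈ F1 | w y ∈ V}` for an involution `w` of `F1`.
* `S36WV_abs` : if `V1, V2, V3` are exactly the valuation rings of `F1` above `V'`, `V3 = w V1`,
  `V1 ≠ V2 ≠ V3` and `w j = j + t` with `t` a non-unit of `V2`, then `w V2 ⊆ V2`.
-/

set_option autoImplicit false
set_option linter.unusedSectionVars false
set_option linter.unusedVariables false
set_option linter.style.haveILetI false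

namespace Fermat.Agent.S36_helper12_W36VAL

open Fermat.Agent.S18_helper9_CDefs Fermat.Agent.S18_helper9_CBasic
  Fermat.Agent.S18_helper20_CSAT Fermat.Agent.S34_helper27_C2Defs

variable {L : Type*} [Field L]

section Unique

variable {O : Subring L} {π j : L} {F1' : Subfield L} {V' A0' Ainf' W : Subring L}

/-- the contraction to the chart `A` of the ideal `π V` -/
def S36WV_I (π : L) (V A : Subring L) (hle : A ≤ V) : Ideal A where
  carrier := {a | ∃ v ∈ V, (a : L) = π * v}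
  add_mem' := by
    rintro a b ⟨v, hv, hav⟩ ⟨u, hu, hbu⟩
    exact ⟨v + u, V.add_mem hv hu, by rw [Subring.coe_add, hav, hbu]; ring⟩
  zero_mem' := ⟨0, V.zero_mem, by simp⟩
  smul_mem' := by
    rintro c a ⟨v, hv, hav⟩
    exact ⟨c * v, V.mul_mem (hle c.2) hv, by rw [smul_eq_mul, Subring.coe_mul, hav]; ring⟩

theorem S36WV_mem_I {π : L} {V A : Subring L} (hle : A ≤ V) (a : A) :
    a ∈ S36WV_I π V A hle ↔ ∃ v ∈ V, (a : L) = π * v := Iff.rfl

/-- the contraction to the chart `A` of the non-units of the valuation ring `W` -/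
def S36WV_J {π : L} {F : Subfield L} {W : Subring L} (HW : S34C2_Val π F W) (A : Subring L)
    (hle : A ≤ W) : Ideal A where
  carrier := {a | (a : L) = 0 ∨ (a : L)⁻¹ ∉ W}
  add_mem' := by
    rintro a b ha hb
    by_contra hcon
    simp only [Set.mem_ofPred_eq, not_or, not_not] at hcon
    obtain ⟨hab0, habinv⟩ := hcon
    rw [Subring.coe_add] at hab0 habinv
    rcases ha with ha | ha
    · rw [ha, zero_add] at hab0 habinv
      rcases hb with hb | hb
      · exact hab0 hb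
      · exact hb habinv
    · -- `b = (a + b) + (-a)` is a unit
      have h1 : ((a : L) + b + (-(a : L)))⁻¹ ∈ W := by
        refine HW.inv_add_mem (W.add_mem (hle a.2) (hle b.2)) habinv hab0
          (W.neg_mem (hle a.2)) ?_
        rw [inv_neg]
        intro h
        exact ha (by simpa using W.neg_mem h)
      have h2 : (a : L) + b + (-(a : L)) = b := by ring
      rw [h2] at h1
      rcases hb with hb | hb
      · apply ha
        rw [hb, add_zero] at habinv
        exact habinv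
      · exact hb h1
  zero_mem' := Or.inl rfl
  smul_mem' := by
    rintro c a ha
    by_contra hcon
    simp only [Set.mem_ofPred_eq, not_or, not_not, smul_eq_mul, Subring.coe_mul] at hcon
    obtain ⟨hca0, hcainv⟩ := hcon
    have ha0 : (a : L) ≠ 0 := right_ne_zero_of_mul hca0
    have hc0 : (c : L) ≠ 0 := left_ne_zero_of_mul hca0
    rcases ha with ha | ha
    · exact ha0 ha
    · apply ha
      have : (a : L)⁻¹ = (c : L) * ((c : L) * (a : L))⁻¹ := by
        field_simp
      rw [this]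
      exact W.mul_mem (hle c.2) hcainv

theorem S36WV_mem_J {π : L} {F : Subfield L} {W : Subring L} (HW : S34C2_Val π F W)
    {A : Subring L} (hle : A ≤ W) (a : A) :
    a ∈ S36WV_J HW A hle ↔ ((a : L) = 0 ∨ (a : L)⁻¹ ∉ W) := Iff.rfl

/-- `π V ∩ A` is a prime ideal when `V` is a valuation ring with uniformiser `π` -/
theorem S36WV_I_isPrime {π : L} {V A : Subring L} (hle : A ≤ V) (hπ : π⁻¹ ∉ V)
    (hunif : ∀ x ∈ V, x⁻¹ ∉ V → ∃ v ∈ V, x = π * v) : (S36WV_I π V A hle).IsPrime := by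
  have hπ0 : π ≠ 0 := by
    rintro rfl
    exact hπ (by rw [inv_zero]; exact V.zero_mem)
  refine ⟨?_, ?_⟩
  · intro h
    have h1 : (1 : A) ∈ S36WV_I π V A hle := by rw [h]; trivial
    obtain ⟨v, hv, h1v⟩ := h1
    apply hπ
    have : π⁻¹ = v := by
      have h2 : (1 : L) = π * v := by simpa using h1v
      field_simp
      linear_combination h2
    rw [this]
    exact hv
  · intro a b hab
    by_contra hcon
    rw [not_or] at hcon
    obtain ⟨ha, hb⟩ := hcon
    have hainv : (a : L)⁻¹ ∈ V := by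
      by_contra h
      exact ha (hunif _ (hle a.2) h)
    have hbinv : (b : L)⁻¹ ∈ V := by
      by_contra h
      exact hb (hunif _ (hle b.2) h)
    have ha0 : (a : L) ≠ 0 := by
      intro h
      exact ha ⟨0, V.zero_mem, by rw [h, mul_zero]⟩
    have hb0 : (b : L) ≠ 0 := by
      intro h
      exact hb ⟨0, V.zero_mem, by rw [h, mul_zero]⟩
    obtain ⟨v, hv, habv⟩ := hab
    rw [Subring.coe_mul] at habv
    apply hπ
    have : π⁻¹ = v * ((a : L)⁻¹ * (b : L)⁻¹) := by
      have hv0 : π * v ≠ 0 := by rw [← habv]; exact mul_ne_zero ha0 hb0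
      have : (a : L)⁻¹ * (b : L)⁻¹ = (π * v)⁻¹ := by rw [← habv, mul_inv]
      rw [this]
      have hv0' : v ≠ 0 := right_ne_zero_of_mul hv0
      field_simp
    rw [this]
    exact V.mul_mem hv (V.mul_mem hainv hbinv)

/-- **(U) Uniqueness of the extension of the Gauss valuation at a good level.**  Under the S18
`Setup` (the chart `A0'` is saturated in `V'`), the Gauss ring `V'` is contained in every
valuation ring `W` of `F1'` containing `O[j]` in which the Gauss units of `O[j]` are units. -/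
theorem S36WV_unique (S' : Setup O π j F1' V' A0' Ainf') (HW : S34C2_Val π F1' W)
    (hadj : adj O j ≤ W)
    (hG : ∀ s ∈ adj O j, (∀ a ∈ adj O j, s ≠ π * a) → s⁻¹ ∈ W) : V' ≤ W := by
  classical
  have hπ0 : π ≠ 0 := HW.π_ne_zero
  -- the chart is contained in `W`
  have hAW : A0' ≤ W := by
    intro y hy
    obtain ⟨hyint, hyF⟩ := (S'.chart0.mem_iff y).1 hy
    exact HW.ic hyF (isIntegral_mono hadj hyint)
  have hAV : A0' ≤ V' := S'.chart0.le_V
  have hBA : adj O j ≤ A0' := by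
    intro y hy
    refine (S'.chart0.mem_iff y).2 ⟨isIntegral_of_mem _ hy, ?_⟩
    have hle : adj O j ≤ F1'.toSubring := by
      unfold adj
      rw [Subring.closure_le]
      rintro z (hz | hz)
      · exact S'.O_le hz
      · rw [Set.mem_singleton_iff] at hz
        rw [hz]; exact S'.j_mem
    exact hle hy
  intro v hv
  obtain ⟨b, hbA, hb0, hbinv, hvb⟩ := S'.chart0.loc v hv
  -- it suffices to show that `b` is a unit of `W`
  suffices hbW : b⁻¹ ∈ W by
    have : v = (v * b) * b⁻¹ := by field_simp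
    rw [this]
    exact W.mul_mem (hAW hvb) hbW
  by_contra hbW
  -- the two prime ideals of the chart
  set I : Ideal A0' := S36WV_I π V' A0' hAV with hI
  set J : Ideal A0' := S36WV_J HW A0' hAW with hJ
  haveI : I.IsPrime := S36WV_I_isPrime hAV S'.π_nonunit S'.V_unif
  have hIJ : I ≤ J := by
    rintro a ⟨u, hu, hau⟩
    have huA : u ∈ A0' := S'.chart0.sat u hu (by rw [← hau]; exact a.2)
    by_cases ha0 : (a : L) = 0
    · exact Or.inl ha0
    · refine Or.inr fun hainv => HW.π_nonunit ?_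
      have hu0 : u ≠ 0 := by
        rintro rfl
        exact ha0 (by rw [hau, mul_zero])
      have : π⁻¹ = u * (a : L)⁻¹ := by
        rw [hau]
        field_simp
      rw [this]
      exact W.mul_mem (hAW huA) hainv
  have hbJ : (⟨b, hbA⟩ : A0') ∈ (J : Set A0') \ I := by
    refine ⟨Or.inr hbW, ?_⟩
    rintro ⟨u, hu, hbu⟩
    apply S'.π_nonunit
    have hbu' : b = π * u := hbu
    have hu0 : u ≠ 0 := by
      rintro rfl
      exact hb0 (by rw [hbu', mul_zero])
    have : π⁻¹ = u * b⁻¹ := by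
      rw [hbu']
      field_simp
    rw [this]
    exact V'.mul_mem hu hbinv
  letI alg : Algebra (adj O j) A0' := (Subring.inclusion hBA).toAlgebra
  have hint : IsIntegral (adj O j) (⟨b, hbA⟩ : A0') := by
    obtain ⟨P, hP, hPb⟩ := ((S'.chart0.mem_iff b).1 hbA).1
    refine ⟨P, hP, ?_⟩
    apply Subtype.ext
    have h1 := Polynomial.hom_eval₂ P (algebraMap (adj O j) A0') A0'.subtype (⟨b, hbA⟩ : A0')
    rw [Subring.coe_zero]
    have h2 : (A0'.subtype).comp (algebraMap (adj O j) A0') = algebraMap (adj O j) L := by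
      ext x
      rfl
    rw [h2] at h1
    have h3 : A0'.subtype (Polynomial.eval₂ (algebraMap (adj O j) A0') (⟨b, hbA⟩ : A0') P) =
        Polynomial.eval₂ (algebraMap (adj O j) L) b P := h1
    exact h3.trans hPb
  have hlt := Ideal.comap_lt_comap_of_integral_mem_sdiff hIJ hbJ hint
  obtain ⟨-, c, hcJ, hcI⟩ := SetLike.lt_iff_le_and_exists.mp hlt
  rw [Ideal.mem_comap] at hcJ hcI
  have hcval : ((algebraMap (adj O j) A0' c : A0') : L) = (c : L) := rfl
  -- `c` is not divisible by `π` in `V'`, hence not in `O[j]`: a Gauss unit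
  have hc1 : ∀ a ∈ adj O j, (c : L) ≠ π * a := by
    intro a ha hca
    exact hcI ⟨a, hAV (hBA ha), by rw [hcval, hca]⟩
  have hcW : (c : L)⁻¹ ∈ W := hG _ c.2 hc1
  rcases hcJ with h0 | h0
  · rw [hcval] at h0
    exact hc1 0 (Subring.zero_mem _) (by rw [h0, mul_zero])
  · rw [hcval] at h0
    exact h0 hcW

end Unique

section GaussUnit

variable {O : Subring L} {π j : L} {F1' : Subfield L} {V' A0' Ainf' : Subring L}

theorem S36WV_adj_le_F1 (S' : Setup O π j F1' V' A0' Ainf') : ∀ y ∈ adj O j, y ∈ F1' := by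
  have hle : adj O j ≤ F1'.toSubring := by
    unfold adj
    rw [Subring.closure_le]
    rintro z (hz | hz)
    · exact S'.O_le hz
    · rw [Set.mem_singleton_iff] at hz
      rw [hz]; exact S'.j_mem
  exact fun y hy => hle hy

theorem S36WV_adj_le_A0 (S' : Setup O π j F1' V' A0' Ainf') : adj O j ≤ A0' := fun y hy =>
  (S'.chart0.mem_iff y).2 ⟨isIntegral_of_mem _ hy, S36WV_adj_le_F1 S' y hy⟩

/-- **the Gauss units of `O[j]` are units of the Gauss ring `V'`** (from the saturation of the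
chart and the normality of `O[j]`) -/
theorem S36WV_gauss_unit (S' : Setup O π j F1' V' A0' Ainf') :
    ∀ s ∈ adj O j, (∀ a ∈ adj O j, s ≠ π * a) → s⁻¹ ∈ V' := by
  intro s hs hsπ
  haveI := S'.dvr
  have hπ0 : π ≠ 0 := CSAT_pi_ne_zero S'
  by_contra hinv
  have hsA : s ∈ A0' := S36WV_adj_le_A0 S' hs
  obtain ⟨v, hv, hsv⟩ := S'.V_unif s (S'.chart0.le_V hsA) hinv
  have hvA : v ∈ A0' := S'.chart0.sat v hv (hsv ▸ hsA)
  have hvint : IsIntegral (adj O j) v := ((S'.chart0.mem_iff v).1 hvA).1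
  haveI := CSAT_isIntegrallyClosed_adj O j S'.j_trans
  letI := FractionRing.liftAlgebra (adj O j) L
  haveI := FractionRing.isScalarTower_liftAlgebra (adj O j) L
  have hπK : algebraMap (adj O j) (FractionRing (adj O j))
      (⟨π, CSAT_O_le_adj O j S'.π_mem⟩ : adj O j) ≠ 0 := by
    intro h0
    have := IsFractionRing.injective (adj O j) (FractionRing (adj O j))
      (h0.trans (map_zero _).symm)
    exact hπ0 (congrArg (fun z : adj O j => (z : L)) this)
  have hx : algebraMap (FractionRing (adj O j)) L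
      (algebraMap (adj O j) (FractionRing (adj O j)) (⟨s, hs⟩ : adj O j) /
        algebraMap (adj O j) (FractionRing (adj O j))
          (⟨π, CSAT_O_le_adj O j S'.π_mem⟩ : adj O j)) = v := by
    rw [map_div₀, ← IsScalarTower.algebraMap_apply, ← IsScalarTower.algebraMap_apply]
    show s / π = v
    rw [hsv]
    field_simp
  have hxint : IsIntegral (adj O j)
      (algebraMap (adj O j) (FractionRing (adj O j)) (⟨s, hs⟩ : adj O j) /
        algebraMap (adj O j) (FractionRing (adj O j))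
          (⟨π, CSAT_O_le_adj O j S'.π_mem⟩ : adj O j)) := by
    refine (isIntegral_algebraMap_iff
      (algebraMap (FractionRing (adj O j)) L).injective).1 ?_
    rw [hx]
    exact hvint
  obtain ⟨y, hy⟩ := IsIntegrallyClosed.isIntegral_iff.mp hxint
  have hvy : v = (y : L) := by
    rw [← hx, ← hy, ← IsScalarTower.algebraMap_apply]
    rfl
  exact hsπ v (hvy ▸ y.2) hsv

end GaussUnit

section W

variable {F1 : Subfield L} (w : L → L)

theorem S36WV_w_zero (hwadd : ∀ x ∈ F1, ∀ y ∈ F1, w (x + y) = w x + w y) : w 0 = 0 := by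
  have h := hwadd 0 F1.zero_mem 0 F1.zero_mem
  rw [add_zero] at h
  linear_combination -h

theorem S36WV_w_neg (hwadd : ∀ x ∈ F1, ∀ y ∈ F1, w (x + y) = w x + w y) {x : L}
    (hx : x ∈ F1) : w (-x) = - w x := by
  have h := hwadd x hx (-x) (F1.neg_mem hx)
  rw [add_neg_cancel, S36WV_w_zero w hwadd] at h
  linear_combination -h

theorem S36WV_w_inv (hw1 : w 1 = 1) (hwadd : ∀ x ∈ F1, ∀ y ∈ F1, w (x + y) = w x + w y)
    (hwmul : ∀ x ∈ F1, ∀ y ∈ F1, w (x * y) = w x * w y) {x : L} (hx : x ∈ F1) :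
    w x⁻¹ = (w x)⁻¹ := by
  by_cases hx0 : x = 0
  · rw [hx0, inv_zero, S36WV_w_zero w hwadd, inv_zero]
  · have h : w x * w x⁻¹ = 1 := by
      rw [← hwmul x hx x⁻¹ (F1.inv_mem hx), mul_inv_cancel₀ hx0, hw1]
    exact eq_inv_of_mul_eq_one_right h

/-- the image `w(V ∩ F1)` -/
def S36WV_image (F1 : Subfield L) (w : L → L) (hw1 : w 1 = 1)
    (hwadd : ∀ x ∈ F1, ∀ y ∈ F1, w (x + y) = w x + w y)
    (hwmul : ∀ x ∈ F1, ∀ y ∈ F1, w (x * y) = w x * w y) (V : Subring L) : Subring L where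
  carrier := {y | y ∈ F1 ∧ w y ∈ V}
  mul_mem' := by
    rintro x y ⟨hx, hx'⟩ ⟨hy, hy'⟩
    exact ⟨F1.mul_mem hx hy, by rw [hwmul x hx y hy]; exact V.mul_mem hx' hy'⟩
  one_mem' := ⟨F1.one_mem, by rw [hw1]; exact V.one_mem⟩
  add_mem' := by
    rintro x y ⟨hx, hx'⟩ ⟨hy, hy'⟩
    exact ⟨F1.add_mem hx hy, by rw [hwadd x hx y hy]; exact V.add_mem hx' hy'⟩
  zero_mem' := ⟨F1.zero_mem, by rw [S36WV_w_zero w hwadd]; exact V.zero_mem⟩
  neg_mem' := by
    rintro x ⟨hx, hx'⟩
    exact ⟨F1.neg_mem hx, by rw [S36WV_w_neg w hwadd hx]; exact V.neg_mem hx'⟩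

theorem S36WV_mem_image (hw1 : w 1 = 1)
    (hwadd : ∀ x ∈ F1, ∀ y ∈ F1, w (x + y) = w x + w y)
    (hwmul : ∀ x ∈ F1, ∀ y ∈ F1, w (x * y) = w x * w y) (V : Subring L) (y : L) :
    y ∈ S36WV_image F1 w hw1 hwadd hwmul V ↔ y ∈ F1 ∧ w y ∈ V := Iff.rfl

theorem S36WV_image_val {π : L} (hw1 : w 1 = 1)
    (hwadd : ∀ x ∈ F1, ∀ y ∈ F1, w (x + y) = w x + w y)
    (hwmul : ∀ x ∈ F1, ∀ y ∈ F1, w (x * y) = w x * w y)
    (hwF : ∀ x ∈ F1, w x ∈ F1) (hwπ : w π = π) {V : Subring L} (H : S34C2_Val π F1 V) :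
    S34C2_Val π F1 (S36WV_image F1 w hw1 hwadd hwmul V) := by
  have hπF : π ∈ F1 := H.le H.π_mem
  refine ⟨fun x hx => hx.1, ?_, ⟨hπF, by rw [hwπ]; exact H.π_mem⟩, ?_⟩
  · intro x hx
    rcases H.val (w x) (hwF x hx) with h | h
    · exact Or.inl ⟨hx, h⟩
    · refine Or.inr ⟨F1.inv_mem hx, ?_⟩
      rw [S36WV_w_inv w hw1 hwadd hwmul hx]
      exact h
  · rintro ⟨-, h⟩
    rw [S36WV_w_inv w hw1 hwadd hwmul hπF, hwπ] at h
    exact H.π_nonunit h

end W

section Abs

variable {O : Subring L} {π j : L} {F1' F1 : Subfield L} {V' A0' Ainf' V1 V2 V3 : Subring L}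

/-- `w s ≡ s` modulo `t V2` on `O[j]` when `w` fixes `O` and `w j = j + t` -/
theorem S36WV_w_adj (hF : F1' ≤ F1) (S' : Setup O π j F1' V' A0' Ainf') (hV2 : V' ≤ V2)
    (w : L → L) (hw1 : w 1 = 1)
    (hwadd : ∀ x ∈ F1, ∀ y ∈ F1, w (x + y) = w x + w y)
    (hwmul : ∀ x ∈ F1, ∀ y ∈ F1, w (x * y) = w x * w y)
    (hwO : ∀ c ∈ O, w c = c) {t : L} (ht : t ∈ V2) (hwj : w j = j + t) :
    ∀ s ∈ adj O j, ∃ e ∈ V2, w s = s + t * e := by
  have hadjF : ∀ y ∈ adj O j, y ∈ F1 := fun y hy => hF (S36WV_adj_le_F1 S' y hy)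
  have hadjV : ∀ y ∈ adj O j, y ∈ V2 := fun y hy =>
    hV2 (S'.chart0.le_V (S36WV_adj_le_A0 S' hy))
  intro s hs
  unfold adj at hs
  induction hs using Subring.closure_induction with
  | mem x hx =>
    rcases hx with hx | hx
    · exact ⟨0, V2.zero_mem, by rw [hwO x hx, mul_zero, add_zero]⟩
    · rw [Set.mem_singleton_iff] at hx
      subst hx
      exact ⟨1, V2.one_mem, by rw [hwj, mul_one]⟩
  | zero => exact ⟨0, V2.zero_mem, by rw [S36WV_w_zero w hwadd, mul_zero, add_zero]⟩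
  | one => exact ⟨0, V2.zero_mem, by rw [hw1, mul_zero, add_zero]⟩
  | add x y hx hy ihx ihy =>
    obtain ⟨e1, he1, h1⟩ := ihx
    obtain ⟨e2, he2, h2⟩ := ihy
    refine ⟨e1 + e2, V2.add_mem he1 he2, ?_⟩
    rw [hwadd x (hadjF x hx) y (hadjF y hy), h1, h2]
    ring
  | neg x hx ihx =>
    obtain ⟨e1, he1, h1⟩ := ihx
    refine ⟨-e1, V2.neg_mem he1, ?_⟩
    rw [S36WV_w_neg w hwadd (hadjF x hx), h1]
    ring
  | mul x y hx hy ihx ihy =>
    obtain ⟨e1, he1, h1⟩ := ihx
    obtain ⟨e2, he2, h2⟩ := ihy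
    refine ⟨e1 * y + x * e2 + t * e1 * e2,
      V2.add_mem (V2.add_mem (V2.mul_mem he1 (hadjV y hy)) (V2.mul_mem (hadjV x hx) he2))
        (V2.mul_mem (V2.mul_mem ht he1) he2), ?_⟩
    rw [hwmul x (hadjF x hx) y (hadjF y hy), h1, h2]
    ring

/-- **W36-VAL, abstract form**: the involution `w` maps the middle valuation ring into itself. -/
theorem S36WV_abs (S' : Setup O π j F1' V' A0' Ainf') (hF : F1' ≤ F1)
    (h2 : S34C2_Val π F1 V2) (hV2 : V' ≤ V2)
    (hthree : ∀ W : Subring L, S34C2_Val π F1 W → V' ≤ W → W = V1 ∨ W = V2 ∨ W = V3)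
    (h12 : V1 ≠ V2) (h23 : V2 ≠ V3) (hV1F : (V1 : Set L) ⊆ F1) (hV3F : (V3 : Set L) ⊆ F1)
    (w : L → L) (hwF : ∀ x ∈ F1, w x ∈ F1) (hw1 : w 1 = 1)
    (hwadd : ∀ x ∈ F1, ∀ y ∈ F1, w (x + y) = w x + w y)
    (hwmul : ∀ x ∈ F1, ∀ y ∈ F1, w (x * y) = w x * w y)
    (hww : ∀ x ∈ F1, w (w x) = x) (hwO : ∀ c ∈ O, w c = c)
    (hw13 : ∀ x ∈ V1, w x ∈ V3) (hw31 : ∀ x ∈ V3, w x ∈ V1)
    {t : L} (ht : t ∈ V2) (htn : t⁻¹ ∉ V2) (hwj : w j = j + t) :
    ∀ x ∈ V2, w x ∈ V2 := by
  classical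
  have hwπ : w π = π := hwO π S'.π_mem
  have hOV2 : O ≤ V2 := fun c hc => hV2 (CSAT_O_le_V S' hc)
  have hjV2 : j ∈ V2 := hV2 (CSAT_j_mem_V S')
  -- the valuation ring `W = w(V2)` of `F1` and its trace on `F1'`
  set W : Subring L := S36WV_image F1 w hw1 hwadd hwmul V2 with hW
  have HW : S34C2_Val π F1 W := S36WV_image_val w hw1 hwadd hwmul hwF hwπ h2
  have HW' : S34C2_Val π F1' (W ⊓ F1'.toSubring) := by
    refine ⟨fun x hx => hx.2, ?_, ⟨HW.π_mem, S'.O_le S'.π_mem⟩, fun h => HW.π_nonunit h.1⟩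
    intro x hx
    rcases HW.val x (hF hx) with h | h
    · exact Or.inl ⟨h, hx⟩
    · exact Or.inr ⟨h, F1'.inv_mem hx⟩
  have hadj : adj O j ≤ W ⊓ F1'.toSubring := by
    unfold adj
    rw [Subring.closure_le]
    rintro z (hz | hz)
    · exact ⟨⟨hF (S'.O_le hz), by rw [hwO z hz]; exact hOV2 hz⟩, S'.O_le hz⟩
    · rw [Set.mem_singleton_iff] at hz
      subst hz
      exact ⟨⟨hF S'.j_mem, by rw [hwj]; exact V2.add_mem hjV2 ht⟩, S'.j_mem⟩
  have hG : ∀ s ∈ adj O j, (∀ a ∈ adj O j, s ≠ π * a) → s⁻¹ ∈ W ⊓ F1'.toSubring := by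
    intro s hs hsπ
    have hsF' : s ∈ F1' := S36WV_adj_le_F1 S' s hs
    have hsF : s ∈ F1 := hF hsF'
    have hsV2 : s ∈ V2 := hV2 (S'.chart0.le_V (S36WV_adj_le_A0 S' hs))
    have hsinv : s⁻¹ ∈ V2 := hV2 (S36WV_gauss_unit S' s hs hsπ)
    have hs0 : s ≠ 0 := by
      rintro rfl
      exact hsπ 0 (Subring.zero_mem _) (by rw [mul_zero])
    obtain ⟨e, he, hse⟩ := S36WV_w_adj hF S' hV2 w hw1 hwadd hwmul hwO ht hwj s hs
    refine ⟨⟨F1.inv_mem hsF, ?_⟩, F1'.inv_mem hsF'⟩
    rw [S36WV_w_inv w hw1 hwadd hwmul hsF, hse]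
    by_cases hte : t * e = 0
    · rw [hte, add_zero]
      exact hsinv
    · refine h2.inv_add_mem hsV2 hsinv hs0 (V2.mul_mem ht he) ?_
      intro h
      apply htn
      have ht0 : t ≠ 0 := left_ne_zero_of_mul hte
      have he0 : e ≠ 0 := right_ne_zero_of_mul hte
      have : t⁻¹ = e * (t * e)⁻¹ := by
        field_simp
      rw [this]
      exact V2.mul_mem he h
  have hV'W : V' ≤ W := fun v hv => (S36WV_unique S' HW' hadj hG hv).1
  -- `w w = id` on the valuation rings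
  have hmemW : ∀ x ∈ F1, x ∈ V2 → w x ∈ W := fun x hxF hx =>
    ⟨hwF x hxF, by rw [hww x hxF]; exact hx⟩
  rcases hthree W HW hV'W with h | h | h
  · -- `W = V1`: then `V2 = V3`
    exfalso
    apply h23
    apply le_antisymm
    · intro x hx
      have h1 : w x ∈ V1 := h ▸ hmemW x (h2.le hx) hx
      have h3 := hw13 _ h1
      rwa [hww x (h2.le hx)] at h3
    · intro x hx
      have h1 : w x ∈ W := h ▸ hw31 x hx
      have h3 := h1.2
      rwa [hww x (hV3F hx)] at h3
  · intro x hx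
    have hx' : x ∈ W := h ▸ hx
    exact hx'.2
  · -- `W = V3`: then `V1 = V2`
    exfalso
    apply h12
    apply le_antisymm
    · intro x hx
      have h1 : w x ∈ W := h ▸ hw13 x hx
      have h3 := h1.2
      rwa [hww x (hV1F hx)] at h3
    · intro x hx
      have h1 : w x ∈ V3 := h ▸ hmemW x (h2.le hx) hx
      have h3 := hw31 _ h1
      rwa [hww x (h2.le hx)] at h3

end Abs

end Fermat.Agent.S36_helper12_W36VAL
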