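import Fermat.Agent.S36_helper12_W36VALK
import Fermat.Agent.S36_helper4_XADefs

/-!
# S36, GEO36 W36-VAL: adapter to helper4's `S36XA_W` (helper12)

`hw22` / `hwt` of `S36SC_abs` with the Atkin-Lehner involution spelled `S36XA_W K1 q M' hq hqM`
(helper4's `XADefs`, the spelling of `S36XA_NewBeta` and of the field `scale`).
-/

set_option autoImplicit false
set_option linter.unusedSectionVars false
set_option linter.unusedVariables false

noncomputable section

open ModularCurve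
open Fermat.Agent.S18_helper13_GAUSS Fermat.Agent.S18_helper25_COREDefs
open Fermat.Agent.S36_helper5_VKDefs Fermat.Agent.S36_helper4_XADefs
open Fermat.Agent.S36_helper12_W36VALK

namespace Fermat.Agent.S36_helper12_W36VALX

variable (A : ValuationSubring (AlgebraicClosure ℚ))
  (K1 : IntermediateField ℚ (AlgebraicClosure ℚ)) [IsDiscreteValuationRing (S18K_O1 A K1)]
  (q M' : ℕ) [NeZero M'] [NeZero q] [NeZero (M' * q)] [NeZero (q * q)] [NeZero (q ^ 2)]
  [NeZero (M' * q * q)] (hq : q.Prime) (hqM : ¬ q ∣ M')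

/-- `hw22` in helper4's spelling of `w` -/
theorem S36WV_hw22_XA (hA : A.LiesOverPrime q)
    (hunr : Associated (S18K_D A K1).π ((q : ℕ) : S18K_O1 A K1)) :
    ∀ x ∈ S36VK_Vmid A K1 q M', S36XA_W K1 q M' hq hqM x ∈ S36VK_Vmid A K1 q M' :=
  fun x hx => S36WV_hw22 A K1 q M' hq hqM hA hunr x hx

/-- `hw22` as an equivalence on `F1`, in helper4's spelling of `w` -/
theorem S36WV_hw22_iff_XA (hA : A.LiesOverPrime q)
    (hunr : Associated (S18K_D A K1).π ((q : ℕ) : S18K_O1 A K1))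
    {x : LaurentSeries K1} (hx : x ∈ S18K_F1 K1 (M' * q * q)) :
    S36XA_W K1 q M' hq hqM x ∈ S36VK_Vmid A K1 q M' ↔ x ∈ S36VK_Vmid A K1 q M' :=
  S36WV_hw22_iff A K1 q M' hq hqM hA hunr hx

/-- `hwt` in helper4's spelling of `w` -/
theorem S36WV_hwt_XA :
    ∃ u, u ∈ S36VK_Vmid A K1 q M' ∧ u⁻¹ ∈ S36VK_Vmid A K1 q M' ∧
      S36XA_W K1 q M' hq hqM (S36VK_t K1 q) = S36VK_t K1 q * u :=
  S36WV_hwt A K1 q M' hq hqM

/-- `w t = - t` in helper4's spelling of `w` -/
theorem S36WV_wt_XA : S36XA_W K1 q M' hq hqM (S36VK_t K1 q) = - S36VK_t K1 q :=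
  Fermat.Agent.S36_helper5_VMIDK.S36VK_wL_t K1 q M' hq hqM

end Fermat.Agent.S36_helper12_W36VALX
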