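import Mathlib
import Fermat.Agent.S36_helper13_ROOTSK
import Fermat.Agent.S36_helper2_TRIFAMP
import Fermat.Agent.S36_helper2_SETUP3

/-!
# S36, GEO36 (helper13): ROOTSX = the field `roots` at the carriers FROM `hTX`

`S36RK_roots` (ROOTSK) with its hypothesis `hB` discharged by helper2's `S36TFP_branch_pow`
(FACT + BRANCH36 at the exponent `P`), for helper9's canonical family
`R := S36PTS_R π V1 V_0 A' A0` of the local rings at the crossings of the finite chart.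

Hypotheses left: `hTX` (the regular triple at every crossing: helper26 HTX / helper17 TRIPLEK),
`hptα`, `hptβ` (the data of helper6's `S36TPT_rel` at every crossing and at its mirror: TORK).

* `S36RX_hB`    : `hB` of `S36XB_roots_abs` at `P = lam ^ k`, `lam ^ k ∣ d`, at helper5's carriers,
  from `hTX` only;
* `S36RX_roots` : **the field `roots` of `S36XB_LocContract` verbatim**, from `hTX`, `hptα`,
  `hptβ`.
-/

set_option autoImplicit false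
set_option linter.unusedVariables false
set_option linter.unusedSectionVars false
set_option linter.style.haveILetI false

open HahnSeries ModularCurve
open Fermat.Agent.S18_helper13_GAUSS Fermat.Agent.S18_helper9_CDefs
  Fermat.Agent.S18_helper3_LOCRING
  Fermat.Agent.S18_helper25_COREDefs Fermat.Agent.S34_helper12_CDefs
  Fermat.Agent.S34_helper20_WQ Fermat.Agent.S34_helper20_V0 Fermat.Agent.S34_helper20_V0K
  Fermat.Agent.S34_helper27_V3K Fermat.Agent.S36_helper20_WQQ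
  Fermat.Agent.S36_helper5_VKDefs Fermat.Agent.S36_helper5_VMIDK
  Fermat.Agent.S36_helper23_V0QB
  Fermat.Agent.S35_helper27_XD2Defs Fermat.Agent.S36_helper4_XADefs
  Fermat.Agent.S36_helper3_LOCK Fermat.Agent.S36_helper3_ROOTS
  Fermat.Agent.S36_helper6_TORPT Fermat.Agent.S36_helper6_TORIC
  Fermat.Agent.S34_helper27_C2Defs Fermat.Agent.S34_helper13_KEY
  Fermat.Agent.S36_helper17_TRIPLEX
  Fermat.Agent.S36_helper9_DICH Fermat.Agent.S36_helper9_PTS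
  Fermat.Agent.S36_helper2_SETUP3 Fermat.Agent.S36_helper2_TRIFAMP
  Fermat.Agent.S36_helper13_REDK Fermat.Agent.S36_helper13_NORMK
  Fermat.Agent.S36_helper13_ROOTSK

noncomputable section

namespace Fermat.Agent.S36_helper13_ROOTSX

local notation "Qb" => AlgebraicClosure ℚ

variable (A : ValuationSubring Qb) (K1 : IntermediateField ℚ Qb)
  [IsDiscreteValuationRing (S18K_O1 A K1)]
  (q M' : ℕ) [NeZero M'] [NeZero q] [NeZero (M' * q)] [NeZero (M' * q * q)] [NeZero (q ^ 2)]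
  [NeZero (q * q)] (hq : q.Prime) (hqM : ¬ q ∣ M')

set_option maxHeartbeats 1600000 in
set_option synthInstance.maxHeartbeats 400000 in
/-- **`hB` at helper5's carriers from `hTX`** (helper2's `S36TFP_branch_pow` with the carrier
inputs discharged): FACT + BRANCH36 with exponent `lam ^ k ∣ d` at every crossing. -/
theorem S36RX_hB (hA : A.LiesOverPrime q)
    (hunr : Associated (S18K_D A K1).π ((q : ℕ) : S18K_O1 A K1))
    {lam : ℕ} (hlam : lam.Prime) (hlq : lam ≠ q) (d k : ℕ) (hkd : lam ^ k ∣ d)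
    {A' : Subring (LaurentSeries K1)}
    (hTX : ∀ (hπ : S18K_π A K1 ∈ S18K_A0 A K1 (M' * q * q))
      (m' : Ideal (S18K_A0 A K1 (M' * q * q))) (hm' : m'.IsMaximal),
      (⟨S18K_π A K1, hπ⟩ : S18K_A0 A K1 (M' * q * q)) ∈ m' →
      S36DI_Cross (S18K_V A K1 (M' * q * q)) (S36VK_V0 A K1 q M' hq hqM) A'
        (S18K_A0 A K1 (M' * q * q)) m' →
      ∃ S1 T2 : LaurentSeries K1,
        S36TX_Triple q (S18K_π A K1) S1 T2 (S18K_V A K1 (M' * q * q))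
          (S36VK_Vmid A K1 q M') (S36VK_V0 A K1 q M' hq hqM)
          (@locRing _ _ (S18K_A0 A K1 (M' * q * q)) m' hm'.isPrime) ∧
        S1⁻¹ ∈ S18K_V A K1 (M' * q * q) ∧ T2⁻¹ ∈ S36VK_V0 A K1 q M' hq hqM ∧
        S1⁻¹ ∈ S36VK_Vmid A K1 q M') :
    ∀ (f1 : LaurentSeries K1) (hf1 : f1 ∈ S18K_F1 K1 (M' * q * q)),
    S36XB_Good A K1 M' q d hq hqM (S36VK_Vmid A K1 q M') (S36VK_V0 A K1 q M' hq hqM)
      f1 hf1 → ∀ i, ∀ G : LaurentSeries K1,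
    RedPow (S18K_π A K1)
      (S18K_V A K1 (M' * q * q) ⊓ S36VK_Vmid A K1 q M' ⊓ S36VK_V0 A K1 q M' hq hqM :
        Subring (LaurentSeries K1)) (lam ^ k) f1 G →
    ∃ u0 g0 w1 w2 w3 : LaurentSeries K1,
      u0 ∈ S36PTS_R (S18K_π A K1) (S18K_V A K1 (M' * q * q)) (S36VK_V0 A K1 q M' hq hqM) A'
        (S18K_A0 A K1 (M' * q * q)) i ∧
      u0⁻¹ ∈ S36PTS_R (S18K_π A K1) (S18K_V A K1 (M' * q * q)) (S36VK_V0 A K1 q M' hq hqM) A'
        (S18K_A0 A K1 (M' * q * q)) i ∧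
      g0 ∈ S18K_F1 K1 (M' * q * q) ∧ f1 = u0 * g0 ^ (lam ^ k) ∧
      (w1 ∈ S36PTS_R (S18K_π A K1) (S18K_V A K1 (M' * q * q)) (S36VK_V0 A K1 q M' hq hqM) A'
          (S18K_A0 A K1 (M' * q * q)) i ∧
        w1⁻¹ ∈ S36PTS_R (S18K_π A K1) (S18K_V A K1 (M' * q * q))
          (S36VK_V0 A K1 q M' hq hqM) A' (S18K_A0 A K1 (M' * q * q)) i ∧
        ∃ c ∈ S18K_V A K1 (M' * q * q), G * g0⁻¹ = w1 * (1 + S18K_π A K1 * c)) ∧
      (w2 ∈ S36PTS_R (S18K_π A K1) (S18K_V A K1 (M' * q * q)) (S36VK_V0 A K1 q M' hq hqM) A'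
          (S18K_A0 A K1 (M' * q * q)) i ∧
        w2⁻¹ ∈ S36PTS_R (S18K_π A K1) (S18K_V A K1 (M' * q * q))
          (S36VK_V0 A K1 q M' hq hqM) A' (S18K_A0 A K1 (M' * q * q)) i ∧
        ∃ c ∈ S36VK_Vmid A K1 q M', G * g0⁻¹ = w2 * (1 + S18K_π A K1 * c)) ∧
      (w3 ∈ S36PTS_R (S18K_π A K1) (S18K_V A K1 (M' * q * q)) (S36VK_V0 A K1 q M' hq hqM) A'
          (S18K_A0 A K1 (M' * q * q)) i ∧
        w3⁻¹ ∈ S36PTS_R (S18K_π A K1) (S18K_V A K1 (M' * q * q))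
          (S36VK_V0 A K1 q M' hq hqM) A' (S18K_A0 A K1 (M' * q * q)) i ∧
        ∃ c ∈ S36VK_V0 A K1 q M' hq hqM, G * g0⁻¹ = w3 * (1 + S18K_π A K1 * c)) := by
  obtain ⟨hmid, -, -, -, -, -, -, hkey, -⟩ := S36VK_main A K1 q M' hq hqM hA hunr
  obtain ⟨S, H1, H2, H3⟩ := S36S3_setupMid A K1 q M' hq hqM hA hmid hkey
  have hd01 : M' ∣ M' * q := dvd_mul_right M' q
  have hd02 : M' ∣ M' * q * q := hd01.trans (dvd_mul_right (M' * q) q)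
  exact S36TFP_branch_pow d hq hqM hTX hA hlam hlq k hkd S H1 H2 H3
    (S34V3K_val1 A K1 M') (Fermat.Agent.S34_helper13_KEYK.S34KEYK_sep A K1 M')
    (S36RK_deg A K1 M' (M' * q * q)) (S34V3K_V_mono A K1 hd02)
    ((S34V3K_V_mono A K1 hd01).trans hmid.2.1) (S36VK_V0_le A K1 q M' hq hqM)

set_option maxHeartbeats 1600000 in
set_option synthInstance.maxHeartbeats 400000 in
/-- **ROOTSX = THE FIELD `roots` OF `S36XB_LocContract` AT THE CARRIERS, FROM `hTX`, `hptα`,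
`hptβ`**, for helper9's canonical family `R := S36PTS_R π V1 V_0 A' A0`, at
`d = lam ^ (2 (c1 + c2) + 1 - c1)`, `P = lam ^ (c1 + c2 + 1)`. -/
theorem S36RX_roots (hadm : S18K_Admissible A K1 q) (hA : A.LiesOverPrime q)
    (hunr : Associated (S18K_D A K1).π ((q : ℕ) : S18K_O1 A K1))
    {lam c1 c2 u m' : ℕ} (hlam : lam.Prime) (hlq : lam ≠ q)
    (hqu : q + 1 = lam ^ c1 * u) (hu : ¬ lam ∣ u)
    (hqm : q - 1 = lam ^ c2 * m') (hm' : ¬ lam ∣ m')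
    {A' : Subring (LaurentSeries K1)}
    (hTX : ∀ (hπ : S18K_π A K1 ∈ S18K_A0 A K1 (M' * q * q))
      (m' : Ideal (S18K_A0 A K1 (M' * q * q))) (hm' : m'.IsMaximal),
      (⟨S18K_π A K1, hπ⟩ : S18K_A0 A K1 (M' * q * q)) ∈ m' →
      S36DI_Cross (S18K_V A K1 (M' * q * q)) (S36VK_V0 A K1 q M' hq hqM) A'
        (S18K_A0 A K1 (M' * q * q)) m' →
      ∃ S1 T2 : LaurentSeries K1,
        S36TX_Triple q (S18K_π A K1) S1 T2 (S18K_V A K1 (M' * q * q))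
          (S36VK_Vmid A K1 q M') (S36VK_V0 A K1 q M' hq hqM)
          (@locRing _ _ (S18K_A0 A K1 (M' * q * q)) m' hm'.isPrime) ∧
        S1⁻¹ ∈ S18K_V A K1 (M' * q * q) ∧ T2⁻¹ ∈ S36VK_V0 A K1 q M' hq hqM ∧
        S1⁻¹ ∈ S36VK_Vmid A K1 q M')
    (hptα : ∀ i, ∃ R' : Subring (LaurentSeries K1),
      S36XB_PtData (S34V3K_F1_mono K1 (S36XA_level_dvd M' q)) (S18K_O A K1)
        (S18K_V A K1 (M' * q)) (S34V0K_V A K1 q M' (M' * q) hq hqM (Nat.mul_comm M' q))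
        (S18K_V A K1 (M' * q * q)) (S36VK_Vmid A K1 q M') (S36VK_V0 A K1 q M' hq hqM) q
        R' (S36PTS_R (S18K_π A K1) (S18K_V A K1 (M' * q * q)) (S36VK_V0 A K1 q M' hq hqM) A'
          (S18K_A0 A K1 (M' * q * q)) i))
    (hptβ : ∀ i, ∃ Rm' Rm : Subring (LaurentSeries K1),
      S36XB_PtData (S34V3K_F1_mono K1 (S36XA_level_dvd M' q)) (S18K_O A K1)
        (S18K_V A K1 (M' * q)) (S34V0K_V A K1 q M' (M' * q) hq hqM (Nat.mul_comm M' q))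
        (S18K_V A K1 (M' * q * q)) (S36VK_Vmid A K1 q M') (S36VK_V0 A K1 q M' hq hqM) q
        Rm' Rm ∧
      (∀ x ∈ S36PTS_R (S18K_π A K1) (S18K_V A K1 (M' * q * q)) (S36VK_V0 A K1 q M' hq hqM) A'
          (S18K_A0 A K1 (M' * q * q)) i, S36XA_W K1 q M' hq hqM x ∈ Rm) ∧
      (∀ x ∈ Rm, S36XA_W K1 q M' hq hqM x ∈
        S36PTS_R (S18K_π A K1) (S18K_V A K1 (M' * q * q)) (S36VK_V0 A K1 q M' hq hqM) A'
          (S18K_A0 A K1 (M' * q * q)) i)) :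
    ∀ (f1 : LaurentSeries K1) (hf1 : f1 ∈ S18K_F1 K1 (M' * q * q)),
    S36XB_Good A K1 M' q (lam ^ (2 * (c1 + c2) + 1 - c1)) hq hqM (S36VK_Vmid A K1 q M')
      (S36VK_V0 A K1 q M' hq hqM) f1 hf1 →
    ∃ G1 G2 G3 cα cα' cβ cβ' : LaurentSeries K1,
      (G1 ≠ 0 ∧ G1 ∈ S18K_V A K1 (M' * q * q) ∧ G1⁻¹ ∈ S18K_V A K1 (M' * q * q) ∧
        f1 - G1 ^ (lam ^ (c1 + c2 + 1)) ∈ S36TOR_nu (S18K_V A K1 (M' * q * q))) ∧
      (G2 ≠ 0 ∧ G2 ∈ S36VK_Vmid A K1 q M' ∧ G2⁻¹ ∈ S36VK_Vmid A K1 q M' ∧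
        f1 - G2 ^ (lam ^ (c1 + c2 + 1)) ∈ S36TOR_nu (S36VK_Vmid A K1 q M')) ∧
      (G3 ≠ 0 ∧ G3 ∈ S36VK_V0 A K1 q M' hq hqM ∧ G3⁻¹ ∈ S36VK_V0 A K1 q M' hq hqM ∧
        f1 - G3 ^ (lam ^ (c1 + c2 + 1)) ∈ S36TOR_nu (S36VK_V0 A K1 q M' hq hqM)) ∧
      (cα ≠ 0 ∧ cα ∈ S18K_O A K1 ∧ cα⁻¹ ∈ S18K_O A K1) ∧
      (cα' ≠ 0 ∧ cα' ∈ S18K_O A K1 ∧ cα'⁻¹ ∈ S18K_O A K1) ∧
      (cβ ≠ 0 ∧ cβ ∈ S18K_O A K1 ∧ cβ⁻¹ ∈ S18K_O A K1) ∧
      (cβ' ≠ 0 ∧ cβ' ∈ S18K_O A K1 ∧ cβ'⁻¹ ∈ S18K_O A K1) ∧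
      ∀ i, ∃ u g w1 w2 w3 : LaurentSeries K1,
        u ∈ S36PTS_R (S18K_π A K1) (S18K_V A K1 (M' * q * q)) (S36VK_V0 A K1 q M' hq hqM) A'
          (S18K_A0 A K1 (M' * q * q)) i ∧
        u⁻¹ ∈ S36PTS_R (S18K_π A K1) (S18K_V A K1 (M' * q * q)) (S36VK_V0 A K1 q M' hq hqM) A'
          (S18K_A0 A K1 (M' * q * q)) i ∧
        g ∈ S18K_F1 K1 (M' * q * q) ∧ f1 = u * g ^ (lam ^ (c1 + c2 + 1)) ∧
        w1 ∈ S36PTS_R (S18K_π A K1) (S18K_V A K1 (M' * q * q)) (S36VK_V0 A K1 q M' hq hqM) A'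
          (S18K_A0 A K1 (M' * q * q)) i ∧
        w2 ∈ S36PTS_R (S18K_π A K1) (S18K_V A K1 (M' * q * q)) (S36VK_V0 A K1 q M' hq hqM) A'
          (S18K_A0 A K1 (M' * q * q)) i ∧
        w3 ∈ S36PTS_R (S18K_π A K1) (S18K_V A K1 (M' * q * q)) (S36VK_V0 A K1 q M' hq hqM) A'
          (S18K_A0 A K1 (M' * q * q)) i ∧
        G1 / g - w1 ∈ S36TOR_nu (S18K_V A K1 (M' * q * q)) ∧
        G2 / g - w2 ∈ S36TOR_nu (S36VK_Vmid A K1 q M') ∧
        G3 / g - w3 ∈ S36TOR_nu (S36VK_V0 A K1 q M' hq hqM) ∧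
        cα * w1 * w2 ^ (q - 1) - cα' * w3 ^ q ∈
          S36TOR_nu (S36PTS_R (S18K_π A K1) (S18K_V A K1 (M' * q * q))
            (S36VK_V0 A K1 q M' hq hqM) A' (S18K_A0 A K1 (M' * q * q)) i) ∧
        cβ * w3 * w2 ^ (q - 1) - cβ' * w1 ^ q ∈
          S36TOR_nu (S36PTS_R (S18K_π A K1) (S18K_V A K1 (M' * q * q))
            (S36VK_V0 A K1 q M' hq hqM) A' (S18K_A0 A K1 (M' * q * q)) i) :=
  S36RK_roots A K1 q M' hq hqM hadm hA hunr hlam hlq hqu hu hqm hm' _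
    (S36RX_hB A K1 q M' hq hqM hA hunr hlam hlq _ (c1 + c2 + 1)
      (pow_dvd_pow lam (by omega)) hTX)
    hptα hptβ

end Fermat.Agent.S36_helper13_ROOTSX
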