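import Fermat.Agent.S36_helper18_Contracts
import Fermat.Agent.S36_helper26_P6Q
import Fermat.Agent.S54_Frob

/-!
# S36 (helper14): the endgame of TOP36

`S36END_fix` : the input `hfix` of the abstract top (at every prime `q ≠ lam` with `q² ∥ M` there
is a place `A` over `q` such that no nonzero eigenvector of `O' ⊗ T_lam J₀(M)` with the
eigenvalues of the newform is fixed by the inertia group of `A`) from

* (GEO36) `S36C_GeoInput` (helper18's contract),
* (T3) `S36P6_new` (helper26, landed): every eigenvector is new,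
* (B): a new vector of `O' ⊗ T_lam J₀(N' q q)` fixed by the inertia group of `A` is `0`, given
  (GEO36) for the place `A` with an exponent `c` (hypothesis `hB`).

`S36END_frozen` : **the frozen statement S36** (`S36C_Frozen`) from (GEO36), (B) and the abstract
top (C) (hypothesis `hC`).
-/

set_option autoImplicit false
set_option linter.unusedSectionVars false
set_option linter.unusedVariables false
set_option linter.style.haveILetI false
set_option linter.overlappingInstances false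
set_option maxHeartbeats 1600000
set_option synthInstance.maxHeartbeats 400000

open Polynomial
open scoped TensorProduct
open CuspForm

noncomputable section

namespace Fermat.Agent.S36_helper14_END

local notation "Qb" => AlgebraicClosure ℚ
local notation "GQ" => (AlgebraicClosure ℚ ≃ₐ[ℚ] AlgebraicClosure ℚ)

open Fermat.Agent.S30_helper1_TATE Fermat.Agent.S30_helper27_TATEC
  Fermat.Agent.S35_helper12_BR Fermat.Agent.S35_helper6_PUSH
  Fermat.Agent.S36_helper18_Contracts Fermat.Agent.S36_helper26_P6Q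

/-- **(B)**, as a `Prop`: for one place `A` and one exponent `c` with (GEO36), a new vector of
`O' ⊗ T_lam J₀(N' q q)` fixed by the inertia group of `A` vanishes. -/
def S36END_B : Prop :=
  ∀ (N' q lam : ℕ) [NeZero N'] [NeZero q] [NeZero (N' * q)] [NeZero (N' * q * q)]
    [Fact lam.Prime]
    (O' : Type) [CommRing O'] [IsDomain O'] [CharZero O'] [Algebra ℤ_[lam] O']
    (A : ValuationSubring Qb) (c : ℕ),
    S36C_Geo (N' * q * q) lam A (S35PU_alpha (N' * q) q) (S35PU_beta (N' * q) q) c →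
    ∀ v : O' ⊗[ℤ_[lam]] S30T_Tate (ModularCurve.JZero (N' * q * q)) lam,
      (S35BR_tateMap (p := lam) (S35PU_alpha (N' * q) q)).baseChange O' v = 0 →
      (S35BR_tateMap (p := lam) (S35PU_beta (N' * q) q)).baseChange O' v = 0 →
      (∀ τ ∈ A.inertiaSubgroupIn ℚ, (S30TC_rho (N' * q * q) lam τ).baseChange O' v = v) →
      v = 0

/-- the input `hfix` of the abstract top, as a `Prop`. -/
def S36END_Fix (M : ℕ) [NeZero M] (lam : ℕ) [Fact lam.Prime] (S : Finset ℕ)
    (O' : Type) [CommRing O'] [IsDomain O'] [IsDiscreteValuationRing O']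
    [IsAdicComplete (IsLocalRing.maximalIdeal O') O']
    (hlamO' : (lam : O') ∈ IsLocalRing.maximalIdeal O')
    (χ : CuspForm.heckeAlgebra M 2 (↑S : Set ℕ) →+* O') : Prop :=
  letI : Algebra ℤ_[lam] O' := (Fermat.Agent.S30_helper25_ZP.S30ZP_zpLocal lam O' hlamO').toAlgebra
  ∀ q : ℕ, q.Prime → q ≠ lam → M.factorization q = 2 →
    ∃ A : ValuationSubring Qb, A.LiesOverPrime q ∧
      ∀ v : O' ⊗[ℤ_[lam]] (S30T_Tate (ModularCurve.JZero M) lam),
        (∀ (ℓ : ℕ) (hℓ : ℓ.Prime) (hℓM : ¬ ℓ ∣ M) (hℓS : ℓ ∉ (↑S : Set ℕ)),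
          (S30TC_T M lam ℓ).baseChange O' v = χ (CuspForm.heckeAlgebra.T hℓ hℓM hℓS) • v) →
        (∀ τ ∈ A.inertiaSubgroupIn ℚ, (S30TC_rho M lam τ).baseChange O' v = v) → v = 0

/-- **the input `hfix` of the abstract top** from (GEO36), (T3) and (B). -/
theorem S36END_fix (hgeo : S36C_GeoInput) (hB : S36END_B)
    {M : ℕ} [NeZero M] {g : CuspForm (CongruenceSubgroup.Gamma0 M) 2} (hg : g.IsNewform)
    (lam : ℕ) [Fact lam.Prime] (S : Finset ℕ)
    (O' : Type) [CommRing O'] [IsDomain O'] [IsDiscreteValuationRing O']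
    [IsAdicComplete (IsLocalRing.maximalIdeal O') O'] [CharZero O']
    (hlamO' : (lam : O') ∈ IsLocalRing.maximalIdeal O')
    (hlam2 : lam ≠ 2)
    (chig : CuspForm.heckeAlgebra M 2 (↑S : Set ℕ) →+* ℂ)
    (hchig : ∀ (ℓ : ℕ) (hℓ : ℓ.Prime) (hℓM : ¬ ℓ ∣ M) (hℓS : ℓ ∉ (↑S : Set ℕ)),
      chig (CuspForm.heckeAlgebra.T hℓ hℓM hℓS) = ModularFormClass.qCoeff g ℓ)
    (iota : chig.range →+* O')
    (hlamS : lam ∈ S) (hMS : ∀ q : ℕ, q.Prime → q ∣ M → q ∈ S) :
    S36END_Fix M lam S O' hlamO' (iota.comp chig.rangeRestrict) := by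
  letI : Algebra ℤ_[lam] O' :=
    (Fermat.Agent.S30_helper25_ZP.S30ZP_zpLocal lam O' hlamO').toAlgebra
  intro q hq hqlam h2
  obtain ⟨N', hN', hqN'⟩ := S36C_level (NeZero.ne M) hq h2
  subst hN'
  haveI : NeZero q := ⟨hq.ne_zero⟩
  haveI : NeZero N' := ⟨fun h0 => NeZero.ne (N' * q * q) (by rw [h0, zero_mul, zero_mul])⟩
  haveI : NeZero (N' * q) := ⟨fun h0 => NeZero.ne (N' * q * q) (by rw [h0, zero_mul])⟩
  obtain ⟨A, hA, -⟩ := Fermat.Agent.S54Frob.exists_frobenius q hq
  obtain ⟨c, hc⟩ := hgeo N' q lam hq Fact.out hqlam hlam2 hqN' A hA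
  refine ⟨A, hA, fun v hv hfix => ?_⟩
  obtain ⟨h1, h2⟩ := S36P6_new_apply (N' * q) q hq hg lam S O' hlamO' chig hchig iota hlamS hMS
    v hv
  exact hB N' q lam O' A c hc v h1 h2 hfix

/-- **the abstract top (C)**, as a `Prop`: the frozen statement S36 from `hfix`. -/
def S36END_C : Prop :=
  ∀ {M : ℕ} [NeZero M] {g : CuspForm (CongruenceSubgroup.Gamma0 M) 2} (hg : g.IsNewform)
    (lam : ℕ) [Fact lam.Prime]
    (S : Finset ℕ)
    (O' : Type) [CommRing O'] [IsDomain O'] [IsDiscreteValuationRing O']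
    [IsAdicComplete (IsLocalRing.maximalIdeal O') O'] [Finite (IsLocalRing.ResidueField O')]
    [CharZero O'] (hlamO' : (lam : O') ∈ IsLocalRing.maximalIdeal O')
    (chig : CuspForm.heckeAlgebra M 2 (↑S : Set ℕ) →+* ℂ)
    (hchig : ∀ (ℓ : ℕ) (hℓ : ℓ.Prime) (hℓM : ¬ ℓ ∣ M) (hℓS : ℓ ∉ (↑S : Set ℕ)),
      chig (CuspForm.heckeAlgebra.T hℓ hℓM hℓS) = ModularFormClass.qCoeff g ℓ)
    (iota : chig.range →+* O')
    (hlamS : lam ∈ S) (hMS : ∀ q : ℕ, q.Prime → q ∣ M → q ∈ S)
    (hfix : S36END_Fix M lam S O' hlamO' (iota.comp chig.rangeRestrict)),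
    ∃ (O'' : Type) (_ : CommRing O'') (_ : IsDomain O'') (_ : IsDiscreteValuationRing O'')
      (_ : IsAdicComplete (IsLocalRing.maximalIdeal O'') O'') (_ : Finite (IsLocalRing.ResidueField O''))
      (_ : CharZero O'') (_ : Algebra O' O'') (_ : Module.Finite O' O'') (_ : IsLocalHom (algebraMap O' O'')),
      Function.Injective (algebraMap O' O'') ∧
      ∃ ρ : GaloisRepAdic O'',
        (∀ (ℓ : ℕ) (hℓ : ℓ.Prime) (hℓM : ¬ ℓ ∣ M) (hℓS : ℓ ∉ (↑S : Set ℕ)),
          ∀ A : ValuationSubring (AlgebraicClosure ℚ), A.LiesOverPrime ℓ →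
            ∀ σ : AlgebraicClosure ℚ ≃ₐ[ℚ] AlgebraicClosure ℚ, A.IsFrobeniusAt σ ℓ →
              LinearMap.charpoly (ρ.ρ σ) =
                X ^ 2 - C (algebraMap O' O'' ((iota.comp chig.rangeRestrict) (CuspForm.heckeAlgebra.T hℓ hℓM hℓS))) * X
                  + C ((ℓ : O''))) ∧
        (∀ q : ℕ, q.Prime → q ≠ lam → M.factorization q = 2 → ¬ ρ.IsUnipotentOnInertiaAt q)

/-- **the frozen statement S36** from (GEO36), (B) and the abstract top (C). -/
theorem S36END_frozen (hgeo : S36C_GeoInput) (hB : S36END_B) (hC : S36END_C) : S36C_Frozen := by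
  intro M _ g hg lam _ S O' _ _ _ _ _ _ hlamO' hlam2 chig hchig iota hlamS hMS hres
  exact hC hg lam S O' hlamO' chig hchig iota hlamS hMS
    (S36END_fix hgeo hB hg lam S O' hlamO' hlam2 chig hchig iota hlamS hMS)

end Fermat.Agent.S36_helper14_END
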