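import Mathlib
import Fermat.Agent.S18_helper9_CDefs
import Fermat.Agent.S18_helper9_CBasic
import Fermat.Agent.S18_helper3_LOCRING
import Fermat.Agent.S34_helper14_N1
import Fermat.Agent.S34_helper14_N1S

/-!
# S36, GEO36 (REG36, one-branch points on the THICK component), abstract half (helper14)

`V2` is the valuation ring of the thick component (`V_mid`): a valuation ring above the Gauss
ring `V'` of the smaller level, with a uniformiser `t` lying in the chart `A`, with `π ∈ t V2`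
(`π = unit * t ^ (q - 1)`), of residue degree one over `V'`.  `W` is ANY subring (the
intersection of the valuation rings of the other components); the chart `A` is integral over
`O[x]`, contained in `V2 ⊓ W` and saturated there.

At a maximal ideal `m ∋ t` of `A` with witnesses `c, d ∈ A \ m`, `c * π = t * b` (`b ∈ A`; in the
application `c = t ^ (q - 1) / π`, `b = t ^ (q - 2)`: the point is ordinary) and `d ∈ π W` (the
point does not lie on the other components):

* `S36N1M_vertMid` : `c * d * a ∈ t A` for every `a ∈ A ∩ t V2` (the vertical ideal of the thick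
  component is `(t)` locally at `m`);
* `S36N1M_thruMid` : `IGAt t A m`: `m` is generated, locally at `m`, by `t` and one element of the
  smaller level.
-/

set_option autoImplicit false
set_option linter.style.haveILetI false
set_option linter.unusedVariables false
set_option linter.unusedSectionVars false

namespace Fermat.Agent.S36_helper14_N1M

open Fermat.Agent.S18_helper9_CDefs Fermat.Agent.S18_helper9_CBasic
  Fermat.Agent.S18_helper3_LOCRING Fermat.Agent.S34_helper4_N2 Fermat.Agent.S34_helper14_N1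
  Fermat.Agent.S34_helper14_N1S

variable {L : Type*} [Field L] {O : Subring L} {π j : L} {F1' : Subfield L}
  {V' A0' Ainf' V2 W : Subring L}

/-- `t ≠ 0` -/
theorem S36N1M_t_ne_zero {t : L} (hV2nu : t⁻¹ ∉ V2) : t ≠ 0 := by
  intro h
  apply hV2nu
  rw [h, inv_zero]
  exact V2.zero_mem

/-- The hypothesis block of `S34N1_dvr` for the inclusion of the chart of the smaller level into
the chart `A` and the vertical prime `A ∩ t V2` of the thick component. -/
theorem S36N1M_base (S' : Setup O π j F1' V' A0' Ainf') (hV : V' ≤ V2) (t : L)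
    (hV2nu : t⁻¹ ∉ V2) (hπt : ∃ v ∈ V2, π = t * v)
    (hres : ∀ x ∈ V2, ∃ r ∈ V', ∃ v ∈ V2, x = r + t * v)
    (x : L) (hxF : x ∈ F1') (A' A : Subring L) (hC' : Chart O π x F1' V' A')
    (hAint : ∀ y ∈ A, IsIntegral (adj O x) y) (hIG : IG π A')
    (hA'A : A' ≤ A) (hπA' : π ∈ A') (hAV2 : A ≤ V2) :
    (Subring.inclusion hA'A (⟨π, hπA'⟩ : A') ∈ S34N1S_vert t V2 A hAV2) ∧
    (∀ y : A, ∃ P : Polynomial A', P.Monic ∧
      Polynomial.eval₂ (Subring.inclusion hA'A) y P ∈ S34N1S_vert t V2 A hAV2) ∧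
    (∀ a : A', Subring.inclusion hA'A a ∈ S34N1S_vert t V2 A hAV2 →
      a ∈ Ideal.span {(⟨π, hπA'⟩ : A')}) ∧
    S34N1_IG (⟨π, hπA'⟩ : A') ∧
    (∀ y : A, ∃ a s : A', s ∉ Ideal.span {(⟨π, hπA'⟩ : A')} ∧
      Subring.inclusion hA'A s * y - Subring.inclusion hA'A a ∈ S34N1S_vert t V2 A hAV2) := by
  have ht0 : t ≠ 0 := S36N1M_t_ne_zero hV2nu
  have hadj := S34N1S_adj_le S' hxF hC'
  refine ⟨?_, ?_, ?_, ?_, ?_⟩
  · obtain ⟨v, hv, hπv⟩ := hπt
    exact ⟨v, hv, hπv⟩
  · intro y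
    have h1 : IsIntegral A' (y : L) := isIntegral_mono hadj (hAint y y.2)
    obtain ⟨P, hP, hPy⟩ := h1
    refine ⟨P, hP, ?_⟩
    have h2 : Polynomial.eval₂ (Subring.inclusion hA'A) y P = 0 := by
      apply Subtype.ext
      have h3 := Polynomial.hom_eval₂ P (Subring.inclusion hA'A) A.subtype y
      have h4 : A.subtype.comp (Subring.inclusion hA'A) = algebraMap A' L := by
        ext c
        rfl
      rw [h4] at h3
      have h5 : A.subtype y = (y : L) := rfl
      rw [h5, hPy] at h3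
      exact h3
    rw [h2]
    exact Ideal.zero_mem _
  · rintro a ⟨v, hv, hav⟩
    have hav' : (a : L) = t * v := hav
    by_cases ha0 : (a : L) = 0
    · have : a = 0 := Subtype.ext ha0
      rw [this]
      exact Ideal.zero_mem _
    have haV' : (a : L) ∈ V' := hC'.le_V a.2
    have hinv : ((a : L))⁻¹ ∉ V' := by
      intro h
      apply hV2nu
      have h1 : t * (v * ((a : L))⁻¹) = 1 := by
        rw [← mul_assoc, ← hav', mul_inv_cancel₀ ha0]
      have : t⁻¹ = v * ((a : L))⁻¹ := inv_eq_of_mul_eq_one_right h1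
      rw [this]
      exact V2.mul_mem hv (hV h)
    obtain ⟨u, hu, hau⟩ := S'.V_unif _ haV' hinv
    have huA' : u ∈ A' := hC'.sat u hu (hau ▸ a.2)
    rw [Ideal.mem_span_singleton']
    exact ⟨⟨u, huA'⟩, Subtype.ext (by rw [Subring.coe_mul, hau, mul_comm])⟩
  · exact fun m' hm' hπm' => hIG hπA' m' hm' hπm'
  · intro y
    obtain ⟨r, hr, v, hv, hy⟩ := hres (y : L) (hAV2 y.2)
    obtain ⟨b, hbA', hb0, hbinv, hrb⟩ := hC'.loc r hr
    refine ⟨⟨r * b, hrb⟩, ⟨b, hbA'⟩, ?_, ?_⟩
    · intro hmem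
      rw [Ideal.mem_span_singleton'] at hmem
      obtain ⟨c, hc⟩ := hmem
      have hc' : (c : L) * π = b := congrArg (fun z : A' => (z : L)) hc
      apply S'.π_nonunit
      have : π⁻¹ = (c : L) * b⁻¹ := by
        rw [← hc', mul_inv, ← mul_assoc, mul_comm (c : L) ((c : L))⁻¹]
        have hc0 : (c : L) ≠ 0 := by
          intro h0
          rw [h0, zero_mul] at hc'
          exact hb0 hc'.symm
        rw [inv_mul_cancel₀ hc0, one_mul]
      rw [this]
      exact V'.mul_mem (hC'.le_V c.2) hbinv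
    · refine ⟨b * v, V2.mul_mem (hV (hC'.le_V hbA')) hv, ?_⟩
      show b * (y : L) - r * b = t * (b * v)
      rw [hy]; ring

/-- **the vertical ideal of the thick component is `(t)` locally**: for `a ∈ A ∩ t V2` and
witnesses `c * π = t * b`, `d ∈ π W`: `c * d * a ∈ t A`. -/
theorem S36N1M_vertMid {t : L} {A : Subring L} (hV2nu : t⁻¹ ∉ V2)
    (hAV2 : A ≤ V2) (hAW : A ≤ W) (hsat : ∀ v ∈ V2, v ∈ W → π * v ∈ A → v ∈ A)
    (c b d : A) (hcb : (c : L) * π = t * (b : L)) (hdW : ∃ v ∈ W, (d : L) = π * v)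
    (a : A) (ha : ∃ v ∈ V2, (a : L) = t * v) :
    ∃ b' ∈ A, (c : L) * (d : L) * (a : L) = t * b' := by
  have ht0 : t ≠ 0 := S36N1M_t_ne_zero hV2nu
  obtain ⟨v, hv, hav⟩ := ha
  obtain ⟨w, hw, hdw⟩ := hdW
  refine ⟨(c : L) * (d : L) * v, hsat _ ?_ ?_ ?_, by rw [hav]; ring⟩
  · exact V2.mul_mem (V2.mul_mem (hAV2 c.2) (hAV2 d.2)) hv
  · have h1 : (c : L) * (d : L) * v = (b : L) * w * (a : L) := by
      have : (c : L) * (d : L) * v = ((c : L) * π) * w * v := by rw [hdw]; ring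
      rw [this, hcb, hav]; ring
    rw [h1]
    exact W.mul_mem (W.mul_mem (hAW b.2) hw) (hAW a.2)
  · have h1 : π * ((c : L) * (d : L) * v) = (b : L) * (d : L) * (a : L) := by
      have : π * ((c : L) * (d : L) * v) = ((c : L) * π) * (d : L) * v := by ring
      rw [this, hcb, hav]; ring
    rw [h1]
    exact A.mul_mem (A.mul_mem b.2 d.2) a.2

/-- **(N1) on the thick component, weak setting.**  At a maximal ideal `m ∋ t` of `A` with
witnesses `c, d ∈ A \ m`, `c * π = t * b`, `d ∈ π W`: `m` is generated, locally at `m`, by `t` and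
one element of the chart `A'` of the smaller level: `IGAt t A m`. -/
theorem S36N1M_thruMid (S' : Setup O π j F1' V' A0' Ainf') (hV : V' ≤ V2) (t : L)
    (hV2nu : t⁻¹ ∉ V2) (hV2unif : ∀ x ∈ V2, x⁻¹ ∉ V2 → ∃ v ∈ V2, x = t * v)
    (hπt : ∃ v ∈ V2, π = t * v)
    (hres : ∀ x ∈ V2, ∃ r ∈ V', ∃ v ∈ V2, x = r + t * v)
    (x : L) (hxF : x ∈ F1') (A' A : Subring L) (hC' : Chart O π x F1' V' A')
    (hA'A : A' ≤ A) (hAint : ∀ y ∈ A, IsIntegral (adj O x) y)
    (hAV2 : A ≤ V2) (hAW : A ≤ W) (hsat : ∀ v ∈ V2, v ∈ W → π * v ∈ A → v ∈ A)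
    [IsNoetherianRing A'] (hIG : IG π A')
    (ht : t ∈ A) (m : Ideal A) (hm : m.IsMaximal) (htm : (⟨t, ht⟩ : A) ∈ m)
    (c b d : A) (hcm : c ∉ m) (hcb : (c : L) * π = t * (b : L))
    (hdm : d ∉ m) (hdW : ∃ v ∈ W, (d : L) = π * v) :
    IGAt t A m := by
  have hπA' : π ∈ A' := S34N1S_adj_le S' hxF hC' (le_adj O x S'.π_mem)
  obtain ⟨h1, h2, h3, h4, h5⟩ :=
    S36N1M_base S' hV t hV2nu hπt hres x hxF A' A hC' hAint hIG hA'A hπA' hAV2
  have hP : (S34N1S_vert t V2 A hAV2).IsPrime := S34N1S_vert_isPrime hAV2 hV2nu hV2unif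
  have hcdm : c * d ∉ m := fun h => (hm.isPrime.mem_or_mem h).elim hcm hdm
  have hloc : ∀ a : A, a ∈ S34N1S_vert t V2 A hAV2 →
      c * d * a ∈ Ideal.span {(⟨t, ht⟩ : A)} := by
    intro a ha
    obtain ⟨b', hb', hab'⟩ := S36N1M_vertMid hV2nu hAV2 hAW hsat c b d hcb hdW a ha
    rw [Ideal.mem_span_singleton']
    exact ⟨⟨b', hb'⟩, Subtype.ext (by
      rw [Subring.coe_mul, Subring.coe_mul, Subring.coe_mul, hab', mul_comm])⟩
  have hPm : S34N1S_vert t V2 A hAV2 ≤ m := by
    intro a ha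
    have h6 : c * d * a ∈ m := by
      have h7 := hloc a ha
      rw [Ideal.mem_span_singleton'] at h7
      obtain ⟨e, he⟩ := h7
      rw [← he]
      exact m.mul_mem_left _ htm
    rcases hm.isPrime.mem_or_mem h6 with h | h
    · exact absurd h hcdm
    · exact h
  obtain ⟨y', hy', hgen⟩ := S34N1_dvr (Subring.inclusion hA'A) ⟨π, hπA'⟩
    (S34N1S_vert t V2 A hAV2) hP h1 h2 h3 h4 h5 m hm hPm
  intro ht'
  refine ⟨Subring.inclusion hA'A y', hy', fun z hz => ?_⟩
  have hPle : S34N1S_vert t V2 A hAV2 ≤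
      S34N2_loc (Ideal.span {(⟨t, ht⟩ : A)}) m hm.isPrime :=
    fun a ha => ⟨c * d, hcdm, hloc a ha⟩
  have h8 : S34N1S_vert t V2 A hAV2 ⊔ Ideal.span {Subring.inclusion hA'A y'} ≤
      S34N2_loc (Ideal.span {(⟨t, ht⟩ : A), Subring.inclusion hA'A y'}) m hm.isPrime := by
    refine sup_le (hPle.trans (S34N2_loc_mono (Ideal.span_mono (by simp)) m hm.isPrime)) ?_
    refine (Ideal.span_mono ?_).trans (S34N2_le_loc _ m hm.isPrime)
    simp
  obtain ⟨s, hs, hsz⟩ := (hgen.trans (S34N2_loc_le h8)) hz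
  obtain ⟨α, β, hab⟩ := Ideal.mem_span_pair.1 hsz
  exact ⟨s, hs, α, β, hab.symm⟩

end Fermat.Agent.S36_helper14_N1M
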