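import Mathlib
import Fermat.Agent.S18_helper9_CDefs
import Fermat.Agent.S18_helper3_LOCRING
import Fermat.Agent.S34_helper19_SMOOTH
import Fermat.Agent.S35_helper2_BRREG
import Fermat.Agent.S36_helper2_BRANCH
import Fermat.Agent.S36_helper9_THIN
import Fermat.Agent.S36_helper14_N1M
import Fermat.Agent.S36_helper19_LOCAL
import Fermat.Agent.S36_helper19_FACTL

/-!
# S36, GEO36 (d): the local shape at a THICK one-branch point (helper19)

`V2 = V_mid` is the valuation ring of the thick component, with uniformiser `t ∈ X`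
(`π = unit * t ^ (q - 1)`), `W` ANY subring (the intersection `V_∞ ⊓ V_0` of the valuation rings
of the two other components), `X ≤ V2 ⊓ W` a noetherian chart, `π`-saturated in `V2 ⊓ W`.
`m ∋ π, t` is a prime of `X` with helper14's data (`S36N1M_thruMid`): `IGAt t X m` and witnesses
`c, d ∈ X ∖ m`, `c * π = t * b`, `d ∈ π W`.

* `S36MID_thru`, `S36MID_locRing_le` : `V2` is centred at `m`, `R = locRing X m ≤ V2`;
* `S36MID_sat_t`, `S36MID_sat_pi` : `R` is `t`-saturated and `π`-saturated in `V2`;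
* `S36MID_pi_factor` : `π = t ^ e * y`, `1 ≤ e`, `y` a unit of `R`;
* `S36MID_locHyp`, `S36MID_ufd` : the hypotheses of S18 X-C-LOCRING for `(t, V2, R)`, and `R` is
  a unique factorisation domain;
* `S36MID_branch` : helper2's branch structure `S35BRG_Branch t V2 X m`;
* `S36MID_fact`  : FACT-L at `m`;
* `S36MID_shape` : **the local shape `S34C_Shape π F1 V2 X p f G m`** (FACT-L + BRANCH36-thick +
  `S36LOC_shape1`);
* `S36MID_one`   : the one-branch datum of the local contract (`S36XB_One π F1 Vmid Voo V0`,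
  unfolded) for `V = (V_∞ ⊓ V_mid) ⊓ V_0`.
-/

set_option autoImplicit false
set_option linter.unusedSectionVars false
set_option linter.unusedVariables false
set_option linter.style.haveILetI false

namespace Fermat.Agent.S36_helper19_MIDPT

open Fermat.Agent.S18_helper9_CDefs Fermat.Agent.S18_helper9_CBasic
  Fermat.Agent.S18_helper3_LOCRING Fermat.Agent.S34_helper12_CDefs
  Fermat.Agent.S34_helper27_C2Defs Fermat.Agent.S34_helper19_SMOOTH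
  Fermat.Agent.S35_helper2_BRREG Fermat.Agent.S36_helper2_BRANCH
  Fermat.Agent.S36_helper9_THIN Fermat.Agent.S36_helper14_N1M
  Fermat.Agent.S36_helper19_LOCAL Fermat.Agent.S36_helper19_FACTL

variable {L : Type*} [Field L] {π t : L} {F1 : Subfield L} {O X V2 W : Subring L}

/-- `V2` is centred at `m`: the elements of `X ∩ t V2` lie in `m`. -/
theorem S36MID_thru (hV2nu : t⁻¹ ∉ V2) (hXV2 : X ≤ V2) (hXW : X ≤ W)
    (hsat : ∀ v ∈ V2, v ∈ W → π * v ∈ X → v ∈ X) (ht : t ∈ X)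
    (m : Ideal X) [hm : m.IsPrime] (htm : (⟨t, ht⟩ : X) ∈ m)
    (c b d : X) (hcm : c ∉ m) (hcb : (c : L) * π = t * (b : L))
    (hdm : d ∉ m) (hdW : ∃ v ∈ W, (d : L) = π * v)
    (a : X) (ha : ∃ v ∈ V2, (a : L) = t * v) : a ∈ m := by
  obtain ⟨b', hb', h⟩ := S36N1M_vertMid hV2nu hXV2 hXW hsat c b d hcb hdW a ha
  have h1 : c * d * a = ⟨t, ht⟩ * ⟨b', hb'⟩ := Subtype.ext (by push_cast; exact h)
  have h2 : c * d * a ∈ m := by rw [h1]; exact m.mul_mem_right _ htm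
  rcases hm.mem_or_mem h2 with h3 | h3
  · rcases hm.mem_or_mem h3 with h4 | h4
    exacts [absurd h4 hcm, absurd h4 hdm]
  · exact h3

/-- the local ring at `m` is contained in `V2`. -/
theorem S36MID_locRing_le (hV2nu : t⁻¹ ∉ V2)
    (hV2unif : ∀ x ∈ V2, x⁻¹ ∉ V2 → ∃ v ∈ V2, x = t * v)
    (hXV2 : X ≤ V2) (hXW : X ≤ W)
    (hsat : ∀ v ∈ V2, v ∈ W → π * v ∈ X → v ∈ X) (ht : t ∈ X)
    (m : Ideal X) [hm : m.IsPrime] (htm : (⟨t, ht⟩ : X) ∈ m)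
    (c b d : X) (hcm : c ∉ m) (hcb : (c : L) * π = t * (b : L))
    (hdm : d ∉ m) (hdW : ∃ v ∈ W, (d : L) = π * v) : locRing X m ≤ V2 := by
  rintro y ⟨a, s, hs, hy⟩
  have hs0 := coe_ne_zero_of_notMem X m hs
  have hsinv : ((s : L))⁻¹ ∈ V2 := by
    by_contra hcon
    exact hs (S36MID_thru hV2nu hXV2 hXW hsat ht m htm c b d hcm hcb hdm hdW s
      (hV2unif _ (hXV2 s.2) hcon))
  have : y = (a : L) * ((s : L))⁻¹ := by rw [← hy]; field_simp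
  rw [this]
  exact V2.mul_mem (hXV2 a.2) hsinv

/-- the local ring at `m` is `t`-saturated in `V2`. -/
theorem S36MID_sat_t (hV2nu : t⁻¹ ∉ V2) (hXV2 : X ≤ V2) (hXW : X ≤ W)
    (hsat : ∀ v ∈ V2, v ∈ W → π * v ∈ X → v ∈ X)
    (m : Ideal X) [hm : m.IsPrime]
    (c b d : X) (hcm : c ∉ m) (hcb : (c : L) * π = t * (b : L))
    (hdm : d ∉ m) (hdW : ∃ v ∈ W, (d : L) = π * v)
    {v : L} (hv : v ∈ V2) (htv : t * v ∈ locRing X m) : v ∈ locRing X m := by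
  obtain ⟨a, s, hs, has⟩ := htv
  have ht0 : t ≠ 0 := S36N1M_t_ne_zero hV2nu
  obtain ⟨b', hb', h⟩ := S36N1M_vertMid hV2nu hXV2 hXW hsat c b d hcb hdW a
    ⟨v * (s : L), V2.mul_mem hv (hXV2 s.2), by rw [← has]; ring⟩
  refine ⟨⟨b', hb'⟩, c * d * s, fun hmem => ?_, ?_⟩
  · rcases hm.mem_or_mem hmem with h3 | h3
    · rcases hm.mem_or_mem h3 with h4 | h4
      exacts [hcm h4, hdm h4]
    · exact hs h3
  · push_cast
    have h1 : t * (v * ((c : L) * (d : L) * (s : L))) = t * b' := by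
      rw [← h, ← has]; ring
    exact mul_left_cancel₀ ht0 h1

/-- the local ring at `m` is `π`-saturated in `V2`. -/
theorem S36MID_sat_pi (hXV2 : X ≤ V2) (hXW : X ≤ W)
    (hsat : ∀ v ∈ V2, v ∈ W → π * v ∈ X → v ∈ X)
    (m : Ideal X) [hm : m.IsPrime] (d : X) (hdm : d ∉ m) (hdW : ∃ v ∈ W, (d : L) = π * v)
    {v : L} (hv : v ∈ V2) (hπv : π * v ∈ locRing X m) : v ∈ locRing X m :=
  S36THIN_sat hXV2 hXW (fun v h1 h2 h3 => hsat v h1 h2 h3) m d hdm hdW hv hπv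

/-- `t` is not a unit of the local ring. -/
theorem S36MID_t_not_isUnit (ht : t ∈ X) (m : Ideal X) [hm : m.IsPrime]
    (htm : (⟨t, ht⟩ : X) ∈ m) :
    ¬ IsUnit (⟨t, le_locRing X m ht⟩ : locRing X m) := by
  have h := incl_mem_maximalIdeal X m htm
  exact (IsLocalRing.mem_maximalIdeal _).1 h

/-- **`π = t ^ e * y`** with `1 ≤ e` and `y` a unit of the local ring. -/
theorem S36MID_pi_factor [IsNoetherianRing X] (H2 : S34C2_Val π F1 V2) (hV2nu : t⁻¹ ∉ V2)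
    (hV2unif : ∀ x ∈ V2, x⁻¹ ∉ V2 → ∃ v ∈ V2, x = t * v)
    (hXV2 : X ≤ V2) (hXW : X ≤ W)
    (hsat : ∀ v ∈ V2, v ∈ W → π * v ∈ X → v ∈ X) (ht : t ∈ X)
    (m : Ideal X) [hm : m.IsPrime] (hπX : π ∈ X) (hπm : (⟨π, hπX⟩ : X) ∈ m)
    (htm : (⟨t, ht⟩ : X) ∈ m)
    (c b d : X) (hcm : c ∉ m) (hcb : (c : L) * π = t * (b : L))
    (hdm : d ∉ m) (hdW : ∃ v ∈ W, (d : L) = π * v) :
    ∃ (e : ℕ) (y : L), 1 ≤ e ∧ y ∈ locRing X m ∧ y⁻¹ ∈ locRing X m ∧ π = t ^ e * y := by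
  haveI : IsNoetherianRing (locRing X m) := isNoetherianRing_locRing X m
  have hπ0 : π ≠ 0 := by
    rintro rfl
    apply H2.π_nonunit
    rw [inv_zero]; exact V2.zero_mem
  have hπR0 : (⟨π, le_locRing X m hπX⟩ : locRing X m) ≠ 0 := fun h =>
    hπ0 (congrArg Subtype.val h)
  obtain ⟨e, y, hty, hπy⟩ :=
    WfDvdMonoid.max_power_factor' hπR0 (S36MID_t_not_isUnit ht m htm)
  have hπy' : π = t ^ e * (y : L) := by
    have := congrArg Subtype.val hπy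
    simpa using this
  have hRV := S36MID_locRing_le hV2nu hV2unif hXV2 hXW hsat ht m htm c b d hcm hcb hdm hdW
  have hyinvV : ((y : L))⁻¹ ∈ V2 := by
    by_contra hcon
    obtain ⟨v, hv, hyv⟩ := hV2unif _ (hRV y.2) hcon
    have hvR : v ∈ locRing X m :=
      S36MID_sat_t hV2nu hXV2 hXW hsat m c b d hcm hcb hdm hdW hv (hyv ▸ y.2)
    exact hty ⟨⟨v, hvR⟩, Subtype.ext hyv⟩
  have hy0 : (y : L) ≠ 0 := by
    intro h
    rw [h, mul_zero] at hπy'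
    exact hπ0 hπy'
  have hyinvR : ((y : L))⁻¹ ∈ locRing X m := by
    refine S36MID_sat_pi hXV2 hXW hsat m d hdm hdW hyinvV ?_
    have : π * ((y : L))⁻¹ = t ^ e := by
      rw [hπy']; field_simp
    rw [this]
    exact (locRing X m).pow_mem (le_locRing X m ht) e
  refine ⟨e, y, ?_, y.2, hyinvR, hπy'⟩
  by_contra he
  have he0 : e = 0 := by omega
  rw [he0, pow_zero, one_mul] at hπy'
  have hπmem := incl_mem_maximalIdeal X m hπm
  have hnu : ¬ IsUnit (incl X m ⟨π, hπX⟩) := (IsLocalRing.mem_maximalIdeal _).1 hπmem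
  apply hnu
  have hyu : IsUnit y := by
    refine IsUnit.of_mul_eq_one (⟨(y : L)⁻¹, hyinvR⟩ : locRing X m) (Subtype.ext ?_)
    show (y : L) * ((y : L))⁻¹ = 1
    exact mul_inv_cancel₀ hy0
  have : incl X m ⟨π, hπX⟩ = y := Subtype.ext hπy'
  rw [this]
  exact hyu

/-- elements of `V2` are fractions of elements of the local ring with denominator a unit of
`V2`. -/
theorem S36MID_loc [IsNoetherianRing X] (H2 : S34C2_Val π F1 V2) (hV2nu : t⁻¹ ∉ V2)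
    (hV2unif : ∀ x ∈ V2, x⁻¹ ∉ V2 → ∃ v ∈ V2, x = t * v)
    (hXV2 : X ≤ V2) (hXW : X ≤ W)
    (hsat : ∀ v ∈ V2, v ∈ W → π * v ∈ X → v ∈ X) (ht : t ∈ X)
    (hfrac : ∀ x ∈ F1, ∃ a b : L, a ∈ X ∧ b ∈ X ∧ b ≠ 0 ∧ x * b = a)
    (m : Ideal X) [hm : m.IsPrime] (htm : (⟨t, ht⟩ : X) ∈ m)
    (c b d : X) (hcm : c ∉ m) (hcb : (c : L) * π = t * (b : L))
    (hdm : d ∉ m) (hdW : ∃ v ∈ W, (d : L) = π * v) :
    ∀ v ∈ V2, ∃ b' ∈ locRing X m, b' ≠ 0 ∧ b'⁻¹ ∈ V2 ∧ v * b' ∈ locRing X m := by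
  haveI : IsNoetherianRing (locRing X m) := isNoetherianRing_locRing X m
  have ht0 : t ≠ 0 := S36N1M_t_ne_zero hV2nu
  have hRV := S36MID_locRing_le hV2nu hV2unif hXV2 hXW hsat ht m htm c b d hcm hcb hdm hdW
  have hfac : ∀ {x : L}, x ∈ locRing X m → x ≠ 0 →
      ∃ (k : ℕ) (x' : L), x' ∈ locRing X m ∧ x'⁻¹ ∈ V2 ∧ x = t ^ k * x' := fun hx hx0 =>
    S36THIN_factor hV2unif hRV
      (fun v hv h => S36MID_sat_t hV2nu hXV2 hXW hsat m c b d hcm hcb hdm hdW hv h)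
      (le_locRing X m ht) (S36MID_t_not_isUnit ht m htm) hx hx0
  intro v hv
  by_cases hv0 : v = 0
  · exact ⟨1, (locRing X m).one_mem, one_ne_zero, by rw [inv_one]; exact V2.one_mem,
      by rw [hv0, zero_mul]; exact (locRing X m).zero_mem⟩
  obtain ⟨a0, b0, ha0, hb0, hb00, hvb⟩ := hfrac v (H2.le hv)
  have ha00 : a0 ≠ 0 := by
    rintro rfl
    rcases mul_eq_zero.1 hvb with h | h
    exacts [hv0 h, hb00 h]
  obtain ⟨k, b', hb', hb'inv, hbk⟩ := hfac (le_locRing X m hb0) hb00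
  obtain ⟨l, a', ha', ha'inv, hal⟩ := hfac (le_locRing X m ha0) ha00
  have hb'0 : b' ≠ 0 := by
    rintro rfl
    rw [mul_zero] at hbk
    exact hb00 hbk
  have ha'0 : a' ≠ 0 := by
    rintro rfl
    rw [mul_zero] at hal
    exact ha00 hal
  refine ⟨b', hb', hb'0, hb'inv, ?_⟩
  rcases le_or_gt k l with hkl | hkl
  · obtain ⟨n, rfl⟩ := Nat.exists_eq_add_of_le hkl
    have : v * b' = t ^ n * a' := by
      have h1 : t ^ k * (v * b') = t ^ k * (t ^ n * a') := by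
        have : t ^ k * (v * b') = v * (t ^ k * b') := by ring
        rw [this, ← hbk, hvb, hal]; ring
      exact mul_left_cancel₀ (pow_ne_zero k ht0) h1
    rw [this]
    exact (locRing X m).mul_mem ((locRing X m).pow_mem (le_locRing X m ht) n) ha'
  · exfalso
    obtain ⟨n, rfl⟩ := Nat.exists_eq_add_of_lt hkl
    -- a' = t * (t ^ n * v * b')
    have h1 : a' = t * (t ^ n * (v * b')) := by
      have h2 : t ^ l * a' = t ^ l * (t * (t ^ n * (v * b'))) := by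
        have : t ^ l * (t * (t ^ n * (v * b'))) = v * (t ^ (l + n + 1) * b') := by ring
        rw [this, ← hbk, hvb, hal]
      exact mul_left_cancel₀ (pow_ne_zero l ht0) h2
    apply hV2nu
    have h3 : t⁻¹ = (t ^ n * (v * b')) * a'⁻¹ := by
      rw [h1]
      have hne : t ^ n * (v * b') ≠ 0 :=
        mul_ne_zero (pow_ne_zero n ht0) (mul_ne_zero hv0 hb'0)
      field_simp
    rw [h3]
    exact V2.mul_mem (V2.mul_mem (V2.pow_mem (hXV2 ht) n) (V2.mul_mem hv (hRV hb'))) ha'inv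

/-- **The hypotheses of S18 X-C-LOCRING hold for `(t, V2)` and the local ring at `m`.** -/
theorem S36MID_locHyp [IsNoetherianRing X] (H2 : S34C2_Val π F1 V2) (hV2nu : t⁻¹ ∉ V2)
    (hV2unif : ∀ x ∈ V2, x⁻¹ ∉ V2 → ∃ v ∈ V2, x = t * v)
    (hXV2 : X ≤ V2) (hXW : X ≤ W)
    (hsat : ∀ v ∈ V2, v ∈ W → π * v ∈ X → v ∈ X) (ht : t ∈ X)
    (hfrac : ∀ x ∈ F1, ∃ a b : L, a ∈ X ∧ b ∈ X ∧ b ≠ 0 ∧ x * b = a)
    (m : Ideal X) [hm : m.IsPrime] (htm : (⟨t, ht⟩ : X) ∈ m)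
    (c b d : X) (hcm : c ∉ m) (hcb : (c : L) * π = t * (b : L))
    (hdm : d ∉ m) (hdW : ∃ v ∈ W, (d : L) = π * v) :
    LocHyp t V2 (locRing X m) (IsLocalRing.maximalIdeal (locRing X m)) where
  π_mem := le_locRing X m ht
  π_mem_m := fun _ => incl_mem_maximalIdeal X m htm
  le_V := S36MID_locRing_le hV2nu hV2unif hXV2 hXW hsat ht m htm c b d hcm hcb hdm hdW
  sat := fun v hv h => S36MID_sat_t hV2nu hXV2 hXW hsat m c b d hcm hcb hdm hdW hv h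
  V_unif := hV2unif
  π_nonunit := hV2nu
  loc := S36MID_loc H2 hV2nu hV2unif hXV2 hXW hsat ht hfrac m htm c b d hcm hcb hdm hdW

/-- transport of factoriality along an equality of subrings. -/
theorem S36MID_ufd_of_eq {S T : Subring L} (h : S = T) (hS : UniqueFactorizationMonoid S) :
    UniqueFactorizationMonoid T := by
  subst h
  exact hS

/-- **the local ring at a thick one-branch point is factorial.** -/
theorem S36MID_ufd [IsNoetherianRing X] (H2 : S34C2_Val π F1 V2) (hV2nu : t⁻¹ ∉ V2)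
    (hV2unif : ∀ x ∈ V2, x⁻¹ ∉ V2 → ∃ v ∈ V2, x = t * v)
    (hXV2 : X ≤ V2) (hXW : X ≤ W)
    (hsat : ∀ v ∈ V2, v ∈ W → π * v ∈ X → v ∈ X) (ht : t ∈ X)
    (hfrac : ∀ x ∈ F1, ∃ a b : L, a ∈ X ∧ b ∈ X ∧ b ≠ 0 ∧ x * b = a)
    (m : Ideal X) [hm : m.IsPrime] (htm : (⟨t, ht⟩ : X) ∈ m) (hIG : IGAt t X m)
    (c b d : X) (hcm : c ∉ m) (hcb : (c : L) * π = t * (b : L))
    (hdm : d ∉ m) (hdW : ∃ v ∈ W, (d : L) = π * v) :
    UniqueFactorizationMonoid (locRing X m) := by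
  haveI : IsNoetherianRing (locRing X m) := isNoetherianRing_locRing X m
  have H := S36MID_locHyp H2 hV2nu hV2unif hXV2 hXW hsat ht hfrac m htm c b d hcm hcb hdm hdW
  have hIG' := S34SM_IGAt m ht hIG
  have hufd := H.ufd hIG'
  have heq : locRing (locRing X m) (IsLocalRing.maximalIdeal (locRing X m)) = locRing X m :=
    le_antisymm (S34SM_locRing_locRing_le m) (le_locRing _ _)
  exact S36MID_ufd_of_eq heq hufd

/-- fractions of the chart are fractions of the local ring. -/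
theorem S36MID_frac (hfrac : ∀ x ∈ F1, ∃ a b : L, a ∈ X ∧ b ∈ X ∧ b ≠ 0 ∧ x * b = a)
    (m : Ideal X) [hm : m.IsPrime] :
    ∀ x ∈ F1, ∃ a b : locRing X m, b ≠ 0 ∧ x * (b : L) = a := by
  intro x hx
  obtain ⟨a, b, ha, hb, hb0, hab⟩ := hfrac x hx
  exact ⟨⟨a, le_locRing X m ha⟩, ⟨b, le_locRing X m hb⟩,
    fun h => hb0 (congrArg Subtype.val h), hab⟩

/-- **helper2's branch structure for the thick branch at `m`.** -/
theorem S36MID_branch (hV2nu : t⁻¹ ∉ V2)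
    (hV2unif : ∀ x ∈ V2, x⁻¹ ∉ V2 → ∃ v ∈ V2, x = t * v)
    (hXV2 : X ≤ V2) (hXW : X ≤ W)
    (hsat : ∀ v ∈ V2, v ∈ W → π * v ∈ X → v ∈ X) (ht : t ∈ X)
    (m : Ideal X) [hm : m.IsPrime] (htm : (⟨t, ht⟩ : X) ∈ m) (hIG : IGAt t X m)
    (c b d : X) (hcm : c ∉ m) (hcb : (c : L) * π = t * (b : L))
    (hdm : d ∉ m) (hdW : ∃ v ∈ W, (d : L) = π * v) :
    S35BRG_Branch t V2 X m where
  le := hXV2
  unif := hV2unif
  nonunit := hV2nu
  thru := fun a ha => S36MID_thru hV2nu hXV2 hXW hsat ht m htm c b d hcm hcb hdm hdW a ha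
  gen := by
    have hRV := S36MID_locRing_le hV2nu hV2unif hXV2 hXW hsat ht m htm c b d hcm hcb hdm hdW
    obtain ⟨y, hy, hgen⟩ := hIG ht
    refine ⟨incl X m y, incl_mem_maximalIdeal X m hy, ?_⟩
    intro x hx
    obtain ⟨a0, c0, ha0, hc0, hx0⟩ := (mem_maximalIdeal_iff X m x).1 hx
    obtain ⟨c1, hc1, a, b1, habc⟩ := hgen a0 ha0
    have hcc : c1 * c0 ∉ m := fun hmem => by
      rcases hm.mem_or_mem hmem with h | h
      exacts [hc1 h, hc0 h]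
    have hcc0 : ((c1 : L) * (c0 : L)) ≠ 0 := by
      have := coe_ne_zero_of_notMem X m hcc
      simpa using this
    have hinv : (((c1 * c0 : X) : L))⁻¹ ∈ locRing X m := inv_mem_locRing X m hcc
    have habc' : (c1 : L) * (a0 : L) = (a : L) * t + (b1 : L) * (y : L) := by
      have := congrArg Subtype.val habc
      simpa using this
    refine ⟨⟨(b1 : L) * (((c1 * c0 : X) : L))⁻¹,
        (locRing X m).mul_mem (le_locRing X m b1.2) hinv⟩,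
      (a : L) * (((c1 * c0 : X) : L))⁻¹,
      hRV ((locRing X m).mul_mem (le_locRing X m a.2) hinv), ?_⟩
    show (x : L) = (b1 : L) * (((c1 * c0 : X) : L))⁻¹ * (y : L)
      + t * ((a : L) * (((c1 * c0 : X) : L))⁻¹)
    push_cast
    have hx1 : (x : L) * ((c1 : L) * (c0 : L)) = (a : L) * t + (b1 : L) * (y : L) := by
      rw [← habc', ← hx0]; ring
    have hx2 : (x : L) = ((a : L) * t + (b1 : L) * (y : L)) * ((c1 : L) * (c0 : L))⁻¹ := by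
      rw [← hx1, mul_assoc, mul_inv_cancel₀ hcc0, mul_one]
    rw [hx2]
    ring

/-- **FACT-L at a thick one-branch point.** -/
theorem S36MID_fact [IsNoetherianRing X] (H2 : S34C2_Val π F1 V2) (hV2nu : t⁻¹ ∉ V2)
    (hV2unif : ∀ x ∈ V2, x⁻¹ ∉ V2 → ∃ v ∈ V2, x = t * v)
    (hXV2 : X ≤ V2) (hXW : X ≤ W)
    (hsat : ∀ v ∈ V2, v ∈ W → π * v ∈ X → v ∈ X) (ht : t ∈ X)
    (hfrac : ∀ x ∈ F1, ∃ a b : L, a ∈ X ∧ b ∈ X ∧ b ≠ 0 ∧ x * b = a)
    (m : Ideal X) [hm : m.IsPrime] (hπX : π ∈ X) (hπm : (⟨π, hπX⟩ : X) ∈ m)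
    (htm : (⟨t, ht⟩ : X) ∈ m) (hIG : IGAt t X m)
    (c b d : X) (hcm : c ∉ m) (hcb : (c : L) * π = t * (b : L))
    (hdm : d ∉ m) (hdW : ∃ v ∈ W, (d : L) = π * v)
    (hOX : O ≤ X) {p : ℕ} (hp : 0 < p) (f : L) (hfF : f ∈ F1) (hf0 : f ≠ 0)
    (hdiv : PowDiv O π F1 p f) (hfV : f ∈ V2 ∧ f⁻¹ ∈ V2) :
    ∃ u0 g0 : L, u0 ∈ locRing X m ∧ u0⁻¹ ∈ locRing X m ∧ g0 ∈ F1 ∧ f = u0 * g0 ^ p := by
  have hRV := S36MID_locRing_le hV2nu hV2unif hXV2 hXW hsat ht m htm c b d hcm hcb hdm hdW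
  have hufd := S36MID_ufd H2 hV2nu hV2unif hXV2 hXW hsat ht hfrac m htm hIG c b d hcm hcb
    hdm hdW
  obtain ⟨e, y, he, hy, hyinv, hπy⟩ := S36MID_pi_factor H2 hV2nu hV2unif hXV2 hXW hsat ht m
    hπX hπm htm c b d hcm hcb hdm hdW
  have hy0 : y ≠ 0 := by
    rintro rfl
    rw [mul_zero] at hπy
    apply H2.π_nonunit
    rw [hπy, inv_zero]; exact V2.zero_mem
  refine S36FL_one m hufd hOX hπX (fun x hx => H2.le (hRV hx)) (S36MID_frac hfrac m) hp f hfF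
    hf0 hdiv hRV ⟨t, le_locRing X m ht⟩ ⟨y⁻¹, hyinv⟩ e ?_ hV2nu ?_ hfV
  · show π * y⁻¹ = t ^ e
    rw [hπy]; field_simp
  · intro r hr
    obtain ⟨v, hv, hrv⟩ := hV2unif _ (hRV r.2) hr
    have hvR : v ∈ locRing X m :=
      S36MID_sat_t hV2nu hXV2 hXW hsat m c b d hcm hcb hdm hdW hv (hrv ▸ r.2)
    exact ⟨⟨v, hvR⟩, Subtype.ext hrv⟩

/-- **The local shape at a thick one-branch point.** -/
theorem S36MID_shape [IsNoetherianRing X] (H2 : S34C2_Val π F1 V2) (hV2nu : t⁻¹ ∉ V2)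
    (hV2unif : ∀ x ∈ V2, x⁻¹ ∉ V2 → ∃ v ∈ V2, x = t * v)
    (hXV2 : X ≤ V2) (hXW : X ≤ W)
    (hsat : ∀ v ∈ V2, v ∈ W → π * v ∈ X → v ∈ X) (ht : t ∈ X)
    (hfrac : ∀ x ∈ F1, ∃ a b : L, a ∈ X ∧ b ∈ X ∧ b ≠ 0 ∧ x * b = a)
    (m : Ideal X) [hm : m.IsPrime] (hπX : π ∈ X) (hπm : (⟨π, hπX⟩ : X) ∈ m)
    (htm : (⟨t, ht⟩ : X) ∈ m) (hIG : IGAt t X m)
    (c b d : X) (hcm : c ∉ m) (hcb : (c : L) * π = t * (b : L))
    (hdm : d ∉ m) (hdW : ∃ v ∈ W, (d : L) = π * v)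
    (hOX : O ≤ X) {p : ℕ} (hp : 0 < p) (hpL : (p : L) ≠ 0)
    (hpR : ((p : L))⁻¹ ∈ locRing X m) (f G : L) (hfF : f ∈ F1) (hf0 : f ≠ 0)
    (hdiv : PowDiv O π F1 p f) (hred : RedPow π V2 p f G) :
    S34C_Shape π F1 V2 X p f G m := by
  have hRV := S36MID_locRing_le hV2nu hV2unif hXV2 hXW hsat ht m htm c b d hcm hcb hdm hdW
  have hfV := S36LOC_redPow_unit H2 hred
  obtain ⟨u0, g0, hu0, hu0', hg0F, hfact⟩ := S36MID_fact H2 hV2nu hV2unif hXV2 hXW hsat ht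
    hfrac m hπX hπm htm hIG c b d hcm hcb hdm hdW hOX hp f hfF hf0 hdiv hfV
  have hu00 : u0 ≠ 0 := by
    rintro rfl
    exact hf0 (by rw [hfact, zero_mul])
  have hg00 : g0 ≠ 0 := by
    rintro rfl
    exact hf0 (by rw [hfact, zero_pow hp.ne', mul_zero])
  -- `g₀` and `z = G / g₀` are units of `V2`
  have hgp : g0 ^ p = f * u0⁻¹ := by rw [hfact]; field_simp
  have hgp' : (f * u0⁻¹)⁻¹ = f⁻¹ * u0 := by rw [mul_inv, inv_inv]
  have hg : g0 ∈ V2 ∧ g0⁻¹ ∈ V2 := by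
    refine S36LOC_unit_of_pow H2 hp hg0F (V2.mul_mem hfV.1 (hRV hu0')) ?_ hgp
    rw [hgp']
    exact V2.mul_mem hfV.2 (hRV hu0)
  have hzV : G * g0⁻¹ ∈ V2 := V2.mul_mem hred.1 hg.2
  -- the fraction form of `z`
  obtain ⟨b', hb', hb'0, hb'inv, hzb⟩ :=
    S36MID_loc H2 hV2nu hV2unif hXV2 hXW hsat ht hfrac m htm c b d hcm hcb hdm hdW _ hzV
  obtain ⟨b1, s1, hs1, hbs⟩ := hb'
  obtain ⟨a2, s2, hs2, has⟩ := hzb
  have hs10 := coe_ne_zero_of_notMem X m hs1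
  have hs20 := coe_ne_zero_of_notMem X m hs2
  have hsinv : ∀ {s : X}, s ∉ m → ((s : L))⁻¹ ∈ V2 := fun {s} hs =>
    hRV (inv_mem_locRing X m hs)
  have hb10 : (b1 : L) ≠ 0 := by
    intro h
    rw [h] at hbs
    rcases mul_eq_zero.1 hbs with h1 | h1
    exacts [hb'0 h1, hs10 h1]
  have hz : ∃ a c : X, (c : L) ≠ 0 ∧ ((c : L))⁻¹ ∈ V2 ∧ (G * g0⁻¹) * (c : L) = a := by
    refine ⟨a2 * s1, b1 * s2, ?_, ?_, ?_⟩
    · push_cast
      exact mul_ne_zero hb10 hs20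
    · push_cast
      have : ((b1 : L) * (s2 : L))⁻¹ = b'⁻¹ * ((s1 : L))⁻¹ * ((s2 : L))⁻¹ := by
        rw [← hbs]
        field_simp
      rw [this]
      exact V2.mul_mem (V2.mul_mem hb'inv (hsinv hs1)) (hsinv hs2)
    · push_cast
      rw [← has, ← hbs]; ring
  -- the branch and the root
  have B := S36MID_branch hV2nu hV2unif hXV2 hXW hsat ht m htm hIG c b d hcm hcb hdm hdW
  obtain ⟨e, y, he, hy, hyinv, hπy⟩ := S36MID_pi_factor H2 hV2nu hV2unif hXV2 hXW hsat ht m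
    hπX hπm htm c b d hcm hcb hdm hdW
  have hy0 : y ≠ 0 := by
    rintro rfl
    rw [mul_zero] at hπy
    apply H2.π_nonunit
    rw [hπy, inv_zero]; exact V2.zero_mem
  obtain ⟨w, hw⟩ := S36BRA_root (π := π) B (le_locRing X m ht)
    (fun r hr ⟨v, hv, hrv⟩ => ⟨v,
      S36MID_sat_t hV2nu hXV2 hXW hsat m c b d hcm hcb hdm hdW hv (hrv ▸ hr), hrv⟩)
    he ⟨y, hRV hy, hπy⟩ ⟨y⁻¹, hRV hyinv, by rw [hπy]; field_simp⟩ hp hpR hpL hz
    ⟨u0, hu0, hu0', S36LOC_z_pow H2 hg00 hfact hred⟩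
  exact S36LOC_shape1 H2 m hRV hp f G u0 g0 w hf0 hu0 hu0' hg0F hfact hred hw

/-- **The one-branch datum at a thick one-branch point** for `V = (V_∞ ⊓ V_mid) ⊓ V_0`
(= helper3's `S36XB_One π F1 Vmid Voo V0 X p f G m`, unfolded). -/
theorem S36MID_one {Voo Vmid V0 : Subring L} [IsNoetherianRing X]
    (Hmid : S34C2_Val π F1 Vmid) (hV2nu : t⁻¹ ∉ Vmid)
    (hV2unif : ∀ x ∈ Vmid, x⁻¹ ∉ Vmid → ∃ v ∈ Vmid, x = t * v)
    (hX : X ≤ (Voo ⊓ Vmid ⊓ V0 : Subring L))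
    (hsat : ∀ v : L, v ∈ Voo → v ∈ Vmid → v ∈ V0 → π * v ∈ X → v ∈ X) (ht : t ∈ X)
    (hfrac : ∀ x ∈ F1, ∃ a b : L, a ∈ X ∧ b ∈ X ∧ b ≠ 0 ∧ x * b = a)
    (m : Ideal X) [hm : m.IsPrime] (hπX : π ∈ X) (hπm : (⟨π, hπX⟩ : X) ∈ m)
    (htm : (⟨t, ht⟩ : X) ∈ m) (hIG : IGAt t X m)
    (c b d : X) (hcm : c ∉ m) (hcb : (c : L) * π = t * (b : L))
    (hdm : d ∉ m) (hdW : ∃ v ∈ (Voo ⊓ V0 : Subring L), (d : L) = π * v)
    (hOX : O ≤ X) {p : ℕ} (hp : 0 < p) (hpL : (p : L) ≠ 0)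
    (hpR : ((p : L))⁻¹ ∈ locRing X m) (f G : L) (hfF : f ∈ F1) (hf0 : f ≠ 0)
    (hdiv : PowDiv O π F1 p f)
    (hred : RedPow π (Voo ⊓ Vmid ⊓ V0 : Subring L) p f G) :
    S34C_Shape π F1 Vmid X p f G m ∧
      ∃ d : X, d ∉ m ∧ (∃ v ∈ Voo, (d : L) = π * v) ∧ (∃ v ∈ V0, (d : L) = π * v) := by
  have hV2 : (Voo ⊓ Vmid ⊓ V0 : Subring L) ≤ Vmid := inf_le_left.trans inf_le_right
  have hVoo : (Voo ⊓ Vmid ⊓ V0 : Subring L) ≤ Voo := inf_le_left.trans inf_le_left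
  have hV0 : (Voo ⊓ Vmid ⊓ V0 : Subring L) ≤ V0 := inf_le_right
  have hXW : X ≤ (Voo ⊓ V0 : Subring L) := fun x hx => ⟨hVoo (hX hx), hV0 (hX hx)⟩
  refine ⟨S36MID_shape (W := (Voo ⊓ V0 : Subring L)) Hmid hV2nu hV2unif (hX.trans hV2) hXW
    (fun v hv hw h => hsat v hw.1 hv hw.2 h) ht hfrac m hπX hπm htm hIG c b d hcm hcb hdm hdW
    hOX hp hpL hpR f G hfF hf0 hdiv (S36LOC_redPow_mono hV2 hred), d, hdm, ?_, ?_⟩
  · obtain ⟨v, hv, hdv⟩ := hdW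
    exact ⟨v, hv.1, hdv⟩
  · obtain ⟨v, hv, hdv⟩ := hdW
    exact ⟨v, hv.2, hdv⟩

end Fermat.Agent.S36_helper19_MIDPT
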