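import Fermat.Agent.S36_helper9_DICHK
import Fermat.Agent.S36_helper19_MIDPT
import Fermat.Agent.S36_helper11_DTRICK
import Fermat.Agent.S36_helper5_VMIDK
import Fermat.Agent.S36_helper1_VMIDGK

/-!
# S36, GEO36 (REG36, `[ONE mid]`): the thick one-branch points of the finite chart (helper14)

The provider of the hypothesis `hmid` of helper9's `S36DK_pts0` / `S36PTS_pts0` / `S36PT_main`.

* `S36MK_witness` : helper11's D-trick witness `c ∉ m` with `D` in the LOCAL ring `locRing A m`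
  only;
* `S36MK_one_abs` : **abstract plug** (Subring-`L` vocabulary): from the weak setup at the level
  `q² M'`, the strong setup and `IG` at the level `M'`, the D-trick hypotheses `S36DT_Hyp` for
  the coordinate `t` (any uniformiser `τ` of `V_mid`), `Q = τ ^ (q - 1) * unit`, `t ∈ A0`,
  `D ∈ locRing A0 m`: the one-branch datum `S36XB_One π F1 V_mid V_∞ V_0 A0 p f G m` at every
  maximal ideal `m ∋ π` on `C_mid` only;
* `S36MK_one` : the same at the carriers `S18K_*` (the level-`M'` data are discharged by S18).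
-/

set_option autoImplicit false
set_option linter.style.haveILetI false
set_option linter.unusedVariables false
set_option linter.unusedSectionVars false
set_option synthInstance.maxHeartbeats 400000
set_option maxHeartbeats 1600000

open ModularCurve Fermat.Agent.S24
open Fermat.Agent.S18_helper13_GAUSS Fermat.Agent.S18_helper9_CDefs
  Fermat.Agent.S18_helper9_CBasic
open Fermat.Agent.S18_helper25_COREDefs Fermat.Agent.S34_helper12_CDefs
open Fermat.Agent.S34_helper27_C2Defs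
open Fermat.Agent.S34_helper27_V3K Fermat.Agent.S34_helper20_V0K
open Fermat.Agent.S18_helper3_LOCRING
open Fermat.Agent.S34_helper14_N1S Fermat.Agent.S34_helper14_N1K
open Fermat.Agent.S36_helper14_N1M
open Fermat.Agent.S36_helper5_VKDefs
open Fermat.Agent.S36_helper3_XBPT
open Fermat.Agent.S36_helper9_ONE Fermat.Agent.S36_helper9_DICHK
open Fermat.Agent.S36_helper19_MIDPT Fermat.Agent.S36_helper11_DTRICK
open Fermat.Agent.S36_helper5_VMIDK Fermat.Agent.S36_helper1_KRONG Fermat.Agent.S36_helper1_VMIDG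

noncomputable section

namespace Fermat.Agent.S36_helper14_MIDK

section Abstract

variable {L : Type*} [Field L] {O : Subring L} {π j : L} {F1' F1 : Subfield L}
  {V' A0' Ainf' Voo Vmid V0 A0 Ainf : Subring L}

/-- **The D-trick witness with `D` in the local ring.**  `A ≤ V`, `m` a prime of `A` through
which `V` passes, `d ∈ A ∖ m`, `c ∈ A` with `c * Q = d * t ^ (q - 1)`, `D ∈ locRing A m`:
then `c ∉ m`. -/
theorem S36MK_witness {V : Subring L} {τ : L} {n : ℕ} {Q t Sx H D ΦY : L} {p : ℕ → L}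
    (h : S36DT_Hyp V τ n Q t Sx H D ΦY p)
    (A : Subring L) (hAV : A ≤ V) (m : Ideal A) [hm : m.IsPrime]
    (hOn : ∀ a : A, ((a : L))⁻¹ ∉ V → a ∈ m)
    (d c : A) (hdm : d ∉ m) (hc : (c : L) * Q = (d : L) * t ^ (n + 1))
    (hDR : D ∈ locRing A m) : c ∉ m := by
  obtain ⟨hX, v, hv, hXv⟩ := h.core
  obtain ⟨a, s, hs, hDs⟩ := hDR
  have hQ0 := h.Q_ne
  have hce : (c : L) = (d : L) * (t ^ (n + 1) / Q) := by
    field_simp
    exact hc
  have ha : ((a * c + s * d : A) : L) = τ * ((s : L) * (d : L) * v) := by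
    push_cast
    rw [← hDs, hce]
    linear_combination (s : L) * (d : L) * hXv
  have hsdv : (s : L) * (d : L) * v ∈ V := V.mul_mem (V.mul_mem (hAV s.2) (hAV d.2)) hv
  have ham : a * c + s * d ∈ m := by
    by_cases h0 : ((a * c + s * d : A) : L) = 0
    · have : (a * c + s * d : A) = 0 := Subtype.ext h0
      rw [this]
      exact m.zero_mem
    · apply hOn
      intro hinv
      apply h.τ_nonunit
      have hsdv0 : (s : L) * (d : L) * v ≠ 0 := by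
        intro h00
        rw [h00, mul_zero] at ha
        exact h0 ha
      have : τ⁻¹ = ((s : L) * (d : L) * v) * (((a * c + s * d : A) : L))⁻¹ := by
        rw [ha, mul_inv, mul_comm τ⁻¹, ← mul_assoc, mul_inv_cancel₀ hsdv0, one_mul]
      rw [this]
      exact V.mul_mem hsdv hinv
  intro hcm
  have hsd : s * d ∈ m := by
    have : s * d = (a * c + s * d) - a * c := by ring
    rw [this]
    exact m.sub_mem ham (m.mul_mem_left _ hcm)
  rcases hm.mem_or_mem hsd with h1 | h1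
  · exact hs h1
  · exact hdm h1

/-- `x ∈ V`, `x` a non-unit of a valuation ring `V` with uniformiser `t`: `x ∈ t V`
(the case `x⁻¹ ∉ V`), packaged for `π`. -/
theorem S36MK_pi_t {V : Subring L} {t : L} (hπV : π ∈ V) (hπnu : π⁻¹ ∉ V)
    (hunif : ∀ y ∈ V, y⁻¹ ∉ V → ∃ v ∈ V, y = t * v) : ∃ v ∈ V, π = t * v :=
  hunif π hπV hπnu

/-- **`[ONE mid]` on the finite chart, abstract plug.**

* `S`  : the weak setup at the big level, `V = (V_∞ ⊓ V_mid) ⊓ V_0`;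
* `S'`, `hIG'` : the strong setup and `IG` at the small level (good reduction), `V' ≤ V_mid`;
* `hDT`, `hQτ` : the D-trick hypotheses for the coordinate `t` (uniformiser `τ` of `V_mid`),
  `Q = τ ^ (q - 1) * unit`;
* `hres` : the residue field of `V_mid` is that of `V'`;
* `hQπ` : `Q = π * unit` (`q` is unramified in `O`);
* `hDR` : `D ∈ locRing A0 m` (THICK-UNR + Hartogs). -/
theorem S36MK_one_abs [CharZero L]
    (S : S34C_Setup O π j F1 (Voo ⊓ Vmid ⊓ V0 : Subring L) A0 Ainf)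
    (S' : Setup O π j F1' V' A0' Ainf') (hIG' : IG π A0') (hF : F1' ≤ F1) (hV' : V' ≤ Vmid)
    (Hmid : S34C2_Val π F1 Vmid)
    {τ t Sx H D ΦY Q : L} {p : ℕ → L} {n : ℕ}
    (hDT : S36DT_Hyp Vmid τ n Q t Sx H D ΦY p)
    (hQτ : ∃ u ∈ Vmid, u⁻¹ ∈ Vmid ∧ Q = τ ^ (n + 1) * u)
    (hres : ∀ x ∈ Vmid, ∃ r ∈ V', ∃ v ∈ Vmid, x = r + τ * v)
    (htX : t ∈ A0)
    (hQπ : ∃ w ∈ O, w⁻¹ ∈ O ∧ Q = π * w)
    {lam : ℕ} (hlam : 0 < lam) (hlamO : ((lam : L))⁻¹ ∈ O)
    (f : L) (hf0 : f ≠ 0) (hdiv : PowDiv O π F1 lam f)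
    (hπ : π ∈ A0) (m : Ideal A0) (hm : m.IsMaximal) (hπm : (⟨π, hπ⟩ : A0) ∈ m)
    (hon : S36ONE_On Vmid A0 m) (hDR : D ∈ @locRing _ _ A0 m hm.isPrime)
    (d : A0) (hdm : d ∉ m) (hdW : ∃ v ∈ (Voo ⊓ V0 : Subring L), (d : L) = π * v)
    (G : L) (hred : RedPow π (Voo ⊓ Vmid ⊓ V0 : Subring L) lam f G) :
    S36XB_One π F1 Vmid Voo V0 A0 lam f G m := by
  haveI hmp : m.IsPrime := hm.isPrime
  obtain ⟨hnoeth, hOX, -, hπ0, hsat, hfrac⟩ := S36DK_chart S (Or.inl rfl) S.chart0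
  haveI := hnoeth
  have hfF : f ∈ F1 := by
    obtain ⟨hG, -, c, hc, hf⟩ := hred
    rw [hf]
    exact F1.mul_mem (F1.pow_mem (S.V_le hG) lam)
      (F1.add_mem F1.one_mem (F1.mul_mem (S.O_le S.π_mem) (S.V_le hc)))
  haveI : IsNoetherianRing A0' :=
    Fermat.Agent.S18_helper27_CNOETH.S18CNOETH_chart_noetherian S' j (Or.inl rfl) A0' S'.chart0
  have hX : A0 ≤ (Voo ⊓ Vmid ⊓ V0 : Subring L) := S.chart0.le_V
  have hXmid : A0 ≤ Vmid := fun x hx => (hX hx).1.2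
  have hXW : A0 ≤ (Voo ⊓ V0 : Subring L) := fun x hx => ⟨(hX hx).1.1, (hX hx).2⟩
  -- `t` is a uniformiser of `V_mid`
  obtain ⟨htV, htnu, htunif⟩ := S36DT_unif hDT hQτ
  have ht0 : t ≠ 0 := hDT.t_ne
  have hQ0 : Q ≠ 0 := hDT.Q_ne
  have htm : (⟨t, htX⟩ : A0) ∈ m := hon ⟨t, htX⟩ htnu
  have hπt : ∃ v ∈ Vmid, π = t * v := htunif π (hXmid hπ) Hmid.π_nonunit
  -- the residue field, with respect to `t`
  have hτt : ∃ v ∈ Vmid, τ = t * v := htunif τ hDT.τ_mem hDT.τ_nonunit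
  have hres' : ∀ x ∈ Vmid, ∃ r ∈ V', ∃ v ∈ Vmid, x = r + t * v := by
    intro x hx
    obtain ⟨r, hr, v, hv, hxv⟩ := hres x hx
    obtain ⟨u, hu, hτu⟩ := hτt
    exact ⟨r, hr, u * v, Vmid.mul_mem hu hv, by rw [hxv, hτu]; ring⟩
  -- the witnesses
  obtain ⟨w, hwO, hwO', hQw⟩ := hQπ
  have hw0 : w ≠ 0 := by
    rintro rfl
    rw [mul_zero] at hQw
    exact hQ0 hQw
  obtain ⟨vd, hvd, hdvd⟩ := hdW
  obtain ⟨hcore, -⟩ := hDT.core
  -- `c0 = d * t ^ (q - 1) / Q`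
  have hc0eq : (d : L) * (t ^ (n + 1) / Q) = vd * t ^ (n + 1) * w⁻¹ := by
    rw [hdvd, hQw]
    field_simp
  have hc0X : (d : L) * (t ^ (n + 1) / Q) ∈ A0 := by
    refine hsat _ ?_ ?_ ?_ ?_
    · rw [hc0eq]
      exact Voo.mul_mem (Voo.mul_mem hvd.1 (Voo.pow_mem (hXW htX).1 _)) (hXW (hOX hwO')).1
    · exact Vmid.mul_mem (hXmid d.2) hcore
    · rw [hc0eq]
      exact V0.mul_mem (V0.mul_mem hvd.2 (V0.pow_mem (hXW htX).2 _)) (hXW (hOX hwO')).2
    · have : π * ((d : L) * (t ^ (n + 1) / Q)) = (d : L) * t ^ (n + 1) * w⁻¹ := by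
        rw [hQw]
        field_simp
      rw [this]
      exact A0.mul_mem (A0.mul_mem d.2 (A0.pow_mem htX _)) (hOX hwO')
  have hc0Q : (((⟨_, hc0X⟩ : A0) : A0) : L) * Q = (d : L) * t ^ (n + 1) := by
    show (d : L) * (t ^ (n + 1) / Q) * Q = (d : L) * t ^ (n + 1)
    field_simp
  have hc0m : (⟨_, hc0X⟩ : A0) ∉ m :=
    S36MK_witness hDT A0 hXmid m hon d ⟨_, hc0X⟩ hdm hc0Q hDR
  have hwm : (⟨w, hOX hwO⟩ : A0) ∉ m := by
    intro hmem
    apply hmp.ne_top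
    rw [Ideal.eq_top_iff_one]
    have h1 : (1 : A0) = ⟨w⁻¹, hOX hwO'⟩ * ⟨w, hOX hwO⟩ := by
      apply Subtype.ext
      show (1 : L) = w⁻¹ * w
      rw [inv_mul_cancel₀ hw0]
    rw [h1]
    exact m.mul_mem_left _ hmem
  have hcm : (⟨_, hc0X⟩ : A0) * ⟨w, hOX hwO⟩ ∉ m := fun hmem =>
    (hmp.mem_or_mem hmem).elim hc0m hwm
  have hbX : (d : L) * t ^ n ∈ A0 := A0.mul_mem d.2 (A0.pow_mem htX _)
  have hcb : (((⟨_, hc0X⟩ : A0) * ⟨w, hOX hwO⟩ : A0) : L) * π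
      = t * ((⟨_, hbX⟩ : A0) : L) := by
    show (d : L) * (t ^ (n + 1) / Q) * w * π = t * ((d : L) * t ^ n)
    rw [hQw]
    field_simp
    ring
  have hdW' : ∃ v ∈ (Voo ⊓ V0 : Subring L), (d : L) = π * v := ⟨vd, hvd, hdvd⟩
  -- `IGAt t A0 m`
  have hIG : IGAt t A0 m :=
    S36N1M_thruMid (W := (Voo ⊓ V0 : Subring L)) S' hV' t htnu htunif hπt hres' j S'.j_mem
      A0' A0 S'.chart0 (S34N1S_chart_le hF S'.chart0 S.chart0)
      (fun y hy => ((S.chart0.mem_iff y).1 hy).1) hXmid hXW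
      (fun v hv hw hπv => hsat v hw.1 hv hw.2 hπv) hIG' htX m hm htm _ ⟨_, hbX⟩ d hcm hcb hdm
      hdW'
  have hlamL : ((lam : ℕ) : L) ≠ 0 := Nat.cast_ne_zero.2 hlam.ne'
  exact S36MID_one Hmid htnu htunif hX hsat htX hfrac m hπ hπm htm hIG _ ⟨_, hbX⟩ d hcm hcb hdm
    hdW' hOX hlam hlamL (le_locRing A0 m (hOX hlamO)) f G hfF hf0 hdiv hred

end Abstract

section Concrete

variable (A : ValuationSubring (AlgebraicClosure ℚ))
  (K1 : IntermediateField ℚ (AlgebraicClosure ℚ)) [IsDiscreteValuationRing (S18K_O1 A K1)]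

/-- `q = π * unit of O` as Laurent series, from `Associated π q` in `O1`. -/
theorem S36MK_unr {q : ℕ} (hunr : Associated (S18K_D A K1).π ((q : ℕ) : S18K_O1 A K1)) :
    ∃ w ∈ S18K_O A K1, w⁻¹ ∈ S18K_O A K1 ∧
      (q : LaurentSeries K1) = S18K_π A K1 * w := by
  obtain ⟨u, hu⟩ := hunr
  have h1 : (HahnSeries.C ((S18K_D A K1).inc (u : S18K_O1 A K1)) : LaurentSeries K1)
      * HahnSeries.C ((S18K_D A K1).inc (↑u⁻¹ : S18K_O1 A K1)) = 1 := by
    rw [← map_mul, ← map_mul, Units.mul_inv, map_one, map_one]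
  have hinv : (HahnSeries.C ((S18K_D A K1).inc (u : S18K_O1 A K1)) : LaurentSeries K1)⁻¹
      = HahnSeries.C ((S18K_D A K1).inc (↑u⁻¹ : S18K_O1 A K1)) :=
    inv_eq_of_mul_eq_one_right h1
  have hmem : ∀ c : S18K_O1 A K1,
      (HahnSeries.C ((S18K_D A K1).inc c) : LaurentSeries K1) ∈ S18K_O A K1 := fun c =>
    (S18K_mem_O A K1 _).2 ⟨(c : K1), c.2, rfl⟩
  refine ⟨HahnSeries.C ((S18K_D A K1).inc (u : S18K_O1 A K1)), hmem _, ?_, ?_⟩
  · rw [hinv]
    exact hmem _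
  · show (q : LaurentSeries K1) = (S18K_D A K1).πK * _
    rw [GaussData.πK, ← map_mul, ← map_mul, hu, map_natCast, map_natCast]

/-- **`[ONE mid]` on the finite chart at the carriers**, ANY middle ring `W2` and third ring
`W3`, ANY coordinate `t` with the D-trick hypotheses: the one-branch datum at every maximal
ideal `m ∋ π` of the finite chart of level `N` (`M' ∣ N`, `q ∤ M'`) on the thick component
only.  This is the hypothesis `hmid` of helper9's `S36DK_pts0`. -/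
theorem S36MK_one {q : ℕ} (hq : q.Prime) (hA : A.LiesOverPrime q) (M' N : ℕ) [NeZero M']
    [NeZero N] (hqM : ¬ q ∣ M') (hM'N : M' ∣ N) (h : S18K_Admissible A K1 q)
    (hunr : Associated (S18K_D A K1).π ((q : ℕ) : S18K_O1 A K1))
    (W2 W3 : Subring (LaurentSeries K1))
    (S : S34C_Setup (S18K_O A K1) (S18K_π A K1) (S18K_j K1) (S18K_F1 K1 N)
      (S18K_V A K1 N ⊓ W2 ⊓ W3) (S18K_A0 A K1 N) (S18K_Ainf A K1 N))
    (H2 : S34C2_Val (S18K_π A K1) (S18K_F1 K1 N) W2) (hV'2 : S18K_V A K1 M' ≤ W2)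
    {τ t Sx H D ΦY : LaurentSeries K1} {p : ℕ → LaurentSeries K1} {n : ℕ}
    (hDT : S36DT_Hyp W2 τ n (q : LaurentSeries K1) t Sx H D ΦY p)
    (hQτ : ∃ u ∈ W2, u⁻¹ ∈ W2 ∧ (q : LaurentSeries K1) = τ ^ (n + 1) * u)
    (hres : ∀ x ∈ W2, ∃ r ∈ S18K_V A K1 M', ∃ v ∈ W2, x = r + τ * v)
    (htX : t ∈ S18K_A0 A K1 N)
    {lam : ℕ} (hlam : lam.Prime) (hlq : lam ≠ q) (f : LaurentSeries K1) (hf0 : f ≠ 0)
    (hdiv : PowDiv (S18K_O A K1) (S18K_π A K1) (S18K_F1 K1 N) lam f)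
    (hπ : S18K_π A K1 ∈ S18K_A0 A K1 N)
    (m : Ideal (S18K_A0 A K1 N)) (hm : m.IsMaximal)
    (hπm : (⟨S18K_π A K1, hπ⟩ : S18K_A0 A K1 N) ∈ m)
    (hon : S36ONE_On W2 (S18K_A0 A K1 N) m)
    (hDR : D ∈ @locRing _ _ (S18K_A0 A K1 N) m hm.isPrime)
    (d : S18K_A0 A K1 N) (hdm : d ∉ m)
    (hdW : ∃ v ∈ (S18K_V A K1 N ⊓ W3 : Subring (LaurentSeries K1)),
      (d : LaurentSeries K1) = S18K_π A K1 * v)
    (G : LaurentSeries K1) (hred : RedPow (S18K_π A K1)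
      (S18K_V A K1 N ⊓ W2 ⊓ W3 : Subring (LaurentSeries K1)) lam f G) :
    S36XB_One (S18K_π A K1) (S18K_F1 K1 N) W2 (S18K_V A K1 N) W3 (S18K_A0 A K1 N) lam f G
      m := by
  haveI := S34N1K_charZero K1
  haveI : Fact q.Prime := ⟨hq⟩
  have hAB := Fermat.Agent.S18_helper25_FINAL.S18K_blocksAB_of_blockB M' hqM A hA
    (Fermat.Agent.S18_helper12_TOP.S18TOP_blockB M' hqM A hA)
  obtain ⟨S', hIG0, -⟩ := hAB K1 h
  exact S36MK_one_abs S S' hIG0 (S34V3K_F1_mono K1 hM'N) hV'2 H2 hDT hQτ hres htX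
    (S36MK_unr A K1 hunr) hlam.pos
    (Fermat.Agent.S18_helper25_CORE.S18K_natCast_inv_mem A K1 hA lam hlam hlq)
    f hf0 hdiv hπ m hm hπm hon hDR d hdm hdW G hred

end Concrete

section Main

variable (A : ValuationSubring (AlgebraicClosure ℚ))
  (K1 : IntermediateField ℚ (AlgebraicClosure ℚ)) [IsDiscreteValuationRing (S18K_O1 A K1)]
  (q M' : ℕ) [NeZero M'] [NeZero q] [NeZero (q * q)] [NeZero (q ^ 2)] [NeZero (M' * q * q)]

/-- `Φ_X(x, y)` for the modular equation `Φ(X, Y) = X^(q+1) + ∑ a_i(Y) X^i` of the coordinate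
`x` (`y = x(Q^q)`), over `K1`. -/
def S36MK_PhiX (x : LaurentSeries ℤ) (a : ℕ → Polynomial ℤ) : LaurentSeries K1 :=
  ((q + 1 : ℕ) : LaurentSeries K1) * (coeffMap (Int.castRingHom K1) x) ^ q +
    ∑ i ∈ Finset.range (q + 1),
      Polynomial.eval₂ (Int.castRingHom (LaurentSeries K1))
        (qExpand K1 q (coeffMap (Int.castRingHom K1) x)) (a i) *
        ((i : LaurentSeries K1) * (coeffMap (Int.castRingHom K1) x) ^ (i - 1))

/-- `Φ_Y(x, y)`, over `K1`. -/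
def S36MK_PhiY (x : LaurentSeries ℤ) (a : ℕ → Polynomial ℤ) : LaurentSeries K1 :=
  ∑ i ∈ Finset.range (q + 1),
    Polynomial.eval₂ (Int.castRingHom (LaurentSeries K1))
      (qExpand K1 q (coeffMap (Int.castRingHom K1) x)) (Polynomial.derivative (a i)) *
      (coeffMap (Int.castRingHom K1) x) ^ i

/-- **The D-trick hypotheses at the carriers**, for ANY coordinate `x` with a modular equation
(helper1's `S36VG_main`), from the bridge `hbr`: `t_x = x(Q^(q²)) - x` is a non-unit of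
`V_mid`.  `τ = S36VK_t K1 q = j(Q^(q²)) - j`. -/
theorem S36MK_hyp (hq : q.Prime) (hqM : ¬ q ∣ M') (hA : A.LiesOverPrime q)
    (hunr : Associated (S18K_D A K1).π ((q : ℕ) : S18K_O1 A K1))
    (x : LaurentSeries ℤ) (hx : x.coeff (-1) = 1) (a : ℕ → Polynomial ℤ)
    (hmod : S36KG_IsModEq q x a)
    (hxF : coeffMap (Int.castRingHom K1) x ∈ modularFunctionFieldFullC K1 M')
    (hbr : ∃ v ∈ S36VK_Vmid A K1 q M',
      qExpand K1 (q * q) (coeffMap (Int.castRingHom K1) x) - coeffMap (Int.castRingHom K1) x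
        = S36VK_t K1 q * v) :
    ∃ (n : ℕ) (Sx H D ΦY : LaurentSeries K1) (p : ℕ → LaurentSeries K1), n + 2 = q ∧
      S36DT_Hyp (S36VK_Vmid A K1 q M') (S36VK_t K1 q) n (q : LaurentSeries K1)
        (qExpand K1 (q * q) (coeffMap (Int.castRingHom K1) x) -
          coeffMap (Int.castRingHom K1) x) Sx H D ΦY p ∧
      (∃ u ∈ S36VK_Vmid A K1 q M', u⁻¹ ∈ S36VK_Vmid A K1 q M' ∧
        (q : LaurentSeries K1) = S36VK_t K1 q ^ (n + 1) * u) ∧
      D * S36MK_PhiX K1 q x a = -((q : LaurentSeries K1) * S36MK_PhiY K1 q x a) ∧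
      S36MK_PhiX K1 q x a ≠ 0 := by
  haveI := S34N1K_charZero K1
  haveI : NeZero (M' * q) := ⟨mul_ne_zero (NeZero.ne M') hq.ne_zero⟩
  obtain ⟨hmid2, -, -, -, hτ0, hπτ, hτπ, -, -, hunif, -, -, -⟩ :=
    S36VK_main A K1 q M' hq hqM hA hunr
  obtain ⟨H2, hV', hτV, hτnu⟩ := hmid2
  obtain ⟨p, H, ΦY, D, hpV, hpq, hroot, hpmid, ⟨hHV, hHV', hH0⟩, hp0, ⟨hSV, hSV', hS0⟩,
    ⟨et, het, htop⟩, ⟨hΦV, eΦ, heΦ, hΦ⟩, ⟨hDV, hDV', hDH, hDp⟩, hp0f, hΦf⟩ :=
    S36VG_main A K1 q M' hq hA x hx a hmod hxF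
  obtain ⟨u0, hu0V, hu00, hu0V', hqu0⟩ := S36VK_unr A K1 q hunr (M' * q)
  have hπ0 : S18K_π A K1 ≠ 0 := by
    intro h0
    apply H2.π_nonunit
    rw [h0, inv_zero]
    exact Subring.zero_mem _
  have hq0 : (q : LaurentSeries K1) ≠ 0 := by
    rw [hqu0]
    exact mul_ne_zero hπ0 hu00
  obtain ⟨n, hn⟩ : ∃ n, n + 2 = q := ⟨q - 2, by have := hq.two_le; omega⟩
  have hn1 : q - 1 = n + 1 := by omega
  -- `q = τ ^ (n + 1) * unit`
  have hτn0 : S36VK_t K1 q ^ (n + 1) ≠ 0 := pow_ne_zero _ hτ0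
  have hQτ : ∃ u ∈ S36VK_Vmid A K1 q M', u⁻¹ ∈ S36VK_Vmid A K1 q M' ∧
      (q : LaurentSeries K1) = S36VK_t K1 q ^ (n + 1) * u := by
    rw [hn1] at hπτ hτπ
    refine ⟨S18K_π A K1 / S36VK_t K1 q ^ (n + 1) * u0,
      Subring.mul_mem _ hπτ (hV' hu0V), ?_, ?_⟩
    · have : (S18K_π A K1 / S36VK_t K1 q ^ (n + 1) * u0)⁻¹ =
          S36VK_t K1 q ^ (n + 1) / S18K_π A K1 * u0⁻¹ := by
        field_simp
      rw [this]
      exact Subring.mul_mem _ hτπ (hV' hu0V')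
    · rw [hqu0]
      field_simp
  -- `q ∈ τ V_mid`
  have hqτ : ∀ e ∈ S18K_V A K1 (M' * q), ∃ v ∈ S36VK_Vmid A K1 q M',
      (q : LaurentSeries K1) * e = S36VK_t K1 q * v := by
    intro e he
    obtain ⟨u, hu, -, hqu⟩ := hQτ
    refine ⟨S36VK_t K1 q ^ n * u * e,
      Subring.mul_mem _ (Subring.mul_mem _ (Subring.pow_mem _ hτV n) hu) (hV' he), ?_⟩
    rw [hqu, pow_succ]
    ring
  refine ⟨n, coeffMap (Int.castRingHom K1) x -
    (qExpand K1 q (coeffMap (Int.castRingHom K1) x)) ^ q, H, D, ΦY, p, hn, ?_, hQτ, ?_, ?_⟩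
  · refine
      { τ_mem := hτV
        τ_nonunit := hτnu
        unif := hunif
        Q_ne := hq0
        t_mem := hbr
        S_mem := hV' hSV
        S_inv := hV' hSV'
        S_ne := hS0
        H_mem := hV' hHV
        H_inv := hV' hHV'
        H_ne := hH0
        monic := by rw [hn]; exact hpq
        root := by
          have : n + 3 = q + 1 := by omega
          rw [this]
          exact hroot
        p_zero := hp0
        p_mid := fun k hk1 hk2 => by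
          obtain ⟨e, he, hpe⟩ := hpmid k hk1 (by omega)
          exact ⟨e, hV' he, hpe⟩
        p_top := by
          obtain ⟨v, hv, hqv⟩ := hqτ et het
          refine ⟨v, hv, ?_⟩
          rw [← hn1, htop, hqv]
        ΦY_cong := by
          obtain ⟨v, hv, hqv⟩ := hqτ eΦ heΦ
          exact ⟨v, hv, by rw [hΦ, hqv]⟩
        D_eq := hDH }
  · show D * S36MK_PhiX K1 q x a = -((q : LaurentSeries K1) * S36MK_PhiY K1 q x a)
    have e1 : S36MK_PhiX K1 q x a = p 0 := hp0f.symm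
    have e2 : S36MK_PhiY K1 q x a = ΦY := hΦf.symm
    rw [e1, e2]
    exact hDp
  · have e1 : S36MK_PhiX K1 q x a = p 0 := hp0f.symm
    rw [e1, hp0]
    exact mul_ne_zero hq0 hH0

/-- **`[ONE mid]` on the finite chart of level `M' q q`, for `V_mid = S36VK_Vmid`** (ANY third
ring `W3`), in the shape of the hypothesis `hmid` of helper9's `S36DK_pts0`.  Inputs left:

* the coordinate `x` with a modular equation (`hmod`), of level `M'` (`hxF`);
* `hbr`  : the bridge, `t_x = x(Q^(q²)) - x` is a non-unit of `V_mid`;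
* `htX`  : `t_x` lies in the finite chart;
* `hDA`  : THICK-UNR + Hartogs: `q dx/dy` lies in the finite chart. -/
theorem S36MK_main (hq : q.Prime) (hqM : ¬ q ∣ M') (hA : A.LiesOverPrime q)
    (h : S18K_Admissible A K1 q)
    (hunr : Associated (S18K_D A K1).π ((q : ℕ) : S18K_O1 A K1))
    (W3 : Subring (LaurentSeries K1))
    (S : S34C_Setup (S18K_O A K1) (S18K_π A K1) (S18K_j K1) (S18K_F1 K1 (M' * q * q))
      (S18K_V A K1 (M' * q * q) ⊓ S36VK_Vmid A K1 q M' ⊓ W3) (S18K_A0 A K1 (M' * q * q))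
      (S18K_Ainf A K1 (M' * q * q)))
    (x : LaurentSeries ℤ) (hx : x.coeff (-1) = 1) (a : ℕ → Polynomial ℤ)
    (hmod : S36KG_IsModEq q x a)
    (hxF : coeffMap (Int.castRingHom K1) x ∈ modularFunctionFieldFullC K1 M')
    (hbr : ∃ v ∈ S36VK_Vmid A K1 q M',
      qExpand K1 (q * q) (coeffMap (Int.castRingHom K1) x) - coeffMap (Int.castRingHom K1) x
        = S36VK_t K1 q * v)
    (htX : qExpand K1 (q * q) (coeffMap (Int.castRingHom K1) x) -
      coeffMap (Int.castRingHom K1) x ∈ S18K_A0 A K1 (M' * q * q))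
    (hDA : ∃ Dq ∈ S18K_A0 A K1 (M' * q * q),
      Dq * S36MK_PhiX K1 q x a = -((q : LaurentSeries K1) * S36MK_PhiY K1 q x a))
    {lam : ℕ} (hlam : lam.Prime) (hlq : lam ≠ q) (f : LaurentSeries K1) (hf0 : f ≠ 0)
    (hdiv : PowDiv (S18K_O A K1) (S18K_π A K1) (S18K_F1 K1 (M' * q * q)) lam f)
    (hπ : S18K_π A K1 ∈ S18K_A0 A K1 (M' * q * q)) :
    ∀ m : Ideal (S18K_A0 A K1 (M' * q * q)), m.IsMaximal →
      (⟨S18K_π A K1, hπ⟩ : S18K_A0 A K1 (M' * q * q)) ∈ m →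
      S36ONE_On (S36VK_Vmid A K1 q M') (S18K_A0 A K1 (M' * q * q)) m →
      ∀ d : S18K_A0 A K1 (M' * q * q), d ∉ m →
      (∃ v ∈ (S18K_V A K1 (M' * q * q) ⊓ W3 : Subring (LaurentSeries K1)),
        (d : LaurentSeries K1) = S18K_π A K1 * v) →
      ∀ G : LaurentSeries K1, RedPow (S18K_π A K1)
        (S18K_V A K1 (M' * q * q) ⊓ S36VK_Vmid A K1 q M' ⊓ W3 :
          Subring (LaurentSeries K1)) lam f G →
      S36XB_One (S18K_π A K1) (S18K_F1 K1 (M' * q * q)) (S36VK_Vmid A K1 q M')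
        (S18K_V A K1 (M' * q * q)) W3 (S18K_A0 A K1 (M' * q * q)) lam f G m := by
  intro m hm hπm hon d hdm hdW G hred
  haveI := hm.isPrime
  obtain ⟨hmid2, -, -, -, -, -, -, -, -, -, -, -, hres⟩ :=
    S36VK_main A K1 q M' hq hqM hA hunr
  obtain ⟨H2, hV', -, -⟩ := hmid2
  obtain ⟨n, Sx, H, D, ΦY, p, hn, hDT, hQτ, hDp, hΦX0⟩ :=
    S36MK_hyp A K1 q M' hq hqM hA hunr x hx a hmod hxF hbr
  obtain ⟨Dq, hDqX, hDq⟩ := hDA
  have hDD : D = Dq := mul_right_cancel₀ hΦX0 (hDp.trans hDq.symm)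
  have hV'2 : S18K_V A K1 M' ≤ S36VK_Vmid A K1 q M' :=
    (S34V3K_V_mono A K1 (dvd_mul_right M' q)).trans hV'
  have hM'N : M' ∣ M' * q * q := (dvd_mul_right M' q).trans (dvd_mul_right (M' * q) q)
  exact S36MK_one A K1 hq hA M' (M' * q * q) hqM hM'N h hunr (S36VK_Vmid A K1 q M') W3 S H2
    hV'2 hDT hQτ hres htX hlam hlq f hf0 hdiv hπ m hm hπm hon
    (hDD ▸ le_locRing (S18K_A0 A K1 (M' * q * q)) m hDqX) d hdm hdW G hred

end Main

end Fermat.Agent.S36_helper14_MIDK
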