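import Mathlib
import Fermat.Agent.S18_helper9_CDefs
import Fermat.Agent.S18_helper9_CBasic
import Fermat.Agent.S18_helper3_LOCRING
import Fermat.Agent.S34_helper12_CDefs
import Fermat.Agent.S34_helper27_C2Defs
import Fermat.Agent.S34_helper19_SMOOTH
import Fermat.Agent.S35_helper2_BRREG
import Fermat.Agent.S36_helper19_LOCAL
import Fermat.Agent.S36_helper19_FACTL
import Fermat.Agent.S36_helper2_BRANCH
import Fermat.Agent.S36_helper9_THIN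
import Fermat.Agent.S36_helper14_N1M

/-!
# S36, GEO36 (II.4) at the THICK one-branch points: the local shape (helper14)

Abstract layer, Subring-of-`L` vocabulary.  `V2` is the valuation ring of the thick component
(uniformiser `t`, `π = t ^ e * unit`), `W` ANY subring (the intersection of the valuation rings
of the other components), `X ≤ V2 ⊓ W` a noetherian chart with fraction field `F1`, saturated
(`v ∈ V2`, `v ∈ W`, `π v ∈ X` imply `v ∈ X`), `m` a prime of `X` containing `t`, with witnesses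
`c, d ∈ X ∖ m`, `c π = d t ^ e`, `d ∈ π W` (the point lies on the thick branch only and `t` is a
local equation of the thick component at `m`), and `IGAt t X m` (`S36N1M_thruMid`).

* `S36N1MS_vert`       : `c d a ∈ t X` for `a ∈ X ∩ t V2`;
* `S36N1MS_thru`       : `X ∩ t V2 ⊆ m`;
* `S36N1MS_locRing_le` : `X_m ≤ V2`;
* `S36N1MS_sat`        : `X_m ∩ t V2 = t X_m`;
* `S36N1MS_locHyp`     : the hypotheses `LocHyp t V2 X_m 𝔪` of S18 X-C-LOCRING;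
* `S36N1MS_ufd`        : `X_m` is factorial;
* `S36N1MS_branch`     : helper2's `S35BRG_Branch t V2 X m`;
* `S36N1MS_fact`       : FACT-L at `m` (plug of helper19's `S36FL_one`);
* `S36N1MS_root`       : BRANCH36 at `m` (plug of helper2's `S36BRA_root`);
* `S36N1MS_shape`      : **`S34C_Shape π F1 V2 X p f G m`**;
* `S36N1MS_one`        : the shape together with the witness `d` for two other valuation rings.
-/

set_option autoImplicit false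
set_option linter.style.haveILetI false
set_option linter.unusedVariables false
set_option linter.unusedSectionVars false

namespace Fermat.Agent.S36_helper14_N1MS

open Fermat.Agent.S18_helper9_CDefs Fermat.Agent.S18_helper9_CBasic
  Fermat.Agent.S18_helper3_LOCRING Fermat.Agent.S34_helper12_CDefs
  Fermat.Agent.S34_helper27_C2Defs Fermat.Agent.S34_helper19_SMOOTH
  Fermat.Agent.S35_helper2_BRREG Fermat.Agent.S36_helper19_LOCAL
  Fermat.Agent.S36_helper19_FACTL Fermat.Agent.S36_helper2_BRANCH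
  Fermat.Agent.S36_helper9_THIN Fermat.Agent.S36_helper14_N1M

variable {L : Type*} [Field L] {π t : L} {F1 : Subfield L} {O V2 W X : Subring L}

/-- **the vertical ideal of the thick component is `(t)` locally at `m`**: `c * d * a ∈ t X`
for every `a ∈ X ∩ t V2`. -/
theorem S36N1MS_vert (hV2nu : t⁻¹ ∉ V2) (hXV2 : X ≤ V2) (hXW : X ≤ W)
    (hsat : ∀ v ∈ V2, v ∈ W → π * v ∈ X → v ∈ X) {e : ℕ} (he : 1 ≤ e) (ht : t ∈ X)
    (c d : X) (hcd : (c : L) * π = (d : L) * t ^ e) (hdW : ∃ v ∈ W, (d : L) = π * v)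
    (a : X) (ha : ∃ v ∈ V2, (a : L) = t * v) :
    ∃ b ∈ X, (c : L) * (d : L) * (a : L) = t * b := by
  obtain ⟨k, rfl⟩ : ∃ k, e = k + 1 := ⟨e - 1, by omega⟩
  have hb : (d : L) * t ^ k ∈ X := X.mul_mem d.2 (X.pow_mem ht k)
  exact S36N1M_vertMid hV2nu hXV2 hXW hsat c ⟨_, hb⟩ d (by rw [hcd, pow_succ]; ring) hdW a ha

/-- the vertical prime of the thick component lies in `m`. -/
theorem S36N1MS_thru (hV2nu : t⁻¹ ∉ V2) (hXV2 : X ≤ V2) (hXW : X ≤ W)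
    (hsat : ∀ v ∈ V2, v ∈ W → π * v ∈ X → v ∈ X) {e : ℕ} (he : 1 ≤ e) (ht : t ∈ X)
    (m : Ideal X) [hm : m.IsPrime] (htm : (⟨t, ht⟩ : X) ∈ m)
    (c d : X) (hcm : c ∉ m) (hdm : d ∉ m) (hcd : (c : L) * π = (d : L) * t ^ e)
    (hdW : ∃ v ∈ W, (d : L) = π * v) (a : X) (ha : ∃ v ∈ V2, (a : L) = t * v) : a ∈ m := by
  obtain ⟨b, hb, h⟩ := S36N1MS_vert hV2nu hXV2 hXW hsat he ht c d hcd hdW a ha
  have h1 : c * d * a = ⟨t, ht⟩ * ⟨b, hb⟩ := Subtype.ext h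
  have h2 : c * d * a ∈ m := by
    rw [h1]; exact m.mul_mem_right _ htm
  rcases hm.mem_or_mem h2 with h3 | h3
  · rcases hm.mem_or_mem h3 with h4 | h4
    exacts [absurd h4 hcm, absurd h4 hdm]
  · exact h3

/-- elements of the chart outside `m` are units of `V2`. -/
theorem S36N1MS_inv_mem (hV2nu : t⁻¹ ∉ V2) (hV2unif : ∀ x ∈ V2, x⁻¹ ∉ V2 → ∃ v ∈ V2, x = t * v)
    (hXV2 : X ≤ V2) (hXW : X ≤ W)
    (hsat : ∀ v ∈ V2, v ∈ W → π * v ∈ X → v ∈ X) {e : ℕ} (he : 1 ≤ e) (ht : t ∈ X)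
    (m : Ideal X) [hm : m.IsPrime] (htm : (⟨t, ht⟩ : X) ∈ m)
    (c d : X) (hcm : c ∉ m) (hdm : d ∉ m) (hcd : (c : L) * π = (d : L) * t ^ e)
    (hdW : ∃ v ∈ W, (d : L) = π * v) {s : X} (hs : s ∉ m) : ((s : L))⁻¹ ∈ V2 := by
  by_contra hcon
  exact hs (S36N1MS_thru hV2nu hXV2 hXW hsat he ht m htm c d hcm hdm hcd hdW s
    (hV2unif _ (hXV2 s.2) hcon))

/-- the local ring at `m` is contained in `V2`. -/
theorem S36N1MS_locRing_le (hV2nu : t⁻¹ ∉ V2)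
    (hV2unif : ∀ x ∈ V2, x⁻¹ ∉ V2 → ∃ v ∈ V2, x = t * v)
    (hXV2 : X ≤ V2) (hXW : X ≤ W)
    (hsat : ∀ v ∈ V2, v ∈ W → π * v ∈ X → v ∈ X) {e : ℕ} (he : 1 ≤ e) (ht : t ∈ X)
    (m : Ideal X) [hm : m.IsPrime] (htm : (⟨t, ht⟩ : X) ∈ m)
    (c d : X) (hcm : c ∉ m) (hdm : d ∉ m) (hcd : (c : L) * π = (d : L) * t ^ e)
    (hdW : ∃ v ∈ W, (d : L) = π * v) : locRing X m ≤ V2 := by
  rintro y ⟨a, s, hs, hy⟩
  have hs0 := coe_ne_zero_of_notMem X m hs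
  have : y = (a : L) * ((s : L))⁻¹ := by rw [← hy]; field_simp
  rw [this]
  exact V2.mul_mem (hXV2 a.2)
    (S36N1MS_inv_mem hV2nu hV2unif hXV2 hXW hsat he ht m htm c d hcm hdm hcd hdW hs)

/-- the local ring at `m` is `t`-saturated in `V2`. -/
theorem S36N1MS_sat (hV2nu : t⁻¹ ∉ V2) (hXV2 : X ≤ V2) (hXW : X ≤ W)
    (hsat : ∀ v ∈ V2, v ∈ W → π * v ∈ X → v ∈ X) {e : ℕ} (he : 1 ≤ e) (ht : t ∈ X)
    (m : Ideal X) [hm : m.IsPrime]
    (c d : X) (hcm : c ∉ m) (hdm : d ∉ m) (hcd : (c : L) * π = (d : L) * t ^ e)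
    (hdW : ∃ v ∈ W, (d : L) = π * v) {v : L} (hv : v ∈ V2)
    (htv : t * v ∈ locRing X m) : v ∈ locRing X m := by
  have ht0 : t ≠ 0 := S36N1M_t_ne_zero hV2nu
  obtain ⟨a, s, hs, has⟩ := htv
  have ha : ∃ v' ∈ V2, (a : L) = t * v' :=
    ⟨v * (s : L), V2.mul_mem hv (hXV2 s.2), by rw [← has]; ring⟩
  obtain ⟨b, hb, h⟩ := S36N1MS_vert hV2nu hXV2 hXW hsat he ht c d hcd hdW a ha
  refine ⟨⟨b, hb⟩, c * d * s, fun hmem => ?_, ?_⟩
  · rcases hm.mem_or_mem hmem with h3 | h3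
    · rcases hm.mem_or_mem h3 with h4 | h4
      exacts [hcm h4, hdm h4]
    · exact hs h3
  · apply mul_left_cancel₀ ht0
    show t * (v * ((c * d * s : X) : L)) = t * b
    rw [← h, ← has]
    push_cast
    ring

/-- In a noetherian subring `R ≤ V2` with fraction field `F1` which is `t`-saturated in `V2`,
every element of `V2` is a fraction with denominator a unit of `V2`. -/
theorem S36N1MS_loc_gen {R : Subring L} [IsNoetherianRing R] (H2 : S34C2_Val π F1 V2)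
    (hV2nu : t⁻¹ ∉ V2) (hV2unif : ∀ x ∈ V2, x⁻¹ ∉ V2 → ∃ v ∈ V2, x = t * v)
    (hR1 : R ≤ V2) (hsatR : ∀ v : L, v ∈ V2 → t * v ∈ R → v ∈ R) (htR : t ∈ R)
    (hfrac : ∀ x ∈ F1, ∃ a b : L, a ∈ R ∧ b ∈ R ∧ b ≠ 0 ∧ x * b = a) :
    ∀ v ∈ V2, ∃ b ∈ R, b ≠ 0 ∧ b⁻¹ ∈ V2 ∧ v * b ∈ R := by
  have ht0 : t ≠ 0 := S36N1M_t_ne_zero hV2nu
  have htV : t ∈ V2 := hR1 htR
  have htu : ¬ IsUnit (⟨t, htR⟩ : R) := by
    intro hu
    obtain ⟨z, hz⟩ := hu.exists_right_inv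
    have h1 : t * (z : L) = 1 := congrArg Subtype.val hz
    apply hV2nu
    rw [inv_eq_of_mul_eq_one_right h1]
    exact hR1 z.2
  intro v hv
  by_cases hv0 : v = 0
  · exact ⟨1, R.one_mem, one_ne_zero, by rw [inv_one]; exact V2.one_mem, by
      rw [hv0, zero_mul]; exact R.zero_mem⟩
  obtain ⟨a, b, ha, hb, hb0, hvb⟩ := hfrac v (H2.le hv)
  have ha0 : a ≠ 0 := by
    rw [← hvb]
    exact mul_ne_zero hv0 hb0
  obtain ⟨k, b', hb'R, hb'inv, hbk⟩ := S36THIN_factor hV2unif hR1 hsatR htR htu hb hb0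
  obtain ⟨l, a', ha'R, ha'inv, hal⟩ := S36THIN_factor hV2unif hR1 hsatR htR htu ha ha0
  have hb'0 : b' ≠ 0 := by
    rintro rfl
    exact hb0 (by rw [hbk, mul_zero])
  have ha'0 : a' ≠ 0 := by
    rintro rfl
    exact ha0 (by rw [hal, mul_zero])
  have hrel : v * (t ^ k * b') = t ^ l * a' := by rw [← hbk, ← hal, hvb]
  have hkl : k ≤ l := by
    by_contra hlt
    have hlt' : l < k := Nat.lt_of_not_ge hlt
    have h1 : t ^ (k - l - 1) * (v * (b' * a'⁻¹)) * t = 1 := by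
      have hk : k = l + ((k - l - 1) + 1) := by omega
      have h2 : v * (t ^ (l + ((k - l - 1) + 1)) * b') = t ^ l * a' := by rw [← hk]; exact hrel
      have htl : t ^ l ≠ 0 := pow_ne_zero _ ht0
      have h3 : v * t ^ ((k - l - 1) + 1) * b' = a' := by
        apply mul_left_cancel₀ htl
        rw [← h2, pow_add]; ring
      have h4 : v * t ^ ((k - l - 1) + 1) * b' * a'⁻¹ = 1 := by
        rw [h3, mul_inv_cancel₀ ha'0]
      rw [← h4, pow_succ]; ring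
    apply hV2nu
    have h5 : t⁻¹ = t ^ (k - l - 1) * (v * (b' * a'⁻¹)) := by
      rw [eq_comm, ← mul_eq_one_iff_eq_inv₀ ht0]
      exact h1
    rw [h5]
    exact V2.mul_mem (V2.pow_mem htV _) (V2.mul_mem hv (V2.mul_mem (hR1 hb'R) ha'inv))
  refine ⟨b', hb'R, hb'0, hb'inv, ?_⟩
  have h6 : v * b' = t ^ (l - k) * a' := by
    have hl : l = k + (l - k) := by omega
    have htk : t ^ k ≠ 0 := pow_ne_zero _ ht0
    apply mul_left_cancel₀ htk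
    have h7 : t ^ k * (t ^ (l - k) * a') = t ^ l * a' := by
      rw [← mul_assoc, ← pow_add, ← hl]
    rw [h7, ← hrel]; ring
  rw [h6]
  exact R.mul_mem (R.pow_mem htR _) ha'R

/-- **The hypotheses of S18 X-C-LOCRING hold for the local ring `X_m`, the valuation ring `V2` of
the thick branch and the local equation `t`.** -/
theorem S36N1MS_locHyp [IsNoetherianRing X] (H2 : S34C2_Val π F1 V2) (hV2nu : t⁻¹ ∉ V2)
    (hV2unif : ∀ x ∈ V2, x⁻¹ ∉ V2 → ∃ v ∈ V2, x = t * v)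
    (hXV2 : X ≤ V2) (hXW : X ≤ W)
    (hsat : ∀ v ∈ V2, v ∈ W → π * v ∈ X → v ∈ X) {e : ℕ} (he : 1 ≤ e)
    (hfrac : ∀ x ∈ F1, ∃ a b : L, a ∈ X ∧ b ∈ X ∧ b ≠ 0 ∧ x * b = a) (ht : t ∈ X)
    (m : Ideal X) [hm : m.IsPrime] (htm : (⟨t, ht⟩ : X) ∈ m)
    (c d : X) (hcm : c ∉ m) (hdm : d ∉ m) (hcd : (c : L) * π = (d : L) * t ^ e)
    (hdW : ∃ v ∈ W, (d : L) = π * v) :
    LocHyp t V2 (locRing X m) (IsLocalRing.maximalIdeal (locRing X m)) := by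
  letI : IsNoetherianRing (locRing X m) := isNoetherianRing_locRing X m
  have hR1 := S36N1MS_locRing_le hV2nu hV2unif hXV2 hXW hsat he ht m htm c d hcm hdm hcd hdW
  have hsatR : ∀ v : L, v ∈ V2 → t * v ∈ locRing X m → v ∈ locRing X m :=
    fun v hv h => S36N1MS_sat hV2nu hXV2 hXW hsat he ht m c d hcm hdm hcd hdW hv h
  exact
    { π_mem := le_locRing X m ht
      π_mem_m := fun _ => incl_mem_maximalIdeal X m htm
      le_V := hR1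
      sat := fun v hv h => hsatR v hv h
      V_unif := hV2unif
      π_nonunit := hV2nu
      loc := S36N1MS_loc_gen H2 hV2nu hV2unif hR1 hsatR (le_locRing X m ht)
        (fun x hx => by
          obtain ⟨a, b, ha, hb, hb0, hab⟩ := hfrac x hx
          exact ⟨a, b, le_locRing X m ha, le_locRing X m hb, hb0, hab⟩) }

/-- `locRing (locRing X m) 𝔪 = locRing X m`. -/
theorem S36N1MS_locRing_locRing (m : Ideal X) [hm : m.IsPrime] :
    locRing (locRing X m) (IsLocalRing.maximalIdeal (locRing X m)) = locRing X m :=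
  le_antisymm (S34SM_locRing_locRing_le m) (le_locRing _ _)

/-- **The local ring at a thick one-branch point is factorial.** -/
theorem S36N1MS_ufd [IsNoetherianRing X] (H2 : S34C2_Val π F1 V2) (hV2nu : t⁻¹ ∉ V2)
    (hV2unif : ∀ x ∈ V2, x⁻¹ ∉ V2 → ∃ v ∈ V2, x = t * v)
    (hXV2 : X ≤ V2) (hXW : X ≤ W)
    (hsat : ∀ v ∈ V2, v ∈ W → π * v ∈ X → v ∈ X) {e : ℕ} (he : 1 ≤ e)
    (hfrac : ∀ x ∈ F1, ∃ a b : L, a ∈ X ∧ b ∈ X ∧ b ≠ 0 ∧ x * b = a) (ht : t ∈ X)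
    (m : Ideal X) [hm : m.IsPrime] (htm : (⟨t, ht⟩ : X) ∈ m)
    (c d : X) (hcm : c ∉ m) (hdm : d ∉ m) (hcd : (c : L) * π = (d : L) * t ^ e)
    (hdW : ∃ v ∈ W, (d : L) = π * v) (hIG : IGAt t X m) :
    UniqueFactorizationMonoid (locRing X m) := by
  letI : IsNoetherianRing (locRing X m) := isNoetherianRing_locRing X m
  have H := S36N1MS_locHyp H2 hV2nu hV2unif hXV2 hXW hsat he hfrac ht m htm c d hcm hdm hcd hdW
  have hIG' := S34SM_IGAt m ht hIG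
  have h := H.ufd hIG'
  have key : ∀ S : Subring L, S = locRing X m → UniqueFactorizationMonoid S →
      UniqueFactorizationMonoid (locRing X m) := by
    intro S hS hufd
    subst hS
    exact hufd
  exact key _ (S36N1MS_locRing_locRing m) h

/-- **helper2's branch structure at a thick one-branch point**, from `IGAt t X m`. -/
theorem S36N1MS_branch (hV2nu : t⁻¹ ∉ V2)
    (hV2unif : ∀ x ∈ V2, x⁻¹ ∉ V2 → ∃ v ∈ V2, x = t * v)
    (hXV2 : X ≤ V2) (hXW : X ≤ W)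
    (hsat : ∀ v ∈ V2, v ∈ W → π * v ∈ X → v ∈ X) {e : ℕ} (he : 1 ≤ e) (ht : t ∈ X)
    (m : Ideal X) [hm : m.IsPrime] (htm : (⟨t, ht⟩ : X) ∈ m)
    (c d : X) (hcm : c ∉ m) (hdm : d ∉ m) (hcd : (c : L) * π = (d : L) * t ^ e)
    (hdW : ∃ v ∈ W, (d : L) = π * v) (hIG : IGAt t X m) :
    S35BRG_Branch t V2 X m := by
  have hR1 := S36N1MS_locRing_le hV2nu hV2unif hXV2 hXW hsat he ht m htm c d hcm hdm hcd hdW
  refine ⟨hXV2, hV2unif, hV2nu,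
    fun a ha => S36N1MS_thru hV2nu hXV2 hXW hsat he ht m htm c d hcm hdm hcd hdW a ha, ?_⟩
  obtain ⟨y, hy, hgen⟩ := hIG ht
  refine ⟨incl X m y, incl_mem_maximalIdeal X m hy, ?_⟩
  intro x hx
  obtain ⟨a0, c0, ha0, hc0, hx0⟩ := (mem_maximalIdeal_iff X m x).1 hx
  obtain ⟨c1, hc1, a, b, hab⟩ := hgen a0 ha0
  have hc0' := coe_ne_zero_of_notMem X m hc0
  have hc1' := coe_ne_zero_of_notMem X m hc1
  have hc01 : c0 * c1 ∉ m := fun h => by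
    rcases hm.mem_or_mem h with h1 | h1
    exacts [hc0 h1, hc1 h1]
  have habL : (c1 : L) * (a0 : L) = (a : L) * t + (b : L) * (y : L) := by
    have := congrArg (fun z : X => (z : L)) hab
    simpa using this
  refine ⟨⟨(b : L) / ((c0 * c1 : X) : L), div_mem_locRing X m b hc01⟩,
    (a : L) / ((c0 * c1 : X) : L), hR1 (div_mem_locRing X m a hc01), ?_⟩
  show (x : L) = (b : L) / ((c0 * c1 : X) : L) * (y : L) + t * ((a : L) / ((c0 * c1 : X) : L))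
  have hxe : (x : L) = (a0 : L) / (c0 : L) := by
    rw [← hx0]; field_simp
  rw [hxe]
  push_cast
  field_simp
  linear_combination habL

/-- **FACT-L at a thick one-branch point** (plug of helper19's `S36FL_one`): `f = u0 * g0 ^ p`
with `u0` a unit of the local ring. -/
theorem S36N1MS_fact [IsNoetherianRing X] (H2 : S34C2_Val π F1 V2) (hV2nu : t⁻¹ ∉ V2)
    (hV2unif : ∀ x ∈ V2, x⁻¹ ∉ V2 → ∃ v ∈ V2, x = t * v)
    (hXV2 : X ≤ V2) (hXW : X ≤ W)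
    (hsat : ∀ v ∈ V2, v ∈ W → π * v ∈ X → v ∈ X) {e : ℕ} (he : 1 ≤ e)
    (hfrac : ∀ x ∈ F1, ∃ a b : L, a ∈ X ∧ b ∈ X ∧ b ≠ 0 ∧ x * b = a)
    (hOX : O ≤ X) (hπX : π ∈ X) (ht : t ∈ X)
    (m : Ideal X) [hm : m.IsPrime] (htm : (⟨t, ht⟩ : X) ∈ m)
    (c d : X) (hcm : c ∉ m) (hdm : d ∉ m) (hcd : (c : L) * π = (d : L) * t ^ e)
    (hdW : ∃ v ∈ W, (d : L) = π * v) (hIG : IGAt t X m)
    {p : ℕ} (hp : 0 < p) (f : L) (hfF : f ∈ F1) (hf0 : f ≠ 0)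
    (hdiv : PowDiv O π F1 p f) (hf : f ∈ V2 ∧ f⁻¹ ∈ V2) :
    ∃ u0 g0 : L, u0 ∈ locRing X m ∧ u0⁻¹ ∈ locRing X m ∧ g0 ∈ F1 ∧ f = u0 * g0 ^ p := by
  have hufd := S36N1MS_ufd H2 hV2nu hV2unif hXV2 hXW hsat he hfrac ht m htm c d hcm hdm hcd hdW
    hIG
  have hR1 := S36N1MS_locRing_le hV2nu hV2unif hXV2 hXW hsat he ht m htm c d hcm hdm hcd hdW
  have hd0 := coe_ne_zero_of_notMem X m hdm
  refine S36FL_one (W := V2) m hufd hOX hπX (fun x hx => H2.le (hR1 hx)) ?_ hp f hfF hf0 hdiv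
    hR1 ⟨t, le_locRing X m ht⟩ ⟨(c : L) / (d : L), div_mem_locRing X m c hdm⟩ e ?_ hV2nu ?_ hf
  · intro x hx
    obtain ⟨a, b, ha, hb, hb0, hab⟩ := hfrac x hx
    exact ⟨⟨a, le_locRing X m ha⟩, ⟨b, le_locRing X m hb⟩,
      fun h => hb0 (congrArg Subtype.val h), hab⟩
  · show π * ((c : L) / (d : L)) = t ^ e
    field_simp
    linear_combination hcd
  · intro r hr
    obtain ⟨v, hv, hrv⟩ := hV2unif _ (hR1 r.2) hr
    have hvR : v ∈ locRing X m :=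
      S36N1MS_sat hV2nu hXV2 hXW hsat he ht m c d hcm hdm hcd hdW hv (hrv ▸ r.2)
    exact ⟨⟨v, hvR⟩, Subtype.ext hrv⟩

/-- every element of `V2` is a fraction of chart elements with denominator a unit of `V2`. -/
theorem S36N1MS_frac [IsNoetherianRing X] (H2 : S34C2_Val π F1 V2) (hV2nu : t⁻¹ ∉ V2)
    (hV2unif : ∀ x ∈ V2, x⁻¹ ∉ V2 → ∃ v ∈ V2, x = t * v)
    (hXV2 : X ≤ V2) (hXW : X ≤ W)
    (hsat : ∀ v ∈ V2, v ∈ W → π * v ∈ X → v ∈ X) {e : ℕ} (he : 1 ≤ e)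
    (hfrac : ∀ x ∈ F1, ∃ a b : L, a ∈ X ∧ b ∈ X ∧ b ≠ 0 ∧ x * b = a) (ht : t ∈ X)
    (m : Ideal X) [hm : m.IsPrime] (htm : (⟨t, ht⟩ : X) ∈ m)
    (c d : X) (hcm : c ∉ m) (hdm : d ∉ m) (hcd : (c : L) * π = (d : L) * t ^ e)
    (hdW : ∃ v ∈ W, (d : L) = π * v) {z : L} (hz : z ∈ V2) :
    ∃ a s : X, (s : L) ≠ 0 ∧ ((s : L))⁻¹ ∈ V2 ∧ z * (s : L) = a := by
  have H := S36N1MS_locHyp H2 hV2nu hV2unif hXV2 hXW hsat he hfrac ht m htm c d hcm hdm hcd hdW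
  obtain ⟨b, hb, hb0, hbinv, hzb⟩ := H.loc z hz
  obtain ⟨b1, s1, hs1, hbs⟩ := hb
  obtain ⟨a2, s2, hs2, has⟩ := hzb
  have hs1' := coe_ne_zero_of_notMem X m hs1
  have hs2' := coe_ne_zero_of_notMem X m hs2
  have hs1inv : ((s1 : L))⁻¹ ∈ V2 :=
    S36N1MS_inv_mem hV2nu hV2unif hXV2 hXW hsat he ht m htm c d hcm hdm hcd hdW hs1
  have hs2inv : ((s2 : L))⁻¹ ∈ V2 :=
    S36N1MS_inv_mem hV2nu hV2unif hXV2 hXW hsat he ht m htm c d hcm hdm hcd hdW hs2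
  have hb10 : (b1 : L) ≠ 0 := by
    rw [← hbs]; exact mul_ne_zero hb0 hs1'
  refine ⟨a2 * s1, b1 * s2, ?_, ?_, ?_⟩
  · push_cast
    exact mul_ne_zero hb10 hs2'
  · have : (((b1 * s2 : X) : L))⁻¹ = b⁻¹ * ((s1 : L))⁻¹ * ((s2 : L))⁻¹ := by
      push_cast
      rw [← hbs]
      field_simp
    rw [this]
    exact V2.mul_mem (V2.mul_mem hbinv hs1inv) hs2inv
  · push_cast
    rw [← has, ← hbs]
    ring

/-- **BRANCH36 at a thick one-branch point** (plug of helper2's `S36BRA_root`): the branch root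
of `z = G / g0`. -/
theorem S36N1MS_root [IsNoetherianRing X] (H2 : S34C2_Val π F1 V2) (hV2nu : t⁻¹ ∉ V2)
    (hV2unif : ∀ x ∈ V2, x⁻¹ ∉ V2 → ∃ v ∈ V2, x = t * v) {e : ℕ} (he : 1 ≤ e)
    (hπt : ∃ v ∈ V2, π = t ^ e * v) (htπ : ∃ v ∈ V2, t ^ e = π * v)
    (hXV2 : X ≤ V2) (hXW : X ≤ W)
    (hsat : ∀ v ∈ V2, v ∈ W → π * v ∈ X → v ∈ X)
    (hfrac : ∀ x ∈ F1, ∃ a b : L, a ∈ X ∧ b ∈ X ∧ b ≠ 0 ∧ x * b = a)
    (hOX : O ≤ X) (ht : t ∈ X)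
    (m : Ideal X) [hm : m.IsPrime] (htm : (⟨t, ht⟩ : X) ∈ m)
    (c d : X) (hcm : c ∉ m) (hdm : d ∉ m) (hcd : (c : L) * π = (d : L) * t ^ e)
    (hdW : ∃ v ∈ W, (d : L) = π * v) (hIG : IGAt t X m)
    {p : ℕ} (hp : 0 < p) (hpO : ((p : L))⁻¹ ∈ O) (hp0 : (p : L) ≠ 0)
    (f G u0 g0 : L) (hf0 : f ≠ 0) (hu0 : u0 ∈ locRing X m) (hu0' : u0⁻¹ ∈ locRing X m)
    (hg0F : g0 ∈ F1) (hfact : f = u0 * g0 ^ p) (hred : RedPow π V2 p f G) :
    ∃ w, S36LOC_Root π V2 X m (G * g0⁻¹) w := by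
  have hR1 := S36N1MS_locRing_le hV2nu hV2unif hXV2 hXW hsat he ht m htm c d hcm hdm hcd hdW
  have B := S36N1MS_branch hV2nu hV2unif hXV2 hXW hsat he ht m htm c d hcm hdm hcd hdW hIG
  have hg00 : g0 ≠ 0 := by
    rintro rfl
    exact hf0 (by rw [hfact, zero_pow hp.ne', mul_zero])
  have hu00 : u0 ≠ 0 := by
    rintro rfl
    exact hf0 (by rw [hfact, zero_mul])
  have hfu := S36LOC_redPow_unit H2 hred
  have hgp : g0 ^ p = f * u0⁻¹ := by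
    rw [hfact]; field_simp
  have hg : g0 ∈ V2 ∧ g0⁻¹ ∈ V2 := by
    refine S36LOC_unit_of_pow H2 hp hg0F (V2.mul_mem hfu.1 (hR1 hu0')) ?_ hgp
    rw [mul_inv, inv_inv]
    exact V2.mul_mem hfu.2 (hR1 hu0)
  have hzV : G * g0⁻¹ ∈ V2 := V2.mul_mem hred.1 hg.2
  refine S36BRA_root B (le_locRing X m ht)
    (fun r hr hrv => ?_) he hπt htπ hp (le_locRing X m (hOX hpO)) hp0
    (S36N1MS_frac H2 hV2nu hV2unif hXV2 hXW hsat he hfrac ht m htm c d hcm hdm hcd hdW hzV)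
    ⟨u0, hu0, hu0', S36LOC_z_pow H2 hg00 hfact hred⟩
  obtain ⟨v, hv, hrv'⟩ := hrv
  exact ⟨v, S36N1MS_sat hV2nu hXV2 hXW hsat he ht m c d hcm hdm hcd hdW hv (hrv' ▸ hr), hrv'⟩

/-- **(II.4) at a thick one-branch point: the local shape with respect to `V2`.**  From
`IGAt t X m` (`S36N1M_thruMid`), the witnesses `c π = d t ^ e`, `c, d ∉ m`, `d ∈ π W`, `PowDiv`
and `RedPow π V2`. -/
theorem S36N1MS_shape [IsNoetherianRing X] (H2 : S34C2_Val π F1 V2) (hV2nu : t⁻¹ ∉ V2)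
    (hV2unif : ∀ x ∈ V2, x⁻¹ ∉ V2 → ∃ v ∈ V2, x = t * v) {e : ℕ} (he : 1 ≤ e)
    (hπt : ∃ v ∈ V2, π = t ^ e * v) (htπ : ∃ v ∈ V2, t ^ e = π * v)
    (hXV2 : X ≤ V2) (hXW : X ≤ W)
    (hsat : ∀ v ∈ V2, v ∈ W → π * v ∈ X → v ∈ X)
    (hfrac : ∀ x ∈ F1, ∃ a b : L, a ∈ X ∧ b ∈ X ∧ b ≠ 0 ∧ x * b = a)
    (hOX : O ≤ X) (hπX : π ∈ X) (ht : t ∈ X)
    (m : Ideal X) [hm : m.IsPrime] (htm : (⟨t, ht⟩ : X) ∈ m)
    (c d : X) (hcm : c ∉ m) (hdm : d ∉ m) (hcd : (c : L) * π = (d : L) * t ^ e)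
    (hdW : ∃ v ∈ W, (d : L) = π * v) (hIG : IGAt t X m)
    {p : ℕ} (hp : 0 < p) (hpO : ((p : L))⁻¹ ∈ O) (hp0 : (p : L) ≠ 0)
    (f G : L) (hfF : f ∈ F1) (hf0 : f ≠ 0)
    (hdiv : PowDiv O π F1 p f) (hred : RedPow π V2 p f G) :
    S34C_Shape π F1 V2 X p f G m := by
  have hR1 := S36N1MS_locRing_le hV2nu hV2unif hXV2 hXW hsat he ht m htm c d hcm hdm hcd hdW
  obtain ⟨u0, g0, hu0, hu0', hg0F, hfact⟩ :=
    S36N1MS_fact H2 hV2nu hV2unif hXV2 hXW hsat he hfrac hOX hπX ht m htm c d hcm hdm hcd hdW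
      hIG hp f hfF hf0 hdiv (S36LOC_redPow_unit H2 hred)
  obtain ⟨w, hw⟩ :=
    S36N1MS_root H2 hV2nu hV2unif he hπt htπ hXV2 hXW hsat hfrac hOX ht m htm c d hcm hdm hcd
      hdW hIG hp hpO hp0 f G u0 g0 hf0 hu0 hu0' hg0F hfact hred
  exact S36LOC_shape1 H2 m hR1 hp f G u0 g0 w hf0 hu0 hu0' hg0F hfact hred hw

/-- **(II.4) at a thick one-branch point, in the shape of helper3's `S36XB_One`** (`W = Wb ⊓ Wc`
the two thin branches, `RedPow` for the intersection of the three valuation rings). -/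
theorem S36N1MS_one [IsNoetherianRing X] {Wb Wc : Subring L} (H2 : S34C2_Val π F1 V2)
    (hV2nu : t⁻¹ ∉ V2)
    (hV2unif : ∀ x ∈ V2, x⁻¹ ∉ V2 → ∃ v ∈ V2, x = t * v) {e : ℕ} (he : 1 ≤ e)
    (hπt : ∃ v ∈ V2, π = t ^ e * v) (htπ : ∃ v ∈ V2, t ^ e = π * v)
    (hX : X ≤ (Wb ⊓ V2 ⊓ Wc : Subring L))
    (hsat : ∀ v : L, v ∈ Wb → v ∈ V2 → v ∈ Wc → π * v ∈ X → v ∈ X)
    (hfrac : ∀ x ∈ F1, ∃ a b : L, a ∈ X ∧ b ∈ X ∧ b ≠ 0 ∧ x * b = a)
    (hOX : O ≤ X) (hπX : π ∈ X) (ht : t ∈ X)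
    (m : Ideal X) [hm : m.IsPrime] (htm : (⟨t, ht⟩ : X) ∈ m)
    (c d : X) (hcm : c ∉ m) (hdm : d ∉ m) (hcd : (c : L) * π = (d : L) * t ^ e)
    (hdW : ∃ v ∈ (Wb ⊓ Wc : Subring L), (d : L) = π * v) (hIG : IGAt t X m)
    {p : ℕ} (hp : 0 < p) (hpO : ((p : L))⁻¹ ∈ O) (hp0 : (p : L) ≠ 0)
    (f G : L) (hfF : f ∈ F1) (hf0 : f ≠ 0)
    (hdiv : PowDiv O π F1 p f) (hred : RedPow π (Wb ⊓ V2 ⊓ Wc : Subring L) p f G) :
    S34C_Shape π F1 V2 X p f G m ∧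
      ∃ d' : X, d' ∉ m ∧ (∃ v ∈ Wb, (d' : L) = π * v) ∧ (∃ v ∈ Wc, (d' : L) = π * v) := by
  have hXV2 : X ≤ V2 := fun y hy => (hX hy).1.2
  have hXW : X ≤ (Wb ⊓ Wc : Subring L) := fun y hy => ⟨(hX hy).1.1, (hX hy).2⟩
  have hsat' : ∀ v ∈ V2, v ∈ (Wb ⊓ Wc : Subring L) → π * v ∈ X → v ∈ X :=
    fun v h2 h13 h => hsat v h13.1 h2 h13.2 h
  have hred2 : RedPow π V2 p f G := S36LOC_redPow_mono (inf_le_left.trans inf_le_right) hred
  refine ⟨S36N1MS_shape H2 hV2nu hV2unif he hπt htπ hXV2 hXW hsat' hfrac hOX hπX ht m htm c d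
    hcm hdm hcd hdW hIG hp hpO hp0 f G hfF hf0 hdiv hred2, d, hdm, ?_, ?_⟩
  · obtain ⟨v, hv, hdv⟩ := hdW
    exact ⟨v, hv.1, hdv⟩
  · obtain ⟨v, hv, hdv⟩ := hdW
    exact ⟨v, hv.2, hdv⟩

end Fermat.Agent.S36_helper14_N1MS
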