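import Mathlib
import Fermat.Agent.S18_helper9_CDefs
import Fermat.Agent.S18_helper9_CBasic
import Fermat.Agent.S18_helper3_LOCRING
import Fermat.Agent.S34_helper14_N1
import Fermat.Agent.S34_helper14_N1S

/-!
# S36, GEO36 (REG36, one-branch points on a thin component), abstract half (helper14)

The one-branch points of a chart with SEVERAL vertical components which lie on a component of
multiplicity one and residue degree one over the smaller level are regular.  This is the port of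
`S34_helper14_N1S` (two valuations, `S34C_Setup2`) to the weak setting of S36: the chart `A`
is only known to be saturated in `V1 ⊓ W`, where `V1` is the valuation ring of the thin
component (uniformiser `π`) and `W` is ANY subring (the intersection of the valuation rings of
the other components; `π` need not be a uniformiser there).

* `S36N1Q_base`  : the hypothesis block of `S34N1_smooth` for the inclusion `A' ≤ A`;
* `S36N1Q_vert`  : `d * a ∈ π A` for `a ∈ A ∩ π V1`, `d ∈ A ∩ π W` (the vertical ideal of the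
  thin component is `(π)` locally off the other components);
* `S36N1Q_thru1` : `IGAt π A m` at a maximal ideal `m ∋ π` with a witness `d ∈ A \ m`, `d ∈ π W`
  (the point does not lie on the other components);
* `S36N1Q_twist_smooth` : `S34N1_smooth` twisted by an automorphism, with an arbitrary "other"
  ideal `Q`;
* `S36N1Q_thru0` : the mirror statement for the component `V3 = σ (V1)`, `σ` an automorphism of
  the chart fixing `π`.
-/

set_option autoImplicit false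
set_option linter.style.haveILetI false
set_option linter.unusedVariables false
set_option linter.unusedSectionVars false

namespace Fermat.Agent.S36_helper14_N1Q

open Fermat.Agent.S18_helper9_CDefs Fermat.Agent.S18_helper9_CBasic
  Fermat.Agent.S18_helper3_LOCRING Fermat.Agent.S34_helper4_N2 Fermat.Agent.S34_helper14_N1
  Fermat.Agent.S34_helper14_N1S

section Twist

variable {A' A : Type*} [CommRing A'] [CommRing A]

/-- **(N1) for a conjugate component**, type level, with an arbitrary "other" ideal `Q`: the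
hypotheses of `S34N1_smooth` for `(f, Pinf)` give its conclusion for `(σ ∘ f, σ Pinf)`, `σ` an
automorphism of `A` fixing `f π`. -/
theorem S36N1Q_twist_smooth [IsNoetherianRing A'] (f : A' →+* A) (σ : A ≃+* A) (π : A')
    (Pinf : Ideal A) (hPinf : Pinf.IsPrime) (hπ : f π ∈ Pinf)
    (hint : ∀ y : A, ∃ P : Polynomial A', P.Monic ∧ Polynomial.eval₂ f y P ∈ Pinf)
    (hcap : ∀ a : A', f a ∈ Pinf → a ∈ Ideal.span {π})
    (hIG : S34N1_IG π)
    (hres : ∀ y : A, ∃ a s : A', s ∉ Ideal.span {π} ∧ f s * y - f a ∈ Pinf)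
    (P0 : Ideal A) (hσ : ∀ a : A, a ∈ P0 ↔ σ.symm a ∈ Pinf) (hσπ : σ (f π) = f π)
    (m : Ideal A) (hm : m.IsMaximal) (hPm : P0 ≤ m) (Q : Ideal A) (hQm : ¬ Q ≤ m)
    (hinter : P0 ⊓ Q ≤ S34N2_loc (Ideal.span {f π}) m hm.isPrime) :
    ∃ y' : A', σ (f y') ∈ m ∧
      ∀ x ∈ m, ∃ c : A, c ∉ m ∧ ∃ a b : A, c * x = a * f π + b * σ (f y') := by
  have hP0eq : P0 = Pinf.comap (σ.symm : A →+* A) := by
    ext a
    rw [hσ a, Ideal.mem_comap]
    rfl
  have hP0 : P0.IsPrime := by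
    rw [hP0eq]
    exact Ideal.comap_isPrime _ _
  have hmemσ : ∀ z : A, z ∈ Pinf → σ z ∈ P0 := by
    intro z hz
    rw [hσ, RingEquiv.symm_apply_apply]
    exact hz
  have h := S34N1_smooth ((σ : A →+* A).comp f) π P0 hP0 ?_ ?_ ?_ hIG ?_ m hm hPm Q hQm ?_
  · obtain ⟨y', hy', hgen⟩ := h
    refine ⟨y', hy', fun x hx => ?_⟩
    obtain ⟨c, hc, a, b, hab⟩ := hgen x hx
    refine ⟨c, hc, a, b, ?_⟩
    rw [hab]
    simp only [RingHom.comp_apply, RingHom.coe_coe, hσπ]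
  · simp only [RingHom.comp_apply, RingHom.coe_coe]
    exact hmemσ _ hπ
  · intro y
    obtain ⟨P, hP, hPy⟩ := hint (σ.symm y)
    refine ⟨P, hP, ?_⟩
    have h1 : Polynomial.eval₂ ((σ : A →+* A).comp f) y P =
        σ (Polynomial.eval₂ f (σ.symm y) P) := by
      have := Polynomial.hom_eval₂ P f (σ : A →+* A) (σ.symm y)
      simp only [RingHom.coe_coe, RingEquiv.apply_symm_apply] at this
      exact this.symm
    rw [h1]
    exact hmemσ _ hPy
  · intro a ha
    apply hcap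
    have := (hσ _).1 ha
    simpa using this
  · intro y
    obtain ⟨a, s, hs, hsa⟩ := hres (σ.symm y)
    refine ⟨a, s, hs, ?_⟩
    have h1 : ((σ : A →+* A).comp f) s * y - ((σ : A →+* A).comp f) a =
        σ (f s * σ.symm y - f a) := by
      simp only [RingHom.comp_apply, RingHom.coe_coe, map_sub, map_mul,
        RingEquiv.apply_symm_apply]
    rw [h1]
    exact hmemσ _ hsa
  · have hfπ : ((σ : A →+* A).comp f) π = f π := by
      simp only [RingHom.comp_apply, RingHom.coe_coe, hσπ]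
    rw [hfπ]
    exact hinter

end Twist

section Thru

variable {L : Type*} [Field L] {O : Subring L} {π j : L} {F1' F1 : Subfield L}
  {V' A0' Ainf' V1 W : Subring L}

/-- The common hypothesis block of `S34N1_smooth` for the inclusion of the chart of the smaller
level into the chart `A` and the vertical prime of `V1` (weak setting: nothing is assumed about
the other components). -/
theorem S36N1Q_base (S' : Setup O π j F1' V' A0' Ainf') (hV : V' ≤ V1) (hV1nu : π⁻¹ ∉ V1)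
    (hres : ∀ x ∈ V1, ∃ r ∈ V', ∃ v ∈ V1, x = r + π * v)
    (x : L) (hxF : x ∈ F1') (A' A : Subring L) (hC' : Chart O π x F1' V' A')
    (hAint : ∀ y ∈ A, IsIntegral (adj O x) y) (hIG : IG π A')
    (hA'A : A' ≤ A) (hπA' : π ∈ A') (hAV1 : A ≤ V1) :
    (Subring.inclusion hA'A (⟨π, hπA'⟩ : A') ∈ S34N1S_vert π V1 A hAV1) ∧
    (∀ y : A, ∃ P : Polynomial A', P.Monic ∧
      Polynomial.eval₂ (Subring.inclusion hA'A) y P ∈ S34N1S_vert π V1 A hAV1) ∧
    (∀ a : A', Subring.inclusion hA'A a ∈ S34N1S_vert π V1 A hAV1 →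
      a ∈ Ideal.span {(⟨π, hπA'⟩ : A')}) ∧
    S34N1_IG (⟨π, hπA'⟩ : A') ∧
    (∀ y : A, ∃ a s : A', s ∉ Ideal.span {(⟨π, hπA'⟩ : A')} ∧
      Subring.inclusion hA'A s * y - Subring.inclusion hA'A a ∈ S34N1S_vert π V1 A hAV1) := by
  have hπ0 : π ≠ 0 := by
    intro h
    apply hV1nu
    rw [h, inv_zero]
    exact V1.zero_mem
  have hadj := S34N1S_adj_le S' hxF hC'
  refine ⟨?_, ?_, ?_, ?_, ?_⟩
  · exact ⟨1, V1.one_mem, by simp [Subring.inclusion]⟩
  · intro y
    have h1 : IsIntegral A' (y : L) := isIntegral_mono hadj (hAint y y.2)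
    obtain ⟨P, hP, hPy⟩ := h1
    refine ⟨P, hP, ?_⟩
    have h2 : Polynomial.eval₂ (Subring.inclusion hA'A) y P = 0 := by
      apply Subtype.ext
      have h3 := Polynomial.hom_eval₂ P (Subring.inclusion hA'A) A.subtype y
      have h4 : A.subtype.comp (Subring.inclusion hA'A) = algebraMap A' L := by
        ext c
        rfl
      rw [h4] at h3
      have h5 : A.subtype y = (y : L) := rfl
      rw [h5, hPy] at h3
      exact h3
    rw [h2]
    exact Ideal.zero_mem _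
  · rintro a ⟨v, hv, hav⟩
    have hav' : (a : L) = π * v := hav
    have haF : (a : L) ∈ F1' := ((hC'.mem_iff _).1 a.2).2
    have hπF : π ∈ F1' := S'.O_le S'.π_mem
    have hvF : v ∈ F1' := by
      have : v = π⁻¹ * (a : L) := by
        rw [hav', ← mul_assoc, inv_mul_cancel₀ hπ0, one_mul]
      rw [this]
      exact F1'.mul_mem (F1'.inv_mem hπF) haF
    have hvV' : v ∈ V' := S34N1S_mem_V' S' hV hV1nu hvF hv
    have hvA' : v ∈ A' := hC'.sat v hvV' (hav' ▸ a.2)
    rw [Ideal.mem_span_singleton']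
    exact ⟨⟨v, hvA'⟩, Subtype.ext (by rw [Subring.coe_mul, hav', mul_comm])⟩
  · exact fun m' hm' hπm' => hIG hπA' m' hm' hπm'
  · intro y
    obtain ⟨r, hr, v, hv, hy⟩ := hres (y : L) (hAV1 y.2)
    obtain ⟨b, hbA', hb0, hbinv, hrb⟩ := hC'.loc r hr
    refine ⟨⟨r * b, hrb⟩, ⟨b, hbA'⟩, ?_, ?_⟩
    · intro hmem
      rw [Ideal.mem_span_singleton'] at hmem
      obtain ⟨c, hc⟩ := hmem
      have hc' : (c : L) * π = b := congrArg (fun z : A' => (z : L)) hc
      apply S'.π_nonunit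
      have : π⁻¹ = (c : L) * b⁻¹ := by
        rw [← hc', mul_inv, ← mul_assoc, mul_comm (c : L) ((c : L))⁻¹]
        have hc0 : (c : L) ≠ 0 := by
          intro h0
          rw [h0, zero_mul] at hc'
          exact hb0 hc'.symm
        rw [inv_mul_cancel₀ hc0, one_mul]
      rw [this]
      exact V'.mul_mem (hC'.le_V c.2) hbinv
    · refine ⟨b * v, V1.mul_mem (hV (hC'.le_V hbA')) hv, ?_⟩
      show b * (y : L) - r * b = π * (b * v)
      rw [hy]; ring

/-- **the vertical ideal of the thin component is `(π)` locally at a point off the other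
components**: if `d ∈ A`, `d ∈ π W`, then `d * a ∈ π A` for every `a ∈ A ∩ π V1`. -/
theorem S36N1Q_vert {V1 W A : Subring L} {π : L} (hV1nu : π⁻¹ ∉ V1)
    (hAV1 : A ≤ V1) (hAW : A ≤ W) (hsat : ∀ v ∈ V1, v ∈ W → π * v ∈ A → v ∈ A)
    (d : A) (hdW : ∃ v ∈ W, (d : L) = π * v) (a : A) (ha : ∃ v ∈ V1, (a : L) = π * v) :
    ∃ b ∈ A, (d : L) * (a : L) = π * b := by
  have hπ0 : π ≠ 0 := by
    intro h
    apply hV1nu
    rw [h, inv_zero]
    exact V1.zero_mem
  obtain ⟨v, hv, hav⟩ := ha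
  obtain ⟨w, hw, hdw⟩ := hdW
  have h1 : (d : L) * (a : L) = π * ((d : L) * v) := by rw [hav]; ring
  have h3 : (d : L) * v = w * (a : L) := by
    apply mul_left_cancel₀ hπ0
    rw [← h1, hdw]; ring
  refine ⟨(d : L) * v, hsat _ (V1.mul_mem (hAV1 d.2) hv) ?_ ?_, h1⟩
  · rw [h3]
    exact W.mul_mem hw (hAW a.2)
  · rw [← h1]
    exact A.mul_mem d.2 a.2

/-- **(N1) on a thin component, weak setting.**  `S'` the S18 setup of the smaller level, `V1` a
valuation ring above `V'` with uniformiser `π` and residue degree one (`hres`), `W` any subring,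
`A' ≤ A` with `A` integral over `O[x]`, contained in `V1 ⊓ W` and saturated there (`hsat`),
`[IG]` for `A'`.  At a maximal ideal `m ∋ π` of `A` with a witness `d ∈ A \ m`, `d ∈ π W` (the
point does not lie on the other components), the special fibre is regular: `IGAt π A m`. -/
theorem S36N1Q_thru1 (S' : Setup O π j F1' V' A0' Ainf') (hV : V' ≤ V1) (hV1nu : π⁻¹ ∉ V1)
    (hV1unif : ∀ x ∈ V1, x⁻¹ ∉ V1 → ∃ v ∈ V1, x = π * v)
    (hres : ∀ x ∈ V1, ∃ r ∈ V', ∃ v ∈ V1, x = r + π * v)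
    (x : L) (hxF : x ∈ F1') (A' A : Subring L) (hC' : Chart O π x F1' V' A')
    (hA'A : A' ≤ A) (hAint : ∀ y ∈ A, IsIntegral (adj O x) y)
    (hAV1 : A ≤ V1) (hAW : A ≤ W) (hsat : ∀ v ∈ V1, v ∈ W → π * v ∈ A → v ∈ A)
    [IsNoetherianRing A'] (hIG : IG π A')
    (hπ : π ∈ A) (m : Ideal A) (hm : m.IsMaximal) (hπm : (⟨π, hπ⟩ : A) ∈ m)
    (d : A) (hdm : d ∉ m) (hdW : ∃ v ∈ W, (d : L) = π * v) :
    IGAt π A m := by
  have hπ0 : π ≠ 0 := by
    intro h
    apply hV1nu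
    rw [h, inv_zero]
    exact V1.zero_mem
  have hπA' : π ∈ A' := S34N1S_adj_le S' hxF hC' (le_adj O x S'.π_mem)
  obtain ⟨h1, h2, h3, h4, h5⟩ :=
    S36N1Q_base S' hV hV1nu hres x hxF A' A hC' hAint hIG hA'A hπA' hAV1
  have hP1 : (S34N1S_vert π V1 A hAV1).IsPrime := S34N1S_vert_isPrime hAV1 hV1nu hV1unif
  have hfπ : Subring.inclusion hA'A (⟨π, hπA'⟩ : A') = (⟨π, hπ⟩ : A) := Subtype.ext rfl
  have hP0m : ¬ S34N1S_vert π W A hAW ≤ m := fun hle => hdm (hle hdW)
  have hinter0 : ∀ a : A, a ∈ S34N1S_vert π V1 A hAV1 → a ∈ S34N1S_vert π W A hAW →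
      a ∈ Ideal.span {(⟨π, hπ⟩ : A)} := by
    rintro a ⟨v1, hv1, e1⟩ ⟨v2, hv2, e2⟩
    have hv : v1 = v2 := mul_left_cancel₀ hπ0 (e1.symm.trans e2)
    have hvA : v1 ∈ A := hsat v1 hv1 (hv ▸ hv2) (e1 ▸ a.2)
    rw [Ideal.mem_span_singleton']
    exact ⟨⟨v1, hvA⟩, Subtype.ext (by rw [Subring.coe_mul, e1, mul_comm])⟩
  have hP1m : S34N1S_vert π V1 A hAV1 ≤ m := by
    intro a ha
    have h6 : a * d ∈ Ideal.span {(⟨π, hπ⟩ : A)} :=
      hinter0 (a * d) (Ideal.mul_mem_right _ _ ha) (Ideal.mul_mem_left _ _ hdW)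
    have h7 : a * d ∈ m := by
      rw [Ideal.mem_span_singleton'] at h6
      obtain ⟨c, hc⟩ := h6
      rw [← hc]
      exact m.mul_mem_left _ hπm
    rcases hm.isPrime.mem_or_mem h7 with h | h
    · exact h
    · exact absurd h hdm
  have hinter : S34N1S_vert π V1 A hAV1 ⊓ S34N1S_vert π W A hAW ≤
      S34N2_loc (Ideal.span {Subring.inclusion hA'A (⟨π, hπA'⟩ : A')}) m hm.isPrime := by
    rintro a ⟨ha1, ha2⟩
    apply S34N2_le_loc
    rw [hfπ]
    exact hinter0 a ha1 ha2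
  obtain ⟨y', hy', hgen⟩ := S34N1_smooth (Subring.inclusion hA'A) ⟨π, hπA'⟩
    (S34N1S_vert π V1 A hAV1) hP1 h1 h2 h3 h4 h5 m hm hP1m (S34N1S_vert π W A hAW) hP0m hinter
  intro hπ'
  refine ⟨Subring.inclusion hA'A y', hy', fun z hz => ?_⟩
  obtain ⟨c, hc, a, b, hab⟩ := hgen z hz
  exact ⟨c, hc, a, b, by rw [hab, hfπ]⟩

/-- **(N1) on a conjugate thin component, weak setting.**  Same hypotheses on `(V', V1)`; `V3` is
the valuation ring of the conjugate component (`a ∈ π V3 ↔ σ⁻¹ a ∈ π V1` for an automorphism `σ`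
of the chart `A` fixing `π`), `Q` any subring (the other components), `A` saturated in
`V3 ⊓ Q`.  At a maximal ideal `m ∋ π` of `A` with a witness `d ∈ A \ m`, `d ∈ π Q`:
`IGAt π A m`. -/
theorem S36N1Q_thru0 (S' : Setup O π j F1' V' A0' Ainf') (hV : V' ≤ V1) (hV1nu : π⁻¹ ∉ V1)
    (hV1unif : ∀ x ∈ V1, x⁻¹ ∉ V1 → ∃ v ∈ V1, x = π * v)
    (hres : ∀ x ∈ V1, ∃ r ∈ V', ∃ v ∈ V1, x = r + π * v)
    (x : L) (hxF : x ∈ F1') (A' A : Subring L) (hC' : Chart O π x F1' V' A')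
    (hA'A : A' ≤ A) (hAint : ∀ y ∈ A, IsIntegral (adj O x) y)
    (hAV1 : A ≤ V1) (V3 Q : Subring L) (hAV3 : A ≤ V3) (hAQ : A ≤ Q)
    (hsat : ∀ v ∈ V3, v ∈ Q → π * v ∈ A → v ∈ A)
    [IsNoetherianRing A'] (hIG : IG π A')
    (hπ : π ∈ A) (σ : A ≃+* A) (hσπ : σ ⟨π, hπ⟩ = ⟨π, hπ⟩)
    (hσ : ∀ a : A, (∃ v ∈ V3, (a : L) = π * v) ↔ ∃ v ∈ V1, ((σ.symm a : A) : L) = π * v)
    (m : Ideal A) (hm : m.IsMaximal) (hπm : (⟨π, hπ⟩ : A) ∈ m)
    (d : A) (hdm : d ∉ m) (hdQ : ∃ v ∈ Q, (d : L) = π * v) :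
    IGAt π A m := by
  have hπ0 : π ≠ 0 := by
    intro h
    apply hV1nu
    rw [h, inv_zero]
    exact V1.zero_mem
  have hπA' : π ∈ A' := S34N1S_adj_le S' hxF hC' (le_adj O x S'.π_mem)
  obtain ⟨h1, h2, h3, h4, h5⟩ :=
    S36N1Q_base S' hV hV1nu hres x hxF A' A hC' hAint hIG hA'A hπA' hAV1
  have hP1 : (S34N1S_vert π V1 A hAV1).IsPrime := S34N1S_vert_isPrime hAV1 hV1nu hV1unif
  have hfπ : Subring.inclusion hA'A (⟨π, hπA'⟩ : A') = (⟨π, hπ⟩ : A) := Subtype.ext rfl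
  have hQm : ¬ S34N1S_vert π Q A hAQ ≤ m := fun hle => hdm (hle hdQ)
  have hinter0 : ∀ a : A, a ∈ S34N1S_vert π V3 A hAV3 → a ∈ S34N1S_vert π Q A hAQ →
      a ∈ Ideal.span {(⟨π, hπ⟩ : A)} := by
    rintro a ⟨v1, hv1, e1⟩ ⟨v2, hv2, e2⟩
    have hv : v1 = v2 := mul_left_cancel₀ hπ0 (e1.symm.trans e2)
    have hvA : v1 ∈ A := hsat v1 hv1 (hv ▸ hv2) (e1 ▸ a.2)
    rw [Ideal.mem_span_singleton']
    exact ⟨⟨v1, hvA⟩, Subtype.ext (by rw [Subring.coe_mul, e1, mul_comm])⟩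
  have hP3m : S34N1S_vert π V3 A hAV3 ≤ m := by
    intro a ha
    have h6 : a * d ∈ Ideal.span {(⟨π, hπ⟩ : A)} :=
      hinter0 (a * d) (Ideal.mul_mem_right _ _ ha) (Ideal.mul_mem_left _ _ hdQ)
    have h7 : a * d ∈ m := by
      rw [Ideal.mem_span_singleton'] at h6
      obtain ⟨c, hc⟩ := h6
      rw [← hc]
      exact m.mul_mem_left _ hπm
    rcases hm.isPrime.mem_or_mem h7 with h | h
    · exact h
    · exact absurd h hdm
  have hinter : S34N1S_vert π V3 A hAV3 ⊓ S34N1S_vert π Q A hAQ ≤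
      S34N2_loc (Ideal.span {Subring.inclusion hA'A (⟨π, hπA'⟩ : A')}) m hm.isPrime := by
    rintro a ⟨ha1, ha2⟩
    apply S34N2_le_loc
    rw [hfπ]
    exact hinter0 a ha1 ha2
  obtain ⟨y', hy', hgen⟩ := S36N1Q_twist_smooth (Subring.inclusion hA'A) σ ⟨π, hπA'⟩
    (S34N1S_vert π V1 A hAV1) hP1 h1 h2 h3 h4 h5 (S34N1S_vert π V3 A hAV3)
    (fun a => hσ a) (by rw [hfπ]; exact hσπ) m hm hP3m (S34N1S_vert π Q A hAQ) hQm hinter
  intro hπ'
  refine ⟨σ (Subring.inclusion hA'A y'), hy', fun z hz => ?_⟩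
  obtain ⟨c, hc, a, b, hab⟩ := hgen z hz
  exact ⟨c, hc, a, b, by rw [hab, hfπ]⟩

end Thru

end Fermat.Agent.S36_helper14_N1Q
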