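import Mathlib
import Fermat.Agent.S18_helper9_CDefs
import Fermat.Agent.S18_helper20_CSAT
import Fermat.Agent.S34_helper12_CDefs
import Fermat.Agent.S34_helper16_XFER
import Fermat.Agent.S36_helper3_XBPT

/-!
# S36, GEO36 (II.4): chart transfer of the local contract `S36XB_Pt` (helper14)

The node / smooth / triple point analysis of (REG36) lives on the finite chart `A0`.  This file
transfers the WHOLE local contract at a point (helper3's `S36XB_Pt`: the local shape at a triple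
point, or a one-branch datum for one of the three branches) from one chart to the points of
another chart at which a comparison element `d` is a unit.

* `S36PTX_frac`  : a fraction with denominator outside a maximal ideal above the contracted
  ideal is a fraction with denominator outside `m`;
* `S36PTX_shape` : transfer of `S34C_Shape`;
* `S36PTX_one`   : transfer of `S36XB_One`;
* `S36PTX_pt`    : transfer of `S36XB_Pt` (generic core: `A`, `B` subrings, `d ∈ B`,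
  `A ⊆ B[1/d]`, `m` a prime of `B` with `d ∉ m`);
* `S36PTX_pt_inf`  : the instance `A0 → Ainf`, `d = j⁻¹` (= `hfin` of helper9's `S36PT_inf`);
* `S36PTX_pt_zero` : the mirror instance `Ainf → A0`, `d = j`.
-/

set_option autoImplicit false
set_option linter.unusedVariables false
set_option linter.unusedSectionVars false
set_option linter.style.haveILetI false

namespace Fermat.Agent.S36_helper14_PTX

open Fermat.Agent.S18_helper9_CDefs Fermat.Agent.S18_helper20_CSAT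
  Fermat.Agent.S34_helper12_CDefs Fermat.Agent.S34_helper16_XFER
  Fermat.Agent.S36_helper3_XBPT

variable {L : Type*} [Field L]

section Core

variable {A B : Subring L} {d : L} (hdB : d ∈ B) (hpole : ∀ a ∈ A, ∃ n : ℕ, d ^ n * a ∈ B)
  (m : Ideal B) (M : Ideal A) (hle : S34XF_contract A B d hdB hpole m ≤ M)

include hle in
/-- a fraction of elements of `A` with denominator outside `M` is a fraction of elements of `B`
with denominator outside `m`. -/
theorem S36PTX_frac {u : L} (h : ∃ a c : A, c ∉ M ∧ u * (c : L) = a) :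
    ∃ a c : B, c ∉ m ∧ u * (c : L) = a := by
  obtain ⟨a, c, hc, hac⟩ := h
  obtain ⟨n1, hn1⟩ := hpole a a.2
  obtain ⟨n2, hn2⟩ := hpole c c.2
  have haB : d ^ (n1 + n2) * (a : L) ∈ B := by
    have : d ^ (n1 + n2) * (a : L) = d ^ n2 * (d ^ n1 * (a : L)) := by ring
    rw [this]; exact B.mul_mem (B.pow_mem hdB n2) hn1
  have hcB : d ^ (n1 + n2) * (c : L) ∈ B := by
    have : d ^ (n1 + n2) * (c : L) = d ^ n1 * (d ^ n2 * (c : L)) := by ring
    rw [this]; exact B.mul_mem (B.pow_mem hdB n1) hn2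
  refine ⟨⟨_, haB⟩, ⟨_, hcB⟩, fun hmem => hc (hle ⟨n1 + n2, hcB, hmem⟩), ?_⟩
  show u * (d ^ (n1 + n2) * (c : L)) = d ^ (n1 + n2) * (a : L)
  rw [← hac]; ring

include hle in
/-- **transfer of the local shape.** -/
theorem S36PTX_shape {π : L} {F1 : Subfield L} {V : Subring L} {p : ℕ} {f G : L}
    (h : S34C_Shape π F1 V A p f G M) : S34C_Shape π F1 V B p f G m := by
  obtain ⟨u, g, w, hu, hu', hgF, hgV, hgV', hfug, hw, hw', c, hc, hG⟩ := h
  exact ⟨u, g, w, S36PTX_frac hdB hpole m M hle hu, S36PTX_frac hdB hpole m M hle hu', hgF,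
    hgV, hgV', hfug, S36PTX_frac hdB hpole m M hle hw, S36PTX_frac hdB hpole m M hle hw', c, hc,
    hG⟩

include hle in
/-- **transfer of the one-branch datum** (`d` lies in the two other valuation rings). -/
theorem S36PTX_one {π : L} {F1 : Subfield L} {Wa Wb Wc : Subring L} {p : ℕ} {f G : L}
    (hdb : d ∈ Wb) (hdc : d ∈ Wc)
    (h : S36XB_One π F1 Wa Wb Wc A p f G M) : S36XB_One π F1 Wa Wb Wc B p f G m := by
  obtain ⟨hshape, d', hd', ⟨vb, hvb, hdvb⟩, ⟨vc, hvc, hdvc⟩⟩ := h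
  refine ⟨S36PTX_shape hdB hpole m M hle hshape, ?_⟩
  obtain ⟨n, hn⟩ := hpole d' d'.2
  refine ⟨⟨_, hn⟩, fun hmem => hd' (hle ⟨n, hn, hmem⟩), ⟨d ^ n * vb, ?_, ?_⟩, ⟨d ^ n * vc, ?_, ?_⟩⟩
  · exact Wb.mul_mem (Wb.pow_mem hdb n) hvb
  · show d ^ n * (d' : L) = π * (d ^ n * vb)
    rw [hdvb]; ring
  · exact Wc.mul_mem (Wc.pow_mem hdc n) hvc
  · show d ^ n * (d' : L) = π * (d ^ n * vc)
    rw [hdvc]; ring

include hle in
/-- **transfer of the local contract at a point** (`d` lies in the three valuation rings). -/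
theorem S36PTX_pt_of_le {π : L} {F1 : Subfield L} {W1 W2 W3 : Subring L} {p : ℕ} {f G : L}
    (hd1 : d ∈ W1) (hd2 : d ∈ W2) (hd3 : d ∈ W3)
    (h : S36XB_Pt π F1 W1 W2 W3 A p f G M) : S36XB_Pt π F1 W1 W2 W3 B p f G m := by
  rcases h with h | h | h | h
  · exact Or.inl (S36PTX_shape hdB hpole m M hle h)
  · exact Or.inr (Or.inl (S36PTX_one hdB hpole m M hle hd2 hd3 h))
  · exact Or.inr (Or.inr (Or.inl (S36PTX_one hdB hpole m M hle hd1 hd3 h)))
  · exact Or.inr (Or.inr (Or.inr (S36PTX_one hdB hpole m M hle hd1 hd2 h)))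

end Core

/-- **Generic core of the chart transfer of the local contract.**  `A`, `B` subrings of `L`,
`d ∈ B` with `A ⊆ B[1/d]`, `d` in the three valuation rings.  If the local contract holds at all
maximal ideals of `A` over `π`, then it holds at every prime ideal `m` of `B` over `π` with
`d ∉ m`. -/
theorem S36PTX_pt (A B : Subring L) (π d : L) (F1 : Subfield L) (W1 W2 W3 : Subring L)
    {p : ℕ} (f G : L) (hdB : d ∈ B) (hd1 : d ∈ W1) (hd2 : d ∈ W2) (hd3 : d ∈ W3)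
    (hπA : π ∈ A) (hπB : π ∈ B) (hpole : ∀ a ∈ A, ∃ n : ℕ, d ^ n * a ∈ B)
    (hptA : ∀ m0 : Ideal A, m0.IsMaximal → (⟨π, hπA⟩ : A) ∈ m0 →
      S36XB_Pt π F1 W1 W2 W3 A p f G m0)
    (m : Ideal B) (hm : m.IsPrime) (hπm : (⟨π, hπB⟩ : B) ∈ m) (hdm : (⟨d, hdB⟩ : B) ∉ m) :
    S36XB_Pt π F1 W1 W2 W3 B p f G m := by
  have hne : S34XF_contract A B d hdB hpole m ≠ ⊤ := S34XF_contract_ne_top hdB hpole m hm hdm
  obtain ⟨M, hM, hle⟩ := Ideal.exists_le_maximal _ hne
  have hπm0 : (⟨π, hπA⟩ : A) ∈ S34XF_contract A B d hdB hpole m := by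
    refine ⟨0, by simpa using hπB, ?_⟩
    have : (⟨d ^ 0 * ((⟨π, hπA⟩ : A) : L), by simpa using hπB⟩ : B) = ⟨π, hπB⟩ := by
      apply Subtype.ext; simp
    rw [this]; exact hπm
  exact S36PTX_pt_of_le hdB hpole m M hle hd1 hd2 hd3 (hptA M hM (hle hπm0))

section Setup

variable {O : Subring L} {π j : L} {F1 : Subfield L} {W1 W2 W3 A0 Ainf : Subring L}

/-- **(REG36), non-cuspidal points of the chart at infinity**: the local contract at a prime `m`
of `Ainf` over `π` with `j⁻¹ ∉ m` follows from the local contract at the maximal ideals of the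
finite chart `A0` (= the hypothesis `hfin` of helper9's `S36PT_inf`). -/
theorem S36PTX_pt_inf (S : S34C_Setup O π j F1 (W1 ⊓ W2 ⊓ W3) A0 Ainf) {p : ℕ} (f G : L)
    (hpt0 : ∀ (hπ : π ∈ A0) (m0 : Ideal A0), m0.IsMaximal → (⟨π, hπ⟩ : A0) ∈ m0 →
      S36XB_Pt π F1 W1 W2 W3 A0 p f G m0)
    (hπ : π ∈ Ainf) (hj : j⁻¹ ∈ Ainf) (m : Ideal Ainf) (hm : m.IsPrime)
    (hπm : (⟨π, hπ⟩ : Ainf) ∈ m) (hjm : (⟨j⁻¹, hj⟩ : Ainf) ∉ m) :
    S36XB_Pt π F1 W1 W2 W3 Ainf p f G m := by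
  have hπA : π ∈ A0 := S34XF_O_le_A0 S S.π_mem
  have hjV : j⁻¹ ∈ (W1 ⊓ W2 ⊓ W3 : Subring L) := S.chartInf.le_V hj
  exact S36PTX_pt A0 Ainf π j⁻¹ F1 W1 W2 W3 f G hj hjV.1.1 hjV.1.2 hjV.2 hπA hπ
    (S34XF_pole (S34XF_j_ne_zero S) S.chart0 S.chartInf S.j_mem)
    (fun m0 hm0 hπm0 => hpt0 hπA m0 hm0 hπm0) m hm hπm hjm

/-- **(REG36), mirror**: the local contract at a prime `m` of `A0` over `π` with `j ∉ m` follows
from the local contract at the maximal ideals of the chart at infinity. -/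
theorem S36PTX_pt_zero (S : S34C_Setup O π j F1 (W1 ⊓ W2 ⊓ W3) A0 Ainf) {p : ℕ} (f G : L)
    (hptInf : ∀ (hπ : π ∈ Ainf) (m0 : Ideal Ainf), m0.IsMaximal → (⟨π, hπ⟩ : Ainf) ∈ m0 →
      S36XB_Pt π F1 W1 W2 W3 Ainf p f G m0)
    (hπ : π ∈ A0) (hj : j ∈ A0) (m : Ideal A0) (hm : m.IsPrime)
    (hπm : (⟨π, hπ⟩ : A0) ∈ m) (hjm : (⟨j, hj⟩ : A0) ∉ m) :
    S36XB_Pt π F1 W1 W2 W3 A0 p f G m := by
  have hπA : π ∈ Ainf := S34XF_O_le_Ainf S S.π_mem
  have hjV : j ∈ (W1 ⊓ W2 ⊓ W3 : Subring L) := S.chart0.le_V hj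
  have hC0 : Chart O π (j⁻¹)⁻¹ F1 (W1 ⊓ W2 ⊓ W3) A0 := by rw [inv_inv]; exact S.chart0
  have hpole : ∀ a ∈ Ainf, ∃ n : ℕ, j ^ n * a ∈ A0 := by
    intro a ha
    obtain ⟨n, hn⟩ := S34XF_pole (inv_ne_zero (S34XF_j_ne_zero S)) S.chartInf hC0
      (F1.inv_mem S.j_mem) a ha
    exact ⟨n, by rw [inv_inv] at hn; exact hn⟩
  exact S36PTX_pt Ainf A0 π j F1 W1 W2 W3 f G hj hjV.1.1 hjV.1.2 hjV.2 hπA hπ hpole
    (fun m0 hm0 hπm0 => hptInf hπA m0 hm0 hπm0) m hm hπm hjm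

end Setup

end Fermat.Agent.S36_helper14_PTX
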