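import Fermat.Agent.S24_helper1_ORD
import Fermat.Agent.S24_helper27_J1
import Fermat.Agent.S24_helper26_TAY
import Fermat.Agent.S24_helper10_LOCfin

/-!
# S36, THICK-UNR (helper16): the analytic input ORDJD

For every point `z₀` of the upper half plane, every `γ ∈ SL(2, ℤ)` and every `d ≥ 1`, the
Taylor series at `z₀` (Cayley coordinate) of `z ↦ j(d · γ z)` minus its value `c` at `z₀`
has order `e` with `e = 1`, or `e = 2` and `c = 1728`, or `e = 3` and `c = 0`.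

This is the input `hJ` / `hord` / `he` of the power-series core of THICK-UNR for
`J = ι (jF N d hd) = laurentAt z₀ (jd d (i.out⁻¹))`, at every point and every coset:
`d = 1` is the statement for `ι j`, `d = q` the statement for `ι (V_q j)`.

The proof uses first derivatives only: `E₄`, `E₆` and `(1 - c/1728) E₄³ + (c/1728) E₆²`
have simple zeros wherever they vanish (landed `B2a`, `B2b`, `B2c`), and the Moebius map
`M z = d · γ z` has non-vanishing derivative.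

* `S36OJ_M`            : the map `z ↦ d · γ z` of the upper half plane;
* `S36OJ_comp_mdiff`   : `g ∘ M` is holomorphic;
* `S36OJ_deriv_ne`     : `(g ∘ M)'(z₀) ≠ 0` if `g'(M z₀) ≠ 0`;
* `S36OJ_order_taylor` : the order of the Taylor series, three cases;
* `S36OJ_order`        : **ORDJD**.
-/

set_option autoImplicit false
set_option linter.unusedSectionVars false
set_option linter.unusedVariables false
set_option linter.unnecessarySimpa false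
set_option linter.style.haveILetI false

open UpperHalfPlane ModularForm CongruenceSubgroup
open scoped MatrixGroups ModularForm Manifold Topology
open Fermat.Agent.S20 Fermat.Agent.S24

noncomputable section

namespace Fermat.Agent.S36_helper16_ORDJD

/-- the map `z ↦ d · γ z` of the upper half plane -/
def S36OJ_M (d : ℕ) (γ : SL(2, ℤ)) : ℍ → ℍ := fun z => dmul d (γ • z)

/-- the same map on complex numbers -/
def S36OJ_m (d : ℕ) (γ : SL(2, ℤ)) : ℂ → ℂ := fun w =>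
  (d : ℂ) * ((((γ 0 0 : ℤ) : ℂ) * w + ((γ 0 1 : ℤ) : ℂ)) /
    (((γ 1 0 : ℤ) : ℂ) * w + ((γ 1 1 : ℤ) : ℂ)))

theorem S36OJ_m_coe (d : ℕ) (hd : 0 < d) (γ : SL(2, ℤ)) (τ : ℍ) :
    S36OJ_m d γ (τ : ℂ) = ((S36OJ_M d γ τ : ℍ) : ℂ) := by
  unfold S36OJ_m S36OJ_M
  rw [Fermat.Agent.S24_helper27_J1.dmul_coe d hd, Fermat.Agent.S24_helper26_TAY.coe_smul_int]

theorem S36OJ_m_eq (d : ℕ) (hd : 0 < d) (γ : SL(2, ℤ)) {w : ℂ} (hw : 0 < w.im) :
    S36OJ_m d γ w = ((S36OJ_M d γ (ofComplex w) : ℍ) : ℂ) := by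
  have h1 : ((ofComplex w : ℍ) : ℂ) = w := by
    rw [ofComplex_apply_of_im_pos hw]
  have h2 := S36OJ_m_coe d hd γ (ofComplex w)
  rw [h1] at h2
  exact h2

theorem S36OJ_ofComplex_m (d : ℕ) (hd : 0 < d) (γ : SL(2, ℤ)) {w : ℂ} (hw : 0 < w.im) :
    ofComplex (S36OJ_m d γ w) = S36OJ_M d γ (ofComplex w) := by
  rw [S36OJ_m_eq d hd γ hw]
  exact ofComplex_apply _

theorem S36OJ_det (γ : SL(2, ℤ)) :
    ((γ 0 0 : ℤ) : ℂ) * ((γ 1 1 : ℤ) : ℂ) - ((γ 0 1 : ℤ) : ℂ) * ((γ 1 0 : ℤ) : ℂ) = 1 := by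
  have h := γ.det_coe
  rw [Matrix.det_fin_two] at h
  have h' : ((γ 0 0 * γ 1 1 - γ 0 1 * γ 1 0 : ℤ) : ℂ) = 1 := by
    rw [h]
    simp
  simpa using h'

theorem S36OJ_hasDerivAt_m (d : ℕ) (γ : SL(2, ℤ)) (z₀ : ℍ) :
    HasDerivAt (S36OJ_m d γ)
      ((d : ℂ) / (((γ 1 0 : ℤ) : ℂ) * (z₀ : ℂ) + ((γ 1 1 : ℤ) : ℂ)) ^ 2) (z₀ : ℂ) := by
  have hden := Fermat.Agent.S24_helper26_TAY.denom_int_ne_zero γ z₀
  have h1 : HasDerivAt (fun w : ℂ => ((γ 0 0 : ℤ) : ℂ) * w + ((γ 0 1 : ℤ) : ℂ))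
      ((γ 0 0 : ℤ) : ℂ) (z₀ : ℂ) := by
    have := ((hasDerivAt_id (z₀ : ℂ)).const_mul ((γ 0 0 : ℤ) : ℂ)).add_const ((γ 0 1 : ℤ) : ℂ)
    simpa using this
  have h2 : HasDerivAt (fun w : ℂ => ((γ 1 0 : ℤ) : ℂ) * w + ((γ 1 1 : ℤ) : ℂ))
      ((γ 1 0 : ℤ) : ℂ) (z₀ : ℂ) := by
    have := ((hasDerivAt_id (z₀ : ℂ)).const_mul ((γ 1 0 : ℤ) : ℂ)).add_const ((γ 1 1 : ℤ) : ℂ)
    simpa using this
  have h3 := (h1.div h2 hden).const_mul (d : ℂ)
  have e : (fun w : ℂ => (d : ℂ) * ((fun w : ℂ => ((γ 0 0 : ℤ) : ℂ) * w + ((γ 0 1 : ℤ) : ℂ)) w /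
      (fun w : ℂ => ((γ 1 0 : ℤ) : ℂ) * w + ((γ 1 1 : ℤ) : ℂ)) w)) = S36OJ_m d γ := rfl
  have hdet := S36OJ_det γ
  have e2 : (d : ℂ) * ((((γ 0 0 : ℤ) : ℂ) * (((γ 1 0 : ℤ) : ℂ) * (z₀ : ℂ) + ((γ 1 1 : ℤ) : ℂ)) -
      (((γ 0 0 : ℤ) : ℂ) * (z₀ : ℂ) + ((γ 0 1 : ℤ) : ℂ)) * ((γ 1 0 : ℤ) : ℂ)) /
      (((γ 1 0 : ℤ) : ℂ) * (z₀ : ℂ) + ((γ 1 1 : ℤ) : ℂ)) ^ 2) =
      (d : ℂ) / (((γ 1 0 : ℤ) : ℂ) * (z₀ : ℂ) + ((γ 1 1 : ℤ) : ℂ)) ^ 2 := by
    have : ((γ 0 0 : ℤ) : ℂ) * (((γ 1 0 : ℤ) : ℂ) * (z₀ : ℂ) + ((γ 1 1 : ℤ) : ℂ)) -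
      (((γ 0 0 : ℤ) : ℂ) * (z₀ : ℂ) + ((γ 0 1 : ℤ) : ℂ)) * ((γ 1 0 : ℤ) : ℂ) = 1 := by
      linear_combination hdet
    rw [this, mul_one_div]
  rw [← e2]
  exact h3

/-- `g ∘ M` is holomorphic on the upper half plane. -/
theorem S36OJ_comp_mdiff (d : ℕ) (hd : 0 < d) (γ : SL(2, ℤ)) {g : ℍ → ℂ}
    (hg : MDifferentiable 𝓘(ℂ) 𝓘(ℂ) g) :
    MDifferentiable 𝓘(ℂ) 𝓘(ℂ) (fun z : ℍ => g (S36OJ_M d γ z)) := by
  rw [UpperHalfPlane.mdifferentiable_iff]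
  intro w hw
  have hw' : 0 < w.im := hw
  have hcoe : ((ofComplex w : ℍ) : ℂ) = w := by
    rw [ofComplex_apply_of_im_pos hw']
  have h1 : DifferentiableAt ℂ (g ∘ ofComplex) (S36OJ_m d γ w) := by
    rw [S36OJ_m_eq d hd γ hw']
    exact (Fermat.Agent.S24_helper26_TAY.analyticAt_comp_ofComplex hg _).differentiableAt
  have h2 : DifferentiableAt ℂ (S36OJ_m d γ) w := by
    have := (S36OJ_hasDerivAt_m d γ (ofComplex w)).differentiableAt
    rw [hcoe] at this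
    exact this
  have h3 : DifferentiableAt ℂ ((g ∘ ofComplex) ∘ S36OJ_m d γ) w := h1.comp w h2
  refine h3.differentiableWithinAt.congr ?_ ?_
  · intro v hv
    have hv' : 0 < v.im := hv
    simp only [Function.comp_apply]
    rw [S36OJ_ofComplex_m d hd γ hv']
  · simp only [Function.comp_apply]
    rw [S36OJ_ofComplex_m d hd γ hw']

/-- first-derivative chain rule: `(g ∘ M)'(z₀) ≠ 0` if `g'(M z₀) ≠ 0`. -/
theorem S36OJ_deriv_ne (d : ℕ) (hd : 0 < d) (γ : SL(2, ℤ)) {g : ℍ → ℂ}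
    (hg : MDifferentiable 𝓘(ℂ) 𝓘(ℂ) g) (z₀ : ℍ)
    (h : deriv (g ∘ ofComplex) ((S36OJ_M d γ z₀ : ℍ) : ℂ) ≠ 0) :
    deriv ((fun z : ℍ => g (S36OJ_M d γ z)) ∘ ofComplex) (z₀ : ℂ) ≠ 0 := by
  have hm := S36OJ_hasDerivAt_m d γ z₀
  have hmz : S36OJ_m d γ (z₀ : ℂ) = ((S36OJ_M d γ z₀ : ℍ) : ℂ) := S36OJ_m_coe d hd γ z₀
  have h1 : HasDerivAt (g ∘ ofComplex) (deriv (g ∘ ofComplex) ((S36OJ_M d γ z₀ : ℍ) : ℂ))
      (S36OJ_m d γ (z₀ : ℂ)) := by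
    rw [hmz]
    exact (Fermat.Agent.S24_helper26_TAY.analyticAt_comp_ofComplex hg _).differentiableAt.hasDerivAt
  have h2 := h1.comp (z₀ : ℂ) hm
  have hev : ((fun z : ℍ => g (S36OJ_M d γ z)) ∘ ofComplex) =ᶠ[𝓝 (z₀ : ℂ)]
      ((g ∘ ofComplex) ∘ S36OJ_m d γ) := by
    filter_upwards [isOpen_upperHalfPlaneSet.mem_nhds z₀.im_pos] with v hv
    have hv' : 0 < v.im := hv
    simp only [Function.comp_apply]
    rw [S36OJ_ofComplex_m d hd γ hv']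
  have h3 := h2.congr_of_eventuallyEq hev
  rw [h3.deriv]
  refine mul_ne_zero h (div_ne_zero ?_ (pow_ne_zero 2 ?_))
  · exact_mod_cast hd.ne'
  · exact Fermat.Agent.S24_helper26_TAY.denom_int_ne_zero γ z₀

theorem S36OJ_order_ofPowerSeries_nonneg (p : PowerSeries ℂ) :
    0 ≤ (HahnSeries.ofPowerSeries ℤ ℂ p).order := by
  by_cases hp : HahnSeries.ofPowerSeries ℤ ℂ p = 0
  · rw [hp, HahnSeries.order_zero]
  · by_contra hlt
    exact hp (HahnSeries.coeff_order_eq_zero.mp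
      (Fermat.Agent.S24_helper10_LOCfin.coeff_ofPowerSeries_neg p (not_le.mp hlt)))

/-- the order of the Taylor series of `j(d γ z) - c` at `z₀`, three cases -/
theorem S36OJ_order_taylor (d : ℕ) (hd : 0 < d) (γ : SL(2, ℤ)) (z₀ : ℍ) :
    ∃ (c : ℂ) (e : ℕ), (taylorAt z₀ (fun z => jd d γ z - c)).order = (e : ℕ∞) ∧
      (e = 1 ∨ (e = 2 ∧ c = 1728) ∨ (e = 3 ∧ c = 0)) := by
  have hE4 : MDifferentiable 𝓘(ℂ) 𝓘(ℂ) (⇑E₄ : ℍ → ℂ) := E₄.holo'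
  have hE6 : MDifferentiable 𝓘(ℂ) 𝓘(ℂ) (⇑E₆ : ℍ → ℂ) := E₆.holo'
  have hDI : MDifferentiable 𝓘(ℂ) 𝓘(ℂ)
      (fun z : ℍ => Fermat.Agent.S24_helper1_ORD.DeltaInv (S36OJ_M d γ z)) :=
    S36OJ_comp_mdiff d hd γ Fermat.Agent.S24_helper1_ORD.DeltaInv_mdiff
  have hDIo : (taylorAt z₀
      (fun z : ℍ => Fermat.Agent.S24_helper1_ORD.DeltaInv (S36OJ_M d γ z))).order = 0 :=
    Fermat.Agent.S24_helper1_ORD.order_taylorAt_eq_zero z₀ _
      (inv_ne_zero (discriminant_ne_zero _))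
  by_cases h4 : E₄ (S36OJ_M d γ z₀) = 0
  · -- `j(M z₀) = 0`, order `3`
    refine ⟨0, 3, ?_, Or.inr (Or.inr ⟨rfl, rfl⟩)⟩
    have hG : MDifferentiable 𝓘(ℂ) 𝓘(ℂ) (fun z : ℍ => E₄ (S36OJ_M d γ z)) :=
      S36OJ_comp_mdiff d hd γ hE4
    have hfun : (fun z => jd d γ z - 0) =
        (fun z : ℍ => E₄ (S36OJ_M d γ z)) * ((fun z : ℍ => E₄ (S36OJ_M d γ z)) *
          ((fun z : ℍ => E₄ (S36OJ_M d γ z)) *
            (fun z : ℍ => Fermat.Agent.S24_helper1_ORD.DeltaInv (S36OJ_M d γ z)))) := by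
      funext z
      simp only [jd, jfun, Pi.mul_apply, Fermat.Agent.S24_helper1_ORD.DeltaInv, S36OJ_M,
        sub_zero, div_eq_mul_inv]
      ring
    have h1 : (taylorAt z₀ (fun z : ℍ => E₄ (S36OJ_M d γ z))).order = 1 :=
      Fermat.Agent.S24_helper26_TAY.taylorAt_order_one z₀ hG h4
        (S36OJ_deriv_ne d hd γ hE4 z₀ (Fermat.Agent.S20_helper13_B2.B2a _ h4))
    rw [hfun, Fermat.Agent.S24_helper26_TAY.taylorAt_mul z₀ hG (hG.mul (hG.mul hDI)),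
      Fermat.Agent.S24_helper26_TAY.taylorAt_mul z₀ hG (hG.mul hDI),
      Fermat.Agent.S24_helper26_TAY.taylorAt_mul z₀ hG hDI,
      PowerSeries.order_mul, PowerSeries.order_mul, PowerSeries.order_mul, h1, hDIo]
    rfl
  by_cases h6 : E₆ (S36OJ_M d γ z₀) = 0
  · -- `j(M z₀) = 1728`, order `2`
    refine ⟨1728, 2, ?_, Or.inr (Or.inl ⟨rfl, rfl⟩)⟩
    have hG : MDifferentiable 𝓘(ℂ) 𝓘(ℂ) (fun z : ℍ => E₆ (S36OJ_M d γ z)) :=
      S36OJ_comp_mdiff d hd γ hE6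
    have hfun : (fun z => jd d γ z - 1728) =
        (fun z : ℍ => E₆ (S36OJ_M d γ z)) * ((fun z : ℍ => E₆ (S36OJ_M d γ z)) *
            (fun z : ℍ => Fermat.Agent.S24_helper1_ORD.DeltaInv (S36OJ_M d γ z))) := by
      funext z
      have := Fermat.Agent.S24_helper10_J.jfun_sub_1728 (S36OJ_M d γ z)
      simp only [jd, Pi.mul_apply, Fermat.Agent.S24_helper1_ORD.DeltaInv]
      show jfun (S36OJ_M d γ z) - 1728 = _
      rw [this, div_eq_mul_inv]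
      ring
    have h1 : (taylorAt z₀ (fun z : ℍ => E₆ (S36OJ_M d γ z))).order = 1 :=
      Fermat.Agent.S24_helper26_TAY.taylorAt_order_one z₀ hG h6
        (S36OJ_deriv_ne d hd γ hE6 z₀ (Fermat.Agent.S20_helper13_B2.B2b _ h6))
    rw [hfun, Fermat.Agent.S24_helper26_TAY.taylorAt_mul z₀ hG (hG.mul hDI),
      Fermat.Agent.S24_helper26_TAY.taylorAt_mul z₀ hG hDI,
      PowerSeries.order_mul, PowerSeries.order_mul, h1, hDIo]
    rfl
  · -- generic value, order `1`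
    obtain ⟨c, hc⟩ : ∃ c : ℂ, c = jfun (S36OJ_M d γ z₀) := ⟨_, rfl⟩
    refine ⟨c, 1, ?_, Or.inl rfl⟩
    obtain ⟨H, hH⟩ : ∃ H : ℍ → ℂ,
        H = fun w : ℍ => (1 - c / 1728) * E₄ w ^ 3 + (c / 1728) * E₆ w ^ 2 := ⟨_, rfl⟩
    have hHd : MDifferentiable 𝓘(ℂ) 𝓘(ℂ) H := by
      have h1 : MDifferentiable 𝓘(ℂ) 𝓘(ℂ) ((1 - c / 1728) • ((⇑E₄ : ℍ → ℂ) ^ 3)) :=
        (hE4.pow 3).const_smul _
      have h2 : MDifferentiable 𝓘(ℂ) 𝓘(ℂ) ((c / 1728) • ((⇑E₆ : ℍ → ℂ) ^ 2)) :=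
        (hE6.pow 2).const_smul _
      have := h1.add h2
      convert this using 1
      rw [hH]
      funext w
      simp
    have hG : MDifferentiable 𝓘(ℂ) 𝓘(ℂ) (fun z : ℍ => H (S36OJ_M d γ z)) :=
      S36OJ_comp_mdiff d hd γ hHd
    have hfun : (fun z => jd d γ z - c) =
        (fun z : ℍ => H (S36OJ_M d γ z)) *
          (fun z : ℍ => Fermat.Agent.S24_helper1_ORD.DeltaInv (S36OJ_M d γ z)) := by
      funext z
      have := Fermat.Agent.S24_helper10_J.jfun_sub (S36OJ_M d γ z) c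
      simp only [Pi.mul_apply, Fermat.Agent.S24_helper1_ORD.DeltaInv]
      show jfun (S36OJ_M d γ z) - c = _
      rw [this, hH, div_eq_mul_inv]
    have hH0 : H (S36OJ_M d γ z₀) = 0 := by
      have h := Fermat.Agent.S24_helper10_J.jfun_sub (S36OJ_M d γ z₀) c
      rw [← hc, sub_self] at h
      have h' := h.symm
      rw [div_eq_zero_iff] at h'
      rcases h' with h' | h'
      · rw [hH]; exact h'
      · exact absurd h' (discriminant_ne_zero _)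
    have hderiv : deriv (H ∘ ofComplex) ((S36OJ_M d γ z₀ : ℍ) : ℂ) ≠ 0 := by
      rw [hH] at hH0 ⊢
      exact Fermat.Agent.S20_helper13_B2.B2c (1 - c / 1728) (c / 1728) (by norm_num)
        (S36OJ_M d γ z₀) h4 h6 hH0
    have h1 : (taylorAt z₀ (fun z : ℍ => H (S36OJ_M d γ z))).order = 1 :=
      Fermat.Agent.S24_helper26_TAY.taylorAt_order_one z₀ hG hH0
        (S36OJ_deriv_ne d hd γ hHd z₀ hderiv)
    rw [hfun, Fermat.Agent.S24_helper26_TAY.taylorAt_mul z₀ hG hDI,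
      PowerSeries.order_mul, h1, hDIo]
    rfl

/-- **ORDJD.**  At every point `z₀`, for every `γ ∈ SL(2, ℤ)` and `d ≥ 1`: the Taylor series
of `j(d γ z)` at `z₀` is a power series, and minus its value `c` it has order `e` with
`e = 1`, or `e = 2` and `c = 1728`, or `e = 3` and `c = 0`. -/
theorem S36OJ_order (d : ℕ) (hd : 0 < d) (γ : SL(2, ℤ)) (z₀ : ℍ) :
    ∃ (c : ℂ) (e : ℕ), 0 ≤ (laurentAt z₀ (jd d γ)).order ∧
      (laurentAt z₀ (jd d γ) - HahnSeries.C c).order = (e : ℤ) ∧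
      (e = 1 ∨ (e = 2 ∧ c = 1728) ∨ (e = 3 ∧ c = 0)) := by
  obtain ⟨c, e, hord, he⟩ := S36OJ_order_taylor d hd γ z₀
  refine ⟨c, e, S36OJ_order_ofPowerSeries_nonneg _, ?_, he⟩
  have hg := Fermat.Agent.S24_helper27_J1.jd_mdiff d hd γ
  have : laurentAt z₀ (jd d γ) - HahnSeries.C c =
      HahnSeries.ofPowerSeries ℤ ℂ (taylorAt z₀ (fun z => jd d γ z - c)) := by
    rw [Fermat.Agent.S24_helper10_LOCfin.taylorAt_sub_const z₀ hg, map_sub,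
      HahnSeries.ofPowerSeries_C]
    rfl
  rw [this]
  exact Fermat.Agent.S24_helper10_LOCfin.order_ofPowerSeries hord

/-- the value `c` of ORDJD is the value of the function at `z₀` -/
theorem S36OJ_order_val (d : ℕ) (hd : 0 < d) (γ : SL(2, ℤ)) (z₀ : ℍ) :
    ∃ (e : ℕ), 0 ≤ (laurentAt z₀ (jd d γ)).order ∧
      (laurentAt z₀ (jd d γ) - HahnSeries.C (jd d γ z₀)).order = (e : ℤ) ∧
      (e = 1 ∨ (e = 2 ∧ jd d γ z₀ = 1728) ∨ (e = 3 ∧ jd d γ z₀ = 0)) := by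
  obtain ⟨c, e, h0, hord, he⟩ := S36OJ_order d hd γ z₀
  have hg := Fermat.Agent.S24_helper27_J1.jd_mdiff d hd γ
  -- the constant coefficient of `laurentAt - C c` vanishes, so `c` is the value
  have hc : c = jd d γ z₀ := by
    have hpos : (0 : ℤ) < (laurentAt z₀ (jd d γ) - HahnSeries.C c).order := by
      rw [hord]
      rcases he with h | h | h
      · rw [h]; norm_num
      · rw [h.1]; norm_num
      · rw [h.1]; norm_num
    have hz : (laurentAt z₀ (jd d γ) - HahnSeries.C c).coeff 0 = 0 :=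
      HahnSeries.coeff_eq_zero_of_lt_order hpos
    have e1 : (laurentAt z₀ (jd d γ)).coeff 0 = jd d γ z₀ := by
      show (HahnSeries.ofPowerSeries ℤ ℂ (taylorAt z₀ (jd d γ))).coeff ((0 : ℕ) : ℤ) = _
      rw [HahnSeries.ofPowerSeries_apply_coeff, PowerSeries.coeff_zero_eq_constantCoeff_apply,
        Fermat.Agent.S24_helper26_TAY.taylorAt_constantCoeff]
    have e2 : (HahnSeries.C c : LaurentSeries ℂ).coeff 0 = c := by
      show (HahnSeries.single (0 : ℤ) c).coeff 0 = c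
      exact HahnSeries.coeff_single_same 0 c
    rw [HahnSeries.coeff_sub, e1, e2] at hz
    exact (sub_eq_zero.mp hz).symm
  subst hc
  exact ⟨e, h0, hord, he⟩

end Fermat.Agent.S36_helper16_ORDJD
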