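import Mathlib
import Fermat.Agent.S36_helper17_TRIPLEK

/-!
# S36, GEO36 (d) REG36 [TRIPLE], the concrete plug, second part (helper17)

* `S36TXK_hzF_abs`, `S36TXK_hzF` : the third coordinate `z` does not lie in the function field
  of level `M' q`, from the unit facts (`z - x = T2 - S1` is a unit of `V_∞` and a non-unit of
  `V_mid`, and `V_∞ ∩ F1 (M' q) ≤ V_mid`);
* `S36TXK_main2` : `S36TXK_main` without the hypothesis `hzF`.
-/

set_option autoImplicit false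
set_option linter.unusedSectionVars false
set_option linter.unusedVariables false
set_option linter.style.haveILetI false
set_option synthInstance.maxHeartbeats 40000
set_option maxHeartbeats 400000

open ModularCurve Fermat.Agent.S24
open Fermat.Agent.S18_helper13_GAUSS Fermat.Agent.S18_helper9_CDefs
open Fermat.Agent.S18_helper25_COREDefs Fermat.Agent.S34_helper12_CDefs
open Fermat.Agent.S34_helper27_C2Defs Fermat.Agent.S34_helper27_C2ADAPT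
open Fermat.Agent.S34_helper27_V3K Fermat.Agent.S34_helper20_V0K
open Fermat.Agent.S18_helper3_LOCRING
open Fermat.Agent.S36_helper5_VKDefs Fermat.Agent.S36_helper5_VMIDK
open Fermat.Agent.S36_helper2_C3 Fermat.Agent.S36_helper9_DICH
open Fermat.Agent.S36_helper18_THICK
open Fermat.Agent.S36_helper17_TRIPLEX Fermat.Agent.S36_helper17_TRIPLEY
open Fermat.Agent.S36_helper17_TRIPLEK

noncomputable section

namespace Fermat.Agent.S36_helper17_TRIPLEK2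

section Abs

variable {L : Type*} [Field L]

/-- `z - x` is a unit of `V_∞`: the sum of the non-unit `T2 = z - y ^ q` and the unit
`- S1 = - (x - y ^ q)`. -/
theorem S36TXK_W_unit {π : L} {F1 : Subfield L} {Voo : Subring L} (Hoo : S34C2_Val π F1 Voo)
    {x y z : L} {q : ℕ} (hS1 : x - y ^ q ∈ Voo) (hS10 : x - y ^ q ≠ 0) (hT2 : z - y ^ q ∈ Voo)
    (hT2_oo : (z - y ^ q)⁻¹ ∉ Voo) (hS1_oo : (x - y ^ q)⁻¹ ∈ Voo) : (z - x)⁻¹ ∈ Voo := by
  have h := Hoo.inv_add_mem (Voo.neg_mem hS1) (by rw [inv_neg]; exact Voo.neg_mem hS1_oo)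
    (neg_ne_zero.2 hS10) hT2 hT2_oo
  have e : -(x - y ^ q) + (z - y ^ q) = z - x := by ring
  rwa [e] at h

/-- **`z ∉ F1'`**: if `V_∞ ∩ F1' ≤ V_mid` and `z - x` is a unit of `V_∞` and a non-unit of
`V_mid`, then `z` does not lie in `F1'` (`x ∈ F1'`). -/
theorem S36TXK_hzF_abs {π : L} {F1 F1' : Subfield L} {Voo Vmid : Subring L}
    (Hoo : S34C2_Val π F1 Voo)
    (hdown : ∀ a ∈ F1', a ∈ Voo → a ∈ Vmid)
    {x y z : L} {q : ℕ} (hx : x ∈ F1') (hS1 : x - y ^ q ∈ Voo) (hS10 : x - y ^ q ≠ 0)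
    (hT2 : z - y ^ q ∈ Voo) (hT2_oo : (z - y ^ q)⁻¹ ∉ Voo) (hS1_oo : (x - y ^ q)⁻¹ ∈ Voo)
    (hW_mid : (z - x)⁻¹ ∉ Vmid) : z ∉ F1' := fun hz =>
  hW_mid (hdown _ (F1'.inv_mem (F1'.sub_mem hz hx))
    (S36TXK_W_unit Hoo hS1 hS10 hT2 hT2_oo hS1_oo))

end Abs

variable (A : ValuationSubring (AlgebraicClosure ℚ))
  (K1 : IntermediateField ℚ (AlgebraicClosure ℚ)) [IsDiscreteValuationRing (S18K_O1 A K1)]
  (q M' : ℕ) [NeZero M'] [NeZero q] [NeZero (M' * q)] [NeZero (q * q)] [NeZero (q ^ 2)]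
  [NeZero (M' * q * q)]

/-- **`z ∉ F1 (M' q)` at the carriers**, from the unit facts. -/
theorem S36TXK_hzF (W2 : Subring (LaurentSeries K1)) (hV2 : S18K_V A K1 (M' * q) ≤ W2)
    (x y z : LaurentSeries K1) (hx : x ∈ S18K_F1 K1 (M' * q))
    (hS1 : x - y ^ q ∈ S18K_V A K1 (M' * q * q)) (hS10 : x - y ^ q ≠ 0)
    (hT2 : z - y ^ q ∈ S18K_V A K1 (M' * q * q))
    (hT2_oo : (z - y ^ q)⁻¹ ∉ S18K_V A K1 (M' * q * q))
    (hS1_oo : (x - y ^ q)⁻¹ ∈ S18K_V A K1 (M' * q * q))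
    (hW_mid : (z - x)⁻¹ ∉ W2) : z ∉ S18K_F1 K1 (M' * q) :=
  S36TXK_hzF_abs (S34V3K_val1 A K1 (M' * q * q)) (fun a ha hav => hV2 ⟨hav.1, ha⟩) hx hS1 hS10
    hT2 hT2_oo hS1_oo hW_mid

/-- **REG36 [TRIPLE] at the concrete carriers, without `hzF`.** -/
theorem S36TXK_main2 (hq : q.Prime) (hqM : ¬ q ∣ M') (hA : A.LiesOverPrime q)
    (W2 W3 : Subring (LaurentSeries K1))
    (S : S34C_Setup (S18K_O A K1) (S18K_π A K1) (S18K_j K1) (S18K_F1 K1 (M' * q * q))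
      (S18K_V A K1 (M' * q * q) ⊓ W2 ⊓ W3 : Subring (LaurentSeries K1))
      (S18K_A0 A K1 (M' * q * q)) (S18K_Ainf A K1 (M' * q * q)))
    (hmid : S36VK_IsMid A K1 q M' W2)
    (H3 : S34C2_Val (S18K_π A K1) (S18K_F1 K1 (M' * q * q)) W3)
    (m : Ideal (S18K_A0 A K1 (M' * q * q))) (hm : m.IsMaximal)
    (hcross : S36DI_Cross (S18K_V A K1 (M' * q * q)) W3 (S18K_A0 A K1 (M' * q))
      (S18K_A0 A K1 (M' * q * q)) m)
    (x y z : LaurentSeries K1) (hx : x ∈ S18K_A0 A K1 (M' * q))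
    (hy : y ∈ S18K_A0 A K1 (M' * q))
    (hz : z ∈ S18K_A0 A K1 (M' * q * q))
    (hnode : ∃ u : S18K_A0 A K1 (M' * q),
      u ∉ m.comap (Subring.inclusion (S36TXK_le A K1 q M')) ∧
      (x ^ q - y) * (x - y ^ q) = S18K_π A K1 * (u : LaurentSeries K1))
    (hgen : ∀ a : S18K_A0 A K1 (M' * q),
      a ∈ m.comap (Subring.inclusion (S36TXK_le A K1 q M')) →
      ∃ s : S18K_A0 A K1 (M' * q), s ∉ m.comap (Subring.inclusion (S36TXK_le A K1 q M')) ∧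
        ∃ β γ : S18K_A0 A K1 (M' * q),
          (s : LaurentSeries K1) * (a : LaurentSeries K1) =
            (β : LaurentSeries K1) * (x ^ q - y) + (γ : LaurentSeries K1) * (x - y ^ q))
    (G : MvPolynomial (Fin 2) ℤ)
    (hyz : S36TH_ev ![y, z] (S36TH_Phi q G) = 0)
    (hyx : S36TH_ev ![y, x] (S36TH_Phi q G) = 0)
    (hT2_oo : (z - y ^ q)⁻¹ ∉ S18K_V A K1 (M' * q * q))
    (hS1_oo : (x - y ^ q)⁻¹ ∈ S18K_V A K1 (M' * q * q))
    (hS1_0 : (x - y ^ q)⁻¹ ∉ W3) (hT2_0 : (z - y ^ q)⁻¹ ∈ W3)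
    (hW_mid : (z - x)⁻¹ ∉ W2) :
    haveI := hm.isPrime
    S36TX_Triple q (S18K_π A K1) (x - y ^ q) (z - y ^ q) (S18K_V A K1 (M' * q * q)) W2 W3
      (locRing (S18K_A0 A K1 (M' * q * q)) m) := by
  have hXoo : S18K_A0 A K1 (M' * q * q) ≤ S18K_V A K1 (M' * q * q) :=
    fun a ha => (S.chart0.le_V ha).1.1
  have hle := S36TXK_le A K1 q M'
  have hS10 : x - y ^ q ≠ 0 := by
    intro h
    rw [h, inv_zero] at hS1_0
    exact hS1_0 W3.zero_mem
  have hS1 : x - y ^ q ∈ S18K_V A K1 (M' * q * q) :=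
    hXoo (hle (Subring.sub_mem _ hx (Subring.pow_mem _ hy q)))
  have hT2 : z - y ^ q ∈ S18K_V A K1 (M' * q * q) :=
    hXoo (Subring.sub_mem _ hz (hle (Subring.pow_mem _ hy q)))
  have hzF := S36TXK_hzF A K1 q M' W2 hmid.2.1 x y z hx.2 hS1 hS10 hT2 hT2_oo hS1_oo hW_mid
  exact S36TXK_main A K1 q M' hq hqM hA W2 W3 S hmid H3 m hm hcross x y z hx hy hz hzF hnode
    hgen G hyz hyx hT2_oo hS1_oo hS1_0 hT2_0 hW_mid

end Fermat.Agent.S36_helper17_TRIPLEK2
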