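import Mathlib
import Fermat.Agent.S36_helper17_TRIPLEK2

/-!
# S36, GEO36 (d) REG36 [TRIPLE], the concrete plug with BOTH conclusions (helper17)

`S36TXK_full` = `S36TXK_main2` (no hypothesis `hzF`) with the second conclusion of `S36TX_main`
kept: the local ring of the chart of level `q² M'` at a crossing `m` is the local ring of
`A'[z]` at `m ∩ A'[z]` (`A'` the chart of level `q M'`).  This is the input `heq` of TORLS /
TORK.  `S36TXK_absFull` is the abstract form.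
-/

set_option autoImplicit false
set_option linter.unusedSectionVars false
set_option linter.unusedVariables false
set_option linter.style.haveILetI false
set_option synthInstance.maxHeartbeats 40000
set_option maxHeartbeats 400000

open ModularCurve Fermat.Agent.S24
open Fermat.Agent.S18_helper13_GAUSS Fermat.Agent.S18_helper9_CDefs
open Fermat.Agent.S18_helper25_COREDefs Fermat.Agent.S34_helper12_CDefs
open Fermat.Agent.S34_helper27_C2Defs Fermat.Agent.S34_helper27_C2ADAPT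
open Fermat.Agent.S34_helper27_V3K Fermat.Agent.S34_helper20_V0K
open Fermat.Agent.S18_helper3_LOCRING
open Fermat.Agent.S36_helper5_VKDefs Fermat.Agent.S36_helper5_VMIDK
open Fermat.Agent.S34_helper15_DEG
open Fermat.Agent.S36_helper2_C3 Fermat.Agent.S36_helper9_DICH
open Fermat.Agent.S36_helper18_THICK
open Fermat.Agent.S36_helper17_TRIPLEX Fermat.Agent.S36_helper17_TRIPLEY
open Fermat.Agent.S36_helper17_TRIPLEK Fermat.Agent.S36_helper17_TRIPLEK2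

noncomputable section

namespace Fermat.Agent.S36_helper17_TRIPLEK3

section Abs

variable {L : Type*} [Field L]

/-- **REG36 [TRIPLE], the chart form with elementwise hypotheses, both conclusions.** -/
theorem S36TXK_absFull (q : ℕ) [hq : Fact q.Prime] (A' A : Subring L) (hA'A : A' ≤ A) (z : L)
    (hzA : z ∈ A) (m : Ideal A) {π : L} {F1 : Subfield L} {Voo Vmid V0 : Subring L}
    [IsNoetherianRing A'] (hmax : m.IsMaximal)
    (Hoo : S34C2_Val π F1 Voo) (Hmid : S34C2_Val π F1 Vmid) (H0 : S34C2_Val π F1 V0)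
    (hAoo : A ≤ Voo) (hAmid : A ≤ Vmid) (hA0 : A ≤ V0)
    (hint : ∀ a ∈ A, IsIntegral A' a)
    (hfrac : ∀ a ∈ A, ∃ b ∈ S36TX_adj A' z, ∃ d ∈ S36TX_adj A' z, d ≠ 0 ∧ a * d = b)
    (hπA' : π ∈ A') (hπ0 : π ≠ 0) (w : L) (hw : w ∈ A') (hqw : (q : L) = π * w)
    (x y : L) (hx : x ∈ A') (hy : y ∈ A')
    (hcross : S36DI_Cross Voo V0 A' A m)
    (hdown : ∀ a ∈ A', a⁻¹ ∈ Voo → a⁻¹ ∈ Vmid)
    (hnode : ∃ u : A', u ∉ m.comap (Subring.inclusion hA'A) ∧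
      (x ^ q - y) * (x - y ^ q) = π * (u : L))
    (hgen : ∀ a : A', a ∈ m.comap (Subring.inclusion hA'A) →
      ∃ s : A', s ∉ m.comap (Subring.inclusion hA'A) ∧
        ∃ β γ : A', (s : L) * (a : L) = (β : L) * (x ^ q - y) + (γ : L) * (x - y ^ q))
    (G : MvPolynomial (Fin 2) ℤ)
    (hyz : S36TH_ev ![y, z] (S36TH_Phi q G) = 0)
    (hyx : S36TH_ev ![y, x] (S36TH_Phi q G) = 0)
    (hT2_oo : (z - y ^ q)⁻¹ ∉ Voo) (hS1_oo : (x - y ^ q)⁻¹ ∈ Voo)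
    (hS1_0 : (x - y ^ q)⁻¹ ∉ V0) (hT2_0 : (z - y ^ q)⁻¹ ∈ V0)
    (hW_mid : (z - x)⁻¹ ∉ Vmid) :
    haveI := hmax.isPrime
    S36TX_Triple q π (x - y ^ q) (z - y ^ q) Voo Vmid V0 (locRing A m) ∧
      locRing A m = locRing (S36TX_adj A' z)
        (S36TX_m0 A' A z (S36TX_adj_le A' z hA'A hzA) m) := by
  haveI hmp : m.IsPrime := hmax.isPrime
  obtain ⟨hOnoo, hOn0⟩ := (S36DI_cross_iff hA'A m).1 hcross
  have hOnmid : ∀ a : A', ((a : L))⁻¹ ∉ Vmid → Subring.inclusion hA'A a ∈ m :=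
    fun a ha => hOnoo a fun h => ha (hdown a a.2 h)
  have hS1A' : x - y ^ q ∈ A' := Subring.sub_mem _ hx (Subring.pow_mem _ hy q)
  have hS1_mid : (x - y ^ q)⁻¹ ∈ Vmid := hdown _ hS1A' hS1_oo
  have hπm : Subring.inclusion hA'A ⟨π, hπA'⟩ ∈ m := hOnoo _ Hoo.π_nonunit
  have hS1m : Subring.inclusion hA'A (⟨x, hx⟩ - ⟨y, hy⟩ ^ q) ∈ m := by
    refine hOn0 _ ?_
    rw [AddSubgroupClass.coe_sub, SubmonoidClass.coe_pow]
    exact hS1_0
  obtain ⟨u, hum, hnode'⟩ := hnode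
  have hT1m : Subring.inclusion hA'A (⟨x, hx⟩ ^ q - ⟨y, hy⟩) ∈ m := by
    by_cases h0 : x ^ q - y = 0
    · have : (⟨x, hx⟩ ^ q - ⟨y, hy⟩ : A') = 0 := by
        apply Subtype.ext
        rw [AddSubgroupClass.coe_sub, SubmonoidClass.coe_pow, ZeroMemClass.coe_zero]
        exact h0
      rw [this, map_zero]
      exact m.zero_mem
    · refine hOnoo _ fun hinv => Hoo.π_nonunit ?_
      rw [AddSubgroupClass.coe_sub, SubmonoidClass.coe_pow] at hinv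
      have hS10 : x - y ^ q ≠ 0 := by
        rintro h
        rw [h, inv_zero] at hS1_0
        exact hS1_0 V0.zero_mem
      have e : π⁻¹ = (u : L) * (x - y ^ q)⁻¹ * (x ^ q - y)⁻¹ := by
        have hu0 : π * (u : L) ≠ 0 := by
          rw [← hnode']; exact mul_ne_zero h0 hS10
        have hu0' : (u : L) ≠ 0 := right_ne_zero_of_mul hu0
        field_simp
        linear_combination hnode'
      rw [e]
      exact Subring.mul_mem _ (Subring.mul_mem _ (hAoo (hA'A u.2)) hS1_oo) hinv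
  have hgen' : ∀ a : A', Subring.inclusion hA'A a ∈ m →
      ∃ s α β γ : A', Subring.inclusion hA'A s ∉ m ∧
        s * a = α * ⟨π, hπA'⟩ + β * (⟨x, hx⟩ ^ q - ⟨y, hy⟩) + γ * (⟨x, hx⟩ - ⟨y, hy⟩ ^ q) := by
    intro a ha
    obtain ⟨s, hs, β, γ, h⟩ := hgen a ha
    refine ⟨s, 0, β, γ, hs, Subtype.ext ?_⟩
    push_cast
    rw [h]
    ring
  have hnode'' : ∃ u c : A', Subring.inclusion hA'A u ∉ m ∧ Subring.inclusion hA'A c ∉ m ∧
      c * ((⟨x, hx⟩ ^ q - ⟨y, hy⟩) * (⟨x, hx⟩ - ⟨y, hy⟩ ^ q)) = ⟨π, hπA'⟩ * u := by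
    refine ⟨u, 1, hum, ?_, Subtype.ext ?_⟩
    · rw [map_one]
      exact fun h1 => hmp.ne_top ((Ideal.eq_top_iff_one m).2 h1)
    · push_cast
      rw [one_mul]
      exact hnode'
  have hqπ : ((q : ℕ) : A') = ⟨π, hπA'⟩ * ⟨w, hw⟩ :=
    Subtype.ext (by push_cast; exact hqw)
  exact (S36TX_main q A' A hA'A z hzA m hmax Hoo Hmid H0 hAoo hAmid hA0 hint hfrac
    ⟨π, hπA'⟩ ⟨w, hw⟩ ⟨x, hx⟩ ⟨y, hy⟩ hqπ hπm hS1m hT1m hgen' hnode'' G hyz hyx hOnoo hOnmid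
    hOn0 hS1_0 hT2_0 hT2_oo hS1_oo hW_mid hS1_mid)

end Abs

section Main

variable (A : ValuationSubring (AlgebraicClosure ℚ))
  (K1 : IntermediateField ℚ (AlgebraicClosure ℚ)) [IsDiscreteValuationRing (S18K_O1 A K1)]
  (q M' : ℕ) [NeZero M'] [NeZero q] [NeZero (M' * q)] [NeZero (q * q)] [NeZero (q ^ 2)]
  [NeZero (M' * q * q)]

/-- **REG36 [TRIPLE] at the concrete carriers, both conclusions, no `hzF`.** -/
theorem S36TXK_full (hq : q.Prime) (hqM : ¬ q ∣ M') (hA : A.LiesOverPrime q)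
    (W2 W3 : Subring (LaurentSeries K1))
    (S : S34C_Setup (S18K_O A K1) (S18K_π A K1) (S18K_j K1) (S18K_F1 K1 (M' * q * q))
      (S18K_V A K1 (M' * q * q) ⊓ W2 ⊓ W3 : Subring (LaurentSeries K1))
      (S18K_A0 A K1 (M' * q * q)) (S18K_Ainf A K1 (M' * q * q)))
    (hmid : S36VK_IsMid A K1 q M' W2)
    (H3 : S34C2_Val (S18K_π A K1) (S18K_F1 K1 (M' * q * q)) W3)
    (m : Ideal (S18K_A0 A K1 (M' * q * q))) (hm : m.IsMaximal)
    (hcross : S36DI_Cross (S18K_V A K1 (M' * q * q)) W3 (S18K_A0 A K1 (M' * q))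
      (S18K_A0 A K1 (M' * q * q)) m)
    (x y z : LaurentSeries K1) (hx : x ∈ S18K_A0 A K1 (M' * q))
    (hy : y ∈ S18K_A0 A K1 (M' * q))
    (hz : z ∈ S18K_A0 A K1 (M' * q * q))
    (hnode : ∃ u : S18K_A0 A K1 (M' * q),
      u ∉ m.comap (Subring.inclusion (S36TXK_le A K1 q M')) ∧
      (x ^ q - y) * (x - y ^ q) = S18K_π A K1 * (u : LaurentSeries K1))
    (hgen : ∀ a : S18K_A0 A K1 (M' * q),
      a ∈ m.comap (Subring.inclusion (S36TXK_le A K1 q M')) →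
      ∃ s : S18K_A0 A K1 (M' * q), s ∉ m.comap (Subring.inclusion (S36TXK_le A K1 q M')) ∧
        ∃ β γ : S18K_A0 A K1 (M' * q),
          (s : LaurentSeries K1) * (a : LaurentSeries K1) =
            (β : LaurentSeries K1) * (x ^ q - y) + (γ : LaurentSeries K1) * (x - y ^ q))
    (G : MvPolynomial (Fin 2) ℤ)
    (hyz : S36TH_ev ![y, z] (S36TH_Phi q G) = 0)
    (hyx : S36TH_ev ![y, x] (S36TH_Phi q G) = 0)
    (hT2_oo : (z - y ^ q)⁻¹ ∉ S18K_V A K1 (M' * q * q))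
    (hS1_oo : (x - y ^ q)⁻¹ ∈ S18K_V A K1 (M' * q * q))
    (hS1_0 : (x - y ^ q)⁻¹ ∉ W3) (hT2_0 : (z - y ^ q)⁻¹ ∈ W3)
    (hW_mid : (z - x)⁻¹ ∉ W2) :
    haveI := hm.isPrime
    S36TX_Triple q (S18K_π A K1) (x - y ^ q) (z - y ^ q) (S18K_V A K1 (M' * q * q)) W2 W3
        (locRing (S18K_A0 A K1 (M' * q * q)) m) ∧
      locRing (S18K_A0 A K1 (M' * q * q)) m =
        locRing (S36TX_adj (S18K_A0 A K1 (M' * q)) z)
          (S36TX_m0 (S18K_A0 A K1 (M' * q)) (S18K_A0 A K1 (M' * q * q)) z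
            (S36TX_adj_le (S18K_A0 A K1 (M' * q)) z (S36TXK_le A K1 q M') hz) m) := by
  haveI : Fact q.Prime := ⟨hq⟩
  haveI hNoeth : IsNoetherianRing (S18K_A0 A K1 (M' * q)) := S36TXK_noeth A K1 q M' hq hqM hA
  have S' := S36TXK_setup' A K1 q M' hq hqM hA
  have hF : S18K_F1 K1 (M' * q) ≤ S18K_F1 K1 (M' * q * q) := S34V3K_F1_mono K1 ⟨q, rfl⟩
  have hXoo : S18K_A0 A K1 (M' * q * q) ≤ S18K_V A K1 (M' * q * q) :=
    fun a ha => (S.chart0.le_V ha).1.1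
  have hX2 : S18K_A0 A K1 (M' * q * q) ≤ W2 := fun a ha => (S.chart0.le_V ha).1.2
  have hX3 : S18K_A0 A K1 (M' * q * q) ≤ W3 := fun a ha => (S.chart0.le_V ha).2
  have hS10 : x - y ^ q ≠ 0 := by
    intro h
    rw [h, inv_zero] at hS1_0
    exact hS1_0 W3.zero_mem
  have hS1 : x - y ^ q ∈ S18K_V A K1 (M' * q * q) :=
    hXoo (S36TXK_le A K1 q M' (Subring.sub_mem _ hx (Subring.pow_mem _ hy q)))
  have hT2 : z - y ^ q ∈ S18K_V A K1 (M' * q * q) :=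
    hXoo (Subring.sub_mem _ hz (S36TXK_le A K1 q M' (Subring.pow_mem _ hy q)))
  have hzF := S36TXK_hzF A K1 q M' W2 hmid.2.1 x y z hx.2 hS1 hS10 hT2 hT2_oo hS1_oo hW_mid
  have hint : ∀ a ∈ S18K_A0 A K1 (M' * q * q), IsIntegral (S18K_A0 A K1 (M' * q)) a :=
    fun a ha => S36TY_hint (S36TXK_adj_le A K1 q M' hq hqM hA) ha.1
  have hfr : ∀ y ∈ S18K_F1 K1 (M' * q), ∃ a ∈ S18K_A0 A K1 (M' * q),
      ∃ b ∈ S18K_A0 A K1 (M' * q), b ≠ 0 ∧ y * b = a := by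
    intro y hy
    obtain ⟨a, b, hb0, hab⟩ := S36C3_frac S' S'.chart0 (Or.inl rfl) y hy
    refine ⟨a, a.2, b, b.2, fun h => hb0 ?_, hab⟩
    apply Subtype.ext
    rw [ZeroMemClass.coe_zero]
    exact h
  have hfrac : ∀ a ∈ S18K_A0 A K1 (M' * q * q),
      ∃ b ∈ S36TX_adj (S18K_A0 A K1 (M' * q)) z,
        ∃ d ∈ S36TX_adj (S18K_A0 A K1 (M' * q)) z, d ≠ 0 ∧ a * d = b :=
    fun a ha => S36TY_hfrac hF hq
      (Fermat.Agent.S36_helper4_DEG.S36DG_hdeg K1 (M' * q) q hq (dvd_mul_left q M'))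
      (S36TXK_hind K1 q M' hq) hz.2 hzF _ hfr ha.2
  have hdown : ∀ a ∈ S18K_A0 A K1 (M' * q), a⁻¹ ∈ S18K_V A K1 (M' * q * q) → a⁻¹ ∈ W2 :=
    fun a ha hinv => hmid.2.1 ⟨hinv.1, (S18K_F1 K1 (M' * q)).inv_mem ha.2⟩
  obtain ⟨w, hw, hqw⟩ := S36TXK_q_eq A K1 q M' hq hqM hA
  exact S36TXK_absFull q (S18K_A0 A K1 (M' * q)) (S18K_A0 A K1 (M' * q * q))
    (S36TXK_le A K1 q M') z hz m hm (S34V3K_val1 A K1 (M' * q * q)) hmid.1 H3 hXoo hX2 hX3
    hint hfrac (S36TXK_pi_mem A K1 q M' hq hqM hA) (S18K_D A K1).πK_ne_zero w hw hqw x y hx hy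
    hcross hdown hnode hgen G hyz hyx hT2_oo hS1_oo hS1_0 hT2_0 hW_mid

end Main

end Fermat.Agent.S36_helper17_TRIPLEK3
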