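import Mathlib
import Fermat.Agent.S36_helper18_THICKQ
import Fermat.Agent.S36_helper6_TORKK
import Fermat.Agent.S36_helper4_SCALEK

/-!
# S36, GEO36: THICKT = [THICK] at every crossing, closed (helper18)

The statement (T) of the reduction of (GEO36): helper6's `S36TKK_Thick A K1 D q M' hq hqM`, i.e.
`hnode ∧ hgen` of helper17's `S36TXK_main` at every crossing of the finite chart of level
`M' * q * q`, in the Hauptmodul coordinate `x = S36AUX_hK K1 D.u`.

* `S36THT_thick`      : (T) for any auxiliary datum `D : S36AUX_Data r`, `r ∣ M'`, `¬ q ∣ r`,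
  from (E1) at level `M'`;
* `S36THT_thick_four` : (T) for `D = S36AUX_fourData` (`q ≠ 2`, `4 ∣ M'`), no hypothesis left;
* `S36THT_thick_nine` : (T) for `D = S36AUX_nineData` (`q ≠ 3`, `9 ∣ M'`), no hypothesis left;
* `S36THT_level_four`, `S36THT_level_nine` : the same with `hK1 : S36XA_Level A K1 q`.
-/

set_option autoImplicit false
set_option linter.unusedSectionVars false
set_option linter.unusedVariables false
set_option linter.style.haveILetI false
set_option synthInstance.maxHeartbeats 400000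
set_option maxHeartbeats 1600000

open MvPolynomial ModularCurve
open Fermat.Agent.S18_helper13_GAUSS Fermat.Agent.S36_helper8_AUXDefs
open Fermat.Agent.S36_helper18_THICK Fermat.Agent.S36_helper18_THICKP
open Fermat.Agent.S36_helper18_THICKQ
open Fermat.Agent.S18_helper25_COREDefs Fermat.Agent.S34_helper12_CDefs
open Fermat.Agent.S18_helper3_LOCRING
open Fermat.Agent.S36_helper17_TRIPLEK Fermat.Agent.S36_helper9_DICH
open Fermat.Agent.S36_helper5_VKDefs Fermat.Agent.S36_helper6_TORKK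
open Fermat.Agent.S36_helper4_XADefs

noncomputable section

namespace Fermat.Agent.S36_helper18_THICKT

variable (A : ValuationSubring (AlgebraicClosure ℚ))
  (K1 : IntermediateField ℚ (AlgebraicClosure ℚ)) [IsDiscreteValuationRing (S18K_O1 A K1)]
  {r : ℕ} [NeZero r] (Dx : S36AUX_Data r)
  (q M' : ℕ) [NeZero M'] [NeZero q] [NeZero (M' * q)] [NeZero (M' * q * q)] [NeZero (q ^ 2)]
  [NeZero (q * q)] (hq : q.Prime) (hqM : ¬ q ∣ M') (hr : r ∣ M')

include hr in
/-- **(T)** from (E1) at level `M'` -/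
theorem S36THT_thick (hqr : ¬ q ∣ r) (hA : A.LiesOverPrime q) (h : S18K_Admissible A K1 q)
    (hunr : Associated (S18K_D A K1).π ((q : ℕ) : S18K_O1 A K1))
    (hE1 : S36THP_E1 A K1 M' (S36AUX_hK K1 Dx.u)) :
    S36TKK_Thick A K1 Dx q M' hq hqM := by
  intro hπ m hm hπm hcross
  obtain ⟨G, -, hG⟩ := Fermat.Agent.S36_helper15_HXK.S36HXK_main Dx q hq hqr
  exact S36THQ_triple A K1 Dx q M' hq hqM hr hqr hA h hunr hE1 G (hG K1).1 m hm hcross

/-- **(T)** in the coordinate of level `4`, `q` odd -/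
theorem S36THT_thick_four (hq2 : q ≠ 2) (h4 : 4 ∣ M') (hA : A.LiesOverPrime q)
    (h : S18K_Admissible A K1 q)
    (hunr : Associated (S18K_D A K1).π ((q : ℕ) : S18K_O1 A K1)) :
    S36TKK_Thick A K1 Fermat.Agent.S36_helper8_A4Q.S36AUX_fourData q M' hq hqM := by
  have hqr : ¬ q ∣ 4 := by
    intro hd
    have h2 : q ∣ 2 ^ 2 := by simpa using hd
    have := (Nat.prime_dvd_prime_iff_eq hq Nat.prime_two).1 (hq.dvd_of_dvd_pow h2)
    exact hq2 this
  exact S36THT_thick A K1 _ q M' hq hqM h4 hqr hA h hunr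
    (S36THQ_E1_four A K1 q M' hq hqM hq2 h4 hA h)

/-- **(T)** in the coordinate of level `9`, `q ≠ 3` -/
theorem S36THT_thick_nine (hq3 : q ≠ 3) (h9 : 9 ∣ M') (hA : A.LiesOverPrime q)
    (h : S18K_Admissible A K1 q)
    (hunr : Associated (S18K_D A K1).π ((q : ℕ) : S18K_O1 A K1)) :
    S36TKK_Thick A K1 Fermat.Agent.S36_helper24_A9Q.S36AUX_nineData q M' hq hqM := by
  have hqr : ¬ q ∣ 9 := by
    intro hd
    have h2 : q ∣ 3 ^ 2 := by simpa using hd
    have := (Nat.prime_dvd_prime_iff_eq hq Nat.prime_three).1 (hq.dvd_of_dvd_pow h2)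
    exact hq3 this
  exact S36THT_thick A K1 _ q M' hq hqM h9 hqr hA h hunr
    (S36THQ_E1_nine A K1 q M' hq hqM hq3 h9 hA h)

/-- **(T)** at an unramified level, coordinate of level `4` -/
theorem S36THT_level_four (hq2 : q ≠ 2) (h4 : 4 ∣ M') (hA : A.LiesOverPrime q)
    (hK1 : S36XA_Level A K1 q) :
    S36TKK_Thick A K1 Fermat.Agent.S36_helper8_A4Q.S36AUX_fourData q M' hq hqM :=
  S36THT_thick_four A K1 q M' hq hqM hq2 h4 hA hK1.adm
    (Fermat.Agent.S36_helper4_SCALEK.S36SK_hunr A K1 q hq hA hK1)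

/-- **(T)** at an unramified level, coordinate of level `9` -/
theorem S36THT_level_nine (hq3 : q ≠ 3) (h9 : 9 ∣ M') (hA : A.LiesOverPrime q)
    (hK1 : S36XA_Level A K1 q) :
    S36TKK_Thick A K1 Fermat.Agent.S36_helper24_A9Q.S36AUX_nineData q M' hq hqM :=
  S36THT_thick_nine A K1 q M' hq hqM hq3 h9 hA hK1.adm
    (Fermat.Agent.S36_helper4_SCALEK.S36SK_hunr A K1 q hq hA hK1)

end Fermat.Agent.S36_helper18_THICKT
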