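import Mathlib
import Fermat.Agent.S18_helper3_LOCRING
import Fermat.Agent.S34_helper27_C2Defs
import Fermat.Agent.S36_helper2_C3

/-!
# S36, GEO36 (d): the local form of the thick one-branch datum (helper19)

`X` a chart, `m` a prime of `X`, `R = locRing X m`, `V2 = V_mid`.

* `S36ML_witness` : **(MID-LOC) ⟹ chart-level witnesses.**  If `V2` is centred at `m` and
  `τ ∈ R` is a uniformiser of `V2` dividing `π` in `R`, then there are `t ∈ X` (a uniformiser of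
  `V2`, `t ∈ m`) and `c, b ∈ X`, `c ∉ m`, `c * π = t * b`: the inputs of helper14's
  `S36N1M_thruMid` and of `S36MID_one`.  So the local equation of the thick component may be
  given in the LOCAL ring (e.g. `τ = V_(q²) s / s - 1` at a cusp), no global integrality needed.
* `S36ML_pow_mem` : an element of `F1` times a power of `d ∈ π W` lies in `W` (`W` a valuation
  ring in which every element of `F1` is integral after multiplication by a power of `π`).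
* `S36ML_hartogs` : **Hartogs at a one-branch point.**  `y ∈ V2`, `y` regular at the horizontal
  primes through `m`, and a witness `d ∈ X ∖ m`, `d ∈ π (V1 ⊓ V3)`  ⟹  `y ∈ locRing X m`
  (helper2's `S36C3_mem` applied to `d ^ n * y`).
-/

set_option autoImplicit false
set_option linter.unusedSectionVars false
set_option linter.unusedVariables false
set_option linter.style.haveILetI false

namespace Fermat.Agent.S36_helper19_MIDLOC

open Fermat.Agent.S18_helper9_CDefs Fermat.Agent.S18_helper3_LOCRING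
  Fermat.Agent.S34_helper12_CDefs Fermat.Agent.S34_helper27_C2Defs
  Fermat.Agent.S36_helper2_C3

variable {L : Type*} [Field L] {π : L} {F1 : Subfield L} {O X V1 V2 V3 : Subring L}

/-- **(MID-LOC) gives the chart-level witnesses.** -/
theorem S36ML_witness (hXV2 : X ≤ V2) (m : Ideal X) [hm : m.IsPrime]
    (hOn : ∀ a : X, ((a : L))⁻¹ ∉ V2 → a ∈ m)
    (τ u : L) (hτ : τ ∈ locRing X m) (hu : u ∈ locRing X m)
    (hτunif : ∀ x ∈ V2, x⁻¹ ∉ V2 → ∃ v ∈ V2, x = τ * v) (hτnu : τ⁻¹ ∉ V2)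
    (hπ : π = τ * u) :
    ∃ (t : L) (ht : t ∈ X), (∀ x ∈ V2, x⁻¹ ∉ V2 → ∃ v ∈ V2, x = t * v) ∧ t⁻¹ ∉ V2 ∧
      (⟨t, ht⟩ : X) ∈ m ∧ ∃ c b : X, c ∉ m ∧ (c : L) * π = t * (b : L) := by
  obtain ⟨a, s, hs, has⟩ := hτ
  obtain ⟨u1, s1, hs1, hus⟩ := hu
  have hs0 := coe_ne_zero_of_notMem X m hs
  have hs10 := coe_ne_zero_of_notMem X m hs1
  have hsinv : ((s : L))⁻¹ ∈ V2 := by
    by_contra hcon
    exact hs (hOn s hcon)
  have hτa : τ = (a : L) * ((s : L))⁻¹ := by rw [← has]; field_simp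
  have hanu : ((a : L))⁻¹ ∉ V2 := by
    intro h
    apply hτnu
    have : τ⁻¹ = ((a : L))⁻¹ * (s : L) := by rw [hτa, mul_inv, inv_inv]
    rw [this]
    exact V2.mul_mem h (hXV2 s.2)
  refine ⟨(a : L), a.2, ?_, hanu, hOn a hanu, s * s1, u1, fun hmem => ?_, ?_⟩
  · intro x hx hxnu
    obtain ⟨v, hv, hxv⟩ := hτunif x hx hxnu
    refine ⟨((s : L))⁻¹ * v, V2.mul_mem hsinv hv, ?_⟩
    rw [hxv, hτa]; ring
  · rcases hm.mem_or_mem hmem with h | h
    exacts [hs h, hs1 h]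
  · push_cast
    rw [hπ, ← hus, ← has]; ring

/-- an element of `F1` times a power of `d ∈ π W` lies in `W`. -/
theorem S36ML_pow_mem {W : Subring L} (hπW : π ∈ W)
    (hbd : ∀ y ∈ F1, ∃ n : ℕ, π ^ n * y ∈ W)
    {d : L} (hd : ∃ v ∈ W, d = π * v) {y : L} (hy : y ∈ F1) :
    ∃ n : ℕ, ∀ k, n ≤ k → d ^ k * y ∈ W := by
  obtain ⟨n, hn⟩ := hbd y hy
  obtain ⟨v, hv, hdv⟩ := hd
  refine ⟨n, fun k hk => ?_⟩
  obtain ⟨j, rfl⟩ := Nat.exists_eq_add_of_le hk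
  have : d ^ (n + j) * y = (π ^ n * y) * (v ^ n * (π * v) ^ j) := by
    rw [hdv]; ring
  rw [this]
  exact W.mul_mem hn (W.mul_mem (W.pow_mem hv n) (W.pow_mem (W.mul_mem hπW hv) j))

/-- **Hartogs at a one-branch point** of the middle branch `V2` (the same statement holds for
any of the three branches after permuting the names: only `y ∈ V2`, `X ≤ V2` and the bounds on
`V1`, `V3` are used). -/
theorem S36ML_hartogs {j x : L} {A0 Ainf : Subring L}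
    (S : S34C_Setup O π j F1 (V1 ⊓ V2 ⊓ V3 : Subring L) A0 Ainf)
    (hC : Chart O π x F1 (V1 ⊓ V2 ⊓ V3 : Subring L) X)
    (hx : x = j ∨ x = j⁻¹) (hN : IsNoetherianRing X) (hπ : π ∈ X)
    (hπ1 : π ∈ V1) (hπ3 : π ∈ V3)
    (hbd1 : ∀ y ∈ F1, ∃ n : ℕ, π ^ n * y ∈ V1) (hbd3 : ∀ y ∈ F1, ∃ n : ℕ, π ^ n * y ∈ V3)
    (m : Ideal X) [hm : m.IsPrime] (d : X) (hdm : d ∉ m)
    (hd1 : ∃ v ∈ V1, (d : L) = π * v) (hd3 : ∃ v ∈ V3, (d : L) = π * v)
    (y : L) (hyF : y ∈ F1) (hy : y ∈ V2)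
    (hhor : ∀ (𝔭 : Ideal X) [𝔭.IsPrime], 𝔭 ≤ m → 𝔭 ≠ ⊥ → (⟨π, hπ⟩ : X) ∉ 𝔭 →
      IsDiscreteValuationRing (locRing X 𝔭) → y ∈ locRing X 𝔭) :
    y ∈ locRing X m := by
  obtain ⟨n1, h1⟩ := S36ML_pow_mem hπ1 hbd1 hd1 hyF
  obtain ⟨n3, h3⟩ := S36ML_pow_mem hπ3 hbd3 hd3 hyF
  set k := max n1 n3 with hk
  have hXV : X ≤ (V1 ⊓ V2 ⊓ V3 : Subring L) := hC.le_V
  have hd2 : (d : L) ∈ V2 := (hXV d.2).1.2
  have hz : (d : L) ^ k * y ∈ (V1 ⊓ V2 ⊓ V3 : Subring L) :=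
    ⟨⟨h1 k (le_max_left _ _), V2.mul_mem (V2.pow_mem hd2 k) hy⟩, h3 k (le_max_right _ _)⟩
  have hmem : (d : L) ^ k * y ∈ locRing X m := by
    refine S36C3_mem S hC hx hN hπ m _ hz ?_
    intro 𝔭 _ h𝔭m h𝔭0 hπ𝔭 hdvr
    exact (locRing X 𝔭).mul_mem ((locRing X 𝔭).pow_mem (le_locRing X 𝔭 d.2) k)
      (hhor 𝔭 h𝔭m h𝔭0 hπ𝔭 hdvr)
  have hdk : d ^ k ∉ m := fun h => hdm (hm.mem_of_pow_mem k h)
  have hinv : (((d ^ k : X) : L))⁻¹ ∈ locRing X m := inv_mem_locRing X m hdk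
  have hd0 : ((d : L)) ^ k ≠ 0 := by
    have := coe_ne_zero_of_notMem X m hdk
    simpa using this
  have : y = (((d ^ k : X) : L))⁻¹ * ((d : L) ^ k * y) := by
    push_cast
    field_simp
  rw [this]
  exact (locRing X m).mul_mem hinv hmem

end Fermat.Agent.S36_helper19_MIDLOC
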