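import Mathlib
import Fermat.Agent.S18_helper9_CDefs
import Fermat.Agent.S18_helper3_LOCRING
import Fermat.Agent.S36_helper3_XBPT
import Fermat.Agent.S36_helper9_ONE
import Fermat.Agent.S36_helper14_N1M
import Fermat.Agent.S36_helper19_MIDPT
import Fermat.Agent.S36_helper19_MIDLOC

/-!
# S36, GEO36 (f): the thick one-branch datum from the LOCAL uniformiser (helper19)

`X` a chart (`A0` or `Ainf`), `m` a maximal ideal through which only the thick component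
`V_mid` passes (witness `d ∈ X ∖ m`, `d ∈ π (V_∞ ⊓ V_0)`), `R = locRing X m`.

**(MID-LOC)**: there are `τ, u ∈ R` with `τ` a uniformiser of `V_mid` and `π = τ * u`.

* `S36MI_on`   : `V_mid` passes through `m` (from the witness `d`);
* `S36MI_res`  : the residue hypothesis `hres` is independent of the uniformiser;
* `S36MI_igat` : (MID-LOC) + the hypotheses of helper14's `S36N1M_thruMid` give a chart-level
  uniformiser `t ∈ m` with `IGAt t X m` and the witnesses `c, b`;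
* `S36MI_one`  : **(MID-LOC) ⟹ `S36XB_One π F1 Vmid Voo V0 X p f G m`** (the hypothesis `hmid` of
  helper9's `S36PTS_pts0` / `S36PTS_ptsInf`).
-/

set_option autoImplicit false
set_option linter.unusedSectionVars false
set_option linter.unusedVariables false
set_option linter.style.haveILetI false

namespace Fermat.Agent.S36_helper19_MIDINF

open Fermat.Agent.S18_helper9_CDefs Fermat.Agent.S18_helper9_CBasic
  Fermat.Agent.S18_helper3_LOCRING Fermat.Agent.S34_helper12_CDefs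
  Fermat.Agent.S34_helper27_C2Defs Fermat.Agent.S36_helper3_XBPT
  Fermat.Agent.S36_helper9_ONE Fermat.Agent.S36_helper14_N1M
  Fermat.Agent.S36_helper19_MIDPT Fermat.Agent.S36_helper19_MIDLOC

variable {L : Type*} [Field L] {π j : L} {F1 F1' : Subfield L}
  {O X V' A0' Ainf' Voo Vmid V0 : Subring L}

/-- the residue hypothesis does not depend on the uniformiser. -/
theorem S36MI_res {t0 t : L} (ht0 : t0 ∈ Vmid) (ht0nu : t0⁻¹ ∉ Vmid)
    (htunif : ∀ y ∈ Vmid, y⁻¹ ∉ Vmid → ∃ v ∈ Vmid, y = t * v)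
    (hres0 : ∀ x ∈ Vmid, ∃ r ∈ V', ∃ v ∈ Vmid, x = r + t0 * v) :
    ∀ x ∈ Vmid, ∃ r ∈ V', ∃ v ∈ Vmid, x = r + t * v := by
  obtain ⟨w, hw, ht0w⟩ := htunif t0 ht0 ht0nu
  intro x hx
  obtain ⟨r, hr, v, hv, hxv⟩ := hres0 x hx
  refine ⟨r, hr, w * v, Vmid.mul_mem hw hv, ?_⟩
  rw [hxv, ht0w]; ring

/-- **`V_mid` passes through `m`** as soon as `π ∈ m` and there is a witness `d ∉ m` divisible by
`π` in `V_∞` and in `V_0`. -/
theorem S36MI_on (hX : X ≤ (Voo ⊓ Vmid ⊓ V0 : Subring L))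
    (hsat : ∀ v : L, v ∈ Voo → v ∈ Vmid → v ∈ V0 → π * v ∈ X → v ∈ X)
    (hπ0 : π ≠ 0) {t0 : L} {e : ℕ}
    (hunif0 : ∀ y ∈ Vmid, y⁻¹ ∉ Vmid → ∃ v ∈ Vmid, y = t0 * v)
    (hte : ∃ v ∈ Vmid, t0 ^ e = π * v)
    (m : Ideal X) [hm : m.IsPrime] (hπX : π ∈ X) (hπm : (⟨π, hπX⟩ : X) ∈ m)
    (d : X) (hdm : d ∉ m) (hdW : ∃ v ∈ (Voo ⊓ V0 : Subring L), (d : L) = π * v) :
    S36ONE_On Vmid X m := by
  intro a ha
  -- `a = t0 * v`, so `a ^ e = π * v'` in `Vmid`; `(a * d) ^ e`... we use `a ^ e * d ^ e ∈ π X`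
  obtain ⟨v, hv, hav⟩ := hunif0 (a : L) ((hX a.2).1.2) ha
  obtain ⟨w, hw, htw⟩ := hte
  obtain ⟨vd, hvd, hdv⟩ := hdW
  by_cases he : e = 0
  · -- then `1 = π * w`, so `π` is a unit of `Vmid`... `a * d ∈ π X` anyway
    subst he
    rw [pow_zero] at htw
    -- `a * d = π * (w * a * d)`
    have hmem : (a : L) * (d : L) * w ∈ X := by
      apply hsat
      · have : (a : L) * (d : L) * w = (a : L) * (π * w) * vd := by rw [hdv]; ring
        rw [this, ← htw, mul_one]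
        exact Voo.mul_mem ((hX a.2).1.1) hvd.1
      · exact Vmid.mul_mem (Vmid.mul_mem ((hX a.2).1.2) ((hX d.2).1.2)) hw
      · have : (a : L) * (d : L) * w = (a : L) * (π * w) * vd := by rw [hdv]; ring
        rw [this, ← htw, mul_one]
        exact V0.mul_mem ((hX a.2).2) hvd.2
      · have : π * ((a : L) * (d : L) * w) = (a : L) * (d : L) * (π * w) := by ring
        rw [this, ← htw, mul_one]
        exact X.mul_mem a.2 d.2
    have h1 : a * d = ⟨π, hπX⟩ * ⟨_, hmem⟩ := Subtype.ext (by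
      push_cast
      have : π * ((a : L) * (d : L) * w) = (a : L) * (d : L) * (π * w) := by ring
      rw [this, ← htw, mul_one])
    have h2 : a * d ∈ m := by rw [h1]; exact m.mul_mem_right _ hπm
    rcases hm.mem_or_mem h2 with h3 | h3
    exacts [h3, absurd h3 hdm]
  · -- `a ^ e * d ^ e = π * (w * v ^ e * d ^ e)` with the cofactor in `X`
    have he1 : 1 ≤ e := Nat.one_le_iff_ne_zero.2 he
    have hkey : ((a : L)) ^ e = π * (w * v ^ e) := by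
      rw [hav, mul_pow, htw]; ring
    have hcof : w * v ^ e * (d : L) ^ e ∈ X := by
      apply hsat
      · -- in `Voo`: `= a ^ e * vd * d ^ (e - 1)`
        have : w * v ^ e * (d : L) ^ e = (a : L) ^ e * vd * (d : L) ^ (e - 1) := by
          have hd' : (d : L) ^ e = (d : L) ^ (e - 1) * (d : L) := by
            rw [← pow_succ, Nat.sub_add_cancel he1]
          rw [hd', hkey, hdv]; ring
        rw [this]
        exact Voo.mul_mem (Voo.mul_mem (Voo.pow_mem ((hX a.2).1.1) e) hvd.1)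
          (Voo.pow_mem ((hX d.2).1.1) _)
      · exact Vmid.mul_mem (Vmid.mul_mem hw (Vmid.pow_mem hv e)) (Vmid.pow_mem ((hX d.2).1.2) e)
      · have : w * v ^ e * (d : L) ^ e = (a : L) ^ e * vd * (d : L) ^ (e - 1) := by
          have hd' : (d : L) ^ e = (d : L) ^ (e - 1) * (d : L) := by
            rw [← pow_succ, Nat.sub_add_cancel he1]
          rw [hd', hkey, hdv]; ring
        rw [this]
        exact V0.mul_mem (V0.mul_mem (V0.pow_mem ((hX a.2).2) e) hvd.2)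
          (V0.pow_mem ((hX d.2).2) _)
      · have : π * (w * v ^ e * (d : L) ^ e) = (a : L) ^ e * (d : L) ^ e := by
          rw [hkey]; ring
        rw [this]
        exact X.mul_mem (X.pow_mem a.2 e) (X.pow_mem d.2 e)
    have h1 : a ^ e * d ^ e = ⟨π, hπX⟩ * ⟨_, hcof⟩ := Subtype.ext (by
      push_cast
      rw [hkey]; ring)
    have h2 : a ^ e * d ^ e ∈ m := by rw [h1]; exact m.mul_mem_right _ hπm
    rcases hm.mem_or_mem h2 with h3 | h3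
    · exact hm.mem_of_pow_mem e h3
    · exact absurd (hm.mem_of_pow_mem e h3) hdm

/-- **(MID-LOC) gives `IGAt`**: a chart-level uniformiser `t ∈ m` of `V_mid` with `IGAt t X m`
and the witnesses `c, b` of helper14's `S36N1M_thruMid`. -/
theorem S36MI_igat (S' : Setup O π j F1' V' A0' Ainf') (hV : V' ≤ Vmid)
    {t0 : L} (ht0 : t0 ∈ Vmid) (ht0nu : t0⁻¹ ∉ Vmid)
    (hres0 : ∀ x ∈ Vmid, ∃ r ∈ V', ∃ v ∈ Vmid, x = r + t0 * v)
    (hπmid : π ∈ Vmid) (hπnu : π⁻¹ ∉ Vmid)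
    (x : L) (hxF : x ∈ F1') (A' : Subring L) (hC' : Chart O π x F1' V' A')
    (hA'X : A' ≤ X) (hXint : ∀ y ∈ X, IsIntegral (adj O x) y)
    [IsNoetherianRing A'] (hIG : IG π A')
    (hX : X ≤ (Voo ⊓ Vmid ⊓ V0 : Subring L))
    (hsat : ∀ v : L, v ∈ Voo → v ∈ Vmid → v ∈ V0 → π * v ∈ X → v ∈ X)
    (m : Ideal X) (hm : m.IsMaximal) (hOn : S36ONE_On Vmid X m)
    (τ u : L) (hτ : τ ∈ @locRing _ _ X m hm.isPrime) (hu : u ∈ @locRing _ _ X m hm.isPrime)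
    (hτnu : τ⁻¹ ∉ Vmid) (hτunif : ∀ y ∈ Vmid, y⁻¹ ∉ Vmid → ∃ v ∈ Vmid, y = τ * v)
    (hπτ : π = τ * u)
    (d : X) (hdm : d ∉ m) (hdW : ∃ v ∈ (Voo ⊓ V0 : Subring L), (d : L) = π * v) :
    ∃ (t : L) (ht : t ∈ X), (∀ y ∈ Vmid, y⁻¹ ∉ Vmid → ∃ v ∈ Vmid, y = t * v) ∧ t⁻¹ ∉ Vmid ∧
      (⟨t, ht⟩ : X) ∈ m ∧ IGAt t X m ∧ ∃ c b : X, c ∉ m ∧ (c : L) * π = t * (b : L) := by
  haveI hmp : m.IsPrime := hm.isPrime
  have hXmid : X ≤ Vmid := fun y hy => (hX hy).1.2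
  have hXW : X ≤ (Voo ⊓ V0 : Subring L) := fun y hy => ⟨(hX hy).1.1, (hX hy).2⟩
  obtain ⟨t, ht, htunif, htnu, htm, c, b, hcm, hcb⟩ :=
    S36ML_witness (π := π) hXmid m hOn τ u hτ hu hτunif hτnu hπτ
  have hπt : ∃ v ∈ Vmid, π = t * v := htunif π hπmid hπnu
  have hres := S36MI_res ht0 ht0nu htunif hres0
  have hIGt : IGAt t X m :=
    S36N1M_thruMid (W := (Voo ⊓ V0 : Subring L)) S' hV t htnu htunif hπt hres x hxF A' X hC'
      hA'X hXint hXmid hXW (fun v hv hw h => hsat v hw.1 hv hw.2 h) hIG ht m hm htm c b d hcm hcb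
      hdm hdW
  exact ⟨t, ht, htunif, htnu, htm, hIGt, c, b, hcm, hcb⟩

/-- **(MID-LOC) ⟹ the thick one-branch datum** `S36XB_One π F1 Vmid Voo V0 X p f G m`. -/
theorem S36MI_one (S' : Setup O π j F1' V' A0' Ainf') (hV : V' ≤ Vmid)
    (Hmid : S34C2_Val π F1 Vmid)
    {t0 : L} (ht0 : t0 ∈ Vmid) (ht0nu : t0⁻¹ ∉ Vmid)
    (hres0 : ∀ x ∈ Vmid, ∃ r ∈ V', ∃ v ∈ Vmid, x = r + t0 * v)
    (hπmid : π ∈ Vmid) (hπnu : π⁻¹ ∉ Vmid)
    (x : L) (hxF : x ∈ F1') (A' : Subring L) (hC' : Chart O π x F1' V' A')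
    (hA'X : A' ≤ X) (hXint : ∀ y ∈ X, IsIntegral (adj O x) y)
    [IsNoetherianRing A'] (hIG : IG π A') [IsNoetherianRing X]
    (hX : X ≤ (Voo ⊓ Vmid ⊓ V0 : Subring L))
    (hsat : ∀ v : L, v ∈ Voo → v ∈ Vmid → v ∈ V0 → π * v ∈ X → v ∈ X)
    (hfrac : ∀ x ∈ F1, ∃ a b : L, a ∈ X ∧ b ∈ X ∧ b ≠ 0 ∧ x * b = a)
    (hOX : O ≤ X) (hπX : π ∈ X)
    (m : Ideal X) (hm : m.IsMaximal) (hπm : (⟨π, hπX⟩ : X) ∈ m)
    (hOn : S36ONE_On Vmid X m)
    (hloc : ∃ τ u : L, τ ∈ @locRing _ _ X m hm.isPrime ∧ u ∈ @locRing _ _ X m hm.isPrime ∧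
      τ⁻¹ ∉ Vmid ∧ (∀ y ∈ Vmid, y⁻¹ ∉ Vmid → ∃ v ∈ Vmid, y = τ * v) ∧ π = τ * u)
    (d : X) (hdm : d ∉ m) (hdW : ∃ v ∈ (Voo ⊓ V0 : Subring L), (d : L) = π * v)
    {p : ℕ} (hp : 0 < p) (hpL : (p : L) ≠ 0) (hpO : ((p : L))⁻¹ ∈ O)
    (f G : L) (hfF : f ∈ F1) (hf0 : f ≠ 0) (hdiv : PowDiv O π F1 p f)
    (hred : RedPow π (Voo ⊓ Vmid ⊓ V0 : Subring L) p f G) :
    S36XB_One π F1 Vmid Voo V0 X p f G m := by
  haveI hmp : m.IsPrime := hm.isPrime
  obtain ⟨τ, u, hτ, hu, hτnu, hτunif, hπτ⟩ := hloc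
  obtain ⟨t, ht, htunif, htnu, htm, hIGt, c, b, hcm, hcb⟩ :=
    S36MI_igat S' hV ht0 ht0nu hres0 hπmid hπnu x hxF A' hC' hA'X hXint hIG hX hsat m hm hOn
      τ u hτ hu hτnu hτunif hπτ d hdm hdW
  have hpR : ((p : L))⁻¹ ∈ locRing X m := le_locRing X m (hOX hpO)
  exact S36MID_one (O := O) Hmid htnu htunif hX hsat ht hfrac m hπX hπm htm hIGt c b d hcm hcb
    hdm hdW hOX hp hpL hpR f G hfF hf0 hdiv hred

end Fermat.Agent.S36_helper19_MIDINF
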