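import Fermat.Agent.S36_helper1_MIDBRK
import Fermat.Agent.S36_helper11_DTRICK

/-!
# S36, GEO36 REG36 [ONE mid] (helper1): the D-trick at the carriers

`V2 = S36VK_Vmid A K1 q M'` (helper5), `τ = S36VK_t K1 q = j(Q^(q²)) - j`, a coordinate
`x₀ : LaurentSeries ℤ` (`x₀.coeff (-1) = 1`, the two relations `S36KG_IsModEq q x₀ a`, a Hauptmodul
relation `j B(x₀) = a(x₀)³`), `X` its image over `K1` (in the function field of level `M'`),
`t = X(Q^(q²)) - X`, `S = X - X(Q^q)^q`, `D = - q Φ_Y / Φ_X` (explicit: `S36DTK_D`).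

* `S36DTK_hyp`     : the bundled hypotheses `S36DT_Hyp` of helper11's D-trick;
* `S36DTK_unif`    : `t` is a uniformiser of `V2`;
* `S36DTK_pi`      : `π = t^(q-1) * unit` in `V2`;
* `S36DTK_res`     : residue degree one modulo `t`;
* `S36DTK_witness` : the witnesses `(c, b)` of `S36N1M_thruMid` at a prime `m` of a chart `A`
  through which `V2` passes, from `d ∉ m`, `d ∈ π (V1 ⊓ V3)`, `t ∈ A`, `D ∈ A`.
-/

set_option autoImplicit false
set_option linter.unusedSectionVars false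
set_option linter.unusedVariables false
set_option linter.style.haveILetI false

open Polynomial ModularCurve
open Fermat.Agent.S36_helper1_KRON Fermat.Agent.S36_helper1_THETA
open Fermat.Agent.S36_helper1_KRONG Fermat.Agent.S36_helper1_VMID
open Fermat.Agent.S36_helper1_VMIDG Fermat.Agent.S36_helper1_MIDBR
open Fermat.Agent.S18_helper13_GAUSS Fermat.Agent.S18_helper25_COREDefs
open Fermat.Agent.S34_helper20_V0K Fermat.Agent.S34_helper27_C2Defs
open Fermat.Agent.S34_helper27_V3K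
open Fermat.Agent.S36_helper5_VKDefs Fermat.Agent.S36_helper5_VMIDK
open Fermat.Agent.S36_helper11_DTRICK

noncomputable section

namespace Fermat.Agent.S36_helper1_DTK

variable (A : ValuationSubring (AlgebraicClosure ℚ))
  (K1 : IntermediateField ℚ (AlgebraicClosure ℚ))

/-- `Φ_X(x, y) = ∂Ψ/∂Z (y, x)`, `Ψ(Y, Z) = Z^(q+1) + ∑ a_i(Y) Z^i` -/
def S36DTK_PhiX (q : ℕ) [NeZero q] (a : ℕ → ℤ[X]) (X : LaurentSeries K1) : LaurentSeries K1 :=
  ((q + 1 : ℕ) : LaurentSeries K1) * X ^ q + ∑ i ∈ Finset.range (q + 1),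
    eval₂ (Int.castRingHom (LaurentSeries K1)) (qExpand K1 q X) (a i) *
      ((i : LaurentSeries K1) * X ^ (i - 1))

/-- `Φ_Y(x, y) = ∂Ψ/∂Y (y, x)` -/
def S36DTK_PhiY (q : ℕ) [NeZero q] (a : ℕ → ℤ[X]) (X : LaurentSeries K1) : LaurentSeries K1 :=
  ∑ i ∈ Finset.range (q + 1),
    eval₂ (Int.castRingHom (LaurentSeries K1)) (qExpand K1 q X) (derivative (a i)) * X ^ i

/-- `D = q dx/dy = - q Φ_Y / Φ_X` -/
def S36DTK_D (q : ℕ) [NeZero q] (a : ℕ → ℤ[X]) (X : LaurentSeries K1) : LaurentSeries K1 :=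
  -((q : LaurentSeries K1) * S36DTK_PhiY K1 q a X) / S36DTK_PhiX K1 q a X

variable [IsDiscreteValuationRing (S18K_O1 A K1)]

/-- `q = π * u` with `u` a unit of `O` -/
theorem S36DTK_unr_O (q : ℕ)
    (hunr : Associated (S18K_D A K1).π ((q : ℕ) : S18K_O1 A K1)) :
    ∃ u ∈ S18K_O A K1, u⁻¹ ∈ S18K_O A K1 ∧ u ≠ 0 ∧
      ((q : ℕ) : LaurentSeries K1) = S18K_π A K1 * u := by
  obtain ⟨u, hu⟩ := hunr
  have h1 : (HahnSeries.C ((S18K_D A K1).inc (u : S18K_O1 A K1)) : LaurentSeries K1)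
      * HahnSeries.C ((S18K_D A K1).inc (↑u⁻¹ : S18K_O1 A K1)) = 1 := by
    rw [← map_mul, ← map_mul, Units.mul_inv, map_one, map_one]
  have hu0 : (HahnSeries.C ((S18K_D A K1).inc (u : S18K_O1 A K1)) : LaurentSeries K1) ≠ 0 :=
    left_ne_zero_of_mul_eq_one h1
  have hinv : (HahnSeries.C ((S18K_D A K1).inc (u : S18K_O1 A K1)) : LaurentSeries K1)⁻¹
      = HahnSeries.C ((S18K_D A K1).inc (↑u⁻¹ : S18K_O1 A K1)) :=
    inv_eq_of_mul_eq_one_right h1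
  have hmem : ∀ c : S18K_O1 A K1,
      (HahnSeries.C ((S18K_D A K1).inc c) : LaurentSeries K1) ∈ S18K_O A K1 := fun c =>
    (S18K_mem_O A K1 _).2 ⟨(c : K1), c.2, rfl⟩
  refine ⟨HahnSeries.C ((S18K_D A K1).inc (u : S18K_O1 A K1)), hmem _, ?_, hu0, ?_⟩
  · rw [hinv]
    exact hmem _
  · show ((q : ℕ) : LaurentSeries K1) = (S18K_D A K1).πK * _
    rw [GaussData.πK, ← map_mul, ← map_mul, hu, map_natCast, map_natCast]

section Main

variable (q M' : ℕ) [NeZero q] [NeZero M'] [NeZero (q * q)] [NeZero (q ^ 2)]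
  [NeZero (M' * q * q)] (hq : q.Prime) (hqM : ¬ q ∣ M') (hA : A.LiesOverPrime q)
  (hunr : Associated (S18K_D A K1).π ((q : ℕ) : S18K_O1 A K1))
  (x₀ : LaurentSeries ℤ) (hx₀ : x₀.coeff (-1) = 1) (a : ℕ → ℤ[X])
  (h : S36KG_IsModEq q x₀ a)
  (hxF : coeffMap (Int.castRingHom K1) x₀ ∈ modularFunctionFieldFullC K1 M')
  (aP BP : ℤ[X]) (hBm : BP.Monic)
  (rel : jqModC ℤ * eval₂ (Int.castRingHom (LaurentSeries ℤ)) x₀ BP =
    (eval₂ (Int.castRingHom (LaurentSeries ℤ)) x₀ aP) ^ 3)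

include hq hqM hA hunr hx₀ h hxF hBm rel

set_option maxHeartbeats 1600000 in
/-- **the hypotheses of the D-trick at the carriers** -/
theorem S36DTK_hyp :
    ∃ (p : ℕ → LaurentSeries K1) (H : LaurentSeries K1),
      S36DT_Hyp (S36VK_Vmid A K1 q M') (S36VK_t K1 q) (q - 2) ((q : ℕ) : LaurentSeries K1)
        (qExpand K1 (q * q) (coeffMap (Int.castRingHom K1) x₀) - coeffMap (Int.castRingHom K1) x₀)
        (coeffMap (Int.castRingHom K1) x₀ -
          (qExpand K1 q (coeffMap (Int.castRingHom K1) x₀)) ^ q)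
        H (S36DTK_D K1 q a (coeffMap (Int.castRingHom K1) x₀))
        (S36DTK_PhiY K1 q a (coeffMap (Int.castRingHom K1) x₀)) p ∧
      S36DTK_D K1 q a (coeffMap (Int.castRingHom K1) x₀) ∈ S18K_V A K1 (M' * q) ∧
      (S36DTK_D K1 q a (coeffMap (Int.castRingHom K1) x₀))⁻¹ ∈ S18K_V A K1 (M' * q) ∧
      p 0 = S36DTK_PhiX K1 q a (coeffMap (Int.castRingHom K1) x₀) ∧
      S36DTK_PhiX K1 q a (coeffMap (Int.castRingHom K1) x₀) ≠ 0 ∧
      S36DTK_D K1 q a (coeffMap (Int.castRingHom K1) x₀) *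
          S36DTK_PhiX K1 q a (coeffMap (Int.castRingHom K1) x₀) =
        -(((q : ℕ) : LaurentSeries K1) *
          S36DTK_PhiY K1 q a (coeffMap (Int.castRingHom K1) x₀)) := by
  obtain ⟨hmid, -, -, -, -, -, -, -, -, hunif, -, -, -⟩ := S36VK_main A K1 q M' hq hqM hA hunr
  obtain ⟨hval, hV', htV, htinv⟩ := hmid
  obtain ⟨htV2, htτ, htne, -⟩ :=
    S36MB_bridge A K1 q M' hq hqM hA hunr x₀ hx₀ a h hxF aP BP hBm rel
  obtain ⟨p, H, ΦY, D, hp, hpq, hroot, hpmid, ⟨hH, hHinv, hH0⟩, hp0, ⟨hS, hSinv, hS0⟩, htop,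
    ⟨hΦV, hΦ⟩, ⟨hD, hDinv, hDH, hDp⟩, hp0f, hΦf⟩ := S36VG_main A K1 q M' hq hA x₀ hx₀ a h hxF
  -- `q ∈ τ V2`
  obtain ⟨u, hu, -, -, hqu⟩ := S36VK_unr A K1 q hunr (M' * q)
  obtain ⟨vπ, hvπ, hπv⟩ := hunif _ hval.π_mem hval.π_nonunit
  have hqτ : ((q : ℕ) : LaurentSeries K1) = S36VK_t K1 q * (vπ * u) := by rw [hqu, hπv]; ring
  have hq0 : ((q : ℕ) : LaurentSeries K1) ≠ 0 := by
    rw [show ((q : ℕ) : LaurentSeries K1) = HahnSeries.C ((q : ℕ) : K1) by rw [map_natCast]]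
    intro h0
    rw [← map_zero (HahnSeries.C : K1 →+* LaurentSeries K1)] at h0
    have := HahnSeries.C_injective h0
    exact hq.ne_zero (by exact_mod_cast this)
  have hq2 := hq.two_le
  have hPX : S36DTK_PhiX K1 q a (coeffMap (Int.castRingHom K1) x₀) = p 0 := hp0f.symm
  have hPY : S36DTK_PhiY K1 q a (coeffMap (Int.castRingHom K1) x₀) = ΦY := hΦf.symm
  have hp00 : p 0 ≠ 0 := by
    rw [hp0]
    exact mul_ne_zero hq0 hH0
  have hDe : S36DTK_D K1 q a (coeffMap (Int.castRingHom K1) x₀) = D := by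
    rw [S36DTK_D, hPX, hPY, div_eq_iff hp00, hDp]
  rw [hDe, hPX, hPY]
  refine ⟨p, H, ?_, hD, hDinv, rfl, hp00, hDp⟩
  refine
    { τ_mem := htV
      τ_nonunit := htinv
      unif := hunif
      Q_ne := hq0
      t_mem := htτ
      S_mem := hV' hS
      S_inv := hV' hSinv
      S_ne := hS0
      H_mem := hV' hH
      H_inv := hV' hHinv
      H_ne := hH0
      monic := by
        rw [show q - 2 + 2 = q by omega]
        exact hpq
      root := by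
        rw [show q - 2 + 3 = q + 1 by omega]
        exact hroot
      p_zero := hp0
      p_mid := fun k hk1 hk2 => by
        obtain ⟨e, he, hpe⟩ := hpmid k hk1 (by omega)
        exact ⟨e, hV' he, hpe⟩
      p_top := by
        rw [show q - 2 + 1 = q - 1 by omega]
        obtain ⟨e, he, hpe⟩ := htop
        exact ⟨vπ * u * e, (S36VK_Vmid A K1 q M').mul_mem
          ((S36VK_Vmid A K1 q M').mul_mem hvπ (hV' hu)) (hV' he), by rw [hpe, hqτ]; ring⟩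
      ΦY_cong := by
        obtain ⟨e, he, hpe⟩ := hΦ
        exact ⟨vπ * u * e, (S36VK_Vmid A K1 q M').mul_mem
          ((S36VK_Vmid A K1 q M').mul_mem hvπ (hV' hu)) (hV' he), by rw [hpe, hqτ]; ring⟩
      D_eq := hDH }

set_option maxHeartbeats 1600000 in
/-- **`t_h` is a uniformiser of `V_mid`** -/
theorem S36DTK_unif :
    (qExpand K1 (q * q) (coeffMap (Int.castRingHom K1) x₀) - coeffMap (Int.castRingHom K1) x₀ ∈
        S36VK_Vmid A K1 q M') ∧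
      (qExpand K1 (q * q) (coeffMap (Int.castRingHom K1) x₀) -
        coeffMap (Int.castRingHom K1) x₀)⁻¹ ∉ S36VK_Vmid A K1 q M' ∧
      ∀ y ∈ S36VK_Vmid A K1 q M', y⁻¹ ∉ S36VK_Vmid A K1 q M' →
        ∃ v ∈ S36VK_Vmid A K1 q M',
          y = (qExpand K1 (q * q) (coeffMap (Int.castRingHom K1) x₀) -
            coeffMap (Int.castRingHom K1) x₀) * v := by
  obtain ⟨p, H, hyp, -⟩ := S36DTK_hyp A K1 q M' hq hqM hA hunr x₀ hx₀ a h hxF aP BP hBm rel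
  obtain ⟨hmid, -, -, -, ht0, h6, h7, -⟩ := S36VK_main A K1 q M' hq hqM hA hunr
  obtain ⟨hval, hV', htV, htinv⟩ := hmid
  obtain ⟨u, hu, hu0, huinv, hqu⟩ := S36VK_unr A K1 q hunr (M' * q)
  have hπ0 : S18K_π A K1 ≠ 0 := by
    intro h0
    exact hval.π_nonunit (by rw [h0, inv_zero]; exact (S36VK_Vmid A K1 q M').zero_mem)
  have hq2 := hq.two_le
  refine S36DT_unif hyp ⟨S18K_π A K1 / S36VK_t K1 q ^ (q - 1) * u,
    (S36VK_Vmid A K1 q M').mul_mem h6 (hV' hu), ?_, ?_⟩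
  · have e : (S18K_π A K1 / S36VK_t K1 q ^ (q - 1) * u)⁻¹ =
        S36VK_t K1 q ^ (q - 1) / S18K_π A K1 * u⁻¹ := by
      rw [mul_inv, inv_div]
    rw [e]
    exact (S36VK_Vmid A K1 q M').mul_mem h7 (hV' huinv)
  · rw [show q - 2 + 1 = q - 1 by omega, hqu]
    have : S36VK_t K1 q ^ (q - 1) ≠ 0 := pow_ne_zero _ ht0
    field_simp

set_option maxHeartbeats 1600000 in
/-- **`π = t_h^(q-1) * unit`** -/
theorem S36DTK_pi :
    (∃ v ∈ S36VK_Vmid A K1 q M', S18K_π A K1 =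
      (qExpand K1 (q * q) (coeffMap (Int.castRingHom K1) x₀) -
        coeffMap (Int.castRingHom K1) x₀) * v) ∧
    (∃ v ∈ S36VK_Vmid A K1 q M', S18K_π A K1 =
      (qExpand K1 (q * q) (coeffMap (Int.castRingHom K1) x₀) -
        coeffMap (Int.castRingHom K1) x₀) ^ (q - 1) * v) ∧
    (∃ v ∈ S36VK_Vmid A K1 q M',
      (qExpand K1 (q * q) (coeffMap (Int.castRingHom K1) x₀) -
        coeffMap (Int.castRingHom K1) x₀) ^ (q - 1) = S18K_π A K1 * v) := by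
  obtain ⟨p, H, hyp, -⟩ := S36DTK_hyp A K1 q M' hq hqM hA hunr x₀ hx₀ a h hxF aP BP hBm rel
  obtain ⟨hmid, -⟩ := S36VK_main A K1 q M' hq hqM hA hunr
  obtain ⟨hval, hV', htV, htinv⟩ := hmid
  obtain ⟨htV2, -, -⟩ := S36DTK_unif A K1 q M' hq hqM hA hunr x₀ hx₀ a h hxF aP BP hBm rel
  obtain ⟨u, hu, hu0, huinv, hqu⟩ := S36VK_unr A K1 q hunr (M' * q)
  obtain ⟨hX, hXinv, hX0⟩ := S36DT_unit hyp
  have hq2 := hq.two_le
  rw [show q - 2 + 1 = q - 1 by omega] at hX hXinv hX0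
  set t := qExpand K1 (q * q) (coeffMap (Int.castRingHom K1) x₀) -
    coeffMap (Int.castRingHom K1) x₀ with ht
  have hq0 : ((q : ℕ) : LaurentSeries K1) ≠ 0 := hyp.Q_ne
  have hπ0 : S18K_π A K1 ≠ 0 := by
    intro h0
    exact hval.π_nonunit (by rw [h0, inv_zero]; exact (S36VK_Vmid A K1 q M').zero_mem)
  have ht0 : t ≠ 0 := hyp.t_ne
  have e1 : S18K_π A K1 = t ^ (q - 1) * ((t ^ (q - 1) / ((q : ℕ) : LaurentSeries K1))⁻¹ * u⁻¹) := by
    have : t ^ (q - 1) ≠ 0 := pow_ne_zero _ ht0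
    rw [inv_div, hqu]
    field_simp
  refine ⟨⟨t ^ (q - 2) * ((t ^ (q - 1) / ((q : ℕ) : LaurentSeries K1))⁻¹ * u⁻¹),
    (S36VK_Vmid A K1 q M').mul_mem ((S36VK_Vmid A K1 q M').pow_mem htV2 _)
      ((S36VK_Vmid A K1 q M').mul_mem hXinv (hV' huinv)), ?_⟩,
    ⟨_, (S36VK_Vmid A K1 q M').mul_mem hXinv (hV' huinv), e1⟩,
    ⟨t ^ (q - 1) / ((q : ℕ) : LaurentSeries K1) * u,
      (S36VK_Vmid A K1 q M').mul_mem hX (hV' hu), ?_⟩⟩
  · rw [← mul_assoc, ← pow_succ', show q - 2 + 1 = q - 1 by omega]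
    exact e1
  · rw [hqu]
    field_simp

set_option maxHeartbeats 1600000 in
/-- **residue degree one modulo `t_h`** -/
theorem S36DTK_res :
    ∀ y ∈ S36VK_Vmid A K1 q M', ∃ r ∈ S18K_V A K1 M', ∃ v ∈ S36VK_Vmid A K1 q M',
      y = r + (qExpand K1 (q * q) (coeffMap (Int.castRingHom K1) x₀) -
        coeffMap (Int.castRingHom K1) x₀) * v := by
  obtain ⟨hmid, -, -, -, -, -, -, -, -, -, -, -, hres⟩ := S36VK_main A K1 q M' hq hqM hA hunr
  obtain ⟨hval, hV', htV, htinv⟩ := hmid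
  obtain ⟨-, -, hun⟩ := S36DTK_unif A K1 q M' hq hqM hA hunr x₀ hx₀ a h hxF aP BP hBm rel
  obtain ⟨w, hw, hτw⟩ := hun _ htV htinv
  intro y hy
  obtain ⟨r, hr, v, hv, hyv⟩ := hres y hy
  exact ⟨r, hr, w * v, (S36VK_Vmid A K1 q M').mul_mem hw hv, by rw [hyv, hτw]; ring⟩

set_option maxHeartbeats 1600000 in
/-- **the witnesses `(c, b)`** of `S36N1M_thruMid` at a prime `m` of a chart `X` through which
`V_mid` passes -/
theorem S36DTK_witness (X : Subring (LaurentSeries K1))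
    (hX1 : X ≤ S18K_V A K1 (M' * q * q)) (hX2 : X ≤ S36VK_Vmid A K1 q M')
    (hX3 : X ≤ S36VK_V0 A K1 q M' hq hqM)
    (hsat : ∀ v, v ∈ S18K_V A K1 (M' * q * q) → v ∈ S36VK_Vmid A K1 q M' →
      v ∈ S36VK_V0 A K1 q M' hq hqM → S18K_π A K1 * v ∈ X → v ∈ X)
    (hOX : S18K_O A K1 ≤ X)
    (ht : qExpand K1 (q * q) (coeffMap (Int.castRingHom K1) x₀) -
      coeffMap (Int.castRingHom K1) x₀ ∈ X)
    (hDX : S36DTK_D K1 q a (coeffMap (Int.castRingHom K1) x₀) ∈ X)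
    (m : Ideal X) [hm : m.IsPrime]
    (hOn : ∀ y : X, ((y : LaurentSeries K1))⁻¹ ∉ S36VK_Vmid A K1 q M' → y ∈ m)
    (d : X) (hdm : d ∉ m)
    (hdW : ∃ v ∈ (S18K_V A K1 (M' * q * q) ⊓ S36VK_V0 A K1 q M' hq hqM :
      Subring (LaurentSeries K1)), (d : LaurentSeries K1) = S18K_π A K1 * v) :
    ∃ c b : X, c ∉ m ∧ (c : LaurentSeries K1) * S18K_π A K1 =
      (qExpand K1 (q * q) (coeffMap (Int.castRingHom K1) x₀) -
        coeffMap (Int.castRingHom K1) x₀) * (b : LaurentSeries K1) := by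
  obtain ⟨p, H, hyp, -⟩ := S36DTK_hyp A K1 q M' hq hqM hA hunr x₀ hx₀ a h hxF aP BP hBm rel
  obtain ⟨hmid, -⟩ := S36VK_main A K1 q M' hq hqM hA hunr
  obtain ⟨hval, hV', htV, htinv⟩ := hmid
  obtain ⟨u, huO, huinvO, hu0, hqu⟩ := S36DTK_unr_O A K1 q hunr
  obtain ⟨hXq, hXqinv, hXq0⟩ := S36DT_unit hyp
  have hq2 := hq.two_le
  set t := qExpand K1 (q * q) (coeffMap (Int.castRingHom K1) x₀) -
    coeffMap (Int.castRingHom K1) x₀ with htdef
  have hq0 : ((q : ℕ) : LaurentSeries K1) ≠ 0 := hyp.Q_ne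
  have hπ0 : S18K_π A K1 ≠ 0 := by
    intro h0
    exact hval.π_nonunit (by rw [h0, inv_zero]; exact (S36VK_Vmid A K1 q M').zero_mem)
  obtain ⟨v₀, ⟨hv1, hv3⟩, hdv⟩ := hdW
  -- `c₀ = d t^(q-1) / q`
  have hcX : (d : LaurentSeries K1) * (t ^ (q - 2 + 1) / ((q : ℕ) : LaurentSeries K1)) ∈ X := by
    have e : (d : LaurentSeries K1) * (t ^ (q - 2 + 1) / ((q : ℕ) : LaurentSeries K1)) =
        v₀ * t ^ (q - 2 + 1) * u⁻¹ := by
      rw [hdv, hqu]
      field_simp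
    apply hsat
    · rw [e]
      exact (S18K_V A K1 (M' * q * q)).mul_mem
        ((S18K_V A K1 (M' * q * q)).mul_mem hv1 (pow_mem (hX1 ht) _)) (hX1 (hOX huinvO))
    · exact (S36VK_Vmid A K1 q M').mul_mem (hX2 d.2) hXq
    · rw [e]
      exact (S36VK_V0 A K1 q M' hq hqM).mul_mem
        ((S36VK_V0 A K1 q M' hq hqM).mul_mem hv3 (pow_mem (hX3 ht) _)) (hX3 (hOX huinvO))
    · have e2 : S18K_π A K1 *
          ((d : LaurentSeries K1) * (t ^ (q - 2 + 1) / ((q : ℕ) : LaurentSeries K1))) =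
          (d : LaurentSeries K1) * t ^ (q - 2 + 1) * u⁻¹ := by
        rw [hqu]
        field_simp
      rw [e2]
      exact X.mul_mem (X.mul_mem d.2 (pow_mem ht _)) (hOX huinvO)
  have hbX : (d : LaurentSeries K1) * t ^ (q - 2) ∈ X := X.mul_mem d.2 (pow_mem ht _)
  obtain ⟨c', hc', hcb⟩ := S36DT_witness_pi hyp X hX2 m hOn d ⟨_, hcX⟩ ⟨_, hDX⟩ ⟨u, hOX huO⟩
    ⟨_, hbX⟩ hdm
    (by
      show (d : LaurentSeries K1) * (t ^ (q - 2 + 1) / ((q : ℕ) : LaurentSeries K1)) *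
        ((q : ℕ) : LaurentSeries K1) = (d : LaurentSeries K1) * t ^ (q - 2 + 1)
      field_simp)
    rfl (S18K_π A K1)
    (fun hum => by
      have h1 : (⟨u, hOX huO⟩ : X) * ⟨u⁻¹, hOX huinvO⟩ = 1 :=
        Subtype.ext (by
          show u * u⁻¹ = 1
          exact mul_inv_cancel₀ hu0)
      have h2 : (1 : X) ∈ m := by
        rw [← h1]
        exact m.mul_mem_right _ hum
      exact hm.ne_top ((Ideal.eq_top_iff_one m).2 h2))
    hqu rfl
  exact ⟨c', ⟨_, hbX⟩, hc', hcb⟩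

end Main

end Fermat.Agent.S36_helper1_DTK
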