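import Fermat.Agent.S36_helper1_DTK
import Fermat.Agent.S36_helper1_VMIDf
import Fermat.Agent.S36_helper15_HXK
import Fermat.Agent.S36_helper15_HXI
import Fermat.Agent.S36_helper25_THUNRP

/-!
# S36, GEO36 REG36 [ONE mid] (helper1): the chart hypotheses of the D-trick, discharged

* `S36DTK_theta_K`  : the `θ`-identity `Φ_X(x,y) θx + q (θx)(Q^q) Φ_Y(x,y) = 0` over `K1`
  (relation II of the modular equation);
* `S36DTK_D_chain`  : for every `G` with `Φ(x, y) = 0`, `Φ = (X^q - Y)(X - Y^q) + q G`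
  (relation I in helper18's two-variable vocabulary): `∂₀Φ(x, y) ≠ 0` and
  `D * ∂₀Φ(x, y) = - q ∂₁Φ(x, y)` for the explicit `D = S36DTK_D` of the D-trick; so `D` IS the
  element `Dq = q dx/dy` of helper25's THICK-UNR;
* `S36DTK_D_mem`    : for the Hauptmodul `h` of a datum `Dx : S36AUX_Data r`, `r ∣ M'`:
  `D ∈ A0(M' q) ≤ A0(M' q²)`;
* `S36DTK_t_mem`    : `t_h = h(Q^(q²)) - h ∈ A0(M' q²)`;
* `S36DTK_witness_h`: the witnesses `(c, b)` of `S36N1M_thruMid` at the finite chart, no chart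
  hypothesis left;
* `S36DTK_hloc`     : (MID-LOC) at the finite chart = the hypothesis `hloc` of helper19's
  `S36MIK_one_A0`, with `τ := t_h`.
-/

set_option autoImplicit false
set_option linter.unusedSectionVars false
set_option linter.unusedVariables false
set_option linter.style.haveILetI false

open Polynomial ModularCurve
open Fermat.Agent.S36_helper1_KRON Fermat.Agent.S36_helper1_THETA
open Fermat.Agent.S36_helper1_KRONG Fermat.Agent.S36_helper1_VMID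
open Fermat.Agent.S36_helper1_VMIDG Fermat.Agent.S36_helper1_MIDBR
open Fermat.Agent.S18_helper13_GAUSS Fermat.Agent.S18_helper25_COREDefs
open Fermat.Agent.S34_helper20_V0K Fermat.Agent.S34_helper27_C2Defs
open Fermat.Agent.S34_helper27_V3K
open Fermat.Agent.S36_helper5_VKDefs Fermat.Agent.S36_helper5_VMIDK
open Fermat.Agent.S36_helper11_DTRICK
open Fermat.Agent.S36_helper18_THICK Fermat.Agent.S36_helper15_HXK
open Fermat.Agent.S36_helper8_AUXDefs
open Fermat.Agent.S18_helper9_CDefs Fermat.Agent.S18_helper9_CBasic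
open Fermat.Agent.S18_helper3_LOCRING Fermat.Agent.S34_helper12_CDefs
open Fermat.Agent.S36_helper25_THUNRP Fermat.Agent.S36_helper15_HXI

noncomputable section

namespace Fermat.Agent.S36_helper1_DTK

section Theta

variable (K : Type*) [Field K] [CharZero K]

/-- `θ x ≠ 0` for `x = Q⁻¹ + ⋯` -/
theorem S36DTK_theta_ne (X : LaurentSeries K) (hX : X.coeff (-1) = 1) : S36VM_theta X ≠ 0 := by
  intro h0
  have h1 := congrArg (fun s : LaurentSeries K => s.coeff (-1)) h0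
  simp only [S36VM_theta_coeff, hX, HahnSeries.coeff_zero] at h1
  simp at h1

/-- `(θ x)(Q^q) ≠ 0` -/
theorem S36DTK_theta_q_ne (q : ℕ) [NeZero q] (X : LaurentSeries K) (hX : X.coeff (-1) = 1) :
    qExpand K q (S36VM_theta X) ≠ 0 := fun h0 =>
  S36DTK_theta_ne K X hX ((map_eq_zero_iff _ (qExpand_injective q)).1 h0)

end Theta

variable (A : ValuationSubring (AlgebraicClosure ℚ))
  (K1 : IntermediateField ℚ (AlgebraicClosure ℚ))

/-- **the `θ`-identity over `K1`** (relation II) -/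
theorem S36DTK_theta_K (q : ℕ) [NeZero q] (x₀ : LaurentSeries ℤ) (a : ℕ → ℤ[X])
    (h : S36KG_IsModEq q x₀ a) :
    S36DTK_PhiX K1 q a (coeffMap (Int.castRingHom K1) x₀) *
        S36VM_theta (coeffMap (Int.castRingHom K1) x₀) +
      ((q : ℕ) : LaurentSeries K1) *
        (qExpand K1 q (S36VM_theta (coeffMap (Int.castRingHom K1) x₀)) *
          S36DTK_PhiY K1 q a (coeffMap (Int.castRingHom K1) x₀)) = 0 := by
  have h2 := congrArg S36VM_theta (S36KG_modEq_map K1 h).2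
  rw [S36VM_theta_zero, S36VM_theta_add, S36VM_theta_pow, S36VM_theta_sum,
    Nat.add_sub_cancel] at h2
  rw [S36DTK_PhiX, S36DTK_PhiY, ← h2, add_mul, Finset.sum_mul, Finset.mul_sum, Finset.mul_sum,
    add_assoc, ← Finset.sum_add_distrib]
  congr 1
  refine Finset.sum_congr rfl (fun i _ => ?_)
  rw [S36VM_theta_mul, S36VM_theta_pow, S36VM_theta_eval₂, S36VM_theta_qExpand]
  ring

/-- `∂₁Φ(x, y) ≠ 0` over `ℤ`, by reduction modulo `q` -/
theorem S36DTK_PhiY_rho (q : ℕ) [NeZero q] (hq : q.Prime) (x₀ : LaurentSeries ℤ)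
    (hx₀ : x₀.coeff (-1) = 1) (G : MvPolynomial (Fin 2) ℤ) :
    coeffMap (Int.castRingHom (ZMod q))
      (S36TH_ev ![x₀, qExpand ℤ q x₀] (MvPolynomial.pderiv 1 (S36TH_Phi q G))) ≠ 0 := by
  haveI : Fact q.Prime := ⟨hq⟩
  rw [S36TH_map_ev, S36TH_vec, coeffMap_qExpand, S36TH_Phi_pderiv1, S36VM_natCast_zero,
    zero_mul, zero_mul, zero_mul, sub_zero, add_zero, S36KG_frob]
  intro h0
  apply S36VG_c_ne_zero q hx₀
  rw [neg_eq_zero] at h0
  linear_combination -h0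

variable [IsDiscreteValuationRing (S18K_O1 A K1)]

section Main

variable (q M' : ℕ) [NeZero q] [NeZero M'] [NeZero (q * q)] [NeZero (q ^ 2)]
  [NeZero (M' * q * q)] (hq : q.Prime) (hqM : ¬ q ∣ M') (hA : A.LiesOverPrime q)
  (hunr : Associated (S18K_D A K1).π ((q : ℕ) : S18K_O1 A K1))
  (x₀ : LaurentSeries ℤ) (hx₀ : x₀.coeff (-1) = 1) (a : ℕ → ℤ[X])
  (h : S36KG_IsModEq q x₀ a)
  (hxF : coeffMap (Int.castRingHom K1) x₀ ∈ modularFunctionFieldFullC K1 M')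
  (aP BP : ℤ[X]) (hBm : BP.Monic)
  (rel : jqModC ℤ * eval₂ (Int.castRingHom (LaurentSeries ℤ)) x₀ BP =
    (eval₂ (Int.castRingHom (LaurentSeries ℤ)) x₀ aP) ^ 3)

include hq hqM hA hunr hx₀ h hxF hBm rel

set_option maxHeartbeats 1600000 in
/-- **the explicit `D` of the D-trick is `Dq = q dx/dy` of THICK-UNR**: for every `G` with
`Φ(x, y) = 0`, `Φ = (X^q - Y)(X - Y^q) + q G`: `∂₀Φ(x, y) ≠ 0` and
`D ∂₀Φ(x, y) = - q ∂₁Φ(x, y)`. -/
theorem S36DTK_D_chain (G : MvPolynomial (Fin 2) ℤ)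
    (hΦ : S36TH_ev ![coeffMap (Int.castRingHom K1) x₀,
      qExpand K1 q (coeffMap (Int.castRingHom K1) x₀)] (S36TH_Phi q G) = 0) :
    S36TH_ev ![coeffMap (Int.castRingHom K1) x₀,
        qExpand K1 q (coeffMap (Int.castRingHom K1) x₀)]
        (MvPolynomial.pderiv 0 (S36TH_Phi q G)) ≠ 0 ∧
      S36DTK_D K1 q a (coeffMap (Int.castRingHom K1) x₀) *
          S36TH_ev ![coeffMap (Int.castRingHom K1) x₀,
            qExpand K1 q (coeffMap (Int.castRingHom K1) x₀)]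
            (MvPolynomial.pderiv 0 (S36TH_Phi q G)) =
        -((q : ℕ) : LaurentSeries K1) *
          S36TH_ev ![coeffMap (Int.castRingHom K1) x₀,
            qExpand K1 q (coeffMap (Int.castRingHom K1) x₀)]
            (MvPolynomial.pderiv 1 (S36TH_Phi q G)) := by
  haveI : Fact q.Prime := ⟨hq⟩
  obtain ⟨p, H, hyp, -, -, -, hPX0, hDP⟩ :=
    S36DTK_hyp A K1 q M' hq hqM hA hunr x₀ hx₀ a h hxF aP BP hBm rel
  have hq0 : ((q : ℕ) : LaurentSeries K1) ≠ 0 := hyp.Q_ne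
  have hK1 := S36DTK_theta_K K1 q x₀ a h
  -- `∂₁Φ(x, y) ≠ 0`
  have hY0 : S36TH_ev ![coeffMap (Int.castRingHom K1) x₀,
      qExpand K1 q (coeffMap (Int.castRingHom K1) x₀)]
      (MvPolynomial.pderiv 1 (S36TH_Phi q G)) ≠ 0 := by
    have h1 := S36VM_iota_ne_zero K1 q _ (S36DTK_PhiY_rho q hq x₀ hx₀ G)
    rwa [S36TH_map_ev, S36TH_vec, coeffMap_qExpand] at h1
  set X := coeffMap (Int.castRingHom K1) x₀ with hXdef
  have hXc : X.coeff (-1) = 1 := by rw [hXdef, coeffMap_coeff, hx₀, map_one]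
  have hθ := S36DTK_theta_ne K1 X hXc
  have hθ' := S36DTK_theta_q_ne K1 q X hXc
  -- the chain rule for relation I
  have hK2 : S36TH_ev ![X, qExpand K1 q X] (MvPolynomial.pderiv 0 (S36TH_Phi q G)) *
        S36VM_theta X +
      S36TH_ev ![X, qExpand K1 q X] (MvPolynomial.pderiv 1 (S36TH_Phi q G)) *
        (((q : ℕ) : LaurentSeries K1) * qExpand K1 q (S36VM_theta X)) = 0 := by
    have h1 := S36TH_chain (S36VM_theta : LaurentSeries K1 → LaurentSeries K1) S36VM_theta_add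
      (fun a b => by rw [S36VM_theta_mul]; ring) S36VM_theta_intCast
      ![X, qExpand K1 q X] (S36TH_Phi q G)
    rw [hΦ, S36VM_theta_zero] at h1
    simp only [Matrix.cons_val_zero, Matrix.cons_val_one] at h1
    rw [S36VM_theta_qExpand] at h1
    exact h1.symm
  set ΦX := S36TH_ev ![X, qExpand K1 q X] (MvPolynomial.pderiv 0 (S36TH_Phi q G)) with hΦX
  set ΦY := S36TH_ev ![X, qExpand K1 q X] (MvPolynomial.pderiv 1 (S36TH_Phi q G)) with hΦY
  -- `D (θx)(Q^q) = θx`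
  have hDθ : S36DTK_D K1 q a X * qExpand K1 q (S36VM_theta X) = S36VM_theta X := by
    apply mul_left_cancel₀ hPX0
    linear_combination qExpand K1 q (S36VM_theta X) * hDP - hK1
  have hDΦ : S36DTK_D K1 q a X * ΦX = -((q : ℕ) : LaurentSeries K1) * ΦY := by
    apply mul_left_cancel₀ hθ'
    linear_combination ΦX * hDθ + hK2
  refine ⟨fun h0 => ?_, hDΦ⟩
  rw [h0, zero_mul, zero_add] at hK2
  rcases mul_eq_zero.1 hK2 with h1 | h1
  · exact hY0 h1
  · rcases mul_eq_zero.1 h1 with h2 | h2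
    · exact hq0 h2
    · exact hθ' h2

end Main

section Haupt

variable (q M' : ℕ) [NeZero q] [NeZero M'] [NeZero (q * q)] [NeZero (q ^ 2)]
  [NeZero (M' * q)] [NeZero (M' * q * q)] (hq : q.Prime) (hqM : ¬ q ∣ M')
  (hA : A.LiesOverPrime q)
  (hunr : Associated (S18K_D A K1).π ((q : ℕ) : S18K_O1 A K1))
  {r : ℕ} [NeZero r] (Dx : S36AUX_Data r) (hr : r ∣ M')

/-- the Hauptmodul relation in `eval₂` form -/
theorem S36DTK_rel_h :
    jqModC ℤ * eval₂ (Int.castRingHom (LaurentSeries ℤ)) (S36AUX_h Dx.u) Dx.B =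
      (eval₂ (Int.castRingHom (LaurentSeries ℤ)) (S36AUX_h Dx.u) Dx.a) ^ 3 := by
  have h1 := Dx.rel
  rwa [Fermat.Agent.S34_helper14_MEW.S34MEW_aeval_eq,
    Fermat.Agent.S34_helper14_MEW.S34MEW_aeval_eq] at h1

include hq hqM hr in
/-- **`t_h = h(Q^(q²)) - h` lies in the finite chart of level `M' q²`** -/
theorem S36DTK_t_mem :
    qExpand K1 (q * q) (S36AUX_hK K1 Dx.u) - S36AUX_hK K1 Dx.u ∈ S18K_A0 A K1 (M' * q * q) := by
  have hqr : ¬ q ∣ r := fun hqr => hqM (hqr.trans hr)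
  have h1 := S36HXI_VV_mem_A0 A K1 Dx q (M' * q * q) hq hqr
    (by
      obtain ⟨c, hc⟩ := hr
      exact ⟨c, by rw [hc]; ring⟩)
  have h2 := S36HXI_mem_A0 A K1 Dx (M' * q * q) (hr.trans ⟨q * q, by ring⟩)
  exact sub_mem h1 h2

include hr in
/-- the Hauptmodul lies in the function field of level `M'` -/
theorem S36DTK_hxF :
    coeffMap (Int.castRingHom K1) (S36AUX_h Dx.u) ∈ modularFunctionFieldFullC K1 M' := by
  rw [S36HXK_coeffMap_h]
  exact Fermat.Agent.S36_helper21_HLOCX.S36HX_mem Dx K1 M' hr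

set_option maxHeartbeats 1600000 in
include hq hqM hA hunr hr in
/-- **`D ∈ A0(M' q)`**: the explicit `D` of the D-trick for the Hauptmodul lies in the finite
chart of level `M' q` (it is helper25's `Dq`). -/
theorem S36DTK_D_mem' (a : ℕ → ℤ[X]) (h : S36KG_IsModEq q (S36AUX_h Dx.u) a) :
    S36DTK_D K1 q a (S36AUX_hK K1 Dx.u) ∈ S18K_A0 A K1 (M' * q) := by
  have hqr : ¬ q ∣ r := fun hqr => hqM (hqr.trans hr)
  have hx₀ := S36KG_aux_coeff Dx.u Dx.hu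
  obtain ⟨G, hG⟩ := S36HXK_Psi_eq q hq (S36AUX_h Dx.u) hx₀ a h
  have hΦ : S36TH_ev ![S36AUX_hK K1 Dx.u, qExpand K1 q (S36AUX_hK K1 Dx.u)]
      (S36TH_Phi q G) = 0 := by
    have h1 := (S36KG_modEq_map K1 h).1
    rw [S36HXK_coeffMap_h] at h1
    rw [← hG, S36HXK_Psi_ev]
    exact h1
  obtain ⟨Dq, -, hid, -, -, -, -, hDA, -⟩ :=
    S36TUP_main A K1 Dx q M' (M' * q) hq hqM (mul_comm _ _) hr hA G hΦ
  obtain ⟨hne, hch⟩ := S36DTK_D_chain A K1 q M' hq hqM hA hunr (S36AUX_h Dx.u) hx₀ a h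
    (S36DTK_hxF K1 M' Dx hr) Dx.a Dx.B Dx.hB (S36DTK_rel_h Dx) G
    (by rw [S36HXK_coeffMap_h]; exact hΦ)
  rw [S36HXK_coeffMap_h] at hne hch
  have e : S36DTK_D K1 q a (S36AUX_hK K1 Dx.u) = Dq := mul_right_cancel₀ hne (hch.trans hid.symm)
  rw [e]
  exact hDA

include hq hqM hA hunr hr in
/-- **`D ∈ A0(M' q²)`** -/
theorem S36DTK_D_mem (a : ℕ → ℤ[X]) (h : S36KG_IsModEq q (S36AUX_h Dx.u) a) :
    S36DTK_D K1 q a (S36AUX_hK K1 Dx.u) ∈ S18K_A0 A K1 (M' * q * q) := by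
  have h1 := S36DTK_D_mem' A K1 q M' hq hqM hA hunr Dx hr a h
  exact mem_icl.2 ⟨(mem_icl.1 h1).1, S34V3K_F1_mono K1 (Dvd.intro q rfl) (mem_icl.1 h1).2⟩

set_option maxHeartbeats 1600000 in
include hq hqM hA hunr hr in
/-- **the witnesses `(c, b)` of `S36N1M_thruMid` at the finite chart of level `M' q²`**, for the
uniformiser `t_h = h(Q^(q²)) - h` of `V_mid`; no chart hypothesis left. -/
theorem S36DTK_witness_h
    (S : S34C_Setup (S18K_O A K1) (S18K_π A K1) (S18K_j K1) (S18K_F1 K1 (M' * q * q))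
      (S18K_V A K1 (M' * q * q) ⊓ S36VK_Vmid A K1 q M' ⊓ S36VK_V0 A K1 q M' hq hqM)
      (S18K_A0 A K1 (M' * q * q)) (S18K_Ainf A K1 (M' * q * q)))
    (m : Ideal (S18K_A0 A K1 (M' * q * q))) [hm : m.IsPrime]
    (hOn : ∀ y : S18K_A0 A K1 (M' * q * q),
      ((y : LaurentSeries K1))⁻¹ ∉ S36VK_Vmid A K1 q M' → y ∈ m)
    (d : S18K_A0 A K1 (M' * q * q)) (hdm : d ∉ m)
    (hdW : ∃ v ∈ (S18K_V A K1 (M' * q * q) ⊓ S36VK_V0 A K1 q M' hq hqM :
      Subring (LaurentSeries K1)), (d : LaurentSeries K1) = S18K_π A K1 * v) :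
    qExpand K1 (q * q) (S36AUX_hK K1 Dx.u) - S36AUX_hK K1 Dx.u ∈ S18K_A0 A K1 (M' * q * q) ∧
      ∃ c b : S18K_A0 A K1 (M' * q * q), c ∉ m ∧
        (c : LaurentSeries K1) * S18K_π A K1 =
          (qExpand K1 (q * q) (S36AUX_hK K1 Dx.u) - S36AUX_hK K1 Dx.u) *
            (b : LaurentSeries K1) := by
  have hqr : ¬ q ∣ r := fun hqr => hqM (hqr.trans hr)
  have hx₀ := S36KG_aux_coeff Dx.u Dx.hu
  obtain ⟨a, -, -, -, h⟩ := S36HXK_modEq Dx q hq hqr
  have ht := S36DTK_t_mem A K1 q M' hq hqM Dx hr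
  have hD := S36DTK_D_mem A K1 q M' hq hqM hA hunr Dx hr a h
  have hle := S.chart0.le_V
  have hOX : S18K_O A K1 ≤ S18K_A0 A K1 (M' * q * q) := fun y hy =>
    (S.chart0.mem_iff y).2 ⟨isIntegral_of_mem _ (le_adj _ _ hy), S.O_le hy⟩
  have hw := S36DTK_witness A K1 q M' hq hqM hA hunr (S36AUX_h Dx.u) hx₀ a h
    (S36DTK_hxF K1 M' Dx hr) Dx.a Dx.B Dx.hB (S36DTK_rel_h Dx)
    (S18K_A0 A K1 (M' * q * q)) (fun y hy => (hle hy).1.1) (fun y hy => (hle hy).1.2)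
    (fun y hy => (hle hy).2)
    (fun v h1 h2 h3 hπv => S.chart0.sat v ⟨⟨h1, h2⟩, h3⟩ hπv) hOX
    (by rw [S36HXK_coeffMap_h]; exact ht) (by rw [S36HXK_coeffMap_h]; exact hD)
    m hOn d hdm hdW
  rw [S36HXK_coeffMap_h] at hw
  exact ⟨ht, hw⟩

set_option maxHeartbeats 1600000 in
include hq hqM hA hunr hr Dx in
/-- **(MID-LOC) at the finite chart of level `M' q²`** = the hypothesis `hloc` of helper19's
`S36MIK_one_A0` (after `S36ONE_On`), with `τ := t_h = h(Q^(q²)) - h`. -/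
theorem S36DTK_hloc
    (S : S34C_Setup (S18K_O A K1) (S18K_π A K1) (S18K_j K1) (S18K_F1 K1 (M' * q * q))
      (S18K_V A K1 (M' * q * q) ⊓ S36VK_Vmid A K1 q M' ⊓ S36VK_V0 A K1 q M' hq hqM)
      (S18K_A0 A K1 (M' * q * q)) (S18K_Ainf A K1 (M' * q * q)))
    (m : Ideal (S18K_A0 A K1 (M' * q * q))) [hm : m.IsPrime]
    (hOn : ∀ y : S18K_A0 A K1 (M' * q * q),
      ((y : LaurentSeries K1))⁻¹ ∉ S36VK_Vmid A K1 q M' → y ∈ m)
    (d : S18K_A0 A K1 (M' * q * q)) (hdm : d ∉ m)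
    (hdW : ∃ v ∈ (S18K_V A K1 (M' * q * q) ⊓ S36VK_V0 A K1 q M' hq hqM :
      Subring (LaurentSeries K1)), (d : LaurentSeries K1) = S18K_π A K1 * v) :
    ∃ τ u : LaurentSeries K1, τ ∈ locRing (S18K_A0 A K1 (M' * q * q)) m ∧
      u ∈ locRing (S18K_A0 A K1 (M' * q * q)) m ∧ τ⁻¹ ∉ S36VK_Vmid A K1 q M' ∧
      (∀ y ∈ S36VK_Vmid A K1 q M', y⁻¹ ∉ S36VK_Vmid A K1 q M' →
        ∃ v ∈ S36VK_Vmid A K1 q M', y = τ * v) ∧ S18K_π A K1 = τ * u := by
  have hqr : ¬ q ∣ r := fun hqr => hqM (hqr.trans hr)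
  have hx₀ := S36KG_aux_coeff Dx.u Dx.hu
  obtain ⟨a, -, -, -, h⟩ := S36HXK_modEq Dx q hq hqr
  obtain ⟨ht, c, b, hc, hcb⟩ :=
    S36DTK_witness_h A K1 q M' hq hqM hA hunr Dx hr S m hOn d hdm hdW
  obtain ⟨-, hun1, hun2⟩ := S36DTK_unif A K1 q M' hq hqM hA hunr (S36AUX_h Dx.u) hx₀ a h
    (S36DTK_hxF K1 M' Dx hr) Dx.a Dx.B Dx.hB (S36DTK_rel_h Dx)
  rw [S36HXK_coeffMap_h] at hun1 hun2
  have hc0 : (c : LaurentSeries K1) ≠ 0 := coe_ne_zero_of_notMem _ m hc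
  refine ⟨_, (b : LaurentSeries K1) / (c : LaurentSeries K1), le_locRing _ m ht,
    div_mem_locRing _ m b hc, hun1, hun2, ?_⟩
  rw [mul_div_assoc', eq_div_iff hc0, ← hcb]
  ring

end Haupt

end Fermat.Agent.S36_helper1_DTK
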