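import Fermat.Agent.S36_helper1_DTKD
import Fermat.Agent.S36_helper19_MIDINFK
import Fermat.Agent.S36_helper3_GEO

/-!
# S36, GEO36 open input (III) (helper1): `hmid0` = the thick one-branch points of the finite chart

`S36HM0_main : S36XB_HMid0 A K1 M' q lam hq hqM d` (helper3's GEO, open input (III)) for every
level `M'` divisible by the level `r` of a Hauptmodul datum `Dx : S36AUX_Data r`:
helper19's `S36MIK_one_A0` with (MID-LOC) from the D-trick (`S36DTK_hloc`, `τ := h(Q^(q²)) - h`).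
-/

set_option autoImplicit false
set_option linter.unusedSectionVars false
set_option linter.unusedVariables false
set_option linter.style.haveILetI false

open HahnSeries IntermediateField AlgebraicCurve ModularCurve
open Fermat.Agent.S18_helper9_CDefs Fermat.Agent.S18_helper3_LOCRING
  Fermat.Agent.S18_helper25_COREDefs
  Fermat.Agent.S34_helper12_CDefs Fermat.Agent.S34_helper25_Defs
  Fermat.Agent.S34_helper27_C2Defs Fermat.Agent.S34_helper27_V3K
  Fermat.Agent.S36_helper4_XADefs Fermat.Agent.S36_helper3_XBPT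
  Fermat.Agent.S36_helper3_XBDefs
  Fermat.Agent.S36_helper5_VKDefs Fermat.Agent.S36_helper5_VMIDK
  Fermat.Agent.S36_helper2_SETUP3 Fermat.Agent.S36_helper4_SCALEK
  Fermat.Agent.S36_helper9_ONE
  Fermat.Agent.S36_helper12_GOODPD
  Fermat.Agent.S36_helper3_GEO
  Fermat.Agent.S36_helper8_AUXDefs
  Fermat.Agent.S36_helper1_DTK Fermat.Agent.S36_helper19_MIDINFK

noncomputable section

namespace Fermat.Agent.S36_helper1_HMID0

local notation "Qb" => AlgebraicClosure ℚ

variable (A : ValuationSubring Qb) (K1 : IntermediateField ℚ Qb)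
  [IsDiscreteValuationRing (S18K_O1 A K1)] (M' q lam : ℕ) [NeZero M'] [NeZero q]
  [NeZero (M' * q)] [NeZero (M' * q * q)] [NeZero (q ^ 2)] [NeZero (q * q)]
  (hq : q.Prime) (hqM : ¬ q ∣ M')

set_option maxHeartbeats 1600000 in
/-- **open input (III) of GEO36, closed**: the thick one-branch points of the finite chart. -/
theorem S36HM0_main (hA : A.LiesOverPrime q) (hK1 : S36XA_Level A K1 q)
    (hlam : lam.Prime) (hne : lam ≠ q) {d : ℕ} (hlamd : lam ∣ d)
    {r : ℕ} [NeZero r] (Dx : S36AUX_Data r) (hr : r ∣ M') :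
    S36XB_HMid0 A K1 M' q lam hq hqM d := by
  intro f1 hf1 hgood hπ m hm hπm hOn d' hdm hdW G hred
  have hunr := S36SK_hunr A K1 q hq hA hK1
  obtain ⟨hmid, -, -, -, -, -, htπ, hkey, -, unif2, -, -, hres2⟩ :=
    S36VK_main A K1 q M' hq hqM hA hunr
  obtain ⟨S, H1, H2, H3⟩ := S36S3_setupMid A K1 q M' hq hqM hA hmid hkey
  have hπne : S18K_π A K1 ≠ 0 := H1.π_ne_zero
  have t_pow : ∃ v ∈ S36VK_Vmid A K1 q M', S36VK_t K1 q ^ (q - 1) = S18K_π A K1 * v :=
    ⟨_, htπ, by field_simp⟩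
  have hV'2 : S18K_V A K1 M' ≤ S36VK_Vmid A K1 q M' :=
    (S34V3K_V_mono A K1 (dvd_mul_right M' q)).trans hmid.2.1
  haveI := hm.isPrime
  exact S36MIK_one_A0 A K1 hq hA M' (M' * q * q) hqM
    ((dvd_mul_right M' q).trans (dvd_mul_right (M' * q) q)) hK1.adm
    (S36VK_Vmid A K1 q M') (S36VK_V0 A K1 q M' hq hqM) S H2 (S36VK_t K1 q) (q - 1)
    hmid.2.2.1 hmid.2.2.2 unif2 t_pow hV'2 hres2 hlam hne f1 hgood.1
    (S36GP_powDiv A K1 M' q _ hq hqM _ _ hlamd f1 hf1 hgood) hπ m hm hπm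
    (fun hOn' => S36DTK_hloc A K1 q M' hq hqM hA hunr Dx hr S m hOn' d' hdm hdW)
    d' hdm hdW G hred

end Fermat.Agent.S36_helper1_HMID0
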