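import Mathlib
import Fermat.Agent.S36_helper1_KRONG

/-!
# S36, GEO36 REG36 (helper1): the bridge `t_h ∈ m(V_mid)`, abstract form

`V` a subring of a field `L` with a uniformiser `τ` (every non-unit of `V` lies in `τ V`),
`q ∈ τ V`.  `x, y, z, j, j'' ∈ V` with the two modular relations `Ψ(y, x) = 0 = Ψ(y, z)` (for a
family `a` satisfying the Kronecker congruence), `x - y^q` a unit of `V`, the Hauptmodul relations
`j B(x) = a(x)³`, `j'' B(z) = a(z)³` with `B(x)` a unit, `j'' - j ∈ τ V` and `j^(q²) - j` a unit.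
Then `z - x ∈ τ V`.

In the application `V = V_mid`, `τ = t_j = j(Q^(q²)) - j`, `x = h`, `y = h(Q^q)`,
`z = h(Q^(q²))`: the function `t_h = z - x` is a non-unit of `V_mid`.
-/

set_option autoImplicit false
set_option linter.unusedSectionVars false
set_option linter.unusedVariables false
set_option linter.style.haveILetI false

open Polynomial ModularCurve
open Fermat.Agent.S36_helper1_KRONG

noncomputable section

namespace Fermat.Agent.S36_helper1_MIDBR

section Abs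

variable {L : Type*} [Field L]

/-- evaluation of an integer polynomial commutes with the coercion of a subring -/
theorem S36MB_coe_eval₂ (V : Subring L) (w : V) (P : ℤ[X]) :
    ((eval₂ (Int.castRingHom V) w P : V) : L) = eval₂ (Int.castRingHom L) (w : L) P :=
  Fermat.Agent.S34_helper14_MEW.S34MEW_map_eval₂ V.subtype w P

/-- Frobenius commutes with the evaluation of integer polynomials -/
theorem S36MB_frob_eval₂ {S : Type*} [CommRing S] (q : ℕ) [Fact q.Prime] [CharP S q] (w : S)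
    (P : ℤ[X]) : (eval₂ (Int.castRingHom S) w P) ^ q = eval₂ (Int.castRingHom S) (w ^ q) P :=
  Fermat.Agent.S34_helper14_MEW.S34MEW_map_eval₂ (frobenius S q) w P

theorem S36MB_abs (V : Subring L) (τ : L) (hτV : τ ∈ V) (hτ : τ⁻¹ ∉ V)
    (hunif : ∀ y ∈ V, y⁻¹ ∉ V → ∃ v ∈ V, y = τ * v)
    (q : ℕ) [hqf : Fact q.Prime] (hqτ : ∃ v ∈ V, (q : L) = τ * v)
    {x₀ : LaurentSeries ℤ} (hx₀ : x₀.coeff (-1) = 1) {a : ℕ → ℤ[X]}
    (h : haveI : NeZero q := ⟨hqf.out.ne_zero⟩; S36KG_IsModEq q x₀ a)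
    (aP BP : ℤ[X]) (x y z j jqq : L) (hx : x ∈ V) (hy : y ∈ V) (hz : z ∈ V) (hj : j ∈ V)
    (hjqq : jqq ∈ V)
    (hyx : x ^ (q + 1) + ∑ i ∈ Finset.range (q + 1),
      eval₂ (Int.castRingHom L) y (a i) * x ^ i = 0)
    (hyz : z ^ (q + 1) + ∑ i ∈ Finset.range (q + 1),
      eval₂ (Int.castRingHom L) y (a i) * z ^ i = 0)
    (hS : (x - y ^ q)⁻¹ ∈ V) (hS0 : x - y ^ q ≠ 0)
    (hrel : j * eval₂ (Int.castRingHom L) x BP = (eval₂ (Int.castRingHom L) x aP) ^ 3)
    (hrelqq : jqq * eval₂ (Int.castRingHom L) z BP = (eval₂ (Int.castRingHom L) z aP) ^ 3)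
    (hB : (eval₂ (Int.castRingHom L) x BP)⁻¹ ∈ V) (hB0 : eval₂ (Int.castRingHom L) x BP ≠ 0)
    (hjj : ∃ v ∈ V, jqq - j = τ * v)
    (hc : (j ^ (q * q) - j)⁻¹ ∈ V) (hc0 : j ^ (q * q) - j ≠ 0) :
    ∃ v ∈ V, z - x = τ * v := by
  classical
  have hτ0 : τ ≠ 0 := by
    intro h0
    apply hτ
    rw [h0, inv_zero]
    exact V.zero_mem
  -- the quotient ring
  set I : Ideal V := Ideal.span {(⟨τ, hτV⟩ : V)} with hI
  have hmemI : ∀ u : V, u ∈ I ↔ ∃ v ∈ V, (u : L) = τ * v := by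
    intro u
    rw [hI, Ideal.mem_span_singleton']
    constructor
    · rintro ⟨c, hc⟩
      refine ⟨c, c.2, ?_⟩
      rw [← hc, Subring.coe_mul, mul_comm]
    · rintro ⟨v, hv, huv⟩
      exact ⟨⟨v, hv⟩, Subtype.ext (by rw [Subring.coe_mul, huv, mul_comm])⟩
  have hI1 : (1 : V) ∉ I := by
    intro h1
    obtain ⟨v, hv, h1v⟩ := (hmemI 1).1 h1
    apply hτ
    have : τ⁻¹ = v := by
      rw [Subring.coe_one] at h1v
      exact inv_eq_of_mul_eq_one_right h1v.symm
    rw [this]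
    exact hv
  haveI hnt : Nontrivial (V ⧸ I) := Ideal.Quotient.nontrivial_iff.2 (by
    intro htop
    exact hI1 (by rw [htop]; trivial))
  set φ : V →+* V ⧸ I := Ideal.Quotient.mk I with hφ
  have hφ0 : ∀ u : V, φ u = 0 ↔ ∃ v ∈ V, (u : L) = τ * v := fun u =>
    Ideal.Quotient.eq_zero_iff_mem.trans (hmemI u)
  haveI hchar : CharP (V ⧸ I) q := by
    rw [CharP.charP_iff_prime_eq_zero hqf.out]
    have : ((q : ℕ) : V ⧸ I) = φ ((q : ℕ) : V) := by rw [map_natCast]
    rw [this, hφ0]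
    obtain ⟨v, hv, hqv⟩ := hqτ
    exact ⟨v, hv, by rw [Subring.coe_natCast]; exact hqv⟩
  -- units of `V` are units of the quotient
  have hunit : ∀ (u : L) (hu : u ∈ V), u⁻¹ ∈ V → u ≠ 0 → IsUnit (φ ⟨u, hu⟩) := by
    intro u hu hu' hu0
    refine IsUnit.of_mul_eq_one (φ ⟨u⁻¹, hu'⟩) ?_
    rw [← map_mul, ← map_one φ]
    congr 1
    exact Subtype.ext (by rw [Subring.coe_mul, Subring.coe_one]; exact mul_inv_cancel₀ hu0)
  -- the relations in `V`
  have hyxV : (⟨x, hx⟩ : V) ^ (q + 1) + ∑ i ∈ Finset.range (q + 1),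
      eval₂ (Int.castRingHom V) ⟨y, hy⟩ (a i) * (⟨x, hx⟩ : V) ^ i = 0 := by
    apply Subtype.ext
    simp only [Subring.coe_add, Subring.coe_pow, AddSubmonoidClass.coe_finsetSum,
      Subring.coe_mul, S36MB_coe_eval₂, Subring.coe_zero]
    exact hyx
  have hyzV : (⟨z, hz⟩ : V) ^ (q + 1) + ∑ i ∈ Finset.range (q + 1),
      eval₂ (Int.castRingHom V) ⟨y, hy⟩ (a i) * (⟨z, hz⟩ : V) ^ i = 0 := by
    apply Subtype.ext
    simp only [Subring.coe_add, Subring.coe_pow, AddSubmonoidClass.coe_finsetSum,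
      Subring.coe_mul, S36MB_coe_eval₂, Subring.coe_zero]
    exact hyz
  have hrelV : (⟨j, hj⟩ : V) * eval₂ (Int.castRingHom V) ⟨x, hx⟩ BP =
      (eval₂ (Int.castRingHom V) ⟨x, hx⟩ aP) ^ 3 := by
    apply Subtype.ext
    simp only [Subring.coe_pow, Subring.coe_mul, S36MB_coe_eval₂]
    exact hrel
  have hrelqqV : (⟨jqq, hjqq⟩ : V) * eval₂ (Int.castRingHom V) ⟨z, hz⟩ BP =
      (eval₂ (Int.castRingHom V) ⟨z, hz⟩ aP) ^ 3 := by
    apply Subtype.ext
    simp only [Subring.coe_pow, Subring.coe_mul, S36MB_coe_eval₂]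
    exact hrelqq
  -- their images
  set X := φ ⟨x, hx⟩ with hX
  set Y := φ ⟨y, hy⟩ with hY
  set Z := φ ⟨z, hz⟩ with hZ
  have kx : (X - Y ^ q) * (X ^ q - Y) = 0 := by
    rw [← S36KG_kron_prod q (V ⧸ I) hx₀ h Y X]
    have := congrArg φ hyxV
    simpa only [map_add, map_pow, map_sum, map_mul, map_zero,
      Fermat.Agent.S34_helper14_MEW.S34MEW_map_eval₂] using this
  have kz : (Z - Y ^ q) * (Z ^ q - Y) = 0 := by
    rw [← S36KG_kron_prod q (V ⧸ I) hx₀ h Y Z]
    have := congrArg φ hyzV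
    simpa only [map_add, map_pow, map_sum, map_mul, map_zero,
      Fermat.Agent.S34_helper14_MEW.S34MEW_map_eval₂] using this
  have hSV : x - y ^ q ∈ V := V.sub_mem hx (V.pow_mem hy _)
  have hXY : X ^ q = Y := by
    have hu : IsUnit (X - Y ^ q) := by
      have := hunit (x - y ^ q) hSV hS hS0
      have e : φ ⟨x - y ^ q, hSV⟩ = X - Y ^ q := by
        rw [hX, hY, ← map_pow, ← map_sub]
        rfl
      rw [e] at this
      exact this
    exact sub_eq_zero.1 (hu.mul_left_cancel (by rw [kx, mul_zero]))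
  -- the dichotomy
  have hzyV : z - y ^ q ∈ V := V.sub_mem hz (V.pow_mem hy _)
  have hzxV : z - x ∈ V := V.sub_mem hz hx
  by_cases hcase : (z - y ^ q)⁻¹ ∈ V ∧ z - y ^ q ≠ 0
  · -- `z - y^q` is a unit: `Z^q = Y = X^q`
    have hu : IsUnit (Z - Y ^ q) := by
      have := hunit (z - y ^ q) hzyV hcase.1 hcase.2
      have e : φ ⟨z - y ^ q, hzyV⟩ = Z - Y ^ q := by
        rw [hZ, hY, ← map_pow, ← map_sub]
        rfl
      rw [e] at this
      exact this
    have hZY : Z ^ q = Y := sub_eq_zero.1 (hu.mul_left_cancel (by rw [kz, mul_zero]))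
    have hpow : φ (⟨z - x, hzxV⟩ ^ q) = 0 := by
      have e : φ ⟨z - x, hzxV⟩ = Z - X := by
        rw [hZ, hX, ← map_sub]
        rfl
      rw [map_pow, e, sub_pow_char, hZY, hXY, sub_self]
    obtain ⟨v, hv, hzv⟩ := (hφ0 _).1 hpow
    rw [Subring.coe_pow] at hzv
    by_cases hzx0 : z - x = 0
    · exact ⟨0, V.zero_mem, by rw [hzx0, mul_zero]⟩
    · refine hunif _ hzxV (fun hinv => hτ ?_)
      have hzv' : (z - x) ^ q = τ * v := hzv
      have : τ⁻¹ = v * ((z - x)⁻¹) ^ q := by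
        have h1 : (z - x) ^ q ≠ 0 := pow_ne_zero _ hzx0
        apply inv_eq_of_mul_eq_one_right
        rw [← mul_assoc, ← hzv', inv_pow, mul_inv_cancel₀ h1]
      rw [this]
      exact V.mul_mem hv (V.pow_mem hinv _)
  · -- `z ≡ y^q`: contradiction
    exfalso
    have hZY : Z = Y ^ q := by
      have h1 : φ ⟨z - y ^ q, hzyV⟩ = 0 := by
        rw [hφ0]
        by_cases h0 : z - y ^ q = 0
        · exact ⟨0, V.zero_mem, by show z - y ^ q = τ * 0; rw [h0, mul_zero]⟩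
        · exact hunif _ hzyV (fun hinv => hcase ⟨hinv, h0⟩)
      have e : φ ⟨z - y ^ q, hzyV⟩ = Z - Y ^ q := by
        rw [hZ, hY, ← map_pow, ← map_sub]
        rfl
      rw [e] at h1
      exact sub_eq_zero.1 h1
    have hZX : Z = (X ^ q) ^ q := by rw [hZY, hXY]
    set J := φ ⟨j, hj⟩ with hJ
    set J2 := φ ⟨jqq, hjqq⟩ with hJ2
    have r1 : J * eval₂ (Int.castRingHom (V ⧸ I)) X BP =
        (eval₂ (Int.castRingHom (V ⧸ I)) X aP) ^ 3 := by
      have := congrArg φ hrelV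
      simpa only [map_pow, map_mul, Fermat.Agent.S34_helper14_MEW.S34MEW_map_eval₂] using this
    have r2 : J2 * eval₂ (Int.castRingHom (V ⧸ I)) Z BP =
        (eval₂ (Int.castRingHom (V ⧸ I)) Z aP) ^ 3 := by
      have := congrArg φ hrelqqV
      simpa only [map_pow, map_mul, Fermat.Agent.S34_helper14_MEW.S34MEW_map_eval₂] using this
    rw [hZX, ← S36MB_frob_eval₂, ← S36MB_frob_eval₂, ← S36MB_frob_eval₂, ← S36MB_frob_eval₂]
      at r2
    have hJJ : J2 = J := by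
      obtain ⟨v, hv, hjv⟩ := hjj
      have h1 : φ (⟨jqq, hjqq⟩ - ⟨j, hj⟩) = 0 := by
        rw [hφ0]
        exact ⟨v, hv, hjv⟩
      rw [map_sub] at h1
      exact sub_eq_zero.1 h1
    have hBu : IsUnit (eval₂ (Int.castRingHom (V ⧸ I)) X BP) := by
      have hBV : eval₂ (Int.castRingHom L) x BP ∈ V := by
        rw [← S36MB_coe_eval₂ V ⟨x, hx⟩ BP]
        exact (eval₂ (Int.castRingHom V) ⟨x, hx⟩ BP).2
      have := hunit _ hBV hB hB0
      have e : φ ⟨eval₂ (Int.castRingHom L) x BP, hBV⟩ =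
          eval₂ (Int.castRingHom (V ⧸ I)) X BP := by
        rw [hX, ← Fermat.Agent.S34_helper14_MEW.S34MEW_map_eval₂]
        congr 1
        exact Subtype.ext (S36MB_coe_eval₂ V ⟨x, hx⟩ BP).symm
      rw [e] at this
      exact this
    have key : (J2 - (J ^ q) ^ q) * ((eval₂ (Int.castRingHom (V ⧸ I)) X BP) ^ q) ^ q = 0 := by
      have r1' : ((J * eval₂ (Int.castRingHom (V ⧸ I)) X BP) ^ q) ^ q =
          (((eval₂ (Int.castRingHom (V ⧸ I)) X aP) ^ 3) ^ q) ^ q := by rw [r1]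
      have e1 : (J2 - (J ^ q) ^ q) * ((eval₂ (Int.castRingHom (V ⧸ I)) X BP) ^ q) ^ q =
          J2 * ((eval₂ (Int.castRingHom (V ⧸ I)) X BP) ^ q) ^ q -
            ((J * eval₂ (Int.castRingHom (V ⧸ I)) X BP) ^ q) ^ q := by ring
      rw [e1, r2, r1']
      ring
    have hJq : J2 = (J ^ q) ^ q :=
      sub_eq_zero.1 (((hBu.pow q).pow q).mul_right_cancel (by rw [key, zero_mul]))
    have hcV : j ^ (q * q) - j ∈ V := V.sub_mem (V.pow_mem hj _) hj
    have hcu := hunit _ hcV hc hc0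
    have e : φ ⟨j ^ (q * q) - j, hcV⟩ = 0 := by
      have e1 : φ ⟨j ^ (q * q) - j, hcV⟩ = (J ^ q) ^ q - J := by
        rw [hJ, ← map_pow, ← map_pow, ← map_sub]
        congr 1
        exact Subtype.ext (by
          show j ^ (q * q) - j = (j ^ q) ^ q - j
          rw [← pow_mul])
      rw [e1, ← hJq, hJJ, sub_self]
    rw [e] at hcu
    exact not_isUnit_zero hcu

end Abs

end Fermat.Agent.S36_helper1_MIDBR
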