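import Mathlib
import Fermat.Prelude.Def_ModularCurve_X0
import Fermat.Prelude.Def_ModularCurve_LaurentCoeff

/-!
# S36, GEO36 / V_mid (helper1): the derivation `θ = Q d/dQ` on Laurent series

`(θ f)_n = n f_n`.  Additive, Leibniz, `θ (f(Q^N)) = N (θ f)(Q^N)`, chain rule for integer
polynomials.
-/

set_option autoImplicit false
set_option linter.unusedSectionVars false
set_option linter.unusedVariables false

open Polynomial ModularCurve

noncomputable section

namespace Fermat.Agent.S36_helper1_THETA

variable {R : Type*} [CommRing R]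

/-- `θ = Q d/dQ`, coefficientwise -/
def S36VM_theta (f : LaurentSeries R) : LaurentSeries R where
  coeff n := (n : R) * f.coeff n
  isPWO_support' := f.isPWO_support.mono (fun n hn => by
    simp only [Function.mem_support, ne_eq] at hn
    rw [HahnSeries.mem_support]
    intro h0
    exact hn (by rw [h0, mul_zero]))

@[simp] theorem S36VM_theta_coeff (f : LaurentSeries R) (n : ℤ) :
    (S36VM_theta f).coeff n = (n : R) * f.coeff n := rfl

theorem S36VM_theta_support (f : LaurentSeries R) : (S36VM_theta f).support ⊆ f.support := by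
  intro n hn
  rw [HahnSeries.mem_support] at hn ⊢
  intro h0
  exact hn (by rw [S36VM_theta_coeff, h0, mul_zero])

theorem S36VM_theta_add (f g : LaurentSeries R) :
    S36VM_theta (f + g) = S36VM_theta f + S36VM_theta g := by
  ext n
  simp only [S36VM_theta_coeff, HahnSeries.coeff_add, mul_add]

theorem S36VM_theta_zero : S36VM_theta (0 : LaurentSeries R) = 0 := by
  ext n
  simp only [S36VM_theta_coeff, HahnSeries.coeff_zero, mul_zero]

theorem S36VM_theta_neg (f : LaurentSeries R) : S36VM_theta (-f) = - S36VM_theta f := by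
  ext n
  simp only [S36VM_theta_coeff, HahnSeries.coeff_neg, mul_neg]

theorem S36VM_theta_sum {ι : Type*} (s : Finset ι) (f : ι → LaurentSeries R) :
    S36VM_theta (∑ i ∈ s, f i) = ∑ i ∈ s, S36VM_theta (f i) := by
  classical
  induction s using Finset.induction_on with
  | empty => simp [S36VM_theta_zero]
  | insert a s ha ih => rw [Finset.sum_insert ha, Finset.sum_insert ha, S36VM_theta_add, ih]

/-- Leibniz -/
theorem S36VM_theta_mul (f g : LaurentSeries R) :
    S36VM_theta (f * g) = S36VM_theta f * g + f * S36VM_theta g := by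
  ext n
  rw [S36VM_theta_coeff, HahnSeries.coeff_add, HahnSeries.coeff_mul,
    HahnSeries.coeff_mul_left' f.isPWO_support (S36VM_theta_support f),
    HahnSeries.coeff_mul_right' g.isPWO_support (S36VM_theta_support g),
    Finset.mul_sum, ← Finset.sum_add_distrib]
  refine Finset.sum_congr rfl (fun ij hij => ?_)
  rw [Finset.mem_addAntidiagonal] at hij
  rw [S36VM_theta_coeff, S36VM_theta_coeff, ← hij.2.2]
  push_cast
  ring

theorem S36VM_theta_one : S36VM_theta (1 : LaurentSeries R) = 0 := by
  have h := S36VM_theta_mul (1 : LaurentSeries R) 1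
  rw [mul_one, one_mul, mul_one] at h
  have h2 : S36VM_theta (1 : LaurentSeries R) + 0 =
      S36VM_theta (1 : LaurentSeries R) + S36VM_theta (1 : LaurentSeries R) := by
    rw [add_zero]; exact h
  exact (add_left_cancel h2).symm

theorem S36VM_theta_natCast (n : ℕ) : S36VM_theta ((n : ℕ) : LaurentSeries R) = 0 := by
  induction n with
  | zero => rw [Nat.cast_zero, S36VM_theta_zero]
  | succ n ih => rw [Nat.cast_succ, S36VM_theta_add, ih, S36VM_theta_one, add_zero]

theorem S36VM_theta_intCast (n : ℤ) : S36VM_theta ((n : ℤ) : LaurentSeries R) = 0 := by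
  cases n with
  | ofNat n => rw [Int.ofNat_eq_natCast, Int.cast_natCast, S36VM_theta_natCast]
  | negSucc n =>
      rw [Int.cast_negSucc, S36VM_theta_neg, S36VM_theta_natCast, neg_zero]

theorem S36VM_theta_pow (f : LaurentSeries R) (n : ℕ) :
    S36VM_theta (f ^ n) = (n : LaurentSeries R) * f ^ (n - 1) * S36VM_theta f := by
  induction n with
  | zero => rw [pow_zero, S36VM_theta_one, Nat.cast_zero, zero_mul, zero_mul]
  | succ n ih =>
      rw [pow_succ, S36VM_theta_mul, ih, Nat.add_sub_cancel]
      rcases Nat.eq_zero_or_pos n with h0 | h0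
      · subst h0
        simp
      · have e : f ^ n = f ^ (n - 1) * f := by
          rw [← pow_succ]
          congr 1
          omega
        rw [e]
        push_cast
        ring

/-- chain rule for integer polynomials -/
theorem S36VM_theta_eval₂ (x : LaurentSeries R) (p : ℤ[X]) :
    S36VM_theta (eval₂ (Int.castRingHom (LaurentSeries R)) x p) =
      eval₂ (Int.castRingHom (LaurentSeries R)) x (derivative p) * S36VM_theta x := by
  induction p using Polynomial.induction_on' with
  | add p r hp hr =>
      rw [eval₂_add, S36VM_theta_add, hp, hr, derivative_add, eval₂_add, add_mul]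
  | monomial n c =>
      rw [eval₂_monomial, derivative_monomial, eval₂_monomial, S36VM_theta_mul,
        S36VM_theta_pow]
      have h0 : S36VM_theta ((Int.castRingHom (LaurentSeries R)) c) = 0 :=
        S36VM_theta_intCast c
      rw [h0, zero_mul, zero_add]
      simp only [map_mul, map_natCast, eq_intCast]
      ring

/-- `θ (f(Q^N)) = N (θ f)(Q^N)` -/
theorem S36VM_theta_qExpand (N : ℕ) [NeZero N] (f : LaurentSeries R) :
    S36VM_theta (qExpand R N f) = (N : LaurentSeries R) * qExpand R N (S36VM_theta f) := by
  have hC : ((N : ℕ) : LaurentSeries R) = HahnSeries.C ((N : ℕ) : R) := by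
    rw [map_natCast]
  ext n
  rw [S36VM_theta_coeff, hC, HahnSeries.C_mul_eq_smul, HahnSeries.coeff_smul, smul_eq_mul]
  by_cases hn : (N : ℤ) ∣ n
  · obtain ⟨m, rfl⟩ := hn
    rw [qExpand_coeff_mul, qExpand_coeff_mul, S36VM_theta_coeff]
    push_cast
    ring
  · rw [qExpand_coeff_of_not_dvd _ _ hn, qExpand_coeff_of_not_dvd _ _ hn, mul_zero, mul_zero]

/-- `θ` commutes with coefficient maps -/
theorem S36VM_theta_coeffMap {S : Type*} [CommRing S] (φ : R →+* S) (f : LaurentSeries R) :
    coeffMap φ (S36VM_theta f) = S36VM_theta (coeffMap φ f) := by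
  ext n
  rw [coeffMap_coeff, S36VM_theta_coeff, S36VM_theta_coeff, coeffMap_coeff, map_mul,
    map_intCast]

end Fermat.Agent.S36_helper1_THETA
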