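import Fermat.Agent.S36_helper1_VMIDc
import Fermat.Agent.S34_helper20_V0K

set_option autoImplicit false
set_option linter.unusedSectionVars false
set_option linter.unusedVariables false
set_option linter.style.haveILetI false

open Polynomial ModularCurve
open Fermat.Agent.S36_helper1_KRON Fermat.Agent.S36_helper1_THETA
open Fermat.Agent.S18_helper13_GAUSS Fermat.Agent.S18_helper25_COREDefs

noncomputable section

namespace Fermat.Agent.S36_helper1_VMID

section Closure

variable (q : ℕ) [hqf : Fact q.Prime] (a : ℕ → ℤ[X])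

theorem S36VM_taylor_coeff_mem {R : Type*} [CommRing R] (B : Subring R) (f : R[X])
    (hf : ∀ n, f.coeff n ∈ B) (r : R) (hr : r ∈ B) (n : ℕ) : (taylor r f).coeff n ∈ B := by
  rw [taylor_coeff, eval_eq_sum_range]
  refine Subring.sum_mem _ (fun i _ => ?_)
  rw [hasseDeriv_coeff]
  exact B.mul_mem (B.mul_mem (natCast_mem _ _) (hf _)) (pow_mem hr _)

theorem S36VM_eval₂_mem {R : Type*} [CommRing R] (B : Subring R) (x : R) (hx : x ∈ B)
    (p : ℤ[X]) : eval₂ (Int.castRingHom R) x p ∈ B := by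
  rw [eval₂_eq_sum_range]
  refine Subring.sum_mem _ (fun i _ => ?_)
  rw [eq_intCast]
  exact B.mul_mem (intCast_mem _ _) (pow_mem hx _)

theorem S36VM_p_mem (B : Subring (LaurentSeries ℤ)) (hJ : jqModC ℤ ∈ B) (hJq : S36VM_Jq q ∈ B)
    (k : ℕ) : S36VM_p q a k ∈ B := by
  rw [S36VM_p, S36VM_F]
  refine S36VM_taylor_coeff_mem B _ (fun n => ?_) _ hJ _
  rw [S36VM_psi, coeff_add, coeff_X_pow, finsetSum_coeff]
  refine B.add_mem ?_ (Subring.sum_mem _ (fun i _ => ?_))
  · split_ifs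
    · exact B.one_mem
    · exact B.zero_mem
  · rw [coeff_C_mul, coeff_X_pow]
    refine B.mul_mem (S36VM_eval₂_mem B _ hJq _) ?_
    split_ifs
    · exact B.one_mem
    · exact B.zero_mem

end Closure

/-- **(P) + (H), over `ℤ((Q))`** -/
theorem S36VM_poly (q : ℕ) [NeZero q] [NeZero (q * q)] (hq : q.Prime) :
    ∃ (p : ℕ → LaurentSeries ℤ) (H : LaurentSeries ℤ),
      (∀ k, p k ∈ Subring.closure ({jqModC ℤ, qExpand ℤ q (jqModC ℤ)} : Set (LaurentSeries ℤ))) ∧
      p q = 1 ∧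
      (∑ k ∈ Finset.range (q + 1), p k * (qExpand ℤ (q * q) (jqModC ℤ) - jqModC ℤ) ^ k = 0) ∧
      (∀ k, 1 ≤ k → k + 2 ≤ q → ∃ e : LaurentSeries ℤ, p k = (q : LaurentSeries ℤ) * e) ∧
      p 0 = (q : LaurentSeries ℤ) * H ∧
      coeffMap (Int.castRingHom (ZMod q)) H ≠ 0 ∧
      coeffMap (Int.castRingHom (ZMod q)) (p (q - 1)) ≠ 0 := by
  haveI : Fact q.Prime := ⟨hq⟩
  obtain ⟨a, ha⟩ := S36VM_exists_modEq q hq
  obtain ⟨H, hH, hH0⟩ := S36VM_exact q ha
  refine ⟨S36VM_p q a, H, fun k => ?_, S36VM_p_top q, ?_, fun k _ hk => ?_, hH, hH0, ?_⟩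
  · exact S36VM_p_mem q a _ (Subring.subset_closure (by simp))
      (Subring.subset_closure (by simp [S36VM_Jq])) k
  · have h1 := S36VM_root q ha
    have e : S36VM_Jqq q = qExpand ℤ (q * q) (jqModC ℤ) := by
      rw [S36VM_Jqq, qExpand_qExpand]
    rw [e] at h1
    exact h1
  · exact S36VM_ker q _ (S36VM_rho_p_low q ha k hk)
  · rw [S36VM_rho_p_top q ha, neg_ne_zero]
    exact S36VM_c_ne_zero q

/-! ### Transport to `K1((Q))` and the Gauss ring -/

section Gauss

variable {O K κ : Type*} [CommRing O] [IsDomain O] [Field K] [Field κ] (D : GaussData O K κ)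

theorem S36VM_iota_eq (x : LaurentSeries ℤ) :
    coeffMap (Int.castRingHom K) x = D.incS (coeffMap (Int.castRingHom O) x) := by
  show _ = coeffMap D.inc _
  rw [coeffMap_coeffMap]
  exact coeffMap_congr (RingHom.ext_int _ _) x

theorem S36VM_iota_mem (x : LaurentSeries ℤ) : coeffMap (Int.castRingHom K) x ∈ D.Vring := by
  rw [S36VM_iota_eq D]
  exact D.incS_mem_Vring _

theorem S36VM_iota_red (q : ℕ) [Fact q.Prime] [CharP κ q] (x : LaurentSeries ℤ) :
    D.redFun (coeffMap (Int.castRingHom K) x) =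
      coeffMap (ZMod.castHom (dvd_refl q) κ) (coeffMap (Int.castRingHom (ZMod q)) x) := by
  rw [S36VM_iota_eq D, D.redFun_incS]
  show coeffMap D.res _ = _
  rw [coeffMap_coeffMap, coeffMap_coeffMap]
  exact coeffMap_congr (RingHom.ext_int _ _) x

theorem S36VM_iota_unit (q : ℕ) [Fact q.Prime] [CharP κ q] (x : LaurentSeries ℤ)
    (hx : coeffMap (Int.castRingHom (ZMod q)) x ≠ 0) :
    D.redFun (coeffMap (Int.castRingHom K) x) ≠ 0 ∧
      (coeffMap (Int.castRingHom K) x)⁻¹ ∈ D.Vring := by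
  have h1 : D.redFun (coeffMap (Int.castRingHom K) x) ≠ 0 := by
    rw [S36VM_iota_red D q]
    intro h0
    apply hx
    apply Fermat.Agent.S37_helper2_K2ABS.coeffMap_injective _
      (ZMod.castHom (dvd_refl q) κ).injective
    rw [h0, map_zero]
  exact ⟨h1, D.inv_mem_Vring (S36VM_iota_mem D x) h1⟩

end Gauss

end Fermat.Agent.S36_helper1_VMID
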