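import Fermat.Agent.S36_helper1_KRONG
import Fermat.Agent.S36_helper1_VMIDd

/-!
# S36, GEO36 REG36 [ONE mid] (helper1): the modular input of the D-trick for ANY coordinate

Generic port of `S36_helper1_VMIDa-d` from `j` to any coordinate `x : LaurentSeries ℤ` with
`x.coeff (-1) = 1` satisfying the two relations `S36KG_IsModEq q x a` (e.g. the Hauptmodul of
`X₀(r)`).  With `y = x(Q^q)`, `z = x(Q^(q²))`, `t = z - x`, `S = x - y^q`:

* `P(T) = Ψ(y, x + T) / T = ∑ p_k T^k` is monic of degree `q`, `P(t) = 0`;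
* `q ∣ p_k` for `1 ≤ k ≤ q - 2`, `p_(q-1) ≡ S`, `p_0 = q H` with `H ≢ 0` modulo `q`;
* `Φ_Y := ∑ a_i'(y) x^i ≡ - S` modulo `q`;
* `D H + Φ_Y = 0` for the formal `D = θx / (θx)(Q^q)` (`= q dx/dy`).
-/

set_option autoImplicit false
set_option linter.unusedSectionVars false
set_option linter.unusedVariables false
set_option linter.style.haveILetI false

open Polynomial ModularCurve
open Fermat.Agent.S36_helper1_KRON Fermat.Agent.S36_helper1_THETA
open Fermat.Agent.S36_helper1_KRONG Fermat.Agent.S36_helper1_VMID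

noncomputable section

namespace Fermat.Agent.S36_helper1_VMIDG

section Poly

variable (q : ℕ) [hqf : Fact q.Prime] (x : LaurentSeries ℤ) (a : ℕ → ℤ[X])

/-- `y = x(Q^q)` -/
def S36VG_y : LaurentSeries ℤ :=
  haveI : NeZero q := ⟨hqf.out.ne_zero⟩
  qExpand ℤ q x

/-- `z = x(Q^(q²))` -/
def S36VG_z : LaurentSeries ℤ :=
  haveI : NeZero q := ⟨hqf.out.ne_zero⟩
  qExpand ℤ q (qExpand ℤ q x)

/-- the coefficients `a_i(y)` -/
def S36VG_cz (i : ℕ) : LaurentSeries ℤ :=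
  eval₂ (Int.castRingHom (LaurentSeries ℤ)) (S36VG_y q x) (a i)

/-- `Ψ(y, Z)` -/
def S36VG_psi : (LaurentSeries ℤ)[X] :=
  X ^ (q + 1) + ∑ i ∈ Finset.range (q + 1), C (S36VG_cz q x a i) * X ^ i

theorem S36VG_psi_eval (w : LaurentSeries ℤ) :
    (S36VG_psi q x a).eval w =
      w ^ (q + 1) + ∑ i ∈ Finset.range (q + 1), S36VG_cz q x a i * w ^ i := by
  simp only [S36VG_psi, eval_add, eval_pow, eval_X, eval_finsetSum, eval_mul, eval_C]

variable {x a}

theorem S36VG_psi_eval_x (h : haveI : NeZero q := ⟨hqf.out.ne_zero⟩; S36KG_IsModEq q x a) :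
    (S36VG_psi q x a).eval x = 0 := by
  haveI : NeZero q := ⟨hqf.out.ne_zero⟩
  rw [S36VG_psi_eval]
  exact h.2

theorem S36VG_psi_eval_z (h : haveI : NeZero q := ⟨hqf.out.ne_zero⟩; S36KG_IsModEq q x a) :
    (S36VG_psi q x a).eval (S36VG_z q x) = 0 := by
  haveI : NeZero q := ⟨hqf.out.ne_zero⟩
  rw [S36VG_psi_eval]
  have h1 := congrArg (qExpand ℤ q) h.1
  simp only [map_add, map_pow, map_sum, map_mul, map_zero,
    Fermat.Agent.S34_helper14_MEW.S34MEW_map_eval₂] at h1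
  exact h1

theorem S36VG_psi_rest_degree :
    (∑ i ∈ Finset.range (q + 1), C (S36VG_cz q x a i) * X ^ i).degree <
      ((q + 1 : ℕ) : WithBot ℕ) := by
  refine (degree_sum_le _ _).trans_lt ?_
  rw [Finset.sup_lt_iff (WithBot.bot_lt_coe _)]
  intro i hi
  exact (degree_C_mul_X_pow_le i _).trans_lt (by exact_mod_cast Finset.mem_range.1 hi)

theorem S36VG_psi_monic : (S36VG_psi q x a).Monic :=
  monic_X_pow_add (S36VG_psi_rest_degree q)

theorem S36VG_psi_natDegree : (S36VG_psi q x a).natDegree = q + 1 := by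
  have h1 : (S36VG_psi q x a).degree = ((q + 1 : ℕ) : WithBot ℕ) := by
    rw [S36VG_psi, degree_add_eq_left_of_degree_lt]
    · exact degree_X_pow _
    · rw [degree_X_pow]
      exact S36VG_psi_rest_degree q
  exact natDegree_eq_of_degree_eq_some h1

variable (x a)

/-- the Taylor expansion `Ψ(y, x + T)` -/
def S36VG_F : (LaurentSeries ℤ)[X] := taylor x (S36VG_psi q x a)

/-- the coefficients of `P(T) = Ψ(y, x + T) / T` -/
def S36VG_p (k : ℕ) : LaurentSeries ℤ := (S36VG_F q x a).coeff (k + 1)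

/-- `Φ_Y(x, y) = ∑ a_i'(y) x^i` -/
def S36VG_PhiY : LaurentSeries ℤ :=
  ∑ i ∈ Finset.range (q + 1),
    eval₂ (Int.castRingHom (LaurentSeries ℤ)) (S36VG_y q x) (derivative (a i)) * x ^ i

variable {x a}

theorem S36VG_p_top : S36VG_p q x a q = 1 := by
  have h1 : (S36VG_F q x a).natDegree = q + 1 := by
    rw [S36VG_F, natDegree_taylor, S36VG_psi_natDegree]
  have h2 : (S36VG_F q x a).leadingCoeff = 1 := by
    rw [S36VG_F, leadingCoeff_taylor]
    exact S36VG_psi_monic q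
  rw [S36VG_p, ← h1]
  exact h2

theorem S36VG_z_coeff (x : LaurentSeries ℤ) : (S36VG_z q x).coeff (-1) = 0 := by
  haveI : NeZero q := ⟨hqf.out.ne_zero⟩
  rw [S36VG_z, qExpand_coeff_of_not_dvd]
  intro hd
  have h2 : (q : ℤ) ∣ 1 := (dvd_neg (a := (q : ℤ)) (b := 1)).mp hd
  have h3 : q ∣ 1 := by exact_mod_cast h2
  exact hqf.out.one_lt.ne' (Nat.dvd_one.mp h3)

theorem S36VG_t_ne_zero (hx : x.coeff (-1) = 1) : S36VG_z q x - x ≠ 0 := by
  intro h0
  have h1 := congrArg (fun s : LaurentSeries ℤ => s.coeff (-1)) h0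
  simp only [HahnSeries.coeff_sub, HahnSeries.coeff_zero, hx, S36VG_z_coeff] at h1
  simp at h1

theorem S36VG_root (hx : x.coeff (-1) = 1)
    (h : haveI : NeZero q := ⟨hqf.out.ne_zero⟩; S36KG_IsModEq q x a) :
    ∑ k ∈ Finset.range (q + 1), S36VG_p q x a k * (S36VG_z q x - x) ^ k = 0 := by
  set t := S36VG_z q x - x with ht
  have h1 : (S36VG_F q x a).eval t = 0 := by
    rw [S36VG_F, taylor_eval, ht, sub_add_cancel]
    exact S36VG_psi_eval_z q h
  have h2 : (S36VG_F q x a).natDegree < q + 2 := by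
    rw [S36VG_F, natDegree_taylor, S36VG_psi_natDegree]
    omega
  rw [eval_eq_sum_range' h2, Finset.sum_range_succ'] at h1
  have h3 : (S36VG_F q x a).coeff 0 = 0 := by
    rw [S36VG_F, taylor_coeff_zero]
    exact S36VG_psi_eval_x q h
  rw [h3, zero_mul, add_zero] at h1
  have h4 : t * ∑ k ∈ Finset.range (q + 1), S36VG_p q x a k * t ^ k = 0 := by
    rw [← h1, Finset.mul_sum]
    refine Finset.sum_congr rfl (fun k _ => ?_)
    rw [S36VG_p, pow_succ]
    ring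
  rcases mul_eq_zero.1 h4 with h5 | h5
  · exact absurd h5 (S36VG_t_ne_zero q hx)
  · exact h5

end Poly

section Red

variable (q : ℕ) [hqf : Fact q.Prime] {x : LaurentSeries ℤ} {a : ℕ → ℤ[X]}

local notation "ρ" => coeffMap (Int.castRingHom (ZMod q))

theorem S36VG_rho_y (x : LaurentSeries ℤ) : ρ (S36VG_y q x) = (ρ x) ^ q := by
  haveI : NeZero q := ⟨hqf.out.ne_zero⟩
  rw [S36VG_y, coeffMap_qExpand, S36KG_frob]

theorem S36VG_rho_z (x : LaurentSeries ℤ) : ρ (S36VG_z q x) = ((ρ x) ^ q) ^ q := by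
  haveI : NeZero q := ⟨hqf.out.ne_zero⟩
  rw [S36VG_z, coeffMap_qExpand, coeffMap_qExpand, S36KG_frob, S36KG_frob]

theorem S36VG_rho_cz (i : ℕ) :
    ρ (S36VG_cz q x a i) =
      eval₂ (Int.castRingHom (LaurentSeries (ZMod q))) ((ρ x) ^ q) (a i) := by
  rw [S36VG_cz, Fermat.Agent.S34_helper14_MEW.S34MEW_map_eval₂, S36VG_rho_y]

/-- **reduction of `Ψ(y, Z)`**: `(Z - x^(q²)) (Z - x)^q` -/
theorem S36VG_psi_map (hx : x.coeff (-1) = 1)
    (h : haveI : NeZero q := ⟨hqf.out.ne_zero⟩; S36KG_IsModEq q x a) :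
    (S36VG_psi q x a).map ρ = (X - C (((ρ x) ^ q) ^ q)) * (X - C (ρ x)) ^ q := by
  have hq2 : 2 ≤ q := hqf.out.two_le
  haveI := S36VM_charP q
  obtain ⟨h0, h1, h2, h3⟩ := S36KG_kron_eval q (LaurentSeries (ZMod q)) hx h ((ρ x) ^ q)
  rw [S36VG_psi, Polynomial.map_add, Polynomial.map_pow, map_X, Polynomial.map_sum]
  rw [S36VM_sum_shape hq2 _ (fun i hi2 hiq => by
    rw [Polynomial.map_mul, map_C, S36VG_rho_cz, h3 i hi2 hiq, map_zero, zero_mul])]
  simp only [Polynomial.map_mul, map_C, S36VG_rho_cz, h0, h1, h2, Polynomial.map_pow, map_X]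
  rw [sub_pow_char]
  simp only [map_neg, map_pow]
  ring

/-- **reduction of `Ψ(y, x + T)`**: `(T - c) T^q`, `c = x^(q²) - x` -/
theorem S36VG_F_map (hx : x.coeff (-1) = 1)
    (h : haveI : NeZero q := ⟨hqf.out.ne_zero⟩; S36KG_IsModEq q x a) :
    (S36VG_F q x a).map ρ = (X - C (((ρ x) ^ q) ^ q - ρ x)) * X ^ q := by
  rw [S36VG_F, S36VM_map_taylor, S36VG_psi_map q hx h, taylor_mul, taylor_pow,
    map_sub, map_sub, taylor_X, taylor_C, taylor_C, add_sub_cancel_right, C_sub]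
  ring

theorem S36VG_c_ne_zero (hx : x.coeff (-1) = 1) : ((ρ x) ^ q) ^ q - ρ x ≠ 0 := by
  intro h0
  have h1 := congrArg (fun s : LaurentSeries (ZMod q) => s.coeff (-1)) h0
  rw [← S36VG_rho_z] at h1
  simp only [HahnSeries.coeff_sub, HahnSeries.coeff_zero, coeffMap_coeff, hx, S36VG_z_coeff,
    map_zero, map_one] at h1
  simp at h1

theorem S36VG_rho_p (hx : x.coeff (-1) = 1)
    (h : haveI : NeZero q := ⟨hqf.out.ne_zero⟩; S36KG_IsModEq q x a) (k : ℕ) :
    ρ (S36VG_p q x a k) =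
      if q ≤ k + 1 then
        ((X : (LaurentSeries (ZMod q))[X]) - C (((ρ x) ^ q) ^ q - ρ x)).coeff (k + 1 - q)
      else 0 := by
  rw [S36VG_p, ← coeff_map, S36VG_F_map q hx h, coeff_mul_X_pow']

theorem S36VG_rho_p_low (hx : x.coeff (-1) = 1)
    (h : haveI : NeZero q := ⟨hqf.out.ne_zero⟩; S36KG_IsModEq q x a) (k : ℕ) (hk : k + 2 ≤ q) :
    ρ (S36VG_p q x a k) = 0 := by
  rw [S36VG_rho_p q hx h, if_neg (by omega)]

theorem S36VG_rho_p_top (hx : x.coeff (-1) = 1)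
    (h : haveI : NeZero q := ⟨hqf.out.ne_zero⟩; S36KG_IsModEq q x a) :
    ρ (S36VG_p q x a (q - 1)) = - (((ρ x) ^ q) ^ q - ρ x) := by
  have hq2 : 2 ≤ q := hqf.out.two_le
  rw [S36VG_rho_p q hx h, if_pos (by omega), show q - 1 + 1 - q = 0 by omega, coeff_sub,
    coeff_X_zero, coeff_C_zero, zero_sub]

/-- `ρ S = - c` for `S = x - y^q` -/
theorem S36VG_rho_S (x : LaurentSeries ℤ) :
    ρ (x - (S36VG_y q x) ^ q) = - (((ρ x) ^ q) ^ q - ρ x) := by
  rw [map_sub, map_pow, S36VG_rho_y]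
  ring

end Red

section Exact

variable (q : ℕ) [hqf : Fact q.Prime] {x : LaurentSeries ℤ} {a : ℕ → ℤ[X]}

local notation "ρ" => coeffMap (Int.castRingHom (ZMod q))

theorem S36VG_p_zero :
    S36VG_p q x a 0 = ((q + 1 : ℕ) : LaurentSeries ℤ) * x ^ q +
      ∑ i ∈ Finset.range (q + 1), S36VG_cz q x a i * ((i : LaurentSeries ℤ) * x ^ (i - 1)) := by
  rw [S36VG_p, S36VG_F, zero_add, taylor_coeff_one, S36VG_psi, derivative_add, derivative_X_pow,
    derivative_sum, eval_add, eval_mul, eval_pow, eval_X, eval_finsetSum, Nat.add_sub_cancel]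
  congr 1
  · simp
  · refine Finset.sum_congr rfl (fun i _ => ?_)
    rw [derivative_C_mul_X_pow, eval_mul, eval_pow, eval_X, eval_C]
    ring

/-- **the `θ`-identity** `P(0) θx = - q Φ_Y(x, y) (θx)(Q^q)` -/
theorem S36VG_theta_id (h : haveI : NeZero q := ⟨hqf.out.ne_zero⟩; S36KG_IsModEq q x a) :
    haveI : NeZero q := ⟨hqf.out.ne_zero⟩
    S36VG_p q x a 0 * S36VM_theta x +
      (q : LaurentSeries ℤ) * (qExpand ℤ q (S36VM_theta x) * S36VG_PhiY q x a) = 0 := by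
  haveI : NeZero q := ⟨hqf.out.ne_zero⟩
  have h2 := congrArg S36VM_theta h.2
  rw [S36VM_theta_zero, S36VM_theta_add, S36VM_theta_pow, S36VM_theta_sum,
    Nat.add_sub_cancel] at h2
  rw [S36VG_p_zero, S36VG_PhiY, ← h2, add_mul, Finset.sum_mul, Finset.mul_sum, Finset.mul_sum,
    add_assoc, ← Finset.sum_add_distrib]
  congr 1
  refine Finset.sum_congr rfl (fun i _ => ?_)
  rw [S36VM_theta_mul, S36VM_theta_pow, S36VM_theta_eval₂, S36VM_theta_qExpand]
  rw [S36VG_cz, S36VG_y]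
  ring

theorem S36VG_rho_theta_ne (hx : x.coeff (-1) = 1) : ρ (S36VM_theta x) ≠ 0 := by
  intro h0
  have h1 := congrArg (fun s : LaurentSeries (ZMod q) => s.coeff (-1)) h0
  simp only [coeffMap_coeff, S36VM_theta_coeff, hx, HahnSeries.coeff_zero] at h1
  simp at h1

theorem S36VG_rho_PhiY (hx : x.coeff (-1) = 1)
    (h : haveI : NeZero q := ⟨hqf.out.ne_zero⟩; S36KG_IsModEq q x a) :
    ρ (S36VG_PhiY q x a) = ((ρ x) ^ q) ^ q - ρ x := by
  have hq2 : 2 ≤ q := hqf.out.two_le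
  haveI := S36VM_charP q
  obtain ⟨k0, k1, k2, k3⟩ := S36KG_kron q (LaurentSeries (ZMod q)) hx h
  have hq0 : ((q : ℕ) : LaurentSeries (ZMod q)) = 0 := CharP.cast_eq_zero _ q
  have e0 : eval₂ (Int.castRingHom (LaurentSeries (ZMod q))) ((ρ x) ^ q) (derivative (a 0)) =
      ((ρ x) ^ q) ^ q := by
    rw [← eval_map, ← derivative_map, k0, derivative_X_pow, eval_mul, eval_pow, eval_X,
      Nat.add_sub_cancel]
    simp [hq0]
  have e1 : eval₂ (Int.castRingHom (LaurentSeries (ZMod q))) ((ρ x) ^ q) (derivative (a 1)) =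
      - 1 := by
    rw [← eval_map, ← derivative_map, k1, derivative_neg, derivative_X, eval_neg, eval_one]
  have e2 : eval₂ (Int.castRingHom (LaurentSeries (ZMod q))) ((ρ x) ^ q) (derivative (a q)) =
      0 := by
    rw [← eval_map, ← derivative_map, k2, derivative_neg, derivative_X_pow, eval_neg, eval_mul]
    simp [hq0]
  have e3 : ∀ i, 2 ≤ i → i < q →
      eval₂ (Int.castRingHom (LaurentSeries (ZMod q))) ((ρ x) ^ q) (derivative (a i)) = 0 := by
    intro i hi2 hiq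
    rw [← eval_map, ← derivative_map, k3 i hi2 hiq, derivative_zero, eval_zero]
  rw [S36VG_PhiY, map_sum]
  rw [S36VM_sum_shape hq2 _ (fun i hi2 hiq => by
    rw [map_mul, Fermat.Agent.S34_helper14_MEW.S34MEW_map_eval₂, S36VG_rho_y,
      e3 i hi2 hiq, zero_mul])]
  simp only [map_mul, Fermat.Agent.S34_helper14_MEW.S34MEW_map_eval₂, S36VG_rho_y, e0, e1, e2,
    map_pow]
  ring

theorem S36VG_natCast_ne_zero : ((q : ℕ) : LaurentSeries ℤ) ≠ 0 := by
  rw [show ((q : ℕ) : LaurentSeries ℤ) = HahnSeries.C ((q : ℕ) : ℤ) by rw [map_natCast]]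
  intro h0
  rw [← map_zero (HahnSeries.C : ℤ →+* LaurentSeries ℤ)] at h0
  have := HahnSeries.C_injective h0
  exact hqf.out.ne_zero (by exact_mod_cast this)

/-- **(H) exactness**: `P(0) = q H` with `H ≠ 0` modulo `q`, and the `θ`-identity divided
by `q` -/
theorem S36VG_exact (hx : x.coeff (-1) = 1)
    (h : haveI : NeZero q := ⟨hqf.out.ne_zero⟩; S36KG_IsModEq q x a) :
    haveI : NeZero q := ⟨hqf.out.ne_zero⟩
    ∃ H : LaurentSeries ℤ, S36VG_p q x a 0 = (q : LaurentSeries ℤ) * H ∧ ρ H ≠ 0 ∧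
      H * S36VM_theta x + qExpand ℤ q (S36VM_theta x) * S36VG_PhiY q x a = 0 := by
  haveI : NeZero q := ⟨hqf.out.ne_zero⟩
  have hid := S36VG_theta_id q h
  -- `ρ (P(0)) = 0`
  have h1 : ρ (S36VG_p q x a 0) = 0 := by
    have h2 := congrArg ρ hid
    rw [map_add, map_mul, map_mul, map_natCast, S36VM_natCast_zero, zero_mul, add_zero,
      map_zero] at h2
    rcases mul_eq_zero.1 h2 with h3 | h3
    · exact h3
    · exact absurd h3 (S36VG_rho_theta_ne q hx)
  obtain ⟨H, hH⟩ := S36VM_ker q _ h1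
  rw [hH, mul_assoc, ← mul_add] at hid
  have h4 := (mul_eq_zero.1 hid).resolve_left (S36VG_natCast_ne_zero q)
  refine ⟨H, hH, fun hH0 => ?_, h4⟩
  have h5 := congrArg ρ h4
  rw [map_add, map_mul, map_mul, hH0, zero_mul, zero_add, map_zero, S36VG_rho_PhiY q hx h,
    coeffMap_qExpand] at h5
  rcases mul_eq_zero.1 h5 with h6 | h6
  · exact S36VG_rho_theta_ne q hx ((map_eq_zero_iff _ (qExpand_injective q)).1 h6)
  · exact S36VG_c_ne_zero q hx h6

end Exact

end Fermat.Agent.S36_helper1_VMIDG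

namespace Fermat.Agent.S36_helper1_VMIDG

section Closure

variable (q : ℕ) [hqf : Fact q.Prime] (x : LaurentSeries ℤ) (a : ℕ → ℤ[X])

theorem S36VG_p_mem (B : Subring (LaurentSeries ℤ)) (hJ : x ∈ B) (hJq : S36VG_y q x ∈ B)
    (k : ℕ) : S36VG_p q x a k ∈ B := by
  rw [S36VG_p, S36VG_F]
  refine S36VM_taylor_coeff_mem B _ (fun n => ?_) _ hJ _
  rw [S36VG_psi, coeff_add, coeff_X_pow, finsetSum_coeff]
  refine B.add_mem ?_ (Subring.sum_mem _ (fun i _ => ?_))
  · split_ifs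
    · exact B.one_mem
    · exact B.zero_mem
  · rw [coeff_C_mul, coeff_X_pow]
    refine B.mul_mem (S36VM_eval₂_mem B _ hJq _) ?_
    split_ifs
    · exact B.one_mem
    · exact B.zero_mem

theorem S36VG_PhiY_mem (B : Subring (LaurentSeries ℤ)) (hJ : x ∈ B) (hJq : S36VG_y q x ∈ B) :
    S36VG_PhiY q x a ∈ B := by
  rw [S36VG_PhiY]
  exact Subring.sum_mem _ (fun i _ => B.mul_mem (S36VM_eval₂_mem B _ hJq _) (pow_mem hJ _))

end Closure

/-- **(P) + (H) for the coordinate `x`, over `ℤ((Q))`** -/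
theorem S36VG_poly (q : ℕ) [NeZero q] [NeZero (q * q)] (hq : q.Prime) (x : LaurentSeries ℤ)
    (hx : x.coeff (-1) = 1) (a : ℕ → ℤ[X]) (h : S36KG_IsModEq q x a) :
    ∃ (p : ℕ → LaurentSeries ℤ) (H ΦY : LaurentSeries ℤ),
      (∀ k, p k ∈ Subring.closure ({x, qExpand ℤ q x} : Set (LaurentSeries ℤ))) ∧
      p q = 1 ∧
      (∑ k ∈ Finset.range (q + 1), p k * (qExpand ℤ (q * q) x - x) ^ k = 0) ∧
      (∀ k, 1 ≤ k → k + 2 ≤ q → ∃ e : LaurentSeries ℤ, p k = (q : LaurentSeries ℤ) * e) ∧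
      p 0 = (q : LaurentSeries ℤ) * H ∧
      coeffMap (Int.castRingHom (ZMod q)) H ≠ 0 ∧
      coeffMap (Int.castRingHom (ZMod q)) (x - (qExpand ℤ q x) ^ q) ≠ 0 ∧
      (∃ e : LaurentSeries ℤ, p (q - 1) - (x - (qExpand ℤ q x) ^ q) = (q : LaurentSeries ℤ) * e) ∧
      ΦY ∈ Subring.closure ({x, qExpand ℤ q x} : Set (LaurentSeries ℤ)) ∧
      (∃ e : LaurentSeries ℤ, ΦY + (x - (qExpand ℤ q x) ^ q) = (q : LaurentSeries ℤ) * e) ∧
      H * S36VM_theta x + qExpand ℤ q (S36VM_theta x) * ΦY = 0 ∧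
      p 0 = ((q + 1 : ℕ) : LaurentSeries ℤ) * x ^ q + ∑ i ∈ Finset.range (q + 1),
        eval₂ (Int.castRingHom (LaurentSeries ℤ)) (qExpand ℤ q x) (a i) *
          ((i : LaurentSeries ℤ) * x ^ (i - 1)) ∧
      ΦY = ∑ i ∈ Finset.range (q + 1),
        eval₂ (Int.castRingHom (LaurentSeries ℤ)) (qExpand ℤ q x) (derivative (a i)) * x ^ i := by
  haveI : Fact q.Prime := ⟨hq⟩
  obtain ⟨H, hH, hH0, hθ⟩ := S36VG_exact q hx h
  have hS : coeffMap (Int.castRingHom (ZMod q)) (x - (qExpand ℤ q x) ^ q) =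
      - (((coeffMap (Int.castRingHom (ZMod q)) x) ^ q) ^ q - coeffMap (Int.castRingHom (ZMod q)) x) :=
    S36VG_rho_S q x
  refine ⟨S36VG_p q x a, H, S36VG_PhiY q x a, fun k => ?_, S36VG_p_top q, ?_, fun k _ hk => ?_,
    hH, hH0, ?_, ?_, ?_, ?_, hθ, S36VG_p_zero q, rfl⟩
  · exact S36VG_p_mem q x a _ (Subring.subset_closure (by simp))
      (Subring.subset_closure (by simp [S36VG_y])) k
  · have h1 := S36VG_root q hx h
    have e : S36VG_z q x = qExpand ℤ (q * q) x := by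
      rw [S36VG_z, qExpand_qExpand]
    rw [e] at h1
    exact h1
  · exact S36VM_ker q _ (S36VG_rho_p_low q hx h k hk)
  · rw [hS, neg_ne_zero]
    exact S36VG_c_ne_zero q hx
  · apply S36VM_ker q
    rw [map_sub, S36VG_rho_p_top q hx h, hS, sub_self]
  · exact S36VG_PhiY_mem q x a _ (Subring.subset_closure (by simp))
      (Subring.subset_closure (by simp [S36VG_y]))
  · apply S36VM_ker q
    rw [map_add, S36VG_rho_PhiY q hx h, hS]
    ring

end Fermat.Agent.S36_helper1_VMIDG
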