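import Fermat.Agent.S36_helper1_KRON
import Fermat.Agent.S36_helper1_THETA
import Fermat.Agent.S34_helper24_QPOWC

set_option autoImplicit false
set_option linter.unusedSectionVars false
set_option linter.unusedVariables false
set_option linter.style.haveILetI false

open Polynomial ModularCurve
open Fermat.Agent.S36_helper1_KRON Fermat.Agent.S36_helper1_THETA

noncomputable section

namespace Fermat.Agent.S36_helper1_VMID

/-! ### The kernel of the reduction modulo `q` on `ℤ((Q))` -/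

theorem S36VM_ker (q : ℕ) (x : LaurentSeries ℤ)
    (h : coeffMap (Int.castRingHom (ZMod q)) x = 0) :
    ∃ e : LaurentSeries ℤ, x = (q : LaurentSeries ℤ) * e := by
  have hdvd : ∀ n, (q : ℤ) ∣ x.coeff n := by
    intro n
    have h1 := congrArg (fun s : LaurentSeries (ZMod q) => s.coeff n) h
    simp only [coeffMap_coeff, HahnSeries.coeff_zero, eq_intCast] at h1
    exact (ZMod.intCast_zmod_eq_zero_iff_dvd _ _).1 h1
  refine ⟨⟨fun n => x.coeff n / (q : ℤ), x.isPWO_support.mono ?_⟩, ?_⟩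
  · intro n hn
    simp only [Function.mem_support, ne_eq] at hn
    rw [HahnSeries.mem_support]
    intro h0
    exact hn (by rw [h0, Int.zero_ediv])
  · ext n
    rw [show ((q : ℕ) : LaurentSeries ℤ) = HahnSeries.C ((q : ℕ) : ℤ) by rw [map_natCast],
      HahnSeries.C_mul_eq_smul, HahnSeries.coeff_smul, smul_eq_mul]
    exact (Int.mul_ediv_cancel' (hdvd n)).symm

theorem S36VM_natCast_zero (q : ℕ) [Fact q.Prime] : ((q : ℕ) : LaurentSeries (ZMod q)) = 0 := by
  rw [show ((q : ℕ) : LaurentSeries (ZMod q)) = HahnSeries.C ((q : ℕ) : ZMod q) by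
    rw [map_natCast], ZMod.natCast_self, map_zero]

theorem S36VM_charP (q : ℕ) [Fact q.Prime] : CharP (LaurentSeries (ZMod q)) q :=
  charP_of_injective_algebraMap (algebraMap (ZMod q) (LaurentSeries (ZMod q))).injective q

/-! ### The polynomial `Ψ(j_q, Y)` and its Taylor expansion at `Y = j` -/

section Poly

variable (q : ℕ) [hqf : Fact q.Prime] (a : ℕ → ℤ[X])

local notation "Lz" => LaurentSeries ℤ
local notation "Lk" => LaurentSeries (ZMod q)

/-- `j` over `ℤ` -/
abbrev S36VM_J : LaurentSeries ℤ := jqModC ℤ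

/-- `j(Q^q)` over `ℤ` -/
def S36VM_Jq : LaurentSeries ℤ :=
  haveI : NeZero q := ⟨hqf.out.ne_zero⟩
  qExpand ℤ q (jqModC ℤ)

/-- `j(Q^(q²))` over `ℤ` -/
def S36VM_Jqq : LaurentSeries ℤ :=
  haveI : NeZero q := ⟨hqf.out.ne_zero⟩
  qExpand ℤ q (qExpand ℤ q (jqModC ℤ))

/-- the coefficients `a_i(j_q)` -/
def S36VM_cz (i : ℕ) : LaurentSeries ℤ :=
  eval₂ (Int.castRingHom (LaurentSeries ℤ)) (S36VM_Jq q) (a i)

/-- `Ψ(j_q, Y)` -/
def S36VM_psi : (LaurentSeries ℤ)[X] :=
  X ^ (q + 1) + ∑ i ∈ Finset.range (q + 1), C (S36VM_cz q a i) * X ^ i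

theorem S36VM_psi_eval (y : LaurentSeries ℤ) :
    (S36VM_psi q a).eval y = y ^ (q + 1) + ∑ i ∈ Finset.range (q + 1), S36VM_cz q a i * y ^ i := by
  simp only [S36VM_psi, eval_add, eval_pow, eval_X, eval_finsetSum, eval_mul, eval_C]

variable {a}

theorem S36VM_psi_eval_J (h : S36VM_IsModEq q a) : (S36VM_psi q a).eval (jqModC ℤ) = 0 := by
  haveI : NeZero q := ⟨hqf.out.ne_zero⟩
  rw [S36VM_psi_eval]
  exact h.2

theorem S36VM_psi_eval_Jqq (h : S36VM_IsModEq q a) :
    (S36VM_psi q a).eval (S36VM_Jqq q) = 0 := by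
  haveI : NeZero q := ⟨hqf.out.ne_zero⟩
  rw [S36VM_psi_eval]
  have h1 := congrArg (qExpand ℤ q) h.1
  simp only [map_add, map_pow, map_sum, map_mul, map_zero,
    Fermat.Agent.S34_helper14_MEW.S34MEW_map_eval₂] at h1
  exact h1

theorem S36VM_psi_rest_degree :
    (∑ i ∈ Finset.range (q + 1), C (S36VM_cz q a i) * X ^ i).degree < ((q + 1 : ℕ) : WithBot ℕ) := by
  refine (degree_sum_le _ _).trans_lt ?_
  rw [Finset.sup_lt_iff (WithBot.bot_lt_coe _)]
  intro i hi
  exact (degree_C_mul_X_pow_le i _).trans_lt (by exact_mod_cast Finset.mem_range.1 hi)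

theorem S36VM_psi_monic : (S36VM_psi q a).Monic :=
  monic_X_pow_add (S36VM_psi_rest_degree q)

theorem S36VM_psi_natDegree : (S36VM_psi q a).natDegree = q + 1 := by
  have h1 : (S36VM_psi q a).degree = ((q + 1 : ℕ) : WithBot ℕ) := by
    rw [S36VM_psi, degree_add_eq_left_of_degree_lt]
    · exact degree_X_pow _
    · rw [degree_X_pow]
      exact S36VM_psi_rest_degree q
  exact natDegree_eq_of_degree_eq_some h1

variable (a)

/-- the Taylor expansion `Ψ(j_q, j + T)` -/
def S36VM_F : (LaurentSeries ℤ)[X] := taylor (jqModC ℤ) (S36VM_psi q a)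

/-- the coefficients of `P(T) = Ψ(j_q, j + T) / T` -/
def S36VM_p (k : ℕ) : LaurentSeries ℤ := (S36VM_F q a).coeff (k + 1)

variable {a}

theorem S36VM_p_top : S36VM_p q a q = 1 := by
  have h1 : (S36VM_F q a).natDegree = q + 1 := by
    rw [S36VM_F, natDegree_taylor, S36VM_psi_natDegree]
  have h2 : (S36VM_F q a).leadingCoeff = 1 := by
    rw [S36VM_F, leadingCoeff_taylor]
    exact S36VM_psi_monic q
  rw [S36VM_p, ← h1]
  exact h2

theorem S36VM_t_ne_zero : S36VM_Jqq q - jqModC ℤ ≠ 0 := by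
  haveI : NeZero q := ⟨hqf.out.ne_zero⟩
  intro h0
  have h1 := congrArg (fun s : LaurentSeries ℤ => s.coeff (-1)) h0
  simp only [HahnSeries.coeff_sub, HahnSeries.coeff_zero, coeff_jqModC_neg_one] at h1
  rw [S36VM_Jqq, qExpand_coeff_of_not_dvd] at h1
  · simp at h1
  · intro hd
    have h2 : (q : ℤ) ∣ 1 := (dvd_neg (a := (q : ℤ)) (b := 1)).mp hd
    have h3 : q ∣ 1 := by exact_mod_cast h2
    exact hqf.out.one_lt.ne' (Nat.dvd_one.mp h3)

theorem S36VM_root (h : S36VM_IsModEq q a) :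
    ∑ k ∈ Finset.range (q + 1), S36VM_p q a k * (S36VM_Jqq q - jqModC ℤ) ^ k = 0 := by
  set t := S36VM_Jqq q - jqModC ℤ with ht
  have h1 : (S36VM_F q a).eval t = 0 := by
    rw [S36VM_F, taylor_eval, ht, sub_add_cancel]
    exact S36VM_psi_eval_Jqq q h
  have h2 : (S36VM_F q a).natDegree < q + 2 := by
    rw [S36VM_F, natDegree_taylor, S36VM_psi_natDegree]
    omega
  rw [eval_eq_sum_range' h2, Finset.sum_range_succ'] at h1
  have h3 : (S36VM_F q a).coeff 0 = 0 := by
    rw [S36VM_F, taylor_coeff_zero]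
    exact S36VM_psi_eval_J q h
  rw [h3, zero_mul, add_zero] at h1
  have h4 : t * ∑ k ∈ Finset.range (q + 1), S36VM_p q a k * t ^ k = 0 := by
    rw [← h1, Finset.mul_sum]
    refine Finset.sum_congr rfl (fun k _ => ?_)
    rw [S36VM_p, pow_succ]
    ring
  rcases mul_eq_zero.1 h4 with h5 | h5
  · exact absurd h5 (S36VM_t_ne_zero q)
  · exact h5

end Poly

end Fermat.Agent.S36_helper1_VMID
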