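import Fermat.Agent.S36_helper1_VMIDa

set_option autoImplicit false
set_option linter.unusedSectionVars false
set_option linter.unusedVariables false
set_option linter.style.haveILetI false

open Polynomial ModularCurve
open Fermat.Agent.S36_helper1_KRON Fermat.Agent.S36_helper1_THETA

noncomputable section

namespace Fermat.Agent.S36_helper1_VMID

section Red

variable (q : ℕ) [hqf : Fact q.Prime] {a : ℕ → ℤ[X]}

theorem S36VM_rho_J :
    coeffMap (Int.castRingHom (ZMod q)) (jqModC ℤ) = jqModC (ZMod q) :=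
  Fermat.Agent.S34_helper14_MEW.S34MEW_coeffMap_j

theorem S36VM_rho_Jq :
    coeffMap (Int.castRingHom (ZMod q)) (S36VM_Jq q) = (jqModC (ZMod q)) ^ q := by
  haveI : NeZero q := ⟨hqf.out.ne_zero⟩
  rw [S36VM_Jq, Fermat.Agent.S34_helper14_MEW.S34MEW_coeffMap_theta, S36VM_frob]

theorem S36VM_rho_cz (i : ℕ) :
    coeffMap (Int.castRingHom (ZMod q)) (S36VM_cz q a i) =
      eval₂ (Int.castRingHom (LaurentSeries (ZMod q))) ((jqModC (ZMod q)) ^ q) (a i) := by
  rw [S36VM_cz, Fermat.Agent.S34_helper14_MEW.S34MEW_map_eval₂, S36VM_rho_Jq]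

theorem S36VM_map_taylor {R S : Type*} [CommRing R] [CommRing S] (φ : R →+* S) (r : R)
    (f : R[X]) : (taylor r f).map φ = taylor (φ r) (f.map φ) := by
  rw [taylor_apply, taylor_apply, Polynomial.map_comp, Polynomial.map_add, map_X, map_C]

/-- **reduction of `Ψ(j_q, Y)`**: `(Y - j^(q²)) (Y - j)^q` -/
theorem S36VM_psi_map (h : S36VM_IsModEq q a) :
    (S36VM_psi q a).map (coeffMap (Int.castRingHom (ZMod q))) =
      (X - C (((jqModC (ZMod q)) ^ q) ^ q)) * (X - C (jqModC (ZMod q))) ^ q := by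
  have hq2 : 2 ≤ q := hqf.out.two_le
  haveI := S36VM_charP q
  obtain ⟨h0, h1, h2, h3⟩ := S36VM_kron_eval q (LaurentSeries (ZMod q)) h ((jqModC (ZMod q)) ^ q)
  rw [S36VM_psi, Polynomial.map_add, Polynomial.map_pow, map_X, Polynomial.map_sum]
  rw [S36VM_sum_shape hq2 _ (fun i hi2 hiq => by
    rw [Polynomial.map_mul, map_C, S36VM_rho_cz, h3 i hi2 hiq, map_zero, zero_mul])]
  simp only [Polynomial.map_mul, map_C, S36VM_rho_cz, h0, h1, h2, Polynomial.map_pow, map_X]
  rw [sub_pow_char]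
  simp only [map_neg, map_pow]
  ring

/-- **reduction of `Ψ(j_q, j + T)`**: `(T - c) T^q`, `c = j^(q²) - j` -/
theorem S36VM_F_map (h : S36VM_IsModEq q a) :
    (S36VM_F q a).map (coeffMap (Int.castRingHom (ZMod q))) =
      (X - C (((jqModC (ZMod q)) ^ q) ^ q - jqModC (ZMod q))) * X ^ q := by
  rw [S36VM_F, S36VM_map_taylor, S36VM_rho_J, S36VM_psi_map q h, taylor_mul, taylor_pow,
    map_sub, map_sub, taylor_X, taylor_C, taylor_C, add_sub_cancel_right, C_sub]
  ring

theorem S36VM_c_ne_zero : ((jqModC (ZMod q)) ^ q) ^ q - jqModC (ZMod q) ≠ 0 := by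
  intro h0
  exact Fermat.Agent.S34_helper24_QPOWC.S34QP_jq_not_pow (ZMod q) q _ (sub_eq_zero.1 h0)

theorem S36VM_rho_p (h : S36VM_IsModEq q a) (k : ℕ) :
    coeffMap (Int.castRingHom (ZMod q)) (S36VM_p q a k) =
      if q ≤ k + 1 then
        ((X : (LaurentSeries (ZMod q))[X]) -
          C (((jqModC (ZMod q)) ^ q) ^ q - jqModC (ZMod q))).coeff (k + 1 - q)
      else 0 := by
  rw [S36VM_p, ← coeff_map, S36VM_F_map q h, coeff_mul_X_pow']

theorem S36VM_rho_p_low (h : S36VM_IsModEq q a) (k : ℕ) (hk : k + 2 ≤ q) :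
    coeffMap (Int.castRingHom (ZMod q)) (S36VM_p q a k) = 0 := by
  rw [S36VM_rho_p q h, if_neg (by omega)]

theorem S36VM_rho_p_top (h : S36VM_IsModEq q a) :
    coeffMap (Int.castRingHom (ZMod q)) (S36VM_p q a (q - 1)) =
      - (((jqModC (ZMod q)) ^ q) ^ q - jqModC (ZMod q)) := by
  have hq2 : 2 ≤ q := hqf.out.two_le
  rw [S36VM_rho_p q h, if_pos (by omega), show q - 1 + 1 - q = 0 by omega, coeff_sub,
    coeff_X_zero, coeff_C_zero, zero_sub]

end Red

end Fermat.Agent.S36_helper1_VMID
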