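import Fermat.Agent.S36_helper1_VMIDb

set_option autoImplicit false
set_option linter.unusedSectionVars false
set_option linter.unusedVariables false
set_option linter.style.haveILetI false

open Polynomial ModularCurve
open Fermat.Agent.S36_helper1_KRON Fermat.Agent.S36_helper1_THETA

noncomputable section

namespace Fermat.Agent.S36_helper1_VMID

section Exact

variable (q : ℕ) [hqf : Fact q.Prime] {a : ℕ → ℤ[X]}

/-- `Ψ_X(j_q, j)` -/
def S36VM_PsiX (a : ℕ → ℤ[X]) : LaurentSeries ℤ :=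
  ∑ i ∈ Finset.range (q + 1),
    eval₂ (Int.castRingHom (LaurentSeries ℤ)) (S36VM_Jq q) (derivative (a i)) * (jqModC ℤ) ^ i

theorem S36VM_p_zero :
    S36VM_p q a 0 = ((q + 1 : ℕ) : LaurentSeries ℤ) * (jqModC ℤ) ^ q +
      ∑ i ∈ Finset.range (q + 1), S36VM_cz q a i * ((i : LaurentSeries ℤ) * (jqModC ℤ) ^ (i - 1)) := by
  rw [S36VM_p, S36VM_F, zero_add, taylor_coeff_one, S36VM_psi, derivative_add, derivative_X_pow,
    derivative_sum, eval_add, eval_mul, eval_pow, eval_X, eval_finsetSum, Nat.add_sub_cancel]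
  congr 1
  · simp
  · refine Finset.sum_congr rfl (fun i _ => ?_)
    rw [derivative_C_mul_X_pow, eval_mul, eval_pow, eval_X, eval_C]
    ring

/-- **the `θ`-identity** `P(0) θj = - q Ψ_X(j_q, j) (θj)(Q^q)` -/
theorem S36VM_theta_id (h : S36VM_IsModEq q a) :
    haveI : NeZero q := ⟨hqf.out.ne_zero⟩
    S36VM_p q a 0 * S36VM_theta (jqModC ℤ) +
      (q : LaurentSeries ℤ) * (qExpand ℤ q (S36VM_theta (jqModC ℤ)) * S36VM_PsiX q a) = 0 := by
  haveI : NeZero q := ⟨hqf.out.ne_zero⟩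
  have h2 := congrArg S36VM_theta h.2
  rw [S36VM_theta_zero, S36VM_theta_add, S36VM_theta_pow, S36VM_theta_sum,
    Nat.add_sub_cancel] at h2
  rw [S36VM_p_zero, S36VM_PsiX, ← h2, add_mul, Finset.sum_mul, Finset.mul_sum, Finset.mul_sum,
    add_assoc, ← Finset.sum_add_distrib]
  congr 1
  refine Finset.sum_congr rfl (fun i _ => ?_)
  rw [S36VM_theta_mul, S36VM_theta_pow, S36VM_theta_eval₂, S36VM_theta_qExpand]
  rw [S36VM_cz, S36VM_Jq]
  ring

theorem S36VM_rho_theta_ne :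
    coeffMap (Int.castRingHom (ZMod q)) (S36VM_theta (jqModC ℤ)) ≠ 0 := by
  intro h0
  have h1 := congrArg (fun s : LaurentSeries (ZMod q) => s.coeff (-1)) h0
  simp only [coeffMap_coeff, S36VM_theta_coeff, coeff_jqModC_neg_one, HahnSeries.coeff_zero]
    at h1
  simp at h1

theorem S36VM_rho_PsiX (h : S36VM_IsModEq q a) :
    coeffMap (Int.castRingHom (ZMod q)) (S36VM_PsiX q a) =
      ((jqModC (ZMod q)) ^ q) ^ q - jqModC (ZMod q) := by
  have hq2 : 2 ≤ q := hqf.out.two_le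
  haveI := S36VM_charP q
  obtain ⟨h0, h1, h2, h3⟩ := S36VM_kron_deriv q (LaurentSeries (ZMod q)) h ((jqModC (ZMod q)) ^ q)
  rw [S36VM_PsiX, map_sum]
  rw [S36VM_sum_shape hq2 _ (fun i hi2 hiq => by
    rw [map_mul, Fermat.Agent.S34_helper14_MEW.S34MEW_map_eval₂, S36VM_rho_Jq,
      h3 i hi2 hiq, zero_mul])]
  simp only [map_mul, Fermat.Agent.S34_helper14_MEW.S34MEW_map_eval₂, S36VM_rho_Jq, h0, h1, h2,
    map_pow, S36VM_rho_J]
  ring

/-- **(H) exactness**: `P(0) = q H` with `H ≠ 0` modulo `q` -/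
theorem S36VM_exact (h : S36VM_IsModEq q a) :
    ∃ H : LaurentSeries ℤ, S36VM_p q a 0 = (q : LaurentSeries ℤ) * H ∧
      coeffMap (Int.castRingHom (ZMod q)) H ≠ 0 := by
  haveI : NeZero q := ⟨hqf.out.ne_zero⟩
  have hid := S36VM_theta_id q h
  -- `ρ (P(0)) = 0`
  have h1 : coeffMap (Int.castRingHom (ZMod q)) (S36VM_p q a 0) = 0 := by
    have h2 := congrArg (coeffMap (Int.castRingHom (ZMod q))) hid
    rw [map_add, map_mul, map_mul, map_natCast, S36VM_natCast_zero, zero_mul, add_zero,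
      map_zero] at h2
    rcases mul_eq_zero.1 h2 with h3 | h3
    · exact h3
    · exact absurd h3 (S36VM_rho_theta_ne q)
  obtain ⟨H, hH⟩ := S36VM_ker q _ h1
  refine ⟨H, hH, fun hH0 => ?_⟩
  rw [hH, mul_assoc, ← mul_add] at hid
  have hq0 : ((q : ℕ) : LaurentSeries ℤ) ≠ 0 := by
    rw [show ((q : ℕ) : LaurentSeries ℤ) = HahnSeries.C ((q : ℕ) : ℤ) by rw [map_natCast]]
    intro h0
    rw [← map_zero (HahnSeries.C : ℤ →+* LaurentSeries ℤ)] at h0
    have := HahnSeries.C_injective h0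
    exact hqf.out.ne_zero (by exact_mod_cast this)
  have h4 := (mul_eq_zero.1 hid).resolve_left hq0
  have h5 := congrArg (coeffMap (Int.castRingHom (ZMod q))) h4
  rw [map_add, map_mul, map_mul, hH0, zero_mul, zero_add, map_zero, S36VM_rho_PsiX q h,
    coeffMap_qExpand] at h5
  rcases mul_eq_zero.1 h5 with h6 | h6
  · exact S36VM_rho_theta_ne q ((map_eq_zero_iff _ (qExpand_injective q)).1 h6)
  · exact S36VM_c_ne_zero q h6

end Exact

end Fermat.Agent.S36_helper1_VMID
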