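import Fermat.Agent.S36_helper1_VMIDd

set_option autoImplicit false
set_option linter.unusedSectionVars false
set_option linter.unusedVariables false
set_option linter.style.haveILetI false

open Polynomial ModularCurve
open Fermat.Agent.S36_helper1_KRON Fermat.Agent.S36_helper1_THETA
open Fermat.Agent.S18_helper13_GAUSS Fermat.Agent.S18_helper25_COREDefs
open Fermat.Agent.S34_helper20_V0K

noncomputable section

namespace Fermat.Agent.S36_helper1_VMID

variable (A : ValuationSubring (AlgebraicClosure ℚ))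
  (K1 : IntermediateField ℚ (AlgebraicClosure ℚ)) [IsDiscreteValuationRing (S18K_O1 A K1)]

theorem S36VM_iota_mem_F (q M' : ℕ) [NeZero q] [NeZero M'] {x : LaurentSeries ℤ}
    (hx : x ∈ Subring.closure ({jqModC ℤ, qExpand ℤ q (jqModC ℤ)} : Set (LaurentSeries ℤ))) :
    coeffMap (Int.castRingHom K1) x ∈ modularFunctionFieldFullC K1 (M' * q) := by
  haveI : NeZero (M' * q) := NeZero.mul
  have hle : Subring.closure ({jqModC ℤ, qExpand ℤ q (jqModC ℤ)} : Set (LaurentSeries ℤ)) ≤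
      (S18K_F1 K1 (M' * q)).toSubring.comap (coeffMap (Int.castRingHom K1)) := by
    rw [Subring.closure_le]
    intro y hy
    rcases hy with rfl | hy
    · show coeffMap (Int.castRingHom K1) (jqModC ℤ) ∈ modularFunctionFieldFullC K1 (M' * q)
      rw [coeffMap_jqModC]
      exact jqModC_mem_full K1 (M' * q)
    · rw [Set.mem_singleton_iff] at hy
      subst hy
      show coeffMap (Int.castRingHom K1) (qExpand ℤ q (jqModC ℤ)) ∈
        modularFunctionFieldFullC K1 (M' * q)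
      rw [coeffMap_qExpand, coeffMap_jqModC]
      exact jqModCd_mem_full K1 (M' * q) (dvd_mul_left q M')
  exact hle hx

theorem S36VM_natCast_mem_F (N n : ℕ) :
    ((n : ℕ) : LaurentSeries K1) ∈ modularFunctionFieldFullC K1 N :=
  natCast_mem _ n

/-- **the concrete form**: the Eisenstein-type polynomial of `t = j(Q^(q²)) - j` over the Gauss
ring of level `M' q` -/
theorem S36VM_main (q M' : ℕ) [NeZero q] [NeZero (q * q)] [NeZero M'] (hq : q.Prime)
    (hA : A.LiesOverPrime q) :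
    ∃ (p : ℕ → LaurentSeries K1) (H : LaurentSeries K1),
      (∀ k, p k ∈ S18K_V A K1 (M' * q)) ∧ p q = 1 ∧
      (∑ k ∈ Finset.range (q + 1),
        p k * (qExpand K1 (q * q) (jqModC K1) - jqModC K1) ^ k = 0) ∧
      (∀ k, 1 ≤ k → k + 2 ≤ q → ∃ e ∈ S18K_V A K1 (M' * q), p k = (q : LaurentSeries K1) * e) ∧
      H ∈ S18K_V A K1 (M' * q) ∧ H⁻¹ ∈ S18K_V A K1 (M' * q) ∧
      p 0 = (q : LaurentSeries K1) * H ∧ (p (q - 1))⁻¹ ∈ S18K_V A K1 (M' * q) := by
  haveI : Fact q.Prime := ⟨hq⟩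
  haveI : CharP (IsLocalRing.ResidueField A) q := S34V0K_charP A hq hA
  haveI : NeZero (M' * q) := NeZero.mul
  obtain ⟨p, H, hpm, hpq, hroot, hmid, hp0, hH, hpt⟩ := S36VM_poly q hq
  set ι := coeffMap (Int.castRingHom K1) with hι
  have hq0 : ((q : ℕ) : LaurentSeries K1) ≠ 0 := by
    rw [show ((q : ℕ) : LaurentSeries K1) = HahnSeries.C ((q : ℕ) : K1) by rw [map_natCast]]
    intro h0
    rw [← map_zero (HahnSeries.C : K1 →+* LaurentSeries K1)] at h0
    have := HahnSeries.C_injective h0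
    exact hq.ne_zero (by exact_mod_cast this)
  have hpF : ∀ k, ι (p k) ∈ modularFunctionFieldFullC K1 (M' * q) :=
    fun k => S36VM_iota_mem_F K1 q M' (hpm k)
  -- division by `q` stays in `F1`
  have hdiv : ∀ x e : LaurentSeries ℤ, x = (q : LaurentSeries ℤ) * e →
      ι x ∈ modularFunctionFieldFullC K1 (M' * q) →
      ι x = (q : LaurentSeries K1) * ι e ∧ ι e ∈ modularFunctionFieldFullC K1 (M' * q) := by
    intro x e hxe hx
    have h1 : ι x = (q : LaurentSeries K1) * ι e := by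
      rw [hxe, map_mul, map_natCast]
    refine ⟨h1, ?_⟩
    have h2 : ι e = ((q : ℕ) : LaurentSeries K1)⁻¹ * ι x := by
      rw [h1, ← mul_assoc, inv_mul_cancel₀ hq0, one_mul]
    rw [h2]
    exact mul_mem (inv_mem (S36VM_natCast_mem_F K1 _ q)) hx
  refine ⟨fun k => ι (p k), ι H, fun k => ⟨S36VM_iota_mem (S18K_D A K1) _, hpF k⟩, ?_, ?_,
    fun k hk1 hk2 => ?_, ?_, ?_, ?_, ?_⟩
  · show ι (p q) = 1
    rw [hpq, map_one]
  · have h1 := congrArg ι hroot
    rw [map_sum, map_zero] at h1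
    rw [← h1]
    refine Finset.sum_congr rfl (fun k _ => ?_)
    rw [map_mul, map_pow, map_sub, hι, coeffMap_qExpand, coeffMap_jqModC]
  · obtain ⟨e, he⟩ := hmid k hk1 hk2
    obtain ⟨h1, h2⟩ := hdiv _ e he (hpF k)
    exact ⟨ι e, ⟨S36VM_iota_mem (S18K_D A K1) _, h2⟩, h1⟩
  · exact ⟨S36VM_iota_mem (S18K_D A K1) _, (hdiv _ H hp0 (hpF 0)).2⟩
  · exact ⟨(S36VM_iota_unit (S18K_D A K1) q H hH).2,
      show _ ∈ modularFunctionFieldFullC K1 (M' * q) from inv_mem (hdiv _ H hp0 (hpF 0)).2⟩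
  · exact (hdiv _ H hp0 (hpF 0)).1
  · exact ⟨(S36VM_iota_unit (S18K_D A K1) q _ hpt).2,
      show _ ∈ modularFunctionFieldFullC K1 (M' * q) from inv_mem (hpF (q - 1))⟩

/-- `t = j(Q^(q²)) - j` is a unit of the Gauss ring (so `V_mid ≠ V_∞`) -/
theorem S36VM_t_unit (q : ℕ) [NeZero q] [NeZero (q * q)] (hq : q.Prime)
    (hA : A.LiesOverPrime q) :
    (qExpand K1 (q * q) (jqModC K1) - jqModC K1) ∈ (S18K_D A K1).Vring ∧
      (qExpand K1 (q * q) (jqModC K1) - jqModC K1)⁻¹ ∈ (S18K_D A K1).Vring := by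
  haveI : Fact q.Prime := ⟨hq⟩
  haveI : CharP (IsLocalRing.ResidueField A) q := S34V0K_charP A hq hA
  have e : qExpand K1 (q * q) (jqModC K1) - jqModC K1 =
      coeffMap (Int.castRingHom K1) (qExpand ℤ (q * q) (jqModC ℤ) - jqModC ℤ) := by
    rw [map_sub, coeffMap_qExpand, coeffMap_jqModC]
  rw [e]
  refine ⟨S36VM_iota_mem (S18K_D A K1) _, (S36VM_iota_unit (S18K_D A K1) q _ ?_).2⟩
  rw [map_sub, coeffMap_qExpand, coeffMap_jqModC, ← qExpand_qExpand, S36VM_frob, map_pow,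
    S36VM_frob]
  exact S36VM_c_ne_zero q

end Fermat.Agent.S36_helper1_VMID
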