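import Fermat.Agent.S36_helper20_WQQ

/-!
# S36, piece CUSPQ (helper20): the embedding at the cusp `1/q` of `X₀(q² M')`

For `N = q² M'`, `q` prime, `q ∤ M'`, and a field `K` (with an embedding into `ℚ̄`) containing
a primitive `q`-th root of unity, the function field `F = K(j(Q^d) : d ∣ N) ⊆ K((Q))` has a ring
homomorphism `ι : F → K((Q))` (the expansion at the cusp `1/(q M')`) with

* `ι = id` on the constants and on the function field of level `q M'`
  (`ι (j(Q^d)) = j(Q^d)` for `d ∣ q M'`),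
* `ι (j(Q^(q² d'))) = j(u Q^(d'))` for `d' ∣ M'`, with `u ≠ 1` a `q`-th root of unity
  (depending on `d'`).

Analytic input: the landed S24 embedding `MASTER_inf N γ` for `γ = [[1, 0], [q M', 1]]` and the
expansion of `z ↦ j((a z + b) / d)` (`S37KE_laurentInf_tri`).
-/

set_option autoImplicit false
set_option linter.unusedSectionVars false
set_option linter.unusedVariables false
set_option linter.style.haveILetI false

noncomputable section

open UpperHalfPlane ModularForm CongruenceSubgroup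
open scoped MatrixGroups ModularForm Manifold Real
open ModularCurve Fermat.Agent.S20 Fermat.Agent.S24
open Fermat.Agent.S28_helper14_ADefs Fermat.Agent.S28_SUBST
open Fermat.Agent.S37_helper20_KAPPAEMB Fermat.Agent.S34_helper20_WQ

namespace Fermat.Agent.S36_helper20_CUSPQ

/-! ### Part 1: the matrices -/

section Matrix

/-- the matrix `[[1, 0], [q M', 1]]` -/
def S36CQ_gamma (q M' : ℕ) : SL(2, ℤ) :=
  ⟨!![1, 0; ((q * M' : ℕ) : ℤ), 1], by
    rw [Matrix.det_fin_two_of]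
    ring⟩

/-- the matrix `[[q, y], [c, w]]` of determinant `q w - y c = 1` -/
def S36CQ_sigma (q c : ℕ) (y w : ℤ) (h : (q : ℤ) * w - y * (c : ℤ) = 1) : SL(2, ℤ) :=
  ⟨!![(q : ℤ), y; (c : ℤ), w], by
    rw [Matrix.det_fin_two_of]
    linear_combination h⟩

theorem S36CQ_gamma_mem (q M' : ℕ) : S36CQ_gamma q M' ∈ Gamma0 (q * M') := by
  rw [Gamma0_mem]
  show ((((q * M' : ℕ) : ℤ) : ℤ) : ZMod (q * M')) = 0
  rw [Int.cast_natCast]
  exact ZMod.natCast_self (q * M')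

/-- `j_d ∘ γ = j_d` for `d ∣ q M'` -/
theorem S36CQ_jd_old (q M' : ℕ) (hqM : 0 < q * M') {d : ℕ} (hd : d ∣ q * M') :
    jd d (S36CQ_gamma q M') = tri d 1 0 jfun := by
  have h1 := Fermat.Agent.S24_helper27_J1.jd_Gamma0 hd hqM (S36CQ_gamma q M')
    (S36CQ_gamma_mem q M') 1
  rw [mul_one] at h1
  rw [h1, Fermat.Agent.S24_helper24_JD.jd_one_eq_tri]

/-- `j_(q² d') ∘ γ = (z ↦ j((q d' z - y) / q))` for `M' = d' c`, `q w - y c = 1` -/
theorem S36CQ_jd_new (q M' : ℕ) (hq : 0 < q) {d' c : ℕ} (hd' : 0 < d') (hc : M' = d' * c)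
    (y w : ℤ) (h : (q : ℤ) * w - y * (c : ℤ) = 1) :
    jd (q ^ 2 * d') (S36CQ_gamma q M') = tri (q * d') q (-y) jfun := by
  funext z
  have hqd : 0 < q * d' := Nat.mul_pos hq hd'
  have hpos : 0 < (aff (q * d') q (-y) (z : ℂ)).im := aff_im_pos hqd hq (-y) z.im_pos
  rw [tri_apply, ofComplex_apply_of_im_pos hpos]
  unfold jd
  have key : dmul (q ^ 2 * d') (S36CQ_gamma q M' • z) =
      S36CQ_sigma q c y w h • (⟨aff (q * d') q (-y) (z : ℂ), hpos⟩ : ℍ) := by
    apply UpperHalfPlane.ext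
    rw [Fermat.Agent.S24_helper27_J1.dmul_coe (q ^ 2 * d') (Nat.mul_pos (pow_pos hq 2) hd'),
      UpperHalfPlane.coe_specialLinearGroup_apply, UpperHalfPlane.coe_specialLinearGroup_apply]
    have e00 : (S36CQ_gamma q M') 0 0 = 1 := rfl
    have e01 : (S36CQ_gamma q M') 0 1 = 0 := rfl
    have e10 : (S36CQ_gamma q M') 1 0 = ((q * M' : ℕ) : ℤ) := rfl
    have e11 : (S36CQ_gamma q M') 1 1 = 1 := rfl
    have f00 : (S36CQ_sigma q c y w h) 0 0 = (q : ℤ) := rfl
    have f01 : (S36CQ_sigma q c y w h) 0 1 = y := rfl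
    have f10 : (S36CQ_sigma q c y w h) 1 0 = (c : ℤ) := rfl
    have f11 : (S36CQ_sigma q c y w h) 1 1 = w := rfl
    rw [e00, e01, e10, e11, f00, f01, f10, f11]
    have hden : ((algebraMap ℤ ℝ (((q * M' : ℕ) : ℤ)) : ℝ) : ℂ) * (z : ℂ) +
        ((algebraMap ℤ ℝ (1 : ℤ) : ℝ) : ℂ) ≠ 0 := by
      have := UpperHalfPlane.denom_ne_zero ((S36CQ_gamma q M' : SL(2, ℤ)) : GL (Fin 2) ℝ) z
      rw [ModularGroup.denom_apply, e10, e11] at this
      simpa using this
    have hqc : (q : ℂ) ≠ 0 := by exact_mod_cast hq.ne'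
    have hdc : (d' : ℂ) ≠ 0 := by exact_mod_cast hd'.ne'
    have hM'c : (M' : ℂ) = (d' : ℂ) * (c : ℂ) := by exact_mod_cast congrArg (Nat.cast : ℕ → ℂ) hc
    have hC : (q : ℂ) * (w : ℂ) - (y : ℂ) * (c : ℂ) = 1 := by exact_mod_cast congrArg (Int.cast : ℤ → ℂ) h
    show _ = _ / (_ * (aff (q * d') q (-y) (z : ℂ)) + _)
    simp only [algebraMap_int_eq, Int.coe_castRingHom, Int.cast_mul, Int.cast_natCast,
      Complex.ofReal_mul, Complex.ofReal_intCast, Complex.ofReal_natCast, Int.cast_one,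
      Complex.ofReal_one, Int.cast_neg, Complex.ofReal_neg, one_mul, Nat.cast_mul,
      Int.cast_zero, Complex.ofReal_zero, zero_mul, add_zero, Nat.cast_pow] at hden ⊢
    unfold aff
    push_cast
    have hY : (q : ℂ) * (((q : ℂ) * (d' : ℂ) * (z : ℂ) + -(y : ℂ)) / (q : ℂ)) =
        (q : ℂ) * (d' : ℂ) * (z : ℂ) + -(y : ℂ) := mul_div_cancel₀ _ hqc
    have hX : (z : ℂ) / ((q : ℂ) * (M' : ℂ) * (z : ℂ) + 1) * ((q : ℂ) * (M' : ℂ) * (z : ℂ) + 1) =
        (z : ℂ) := div_mul_cancel₀ _ hden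
    generalize ((q : ℂ) * (d' : ℂ) * (z : ℂ) + -(y : ℂ)) / (q : ℂ) = Y at hY ⊢
    generalize (z : ℂ) / ((q : ℂ) * (M' : ℂ) * (z : ℂ) + 1) = X at hX ⊢
    have hden2 : (c : ℂ) * Y + (w : ℂ) ≠ 0 := by
      intro h0
      apply hden
      have e : (q : ℂ) * (M' : ℂ) * (z : ℂ) + 1 = (q : ℂ) * ((c : ℂ) * Y + (w : ℂ)) := by
        rw [hM'c]
        linear_combination (-(c : ℂ)) * hY - hC
      rw [e, h0, mul_zero]
    rw [eq_div_iff hden2]
    rw [hM'c] at hX
    linear_combination ((q : ℂ) * (d' : ℂ) * X * (c : ℂ) - 1) * hY +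
      ((q : ℂ) * (d' : ℂ) * X) * hC + ((q : ℂ) * (d' : ℂ)) * hX
  rw [key, Fermat.Agent.S24_helper27_J1.jfun_smul]

end Matrix

/-! ### Part 2: roots of unity -/

section Roots

/-- `exp(2πi b/q) = 1` forces `q ∣ b` -/
theorem S36CQ_w_eq_one {q : ℕ} (hq : 0 < q) {b : ℤ} (h : S37KE_w q b = 1) : (q : ℤ) ∣ b := by
  have h1 : ((S37KE_w q b : ℂˣ) : ℂ) = 1 := by rw [h]; rfl
  rw [S37KE_w_val, Complex.exp_eq_one_iff] at h1
  obtain ⟨n, hn⟩ := h1
  have hqc : (q : ℂ) ≠ 0 := by exact_mod_cast hq.ne'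
  have hpi : (2 * (π : ℂ) * Complex.I) ≠ 0 := Complex.two_pi_I_ne_zero
  have h2 : (b : ℂ) = (n : ℂ) * (q : ℂ) := by
    field_simp at hn
    linear_combination hn
  refine ⟨n, ?_⟩
  have h4 : ((b : ℤ) : ℂ) = (((q : ℤ) * n : ℤ) : ℂ) := by
    rw [h2]; push_cast; ring
  exact_mod_cast h4

/-- `exp(2πi (b d)/q) = exp(2πi b/q)^d` -/
theorem S36CQ_w_mul (q : ℕ) (b : ℤ) (d : ℕ) : S37KE_w q (b * (d : ℤ)) = S37KE_w q b ^ d := by
  apply Units.ext
  rw [Units.val_pow_eq_pow_val, S37KE_w_val, S37KE_w_val, ← Complex.exp_nat_mul]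
  congr 1
  push_cast
  ring

/-- a `q`-th root of unity of `ℂ` comes from `K` if `K` has a primitive one -/
theorem S36CQ_exists_unit {K : Type*} [Field K] (f : K →+* ℂ) {q : ℕ} (hq : 0 < q) (ζ : K)
    (hζ : IsPrimitiveRoot ζ q) (u : ℂˣ) (hu : (u : ℂ) ^ q = 1) :
    ∃ v : Kˣ, v ^ q = 1 ∧ Units.map (f : K →* ℂ) v = u := by
  haveI : NeZero q := ⟨hq.ne'⟩
  have h1 : IsPrimitiveRoot (f ζ) q := hζ.map_of_injective f.injective
  obtain ⟨i, -, hi⟩ := h1.eq_pow_of_pow_eq_one hu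
  have hζ0 : ζ ≠ 0 := hζ.ne_zero hq.ne'
  refine ⟨(Units.mk0 ζ hζ0) ^ i, ?_, ?_⟩
  · apply Units.ext
    rw [Units.val_pow_eq_pow_val, Units.val_pow_eq_pow_val, Units.val_mk0, Units.val_one,
      ← pow_mul, mul_comm, pow_mul, hζ.pow_eq_one, one_pow]
  · apply Units.ext
    rw [Units.coe_map, Units.val_pow_eq_pow_val, Units.val_mk0]
    show f (ζ ^ i) = (u : ℂ)
    rw [map_pow, hi]

end Roots

/-! ### Part 3: divisors of `q² M'` -/

section Divisors

/-- a divisor of `q² M'` (`q` prime, `q ∤ M'`) divides `q M'` or is `q² d'` with `d' ∣ M'` -/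
theorem S36CQ_cases {q M' d : ℕ} (hq : q.Prime) (hqM : ¬ q ∣ M') (hd : d ∣ q ^ 2 * M') :
    d ∣ q * M' ∨ ∃ d', d' ∣ M' ∧ d = q ^ 2 * d' := by
  obtain ⟨a, a', d', hQ, hd', rfl⟩ :=
    Fermat.Agent.S36_helper20_WQQ.S36WQ_decomp (Fermat.Agent.S36_helper20_WQQ.S36WQ_cop hq hqM) hd
  obtain ⟨k, hk, rfl⟩ := (Nat.dvd_prime_pow hq).1 (Dvd.intro a' hQ.symm)
  interval_cases k
  · left
    rw [pow_zero, one_mul]
    exact hd'.trans (dvd_mul_left M' q)
  · left
    rw [pow_one]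
    exact Nat.mul_dvd_mul_left q hd'
  · right
    exact ⟨d', hd', rfl⟩

end Divisors

/-! ### Part 4: the embedding -/

section Main

variable {K : Type*} [Field K] (emb : K →+* Kbar)

variable (q M' N : ℕ) [NeZero M'] [NeZero N]

/-- the images of the generators of level `q M'` under the translate embedding -/
theorem S36CQ_iota_old (hq : 0 < q) (hN : N = q ^ 2 * M')
    (ι : modularFunctionFieldBar N →+* LaurentSeries ℂ)
    (hι : ∀ (d : ℕ) [NeZero d] (hd : d ∣ N),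
      ι (jF N d hd) = laurentInf N (jd d (S36CQ_gamma q M')))
    (d : ℕ) [NeZero d] (hd1 : d ∣ q * M') (hd : d ∣ N) [NeZero (N * d)] :
    ι (jF N d hd) = qExpand ℂ (N * d) (jqModC ℂ) := by
  have hM'pos : 0 < M' := Nat.pos_of_ne_zero (NeZero.ne M')
  have hdpos : 0 < d := Nat.pos_of_ne_zero (NeZero.ne d)
  have hqM : 0 < q * M' := Nat.mul_pos hq hM'pos
  rw [hι d hd]
  have hdiff : MDifferentiable 𝓘(ℂ) 𝓘(ℂ) (tri d 1 0 jfun) := by
    rw [← S36CQ_jd_old q M' hqM hd1]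
    exact Fermat.Agent.S24_helper27_J1.jd_mdiff d hdpos _
  rw [S36CQ_jd_old q M' hqM hd1, S34WQ_laurentInf_tri N hdpos one_pos (one_dvd N) hdiff]
  haveI : NeZero (d * (N / 1)) := ⟨by
    rw [Nat.div_one]; exact Nat.mul_ne_zero hdpos.ne' (NeZero.ne N)⟩
  apply S34WQ_qExpand_congr
  rw [Nat.div_one, Nat.mul_comm]

/-- the images of the generators `j(Q^(q² d'))` under the translate embedding -/
theorem S36CQ_iota_new (hq : 0 < q) (hN : N = q ^ 2 * M')
    (ι : modularFunctionFieldBar N →+* LaurentSeries ℂ)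
    (hι : ∀ (d : ℕ) [NeZero d] (hd : d ∣ N),
      ι (jF N d hd) = laurentInf N (jd d (S36CQ_gamma q M')))
    (d' c : ℕ) [NeZero d'] (hc : M' = d' * c) (y w : ℤ)
    (h : (q : ℤ) * w - y * (c : ℤ) = 1)
    [NeZero (q ^ 2 * d')] (hd : q ^ 2 * d' ∣ N) [NeZero (N * d')] :
    ι (jF N (q ^ 2 * d') hd) = qExpand ℂ (N * d') (S37KE_tw ℂ (S37KE_w q (-y))) := by
  have hd'pos : 0 < d' := Nat.pos_of_ne_zero (NeZero.ne d')
  have hqd : 0 < q * d' := Nat.mul_pos hq hd'pos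
  rw [hι (q ^ 2 * d') hd]
  have hdiff : MDifferentiable 𝓘(ℂ) 𝓘(ℂ) (tri (q * d') q (-y) jfun) := by
    rw [← S36CQ_jd_new q M' hq hd'pos hc y w h]
    exact Fermat.Agent.S24_helper27_J1.jd_mdiff (q ^ 2 * d') (Nat.pos_of_ne_zero (NeZero.ne _)) _
  have hqN : q ∣ N := by
    rw [hN]
    exact Dvd.intro (q * M') (by ring)
  have hNq : N / q = q * M' := by
    rw [hN]
    have : q ^ 2 * M' = q * (q * M') := by ring
    rw [this, Nat.mul_div_cancel_left _ hq]
  rw [S36CQ_jd_new q M' hq hd'pos hc y w h]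
  exact S37KE_laurentInf_tri N hqd hq hqN (-y) (N * d') (by rw [hNq, hN]; ring) hdiff

include emb in
/-- **the embedding at the cusp `1/q`.** -/
theorem S36CQ_exists (hq : q.Prime) (hqM : ¬ q ∣ M') (hN : N = q ^ 2 * M') (ζ : K)
    (hζ : IsPrimitiveRoot ζ q) :
    ∃ ι : modularFunctionFieldFullC K N →+* LaurentSeries K,
      (∀ (c : K) (hc : HahnSeries.C c ∈ modularFunctionFieldFullC K N),
        ι ⟨HahnSeries.C c, hc⟩ = HahnSeries.C c) ∧
      (∀ (d : ℕ) [NeZero d] (hd : d ∣ q * M')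
        (hm : qExpand K d (jqModC K) ∈ modularFunctionFieldFullC K N),
        ι ⟨qExpand K d (jqModC K), hm⟩ = qExpand K d (jqModC K)) ∧
      ∃ u : Kˣ, u ^ q = 1 ∧ u ≠ 1 ∧
        (∀ (d' : ℕ) [NeZero d'] [NeZero (q ^ 2 * d')] (hd' : d' ∣ M')
          (hm : qExpand K (q ^ 2 * d') (jqModC K) ∈ modularFunctionFieldFullC K N),
          ι ⟨qExpand K (q ^ 2 * d') (jqModC K), hm⟩ = qExpand K d' (S37KE_tw K (u ^ d'))) := by
  have hM'pos : 0 < M' := Nat.pos_of_ne_zero (NeZero.ne M')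
  have hNpos : 0 < N := Nat.pos_of_ne_zero (NeZero.ne N)
  have hqpos : 0 < q := hq.pos
  obtain ⟨ι, hιC, hιj⟩ := Fermat.Agent.S24_helper17_EMB.MASTER_inf N (S36CQ_gamma q M')
  set Φ : modularFunctionFieldFullC K N →+* LaurentSeries ℂ :=
    ι.comp (Fermat.Agent.S18_helper26_DEGK1.S18DEG_inc emb N) with hΦ
  have hΦC : ∀ (c : K) (hc : HahnSeries.C c ∈ modularFunctionFieldFullC K N),
      Φ ⟨HahnSeries.C c, hc⟩ = S34WQ_psi emb N (HahnSeries.C c) := by
    intro c hc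
    have h2 : (⟨HahnSeries.C c, hc⟩ : modularFunctionFieldFullC K N) =
        algebraMap K (modularFunctionFieldFullC K N) c := by
      apply Subtype.ext
      show HahnSeries.C c = algebraMap K (LaurentSeries K) c
      rw [algebraMap_laurentSeries_eq_single, HahnSeries.C_apply]
    rw [hΦ, RingHom.comp_apply, h2,
      Fermat.Agent.S18_helper26_DEGK1.S18DEG_inc_algebraMap emb N c, hιC, S34WQ_psi_C]
  have hΦold : ∀ (d : ℕ) [NeZero d] (hd : d ∣ q * M')
      (hm : qExpand K d (jqModC K) ∈ modularFunctionFieldFullC K N),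
      Φ ⟨qExpand K d (jqModC K), hm⟩ = S34WQ_psi emb N (qExpand K d (jqModC K)) := by
    intro d _ hd hm
    haveI : NeZero (N * d) := ⟨Nat.mul_ne_zero hNpos.ne' (NeZero.ne d)⟩
    have hdN : d ∣ N := by
      rw [hN]
      exact hd.trans (Dvd.intro q (by ring))
    have h1 : Fermat.Agent.S18_helper26_DEGK1.S18DEG_inc emb N
        ⟨qExpand K d (jqModC K), hm⟩ = jF N d hdN :=
      Fermat.Agent.S18_helper26_DEGK1.S18DEG_inc_jbard emb N d hdN
    rw [hΦ, RingHom.comp_apply, h1, S36CQ_iota_old q M' N hqpos hN ι hιj d hd hdN,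
      S34WQ_psi_gen]
  -- the root of unity
  have hcop0 : Nat.Coprime q M' := (Nat.Prime.coprime_iff_not_dvd hq).mpr hqM
  have hcopZ : IsCoprime (q : ℤ) (M' : ℤ) := Nat.isCoprime_iff_coprime.mpr hcop0
  obtain ⟨a, b, hab⟩ := hcopZ
  have hu1 : ((S37KE_w q b : ℂˣ) : ℂ) ^ q = 1 := S37KE_w_pow_val q hqpos _
  have hu2 : S37KE_w q b ≠ 1 := by
    intro h0
    have hdvd : (q : ℤ) ∣ b := S36CQ_w_eq_one hqpos h0
    have h3 : (q : ℤ) ∣ 1 := by
      rw [← hab]
      exact dvd_add (Dvd.intro_left a rfl) (Dvd.dvd.mul_right hdvd _)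
    have h4 : q ∣ 1 := by exact_mod_cast h3
    exact hq.one_lt.ne' (Nat.dvd_one.mp h4)
  obtain ⟨v, hv1, hv2⟩ := S36CQ_exists_unit (phi0.comp emb) hqpos ζ hζ (S37KE_w q b) hu1
  have hv3 : v ≠ 1 := by
    intro h0
    apply hu2
    rw [← hv2, h0, map_one]
  have hΦnew : ∀ (d' : ℕ) [NeZero d'] [NeZero (q ^ 2 * d')] (hd' : d' ∣ M')
      (hm : qExpand K (q ^ 2 * d') (jqModC K) ∈ modularFunctionFieldFullC K N),
      Φ ⟨qExpand K (q ^ 2 * d') (jqModC K), hm⟩ =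
        S34WQ_psi emb N (qExpand K d' (S37KE_tw K (v ^ d'))) := by
    intro d' _ _ hd' hm
    haveI : NeZero (N * d') := ⟨Nat.mul_ne_zero hNpos.ne' (NeZero.ne d')⟩
    obtain ⟨c, hc⟩ := hd'
    -- `w := a`, `y := -(b d')`
    have h : (q : ℤ) * a - (-(b * (d' : ℤ))) * (c : ℤ) = 1 := by
      have hM : (M' : ℤ) = (d' : ℤ) * (c : ℤ) := by exact_mod_cast hc
      rw [hM] at hab
      linear_combination hab
    have hdN : q ^ 2 * d' ∣ N := by
      rw [hN, hc]
      exact Dvd.intro c (by ring)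
    have h1 : Fermat.Agent.S18_helper26_DEGK1.S18DEG_inc emb N
        ⟨qExpand K (q ^ 2 * d') (jqModC K), hm⟩ = jF N (q ^ 2 * d') hdN :=
      Fermat.Agent.S18_helper26_DEGK1.S18DEG_inc_jbard emb N (q ^ 2 * d') hdN
    rw [hΦ, RingHom.comp_apply, h1,
      S36CQ_iota_new q M' N hqpos hN ι hιj d' c hc (-(b * (d' : ℤ))) a h hdN]
    rw [S34WQ_psi, RingHom.comp_apply, coeffMap_qExpand, S37KE_coeffMap_tw, qExpand_qExpand,
      map_pow, hv2, neg_neg, S36CQ_w_mul]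
  -- every generator goes into the range of `ψ`
  have hgen : ∀ (d : ℕ) [NeZero d] (hd : d ∣ N)
      (hm : qExpand K d (jqModC K) ∈ modularFunctionFieldFullC K N),
      ∃ x : LaurentSeries K, Φ ⟨qExpand K d (jqModC K), hm⟩ = S34WQ_psi emb N x := by
    intro d hd0 hd hm
    rcases S36CQ_cases hq hqM (hN ▸ hd) with h1 | ⟨d', hd', rfl⟩
    · exact ⟨_, hΦold d h1 hm⟩
    · have hd'pos : 0 < d' :=
        Nat.pos_of_mul_pos_left (Nat.pos_of_ne_zero (NeZero.ne (q ^ 2 * d')))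
      haveI : NeZero d' := ⟨hd'pos.ne'⟩
      exact ⟨_, hΦnew d' hd' hm⟩
  have hex : ∀ y, ∃ x, S34WQ_psi emb N x = Φ y := by
    intro y
    have hmem : Φ y ∈ (S34WQ_psi emb N).fieldRange := by
      refine S37KE_ringHom_mem N Φ (S34WQ_psi emb N).fieldRange ?_ ?_ y
      · intro c hc
        exact ⟨HahnSeries.C c, (hΦC c hc).symm⟩
      · intro d _ hd hm
        obtain ⟨x, hx⟩ := hgen d hd hm
        exact ⟨x, hx.symm⟩
    exact hmem
  obtain ⟨ι₀, hι₀⟩ := S37KE_descend Φ (S34WQ_psi emb N) (S34WQ_psi_injective emb N) hex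
  refine ⟨ι₀, ?_, ?_, v, hv1, hv3, ?_⟩
  · intro c hc
    apply S34WQ_psi_injective emb N
    rw [hι₀, hΦC]
  · intro d _ hd hm
    apply S34WQ_psi_injective emb N
    rw [hι₀, hΦold d hd hm]
  · intro d' _ _ hd' hm
    apply S34WQ_psi_injective emb N
    rw [hι₀, hΦnew d' hd' hm]

/-! ### The canonical embedding and its root of unity -/

variable (hq : q.Prime) (hqM : ¬ q ∣ M') (hN : N = q ^ 2 * M') (ζ : K)
  (hζ : IsPrimitiveRoot ζ q)

/-- the embedding of `F = K(j(Q^d) : d ∣ q² M')` into `K((Q))` at the cusp `1/q` -/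
def S36CQ_iota : modularFunctionFieldFullC K N →+* LaurentSeries K :=
  (S36CQ_exists emb q M' N hq hqM hN ζ hζ).choose

/-- the root of unity `u` of the cusp `1/q`: `ι (j(Q^(q² d'))) = j(u^(d') Q^(d'))` -/
def S36CQ_unit : Kˣ :=
  (S36CQ_exists emb q M' N hq hqM hN ζ hζ).choose_spec.2.2.choose

theorem S36CQ_iota_C (c : K) (hc : HahnSeries.C c ∈ modularFunctionFieldFullC K N) :
    S36CQ_iota emb q M' N hq hqM hN ζ hζ ⟨HahnSeries.C c, hc⟩ = HahnSeries.C c :=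
  (S36CQ_exists emb q M' N hq hqM hN ζ hζ).choose_spec.1 c hc

theorem S36CQ_iota_gen_old (d : ℕ) [NeZero d] (hd : d ∣ q * M')
    (hm : qExpand K d (jqModC K) ∈ modularFunctionFieldFullC K N) :
    S36CQ_iota emb q M' N hq hqM hN ζ hζ ⟨qExpand K d (jqModC K), hm⟩ =
      qExpand K d (jqModC K) :=
  (S36CQ_exists emb q M' N hq hqM hN ζ hζ).choose_spec.2.1 d hd hm

theorem S36CQ_unit_pow : S36CQ_unit emb q M' N hq hqM hN ζ hζ ^ q = 1 :=
  (S36CQ_exists emb q M' N hq hqM hN ζ hζ).choose_spec.2.2.choose_spec.1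

theorem S36CQ_unit_ne_one : S36CQ_unit emb q M' N hq hqM hN ζ hζ ≠ 1 :=
  (S36CQ_exists emb q M' N hq hqM hN ζ hζ).choose_spec.2.2.choose_spec.2.1

theorem S36CQ_iota_gen_new (d' : ℕ) [NeZero d'] [NeZero (q ^ 2 * d')] (hd' : d' ∣ M')
    (hm : qExpand K (q ^ 2 * d') (jqModC K) ∈ modularFunctionFieldFullC K N) :
    S36CQ_iota emb q M' N hq hqM hN ζ hζ ⟨qExpand K (q ^ 2 * d') (jqModC K), hm⟩ =
      qExpand K d' (S37KE_tw K (S36CQ_unit emb q M' N hq hqM hN ζ hζ ^ d')) :=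
  (S36CQ_exists emb q M' N hq hqM hN ζ hζ).choose_spec.2.2.choose_spec.2.2 d' hd' hm

/-- the same with a free index `d = q² d'` -/
theorem S36CQ_iota_gen_new' (d' d : ℕ) [NeZero d'] [NeZero d] (hd : d = q ^ 2 * d')
    (hd' : d' ∣ M')
    (hm : qExpand K d (jqModC K) ∈ modularFunctionFieldFullC K N) :
    S36CQ_iota emb q M' N hq hqM hN ζ hζ ⟨qExpand K d (jqModC K), hm⟩ =
      qExpand K d' (S37KE_tw K (S36CQ_unit emb q M' N hq hqM hN ζ hζ ^ d')) := by
  subst hd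
  exact S36CQ_iota_gen_new emb q M' N hq hqM hN ζ hζ d' hd' hm

theorem S36CQ_iota_injective :
    Function.Injective (S36CQ_iota emb q M' N hq hqM hN ζ hζ) :=
  (S36CQ_iota emb q M' N hq hqM hN ζ hζ).injective

/-- the root of unity is a primitive `q`-th root of unity -/
theorem S36CQ_unit_primitive :
    IsPrimitiveRoot ((S36CQ_unit emb q M' N hq hqM hN ζ hζ : Kˣ) : K) q := by
  have h1 : ((S36CQ_unit emb q M' N hq hqM hN ζ hζ : Kˣ) : K) ^ q = 1 := by
    rw [← Units.val_pow_eq_pow_val, S36CQ_unit_pow, Units.val_one]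
  have h2 : ((S36CQ_unit emb q M' N hq hqM hN ζ hζ : Kˣ) : K) ≠ 1 := by
    intro h0
    exact S36CQ_unit_ne_one emb q M' N hq hqM hN ζ hζ (Units.ext h0)
  have h3 : orderOf ((S36CQ_unit emb q M' N hq hqM hN ζ hζ : Kˣ) : K) ∣ q :=
    orderOf_dvd_of_pow_eq_one h1
  rcases (Nat.dvd_prime hq).1 h3 with h4 | h4
  · exact absurd (orderOf_eq_one_iff.mp h4) h2
  · have h5 := IsPrimitiveRoot.orderOf ((S36CQ_unit emb q M' N hq hqM hN ζ hζ : Kˣ) : K)
    rwa [h4] at h5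

/-- **on the function field of level `q M'` the embedding is the identity** -/
theorem S36CQ_iota_level [NeZero (q * M')] (x : modularFunctionFieldFullC K N)
    (hx : (x : LaurentSeries K) ∈ modularFunctionFieldFullC K (q * M')) :
    S36CQ_iota emb q M' N hq hqM hN ζ hζ x = (x : LaurentSeries K) := by
  have hN1N : q * M' ∣ N := by
    rw [hN]
    exact Dvd.intro q (by ring)
  have hle := full_degeneracyC_le K hN1N
  set inc : modularFunctionFieldFullC K (q * M') →+* modularFunctionFieldFullC K N :=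
    (IntermediateField.inclusion hle).toRingHom with hinc
  set f : modularFunctionFieldFullC K (q * M') →+* LaurentSeries K :=
    (S36CQ_iota emb q M' N hq hqM hN ζ hζ).comp inc with hf
  set g : modularFunctionFieldFullC K (q * M') →+* LaurentSeries K :=
    (modularFunctionFieldFullC K (q * M')).val.toRingHom with hg
  have key : ∀ y : modularFunctionFieldFullC K (q * M'), f y = g y := by
    intro y
    refine S34WQ_ringHom_ext (q * M') f g ?_ ?_ y
    · intro c hc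
      exact S36CQ_iota_C emb q M' N hq hqM hN ζ hζ c (hle hc)
    · intro d _ hd hm
      exact S36CQ_iota_gen_old emb q M' N hq hqM hN ζ hζ d hd (hle hm)
  have h1 := key ⟨(x : LaurentSeries K), hx⟩
  have h2 : inc ⟨(x : LaurentSeries K), hx⟩ = x := Subtype.ext rfl
  rw [hf, RingHom.comp_apply, h2] at h1
  exact h1

end Main

end Fermat.Agent.S36_helper20_CUSPQ
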