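import Mathlib
import Fermat.Prelude.Def_ModularCurve_X0ModL

/-!
# S36, piece TWIST (helper20): the substitution `Q ↦ u Q` on Laurent series

For a commutative ring `R` and a unit `u`:

* `S36TW_twist u : LaurentSeries R ≃+* LaurentSeries R`, `(twist u f).coeff n = u ^ n * f.coeff n`;
* compatibility with `qExpand` (`Q ↦ Q^d`), `coeffMap`, constants, `single`;
* the difference quotient: `twist u f - f = C (u - 1) * S36TW_theta u f` with
  `(S36TW_theta u f).coeff n = S36TW_geom u n * f.coeff n`, `S36TW_geom u n = (u ^ n - 1)/(u - 1)`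
  `= 1 + u + ⋯ + u^(n-1)` for `n ≥ 0`, and `S36TW_geom u n ≡ n` modulo `(u - 1)`
  (so `S36TW_theta u f ≡ θ f = Q d/dQ f` modulo `(u - 1)`).
-/

set_option autoImplicit false
set_option linter.unusedSectionVars false
set_option linter.unusedVariables false
set_option linter.style.haveILetI false

noncomputable section

open ModularCurve

namespace Fermat.Agent.S36_helper20_TWIST

variable {R : Type*} [CommRing R]

/-! ### The twist -/

/-- the series `f(u Q)` -/
def S36TW_fun (u : Rˣ) (f : LaurentSeries R) : LaurentSeries R where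
  coeff n := ((u ^ n : Rˣ) : R) * f.coeff n
  isPWO_support' := f.isPWO_support.mono (fun n hn => by
    simp only [Function.mem_support, ne_eq] at hn
    intro h
    apply hn
    rw [h, mul_zero])

@[simp]
theorem S36TW_fun_coeff (u : Rˣ) (f : LaurentSeries R) (n : ℤ) :
    (S36TW_fun u f).coeff n = ((u ^ n : Rˣ) : R) * f.coeff n := rfl

theorem S36TW_fun_support (u : Rˣ) (f : LaurentSeries R) :
    (S36TW_fun u f).support = f.support := by
  ext n
  simp only [HahnSeries.mem_support, S36TW_fun_coeff, ne_eq]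
  constructor
  · intro h h0
    apply h
    rw [h0, mul_zero]
  · intro h h0
    apply h
    have := congrArg (fun x => (((u ^ n)⁻¹ : Rˣ) : R) * x) h0
    simpa [← mul_assoc] using this

theorem S36TW_fun_mul (u : Rˣ) (f g : LaurentSeries R) :
    S36TW_fun u (f * g) = S36TW_fun u f * S36TW_fun u g := by
  ext n
  rw [S36TW_fun_coeff, HahnSeries.coeff_mul, HahnSeries.coeff_mul, Finset.mul_sum]
  have hset : Finset.antidiagonal (S36TW_fun u f).isPWO_support (S36TW_fun u g).isPWO_support n =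
      Finset.antidiagonal f.isPWO_support g.isPWO_support n := by
    ext ij
    simp only [Finset.mem_antidiagonal, S36TW_fun_support]
  rw [hset]
  refine Finset.sum_congr rfl fun ij hij => ?_
  rw [Finset.mem_antidiagonal] at hij
  rw [S36TW_fun_coeff, S36TW_fun_coeff, ← hij.2.2, zpow_add, Units.val_mul]
  ring

theorem S36TW_fun_add (u : Rˣ) (f g : LaurentSeries R) :
    S36TW_fun u (f + g) = S36TW_fun u f + S36TW_fun u g := by
  ext n
  simp only [S36TW_fun_coeff, HahnSeries.coeff_add, mul_add]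

theorem S36TW_fun_one (u : Rˣ) : S36TW_fun u (1 : LaurentSeries R) = 1 := by
  ext n
  rw [S36TW_fun_coeff, HahnSeries.coeff_one]
  split_ifs with h
  · subst h
    simp
  · rw [mul_zero]

theorem S36TW_fun_zero (u : Rˣ) : S36TW_fun u (0 : LaurentSeries R) = 0 := by
  ext n
  simp only [S36TW_fun_coeff, HahnSeries.coeff_zero, mul_zero]

theorem S36TW_fun_fun (u v : Rˣ) (f : LaurentSeries R) :
    S36TW_fun u (S36TW_fun v f) = S36TW_fun (u * v) f := by
  ext n
  rw [S36TW_fun_coeff, S36TW_fun_coeff, S36TW_fun_coeff, mul_zpow, Units.val_mul, mul_assoc]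

theorem S36TW_fun_one_left (f : LaurentSeries R) : S36TW_fun (1 : Rˣ) f = f := by
  ext n
  rw [S36TW_fun_coeff, one_zpow, Units.val_one, one_mul]

/-- **the substitution `Q ↦ u Q`** as a ring automorphism of `R((Q))` -/
def S36TW_twist (u : Rˣ) : LaurentSeries R ≃+* LaurentSeries R where
  toFun := S36TW_fun u
  invFun := S36TW_fun u⁻¹
  left_inv f := by rw [S36TW_fun_fun, inv_mul_cancel, S36TW_fun_one_left]
  right_inv f := by rw [S36TW_fun_fun, mul_inv_cancel, S36TW_fun_one_left]
  map_mul' := S36TW_fun_mul u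
  map_add' := S36TW_fun_add u

@[simp]
theorem S36TW_twist_coeff (u : Rˣ) (f : LaurentSeries R) (n : ℤ) :
    (S36TW_twist u f).coeff n = ((u ^ n : Rˣ) : R) * f.coeff n := rfl

theorem S36TW_twist_apply (u : Rˣ) (f : LaurentSeries R) : S36TW_twist u f = S36TW_fun u f := rfl

theorem S36TW_twist_twist (u v : Rˣ) (f : LaurentSeries R) :
    S36TW_twist u (S36TW_twist v f) = S36TW_twist (u * v) f := S36TW_fun_fun u v f

theorem S36TW_twist_one (f : LaurentSeries R) : S36TW_twist (1 : Rˣ) f = f :=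
  S36TW_fun_one_left f

theorem S36TW_twist_single (u : Rˣ) (n : ℤ) (c : R) :
    S36TW_twist u (HahnSeries.single n c) = HahnSeries.single n (((u ^ n : Rˣ) : R) * c) := by
  ext k
  rw [S36TW_twist_coeff]
  by_cases h : k = n
  · subst h
    rw [HahnSeries.coeff_single_same, HahnSeries.coeff_single_same]
  · rw [HahnSeries.coeff_single_of_ne h, HahnSeries.coeff_single_of_ne h, mul_zero]

theorem S36TW_twist_C (u : Rˣ) (c : R) :
    S36TW_twist u (HahnSeries.C c : LaurentSeries R) = HahnSeries.C c := by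
  rw [HahnSeries.C_apply, S36TW_twist_single, zpow_zero, Units.val_one, one_mul]

/-- `(f(Q^d))(u Q) = (f(u^d Q))(Q^d)` -/
theorem S36TW_twist_qExpand (u : Rˣ) (d : ℕ) [NeZero d] (f : LaurentSeries R) :
    S36TW_twist u (qExpand R d f) = qExpand R d (S36TW_twist (u ^ d) f) := by
  ext k
  rw [S36TW_twist_coeff]
  by_cases hk : (d : ℤ) ∣ k
  · obtain ⟨m, rfl⟩ := hk
    rw [qExpand_coeff_mul, qExpand_coeff_mul, S36TW_twist_coeff, zpow_mul, zpow_natCast]
  · rw [qExpand_coeff_of_not_dvd d _ hk, qExpand_coeff_of_not_dvd d _ hk, mul_zero]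

/-- the change of coefficients commutes with the twist -/
theorem S36TW_coeffMap_twist {S : Type*} [CommRing S] (φ : R →+* S) (u : Rˣ)
    (f : LaurentSeries R) :
    coeffMap φ (S36TW_twist u f) = S36TW_twist (Units.map (φ : R →* S) u) (coeffMap φ f) := by
  ext k
  rw [coeffMap_coeff, S36TW_twist_coeff, S36TW_twist_coeff, coeffMap_coeff, map_mul,
    ← map_zpow, Units.coe_map]
  rfl

/-! ### The difference quotient -/

/-- `(u ^ n - 1) / (u - 1)`: `1 + u + ⋯ + u^(n-1)` for `n ≥ 0`,
`-u^n (1 + u + ⋯ + u^(-n-1))` for `n < 0` -/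
def S36TW_geom (u : Rˣ) (n : ℤ) : R :=
  if 0 ≤ n then ∑ i ∈ Finset.range n.toNat, (u : R) ^ i
  else -(((u ^ n : Rˣ) : R) * ∑ i ∈ Finset.range (-n).toNat, (u : R) ^ i)

theorem S36TW_geom_spec (u : Rˣ) (n : ℤ) :
    ((u ^ n : Rˣ) : R) - 1 = ((u : R) - 1) * S36TW_geom u n := by
  unfold S36TW_geom
  split_ifs with h
  · obtain ⟨m, rfl⟩ := Int.eq_ofNat_of_zero_le h
    rw [Int.toNat_natCast, zpow_natCast, Units.val_pow_eq_pow_val, mul_comm, geom_sum_mul]
  · have h' : 0 ≤ -n := by omega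
    obtain ⟨m, hm⟩ := Int.eq_ofNat_of_zero_le h'
    have hn : n = -(m : ℤ) := by omega
    rw [hm, Int.toNat_natCast]
    have h1 : ((u : R) - 1) * ∑ i ∈ Finset.range m, (u : R) ^ i = (u : R) ^ m - 1 := by
      rw [mul_comm, geom_sum_mul]
    have h2 : ((u ^ n : Rˣ) : R) * (u : R) ^ m = 1 := by
      rw [hn, zpow_neg, zpow_natCast, ← Units.val_pow_eq_pow_val, ← Units.val_mul,
        inv_mul_cancel, Units.val_one]
    calc ((u ^ n : Rˣ) : R) - 1
        = -(((u ^ n : Rˣ) : R) * ((u : R) ^ m - 1)) := by rw [mul_sub, h2]; ring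
      _ = ((u : R) - 1) * -(((u ^ n : Rˣ) : R) * ∑ i ∈ Finset.range m, (u : R) ^ i) := by
          rw [← h1]; ring

/-- `(u ^ n - 1)/(u - 1) ≡ n` modulo `(u - 1)` -/
theorem S36TW_geom_mod (u : Rˣ) (n : ℤ) :
    ∃ e : R, S36TW_geom u n = (n : R) + ((u : R) - 1) * e := by
  have key : ∀ m : ℕ, ∃ e : R, ∑ i ∈ Finset.range m, (u : R) ^ i = (m : R) + ((u : R) - 1) * e := by
    intro m
    induction m with
    | zero => exact ⟨0, by simp⟩
    | succ k ih =>
        obtain ⟨e, he⟩ := ih
        obtain ⟨e', he'⟩ : ∃ e' : R, (u : R) ^ k = 1 + ((u : R) - 1) * e' :=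
          ⟨∑ i ∈ Finset.range k, (u : R) ^ i, by rw [mul_comm, geom_sum_mul]; ring⟩
        refine ⟨e + e', ?_⟩
        rw [Finset.sum_range_succ, he, he']
        push_cast
        ring
  unfold S36TW_geom
  split_ifs with h
  · obtain ⟨m, rfl⟩ := Int.eq_ofNat_of_zero_le h
    rw [Int.toNat_natCast]
    obtain ⟨e, he⟩ := key m
    exact ⟨e, by rw [he]; push_cast; ring⟩
  · have h' : 0 ≤ -n := by omega
    obtain ⟨m, hm⟩ := Int.eq_ofNat_of_zero_le h'
    have hn : n = -(m : ℤ) := by omega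
    rw [hm, Int.toNat_natCast]
    obtain ⟨e, he⟩ := key m
    have h3 := S36TW_geom_spec u n
    -- `u ^ n = 1 + (u - 1) * g`
    refine ⟨-(S36TW_geom u n * ((m : R) + ((u : R) - 1) * e)) - e, ?_⟩
    rw [he]
    have h4 : ((u ^ n : Rˣ) : R) = 1 + ((u : R) - 1) * S36TW_geom u n := by
      rw [← h3]; ring
    rw [h4, hn]
    push_cast
    ring

/-- the difference quotient `(f(u Q) - f(Q)) / (u - 1)` -/
def S36TW_theta (u : Rˣ) (f : LaurentSeries R) : LaurentSeries R where
  coeff n := S36TW_geom u n * f.coeff n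
  isPWO_support' := f.isPWO_support.mono (fun n hn => by
    simp only [Function.mem_support, ne_eq] at hn
    intro h
    apply hn
    rw [h, mul_zero])

@[simp]
theorem S36TW_theta_coeff (u : Rˣ) (f : LaurentSeries R) (n : ℤ) :
    (S36TW_theta u f).coeff n = S36TW_geom u n * f.coeff n := rfl

/-- **`f(u Q) - f(Q) = (u - 1) · θ_u f`** -/
theorem S36TW_twist_sub (u : Rˣ) (f : LaurentSeries R) :
    S36TW_twist u f - f = HahnSeries.C ((u : R) - 1) * S36TW_theta u f := by
  ext n
  rw [HahnSeries.coeff_sub, S36TW_twist_coeff, HahnSeries.C_mul_eq_smul, HahnSeries.coeff_smul,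
    S36TW_theta_coeff, smul_eq_mul, ← mul_assoc, ← S36TW_geom_spec]
  ring

/-- the Euler derivative `θ f = Q d/dQ f` -/
def S36TW_euler (f : LaurentSeries R) : LaurentSeries R where
  coeff n := (n : R) * f.coeff n
  isPWO_support' := f.isPWO_support.mono (fun n hn => by
    simp only [Function.mem_support, ne_eq] at hn
    intro h
    apply hn
    rw [h, mul_zero])

@[simp]
theorem S36TW_euler_coeff (f : LaurentSeries R) (n : ℤ) :
    (S36TW_euler f).coeff n = (n : R) * f.coeff n := rfl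

/-- **`θ_u f ≡ θ f` modulo `(u - 1)`**, coefficientwise -/
theorem S36TW_theta_mod (u : Rˣ) (f : LaurentSeries R) (n : ℤ) :
    ∃ e : R, (S36TW_theta u f).coeff n = (S36TW_euler f).coeff n + ((u : R) - 1) * e := by
  obtain ⟨e, he⟩ := S36TW_geom_mod u n
  refine ⟨e * f.coeff n, ?_⟩
  rw [S36TW_theta_coeff, S36TW_euler_coeff, he]
  ring

/-- the leading coefficient: for `f = Q⁻¹ + ⋯` the coefficient of `Q⁻¹` in `θ_u f` is `-u⁻¹` -/
theorem S36TW_geom_neg_one (u : Rˣ) : S36TW_geom u (-1) = -((u⁻¹ : Rˣ) : R) := by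
  unfold S36TW_geom
  rw [if_neg (by norm_num)]
  simp

theorem S36TW_geom_zero (u : Rˣ) : S36TW_geom u 0 = 0 := by
  unfold S36TW_geom
  simp

theorem S36TW_geom_one (u : Rˣ) : S36TW_geom u 1 = 1 := by
  unfold S36TW_geom
  simp

end Fermat.Agent.S36_helper20_TWIST
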