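import Fermat.Agent.S36_helper20_CUSPQ
import Fermat.Agent.S36_helper20_TWIST

/-!
# S36, piece CUSPQT (helper20): the embedding at the cusp `1/q` on `V_(q²) F(M')`

With `ι = S36CQ_iota`, `u = S36CQ_unit` (a primitive `q`-th root of unity) of the landed CUSPQ:

* `S36CQT_twist_jqModC` : `j(u Q) = S37KE_tw R u` is the twist of `j`;
* `S36CQT_mem`          : `g ∈ F(K, M') → g(Q^(q²)) ∈ F(K, q² M')`;
* **`S36CQT_main`**     : `ι (g(Q^(q²))) = g(u Q)` for every `g` of level `M'`;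
* `S36CQT_sub`          : `ι (g(Q^(q²)) - g(Q)) = (u - 1) · θ_u g` (`θ_u g ≡ θ g` mod `(u - 1)`,
  `S36TW_theta_mod`).
-/

set_option autoImplicit false
set_option linter.unusedSectionVars false
set_option linter.unusedVariables false
set_option linter.style.haveILetI false

noncomputable section

open ModularCurve Fermat.Agent.S24
open Fermat.Agent.S37_helper20_KAPPAEMB Fermat.Agent.S34_helper20_WQ
open Fermat.Agent.S36_helper20_WQQ Fermat.Agent.S36_helper20_CUSPQ
open Fermat.Agent.S36_helper20_TWIST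

namespace Fermat.Agent.S36_helper20_CUSPQT

/-- `j(u Q)` is the twist of `j(Q)` -/
theorem S36CQT_twist_jqModC {R : Type*} [CommRing R] (u : Rˣ) :
    S36TW_twist u (jqModC R) = S37KE_tw R u := by
  ext k
  rw [S36TW_twist_coeff, S37KE_jqModC_coeff, S37KE_tw_coeff]
  split_ifs with h
  · have h1 : ((u ^ k : Rˣ) : R) = ((u⁻¹ : Rˣ) : R) * (u : R) ^ (k + 1).toNat := by
      rw [← Units.val_pow_eq_pow_val, ← Units.val_mul]
      congr 1
      have h2 : (u : Rˣ) ^ (k + 1).toNat = u ^ (k + 1) := by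
        rw [← zpow_natCast, Int.toNat_of_nonneg h]
      rw [h2, zpow_add, zpow_one]
      rw [mul_comm (u ^ k) u, ← mul_assoc, inv_mul_cancel, one_mul]
    rw [h1]
  · rw [mul_zero]

section Main

variable {K : Type*} [Field K] (emb : K →+* Kbar)

variable (q M' N : ℕ) [NeZero M'] [NeZero N] [NeZero (q ^ 2)]
  (hq : q.Prime) (hqM : ¬ q ∣ M') (hN : N = q ^ 2 * M') (ζ : K) (hζ : IsPrimitiveRoot ζ q)

include emb hq hqM hN in
/-- `g ∈ F(K, M') → g(Q^(q²)) ∈ F(K, q² M')` -/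
theorem S36CQT_mem {x : LaurentSeries K} (hx : x ∈ modularFunctionFieldFullC K M') :
    qExpand K (q ^ 2) x ∈ modularFunctionFieldFullC K N := by
  have h := S36WQ_wL_level emb (q ^ 2) M' N (S36WQ_cop hq hqM) hN hx
  rw [← h]
  exact S36WQ_wL_mem emb (q ^ 2) M' N (S36WQ_cop hq hqM) hN x

/-- **the embedding at the cusp `1/q` on `V_(q²) F(M')`**: `ι (g(Q^(q²))) = g(u Q)`. -/
theorem S36CQT_main {x : LaurentSeries K} (hx : x ∈ modularFunctionFieldFullC K M')
    (hm : qExpand K (q ^ 2) x ∈ modularFunctionFieldFullC K N) :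
    S36CQ_iota emb q M' N hq hqM hN ζ hζ ⟨qExpand K (q ^ 2) x, hm⟩ =
      S36TW_twist (S36CQ_unit emb q M' N hq hqM hN ζ hζ) x := by
  have hM'N : M' ∣ N := hN ▸ dvd_mul_left M' (q ^ 2)
  have hle := full_degeneracyC_le K hM'N
  -- the two ring homomorphisms on `F(K, M')`
  set wQ : modularFunctionFieldFullC K N →+* modularFunctionFieldFullC K N :=
    (S36WQ_w emb (q ^ 2) M' N (S36WQ_cop hq hqM) hN : modularFunctionFieldFullC K N →+*
      modularFunctionFieldFullC K N) with hwQ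
  set inc : modularFunctionFieldFullC K M' →+* modularFunctionFieldFullC K N :=
    (IntermediateField.inclusion hle).toRingHom with hinc
  set f : modularFunctionFieldFullC K M' →+* LaurentSeries K :=
    (S36CQ_iota emb q M' N hq hqM hN ζ hζ).comp (wQ.comp inc) with hf
  set g : modularFunctionFieldFullC K M' →+* LaurentSeries K :=
    ((S36TW_twist (S36CQ_unit emb q M' N hq hqM hN ζ hζ) : LaurentSeries K →+*
      LaurentSeries K)).comp ((modularFunctionFieldFullC K M').val.toRingHom) with hg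
  have hw : ∀ (y : LaurentSeries K) (hy : y ∈ modularFunctionFieldFullC K M')
      (hm' : qExpand K (q ^ 2) y ∈ modularFunctionFieldFullC K N),
      wQ (inc ⟨y, hy⟩) = ⟨qExpand K (q ^ 2) y, hm'⟩ := by
    intro y hy hm'
    apply Subtype.ext
    exact S36WQ_w_level emb (q ^ 2) M' N (S36WQ_cop hq hqM) hN ⟨y, hle hy⟩ hy
  have key : ∀ y : modularFunctionFieldFullC K M', f y = g y := by
    intro y
    refine S34WQ_ringHom_ext M' f g ?_ ?_ y
    · intro c hc
      have hcN : HahnSeries.C c ∈ modularFunctionFieldFullC K N := hle hc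
      have h1 : wQ (inc ⟨HahnSeries.C c, hc⟩) = ⟨HahnSeries.C c, hcN⟩ :=
        S36WQ_w_C emb (q ^ 2) M' N (S36WQ_cop hq hqM) hN c hcN
      show S36CQ_iota emb q M' N hq hqM hN ζ hζ (wQ (inc ⟨HahnSeries.C c, hc⟩)) =
        S36TW_twist _ (HahnSeries.C c)
      rw [h1, S36CQ_iota_C, S36TW_twist_C]
    · intro d _ hd hmd
      haveI : NeZero (q ^ 2 * d) := ⟨Nat.mul_ne_zero (NeZero.ne (q ^ 2)) (NeZero.ne d)⟩
      have hmN : qExpand K (q ^ 2 * d) (jqModC K) ∈ modularFunctionFieldFullC K N :=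
        jqModCd_mem_full K N (by rw [hN]; exact Nat.mul_dvd_mul_left _ hd)
      have hmN' : qExpand K (q ^ 2) (qExpand K d (jqModC K)) ∈ modularFunctionFieldFullC K N := by
        rw [qExpand_qExpand]; exact hmN
      have h1 : wQ (inc ⟨qExpand K d (jqModC K), hmd⟩) =
          ⟨qExpand K (q ^ 2 * d) (jqModC K), hmN⟩ := by
        rw [hw _ hmd hmN']
        exact Subtype.ext (qExpand_qExpand _ _ _)
      show S36CQ_iota emb q M' N hq hqM hN ζ hζ (wQ (inc ⟨qExpand K d (jqModC K), hmd⟩)) =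
        S36TW_twist _ (qExpand K d (jqModC K))
      rw [h1, S36CQ_iota_gen_new emb q M' N hq hqM hN ζ hζ d hd hmN, S36TW_twist_qExpand,
        S36CQT_twist_jqModC]
  have h2 := key ⟨x, hx⟩
  have h3 : f ⟨x, hx⟩ = S36CQ_iota emb q M' N hq hqM hN ζ hζ ⟨qExpand K (q ^ 2) x, hm⟩ := by
    show S36CQ_iota emb q M' N hq hqM hN ζ hζ (wQ (inc ⟨x, hx⟩)) = _
    rw [hw x hx hm]
  rw [← h3, h2]
  rfl

/-- **the difference `t_g = g(Q^(q²)) - g(Q)` at the cusp `1/q`**:
`ι (t_g) = (u - 1) · θ_u g`. -/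
theorem S36CQT_sub [NeZero (q * M')] {x : LaurentSeries K}
    (hx : x ∈ modularFunctionFieldFullC K M')
    (hm : qExpand K (q ^ 2) x - x ∈ modularFunctionFieldFullC K N) :
    S36CQ_iota emb q M' N hq hqM hN ζ hζ ⟨qExpand K (q ^ 2) x - x, hm⟩ =
      HahnSeries.C (((S36CQ_unit emb q M' N hq hqM hN ζ hζ : Kˣ) : K) - 1) *
        S36TW_theta (S36CQ_unit emb q M' N hq hqM hN ζ hζ) x := by
  have hm1 : qExpand K (q ^ 2) x ∈ modularFunctionFieldFullC K N :=
    S36CQT_mem emb q M' N hq hqM hN hx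
  have hM'N : M' ∣ N := hN ▸ dvd_mul_left M' (q ^ 2)
  have hxN : x ∈ modularFunctionFieldFullC K N := full_degeneracyC_le K hM'N hx
  have hx1 : x ∈ modularFunctionFieldFullC K (q * M') :=
    full_degeneracyC_le K (dvd_mul_left M' q) hx
  have e : (⟨qExpand K (q ^ 2) x - x, hm⟩ : modularFunctionFieldFullC K N) =
      ⟨qExpand K (q ^ 2) x, hm1⟩ - ⟨x, hxN⟩ := rfl
  rw [e, map_sub, S36CQT_main emb q M' N hq hqM hN ζ hζ hx hm1,
    S36CQ_iota_level emb q M' N hq hqM hN ζ hζ ⟨x, hxN⟩ hx1, S36TW_twist_sub]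

end Main

end Fermat.Agent.S36_helper20_CUSPQT
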