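import Fermat.Agent.S36_helper9_PTSINFK
import Fermat.Agent.S36_helper9_DICHX
import Fermat.Agent.S36_helper19_MIDINFK
import Fermat.Agent.S36_helper12_GOODPD
import Fermat.Agent.S36_helper12_W36VALK
import Fermat.Agent.S36_helper2_SETUP3
import Fermat.Agent.S36_helper5_VMIDK
import Fermat.Agent.S36_helper3_LOCK

/-!
# S36, GEO36, field (f) of `S36XB_LocContract`: `pts0` and `ptsInf`, VERBATIM (helper9)

Carriers: level `M' q q`, `V1 = S18K_V A K1 (M' q q)`, `W2 = S36VK_Vmid A K1 q M'`,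
`W3 = S36VK_V0 A K1 q M' hq hqM`, `A' = S18K_A0 A K1 (M' q)`, `A0 = S18K_A0 A K1 (M' q q)`,
family `R = S36PTS_R π V1 W3 A' A0` (the local rings at the crossings of the finite chart).

Everything about the carriers is discharged here (helper5's `S36VK_main`, helper2's
`S36S3_setupMid`, helper12's `S36WV_hw22` and `S36GP_powDiv`).  What is left:

* `hTX`    : the triple datum at every crossing (helper2's shape, verbatim);
* `hmid0`  / `hloc0`   : the thick one-branch points of the finite chart;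
* `hmidInf` / `hlocInf` : the thick cusps.

* `S36FF_carriers`       : the carrier facts, as one conjunction;
* `S36FF_pts0_of_hmid`   : the field `pts0` from `hTX` and `hmid0`;
* `S36FF_ptsInf_of_hmid` : the field `ptsInf` from `hTX`, `hmid0`, `hmidInf`;
* `S36FF_pts0`           : the field `pts0` from `hTX` and `hloc0` (local uniformiser);
* `S36FF_ptsInf`         : the field `ptsInf` from `hTX`, `hloc0`, `hlocInf`.
-/

set_option autoImplicit false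
set_option linter.style.haveILetI false
set_option linter.unusedVariables false
set_option linter.unusedSectionVars false
set_option synthInstance.maxHeartbeats 400000
set_option maxHeartbeats 1600000

open HahnSeries IntermediateField AlgebraicCurve ModularCurve
open Fermat.Agent.S18_helper9_CDefs Fermat.Agent.S18_helper3_LOCRING
  Fermat.Agent.S18_helper25_COREDefs
  Fermat.Agent.S34_helper12_CDefs Fermat.Agent.S34_helper27_C2Defs
  Fermat.Agent.S34_helper27_V3K Fermat.Agent.S34_helper20_V0K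
  Fermat.Agent.S36_helper20_WQQ
  Fermat.Agent.S36_helper3_XBPT Fermat.Agent.S36_helper3_LOCABS
  Fermat.Agent.S36_helper3_LOCK
  Fermat.Agent.S36_helper5_VKDefs Fermat.Agent.S36_helper5_VMIDK
  Fermat.Agent.S36_helper2_SETUP3 Fermat.Agent.S36_helper12_GOODPD
  Fermat.Agent.S36_helper12_W36VALK
  Fermat.Agent.S36_helper17_TRIPLEX
  Fermat.Agent.S36_helper9_ONE Fermat.Agent.S36_helper9_DICH
  Fermat.Agent.S36_helper9_DICHX Fermat.Agent.S36_helper9_PTS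
  Fermat.Agent.S36_helper9_DICHK Fermat.Agent.S36_helper9_PTSINFK
  Fermat.Agent.S36_helper19_MIDINFK

noncomputable section

namespace Fermat.Agent.S36_helper9_FIELDF

local notation "Qb" => AlgebraicClosure ℚ

variable (A : ValuationSubring Qb) (K1 : IntermediateField ℚ Qb)
  [IsDiscreteValuationRing (S18K_O1 A K1)] (M' q lam d : ℕ) [NeZero M'] [NeZero q]
  [NeZero (M' * q)] [NeZero (M' * q * q)] [NeZero (q ^ 2)] [NeZero (q * q)]
  (hq : q.Prime) (hqM : ¬ q ∣ M')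

/-- **the carrier facts used by the field (f)**, from helper5's `S36VK_main`, helper2's
`S36S3_setupMid` and helper12's `S36WV_hw22`. -/
theorem S36FF_carriers (hA : A.LiesOverPrime q)
    (hunr : Associated (S18K_D A K1).π ((q : ℕ) : S18K_O1 A K1)) :
    S34C_Setup (S18K_O A K1) (S18K_π A K1) (S18K_j K1) (S18K_F1 K1 (M' * q * q))
      (S18K_V A K1 (M' * q * q) ⊓ S36VK_Vmid A K1 q M' ⊓ S36VK_V0 A K1 q M' hq hqM :
        Subring (LaurentSeries K1))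
      (S18K_A0 A K1 (M' * q * q)) (S18K_Ainf A K1 (M' * q * q)) ∧
    S34C2_Val (S18K_π A K1) (S18K_F1 K1 (M' * q * q)) (S36VK_Vmid A K1 q M') ∧
    S34C2_Val (S18K_π A K1) (S18K_F1 K1 (M' * q * q)) (S36VK_V0 A K1 q M' hq hqM) ∧
    (∃ v ∈ S36VK_Vmid A K1 q M', S36VK_t K1 q ^ (q - 1) = S18K_π A K1 * v) ∧
    (∀ x ∈ S36VK_Vmid A K1 q M', x⁻¹ ∉ S36VK_Vmid A K1 q M' →
      ∃ v ∈ S36VK_Vmid A K1 q M', x = S36VK_t K1 q * v) ∧
    S18K_V A K1 (M' * q) ≤ S36VK_Vmid A K1 q M' ∧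
    S18K_V A K1 M' ≤ S36VK_Vmid A K1 q M' ∧
    S36VK_t K1 q ∈ S36VK_Vmid A K1 q M' ∧ (S36VK_t K1 q)⁻¹ ∉ S36VK_Vmid A K1 q M' ∧
    (∀ x ∈ S18K_V A K1 (M' * q * q), ∃ r ∈ S18K_V A K1 M', ∃ v ∈ S18K_V A K1 (M' * q * q),
      x = r + S18K_π A K1 * v) ∧
    (∀ x ∈ S36VK_Vmid A K1 q M', ∃ r ∈ S18K_V A K1 M', ∃ v ∈ S36VK_Vmid A K1 q M',
      x = r + S36VK_t K1 q * v) := by
  obtain ⟨hmid, -, -, -, -, -, htp, hkey, -, hunif2, -, hres, hres2⟩ :=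
    S36VK_main A K1 q M' hq hqM hA hunr
  obtain ⟨S, -, H2, H3⟩ := S36S3_setupMid A K1 q M' hq hqM hA hmid hkey
  have hπ0 : S18K_π A K1 ≠ 0 := (S18K_D A K1).πK_ne_zero
  refine ⟨S, H2, H3, ⟨_, htp, ?_⟩, hunif2, hmid.2.1,
    (S34V3K_V_mono A K1 (dvd_mul_right M' q)).trans hmid.2.1, hmid.2.2.1, hmid.2.2.2, hres,
    hres2⟩
  rw [mul_div_cancel₀ _ hπ0]

section Hmid

variable {A K1 M' q lam d hq hqM}

/-- **the field `pts0` of `S36XB_LocContract`, VERBATIM, for the canonical family**, from the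
triple datum at the crossings (`hTX`) and the one-branch datum at the thick points of the finite
chart (`hmid0`). -/
theorem S36FF_pts0_of_hmid (hA : A.LiesOverPrime q)
    (hunr : Associated (S18K_D A K1).π ((q : ℕ) : S18K_O1 A K1))
    (h : S18K_Admissible A K1 q) (hlam : lam.Prime) (hlamd : lam ∣ d)
    (hTX : ∀ (hπ : S18K_π A K1 ∈ S18K_A0 A K1 (M' * q * q))
      (m' : Ideal (S18K_A0 A K1 (M' * q * q))) (hm' : m'.IsMaximal),
      (⟨S18K_π A K1, hπ⟩ : S18K_A0 A K1 (M' * q * q)) ∈ m' →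
      S36DI_Cross (S18K_V A K1 (M' * q * q)) (S36VK_V0 A K1 q M' hq hqM)
        (S18K_A0 A K1 (M' * q)) (S18K_A0 A K1 (M' * q * q)) m' →
      ∃ S1 T2 : LaurentSeries K1,
        S36TX_Triple q (S18K_π A K1) S1 T2 (S18K_V A K1 (M' * q * q))
          (S36VK_Vmid A K1 q M') (S36VK_V0 A K1 q M' hq hqM)
          (@locRing _ _ (S18K_A0 A K1 (M' * q * q)) m' hm'.isPrime) ∧
        S1⁻¹ ∈ S18K_V A K1 (M' * q * q) ∧ T2⁻¹ ∈ S36VK_V0 A K1 q M' hq hqM ∧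
        S1⁻¹ ∈ S36VK_Vmid A K1 q M')
    (hmid0 : ∀ (f1 : LaurentSeries K1) (hf1 : f1 ∈ S18K_F1 K1 (M' * q * q)),
      S36XB_Good A K1 M' q d hq hqM (S36VK_Vmid A K1 q M') (S36VK_V0 A K1 q M' hq hqM)
        f1 hf1 →
      ∀ (hπ : S18K_π A K1 ∈ S18K_A0 A K1 (M' * q * q))
        (m : Ideal (S18K_A0 A K1 (M' * q * q))), m.IsMaximal →
      (⟨S18K_π A K1, hπ⟩ : S18K_A0 A K1 (M' * q * q)) ∈ m →
      S36ONE_On (S36VK_Vmid A K1 q M') (S18K_A0 A K1 (M' * q * q)) m →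
      ∀ d0 : S18K_A0 A K1 (M' * q * q), d0 ∉ m →
      (∃ v ∈ (S18K_V A K1 (M' * q * q) ⊓ S36VK_V0 A K1 q M' hq hqM :
          Subring (LaurentSeries K1)), (d0 : LaurentSeries K1) = S18K_π A K1 * v) →
      ∀ G : LaurentSeries K1, RedPow (S18K_π A K1)
        (S18K_V A K1 (M' * q * q) ⊓ S36VK_Vmid A K1 q M' ⊓ S36VK_V0 A K1 q M' hq hqM :
          Subring (LaurentSeries K1)) lam f1 G →
      S36XB_One (S18K_π A K1) (S18K_F1 K1 (M' * q * q)) (S36VK_Vmid A K1 q M')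
        (S18K_V A K1 (M' * q * q)) (S36VK_V0 A K1 q M' hq hqM)
        (S18K_A0 A K1 (M' * q * q)) lam f1 G m) :
    ∀ (f1 : LaurentSeries K1) (hf1 : f1 ∈ S18K_F1 K1 (M' * q * q)),
    S36XB_Good A K1 M' q d hq hqM (S36VK_Vmid A K1 q M') (S36VK_V0 A K1 q M' hq hqM)
      f1 hf1 →
    ∀ (hπ : S18K_π A K1 ∈ S18K_A0 A K1 (M' * q * q))
      (m : Ideal (S18K_A0 A K1 (M' * q * q))) (hm : m.IsMaximal),
      (⟨S18K_π A K1, hπ⟩ : S18K_A0 A K1 (M' * q * q)) ∈ m →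
      (∃ i, S36PTS_R (S18K_π A K1) (S18K_V A K1 (M' * q * q)) (S36VK_V0 A K1 q M' hq hqM)
          (S18K_A0 A K1 (M' * q)) (S18K_A0 A K1 (M' * q * q)) i =
        @locRing _ _ (S18K_A0 A K1 (M' * q * q)) m hm.isPrime) ∨
      ∀ G : LaurentSeries K1, RedPow (S18K_π A K1)
        (S18K_V A K1 (M' * q * q) ⊓ S36VK_Vmid A K1 q M' ⊓ S36VK_V0 A K1 q M' hq hqM :
          Subring (LaurentSeries K1)) lam f1 G →
        S36XB_OneAlt (S18K_π A K1) (S18K_F1 K1 (M' * q * q)) (S18K_V A K1 (M' * q * q))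
          (S36VK_Vmid A K1 q M') (S36VK_V0 A K1 q M' hq hqM)
          (S18K_A0 A K1 (M' * q * q)) lam f1 G m := by
  intro f1 hf1 hgood hπ m hm hπm
  obtain ⟨S, H2, H3, htpow, hunif2, hV'2, -, -, -, hres, -⟩ :=
    S36FF_carriers A K1 M' q hq hqM hA hunr
  exact S36DK_pts0 A K1 q M' (M' * q * q) hq hqM (S36VK_level q M') hA h (M' * q)
    (dvd_mul_right (M' * q) q) (S36VK_Vmid A K1 q M') (S36VK_V0 A K1 q M' hq hqM)
    (fun y => Iff.rfl) S H2 H3 (S36VK_V0_unif A K1 q M' hq hqM) (S36VK_t K1 q) (q - 1) htpow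
    hunif2 hV'2 (S36WV_hw22 A K1 q M' hq hqM hA hunr) hres hlam f1 hgood.1
    (S36GP_powDiv A K1 M' q d hq hqM _ _ hlamd f1 hf1 hgood) hπ
    (fun m' hm' hπm' hc => by
      haveI := hm'.isPrime
      obtain ⟨S1, T2, T, -⟩ := hTX hπ m' hm' hπm' hc
      exact S36DIX_on_oo m' T)
    (fun m0 hm0 hπm0 hOn d0 hd0 hdW G hred =>
      hmid0 f1 hf1 hgood hπ m0 hm0 hπm0 hOn d0 hd0 hdW G hred)
    _ (fun m0 hm0 hπm0 hc => S36PTS_canon hπ m0 hm0 hπm0 hc) m hm hπm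

/-- **the field `ptsInf` of `S36XB_LocContract`, VERBATIM, for the canonical family**, from
the triple datum at the crossings (`hTX`), the one-branch datum at the thick points of the finite
chart (`hmid0`) and at the thick cusps (`hmidInf`). -/
theorem S36FF_ptsInf_of_hmid (hA : A.LiesOverPrime q)
    (hunr : Associated (S18K_D A K1).π ((q : ℕ) : S18K_O1 A K1))
    (h : S18K_Admissible A K1 q) (hlam : lam.Prime) (hlamd : lam ∣ d)
    (hTX : ∀ (hπ : S18K_π A K1 ∈ S18K_A0 A K1 (M' * q * q))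
      (m' : Ideal (S18K_A0 A K1 (M' * q * q))) (hm' : m'.IsMaximal),
      (⟨S18K_π A K1, hπ⟩ : S18K_A0 A K1 (M' * q * q)) ∈ m' →
      S36DI_Cross (S18K_V A K1 (M' * q * q)) (S36VK_V0 A K1 q M' hq hqM)
        (S18K_A0 A K1 (M' * q)) (S18K_A0 A K1 (M' * q * q)) m' →
      ∃ S1 T2 : LaurentSeries K1,
        S36TX_Triple q (S18K_π A K1) S1 T2 (S18K_V A K1 (M' * q * q))
          (S36VK_Vmid A K1 q M') (S36VK_V0 A K1 q M' hq hqM)
          (@locRing _ _ (S18K_A0 A K1 (M' * q * q)) m' hm'.isPrime) ∧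
        S1⁻¹ ∈ S18K_V A K1 (M' * q * q) ∧ T2⁻¹ ∈ S36VK_V0 A K1 q M' hq hqM ∧
        S1⁻¹ ∈ S36VK_Vmid A K1 q M')
    (hmid0 : ∀ (f1 : LaurentSeries K1) (hf1 : f1 ∈ S18K_F1 K1 (M' * q * q)),
      S36XB_Good A K1 M' q d hq hqM (S36VK_Vmid A K1 q M') (S36VK_V0 A K1 q M' hq hqM)
        f1 hf1 →
      ∀ (hπ : S18K_π A K1 ∈ S18K_A0 A K1 (M' * q * q))
        (m : Ideal (S18K_A0 A K1 (M' * q * q))), m.IsMaximal →
      (⟨S18K_π A K1, hπ⟩ : S18K_A0 A K1 (M' * q * q)) ∈ m →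
      S36ONE_On (S36VK_Vmid A K1 q M') (S18K_A0 A K1 (M' * q * q)) m →
      ∀ d0 : S18K_A0 A K1 (M' * q * q), d0 ∉ m →
      (∃ v ∈ (S18K_V A K1 (M' * q * q) ⊓ S36VK_V0 A K1 q M' hq hqM :
          Subring (LaurentSeries K1)), (d0 : LaurentSeries K1) = S18K_π A K1 * v) →
      ∀ G : LaurentSeries K1, RedPow (S18K_π A K1)
        (S18K_V A K1 (M' * q * q) ⊓ S36VK_Vmid A K1 q M' ⊓ S36VK_V0 A K1 q M' hq hqM :
          Subring (LaurentSeries K1)) lam f1 G →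
      S36XB_One (S18K_π A K1) (S18K_F1 K1 (M' * q * q)) (S36VK_Vmid A K1 q M')
        (S18K_V A K1 (M' * q * q)) (S36VK_V0 A K1 q M' hq hqM)
        (S18K_A0 A K1 (M' * q * q)) lam f1 G m)
    (hmidInf : ∀ (f1 : LaurentSeries K1) (hf1 : f1 ∈ S18K_F1 K1 (M' * q * q)),
      S36XB_Good A K1 M' q d hq hqM (S36VK_Vmid A K1 q M') (S36VK_V0 A K1 q M' hq hqM)
        f1 hf1 →
      ∀ (hπ : S18K_π A K1 ∈ S18K_Ainf A K1 (M' * q * q))
        (hu : (S18K_j K1)⁻¹ ∈ S18K_Ainf A K1 (M' * q * q))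
        (m : Ideal (S18K_Ainf A K1 (M' * q * q))), m.IsMaximal →
      (⟨S18K_π A K1, hπ⟩ : S18K_Ainf A K1 (M' * q * q)) ∈ m →
      (⟨(S18K_j K1)⁻¹, hu⟩ : S18K_Ainf A K1 (M' * q * q)) ∈ m →
      ∀ d0 : S18K_Ainf A K1 (M' * q * q), d0 ∉ m →
      (∃ v ∈ (S18K_V A K1 (M' * q * q) ⊓ S36VK_V0 A K1 q M' hq hqM :
          Subring (LaurentSeries K1)), (d0 : LaurentSeries K1) = S18K_π A K1 * v) →
      ∀ G : LaurentSeries K1, RedPow (S18K_π A K1)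
        (S18K_V A K1 (M' * q * q) ⊓ S36VK_Vmid A K1 q M' ⊓ S36VK_V0 A K1 q M' hq hqM :
          Subring (LaurentSeries K1)) lam f1 G →
      S36XB_One (S18K_π A K1) (S18K_F1 K1 (M' * q * q)) (S36VK_Vmid A K1 q M')
        (S18K_V A K1 (M' * q * q)) (S36VK_V0 A K1 q M' hq hqM)
        (S18K_Ainf A K1 (M' * q * q)) lam f1 G m) :
    ∀ (f1 : LaurentSeries K1) (hf1 : f1 ∈ S18K_F1 K1 (M' * q * q)),
    S36XB_Good A K1 M' q d hq hqM (S36VK_Vmid A K1 q M') (S36VK_V0 A K1 q M' hq hqM)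
      f1 hf1 →
    ∀ (hπ : S18K_π A K1 ∈ S18K_Ainf A K1 (M' * q * q))
      (m : Ideal (S18K_Ainf A K1 (M' * q * q))) (hm : m.IsMaximal),
      (⟨S18K_π A K1, hπ⟩ : S18K_Ainf A K1 (M' * q * q)) ∈ m →
      (∃ i, S36PTS_R (S18K_π A K1) (S18K_V A K1 (M' * q * q)) (S36VK_V0 A K1 q M' hq hqM)
          (S18K_A0 A K1 (M' * q)) (S18K_A0 A K1 (M' * q * q)) i =
        @locRing _ _ (S18K_Ainf A K1 (M' * q * q)) m hm.isPrime) ∨
      ∀ G : LaurentSeries K1, RedPow (S18K_π A K1)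
        (S18K_V A K1 (M' * q * q) ⊓ S36VK_Vmid A K1 q M' ⊓ S36VK_V0 A K1 q M' hq hqM :
          Subring (LaurentSeries K1)) lam f1 G →
        S36XB_OneAlt (S18K_π A K1) (S18K_F1 K1 (M' * q * q)) (S18K_V A K1 (M' * q * q))
          (S36VK_Vmid A K1 q M') (S36VK_V0 A K1 q M' hq hqM)
          (S18K_Ainf A K1 (M' * q * q)) lam f1 G m := by
  intro f1 hf1 hgood hπ m hm hπm
  obtain ⟨S, H2, H3, htpow, hunif2, hV'2, -, -, -, hres, -⟩ :=
    S36FF_carriers A K1 M' q hq hqM hA hunr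
  haveI := Fermat.Agent.S34_helper14_N1K.S34N1K_charZero K1
  have hπ0 : S18K_π A K1 ∈ S18K_A0 A K1 (M' * q * q) :=
    (S36DK_chart S (Or.inl rfl) S.chart0).2.2.1
  have hu : (S18K_j K1)⁻¹ ∈ S18K_Ainf A K1 (M' * q * q) :=
    Fermat.Agent.S36_helper14_N1K.S36N1K_jinv_mem S
  exact S36PK_ptsInf A K1 q M' (M' * q * q) hq hqM (S36VK_level q M') hA h
    (S36VK_Vmid A K1 q M') (S36VK_V0 A K1 q M' hq hqM)
    (fun y => Iff.rfl) S H2 H3 (S36VK_V0_unif A K1 q M' hq hqM) hV'2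
    (S36WV_hw22 A K1 q M' hq hqM hA hunr) hres hlam f1 hgood.1
    (S36GP_powDiv A K1 M' q d hq hqM _ _ hlamd f1 hf1 hgood) hπ0 hπ hu _
    (fun m' hm' hπm' =>
      S36FF_pts0_of_hmid hA hunr h hlam hlamd hTX hmid0 f1 hf1 hgood hπ0 m' hm' hπm')
    (fun m0 hm0 hπm0 hum0 d0 hd0 hdW G hred =>
      hmidInf f1 hf1 hgood hπ hu m0 hm0 hπm0 hum0 d0 hd0 hdW G hred)
    m hm hπm

end Hmid

section Hloc

variable {A K1 M' q lam d hq hqM}

/-- `hmid0` from the local uniformiser (MID-LOC) at the thick points of the finite chart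
(helper19's `S36MIK_one_A0`). -/
theorem S36FF_hmid0 (hA : A.LiesOverPrime q)
    (hunr : Associated (S18K_D A K1).π ((q : ℕ) : S18K_O1 A K1))
    (h : S18K_Admissible A K1 q) (hlam : lam.Prime) (hne : lam ≠ q) (hlamd : lam ∣ d)
    (hloc0 : ∀ (hπ : S18K_π A K1 ∈ S18K_A0 A K1 (M' * q * q))
      (m : Ideal (S18K_A0 A K1 (M' * q * q))) (hm : m.IsMaximal),
      (⟨S18K_π A K1, hπ⟩ : S18K_A0 A K1 (M' * q * q)) ∈ m →
      S36ONE_On (S36VK_Vmid A K1 q M') (S18K_A0 A K1 (M' * q * q)) m →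
      ∀ d0 : S18K_A0 A K1 (M' * q * q), d0 ∉ m →
      (∃ v ∈ (S18K_V A K1 (M' * q * q) ⊓ S36VK_V0 A K1 q M' hq hqM :
          Subring (LaurentSeries K1)), (d0 : LaurentSeries K1) = S18K_π A K1 * v) →
      ∃ τ u : LaurentSeries K1, τ ∈ @locRing _ _ (S18K_A0 A K1 (M' * q * q)) m hm.isPrime ∧
        u ∈ @locRing _ _ (S18K_A0 A K1 (M' * q * q)) m hm.isPrime ∧
        τ⁻¹ ∉ S36VK_Vmid A K1 q M' ∧
        (∀ y ∈ S36VK_Vmid A K1 q M', y⁻¹ ∉ S36VK_Vmid A K1 q M' →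
          ∃ v ∈ S36VK_Vmid A K1 q M', y = τ * v) ∧ S18K_π A K1 = τ * u) :
    ∀ (f1 : LaurentSeries K1) (hf1 : f1 ∈ S18K_F1 K1 (M' * q * q)),
      S36XB_Good A K1 M' q d hq hqM (S36VK_Vmid A K1 q M') (S36VK_V0 A K1 q M' hq hqM)
        f1 hf1 →
      ∀ (hπ : S18K_π A K1 ∈ S18K_A0 A K1 (M' * q * q))
        (m : Ideal (S18K_A0 A K1 (M' * q * q))), m.IsMaximal →
      (⟨S18K_π A K1, hπ⟩ : S18K_A0 A K1 (M' * q * q)) ∈ m →
      S36ONE_On (S36VK_Vmid A K1 q M') (S18K_A0 A K1 (M' * q * q)) m →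
      ∀ d0 : S18K_A0 A K1 (M' * q * q), d0 ∉ m →
      (∃ v ∈ (S18K_V A K1 (M' * q * q) ⊓ S36VK_V0 A K1 q M' hq hqM :
          Subring (LaurentSeries K1)), (d0 : LaurentSeries K1) = S18K_π A K1 * v) →
      ∀ G : LaurentSeries K1, RedPow (S18K_π A K1)
        (S18K_V A K1 (M' * q * q) ⊓ S36VK_Vmid A K1 q M' ⊓ S36VK_V0 A K1 q M' hq hqM :
          Subring (LaurentSeries K1)) lam f1 G →
      S36XB_One (S18K_π A K1) (S18K_F1 K1 (M' * q * q)) (S36VK_Vmid A K1 q M')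
        (S18K_V A K1 (M' * q * q)) (S36VK_V0 A K1 q M' hq hqM)
        (S18K_A0 A K1 (M' * q * q)) lam f1 G m := by
  intro f1 hf1 hgood hπ m hm hπm hOn d0 hd0 hdW G hred
  obtain ⟨S, H2, H3, htpow, hunif2, -, hV'2, htm, htnu, -, hres2⟩ :=
    S36FF_carriers A K1 M' q hq hqM hA hunr
  exact S36MIK_one_A0 A K1 hq hA M' (M' * q * q) hqM ⟨q * q, by ring⟩ h
    (S36VK_Vmid A K1 q M') (S36VK_V0 A K1 q M' hq hqM) S H2 (S36VK_t K1 q) (q - 1) htm htnu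
    hunif2 htpow hV'2 hres2 hlam hne f1 hgood.1
    (S36GP_powDiv A K1 M' q d hq hqM _ _ hlamd f1 hf1 hgood) hπ m hm hπm
    (fun hOn' => hloc0 hπ m hm hπm hOn' d0 hd0 hdW) d0 hd0 hdW G hred

/-- `hmidInf` from the local uniformiser (MID-LOC) at the thick cusps
(helper19's `S36MIK_one_inf`). -/
theorem S36FF_hmidInf (hA : A.LiesOverPrime q)
    (hunr : Associated (S18K_D A K1).π ((q : ℕ) : S18K_O1 A K1))
    (h : S18K_Admissible A K1 q) (hlam : lam.Prime) (hne : lam ≠ q) (hlamd : lam ∣ d)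
    (hlocInf : ∀ (hπ : S18K_π A K1 ∈ S18K_Ainf A K1 (M' * q * q))
      (hu : (S18K_j K1)⁻¹ ∈ S18K_Ainf A K1 (M' * q * q))
      (m : Ideal (S18K_Ainf A K1 (M' * q * q))) (hm : m.IsMaximal),
      (⟨S18K_π A K1, hπ⟩ : S18K_Ainf A K1 (M' * q * q)) ∈ m →
      (⟨(S18K_j K1)⁻¹, hu⟩ : S18K_Ainf A K1 (M' * q * q)) ∈ m →
      S36ONE_On (S36VK_Vmid A K1 q M') (S18K_Ainf A K1 (M' * q * q)) m →
      ∀ d0 : S18K_Ainf A K1 (M' * q * q), d0 ∉ m →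
      (∃ v ∈ (S18K_V A K1 (M' * q * q) ⊓ S36VK_V0 A K1 q M' hq hqM :
          Subring (LaurentSeries K1)), (d0 : LaurentSeries K1) = S18K_π A K1 * v) →
      ∃ τ u : LaurentSeries K1,
        τ ∈ @locRing _ _ (S18K_Ainf A K1 (M' * q * q)) m hm.isPrime ∧
        u ∈ @locRing _ _ (S18K_Ainf A K1 (M' * q * q)) m hm.isPrime ∧
        τ⁻¹ ∉ S36VK_Vmid A K1 q M' ∧
        (∀ y ∈ S36VK_Vmid A K1 q M', y⁻¹ ∉ S36VK_Vmid A K1 q M' →
          ∃ v ∈ S36VK_Vmid A K1 q M', y = τ * v) ∧ S18K_π A K1 = τ * u) :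
    ∀ (f1 : LaurentSeries K1) (hf1 : f1 ∈ S18K_F1 K1 (M' * q * q)),
      S36XB_Good A K1 M' q d hq hqM (S36VK_Vmid A K1 q M') (S36VK_V0 A K1 q M' hq hqM)
        f1 hf1 →
      ∀ (hπ : S18K_π A K1 ∈ S18K_Ainf A K1 (M' * q * q))
        (hu : (S18K_j K1)⁻¹ ∈ S18K_Ainf A K1 (M' * q * q))
        (m : Ideal (S18K_Ainf A K1 (M' * q * q))), m.IsMaximal →
      (⟨S18K_π A K1, hπ⟩ : S18K_Ainf A K1 (M' * q * q)) ∈ m →
      (⟨(S18K_j K1)⁻¹, hu⟩ : S18K_Ainf A K1 (M' * q * q)) ∈ m →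
      ∀ d0 : S18K_Ainf A K1 (M' * q * q), d0 ∉ m →
      (∃ v ∈ (S18K_V A K1 (M' * q * q) ⊓ S36VK_V0 A K1 q M' hq hqM :
          Subring (LaurentSeries K1)), (d0 : LaurentSeries K1) = S18K_π A K1 * v) →
      ∀ G : LaurentSeries K1, RedPow (S18K_π A K1)
        (S18K_V A K1 (M' * q * q) ⊓ S36VK_Vmid A K1 q M' ⊓ S36VK_V0 A K1 q M' hq hqM :
          Subring (LaurentSeries K1)) lam f1 G →
      S36XB_One (S18K_π A K1) (S18K_F1 K1 (M' * q * q)) (S36VK_Vmid A K1 q M')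
        (S18K_V A K1 (M' * q * q)) (S36VK_V0 A K1 q M' hq hqM)
        (S18K_Ainf A K1 (M' * q * q)) lam f1 G m := by
  intro f1 hf1 hgood hπ hu m hm hπm hum d0 hd0 hdW G hred
  obtain ⟨S, H2, H3, htpow, hunif2, -, hV'2, htm, htnu, -, hres2⟩ :=
    S36FF_carriers A K1 M' q hq hqM hA hunr
  exact S36MIK_one_inf A K1 hq hA M' (M' * q * q) hqM ⟨q * q, by ring⟩ h
    (S36VK_Vmid A K1 q M') (S36VK_V0 A K1 q M' hq hqM) S H2 (S36VK_t K1 q) (q - 1) htm htnu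
    hunif2 htpow hV'2 hres2 hlam hne f1 hgood.1
    (S36GP_powDiv A K1 M' q d hq hqM _ _ hlamd f1 hf1 hgood) hπ m hm hπm
    (fun hOn' => hlocInf hπ hu m hm hπm hum hOn' d0 hd0 hdW) d0 hd0 hdW G hred

/-- **the field `pts0` of `S36XB_LocContract`, VERBATIM, for the canonical family**, from the
triple datum at the crossings (`hTX`) and the local uniformiser at the thick points of the
finite chart (`hloc0`). -/
theorem S36FF_pts0
    (hA : A.LiesOverPrime q)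
    (hunr : Associated (S18K_D A K1).π ((q : ℕ) : S18K_O1 A K1))
    (h : S18K_Admissible A K1 q) (hlam : lam.Prime) (hne : lam ≠ q) (hlamd : lam ∣ d)
    (hTX : ∀ (hπ : S18K_π A K1 ∈ S18K_A0 A K1 (M' * q * q))
      (m' : Ideal (S18K_A0 A K1 (M' * q * q))) (hm' : m'.IsMaximal),
      (⟨S18K_π A K1, hπ⟩ : S18K_A0 A K1 (M' * q * q)) ∈ m' →
      S36DI_Cross (S18K_V A K1 (M' * q * q)) (S36VK_V0 A K1 q M' hq hqM)
        (S18K_A0 A K1 (M' * q)) (S18K_A0 A K1 (M' * q * q)) m' →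
      ∃ S1 T2 : LaurentSeries K1,
        S36TX_Triple q (S18K_π A K1) S1 T2 (S18K_V A K1 (M' * q * q))
          (S36VK_Vmid A K1 q M') (S36VK_V0 A K1 q M' hq hqM)
          (@locRing _ _ (S18K_A0 A K1 (M' * q * q)) m' hm'.isPrime) ∧
        S1⁻¹ ∈ S18K_V A K1 (M' * q * q) ∧ T2⁻¹ ∈ S36VK_V0 A K1 q M' hq hqM ∧
        S1⁻¹ ∈ S36VK_Vmid A K1 q M')
    (hloc0 : ∀ (hπ : S18K_π A K1 ∈ S18K_A0 A K1 (M' * q * q))
      (m : Ideal (S18K_A0 A K1 (M' * q * q))) (hm : m.IsMaximal),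
      (⟨S18K_π A K1, hπ⟩ : S18K_A0 A K1 (M' * q * q)) ∈ m →
      S36ONE_On (S36VK_Vmid A K1 q M') (S18K_A0 A K1 (M' * q * q)) m →
      ∀ d0 : S18K_A0 A K1 (M' * q * q), d0 ∉ m →
      (∃ v ∈ (S18K_V A K1 (M' * q * q) ⊓ S36VK_V0 A K1 q M' hq hqM :
          Subring (LaurentSeries K1)), (d0 : LaurentSeries K1) = S18K_π A K1 * v) →
      ∃ τ u : LaurentSeries K1, τ ∈ @locRing _ _ (S18K_A0 A K1 (M' * q * q)) m hm.isPrime ∧
        u ∈ @locRing _ _ (S18K_A0 A K1 (M' * q * q)) m hm.isPrime ∧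
        τ⁻¹ ∉ S36VK_Vmid A K1 q M' ∧
        (∀ y ∈ S36VK_Vmid A K1 q M', y⁻¹ ∉ S36VK_Vmid A K1 q M' →
          ∃ v ∈ S36VK_Vmid A K1 q M', y = τ * v) ∧ S18K_π A K1 = τ * u) :
    ∀ (f1 : LaurentSeries K1) (hf1 : f1 ∈ S18K_F1 K1 (M' * q * q)),
    S36XB_Good A K1 M' q d hq hqM (S36VK_Vmid A K1 q M') (S36VK_V0 A K1 q M' hq hqM)
      f1 hf1 →
    ∀ (hπ : S18K_π A K1 ∈ S18K_A0 A K1 (M' * q * q))
      (m : Ideal (S18K_A0 A K1 (M' * q * q))) (hm : m.IsMaximal),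
      (⟨S18K_π A K1, hπ⟩ : S18K_A0 A K1 (M' * q * q)) ∈ m →
      (∃ i, S36PTS_R (S18K_π A K1) (S18K_V A K1 (M' * q * q)) (S36VK_V0 A K1 q M' hq hqM)
          (S18K_A0 A K1 (M' * q)) (S18K_A0 A K1 (M' * q * q)) i =
        @locRing _ _ (S18K_A0 A K1 (M' * q * q)) m hm.isPrime) ∨
      ∀ G : LaurentSeries K1, RedPow (S18K_π A K1)
        (S18K_V A K1 (M' * q * q) ⊓ S36VK_Vmid A K1 q M' ⊓ S36VK_V0 A K1 q M' hq hqM :
          Subring (LaurentSeries K1)) lam f1 G →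
        S36XB_OneAlt (S18K_π A K1) (S18K_F1 K1 (M' * q * q)) (S18K_V A K1 (M' * q * q))
          (S36VK_Vmid A K1 q M') (S36VK_V0 A K1 q M' hq hqM)
          (S18K_A0 A K1 (M' * q * q)) lam f1 G m :=
  S36FF_pts0_of_hmid hA hunr h hlam hlamd hTX (S36FF_hmid0 hA hunr h hlam hne hlamd hloc0)

/-- **the field `ptsInf` of `S36XB_LocContract`, VERBATIM, for the canonical family**, from the
triple datum at the crossings (`hTX`) and the local uniformiser at the thick points of the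
finite chart (`hloc0`) and at the thick cusps (`hlocInf`). -/
theorem S36FF_ptsInf
    (hA : A.LiesOverPrime q)
    (hunr : Associated (S18K_D A K1).π ((q : ℕ) : S18K_O1 A K1))
    (h : S18K_Admissible A K1 q) (hlam : lam.Prime) (hne : lam ≠ q) (hlamd : lam ∣ d)
    (hTX : ∀ (hπ : S18K_π A K1 ∈ S18K_A0 A K1 (M' * q * q))
      (m' : Ideal (S18K_A0 A K1 (M' * q * q))) (hm' : m'.IsMaximal),
      (⟨S18K_π A K1, hπ⟩ : S18K_A0 A K1 (M' * q * q)) ∈ m' →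
      S36DI_Cross (S18K_V A K1 (M' * q * q)) (S36VK_V0 A K1 q M' hq hqM)
        (S18K_A0 A K1 (M' * q)) (S18K_A0 A K1 (M' * q * q)) m' →
      ∃ S1 T2 : LaurentSeries K1,
        S36TX_Triple q (S18K_π A K1) S1 T2 (S18K_V A K1 (M' * q * q))
          (S36VK_Vmid A K1 q M') (S36VK_V0 A K1 q M' hq hqM)
          (@locRing _ _ (S18K_A0 A K1 (M' * q * q)) m' hm'.isPrime) ∧
        S1⁻¹ ∈ S18K_V A K1 (M' * q * q) ∧ T2⁻¹ ∈ S36VK_V0 A K1 q M' hq hqM ∧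
        S1⁻¹ ∈ S36VK_Vmid A K1 q M')
    (hloc0 : ∀ (hπ : S18K_π A K1 ∈ S18K_A0 A K1 (M' * q * q))
      (m : Ideal (S18K_A0 A K1 (M' * q * q))) (hm : m.IsMaximal),
      (⟨S18K_π A K1, hπ⟩ : S18K_A0 A K1 (M' * q * q)) ∈ m →
      S36ONE_On (S36VK_Vmid A K1 q M') (S18K_A0 A K1 (M' * q * q)) m →
      ∀ d0 : S18K_A0 A K1 (M' * q * q), d0 ∉ m →
      (∃ v ∈ (S18K_V A K1 (M' * q * q) ⊓ S36VK_V0 A K1 q M' hq hqM :
          Subring (LaurentSeries K1)), (d0 : LaurentSeries K1) = S18K_π A K1 * v) →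
      ∃ τ u : LaurentSeries K1, τ ∈ @locRing _ _ (S18K_A0 A K1 (M' * q * q)) m hm.isPrime ∧
        u ∈ @locRing _ _ (S18K_A0 A K1 (M' * q * q)) m hm.isPrime ∧
        τ⁻¹ ∉ S36VK_Vmid A K1 q M' ∧
        (∀ y ∈ S36VK_Vmid A K1 q M', y⁻¹ ∉ S36VK_Vmid A K1 q M' →
          ∃ v ∈ S36VK_Vmid A K1 q M', y = τ * v) ∧ S18K_π A K1 = τ * u)
    (hlocInf : ∀ (hπ : S18K_π A K1 ∈ S18K_Ainf A K1 (M' * q * q))
      (hu : (S18K_j K1)⁻¹ ∈ S18K_Ainf A K1 (M' * q * q))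
      (m : Ideal (S18K_Ainf A K1 (M' * q * q))) (hm : m.IsMaximal),
      (⟨S18K_π A K1, hπ⟩ : S18K_Ainf A K1 (M' * q * q)) ∈ m →
      (⟨(S18K_j K1)⁻¹, hu⟩ : S18K_Ainf A K1 (M' * q * q)) ∈ m →
      S36ONE_On (S36VK_Vmid A K1 q M') (S18K_Ainf A K1 (M' * q * q)) m →
      ∀ d0 : S18K_Ainf A K1 (M' * q * q), d0 ∉ m →
      (∃ v ∈ (S18K_V A K1 (M' * q * q) ⊓ S36VK_V0 A K1 q M' hq hqM :
          Subring (LaurentSeries K1)), (d0 : LaurentSeries K1) = S18K_π A K1 * v) →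
      ∃ τ u : LaurentSeries K1,
        τ ∈ @locRing _ _ (S18K_Ainf A K1 (M' * q * q)) m hm.isPrime ∧
        u ∈ @locRing _ _ (S18K_Ainf A K1 (M' * q * q)) m hm.isPrime ∧
        τ⁻¹ ∉ S36VK_Vmid A K1 q M' ∧
        (∀ y ∈ S36VK_Vmid A K1 q M', y⁻¹ ∉ S36VK_Vmid A K1 q M' →
          ∃ v ∈ S36VK_Vmid A K1 q M', y = τ * v) ∧ S18K_π A K1 = τ * u) :
    ∀ (f1 : LaurentSeries K1) (hf1 : f1 ∈ S18K_F1 K1 (M' * q * q)),
    S36XB_Good A K1 M' q d hq hqM (S36VK_Vmid A K1 q M') (S36VK_V0 A K1 q M' hq hqM)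
      f1 hf1 →
    ∀ (hπ : S18K_π A K1 ∈ S18K_Ainf A K1 (M' * q * q))
      (m : Ideal (S18K_Ainf A K1 (M' * q * q))) (hm : m.IsMaximal),
      (⟨S18K_π A K1, hπ⟩ : S18K_Ainf A K1 (M' * q * q)) ∈ m →
      (∃ i, S36PTS_R (S18K_π A K1) (S18K_V A K1 (M' * q * q)) (S36VK_V0 A K1 q M' hq hqM)
          (S18K_A0 A K1 (M' * q)) (S18K_A0 A K1 (M' * q * q)) i =
        @locRing _ _ (S18K_Ainf A K1 (M' * q * q)) m hm.isPrime) ∨
      ∀ G : LaurentSeries K1, RedPow (S18K_π A K1)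
        (S18K_V A K1 (M' * q * q) ⊓ S36VK_Vmid A K1 q M' ⊓ S36VK_V0 A K1 q M' hq hqM :
          Subring (LaurentSeries K1)) lam f1 G →
        S36XB_OneAlt (S18K_π A K1) (S18K_F1 K1 (M' * q * q)) (S18K_V A K1 (M' * q * q))
          (S36VK_Vmid A K1 q M') (S36VK_V0 A K1 q M' hq hqM)
          (S18K_Ainf A K1 (M' * q * q)) lam f1 G m :=
  S36FF_ptsInf_of_hmid hA hunr h hlam hlamd hTX (S36FF_hmid0 hA hunr h hlam hne hlamd hloc0)
    (S36FF_hmidInf hA hunr h hlam hne hlamd hlocInf)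

end Hloc

end Fermat.Agent.S36_helper9_FIELDF
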