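import Mathlib
import Fermat.Agent.S36_helper20_TCUSPX
import Fermat.Agent.S36_helper9_FIELDF

/-!
# S36, piece GEO36-TCUSP-Y (helper20): the field `ptsInf` with the thick cusps discharged

helper9's `S36FF_ptsInf_of_hmid` / `S36FF_ptsInf` take the one-branch datum at the thick cusps as
a hypothesis (`hmidInf` / `hlocInf`).  Here it is discharged by `S36TCX_hmidInf_good`:

* `S36TCY_hmidInf`  : the hypothesis `hmidInf` of `S36FF_ptsInf_of_hmid`, VERBATIM, closed;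
* `S36TCY_hlocInf`  : the hypothesis `hlocInf` of `S36FF_ptsInf`, VERBATIM, closed;
* `S36TCY_ptsInf_of_hmid` : **the field `ptsInf` of `S36XB_LocContract` from `hTX` and `hmid0`**;
* `S36TCY_ptsInf`   : **the field `ptsInf` from `hTX` and `hloc0`**.
-/

set_option autoImplicit false
set_option linter.style.haveILetI false
set_option linter.unusedVariables false
set_option linter.unusedSectionVars false
set_option synthInstance.maxHeartbeats 400000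
set_option maxHeartbeats 1600000

open HahnSeries IntermediateField AlgebraicCurve ModularCurve Polynomial
open Fermat.Agent.S18_helper9_CDefs Fermat.Agent.S18_helper3_LOCRING
  Fermat.Agent.S18_helper25_COREDefs
  Fermat.Agent.S34_helper12_CDefs Fermat.Agent.S34_helper27_C2Defs
  Fermat.Agent.S36_helper3_XBPT Fermat.Agent.S36_helper3_LOCABS Fermat.Agent.S36_helper3_LOCK
  Fermat.Agent.S36_helper5_VKDefs
  Fermat.Agent.S36_helper17_TRIPLEX
  Fermat.Agent.S36_helper9_ONE Fermat.Agent.S36_helper9_DICH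
  Fermat.Agent.S36_helper9_PTS
  Fermat.Agent.S36_helper9_FIELDF
  Fermat.Agent.S36_helper23_TCUSPIN
  Fermat.Agent.S36_helper20_TCUSPK Fermat.Agent.S36_helper20_TCUSPX

noncomputable section

namespace Fermat.Agent.S36_helper20_TCUSPY

local notation "Qb" => AlgebraicClosure ℚ

variable {A : ValuationSubring Qb} {K1 : IntermediateField ℚ Qb}
  [IsDiscreteValuationRing (S18K_O1 A K1)] {M' q lam d : ℕ} [NeZero M'] [NeZero q]
  [NeZero (M' * q)] [NeZero (M' * q * q)] [NeZero (q ^ 2)] [NeZero (q * q)]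
  {hq : q.Prime} {hqM : ¬ q ∣ M'}

/-- **`hmidInf` of `S36FF_ptsInf_of_hmid`, VERBATIM, closed.** -/
theorem S36TCY_hmidInf (hA : A.LiesOverPrime q)
    (hunr : Associated (S18K_D A K1).π ((q : ℕ) : S18K_O1 A K1))
    (h : S18K_Admissible A K1 q) (hlam : lam.Prime) (hne : lam ≠ q) (hlamd : lam ∣ d) :
    ∀ (f1 : LaurentSeries K1) (hf1 : f1 ∈ S18K_F1 K1 (M' * q * q)),
      S36XB_Good A K1 M' q d hq hqM (S36VK_Vmid A K1 q M') (S36VK_V0 A K1 q M' hq hqM)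
        f1 hf1 →
      ∀ (hπ : S18K_π A K1 ∈ S18K_Ainf A K1 (M' * q * q))
        (hu : (S18K_j K1)⁻¹ ∈ S18K_Ainf A K1 (M' * q * q))
        (m : Ideal (S18K_Ainf A K1 (M' * q * q))), m.IsMaximal →
      (⟨S18K_π A K1, hπ⟩ : S18K_Ainf A K1 (M' * q * q)) ∈ m →
      (⟨(S18K_j K1)⁻¹, hu⟩ : S18K_Ainf A K1 (M' * q * q)) ∈ m →
      ∀ d0 : S18K_Ainf A K1 (M' * q * q), d0 ∉ m →
      (∃ v ∈ (S18K_V A K1 (M' * q * q) ⊓ S36VK_V0 A K1 q M' hq hqM :
          Subring (LaurentSeries K1)), (d0 : LaurentSeries K1) = S18K_π A K1 * v) →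
      ∀ G : LaurentSeries K1, RedPow (S18K_π A K1)
        (S18K_V A K1 (M' * q * q) ⊓ S36VK_Vmid A K1 q M' ⊓ S36VK_V0 A K1 q M' hq hqM :
          Subring (LaurentSeries K1)) lam f1 G →
      S36XB_One (S18K_π A K1) (S18K_F1 K1 (M' * q * q)) (S36VK_Vmid A K1 q M')
        (S18K_V A K1 (M' * q * q)) (S36VK_V0 A K1 q M' hq hqM)
        (S18K_Ainf A K1 (M' * q * q)) lam f1 G m :=
  S36TCX_hmidInf_good A K1 q M' hq hqM hA h hunr (S36VK_V0 A K1 q M' hq hqM)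
    (S36FF_carriers A K1 M' q hq hqM hA hunr).1 hlam hne hlamd

/-- **`hlocInf` of `S36FF_ptsInf`, VERBATIM, closed.** -/
theorem S36TCY_hlocInf (hq' : q.Prime) (hqM' : ¬ q ∣ M') (hA : A.LiesOverPrime q)
    (hunr : Associated (S18K_D A K1).π ((q : ℕ) : S18K_O1 A K1)) :
    ∀ (hπ : S18K_π A K1 ∈ S18K_Ainf A K1 (M' * q * q))
      (hu : (S18K_j K1)⁻¹ ∈ S18K_Ainf A K1 (M' * q * q))
      (m : Ideal (S18K_Ainf A K1 (M' * q * q))) (hm : m.IsMaximal),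
      (⟨S18K_π A K1, hπ⟩ : S18K_Ainf A K1 (M' * q * q)) ∈ m →
      (⟨(S18K_j K1)⁻¹, hu⟩ : S18K_Ainf A K1 (M' * q * q)) ∈ m →
      S36ONE_On (S36VK_Vmid A K1 q M') (S18K_Ainf A K1 (M' * q * q)) m →
      ∀ d0 : S18K_Ainf A K1 (M' * q * q), d0 ∉ m →
      (∃ v ∈ (S18K_V A K1 (M' * q * q) ⊓ S36VK_V0 A K1 q M' hq' hqM' :
          Subring (LaurentSeries K1)), (d0 : LaurentSeries K1) = S18K_π A K1 * v) →
      ∃ τ u : LaurentSeries K1,
        τ ∈ @locRing _ _ (S18K_Ainf A K1 (M' * q * q)) m hm.isPrime ∧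
        u ∈ @locRing _ _ (S18K_Ainf A K1 (M' * q * q)) m hm.isPrime ∧
        τ⁻¹ ∉ S36VK_Vmid A K1 q M' ∧
        (∀ y ∈ S36VK_Vmid A K1 q M', y⁻¹ ∉ S36VK_Vmid A K1 q M' →
          ∃ v ∈ S36VK_Vmid A K1 q M', y = τ * v) ∧ S18K_π A K1 = τ * u := by
  intro hπ hu m hm hπm hum hOn d0 hd0 hd0W
  haveI hmp : m.IsPrime := hm.isPrime
  obtain ⟨S, -, -, -, hunif2, hV'2, -, -, -, -, -⟩ :=
    S36FF_carriers A K1 M' q hq' hqM' hA hunr
  have hmid := (Fermat.Agent.S36_helper5_VMIDK.S36VK_main A K1 q M' hq' hqM' hA hunr).1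
  have hXW2 : S18K_Ainf A K1 (M' * q * q) ≤ S36VK_Vmid A K1 q M' :=
    fun y hy => (S.chartInf.le_V hy).1.2
  obtain ⟨G, hG, hK⟩ := Fermat.Agent.S36_helper21_TC2K.S36T2K_kron q hq'
  exact S36TCK_hloc_of_kron A K1 q M' hq' hqM' hA hunr hmid hunif2 hXW2 G hG (hK K1).1
    (hK K1).2 m hu hum hOn

/-- **the field `ptsInf` of `S36XB_LocContract`, VERBATIM, for the canonical family**, from the
triple datum at the crossings (`hTX`) and the one-branch datum at the thick points of the finite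
chart (`hmid0`): the thick cusps are discharged. -/
theorem S36TCY_ptsInf_of_hmid (hA : A.LiesOverPrime q)
    (hunr : Associated (S18K_D A K1).π ((q : ℕ) : S18K_O1 A K1))
    (h : S18K_Admissible A K1 q) (hlam : lam.Prime) (hne : lam ≠ q) (hlamd : lam ∣ d)
    (hTX : ∀ (hπ : S18K_π A K1 ∈ S18K_A0 A K1 (M' * q * q))
      (m' : Ideal (S18K_A0 A K1 (M' * q * q))) (hm' : m'.IsMaximal),
      (⟨S18K_π A K1, hπ⟩ : S18K_A0 A K1 (M' * q * q)) ∈ m' →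
      S36DI_Cross (S18K_V A K1 (M' * q * q)) (S36VK_V0 A K1 q M' hq hqM)
        (S18K_A0 A K1 (M' * q)) (S18K_A0 A K1 (M' * q * q)) m' →
      ∃ S1 T2 : LaurentSeries K1,
        S36TX_Triple q (S18K_π A K1) S1 T2 (S18K_V A K1 (M' * q * q))
          (S36VK_Vmid A K1 q M') (S36VK_V0 A K1 q M' hq hqM)
          (@locRing _ _ (S18K_A0 A K1 (M' * q * q)) m' hm'.isPrime) ∧
        S1⁻¹ ∈ S18K_V A K1 (M' * q * q) ∧ T2⁻¹ ∈ S36VK_V0 A K1 q M' hq hqM ∧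
        S1⁻¹ ∈ S36VK_Vmid A K1 q M')
    (hmid0 : ∀ (f1 : LaurentSeries K1) (hf1 : f1 ∈ S18K_F1 K1 (M' * q * q)),
      S36XB_Good A K1 M' q d hq hqM (S36VK_Vmid A K1 q M') (S36VK_V0 A K1 q M' hq hqM)
        f1 hf1 →
      ∀ (hπ : S18K_π A K1 ∈ S18K_A0 A K1 (M' * q * q))
        (m : Ideal (S18K_A0 A K1 (M' * q * q))), m.IsMaximal →
      (⟨S18K_π A K1, hπ⟩ : S18K_A0 A K1 (M' * q * q)) ∈ m →
      S36ONE_On (S36VK_Vmid A K1 q M') (S18K_A0 A K1 (M' * q * q)) m →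
      ∀ d0 : S18K_A0 A K1 (M' * q * q), d0 ∉ m →
      (∃ v ∈ (S18K_V A K1 (M' * q * q) ⊓ S36VK_V0 A K1 q M' hq hqM :
          Subring (LaurentSeries K1)), (d0 : LaurentSeries K1) = S18K_π A K1 * v) →
      ∀ G : LaurentSeries K1, RedPow (S18K_π A K1)
        (S18K_V A K1 (M' * q * q) ⊓ S36VK_Vmid A K1 q M' ⊓ S36VK_V0 A K1 q M' hq hqM :
          Subring (LaurentSeries K1)) lam f1 G →
      S36XB_One (S18K_π A K1) (S18K_F1 K1 (M' * q * q)) (S36VK_Vmid A K1 q M')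
        (S18K_V A K1 (M' * q * q)) (S36VK_V0 A K1 q M' hq hqM)
        (S18K_A0 A K1 (M' * q * q)) lam f1 G m) :
    ∀ (f1 : LaurentSeries K1) (hf1 : f1 ∈ S18K_F1 K1 (M' * q * q)),
    S36XB_Good A K1 M' q d hq hqM (S36VK_Vmid A K1 q M') (S36VK_V0 A K1 q M' hq hqM)
      f1 hf1 →
    ∀ (hπ : S18K_π A K1 ∈ S18K_Ainf A K1 (M' * q * q))
      (m : Ideal (S18K_Ainf A K1 (M' * q * q))) (hm : m.IsMaximal),
      (⟨S18K_π A K1, hπ⟩ : S18K_Ainf A K1 (M' * q * q)) ∈ m →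
      (∃ i, S36PTS_R (S18K_π A K1) (S18K_V A K1 (M' * q * q)) (S36VK_V0 A K1 q M' hq hqM)
          (S18K_A0 A K1 (M' * q)) (S18K_A0 A K1 (M' * q * q)) i =
        @locRing _ _ (S18K_Ainf A K1 (M' * q * q)) m hm.isPrime) ∨
      ∀ G : LaurentSeries K1, RedPow (S18K_π A K1)
        (S18K_V A K1 (M' * q * q) ⊓ S36VK_Vmid A K1 q M' ⊓ S36VK_V0 A K1 q M' hq hqM :
          Subring (LaurentSeries K1)) lam f1 G →
        S36XB_OneAlt (S18K_π A K1) (S18K_F1 K1 (M' * q * q)) (S18K_V A K1 (M' * q * q))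
          (S36VK_Vmid A K1 q M') (S36VK_V0 A K1 q M' hq hqM)
          (S18K_Ainf A K1 (M' * q * q)) lam f1 G m :=
  S36FF_ptsInf_of_hmid hA hunr h hlam hlamd hTX hmid0 (S36TCY_hmidInf hA hunr h hlam hne hlamd)

/-- **the field `ptsInf` of `S36XB_LocContract`, VERBATIM, for the canonical family**, from the
triple datum at the crossings (`hTX`) and the local uniformiser at the thick points of the
finite chart (`hloc0`): the thick cusps are discharged. -/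
theorem S36TCY_ptsInf (hA : A.LiesOverPrime q)
    (hunr : Associated (S18K_D A K1).π ((q : ℕ) : S18K_O1 A K1))
    (h : S18K_Admissible A K1 q) (hlam : lam.Prime) (hne : lam ≠ q) (hlamd : lam ∣ d)
    (hTX : ∀ (hπ : S18K_π A K1 ∈ S18K_A0 A K1 (M' * q * q))
      (m' : Ideal (S18K_A0 A K1 (M' * q * q))) (hm' : m'.IsMaximal),
      (⟨S18K_π A K1, hπ⟩ : S18K_A0 A K1 (M' * q * q)) ∈ m' →
      S36DI_Cross (S18K_V A K1 (M' * q * q)) (S36VK_V0 A K1 q M' hq hqM)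
        (S18K_A0 A K1 (M' * q)) (S18K_A0 A K1 (M' * q * q)) m' →
      ∃ S1 T2 : LaurentSeries K1,
        S36TX_Triple q (S18K_π A K1) S1 T2 (S18K_V A K1 (M' * q * q))
          (S36VK_Vmid A K1 q M') (S36VK_V0 A K1 q M' hq hqM)
          (@locRing _ _ (S18K_A0 A K1 (M' * q * q)) m' hm'.isPrime) ∧
        S1⁻¹ ∈ S18K_V A K1 (M' * q * q) ∧ T2⁻¹ ∈ S36VK_V0 A K1 q M' hq hqM ∧
        S1⁻¹ ∈ S36VK_Vmid A K1 q M')
    (hloc0 : ∀ (hπ : S18K_π A K1 ∈ S18K_A0 A K1 (M' * q * q))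
      (m : Ideal (S18K_A0 A K1 (M' * q * q))) (hm : m.IsMaximal),
      (⟨S18K_π A K1, hπ⟩ : S18K_A0 A K1 (M' * q * q)) ∈ m →
      S36ONE_On (S36VK_Vmid A K1 q M') (S18K_A0 A K1 (M' * q * q)) m →
      ∀ d0 : S18K_A0 A K1 (M' * q * q), d0 ∉ m →
      (∃ v ∈ (S18K_V A K1 (M' * q * q) ⊓ S36VK_V0 A K1 q M' hq hqM :
          Subring (LaurentSeries K1)), (d0 : LaurentSeries K1) = S18K_π A K1 * v) →
      ∃ τ u : LaurentSeries K1, τ ∈ @locRing _ _ (S18K_A0 A K1 (M' * q * q)) m hm.isPrime ∧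
        u ∈ @locRing _ _ (S18K_A0 A K1 (M' * q * q)) m hm.isPrime ∧
        τ⁻¹ ∉ S36VK_Vmid A K1 q M' ∧
        (∀ y ∈ S36VK_Vmid A K1 q M', y⁻¹ ∉ S36VK_Vmid A K1 q M' →
          ∃ v ∈ S36VK_Vmid A K1 q M', y = τ * v) ∧ S18K_π A K1 = τ * u) :
    ∀ (f1 : LaurentSeries K1) (hf1 : f1 ∈ S18K_F1 K1 (M' * q * q)),
    S36XB_Good A K1 M' q d hq hqM (S36VK_Vmid A K1 q M') (S36VK_V0 A K1 q M' hq hqM)
      f1 hf1 →
    ∀ (hπ : S18K_π A K1 ∈ S18K_Ainf A K1 (M' * q * q))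
      (m : Ideal (S18K_Ainf A K1 (M' * q * q))) (hm : m.IsMaximal),
      (⟨S18K_π A K1, hπ⟩ : S18K_Ainf A K1 (M' * q * q)) ∈ m →
      (∃ i, S36PTS_R (S18K_π A K1) (S18K_V A K1 (M' * q * q)) (S36VK_V0 A K1 q M' hq hqM)
          (S18K_A0 A K1 (M' * q)) (S18K_A0 A K1 (M' * q * q)) i =
        @locRing _ _ (S18K_Ainf A K1 (M' * q * q)) m hm.isPrime) ∨
      ∀ G : LaurentSeries K1, RedPow (S18K_π A K1)
        (S18K_V A K1 (M' * q * q) ⊓ S36VK_Vmid A K1 q M' ⊓ S36VK_V0 A K1 q M' hq hqM :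
          Subring (LaurentSeries K1)) lam f1 G →
        S36XB_OneAlt (S18K_π A K1) (S18K_F1 K1 (M' * q * q)) (S18K_V A K1 (M' * q * q))
          (S36VK_Vmid A K1 q M') (S36VK_V0 A K1 q M' hq hqM)
          (S18K_Ainf A K1 (M' * q * q)) lam f1 G m :=
  S36TCY_ptsInf_of_hmid hA hunr h hlam hne hlamd hTX
    (S36FF_hmid0 hA hunr h hlam hne hlamd hloc0)

end Fermat.Agent.S36_helper20_TCUSPY
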