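import Mathlib
import Fermat.Agent.S36_helper20_TCUSPY
import Fermat.Agent.S36_helper3_GEO

/-!
# S36, piece GEO36-TCUSP-Z (helper20): the open input (IV) of helper3's GEO, closed

* `S36TCZ_hMidInf` : **`S36XB_HMidInf A K1 M' q lam hq hqM d`** (the thick cusps), for every
  unramified level `K1` and every `d` divisible by `lam`;
* `S36TCZ_open_of` : `S36XB_Open` from the three remaining inputs (I), (II), (III).
-/

set_option autoImplicit false
set_option linter.style.haveILetI false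
set_option linter.unusedVariables false
set_option linter.unusedSectionVars false
set_option synthInstance.maxHeartbeats 400000
set_option maxHeartbeats 1600000

open HahnSeries IntermediateField AlgebraicCurve ModularCurve
open Fermat.Agent.S18_helper25_COREDefs
  Fermat.Agent.S36_helper4_XADefs Fermat.Agent.S36_helper4_SCALEK
  Fermat.Agent.S36_helper3_GEO Fermat.Agent.S36_helper20_TCUSPY

noncomputable section

namespace Fermat.Agent.S36_helper20_TCUSPZ

local notation "Qb" => AlgebraicClosure ℚ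

/-- **THE OPEN INPUT (IV) OF GEO36 IS CLOSED**: the thick cusps. -/
theorem S36TCZ_hMidInf (A : ValuationSubring Qb) (K1 : IntermediateField ℚ Qb)
    [IsDiscreteValuationRing (S18K_O1 A K1)] (M' q lam : ℕ) [NeZero M'] [NeZero q]
    [NeZero (M' * q)] [NeZero (M' * q * q)] [NeZero (q ^ 2)] [NeZero (q * q)]
    (hq : q.Prime) (hqM : ¬ q ∣ M') (hA : A.LiesOverPrime q) (hK1 : S36XA_Level A K1 q)
    (hlam : lam.Prime) (hne : lam ≠ q) (d : ℕ) (hlamd : lam ∣ d) :
    S36XB_HMidInf A K1 M' q lam hq hqM d :=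
  S36TCY_hmidInf hA (S36SK_hunr A K1 q hq hA hK1) hK1.adm hlam hne hlamd

/-- **`S36XB_Open` from the three remaining inputs** (I) `hTX`, (II) `hpt`, (III) `hmid0`. -/
theorem S36TCZ_open_of (A : ValuationSubring Qb) (M' q lam : ℕ) [NeZero M'] [NeZero q]
    [NeZero (M' * q)] [NeZero (M' * q * q)] [NeZero (q ^ 2)] [NeZero (q * q)]
    (hq : q.Prime) (hqM : ¬ q ∣ M') (hA : A.LiesOverPrime q) (hlam : lam.Prime)
    (hne : lam ≠ q)
    (h3 : ∀ (K1 : IntermediateField ℚ Qb) (hK1 : S36XA_Level A K1 q),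
      letI := hK1.adm.dvr
      S36XB_HTX A K1 M' q hq hqM ∧ S36XB_HPt A K1 M' q hq hqM ∧
        ∀ d : ℕ, lam ∣ d → S36XB_HMid0 A K1 M' q lam hq hqM d) :
    S36XB_Open A M' q lam hq hqM := by
  intro K1 hK1
  letI := hK1.adm.dvr
  obtain ⟨hTX, hpt, hmid0⟩ := h3 K1 hK1
  exact ⟨hTX, hpt, fun d hd =>
    ⟨hmid0 d hd, S36TCZ_hMidInf A K1 M' q lam hq hqM hA hK1 hlam hne d hd⟩⟩

end Fermat.Agent.S36_helper20_TCUSPZ
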