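import Fermat.Agent.S36_helper23_V0QK
import Fermat.Agent.S34_helper20_WA0
import Fermat.Agent.S34_helper8_MODEQ

/-!
# S36, piece GEO36-WA0Q (helper20): the Atkin–Lehner involution `W_(q²)` on the finite chart `A0`
at the level `q² M'`

Port of the landed `S34_helper20_WA0` (level `q N'`, `W_q`) to `w = S36WQ_wL` (level `Q M'`, `Q`
coprime to `M'`; concretely `Q = q²`).

* `S36WA0_equivOf`  : for a subring `X ⊆ F` stable under `w`, the ring automorphism `σ = w|X`;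
  `σ.symm = σ`, `σ` fixes the constants, `σ` exchanges the vertical ideals `X ∩ π V` and
  `X ∩ π w(V)` (`S36WA0_equivOf_vert`, `_vert'`), and `σ` preserves the vertical ideal
  `X ∩ t V2` of a `w`-stable ring `V2` with `w t = - t` (`S36WA0_equivOf_mid`);
* `S36WA0_jq_fixed` : `w (j(Q^q)) = j(Q^q)`;
* `S36WA0_jqq_isIntegral` : `j(Q^(q²))` is integral over `O[j]` (no hypothesis);
* `S36WA0_stable`   : `w(A0) ⊆ A0` for `A0 = ` the integral closure of `O[j]` in `F1`;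
* `S36WA0_sigma`    : `σ : A0 ≃+* A0`, with `S36WA0_sigma_pi`, `S36WA0_sigma_vert` — exactly the
  hypotheses `σ`, `hσπ`, `hσ` of helper14's `S36N1Q_thru0`, for `V1 = S18K_V A K1 N` and
  `V3 = S36V0QK_V` (helper23);
* `S36WA0_sigma_mid`, `S36WA0_comap_*` : the thick vertical prime and the conjugate maximal ideal.
-/

set_option autoImplicit false
set_option linter.unusedSectionVars false
set_option linter.unusedVariables false
set_option linter.style.haveILetI false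

noncomputable section

open ModularCurve Fermat.Agent.S24
open Fermat.Agent.S18_helper13_GAUSS Fermat.Agent.S18_helper9_CDefs
open Fermat.Agent.S18_helper25_COREDefs Fermat.Agent.S34_helper12_CDefs
open Fermat.Agent.S34_helper27_C2Defs Fermat.Agent.S34_helper20_WQ Fermat.Agent.S34_helper20_V0
open Fermat.Agent.S34_helper27_V3K Fermat.Agent.S34_helper20_V0K
open Fermat.Agent.S36_helper20_WQQ Fermat.Agent.S36_helper23_V0Q
open Fermat.Agent.S36_helper23_V0QK Fermat.Agent.S34_helper20_WA0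

namespace Fermat.Agent.S36_helper20_WA0Q

/-! ### Generic part -/

section Generic

variable {K1 : Type*} [Field K1] (emb : K1 →+* Kbar) (Q M' N : ℕ) [NeZero M'] [NeZero N]
  (hcop : Nat.Coprime Q M') (hN : N = Q * M') [NeZero Q]

/-- the automorphism `σ = w|X` of a `w`-stable subring `X` of `F` -/
def S36WA0_equivOf (X : Subring (LaurentSeries K1))
    (hXF : ∀ x ∈ X, x ∈ modularFunctionFieldFullC K1 N)
    (hX : ∀ x ∈ X, S36WQ_wL emb Q M' N hcop hN x ∈ X) : X ≃+* X where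
  toFun a := ⟨S36WQ_wL emb Q M' N hcop hN a, hX a a.2⟩
  invFun a := ⟨S36WQ_wL emb Q M' N hcop hN a, hX a a.2⟩
  left_inv a := Subtype.ext (S36WQ_wL_wL emb Q M' N hcop hN (hXF a a.2))
  right_inv a := Subtype.ext (S36WQ_wL_wL emb Q M' N hcop hN (hXF a a.2))
  map_mul' a b := Subtype.ext (S36WQ_wL_mul emb Q M' N hcop hN (hXF a a.2) (hXF b b.2))
  map_add' a b := Subtype.ext (S36WQ_wL_add emb Q M' N hcop hN (hXF a a.2) (hXF b b.2))

variable (X : Subring (LaurentSeries K1))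
  (hXF : ∀ x ∈ X, x ∈ modularFunctionFieldFullC K1 N)
  (hX : ∀ x ∈ X, S36WQ_wL emb Q M' N hcop hN x ∈ X)

theorem S36WA0_equivOf_coe (a : X) :
    ((S36WA0_equivOf emb Q M' N hcop hN X hXF hX a : X) : LaurentSeries K1) =
      S36WQ_wL emb Q M' N hcop hN a := rfl

theorem S36WA0_equivOf_symm_coe (a : X) :
    (((S36WA0_equivOf emb Q M' N hcop hN X hXF hX).symm a : X) : LaurentSeries K1) =
      S36WQ_wL emb Q M' N hcop hN a := rfl

theorem S36WA0_equivOf_symm :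
    (S36WA0_equivOf emb Q M' N hcop hN X hXF hX).symm =
      S36WA0_equivOf emb Q M' N hcop hN X hXF hX := by
  ext a
  rfl

theorem S36WA0_equivOf_invol (a : X) :
    S36WA0_equivOf emb Q M' N hcop hN X hXF hX
      (S36WA0_equivOf emb Q M' N hcop hN X hXF hX a) = a :=
  (S36WA0_equivOf emb Q M' N hcop hN X hXF hX).left_inv a

/-- `σ` fixes the constants -/
theorem S36WA0_equivOf_C (c : K1) (hc : HahnSeries.C c ∈ X) :
    S36WA0_equivOf emb Q M' N hcop hN X hXF hX ⟨HahnSeries.C c, hc⟩ = ⟨HahnSeries.C c, hc⟩ :=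
  Subtype.ext (S36WQ_wL_C emb Q M' N hcop hN c)

/-- `σ` fixes a constant `π` -/
theorem S36WA0_equivOf_pi {π : LaurentSeries K1} (hπ : ∃ c : K1, HahnSeries.C c = π)
    (hπX : π ∈ X) :
    S36WA0_equivOf emb Q M' N hcop hN X hXF hX ⟨π, hπX⟩ = ⟨π, hπX⟩ := by
  obtain ⟨c, rfl⟩ := hπ
  exact S36WA0_equivOf_C emb Q M' N hcop hN X hXF hX c hπX

/-- **`σ` exchanges the vertical ideals** (the shape `hσ` of `S36N1Q_thru0`):
`a ∈ π w(V) ↔ σ⁻¹ a ∈ π V`. -/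
theorem S36WA0_equivOf_vert {π : LaurentSeries K1} (hπ : ∃ c : K1, HahnSeries.C c = π)
    (V : Subring (LaurentSeries K1)) (hV : ∀ x ∈ V, x ∈ modularFunctionFieldFullC K1 N)
    (a : X) :
    (∃ v ∈ S36V0Q_image emb Q M' N hcop hN V, (a : LaurentSeries K1) = π * v) ↔
      ∃ v ∈ V, (((S36WA0_equivOf emb Q M' N hcop hN X hXF hX).symm a : X) :
        LaurentSeries K1) = π * v := by
  obtain ⟨c, rfl⟩ := hπ
  have hcF : HahnSeries.C c ∈ modularFunctionFieldFullC K1 N := S36V0Q_C_mem N c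
  rw [S36WA0_equivOf_symm_coe]
  constructor
  · rintro ⟨v, ⟨hvF, hv⟩, hav⟩
    refine ⟨_, hv, ?_⟩
    rw [hav, S36WQ_wL_mul emb Q M' N hcop hN hcF hvF, S36WQ_wL_C]
  · rintro ⟨v, hv, hav⟩
    have hvF := hV v hv
    refine ⟨S36WQ_wL emb Q M' N hcop hN v,
      S36V0Q_wL_mem_image emb Q M' N hcop hN hvF hv, ?_⟩
    have h2 := congrArg (S36WQ_wL emb Q M' N hcop hN) hav
    rw [S36WQ_wL_wL emb Q M' N hcop hN (hXF a a.2),
      S36WQ_wL_mul emb Q M' N hcop hN hcF hvF, S36WQ_wL_C] at h2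
    exact h2

/-- the mirror statement: `a ∈ π V ↔ σ a ∈ π w(V)`. -/
theorem S36WA0_equivOf_vert' {π : LaurentSeries K1} (hπ : ∃ c : K1, HahnSeries.C c = π)
    (V : Subring (LaurentSeries K1)) (hV : ∀ x ∈ V, x ∈ modularFunctionFieldFullC K1 N)
    (a : X) :
    (∃ v ∈ V, (a : LaurentSeries K1) = π * v) ↔
      ∃ v ∈ S36V0Q_image emb Q M' N hcop hN V,
        ((S36WA0_equivOf emb Q M' N hcop hN X hXF hX a : X) : LaurentSeries K1) = π * v := by
  have h := S36WA0_equivOf_vert emb Q M' N hcop hN X hXF hX hπ V hV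
    (S36WA0_equivOf emb Q M' N hcop hN X hXF hX a)
  rw [RingEquiv.symm_apply_apply] at h
  exact h.symm

/-- one direction of the thick vertical transport: `a ∈ t V2 → σ a ∈ t V2` for a `w`-stable
ring `V2` and `w t = - t`. -/
theorem S36WA0_equivOf_mid_imp (V2 : Subring (LaurentSeries K1))
    (hV2 : ∀ x ∈ V2, x ∈ modularFunctionFieldFullC K1 N)
    (hw22 : ∀ x ∈ V2, S36WQ_wL emb Q M' N hcop hN x ∈ V2)
    (t : LaurentSeries K1) (htF : t ∈ modularFunctionFieldFullC K1 N)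
    (hwt : S36WQ_wL emb Q M' N hcop hN t = -t) (a : X)
    (h : ∃ v ∈ V2, (a : LaurentSeries K1) = t * v) :
    ∃ v ∈ V2, ((S36WA0_equivOf emb Q M' N hcop hN X hXF hX a : X) : LaurentSeries K1) =
      t * v := by
  obtain ⟨v, hv, hav⟩ := h
  refine ⟨-S36WQ_wL emb Q M' N hcop hN v, neg_mem (hw22 v hv), ?_⟩
  rw [S36WA0_equivOf_coe, hav, S36WQ_wL_mul emb Q M' N hcop hN htF (hV2 v hv), hwt]
  ring

/-- **`σ` preserves the thick vertical ideal** `X ∩ t V2`. -/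
theorem S36WA0_equivOf_mid (V2 : Subring (LaurentSeries K1))
    (hV2 : ∀ x ∈ V2, x ∈ modularFunctionFieldFullC K1 N)
    (hw22 : ∀ x ∈ V2, S36WQ_wL emb Q M' N hcop hN x ∈ V2)
    (t : LaurentSeries K1) (htF : t ∈ modularFunctionFieldFullC K1 N)
    (hwt : S36WQ_wL emb Q M' N hcop hN t = -t) (a : X) :
    (∃ v ∈ V2, (a : LaurentSeries K1) = t * v) ↔
      ∃ v ∈ V2, ((S36WA0_equivOf emb Q M' N hcop hN X hXF hX a : X) : LaurentSeries K1) =
        t * v := by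
  constructor
  · exact S36WA0_equivOf_mid_imp emb Q M' N hcop hN X hXF hX V2 hV2 hw22 t htF hwt a
  · intro h
    have h2 := S36WA0_equivOf_mid_imp emb Q M' N hcop hN X hXF hX V2 hV2 hw22 t htF hwt
      (S36WA0_equivOf emb Q M' N hcop hN X hXF hX a) h
    rw [S36WA0_equivOf_invol] at h2
    exact h2

/-- the conjugate of a maximal ideal is maximal -/
theorem S36WA0_equivOf_comap_isMaximal (m : Ideal X) (hm : m.IsMaximal) :
    (m.comap ((S36WA0_equivOf emb Q M' N hcop hN X hXF hX : X ≃+* X) : X →+* X)).IsMaximal :=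
  Ideal.comap_isMaximal_of_equiv (S36WA0_equivOf emb Q M' N hcop hN X hXF hX)

/-- membership in the conjugate ideal -/
theorem S36WA0_equivOf_mem_comap (m : Ideal X) (a : X) :
    a ∈ m.comap ((S36WA0_equivOf emb Q M' N hcop hN X hXF hX : X ≃+* X) : X →+* X) ↔
      S36WA0_equivOf emb Q M' N hcop hN X hXF hX a ∈ m := Iff.rfl

/-- the conjugate of the conjugate ideal is the ideal -/
theorem S36WA0_equivOf_comap_comap (m : Ideal X) :
    (m.comap ((S36WA0_equivOf emb Q M' N hcop hN X hXF hX : X ≃+* X) : X →+* X)).comap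
      ((S36WA0_equivOf emb Q M' N hcop hN X hXF hX : X ≃+* X) : X →+* X) = m := by
  ext a
  rw [Ideal.mem_comap, Ideal.mem_comap]
  show S36WA0_equivOf emb Q M' N hcop hN X hXF hX
    (S36WA0_equivOf emb Q M' N hcop hN X hXF hX a) ∈ m ↔ a ∈ m
  rw [S36WA0_equivOf_invol]

/-- a constant `π` lies in the conjugate ideal iff it lies in the ideal -/
theorem S36WA0_equivOf_pi_mem_comap {π : LaurentSeries K1} (hπ : ∃ c : K1, HahnSeries.C c = π)
    (hπX : π ∈ X) (m : Ideal X) :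
    (⟨π, hπX⟩ : X) ∈
        m.comap ((S36WA0_equivOf emb Q M' N hcop hN X hXF hX : X ≃+* X) : X →+* X) ↔
      (⟨π, hπX⟩ : X) ∈ m := by
  rw [S36WA0_equivOf_mem_comap, S36WA0_equivOf_pi emb Q M' N hcop hN X hXF hX hπ hπX]

end Generic

/-! ### The concrete chart `A0` at the level `q² M'` -/

section Concrete

variable (A : ValuationSubring (AlgebraicClosure ℚ))
  (K1 : IntermediateField ℚ (AlgebraicClosure ℚ))
  [IsDiscreteValuationRing (S18K_O1 A K1)]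
  (q M' N : ℕ) [NeZero M'] [NeZero N] [NeZero q] [NeZero (q ^ 2)]
  (hq : q.Prime) (hqM : ¬ q ∣ M') (hN : N = q ^ 2 * M')

include hN in
/-- `j(Q^q) ∈ F1` -/
theorem S36WA0_jq_mem : qExpand K1 q (jqModC K1) ∈ modularFunctionFieldFullC K1 N :=
  jqModCd_mem_full K1 N (by rw [hN]; exact Dvd.intro (q * M') (by ring))

/-- **`w (j(Q^q)) = j(Q^q)`**: the middle generator is fixed by `W_(q²)` -/
theorem S36WA0_jq_fixed :
    S36WQ_wL (S34V0K_emb K1) (q ^ 2) M' N (S36WQ_cop hq hqM) hN (qExpand K1 q (jqModC K1)) =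
      qExpand K1 q (jqModC K1) := by
  rw [S36WQ_wL_of_mem (S34V0K_emb K1) (q ^ 2) M' N (S36WQ_cop hq hqM) hN
    (S36WA0_jq_mem K1 q M' N hN)]
  exact S36WQ_w_gen' (S34V0K_emb K1) (q ^ 2) M' N (S36WQ_cop hq hqM) hN q q 1 (pow_two q)
    (one_dvd M') q q (mul_one q).symm (mul_one q).symm _

include hq hqM hN in
/-- `j(Q^(q²))` is integral over `O[j(Q^q)]` -/
theorem S36WA0_jqq_isIntegral_jq :
    IsIntegral (adj (S18K_O A K1) (qExpand K1 q (jqModC K1)))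
      (qExpand K1 (q ^ 2) (jqModC K1)) := by
  have h1 := S36V0Q_isIntegral_wL (S34V0K_emb K1) (q ^ 2) M' N (S36WQ_cop hq hqM) hN
    (S18K_O A K1) (S34WA_O_const A K1) (S36WA0_jq_mem K1 q M' N hN) (jqModC_mem_full K1 N)
    (Fermat.Agent.S34_helper8_MODEQ.S34ME_isIntegral' (S18K_O A K1) q hq)
  rw [S36WA0_jq_fixed K1 q M' N hq hqM hN, S36V0Q_wL_j] at h1
  exact h1

include hq hqM hN in
/-- **`j(Q^(q²))` is integral over `O[j]`** -/
theorem S36WA0_jqq_isIntegral :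
    IsIntegral (adj (S18K_O A K1) (jqModC K1)) (qExpand K1 (q ^ 2) (jqModC K1)) :=
  S34WA_isIntegral_adj (S18K_O A K1)
    (Fermat.Agent.S34_helper8_MODEQ.S34ME_isIntegral (S18K_O A K1) q hq)
    (S36WA0_jqq_isIntegral_jq A K1 q M' N hq hqM hN)

include hq hqM hN in
/-- **`j` is integral over `O[j(Q^(q²))]`** -/
theorem S36WA0_j_isIntegral :
    IsIntegral (adj (S18K_O A K1) (qExpand K1 (q ^ 2) (jqModC K1))) (jqModC K1) := by
  have h1 := S36V0Q_isIntegral_wL (S34V0K_emb K1) (q ^ 2) M' N (S36WQ_cop hq hqM) hN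
    (S18K_O A K1) (S34WA_O_const A K1) (jqModC_mem_full K1 N)
    (S36V0Q_jQ_mem (S34V0K_emb K1) (q ^ 2) M' N (S36WQ_cop hq hqM) hN)
    (S36WA0_jqq_isIntegral A K1 q M' N hq hqM hN)
  rw [S36V0Q_wL_jQ, S36V0Q_wL_j] at h1
  exact h1

/-- **`w(A0) ⊆ A0`** at the level `q² M'` -/
theorem S36WA0_stable :
    ∀ x ∈ S18K_A0 A K1 N,
      S36WQ_wL (S34V0K_emb K1) (q ^ 2) M' N (S36WQ_cop hq hqM) hN x ∈ S18K_A0 A K1 N := by
  intro x hx
  obtain ⟨hint, hxF⟩ := mem_icl.mp hx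
  have hxF' : x ∈ modularFunctionFieldFullC K1 N := hxF
  refine mem_icl.mpr ⟨?_, S36WQ_wL_mem (S34V0K_emb K1) (q ^ 2) M' N (S36WQ_cop hq hqM) hN x⟩
  have h1 := S36V0Q_isIntegral_wL (S34V0K_emb K1) (q ^ 2) M' N (S36WQ_cop hq hqM) hN
    (S18K_O A K1) (S34WA_O_const A K1) (jqModC_mem_full K1 N) hxF' hint
  rw [S36V0Q_wL_j] at h1
  exact S34WA_isIntegral_adj (S18K_O A K1) (S36WA0_jqq_isIntegral A K1 q M' N hq hqM hN) h1

/-- **the automorphism `σ = w_(q²)|A0` of the finite chart** -/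
def S36WA0_sigma : S18K_A0 A K1 N ≃+* S18K_A0 A K1 N :=
  S36WA0_equivOf (S34V0K_emb K1) (q ^ 2) M' N (S36WQ_cop hq hqM) hN (S18K_A0 A K1 N)
    (S34WA_A0_le_F A K1 N) (S36WA0_stable A K1 q M' N hq hqM hN)

theorem S36WA0_sigma_coe (a : S18K_A0 A K1 N) :
    ((S36WA0_sigma A K1 q M' N hq hqM hN a : S18K_A0 A K1 N) : LaurentSeries K1) =
      S36WQ_wL (S34V0K_emb K1) (q ^ 2) M' N (S36WQ_cop hq hqM) hN a := rfl

theorem S36WA0_sigma_symm_coe (a : S18K_A0 A K1 N) :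
    (((S36WA0_sigma A K1 q M' N hq hqM hN).symm a : S18K_A0 A K1 N) : LaurentSeries K1) =
      S36WQ_wL (S34V0K_emb K1) (q ^ 2) M' N (S36WQ_cop hq hqM) hN a := rfl

theorem S36WA0_sigma_symm :
    (S36WA0_sigma A K1 q M' N hq hqM hN).symm = S36WA0_sigma A K1 q M' N hq hqM hN :=
  S36WA0_equivOf_symm _ (q ^ 2) M' N _ hN _ _ _

theorem S36WA0_sigma_invol (a : S18K_A0 A K1 N) :
    S36WA0_sigma A K1 q M' N hq hqM hN (S36WA0_sigma A K1 q M' N hq hqM hN a) = a :=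
  S36WA0_equivOf_invol _ (q ^ 2) M' N _ hN _ _ _ a

/-- `σ` fixes the constants -/
theorem S36WA0_sigma_C (c : K1) (hc : HahnSeries.C c ∈ S18K_A0 A K1 N) :
    S36WA0_sigma A K1 q M' N hq hqM hN ⟨HahnSeries.C c, hc⟩ = ⟨HahnSeries.C c, hc⟩ :=
  S36WA0_equivOf_C _ (q ^ 2) M' N _ hN _ _ _ c hc

/-- `σ π = π` (the shape `hσπ` of `S36N1Q_thru0`) -/
theorem S36WA0_sigma_pi (hπ : S18K_π A K1 ∈ S18K_A0 A K1 N) :
    S36WA0_sigma A K1 q M' N hq hqM hN ⟨S18K_π A K1, hπ⟩ = ⟨S18K_π A K1, hπ⟩ :=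
  S36WA0_equivOf_pi _ (q ^ 2) M' N _ hN _ _ _ ⟨_, rfl⟩ hπ

/-- **`σ` exchanges the two thin vertical primes** (the shape `hσ` of `S36N1Q_thru0`, verbatim
for `V1 = S18K_V A K1 N`, `V3 = S36V0QK_V`): `a ∈ π V_0 ↔ σ⁻¹ a ∈ π V_∞`. -/
theorem S36WA0_sigma_vert (a : S18K_A0 A K1 N) :
    (∃ v ∈ S36V0QK_V A K1 q M' N hq hqM hN, (a : LaurentSeries K1) = S18K_π A K1 * v) ↔
      ∃ v ∈ S18K_V A K1 N,
        (((S36WA0_sigma A K1 q M' N hq hqM hN).symm a : S18K_A0 A K1 N) :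
          LaurentSeries K1) = S18K_π A K1 * v :=
  S36WA0_equivOf_vert _ (q ^ 2) M' N _ hN _ _ _ ⟨_, rfl⟩ (S18K_V A K1 N) (fun _ hx => hx.2) a

/-- the mirror: `a ∈ π V_∞ ↔ σ a ∈ π V_0` -/
theorem S36WA0_sigma_vert' (a : S18K_A0 A K1 N) :
    (∃ v ∈ S18K_V A K1 N, (a : LaurentSeries K1) = S18K_π A K1 * v) ↔
      ∃ v ∈ S36V0QK_V A K1 q M' N hq hqM hN,
        ((S36WA0_sigma A K1 q M' N hq hqM hN a : S18K_A0 A K1 N) :
          LaurentSeries K1) = S18K_π A K1 * v :=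
  S36WA0_equivOf_vert' _ (q ^ 2) M' N _ hN _ _ _ ⟨_, rfl⟩ (S18K_V A K1 N) (fun _ hx => hx.2) a

include hq hqM hN in
/-- `t = j(Q^(q²)) - j ∈ F1` -/
theorem S36WA0_t_mem :
    qExpand K1 (q ^ 2) (jqModC K1) - jqModC K1 ∈ modularFunctionFieldFullC K1 N :=
  sub_mem (S36V0Q_jQ_mem (S34V0K_emb K1) (q ^ 2) M' N (S36WQ_cop hq hqM) hN)
    (jqModC_mem_full K1 N)

/-- `w t = - t` for `t = j(Q^(q²)) - j` -/
theorem S36WA0_wt :
    S36WQ_wL (S34V0K_emb K1) (q ^ 2) M' N (S36WQ_cop hq hqM) hN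
        (qExpand K1 (q ^ 2) (jqModC K1) - jqModC K1) =
      -(qExpand K1 (q ^ 2) (jqModC K1) - jqModC K1) := by
  rw [S36V0Q_wL_sub (S34V0K_emb K1) (q ^ 2) M' N (S36WQ_cop hq hqM) hN
    (S36V0Q_jQ_mem (S34V0K_emb K1) (q ^ 2) M' N (S36WQ_cop hq hqM) hN) (jqModC_mem_full K1 N),
    S36V0Q_wL_jQ, S36V0Q_wL_j]
  ring

/-- **`σ` preserves the thick vertical prime**: for every `w`-stable ring `V2 ≤ F1` (`hw22`) and
every `t ∈ F1` with `w t = - t` (e.g. `t = j(Q^(q²)) - j`, `S36WA0_wt`):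
`a ∈ t V2 ↔ σ a ∈ t V2`. -/
theorem S36WA0_sigma_mid (V2 : Subring (LaurentSeries K1))
    (hV2 : ∀ x ∈ V2, x ∈ modularFunctionFieldFullC K1 N)
    (hw22 : ∀ x ∈ V2,
      S36WQ_wL (S34V0K_emb K1) (q ^ 2) M' N (S36WQ_cop hq hqM) hN x ∈ V2)
    (t : LaurentSeries K1) (htF : t ∈ modularFunctionFieldFullC K1 N)
    (hwt : S36WQ_wL (S34V0K_emb K1) (q ^ 2) M' N (S36WQ_cop hq hqM) hN t = -t)
    (a : S18K_A0 A K1 N) :
    (∃ v ∈ V2, (a : LaurentSeries K1) = t * v) ↔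
      ∃ v ∈ V2, ((S36WA0_sigma A K1 q M' N hq hqM hN a : S18K_A0 A K1 N) :
        LaurentSeries K1) = t * v :=
  S36WA0_equivOf_mid _ (q ^ 2) M' N _ hN _ _ _ V2 hV2 hw22 t htF hwt a

/-- `σ j = j(Q^(q²))` -/
theorem S36WA0_sigma_j (hj : jqModC K1 ∈ S18K_A0 A K1 N) :
    ((S36WA0_sigma A K1 q M' N hq hqM hN ⟨jqModC K1, hj⟩ : S18K_A0 A K1 N) :
      LaurentSeries K1) = qExpand K1 (q ^ 2) (jqModC K1) := by
  rw [S36WA0_sigma_coe]
  exact S36V0Q_wL_j (S34V0K_emb K1) (q ^ 2) M' N (S36WQ_cop hq hqM) hN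

/-- `σ (j(Q^q)) = j(Q^q)` -/
theorem S36WA0_sigma_jq (hj : qExpand K1 q (jqModC K1) ∈ S18K_A0 A K1 N) :
    S36WA0_sigma A K1 q M' N hq hqM hN ⟨qExpand K1 q (jqModC K1), hj⟩ =
      ⟨qExpand K1 q (jqModC K1), hj⟩ :=
  Subtype.ext (S36WA0_jq_fixed K1 q M' N hq hqM hN)

/-- on elements of level `M'`, `σ` is `f(Q) ↦ f(Q^(q²))` -/
theorem S36WA0_sigma_level (a : S18K_A0 A K1 N)
    (ha : (a : LaurentSeries K1) ∈ modularFunctionFieldFullC K1 M') :
    ((S36WA0_sigma A K1 q M' N hq hqM hN a : S18K_A0 A K1 N) : LaurentSeries K1) =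
      qExpand K1 (q ^ 2) (a : LaurentSeries K1) := by
  rw [S36WA0_sigma_coe]
  exact S36WQ_wL_level (S34V0K_emb K1) (q ^ 2) M' N (S36WQ_cop hq hqM) hN ha

/-- `j`, `j(Q^q)`, `j(Q^(q²))` lie in the chart `A0` -/
theorem S36WA0_j_mem_A0 : jqModC K1 ∈ S18K_A0 A K1 N :=
  mem_icl.mpr ⟨Fermat.Agent.S18_helper9_CBasic.isIntegral_of_mem _
    (Fermat.Agent.S18_helper9_CBasic.mem_adj_self _ _), jqModC_mem_full K1 N⟩

include hq hN in
theorem S36WA0_jq_mem_A0 : qExpand K1 q (jqModC K1) ∈ S18K_A0 A K1 N :=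
  mem_icl.mpr ⟨Fermat.Agent.S34_helper8_MODEQ.S34ME_isIntegral (S18K_O A K1) q hq,
    S36WA0_jq_mem K1 q M' N hN⟩

include hq hqM hN in
theorem S36WA0_jqq_mem_A0 : qExpand K1 (q ^ 2) (jqModC K1) ∈ S18K_A0 A K1 N :=
  mem_icl.mpr ⟨S36WA0_jqq_isIntegral A K1 q M' N hq hqM hN,
    S36V0Q_jQ_mem (S34V0K_emb K1) (q ^ 2) M' N (S36WQ_cop hq hqM) hN⟩

include hq hqM hN in
/-- `t = j(Q^(q²)) - j` lies in the chart `A0` -/
theorem S36WA0_t_mem_A0 :
    qExpand K1 (q ^ 2) (jqModC K1) - jqModC K1 ∈ S18K_A0 A K1 N :=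
  sub_mem (S36WA0_jqq_mem_A0 A K1 q M' N hq hqM hN) (S36WA0_j_mem_A0 A K1 N)

/-- `σ t = - t` in the chart -/
theorem S36WA0_sigma_t
    (ht : qExpand K1 (q ^ 2) (jqModC K1) - jqModC K1 ∈ S18K_A0 A K1 N) :
    S36WA0_sigma A K1 q M' N hq hqM hN ⟨_, ht⟩ = -⟨_, ht⟩ :=
  Subtype.ext (S36WA0_wt K1 q M' N hq hqM hN)

/-- the conjugate `σ⁻¹(m)` of a maximal ideal of `A0` is maximal -/
theorem S36WA0_comap_isMaximal (m : Ideal (S18K_A0 A K1 N)) (hm : m.IsMaximal) :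
    (m.comap ((S36WA0_sigma A K1 q M' N hq hqM hN : S18K_A0 A K1 N ≃+* S18K_A0 A K1 N) :
      S18K_A0 A K1 N →+* S18K_A0 A K1 N)).IsMaximal :=
  Ideal.comap_isMaximal_of_equiv (S36WA0_sigma A K1 q M' N hq hqM hN)

theorem S36WA0_mem_comap (m : Ideal (S18K_A0 A K1 N)) (a : S18K_A0 A K1 N) :
    a ∈ m.comap ((S36WA0_sigma A K1 q M' N hq hqM hN : S18K_A0 A K1 N ≃+* S18K_A0 A K1 N) :
      S18K_A0 A K1 N →+* S18K_A0 A K1 N) ↔ S36WA0_sigma A K1 q M' N hq hqM hN a ∈ m :=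
  Iff.rfl

/-- `π ∈ σ⁻¹(m) ↔ π ∈ m` -/
theorem S36WA0_pi_mem_comap (hπ : S18K_π A K1 ∈ S18K_A0 A K1 N)
    (m : Ideal (S18K_A0 A K1 N)) :
    (⟨S18K_π A K1, hπ⟩ : S18K_A0 A K1 N) ∈
        m.comap ((S36WA0_sigma A K1 q M' N hq hqM hN : S18K_A0 A K1 N ≃+* S18K_A0 A K1 N) :
          S18K_A0 A K1 N →+* S18K_A0 A K1 N) ↔
      (⟨S18K_π A K1, hπ⟩ : S18K_A0 A K1 N) ∈ m := by
  rw [S36WA0_mem_comap, S36WA0_sigma_pi]

/-- **`V_∞` passes through `σ⁻¹(m)` iff `V_0` passes through `m`** (elementwise: the vertical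
prime `A0 ∩ π V_∞` is contained in `σ⁻¹(m)` iff `A0 ∩ π V_0` is contained in `m`). -/
theorem S36WA0_on_comap (m : Ideal (S18K_A0 A K1 N)) :
    (∀ a : S18K_A0 A K1 N, (∃ v ∈ S18K_V A K1 N, (a : LaurentSeries K1) = S18K_π A K1 * v) →
        a ∈ m.comap ((S36WA0_sigma A K1 q M' N hq hqM hN :
          S18K_A0 A K1 N ≃+* S18K_A0 A K1 N) : S18K_A0 A K1 N →+* S18K_A0 A K1 N)) ↔
      ∀ a : S18K_A0 A K1 N,
        (∃ v ∈ S36V0QK_V A K1 q M' N hq hqM hN, (a : LaurentSeries K1) = S18K_π A K1 * v) →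
          a ∈ m := by
  constructor
  · intro h a ha
    have h1 := (S36WA0_sigma_vert A K1 q M' N hq hqM hN a).mp ha
    have h2 := h _ h1
    rw [S36WA0_mem_comap, RingEquiv.apply_symm_apply] at h2
    exact h2
  · intro h a ha
    rw [S36WA0_mem_comap]
    exact h _ ((S36WA0_sigma_vert' A K1 q M' N hq hqM hN a).mp ha)

/-- the mirror: `V_0` passes through `σ⁻¹(m)` iff `V_∞` passes through `m` -/
theorem S36WA0_on_comap' (m : Ideal (S18K_A0 A K1 N)) :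
    (∀ a : S18K_A0 A K1 N,
        (∃ v ∈ S36V0QK_V A K1 q M' N hq hqM hN, (a : LaurentSeries K1) = S18K_π A K1 * v) →
        a ∈ m.comap ((S36WA0_sigma A K1 q M' N hq hqM hN :
          S18K_A0 A K1 N ≃+* S18K_A0 A K1 N) : S18K_A0 A K1 N →+* S18K_A0 A K1 N)) ↔
      ∀ a : S18K_A0 A K1 N,
        (∃ v ∈ S18K_V A K1 N, (a : LaurentSeries K1) = S18K_π A K1 * v) → a ∈ m := by
  constructor
  · intro h a ha
    have h1 : ∃ v ∈ S36V0QK_V A K1 q M' N hq hqM hN,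
        (((S36WA0_sigma A K1 q M' N hq hqM hN).symm a : S18K_A0 A K1 N) :
          LaurentSeries K1) = S18K_π A K1 * v := by
      have := (S36WA0_sigma_vert' A K1 q M' N hq hqM hN a).mp ha
      rw [S36WA0_sigma_symm]
      exact this
    have h2 := h _ h1
    rw [S36WA0_mem_comap, RingEquiv.apply_symm_apply] at h2
    exact h2
  · intro h a ha
    rw [S36WA0_mem_comap]
    refine h _ ?_
    have := (S36WA0_sigma_vert A K1 q M' N hq hqM hN a).mp ha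
    rw [S36WA0_sigma_symm] at this
    exact this

/-- **the thick branch passes through `σ⁻¹(m)` iff it passes through `m`** -/
theorem S36WA0_on_comap_mid (V2 : Subring (LaurentSeries K1))
    (hV2 : ∀ x ∈ V2, x ∈ modularFunctionFieldFullC K1 N)
    (hw22 : ∀ x ∈ V2,
      S36WQ_wL (S34V0K_emb K1) (q ^ 2) M' N (S36WQ_cop hq hqM) hN x ∈ V2)
    (t : LaurentSeries K1) (htF : t ∈ modularFunctionFieldFullC K1 N)
    (hwt : S36WQ_wL (S34V0K_emb K1) (q ^ 2) M' N (S36WQ_cop hq hqM) hN t = -t)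
    (m : Ideal (S18K_A0 A K1 N)) :
    (∀ a : S18K_A0 A K1 N, (∃ v ∈ V2, (a : LaurentSeries K1) = t * v) →
        a ∈ m.comap ((S36WA0_sigma A K1 q M' N hq hqM hN :
          S18K_A0 A K1 N ≃+* S18K_A0 A K1 N) : S18K_A0 A K1 N →+* S18K_A0 A K1 N)) ↔
      ∀ a : S18K_A0 A K1 N, (∃ v ∈ V2, (a : LaurentSeries K1) = t * v) → a ∈ m := by
  constructor
  · intro h a ha
    have h1 := (S36WA0_sigma_mid A K1 q M' N hq hqM hN V2 hV2 hw22 t htF hwt a).mp ha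
    have h2 := h _ h1
    rw [S36WA0_mem_comap, S36WA0_sigma_invol] at h2
    exact h2
  · intro h a ha
    rw [S36WA0_mem_comap]
    exact h _ ((S36WA0_sigma_mid A K1 q M' N hq hqM hN V2 hV2 hw22 t htF hwt a).mp ha)

end Concrete

end Fermat.Agent.S36_helper20_WA0Q
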