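import Mathlib

/-!
# S36, THICK-UNR, piece `hloc` (B): the Hauptmodul is a local coordinate (abstract form)

`j = a(h)³ / B(h)`, `a³ - 1728 B = c²`, `a³` and `B` coprime up to a nonzero integer.  If `J` is
a power series over `ℂ` whose order at its value is `3` over `0`, `2` over `1728` and `1`
elsewhere, then every Laurent series `X` with `J · B(X) = a(X)³` is a power series with nonzero
linear coefficient.
-/

set_option autoImplicit false

open Polynomial

noncomputable section

namespace Fermat.Agent.S36_helper21_HLOCB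

/-- evaluation of an integer polynomial at a power series, as a polynomial with constant
coefficients -/
theorem S36HL_aeval_eq (ξ : PowerSeries ℂ) (P : Polynomial ℤ) :
    aeval ξ P = ((P.map (Int.castRingHom ℂ)).map (PowerSeries.C : ℂ →+* PowerSeries ℂ)).eval ξ := by
  rw [Polynomial.map_map, eval_map, aeval_def]
  congr 1
  exact RingHom.ext_int _ _

/-- if `Q(ξ)` has order one then the linear coefficient of `ξ` is nonzero -/
theorem S36HL_coeff_one_ne (Q : Polynomial ℂ) (ξ : PowerSeries ℂ)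
    (h : ((Q.map (PowerSeries.C : ℂ →+* PowerSeries ℂ)).eval ξ).order = 1) :
    PowerSeries.coeff 1 ξ ≠ 0 := by
  intro h1
  have hX : (PowerSeries.X : PowerSeries ℂ) ^ 2 ∣ ξ - PowerSeries.C (PowerSeries.constantCoeff ξ) := by
    rw [PowerSeries.X_pow_dvd_iff]
    intro m hm
    interval_cases m
    · simp
    · rw [map_sub, h1, PowerSeries.coeff_C]
      simp
  have h2 := dvd_trans hX (sub_dvd_eval_sub ξ (PowerSeries.C (PowerSeries.constantCoeff ξ))
    (Q.map (PowerSeries.C : ℂ →+* PowerSeries ℂ)))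
  rw [PowerSeries.X_pow_dvd_iff] at h2
  have h3 := h2 1 (by norm_num)
  have e0 : (Q.map (PowerSeries.C : ℂ →+* PowerSeries ℂ)).eval
      (PowerSeries.C (PowerSeries.constantCoeff ξ)) =
      PowerSeries.C (Q.eval (PowerSeries.constantCoeff ξ)) := by
    rw [eval_map, eval₂_at_apply]
  rw [map_sub, e0, PowerSeries.coeff_C] at h3
  simp only [one_ne_zero, if_false, sub_zero] at h3
  have h4 : ((Q.map (PowerSeries.C : ℂ →+* PowerSeries ℂ)).eval ξ).order = ((1 : ℕ) : ℕ∞) := by
    rw [h]; rfl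
  rw [PowerSeries.order_eq_nat] at h4
  exact h4.1 h3

theorem S36HL_order_of_pow {f : PowerSeries ℂ} {n : ℕ} (hn : 0 < n)
    (h : (f ^ n).order = (n : ℕ∞)) : f.order = 1 := by
  rw [PowerSeries.order_pow, nsmul_eq_mul] at h
  by_cases hf : f.order = ⊤
  · rw [hf] at h
    exfalso
    have : (n : ℕ∞) * (⊤ : ℕ∞) = ⊤ := ENat.mul_top (by exact_mod_cast hn.ne')
    rw [this] at h
    exact ENat.top_ne_natCast n h
  · obtain ⟨k, hk⟩ := ENat.ne_top_iff_exists.mp hf
    rw [← hk] at h ⊢
    have h'' : n * k = n := by exact_mod_cast h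
    have hk1 : k = 1 := Nat.eq_of_mul_eq_mul_left hn (h''.trans (mul_one n).symm)
    rw [hk1]
    rfl

theorem S36HL_constantCoeff_aeval (ξ : PowerSeries ℂ) (P : Polynomial ℤ) :
    PowerSeries.constantCoeff (aeval ξ P) = aeval (PowerSeries.constantCoeff ξ) P := by
  rw [aeval_def, aeval_def, hom_eval₂]
  congr 1

/-- **the abstract local-coordinate lemma** -/
theorem S36HL_xi (a B c U V : Polynomial ℤ) (n : ℤ) (hn : n ≠ 0) (ha : a.Monic) (hB : B.Monic)
    (hdeg : B.natDegree + 1 = 3 * a.natDegree) (hc : a ^ 3 - 1728 * B = c ^ 2)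
    (bez : U * a ^ 3 + V * B = C n) (J : PowerSeries ℂ)
    (h0 : PowerSeries.constantCoeff J = 0 → J.order = 3)
    (h1 : PowerSeries.constantCoeff J = 1728 → (J - PowerSeries.C 1728).order = 2)
    (h2 : PowerSeries.constantCoeff J ≠ 0 → PowerSeries.constantCoeff J ≠ 1728 →
      (J - PowerSeries.C (PowerSeries.constantCoeff J)).order = 1)
    (X : LaurentSeries ℂ)
    (hrel : HahnSeries.ofPowerSeries ℤ ℂ J * aeval X B = (aeval X a) ^ 3) :
    ∃ ξ : PowerSeries ℂ, X = HahnSeries.ofPowerSeries ℤ ℂ ξ ∧ PowerSeries.coeff 1 ξ ≠ 0 := by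
  classical
  -- Step 1: integrality
  obtain ⟨f, hf⟩ : ∃ f : ℤ →+* PowerSeries ℂ, f = algebraMap ℤ (PowerSeries ℂ) := ⟨_, rfl⟩
  have hp1 : ((a ^ 3).map f).Monic := (ha.pow 3).map f
  have hd1 : ((a ^ 3).map f).natDegree = 3 * a.natDegree := by
    rw [(ha.pow 3).natDegree_map, ha.natDegree_pow]
  have hd2 : (C J * B.map f).degree < ((a ^ 3).map f).degree := by
    rw [degree_eq_natDegree hp1.ne_zero, hd1]
    refine lt_of_le_of_lt (degree_mul_le _ _) ?_
    refine lt_of_le_of_lt (add_le_add degree_C_le degree_le_natDegree) ?_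
    rw [zero_add]
    rw [hB.natDegree_map]
    exact_mod_cast (by omega : B.natDegree < 3 * a.natDegree)
  have hmon : ((a ^ 3).map f - C J * B.map f).Monic := hp1.sub_of_left hd2
  have hev : ∀ P : Polynomial ℤ, aeval X (P.map f) = aeval X P := by
    intro P
    rw [aeval_def, eval₂_map, aeval_def]
    congr 1
    exact RingHom.ext_int _ _
  have hroot : aeval X ((a ^ 3).map f - C J * B.map f) = 0 := by
    rw [map_sub, map_mul, aeval_C, hev, hev, map_pow,
      ← hrel, LaurentSeries.coe_algebraMap, sub_self]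
  have hint : IsIntegral (PowerSeries ℂ) X := ⟨_, hmon, by rw [← aeval_def]; exact hroot⟩
  obtain ⟨ξ, hξ⟩ := IsIntegrallyClosed.isIntegral_iff.mp hint
  rw [LaurentSeries.coe_algebraMap] at hξ
  refine ⟨ξ, hξ.symm, ?_⟩
  -- Step 2: the relation in power series
  have hcomm : ∀ P : Polynomial ℤ, aeval X P = HahnSeries.ofPowerSeries ℤ ℂ (aeval ξ P) := by
    intro P
    rw [← hξ, aeval_def, aeval_def, hom_eval₂]
    congr 1
  have hrel' : J * aeval ξ B = (aeval ξ a) ^ 3 := by
    apply HahnSeries.ofPowerSeries_injective (Γ := ℤ)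
    rw [map_mul, map_pow, ← hcomm, ← hcomm, hrel]
  -- Step 3: `B(x₀) ≠ 0`
  have hrel0 : PowerSeries.constantCoeff J * aeval (PowerSeries.constantCoeff ξ) B =
      (aeval (PowerSeries.constantCoeff ξ) a) ^ 3 := by
    have := congrArg PowerSeries.constantCoeff hrel'
    rwa [map_mul, map_pow, S36HL_constantCoeff_aeval, S36HL_constantCoeff_aeval] at this
  have hB0 : aeval (PowerSeries.constantCoeff ξ) B ≠ 0 := by
    intro hB0
    have ha0 : (aeval (PowerSeries.constantCoeff ξ) a) ^ 3 = 0 := by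
      rw [← hrel0, hB0, mul_zero]
    have h3 := congrArg (aeval (PowerSeries.constantCoeff ξ)) bez
    rw [map_add, map_mul, map_mul, map_pow, ha0, hB0, mul_zero, mul_zero, add_zero, aeval_C] at h3
    have : ((n : ℤ) : ℂ) = 0 := by
      rw [h3]
      simp
    exact hn (by exact_mod_cast this)
  have hBord : (aeval ξ B).order = 0 := by
    have : (aeval ξ B).order = ((0 : ℕ) : ℕ∞) := by
      rw [PowerSeries.order_eq_nat]
      refine ⟨?_, fun i hi => absurd hi (Nat.not_lt_zero i)⟩
      rw [PowerSeries.coeff_zero_eq_constantCoeff_apply, S36HL_constantCoeff_aeval]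
      exact hB0
    simpa using this
  -- Step 4: the three cases
  by_cases hj0 : PowerSeries.constantCoeff J = 0
  · have ho : ((aeval ξ a) ^ 3).order = ((3 : ℕ) : ℕ∞) := by
      rw [← hrel', PowerSeries.order_mul, h0 hj0, hBord, add_zero]
      rfl
    have ho1 := S36HL_order_of_pow (by norm_num) ho
    rw [S36HL_aeval_eq] at ho1
    exact S36HL_coeff_one_ne _ ξ ho1
  by_cases hj1 : PowerSeries.constantCoeff J = 1728
  · have e : (J - PowerSeries.C 1728) * aeval ξ B = (aeval ξ c) ^ 2 := by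
      have e1 : aeval ξ (c ^ 2) = aeval ξ (a ^ 3) - PowerSeries.C 1728 * aeval ξ B := by
        rw [← hc, map_sub, map_mul]
        congr 2
        rw [aeval_def, eval₂_ofNat]
        exact (map_ofNat (PowerSeries.C : ℂ →+* PowerSeries ℂ) 1728).symm
      rw [sub_mul, hrel', ← map_pow, ← map_pow, e1]
    have ho : ((aeval ξ c) ^ 2).order = ((2 : ℕ) : ℕ∞) := by
      rw [← e, PowerSeries.order_mul, h1 hj1, hBord, add_zero]
      rfl
    have ho1 := S36HL_order_of_pow (by norm_num) ho
    rw [S36HL_aeval_eq] at ho1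
    exact S36HL_coeff_one_ne _ ξ ho1
  · obtain ⟨Q, hQ⟩ : ∃ Q : Polynomial ℂ, Q = (a ^ 3).map (Int.castRingHom ℂ) -
        C (PowerSeries.constantCoeff J) * B.map (Int.castRingHom ℂ) := ⟨_, rfl⟩
    have e : (Q.map (PowerSeries.C : ℂ →+* PowerSeries ℂ)).eval ξ =
        (J - PowerSeries.C (PowerSeries.constantCoeff J)) * aeval ξ B := by
      rw [hQ, Polynomial.map_sub, Polynomial.map_mul, Polynomial.map_C, eval_sub, eval_mul,
        eval_C, ← S36HL_aeval_eq, ← S36HL_aeval_eq, sub_mul, hrel', map_pow]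
    have ho : ((Q.map (PowerSeries.C : ℂ →+* PowerSeries ℂ)).eval ξ).order = 1 := by
      rw [e, PowerSeries.order_mul, h2 hj0 hj1, hBord, add_zero]
    exact S36HL_coeff_one_ne _ ξ ho

/-- evaluation of integer polynomials does not depend on the `ℤ`-algebra structure -/
theorem S36HL_aeval_eq_eval₂ {A : Type*} [CommRing A] [Algebra ℤ A] (x : A) (P : Polynomial ℤ) :
    aeval x P = eval₂ (Int.castRingHom A) x P := by
  rw [aeval_def]
  congr 1
  exact RingHom.ext_int _ _

/-- **the abstract local-coordinate lemma**, `eval₂` form -/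
theorem S36HL_xi' (a B c U V : Polynomial ℤ) (n : ℤ) (hn : n ≠ 0) (ha : a.Monic) (hB : B.Monic)
    (hdeg : B.natDegree + 1 = 3 * a.natDegree) (hc : a ^ 3 - 1728 * B = c ^ 2)
    (bez : U * a ^ 3 + V * B = C n) (J : PowerSeries ℂ)
    (h0 : PowerSeries.constantCoeff J = 0 → J.order = 3)
    (h1 : PowerSeries.constantCoeff J = 1728 → (J - PowerSeries.C 1728).order = 2)
    (h2 : PowerSeries.constantCoeff J ≠ 0 → PowerSeries.constantCoeff J ≠ 1728 →
      (J - PowerSeries.C (PowerSeries.constantCoeff J)).order = 1)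
    (X : LaurentSeries ℂ)
    (hrel : HahnSeries.ofPowerSeries ℤ ℂ J * eval₂ (Int.castRingHom (LaurentSeries ℂ)) X B =
      (eval₂ (Int.castRingHom (LaurentSeries ℂ)) X a) ^ 3) :
    ∃ ξ : PowerSeries ℂ, X = HahnSeries.ofPowerSeries ℤ ℂ ξ ∧ PowerSeries.coeff 1 ξ ≠ 0 := by
  refine S36HL_xi a B c U V n hn ha hB hdeg hc bez J h0 h1 h2 X ?_
  rw [S36HL_aeval_eq_eval₂, S36HL_aeval_eq_eval₂]
  exact hrel

end Fermat.Agent.S36_helper21_HLOCB
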