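import Fermat.Agent.S36_helper21_HLOCA
import Fermat.Agent.S36_helper21_HLOCB
import Fermat.Agent.S24_helper10_LOCfin
import Fermat.Agent.S36_helper8_AUXDefs
import Fermat.Agent.S18_helper25_GLUE

/-!
# S36, THICK-UNR, piece `hloc`: the Hauptmodul of the auxiliary level is a local coordinate

For an auxiliary Hauptmodul datum `D : S36AUX_Data r`, every `d ∣ N`, every point `z₀ ∈ ℍ` and
every embedding `ι = iotaFin N z₀ i` of the modular function field into `ℂ((t))`: the image of
`h(Q^d)` is a power series with nonzero linear coefficient.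
-/

set_option autoImplicit false
set_option linter.unusedVariables false
set_option linter.unusedSectionVars false

open UpperHalfPlane ModularForm CongruenceSubgroup ModularCurve Polynomial
open scoped MatrixGroups ModularForm Manifold Topology
open Fermat.Agent.S20 Fermat.Agent.S24 Fermat.Agent.S24_helper10_LOCfin
open Fermat.Agent.S36_helper8_AUXDefs Fermat.Agent.S36_helper21_HLOCA
open Fermat.Agent.S36_helper21_HLOCB

noncomputable section

namespace Fermat.Agent.S36_helper21_HLOC

/-- ring homomorphisms commute with the evaluation of integer polynomials -/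
theorem S36HL_hom_eval {A B : Type*} [CommRing A] [CommRing B] (φ : A →+* B) (x : A)
    (P : Polynomial ℤ) :
    φ (eval₂ (Int.castRingHom A) x P) = eval₂ (Int.castRingHom B) (φ x) P := by
  rw [hom_eval₂]
  congr 1
  exact RingHom.ext_int _ _

theorem S36HL_coeffMap_h {K : Type*} [CommRing K] (u : PowerSeries ℤ) :
    coeffMap (Int.castRingHom K) (S36AUX_h u) = S36AUX_hK K u := by
  rw [S36AUX_h, S36AUX_hK, map_mul, coeffMap_single, map_one, coeffMap_ofPowerSeries]

/-- the defining relation of the Hauptmodul, over any ring of constants and at any level -/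
theorem S36HL_rel {r : ℕ} [NeZero r] (D : S36AUX_Data r) (K : Type*) [CommRing K] (d : ℕ)
    [NeZero d] :
    qExpand K d (jqModC K) *
        eval₂ (Int.castRingHom (LaurentSeries K)) (qExpand K d (S36AUX_hK K D.u)) D.B =
      (eval₂ (Int.castRingHom (LaurentSeries K)) (qExpand K d (S36AUX_hK K D.u)) D.a) ^ 3 := by
  have h0 := D.rel
  rw [S36HL_aeval_eq_eval₂, S36HL_aeval_eq_eval₂] at h0
  have h := congrArg (fun x => qExpand K d (coeffMap (Int.castRingHom K) x)) h0
  simp only [map_mul, map_pow, S36HL_hom_eval, coeffMap_jqModC, S36HL_coeffMap_h] at h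
  exact h

theorem S36HL_jLaur (d : ℕ) [NeZero d] : jLaur d = qExpand Kbar d (jqModC Kbar) := by
  unfold jLaur
  rw [← jqModC_rat]
  exact Fermat.Agent.S18_helper25_GLUE.S18G_coeffMap_gen (algebraMap ℚ Kbar) d

/-- **`hloc`** -/
theorem S36HL_hloc {r : ℕ} [NeZero r] (D : S36AUX_Data r) (N : ℕ) [NeZero N] (d : ℕ) [NeZero d]
    (hd : d ∣ N) (z₀ : ℍ) (i : Q N) (Xd : modularFunctionFieldBar N)
    (hX : (Xd : LaurentSeries Kbar) = qExpand Kbar d (S36AUX_hK Kbar D.u)) :
    ∃ ξ : PowerSeries ℂ, iotaFin N z₀ i Xd = HahnSeries.ofPowerSeries ℤ ℂ ξ ∧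
      PowerSeries.coeff 1 ξ ≠ 0 := by
  have hdpos : 0 < d := Nat.pos_of_ne_zero (NeZero.ne d)
  obtain ⟨U, V, e, hbez⟩ := D.bez
  -- the relation in the function field
  have hrelF : jF N d hd * eval₂ (Int.castRingHom (modularFunctionFieldBar N)) Xd D.B =
      (eval₂ (Int.castRingHom (modularFunctionFieldBar N)) Xd D.a) ^ 3 := by
    apply Subtype.ext
    have hval : ∀ P : Polynomial ℤ,
        ((eval₂ (Int.castRingHom (modularFunctionFieldBar N)) Xd P :
          modularFunctionFieldBar N) : LaurentSeries Kbar) =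
        eval₂ (Int.castRingHom (LaurentSeries Kbar)) (Xd : LaurentSeries Kbar) P := fun P =>
      S36HL_hom_eval (algebraMap (modularFunctionFieldBar N) (LaurentSeries Kbar)) Xd P
    have h1 : ((jF N d hd * eval₂ (Int.castRingHom (modularFunctionFieldBar N)) Xd D.B :
        modularFunctionFieldBar N) : LaurentSeries Kbar) =
        jLaur d * eval₂ (Int.castRingHom (LaurentSeries Kbar)) (Xd : LaurentSeries Kbar) D.B := by
      rw [← hval]; rfl
    have h2 : (((eval₂ (Int.castRingHom (modularFunctionFieldBar N)) Xd D.a) ^ 3 :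
        modularFunctionFieldBar N) : LaurentSeries Kbar) =
        (eval₂ (Int.castRingHom (LaurentSeries Kbar)) (Xd : LaurentSeries Kbar) D.a) ^ 3 := by
      rw [← hval]; rfl
    rw [h1, h2, hX, S36HL_jLaur]
    exact S36HL_rel D Kbar d
  -- its image under `ι`
  have hrel : HahnSeries.ofPowerSeries ℤ ℂ (taylorAt z₀ (jd d (i.out⁻¹))) *
      eval₂ (Int.castRingHom (LaurentSeries ℂ)) (iotaFin N z₀ i Xd) D.B =
      (eval₂ (Int.castRingHom (LaurentSeries ℂ)) (iotaFin N z₀ i Xd) D.a) ^ 3 := by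
    have h := congrArg (iotaFin N z₀ i) hrelF
    rw [map_mul, map_pow, S36HL_hom_eval, S36HL_hom_eval, iotaFin_jF] at h
    exact h
  have hJ0 : PowerSeries.constantCoeff (taylorAt z₀ (jd d (i.out⁻¹))) =
      jfun (S36HL_M d (i.out⁻¹) z₀) :=
    Fermat.Agent.S24_helper26_TAY.taylorAt_constantCoeff z₀
  have hmd := Fermat.Agent.S24_helper27_J1.jd_mdiff d hdpos (i.out⁻¹)
  refine S36HL_xi' D.a D.B D.c U V ((r : ℤ) ^ e)
    (pow_ne_zero e (by exact_mod_cast NeZero.ne r)) D.ha D.hB D.hdeg D.hc hbez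
    (taylorAt z₀ (jd d (i.out⁻¹))) ?_ ?_ ?_ _ hrel
  · intro h
    rw [hJ0, Fermat.Agent.S24_helper10_J.jfun_eq_zero_iff] at h
    exact S36HL_order_rho d hdpos _ z₀ h
  · intro h
    rw [hJ0, Fermat.Agent.S24_helper10_J.jfun_eq_1728_iff] at h
    rw [← taylorAt_sub_const z₀ hmd]
    exact S36HL_order_I d hdpos _ z₀ h
  · intro h0 h1
    rw [hJ0] at h0 h1
    have h4 : E₄ (S36HL_M d (i.out⁻¹) z₀) ≠ 0 := fun h =>
      h0 ((Fermat.Agent.S24_helper10_J.jfun_eq_zero_iff _).mpr h)
    have h6 : E₆ (S36HL_M d (i.out⁻¹) z₀) ≠ 0 := fun h =>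
      h1 ((Fermat.Agent.S24_helper10_J.jfun_eq_1728_iff _).mpr h)
    rw [hJ0, ← taylorAt_sub_const z₀ hmd]
    exact S36HL_order_generic d hdpos _ z₀ h4 h6

end Fermat.Agent.S36_helper21_HLOC
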