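import Fermat.Agent.S24_helper1_ORD
import Fermat.Agent.S24_helper27_J1
import Fermat.Agent.S24_helper10_J
import Fermat.Agent.S20_helper13_B2

/-!
# S36, THICK-UNR, piece `hloc` (A): local orders of `z ↦ j(d · γ z)` at every point

For every `d ≥ 1`, `γ ∈ SL(2, ℤ)` and `z₀ ∈ ℍ`, with `w₀ = d · γ z₀`, the Taylor expansion of
`jd d γ - jd d γ z₀` in the Cayley coordinate at `z₀` has order `3` when `E₄ w₀ = 0`, order `2`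
when `E₆ w₀ = 0` and order `1` otherwise.
-/

set_option autoImplicit false
set_option linter.unusedVariables false
set_option linter.unusedSectionVars false

open UpperHalfPlane ModularForm CongruenceSubgroup
open scoped MatrixGroups ModularForm Manifold Topology
open Fermat.Agent.S20 Fermat.Agent.S24

noncomputable section

namespace Fermat.Agent.S36_helper21_HLOCA

/-- `z ↦ d · γ z` on the upper half plane -/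
def S36HL_M (d : ℕ) (γ : SL(2, ℤ)) (z : ℍ) : ℍ := dmul d (γ • z)

/-- the same map on `ℂ` -/
def S36HL_Mc (d : ℕ) (γ : SL(2, ℤ)) (z : ℂ) : ℂ :=
  (d : ℂ) * ((((γ 0 0 : ℤ) : ℂ) * z + ((γ 0 1 : ℤ) : ℂ)) /
    (((γ 1 0 : ℤ) : ℂ) * z + ((γ 1 1 : ℤ) : ℂ)))

theorem S36HL_M_coe (d : ℕ) (hd : 0 < d) (γ : SL(2, ℤ)) (z : ℍ) :
    ((S36HL_M d γ z : ℍ) : ℂ) = S36HL_Mc d γ (z : ℂ) := by
  unfold S36HL_M S36HL_Mc
  rw [Fermat.Agent.S24_helper27_J1.dmul_coe d hd, Fermat.Agent.S24_helper26_TAY.coe_smul_int]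

theorem S36HL_Mc_im_pos (d : ℕ) (hd : 0 < d) (γ : SL(2, ℤ)) {z : ℂ} (hz : 0 < z.im) :
    0 < (S36HL_Mc d γ z).im := by
  have h := S36HL_M_coe d hd γ ⟨z, hz⟩
  have h2 := (S36HL_M d γ ⟨z, hz⟩).im_pos
  have h3 : (S36HL_M d γ ⟨z, hz⟩).im = ((S36HL_M d γ ⟨z, hz⟩ : ℍ) : ℂ).im := rfl
  rw [h3, h] at h2
  exact h2

theorem S36HL_comp_eq (d : ℕ) (hd : 0 < d) (γ : SL(2, ℤ)) (g : ℍ → ℂ) {z : ℂ} (hz : 0 < z.im) :
    ((g ∘ S36HL_M d γ) ∘ ofComplex) z = ((g ∘ ofComplex) ∘ S36HL_Mc d γ) z := by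
  simp only [Function.comp_apply]
  congr 1
  apply UpperHalfPlane.ext
  rw [S36HL_M_coe d hd, ofComplex_apply_of_im_pos hz,
    ofComplex_apply_of_im_pos (S36HL_Mc_im_pos d hd γ hz)]

theorem S36HL_det (γ : SL(2, ℤ)) :
    ((γ 0 0 : ℤ) : ℂ) * ((γ 1 1 : ℤ) : ℂ) - ((γ 0 1 : ℤ) : ℂ) * ((γ 1 0 : ℤ) : ℂ) = 1 := by
  have h := γ.2
  rw [Matrix.det_fin_two] at h
  have h2 : ((γ.1 0 0 * γ.1 1 1 - γ.1 0 1 * γ.1 1 0 : ℤ) : ℂ) = 1 := by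
    rw [h]; simp
  push_cast at h2
  exact h2

theorem S36HL_hasDerivAt (d : ℕ) (γ : SL(2, ℤ)) (z : ℍ) :
    HasDerivAt (S36HL_Mc d γ)
      ((d : ℂ) / (((γ 1 0 : ℤ) : ℂ) * (z : ℂ) + ((γ 1 1 : ℤ) : ℂ)) ^ 2) (z : ℂ) := by
  have hden := Fermat.Agent.S24_helper26_TAY.denom_int_ne_zero γ z
  have h1 : HasDerivAt (fun w : ℂ => ((γ 0 0 : ℤ) : ℂ) * w + ((γ 0 1 : ℤ) : ℂ))
      ((γ 0 0 : ℤ) : ℂ) (z : ℂ) := by
    simpa using ((hasDerivAt_id (z : ℂ)).const_mul ((γ 0 0 : ℤ) : ℂ)).add_const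
      ((γ 0 1 : ℤ) : ℂ)
  have h2 : HasDerivAt (fun w : ℂ => ((γ 1 0 : ℤ) : ℂ) * w + ((γ 1 1 : ℤ) : ℂ))
      ((γ 1 0 : ℤ) : ℂ) (z : ℂ) := by
    simpa using ((hasDerivAt_id (z : ℂ)).const_mul ((γ 1 0 : ℤ) : ℂ)).add_const
      ((γ 1 1 : ℤ) : ℂ)
  have h3 := (h1.div h2 hden).const_mul (d : ℂ)
  have hdet := S36HL_det γ
  have e : (d : ℂ) * ((((γ 0 0 : ℤ) : ℂ) * (((γ 1 0 : ℤ) : ℂ) * (z : ℂ) + ((γ 1 1 : ℤ) : ℂ)) -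
      (((γ 0 0 : ℤ) : ℂ) * (z : ℂ) + ((γ 0 1 : ℤ) : ℂ)) * ((γ 1 0 : ℤ) : ℂ)) /
      (((γ 1 0 : ℤ) : ℂ) * (z : ℂ) + ((γ 1 1 : ℤ) : ℂ)) ^ 2) =
      (d : ℂ) / (((γ 1 0 : ℤ) : ℂ) * (z : ℂ) + ((γ 1 1 : ℤ) : ℂ)) ^ 2 := by
    have : ((γ 0 0 : ℤ) : ℂ) * (((γ 1 0 : ℤ) : ℂ) * (z : ℂ) + ((γ 1 1 : ℤ) : ℂ)) -
      (((γ 0 0 : ℤ) : ℂ) * (z : ℂ) + ((γ 0 1 : ℤ) : ℂ)) * ((γ 1 0 : ℤ) : ℂ) = 1 := by
      linear_combination hdet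
    rw [this, mul_one_div]
  rw [← e]
  exact h3

theorem S36HL_deriv_ne_zero (d : ℕ) (hd : 0 < d) (γ : SL(2, ℤ)) (z : ℍ) :
    (d : ℂ) / (((γ 1 0 : ℤ) : ℂ) * (z : ℂ) + ((γ 1 1 : ℤ) : ℂ)) ^ 2 ≠ 0 :=
  div_ne_zero (Nat.cast_ne_zero.mpr hd.ne')
    (pow_ne_zero 2 (Fermat.Agent.S24_helper26_TAY.denom_int_ne_zero γ z))

/-- composition with `z ↦ d · γ z` preserves holomorphy -/
theorem S36HL_mdiff (d : ℕ) (hd : 0 < d) (γ : SL(2, ℤ)) {g : ℍ → ℂ}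
    (hg : MDifferentiable 𝓘(ℂ) 𝓘(ℂ) g) : MDifferentiable 𝓘(ℂ) 𝓘(ℂ) (g ∘ S36HL_M d γ) := by
  rw [UpperHalfPlane.mdifferentiable_iff]
  intro w hw
  have hw' : 0 < w.im := hw
  have h1 : DifferentiableAt ℂ (g ∘ ofComplex) (S36HL_Mc d γ w) := by
    have := Fermat.Agent.S24_helper26_TAY.analyticAt_comp_ofComplex hg
      ⟨S36HL_Mc d γ w, S36HL_Mc_im_pos d hd γ hw'⟩
    exact this.differentiableAt
  have h2 : DifferentiableAt ℂ (S36HL_Mc d γ) w :=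
    (S36HL_hasDerivAt d γ ⟨w, hw'⟩).differentiableAt
  have h3 : DifferentiableAt ℂ ((g ∘ ofComplex) ∘ S36HL_Mc d γ) w :=
    DifferentiableAt.comp w h1 h2
  refine h3.differentiableWithinAt.congr ?_ ?_
  · intro v hv
    exact S36HL_comp_eq d hd γ g hv
  · exact S36HL_comp_eq d hd γ g hw'

/-- chain rule for the derivative at a point -/
theorem S36HL_deriv (d : ℕ) (hd : 0 < d) (γ : SL(2, ℤ)) {g : ℍ → ℂ}
    (hg : MDifferentiable 𝓘(ℂ) 𝓘(ℂ) g) (z₀ : ℍ) :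
    deriv ((g ∘ S36HL_M d γ) ∘ ofComplex) z₀ =
      deriv (g ∘ ofComplex) (S36HL_M d γ z₀) *
        ((d : ℂ) / (((γ 1 0 : ℤ) : ℂ) * (z₀ : ℂ) + ((γ 1 1 : ℤ) : ℂ)) ^ 2) := by
  have hev : ((g ∘ S36HL_M d γ) ∘ ofComplex) =ᶠ[𝓝 (z₀ : ℂ)]
      ((g ∘ ofComplex) ∘ S36HL_Mc d γ) := by
    filter_upwards [isOpen_upperHalfPlaneSet.mem_nhds z₀.im_pos] with v hv
    exact S36HL_comp_eq d hd γ g hv
  rw [hev.deriv_eq]
  have h1 : HasDerivAt (g ∘ ofComplex) (deriv (g ∘ ofComplex) (S36HL_M d γ z₀))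
      (S36HL_Mc d γ (z₀ : ℂ)) := by
    rw [← S36HL_M_coe d hd]
    exact (Fermat.Agent.S24_helper26_TAY.analyticAt_comp_ofComplex hg
      (S36HL_M d γ z₀)).differentiableAt.hasDerivAt
  exact (h1.comp (z₀ : ℂ) (S36HL_hasDerivAt d γ z₀)).deriv

theorem S36HL_deriv_ne (d : ℕ) (hd : 0 < d) (γ : SL(2, ℤ)) {g : ℍ → ℂ}
    (hg : MDifferentiable 𝓘(ℂ) 𝓘(ℂ) g) (z₀ : ℍ)
    (h : deriv (g ∘ ofComplex) (S36HL_M d γ z₀) ≠ 0) :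
    deriv ((g ∘ S36HL_M d γ) ∘ ofComplex) z₀ ≠ 0 := by
  rw [S36HL_deriv d hd γ hg]
  exact mul_ne_zero h (S36HL_deriv_ne_zero d hd γ z₀)

open Fermat.Agent.S24_helper1_ORD in
/-- simple zeros stay simple -/
theorem S36HL_order_one (d : ℕ) (hd : 0 < d) (γ : SL(2, ℤ)) {g : ℍ → ℂ}
    (hg : MDifferentiable 𝓘(ℂ) 𝓘(ℂ) g) (z₀ : ℍ) (h0 : g (S36HL_M d γ z₀) = 0)
    (h : deriv (g ∘ ofComplex) (S36HL_M d γ z₀) ≠ 0) :
    (taylorAt z₀ (g ∘ S36HL_M d γ)).order = 1 :=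
  Fermat.Agent.S24_helper26_TAY.taylorAt_order_one z₀ (S36HL_mdiff d hd γ hg) h0
    (S36HL_deriv_ne d hd γ hg z₀ h)

open Fermat.Agent.S24_helper1_ORD in
theorem S36HL_order_DeltaInv (d : ℕ) (γ : SL(2, ℤ)) (z₀ : ℍ) :
    (taylorAt z₀ (DeltaInv ∘ S36HL_M d γ)).order = 0 :=
  order_taylorAt_eq_zero z₀ _ (inv_ne_zero (discriminant_ne_zero _))

theorem S36HL_jd_eq (d : ℕ) (γ : SL(2, ℤ)) : jd d γ = jfun ∘ S36HL_M d γ := rfl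

open Fermat.Agent.S24_helper1_ORD in
/-- **order 3** over `j = 0` -/
theorem S36HL_order_rho (d : ℕ) (hd : 0 < d) (γ : SL(2, ℤ)) (z₀ : ℍ)
    (h0 : E₄ (S36HL_M d γ z₀) = 0) : (taylorAt z₀ (jd d γ)).order = 3 := by
  have hE := S36HL_mdiff d hd γ E₄_mdiff
  have hD := S36HL_mdiff d hd γ DeltaInv_mdiff
  have hfun : jd d γ = ((⇑E₄ : ℍ → ℂ) ∘ S36HL_M d γ) * (((⇑E₄ : ℍ → ℂ) ∘ S36HL_M d γ) *
      (((⇑E₄ : ℍ → ℂ) ∘ S36HL_M d γ) * (DeltaInv ∘ S36HL_M d γ))) := by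
    funext z
    simp only [Pi.mul_apply, Function.comp_apply, DeltaInv, jd, S36HL_M, jfun, div_eq_mul_inv]
    ring
  have h1 : (taylorAt z₀ ((⇑E₄ : ℍ → ℂ) ∘ S36HL_M d γ)).order = 1 :=
    S36HL_order_one d hd γ E₄_mdiff z₀ h0 (Fermat.Agent.S20_helper13_B2.B2a _ h0)
  rw [hfun, Fermat.Agent.S24_helper26_TAY.taylorAt_mul z₀ hE (hE.mul (hE.mul hD)),
    Fermat.Agent.S24_helper26_TAY.taylorAt_mul z₀ hE (hE.mul hD),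
    Fermat.Agent.S24_helper26_TAY.taylorAt_mul z₀ hE hD,
    PowerSeries.order_mul, PowerSeries.order_mul, PowerSeries.order_mul, h1,
    S36HL_order_DeltaInv]
  rfl

open Fermat.Agent.S24_helper1_ORD in
/-- **order 2** over `j = 1728` -/
theorem S36HL_order_I (d : ℕ) (hd : 0 < d) (γ : SL(2, ℤ)) (z₀ : ℍ)
    (h0 : E₆ (S36HL_M d γ z₀) = 0) : (taylorAt z₀ (fun z => jd d γ z - 1728)).order = 2 := by
  have hE := S36HL_mdiff d hd γ E₆_mdiff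
  have hD := S36HL_mdiff d hd γ DeltaInv_mdiff
  have hfun : (fun z => jd d γ z - 1728) = ((⇑E₆ : ℍ → ℂ) ∘ S36HL_M d γ) *
      (((⇑E₆ : ℍ → ℂ) ∘ S36HL_M d γ) * (DeltaInv ∘ S36HL_M d γ)) := by
    funext z
    simp only [Pi.mul_apply, Function.comp_apply, DeltaInv, jd, S36HL_M]
    rw [Fermat.Agent.S24_helper10_J.jfun_sub_1728]
    simp only [div_eq_mul_inv]
    ring
  have h1 : (taylorAt z₀ ((⇑E₆ : ℍ → ℂ) ∘ S36HL_M d γ)).order = 1 :=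
    S36HL_order_one d hd γ E₆_mdiff z₀ h0 (Fermat.Agent.S20_helper13_B2.B2b _ h0)
  rw [hfun, Fermat.Agent.S24_helper26_TAY.taylorAt_mul z₀ hE (hE.mul hD),
    Fermat.Agent.S24_helper26_TAY.taylorAt_mul z₀ hE hD,
    PowerSeries.order_mul, PowerSeries.order_mul, h1, S36HL_order_DeltaInv]
  rfl

open Fermat.Agent.S24_helper1_ORD in
/-- **order 1** elsewhere -/
theorem S36HL_order_generic (d : ℕ) (hd : 0 < d) (γ : SL(2, ℤ)) (z₀ : ℍ)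
    (h4 : E₄ (S36HL_M d γ z₀) ≠ 0) (h6 : E₆ (S36HL_M d γ z₀) ≠ 0) :
    (taylorAt z₀ (fun z => jd d γ z - jd d γ z₀)).order = 1 := by
  obtain ⟨c, hc⟩ : ∃ c : ℂ, c = jfun (S36HL_M d γ z₀) := ⟨_, rfl⟩
  obtain ⟨H, hH⟩ : ∃ H : ℍ → ℂ,
      H = fun w : ℍ => (1 - c / 1728) * E₄ w ^ 3 + (c / 1728) * E₆ w ^ 2 := ⟨_, rfl⟩
  have hHd : MDifferentiable 𝓘(ℂ) 𝓘(ℂ) H := by
    have h1 : MDifferentiable 𝓘(ℂ) 𝓘(ℂ) ((1 - c / 1728) • ((⇑E₄ : ℍ → ℂ) ^ 3)) :=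
      (E₄_mdiff.pow 3).const_smul _
    have h2 : MDifferentiable 𝓘(ℂ) 𝓘(ℂ) ((c / 1728) • ((⇑E₆ : ℍ → ℂ) ^ 2)) :=
      (E₆_mdiff.pow 2).const_smul _
    have := h1.add h2
    convert this using 1
    rw [hH]
    funext w
    simp
  have hfun : (fun z => jd d γ z - jd d γ z₀) = (H ∘ S36HL_M d γ) * (DeltaInv ∘ S36HL_M d γ) := by
    funext z
    have e1 : jd d γ z₀ = c := by rw [hc]; rfl
    have e2 : jd d γ z = jfun (S36HL_M d γ z) := rfl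
    rw [e1, e2, Fermat.Agent.S24_helper10_J.jfun_sub]
    simp only [Pi.mul_apply, Function.comp_apply, hH, DeltaInv, div_eq_mul_inv]
  have hH0 : H (S36HL_M d γ z₀) = 0 := by
    have h := Fermat.Agent.S24_helper10_J.jfun_sub (S36HL_M d γ z₀) c
    rw [hc, sub_self, ← hc] at h
    have h' := h.symm
    rw [div_eq_zero_iff] at h'
    rcases h' with h' | h'
    · rw [hH]; exact h'
    · exact absurd h' (discriminant_ne_zero _)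
  have hderiv : deriv (H ∘ ofComplex) (S36HL_M d γ z₀) ≠ 0 := by
    rw [hH] at hH0 ⊢
    exact Fermat.Agent.S20_helper13_B2.B2c (1 - c / 1728) (c / 1728) (by norm_num) _ h4 h6 hH0
  rw [hfun, Fermat.Agent.S24_helper26_TAY.taylorAt_mul z₀ (S36HL_mdiff d hd γ hHd)
      (S36HL_mdiff d hd γ DeltaInv_mdiff), PowerSeries.order_mul,
    S36HL_order_one d hd γ hHd z₀ hH0 hderiv, S36HL_order_DeltaInv, add_zero]

end Fermat.Agent.S36_helper21_HLOCA
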