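import Mathlib

/-!
# S36 (g2), file 1: norms commute with base change in a square of prime degree

`K1 / K0` and `K12 / K2` finite field extensions of the same prime degree, `v : K0 → K2` and
`v' : K1 → K12` ring homomorphisms making the square commute, and `v' K1` not contained in `K2`.
Then `K12 = K2 ⊗ K1` (linear disjointness comes for free from the prime degree) and norms commute
with `v`, `v'`.  Mathlib only.
-/

namespace Fermat.Agent.S36_helper23_NORMBC

open Module

/-- The image of a `K0`-basis of `K1` spans `K12` over `K2`. -/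
theorem S36BC_span_top {K0 K1 K2 K12 : Type*} [Field K0] [Field K1] [Field K2] [Field K12]
    [Algebra K0 K1] [Algebra K2 K12] [FiniteDimensional K2 K12]
    (v : K0 →+* K2) (v' : K1 →+* K12)
    (hcomm : ∀ a, v' (algebraMap K0 K1 a) = algebraMap K2 K12 (v a))
    (hprime : (Module.finrank K2 K12).Prime)
    (hnc : ∃ f : K1, v' f ∉ (algebraMap K2 K12).range)
    {ι : Type*} [Fintype ι] (b : Basis ι K0 K1) :
    Submodule.span K2 (Set.range fun i => v' (b i)) = ⊤ := by
  classical
  have hv'repr : ∀ x : K1, v' x = ∑ i, v (b.repr x i) • v' (b i) := by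
    intro x
    conv_lhs => rw [← b.sum_repr x]
    rw [map_sum]
    refine Finset.sum_congr rfl fun i _ => ?_
    rw [Algebra.smul_def, map_mul, hcomm, Algebra.smul_def]
  -- the span of the image of `v'` is a subalgebra
  have hclos : (Submonoid.closure (Set.range v') : Set K12) = Set.range v' := by
    have h1 : Set.range v' = ((MonoidHom.mrange (v' : K1 →* K12) : Submonoid K12) : Set K12) := by
      ext y; simp
    rw [h1, Submonoid.closure_eq]
  have hS : Subalgebra.toSubmodule (Algebra.adjoin K2 (Set.range v'))
      = Submodule.span K2 (Set.range fun i => v' (b i)) := by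
    rw [Algebra.adjoin_eq_span, hclos]
    apply le_antisymm
    · rw [Submodule.span_le]
      rintro _ ⟨x, rfl⟩
      rw [SetLike.mem_coe, hv'repr]
      exact Submodule.sum_mem _ fun i _ =>
        Submodule.smul_mem _ _ (Submodule.subset_span ⟨i, rfl⟩)
    · apply Submodule.span_mono
      rintro _ ⟨i, rfl⟩
      exact ⟨b i, rfl⟩
  have : IsSimpleOrder (IntermediateField K2 K12) :=
    IntermediateField.isSimpleOrder_of_finrank_prime K2 K12 hprime
  have hM : IntermediateField.adjoin K2 (Set.range v') = ⊤ := by
    rcases eq_bot_or_eq_top (IntermediateField.adjoin K2 (Set.range v')) with h | h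
    · exfalso
      obtain ⟨f0, hf0⟩ := hnc
      apply hf0
      have h2 : v' f0 ∈ IntermediateField.adjoin K2 (Set.range v') :=
        IntermediateField.subset_adjoin _ _ ⟨f0, rfl⟩
      rw [h] at h2
      exact IntermediateField.mem_bot.mp h2
    · exact h
  have hM' : (IntermediateField.adjoin K2 (Set.range v')).toSubalgebra
      = Algebra.adjoin K2 (Set.range v') :=
    IntermediateField.adjoin_toSubalgebra (Set.range v')
  rw [← hS, ← hM', hM]
  simp

/-- **Norms commute with base change in a square of prime degree.** -/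
theorem S36BC_norm_square {K0 K1 K2 K12 : Type*} [Field K0] [Field K1] [Field K2] [Field K12]
    [Algebra K0 K1] [Algebra K2 K12] [FiniteDimensional K0 K1] [FiniteDimensional K2 K12]
    (v : K0 →+* K2) (v' : K1 →+* K12)
    (hcomm : ∀ a, v' (algebraMap K0 K1 a) = algebraMap K2 K12 (v a))
    (hdeg : Module.finrank K2 K12 = Module.finrank K0 K1)
    (hprime : (Module.finrank K0 K1).Prime)
    (hnc : ∃ f : K1, v' f ∉ (algebraMap K2 K12).range) (f : K1) :
    Algebra.norm K2 (v' f) = v (Algebra.norm K0 f) := by
  classical
  let b : Basis (Fin (Module.finrank K0 K1)) K0 K1 := Module.finBasis K0 K1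
  have hv'repr : ∀ x : K1, v' x = ∑ i, v (b.repr x i) • v' (b i) := by
    intro x
    conv_lhs => rw [← b.sum_repr x]
    rw [map_sum]
    refine Finset.sum_congr rfl fun i _ => ?_
    rw [Algebra.smul_def, map_mul, hcomm, Algebra.smul_def]
  have hspan : Submodule.span K2 (Set.range fun i => v' (b i)) = ⊤ :=
    S36BC_span_top v v' hcomm (hdeg ▸ hprime) hnc b
  have hcard : Fintype.card (Fin (Module.finrank K0 K1)) = Module.finrank K2 K12 := by
    simp [hdeg]
  have hli : LinearIndependent K2 (fun i => v' (b i)) :=
    linearIndependent_of_top_le_span_of_card_eq_finrank hspan.ge hcard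
  let b' : Basis (Fin (Module.finrank K0 K1)) K2 K12 := Basis.mk hli hspan.ge
  have hb' : ∀ i, b' i = v' (b i) := fun i => by simp [b']
  rw [Algebra.norm_eq_matrix_det b', Algebra.norm_eq_matrix_det b, RingHom.map_det]
  congr 1
  ext i j
  simp only [RingHom.mapMatrix_apply, Matrix.map_apply, Algebra.leftMulMatrix_eq_repr_mul]
  have h3 : v' f * b' j = ∑ k, v (b.repr (f * b j) k) • b' k := by
    rw [hb', ← map_mul, hv'repr]
    simp [hb']
  rw [h3, b'.repr_sum_self]

/-- The same for traces (not needed downstream, but free). -/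
theorem S36BC_trace_square {K0 K1 K2 K12 : Type*} [Field K0] [Field K1] [Field K2] [Field K12]
    [Algebra K0 K1] [Algebra K2 K12] [FiniteDimensional K0 K1] [FiniteDimensional K2 K12]
    (v : K0 →+* K2) (v' : K1 →+* K12)
    (hcomm : ∀ a, v' (algebraMap K0 K1 a) = algebraMap K2 K12 (v a))
    (hdeg : Module.finrank K2 K12 = Module.finrank K0 K1)
    (hprime : (Module.finrank K0 K1).Prime)
    (hnc : ∃ f : K1, v' f ∉ (algebraMap K2 K12).range) (f : K1) :
    Algebra.trace K2 K12 (v' f) = v (Algebra.trace K0 K1 f) := by
  classical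
  let b : Basis (Fin (Module.finrank K0 K1)) K0 K1 := Module.finBasis K0 K1
  have hv'repr : ∀ x : K1, v' x = ∑ i, v (b.repr x i) • v' (b i) := by
    intro x
    conv_lhs => rw [← b.sum_repr x]
    rw [map_sum]
    refine Finset.sum_congr rfl fun i _ => ?_
    rw [Algebra.smul_def, map_mul, hcomm, Algebra.smul_def]
  have hspan : Submodule.span K2 (Set.range fun i => v' (b i)) = ⊤ :=
    S36BC_span_top v v' hcomm (hdeg ▸ hprime) hnc b
  have hcard : Fintype.card (Fin (Module.finrank K0 K1)) = Module.finrank K2 K12 := by
    simp [hdeg]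
  have hli : LinearIndependent K2 (fun i => v' (b i)) :=
    linearIndependent_of_top_le_span_of_card_eq_finrank hspan.ge hcard
  let b' : Basis (Fin (Module.finrank K0 K1)) K2 K12 := Basis.mk hli hspan.ge
  have hb' : ∀ i, b' i = v' (b i) := fun i => by simp [b']
  rw [Algebra.trace_eq_matrix_trace b', Algebra.trace_eq_matrix_trace b]
  rw [Matrix.trace, Matrix.trace, map_sum]
  refine Finset.sum_congr rfl fun i _ => ?_
  simp only [Matrix.diag_apply, Algebra.leftMulMatrix_eq_repr_mul]
  have h3 : v' f * b' i = ∑ k, v (b.repr (f * b i) k) • b' k := by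
    rw [hb', ← map_mul, hv'repr]
    simp [hb']
  rw [h3, b'.repr_sum_self]

end Fermat.Agent.S36_helper23_NORMBC
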