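import Mathlib
import Fermat.Agent.S36_helper23_NORMBC
import Fermat.Agent.S35_helper6_PUSH
import Fermat.Agent.S36_helper20_WQQ
import Fermat.Agent.S36_helper4_DEG
import Fermat.Agent.S18_helper25_GLUE
import Fermat.Agent.S34_helper1_MODEQT

/-!
# S36 (g2), file 2 (helper23): base change for the two degeneracy push-forwards

The square of function fields

```
   F1 = F̄(N' q q)  --u'-->  F' = F̄(N' r q q)
        ^                        ^
        | φ (α or β)             | φ' (α or β)
   E  = F̄(N' q)    --u--->  E' = F̄(N' r q)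
```

* abstract part: if norms commute with `u`, `u'` then on divisors `D` of `F1` with `n • D`
  principal (`n > 0`) the push-forward commutes with the pull-back
  (`S36BC_div_square`), hence on torsion classes (`S36BC_pic0_square`);
* modular part: norms do commute (`S36BC_norm_alpha`, `S36BC_norm_beta`), by
  `S36BC_norm_square` (prime degree `q` on both sides, and `F1 ⊄ φ' E'`).
-/

set_option autoImplicit false
set_option linter.style.haveILetI false
set_option linter.unusedSectionVars false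
set_option linter.unusedVariables false

open AlgebraicCurve ModularCurve IntermediateField

namespace Fermat.Agent.S36_helper23_BC

open Fermat.Agent.S36_helper23_NORMBC Fermat.Agent.S35_helper6_PUSH

noncomputable section

/-! ### abstract part -/

section Abstract

variable {K E F1 E' F' : Type*} [Field K] [Field E] [Field F1] [Field E'] [Field F']
  [Algebra K E] [Algebra K F1] [Algebra K E'] [Algebra K F']
  [HasPrincipalDivisors K E'] [HasPrincipalDivisors K F']
variable (φ : E →ₐ[K] F1) (hφ : φ.toRingHom.IsIntegral)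
  (φ' : E' →ₐ[K] F') (hφ' : φ'.toRingHom.IsIntegral)
  (u : E →ₐ[K] E') (hu : u.toRingHom.IsIntegral)
  (u' : F1 →ₐ[K] F') (hu' : u'.toRingHom.IsIntegral)
  (hfin : FiniteAlong K φ) (hfin' : FiniteAlong K φ')
  (hN : NormFormulaAlong K φ hfin) (hN' : NormFormulaAlong K φ' hfin')
  (hnorm : ∀ f : F1, (letI := algebraAlong φ'; Algebra.norm E' (u' f))
      = u (letI := algebraAlong φ; Algebra.norm E f))

include hN hN' hnorm in
/-- **push-forward commutes with pull-back on torsion divisors.** -/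
theorem S36BC_div_square (D : Divisor K F1) (n : ℕ) (hn : 0 < n)
    (hD : (n • D).IsPrincipal) :
    Divisor.pushforwardAlong φ' hφ' (Divisor.pullbackAlong u' hu' D)
      = Divisor.pullbackAlong u hu (Divisor.pushforwardAlong φ hφ D) := by
  obtain ⟨f, hf, hDf⟩ := hD
  -- pull-back of `n • D` along `u'` is `div (u' f)`
  have h1 : ∀ W : Place K F', Divisor.pullbackAlong u' hu' (n • D) W = W.ord (u' f) := by
    intro W
    letI := algebraAlong u'
    haveI := isScalarTower_along u'
    haveI := isIntegral_along u' hu'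
    exact Divisor.pullback_apply_eq_ord hDf W
  have hf' : u' f ≠ 0 := by
    intro h0
    exact hf (u'.toRingHom.injective (by simpa using h0))
  have h2 : ∀ v' : Place K E',
      Divisor.pushforwardAlong φ' hφ' (Divisor.pullbackAlong u' hu' (n • D)) v'
        = v'.ord (letI := algebraAlong φ'; Algebra.norm E' (u' f)) := by
    intro v'
    letI := algebraAlong φ'
    haveI := isScalarTower_along φ'
    haveI := isIntegral_along φ' hφ'
    haveI : Module.Finite E' F' := hfin'
    exact hN' (u' f) hf' _ h1 v'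
  have h3 : ∀ v : Place K E, Divisor.pushforwardAlong φ hφ (n • D) v
      = v.ord (letI := algebraAlong φ; Algebra.norm E f) := by
    intro v
    letI := algebraAlong φ
    haveI := isScalarTower_along φ
    haveI := isIntegral_along φ hφ
    haveI : Module.Finite E F1 := hfin
    exact hN f hf _ hDf v
  have h4 : ∀ v' : Place K E',
      Divisor.pullbackAlong u hu (Divisor.pushforwardAlong φ hφ (n • D)) v'
        = v'.ord (u (letI := algebraAlong φ; Algebra.norm E f)) := by
    intro v'
    letI := algebraAlong u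
    haveI := isScalarTower_along u
    haveI := isIntegral_along u hu
    exact Divisor.pullback_apply_eq_ord h3 v'
  have h5 : n • Divisor.pushforwardAlong φ' hφ' (Divisor.pullbackAlong u' hu' D)
      = n • Divisor.pullbackAlong u hu (Divisor.pushforwardAlong φ hφ D) := by
    rw [← map_nsmul, ← map_nsmul, ← map_nsmul, ← map_nsmul]
    refine Finsupp.ext fun v' => ?_
    rw [h2, h4, hnorm]
  refine Finsupp.ext fun v' => ?_
  have h6 := DFunLike.congr_fun h5 v'
  rw [Finsupp.smul_apply, Finsupp.smul_apply, nsmul_eq_mul, nsmul_eq_mul] at h6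
  have hn' : (n : ℤ) ≠ 0 := by exact_mod_cast hn.ne'
  exact mul_left_cancel₀ hn' h6

include hnorm in
/-- **push-forward commutes with pull-back on torsion classes**, for ANY pair of maps `P`, `P'`
on `Pic⁰` which are given on divisors by the pull-backs along `u'`, `u`. -/
theorem S36BC_pic0_square (P : Pic0 K F1 →+ Pic0 K F') (P' : Pic0 K E →+ Pic0 K E')
    (hP : ∀ D : Divisor.degZero (K := K) (F := F1), ∃ D' : Divisor.degZero (K := K) (F := F'),
      (D' : Divisor K F') = Divisor.pullbackAlong u' hu' (D : Divisor K F1) ∧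
        P (Pic0.mk D) = Pic0.mk D')
    (hP' : ∀ D : Divisor.degZero (K := K) (F := E), ∃ D' : Divisor.degZero (K := K) (F := E'),
      (D' : Divisor K E') = Divisor.pullbackAlong u hu (D : Divisor K E) ∧
        P' (Pic0.mk D) = Pic0.mk D')
    (n : ℕ) (hn : 0 < n) (x : Pic0 K F1) (hx : n • x = 0) :
    S35PU_pic0 φ' hφ' hfin' hN' (P x) = P' (S35PU_pic0 φ hφ hfin hN x) := by
  obtain ⟨D, rfl⟩ := Pic0.mk_surjective x
  have hprin : (n • (D : Divisor K F1)).IsPrincipal := by
    have h1 : Pic0.mk (n • D) = 0 := by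
      rw [← hx]
      exact map_nsmul (QuotientAddGroup.mk' _) n D
    unfold Pic0.mk at h1
    rw [QuotientAddGroup.eq_zero_iff, AddSubgroup.mem_addSubgroupOf] at h1
    have h2 : n • (D : Divisor K F1) ∈ Divisor.principal (K := K) (F := F1) := by
      simpa using h1
    exact h2
  obtain ⟨D', hD', hPD⟩ := hP D
  obtain ⟨D'', hD'', hPD''⟩ := hP' (S35PU_degZero φ hφ D)
  rw [hPD, S35PU_pic0_mk, S35PU_pic0_mk, hPD'']
  congr 1
  apply Subtype.ext
  rw [S35PU_coe_degZero, hD', hD'', S35PU_coe_degZero]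
  exact S36BC_div_square φ hφ φ' hφ' u hu u' hu' hfin hfin' hN hN' hnorm D n hn hprin

end Abstract

/-! ### modular part: non-containment -/

section NotIn

local notation "Qb" => AlgebraicClosure ℚ

open Fermat.Agent.S34_helper1_MODEQT Fermat.Agent.S36_helper20_WQQ Fermat.Agent.S34_helper20_V0
  Fermat.Agent.S18_helper25_GLUE

/-- `j` is not a series in `Q ^ q`, `q ≥ 2`. -/
theorem S36BC_j_ne_qExpand (K : Type*) [Field K] (q : ℕ) [NeZero q] (hq : 2 ≤ q)
    (y : LaurentSeries K) : jqModC K ≠ qExpand K q y := by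
  intro h
  have hy : y ≠ 0 := by
    rintro rfl
    rw [map_zero] at h
    exact jqModC_ne_zero_of_nontrivial K h
  have h1 := congrArg HahnSeries.order h
  rw [S34MT_order_j, S34MT_order_qExpand K q hy] at h1
  have h2 : (q : ℤ) ∣ 1 := ⟨-y.order, by linarith⟩
  have h3 : (q : ℤ) ≤ 1 := Int.le_of_dvd one_pos h2
  have h4 : (2 : ℤ) ≤ q := by exact_mod_cast hq
  omega

/-- `j(Q ^ (q²))` is not in the function field of level `q M'`, `q ∤ M'`
(by `w_(q²)`: it would make `j` a series in `Q ^ q`). -/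
theorem S36BC_jqq_notin (q M' N1 N : ℕ) [NeZero M'] [NeZero N1] [NeZero N] [NeZero q]
    [NeZero (q ^ 2)] (hq : q.Prime) (hqM : ¬ q ∣ M') (hN1 : N1 = q * M')
    (hN : N = q ^ 2 * M') :
    qExpand Qb (q ^ 2) (jqModC Qb) ∉ modularFunctionFieldFullC Qb N1 := by
  intro hmem
  have h1 := S36WQ_beta' (RingHom.id Qb) q M' N1 N hq hqM hN1 hN
    (⟨qExpand Qb (q ^ 2) (jqModC Qb), hmem⟩ : modularFunctionFieldFullC Qb N1)
  have hm : qExpand Qb (q ^ 2) (jqModC Qb) ∈ modularFunctionFieldFullC Qb N :=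
    jqModCd_mem_full Qb N (hN ▸ dvd_mul_right (q ^ 2) M')
  haveI : NeZero (1 : ℕ) := ⟨one_ne_zero⟩
  rw [S36WQ_wL_of_mem (RingHom.id Qb) (q ^ 2) M' N (S36WQ_cop hq hqM) hN hm,
    S36WQ_w_gen' (RingHom.id Qb) (q ^ 2) M' N (S36WQ_cop hq hqM) hN (q ^ 2) 1 1 (by ring)
      (one_dvd M') (q ^ 2) 1 (by ring) (by ring) hm, qExpand_one_apply] at h1
  exact S36BC_j_ne_qExpand Qb q hq.two_le _ h1

end NotIn

/-! ### modular part: the degree of `β` at a level divisible by `q` -/

section Degree

local notation "Qb" => AlgebraicClosure ℚ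

open Fermat.Agent.S34_helper1_MODEQT Fermat.Agent.S36_helper20_WQQ Fermat.Agent.S34_helper20_V0
  Fermat.Agent.S18_helper25_GLUE Fermat.Agent.S34_helper15_DEG Fermat.Agent.S36_helper4_DEG

set_option synthInstance.maxHeartbeats 400000 in
set_option maxHeartbeats 1000000 in
/-- `[F̄(N1 q) : β F̄(N1)] = q` for `N1 = q M'`, `q ∤ M'` (conjugate `α` by `w_q`, `w_(q²)`). -/
theorem S36BC_finrank_beta (q M' N1 : ℕ) [NeZero M'] [NeZero N1] [NeZero q] (hq : q.Prime)
    (hqM : ¬ q ∣ M') (hN1 : N1 = q * M') :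
    letI := algebraAlong (heckeBetaBar Qb N1 q)
    Module.finrank (modularFunctionFieldBar N1) (modularFunctionFieldBar (N1 * q)) = q := by
  haveI : NeZero (N1 * q) := ⟨mul_ne_zero (NeZero.ne N1) hq.ne_zero⟩
  haveI : NeZero (q ^ 2) := ⟨pow_ne_zero 2 hq.ne_zero⟩
  have hN : N1 * q = q ^ 2 * M' := by rw [hN1]; ring
  have hqN1 : q ∣ N1 := hN1 ▸ dvd_mul_right q M'
  have hα := S36DG_finrank Qb (RingHom.id Qb) N1 q hq hqN1
  letI aα : Algebra (modularFunctionFieldFullC Qb N1) (modularFunctionFieldFullC Qb (N1 * q)) :=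
    S34DEG_algebra Qb N1 q
  letI aβ := algebraAlong (heckeBetaBar Qb N1 q)
  refine Eq.trans (Eq.symm ?_) hα
  let i : modularFunctionFieldFullC Qb N1 ≃+* modularFunctionFieldBar N1 :=
    (S34V0_w (RingHom.id Qb) q M' N1 hq hqM hN1).toRingEquiv.trans
      (IntermediateField.equivOfEq (S18G_bar_eq N1).symm).toRingEquiv
  let j : modularFunctionFieldFullC Qb (N1 * q) ≃+* modularFunctionFieldBar (N1 * q) :=
    (S36WQ_w (RingHom.id Qb) (q ^ 2) M' (N1 * q) (S36WQ_cop hq hqM) hN).toRingEquiv.trans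
      (IntermediateField.equivOfEq (S18G_bar_eq (N1 * q)).symm).toRingEquiv
  refine Algebra.finrank_eq_of_equiv_equiv i j ?_
  refine RingHom.ext fun x => Subtype.ext ?_
  have hx' : (x : LaurentSeries Qb) ∈ modularFunctionFieldFullC Qb (N1 * q) :=
    full_degeneracyC_le Qb (dvd_mul_right N1 q) x.2
  have h1 := S36WQ_beta' (RingHom.id Qb) q M' N1 (N1 * q) hq hqM hN1 hN x
  rw [S36WQ_wL_of_mem (RingHom.id Qb) (q ^ 2) M' (N1 * q) (S36WQ_cop hq hqM) hN hx'] at h1
  have h2 : (algebraMap (modularFunctionFieldFullC Qb N1)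
      (modularFunctionFieldFullC Qb (N1 * q)) x : modularFunctionFieldFullC Qb (N1 * q))
      = ⟨(x : LaurentSeries Qb), hx'⟩ := Subtype.ext (S34DEG_algebraMap_coe Qb N1 q x)
  show qExpand Qb q ((S34V0_w (RingHom.id Qb) q M' N1 hq hqM hN1 x :
      modularFunctionFieldFullC Qb N1) : LaurentSeries Qb) =
    ((S36WQ_w (RingHom.id Qb) (q ^ 2) M' (N1 * q) (S36WQ_cop hq hqM) hN
      (algebraMap (modularFunctionFieldFullC Qb N1)
        (modularFunctionFieldFullC Qb (N1 * q)) x) :
      modularFunctionFieldFullC Qb (N1 * q)) : LaurentSeries Qb)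
  rw [h2, h1]

end Degree

/-! ### modular part: norms commute with the inclusions of levels -/

section NormSquares

local notation "Qb" => AlgebraicClosure ℚ

open Fermat.Agent.S34_helper1_MODEQT Fermat.Agent.S36_helper20_WQQ Fermat.Agent.S34_helper20_V0
  Fermat.Agent.S18_helper25_GLUE Fermat.Agent.S34_helper15_DEG Fermat.Agent.S36_helper4_DEG
  Fermat.Agent.G_helper21_B0L

variable (q M2 N0 N2 : ℕ) [NeZero M2] [NeZero N0] [NeZero N2] [NeZero q]

set_option synthInstance.maxHeartbeats 400000 in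
set_option maxHeartbeats 1000000 in
/-- **the `α`-square**: `N_{F̄(N2 q) / F̄(N2)} (f) = N_{F̄(N0 q) / F̄(N0)} (f)` for
`f ∈ F̄(N0 q)`, where `q ∣ N0`, `N2 = q M2`, `q ∤ M2` and `v`, `v'` are the inclusions
`F̄(N0) ⊆ F̄(N2)`, `F̄(N0 q) ⊆ F̄(N2 q)`. -/
theorem S36BC_norm_alpha (hq : q.Prime) (hqM2 : ¬ q ∣ M2) (hqN0 : q ∣ N0) (hN2 : N2 = q * M2)
    (v : modularFunctionFieldBar N0 →+* modularFunctionFieldBar N2)
    (v' : modularFunctionFieldBar (N0 * q) →+* modularFunctionFieldBar (N2 * q))
    (hv : ∀ x, ((v x : modularFunctionFieldBar N2) : LaurentSeries Qb) = x)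
    (hv' : ∀ x, ((v' x : modularFunctionFieldBar (N2 * q)) : LaurentSeries Qb) = x)
    (f : modularFunctionFieldBar (N0 * q)) :
    (letI := algebraAlong (heckeAlphaBar Qb N2 q); Algebra.norm (modularFunctionFieldBar N2)
      (v' f)) = v (letI := algebraAlong (heckeAlphaBar Qb N0 q);
        Algebra.norm (modularFunctionFieldBar N0) f) := by
  haveI : NeZero (N0 * q) := ⟨mul_ne_zero (NeZero.ne N0) hq.ne_zero⟩
  haveI : NeZero (N2 * q) := ⟨mul_ne_zero (NeZero.ne N2) hq.ne_zero⟩
  haveI : NeZero (q ^ 2) := ⟨pow_ne_zero 2 hq.ne_zero⟩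
  have hqN2 : q ∣ N2 := hN2 ▸ dvd_mul_right q M2
  have hd0 := S36DG_finrank_alpha N0 q hq hqN0
  have hd2 := S36DG_finrank_alpha N2 q hq hqN2
  letI a0 := algebraAlong (heckeAlphaBar Qb N0 q)
  letI a2 := algebraAlong (heckeAlphaBar Qb N2 q)
  haveI fd0 : FiniteDimensional (modularFunctionFieldBar N0) (modularFunctionFieldBar (N0 * q)) :=
    PG_B0L_finiteAlong_alpha Qb N0 q
  haveI fd2 : FiniteDimensional (modularFunctionFieldBar N2) (modularFunctionFieldBar (N2 * q)) :=
    PG_B0L_finiteAlong_alpha Qb N2 q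
  have hcomm : ∀ a : modularFunctionFieldBar N0,
      v' (algebraMap (modularFunctionFieldBar N0) (modularFunctionFieldBar (N0 * q)) a)
        = algebraMap (modularFunctionFieldBar N2) (modularFunctionFieldBar (N2 * q)) (v a) := by
    intro a
    apply Subtype.ext
    rw [hv']
    show ((heckeAlphaBar Qb N0 q a : modularFunctionFieldBar (N0 * q)) : LaurentSeries Qb)
      = ((heckeAlphaBar Qb N2 q (v a) : modularFunctionFieldBar (N2 * q)) : LaurentSeries Qb)
    rw [coe_heckeAlphaBar, coe_heckeAlphaBar, hv]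
  have hN : N2 * q = q ^ 2 * M2 := by rw [hN2]; ring
  have hjmem : qExpand Qb (q ^ 2) (jqModC Qb) ∈ modularFunctionFieldBar (N0 * q) := by
    rw [S18G_bar_eq]
    obtain ⟨c, hc⟩ := hqN0
    exact jqModCd_mem_full Qb (N0 * q) ⟨c, by rw [hc]; ring⟩
  have hnc : ∃ f0 : modularFunctionFieldBar (N0 * q),
      v' f0 ∉ (algebraMap (modularFunctionFieldBar N2) (modularFunctionFieldBar (N2 * q))).range := by
    refine ⟨⟨_, hjmem⟩, ?_⟩
    rintro ⟨y, hy⟩
    have h1 := congrArg (fun z : modularFunctionFieldBar (N2 * q) => (z : LaurentSeries Qb)) hy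
    simp only [hv'] at h1
    have h2 : ((algebraMap (modularFunctionFieldBar N2) (modularFunctionFieldBar (N2 * q)) y :
        modularFunctionFieldBar (N2 * q)) : LaurentSeries Qb) = (y : LaurentSeries Qb) :=
      coe_heckeAlphaBar N2 q y
    rw [h2] at h1
    apply S36BC_jqq_notin q M2 N2 (N2 * q) hq hqM2 hN2 hN
    rw [← h1, ← S18G_bar_eq]
    exact y.2
  exact S36BC_norm_square v v' hcomm (hd2.trans hd0.symm) (hd0.symm ▸ hq) hnc f

set_option synthInstance.maxHeartbeats 400000 in
set_option maxHeartbeats 1000000 in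
/-- **the `β`-square**: the same along `β : f(Q) ↦ f(Q ^ q)`; here `N0 = q M0`, `N2 = q M2`,
`q ∤ M0 M2`. -/
theorem S36BC_norm_beta (M0 : ℕ) [NeZero M0] (hq : q.Prime) (hqM0 : ¬ q ∣ M0) (hqM2 : ¬ q ∣ M2)
    (hN0 : N0 = q * M0) (hN2 : N2 = q * M2)
    (v : modularFunctionFieldBar N0 →+* modularFunctionFieldBar N2)
    (v' : modularFunctionFieldBar (N0 * q) →+* modularFunctionFieldBar (N2 * q))
    (hv : ∀ x, ((v x : modularFunctionFieldBar N2) : LaurentSeries Qb) = x)
    (hv' : ∀ x, ((v' x : modularFunctionFieldBar (N2 * q)) : LaurentSeries Qb) = x)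
    (f : modularFunctionFieldBar (N0 * q)) :
    (letI := algebraAlong (heckeBetaBar Qb N2 q); Algebra.norm (modularFunctionFieldBar N2)
      (v' f)) = v (letI := algebraAlong (heckeBetaBar Qb N0 q);
        Algebra.norm (modularFunctionFieldBar N0) f) := by
  haveI : NeZero (N0 * q) := ⟨mul_ne_zero (NeZero.ne N0) hq.ne_zero⟩
  haveI : NeZero (N2 * q) := ⟨mul_ne_zero (NeZero.ne N2) hq.ne_zero⟩
  have hd0 := S36BC_finrank_beta q M0 N0 hq hqM0 hN0
  have hd2 := S36BC_finrank_beta q M2 N2 hq hqM2 hN2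
  letI a0 := algebraAlong (heckeBetaBar Qb N0 q)
  letI a2 := algebraAlong (heckeBetaBar Qb N2 q)
  haveI fd0 : FiniteDimensional (modularFunctionFieldBar N0) (modularFunctionFieldBar (N0 * q)) :=
    PG_B0L_finiteAlong_beta Qb N0 q
  haveI fd2 : FiniteDimensional (modularFunctionFieldBar N2) (modularFunctionFieldBar (N2 * q)) :=
    PG_B0L_finiteAlong_beta Qb N2 q
  have hcomm : ∀ a : modularFunctionFieldBar N0,
      v' (algebraMap (modularFunctionFieldBar N0) (modularFunctionFieldBar (N0 * q)) a)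
        = algebraMap (modularFunctionFieldBar N2) (modularFunctionFieldBar (N2 * q)) (v a) := by
    intro a
    apply Subtype.ext
    rw [hv']
    show ((heckeBetaBar Qb N0 q a : modularFunctionFieldBar (N0 * q)) : LaurentSeries Qb)
      = ((heckeBetaBar Qb N2 q (v a) : modularFunctionFieldBar (N2 * q)) : LaurentSeries Qb)
    rw [coe_heckeBetaBar, coe_heckeBetaBar, hv]
  have hjmem : jqModC Qb ∈ modularFunctionFieldBar (N0 * q) := by
    rw [S18G_bar_eq]
    exact jqModC_mem_full Qb (N0 * q)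
  have hnc : ∃ f0 : modularFunctionFieldBar (N0 * q),
      v' f0 ∉ (algebraMap (modularFunctionFieldBar N2) (modularFunctionFieldBar (N2 * q))).range := by
    refine ⟨⟨_, hjmem⟩, ?_⟩
    rintro ⟨y, hy⟩
    have h1 := congrArg (fun z : modularFunctionFieldBar (N2 * q) => (z : LaurentSeries Qb)) hy
    simp only [hv'] at h1
    have h2 : ((algebraMap (modularFunctionFieldBar N2) (modularFunctionFieldBar (N2 * q)) y :
        modularFunctionFieldBar (N2 * q)) : LaurentSeries Qb)
        = qExpand Qb q (y : LaurentSeries Qb) :=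
      coe_heckeBetaBar N2 q y
    rw [h2] at h1
    exact S36BC_j_ne_qExpand Qb q hq.two_le _ h1.symm
  exact S36BC_norm_square v v' hcomm (hd2.trans hd0.symm) (hd0.symm ▸ hq) hnc f

end NormSquares

/-! ### the base change theorems on torsion classes of `J₀` -/

section Classes

local notation "Qb" => AlgebraicClosure ℚ

open Fermat.Agent.G_helper21_B0L

variable (N' r q : ℕ) [NeZero N'] [NeZero r] [NeZero q] [NeZero (N' * q)] [NeZero (N' * r * q)]
  [HasPrincipalDivisors Qb (modularFunctionFieldBar (N' * r * q))]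
  [HasPrincipalDivisors Qb (modularFunctionFieldBar (N' * r * q * q))]

/-- **(g2), `α`.**  For the inclusions `u : F̄(N' q) → F̄(N' r q)`, `u' : F̄(N' q q) → F̄(N' r q q)`
(ANY algebra homomorphisms which are the identity on Laurent series) and ANY maps `P`, `P'` on
`J₀` given on divisors by the pull-backs along `u'`, `u`: on torsion classes
`α_* ∘ P = P' ∘ α_*`. -/
theorem S36BC_alpha (hq : q.Prime) (hqN' : ¬ q ∣ N') (hqr : ¬ q ∣ r)
    (u : modularFunctionFieldBar (N' * q) →ₐ[Qb] modularFunctionFieldBar (N' * r * q))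
    (hu : u.toRingHom.IsIntegral)
    (u' : modularFunctionFieldBar (N' * q * q) →ₐ[Qb] modularFunctionFieldBar (N' * r * q * q))
    (hu' : u'.toRingHom.IsIntegral)
    (hucoe : ∀ x, ((u x : modularFunctionFieldBar (N' * r * q)) : LaurentSeries Qb) = x)
    (hu'coe : ∀ x, ((u' x : modularFunctionFieldBar (N' * r * q * q)) : LaurentSeries Qb) = x)
    (P : JZero (N' * q * q) →+ JZero (N' * r * q * q))
    (P' : JZero (N' * q) →+ JZero (N' * r * q))
    (hP : ∀ D : Divisor.degZero (K := Qb) (F := modularFunctionFieldBar (N' * q * q)),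
      ∃ D' : Divisor.degZero (K := Qb) (F := modularFunctionFieldBar (N' * r * q * q)),
        (D' : Divisor Qb (modularFunctionFieldBar (N' * r * q * q)))
          = Divisor.pullbackAlong u' hu' (D : Divisor Qb (modularFunctionFieldBar (N' * q * q)))
        ∧ P (Pic0.mk D) = Pic0.mk D')
    (hP' : ∀ D : Divisor.degZero (K := Qb) (F := modularFunctionFieldBar (N' * q)),
      ∃ D' : Divisor.degZero (K := Qb) (F := modularFunctionFieldBar (N' * r * q)),
        (D' : Divisor Qb (modularFunctionFieldBar (N' * r * q)))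
          = Divisor.pullbackAlong u hu (D : Divisor Qb (modularFunctionFieldBar (N' * q)))
        ∧ P' (Pic0.mk D) = Pic0.mk D')
    (n : ℕ) (hn : 0 < n) (x : JZero (N' * q * q)) (hx : n • x = 0) :
    S35PU_alpha (N' * r * q) q (P x) = P' (S35PU_alpha (N' * q) q x) := by
  haveI : NeZero (N' * r) := ⟨mul_ne_zero (NeZero.ne N') (NeZero.ne r)⟩
  have hqM2 : ¬ q ∣ N' * r := fun h => (hq.dvd_mul.mp h).elim hqN' hqr
  exact S36BC_pic0_square (heckeAlphaBar Qb (N' * q) q) (PG_B0L_heckeAlphaBarIntegral Qb (N' * q) q)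
    (heckeAlphaBar Qb (N' * r * q) q) (PG_B0L_heckeAlphaBarIntegral Qb (N' * r * q) q)
    u hu u' hu' (PG_B0L_finiteAlong_alpha Qb (N' * q) q)
    (PG_B0L_finiteAlong_alpha Qb (N' * r * q) q) (S35PU_normFormula_alpha Qb (N' * q) q)
    (S35PU_normFormula_alpha Qb (N' * r * q) q)
    (fun f => S36BC_norm_alpha q (N' * r) (N' * q) (N' * r * q) hq hqM2 (dvd_mul_left q N')
      (mul_comm _ _) u.toRingHom u'.toRingHom hucoe hu'coe f)
    P P' hP hP' n hn x hx

/-- **(g2), `β`.**  The same for `β_*`. -/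
theorem S36BC_beta (hq : q.Prime) (hqN' : ¬ q ∣ N') (hqr : ¬ q ∣ r)
    (u : modularFunctionFieldBar (N' * q) →ₐ[Qb] modularFunctionFieldBar (N' * r * q))
    (hu : u.toRingHom.IsIntegral)
    (u' : modularFunctionFieldBar (N' * q * q) →ₐ[Qb] modularFunctionFieldBar (N' * r * q * q))
    (hu' : u'.toRingHom.IsIntegral)
    (hucoe : ∀ x, ((u x : modularFunctionFieldBar (N' * r * q)) : LaurentSeries Qb) = x)
    (hu'coe : ∀ x, ((u' x : modularFunctionFieldBar (N' * r * q * q)) : LaurentSeries Qb) = x)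
    (P : JZero (N' * q * q) →+ JZero (N' * r * q * q))
    (P' : JZero (N' * q) →+ JZero (N' * r * q))
    (hP : ∀ D : Divisor.degZero (K := Qb) (F := modularFunctionFieldBar (N' * q * q)),
      ∃ D' : Divisor.degZero (K := Qb) (F := modularFunctionFieldBar (N' * r * q * q)),
        (D' : Divisor Qb (modularFunctionFieldBar (N' * r * q * q)))
          = Divisor.pullbackAlong u' hu' (D : Divisor Qb (modularFunctionFieldBar (N' * q * q)))
        ∧ P (Pic0.mk D) = Pic0.mk D')
    (hP' : ∀ D : Divisor.degZero (K := Qb) (F := modularFunctionFieldBar (N' * q)),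
      ∃ D' : Divisor.degZero (K := Qb) (F := modularFunctionFieldBar (N' * r * q)),
        (D' : Divisor Qb (modularFunctionFieldBar (N' * r * q)))
          = Divisor.pullbackAlong u hu (D : Divisor Qb (modularFunctionFieldBar (N' * q)))
        ∧ P' (Pic0.mk D) = Pic0.mk D')
    (n : ℕ) (hn : 0 < n) (x : JZero (N' * q * q)) (hx : n • x = 0) :
    S35PU_beta (N' * r * q) q (P x) = P' (S35PU_beta (N' * q) q x) := by
  haveI : NeZero (N' * r) := ⟨mul_ne_zero (NeZero.ne N') (NeZero.ne r)⟩
  have hqM2 : ¬ q ∣ N' * r := fun h => (hq.dvd_mul.mp h).elim hqN' hqr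
  exact S36BC_pic0_square (heckeBetaBar Qb (N' * q) q) (PG_B0L_heckeBetaBarIntegral Qb (N' * q) q)
    (heckeBetaBar Qb (N' * r * q) q) (PG_B0L_heckeBetaBarIntegral Qb (N' * r * q) q)
    u hu u' hu' (PG_B0L_finiteAlong_beta Qb (N' * q) q)
    (PG_B0L_finiteAlong_beta Qb (N' * r * q) q) (S35PU_normFormula_beta Qb (N' * q) q)
    (S35PU_normFormula_beta Qb (N' * r * q) q)
    (fun f => S36BC_norm_beta q (N' * r) (N' * q) (N' * r * q) N' hq hqN' hqM2
      (mul_comm _ _) (mul_comm _ _) u.toRingHom u'.toRingHom hucoe hu'coe f)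
    P P' hP hP' n hn x hx

end Classes





end

end Fermat.Agent.S36_helper23_BC
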