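import Fermat.Agent.S36_helper9_CUSPM
import Fermat.Agent.S36_helper14_N1K
import Fermat.Agent.S36_helper20_WA0Q
import Fermat.Agent.S36_helper5_VKDefs
import Fermat.Agent.S34_helper18_CUSPK
import Fermat.Agent.S34_helper8_MODEQ
import Fermat.Agent.S18_helper18_IGINF

/-!
# S36, GEO36, (REG36) at the cusps: the mirror cusp at the concrete carriers (helper9)

Level `N = q² M'`.  Charts `Ainf = icl O[1/j]`, `A1 = icl O[1/j_q]`, `At = icl O[1/j_qq]` in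
`F1 = S18K_F1 K1 N`; `σ = W_(q²) : Ainf ≃ At`.

* `S36CK_rel_map` : the modular relation `S34CUSP_Rel` is transported by a ring endomorphism
  fixing the constants (`Q ↦ Q^q`);
* `S36CK_icl_le`, `S36CK_hres`, `S36CK_inv_mem_O` : generic chart facts;
* `S36CK_A1`, `S36CK_At`, `S36CK_sigma` : the two auxiliary charts and the isomorphism;
* `S36CK_mirror` : **the mirror cusp at the carriers** (`S36CM_mirror` with every hypothesis
  discharged except the weak setup).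
-/

set_option autoImplicit false
set_option linter.style.haveILetI false
set_option linter.unusedVariables false
set_option linter.unusedSectionVars false
set_option synthInstance.maxHeartbeats 400000
set_option maxHeartbeats 1600000

open ModularCurve Fermat.Agent.S24
open Fermat.Agent.S18_helper13_GAUSS Fermat.Agent.S18_helper9_CDefs
  Fermat.Agent.S18_helper9_CBasic
open Fermat.Agent.S18_helper25_COREDefs Fermat.Agent.S34_helper12_CDefs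
open Fermat.Agent.S34_helper27_C2Defs
open Fermat.Agent.S34_helper20_WQ Fermat.Agent.S34_helper20_V0
open Fermat.Agent.S34_helper27_V3K Fermat.Agent.S34_helper20_V0K
open Fermat.Agent.S18_helper3_LOCRING Fermat.Agent.S18_helper20_CSAT
open Fermat.Agent.S34_helper14_N1K
open Fermat.Agent.S36_helper14_N1K Fermat.Agent.S36_helper20_WQQ
open Fermat.Agent.S34_helper18_CUSP
open Fermat.Agent.S36_helper9_CUSP0 Fermat.Agent.S36_helper9_CUSPM

noncomputable section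

namespace Fermat.Agent.S36_helper9_CUSPK

section Abs

variable {L : Type} [Field L] {O : Subring L} {π x : L} {F1 : Subfield L} {V X : Subring L}

/-- the modular relation is transported by a ring endomorphism fixing the constants -/
theorem S36CK_rel_map (φ : L →+* L) (hφ : ∀ a ∈ O, φ a = a) {j θ : L} {n : ℕ}
    (h : S34CUSP_Rel O j θ n) : S34CUSP_Rel O (φ j) (φ θ) n := by
  obtain ⟨M, hM, hdeg, hev, hmid, a0, ha0m, ha0d, h0⟩ := h
  have hcomp : φ.comp (algebraMap O L) = algebraMap O L := by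
    ext1 a
    exact hφ a a.2
  have hae : ∀ a : Polynomial O, φ (Polynomial.aeval j a) = Polynomial.aeval (φ j) a := by
    intro a
    rw [Polynomial.aeval_def, Polynomial.hom_eval₂, hcomp, Polynomial.aeval_def]
  refine ⟨M.map φ, hM.map φ, ?_, ?_, ?_, a0, ha0m, ha0d, ?_⟩
  · rw [hM.natDegree_map, hdeg]
  · rw [Polynomial.eval_map, Polynomial.eval₂_at_apply, hev, map_zero]
  · intro i h1 h2
    obtain ⟨a, ha, hai⟩ := hmid i h1 h2
    exact ⟨a, ha, by rw [Polynomial.coeff_map, hai, hae]⟩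
  · rw [Polynomial.coeff_map, h0, hae]

/-- the integral closure of `O[x]` in `F1` lies in every valuation ring of `F1` containing `O`
and `x` -/
theorem S36CK_icl_le (H : S34C2_Val π F1 V) (hOV : O ≤ V) (hx : x ∈ V) :
    icl (adj O x) F1 ≤ V := by
  intro y hy
  obtain ⟨hint, hyF⟩ := mem_icl.1 hy
  exact H.ic hyF (CSAT_isIntegral_mono (adj_le hOV hx) hint)

/-- a constant outside a prime over `π` is a unit of `O` -/
theorem S36CK_inv_mem_O [IsDiscreteValuationRing O] (hπO : π ∈ O)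
    (hirr : Irreducible (⟨π, hπO⟩ : O)) (hOX : O ≤ X) (m : Ideal X)
    (hπm : (⟨π, hOX hπO⟩ : X) ∈ m) (c : L) (hc : c ∈ O)
    (hcm : (⟨c, hOX hc⟩ : X) ∉ m) : c⁻¹ ∈ O := by
  by_cases hu : IsUnit (⟨c, hc⟩ : O)
  · obtain ⟨u, hu⟩ := hu
    have h1 : (⟨c, hc⟩ : O) * (↑u⁻¹ : O) = 1 := by rw [← hu]; exact u.mul_inv
    have h2 : c * ((↑u⁻¹ : O) : L) = 1 := by
      have := congrArg Subtype.val h1
      simpa using this
    have h3 : c⁻¹ = ((↑u⁻¹ : O) : L) := by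
      rw [← mul_one c⁻¹, ← h2, ← mul_assoc, inv_mul_cancel₀, one_mul]
      rintro rfl
      rw [zero_mul] at h2
      exact zero_ne_one h2
    rw [h3]
    exact (↑u⁻¹ : O).2
  · exfalso
    have h1 : (⟨c, hc⟩ : O) ∈ IsLocalRing.maximalIdeal O := hu
    have h2 : IsLocalRing.maximalIdeal O = Ideal.span {(⟨π, hπO⟩ : O)} :=
      (IsDiscreteValuationRing.irreducible_iff_uniformizer _).mp hirr
    rw [h2, Ideal.mem_span_singleton] at h1
    obtain ⟨c', hc'⟩ := h1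
    apply hcm
    have h3 : (⟨c, hOX hc⟩ : X) = ⟨π, hOX hπO⟩ * ⟨(c' : L), hOX c'.2⟩ := by
      apply Subtype.ext
      have := congrArg Subtype.val hc'
      simpa using this
    rw [h3]
    exact m.mul_mem_right _ hπm

/-- the maximal ideal of `O` is generated by `π` -/
theorem S36CK_pi_gen [IsDiscreteValuationRing O] (hπO : π ∈ O)
    (hirr : Irreducible (⟨π, hπO⟩ : O)) :
    ∀ c ∈ IsLocalRing.maximalIdeal O, ∃ c' : O, c = (⟨π, hπO⟩ : O) * c' := by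
  intro c hc
  have h1 : IsLocalRing.maximalIdeal O = Ideal.span {(⟨π, hπO⟩ : O)} :=
    (IsDiscreteValuationRing.irreducible_iff_uniformizer _).mp hirr
  rw [h1, Ideal.mem_span_singleton] at hc
  exact hc

/-- `hres` for a ring integral over `O[x]` -/
theorem S36CK_hres [IsDiscreteValuationRing O]
    [IsAlgClosed (IsLocalRing.ResidueField O)] (hπO : π ∈ O)
    (hirr : Irreducible (⟨π, hπO⟩ : O)) (hOX : O ≤ X) (hxX : x ∈ X)
    (hint : ∀ y ∈ X, IsIntegral (adj O x) y)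
    (m : Ideal X) (hm : m.IsMaximal) (hπm : (⟨π, hOX hπO⟩ : X) ∈ m) (z : X) :
    ∃ c : L, ∃ hc : c ∈ O, z - ⟨c, hOX hc⟩ ∈ m :=
  Fermat.Agent.S18_helper18_IGINF.S18IGINF_hres_gen x X hπO (S36CK_pi_gen hπO hirr) hOX hxX
    hint m hm hπm z

end Abs

section Concrete

variable (A : ValuationSubring (AlgebraicClosure ℚ))
  (K1 : IntermediateField ℚ (AlgebraicClosure ℚ)) [IsDiscreteValuationRing (S18K_O1 A K1)]
  (q M' N : ℕ) [NeZero M'] [NeZero N] [NeZero q] [NeZero (q ^ 2)] (hq : q.Prime)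
  (hqM : ¬ q ∣ M') (hN : N = q ^ 2 * M')

/-- the chart `A1`: the integral closure of `O[1/j_q]` in `F1` -/
def S36CK_A1 : Subring (LaurentSeries K1) :=
  icl (adj (S18K_O A K1) (qExpand K1 q (jqModC K1))⁻¹) (S18K_F1 K1 N)

/-- the chart `At`: the integral closure of `O[1/j_qq]` in `F1` -/
def S36CK_At : Subring (LaurentSeries K1) :=
  icl (adj (S18K_O A K1) (qExpand K1 (q ^ 2) (jqModC K1))⁻¹) (S18K_F1 K1 N)

/-- `w (1/j) = 1/j_qq` -/
theorem S36CK_wL_jinv :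
    S36WQ_wL (S34V0K_emb K1) (q ^ 2) M' N (S36WQ_cop hq hqM) hN (S18K_j K1)⁻¹ =
      (qExpand K1 (q ^ 2) (jqModC K1))⁻¹ := by
  have hjF : S18K_j K1 ∈ modularFunctionFieldFullC K1 N := jqModC_mem_full K1 N
  rw [Fermat.Agent.S36_helper5_VKDefs.S36VK_wL_inv (S34V0K_emb K1) (q ^ 2) M' N
    (S36WQ_cop hq hqM) hN hjF]
  exact congrArg _ (S36N1K_wL_j (S34V0K_emb K1) (q ^ 2) M' N (S36WQ_cop hq hqM) hN)

include hq hqM hN in
/-- `j_qq ∈ F1` -/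
theorem S36CK_jqq_mem : qExpand K1 (q ^ 2) (jqModC K1) ∈ modularFunctionFieldFullC K1 N :=
  S36N1K_jQ_mem (S34V0K_emb K1) (q ^ 2) M' N (S36WQ_cop hq hqM) hN

/-- `w (1/j_qq) = 1/j` -/
theorem S36CK_wL_tinv :
    S36WQ_wL (S34V0K_emb K1) (q ^ 2) M' N (S36WQ_cop hq hqM) hN
      (qExpand K1 (q ^ 2) (jqModC K1))⁻¹ = (S18K_j K1)⁻¹ := by
  rw [Fermat.Agent.S36_helper5_VKDefs.S36VK_wL_inv (S34V0K_emb K1) (q ^ 2) M' N
    (S36WQ_cop hq hqM) hN (S36CK_jqq_mem K1 q M' N hq hqM hN)]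
  have h : S36WQ_wL (S34V0K_emb K1) (q ^ 2) M' N (S36WQ_cop hq hqM) hN
      (qExpand K1 (q ^ 2) (jqModC K1)) = jqModC K1 := by
    rw [← S36N1K_wL_j (S34V0K_emb K1) (q ^ 2) M' N (S36WQ_cop hq hqM) hN,
      S36WQ_wL_wL (S34V0K_emb K1) (q ^ 2) M' N (S36WQ_cop hq hqM) hN (jqModC_mem_full K1 N)]
  exact congrArg _ h

/-- `w` maps the chart at infinity into `At` -/
theorem S36CK_wL_mem_At {a : LaurentSeries K1} (ha : a ∈ S18K_Ainf A K1 N) :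
    S36WQ_wL (S34V0K_emb K1) (q ^ 2) M' N (S36WQ_cop hq hqM) hN a ∈
      S36CK_At A K1 q N := by
  obtain ⟨hint, haF⟩ := mem_icl.1 ha
  have hjF : S18K_j K1 ∈ modularFunctionFieldFullC K1 N := jqModC_mem_full K1 N
  have h1 := S36N1K_isIntegral_wL (S34V0K_emb K1) (q ^ 2) M' N (S36WQ_cop hq hqM) hN
    (S18K_O A K1) (S34N1K_hO A K1) (inv_mem hjF) haF hint
  rw [S36CK_wL_jinv K1 q M' N hq hqM hN] at h1
  exact mem_icl.2 ⟨h1, S36WQ_wL_mem (S34V0K_emb K1) (q ^ 2) M' N (S36WQ_cop hq hqM) hN a⟩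

/-- `w` maps `At` into the chart at infinity -/
theorem S36CK_wL_mem_Ainf {b : LaurentSeries K1} (hb : b ∈ S36CK_At A K1 q N) :
    S36WQ_wL (S34V0K_emb K1) (q ^ 2) M' N (S36WQ_cop hq hqM) hN b ∈ S18K_Ainf A K1 N := by
  obtain ⟨hint, hbF⟩ := mem_icl.1 hb
  have h1 := S36N1K_isIntegral_wL (S34V0K_emb K1) (q ^ 2) M' N (S36WQ_cop hq hqM) hN
    (S18K_O A K1) (S34N1K_hO A K1) (inv_mem (S36CK_jqq_mem K1 q M' N hq hqM hN)) hbF hint
  rw [S36CK_wL_tinv K1 q M' N hq hqM hN] at h1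
  exact mem_icl.2 ⟨h1, S36WQ_wL_mem (S34V0K_emb K1) (q ^ 2) M' N (S36WQ_cop hq hqM) hN b⟩

/-- **`W_(q²)` as an isomorphism of the chart at infinity onto `At`.** -/
def S36CK_sigma : S18K_Ainf A K1 N ≃+* S36CK_At A K1 q N where
  toFun a := ⟨S36WQ_wL (S34V0K_emb K1) (q ^ 2) M' N (S36WQ_cop hq hqM) hN
    (a : LaurentSeries K1), S36CK_wL_mem_At A K1 q M' N hq hqM hN a.2⟩
  invFun b := ⟨S36WQ_wL (S34V0K_emb K1) (q ^ 2) M' N (S36WQ_cop hq hqM) hN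
    (b : LaurentSeries K1), S36CK_wL_mem_Ainf A K1 q M' N hq hqM hN b.2⟩
  left_inv a := Subtype.ext
    (S36WQ_wL_wL (S34V0K_emb K1) (q ^ 2) M' N (S36WQ_cop hq hqM) hN (mem_icl.1 a.2).2)
  right_inv b := Subtype.ext
    (S36WQ_wL_wL (S34V0K_emb K1) (q ^ 2) M' N (S36WQ_cop hq hqM) hN (mem_icl.1 b.2).2)
  map_mul' a b := Subtype.ext
    (S36WQ_wL_mul (S34V0K_emb K1) (q ^ 2) M' N (S36WQ_cop hq hqM) hN (mem_icl.1 a.2).2
      (mem_icl.1 b.2).2)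
  map_add' a b := Subtype.ext
    (S36WQ_wL_add (S34V0K_emb K1) (q ^ 2) M' N (S36WQ_cop hq hqM) hN (mem_icl.1 a.2).2
      (mem_icl.1 b.2).2)

theorem S36CK_sigma_coe (a : S18K_Ainf A K1 N) :
    ((S36CK_sigma A K1 q M' N hq hqM hN a : S36CK_At A K1 q N) : LaurentSeries K1) =
      S36WQ_wL (S34V0K_emb K1) (q ^ 2) M' N (S36WQ_cop hq hqM) hN (a : LaurentSeries K1) :=
  rfl

/-- `σ` exchanges `π Q'` and `π Q` for subrings `Q'`, `Q` of `F1` exchanged by `w` -/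
theorem S36CK_sigma_vert (Q Q' : Subring (LaurentSeries K1))
    (hQ : ∀ x ∈ Q, x ∈ modularFunctionFieldFullC K1 N)
    (hQ' : ∀ x ∈ Q', x ∈ modularFunctionFieldFullC K1 N)
    (hw : ∀ x ∈ Q',
      S36WQ_wL (S34V0K_emb K1) (q ^ 2) M' N (S36WQ_cop hq hqM) hN x ∈ Q)
    (hw' : ∀ x ∈ Q,
      S36WQ_wL (S34V0K_emb K1) (q ^ 2) M' N (S36WQ_cop hq hqM) hN x ∈ Q')
    (a : S18K_Ainf A K1 N) :
    (∃ v ∈ Q', (a : LaurentSeries K1) = S18K_π A K1 * v) ↔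
      ∃ v ∈ Q, ((S36CK_sigma A K1 q M' N hq hqM hN a : S36CK_At A K1 q N) :
        LaurentSeries K1) = S18K_π A K1 * v := by
  rw [S36CK_sigma_coe]
  have hπF := S34N1K_pi_mem_F A K1 N
  constructor
  · rintro ⟨v, hv, hav⟩
    refine ⟨_, hw v hv, ?_⟩
    rw [hav, S36WQ_wL_mul (S34V0K_emb K1) (q ^ 2) M' N (S36WQ_cop hq hqM) hN hπF (hQ' v hv),
      S36N1K_wL_pi A K1 q M' N hq hqM hN]
  · rintro ⟨v, hv, hav⟩
    refine ⟨_, hw' v hv, ?_⟩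
    have h1 := congrArg (S36WQ_wL (S34V0K_emb K1) (q ^ 2) M' N (S36WQ_cop hq hqM) hN) hav
    rw [S36WQ_wL_wL (S34V0K_emb K1) (q ^ 2) M' N (S36WQ_cop hq hqM) hN (mem_icl.1 a.2).2,
      S36WQ_wL_mul (S34V0K_emb K1) (q ^ 2) M' N (S36WQ_cop hq hqM) hN hπF (hQ v hv),
      S36N1K_wL_pi A K1 q M' N hq hqM hN] at h1
    exact h1

omit [NeZero M'] [NeZero N] [NeZero (q ^ 2)] in
/-- `1/j_q` lies in the Gauss ring of every level divisible by `q` -/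
theorem S36CK_jqinv_mem_V (N1 : ℕ) [NeZero N1] (hqN1 : q ∣ N1)
    (hj : (S18K_j K1)⁻¹ ∈ (S18K_D A K1).Vring) :
    (qExpand K1 q (jqModC K1))⁻¹ ∈ S18K_V A K1 N1 := by
  refine ⟨?_, (S18K_F1 K1 N1).inv_mem (jqModCd_mem_full K1 N1 hqN1)⟩
  have h := (S34V0K_qExpand_mem (S18K_D A K1) q hj).1
  rw [map_inv₀] at h
  exact h

/-- the three charts lie in the three valuation rings -/
theorem S36CK_charts_le (N1 : ℕ) [NeZero N1] (hqN1 : q ∣ N1)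
    (W2 W3 : Subring (LaurentSeries K1))
    (hV3 : ∀ y : LaurentSeries K1, y ∈ W3 ↔ y ∈ modularFunctionFieldFullC K1 N ∧
      S36WQ_wL (S34V0K_emb K1) (q ^ 2) M' N (S36WQ_cop hq hqM) hN y ∈ S18K_V A K1 N)
    (S : S34C_Setup (S18K_O A K1) (S18K_π A K1) (S18K_j K1) (S18K_F1 K1 N)
      (S18K_V A K1 N ⊓ W2 ⊓ W3) (S18K_A0 A K1 N) (S18K_Ainf A K1 N))
    (H2 : S34C2_Val (S18K_π A K1) (S18K_F1 K1 N) W2)
    (H3 : S34C2_Val (S18K_π A K1) (S18K_F1 K1 N) W3)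
    (hV'2 : S18K_V A K1 N1 ≤ W2)
    (hw22 : ∀ x ∈ W2,
      S36WQ_wL (S34V0K_emb K1) (q ^ 2) M' N (S36WQ_cop hq hqM) hN x ∈ W2) :
    S36CK_A1 A K1 q N ≤ (S18K_V A K1 N ⊓ W2 ⊓ W3 : Subring (LaurentSeries K1)) ∧
      S36CK_At A K1 q N ≤ (S18K_V A K1 N ⊓ W2 ⊓ W3 : Subring (LaurentSeries K1)) := by
  have hOV : S18K_O A K1 ≤ (S18K_V A K1 N ⊓ W2 ⊓ W3 : Subring (LaurentSeries K1)) :=
    fun a ha => S.chart0.le_V (S36N1K_O_le_A0 S ha)
  have hOV1 : S18K_O A K1 ≤ S18K_V A K1 N := fun a ha => (hOV ha).1.1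
  have hOV2 : S18K_O A K1 ≤ W2 := fun a ha => (hOV ha).1.2
  have hOV3 : S18K_O A K1 ≤ W3 := fun a ha => (hOV ha).2
  have hj1 : (S18K_j K1)⁻¹ ∈ S18K_V A K1 N := S.chart0.x_inv_mem.1.1
  have hj2 : (S18K_j K1)⁻¹ ∈ W2 := S.chart0.x_inv_mem.1.2
  have hj3 : (S18K_j K1)⁻¹ ∈ W3 := S.chart0.x_inv_mem.2
  have hqN : q ∣ N := by rw [hN, pow_two, mul_assoc]; exact dvd_mul_right q _
  have hjqF : qExpand K1 q (jqModC K1) ∈ modularFunctionFieldFullC K1 N :=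
    jqModCd_mem_full K1 N hqN
  have hjqqF := S36CK_jqq_mem K1 q M' N hq hqM hN
  -- `1/j_q`
  have ha1 : (qExpand K1 q (jqModC K1))⁻¹ ∈ S18K_V A K1 N :=
    S36CK_jqinv_mem_V A K1 q N hqN hj1.1
  have ha2 : (qExpand K1 q (jqModC K1))⁻¹ ∈ W2 :=
    hV'2 (S36CK_jqinv_mem_V A K1 q N1 hqN1 hj1.1)
  have ha3 : (qExpand K1 q (jqModC K1))⁻¹ ∈ W3 := by
    rw [hV3]
    refine ⟨inv_mem hjqF, ?_⟩
    rw [Fermat.Agent.S36_helper5_VKDefs.S36VK_wL_inv (S34V0K_emb K1) (q ^ 2) M' N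
      (S36WQ_cop hq hqM) hN hjqF,
      Fermat.Agent.S36_helper20_WA0Q.S36WA0_jq_fixed K1 q M' N hq hqM hN]
    exact ha1
  -- `1/j_qq`
  have ht1 : (qExpand K1 (q ^ 2) (jqModC K1))⁻¹ ∈ S18K_V A K1 N := by
    rw [← S36CK_wL_jinv K1 q M' N hq hqM hN]
    exact ((hV3 _).1 hj3).2
  have ht2 : (qExpand K1 (q ^ 2) (jqModC K1))⁻¹ ∈ W2 := by
    rw [← S36CK_wL_jinv K1 q M' N hq hqM hN]
    exact hw22 _ hj2
  have ht3 : (qExpand K1 (q ^ 2) (jqModC K1))⁻¹ ∈ W3 := by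
    rw [hV3]
    refine ⟨inv_mem hjqqF, ?_⟩
    rw [S36CK_wL_tinv K1 q M' N hq hqM hN]
    exact hj1
  refine ⟨fun y hy => ⟨⟨?_, ?_⟩, ?_⟩, fun y hy => ⟨⟨?_, ?_⟩, ?_⟩⟩
  · exact S36CK_icl_le (S34V3K_val1 A K1 N) hOV1 ha1 hy
  · exact S36CK_icl_le H2 hOV2 ha2 hy
  · exact S36CK_icl_le H3 hOV3 ha3 hy
  · exact S36CK_icl_le (S34V3K_val1 A K1 N) hOV1 ht1 hy
  · exact S36CK_icl_le H2 hOV2 ht2 hy
  · exact S36CK_icl_le H3 hOV3 ht3 hy

include hq in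
/-- the modular relations of level `q` between `(j_q, j_qq)` -/
theorem S36CK_rel₁ :
    S34CUSP_Rel (S18K_O A K1) (qExpand K1 q (jqModC K1)) (qExpand K1 (q ^ 2) (jqModC K1)) q ∧
      S34CUSP_Rel (S18K_O A K1) (qExpand K1 (q ^ 2) (jqModC K1))
        (qExpand K1 q (jqModC K1)) q := by
  obtain ⟨h1, h2⟩ := Fermat.Agent.S34_helper8_MODEQ.S34ME_cuspRel (S18K_O A K1) q hq
  have hφ : ∀ a ∈ S18K_O A K1, qExpand K1 q a = a := by
    intro a ha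
    obtain ⟨c, rfl⟩ := S34N1K_hO A K1 a ha
    exact qExpand_C q c
  have e : qExpand K1 q (qExpand K1 q (jqModC K1)) = qExpand K1 (q ^ 2) (jqModC K1) := by
    rw [qExpand_qExpand]
    exact S34WQ_qExpand_congr (pow_two q).symm _
  have h1' := S36CK_rel_map (qExpand K1 q) hφ h1
  have h2' := S36CK_rel_map (qExpand K1 q) hφ h2
  rw [e] at h1' h2'
  exact ⟨h1', h2'⟩

/-- **The mirror cusp at the carriers.**  For every cusp `m` of the chart at infinity of level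
`N = q² M'` there is a cusp `ms` such that `[IG]` at `ms` gives `[IG]` at `m` and, for all
subrings `Q`, `Q'` of `F1` above the three charts and exchanged by `W_(q²)`, `m` has a witness
in `π Q` iff `ms` has a witness in `π Q'`. -/
theorem S36CK_mirror (hA : A.LiesOverPrime q) (h : S18K_Admissible A K1 q)
    (V : Subring (LaurentSeries K1))
    (S : S34C_Setup (S18K_O A K1) (S18K_π A K1) (S18K_j K1) (S18K_F1 K1 N) V
      (S18K_A0 A K1 N) (S18K_Ainf A K1 N))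
    (hπ : S18K_π A K1 ∈ S18K_Ainf A K1 N) (hu : (S18K_j K1)⁻¹ ∈ S18K_Ainf A K1 N)
    (m : Ideal (S18K_Ainf A K1 N)) (hm : m.IsMaximal)
    (hπm : (⟨S18K_π A K1, hπ⟩ : S18K_Ainf A K1 N) ∈ m)
    (hum : (⟨(S18K_j K1)⁻¹, hu⟩ : S18K_Ainf A K1 N) ∈ m) :
    ∃ ms : Ideal (S18K_Ainf A K1 N), ms.IsMaximal ∧
      (⟨S18K_π A K1, hπ⟩ : S18K_Ainf A K1 N) ∈ ms ∧
      (⟨(S18K_j K1)⁻¹, hu⟩ : S18K_Ainf A K1 N) ∈ ms ∧
      (IGAt (S18K_π A K1) (S18K_Ainf A K1 N) ms → IGAt (S18K_π A K1) (S18K_Ainf A K1 N) m) ∧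
      ∀ Q Q' : Subring (LaurentSeries K1), S18K_Ainf A K1 N ≤ Q → S36CK_A1 A K1 q N ≤ Q →
        S36CK_At A K1 q N ≤ Q →
        (∀ x ∈ Q, x ∈ modularFunctionFieldFullC K1 N) →
        (∀ x ∈ Q', x ∈ modularFunctionFieldFullC K1 N) →
        (∀ x ∈ Q', S36WQ_wL (S34V0K_emb K1) (q ^ 2) M' N (S36WQ_cop hq hqM) hN x ∈ Q) →
        (∀ x ∈ Q, S36WQ_wL (S34V0K_emb K1) (q ^ 2) M' N (S36WQ_cop hq hqM) hN x ∈ Q') →
        ((∃ d : S18K_Ainf A K1 N, d ∉ m ∧ ∃ v ∈ Q, (d : LaurentSeries K1) = S18K_π A K1 * v) ↔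
          ∃ d : S18K_Ainf A K1 N, d ∉ ms ∧
            ∃ v ∈ Q', (d : LaurentSeries K1) = S18K_π A K1 * v) := by
  haveI : IsDiscreteValuationRing (S18K_O A K1) := S.dvr
  haveI : IsAlgClosed (IsLocalRing.ResidueField (S18K_O A K1)) := S34N1K_isAlgClosed A K1 q h
  have hqN : q ∣ N := by rw [hN, pow_two, mul_assoc]; exact dvd_mul_right q _
  have hjqF : qExpand K1 q (jqModC K1) ∈ S18K_F1 K1 N := jqModCd_mem_full K1 N hqN
  have hjqqF : qExpand K1 (q ^ 2) (jqModC K1) ∈ S18K_F1 K1 N :=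
    S36CK_jqq_mem K1 q M' N hq hqM hN
  have hOle : ∀ x : LaurentSeries K1, S18K_O A K1 ≤ icl (adj (S18K_O A K1) x) (S18K_F1 K1 N) :=
    fun x a ha => mem_icl.2 ⟨isIntegral_of_mem _ (le_adj _ _ ha), S.O_le ha⟩
  have hOinf : S18K_O A K1 ≤ S18K_Ainf A K1 N := hOle _
  have hO1 : S18K_O A K1 ≤ S36CK_A1 A K1 q N := hOle _
  have hOt : S18K_O A K1 ≤ S36CK_At A K1 q N := hOle _
  have hu1 : (qExpand K1 q (jqModC K1))⁻¹ ∈ S36CK_A1 A K1 q N :=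
    mem_icl.2 ⟨isIntegral_of_mem _ (mem_adj_self _ _), (S18K_F1 K1 N).inv_mem hjqF⟩
  have hut : (qExpand K1 (q ^ 2) (jqModC K1))⁻¹ ∈ S36CK_At A K1 q N :=
    mem_icl.2 ⟨isIntegral_of_mem _ (mem_adj_self _ _), (S18K_F1 K1 N).inv_mem hjqqF⟩
  obtain ⟨hrel, hrel'⟩ := Fermat.Agent.S34_helper8_MODEQ.S34ME_cuspRel (S18K_O A K1) q hq
  obtain ⟨hrel₁, hrel₁'⟩ := S36CK_rel₁ A K1 q hq
  obtain ⟨ms, hms, hπms, hums, hIG, hwit⟩ :=
    S36CM_mirror (O := S18K_O A K1) (π := S18K_π A K1) (j := S18K_j K1)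
      (θ := qExpand K1 (q ^ 2) (jqModC K1)) (F1 := S18K_F1 K1 N)
      (Ainf := S18K_Ainf A K1 N) (At := S36CK_At A K1 q N) (n := q)
      (θ₁ := qExpand K1 q (jqModC K1)) (A1 := S36CK_A1 A K1 q N)
      (fun y => Iff.rfl) (fun y => Iff.rfl) (fun y => Iff.rfl) S.O_le S.j_mem hjqF hjqqF
      S.j_trans (Fermat.Agent.S34_helper18_CUSPK.S34CUSPK_trans A K1 q S.j_trans)
      (Fermat.Agent.S34_helper18_CUSPK.S34CUSPK_trans A K1 (q ^ 2) S.j_trans)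
      hrel hrel' hrel₁ hrel₁' hπ hu (hO1 S.π_mem) hu1 (hOt S.π_mem) hut hOinf hO1 hOt
      (fun m hm hπm z => S36CK_hres S.π_mem (S.π_irr S.π_mem) hOinf hu
        (fun y hy => (mem_icl.1 hy).1) m hm hπm z)
      (fun m hm hπm c hc hcm => S36CK_inv_mem_O S.π_mem (S.π_irr S.π_mem) hOinf m hπm c hc hcm)
      (fun m hm hπm z => S36CK_hres S.π_mem (S.π_irr S.π_mem) hO1 hu1
        (fun y hy => (mem_icl.1 hy).1) m hm hπm z)
      (fun m hm hπm c hc hcm => S36CK_inv_mem_O S.π_mem (S.π_irr S.π_mem) hO1 m hπm c hc hcm)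
      (S36CK_sigma A K1 q M' N hq hqM hN)
      (Subtype.ext (S36N1K_wL_pi A K1 q M' N hq hqM hN))
      (Subtype.ext (S36CK_wL_jinv K1 q M' N hq hqM hN)) m hm hπm hum
  refine ⟨ms, hms, hπms, hums, hIG, ?_⟩
  intro Q Q' hAQ hA1Q hAtQ hQ hQ' hw hw'
  exact hwit Q Q' hAQ hA1Q hAtQ (S36CK_sigma_vert A K1 q M' N hq hqM hN Q Q' hQ hQ' hw hw')

end Concrete

end Fermat.Agent.S36_helper9_CUSPK
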