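import Fermat.Agent.S36_helper23_TCUSPIN
import Fermat.Agent.S36_helper20_TCUSPL
import Fermat.Agent.S36_helper21_TC2K
import Fermat.Agent.S36_helper19_MIDINFK
import Fermat.Agent.S36_helper9_CUSPK
import Fermat.Agent.S36_helper2_SETUP3
import Fermat.Agent.S36_helper5_VMIDK

/-!
# S36, the thick cusps at the carriers (helper23)

The concrete plug of helper20's `S36TC_main` / `S36TCL_hloc` at the chart at infinity
`X = S18K_Ainf A K1 (M' * q * q)`, for ANY middle ring `W2` with `S36VK_IsMid A K1 q M' W2` and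
any weak setup `S` for `(V_∞ ⊓ W2) ⊓ W3` (so for helper5's carriers and helper2's
`S36S3_setupMid`).  With `j = S18K_j K1`, `θ₂ = j(Q^(q q))`:

* `S36TCK_wit`  : the witnesses `t, c, s, s₀` of `S36TC_main` at a cusp `m ∋ j⁻¹` through which
  `W2` passes (the hypothesis `hwit` of helper19's `S36MIK_one_inf_wit`);
* `S36TCK_hloc` : (MID-LOC) at such a cusp (the hypothesis `hloc` of `S36MIK_one_inf`);
* `S36TCK_hmid` : **the hypothesis `hmid` of helper9's `S36PK_ptsInf`** at level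
  `N = M' * q * q`: the one-branch datum at the thick cusps, no hypothesis left beyond the
  fields of the local contract.
-/

set_option autoImplicit false
set_option linter.unusedSectionVars false
set_option linter.unusedVariables false
set_option linter.style.haveILetI false

noncomputable section

open ModularCurve Fermat.Agent.S24 Polynomial
open Fermat.Agent.S18_helper13_GAUSS Fermat.Agent.S18_helper9_CDefs
open Fermat.Agent.S18_helper9_CBasic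
open Fermat.Agent.S18_helper25_COREDefs Fermat.Agent.S34_helper12_CDefs
open Fermat.Agent.S34_helper27_C2Defs
open Fermat.Agent.S18_helper3_LOCRING
open Fermat.Agent.S34_helper14_N1K
open Fermat.Agent.S34_helper18_CUSP
open Fermat.Agent.S34_helper20_WQ
open Fermat.Agent.S36_helper5_VKDefs Fermat.Agent.S36_helper5_VMIDK
open Fermat.Agent.S36_helper2_SETUP3
open Fermat.Agent.S36_helper3_XBPT Fermat.Agent.S18_helper9_CDefs
open Fermat.Agent.S36_helper9_ONE Fermat.Agent.S36_helper9_CUSPK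
open Fermat.Agent.S36_helper19_MIDINFK
open Fermat.Agent.S36_helper20_TCUSP Fermat.Agent.S36_helper20_TCUSPL
open Fermat.Agent.S36_helper21_TC2K
open Fermat.Agent.S36_helper23_V0QB Fermat.Agent.S36_helper23_TCUSPIN

namespace Fermat.Agent.S36_helper23_TCUSPK

variable (A : ValuationSubring (AlgebraicClosure ℚ))
  (K1 : IntermediateField ℚ (AlgebraicClosure ℚ))

variable [IsDiscreteValuationRing (S18K_O1 A K1)]

/-- `V_n` fixes the constants -/
theorem S36TCK_fix (n : ℕ) [NeZero n] : ∀ a ∈ S18K_O A K1, qExpand K1 n a = a := by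
  intro a ha
  obtain ⟨c, rfl⟩ := S34N1K_hO A K1 a ha
  exact qExpand_C n c

/-- `j(Q^n)` is transcendental over the constants -/
theorem S36TCK_trans (n : ℕ) [NeZero n]
    (htr : Transcendental (S18K_O A K1) (jqModC K1)) :
    Transcendental (S18K_O A K1) (qExpand K1 n (jqModC K1)) := by
  rintro ⟨p, hp0, hp⟩
  apply htr
  refine ⟨p, hp0, ?_⟩
  have hcomp : (qExpand K1 n).comp (algebraMap (S18K_O A K1) (LaurentSeries K1)) =
      algebraMap (S18K_O A K1) (LaurentSeries K1) := by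
    ext1 a
    exact S36TCK_fix A K1 n a a.2
  have h1 : qExpand K1 n (Polynomial.aeval (jqModC K1) p) =
      Polynomial.aeval (qExpand K1 n (jqModC K1)) p := by
    rw [Polynomial.aeval_def, Polynomial.hom_eval₂, hcomp, Polynomial.aeval_def]
  rw [← h1] at hp
  exact (map_eq_zero_iff _ (qExpand_injective n)).mp hp

variable (q : ℕ) [NeZero q] [NeZero (q * q)]

/-- the modular relations of level `q` between `j(Q^q)` and `j(Q^(q q))` -/
theorem S36TCK_rel2 (hq : q.Prime) :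
    S34CUSP_Rel (S18K_O A K1) (qExpand K1 q (jqModC K1)) (qExpand K1 (q * q) (jqModC K1)) q ∧
      S34CUSP_Rel (S18K_O A K1) (qExpand K1 (q * q) (jqModC K1))
        (qExpand K1 q (jqModC K1)) q := by
  obtain ⟨h1, h2⟩ := Fermat.Agent.S34_helper8_MODEQ.S34ME_cuspRel (S18K_O A K1) q hq
  have h1' := S36CK_rel_map (qExpand K1 q) (S36TCK_fix A K1 q) h1
  have h2' := S36CK_rel_map (qExpand K1 q) (S36TCK_fix A K1 q) h2
  rw [qExpand_qExpand] at h1' h2'
  exact ⟨h1', h2'⟩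

variable (M' : ℕ) [NeZero M'] [NeZero (M' * q)] [NeZero (M' * q * q)] [NeZero (q ^ 2)]
  (hq : q.Prime) (hqM : ¬ q ∣ M')

include hq hqM in
/-- **The witnesses of `S36TC_main` at a thick cusp of the chart at infinity of level
`M' * q * q`** (the hypothesis `hwit` of helper19's `S36MIK_one_inf_wit`, given `hOn`). -/
theorem S36TCK_wit (hA : A.LiesOverPrime q)
    (hunr : Associated (S18K_D A K1).π ((q : ℕ) : S18K_O1 A K1))
    (W2 W3 : Subring (LaurentSeries K1))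
    (S : S34C_Setup (S18K_O A K1) (S18K_π A K1) (S18K_j K1) (S18K_F1 K1 (M' * q * q))
      (S18K_V A K1 (M' * q * q) ⊓ W2 ⊓ W3) (S18K_A0 A K1 (M' * q * q))
      (S18K_Ainf A K1 (M' * q * q)))
    (hmid : S36VK_IsMid A K1 q M' W2)
    (hu : (S18K_j K1)⁻¹ ∈ S18K_Ainf A K1 (M' * q * q))
    (m : Ideal (S18K_Ainf A K1 (M' * q * q))) [hm : m.IsPrime]
    (hjm : (⟨(S18K_j K1)⁻¹, hu⟩ : S18K_Ainf A K1 (M' * q * q)) ∈ m)
    (hOn : S36ONE_On W2 (S18K_Ainf A K1 (M' * q * q)) m) :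
    ∃ t' c s s₀ : S18K_Ainf A K1 (M' * q * q), t' ∈ m ∧ c ∉ m ∧ s ∉ m ∧ s₀ ∉ m ∧
      (t' : LaurentSeries K1) = (s₀ : LaurentSeries K1) *
        (S18K_j K1 * (qExpand K1 (q * q) (jqModC K1))⁻¹ - 1) ∧
      (c : LaurentSeries K1) * S18K_π A K1 =
        (s : LaurentSeries K1) * (t' : LaurentSeries K1) ^ (q - 1) := by
  have hN1 : M' * q = q * M' := Nat.mul_comm M' q
  obtain ⟨G, hG, hK⟩ := S36T2K_kron q hq
  obtain ⟨hKI, hKII⟩ := hK K1
  obtain ⟨u₀, -, hu₀, hu₀', hqπ⟩ := S36TCI_q_pi A K1 q hunr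
  obtain ⟨hrel1, hrel1'⟩ := Fermat.Agent.S34_helper8_MODEQ.S34ME_cuspRel (S18K_O A K1) q hq
  obtain ⟨hrel2, hrel2'⟩ := S36TCK_rel2 A K1 q hq
  have htr : Transcendental (S18K_O A K1) (jqModC K1) := S.j_trans
  have hjF : jqModC K1 ∈ S18K_F1 K1 (M' * q * q) := S.j_mem
  have hθ₁F : qExpand K1 q (jqModC K1) ∈ S18K_F1 K1 (M' * q * q) :=
    Fermat.Agent.S34_helper27_V3K.S34V3K_F1_mono K1 (Dvd.intro q rfl)
      (Fermat.Agent.S34_helper20_V0K.S34V0K_jq_mem_F K1 q M' (M' * q) hq hqM hN1)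
  have hθ₂F : qExpand K1 (q * q) (jqModC K1) ∈ S18K_F1 K1 (M' * q * q) :=
    S36V0QB_jqq_mem_F K1 q M' hq hqM
  exact S36TC_main (O := S18K_O A K1) (X := S18K_Ainf A K1 (M' * q * q))
    (F1 := S18K_F1 K1 (M' * q * q)) (m := m) hq
    (fun a ha => ((S.chartInf.mem_iff a).2
      ⟨isIntegral_algebraMap (x := (⟨a, Subring.subset_closure (Or.inl ha)⟩ :
        adj (S18K_O A K1) (S18K_j K1)⁻¹)), S.O_le ha⟩))
    S.O_le
    (fun y hy hint => S36TCI_ic A K1 (M' * q * q) y hy hint)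
    (fun x hx => ((S.chartInf.mem_iff x).1 hx).2)
    hu hjm (jqModC_ne_zero_of_nontrivial K1) (S36TCI_jn_unit A K1 q).1
    (S36TCI_jn_unit A K1 (q * q)).1 hjF hθ₁F hθ₂F htr (S36TCK_trans A K1 q htr)
    hrel1 hrel1' hrel2 hrel2' G hG hKI hKII
    (fun y hy => (S.chartInf.le_V hy).1.2) hOn hmid.1.π_nonunit
    (S36TCI_frob_mid A K1 q M' hq hqM hN1 hA hmid)
    (S36TCI_th2_unit_mid A K1 q M' hmid).2 (S36TCI_t_nonunit A K1 q M' hmid)
    u₀ hu₀ hu₀' hqπ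

include hq hqM in
/-- **(MID-LOC) at a thick cusp** (the hypothesis `hloc` of helper19's `S36MIK_one_inf`, given
`hOn`): `τ, u` in the local ring, `τ` a uniformiser of `W2`, `π = τ * u`. -/
theorem S36TCK_hloc (hA : A.LiesOverPrime q)
    (hunr : Associated (S18K_D A K1).π ((q : ℕ) : S18K_O1 A K1))
    (W2 W3 : Subring (LaurentSeries K1))
    (S : S34C_Setup (S18K_O A K1) (S18K_π A K1) (S18K_j K1) (S18K_F1 K1 (M' * q * q))
      (S18K_V A K1 (M' * q * q) ⊓ W2 ⊓ W3) (S18K_A0 A K1 (M' * q * q))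
      (S18K_Ainf A K1 (M' * q * q)))
    (hmid : S36VK_IsMid A K1 q M' W2)
    (unif2 : ∀ x ∈ W2, x⁻¹ ∉ W2 → ∃ v ∈ W2, x = S36VK_t K1 q * v)
    (hu : (S18K_j K1)⁻¹ ∈ S18K_Ainf A K1 (M' * q * q))
    (m : Ideal (S18K_Ainf A K1 (M' * q * q))) [hm : m.IsPrime]
    (hjm : (⟨(S18K_j K1)⁻¹, hu⟩ : S18K_Ainf A K1 (M' * q * q)) ∈ m)
    (hOn : S36ONE_On W2 (S18K_Ainf A K1 (M' * q * q)) m) :
    ∃ τ u : LaurentSeries K1, τ ∈ locRing (S18K_Ainf A K1 (M' * q * q)) m ∧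
      u ∈ locRing (S18K_Ainf A K1 (M' * q * q)) m ∧ τ⁻¹ ∉ W2 ∧
      (∀ y ∈ W2, y⁻¹ ∉ W2 → ∃ v ∈ W2, y = τ * v) ∧ S18K_π A K1 = τ * u := by
  obtain ⟨t', c, s, s₀, -, hcm, -, hs₀m, ht', hc⟩ :=
    S36TCK_wit A K1 q M' hq hqM hA hunr W2 W3 S hmid hu m hjm hOn
  exact S36MIK_loc_of_wit (fun y hy => (S.chartInf.le_V hy).1.2) m hOn hq.two_le
    (t0 := S36VK_t K1 q) (j := S18K_j K1) (θ₂ := qExpand K1 (q * q) (jqModC K1)) rfl
    hmid.2.2.2 unif2
    (S36TCI_jn_unit A K1 (q * q)).1 (S36TCI_th2_unit_mid A K1 q M' hmid).1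
    (S36TCI_th2_unit_mid A K1 q M' hmid).2 t' c s s₀ hcm hs₀m ht' hc

include hq hqM in
/-- **`hmid` of helper9's `S36PK_ptsInf` at level `M' * q * q`**: the one-branch datum at the
thick cusps, for any middle ring `W2` (fields of the local contract as hypotheses). -/
theorem S36TCK_hmid (hA : A.LiesOverPrime q)
    (hunr : Associated (S18K_D A K1).π ((q : ℕ) : S18K_O1 A K1))
    (hadm : S18K_Admissible A K1 q)
    (W2 W3 : Subring (LaurentSeries K1))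
    (S : S34C_Setup (S18K_O A K1) (S18K_π A K1) (S18K_j K1) (S18K_F1 K1 (M' * q * q))
      (S18K_V A K1 (M' * q * q) ⊓ W2 ⊓ W3) (S18K_A0 A K1 (M' * q * q))
      (S18K_Ainf A K1 (M' * q * q)))
    (hmid : S36VK_IsMid A K1 q M' W2)
    (unif2 : ∀ x ∈ W2, x⁻¹ ∉ W2 → ∃ v ∈ W2, x = S36VK_t K1 q * v)
    (e : ℕ) (t_pow : ∃ v ∈ W2, S36VK_t K1 q ^ e = S18K_π A K1 * v)
    (hres2 : ∀ x ∈ W2, ∃ r ∈ S18K_V A K1 M', ∃ v ∈ W2, x = r + S36VK_t K1 q * v)
    {lam : ℕ} (hlam : lam.Prime) (hne : lam ≠ q) (f : LaurentSeries K1) (hf0 : f ≠ 0)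
    (hdiv : PowDiv (S18K_O A K1) (S18K_π A K1) (S18K_F1 K1 (M' * q * q)) lam f)
    (hπ : S18K_π A K1 ∈ S18K_Ainf A K1 (M' * q * q))
    (hu : (S18K_j K1)⁻¹ ∈ S18K_Ainf A K1 (M' * q * q)) :
    ∀ m : Ideal (S18K_Ainf A K1 (M' * q * q)), m.IsMaximal →
      (⟨S18K_π A K1, hπ⟩ : S18K_Ainf A K1 (M' * q * q)) ∈ m →
      (⟨(S18K_j K1)⁻¹, hu⟩ : S18K_Ainf A K1 (M' * q * q)) ∈ m →
      ∀ d : S18K_Ainf A K1 (M' * q * q), d ∉ m →
      (∃ v ∈ (S18K_V A K1 (M' * q * q) ⊓ W3 : Subring (LaurentSeries K1)),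
        (d : LaurentSeries K1) = S18K_π A K1 * v) →
      ∀ G : LaurentSeries K1, RedPow (S18K_π A K1)
        (S18K_V A K1 (M' * q * q) ⊓ W2 ⊓ W3 : Subring (LaurentSeries K1)) lam f G →
      S36XB_One (S18K_π A K1) (S18K_F1 K1 (M' * q * q)) W2 (S18K_V A K1 (M' * q * q)) W3
        (S18K_Ainf A K1 (M' * q * q)) lam f G m := by
  intro m hm hπm hjm d hdm hdW G hred
  haveI hmp : m.IsPrime := hm.isPrime
  have hV'2 : S18K_V A K1 M' ≤ W2 :=
    (Fermat.Agent.S34_helper27_V3K.S34V3K_V_mono A K1 (Dvd.intro q rfl)).trans hmid.2.1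
  exact S36MIK_one_inf_wit A K1 hq hA M' (M' * q * q) hqM ⟨q * q, by ring⟩ hadm W2 W3 S
    hmid.1 (S36VK_t K1 q) (qExpand K1 (q * q) (jqModC K1)) rfl
    (S36TCI_jn_unit A K1 (q * q)).1 (S36TCI_th2_unit_mid A K1 q M' hmid).1
    (S36TCI_th2_unit_mid A K1 q M' hmid).2 e hmid.2.2.1 hmid.2.2.2 unif2 t_pow hV'2 hres2
    hlam hne f hf0 hdiv hπ m hm hπm
    (fun hOn => S36TCK_wit A K1 q M' hq hqM hA hunr W2 W3 S hmid hu m hjm hOn)
    d hdm hdW G hred

include hq hqM in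
/-- **`hmid` of `S36PK_ptsInf` at helper5's carriers** `W2 := S36VK_Vmid`, `W3 := S36VK_V0`,
with helper2's setup: NO hypothesis left beyond `hA`, `hunr`, admissibility and the data
`(lam, f)` of the field. -/
theorem S36TCK_hmidK (hA : A.LiesOverPrime q)
    (hunr : Associated (S18K_D A K1).π ((q : ℕ) : S18K_O1 A K1))
    (hadm : S18K_Admissible A K1 q)
    {lam : ℕ} (hlam : lam.Prime) (hne : lam ≠ q) (f : LaurentSeries K1) (hf0 : f ≠ 0)
    (hdiv : PowDiv (S18K_O A K1) (S18K_π A K1) (S18K_F1 K1 (M' * q * q)) lam f)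
    (hπ : S18K_π A K1 ∈ S18K_Ainf A K1 (M' * q * q))
    (hu : (S18K_j K1)⁻¹ ∈ S18K_Ainf A K1 (M' * q * q)) :
    ∀ m : Ideal (S18K_Ainf A K1 (M' * q * q)), m.IsMaximal →
      (⟨S18K_π A K1, hπ⟩ : S18K_Ainf A K1 (M' * q * q)) ∈ m →
      (⟨(S18K_j K1)⁻¹, hu⟩ : S18K_Ainf A K1 (M' * q * q)) ∈ m →
      ∀ d : S18K_Ainf A K1 (M' * q * q), d ∉ m →
      (∃ v ∈ (S18K_V A K1 (M' * q * q) ⊓ S36VK_V0 A K1 q M' hq hqM :
        Subring (LaurentSeries K1)), (d : LaurentSeries K1) = S18K_π A K1 * v) →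
      ∀ G : LaurentSeries K1, RedPow (S18K_π A K1)
        (S18K_V A K1 (M' * q * q) ⊓ S36VK_Vmid A K1 q M' ⊓ S36VK_V0 A K1 q M' hq hqM :
          Subring (LaurentSeries K1)) lam f G →
      S36XB_One (S18K_π A K1) (S18K_F1 K1 (M' * q * q)) (S36VK_Vmid A K1 q M')
        (S18K_V A K1 (M' * q * q)) (S36VK_V0 A K1 q M' hq hqM)
        (S18K_Ainf A K1 (M' * q * q)) lam f G m := by
  obtain ⟨hmid, -, -, -, -, -, h7, hkey, -, unif2, -, -, hres2⟩ :=
    S36VK_main A K1 q M' hq hqM hA hunr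
  have S := (S36S3_setupMid A K1 q M' hq hqM hA hmid hkey).1
  have hπ0 : S18K_π A K1 ≠ 0 := by
    intro h0
    apply hmid.1.π_nonunit
    rw [h0, inv_zero]
    exact (S36VK_Vmid A K1 q M').zero_mem
  exact S36TCK_hmid A K1 q M' hq hqM hA hunr hadm _ _ S hmid unif2 (q - 1)
    ⟨_, h7, (mul_div_cancel₀ _ hπ0).symm⟩ hres2 hlam hne f hf0 hdiv hπ hu

end Fermat.Agent.S36_helper23_TCUSPK
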