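import Fermat.Agent.S36_helper20_WQQ
import Fermat.Agent.S34_helper12_CDefs
import Fermat.Agent.S34_helper27_C2Defs

/-!
# S36, piece V0Q (helper23): `V_0 := w_Q (V_∞)` at the level `N = Q M'` and transport by the
Atkin–Lehner involution `W_Q` (port of helper20's landed `S34_helper20_V0` from `w_q` to helper20's
`S36WQ_wL`; `Q` any integer coprime to `M'`, the use is `Q = q ^ 2`)

* ring-homomorphism calculus of `S36WQ_wL` on `F` (`S36V0Q_wL_neg / _inv / _zero / _one / _pow /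
  _sub`), `S36V0Q_wL_j`, `S36V0Q_wL_jQ`;
* `S36V0Q_image` : `w(V ∩ F)` as a subring of `L`; `S36V0Q_wL_mem_image` (`w V ⊆ w(V)`),
  `S36V0Q_wL_of_mem_image` (`w (w(V)) ⊆ V`), `S36V0Q_image_image`;
* transport of the valuation-ring fields (`S34C2_Val`, `V_unif`) from `V` to `S36V0Q_image V`;
* transport of integrality, the chart fields `x_inv_mem`, `le_V` for `V ⊓ S36V0Q_image V`;
* `S36V0Q_frob` (Frobenius congruence on `V_0`), `S36V0Q_image_ne` (`V_0 ≠ V_∞`).
-/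

set_option autoImplicit false
set_option linter.unusedSectionVars false
set_option linter.unusedVariables false
set_option linter.style.haveILetI false

noncomputable section

open ModularCurve Fermat.Agent.S24
open Fermat.Agent.S18_helper9_CDefs Fermat.Agent.S34_helper12_CDefs
open Fermat.Agent.S34_helper27_C2Defs Fermat.Agent.S34_helper20_WQ
open Fermat.Agent.S36_helper20_WQQ

namespace Fermat.Agent.S36_helper23_V0Q

variable {K1 : Type*} [Field K1] (emb : K1 →+* Kbar) (Q M' N : ℕ) [NeZero M'] [NeZero N]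
  (hcop : Nat.Coprime Q M') (hN : N = Q * M') [NeZero Q]

/-! ### ring-homomorphism calculus of `wL` -/

theorem S36V0Q_wL_neg {x : LaurentSeries K1} (hx : x ∈ modularFunctionFieldFullC K1 N) :
    S36WQ_wL emb Q M' N hcop hN (-x) = - S36WQ_wL emb Q M' N hcop hN x := by
  rw [S36WQ_wL_of_mem emb Q M' N hcop hN hx,
    S36WQ_wL_of_mem emb Q M' N hcop hN (neg_mem hx)]
  have h : (⟨-x, neg_mem hx⟩ : modularFunctionFieldFullC K1 N) = -⟨x, hx⟩ := rfl
  rw [h, map_neg]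
  rfl

theorem S36V0Q_wL_inv {x : LaurentSeries K1} (hx : x ∈ modularFunctionFieldFullC K1 N) :
    S36WQ_wL emb Q M' N hcop hN x⁻¹ = (S36WQ_wL emb Q M' N hcop hN x)⁻¹ := by
  rw [S36WQ_wL_of_mem emb Q M' N hcop hN hx,
    S36WQ_wL_of_mem emb Q M' N hcop hN (inv_mem hx)]
  have h : (⟨x⁻¹, inv_mem hx⟩ : modularFunctionFieldFullC K1 N) = (⟨x, hx⟩)⁻¹ := rfl
  rw [h, map_inv₀]
  rfl

theorem S36V0Q_wL_zero : S36WQ_wL emb Q M' N hcop hN 0 = 0 := by
  rw [S36WQ_wL_of_mem emb Q M' N hcop hN (zero_mem _)]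
  have h : (⟨0, zero_mem _⟩ : modularFunctionFieldFullC K1 N) = 0 := rfl
  rw [h, map_zero]
  rfl

theorem S36V0Q_wL_one : S36WQ_wL emb Q M' N hcop hN 1 = 1 := by
  rw [S36WQ_wL_of_mem emb Q M' N hcop hN (one_mem _)]
  have h : (⟨1, one_mem _⟩ : modularFunctionFieldFullC K1 N) = 1 := rfl
  rw [h, map_one]
  rfl

theorem S36V0Q_C_mem (c : K1) : HahnSeries.C c ∈ modularFunctionFieldFullC K1 N := by
  have h2 : algebraMap K1 (LaurentSeries K1) c = HahnSeries.C c := by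
    rw [algebraMap_laurentSeries_eq_single, HahnSeries.C_apply]
  rw [← h2]
  exact IntermediateField.algebraMap_mem _ c

theorem S36V0Q_wL_pow {x : LaurentSeries K1} (hx : x ∈ modularFunctionFieldFullC K1 N) (n : ℕ) :
    S36WQ_wL emb Q M' N hcop hN (x ^ n) = (S36WQ_wL emb Q M' N hcop hN x) ^ n := by
  induction n with
  | zero => rw [pow_zero, pow_zero, S36V0Q_wL_one]
  | succ n ih =>
      rw [pow_succ, pow_succ, S36WQ_wL_mul emb Q M' N hcop hN (pow_mem hx n) hx, ih]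


/-- `w j = j(q^Q)` -/
theorem S36V0Q_wL_j :
    S36WQ_wL emb Q M' N hcop hN (jqModC K1) = qExpand K1 Q (jqModC K1) :=
  S36WQ_wL_level emb Q M' N hcop hN (jqModC_mem_full K1 M')

include emb hcop hN in
/-- `j(q^Q) ∈ F` -/
theorem S36V0Q_jQ_mem : qExpand K1 Q (jqModC K1) ∈ modularFunctionFieldFullC K1 N := by
  rw [← S36V0Q_wL_j emb Q M' N hcop hN]
  exact S36WQ_wL_mem emb Q M' N hcop hN _

/-- `w (j(q^Q)) = j` -/
theorem S36V0Q_wL_jQ :
    S36WQ_wL emb Q M' N hcop hN (qExpand K1 Q (jqModC K1)) = jqModC K1 := by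
  rw [← S36V0Q_wL_j emb Q M' N hcop hN, S36WQ_wL_wL emb Q M' N hcop hN
    (jqModC_mem_full K1 N)]

theorem S36V0Q_wL_sub {x y : LaurentSeries K1} (hx : x ∈ modularFunctionFieldFullC K1 N)
    (hy : y ∈ modularFunctionFieldFullC K1 N) :
    S36WQ_wL emb Q M' N hcop hN (x - y) =
      S36WQ_wL emb Q M' N hcop hN x - S36WQ_wL emb Q M' N hcop hN y := by
  rw [sub_eq_add_neg, S36WQ_wL_add emb Q M' N hcop hN hx (neg_mem hy),
    S36V0Q_wL_neg emb Q M' N hcop hN hy, ← sub_eq_add_neg]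

/-! ### `V_0 = w(V ∩ F)` -/

/-- the image `w(V ∩ F)` of a subring of `L` under the Atkin–Lehner involution -/
def S36V0Q_image (V : Subring (LaurentSeries K1)) : Subring (LaurentSeries K1) where
  carrier := {y | y ∈ modularFunctionFieldFullC K1 N ∧ S36WQ_wL emb Q M' N hcop hN y ∈ V}
  mul_mem' := by
    rintro x y ⟨hx, hx'⟩ ⟨hy, hy'⟩
    refine ⟨mul_mem hx hy, ?_⟩
    rw [S36WQ_wL_mul emb Q M' N hcop hN hx hy]
    exact V.mul_mem hx' hy'
  one_mem' := ⟨one_mem _, by rw [S36V0Q_wL_one]; exact V.one_mem⟩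
  add_mem' := by
    rintro x y ⟨hx, hx'⟩ ⟨hy, hy'⟩
    refine ⟨add_mem hx hy, ?_⟩
    rw [S36WQ_wL_add emb Q M' N hcop hN hx hy]
    exact V.add_mem hx' hy'
  zero_mem' := ⟨zero_mem _, by rw [S36V0Q_wL_zero]; exact V.zero_mem⟩
  neg_mem' := by
    rintro x ⟨hx, hx'⟩
    refine ⟨neg_mem hx, ?_⟩
    rw [S36V0Q_wL_neg emb Q M' N hcop hN hx]
    exact V.neg_mem hx'

theorem S36V0Q_mem_image {V : Subring (LaurentSeries K1)} {y : LaurentSeries K1} :
    y ∈ S36V0Q_image emb Q M' N hcop hN V ↔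
      y ∈ modularFunctionFieldFullC K1 N ∧ S36WQ_wL emb Q M' N hcop hN y ∈ V := Iff.rfl

/-- `w x ∈ V_0` for `x ∈ V ∩ F` -/
theorem S36V0Q_wL_mem_image {V : Subring (LaurentSeries K1)} {x : LaurentSeries K1}
    (hxF : x ∈ modularFunctionFieldFullC K1 N) (hx : x ∈ V) :
    S36WQ_wL emb Q M' N hcop hN x ∈ S36V0Q_image emb Q M' N hcop hN V :=
  ⟨S36WQ_wL_mem emb Q M' N hcop hN x, by rw [S36WQ_wL_wL emb Q M' N hcop hN hxF]; exact hx⟩

/-- `w y ∈ V` for `y ∈ V_0` -/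
theorem S36V0Q_wL_of_mem_image {V : Subring (LaurentSeries K1)} {y : LaurentSeries K1}
    (hy : y ∈ S36V0Q_image emb Q M' N hcop hN V) : S36WQ_wL emb Q M' N hcop hN y ∈ V :=
  hy.2

/-- `w (w V) = V` for `V ≤ F` -/
theorem S36V0Q_image_image {V : Subring (LaurentSeries K1)}
    (hV : ∀ x ∈ V, x ∈ modularFunctionFieldFullC K1 N) :
    S36V0Q_image emb Q M' N hcop hN (S36V0Q_image emb Q M' N hcop hN V) = V := by
  ext y
  constructor
  · rintro ⟨hy, -, h2⟩
    rw [S36WQ_wL_wL emb Q M' N hcop hN hy] at h2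
    exact h2
  · intro hy
    have hyF := hV y hy
    exact ⟨hyF, S36WQ_wL_mem emb Q M' N hcop hN y, by
      rw [S36WQ_wL_wL emb Q M' N hcop hN hyF]; exact hy⟩

section Transport

variable {π : LaurentSeries K1} {V : Subring (LaurentSeries K1)}

/-- **transport of the valuation-ring fields**: if `V` is a valuation ring of `F` in which the
constant `π` is a non-unit, so is `w(V)`. -/
theorem S36V0Q_val (hπ : ∃ c : K1, HahnSeries.C c = π)
    (H : S34C2_Val π (modularFunctionFieldFullC K1 N).toSubfield V) :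
    S34C2_Val π (modularFunctionFieldFullC K1 N).toSubfield
      (S36V0Q_image emb Q M' N hcop hN V) := by
  obtain ⟨c, rfl⟩ := hπ
  refine ⟨fun x hx => hx.1, ?_, ?_, ?_⟩
  · intro x hx
    have hxF : x ∈ modularFunctionFieldFullC K1 N := hx
    rcases H.val _ (S36WQ_wL_mem emb Q M' N hcop hN x) with h | h
    · exact Or.inl ⟨hxF, h⟩
    · refine Or.inr ⟨inv_mem hxF, ?_⟩
      rw [S36V0Q_wL_inv emb Q M' N hcop hN hxF]
      exact h
  · exact ⟨S36V0Q_C_mem N c, by rw [S36WQ_wL_C]; exact H.π_mem⟩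
  · rintro ⟨-, h⟩
    rw [S36V0Q_wL_inv emb Q M' N hcop hN (S36V0Q_C_mem N c), S36WQ_wL_C] at h
    exact H.π_nonunit h

/-- **transport of `V_unif`** -/
theorem S36V0Q_unif (hπ : ∃ c : K1, HahnSeries.C c = π) (hπ0 : π ≠ 0)
    (hunif : ∀ x ∈ V, x⁻¹ ∉ V → ∃ v ∈ V, x = π * v) :
    ∀ x ∈ S36V0Q_image emb Q M' N hcop hN V, x⁻¹ ∉ S36V0Q_image emb Q M' N hcop hN V →
      ∃ v ∈ S36V0Q_image emb Q M' N hcop hN V, x = π * v := by
  obtain ⟨c, rfl⟩ := hπ
  rintro x ⟨hxF, hx⟩ hxinv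
  have h1 : (S36WQ_wL emb Q M' N hcop hN x)⁻¹ ∉ V := by
    intro h
    apply hxinv
    refine ⟨inv_mem hxF, ?_⟩
    rw [S36V0Q_wL_inv emb Q M' N hcop hN hxF]
    exact h
  obtain ⟨v, hv, hxv⟩ := hunif _ hx h1
  have hcF : HahnSeries.C c ∈ modularFunctionFieldFullC K1 N := S36V0Q_C_mem N c
  have hvF : v ∈ modularFunctionFieldFullC K1 N := by
    have : v = (HahnSeries.C c)⁻¹ * S36WQ_wL emb Q M' N hcop hN x := by
      rw [hxv, ← mul_assoc, inv_mul_cancel₀ hπ0, one_mul]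
    rw [this]
    exact mul_mem (inv_mem hcF) (S36WQ_wL_mem emb Q M' N hcop hN x)
  refine ⟨S36WQ_wL emb Q M' N hcop hN v, S36V0Q_wL_mem_image emb Q M' N hcop hN hvF hv, ?_⟩
  have h2 := congrArg (S36WQ_wL emb Q M' N hcop hN) hxv
  rw [S36WQ_wL_wL emb Q M' N hcop hN hxF, S36WQ_wL_mul emb Q M' N hcop hN hcF hvF,
    S36WQ_wL_C] at h2
  exact h2

end Transport

/-! ### Transport of integrality -/

section Integral

variable (O : Subring (LaurentSeries K1)) (hO : ∀ a ∈ O, ∃ c : K1, HahnSeries.C c = a)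

include hO in
theorem S36V0Q_O_le : ∀ a ∈ O, a ∈ modularFunctionFieldFullC K1 N := by
  intro a ha
  obtain ⟨c, rfl⟩ := hO a ha
  exact S36V0Q_C_mem N c

include hO in
theorem S36V0Q_adj_le {g : LaurentSeries K1} (hg : g ∈ modularFunctionFieldFullC K1 N) :
    ∀ r ∈ adj O g, r ∈ modularFunctionFieldFullC K1 N := by
  intro r hr
  have h : adj O g ≤ (modularFunctionFieldFullC K1 N).toSubfield.toSubring := by
    unfold adj
    rw [Subring.closure_le]
    rintro x (hx | hx)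
    · exact S36V0Q_O_le N O hO x hx
    · rw [Set.mem_singleton_iff] at hx
      rw [hx]; exact hg
  exact h hr

include hO in
/-- `w` maps `O[g]` into `O[w g]` -/
theorem S36V0Q_wL_adj {g : LaurentSeries K1} (hg : g ∈ modularFunctionFieldFullC K1 N)
    {r : LaurentSeries K1} (hr : r ∈ adj O g) :
    S36WQ_wL emb Q M' N hcop hN r ∈ adj O (S36WQ_wL emb Q M' N hcop hN g) := by
  have hle := S36V0Q_adj_le N O hO hg
  unfold adj at hr
  induction hr using Subring.closure_induction with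
  | mem x hx =>
      rcases hx with hx | hx
      · obtain ⟨c, rfl⟩ := hO x hx
        rw [S36WQ_wL_C]
        exact Subring.subset_closure (Or.inl hx)
      · rw [Set.mem_singleton_iff] at hx
        rw [hx]
        exact Subring.subset_closure (Or.inr rfl)
  | zero => rw [S36V0Q_wL_zero]; exact zero_mem _
  | one => rw [S36V0Q_wL_one]; exact one_mem _
  | add x y hx hy ihx ihy =>
      rw [S36WQ_wL_add emb Q M' N hcop hN (hle x hx) (hle y hy)]
      exact add_mem ihx ihy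
  | neg x hx ihx =>
      rw [S36V0Q_wL_neg emb Q M' N hcop hN (hle x hx)]
      exact neg_mem ihx
  | mul x y hx hy ihx ihy =>
      rw [S36WQ_wL_mul emb Q M' N hcop hN (hle x hx) (hle y hy)]
      exact mul_mem ihx ihy

include hO in
/-- **transport of integrality**: if `x ∈ F` is integral over `O[g]`, then `w x` is integral over
`O[w g]`. -/
theorem S36V0Q_isIntegral_wL {g : LaurentSeries K1} (hg : g ∈ modularFunctionFieldFullC K1 N)
    {x : LaurentSeries K1} (hxF : x ∈ modularFunctionFieldFullC K1 N)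
    (hx : IsIntegral (adj O g) x) :
    IsIntegral (adj O (S36WQ_wL emb Q M' N hcop hN g)) (S36WQ_wL emb Q M' N hcop hN x) := by
  have hle := S36V0Q_adj_le N O hO hg
  -- the ring homomorphism `O[g] → O[w g]` induced by `w`
  let φ : adj O g →+* adj O (S36WQ_wL emb Q M' N hcop hN g) :=
    { toFun := fun r => ⟨S36WQ_wL emb Q M' N hcop hN (r : LaurentSeries K1),
        S36V0Q_wL_adj emb Q M' N hcop hN O hO hg r.2⟩
      map_one' := Subtype.ext (S36V0Q_wL_one emb Q M' N hcop hN)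
      map_mul' := fun a b => Subtype.ext
        (S36WQ_wL_mul emb Q M' N hcop hN (hle a a.2) (hle b b.2))
      map_zero' := Subtype.ext (S36V0Q_wL_zero emb Q M' N hcop hN)
      map_add' := fun a b => Subtype.ext
        (S36WQ_wL_add emb Q M' N hcop hN (hle a a.2) (hle b b.2)) }
  obtain ⟨P, hP, hPx⟩ := hx
  refine ⟨P.map φ, hP.map φ, ?_⟩
  rw [Polynomial.eval₂_map, Polynomial.eval₂_eq_sum_range]
  rw [Polynomial.eval₂_eq_sum_range] at hPx
  have key : ∀ (n : ℕ),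
      S36WQ_wL emb Q M' N hcop hN
        (∑ i ∈ Finset.range n, algebraMap (adj O g) (LaurentSeries K1) (P.coeff i) * x ^ i) =
      ∑ i ∈ Finset.range n,
        ((algebraMap (adj O (S36WQ_wL emb Q M' N hcop hN g)) (LaurentSeries K1)).comp φ)
          (P.coeff i) * (S36WQ_wL emb Q M' N hcop hN x) ^ i ∧
      (∑ i ∈ Finset.range n, algebraMap (adj O g) (LaurentSeries K1) (P.coeff i) * x ^ i) ∈
        modularFunctionFieldFullC K1 N := by
    intro n
    induction n with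
    | zero =>
        simp only [Finset.range_zero, Finset.sum_empty]
        exact ⟨S36V0Q_wL_zero emb Q M' N hcop hN, zero_mem _⟩
    | succ n ih =>
        have hcF : algebraMap (adj O g) (LaurentSeries K1) (P.coeff n) ∈
            modularFunctionFieldFullC K1 N := hle _ (P.coeff n).2
        have hterm : algebraMap (adj O g) (LaurentSeries K1) (P.coeff n) * x ^ n ∈
            modularFunctionFieldFullC K1 N :=
          mul_mem hcF (pow_mem hxF n)
        rw [Finset.sum_range_succ, Finset.sum_range_succ,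
          S36WQ_wL_add emb Q M' N hcop hN ih.2 hterm, ih.1,
          S36WQ_wL_mul emb Q M' N hcop hN hcF (pow_mem hxF n),
          S36V0Q_wL_pow emb Q M' N hcop hN hxF]
        exact ⟨rfl, add_mem ih.2 hterm⟩
  rw [← (key (P.natDegree + 1)).1, hPx, S36V0Q_wL_zero]

end Integral

/-! ### The chart fields `x_inv_mem`, `le_V` for `V ⊓ w(V)` -/

section Chart

variable (O : Subring (LaurentSeries K1)) (hO : ∀ a ∈ O, ∃ c : K1, HahnSeries.C c = a)
  {π : LaurentSeries K1} {V : Subring (LaurentSeries K1)}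

include hO in
/-- **`le_V`**: the integral closure of `O[g]` in `F` lies in `V ⊓ w(V)` as soon as `g` and `w g`
lie in the valuation ring `V ⊇ O`. -/
theorem S36V0Q_icl_le (H : S34C2_Val π (modularFunctionFieldFullC K1 N).toSubfield V)
    (hOV : ∀ a ∈ O, a ∈ V) {g : LaurentSeries K1} (hgF : g ∈ modularFunctionFieldFullC K1 N)
    (hgV : g ∈ V) (hwgV : S36WQ_wL emb Q M' N hcop hN g ∈ V) :
    icl (adj O g) (modularFunctionFieldFullC K1 N).toSubfield ≤
      V ⊓ S36V0Q_image emb Q M' N hcop hN V := by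
  have hadj : ∀ {g' : LaurentSeries K1}, g' ∈ V → adj O g' ≤ V := by
    intro g' hg'
    unfold adj
    rw [Subring.closure_le]
    rintro x (hx | hx)
    · exact hOV x hx
    · rw [Set.mem_singleton_iff] at hx
      rw [hx]; exact hg'
  intro y hy
  obtain ⟨hint, hyF⟩ := mem_icl.mp hy
  have hyF' : y ∈ modularFunctionFieldFullC K1 N := hyF
  refine ⟨H.ic hyF (Fermat.Agent.S18_helper9_CBasic.isIntegral_mono (hadj hgV) hint), hyF', ?_⟩
  have h1 := S36V0Q_isIntegral_wL emb Q M' N hcop hN O hO hgF hyF' hint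
  exact H.ic (S36WQ_wL_mem emb Q M' N hcop hN y)
    (Fermat.Agent.S18_helper9_CBasic.isIntegral_mono (hadj hwgV) h1)

/-- **`x_inv_mem`** -/
theorem S36V0Q_inv_mem {g : LaurentSeries K1} (hgF : g ∈ modularFunctionFieldFullC K1 N)
    (hgV : g⁻¹ ∈ V) (hwgV : (S36WQ_wL emb Q M' N hcop hN g)⁻¹ ∈ V) :
    g⁻¹ ∈ V ⊓ S36V0Q_image emb Q M' N hcop hN V := by
  refine ⟨hgV, inv_mem hgF, ?_⟩
  rw [S36V0Q_wL_inv emb Q M' N hcop hN hgF]
  exact hwgV

include hO in
/-- **the four chart fields at once** (`j`, `j⁻¹`, `j(q^Q)`, `j(q^Q)⁻¹ ∈ V`): `le_V` and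
`x_inv_mem` of `Chart O π j F (V ⊓ w V) A0` and of `Chart O π j⁻¹ F (V ⊓ w V) Ainf`. -/
theorem S36V0Q_chart_fields
    (H : S34C2_Val π (modularFunctionFieldFullC K1 N).toSubfield V)
    (hOV : ∀ a ∈ O, a ∈ V)
    (hj : jqModC K1 ∈ V) (hj' : (jqModC K1)⁻¹ ∈ V)
    (hjq : qExpand K1 Q (jqModC K1) ∈ V) (hjq' : (qExpand K1 Q (jqModC K1))⁻¹ ∈ V) :
    (icl (adj O (jqModC K1)) (modularFunctionFieldFullC K1 N).toSubfield ≤
        V ⊓ S36V0Q_image emb Q M' N hcop hN V) ∧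
      (icl (adj O (jqModC K1)⁻¹) (modularFunctionFieldFullC K1 N).toSubfield ≤
        V ⊓ S36V0Q_image emb Q M' N hcop hN V) ∧
      (jqModC K1)⁻¹ ∈ V ⊓ S36V0Q_image emb Q M' N hcop hN V ∧
      ((jqModC K1)⁻¹)⁻¹ ∈ V ⊓ S36V0Q_image emb Q M' N hcop hN V := by
  have hjF : jqModC K1 ∈ modularFunctionFieldFullC K1 N := jqModC_mem_full K1 N
  have hw : S36WQ_wL emb Q M' N hcop hN (jqModC K1) = qExpand K1 Q (jqModC K1) :=
    S36V0Q_wL_j emb Q M' N hcop hN
  have hw' : S36WQ_wL emb Q M' N hcop hN (jqModC K1)⁻¹ = (qExpand K1 Q (jqModC K1))⁻¹ := by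
    rw [S36V0Q_wL_inv emb Q M' N hcop hN hjF, hw]
  refine ⟨?_, ?_, ?_, ?_⟩
  · exact S36V0Q_icl_le emb Q M' N hcop hN O hO H hOV hjF hj (by rw [hw]; exact hjq)
  · exact S36V0Q_icl_le emb Q M' N hcop hN O hO H hOV (inv_mem hjF) hj'
      (by rw [hw']; exact hjq')
  · exact S36V0Q_inv_mem emb Q M' N hcop hN hjF hj' (by rw [hw]; exact hjq')
  · exact S36V0Q_inv_mem emb Q M' N hcop hN (inv_mem hjF) (by rw [inv_inv]; exact hj)
      (by rw [hw', inv_inv]; exact hjq)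

end Chart

/-! ### The Frobenius congruence on the second component and `V_0 ≠ V_∞` -/

section Frob

variable {π : LaurentSeries K1} {V : Subring (LaurentSeries K1)}

/-- **Frobenius congruence on `V_0`**: for `x` of level `M'`, if `x(q^Q) ≡ x^e` modulo `π V`, then
`x ≡ (x(q^Q))^e` modulo `π w(V)`. -/
theorem S36V0Q_frob (e : ℕ) (hπ : ∃ c : K1, HahnSeries.C c = π) (hπ0 : π ≠ 0)
    {x : LaurentSeries K1} (hx : x ∈ modularFunctionFieldFullC K1 M')
    {v : LaurentSeries K1} (hv : v ∈ V) (h : qExpand K1 Q x - x ^ e = π * v) :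
    ∃ v' ∈ S36V0Q_image emb Q M' N hcop hN V, x - (qExpand K1 Q x) ^ e = π * v' := by
  obtain ⟨c, rfl⟩ := hπ
  have hM'N : M' ∣ N := hN ▸ dvd_mul_left M' Q
  have hxF : x ∈ modularFunctionFieldFullC K1 N := full_degeneracyC_le K1 hM'N hx
  have hcF : HahnSeries.C c ∈ modularFunctionFieldFullC K1 N := S36V0Q_C_mem N c
  have hwx : S36WQ_wL emb Q M' N hcop hN x = qExpand K1 Q x := by
    rw [S36WQ_wL_of_mem emb Q M' N hcop hN hxF]
    exact S36WQ_w_level emb Q M' N hcop hN ⟨x, hxF⟩ hx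
  have hqxF : qExpand K1 Q x ∈ modularFunctionFieldFullC K1 N := by
    rw [← hwx]; exact S36WQ_wL_mem emb Q M' N hcop hN x
  have hvF : v ∈ modularFunctionFieldFullC K1 N := by
    have : v = (HahnSeries.C c)⁻¹ * (qExpand K1 Q x - x ^ e) := by
      rw [h, ← mul_assoc, inv_mul_cancel₀ hπ0, one_mul]
    rw [this]
    exact mul_mem (inv_mem hcF) (sub_mem hqxF (pow_mem hxF e))
  refine ⟨S36WQ_wL emb Q M' N hcop hN v,
    S36V0Q_wL_mem_image emb Q M' N hcop hN hvF hv, ?_⟩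
  have h2 := congrArg (S36WQ_wL emb Q M' N hcop hN) h
  rw [S36WQ_wL_mul emb Q M' N hcop hN hcF hvF, S36WQ_wL_C, sub_eq_add_neg,
    S36WQ_wL_add emb Q M' N hcop hN hqxF (neg_mem (pow_mem hxF e)),
    S36V0Q_wL_neg emb Q M' N hcop hN (pow_mem hxF e),
    S36V0Q_wL_pow emb Q M' N hcop hN hxF, ← hwx,
    S36WQ_wL_wL emb Q M' N hcop hN hxF, hwx, ← sub_eq_add_neg] at h2
  exact h2

/-- **`V_0 ≠ V_∞`**: if `j(q^Q) ≡ j^e` modulo `π V` and `j - j^(e²)` is a unit of `V`, then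
`w(V) ≠ V`. -/
theorem S36V0Q_image_ne (e : ℕ) (hπ : ∃ c : K1, HahnSeries.C c = π)
    (H : S34C2_Val π (modularFunctionFieldFullC K1 N).toSubfield V)
    (hj : jqModC K1 ∈ V) (hjq : qExpand K1 Q (jqModC K1) ∈ V)
    (hK : ∃ v ∈ V, qExpand K1 Q (jqModC K1) - (jqModC K1) ^ e = π * v)
    (hU : ∃ u ∈ V, u * (jqModC K1 - (jqModC K1) ^ (e ^ 2)) = 1) :
    S36V0Q_image emb Q M' N hcop hN V ≠ V := by
  intro heq
  have hπ0 : π ≠ 0 := H.π_ne_zero
  obtain ⟨v, hv, hvK⟩ := hK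
  obtain ⟨u, hu, huU⟩ := hU
  have hjM' : jqModC K1 ∈ modularFunctionFieldFullC K1 M' := jqModC_mem_full K1 M'
  obtain ⟨v', hv', h1⟩ := S36V0Q_frob emb Q M' N hcop hN e hπ hπ0 hjM' hv hvK
  rw [heq] at hv'
  -- `jq ^ q - (j ^ q) ^ e ∈ π V`
  obtain ⟨c, hc⟩ := sub_dvd_pow_sub_pow (⟨qExpand K1 Q (jqModC K1), hjq⟩ : V)
    (⟨(jqModC K1) ^ e, V.pow_mem hj e⟩ : V) e
  have hc' : (qExpand K1 Q (jqModC K1)) ^ e - ((jqModC K1) ^ e) ^ e =
      (qExpand K1 Q (jqModC K1) - (jqModC K1) ^ e) * (c : LaurentSeries K1) := by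
    have := congrArg (fun z : V => (z : LaurentSeries K1)) hc
    simpa using this
  have h3 : jqModC K1 - (jqModC K1) ^ (e ^ 2) = π * (v' + v * (c : LaurentSeries K1)) := by
    have e2 : (jqModC K1) ^ (e ^ 2) = ((jqModC K1) ^ e) ^ e := by rw [← pow_mul, pow_two]
    rw [e2]
    have : jqModC K1 - ((jqModC K1) ^ e) ^ e =
        (jqModC K1 - (qExpand K1 Q (jqModC K1)) ^ e) +
          ((qExpand K1 Q (jqModC K1)) ^ e - ((jqModC K1) ^ e) ^ e) := by ring
    rw [this, h1, hc', hvK]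
    ring
  apply H.π_nonunit
  have h4 : π⁻¹ = u * (v' + v * (c : LaurentSeries K1)) := by
    rw [h3] at huU
    have h5 : π * (u * (v' + v * (c : LaurentSeries K1))) = 1 := by
      rw [← huU]; ring
    exact (eq_inv_of_mul_eq_one_right h5).symm ▸ rfl
  rw [h4]
  exact V.mul_mem hu (V.add_mem hv' (V.mul_mem hv c.2))

end Frob

end Fermat.Agent.S36_helper23_V0Q
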