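import Mathlib
import Fermat.Agent.S36_helper24_A9HESSE

/-!
# S36, piece AUX, instance `r = 9`: the Hesse coordinate `t = 1 + 9 / h` (helper24)

For a field `K` and `t : K((Q))` with `t h = h + 9` (`h` the Hauptmodul of level `9`):

* `S36A9T_eq`        : `t = 1 + 9 Q v` as a power series, `v = u⁻¹` (`v(0) = 1`);
* `S36A9T_coeff_of_neg`, `S36A9T_coeff_zero`, `S36A9T_coeff_one` :
  `t` is a power series `1 + 9 Q + ⋯`;
* `S36A9T_exists`    : such a `t` exists (`t = 1 + 9 h⁻¹`);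
* `S36A9T_mem`       : `t ∈ E` for every intermediate field `E ∋ h`.
-/

set_option autoImplicit false

noncomputable section

namespace Fermat.Agent.S36_helper24_A9T

open ModularCurve
open Fermat.Agent.S36_helper8_AUXDefs Fermat.Agent.S36_helper24_A9Defs
  Fermat.Agent.S36_helper24_A9H Fermat.Agent.S36_helper24_A9Q Fermat.Agent.S36_helper24_A9HESSE

variable (K : Type*) [Field K]

/-- the power series `1 + 9 X u⁻¹` -/
def S36A9T_ser : PowerSeries K :=
  1 + 9 * (PowerSeries.X * (S36A9_u.map (Int.castRingHom K))⁻¹)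

theorem S36A9T_cc_u :
    PowerSeries.constantCoeff (S36A9_u.map (Int.castRingHom K)) = 1 := by
  rw [← PowerSeries.coeff_zero_eq_constantCoeff, PowerSeries.coeff_map,
    PowerSeries.coeff_zero_eq_constantCoeff, S36A9_u_cc, map_one]

/-- `(1 + 9 X u⁻¹) · h = h + 9` -/
theorem S36A9T_ser_mul :
    HahnSeries.ofPowerSeries ℤ K (S36A9T_ser K) * S36AUX_hK K S36A9_u
      = S36AUX_hK K S36A9_u + 9 := by
  have hT := S36A9H_single_mul K
  have hu : (S36A9_u.map (Int.castRingHom K))⁻¹ * S36A9_u.map (Int.castRingHom K) = 1 :=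
    PowerSeries.inv_mul_cancel _ (by rw [S36A9T_cc_u]; exact one_ne_zero)
  have hu' := congrArg (HahnSeries.ofPowerSeries ℤ K) hu
  rw [map_mul, map_one] at hu'
  rw [S36A9T_ser, S36AUX_hK, map_add, map_one, map_mul, map_mul, map_ofNat]
  linear_combination
    (9 * HahnSeries.ofPowerSeries ℤ K (S36A9_u.map (Int.castRingHom K))⁻¹
        * HahnSeries.ofPowerSeries ℤ K (S36A9_u.map (Int.castRingHom K))) * hT
      + 9 * hu'

variable {K}

/-- `t = 1 + 9 Q u⁻¹` -/
theorem S36A9T_eq (t : LaurentSeries K)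
    (ht : t * S36AUX_hK K S36A9_u = S36AUX_hK K S36A9_u + 9) :
    t = HahnSeries.ofPowerSeries ℤ K (S36A9T_ser K) := by
  have hh : S36AUX_hK K S36A9_u ≠ 0 := S36A9_hK_ne K
  have h := S36A9T_ser_mul K
  exact mul_right_cancel₀ hh (ht.trans h.symm)

theorem S36A9T_coeff_of_neg (t : LaurentSeries K)
    (ht : t * S36AUX_hK K S36A9_u = S36AUX_hK K S36A9_u + 9) {k : ℤ} (hk : k < 0) :
    t.coeff k = 0 := by
  rw [S36A9T_eq t ht]
  exact ofPowerSeries_coeff_of_neg _ hk

theorem S36A9T_coeff_zero (t : LaurentSeries K)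
    (ht : t * S36AUX_hK K S36A9_u = S36AUX_hK K S36A9_u + 9) :
    t.coeff 0 = 1 := by
  rw [S36A9T_eq t ht]
  have h0 : (HahnSeries.ofPowerSeries ℤ K (S36A9T_ser K)).coeff (((0 : ℕ) : ℤ))
      = PowerSeries.coeff 0 (S36A9T_ser K) := HahnSeries.ofPowerSeries_apply_coeff _ 0
  rw [Nat.cast_zero] at h0
  rw [h0, S36A9T_ser, PowerSeries.coeff_zero_eq_constantCoeff, map_add, map_one, map_mul,
    map_mul, PowerSeries.constantCoeff_X, zero_mul, mul_zero, add_zero]

theorem S36A9T_coeff_one (t : LaurentSeries K)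
    (ht : t * S36AUX_hK K S36A9_u = S36AUX_hK K S36A9_u + 9) :
    t.coeff 1 = 9 := by
  rw [S36A9T_eq t ht]
  have h1 : (HahnSeries.ofPowerSeries ℤ K (S36A9T_ser K)).coeff (((1 : ℕ) : ℤ))
      = PowerSeries.coeff 1 (S36A9T_ser K) := HahnSeries.ofPowerSeries_apply_coeff _ 1
  rw [Nat.cast_one] at h1
  rw [h1, S36A9T_ser, map_add, PowerSeries.coeff_one, if_neg (by norm_num), zero_add]
  have e : (9 : PowerSeries K) * (PowerSeries.X * (S36A9_u.map (Int.castRingHom K))⁻¹)
      = PowerSeries.X * (PowerSeries.C (9 : K) * (S36A9_u.map (Int.castRingHom K))⁻¹) := by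
    have e9 : (PowerSeries.C (9 : K) : PowerSeries K) = 9 := map_ofNat PowerSeries.C 9
    rw [e9]
    ring
  rw [e, show (1 : ℕ) = 0 + 1 by norm_num, PowerSeries.coeff_succ_X_mul,
    PowerSeries.coeff_zero_eq_constantCoeff, map_mul, PowerSeries.constantCoeff_C,
    PowerSeries.constantCoeff_inv, S36A9T_cc_u, inv_one, mul_one]

variable (K)

theorem S36A9T_exists :
    ∃ t : LaurentSeries K, t * S36AUX_hK K S36A9_u = S36AUX_hK K S36A9_u + 9 :=
  ⟨_, S36A9T_ser_mul K⟩

variable {K}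

/-- `t ∈ E` for every intermediate field containing `h` -/
theorem S36A9T_mem (E : IntermediateField K (LaurentSeries K))
    (hE : S36AUX_hK K S36A9_u ∈ E) (t : LaurentSeries K)
    (ht : t * S36AUX_hK K S36A9_u = S36AUX_hK K S36A9_u + 9) : t ∈ E := by
  have hh : S36AUX_hK K S36A9_u ≠ 0 := S36A9_hK_ne K
  have e : t = (S36AUX_hK K S36A9_u + 9) / S36AUX_hK K S36A9_u := by
    rw [eq_div_iff hh]; exact ht
  rw [e]
  refine div_mem (add_mem hE ?_) hE
  have h9 : (9 : LaurentSeries K) = algebraMap K (LaurentSeries K) 9 := by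
    rw [map_ofNat]
  rw [h9]
  exact E.algebraMap_mem 9

end Fermat.Agent.S36_helper24_A9T
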