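import Mathlib
import Fermat.Agent.S36_helper7_E1H
import Fermat.Agent.S36_helper24_A9T

/-!
# S36, GEO36 piece E1 (helper24): the Hauptmodul `h` of level `9` is a local parameter

The `q = 2` mirror of helper7's `S36E1_h4`.  For `h = S36AUX_hK K1 S36A9_u`
(`h = Q⁻¹ - 3 + 5 Q² - ⋯`, the Hauptmodul of level `9`), `3 ∣ N`, `3` invertible in `O` and a
primitive cube root of unity in `O`: every maximal ideal `m ∋ π` of the chart `A0L O K1 (3 N)`
contains `h - a` for a constant `a ∈ O` (with `a (a² + 9 a + 27)` a unit) and is generated by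
`π` and `h - a` locally at `m`.

Proof: helper7's `S36E1_mu` for the Hesse coordinate `t = 1 + 9 / h`; the change of coordinate
is a Möbius map, so one needs `h, h⁻¹ ∈ A0L`: `h` is integral over `ℤ[j]` by `rel`, and
`B(h) (U(h) j + V(h)) = 9^e` by `bez`.
-/

set_option autoImplicit false
set_option linter.unusedSectionVars false
set_option linter.style.haveILetI false
set_option linter.unusedVariables false
set_option maxHeartbeats 1000000
set_option synthInstance.maxHeartbeats 400000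

noncomputable section

open Polynomial ModularCurve Fermat.Agent.S18_helper13_GAUSS Fermat.Agent.S18_helper9_CDefs
open Fermat.Agent.S18A Fermat.Agent.S18AI
open Fermat.Agent.S36_helper7_E1IN Fermat.Agent.S36_helper8_AUXDefs
open Fermat.Agent.S36_helper7_E1H
open Fermat.Agent.S36_helper24_A9Defs Fermat.Agent.S36_helper24_A9G
  Fermat.Agent.S36_helper24_A9Q Fermat.Agent.S36_helper24_A9HESSE Fermat.Agent.S36_helper24_A9T

namespace Fermat.Agent.S36_helper24_E1H9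

/-! ### `h` and `h⁻¹` are integral over `O[j]` -/

section Integral

variable {K1 : Type*} [Field K1]

/-- evaluation of an integer polynomial at an element of a subring stays in the subring -/
theorem S36E1H9_eval₂_mem (A : Subring (LaurentSeries K1)) {x : LaurentSeries K1} (hx : x ∈ A)
    (p : Polynomial ℤ) :
    Polynomial.eval₂ (Int.castRingHom (LaurentSeries K1)) x p ∈ A := by
  have h := Polynomial.hom_eval₂ p (Int.castRingHom ↥A) A.subtype ⟨x, hx⟩
  have e : A.subtype.comp (Int.castRingHom ↥A) = Int.castRingHom (LaurentSeries K1) :=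
    RingHom.ext_int _ _
  rw [e] at h
  have h' : Polynomial.eval₂ (Int.castRingHom (LaurentSeries K1)) x p
      = A.subtype (Polynomial.eval₂ (Int.castRingHom ↥A) ⟨x, hx⟩ p) := h.symm
  rw [h']
  exact (Polynomial.eval₂ (Int.castRingHom ↥A) ⟨x, hx⟩ p).2

/-- `B(h) · w = 9^e` with `w` a polynomial in `h` and `j` -/
theorem S36E1H9_bez_eval (A : Subring (LaurentSeries K1))
    (hh : S36AUX_hK K1 S36A9_u ∈ A) (hj : jqModC K1 ∈ A) :
    ∃ (w : LaurentSeries K1) (e : ℕ), w ∈ A ∧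
      S36A9_BE (S36AUX_hK K1 S36A9_u) * w = (9 : LaurentSeries K1) ^ e := by
  obtain ⟨U, V, e, hUV⟩ := S36A9G_bez
  let φ : Polynomial ℤ →+* LaurentSeries K1 :=
    Polynomial.eval₂RingHom (Int.castRingHom (LaurentSeries K1)) (S36AUX_hK K1 S36A9_u)
  have hX : φ Polynomial.X = S36AUX_hK K1 S36A9_u := Polynomial.eval₂_X _ _
  have ha : φ S36A9_a = S36A9_aE (S36AUX_hK K1 S36A9_u) := by
    rw [S36A9_a, S36A9G_aE_map, hX]
  have hB : φ S36A9_B = S36A9_BE (S36AUX_hK K1 S36A9_u) := by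
    rw [S36A9_B, S36A9G_BE_map, hX]
  have h1 := congrArg φ hUV
  rw [map_add, map_mul, map_mul, map_pow, ha, hB] at h1
  have h9 : φ (Polynomial.C (((9 : ℕ) : ℤ) ^ e)) = (9 : LaurentSeries K1) ^ e := by
    show Polynomial.eval₂ _ _ _ = _
    rw [Polynomial.eval₂_C]
    simp
  rw [h9] at h1
  refine ⟨φ U * jqModC K1 + φ V, e, ?_, ?_⟩
  · exact A.add_mem (A.mul_mem (S36E1H9_eval₂_mem A hh U) hj) (S36E1H9_eval₂_mem A hh V)
  · have hrel := S36A9_relK K1
    linear_combination h1 + φ U * hrel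

end Integral

variable {O K1 k : Type} [CommRing O] [IsDomain O] [IsDiscreteValuationRing O] [Field K1]
  [CharZero K1] [Algebra O K1] [IsFractionRing O K1] [Field k] [IsAlgClosed k]
  (ρ : O →+* k) (hρ : ∀ x : O, ρ x = 0 ↔ x ∈ IsLocalRing.maximalIdeal O) (N : ℕ) [NeZero N]

/-- `j` is in every finite chart -/
theorem S36E1H9_j_mem (M : ℕ) : jqModC K1 ∈ A0L O K1 M := by
  refine mem_icl.mpr ⟨?_, jqModC_mem_full K1 M⟩
  have hx' : jqModC K1 ∈ adj (OL O K1) (jqModC K1) :=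
    Subring.subset_closure (Or.inr rfl)
  exact isIntegral_algebraMap (R := adj (OL O K1) (jqModC K1)) (A := LaurentSeries K1)
    (x := ⟨jqModC K1, hx'⟩)

/-- `h ∈ A0L` at every level divisible by `9` -/
theorem S36E1H9_h_mem (M : ℕ) [NeZero M] (h9 : 9 ∣ M) :
    S36AUX_hK K1 S36A9_u ∈ A0L O K1 M := by
  refine mem_icl.mpr ⟨?_, ?_⟩
  · have hj : jqModC K1 ∈ adj (OL O K1) (jqModC K1) :=
      Subring.subset_closure (Or.inr rfl)
    have hP := S36A9G_P_monic_aux (⟨jqModC K1, hj⟩ : ↥(adj (OL O K1) (jqModC K1)))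
    refine ⟨S36A9G_P (⟨jqModC K1, hj⟩ : ↥(adj (OL O K1) (jqModC K1))), hP.1, ?_⟩
    rw [S36A9G_P_eval₂]
    have e : (algebraMap ↥(adj (OL O K1) (jqModC K1)) (LaurentSeries K1))
        (⟨jqModC K1, hj⟩ : ↥(adj (OL O K1) (jqModC K1))) = jqModC K1 := rfl
    rw [e, S36A9_relK K1, sub_self]
  · exact Fermat.Agent.S36_helper21_HLOCX.S36HX_mem S36AUX_nineData K1 M h9

/-- **E1 for the Hauptmodul `h = (η(τ)/η(9τ))³` of level `9`.** -/
theorem S36E1H9_main [NeZero (N * 3)] (hρs : Function.Surjective ρ)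
    (emb : K1 →+* AlgebraicClosure ℚ)
    (S : Setup (OL O K1) (πL O K1 ρ hρ) (jqModC K1) (F1L K1 N) (VL O K1 ρ hρ N)
      (A0L O K1 N) (AinfL O K1 N))
    (h3N : 3 ∣ N) (h3 : IsUnit (3 : O)) (w : O) (hw : w ^ 2 + w + 1 = 0)
    (hπ : πL O K1 ρ hρ ∈ A0L O K1 (N * 3))
    (m : Ideal ↥(A0L O K1 (N * 3))) (hm : m.IsMaximal)
    (hπm : (⟨πL O K1 ρ hρ, hπ⟩ : ↥(A0L O K1 (N * 3))) ∈ m) :
    ∃ (a : ↥(OL O K1))
      (hA : S36AUX_hK K1 S36A9_u - (a : LaurentSeries K1) ∈ A0L O K1 (N * 3)),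
      ¬ (⟨πL O K1 ρ hρ, S.π_mem⟩ : ↥(OL O K1)) ∣ a * (a ^ 2 + 9 * a + 27) ∧
      (⟨S36AUX_hK K1 S36A9_u - (a : LaurentSeries K1), hA⟩ : ↥(A0L O K1 (N * 3))) ∈ m ∧
      ∀ y ∈ m, ∃ s, s ∉ m ∧ ∃ α β : ↥(A0L O K1 (N * 3)),
        s * y = α * (⟨πL O K1 ρ hρ, hπ⟩ : ↥(A0L O K1 (N * 3)))
          + β * (⟨S36AUX_hK K1 S36A9_u - (a : LaurentSeries K1), hA⟩ :
            ↥(A0L O K1 (N * 3))) := by
  classical
  haveI hdvr : IsDiscreteValuationRing ↥(OL O K1) := S.dvr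
  have hπirr : Irreducible (⟨πL O K1 ρ hρ, S.π_mem⟩ : ↥(OL O K1)) := S.π_irr S.π_mem
  have hpr := hπirr.prime
  set ϖ : ↥(OL O K1) := ⟨πL O K1 ρ hρ, S.π_mem⟩ with hϖ
  -- units of `OL`
  have hunit : ∀ x : ↥(OL O K1), ¬ ϖ ∣ x → IsUnit x := by
    intro x hx
    by_contra hnu
    have h1 : x ∈ IsLocalRing.maximalIdeal ↥(OL O K1) :=
      (IsLocalRing.mem_maximalIdeal x).mpr hnu
    rw [hπirr.maximalIdeal_eq, Ideal.mem_span_singleton] at h1
    exact hx h1
  let e := equivOL O K1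
  have h3' : IsUnit (3 : ↥(OL O K1)) := by
    have := h3.map (e : O →+* ↥(OL O K1))
    rwa [map_ofNat] at this
  have h9' : IsUnit (9 : ↥(OL O K1)) := by
    have : (9 : ↥(OL O K1)) = 3 ^ 2 := by norm_num
    rw [this]
    exact h3'.pow 2
  have h27' : IsUnit (27 : ↥(OL O K1)) := by
    have : (27 : ↥(OL O K1)) = 3 ^ 3 := by norm_num
    rw [this]
    exact h3'.pow 3
  have hnd9 : ¬ ϖ ∣ (9 : ↥(OL O K1)) := fun hd =>
    hπirr.not_isUnit (isUnit_of_dvd_unit hd h9')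
  -- the Hauptmodul and the Hesse coordinate
  set h : LaurentSeries K1 := S36AUX_hK K1 S36A9_u with hh_def
  have h9N : 9 ∣ N * 3 := by
    obtain ⟨c, hc⟩ := h3N
    exact ⟨c, by rw [hc]; ring⟩
  have hh0 : h ≠ 0 := S36A9_hK_ne K1
  have hhF : h ∈ modularFunctionFieldFullC K1 (N * 3) :=
    Fermat.Agent.S36_helper21_HLOCX.S36HX_mem S36AUX_nineData K1 (N * 3) h9N
  set t : LaurentSeries K1 := HahnSeries.ofPowerSeries ℤ K1 (S36A9T_ser K1) with ht_def
  have ht : t * h = h + 9 := S36A9T_ser_mul K1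
  have htF : t ∈ modularFunctionFieldFullC K1 (N * 3) :=
    S36A9T_mem (modularFunctionFieldFullC K1 (N * 3)) hhF t ht
  have hrel : 27 * (t * (t ^ 3 + 8)) ^ 3 = qExpand K1 3 (jqModC K1) * (t ^ 3 - 1) ^ 3 :=
    S36A9_hesse K1 t ht
  have htk : t.coeff 1 ≠ 0 := by
    rw [S36A9T_coeff_one t ht]
    norm_num
  obtain ⟨t₀, htA, hBd, h1, h2''⟩ := S36E1_mu ρ hρ N hρs emb S h3N h3 w hw t htF hrel 1
    (by norm_num) htk hπ m hm hπm
  -- `t₀ - 1` is a unit
  have hnd1 : ¬ ϖ ∣ (t₀ ^ 3 - 1) := fun hd => hBd (Dvd.dvd.pow hd (by norm_num))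
  have hnd0 : ¬ ϖ ∣ (t₀ - 1) := by
    intro hd
    apply hnd1
    have e1 : t₀ ^ 3 - 1 = (t₀ - 1) * (t₀ ^ 2 + t₀ + 1) := by ring
    rw [e1]
    exact Dvd.dvd.mul_right hd _
  obtain ⟨v, hv⟩ := (hunit (t₀ - 1) hnd0).exists_right_inv
  -- in `L`
  have hvL : ((t₀ : LaurentSeries K1) - 1) * (v : LaurentSeries K1) = 1 := by
    have := congrArg (OL O K1).subtype hv
    simp only [map_mul, map_sub, map_one] at this
    exact this
  have h9c : ((9 : ↥(OL O K1)) : LaurentSeries K1) = 9 := by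
    have := map_ofNat (OL O K1).subtype 9
    exact this
  have hcoe_a : (((9 : ↥(OL O K1)) * v : ↥(OL O K1)) : LaurentSeries K1)
      = 9 * (v : LaurentSeries K1) := by
    have := map_mul (OL O K1).subtype (9 : ↥(OL O K1)) v
    rw [← h9c]
    exact this
  have hdiff : h - (((9 : ↥(OL O K1)) * v : ↥(OL O K1)) : LaurentSeries K1)
      = -(h * (v : LaurentSeries K1)) * (t - (t₀ : LaurentSeries K1)) := by
    rw [hcoe_a]
    linear_combination (v : LaurentSeries K1) * ht - h * hvL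
  have hback : t - (t₀ : LaurentSeries K1)
      = -(h⁻¹ * ((t₀ : LaurentSeries K1) - 1))
        * (h - (((9 : ↥(OL O K1)) * v : ↥(OL O K1)) : LaurentSeries K1)) := by
    rw [hdiff]
    have e1 : -(h⁻¹ * ((t₀ : LaurentSeries K1) - 1))
        * (-(h * (v : LaurentSeries K1)) * (t - (t₀ : LaurentSeries K1)))
        = (h⁻¹ * h) * ((((t₀ : LaurentSeries K1) - 1)) * (v : LaurentSeries K1))
          * (t - (t₀ : LaurentSeries K1)) := by ring
    rw [e1, inv_mul_cancel₀ hh0, hvL, one_mul, one_mul]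
  -- memberships in the chart
  have hOA := S36E1_OL_le_A0L (O := O) (K1 := K1) (N * 3)
  have hhA : h ∈ A0L O K1 (N * 3) := S36E1H9_h_mem (O := O) (K1 := K1) (N * 3) h9N
  have hjA : jqModC K1 ∈ A0L O K1 (N * 3) := S36E1H9_j_mem (O := O) (K1 := K1) (N * 3)
  have hvA : (v : LaurentSeries K1) ∈ A0L O K1 (N * 3) := hOA v.2
  have ht0A : (t₀ : LaurentSeries K1) ∈ A0L O K1 (N * 3) := hOA t₀.2
  have h9invA : ((9 : LaurentSeries K1))⁻¹ ∈ A0L O K1 (N * 3) := by
    obtain ⟨z, hz⟩ := h9'.exists_right_inv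
    have hzL : (9 : LaurentSeries K1) * (z : LaurentSeries K1) = 1 := by
      have := congrArg (OL O K1).subtype hz
      rw [map_mul, map_one] at this
      rw [← h9c]
      exact this
    have : ((9 : LaurentSeries K1))⁻¹ = (z : LaurentSeries K1) :=
      inv_eq_of_mul_eq_one_right hzL
    rw [this]
    exact hOA z.2
  have hhinvA : h⁻¹ ∈ A0L O K1 (N * 3) := by
    obtain ⟨ww, ee, hwA, hwe⟩ := S36E1H9_bez_eval (K1 := K1) (A0L O K1 (N * 3)) hhA hjA
    have h9ne : (9 : LaurentSeries K1) ≠ 0 := by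
      intro h0
      have hcz : CharZero (LaurentSeries K1) :=
        charZero_of_injective_ringHom (HahnSeries.C_injective (Γ := ℤ) (R := K1))
      norm_num at h0
    have e1 : h⁻¹ = h ^ 8 * (h ^ 2 + 9 * h + 27) * ww * ((9 : LaurentSeries K1))⁻¹ ^ ee := by
      have hBE : S36A9_BE h = h * (h ^ 8 * (h ^ 2 + 9 * h + 27)) := by
        simp only [S36A9_BE]; ring
      rw [hBE] at hwe
      refine inv_eq_of_mul_eq_one_right ?_
      have e2 : h * (h ^ 8 * (h ^ 2 + 9 * h + 27) * ww * ((9 : LaurentSeries K1))⁻¹ ^ ee)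
          = (h * (h ^ 8 * (h ^ 2 + 9 * h + 27)) * ww) * ((9 : LaurentSeries K1))⁻¹ ^ ee := by
        ring
      rw [e2, hwe, ← mul_pow, mul_inv_cancel₀ h9ne, one_pow]
    rw [e1]
    refine Subring.mul_mem _ (Subring.mul_mem _ (Subring.mul_mem _ (Subring.pow_mem _ hhA 8)
      ?_) hwA) (Subring.pow_mem _ h9invA ee)
    have h9A : (9 : LaurentSeries K1) ∈ A0L O K1 (N * 3) := by
      have := hOA (9 : ↥(OL O K1)).2
      rwa [h9c] at this
    have h27A : (27 : LaurentSeries K1) ∈ A0L O K1 (N * 3) := by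
      have h27c : ((27 : ↥(OL O K1)) : LaurentSeries K1) = 27 :=
        map_ofNat (OL O K1).subtype 27
      have := hOA (27 : ↥(OL O K1)).2
      rwa [h27c] at this
    exact Subring.add_mem _ (Subring.add_mem _ (Subring.pow_mem _ hhA 2)
      (Subring.mul_mem _ h9A hhA)) h27A
  have hc1A : -(h * (v : LaurentSeries K1)) ∈ A0L O K1 (N * 3) :=
    Subring.neg_mem _ (Subring.mul_mem _ hhA hvA)
  have hc2A : -(h⁻¹ * ((t₀ : LaurentSeries K1) - 1)) ∈ A0L O K1 (N * 3) :=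
    Subring.neg_mem _ (Subring.mul_mem _ hhinvA
      (Subring.sub_mem _ ht0A (Subring.one_mem _)))
  have hA : h - (((9 : ↥(OL O K1)) * v : ↥(OL O K1)) : LaurentSeries K1)
      ∈ A0L O K1 (N * 3) := by
    rw [hdiff]
    exact Subring.mul_mem _ hc1A htA
  have hprod : (⟨h - (((9 : ↥(OL O K1)) * v : ↥(OL O K1)) : LaurentSeries K1), hA⟩ :
      ↥(A0L O K1 (N * 3)))
      = ⟨-(h * (v : LaurentSeries K1)), hc1A⟩ * ⟨t - (t₀ : LaurentSeries K1), htA⟩ :=
    Subtype.ext hdiff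
  have hback' : (⟨t - (t₀ : LaurentSeries K1), htA⟩ : ↥(A0L O K1 (N * 3)))
      = ⟨-(h⁻¹ * ((t₀ : LaurentSeries K1) - 1)), hc2A⟩ *
        ⟨h - (((9 : ↥(OL O K1)) * v : ↥(OL O K1)) : LaurentSeries K1), hA⟩ :=
    Subtype.ext hback
  refine ⟨(9 : ↥(OL O K1)) * v, hA, ?_, ?_, ?_⟩
  · -- non-divisibility
    set a : ↥(OL O K1) := (9 : ↥(OL O K1)) * v with ha
    have hat : a * (t₀ - 1) = 9 := by
      rw [ha]
      linear_combination (9 : ↥(OL O K1)) * hv
    have hnda : ¬ ϖ ∣ a := by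
      intro hd
      apply hnd9
      rw [← hat]
      exact Dvd.dvd.mul_right hd _
    have hkey : a ^ 3 * (t₀ ^ 3 - 1) = 27 * (a ^ 2 + 9 * a + 27) := by
      have e1 : a * t₀ = a + 9 := by linear_combination hat
      have e2 : a ^ 3 * (t₀ ^ 3 - 1) = (a * t₀) ^ 3 - a ^ 3 := by ring
      rw [e2, e1]
      ring
    intro hdvd
    rcases hpr.dvd_or_dvd hdvd with h4 | h4
    · exact hnda h4
    · have h5 : ϖ ∣ a ^ 3 * (t₀ ^ 3 - 1) := by
        rw [hkey]
        exact Dvd.dvd.mul_left h4 _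
      rcases hpr.dvd_or_dvd h5 with h6 | h6
      · exact hnda (hpr.dvd_of_dvd_pow h6)
      · exact hnd1 h6
  · rw [hprod]
    exact m.mul_mem_left _ h1
  · intro y hy
    obtain ⟨s, hs, α, β, hab⟩ := h2'' y hy
    refine ⟨s, hs, α, β * ⟨-(h⁻¹ * ((t₀ : LaurentSeries K1) - 1)), hc2A⟩, ?_⟩
    rw [hab, hback']
    ring

end Fermat.Agent.S36_helper24_E1H9
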