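import Mathlib
import Fermat.Agent.S36_helper7_E1H9
import Fermat.Agent.S18_helper14_BLOCKB
import Fermat.Agent.S36_helper23_BCPLUG

/-!
# S36, GEO36 piece E1K (helper24): E1 at the concrete carriers, both auxiliary levels

helper7's landed `S36E1_h4` / `S36E1_h9` (vocabulary `OL / A0L / πL`) transported to the concrete
carriers `S18K_O / S18K_A0 / S18K_π` of the integrator, with every input discharged from
`hA : A.LiesOverPrime q` and `h : S18K_Admissible A K1 q`: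

* `S36E1K_four`: `q` odd, `4 ∣ N'`, `¬ q ∣ N'`: every maximal ideal `m ∋ π` of the finite chart
  `S18K_A0 A K1 N'` contains `h - x0` for a constant `x0 ∈ S18K_O A K1`, and `m` is generated by
  `π` and `h - x0` locally at `m`; `h = S36AUX_hK K1 S36A4_u` (helper8's datum of level `4`).
* `S36E1K_nine`: `q = 2`, `9 ∣ N'`: the same for `h = S36AUX_hK K1 S36A9_u` (level `9`).
* `S36E1K_main`: uniform in `q`: there is a datum `D : S36AUX_Data (S36BC_aux q)` with E1 at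
  every level `N'` divisible by `S36BC_aux q` and prime to `q`.
* `S36E1K_main_comap`: the same at the contraction `m.comap (Subring.inclusion hle)` of a maximal
  ideal `m ∋ π` of a bigger finite chart (`S36E1K_comap_isMaximal`: the contraction is maximal,
  the bigger chart being integral over the smaller one).
-/

set_option autoImplicit false
set_option linter.unusedSectionVars false
set_option linter.style.haveILetI false
set_option linter.unusedVariables false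
set_option maxHeartbeats 1000000
set_option synthInstance.maxHeartbeats 400000

noncomputable section

open ModularCurve Fermat.Agent.S18_helper13_GAUSS Fermat.Agent.S18_helper9_CDefs
open Fermat.Agent.S18A Fermat.Agent.S18AK Fermat.Agent.S18_helper25_COREDefs
open Fermat.Agent.S18_helper12_ROOTS Fermat.Agent.S36_helper8_AUXDefs
open Fermat.Agent.S36_helper23_BCPLUG

namespace Fermat.Agent.S36_helper24_E1K

variable (A : ValuationSubring (AlgebraicClosure ℚ))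
  (K1 : IntermediateField ℚ (AlgebraicClosure ℚ))

/-- the E1 property of a coordinate `x` at a maximal ideal `m` of the finite chart of level
`N'`: `x - x0 ∈ m` for a constant `x0`, and `m` is generated by `π` and `x - x0` locally at
`m`. -/
def S36E1K_At [IsDiscreteValuationRing (S18K_O1 A K1)] (N' : ℕ) (x : LaurentSeries K1)
    (m : Ideal ↥(S18K_A0 A K1 N')) : Prop :=
  ∃ x0 ∈ S18K_O A K1, ∃ hx : x - x0 ∈ S18K_A0 A K1 N',
    (⟨x - x0, hx⟩ : ↥(S18K_A0 A K1 N')) ∈ m ∧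
    ∀ b ∈ m, ∃ s, s ∉ m ∧ ∃ α β : ↥(S18K_A0 A K1 N'),
      (s : LaurentSeries K1) * (b : LaurentSeries K1)
        = (α : LaurentSeries K1) * S18K_π A K1 + (β : LaurentSeries K1) * (x - x0)

/-- the abstract form of `S36E1K_At` (vocabulary of `S18_helper14_ADefs`). -/
theorem S36E1K_at_of_abs [IsDiscreteValuationRing (S18K_O1 A K1)] (N' : ℕ)
    (x : LaurentSeries K1)
    (H : ∀ (hπ : πL ↥(S18K_O1 A K1) ↥K1 (S18K_res A K1) (S18K_res_eq_zero_iff A K1)
          ∈ A0L ↥(S18K_O1 A K1) ↥K1 N')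
        (m : Ideal ↥(A0L ↥(S18K_O1 A K1) ↥K1 N')), m.IsMaximal →
        (⟨πL ↥(S18K_O1 A K1) ↥K1 (S18K_res A K1) (S18K_res_eq_zero_iff A K1), hπ⟩ :
          ↥(A0L ↥(S18K_O1 A K1) ↥K1 N')) ∈ m →
        ∃ (a : ↥(OL ↥(S18K_O1 A K1) ↥K1))
          (hA : x - (a : LaurentSeries K1) ∈ A0L ↥(S18K_O1 A K1) ↥K1 N'),
          (⟨x - (a : LaurentSeries K1), hA⟩ : ↥(A0L ↥(S18K_O1 A K1) ↥K1 N')) ∈ m ∧
          ∀ y ∈ m, ∃ s, s ∉ m ∧ ∃ α β : ↥(A0L ↥(S18K_O1 A K1) ↥K1 N'),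
            s * y = α * (⟨πL ↥(S18K_O1 A K1) ↥K1 (S18K_res A K1)
                (S18K_res_eq_zero_iff A K1), hπ⟩ : ↥(A0L ↥(S18K_O1 A K1) ↥K1 N'))
              + β * (⟨x - (a : LaurentSeries K1), hA⟩ : ↥(A0L ↥(S18K_O1 A K1) ↥K1 N'))) :
    ∀ (hπ : S18K_π A K1 ∈ S18K_A0 A K1 N') (m : Ideal ↥(S18K_A0 A K1 N')), m.IsMaximal →
      (⟨S18K_π A K1, hπ⟩ : ↥(S18K_A0 A K1 N')) ∈ m → S36E1K_At A K1 N' x m := by
  unfold S36E1K_At
  rw [S18K_A0_eq, S18K_O_eq]
  intro hπ m hm hπm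
  obtain ⟨a, hA, hmem, hgen⟩ := H hπ m hm hπm
  refine ⟨(a : LaurentSeries K1), a.2, hA, hmem, ?_⟩
  intro b hb
  obtain ⟨s, hs, α, β, hab⟩ := hgen b hb
  refine ⟨s, hs, α, β, ?_⟩
  have := congrArg Subtype.val hab
  rw [S18K_π_eq]
  simpa using this

/-- **E1 at the carriers, level `4`** (`q` odd). -/
theorem S36E1K_four [IsDiscreteValuationRing (S18K_O1 A K1)] {q : ℕ} (hq : q.Prime)
    (hq2 : q ≠ 2) (hA : A.LiesOverPrime q) (h : S18K_Admissible A K1 q)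
    (N' : ℕ) [NeZero N'] (h4 : 4 ∣ N') (hqN : ¬ q ∣ N')
    (hπ : S18K_π A K1 ∈ S18K_A0 A K1 N')
    (m : Ideal ↥(S18K_A0 A K1 N')) (hm : m.IsMaximal)
    (hπm : (⟨S18K_π A K1, hπ⟩ : ↥(S18K_A0 A K1 N')) ∈ m) :
    S36E1K_At A K1 N' (S36AUX_hK K1 Fermat.Agent.S36_helper8_A4Q.S36A4_u) m := by
  revert hπ m hm hπm
  obtain ⟨N, rfl, h2N⟩ : ∃ N, N' = N * 2 ∧ 2 ∣ N := by
    obtain ⟨c, hc⟩ := h4
    exact ⟨2 * c, by rw [hc]; ring, ⟨c, rfl⟩⟩
  haveI : NeZero N := ⟨fun h0 => NeZero.ne (N * 2) (by rw [h0, Nat.zero_mul])⟩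
  haveI : Fact q.Prime := ⟨hq⟩
  haveI : CharP (IsLocalRing.ResidueField A) q :=
    Fermat.Agent.S18_helper5_BASE.S18A1_charP_residue A hq hA
  haveI : Algebra.IsAlgebraic ℚ ↥K1 :=
    Fermat.Agent.S18_helper5_BASE.S18A1_isAlgebraic_of_embedding ↥K1
      (algebraMap ↥K1 (AlgebraicClosure ℚ))
  haveI : IsAlgClosed (IsLocalRing.ResidueField A) :=
    Fermat.Agent.S18_helper27_RESALGCL.S18RES_isAlgClosed_residueField_Qbar A
  have hqN' : ¬ q ∣ N := fun hd => hqN (Dvd.dvd.mul_right hd 2)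
  have h2' : ¬ q ∣ 2 := fun hd => hq2 ((Nat.prime_dvd_prime_iff_eq hq Nat.prime_two).mp hd)
  have h2u : IsUnit (2 : ↥(S18K_O1 A K1)) := by
    have := S18RT_isUnit_natCast A K1 hq hA h2'
    exact_mod_cast this
  have S := Fermat.Agent.S18A.setup N q (O := ↥(S18K_O1 A K1)) (K1 := ↥K1) (S18K_res A K1)
    (S18K_res_eq_zero_iff A K1) hqN'
  apply S36E1K_at_of_abs
  intro hπ m hm hπm
  obtain ⟨a, hA', -, hmem, hgen⟩ := Fermat.Agent.S36_helper7_E1H.S36E1_h4 (S18K_res A K1)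
    (S18K_res_eq_zero_iff A K1) N h.res_surj (algebraMap ↥K1 (AlgebraicClosure ℚ)) S h2N h2u
    hπ m hm hπm
  exact ⟨a, hA', hmem, hgen⟩

/-- **E1 at the carriers, level `9`** (`q = 2`). -/
theorem S36E1K_nine [IsDiscreteValuationRing (S18K_O1 A K1)]
    (hA : A.LiesOverPrime 2) (h : S18K_Admissible A K1 2)
    (N' : ℕ) [NeZero N'] (h9 : 9 ∣ N') (h2N : ¬ 2 ∣ N')
    (hπ : S18K_π A K1 ∈ S18K_A0 A K1 N')
    (m : Ideal ↥(S18K_A0 A K1 N')) (hm : m.IsMaximal)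
    (hπm : (⟨S18K_π A K1, hπ⟩ : ↥(S18K_A0 A K1 N')) ∈ m) :
    S36E1K_At A K1 N' (S36AUX_hK K1 Fermat.Agent.S36_helper24_A9Q.S36A9_u) m := by
  revert hπ m hm hπm
  obtain ⟨N, rfl, h3N⟩ : ∃ N, N' = N * 3 ∧ 3 ∣ N := by
    obtain ⟨c, hc⟩ := h9
    exact ⟨3 * c, by rw [hc]; ring, ⟨c, rfl⟩⟩
  haveI : NeZero N := ⟨fun h0 => NeZero.ne (N * 3) (by rw [h0, Nat.zero_mul])⟩
  have hq : (2 : ℕ).Prime := Nat.prime_two
  haveI : Fact (2 : ℕ).Prime := ⟨hq⟩
  haveI : CharP (IsLocalRing.ResidueField A) 2 :=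
    Fermat.Agent.S18_helper5_BASE.S18A1_charP_residue A hq hA
  haveI : Algebra.IsAlgebraic ℚ ↥K1 :=
    Fermat.Agent.S18_helper5_BASE.S18A1_isAlgebraic_of_embedding ↥K1
      (algebraMap ↥K1 (AlgebraicClosure ℚ))
  haveI : IsAlgClosed (IsLocalRing.ResidueField A) :=
    Fermat.Agent.S18_helper27_RESALGCL.S18RES_isAlgClosed_residueField_Qbar A
  have hqN' : ¬ 2 ∣ N := fun hd => h2N (Dvd.dvd.mul_right hd 3)
  have h3' : ¬ 2 ∣ 3 := by norm_num
  have h3u : IsUnit (3 : ↥(S18K_O1 A K1)) := by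
    have := S18RT_isUnit_natCast A K1 hq hA h3'
    exact_mod_cast this
  obtain ⟨w, hw⟩ := S18RT_exists_cubeRoot A K1 hq h (by norm_num : (2 : ℕ) ≠ 3)
  have S := Fermat.Agent.S18A.setup N 2 (O := ↥(S18K_O1 A K1)) (K1 := ↥K1) (S18K_res A K1)
    (S18K_res_eq_zero_iff A K1) hqN'
  apply S36E1K_at_of_abs
  intro hπ m hm hπm
  exact Fermat.Agent.S36_helper7_E1H9.S36E1_h9 (S18K_res A K1)
    (S18K_res_eq_zero_iff A K1) N h.res_surj (algebraMap ↥K1 (AlgebraicClosure ℚ)) S h3N h3u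
    w hw hπ m hm hπm

/-- transport of a datum of level `r = S36BC_aux q` along the equality of levels. -/
theorem S36E1K_transport [IsDiscreteValuationRing (S18K_O1 A K1)] {q : ℕ} (r : ℕ)
    (e : S36BC_aux q = r) [NeZero r] (D : S36AUX_Data r)
    (H : ∀ (N' : ℕ) [NeZero N'], r ∣ N' → ¬ q ∣ N' →
        ∀ (hπ : S18K_π A K1 ∈ S18K_A0 A K1 N') (m : Ideal ↥(S18K_A0 A K1 N')), m.IsMaximal →
          (⟨S18K_π A K1, hπ⟩ : ↥(S18K_A0 A K1 N')) ∈ m →
          S36E1K_At A K1 N' (S36AUX_hK K1 D.u) m) :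
    ∃ D : @S36AUX_Data (S36BC_aux q) ⟨S36BC_aux_ne_zero q⟩,
      ∀ (N' : ℕ) [NeZero N'], S36BC_aux q ∣ N' → ¬ q ∣ N' →
        ∀ (hπ : S18K_π A K1 ∈ S18K_A0 A K1 N') (m : Ideal ↥(S18K_A0 A K1 N')), m.IsMaximal →
          (⟨S18K_π A K1, hπ⟩ : ↥(S18K_A0 A K1 N')) ∈ m →
          S36E1K_At A K1 N' (S36AUX_hK K1
            (@S36AUX_Data.u (S36BC_aux q) ⟨S36BC_aux_ne_zero q⟩ D)) m := by
  subst e
  exact ⟨D, H⟩

/-- **E1 at the carriers, uniform in `q`**: a datum of level `S36BC_aux q` with E1 at every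
level divisible by `S36BC_aux q` and prime to `q`. -/
theorem S36E1K_main [IsDiscreteValuationRing (S18K_O1 A K1)] {q : ℕ} (hq : q.Prime)
    (hA : A.LiesOverPrime q) (h : S18K_Admissible A K1 q) :
    ∃ D : @S36AUX_Data (S36BC_aux q) ⟨S36BC_aux_ne_zero q⟩,
      ∀ (N' : ℕ) [NeZero N'], S36BC_aux q ∣ N' → ¬ q ∣ N' →
        ∀ (hπ : S18K_π A K1 ∈ S18K_A0 A K1 N') (m : Ideal ↥(S18K_A0 A K1 N')), m.IsMaximal →
          (⟨S18K_π A K1, hπ⟩ : ↥(S18K_A0 A K1 N')) ∈ m →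
          S36E1K_At A K1 N' (S36AUX_hK K1
            (@S36AUX_Data.u (S36BC_aux q) ⟨S36BC_aux_ne_zero q⟩ D)) m := by
  by_cases hq2 : q = 2
  · subst hq2
    exact S36E1K_transport A K1 9 S36BC_aux_two Fermat.Agent.S36_helper24_A9Q.S36AUX_nineData
      (fun N' _ h9 h2N hπ m hm hπm => S36E1K_nine A K1 hA h N' h9 h2N hπ m hm hπm)
  · exact S36E1K_transport A K1 4 (S36BC_aux_odd hq2)
      Fermat.Agent.S36_helper8_A4Q.S36AUX_fourData
      (fun N' _ h4 hqN hπ m hm hπm => S36E1K_four A K1 hq hq2 hA h N' h4 hqN hπ m hm hπm)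




section Comap

variable [IsDiscreteValuationRing (S18K_O1 A K1)]

/-- `O[j]` lies in every finite chart. -/
theorem S36E1K_adj_le (N' : ℕ) [NeZero N'] :
    adj (S18K_O A K1) (S18K_j K1) ≤ S18K_A0 A K1 N' := by
  intro a ha
  refine ⟨isIntegral_algebraMap (R := adj (S18K_O A K1) (S18K_j K1)) (x := ⟨a, ha⟩), ?_⟩
  have hle : adj (S18K_O A K1) (S18K_j K1) ≤ (S18K_F1 K1 N').toSubring := by
    unfold adj
    rw [Subring.closure_le]
    rintro y (hy | hy)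
    · rw [S18K_O_eq] at hy
      exact OL_le_F1L (O := ↥(S18K_O1 A K1)) (K1 := ↥K1) N' hy
    · rw [Set.mem_singleton_iff] at hy
      rw [hy]
      exact jq_mem_F1L (K1 := ↥K1) N'
  exact hle ha

/-- a finite chart is integral over every smaller finite chart. -/
theorem S36E1K_inclusion_isIntegral (N' N : ℕ) [NeZero N']
    (hle : S18K_A0 A K1 N' ≤ S18K_A0 A K1 N) :
    (Subring.inclusion hle).IsIntegral := by
  intro a
  have ha : IsIntegral (adj (S18K_O A K1) (S18K_j K1)) (a : LaurentSeries K1) := a.2.1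
  obtain ⟨p, hp, hpe⟩ := ha
  refine ⟨p.map (Subring.inclusion (S36E1K_adj_le A K1 N')), hp.map _, ?_⟩
  have hcomp : ((S18K_A0 A K1 N).subtype.comp (Subring.inclusion hle)).comp
      (Subring.inclusion (S36E1K_adj_le A K1 N'))
      = algebraMap ↥(adj (S18K_O A K1) (S18K_j K1)) (LaurentSeries K1) :=
    RingHom.ext (fun x => rfl)
  have h1 : (S18K_A0 A K1 N).subtype (Polynomial.eval₂ (Subring.inclusion hle) a
      (p.map (Subring.inclusion (S36E1K_adj_le A K1 N'))))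
      = Polynomial.eval₂ ((S18K_A0 A K1 N).subtype.comp (Subring.inclusion hle))
          ((S18K_A0 A K1 N).subtype a)
          (p.map (Subring.inclusion (S36E1K_adj_le A K1 N'))) :=
    Polynomial.hom_eval₂ _ (Subring.inclusion hle) (S18K_A0 A K1 N).subtype a
  have h1' : Polynomial.eval₂ ((S18K_A0 A K1 N).subtype.comp (Subring.inclusion hle))
          ((S18K_A0 A K1 N).subtype a)
          (p.map (Subring.inclusion (S36E1K_adj_le A K1 N')))
      = Polynomial.eval₂ (((S18K_A0 A K1 N).subtype.comp (Subring.inclusion hle)).comp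
          (Subring.inclusion (S36E1K_adj_le A K1 N'))) ((S18K_A0 A K1 N).subtype a) p :=
    Polynomial.eval₂_map _ _ _
  rw [hcomp] at h1'
  have h2 : (S18K_A0 A K1 N).subtype (Polynomial.eval₂ (Subring.inclusion hle) a
      (p.map (Subring.inclusion (S36E1K_adj_le A K1 N')))) = 0 := h1.trans (h1'.trans hpe)
  exact Subtype.ext h2

/-- the contraction of a maximal ideal of a finite chart to a smaller finite chart is
maximal. -/
theorem S36E1K_comap_isMaximal (N' N : ℕ) [NeZero N']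
    (hle : S18K_A0 A K1 N' ≤ S18K_A0 A K1 N)
    (m : Ideal ↥(S18K_A0 A K1 N)) (hm : m.IsMaximal) :
    (m.comap (Subring.inclusion hle)).IsMaximal :=
  haveI := hm
  Ideal.isMaximal_comap_of_isIntegral_of_isMaximal' (Subring.inclusion hle)
    (S36E1K_inclusion_isIntegral A K1 N' N hle) m

/-- **E1 at the contraction of a maximal ideal of a bigger chart, uniform in `q`**: the form
consumed at a crossing point `m` of the chart of level `N` (`N' ∣ N`, `S36BC_aux q ∣ N'`,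
`¬ q ∣ N'`). -/
theorem S36E1K_main_comap {q : ℕ} (hq : q.Prime)
    (hA : A.LiesOverPrime q) (h : S18K_Admissible A K1 q) :
    ∃ D : @S36AUX_Data (S36BC_aux q) ⟨S36BC_aux_ne_zero q⟩,
      ∀ (N' N : ℕ) [NeZero N'], S36BC_aux q ∣ N' → ¬ q ∣ N' →
        ∀ (hle : S18K_A0 A K1 N' ≤ S18K_A0 A K1 N)
          (hπ : S18K_π A K1 ∈ S18K_A0 A K1 N) (m : Ideal ↥(S18K_A0 A K1 N)), m.IsMaximal →
          (⟨S18K_π A K1, hπ⟩ : ↥(S18K_A0 A K1 N)) ∈ m →
          S36E1K_At A K1 N' (S36AUX_hK K1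
            (@S36AUX_Data.u (S36BC_aux q) ⟨S36BC_aux_ne_zero q⟩ D))
            (m.comap (Subring.inclusion hle)) := by
  obtain ⟨D, hD⟩ := S36E1K_main A K1 hq hA h
  refine ⟨D, ?_⟩
  intro N' N _ hr hqN hle hπ m hm hπm
  have hπO : S18K_π A K1 ∈ S18K_O A K1 := by
    rw [S18K_O_eq]
    exact πL_mem_OL (S18K_res A K1) (S18K_res_eq_zero_iff A K1)
  have hπ' : S18K_π A K1 ∈ S18K_A0 A K1 N' :=
    S36E1K_adj_le A K1 N' (Subring.subset_closure (Or.inl hπO))
  have hmax := S36E1K_comap_isMaximal A K1 N' N hle m hm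
  have e : Subring.inclusion hle ⟨S18K_π A K1, hπ'⟩ = ⟨S18K_π A K1, hπ⟩ := Subtype.ext rfl
  have hπm' : (⟨S18K_π A K1, hπ'⟩ : ↥(S18K_A0 A K1 N')) ∈ m.comap (Subring.inclusion hle) := by
    rw [Ideal.mem_comap, e]
    exact hπm
  exact hD N' hr hqN hπ' (m.comap (Subring.inclusion hle)) hmax hπm'

end Comap

end Fermat.Agent.S36_helper24_E1K
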