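import Fermat.Agent.S36_helper25_MGLUE
import Fermat.Agent.S36_helper21_UNRAM
import Fermat.Agent.S36_helper26_DIV
import Fermat.Agent.S36_helper26_FUN
import Fermat.Agent.S36_helper4_XA
import Fermat.Agent.S36_helper23_BCPLUG

/-!
# S36, GEO36 (a): the final plug of the H90 descent, and (GEO36) from the key statement

* `S36MG_xaDesc` : **helper4's contract `S36XA_Desc M A q`, NO hypothesis left**
  ((U) helper21, (D) + (F) helper26, (C) helper12, (M)-GLUE helper25);
* `S36MG_geo_of_key` : helper4's Part I with the descent plugged: the key statement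
  `S36XA_KeyK1 M' q lam c hq hqM A` gives (GEO36) `S36C_Geo` at the level `M' * q * q`;
* `S36MG_geoAt_of_key` : the same in the owner's form `S36C_GeoAt M' q lam`;
* `S36MG_geoInput_of_key` : **`S36C_GeoInput` from the key statement at the auxiliary levels
  `N' * S36BC_aux q`** (helper23's descent plugged) - after this file (GEO36) is exactly the key
  statement of X-D36 Part II at the auxiliary levels.
-/

set_option autoImplicit false
set_option linter.style.haveILetI false
set_option linter.unusedSectionVars false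
set_option linter.unusedVariables false

open AlgebraicCurve ModularCurve IntermediateField

namespace Fermat.Agent.S36_helper25_DESCPLUG

noncomputable section

open Fermat.Agent.S36_helper25_MGLUE Fermat.Agent.S36_helper4_XADefs
  Fermat.Agent.S36_helper4_XA Fermat.Agent.S36_helper18_Contracts
  Fermat.Agent.S36_helper21_UNRAM Fermat.Agent.S36_helper23_BCPLUG
  Fermat.Agent.S35_helper6_PUSH

local notation "Qb" => AlgebraicClosure ℚ
local notation "GQ" => (AlgebraicClosure ℚ ≃ₐ[ℚ] AlgebraicClosure ℚ)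

/-- **the H90 descent, no hypothesis left**: an inertia-fixed torsion class of `J₀(M)` is
represented by a divisor and a function over the inertia field. -/
theorem S36MG_xaDesc (M : ℕ) [NeZero M] {q : ℕ} (hq : q.Prime) (A : ValuationSubring Qb)
    (hA : A.LiesOverPrime q) : S36XA_Desc M A q :=
  S36MG_desc_inertiaField M A q (S36DS_admissible_E hq A hA)
    (fun x hx => Fermat.Agent.S36_helper26_DIV.S36DS_divisor M _ x hx)
    (fun g hg hdiv => Fermat.Agent.S36_helper26_FUN.S36DS_function M _ g hg hdiv)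

/-- Part I with the descent plugged: the key statement gives (GEO36) for one `A`. -/
theorem S36MG_geo_of_key (M' q lam c : ℕ) [NeZero M'] [NeZero q] [NeZero (M' * q)]
    [NeZero (M' * q * q)] [NeZero (q ^ 2)] (hq : q.Prime) (hqM : ¬ q ∣ M') (hlam : lam.Prime)
    (A : ValuationSubring Qb) (hA : A.LiesOverPrime q)
    (hKey : S36XA_KeyK1 M' q lam c hq hqM A) :
    S36C_Geo (M' * q * q) lam A (S35PU_alpha (M' * q) q) (S35PU_beta (M' * q) q) c :=
  S36XA_geo M' q lam c hq hqM hlam A (S36MG_xaDesc (M' * q * q) hq A hA) hKey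

/-- the same in the owner's form. -/
theorem S36MG_geoAt_of_key (M' q lam : ℕ) [NeZero M'] [NeZero q] [NeZero (M' * q)]
    [NeZero (M' * q * q)] [NeZero (q ^ 2)] (hq : q.Prime) (hqM : ¬ q ∣ M') (hlam : lam.Prime)
    (hKey : ∀ A : ValuationSubring Qb, A.LiesOverPrime q →
      ∃ c : ℕ, S36XA_KeyK1 M' q lam c hq hqM A) :
    S36C_GeoAt M' q lam := by
  intro A hA
  obtain ⟨c, hc⟩ := hKey A hA
  exact ⟨c, S36MG_geo_of_key M' q lam c hq hqM hlam A hA hc⟩

/-- `q ∤ N' * S36BC_aux q`. -/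
theorem S36MG_not_dvd_aux {N' q : ℕ} (hq : q.Prime) (hqN : ¬ q ∣ N') :
    ¬ q ∣ N' * S36BC_aux q := fun h =>
  (hq.dvd_mul.1 h).elim hqN (S36BC_aux_not_dvd q hq)

theorem S36MG_aux_mul_ne_zero (N' q : ℕ) [NeZero N'] : N' * S36BC_aux q ≠ 0 :=
  mul_ne_zero (NeZero.ne N') (S36BC_aux_ne_zero q)

/-- **(GEO36) from the key statement at the auxiliary levels** `N' * S36BC_aux q`
(`= N' * 4` for `q` odd, `N' * 9` for `q = 2`). -/
theorem S36MG_geoInput_of_key
    (hKey : ∀ (N' q lam : ℕ) [NeZero N'] [NeZero q] (hq : q.Prime) (hlam : lam.Prime)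
      (hqlam : q ≠ lam) (hlam2 : lam ≠ 2) (hqN : ¬ q ∣ N') (A : ValuationSubring Qb)
      (hA : A.LiesOverPrime q),
      ∃ c : ℕ, @S36XA_KeyK1 (N' * S36BC_aux q) q lam c ⟨S36MG_aux_mul_ne_zero N' q⟩ _
        ⟨mul_ne_zero (S36MG_aux_mul_ne_zero N' q) hq.ne_zero⟩
        ⟨mul_ne_zero (mul_ne_zero (S36MG_aux_mul_ne_zero N' q) hq.ne_zero) hq.ne_zero⟩
        ⟨pow_ne_zero 2 hq.ne_zero⟩ hq (S36MG_not_dvd_aux hq hqN) A) :
    S36C_GeoInput := by
  refine S36BC_geoInput ?_
  intro N' q lam _ _ hq hlam hqlam hlam2 hqN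
  haveI h1 : NeZero (N' * S36BC_aux q) := ⟨S36MG_aux_mul_ne_zero N' q⟩
  haveI h2 : NeZero (N' * S36BC_aux q * q) :=
    ⟨mul_ne_zero (S36MG_aux_mul_ne_zero N' q) hq.ne_zero⟩
  haveI h3 : NeZero (N' * S36BC_aux q * q * q) :=
    ⟨mul_ne_zero (mul_ne_zero (S36MG_aux_mul_ne_zero N' q) hq.ne_zero) hq.ne_zero⟩
  haveI h4 : NeZero (q ^ 2) := ⟨pow_ne_zero 2 hq.ne_zero⟩
  exact S36MG_geoAt_of_key (N' * S36BC_aux q) q lam hq (S36MG_not_dvd_aux hq hqN) hlam
    (fun A hA => hKey N' q lam hq hlam hqlam hlam2 hqN A hA)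

end

end Fermat.Agent.S36_helper25_DESCPLUG
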