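import Mathlib
import Fermat.Agent.S35_helper6_PUSH

/-!
# S36, descent piece (g1) (helper25): pull-back `J₀(N) → J₀(M)` for `N ∣ M`, and
`push ∘ pull = degree`

* generic (function fields `F → F'` over `K`, along an algebra map `φ`):
  `S36PR_push_pull_div` : `φ_* (φ^* D) = [F' : F] • D` on divisors (from
  `SumRamificationInertia`), `S36PR_pic0 : Pic0 K F →+ Pic0 K F'` (the pull-back of divisor
  classes), `S36PR_pic0_smul` (compatibility with compatible semilinear automorphisms),
  `S36PR_push_pull` : `φ_* (φ^* x) = [F' : F] • x` on `Pic⁰`;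
* modular, over any algebraically closed `L ⊇ ℚ` and for ANY `N ∣ M`: the inclusion
  `S36PR_incl L h : F_L(N) →ₐ[L] F_L(M)`, the pull-back `S36PR_pullL` and the push-forward
  `S36PR_pushL` on `Pic⁰`, both Galois equivariant, `S36PR_pushL_pullL`;
* over `ℚ̄`: `S36PR_pull h : J₀(N) →+ J₀(M)`, `S36PR_push h : J₀(M) →+ J₀(N)`,
  `S36PR_deg h` (`= [F̄(M) : F̄(N)]`, positive), `S36PR_push_pull`,
  `S36PR_pull_smul`, `S36PR_push_smul`, and the consequence used by the descent:
  `S36PR_pull_torsion` : `n • pull x = 0 → (n * deg) • x = 0`.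
-/

set_option autoImplicit false
set_option linter.style.haveILetI false
set_option linter.unusedSectionVars false
set_option linter.unusedVariables false

open AlgebraicCurve ModularCurve IntermediateField

namespace Fermat.Agent.S36_helper25_PRGEN

noncomputable section

open Fermat.Agent.S35_helper6_PUSH

/-! ### generic: `push ∘ pull = degree` on divisors -/

section GenericAlg

variable {K F F' : Type*} [Field K] [Field F] [Field F']
  [Algebra K F] [Algebra K F'] [Algebra F F'] [IsScalarTower K F F']
  [Algebra.IsIntegral F F'] [HasPrincipalDivisors K F']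

theorem S36PR_pushforward_pullback [SumRamificationInertia K F F'] (D : Divisor K F) :
    Divisor.pushforward F (Divisor.pullback F' D) = (Module.finrank F F' : ℤ) • D := by
  induction D using Finsupp.induction with
  | zero => simp
  | single_add v n D hv hn ih =>
    rw [map_add, map_add, ih, smul_add]
    congr 1
    rw [Divisor.pullback_single, map_sum]
    have h1 : ∀ w ∈ v.fiber F',
        Divisor.pushforward F (Finsupp.single w (n * (w.ramificationIndex F : ℤ)))
          = Finsupp.single v (n * ((w.ramificationIndex F : ℤ) * (w.inertiaDeg F : ℤ))) := by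
      intro w hw
      rw [Divisor.pushforward_single, Place.mem_fiber.mp hw, mul_assoc]
    rw [Finset.sum_congr rfl h1, ← Finsupp.single_finsetSum, ← Finset.mul_sum,
      SumRamificationInertia.sum_ramificationIndex_mul_inertiaDeg (K := K) (F := F) (F' := F') v,
      Finsupp.smul_single, smul_eq_mul, mul_comm]

end GenericAlg

/-! ### generic: the pull-back on `Pic⁰` along an algebra map -/

section Generic

variable {K F F' : Type*} [Field K] [Field F] [Field F'] [Algebra K F] [Algebra K F']
variable [HasPrincipalDivisors K F'] (φ : F →ₐ[K] F') (hφ : φ.toRingHom.IsIntegral)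

/-- the sum formula `∑ e f = [F' : F]` along `φ`. -/
def S36PR_SumAlong : Prop :=
  letI := algebraAlong φ
  haveI := isScalarTower_along φ
  haveI := isIntegral_along φ hφ
  SumRamificationInertia K F F'

theorem S36PR_fundamentalIdentityAlong (hS : S36PR_SumAlong φ hφ) :
    FundamentalIdentityAlong K φ hφ := by
  letI := algebraAlong φ
  haveI := isScalarTower_along φ
  haveI := isIntegral_along φ hφ
  haveI : SumRamificationInertia K F F' := hS
  show FundamentalIdentity K F F'
  infer_instance

/-- **`φ_* (φ^* D) = [F' : F] • D`** on divisors. -/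
theorem S36PR_push_pull_div (hS : S36PR_SumAlong φ hφ) (D : Divisor K F) :
    Divisor.pushforwardAlong φ hφ (Divisor.pullbackAlong φ hφ D)
      = (finrankAlong K φ : ℤ) • D := by
  letI := algebraAlong φ
  haveI := isScalarTower_along φ
  haveI := isIntegral_along φ hφ
  haveI : SumRamificationInertia K F F' := hS
  exact S36PR_pushforward_pullback (K := K) (F := F) (F' := F') D

variable (hFI : FundamentalIdentityAlong K φ hφ)

/-- the pull-back on divisors of degree zero. -/
def S36PR_degZero : Divisor.degZero (K := K) (F := F) →+ Divisor.degZero (K := K) (F := F') :=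
  ((Divisor.pullbackAlong φ hφ).domRestrict
    (Divisor.degZero (K := K) (F := F))).codRestrict _
    (fun D => Divisor.pullbackAlong_mem_degZero φ hφ hFI D.2)

@[simp]
theorem S36PR_coe_degZero (D : Divisor.degZero (K := K) (F := F)) :
    (S36PR_degZero φ hφ hFI D : Divisor K F') = Divisor.pullbackAlong φ hφ (D : Divisor K F) :=
  rfl

/-- **the pull-back on `Pic⁰`** along a finite extension of function fields. -/
def S36PR_pic0 : Pic0 K F →+ Pic0 K F' :=
  QuotientAddGroup.map _ _ (S36PR_degZero φ hφ hFI) (by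
    rintro ⟨D, hD0⟩ hD
    simp only [AddSubgroup.mem_addSubgroupOf] at hD ⊢
    exact Divisor.isPrincipal_pullbackAlong φ hφ hD)

theorem S36PR_pic0_mk (D : Divisor.degZero (K := K) (F := F)) :
    S36PR_pic0 φ hφ hFI (Pic0.mk D) = Pic0.mk (S36PR_degZero φ hφ hFI D) :=
  rfl

/-- the pull-back commutes with compatible semilinear automorphisms. -/
theorem S36PR_pic0_smul (g : SemilinearAut K F) (g' : SemilinearAut K F')
    (h : ∀ x : F, g' • φ x = φ (g • x)) (x : Pic0 K F) :
    S36PR_pic0 φ hφ hFI (g • x) = g' • S36PR_pic0 φ hφ hFI x := by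
  obtain ⟨D, rfl⟩ := Pic0.mk_surjective x
  rw [SemilinearAut.pic0_smul_mk, S36PR_pic0_mk, S36PR_pic0_mk, SemilinearAut.pic0_smul_mk]
  congr 1
  apply Subtype.ext
  rw [S36PR_coe_degZero, SemilinearAut.coe_degZeroSMulHom, SemilinearAut.coe_degZeroSMulHom,
    S36PR_coe_degZero]
  exact Fermat.Agent.G_helper8_GALHECKE.PG11_pullbackAlong_smul φ hφ g g' h D

/-- **`φ_* (φ^* x) = [F' : F] • x`** on `Pic⁰`. -/
theorem S36PR_push_pull_pic0 (hS : S36PR_SumAlong φ hφ) (hfin : FiniteAlong K φ)
    (hN : NormFormulaAlong K φ hfin) (x : Pic0 K F) :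
    S35PU_pic0 φ hφ hfin hN (S36PR_pic0 φ hφ (S36PR_fundamentalIdentityAlong φ hφ hS) x)
      = finrankAlong K φ • x := by
  obtain ⟨D, rfl⟩ := Pic0.mk_surjective x
  rw [S36PR_pic0_mk, S35PU_pic0_mk]
  have hmk : ∀ (n : ℕ) (E : Divisor.degZero (K := K) (F := F)),
      n • Pic0.mk E = Pic0.mk (n • E) := fun n E => rfl
  rw [hmk]
  congr 1
  apply Subtype.ext
  rw [S35PU_coe_degZero, S36PR_coe_degZero, S36PR_push_pull_div φ hφ hS]
  rw [AddSubgroup.coe_nsmul, natCast_zsmul]

end Generic

/-! ### the modular pull-back and push-forward over an algebraically closed field -/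

section Modular

open Fermat.Agent.G_helper21_B0L

variable (L : Type*) [Field L] [Algebra ℚ L] [IsAlgClosed L]
variable {N M : ℕ} [NeZero N] [NeZero M] (h : N ∣ M)

omit [IsAlgClosed L] in
include h in
theorem S36PR_le : laurentBaseChange L (modularFunctionFieldFull N)
    ≤ laurentBaseChange L (modularFunctionFieldFull M) := by
  rw [laurentBaseChange, IntermediateField.adjoin_le_iff]
  rintro _ ⟨y, hy, rfl⟩
  exact coeffEmb_mem_laurentBaseChange L (full_degeneracy_le h hy)

/-- the inclusion `F_L(N) ⊆ F_L(M)` of modular function fields, for `N ∣ M`. -/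
def S36PR_incl : laurentBaseChange L (modularFunctionFieldFull N) →ₐ[L]
    laurentBaseChange L (modularFunctionFieldFull M) :=
  IntermediateField.inclusion (S36PR_le L h)

omit [IsAlgClosed L] in
@[simp]
theorem S36PR_coe_incl (x : laurentBaseChange L (modularFunctionFieldFull N)) :
    (S36PR_incl L h x : LaurentSeries L) = (x : LaurentSeries L) :=
  IntermediateField.coe_inclusion _ x

omit [IsAlgClosed L] in
/-- the degeneracy map `α` of the prelude is the inclusion. -/
theorem S36PR_incl_eq_alpha (N ℓ : ℕ) [NeZero N] [NeZero ℓ] :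
    S36PR_incl L (dvd_mul_right N ℓ) = heckeAlphaBar L N ℓ :=
  rfl

theorem S36PR_finiteAlong : FiniteAlong L (S36PR_incl L h) := by
  haveI := PG_B0L_charZero L
  haveI := PG_B0L_finiteDimensional L M
  exact Fermat.Agent.S37_helper21_B0c.S37B0_finiteAlong (S36PR_incl L h) (PG_B0L_jElt L N)
    (PG_B0L_transcendental L N) (PG_B0L_jElt L M) (PG_B0L_transcendental L M)

theorem S36PR_isIntegral : (S36PR_incl L h).toRingHom.IsIntegral :=
  Fermat.Agent.S37_helper21_B0c.S37B0_isIntegral_of_finiteAlong _ (S36PR_finiteAlong L h)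

theorem S36PR_sumAlong :
    @S36PR_SumAlong L _ _ _ _ _ _ _ (PG_B0L_hasPrincipalDivisors L M) (S36PR_incl L h)
      (S36PR_isIntegral L h) := by
  haveI := PG_B0L_charZero L
  haveI hP : HasPrincipalDivisors L (laurentBaseChange L (modularFunctionFieldFull M)) :=
    PG_B0L_hasPrincipalDivisors L M
  haveI hfN : FiniteDimensional L⟮PG_B0L_jElt L N⟯ (PG_B0L_F L N) :=
    PG_B0L_finiteDimensional L N
  letI := algebraAlong (S36PR_incl L h)
  haveI := isScalarTower_along (S36PR_incl L h)
  haveI : FiniteDimensional (laurentBaseChange L (modularFunctionFieldFull N))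
      (laurentBaseChange L (modularFunctionFieldFull M)) :=
    S36PR_finiteAlong L h
  exact Fermat.Agent.S37_helper2_SUMEF.S37B0_sumRamificationInertia L _ _ (PG_B0L_jElt L N)
    (PG_B0L_transcendental L N)

theorem S36PR_normFormula :
    NormFormulaAlong L (S36PR_incl L h) (S36PR_finiteAlong L h) := by
  haveI := PG_B0L_charZero L
  haveI hP : HasPrincipalDivisors L (laurentBaseChange L (modularFunctionFieldFull M)) :=
    PG_B0L_hasPrincipalDivisors L M
  haveI hfN : FiniteDimensional L⟮PG_B0L_jElt L N⟯ (PG_B0L_F L N) :=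
    PG_B0L_finiteDimensional L N
  letI := algebraAlong (S36PR_incl L h)
  haveI := isScalarTower_along (S36PR_incl L h)
  haveI : FiniteDimensional (laurentBaseChange L (modularFunctionFieldFull N))
      (laurentBaseChange L (modularFunctionFieldFull M)) :=
    S36PR_finiteAlong L h
  exact Fermat.Agent.S37_helper11_NORM.S37B0_pushforwardNormFormula L _ _ (PG_B0L_jElt L N)
    (PG_B0L_transcendental L N)

/-- the pull-back `Pic⁰(F_L(N)) → Pic⁰(F_L(M))`, for `N ∣ M`. -/
def S36PR_pullL :
    Pic0 L (laurentBaseChange L (modularFunctionFieldFull N)) →+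
      Pic0 L (laurentBaseChange L (modularFunctionFieldFull M)) :=
  haveI := PG_B0L_hasPrincipalDivisors L M
  S36PR_pic0 (S36PR_incl L h) (S36PR_isIntegral L h)
    (S36PR_fundamentalIdentityAlong _ _ (S36PR_sumAlong L h))

/-- the push-forward `Pic⁰(F_L(M)) → Pic⁰(F_L(N))`, for `N ∣ M`. -/
def S36PR_pushL :
    Pic0 L (laurentBaseChange L (modularFunctionFieldFull M)) →+
      Pic0 L (laurentBaseChange L (modularFunctionFieldFull N)) :=
  S35PU_pic0 (S36PR_incl L h) (S36PR_isIntegral L h) (S36PR_finiteAlong L h)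
    (S36PR_normFormula L h)

/-- helper6's `α_*` is the push-forward along the inclusion. -/
theorem S36PR_pushL_eq_alphaL (N ℓ : ℕ) [NeZero N] [NeZero ℓ] :
    S36PR_pushL L (dvd_mul_right N ℓ) = S35PU_alphaL L N ℓ :=
  rfl

omit [IsAlgClosed L] in
theorem S36PR_incl_compat (σ : L ≃ₐ[ℚ] L)
    (x : laurentBaseChange L (modularFunctionFieldFull N)) :
    arithmeticGalois (modularFunctionFieldFull M) σ • S36PR_incl L h x =
      S36PR_incl L h (arithmeticGalois (modularFunctionFieldFull N) σ • x) := by
  apply Subtype.ext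
  rw [coe_arithmeticGalois_smul, S36PR_coe_incl, S36PR_coe_incl, coe_arithmeticGalois_smul]

theorem S36PR_pullL_smul (σ : L ≃ₐ[ℚ] L)
    (x : Pic0 L (laurentBaseChange L (modularFunctionFieldFull N))) :
    S36PR_pullL L h (σ • x) = σ • S36PR_pullL L h x := by
  haveI := PG_B0L_hasPrincipalDivisors L M
  exact S36PR_pic0_smul _ _ _ (arithmeticGalois (modularFunctionFieldFull N) σ)
    (arithmeticGalois (modularFunctionFieldFull M) σ) (S36PR_incl_compat L h σ) x

theorem S36PR_pushL_smul (σ : L ≃ₐ[ℚ] L)
    (x : Pic0 L (laurentBaseChange L (modularFunctionFieldFull M))) :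
    S36PR_pushL L h (σ • x) = σ • S36PR_pushL L h x :=
  S35PU_pic0_smul _ _ _ _ (arithmeticGalois (modularFunctionFieldFull N) σ)
    (arithmeticGalois (modularFunctionFieldFull M) σ) (S36PR_incl_compat L h σ) x

/-- **`pr_* (pr^* x) = [F_L(M) : F_L(N)] • x`**. -/
theorem S36PR_pushL_pullL (x : Pic0 L (laurentBaseChange L (modularFunctionFieldFull N))) :
    S36PR_pushL L h (S36PR_pullL L h x) = finrankAlong L (S36PR_incl L h) • x := by
  haveI := PG_B0L_hasPrincipalDivisors L M
  exact S36PR_push_pull_pic0 (S36PR_incl L h) (S36PR_isIntegral L h) (S36PR_sumAlong L h)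
    (S36PR_finiteAlong L h) (S36PR_normFormula L h) x

theorem S36PR_finrankAlong_pos : 0 < finrankAlong L (S36PR_incl L h) := by
  letI := algebraAlong (S36PR_incl L h)
  haveI : Module.Finite (laurentBaseChange L (modularFunctionFieldFull N))
      (laurentBaseChange L (modularFunctionFieldFull M)) := S36PR_finiteAlong L h
  exact Module.finrank_pos

end Modular

/-! ### `J₀` over `ℚ̄` -/

section JZeroSection

local notation "Qb" => AlgebraicClosure ℚ
local notation "GQ" => (AlgebraicClosure ℚ ≃ₐ[ℚ] AlgebraicClosure ℚ)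

variable {N M : ℕ} [NeZero N] [NeZero M] (h : N ∣ M)

/-- **`pr^* : J₀(N) → J₀(M)`** for `N ∣ M` (pull-back along the inclusion of function fields). -/
def S36PR_pull : JZero N →+ JZero M := S36PR_pullL Qb h

/-- **`pr_* : J₀(M) → J₀(N)`** for `N ∣ M` (push-forward along the inclusion). -/
def S36PR_push : JZero M →+ JZero N := S36PR_pushL Qb h

/-- the degree `[F̄(M) : F̄(N)]` of `X₀(M) → X₀(N)`. -/
def S36PR_deg : ℕ := finrankAlong Qb (S36PR_incl Qb h)

theorem S36PR_deg_pos : 0 < S36PR_deg h := S36PR_finrankAlong_pos Qb h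

/-- `pr^*` is Galois equivariant. -/
theorem S36PR_pull_smul (σ : GQ) (x : JZero N) :
    S36PR_pull h (σ • x) = σ • S36PR_pull h x := S36PR_pullL_smul Qb h σ x

/-- `pr_*` is Galois equivariant. -/
theorem S36PR_push_smul (σ : GQ) (x : JZero M) :
    S36PR_push h (σ • x) = σ • S36PR_push h x := S36PR_pushL_smul Qb h σ x

/-- **`pr_* ∘ pr^* = deg`** on `J₀(N)`. -/
theorem S36PR_push_pull (x : JZero N) :
    S36PR_push h (S36PR_pull h x) = S36PR_deg h • x := S36PR_pushL_pullL Qb h x

/-- helper6's `α_*` is `pr_*` for `N ∣ N * ℓ`. -/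
theorem S36PR_push_eq_alpha (N ℓ : ℕ) [NeZero N] [NeZero ℓ] :
    S36PR_push (dvd_mul_right N ℓ) = S35PU_alpha N ℓ :=
  rfl

/-- a point whose pull-back is killed by `n` is killed by `n * deg`. -/
theorem S36PR_pull_torsion (n : ℕ) (x : JZero N) (hx : n • S36PR_pull h x = 0) :
    (n * S36PR_deg h) • x = 0 := by
  rw [mul_smul, ← S36PR_push_pull h x, ← map_nsmul, hx, map_zero]

end JZeroSection

end

end Fermat.Agent.S36_helper25_PRGEN
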