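import Mathlib
import Fermat.Agent.S36_helper25_THUNRP
import Fermat.Agent.S36_helper15_HXK

/-!
# S36, THICK: `q dx/dy` for the two modular relations (helper25)

`x = h` the Hauptmodul of level `r`, `y = V_q h`.  The modular equation
`Ψ(X, Y) = Y^(q+1) + ∑ a_i(X) Y^i` kills `(x, y)` AND `(y, x)` (helper15, MODEQ-h).  THICK
(`S36TUP_main`) is stated for `Φ = Ψ = (X^q - Y)(X - Y^q) + q G` at `(x, y)`; the D-trick
(helper1, helper14) uses the partial derivatives of the relation `x^(q+1) + ∑ a_i(y) x^i = 0`,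
i.e. of the swapped polynomial at `(x, y)`.  Without the symmetry of `Ψ` these are two formulas
for `q dx/dy`; they agree by the chain rule at a local expansion.

* `S36TUX_sw`, `S36TUX_sw_ev`, `S36TUX_sw_pderiv0`, `S36TUX_sw_pderiv1` : the swapped polynomial
  `X^(q+1) + ∑ a_i(Y) X^i` and its partial derivatives, evaluated;
* `S36TUX_cross` : for any two integer polynomials `Φ`, `Φ'` killing `(x, y)`:
  `Φ_X(x, y) Φ'_Y(x, y) = Φ_Y(x, y) Φ'_X(x, y)` (any field `K1` of characteristic `0`);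
* `S36TUX_PhiX_ne` : `Φ_X(x, y) ≠ 0` for `Φ = (X^q - Y)(X - Y^q) + q G` at the carriers;
* `S36TUX_main` : the element `Dq` of `S36TUP_main` satisfies the chain rule identity of the
  swapped relation, in explicit form: `Dq * PhiX = - (q * PhiY)`.
-/

set_option autoImplicit false
set_option linter.unusedSectionVars false
set_option linter.unusedVariables false
set_option linter.style.haveILetI false

open MvPolynomial ModularCurve UpperHalfPlane
open Fermat.Agent.S20 Fermat.Agent.S24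
open Fermat.Agent.S18_helper26_CONST Fermat.Agent.S18_helper26_DEGK1
open Fermat.Agent.S24_helper10_LOCfin
open Fermat.Agent.S18_helper9_CDefs Fermat.Agent.S18_helper9_CBasic
open Fermat.Agent.S18_helper3_LOCRING
open Fermat.Agent.S34_helper12_CDefs Fermat.Agent.S34_helper20_V0K
open Fermat.Agent.S34_helper27_V3K
open Fermat.Agent.S36_helper8_AUXDefs Fermat.Agent.S36_helper18_THICK
open Fermat.Agent.S36_helper18_THICKV Fermat.Agent.S18_helper25_COREDefs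
open Fermat.Agent.S36_helper25_THUNRA Fermat.Agent.S36_helper25_THUNR
open Fermat.Agent.S36_helper25_THUNRK Fermat.Agent.S36_helper25_THUNRH
open Fermat.Agent.S36_helper25_THUNRP
open Fermat.Agent.S36_helper21_HLOCX Fermat.Agent.S18_helper25_GLUE
open Fermat.Agent.S36_helper15_HXK Fermat.Agent.S36_helper1_KRONG

namespace Fermat.Agent.S36_helper25_THUNRX

noncomputable section

/-! ### the swapped polynomial -/

section Sw

/-- the swapped modular polynomial `X^(q+1) + ∑ a_i(Y) X^i` -/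
def S36TUX_sw (q : ℕ) (a : ℕ → Polynomial ℤ) : MvPolynomial (Fin 2) ℤ :=
  X 0 ^ (q + 1) + ∑ i ∈ Finset.range (q + 1),
    Polynomial.aeval (X 1 : MvPolynomial (Fin 2) ℤ) (a i) * X 0 ^ i

theorem S36TUX_ev_aeval {B : Type*} [CommRing B] (v : Fin 2 → B) (p : Polynomial ℤ) :
    S36TH_ev v (Polynomial.aeval (X 1 : MvPolynomial (Fin 2) ℤ) p)
      = Polynomial.eval₂ (Int.castRingHom B) (v 1) p := by
  rw [Polynomial.aeval_def, Polynomial.hom_eval₂, S36TH_ev_X]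
  congr 1
  exact RingHom.ext_int _ _

theorem S36TUX_sw_ev {B : Type*} [CommRing B] (q : ℕ) (a : ℕ → Polynomial ℤ) (x y : B) :
    S36TH_ev ![x, y] (S36TUX_sw q a) =
      x ^ (q + 1) + ∑ i ∈ Finset.range (q + 1),
        Polynomial.eval₂ (Int.castRingHom B) y (a i) * x ^ i := by
  rw [S36TUX_sw, map_add, map_pow, S36TH_ev_X, map_sum]
  congr 1
  refine Finset.sum_congr rfl (fun i _ => ?_)
  rw [map_mul, map_pow, S36TH_ev_X, S36TUX_ev_aeval]
  rfl

theorem S36TUX_pderiv0_aeval (p : Polynomial ℤ) :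
    pderiv (0 : Fin 2) (Polynomial.aeval (X 1 : MvPolynomial (Fin 2) ℤ) p) = 0 := by
  rw [Derivation.map_aeval, pderiv_X_of_ne (by decide : (1 : Fin 2) ≠ 0), smul_zero]

theorem S36TUX_pderiv1_aeval (p : Polynomial ℤ) :
    pderiv (1 : Fin 2) (Polynomial.aeval (X 1 : MvPolynomial (Fin 2) ℤ) p)
      = Polynomial.aeval (X 1 : MvPolynomial (Fin 2) ℤ) (Polynomial.derivative p) := by
  rw [Derivation.map_aeval, pderiv_X_self, smul_eq_mul, mul_one]

theorem S36TUX_sw_pderiv0 {B : Type*} [CommRing B] (q : ℕ) (a : ℕ → Polynomial ℤ) (x y : B) :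
    S36TH_ev ![x, y] (pderiv 0 (S36TUX_sw q a)) =
      ((q + 1 : ℕ) : B) * x ^ q + ∑ i ∈ Finset.range (q + 1),
        Polynomial.eval₂ (Int.castRingHom B) y (a i) * ((i : B) * x ^ (i - 1)) := by
  have h1 : pderiv (0 : Fin 2) (S36TUX_sw q a) =
      C ((q + 1 : ℕ) : ℤ) * X 0 ^ q + ∑ i ∈ Finset.range (q + 1),
        Polynomial.aeval (X 1 : MvPolynomial (Fin 2) ℤ) (a i) * (C (i : ℤ) * X 0 ^ (i - 1)) := by
    rw [S36TUX_sw, map_add, map_sum]
    congr 1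
    · rw [Derivation.leibniz_pow, pderiv_X_self, smul_eq_mul, mul_one, Nat.add_sub_cancel,
        nsmul_eq_mul]
      simp
    · refine Finset.sum_congr rfl (fun i _ => ?_)
      rw [Derivation.leibniz, S36TUX_pderiv0_aeval, smul_zero, add_zero,
        Derivation.leibniz_pow, pderiv_X_self, smul_eq_mul, smul_eq_mul, mul_one, nsmul_eq_mul]
      simp
  rw [h1, map_add, map_mul, map_pow, S36TH_ev_X, S36TH_ev_C, map_sum]
  congr 1
  · simp
  · refine Finset.sum_congr rfl (fun i _ => ?_)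
    rw [map_mul, map_mul, map_pow, S36TH_ev_X, S36TH_ev_C, S36TUX_ev_aeval]
    simp

theorem S36TUX_sw_pderiv1 {B : Type*} [CommRing B] (q : ℕ) (a : ℕ → Polynomial ℤ) (x y : B) :
    S36TH_ev ![x, y] (pderiv 1 (S36TUX_sw q a)) =
      ∑ i ∈ Finset.range (q + 1),
        Polynomial.eval₂ (Int.castRingHom B) y (Polynomial.derivative (a i)) * x ^ i := by
  have h1 : pderiv (1 : Fin 2) (S36TUX_sw q a) =
      ∑ i ∈ Finset.range (q + 1),
        Polynomial.aeval (X 1 : MvPolynomial (Fin 2) ℤ) (Polynomial.derivative (a i))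
          * X 0 ^ i := by
    rw [S36TUX_sw, map_add, map_sum, Derivation.leibniz_pow,
      pderiv_X_of_ne (by decide : (0 : Fin 2) ≠ 1), smul_zero, smul_zero, zero_add]
    refine Finset.sum_congr rfl (fun i _ => ?_)
    rw [Derivation.leibniz, S36TUX_pderiv1_aeval, Derivation.leibniz_pow,
      pderiv_X_of_ne (by decide : (0 : Fin 2) ≠ 1), smul_zero, smul_zero, smul_zero, zero_add,
      smul_eq_mul, mul_comm]
  rw [h1, map_sum]
  refine Finset.sum_congr rfl (fun i _ => ?_)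
  rw [map_mul, map_pow, S36TH_ev_X, S36TUX_ev_aeval]
  rfl

end Sw

/-! ### the cross relation -/

section Cross

/-- the cross relation for power series -/
theorem S36TUX_cross_ps (X Y : PowerSeries ℂ) (hu : IsUnit (PowerSeries.derivative ℂ Y))
    (Φ Φ' : MvPolynomial (Fin 2) ℤ) (hΦ : S36TH_ev ![X, Y] Φ = 0)
    (hΦ' : S36TH_ev ![X, Y] Φ' = 0) :
    S36TH_ev ![X, Y] (pderiv 0 Φ) * S36TH_ev ![X, Y] (pderiv 1 Φ')
      = S36TH_ev ![X, Y] (pderiv 1 Φ) * S36TH_ev ![X, Y] (pderiv 0 Φ') := by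
  have h1 := S36TU_chain X Y Φ hΦ
  have h2 := S36TU_chain X Y Φ' hΦ'
  obtain ⟨u, hu'⟩ := hu
  have h3 : (S36TH_ev ![X, Y] (pderiv 0 Φ) * S36TH_ev ![X, Y] (pderiv 1 Φ')
      - S36TH_ev ![X, Y] (pderiv 1 Φ) * S36TH_ev ![X, Y] (pderiv 0 Φ')) * (u : PowerSeries ℂ)
      = 0 := by
    rw [hu']
    linear_combination S36TH_ev ![X, Y] (pderiv 0 Φ) * h2
      - S36TH_ev ![X, Y] (pderiv 0 Φ') * h1
  have h4 := (Units.mul_left_eq_zero u).1 h3
  exact sub_eq_zero.1 h4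

variable {r : ℕ} [NeZero r] (D : S36AUX_Data r) (N q : ℕ) [NeZero N] [NeZero q]

section Rat

/- the `ℚ`-algebra structure of the function field is the one of an intermediate field -/
attribute [local instance 100000] SubalgebraClass.toAlgebra

/-- the cross relation over `ℚ` -/
theorem S36TUX_crossQ (hx : S36AUX_hK ℚ D.u ∈ modularFunctionFieldFullC ℚ N)
    (hy : qExpand ℚ q (S36AUX_hK ℚ D.u) ∈ modularFunctionFieldFullC ℚ N)
    (Φ Φ' : MvPolynomial (Fin 2) ℤ)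
    (hΦ : S36TH_ev ![S36AUX_hK ℚ D.u, qExpand ℚ q (S36AUX_hK ℚ D.u)] Φ = 0)
    (hΦ' : S36TH_ev ![S36AUX_hK ℚ D.u, qExpand ℚ q (S36AUX_hK ℚ D.u)] Φ' = 0)
    (hloc : S36TU_Hloc D N q hx hy) :
    S36TH_ev ![S36AUX_hK ℚ D.u, qExpand ℚ q (S36AUX_hK ℚ D.u)] (pderiv 0 Φ)
        * S36TH_ev ![S36AUX_hK ℚ D.u, qExpand ℚ q (S36AUX_hK ℚ D.u)] (pderiv 1 Φ')
      = S36TH_ev ![S36AUX_hK ℚ D.u, qExpand ℚ q (S36AUX_hK ℚ D.u)] (pderiv 1 Φ)
        * S36TH_ev ![S36AUX_hK ℚ D.u, qExpand ℚ q (S36AUX_hK ℚ D.u)] (pderiv 0 Φ') := by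
  set xF : modularFunctionFieldFullC ℚ N := ⟨S36AUX_hK ℚ D.u, hx⟩ with hxF
  set yF : modularFunctionFieldFullC ℚ N := ⟨qExpand ℚ q (S36AUX_hK ℚ D.u), hy⟩ with hyF
  have hval : ∀ G : MvPolynomial (Fin 2) ℤ,
      ((S36TH_ev ![xF, yF] G : modularFunctionFieldFullC ℚ N) : LaurentSeries ℚ)
        = S36TH_ev ![S36AUX_hK ℚ D.u, qExpand ℚ q (S36AUX_hK ℚ D.u)] G := by
    intro G
    have h := S36TH_map_ev (modularFunctionFieldFullC ℚ N).val.toRingHom ![xF, yF] G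
    rw [S36TH_vec] at h
    exact h
  have hΦF : S36TH_ev ![xF, yF] Φ = 0 :=
    Subtype.val_injective ((hval Φ).trans hΦ)
  have hΦF' : S36TH_ev ![xF, yF] Φ' = 0 :=
    Subtype.val_injective ((hval Φ').trans hΦ')
  obtain ⟨X, Y, hX, hY, hY1⟩ := hloc UpperHalfPlane.I (QuotientGroup.mk 1)
  set e : modularFunctionFieldFullC ℚ N →+* LaurentSeries ℂ :=
    S36TU_e N UpperHalfPlane.I (QuotientGroup.mk 1) with he
  have hX' : e xF = HahnSeries.ofPowerSeries ℤ ℂ X := hX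
  have hY' : e yF = HahnSeries.ofPowerSeries ℤ ℂ Y := hY
  have hu := S36TU_isUnit_derivative Y hY1
  have h0 : S36TH_ev ![X, Y] Φ = 0 := by
    apply HahnSeries.ofPowerSeries_injective (Γ := ℤ)
    rw [← S36TU_map_ev e xF yF X Y hX' hY', hΦF, map_zero, map_zero]
  have h0' : S36TH_ev ![X, Y] Φ' = 0 := by
    apply HahnSeries.ofPowerSeries_injective (Γ := ℤ)
    rw [← S36TU_map_ev e xF yF X Y hX' hY', hΦF', map_zero, map_zero]
  have hps := S36TUX_cross_ps X Y hu Φ Φ' h0 h0'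
  have hF : S36TH_ev ![xF, yF] (pderiv 0 Φ) * S36TH_ev ![xF, yF] (pderiv 1 Φ')
      = S36TH_ev ![xF, yF] (pderiv 1 Φ) * S36TH_ev ![xF, yF] (pderiv 0 Φ') := by
    apply e.injective
    have e1 := S36TU_map_ev e xF yF X Y hX' hY' (pderiv 0 Φ)
    have e2 := S36TU_map_ev e xF yF X Y hX' hY' (pderiv 1 Φ')
    have e3 := S36TU_map_ev e xF yF X Y hX' hY' (pderiv 1 Φ)
    have e4 := S36TU_map_ev e xF yF X Y hX' hY' (pderiv 0 Φ')
    calc e (S36TH_ev ![xF, yF] (pderiv 0 Φ) * S36TH_ev ![xF, yF] (pderiv 1 Φ'))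
        = e (S36TH_ev ![xF, yF] (pderiv 0 Φ)) * e (S36TH_ev ![xF, yF] (pderiv 1 Φ')) :=
          map_mul e _ _
      _ = HahnSeries.ofPowerSeries ℤ ℂ (S36TH_ev ![X, Y] (pderiv 0 Φ))
            * HahnSeries.ofPowerSeries ℤ ℂ (S36TH_ev ![X, Y] (pderiv 1 Φ')) := by
          rw [e1, e2]
      _ = HahnSeries.ofPowerSeries ℤ ℂ
            (S36TH_ev ![X, Y] (pderiv 0 Φ) * S36TH_ev ![X, Y] (pderiv 1 Φ')) :=
          (map_mul (HahnSeries.ofPowerSeries ℤ ℂ) _ _).symm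
      _ = HahnSeries.ofPowerSeries ℤ ℂ
            (S36TH_ev ![X, Y] (pderiv 1 Φ) * S36TH_ev ![X, Y] (pderiv 0 Φ')) := by
          rw [hps]
      _ = HahnSeries.ofPowerSeries ℤ ℂ (S36TH_ev ![X, Y] (pderiv 1 Φ))
            * HahnSeries.ofPowerSeries ℤ ℂ (S36TH_ev ![X, Y] (pderiv 0 Φ')) :=
          map_mul (HahnSeries.ofPowerSeries ℤ ℂ) _ _
      _ = e (S36TH_ev ![xF, yF] (pderiv 1 Φ)) * e (S36TH_ev ![xF, yF] (pderiv 0 Φ')) := by
          rw [e3, e4]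
      _ = e (S36TH_ev ![xF, yF] (pderiv 1 Φ) * S36TH_ev ![xF, yF] (pderiv 0 Φ')) :=
          (map_mul e _ _).symm
  have := congrArg (Subtype.val) hF
  rw [← hval, ← hval, ← hval, ← hval]
  exact this

end Rat

variable (K1 : Type*) [Field K1] [CharZero K1]

/-- **the cross relation**: for any two integer polynomials killing `(x, y) = (h, V_q h)`,
`Φ_X Φ'_Y = Φ_Y Φ'_X` at `(x, y)`. -/
theorem S36TUX_cross (hrq : r * q ∣ N) (Φ Φ' : MvPolynomial (Fin 2) ℤ)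
    (hΦ : S36TH_ev ![S36AUX_hK K1 D.u, qExpand K1 q (S36AUX_hK K1 D.u)] Φ = 0)
    (hΦ' : S36TH_ev ![S36AUX_hK K1 D.u, qExpand K1 q (S36AUX_hK K1 D.u)] Φ' = 0) :
    S36TH_ev ![S36AUX_hK K1 D.u, qExpand K1 q (S36AUX_hK K1 D.u)] (pderiv 0 Φ)
        * S36TH_ev ![S36AUX_hK K1 D.u, qExpand K1 q (S36AUX_hK K1 D.u)] (pderiv 1 Φ')
      = S36TH_ev ![S36AUX_hK K1 D.u, qExpand K1 q (S36AUX_hK K1 D.u)] (pderiv 1 Φ)
        * S36TH_ev ![S36AUX_hK K1 D.u, qExpand K1 q (S36AUX_hK K1 D.u)] (pderiv 0 Φ') := by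
  have hQ := S36TUX_crossQ D N q (S36HX_mem_rat D N ((Dvd.intro _ rfl).trans hrq))
    (S36HX_mem_rat_d D N q hrq) Φ Φ' (S36TU_ev_rat D q K1 Φ hΦ) (S36TU_ev_rat D q K1 Φ' hΦ')
    (S36TU_hloc D N q hrq)
  have hmap : ∀ G : MvPolynomial (Fin 2) ℤ,
      coeffMap (algebraMap ℚ K1)
        (S36TH_ev ![S36AUX_hK ℚ D.u, qExpand ℚ q (S36AUX_hK ℚ D.u)] G)
        = S36TH_ev ![S36AUX_hK K1 D.u, qExpand K1 q (S36AUX_hK K1 D.u)] G := by
    intro G
    rw [S36TH_map_ev (coeffMap (algebraMap ℚ K1)), S36TH_vec, coeffMap_qExpand,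
      S36HX_coeffMap_hK]
  have := congrArg (coeffMap (algebraMap ℚ K1)) hQ
  rw [map_mul, map_mul, hmap, hmap, hmap, hmap] at this
  exact this

end Cross

/-! ### the carriers -/

section Carriers

variable (A : ValuationSubring (AlgebraicClosure ℚ))
  (K1 : IntermediateField ℚ (AlgebraicClosure ℚ)) [IsDiscreteValuationRing (S18K_O1 A K1)]
  {r : ℕ} [NeZero r] (Dx : S36AUX_Data r)
  (q N' N : ℕ) [NeZero N'] [NeZero N] [NeZero q] (hq : q.Prime) (hqN : ¬ q ∣ N')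
  (hN : N = q * N') (hr : r ∣ N')

set_option synthInstance.maxHeartbeats 400000 in
include hq hqN hr hN in
/-- `Φ_X(x, y) ≠ 0` for the Kronecker polynomial. -/
theorem S36TUX_PhiX_ne (hA : A.LiesOverPrime q) (G : MvPolynomial (Fin 2) ℤ)
    (hΦ : S36TH_ev ![S36AUX_hK K1 Dx.u, qExpand K1 q (S36AUX_hK K1 Dx.u)] (S36TH_Phi q G) = 0) :
    S36TH_ev ![S36AUX_hK K1 Dx.u, qExpand K1 q (S36AUX_hK K1 Dx.u)]
      (pderiv 0 (S36TH_Phi q G)) ≠ 0 := by
  intro h0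
  haveI : CharZero (LaurentSeries K1) :=
    charZero_of_injective_ringHom (HahnSeries.C_injective (Γ := ℤ) (R := K1))
  have hq0 : ((q : ℕ) : LaurentSeries K1) ≠ 0 := by exact_mod_cast hq.ne_zero
  obtain ⟨Dq, -, hid, -⟩ := S36TUP_main A K1 Dx q N' N hq hqN hN hr hA G hΦ
  rw [h0, mul_zero] at hid
  have h1 : S36TH_ev ![S36AUX_hK K1 Dx.u, qExpand K1 q (S36AUX_hK K1 Dx.u)]
      (pderiv 1 (S36TH_Phi q G)) = 0 := by
    rcases mul_eq_zero.1 hid.symm with h | h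
    · exact absurd (neg_eq_zero.1 h) hq0
    · exact h
  have S := Fermat.Agent.S34_helper13_P1C.S34P1C_setup2 A K1 q N' N hq hqN hN hA
  have hπF : (S18K_π A K1)⁻¹ ∈ modularFunctionFieldFullC K1 N :=
    inv_mem (S.O_le S.π_mem)
  have hV := S36THV_D_V1 A K1 Dx q N' N hq hN hr hA G hΦ (S18K_π A K1)⁻¹ hπF
    (by rw [h0, h1, mul_zero, mul_zero])
  exact S.V1_nonunit hV

set_option synthInstance.maxHeartbeats 400000 in
include hq hqN hr hN in
/-- **the adapter**: the element `Dq = q dx/dy` of THICK (`S36TUP_main`) satisfies the chain rule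
identity of the swapped relation `x^(q+1) + ∑ a_i(y) x^i = 0`, in explicit form. -/
theorem S36TUX_main (hA : A.LiesOverPrime q) (a : ℕ → Polynomial ℤ)
    (G : MvPolynomial (Fin 2) ℤ) (hmod : S36KG_IsModEq q (S36AUX_h Dx.u) a)
    (hPsi : S36HXK_Psi q a = S36TH_Phi q G) :
    ∃ Dq : LaurentSeries K1, Dq ∈ modularFunctionFieldFullC K1 N ∧
      Dq * (((q + 1 : ℕ) : LaurentSeries K1) * (S36AUX_hK K1 Dx.u) ^ q +
          ∑ i ∈ Finset.range (q + 1),
            Polynomial.eval₂ (Int.castRingHom (LaurentSeries K1))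
              (qExpand K1 q (S36AUX_hK K1 Dx.u)) (a i) *
              ((i : LaurentSeries K1) * (S36AUX_hK K1 Dx.u) ^ (i - 1)))
        = -(((q : ℕ) : LaurentSeries K1) *
          ∑ i ∈ Finset.range (q + 1),
            Polynomial.eval₂ (Int.castRingHom (LaurentSeries K1))
              (qExpand K1 q (S36AUX_hK K1 Dx.u)) (Polynomial.derivative (a i)) *
              (S36AUX_hK K1 Dx.u) ^ i) ∧
      Dq * S36TH_ev ![S36AUX_hK K1 Dx.u, qExpand K1 q (S36AUX_hK K1 Dx.u)]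
          (pderiv 0 (S36TH_Phi q G))
        = -((q : ℕ) : LaurentSeries K1) *
          S36TH_ev ![S36AUX_hK K1 Dx.u, qExpand K1 q (S36AUX_hK K1 Dx.u)]
            (pderiv 1 (S36TH_Phi q G)) ∧
      IsIntegral (Algebra.adjoin K1 {jqModC K1}) Dq ∧
      Dq ∈ S18K_V A K1 N ∧
      (∃ v ∈ S34V0K_V A K1 q N' N hq hqN hN,
        Dq = S18K_π A K1 * (((q : ℕ) : LaurentSeries K1) * v)) ∧
      Dq ∈ S34V0K_V A K1 q N' N hq hqN hN ∧
      Dq ∈ S18K_A0 A K1 N ∧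
      ∀ M : ℕ, N ∣ M → Dq ∈ S18K_A0 A K1 M := by
  have hK := S36KG_modEq_map K1 hmod
  rw [S36HXK_coeffMap_h] at hK
  have hΦ : S36TH_ev ![S36AUX_hK K1 Dx.u, qExpand K1 q (S36AUX_hK K1 Dx.u)] (S36TH_Phi q G)
      = 0 := by
    rw [← hPsi, S36HXK_Psi_ev]
    exact hK.1
  have hΦ' : S36TH_ev ![S36AUX_hK K1 Dx.u, qExpand K1 q (S36AUX_hK K1 Dx.u)] (S36TUX_sw q a)
      = 0 := by
    rw [S36TUX_sw_ev]
    exact hK.2
  obtain ⟨Dq, hDF, hid, hint, hV1, hV2', hV2, hA0, -⟩ :=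
    S36TUP_main A K1 Dx q N' N hq hqN hN hr hA G hΦ
  have hne := S36TUX_PhiX_ne A K1 Dx q N' N hq hqN hN hr hA G hΦ
  have hcross := S36TUX_cross Dx N q K1 (S36TUP_dvd q N' N hN hr) (S36TH_Phi q G)
    (S36TUX_sw q a) hΦ hΦ'
  rw [S36TUX_sw_pderiv0, S36TUX_sw_pderiv1] at hcross
  refine ⟨Dq, hDF, ?_, hid, hint, hV1, hV2', hV2, hA0, fun M hM => ?_⟩
  · apply mul_left_cancel₀ hne
    linear_combination
      (((q + 1 : ℕ) : LaurentSeries K1) * (S36AUX_hK K1 Dx.u) ^ q +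
          ∑ i ∈ Finset.range (q + 1),
            Polynomial.eval₂ (Int.castRingHom (LaurentSeries K1))
              (qExpand K1 q (S36AUX_hK K1 Dx.u)) (a i) *
              ((i : LaurentSeries K1) * (S36AUX_hK K1 Dx.u) ^ (i - 1))) * hid
        + ((q : ℕ) : LaurentSeries K1) * hcross
  · exact ⟨hA0.1, S34V3K_F1_mono K1 hM hA0.2⟩

end Carriers

end

end Fermat.Agent.S36_helper25_THUNRX
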