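import Mathlib
import Fermat.Agent.S36_helper25_THUNRX
import Fermat.Agent.S36_helper1_DTK

/-!
# S36, THICK: the hypothesis `hDX` of helper1's `S36DTK_witness` (helper25)

`S36TUX_hDX` : for the Hauptmodul `X = S36AUX_hK K1 Dx.u` of level `r ∣ M'` and the family `a` of
helper15's `S36HXK_full`, the element `S36DTK_D K1 q a X = q dx/dy` lies in the finite charts
`S18K_A0 A K1 (M' * q)` and `S18K_A0 A K1 (M' * q * q)`.
-/

set_option autoImplicit false
set_option linter.unusedSectionVars false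
set_option linter.unusedVariables false
set_option linter.style.haveILetI false

open MvPolynomial ModularCurve
open Fermat.Agent.S18_helper25_COREDefs Fermat.Agent.S34_helper20_V0K
open Fermat.Agent.S36_helper8_AUXDefs Fermat.Agent.S36_helper18_THICK
open Fermat.Agent.S36_helper15_HXK Fermat.Agent.S36_helper1_KRONG
open Fermat.Agent.S36_helper25_THUNRX Fermat.Agent.S36_helper1_DTK

namespace Fermat.Agent.S36_helper25_THUNRXD

noncomputable section

variable (A : ValuationSubring (AlgebraicClosure ℚ))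
  (K1 : IntermediateField ℚ (AlgebraicClosure ℚ)) [IsDiscreteValuationRing (S18K_O1 A K1)]
  {r : ℕ} [NeZero r] (Dx : S36AUX_Data r)
  (q M' : ℕ) [NeZero M'] [NeZero q] [NeZero (M' * q)] (hq : q.Prime) (hqM : ¬ q ∣ M')
  (hr : r ∣ M')

include hq hqM hr in
/-- **`hDX` of `S36DTK_witness`**: `D = q dx/dy` lies in every finite chart of level divisible
by `M' q`; moreover it lies in the two Gauss rings of level `M' q`. -/
theorem S36TUX_hDX_gen (hA : A.LiesOverPrime q) (a : ℕ → Polynomial ℤ)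
    (G : MvPolynomial (Fin 2) ℤ) (hmod : S36KG_IsModEq q (S36AUX_h Dx.u) a)
    (hPsi : S36HXK_Psi q a = S36TH_Phi q G) :
    (∀ M : ℕ, M' * q ∣ M → S36DTK_D K1 q a (S36AUX_hK K1 Dx.u) ∈ S18K_A0 A K1 M) ∧
      S36DTK_D K1 q a (S36AUX_hK K1 Dx.u) ∈ S18K_V A K1 (M' * q) ∧
      S36DTK_D K1 q a (S36AUX_hK K1 Dx.u)
        ∈ S34V0K_V A K1 q M' (M' * q) hq hqM (Nat.mul_comm M' q) := by
  obtain ⟨Dq, -, h1, -, -, hV1, -, hV2, -, hM⟩ :=
    S36TUX_main A K1 Dx q M' (M' * q) hq hqM (Nat.mul_comm M' q) hr hA a G hmod hPsi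
  by_cases hP : S36DTK_PhiX K1 q a (S36AUX_hK K1 Dx.u) = 0
  · have h0 : S36DTK_D K1 q a (S36AUX_hK K1 Dx.u) = 0 := by
      unfold S36DTK_D
      rw [hP, div_zero]
    rw [h0]
    exact ⟨fun M _ => zero_mem _, zero_mem _, zero_mem _⟩
  · have hD : S36DTK_D K1 q a (S36AUX_hK K1 Dx.u) = Dq := by
      unfold S36DTK_D
      rw [div_eq_iff hP]
      unfold S36DTK_PhiX S36DTK_PhiY
      exact h1.symm
    rw [hD]
    exact ⟨hM, hV1, hV2⟩

include hq hqM hr in
/-- **`hDX` of `S36DTK_witness`** at `X := S18K_A0 A K1 (M' * q * q)`. -/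
theorem S36TUX_hDX (hA : A.LiesOverPrime q) (a : ℕ → Polynomial ℤ)
    (G : MvPolynomial (Fin 2) ℤ) (hmod : S36KG_IsModEq q (S36AUX_h Dx.u) a)
    (hPsi : S36HXK_Psi q a = S36TH_Phi q G) :
    S36DTK_D K1 q a (S36AUX_hK K1 Dx.u) ∈ S18K_A0 A K1 (M' * q * q) :=
  (S36TUX_hDX_gen A K1 Dx q M' hq hqM hr hA a G hmod hPsi).1 (M' * q * q) (Dvd.intro q rfl)

end

end Fermat.Agent.S36_helper25_THUNRXD
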