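import Mathlib
import Fermat.Agent.S36_helper25_THUNRX
import Fermat.Agent.S36_helper14_MIDK

/-!
# S36, THICK: the hypothesis `hDA` of helper14's `S36MK_main` (helper25)

`S36TUX_hDA` : for the Hauptmodul `x = S36AUX_h Dx.u` of level `r ∣ M'` and the family `a` of
helper15's `S36HXK_full`, there is `Dq ∈ S18K_A0 A K1 (M' * q * q)` with
`Dq * S36MK_PhiX K1 q x a = -(q * S36MK_PhiY K1 q x a)`.
-/

set_option autoImplicit false
set_option linter.unusedSectionVars false
set_option linter.unusedVariables false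
set_option linter.style.haveILetI false

open MvPolynomial ModularCurve
open Fermat.Agent.S18_helper25_COREDefs
open Fermat.Agent.S36_helper8_AUXDefs Fermat.Agent.S36_helper18_THICK
open Fermat.Agent.S36_helper15_HXK Fermat.Agent.S36_helper1_KRONG
open Fermat.Agent.S36_helper25_THUNRX Fermat.Agent.S36_helper14_MIDK

namespace Fermat.Agent.S36_helper25_THUNRXM

noncomputable section

variable (A : ValuationSubring (AlgebraicClosure ℚ))
  (K1 : IntermediateField ℚ (AlgebraicClosure ℚ)) [IsDiscreteValuationRing (S18K_O1 A K1)]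
  {r : ℕ} [NeZero r] (Dx : S36AUX_Data r)
  (q M' : ℕ) [NeZero M'] [NeZero q] [NeZero (M' * q)] (hq : q.Prime) (hqM : ¬ q ∣ M')
  (hr : r ∣ M')

include hq hqM hr in
/-- **`hDA` of `S36MK_main`**, for any family `a` with the modular equation and the Kronecker
shape (both from `S36HXK_full`). -/
theorem S36TUX_hDA (hA : A.LiesOverPrime q) (a : ℕ → Polynomial ℤ)
    (G : MvPolynomial (Fin 2) ℤ) (hmod : S36KG_IsModEq q (S36AUX_h Dx.u) a)
    (hPsi : S36HXK_Psi q a = S36TH_Phi q G) :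
    ∃ Dq ∈ S18K_A0 A K1 (M' * q * q),
      Dq * S36MK_PhiX K1 q (S36AUX_h Dx.u) a
        = -((q : LaurentSeries K1) * S36MK_PhiY K1 q (S36AUX_h Dx.u) a) := by
  obtain ⟨Dq, -, h1, -, -, -, -, -, -, hM⟩ :=
    S36TUX_main A K1 Dx q M' (M' * q) hq hqM (Nat.mul_comm M' q) hr hA a G hmod hPsi
  refine ⟨Dq, hM (M' * q * q) (Dvd.intro q rfl), ?_⟩
  unfold S36MK_PhiX S36MK_PhiY
  rw [S36HXK_coeffMap_h]
  exact h1

include hq hqM hr in
/-- the same with the family `a` and the modular equation produced inside. -/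
theorem S36TUX_hDA_ex (hA : A.LiesOverPrime q) :
    ∃ a : ℕ → Polynomial ℤ, (∀ i, 1 ≤ i → i ≤ q → (a i).natDegree ≤ q) ∧ (a 0).Monic ∧
      (a 0).natDegree = q + 1 ∧ S36KG_IsModEq q (S36AUX_h Dx.u) a ∧
      ∃ Dq ∈ S18K_A0 A K1 (M' * q * q),
        Dq * S36MK_PhiX K1 q (S36AUX_h Dx.u) a
          = -((q : LaurentSeries K1) * S36MK_PhiY K1 q (S36AUX_h Dx.u) a) := by
  have hqr : ¬ q ∣ r := fun h => hqM (h.trans hr)
  obtain ⟨a, G, h1, h2, h3, hmod, hPsi⟩ := S36HXK_full Dx q hq hqr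
  exact ⟨a, h1, h2, h3, hmod, S36TUX_hDA A K1 Dx q M' hq hqM hr hA a G hmod hPsi⟩

end

end Fermat.Agent.S36_helper25_THUNRXM
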