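import Mathlib

/-!
# S36 (helper27): the abstract core of TOP36 (Kolchin + finite family + flat descent)

Mathlib only.
-/

set_option autoImplicit false
set_option linter.unusedSectionVars false
set_option linter.unusedVariables false
set_option linter.style.haveILetI false

open scoped TensorProduct

namespace Fermat.Agent.S36_helper27_KOL

/-! ### The ring identity -/

section Ring

variable {E : Type*} [Ring E]

/-- in a ring without `2`-torsion: `a² = b² = 0`, `(a + b + a b)² = 0` and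
`(2a + b + 2 a b)² = 0` imply `a b + b a = 0`. -/
theorem S36KOL_ring (h2 : ∀ x : E, x + x = 0 → x = 0) (a b : E)
    (haa : a * a = 0) (hbb : b * b = 0)
    (h1 : (a + b + a * b) * (a + b + a * b) = 0)
    (h3 : (a + a + b + (a * b + a * b)) * (a + a + b + (a * b + a * b)) = 0) :
    a * b + b * a = 0 := by
  have e1 : (a + b + a * b) * (a + b + a * b) =
      (a * b + b * a + b * a * b) + (a * b * a + a * b * a * b)
        + (a * a + a * a * b + b * b + a * (b * b)) := by noncomm_ring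
  have e3 : (a + a + b + (a * b + a * b)) * (a + a + b + (a * b + a * b)) =
      ((a * b + b * a + b * a * b) + (a * b + b * a + b * a * b))
        + (((a * b * a + a * b * a * b) + (a * b * a + a * b * a * b))
          + ((a * b * a + a * b * a * b) + (a * b * a + a * b * a * b)))
        + ((a * a + a * a + a * a + a * a) + (a * a * b + a * a * b + a * a * b + a * a * b)
          + b * b + (a * (b * b) + a * (b * b))) := by noncomm_ring
  rw [e1, haa, hbb] at h1
  rw [e3, haa, hbb] at h3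
  simp only [zero_mul, mul_zero, add_zero] at h1 h3
  set X := a * b + b * a + b * a * b with hX
  set Y := a * b * a + a * b * a * b with hY
  have hYY : Y + Y = 0 := by
    have : (X + X) + ((Y + Y) + (Y + Y)) - ((X + Y) + (X + Y)) = Y + Y := by abel
    rw [← this, h1, h3]; simp
  have hY0 : Y = 0 := h2 Y hYY
  have hX0 : X = 0 := by rw [hY0, add_zero] at h1; exact h1
  have hbab : b * a * b = 0 := by
    have : b * X = b * b * a + b * b * a * b + b * a * b := by
      rw [hX]; noncomm_ring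
    rw [hX0, hbb] at this
    simp only [mul_zero, zero_mul, zero_add] at this
    exact this.symm
  rw [hX, hbab, add_zero] at hX0
  exact hX0

theorem S36KOL_e1 (x y : E) : x - 1 + (y - 1) + (x - 1) * (y - 1) = x * y - 1 := by
  noncomm_ring

theorem S36KOL_e3 (x y : E) :
    x - 1 + (x - 1) + (y - 1) + ((x - 1) * (y - 1) + (x - 1) * (y - 1)) =
      x * (x * y) - 1 - (x - 1) * (x - 1) * y := by
  noncomm_ring

end Ring

/-! ### Kolchin for a finite family -/

section Kolchin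

variable {R : Type*} [CommRing R] {V : Type*} [AddCommGroup V] [Module R V]

/-- finitely many pairwise anticommuting square-zero endomorphisms of a nonzero stable submodule
have a common nonzero kernel vector. -/
theorem S36KOL_list (P : Submodule R V) (l : List (Module.End R V))
    (hstab : ∀ a ∈ l, ∀ v ∈ P, a v ∈ P)
    (hsq : ∀ a ∈ l, ∀ v ∈ P, a (a v) = 0)
    (hanti : ∀ a ∈ l, ∀ b ∈ l, ∀ v ∈ P, a (b v) = - b (a v))
    (hP : ∃ v ∈ P, v ≠ 0) : ∃ v ∈ P, v ≠ 0 ∧ ∀ a ∈ l, a v = 0 := by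
  induction l with
  | nil =>
    obtain ⟨v, hv, hv0⟩ := hP
    exact ⟨v, hv, hv0, fun a ha => absurd ha (List.not_mem_nil)⟩
  | cons b l ih =>
    obtain ⟨v, hv, hv0, hkill⟩ := ih
      (fun a ha => hstab a (List.mem_cons_of_mem _ ha))
      (fun a ha => hsq a (List.mem_cons_of_mem _ ha))
      (fun a ha c hc => hanti a (List.mem_cons_of_mem _ ha) c (List.mem_cons_of_mem _ hc))
    by_cases hb : b v = 0
    · refine ⟨v, hv, hv0, fun a ha => ?_⟩
      rcases List.mem_cons.1 ha with rfl | ha'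
      · exact hb
      · exact hkill a ha'
    · refine ⟨b v, hstab b List.mem_cons_self v hv, hb, fun a ha => ?_⟩
      rcases List.mem_cons.1 ha with rfl | ha'
      · exact hsq a List.mem_cons_self v hv
      · rw [hanti a (List.mem_cons_of_mem _ ha') b List.mem_cons_self v hv, hkill a ha', map_zero,
          neg_zero]

variable {G : Type*} [Group G]

/-- **Kolchin, rank free**: a subgroup `I` acting on a nonzero stable submodule `P` (of a module
without `2`-torsion) with `(g - 1)² = 0` on `P` for every `g ∈ I` has, for every finite list of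
elements of `I`, a common nonzero fixed vector in `P`. -/
theorem S36KOL_fixed (h2 : ∀ v : V, v + v = 0 → v = 0) (I : Subgroup G)
    (r : G →* Module.End R V) (P : Submodule R V)
    (hstab : ∀ g ∈ I, ∀ v ∈ P, r g v ∈ P)
    (hunip : ∀ g ∈ I, ∀ v ∈ P, r g (r g v) - (r g v + r g v) + v = 0)
    (l : List G) (hl : ∀ g ∈ l, g ∈ I) (hP : ∃ v ∈ P, v ≠ 0) :
    ∃ v ∈ P, v ≠ 0 ∧ ∀ g ∈ l, r g v = v := by
  classical
  -- the restricted operators
  let rP : (g : G) → g ∈ I → Module.End R P := fun g hg => (r g).restrict (hstab g hg)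
  have hrP : ∀ (g : G) (hg : g ∈ I) (v : P), ((rP g hg v : P) : V) = r g (v : V) :=
    fun g hg v => rfl
  have hmul : ∀ (g h : G) (hg : g ∈ I) (hh : h ∈ I),
      rP (g * h) (I.mul_mem hg hh) = rP g hg * rP h hh := by
    intro g h hg hh
    refine LinearMap.ext fun v => Subtype.ext ?_
    show r (g * h) (v : V) = r g (r h (v : V))
    rw [map_mul, Module.End.mul_apply]
  have hsqP : ∀ (g : G) (hg : g ∈ I), (rP g hg - 1) * (rP g hg - 1) = 0 := by
    intro g hg
    refine LinearMap.ext fun v => Subtype.ext ?_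
    have h := hunip g hg (v : V) v.2
    simp only [Module.End.mul_apply, LinearMap.sub_apply, Module.End.one_apply,
      LinearMap.zero_apply, Submodule.coe_sub, Submodule.coe_zero, hrP, map_sub]
    rw [← h]; abel
  have h2P : ∀ x : Module.End R P, x + x = 0 → x = 0 := by
    intro x hx
    refine LinearMap.ext fun v => Subtype.ext ?_
    have := congrArg (fun φ : Module.End R P => ((φ v : P) : V)) hx
    simp only [LinearMap.add_apply, Submodule.coe_add, LinearMap.zero_apply,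
      Submodule.coe_zero] at this
    rw [LinearMap.zero_apply, Submodule.coe_zero]
    exact h2 _ this
  have hantiP : ∀ (g h : G) (hg : g ∈ I) (hh : h ∈ I),
      (rP g hg - 1) * (rP h hh - 1) + (rP h hh - 1) * (rP g hg - 1) = 0 := by
    intro g h hg hh
    refine S36KOL_ring h2P _ _ (hsqP g hg) (hsqP h hh) ?_ ?_
    · have e : rP g hg - 1 + (rP h hh - 1) + (rP g hg - 1) * (rP h hh - 1) =
          rP (g * h) (I.mul_mem hg hh) - 1 := by
        rw [hmul g h hg hh]; exact S36KOL_e1 _ _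
      rw [e]
      exact hsqP (g * h) (I.mul_mem hg hh)
    · have e : rP g hg - 1 + (rP g hg - 1) + (rP h hh - 1) +
          ((rP g hg - 1) * (rP h hh - 1) + (rP g hg - 1) * (rP h hh - 1)) =
          rP (g * (g * h)) (I.mul_mem hg (I.mul_mem hg hh)) - 1
            - (rP g hg - 1) * (rP g hg - 1) * rP h hh := by
        rw [hmul g (g * h) hg (I.mul_mem hg hh), hmul g h hg hh]; exact S36KOL_e3 _ _
      rw [e, hsqP g hg, zero_mul, sub_zero]
      exact hsqP (g * (g * h)) (I.mul_mem hg (I.mul_mem hg hh))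
  -- the list of operators on `V`
  have key := S36KOL_list P (l.map (fun g => r g - 1)) ?_ ?_ ?_ hP
  · obtain ⟨v, hv, hv0, hk⟩ := key
    refine ⟨v, hv, hv0, fun g hg => ?_⟩
    have := hk (r g - 1) (List.mem_map.2 ⟨g, hg, rfl⟩)
    rw [LinearMap.sub_apply, Module.End.one_apply, sub_eq_zero] at this
    exact this
  · intro a ha v hv
    obtain ⟨g, hg, rfl⟩ := List.mem_map.1 ha
    rw [LinearMap.sub_apply, Module.End.one_apply]
    exact P.sub_mem (hstab g (hl g hg) v hv) hv
  · intro a ha v hv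
    obtain ⟨g, hg, rfl⟩ := List.mem_map.1 ha
    have := congrArg (fun φ : Module.End R P => ((φ ⟨v, hv⟩ : P) : V)) (hsqP g (hl g hg))
    simpa only [Module.End.mul_apply, LinearMap.sub_apply, Module.End.one_apply,
      LinearMap.zero_apply, Submodule.coe_sub, Submodule.coe_zero, hrP, map_sub] using this
  · intro a ha b hb v hv
    obtain ⟨g, hg, rfl⟩ := List.mem_map.1 ha
    obtain ⟨h, hh, rfl⟩ := List.mem_map.1 hb
    have := congrArg (fun φ : Module.End R P => ((φ ⟨v, hv⟩ : P) : V))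
      (hantiP g h (hl g hg) (hl h hh))
    simp only [Module.End.mul_apply, LinearMap.sub_apply, Module.End.one_apply,
      LinearMap.zero_apply, LinearMap.add_apply, Submodule.coe_add, Submodule.coe_sub,
      Submodule.coe_zero, hrP, map_sub] at this
    simp only [LinearMap.sub_apply, Module.End.one_apply, map_sub]
    rw [eq_neg_iff_add_eq_zero]
    exact this

end Kolchin

/-! ### A finite family of group elements -/

section Family

variable {R₀ : Type*} [CommRing R₀] {Λ : Type*} [AddCommGroup Λ] [Module R₀ Λ]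
  {G : Type*} [Group G]

/-- if the endomorphisms form a Noetherian module, finitely many `ρ g - 1`, `g ∈ I`, span all
of them. -/
theorem S36KOL_family [IsNoetherian R₀ (Module.End R₀ Λ)] (I : Subgroup G)
    (ρ : G →* Module.End R₀ Λ) :
    ∃ l : List G, (∀ g ∈ l, g ∈ I) ∧
      ∀ g ∈ I, ρ g - 1 ∈ Submodule.span R₀ {a : Module.End R₀ Λ | ∃ g' ∈ l, a = ρ g' - 1} := by
  classical
  set S : Set (Module.End R₀ Λ) := {a | ∃ g ∈ I, a = ρ g - 1} with hS
  have hfg : (Submodule.span R₀ S).FG := IsNoetherian.noetherian _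
  obtain ⟨s', hs'S, hspan⟩ := (Submodule.fg_span_iff_fg_span_finset_subset S).1 hfg
  have hch : ∀ a ∈ s', ∃ g ∈ I, a = ρ g - 1 := fun a ha => hs'S (Finset.mem_coe.2 ha)
  choose! f hfI hfa using hch
  refine ⟨s'.toList.map f, ?_, ?_⟩
  · intro g hg
    obtain ⟨a, ha, rfl⟩ := List.mem_map.1 hg
    exact hfI a (Finset.mem_toList.1 ha)
  · intro g hg
    have h1 : ρ g - 1 ∈ Submodule.span R₀ S := Submodule.subset_span ⟨g, hg, rfl⟩
    rw [hspan] at h1
    refine Submodule.span_mono ?_ h1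
    intro a ha
    exact ⟨f a, List.mem_map.2 ⟨a, Finset.mem_toList.2 (Finset.mem_coe.1 ha), rfl⟩,
      hfa a (Finset.mem_coe.1 ha)⟩

/-- fixed by the finite family ⟹ fixed by everything in its span. -/
theorem S36KOL_fixed_of_span (ρ : G →* Module.End R₀ Λ) (l : List G) (x : Λ)
    (hx : ∀ g ∈ l, ρ g x = x) (g : G)
    (hg : ρ g - 1 ∈ Submodule.span R₀ {a : Module.End R₀ Λ | ∃ g' ∈ l, a = ρ g' - 1}) :
    ρ g x = x := by
  have h : ∀ a ∈ Submodule.span R₀ {a : Module.End R₀ Λ | ∃ g' ∈ l, a = ρ g' - 1},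
      a x = 0 := by
    intro a ha
    induction ha using Submodule.span_induction with
    | mem a ha =>
      obtain ⟨g', hg', rfl⟩ := ha
      rw [LinearMap.sub_apply, Module.End.one_apply, hx g' hg', sub_self]
    | zero => rfl
    | add a b _ _ iha ihb => rw [LinearMap.add_apply, iha, ihb, add_zero]
    | smul c a _ iha => rw [LinearMap.smul_apply, iha, smul_zero]
  have := h _ hg
  rw [LinearMap.sub_apply, Module.End.one_apply, sub_eq_zero] at this
  exact this

end Family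

/-! ### Flat descent for a finite family -/

section Descent

universe u v w

variable {R₀ : Type v} [CommRing R₀] (𝒪 : Type w) [CommRing 𝒪] [Algebra R₀ 𝒪]
  [Module.Flat R₀ 𝒪] {Λ : Type u} [AddCommGroup Λ] [Module R₀ Λ]
  {G : Type*} [Group G]

/-- **flat descent**: if `0` is the only element of `Λ` killed by `φ` and fixed by the finitely
many `ρ g`, `g ∈ l`, the same holds after a flat base change. -/
theorem S36KOL_descent (ρ : G →* Module.End R₀ Λ) (l : List G) :
    ∀ {Λ' : Type u} [AddCommGroup Λ'] [Module R₀ Λ'] (φ : Λ →ₗ[R₀] Λ'),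
      (∀ x : Λ, φ x = 0 → (∀ g ∈ l, ρ g x = x) → x = 0) →
      ∀ v : 𝒪 ⊗[R₀] Λ, φ.baseChange 𝒪 v = 0 → (∀ g ∈ l, (ρ g).baseChange 𝒪 v = v) → v = 0 := by
  induction l with
  | nil =>
    intro Λ' _ _ φ h v hv _
    have hinj : Function.Injective φ := by
      rw [injective_iff_map_eq_zero]
      exact fun x hx => h x hx (fun g hg => absurd hg List.not_mem_nil)
    have hinj' : Function.Injective (φ.baseChange 𝒪) :=
      Module.Flat.lTensor_preserves_injective_linearMap φ hinj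
    exact hinj' (by rw [hv, map_zero])
  | cons g l ih =>
    intro Λ' _ _ φ h v hv hfix
    refine ih ((LinearMap.inl R₀ Λ' Λ).comp φ + (LinearMap.inr R₀ Λ' Λ).comp (ρ g - 1))
      (fun x hx hl => ?_) v ?_ (fun g' hg' => hfix g' (List.mem_cons_of_mem _ hg'))
    · have h1 : (φ x, ρ g x - x) = (0 : Λ' × Λ) := by
        have := hx
        simp only [LinearMap.add_apply, LinearMap.comp_apply, LinearMap.inl_apply,
          LinearMap.inr_apply, Prod.mk_add_mk, add_zero, zero_add, LinearMap.sub_apply,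
          Module.End.one_apply] at this
        exact this
      have h2 : φ x = 0 := congrArg Prod.fst h1
      have h3 : ρ g x = x := sub_eq_zero.1 (congrArg Prod.snd h1)
      refine h x h2 (fun g' hg' => ?_)
      rcases List.mem_cons.1 hg' with rfl | hg''
      · exact h3
      · exact hl g' hg''
    · have h3 : (ρ g - 1).baseChange 𝒪 v = 0 := by
        rw [LinearMap.baseChange_sub, LinearMap.baseChange_one, LinearMap.sub_apply,
          Module.End.one_apply, hfix g List.mem_cons_self, sub_self]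
      rw [LinearMap.baseChange_add, LinearMap.baseChange_comp, LinearMap.baseChange_comp,
        LinearMap.add_apply, LinearMap.comp_apply, LinearMap.comp_apply, hv, h3, map_zero,
        map_zero, add_zero]

end Descent

/-! ### The core -/

section Core

universe u

variable {R₀ : Type*} [CommRing R₀] [IsNoetherianRing R₀]
  {𝒪 : Type*} [CommRing 𝒪] [IsDomain 𝒪] [CharZero 𝒪] [Algebra R₀ 𝒪] [Module.Flat R₀ 𝒪]
  {Λ : Type u} [AddCommGroup Λ] [Module R₀ Λ] [Module.Finite R₀ Λ] [Module.Free R₀ Λ]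
  {Λ' : Type u} [AddCommGroup Λ'] [Module R₀ Λ']
  {G : Type*} [Group G]

/-- **the abstract core of TOP36.**  `Λ` a finite free module (the Tate module) with an action
`ρ` of `G`, `I` a subgroup (inertia), `φ` a linear map out of `Λ` (the two push-forwards), `E` a
submodule of `𝒪 ⊗ Λ` (the Hecke eigenvectors), stable under `I`, on which every `g ∈ I` satisfies
`(g - 1)² = 0` (unipotent inertia).  If `0` is the only element of `Λ` killed by `φ` and fixed by
`I` (GEO36), then `0` is the only element of `E` killed by `φ` (so (P6) is contradicted). -/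
theorem S36KOL_core (I : Subgroup G) (ρ : G →* Module.End R₀ Λ) (φ : Λ →ₗ[R₀] Λ')
    (E : Submodule 𝒪 (𝒪 ⊗[R₀] Λ))
    (hE : ∀ g ∈ I, ∀ v ∈ E, (ρ g).baseChange 𝒪 v ∈ E)
    (hφ : ∀ g ∈ I, ∀ v : 𝒪 ⊗[R₀] Λ, φ.baseChange 𝒪 v = 0 →
      φ.baseChange 𝒪 ((ρ g).baseChange 𝒪 v) = 0)
    (hunip : ∀ g ∈ I, ∀ v ∈ E,
      (ρ g).baseChange 𝒪 ((ρ g).baseChange 𝒪 v) - (2 : 𝒪) • (ρ g).baseChange 𝒪 v + v = 0)
    (hgeo : ∀ x : Λ, φ x = 0 → (∀ g ∈ I, ρ g x = x) → x = 0) :
    ∀ v ∈ E, φ.baseChange 𝒪 v = 0 → v = 0 := by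
  classical
  intro v₀ hv₀E hv₀φ
  by_contra hv₀
  -- the base-changed action
  let r : G →* Module.End 𝒪 (𝒪 ⊗[R₀] Λ) :=
    { toFun := fun g => (ρ g).baseChange 𝒪
      map_one' := by rw [map_one, LinearMap.baseChange_one]
      map_mul' := fun g h => by rw [map_mul, LinearMap.baseChange_mul] }
  have hr : ∀ g, r g = (ρ g).baseChange 𝒪 := fun g => rfl
  -- no `2`-torsion
  haveI : Module.Free 𝒪 (𝒪 ⊗[R₀] Λ) := inferInstance
  have h2 : ∀ v : 𝒪 ⊗[R₀] Λ, v + v = 0 → v = 0 := by
    intro v hv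
    have h : (2 : 𝒪) • v = 0 := by rw [two_smul]; exact hv
    rcases smul_eq_zero.1 h with h' | h'
    · exact absurd h' two_ne_zero
    · exact h'
  -- the finite family
  haveI : IsNoetherian R₀ (Module.End R₀ Λ) := inferInstance
  obtain ⟨l, hlI, hspan⟩ := S36KOL_family I ρ
  -- the submodule of new eigenvectors
  let P : Submodule 𝒪 (𝒪 ⊗[R₀] Λ) := E ⊓ LinearMap.ker (φ.baseChange 𝒪)
  have hPmem : ∀ v, v ∈ P ↔ v ∈ E ∧ φ.baseChange 𝒪 v = 0 := fun v => by
    simp only [P, Submodule.mem_inf, LinearMap.mem_ker]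
  obtain ⟨v, hvP, hv0, hvfix⟩ := S36KOL_fixed h2 I r P
    (fun g hg v hv => (hPmem _).2 ⟨hE g hg v ((hPmem v).1 hv).1, hφ g hg v ((hPmem v).1 hv).2⟩)
    (fun g hg v hv => by
      have := hunip g hg v ((hPmem v).1 hv).1
      rw [two_smul] at this
      exact this)
    l hlI ⟨v₀, (hPmem v₀).2 ⟨hv₀E, hv₀φ⟩, hv₀⟩
  refine hv0 (S36KOL_descent 𝒪 ρ l φ (fun x hx hfix => hgeo x hx (fun g hg => ?_)) v
    ((hPmem v).1 hvP).2 hvfix)
  exact S36KOL_fixed_of_span ρ l x hfix g (hspan g hg)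

variable {Λ₁ : Type u} [AddCommGroup Λ₁] [Module R₀ Λ₁] {Λ₂ : Type u} [AddCommGroup Λ₂]
  [Module R₀ Λ₂]

/-- the base change of the pair `(φ₁, φ₂)` vanishes iff both base changes do. -/
theorem S36KOL_pair (φ₁ : Λ →ₗ[R₀] Λ₁) (φ₂ : Λ →ₗ[R₀] Λ₂) (v : 𝒪 ⊗[R₀] Λ) :
    ((LinearMap.inl R₀ Λ₁ Λ₂).comp φ₁ + (LinearMap.inr R₀ Λ₁ Λ₂).comp φ₂).baseChange 𝒪 v = 0 ↔
      φ₁.baseChange 𝒪 v = 0 ∧ φ₂.baseChange 𝒪 v = 0 := by
  constructor
  · intro h
    have e1 : (LinearMap.fst R₀ Λ₁ Λ₂).comp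
        ((LinearMap.inl R₀ Λ₁ Λ₂).comp φ₁ + (LinearMap.inr R₀ Λ₁ Λ₂).comp φ₂) = φ₁ := by
      refine LinearMap.ext fun x => ?_
      simp
    have e2 : (LinearMap.snd R₀ Λ₁ Λ₂).comp
        ((LinearMap.inl R₀ Λ₁ Λ₂).comp φ₁ + (LinearMap.inr R₀ Λ₁ Λ₂).comp φ₂) = φ₂ := by
      refine LinearMap.ext fun x => ?_
      simp
    constructor
    · have := congrArg ((LinearMap.fst R₀ Λ₁ Λ₂).baseChange 𝒪) h
      rw [← LinearMap.comp_apply, ← LinearMap.baseChange_comp, e1, map_zero] at this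
      exact this
    · have := congrArg ((LinearMap.snd R₀ Λ₁ Λ₂).baseChange 𝒪) h
      rw [← LinearMap.comp_apply, ← LinearMap.baseChange_comp, e2, map_zero] at this
      exact this
  · rintro ⟨h1, h2⟩
    rw [LinearMap.baseChange_add, LinearMap.baseChange_comp, LinearMap.baseChange_comp,
      LinearMap.add_apply, LinearMap.comp_apply, LinearMap.comp_apply, h1, h2, map_zero,
      map_zero, add_zero]

/-- **the abstract core of TOP36, two maps** (the two push-forwards). -/
theorem S36KOL_core2 (I : Subgroup G) (ρ : G →* Module.End R₀ Λ) (φ₁ : Λ →ₗ[R₀] Λ₁)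
    (φ₂ : Λ →ₗ[R₀] Λ₂) (E : Submodule 𝒪 (𝒪 ⊗[R₀] Λ))
    (hE : ∀ g ∈ I, ∀ v ∈ E, (ρ g).baseChange 𝒪 v ∈ E)
    (hφ₁ : ∀ g ∈ I, ∀ v : 𝒪 ⊗[R₀] Λ, φ₁.baseChange 𝒪 v = 0 → φ₂.baseChange 𝒪 v = 0 →
      φ₁.baseChange 𝒪 ((ρ g).baseChange 𝒪 v) = 0)
    (hφ₂ : ∀ g ∈ I, ∀ v : 𝒪 ⊗[R₀] Λ, φ₁.baseChange 𝒪 v = 0 → φ₂.baseChange 𝒪 v = 0 →
      φ₂.baseChange 𝒪 ((ρ g).baseChange 𝒪 v) = 0)
    (hunip : ∀ g ∈ I, ∀ v ∈ E,
      (ρ g).baseChange 𝒪 ((ρ g).baseChange 𝒪 v) - (2 : 𝒪) • (ρ g).baseChange 𝒪 v + v = 0)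
    (hgeo : ∀ x : Λ, φ₁ x = 0 → φ₂ x = 0 → (∀ g ∈ I, ρ g x = x) → x = 0) :
    ∀ v ∈ E, φ₁.baseChange 𝒪 v = 0 → φ₂.baseChange 𝒪 v = 0 → v = 0 := by
  intro v hvE h1 h2
  refine S36KOL_core I ρ
    ((LinearMap.inl R₀ Λ₁ Λ₂).comp φ₁ + (LinearMap.inr R₀ Λ₁ Λ₂).comp φ₂) E hE ?_ hunip ?_ v hvE
    ((S36KOL_pair φ₁ φ₂ v).2 ⟨h1, h2⟩)
  · intro g hg w hw
    obtain ⟨hw1, hw2⟩ := (S36KOL_pair φ₁ φ₂ w).1 hw
    exact (S36KOL_pair φ₁ φ₂ _).2 ⟨hφ₁ g hg w hw1 hw2, hφ₂ g hg w hw1 hw2⟩
  · intro x hx hfix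
    have h : (φ₁ x, φ₂ x) = (0 : Λ₁ × Λ₂) := by
      have := hx
      simp only [LinearMap.add_apply, LinearMap.comp_apply, LinearMap.inl_apply,
        LinearMap.inr_apply, Prod.mk_add_mk, add_zero, zero_add] at this
      exact this
    exact hgeo x (congrArg Prod.fst h) (congrArg Prod.snd h) hfix

end Core

end Fermat.Agent.S36_helper27_KOL
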