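import Mathlib
import Fermat.Agent.S36_helper8_AUXDefs

/-!
# S36, piece THICK-UNR, power-series core (helper27): the Hauptmodul is a local parameter

Let `k` be a field, `a, B, c ∈ k[T]` monic with `deg B + 1 = 3 deg a`, `a³ - 1728 B = c²`,
`a³` and `B` coprime.  Let `X, J ∈ k((t))` with `J ∈ k[[t]]` and `J · B(X) = a(X)³`.  If
`J - j₀` has order `e₀`, where `e₀ = 1`, or `e₀ = 2` and `j₀ = 1728`, or `e₀ = 3` and `j₀ = 0`,
then `X ∈ k[[t]]` and the linear coefficient of `X` is not zero.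

Proof: `X` has no pole (otherwise, with `Z = X⁻¹`, the relation reads
`J · Z · rev(B)(Z) = rev(a)(Z)³`, whose constant coefficients are `0` and `1`).  With
`x₀ = X(0)` one has `B(x₀) ≠ 0`, `(T - x₀)^e₀ ∣ P := a³ - j₀ B` (in the three cases
`P(x₀) = 0`, `P = c²`, `P = a³`), and `P(X) = (J - j₀) B(X)`; if the linear coefficient of `X`
were zero then `t^(2 e₀)` would divide `J - j₀`.

* `S36UO_main` : the statement for polynomials over `k`;
* `S36UO_data` : the statement for an auxiliary Hauptmodul datum `D : S36AUX_Data r`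
  (`char k = 0`), the polynomials `D.a`, `D.B` over `ℤ` being evaluated in the `ℤ`-algebra
  `k((t))`.
-/

set_option autoImplicit false
set_option linter.unusedVariables false

open Polynomial
open Fermat.Agent.S36_helper8_AUXDefs

namespace Fermat.Agent.S36_helper27_UNRORD

variable {k : Type*} [Field k]

/-- a Laurent series of order `≥ 0` is a power series -/
theorem S36UO_exists_ps (x : LaurentSeries k) (hx : 0 ≤ x.order) :
    ∃ p : PowerSeries k, HahnSeries.ofPowerSeries ℤ k p = x := by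
  obtain ⟨n, hn⟩ := Int.eq_ofNat_of_zero_le hx
  exact ⟨PowerSeries.X ^ n * x.powerSeriesPart, LaurentSeries.X_order_mul_powerSeriesPart hn.symm⟩

/-- the constant coefficient of `P(φ)` -/
theorem S36UO_cc_aeval (φ : PowerSeries k) (P : Polynomial k) :
    PowerSeries.constantCoeff (Polynomial.aeval φ P) = P.eval (PowerSeries.constantCoeff φ) := by
  rw [Polynomial.aeval_def, Polynomial.hom_eval₂]
  have : (PowerSeries.constantCoeff (R := k)).comp (algebraMap k (PowerSeries k)) = RingHom.id k := by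
    ext c
    simp
  rw [this, Polynomial.eval₂_id]

/-- `P(φ)` in the Laurent series -/
theorem S36UO_of_aeval (φ : PowerSeries k) (P : Polynomial k) :
    HahnSeries.ofPowerSeries ℤ k (Polynomial.aeval φ P)
      = Polynomial.aeval (HahnSeries.ofPowerSeries ℤ k φ) P := by
  rw [Polynomial.aeval_def, Polynomial.hom_eval₂, Polynomial.aeval_def]
  congr 1

/-- a solution `X` of `J B(X) = a(X)³` with `J` a power series has no pole -/
theorem S36UO_nonneg (a B : Polynomial k) (ha : a.Monic)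
    (hdeg : B.natDegree + 1 = 3 * a.natDegree)
    (X J : LaurentSeries k) (hJ : 0 ≤ J.order)
    (rel : J * Polynomial.aeval X B = (Polynomial.aeval X a) ^ 3) : 0 ≤ X.order := by
  by_contra hneg
  rw [not_le] at hneg
  have hX0 : X ≠ 0 := by
    rintro rfl
    simp at hneg
  have hXZ : X * X⁻¹ = 1 := mul_inv_cancel₀ hX0
  have hZ0 : X⁻¹ ≠ 0 := inv_ne_zero hX0
  have hZord : 0 < (X⁻¹).order := by
    have h := HahnSeries.order_mul hX0 hZ0
    rw [hXZ, HahnSeries.order_one] at h
    omega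
  obtain ⟨Zp, hZp⟩ := S36UO_exists_ps (X⁻¹) hZord.le
  obtain ⟨Jp, hJp⟩ := S36UO_exists_ps J hJ
  have hZc : PowerSeries.constantCoeff Zp = 0 := by
    rw [← PowerSeries.coeff_zero_eq_constantCoeff_apply,
      ← HahnSeries.ofPowerSeries_apply_coeff (Γ := ℤ), hZp]
    exact HahnSeries.coeff_eq_zero_of_lt_order (by simpa using hZord)
  -- reversed polynomials
  let _ : Invertible X := invertibleOfNonzero hX0
  have hinv : ⅟X = X⁻¹ := invOf_eq_inv X
  have hA : Polynomial.aeval X a = Polynomial.aeval (X⁻¹) a.reverse * X ^ a.natDegree := by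
    rw [Polynomial.aeval_def, Polynomial.aeval_def, ← hinv, Polynomial.eval₂_reverse_mul_pow]
  have hBB : Polynomial.aeval X B = Polynomial.aeval (X⁻¹) B.reverse * X ^ B.natDegree := by
    rw [Polynomial.aeval_def, Polynomial.aeval_def, ← hinv, Polynomial.eval₂_reverse_mul_pow]
  have key : J * Polynomial.aeval (X⁻¹) B.reverse * X⁻¹
      = (Polynomial.aeval (X⁻¹) a.reverse) ^ 3 := by
    calc J * Polynomial.aeval (X⁻¹) B.reverse * X⁻¹
        = J * Polynomial.aeval (X⁻¹) B.reverse * X⁻¹ * (X * X⁻¹) ^ B.natDegree := by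
          rw [hXZ, one_pow, mul_one]
      _ = (J * (Polynomial.aeval (X⁻¹) B.reverse * X ^ B.natDegree)) * X⁻¹ ^ (B.natDegree + 1) := by
          ring
      _ = (Polynomial.aeval (X⁻¹) a.reverse * X ^ a.natDegree) ^ 3 * X⁻¹ ^ (3 * a.natDegree) := by
          rw [← hBB, rel, hA, hdeg]
      _ = (Polynomial.aeval (X⁻¹) a.reverse) ^ 3 * (X * X⁻¹) ^ (3 * a.natDegree) := by ring
      _ = (Polynomial.aeval (X⁻¹) a.reverse) ^ 3 := by rw [hXZ, one_pow, mul_one]
  rw [← hZp, ← hJp, ← S36UO_of_aeval, ← S36UO_of_aeval, ← map_mul, ← map_mul, ← map_pow] at key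
  have key2 := congrArg (PowerSeries.constantCoeff (R := k)) (HahnSeries.ofPowerSeries_injective key)
  rw [map_mul, hZc, mul_zero, map_pow, S36UO_cc_aeval, hZc, ← Polynomial.coeff_zero_eq_eval_zero,
    Polynomial.coeff_zero_reverse, ha.leadingCoeff, one_pow] at key2
  exact zero_ne_one key2

/-- **(UNR-ORD)** the Hauptmodul is a local parameter at every finite point: if
`J B(X) = a(X)³` in `k((t))`, `J ∈ k[[t]]`, and `J - j₀` has order `e₀`, where `e₀ = 1`, or
`e₀ = 2` and `j₀ = 1728`, or `e₀ = 3` and `j₀ = 0`, then `X ∈ k[[t]]` and the linear coefficient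
of `X` is not zero. -/
theorem S36UO_main (a B c : Polynomial k) (ha : a.Monic) (hB : B.Monic)
    (hdeg : B.natDegree + 1 = 3 * a.natDegree) (hc : a ^ 3 - Polynomial.C 1728 * B = c ^ 2)
    (hcop : IsCoprime (a ^ 3) B)
    (X J : LaurentSeries k) (hJ : 0 ≤ J.order)
    (rel : J * Polynomial.aeval X B = (Polynomial.aeval X a) ^ 3)
    (j₀ : k) (e₀ : ℕ) (hord : (J - HahnSeries.C j₀).order = (e₀ : ℤ))
    (he : e₀ = 1 ∨ (e₀ = 2 ∧ j₀ = 1728) ∨ (e₀ = 3 ∧ j₀ = 0)) :
    0 ≤ X.order ∧ X.coeff 1 ≠ 0 := by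
  have hX := S36UO_nonneg a B ha hdeg X J hJ rel
  refine ⟨hX, ?_⟩
  obtain ⟨Xp, rfl⟩ := S36UO_exists_ps X hX
  obtain ⟨Jp, rfl⟩ := S36UO_exists_ps J hJ
  have relp : Jp * Polynomial.aeval Xp B = (Polynomial.aeval Xp a) ^ 3 := by
    apply HahnSeries.ofPowerSeries_injective (Γ := ℤ)
    rw [map_mul, map_pow, S36UO_of_aeval, S36UO_of_aeval]
    exact rel
  have he0 : 1 ≤ e₀ := by rcases he with h | h | h <;> omega
  have hne : HahnSeries.ofPowerSeries ℤ k Jp - HahnSeries.C j₀ ≠ 0 := by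
    intro h
    rw [h, HahnSeries.order_zero] at hord
    omega
  have hD : HahnSeries.ofPowerSeries ℤ k (Jp - PowerSeries.C j₀)
      = HahnSeries.ofPowerSeries ℤ k Jp - HahnSeries.C j₀ := by
    rw [map_sub, HahnSeries.ofPowerSeries_C]
  have hDlow : ∀ i < e₀, PowerSeries.coeff i (Jp - PowerSeries.C j₀) = 0 := by
    intro i hi
    rw [← HahnSeries.ofPowerSeries_apply_coeff (Γ := ℤ), hD]
    exact HahnSeries.coeff_eq_zero_of_lt_order (by rw [hord]; exact_mod_cast hi)
  have hDe : PowerSeries.coeff e₀ (Jp - PowerSeries.C j₀) ≠ 0 := by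
    rw [← HahnSeries.ofPowerSeries_apply_coeff (Γ := ℤ), hD, ← hord]
    exact fun h => hne (HahnSeries.coeff_order_eq_zero.1 h)
  have hPv : Polynomial.aeval Xp (a ^ 3 - Polynomial.C j₀ * B)
      = (Jp - PowerSeries.C j₀) * Polynomial.aeval Xp B := by
    rw [map_sub, map_mul, map_pow, Polynomial.aeval_C, ← relp]
    rw [show (algebraMap k (PowerSeries k)) j₀ = PowerSeries.C j₀ from rfl]
    ring
  have hcc : PowerSeries.constantCoeff (Jp - PowerSeries.C j₀) = 0 := by
    rw [← PowerSeries.coeff_zero_eq_constantCoeff_apply]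
    exact hDlow 0 (by omega)
  have hPx0 : (a ^ 3 - Polynomial.C j₀ * B).eval (PowerSeries.constantCoeff Xp) = 0 := by
    have := congrArg (PowerSeries.constantCoeff (R := k)) hPv
    rw [S36UO_cc_aeval, map_mul, hcc, zero_mul] at this
    exact this
  have hB0 : B.eval (PowerSeries.constantCoeff Xp) ≠ 0 := by
    intro hB0
    have ha0 : (a ^ 3).eval (PowerSeries.constantCoeff Xp) = 0 := by
      have := hPx0
      rw [Polynomial.eval_sub, Polynomial.eval_mul, hB0, mul_zero, sub_zero] at this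
      exact this
    obtain ⟨U, V, hUV⟩ := hcop
    have := congrArg (Polynomial.eval (PowerSeries.constantCoeff Xp)) hUV
    rw [Polynomial.eval_add, Polynomial.eval_mul, Polynomial.eval_mul, ha0, hB0, mul_zero,
      mul_zero, add_zero, Polynomial.eval_one] at this
    exact zero_ne_one this
  have hdiv : (Polynomial.X - Polynomial.C (PowerSeries.constantCoeff Xp)) ^ e₀
      ∣ a ^ 3 - Polynomial.C j₀ * B := by
    rcases he with h | ⟨h, hj⟩ | ⟨h, hj⟩
    · rw [h, pow_one, Polynomial.dvd_iff_isRoot]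
      exact hPx0
    · rw [h, hj, hc]
      apply pow_dvd_pow_of_dvd
      rw [Polynomial.dvd_iff_isRoot, Polynomial.IsRoot]
      rw [hj, hc, Polynomial.eval_pow] at hPx0
      exact pow_eq_zero_iff (by norm_num) |>.1 hPx0
    · rw [h, hj, map_zero, zero_mul, sub_zero]
      apply pow_dvd_pow_of_dvd
      rw [Polynomial.dvd_iff_isRoot, Polynomial.IsRoot]
      rw [hj, map_zero, zero_mul, sub_zero, Polynomial.eval_pow] at hPx0
      exact pow_eq_zero_iff (by norm_num) |>.1 hPx0
  intro h1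
  have h1' : PowerSeries.coeff 1 Xp = 0 := by
    rw [← HahnSeries.ofPowerSeries_apply_coeff (Γ := ℤ)]
    exact_mod_cast h1
  have hX2 : (PowerSeries.X : PowerSeries k) ^ 2 ∣ Xp - PowerSeries.C (PowerSeries.constantCoeff Xp) := by
    rw [PowerSeries.X_pow_dvd_iff]
    intro m hm
    interval_cases m
    · simp
    · rw [map_sub, h1', PowerSeries.coeff_C]
      simp
  have hdiv2 : (Xp - PowerSeries.C (PowerSeries.constantCoeff Xp)) ^ e₀
      ∣ Polynomial.aeval Xp (a ^ 3 - Polynomial.C j₀ * B) := by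
    obtain ⟨R, hR⟩ := hdiv
    rw [hR, map_mul, map_pow, map_sub, Polynomial.aeval_X, Polynomial.aeval_C]
    exact dvd_mul_right _ _
  have hdiv3 : (PowerSeries.X : PowerSeries k) ^ (2 * e₀)
      ∣ (Jp - PowerSeries.C j₀) * Polynomial.aeval Xp B := by
    rw [← hPv, pow_mul]
    exact (pow_dvd_pow_of_dvd hX2 e₀).trans hdiv2
  have hBunit : IsUnit (Polynomial.aeval Xp B) := by
    rw [PowerSeries.isUnit_iff_constantCoeff, S36UO_cc_aeval]
    exact hB0.isUnit
  have hdiv4 : (PowerSeries.X : PowerSeries k) ^ (2 * e₀) ∣ Jp - PowerSeries.C j₀ :=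
    (hBunit.dvd_mul_right).1 hdiv3
  exact hDe ((PowerSeries.X_pow_dvd_iff.1 hdiv4) e₀ (by omega))

/-- **(UNR-ORD)**, in terms of an auxiliary Hauptmodul datum: the polynomials `D.a`, `D.B` over
`ℤ` are evaluated in the `ℤ`-algebra `k((t))`. -/
theorem S36UO_data {r : ℕ} [NeZero r] (D : S36AUX_Data r) {k : Type*} [Field k] [CharZero k]
    (X J : LaurentSeries k) (hJ : 0 ≤ J.order)
    (rel : J * Polynomial.aeval X D.B = (Polynomial.aeval X D.a) ^ 3)
    (j₀ : k) (e₀ : ℕ) (hord : (J - HahnSeries.C j₀).order = (e₀ : ℤ))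
    (he : e₀ = 1 ∨ (e₀ = 2 ∧ j₀ = 1728) ∨ (e₀ = 3 ∧ j₀ = 0)) :
    0 ≤ X.order ∧ X.coeff 1 ≠ 0 := by
  have hmap : ∀ P : Polynomial ℤ,
      Polynomial.aeval X (P.map (Int.castRingHom k)) = Polynomial.aeval X P := by
    intro P
    rw [Polynomial.aeval_def, Polynomial.eval₂_map, Polynomial.aeval_def]
    congr 1
    exact RingHom.ext_int _ _
  refine S36UO_main (D.a.map (Int.castRingHom k)) (D.B.map (Int.castRingHom k))
    (D.c.map (Int.castRingHom k)) (D.ha.map _) (D.hB.map _) ?_ ?_ ?_ X J hJ ?_ j₀ e₀ hord he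
  · rw [D.ha.natDegree_map, D.hB.natDegree_map]
    exact D.hdeg
  · have h := congrArg (Polynomial.map (Int.castRingHom k)) D.hc
    rw [Polynomial.map_sub, Polynomial.map_pow, Polynomial.map_mul, Polynomial.map_pow] at h
    have h1 : (Polynomial.C (1728 : k) : Polynomial k) = 1728 := map_ofNat Polynomial.C 1728
    have h2 : (1728 : Polynomial ℤ).map (Int.castRingHom k) = (1728 : Polynomial k) := by simp
    rw [h2] at h
    rw [h1]
    exact h
  · obtain ⟨U, V, e, hUV⟩ := D.bez
    have h := congrArg (Polynomial.map (Int.castRingHom k)) hUV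
    rw [Polynomial.map_add, Polynomial.map_mul, Polynomial.map_mul, Polynomial.map_pow,
      Polynomial.map_C] at h
    have hr : (Int.castRingHom k) ((r : ℤ) ^ e) ≠ 0 := by
      rw [map_pow]
      apply pow_ne_zero
      simp [NeZero.ne r]
    refine ⟨Polynomial.C ((Int.castRingHom k) ((r : ℤ) ^ e))⁻¹ * U.map (Int.castRingHom k),
      Polynomial.C ((Int.castRingHom k) ((r : ℤ) ^ e))⁻¹ * V.map (Int.castRingHom k), ?_⟩
    rw [mul_assoc, mul_assoc, ← mul_add, h, ← Polynomial.C_mul, inv_mul_cancel₀ hr,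
      Polynomial.C_1]
  · rw [hmap, hmap]
    exact rel

end Fermat.Agent.S36_helper27_UNRORD
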