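import Mathlib
import Fermat.Agent.S36_helper28_SCALEK
import Fermat.Agent.S36_helper5_VMIDK
import Fermat.Agent.S36_helper12_W36VALK
import Fermat.Agent.S36_helper23_V0QB
import Fermat.Agent.S36_helper21_UNRAM
import Fermat.Agent.S36_helper3_XBDefs

/-!
# S36, GEO36 (II.2): VERTICAL SCALING, FULLY DISCHARGED at helper5's carriers (helper28)

The field `scale` of helper3's `S36XB_Contract` for the carriers

* `W2 = V_mid = S36VK_Vmid A K1 q M'` (helper5),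
* `W3 = V_0 = S36VK_V0 A K1 q M' hq hqM` (helper5 / helper23),

with NO hypothesis left on the carriers: `S36SCK_scale` (VERT at the carriers) fed with helper5's
`S36VK_main` (the three valuation rings), helper12's `S36WV_hw22` (`w_(q²)` preserves `V_mid`)
and helper23's identification `S36V0QB_V0_eq`.

* `S36SCF_V0_eq`     : `S36VK_V0 = S36SCK_V3` (the two carriers of `V_0`);
* `S36SCF_unr`       : `π` is associated to `q` at an unramified level (`S36XA_Level`);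
* `S36SCF_scale`     : the field `scale` from `hunr : Associated π q`;
* `S36SCF_scale_lvl` : the field `scale` at an unramified level;
* `S36SCF_exp`       : the exponents: `q + 1 = lam ^ c1 * u` with `¬ lam ∣ u`;
* `S36SCF_dvd`, `S36SCF_lam_dvd`, `S36SCF_pow_dvd` : the fields `dvd`, `lam_dvd` for
  `d = lam ^ (c + 1 - c1)`.
-/

set_option autoImplicit false
set_option linter.style.haveILetI false
set_option linter.unusedSectionVars false
set_option linter.unusedVariables false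

open HahnSeries IntermediateField ModularCurve
open Fermat.Agent.S18_helper25_COREDefs
open Fermat.Agent.S34_helper27_C2Defs
open Fermat.Agent.S35_helper27_XD2Defs Fermat.Agent.S36_helper4_XADefs
open Fermat.Agent.S36_helper5_VKDefs Fermat.Agent.S36_helper5_VMIDK
open Fermat.Agent.S36_helper12_W36VALK Fermat.Agent.S36_helper23_V0QB
open Fermat.Agent.S36_helper28_SCALEK Fermat.Agent.S36_helper21_UNRAM

noncomputable section

namespace Fermat.Agent.S36_helper28_SCALEF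

local notation "Qb" => AlgebraicClosure ℚ

/-! ### the exponents -/

/-- `q + 1 = lam ^ c1 * u` with `u` prime to `lam`. -/
theorem S36SCF_exp (q : ℕ) {lam : ℕ} (hlam : lam.Prime) :
    ∃ c1 u : ℕ, q + 1 = lam ^ c1 * u ∧ ¬ lam ∣ u := by
  obtain ⟨c1, u, hu, h⟩ :=
    Nat.exists_eq_pow_mul_and_not_dvd (Nat.succ_ne_zero q) lam hlam.ne_one
  exact ⟨c1, u, h, hu⟩

/-- the field `dvd` for `d = lam ^ (c + 1 - c1)`. -/
theorem S36SCF_dvd (lam c c1 : ℕ) : lam ^ (c + 1 - c1) ∣ lam ^ (c + 1) :=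
  pow_dvd_pow lam (Nat.sub_le _ _)

/-- the field `lam_dvd` for `d = lam ^ (c + 1 - c1)`, `c1 ≤ c`. -/
theorem S36SCF_lam_dvd (lam : ℕ) {c c1 : ℕ} (hc : c1 ≤ c) : lam ∣ lam ^ (c + 1 - c1) :=
  dvd_pow_self lam (by omega)

/-- `lam ^ (c0 + 1) ∣ d` for `d = lam ^ (c + 1 - c1)`, `c0 + c1 ≤ c`. -/
theorem S36SCF_pow_dvd (lam : ℕ) {c c0 c1 : ℕ} (hc : c0 + c1 ≤ c) :
    lam ^ (c0 + 1) ∣ lam ^ (c + 1 - c1) :=
  pow_dvd_pow lam (by omega)

section Carriers

variable (A : ValuationSubring Qb) (K1 : IntermediateField ℚ Qb)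
  [IsDiscreteValuationRing (S18K_O1 A K1)]
  (q M' : ℕ) [NeZero M'] [NeZero q] [NeZero (M' * q)] [NeZero (M' * q * q)] [NeZero (q ^ 2)]
  (hq : q.Prime) (hqM : ¬ q ∣ M')

/-- **the two carriers of `V_0` agree** (helper5's `S36VK_V0` and the `W3` of `S36SCK_scale`). -/
theorem S36SCF_V0_eq :
    S36VK_V0 A K1 q M' hq hqM = S36SCK_V3 A K1 q M' hq hqM :=
  Subring.ext fun _ => Iff.rfl

/-- **VERTICAL SCALING, fully discharged** = the field `scale` of helper3's `S36XB_Contract` at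
`W2 = S36VK_Vmid A K1 q M'`, `W3 = S36VK_V0 A K1 q M' hq hqM`, `d = lam ^ (c + 1 - c1)`,
`lam ^ c1 ∥ q + 1`. -/
theorem S36SCF_scale [NeZero (q * q)] (hA : A.LiesOverPrime q)
    (hunr : Associated (S18K_D A K1).π ((q : ℕ) : S18K_O1 A K1)) {lam c c1 u : ℕ}
    (hlam : lam.Prime) (hqu : q + 1 = lam ^ c1 * u) (hu : ¬ lam ∣ u) (hc1 : c1 ≤ c + 1) :
    ∀ (f0 : LaurentSeries K1) (hf0 : f0 ∈ S18K_F1 K1 (M' * q * q)), f0 ≠ 0 →
      S35XD2_NewAlpha K1 q (M' * q) (lam ^ (c + 1)) f0 hf0 →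
      S36XA_NewBeta K1 q M' hq hqM (lam ^ (c + 1)) f0 →
      ∃ (z : ℤ) (g0 f1 : LaurentSeries K1), g0 ∈ S18K_F1 K1 (M' * q * q) ∧ g0 ≠ 0 ∧
        f0 = S18K_π A K1 ^ z * g0 ^ (lam ^ (c + 1 - c1)) * f1 ∧
        f1 ∈ (S18K_V A K1 (M' * q * q) ⊓ S36VK_Vmid A K1 q M' ⊓ S36VK_V0 A K1 q M' hq hqM :
          Subring (LaurentSeries K1)) ∧
        f1⁻¹ ∈ (S18K_V A K1 (M' * q * q) ⊓ S36VK_Vmid A K1 q M' ⊓ S36VK_V0 A K1 q M' hq hqM :
          Subring (LaurentSeries K1)) := by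
  obtain ⟨hmid, h12, h23, -, -, hπt, htπ, -, -, hunif2, -, -, -⟩ :=
    S36VK_main A K1 q M' hq hqM hA hunr
  rw [S36SCF_V0_eq A K1 q M' hq hqM] at h23 ⊢
  exact S36SCK_scale A K1 q M' hq hqM hA hlam hqu hu hc1 (S36VK_Vmid A K1 q M') hmid hunif2
    hπt htπ h12 h23 (S36WV_hw22 A K1 q M' hq hqM hA hunr)

end Carriers

section Level

variable (A : ValuationSubring Qb) (K1 : IntermediateField ℚ Qb)
  (q M' : ℕ) [NeZero M'] [NeZero q] [NeZero (M' * q)] [NeZero (M' * q * q)] [NeZero (q ^ 2)]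
  (hq : q.Prime) (hqM : ¬ q ∣ M')

/-- an unramified level lies in the inertia field. -/
theorem S36SCF_le_E (hK1 : S36XA_Level A K1 q) : K1 ≤ S36DS_E A := fun x hx =>
  (S36DS_mem_E A x).2 fun τ hτ => hK1.fix τ hτ x hx

include hq in
/-- **`π` is associated to `q` at an unramified level.** -/
theorem S36SCF_unr (hA : A.LiesOverPrime q) (hK1 : S36XA_Level A K1 q) :
    letI := hK1.adm.dvr
    Associated (S18K_D A K1).π ((q : ℕ) : S18K_O1 A K1) :=
  letI := hK1.adm.dvr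
  S36DS_pi_associated hq A hA K1 (S36SCF_le_E A K1 q hK1)

/-- **the field `scale` at an unramified level**, in the shape of `S36XB_Input`. -/
theorem S36SCF_scale_lvl [NeZero (q * q)] (hA : A.LiesOverPrime q) (hK1 : S36XA_Level A K1 q)
    {lam c c1 u : ℕ} (hlam : lam.Prime) (hqu : q + 1 = lam ^ c1 * u) (hu : ¬ lam ∣ u)
    (hc1 : c1 ≤ c + 1) :
    letI := hK1.adm.dvr
    ∀ (f0 : LaurentSeries K1) (hf0 : f0 ∈ S18K_F1 K1 (M' * q * q)), f0 ≠ 0 →
      S35XD2_NewAlpha K1 q (M' * q) (lam ^ (c + 1)) f0 hf0 →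
      S36XA_NewBeta K1 q M' hq hqM (lam ^ (c + 1)) f0 →
      ∃ (z : ℤ) (g0 f1 : LaurentSeries K1), g0 ∈ S18K_F1 K1 (M' * q * q) ∧ g0 ≠ 0 ∧
        f0 = S18K_π A K1 ^ z * g0 ^ (lam ^ (c + 1 - c1)) * f1 ∧
        f1 ∈ (S18K_V A K1 (M' * q * q) ⊓ S36VK_Vmid A K1 q M' ⊓ S36VK_V0 A K1 q M' hq hqM :
          Subring (LaurentSeries K1)) ∧
        f1⁻¹ ∈ (S18K_V A K1 (M' * q * q) ⊓ S36VK_Vmid A K1 q M' ⊓ S36VK_V0 A K1 q M' hq hqM :
          Subring (LaurentSeries K1)) :=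
  letI := hK1.adm.dvr
  S36SCF_scale A K1 q M' hq hqM hA (S36SCF_unr A K1 q hq hA hK1) hlam hqu hu hc1

end Level

end Fermat.Agent.S36_helper28_SCALEF
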