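import Mathlib
import Fermat.Agent.S36_helper25_THUNRP
import Fermat.Agent.S36_helper15_HXK
import Fermat.Agent.S36_helper14_MIDK
import Fermat.Agent.S36_helper23_UNITSK
import Fermat.Agent.S34_helper27_V3K

/-!
# S36, the hypothesis `hDA` of helper14's `S36MK_main` at the Hauptmodul (helper2)

`S36MK_PhiX`, `S36MK_PhiY` are the partial derivatives of
`Ψ(Y, Z) = Z^(q+1) + ∑ a_i(Y) Z^i` at `(Y, Z) = (y, x)` (the SECOND relation of
`S36KG_IsModEq`), while helper25's `S36TUP_main` differentiates a relation `Φ(x, y) = 0` at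
`(X_0, X_1) = (x, y)`.  We apply `S36TUP_main` to the polynomial with the two variables
swapped:

* `S36DA_sw`, `S36DA_ev_rename`, `S36DA_Phi_sw`, `S36DA_pderiv0_sw`, `S36DA_pderiv1_sw` :
  the swap of the variables, its effect on values, on `S36TH_Phi` and on `pderiv`;
* `S36DA_pderiv0_Psi_ev`, `S36DA_pderiv1_Psi_ev` : the values of the partial derivatives of
  `S36HXK_Psi q a`;
* `S36DA_hDA` : **`hDA`** for a Hauptmodul datum, for every `(a, G)` with
  `S36HXK_Psi q a = S36TH_Phi q G`;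
* `S36DA_main` : `(a, G)` from helper15's `S36HXK_full`, with `hmod` and `hDA`.
-/

set_option autoImplicit false
set_option linter.unusedSectionVars false
set_option linter.unusedVariables false
set_option linter.style.haveILetI false
set_option linter.unusedSimpArgs false

open MvPolynomial ModularCurve
open Fermat.Agent.S18_helper9_CDefs Fermat.Agent.S18_helper3_LOCRING
  Fermat.Agent.S18_helper25_COREDefs
  Fermat.Agent.S36_helper8_AUXDefs Fermat.Agent.S36_helper18_THICK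
  Fermat.Agent.S36_helper15_HXK Fermat.Agent.S36_helper1_KRONG
  Fermat.Agent.S36_helper25_THUNRP Fermat.Agent.S36_helper14_MIDK
  Fermat.Agent.S36_helper23_UNITSK Fermat.Agent.S34_helper27_V3K

noncomputable section

namespace Fermat.Agent.S36_helper2_DADAPT

section Abs

variable {B : Type*} [CommRing B]

/-- the swap of the two variables -/
def S36DA_sw : Fin 2 → Fin 2 := ![1, 0]

theorem S36DA_sw_zero : S36DA_sw 0 = 1 := rfl

theorem S36DA_sw_one : S36DA_sw 1 = 0 := rfl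

theorem S36DA_sw_inj : Function.Injective S36DA_sw := by
  intro a b h
  fin_cases a <;> fin_cases b <;> simp [S36DA_sw] at h ⊢

/-- the value of the swapped polynomial -/
theorem S36DA_ev_rename (x y : B) (P : MvPolynomial (Fin 2) ℤ) :
    S36TH_ev ![x, y] (rename S36DA_sw P) = S36TH_ev ![y, x] P := by
  show MvPolynomial.eval₂ (Int.castRingHom B) ![x, y] (rename S36DA_sw P) =
    MvPolynomial.eval₂ (Int.castRingHom B) ![y, x] P
  rw [MvPolynomial.eval₂_rename]
  congr 1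
  funext i
  fin_cases i <;> rfl

/-- the Kronecker shape is stable under the swap -/
theorem S36DA_Phi_sw (q : ℕ) (G : MvPolynomial (Fin 2) ℤ) :
    rename S36DA_sw (S36TH_Phi q G) = S36TH_Phi q (rename S36DA_sw G) := by
  simp only [S36TH_Phi, map_add, map_mul, map_sub, map_pow, rename_X, rename_C, S36DA_sw_zero,
    S36DA_sw_one]
  ring

theorem S36DA_pderiv0_sw (P : MvPolynomial (Fin 2) ℤ) :
    pderiv 0 (rename S36DA_sw P) = rename S36DA_sw (pderiv 1 P) :=
  pderiv_rename S36DA_sw_inj 1 P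

theorem S36DA_pderiv1_sw (P : MvPolynomial (Fin 2) ℤ) :
    pderiv 1 (rename S36DA_sw P) = rename S36DA_sw (pderiv 0 P) :=
  pderiv_rename S36DA_sw_inj 0 P

/-- the coefficient polynomial `a(X_0)` as an `aeval` -/
theorem S36DA_eval₂_eq (p : Polynomial ℤ) :
    Polynomial.eval₂ (MvPolynomial.C : ℤ →+* MvPolynomial (Fin 2) ℤ) (MvPolynomial.X 0) p =
      Polynomial.aeval (MvPolynomial.X 0 : MvPolynomial (Fin 2) ℤ) p := by
  rw [Polynomial.aeval_def]
  rfl

theorem S36DA_pderiv0_eval₂ (p : Polynomial ℤ) :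
    pderiv (0 : Fin 2)
        (Polynomial.eval₂ (MvPolynomial.C : ℤ →+* MvPolynomial (Fin 2) ℤ) (MvPolynomial.X 0) p) =
      Polynomial.eval₂ (MvPolynomial.C : ℤ →+* MvPolynomial (Fin 2) ℤ) (MvPolynomial.X 0)
        (Polynomial.derivative p) := by
  rw [S36DA_eval₂_eq, S36DA_eval₂_eq, Derivation.map_aeval, pderiv_X_self, smul_eq_mul, mul_one]

theorem S36DA_pderiv1_eval₂ (p : Polynomial ℤ) :
    pderiv (1 : Fin 2)
        (Polynomial.eval₂ (MvPolynomial.C : ℤ →+* MvPolynomial (Fin 2) ℤ) (MvPolynomial.X 0) p) =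
      0 := by
  rw [S36DA_eval₂_eq, Derivation.map_aeval, pderiv_X_of_ne (by decide), smul_zero]

/-- the value of `∂Ψ/∂X_0` -/
theorem S36DA_pderiv0_Psi_ev (q : ℕ) (a : ℕ → Polynomial ℤ) (x y : B) :
    S36TH_ev ![x, y] (pderiv 0 (S36HXK_Psi q a)) =
      ∑ i ∈ Finset.range (q + 1),
        Polynomial.eval₂ (Int.castRingHom B) x (Polynomial.derivative (a i)) * y ^ i := by
  have h1 : pderiv (0 : Fin 2) (S36HXK_Psi q a) =
      ∑ i ∈ Finset.range (q + 1),
        Polynomial.eval₂ (MvPolynomial.C : ℤ →+* MvPolynomial (Fin 2) ℤ) (MvPolynomial.X 0)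
          (Polynomial.derivative (a i)) * MvPolynomial.X 1 ^ i := by
    rw [S36HXK_Psi, map_add, map_sum, Derivation.leibniz_pow, pderiv_X_of_ne (by decide),
      smul_zero, smul_zero, zero_add]
    refine Finset.sum_congr rfl (fun i _ => ?_)
    rw [Derivation.leibniz, Derivation.leibniz_pow, pderiv_X_of_ne (by decide), smul_zero,
      smul_zero, smul_zero, zero_add, S36DA_pderiv0_eval₂, smul_eq_mul, mul_comm]
  rw [h1, map_sum]
  refine Finset.sum_congr rfl (fun i _ => ?_)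
  rw [map_mul, map_pow, S36TH_ev_X, S36HXK_ev_eval₂]
  rfl

/-- the value of `∂Ψ/∂X_1` -/
theorem S36DA_pderiv1_Psi_ev (q : ℕ) (a : ℕ → Polynomial ℤ) (x y : B) :
    S36TH_ev ![x, y] (pderiv 1 (S36HXK_Psi q a)) =
      ((q + 1 : ℕ) : B) * y ^ q + ∑ i ∈ Finset.range (q + 1),
        Polynomial.eval₂ (Int.castRingHom B) x (a i) * ((i : B) * y ^ (i - 1)) := by
  have h1 : pderiv (1 : Fin 2) (S36HXK_Psi q a) =
      ((q + 1 : ℕ) : MvPolynomial (Fin 2) ℤ) * MvPolynomial.X 1 ^ q +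
      ∑ i ∈ Finset.range (q + 1),
        Polynomial.eval₂ (MvPolynomial.C : ℤ →+* MvPolynomial (Fin 2) ℤ) (MvPolynomial.X 0)
          (a i) * ((i : MvPolynomial (Fin 2) ℤ) * MvPolynomial.X 1 ^ (i - 1)) := by
    rw [S36HXK_Psi, map_add, map_sum, Derivation.leibniz_pow, pderiv_X_self]
    congr 1
    · rw [smul_eq_mul, mul_one, nsmul_eq_mul, Nat.add_sub_cancel]
    · refine Finset.sum_congr rfl (fun i _ => ?_)
      rw [Derivation.leibniz, Derivation.leibniz_pow, pderiv_X_self, S36DA_pderiv1_eval₂,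
        smul_zero, add_zero, smul_eq_mul, smul_eq_mul, mul_one, nsmul_eq_mul]
  rw [h1, map_add, map_mul, map_pow, map_natCast, S36TH_ev_X, map_sum]
  congr 1
  refine Finset.sum_congr rfl (fun i _ => ?_)
  rw [map_mul, map_mul, map_pow, map_natCast, S36TH_ev_X, S36HXK_ev_eval₂]
  rfl

end Abs

section K

local notation "Qb" => AlgebraicClosure ℚ

variable (A : ValuationSubring Qb) (K1 : IntermediateField ℚ Qb)
  [IsDiscreteValuationRing (S18K_O1 A K1)] {r : ℕ} [NeZero r] (D : S36AUX_Data r)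
  (q M' : ℕ) [NeZero M'] [NeZero q] [NeZero (M' * q)] [NeZero (M' * q * q)]
  (hq : q.Prime) (hqM : ¬ q ∣ M') (hr : r ∣ M')

omit [IsDiscreteValuationRing (S18K_O1 A K1)] [NeZero M'] [NeZero q] [NeZero (M' * q)]
  [NeZero (M' * q * q)] in
/-- the finite chart of level `M' q` lies in the finite chart of level `M' q q` -/
theorem S36DA_A0_le : S18K_A0 A K1 (M' * q) ≤ S18K_A0 A K1 (M' * q * q) :=
  fun x hx => ⟨hx.1, S34V3K_F1_mono K1 ⟨q, rfl⟩ hx.2⟩

include hq hqM hr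

set_option synthInstance.maxHeartbeats 400000 in
/-- **`hDA` of `S36MK_main` at a Hauptmodul datum**: `q dx/dy` lies in the finite charts, and
satisfies the chain rule in the explicit form `S36MK_PhiX`, `S36MK_PhiY`. -/
theorem S36DA_hDA' (hA : A.LiesOverPrime q) (a : ℕ → Polynomial ℤ)
    (G : MvPolynomial (Fin 2) ℤ) (hPsi : S36HXK_Psi q a = S36TH_Phi q G)
    (hmod : S36KG_IsModEq q (S36AUX_h D.u) a) :
    ∃ Dq : LaurentSeries K1, Dq ∈ S18K_A0 A K1 (M' * q) ∧ Dq ∈ S18K_A0 A K1 (M' * q * q) ∧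
      Dq ∈ S18K_V A K1 (M' * q) ∧
      (∀ (m : Ideal (S18K_A0 A K1 (M' * q))) [m.IsPrime],
        Dq ∈ locRing (S18K_A0 A K1 (M' * q)) m) ∧
      Dq * S36MK_PhiX K1 q (S36AUX_h D.u) a =
        -((q : LaurentSeries K1) * S36MK_PhiY K1 q (S36AUX_h D.u) a) := by
  have e : coeffMap (Int.castRingHom K1) (S36AUX_h D.u) = S36AUX_hK K1 D.u :=
    (S36UK_aux_eq K1 D.u).symm
  have hΦ' : S36TH_ev ![S36AUX_hK K1 D.u, qExpand K1 q (S36AUX_hK K1 D.u)]
      (S36TH_Phi q (rename S36DA_sw G)) = 0 := by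
    rw [← S36DA_Phi_sw, S36DA_ev_rename, ← hPsi, S36HXK_Psi_ev]
    have h := (S36KG_modEq_map K1 hmod).2
    rw [e] at h
    exact h
  obtain ⟨Dq, -, hid, -, hV, -, -, hA0, hloc⟩ :=
    S36TUP_main A K1 D q M' (M' * q) hq hqM (Nat.mul_comm M' q) hr hA (rename S36DA_sw G) hΦ'
  refine ⟨Dq, hA0, S36DA_A0_le A K1 q M' hA0, hV, hloc, ?_⟩
  rw [← S36DA_Phi_sw, S36DA_pderiv0_sw, S36DA_pderiv1_sw, S36DA_ev_rename, S36DA_ev_rename,
    ← hPsi, S36DA_pderiv1_Psi_ev, S36DA_pderiv0_Psi_ev] at hid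
  rw [S36MK_PhiX, S36MK_PhiY, e, hid]
  ring

/-- **`hDA` of `S36MK_main`**, verbatim. -/
theorem S36DA_hDA (hA : A.LiesOverPrime q) (a : ℕ → Polynomial ℤ)
    (G : MvPolynomial (Fin 2) ℤ) (hPsi : S36HXK_Psi q a = S36TH_Phi q G)
    (hmod : S36KG_IsModEq q (S36AUX_h D.u) a) :
    ∃ Dq ∈ S18K_A0 A K1 (M' * q * q),
      Dq * S36MK_PhiX K1 q (S36AUX_h D.u) a =
        -((q : LaurentSeries K1) * S36MK_PhiY K1 q (S36AUX_h D.u) a) := by
  obtain ⟨Dq, -, h2, -, -, h5⟩ := S36DA_hDA' A K1 D q M' hq hqM hr hA a G hPsi hmod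
  exact ⟨Dq, h2, h5⟩

/-- **the modular equation of the Hauptmodul with `hmod` and `hDA`** (`a`, `G` from helper15's
`S36HXK_full`). -/
theorem S36DA_main (hA : A.LiesOverPrime q) :
    ∃ (a : ℕ → Polynomial ℤ) (G : MvPolynomial (Fin 2) ℤ),
      (∀ i, 1 ≤ i → i ≤ q → (a i).natDegree ≤ q) ∧ (a 0).Monic ∧
      (a 0).natDegree = q + 1 ∧ S36KG_IsModEq q (S36AUX_h D.u) a ∧
      S36HXK_Psi q a = S36TH_Phi q G ∧
      ∃ Dq ∈ S18K_A0 A K1 (M' * q * q),
        Dq * S36MK_PhiX K1 q (S36AUX_h D.u) a =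
          -((q : LaurentSeries K1) * S36MK_PhiY K1 q (S36AUX_h D.u) a) := by
  have hqr : ¬ q ∣ r := fun h => hqM (h.trans hr)
  obtain ⟨a, G, h1, h2, h3, hmod, hPsi⟩ := S36HXK_full D q hq hqr
  exact ⟨a, G, h1, h2, h3, hmod, hPsi, S36DA_hDA A K1 D q M' hq hqM hr hA a G hPsi hmod⟩

end K

end Fermat.Agent.S36_helper2_DADAPT
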