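import Mathlib
import Fermat.Agent.S36_helper2_DADAPT
import Fermat.Agent.S36_helper1_DTK

/-!
# S36, the hypothesis `hDX` of helper1's `S36DTK_witness` at the Hauptmodul (helper2)

`S36DTK_D K1 q a X = -(q Φ_Y) / Φ_X` IS the element `Dq` of `S36DA_hDA'` (`Φ_X ≠ 0` by helper1's
`S36DTK_hyp`), hence it lies in the finite charts of level `M' q` and `M' q q` and in every
local ring of the chart of level `M' q`.
-/

set_option autoImplicit false
set_option linter.unusedSectionVars false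
set_option linter.unusedVariables false
set_option linter.style.haveILetI false

open MvPolynomial ModularCurve
open Fermat.Agent.S18_helper9_CDefs Fermat.Agent.S18_helper3_LOCRING
  Fermat.Agent.S18_helper25_COREDefs
  Fermat.Agent.S36_helper8_AUXDefs Fermat.Agent.S36_helper18_THICK
  Fermat.Agent.S36_helper15_HXK Fermat.Agent.S36_helper1_KRONG
  Fermat.Agent.S36_helper14_MIDK Fermat.Agent.S36_helper23_UNITSK
  Fermat.Agent.S36_helper1_DTK Fermat.Agent.S36_helper2_DADAPT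

noncomputable section

namespace Fermat.Agent.S36_helper2_DADAPTX

local notation "Qb" => AlgebraicClosure ℚ

variable (A : ValuationSubring Qb) (K1 : IntermediateField ℚ Qb)
  [IsDiscreteValuationRing (S18K_O1 A K1)] {r : ℕ} [NeZero r] (D : S36AUX_Data r)
  (q M' : ℕ) [NeZero M'] [NeZero q] [NeZero (M' * q)] [NeZero (M' * q * q)] [NeZero (q * q)]
  [NeZero (q ^ 2)] (hq : q.Prime) (hqM : ¬ q ∣ M') (hr : r ∣ M')

include hq hqM hr

set_option synthInstance.maxHeartbeats 400000 in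
/-- **`hDX`**: helper1's `D = -(q Φ_Y) / Φ_X` lies in the finite charts. -/
theorem S36DA_hDX (hA : A.LiesOverPrime q)
    (hunr : Associated (S18K_D A K1).π ((q : ℕ) : S18K_O1 A K1))
    (a : ℕ → Polynomial ℤ) (G : MvPolynomial (Fin 2) ℤ)
    (hPsi : S36HXK_Psi q a = S36TH_Phi q G) (hmod : S36KG_IsModEq q (S36AUX_h D.u) a) :
    S36DTK_D K1 q a (coeffMap (Int.castRingHom K1) (S36AUX_h D.u)) ∈ S18K_A0 A K1 (M' * q) ∧
      S36DTK_D K1 q a (coeffMap (Int.castRingHom K1) (S36AUX_h D.u)) ∈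
        S18K_A0 A K1 (M' * q * q) ∧
      S36DTK_D K1 q a (coeffMap (Int.castRingHom K1) (S36AUX_h D.u)) ∈ S18K_V A K1 (M' * q) ∧
      (∀ (m : Ideal (S18K_A0 A K1 (M' * q))) [m.IsPrime],
        S36DTK_D K1 q a (coeffMap (Int.castRingHom K1) (S36AUX_h D.u)) ∈
          locRing (S18K_A0 A K1 (M' * q)) m) ∧
      S36DTK_PhiX K1 q a (coeffMap (Int.castRingHom K1) (S36AUX_h D.u)) ≠ 0 ∧
      S36DTK_D K1 q a (coeffMap (Int.castRingHom K1) (S36AUX_h D.u)) *
          S36DTK_PhiX K1 q a (coeffMap (Int.castRingHom K1) (S36AUX_h D.u)) =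
        -(((q : ℕ) : LaurentSeries K1) *
          S36DTK_PhiY K1 q a (coeffMap (Int.castRingHom K1) (S36AUX_h D.u))) := by
  obtain ⟨Dq, h1, h2, h3, h4, h5⟩ := S36DA_hDA' A K1 D q M' hq hqM hr hA a G hPsi hmod
  have hrel : jqModC ℤ * Polynomial.eval₂ (Int.castRingHom (LaurentSeries ℤ)) (S36AUX_h D.u)
        D.B =
      (Polynomial.eval₂ (Int.castRingHom (LaurentSeries ℤ)) (S36AUX_h D.u) D.a) ^ 3 := by
    have h := D.rel
    rw [Polynomial.aeval_def, Polynomial.aeval_def] at h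
    have e : algebraMap ℤ (LaurentSeries ℤ) = Int.castRingHom (LaurentSeries ℤ) :=
      RingHom.ext_int _ _
    rw [e] at h
    exact h
  obtain ⟨p, H, -, -, -, -, hne, hD⟩ := S36DTK_hyp A K1 q M' hq hqM hA hunr (S36AUX_h D.u)
    (S36UK_aux_coeff D.u D.hu) a hmod (S36UK_aux_mem D K1 M' hr) D.a D.B D.hB hrel
  have h5' : Dq * S36DTK_PhiX K1 q a (coeffMap (Int.castRingHom K1) (S36AUX_h D.u)) =
      -(((q : ℕ) : LaurentSeries K1) *
        S36DTK_PhiY K1 q a (coeffMap (Int.castRingHom K1) (S36AUX_h D.u))) := h5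
  have e : S36DTK_D K1 q a (coeffMap (Int.castRingHom K1) (S36AUX_h D.u)) = Dq :=
    mul_right_cancel₀ hne (hD.trans h5'.symm)
  rw [e]
  exact ⟨h1, h2, h3, h4, hne, h5'⟩

end Fermat.Agent.S36_helper2_DADAPTX
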