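import Mathlib
import Fermat.Agent.S34_helper13_VCOUNT
import Fermat.Agent.S34_helper13_KEY
import Fermat.Agent.S34_helper27_C2Defs
import Fermat.Agent.S36_helper5_V3COUNT
import Fermat.Agent.S36_helper2_C3

/-!
# S36, KEY3 (helper2): "exactly three extensions" in the `Subring L` vocabulary

The bridge between helper5's generic count `S36V3_three` (valuation subrings of a field `F'`
over a discrete valuation ring `R`) and the vocabulary of block C' (`S34C2_Val`, subrings of one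
ambient field `L`), in the style of helper13's `S34KEY_abs`.

`F1' ≤ F1` subfields of `L` with a spanning set of at most `a + m + b` elements, `V'` a discrete
valuation ring of `F1'` with uniformiser `π` (elementwise), `V1`, `V2`, `V3` pairwise distinct
valuation rings of `F1` containing `V'`, with residue degree `≥ a` for `V1`, ramification index
`≥ m` for `V2` (witness `t`) and residue degree `≥ b` for `V3`.

* `S36K3_ResDegGe`       : the lower bound for the residue degree, elementwise in `L`;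
* `S36K3_resDegGe_one`   : residue degree `≥ 1` (always);
* `S36K3_resDegGe_pow`   : residue degree `≥ q ^ 2` from `y ^ (q ^ 2) ≡ x`, `x` not a `q`-th
  power modulo `π` (residue characteristic `q`, ALL primes `q`, also `q = 2`);
* `S36K3_abs`            : KEY3 (`V1 ⊓ V2 ⊓ V3` is the integral closure of `V'` in `F1`),
  "exactly three", `π` is a uniformiser of `V1` and `V3`, `t` is a uniformiser of `V2` and
  `π = unit * t ^ m`, residue field of `V2` = residue field of `V'`.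
-/

set_option autoImplicit false
set_option linter.style.haveILetI false
set_option linter.unusedSectionVars false
set_option linter.unusedVariables false

namespace Fermat.Agent.S36_helper2_KEY3

open Fermat.Agent.S34_helper13_VCOUNT Fermat.Agent.S34_helper13_KEY
  Fermat.Agent.S34_helper27_C2Defs Fermat.Agent.S36_helper5_V3COUNT
  Fermat.Agent.S18_helper9_CDefs Fermat.Agent.S34_helper12_CDefs Fermat.Agent.S36_helper2_C3
  Polynomial

variable {L : Type*} [Field L]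

/-- Lower bound `a ≤ f(W | V')` for the residue degree, elementwise in `L`: `a` elements of `W`
which are linearly independent over `V'` modulo the non-units of `W`. -/
def S36K3_ResDegGe (π : L) (V' W : Subring L) (a : ℕ) : Prop :=
  ∃ y : Fin a → L, (∀ i, y i ∈ W) ∧ ∀ c : Fin a → L, (∀ i, c i ∈ V') →
    ((∑ i, c i * y i) = 0 ∨ (∑ i, c i * y i)⁻¹ ∉ W) → ∀ i, ∃ v ∈ V', c i = π * v

section Pow

universe u

/-- In characteristic `q`, `X ^ (q ^ 2) - a` is irreducible as soon as `a` is not a `q`-th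
power (ALL primes `q`, also `q = 2`). -/
theorem S36K3_irreducible_sq {K : Type u} [Field K] {q : ℕ} (hq : q.Prime) [CharP K q] {a : K}
    (ha : ∀ b : K, b ^ q ≠ a) : Irreducible (X ^ (q ^ 2) - C a : K[X]) := by
  haveI : Fact q.Prime := ⟨hq⟩
  rw [pow_two]
  apply X_pow_mul_sub_C_irreducible (X_pow_sub_C_irreducible_of_prime hq ha)
  intro E _ _ x hx
  have hint : IsIntegral K x := not_not.mp fun h ↦ by
    simpa only [degree_zero, degree_X_pow_sub_C hq.pos,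
      WithBot.natCast_ne_bot] using congr_arg degree (hx.symm.trans (dif_neg h))
  apply X_pow_sub_C_irreducible_of_prime hq
  intro b hb
  apply ha (Algebra.norm K b)
  rw [← map_pow, hb, ← IntermediateField.adjoin.powerBasis_gen hint,
    Algebra.PowerBasis.norm_gen_eq_coeff_zero_minpoly]
  have h1 : (-1 : K) ^ q = -1 := neg_one_pow_char K q
  simp [IntermediateField.minpoly_gen, hx, hq.ne_zero.symm, h1]

variable {R : Type u} {F' : Type*} [CommRing R] [IsDomain R] [IsDiscreteValuationRing R]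
  [Field F'] [Algebra R F'] (W : ValuationSubring F')

/-- **Residue degree `≥ q ^ 2` from a `q ^ 2`-th root** (residue characteristic `q`): if `y ∈ W`
satisfies `y ^ (q ^ 2) ≡ x` modulo the maximal ideal of `W` with `x ∈ R` not a `q`-th power
modulo the maximal ideal of `R`, then `q ^ 2 ≤ f(W | R)`. -/
theorem S36K3_vs_resDegGe_pow (hW : S34V_Dom R W) {q : ℕ} (hq : q.Prime)
    (hchar : (q : R) ∈ IsLocalRing.maximalIdeal R) {y : F'} (hy : y ∈ W)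
    {x : R} (hyx : y ^ (q ^ 2) - algebraMap R F' x ∈ W.nonunits)
    (hx : ∀ r : R, r ^ q - x ∉ IsLocalRing.maximalIdeal R) : S34V_ResDegGe R W (q ^ 2) := by
  classical
  refine ⟨fun i => y ^ (i : ℕ), fun i => pow_mem hy _, fun c hc i => ?_⟩
  haveI := S34V_RtoW_isLocalHom W hW
  let φ : R →+* W := S34V_RtoW W hW.1
  let ψ : IsLocalRing.ResidueField R →+* IsLocalRing.ResidueField W :=
    IsLocalRing.ResidueField.map φ
  letI : Algebra (IsLocalRing.ResidueField R) (IsLocalRing.ResidueField W) := ψ.toAlgebra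
  haveI : CharP (IsLocalRing.ResidueField R) q := by
    rw [CharP.charP_iff_prime_eq_zero hq]
    have h0 : IsLocalRing.residue R (q : R) = 0 := (IsLocalRing.residue_eq_zero_iff _).2 hchar
    rwa [map_natCast] at h0
  set ybar : IsLocalRing.ResidueField W := IsLocalRing.residue W ⟨y, hy⟩ with hybar
  set xbar : IsLocalRing.ResidueField R := IsLocalRing.residue R x with hxbar
  have hψ : ∀ r : R, algebraMap (IsLocalRing.ResidueField R) (IsLocalRing.ResidueField W)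
      (IsLocalRing.residue R r) = IsLocalRing.residue W (φ r) := fun r => rfl
  have hq2 : q ^ 2 ≠ 0 := pow_ne_zero _ hq.ne_zero
  have hirr : Irreducible (X ^ (q ^ 2) - C xbar : (IsLocalRing.ResidueField R)[X]) := by
    refine S36K3_irreducible_sq hq fun b hb => ?_
    obtain ⟨r, rfl⟩ := IsLocalRing.residue_surjective b
    have h1 : IsLocalRing.residue R (r ^ q - x) = 0 := by
      rw [map_sub, map_pow, hb, sub_self]
    rw [IsLocalRing.residue_eq_zero_iff] at h1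
    exact hx r h1
  have hmonic : (X ^ (q ^ 2) - C xbar : (IsLocalRing.ResidueField R)[X]).Monic :=
    monic_X_pow_sub_C _ hq2
  have hroot : aeval ybar (X ^ (q ^ 2) - C xbar : (IsLocalRing.ResidueField R)[X]) = 0 := by
    rw [map_sub, map_pow, aeval_X, aeval_C, hψ, ← map_pow, ← map_sub,
      IsLocalRing.residue_eq_zero_iff, ← ValuationSubring.coe_mem_nonunits_iff]
    exact hyx
  have hmin : minpoly (IsLocalRing.ResidueField R) ybar = X ^ (q ^ 2) - C xbar :=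
    (minpoly.eq_of_irreducible_of_monic hirr hroot hmonic).symm
  have hli := linearIndependent_pow (K := IsLocalRing.ResidueField R) ybar
  rw [hmin, natDegree_X_pow_sub_C] at hli
  rw [Fintype.linearIndependent_iff] at hli
  have h2 := hli (fun i => IsLocalRing.residue R (c i)) (by
    have h3 : IsLocalRing.residue W ⟨∑ i, algebraMap R F' (c i) * y ^ (i : ℕ),
        ValuationSubring.nonunits_subset hc⟩ = 0 := by
      rw [IsLocalRing.residue_eq_zero_iff, ← ValuationSubring.coe_mem_nonunits_iff]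
      exact hc
    rw [← h3]
    have h4 : (⟨∑ i, algebraMap R F' (c i) * y ^ (i : ℕ),
        ValuationSubring.nonunits_subset hc⟩ : W) =
        ∑ i : Fin (q ^ 2), φ (c i) * ⟨y, hy⟩ ^ (i : ℕ) := by
      apply Subtype.ext
      simp only [AddSubmonoidClass.coe_finsetSum, MulMemClass.coe_mul, SubmonoidClass.coe_pow]
      rfl
    rw [h4, map_sum]
    refine Finset.sum_congr rfl fun i _ => ?_
    rw [Algebra.smul_def, hψ, map_mul, map_pow]) i
  exact (IsLocalRing.residue_eq_zero_iff _).1 h2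

end Pow

section Transport

variable {π : L} {F1' F1 : Subfield L} (hF : F1' ≤ F1) {V' W : Subring L}

/-- transport of `S36K3_ResDegGe` to helper13's `S34V_ResDegGe` -/
theorem S36K3_resDegGe_vs (hV' : S34C2_Val π F1' V')
    (hsep : ∀ x ∈ F1', x ≠ 0 → ∃ (z : ℤ) (u : L), u ∈ V' ∧ u⁻¹ ∈ V' ∧ x = π ^ z * u)
    (hW : S34C2_Val π F1 W) {a : ℕ} (h : S36K3_ResDegGe π V' W a) :
    letI := S34KEY_algR hF hV'
    haveI := S34KEY_isDVR hV' hsep
    S34V_ResDegGe ↥(S34KEY_vs hV') (S34KEY_vs hW) a := by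
  letI := S34KEY_algR hF hV'
  haveI := S34KEY_isDVR hV' hsep
  obtain ⟨y, hy, hc⟩ := h
  refine ⟨fun i => ⟨y i, hW.le (hy i)⟩, fun i => hy i, fun c hcs i => ?_⟩
  rw [S34KEY_mem_maximalIdeal hV' hsep]
  refine hc (fun i => ((c i : ↥F1') : L)) (fun i => (c i).2) ?_ i
  have h1 := (S34KEY_mem_nonunits hW _).1 hcs
  have h2 : ((∑ i, algebraMap ↥(S34KEY_vs hV') ↥F1 (c i) * (⟨y i, hW.le (hy i)⟩ : ↥F1) : ↥F1) : L)
      = ∑ i, ((c i : ↥F1') : L) * y i := by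
    rw [show ((∑ i, algebraMap ↥(S34KEY_vs hV') ↥F1 (c i) * (⟨y i, hW.le (hy i)⟩ : ↥F1) : ↥F1) : L)
      = F1.subtype (∑ i, algebraMap ↥(S34KEY_vs hV') ↥F1 (c i) * (⟨y i, hW.le (hy i)⟩ : ↥F1))
      from rfl, map_sum]
    rfl
  rwa [h2] at h1

/-- transport of helper13's `S34V_ResDegGe` back to `S36K3_ResDegGe` -/
theorem S36K3_resDegGe_of_vs (hV' : S34C2_Val π F1' V')
    (hsep : ∀ x ∈ F1', x ≠ 0 → ∃ (z : ℤ) (u : L), u ∈ V' ∧ u⁻¹ ∈ V' ∧ x = π ^ z * u)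
    (hW : S34C2_Val π F1 W) {a : ℕ}
    (h : letI := S34KEY_algR hF hV'
      haveI := S34KEY_isDVR hV' hsep
      S34V_ResDegGe ↥(S34KEY_vs hV') (S34KEY_vs hW) a) :
    S36K3_ResDegGe π V' W a := by
  letI := S34KEY_algR hF hV'
  haveI := S34KEY_isDVR hV' hsep
  obtain ⟨y, hy, hc⟩ := h
  refine ⟨fun i => ((y i : ↥F1) : L), fun i => hy i, fun c hcV hcs i => ?_⟩
  have h3 := hc (fun i => S34KEY_ofV hV' ⟨c i, hcV i⟩) ?_ i
  · rw [S34KEY_mem_maximalIdeal hV' hsep] at h3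
    exact h3
  · rw [S34KEY_mem_nonunits]
    have h2 : ((∑ i, algebraMap ↥(S34KEY_vs hV') ↥F1 (S34KEY_ofV hV' ⟨c i, hcV i⟩) * y i : ↥F1) : L)
        = ∑ i, c i * ((y i : ↥F1) : L) := by
      rw [show ((∑ i, algebraMap ↥(S34KEY_vs hV') ↥F1 (S34KEY_ofV hV' ⟨c i, hcV i⟩) * y i : ↥F1) : L)
        = F1.subtype (∑ i, algebraMap ↥(S34KEY_vs hV') ↥F1 (S34KEY_ofV hV' ⟨c i, hcV i⟩) * y i)
        from rfl, map_sum]
      rfl
    rw [h2]
    exact hcs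

end Transport

section Final

variable {π : L} {F1' F1 : Subfield L} {V' V1 V2 V3 : Subring L}

/-- **KEY3, abstract form**: exactly three extensions, the middle one ramified. -/
theorem S36K3_abs [CharZero L] (hF : F1' ≤ F1)
    (hV' : S34C2_Val π F1' V')
    (hsep : ∀ x ∈ F1', x ≠ 0 → ∃ (z : ℤ) (u : L), u ∈ V' ∧ u⁻¹ ∈ V' ∧ x = π ^ z * u)
    (h1 : S34C2_Val π F1 V1) (h2 : S34C2_Val π F1 V2) (h3 : S34C2_Val π F1 V3)
    (hV1 : V' ≤ V1) (hV2 : V' ≤ V2) (hV3 : V' ≤ V3)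
    (h12 : V1 ≠ V2) (h13 : V1 ≠ V3) (h23 : V2 ≠ V3) {a m b : ℕ} (hm : 1 ≤ m)
    (hdeg : ∃ s : Finset L, s.card ≤ a + m + b ∧ ∀ x ∈ F1, ∃ c : L → L,
      (∀ y, c y ∈ F1') ∧ x = ∑ y ∈ s, c y * y)
    (ha : S36K3_ResDegGe π V' V1 a)
    {t : L} (ht0 : t ≠ 0) (htV : t ∈ V2) (htn : t⁻¹ ∉ V2) (htm : π / t ^ m ∈ V2)
    (hb : S36K3_ResDegGe π V' V3 b) :
    (∀ v ∈ (V1 ⊓ V2 ⊓ V3 : Subring L), IsIntegral V' v) ∧
    (∀ v : L, v ∈ F1 → IsIntegral V' v → v ∈ (V1 ⊓ V2 ⊓ V3 : Subring L)) ∧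
    (∀ x ∈ V1, x⁻¹ ∉ V1 → ∃ v ∈ V1, x = π * v) ∧
    (∀ x ∈ V3, x⁻¹ ∉ V3 → ∃ v ∈ V3, x = π * v) ∧
    (∀ x ∈ V2, x⁻¹ ∉ V2 → ∃ v ∈ V2, x = t * v) ∧
    (t ^ m / π ∈ V2) ∧
    (∀ W : Subring L, S34C2_Val π F1 W → V' ≤ W → W = V1 ∨ W = V2 ∨ W = V3) ∧
    (∀ x ∈ V2, ∃ r ∈ V', ∃ v ∈ V2, x = r + t * v) := by
  classical
  letI := S34KEY_alg hF
  obtain ⟨hfd, hfr⟩ := S34KEY_finrank_le hF hdeg
  haveI := hfd
  haveI : CharZero ↥F1' := by
    refine ⟨fun x y hxy => ?_⟩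
    have := congrArg (fun t : ↥F1' => (t : L)) hxy
    simpa using this
  haveI : Algebra.IsSeparable ↥F1' ↥F1 := Algebra.IsAlgebraic.isSeparable_of_perfectField
  haveI := S34KEY_isDVR hV' hsep
  letI := S34KEY_algR hF hV'
  haveI : IsScalarTower ↥(S34KEY_vs hV') ↥F1' ↥F1 := IsScalarTower.of_algebraMap_eq (fun _ => rfl)
  have hd1 := S34KEY_dom hF hV' hsep h1 hV1
  have hd2 := S34KEY_dom hF hV' hsep h2 hV2
  have hd3 := S34KEY_dom hF hV' hsep h3 hV3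
  have hne12 : S34KEY_vs h1 ≠ S34KEY_vs h2 := fun h => h12 (S34KEY_vs_injective h1 h2 h)
  have hne13 : S34KEY_vs h1 ≠ S34KEY_vs h3 := fun h => h13 (S34KEY_vs_injective h1 h3 h)
  have hne23 : S34KEY_vs h2 ≠ S34KEY_vs h3 := fun h => h23 (S34KEY_vs_injective h2 h3 h)
  have hπirr := S34KEY_pi_irreducible hV' hsep
  have ht : S36V3_RamGe ↥(S34KEY_vs hV') (S34KEY_vs h2) (⟨t, h2.le htV⟩ : ↥F1) m := by
    refine ⟨fun h => ht0 (congrArg Subtype.val h),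
      (S34KEY_mem_nonunits h2 _).2 (Or.inr htn), S34KEY_pi hV', hπirr, ?_⟩
    rw [S34KEY_mem_vs]
    exact htm
  obtain ⟨hall, hu1, hu3, hu2, hpt, hres2, -, -, hint, -⟩ :=
    S36V3_three ↥(S34KEY_vs hV') ↥F1' (S34KEY_vs h1) (S34KEY_vs h2) (S34KEY_vs h3)
      hd1 hd2 hd3 hne12 hne13 hne23 hm hfr (S36K3_resDegGe_vs hF hV' hsep h1 ha)
      (⟨t, h2.le htV⟩ : ↥F1) ht (S36K3_resDegGe_vs hF hV' hsep h3 hb)
  refine ⟨?_, ?_, ?_, ?_, ?_, ?_, ?_, ?_⟩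
  · rintro v ⟨⟨hv1, hv2⟩, hv3⟩
    have hvF : v ∈ F1 := h1.le hv1
    exact S34KEY_isIntegral_of hF hV' ⟨v, hvF⟩ ((hint ⟨v, hvF⟩).2 ⟨hv1, hv2, hv3⟩)
  · intro v hvF hv
    obtain ⟨k1, k2, k3⟩ := (hint ⟨v, hvF⟩).1 (S34KEY_isIntegral_to hF hV' ⟨v, hvF⟩ hv)
    exact ⟨⟨k1, k2⟩, k3⟩
  · intro z hz hz'
    obtain ⟨w, hw, hzw⟩ := hu1 _ hπirr ⟨z, h1.le hz⟩
      ((S34KEY_mem_nonunits h1 _).2 (Or.inr hz'))
    exact ⟨(w : L), hw, congrArg (fun t : ↥F1 => (t : L)) hzw⟩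
  · intro z hz hz'
    obtain ⟨w, hw, hzw⟩ := hu3 _ hπirr ⟨z, h3.le hz⟩
      ((S34KEY_mem_nonunits h3 _).2 (Or.inr hz'))
    exact ⟨(w : L), hw, congrArg (fun t : ↥F1 => (t : L)) hzw⟩
  · intro z hz hz'
    obtain ⟨w, hw, hzw⟩ := hu2 ⟨z, h2.le hz⟩
      ((S34KEY_mem_nonunits h2 _).2 (Or.inr hz'))
    exact ⟨(w : L), hw, congrArg (fun t : ↥F1 => (t : L)) hzw⟩
  · have := (hpt _ hπirr).2
    rw [S34KEY_mem_vs] at this
    exact this
  · intro W hW hVW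
    have hdW := S34KEY_dom hF hV' hsep hW hVW
    rcases hall (S34KEY_vs hW) hdW with h | h | h
    · exact Or.inl (S34KEY_vs_injective hW h1 h)
    · exact Or.inr (Or.inl (S34KEY_vs_injective hW h2 h))
    · exact Or.inr (Or.inr (S34KEY_vs_injective hW h3 h))
  · intro z hz
    obtain ⟨r, hr⟩ := hres2 ⟨z, h2.le hz⟩ hz
    obtain ⟨w, hw, hzw⟩ := hu2 _ hr
    refine ⟨((r : ↥F1') : L), r.2, (w : L), hw, ?_⟩
    have := congrArg (fun t : ↥F1 => (t : L)) hzw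
    have h3 : z - ((r : ↥F1') : L) = t * (w : L) := this
    linear_combination h3

end Final

section More

variable {π : L} {F1' F1 : Subfield L} {V' V1 V2 V3 W : Subring L}

/-- residue degree `≥ 1`, in the vocabulary of helper13 -/
theorem S36K3_vs_resDegGe_one (hF : F1' ≤ F1) (hV' : S34C2_Val π F1' V')
    (hsep : ∀ x ∈ F1', x ≠ 0 → ∃ (z : ℤ) (u : L), u ∈ V' ∧ u⁻¹ ∈ V' ∧ x = π ^ z * u)
    (hW : S34C2_Val π F1 W) (hVW : V' ≤ W) :
    letI := S34KEY_algR hF hV'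
    haveI := S34KEY_isDVR hV' hsep
    S34V_ResDegGe ↥(S34KEY_vs hV') (S34KEY_vs hW) 1 := by
  letI := S34KEY_algR hF hV'
  haveI := S34KEY_isDVR hV' hsep
  have hd := S34KEY_dom hF hV' hsep hW hVW
  refine ⟨fun _ => 1, fun _ => (S34KEY_vs hW).one_mem, fun c hc i => ?_⟩
  have : i = 0 := Subsingleton.elim _ _
  subst this
  simp only [Finset.univ_unique, Fin.default_eq_zero, Fin.isValue, mul_one,
    Finset.sum_singleton] at hc
  exact S34V_mem_maximalIdeal_of_mem_nonunits (S34KEY_vs hW) hd hc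

/-- **Residue degree `≥ 1`** (always). -/
theorem S36K3_resDegGe_one (hF : F1' ≤ F1) (hV' : S34C2_Val π F1' V')
    (hsep : ∀ x ∈ F1', x ≠ 0 → ∃ (z : ℤ) (u : L), u ∈ V' ∧ u⁻¹ ∈ V' ∧ x = π ^ z * u)
    (hW : S34C2_Val π F1 W) (hVW : V' ≤ W) : S36K3_ResDegGe π V' W 1 :=
  S36K3_resDegGe_of_vs hF hV' hsep hW (S36K3_vs_resDegGe_one hF hV' hsep hW hVW)

/-- **Residue degree `≥ q ^ 2` from a `q ^ 2`-th root**, in the `Subring L` vocabulary:
`y ∈ W` with `y ^ (q ^ 2) ≡ x` modulo the non-units of `W`, `x ∈ V'` not a `q`-th power modulo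
`π V'`, residue characteristic `q` (`q ∈ π V'`). -/
theorem S36K3_resDegGe_pow (hF : F1' ≤ F1) (hV' : S34C2_Val π F1' V')
    (hsep : ∀ x ∈ F1', x ≠ 0 → ∃ (z : ℤ) (u : L), u ∈ V' ∧ u⁻¹ ∈ V' ∧ x = π ^ z * u)
    (hW : S34C2_Val π F1 W) (hVW : V' ≤ W) {q : ℕ} (hq : q.Prime)
    (hchar : ∃ v ∈ V', (q : L) = π * v)
    {y x : L} (hy : y ∈ W) (hx : x ∈ V')
    (hyx : y ^ (q ^ 2) - x = 0 ∨ (y ^ (q ^ 2) - x)⁻¹ ∉ W)
    (hxq : ∀ r ∈ V', ∀ v ∈ V', r ^ q - x ≠ π * v) : S36K3_ResDegGe π V' W (q ^ 2) := by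
  letI := S34KEY_algR hF hV'
  haveI := S34KEY_isDVR hV' hsep
  have hd := S34KEY_dom hF hV' hsep hW hVW
  refine S36K3_resDegGe_of_vs hF hV' hsep hW ?_
  refine S36K3_vs_resDegGe_pow (S34KEY_vs hW) hd hq ?_ (y := ⟨y, hW.le hy⟩) hy
    (x := S34KEY_ofV hV' ⟨x, hx⟩) ?_ ?_
  · rw [S34KEY_mem_maximalIdeal hV' hsep]
    obtain ⟨v, hv, hqv⟩ := hchar
    refine ⟨v, hv, ?_⟩
    rw [← hqv]
    simp
  · rw [S34KEY_mem_nonunits]
    exact hyx
  · intro r hr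
    rw [S34KEY_mem_maximalIdeal hV' hsep] at hr
    obtain ⟨v, hv, hrv⟩ := hr
    exact hxq _ r.2 v hv hrv

/-- **The residue field of `V1` is that of `V'`** when `a = 1`: every element of `V1` is
congruent modulo `π V1` to an element of `V'`. -/
theorem S36K3_residue_oo [CharZero L] (hF : F1' ≤ F1)
    (hV' : S34C2_Val π F1' V')
    (hsep : ∀ x ∈ F1', x ≠ 0 → ∃ (z : ℤ) (u : L), u ∈ V' ∧ u⁻¹ ∈ V' ∧ x = π ^ z * u)
    (h1 : S34C2_Val π F1 V1) (h2 : S34C2_Val π F1 V2) (h3 : S34C2_Val π F1 V3)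
    (hV1 : V' ≤ V1) (hV2 : V' ≤ V2) (hV3 : V' ≤ V3)
    (h12 : V1 ≠ V2) (h13 : V1 ≠ V3) (h23 : V2 ≠ V3) {m b : ℕ} (hm : 1 ≤ m)
    (hdeg : ∃ s : Finset L, s.card ≤ 1 + m + b ∧ ∀ x ∈ F1, ∃ c : L → L,
      (∀ y, c y ∈ F1') ∧ x = ∑ y ∈ s, c y * y)
    {t : L} (ht0 : t ≠ 0) (htV : t ∈ V2) (htn : t⁻¹ ∉ V2) (htm : π / t ^ m ∈ V2)
    (hb : S36K3_ResDegGe π V' V3 b) :
    ∀ x ∈ V1, ∃ r ∈ V', ∃ v ∈ V1, x = r + π * v := by
  classical
  letI := S34KEY_alg hF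
  obtain ⟨hfd, hfr⟩ := S34KEY_finrank_le hF hdeg
  haveI := hfd
  haveI : CharZero ↥F1' := by
    refine ⟨fun x y hxy => ?_⟩
    have := congrArg (fun t : ↥F1' => (t : L)) hxy
    simpa using this
  haveI : Algebra.IsSeparable ↥F1' ↥F1 := Algebra.IsAlgebraic.isSeparable_of_perfectField
  haveI := S34KEY_isDVR hV' hsep
  letI := S34KEY_algR hF hV'
  haveI : IsScalarTower ↥(S34KEY_vs hV') ↥F1' ↥F1 := IsScalarTower.of_algebraMap_eq (fun _ => rfl)
  have hd1 := S34KEY_dom hF hV' hsep h1 hV1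
  have hd2 := S34KEY_dom hF hV' hsep h2 hV2
  have hd3 := S34KEY_dom hF hV' hsep h3 hV3
  have hne12 : S34KEY_vs h1 ≠ S34KEY_vs h2 := fun h => h12 (S34KEY_vs_injective h1 h2 h)
  have hne13 : S34KEY_vs h1 ≠ S34KEY_vs h3 := fun h => h13 (S34KEY_vs_injective h1 h3 h)
  have hne23 : S34KEY_vs h2 ≠ S34KEY_vs h3 := fun h => h23 (S34KEY_vs_injective h2 h3 h)
  have hπirr := S34KEY_pi_irreducible hV' hsep
  have ht : S36V3_RamGe ↥(S34KEY_vs hV') (S34KEY_vs h2) (⟨t, h2.le htV⟩ : ↥F1) m := by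
    refine ⟨fun h => ht0 (congrArg Subtype.val h),
      (S34KEY_mem_nonunits h2 _).2 (Or.inr htn), S34KEY_pi hV', hπirr, ?_⟩
    rw [S34KEY_mem_vs]
    exact htm
  have hb' := S36K3_resDegGe_vs hF hV' hsep h3 hb
  obtain ⟨-, hu1, -⟩ :=
    S36V3_three ↥(S34KEY_vs hV') ↥F1' (S34KEY_vs h1) (S34KEY_vs h2) (S34KEY_vs h3)
      hd1 hd2 hd3 hne12 hne13 hne23 hm hfr (S36K3_vs_resDegGe_one hF hV' hsep h1 hV1)
      (⟨t, h2.le htV⟩ : ↥F1) ht hb'
  intro z hz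
  obtain ⟨r, hr⟩ := S36V3_three_residue_oo ↥(S34KEY_vs hV') ↥F1' (S34KEY_vs h1) (S34KEY_vs h2)
    (S34KEY_vs h3) hd1 hd2 hd3 hne12 hne13 hne23 hfr (⟨t, h2.le htV⟩ : ↥F1) ht hb'
    (x := ⟨z, h1.le hz⟩) hz
  obtain ⟨w, hw, hzw⟩ := hu1 _ hπirr _ hr
  refine ⟨((r : ↥F1') : L), r.2, (w : L), hw, ?_⟩
  have := congrArg (fun t : ↥F1 => (t : L)) hzw
  have h3 : z - ((r : ↥F1') : L) = π * (w : L) := this
  linear_combination h3

variable {O : Subring L} {j : L} {A0' Ainf' : Subring L}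

/-- **The three-valuation weak setup from the count**: `S34C_Setup` for `V1 ⊓ V2 ⊓ V3` from the
level-`N'` setup and the hypotheses of `S36K3_abs` (KEY3 is discharged). -/
theorem S36K3_setup [CharZero L] (S' : Setup O π j F1' V' A0' Ainf') (hF : F1' ≤ F1)
    (hfin : ∃ s : Finset L, ∀ x ∈ F1, ∃ c : L → L,
      (∀ y, c y ∈ Subfield.closure ((O : Set L) ∪ {j})) ∧ x = ∑ y ∈ s, c y * y)
    (hV' : S34C2_Val π F1' V')
    (hsep : ∀ x ∈ F1', x ≠ 0 → ∃ (z : ℤ) (u : L), u ∈ V' ∧ u⁻¹ ∈ V' ∧ x = π ^ z * u)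
    (h1 : S34C2_Val π F1 V1) (h2 : S34C2_Val π F1 V2) (h3 : S34C2_Val π F1 V3)
    (hV1 : V' ≤ V1) (hV2 : V' ≤ V2) (hV3 : V' ≤ V3)
    (h12 : V1 ≠ V2) (h13 : V1 ≠ V3) (h23 : V2 ≠ V3) {a m b : ℕ} (hm : 1 ≤ m)
    (hdeg : ∃ s : Finset L, s.card ≤ a + m + b ∧ ∀ x ∈ F1, ∃ c : L → L,
      (∀ y, c y ∈ F1') ∧ x = ∑ y ∈ s, c y * y)
    (ha : S36K3_ResDegGe π V' V1 a)
    {t : L} (ht0 : t ≠ 0) (htV : t ∈ V2) (htn : t⁻¹ ∉ V2) (htm : π / t ^ m ∈ V2)
    (hb : S36K3_ResDegGe π V' V3 b) :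
    S34C_Setup O π j F1 (V1 ⊓ V2 ⊓ V3) (icl (adj O j) F1) (icl (adj O j⁻¹) F1) :=
  S36C3_setup S' hF hfin h1 h2 h3 hV1 hV2 hV3
    (S36K3_abs hF hV' hsep h1 h2 h3 hV1 hV2 hV3 h12 h13 h23 hm hdeg ha ht0 htV htn htm hb).1

end More

end Fermat.Agent.S36_helper2_KEY3
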