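import Mathlib
import Fermat.Agent.S18_helper25_GLUE

/-!
# S36, (C) COEFF: descent of the field of constants of a modular function (helper4)

`S36DS_coeff_descent` : a modular function of level `N` over `ℚ̄` all of whose `q`-expansion
coefficients lie in an intermediate field `K1` is (the base change of) a modular function of
level `N` over `K1`.  No finiteness, no Galois theory: for `K / K1` algebraic, the `K`-span `R`
of the image of `F(K1, N)` in `K((Q))` is a domain algebraic over the field `F(K1, N)`, hence a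
field, hence contains `F(K, N)`; a `K1`-linear retraction `ψ : K → K1` applied coefficientwise
maps `R` into `F(K1, N)` and fixes every series with coefficients in `K1`.
-/

set_option autoImplicit false
set_option linter.unusedSectionVars false
set_option linter.unusedVariables false
set_option linter.style.haveILetI false

open HahnSeries IntermediateField ModularCurve
open Fermat.Agent.S18_helper25_GLUE

noncomputable section

namespace Fermat.Agent.S36_helper4_COEFF

local notation "Qb" => AlgebraicClosure ℚ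

section General

variable {K1 K : Type*} [Field K1] [Field K] [Algebra K1 K]

/-- the image of `F(K1, N)` in `K((Q))` -/
def S36CF_img (K1 K : Type*) [Field K1] [Field K] [Algebra K1 K] (N : ℕ) [NeZero N] :
    Set (LaurentSeries K) :=
  (fun w : LaurentSeries K1 => coeffMap (algebraMap K1 K) w) ''
    (modularFunctionFieldFullC K1 N : Set (LaurentSeries K1))

/-- the image of `F(K1, N)` is a submonoid -/
theorem S36CF_img_eq (N : ℕ) [NeZero N] :
    S36CF_img K1 K N = (((modularFunctionFieldFullC K1 N).toSubfield.toSubring.map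
      (coeffMap (algebraMap K1 K))).toSubmonoid : Set (LaurentSeries K)) := by
  ext x
  simp only [S36CF_img, Set.mem_image, SetLike.mem_coe, Subring.coe_toSubmonoid, Subring.coe_map]
  rfl

/-- a `K1`-linear functional, applied coefficientwise, maps the `K`-span of the image of
`F(K1, N)` into `F(K1, N)` -/
theorem S36CF_span_aux (N : ℕ) [NeZero N] (x : LaurentSeries K)
    (hx : x ∈ @Submodule.span K (LaurentSeries K) _ _ Algebra.toModule (S36CF_img K1 K N))
    (ψ : K →ₗ[K1] K1) :
    ∃ w ∈ modularFunctionFieldFullC K1 N, ∀ n : ℤ, w.coeff n = ψ (x.coeff n) := by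
  induction hx using Submodule.span_induction generalizing ψ with
  | mem y hy =>
    obtain ⟨g, hg, rfl⟩ := hy
    refine ⟨algebraMap K1 (LaurentSeries K1) (ψ 1) * g,
      mul_mem (IntermediateField.algebraMap_mem _ _) hg, fun n => ?_⟩
    rw [algebraMap_laurentSeries_eq_single]
    show (HahnSeries.C (ψ 1) * g).coeff n = _
    rw [HahnSeries.C_mul_eq_smul, HahnSeries.coeff_smul, coeffMap_coeff,
      Algebra.algebraMap_eq_smul_one, map_smul, smul_eq_mul, smul_eq_mul, mul_comm]
  | zero => exact ⟨0, zero_mem _, fun n => by simp⟩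
  | add y z _ _ hy hz =>
    obtain ⟨w1, h1, e1⟩ := hy ψ
    obtain ⟨w2, h2, e2⟩ := hz ψ
    exact ⟨w1 + w2, add_mem h1 h2, fun n => by simp [e1, e2]⟩
  | smul c y _ hy =>
    obtain ⟨w1, h1, e1⟩ := hy (ψ.comp (LinearMap.mulLeft K1 c))
    refine ⟨w1, h1, fun n => ?_⟩
    rw [e1 n, Algebra.smul_def, algebraMap_laurentSeries_eq_single]
    show _ = ψ ((HahnSeries.C c * y).coeff n)
    rw [HahnSeries.C_mul_eq_smul, HahnSeries.coeff_smul]
    rfl

theorem S36CF_span (N : ℕ) [NeZero N] (x : LaurentSeries K)
    (hx : x ∈ Algebra.adjoin K (S36CF_img K1 K N)) (ψ : K →ₗ[K1] K1) :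
    ∃ w ∈ modularFunctionFieldFullC K1 N, ∀ n : ℤ, w.coeff n = ψ (x.coeff n) := by
  have hx' : x ∈ Subalgebra.toSubmodule (Algebra.adjoin K (S36CF_img K1 K N)) := hx
  rw [Algebra.adjoin_eq_span, S36CF_img_eq, Submonoid.closure_eq, ← S36CF_img_eq] at hx'
  exact S36CF_span_aux N x hx' ψ

/-- **the `K`-span of the image of `F(K1, N)` contains `F(K, N)`** (`K / K1` algebraic) -/
theorem S36CF_le_span [Algebra.IsAlgebraic K1 K] (N : ℕ) [NeZero N] (x : LaurentSeries K)
    (hx : x ∈ modularFunctionFieldFullC K N) :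
    x ∈ Algebra.adjoin K (S36CF_img K1 K N) := by
  let ι : modularFunctionFieldFullC K1 N →+* LaurentSeries K :=
    (coeffMap (algebraMap K1 K)).comp (algebraMap (modularFunctionFieldFullC K1 N)
      (LaurentSeries K1))
  letI : Algebra (modularFunctionFieldFullC K1 N) (LaurentSeries K) := ι.toAlgebra
  let S : Set (LaurentSeries K) := Set.range (algebraMap K (LaurentSeries K))
  have hS : ∀ y ∈ S, IsAlgebraic (modularFunctionFieldFullC K1 N) y := by
    rintro _ ⟨c, rfl⟩
    have h1 : IsIntegral K1 c := (Algebra.IsAlgebraic.isAlgebraic c).isIntegral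
    refine (IsIntegral.map_of_comp_eq (algebraMap K1 (modularFunctionFieldFullC K1 N))
      (algebraMap K (LaurentSeries K)) ?_ h1).isAlgebraic
    ext a : 1
    show coeffMap (algebraMap K1 K) (algebraMap K1 (LaurentSeries K1) a)
      = algebraMap K (LaurentSeries K) (algebraMap K1 K a)
    rw [S18G_coeffMap_algebraMap]
  have h1 : x ∈ IntermediateField.adjoin (modularFunctionFieldFullC K1 N) S := by
    unfold modularFunctionFieldFullC at hx
    induction hx using IntermediateField.adjoin_induction with
    | mem y hy =>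
      obtain ⟨d, hd0, hd, rfl⟩ := hy
      rw [← S18G_coeffMap_gen (algebraMap K1 K) d]
      exact (IntermediateField.adjoin (modularFunctionFieldFullC K1 N) S).algebraMap_mem
        ⟨_, jqModCd_mem_full K1 N hd⟩
    | algebraMap c => exact IntermediateField.subset_adjoin _ _ ⟨c, rfl⟩
    | add y z _ _ h1 h2 => exact add_mem h1 h2
    | inv y _ h => exact inv_mem h
    | mul y z _ _ h1 h2 => exact mul_mem h1 h2
  have h2 : x ∈ Algebra.adjoin (modularFunctionFieldFullC K1 N) S := by
    rw [← IntermediateField.adjoin_toSubalgebra_of_isAlgebraic hS]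
    exact h1
  clear h1 hx
  induction h2 using Algebra.adjoin_induction with
  | mem y hy =>
    obtain ⟨c, rfl⟩ := hy
    exact Subalgebra.algebraMap_mem _ c
  | algebraMap g => exact Algebra.subset_adjoin ⟨g.1, g.2, rfl⟩
  | add y z _ _ h1 h2 => exact add_mem h1 h2
  | mul y z _ _ h1 h2 => exact mul_mem h1 h2

/-- **descent of the field of constants**, general form -/
theorem S36CF_descent [Algebra.IsAlgebraic K1 K] (N : ℕ) [NeZero N] (f : LaurentSeries K)
    (hf : f ∈ modularFunctionFieldFullC K N)
    (hc : ∀ n : ℤ, ∃ a : K1, algebraMap K1 K a = f.coeff n) :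
    ∃ w ∈ modularFunctionFieldFullC K1 N, coeffMap (algebraMap K1 K) w = f := by
  obtain ⟨ψ, hψ⟩ := (Algebra.linearMap K1 K).exists_leftInverse_of_injective
    (LinearMap.ker_eq_bot.mpr (algebraMap K1 K).injective)
  obtain ⟨w, hw, e⟩ := S36CF_span N f (S36CF_le_span N f hf) ψ
  refine ⟨w, hw, ?_⟩
  ext n
  obtain ⟨a, ha⟩ := hc n
  rw [coeffMap_coeff, e n, ← ha]
  congr 1
  exact congrArg (fun φ : K1 →ₗ[K1] K1 => φ a) hψ

end General

/-- **(C) COEFF** (helper21's statement #1705, verbatim) -/
theorem S36DS_coeff_descent (N : ℕ) [NeZero N] (K1 : IntermediateField ℚ Qb)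
    (f : LaurentSeries Qb) (hf : f ∈ modularFunctionFieldFullC Qb N)
    (hc : ∀ n : ℤ, f.coeff n ∈ K1) :
    ∃ w ∈ modularFunctionFieldFullC K1 N, coeffMap (algebraMap K1 Qb) w = f := by
  haveI : Algebra.IsAlgebraic ℚ Qb := AlgebraicClosure.isAlgebraic ℚ
  haveI : Algebra.IsAlgebraic K1 Qb := Algebra.IsAlgebraic.tower_top (K := ℚ) K1
  exact S36CF_descent N f hf (fun n => ⟨⟨f.coeff n, hc n⟩, rfl⟩)

/-- membership form -/
theorem S36CF_mem (N : ℕ) [NeZero N] (K1 : IntermediateField ℚ Qb)
    (g : LaurentSeries K1)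
    (hg : coeffMap (algebraMap K1 Qb) g ∈ modularFunctionFieldFullC Qb N) :
    g ∈ modularFunctionFieldFullC K1 N := by
  obtain ⟨w, hw, e⟩ := S36DS_coeff_descent N K1 _ hg (fun n => by
    rw [coeffMap_coeff]; exact (g.coeff n).2)
  rwa [← S18G_coeffMap_injective _ e]

end Fermat.Agent.S36_helper4_COEFF
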