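import Mathlib
import Fermat.Agent.S36_helper4_GEOMAIN
import Fermat.Agent.S36_helper3_XBKEY

/-!
# S36, (GEO36) from the contract of Part II with the bricks ALONE (helper4)

`S36GM2_geoInput` : **`S36C_GeoInput`** from helper3's `S36XB_Input (N' * r) q lam c hq hqM A`
(`r = S36BC_aux q`), i.e. Part I (`S36XA_geo`), the H90 descent (`S36GM_desc`), the descent
`N' * r → N'` (helper23, helper25) and Part II's key statement (`S36XB_keyK1`, helper3)
composed.  After this file, (GEO36) is exactly: for `q` prime, `lam` prime, `q ≠ lam`,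
`lam ≠ 2`, `q ∤ N'`, `A` over `q`: `∃ c, S36XB_Input (N' * r) q lam c hq hqM A`.
-/

set_option autoImplicit false
set_option linter.unusedSectionVars false
set_option linter.unusedVariables false
set_option linter.style.haveILetI false

open AlgebraicCurve ModularCurve
open Fermat.Agent.S36_helper18_Contracts Fermat.Agent.S36_helper4_XADefs
  Fermat.Agent.S36_helper4_GEOMAIN Fermat.Agent.S36_helper23_BCPLUG
  Fermat.Agent.S36_helper3_XBDefs Fermat.Agent.S36_helper3_XBKEY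

noncomputable section

namespace Fermat.Agent.S36_helper4_GEOMAIN2

local notation "Qb" => AlgebraicClosure ℚ

/-- (GEO36) at the level `M' * q * q` from the contract of Part II. -/
theorem S36GM2_geoAt (M' q lam : ℕ) [NeZero M'] [NeZero q] [NeZero (M' * q)]
    [NeZero (M' * q * q)] [NeZero (q ^ 2)] (hq : q.Prime) (hqM : ¬ q ∣ M') (hlam : lam.Prime)
    (hne : q ≠ lam)
    (hin : ∀ A : ValuationSubring Qb, A.LiesOverPrime q →
      ∃ c : ℕ, S36XB_Input M' q lam c hq hqM A) :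
    S36C_GeoAt M' q lam :=
  S36GM_geoAt M' q lam hq hqM hlam (fun A hA => by
    obtain ⟨c, hc⟩ := hin A hA
    exact ⟨c, S36XB_keyK1 M' q lam c hq hqM A hlam hne.symm hA hc⟩)

/-- **`S36C_GeoInput` from the contract of Part II at the levels `N' * r`.** -/
theorem S36GM2_geoInput
    (hin : ∀ (N' q lam : ℕ) [NeZero N'] [NeZero q] (hq : q.Prime), lam.Prime → q ≠ lam →
      lam ≠ 2 → ∀ (hqN : ¬ q ∣ N') (A : ValuationSubring Qb), A.LiesOverPrime q →
      ∃ c : ℕ, @S36XB_Input (N' * S36BC_aux q) q lam c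
        ⟨mul_ne_zero (NeZero.ne N') (S36BC_aux_ne_zero q)⟩ _
        ⟨mul_ne_zero (mul_ne_zero (NeZero.ne N') (S36BC_aux_ne_zero q)) (NeZero.ne q)⟩
        ⟨mul_ne_zero (mul_ne_zero (mul_ne_zero (NeZero.ne N') (S36BC_aux_ne_zero q))
          (NeZero.ne q)) (NeZero.ne q)⟩
        ⟨pow_ne_zero 2 (NeZero.ne q)⟩ hq (S36GM_not_dvd hq hqN) A) :
    S36C_GeoInput :=
  S36GM_geoInput (fun N' q lam _ _ hq hlam hne hlam2 hqN A hA => by
    obtain ⟨c, hc⟩ := hin N' q lam hq hlam hne hlam2 hqN A hA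
    exact ⟨c, @S36XB_keyK1 (N' * S36BC_aux q) q lam c
      ⟨mul_ne_zero (NeZero.ne N') (S36BC_aux_ne_zero q)⟩ _
      ⟨mul_ne_zero (mul_ne_zero (NeZero.ne N') (S36BC_aux_ne_zero q)) (NeZero.ne q)⟩
      ⟨mul_ne_zero (mul_ne_zero (mul_ne_zero (NeZero.ne N') (S36BC_aux_ne_zero q))
        (NeZero.ne q)) (NeZero.ne q)⟩
      ⟨pow_ne_zero 2 (NeZero.ne q)⟩ hq (S36GM_not_dvd hq hqN) A hlam hne.symm hA hc⟩)

end Fermat.Agent.S36_helper4_GEOMAIN2
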