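import Mathlib
import Fermat.Agent.S36_helper4_DEG
import Fermat.Agent.S35_helper20_NORMBK
import Fermat.Agent.S35_helper27_XD2Defs

/-!
# S36, NORM-BRIDGE36, the `α` side (helper4)

Level `N * q` with a prime `q ∣ N` (for S36: `N = M' * q`).  For a divisor `D` on `X₀(N q)` over
`ℚ̄` with `div f = n • D` (`0 < n`) whose push-forward along `α : X₀(N q) → X₀(N)` is principal:

* `S36NB_desc_mul`     : the norm of `F1(K1, N q) / F1(K1, N)` goes to the norm along
  `heckeAlphaBar` (level `ℚ̄`) under the coefficient embedding (the degree is `q` on both sides: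
  `S36DG_finrank_alpha`, `S36DG_hdeg`);
* `S36NB_alpha_main`   : there is `hA` of level `N` over `ℚ̄` such that over EVERY field of
  constants `K1` over which `f` and `hA` are defined the norm of `f` is `hA ^ n`;
* `S36NB_alpha_finset` : a finite set `S` of constants such that over every `K1 ⊇ S` every
  `K1`-form `f1` of `f` satisfies the landed predicate `S35XD2_NewAlpha K1 q N n f1 hf1`
  (that definition carries no coprimality hypothesis: at `N' := N` it is the newness along `α`
  in norm form at level `N * q`).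
-/

set_option autoImplicit false
set_option linter.unusedSectionVars false
set_option linter.unusedVariables false
set_option linter.style.haveILetI false

open HahnSeries IntermediateField AlgebraicCurve ModularCurve Module
open Fermat.Agent.S35_helper20_NORMB Fermat.Agent.S35_helper20_NORMBK
  Fermat.Agent.S36_helper4_DEG
  Fermat.Agent.S18_helper25_COREDefs Fermat.Agent.S18_helper25_GLUE
  Fermat.Agent.S34_helper13_KEY Fermat.Agent.S34_helper27_V3K Fermat.Agent.S34_helper20_V0K
  Fermat.Agent.S35_helper27_XD2Defs Fermat.Agent.S24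

noncomputable section

namespace Fermat.Agent.S36_helper4_NB

local notation "Qb" => AlgebraicClosure ℚ

section Descent

variable (K1 : IntermediateField ℚ Qb) (N q : ℕ) [NeZero N] [NeZero q] [NeZero (N * q)]

/-- **(NB2), level `N q`, `q ∣ N`**: the norm of `F1(K1, N q) / F1(K1, N)` goes to the norm
along `heckeAlphaBar` under the coefficient embedding. -/
theorem S36NB_desc_mul (hq : q.Prime) (hqN : q ∣ N) (hN : N * q = q * N)
    (x : ↥(S18K_F1 K1 (N * q))) :
    (letI := algebraAlong (heckeAlphaBar Qb N q)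
     Algebra.norm ↥(modularFunctionFieldBar N) (S35NBK_inc K1 (N * q) x)) =
    (letI := S34KEY_alg (S34V3K_F1_mono K1 (S34V0K_dvd hN))
     S35NBK_inc K1 N (Algebra.norm ↥(S18K_F1 K1 N) x)) := by
  letI i1 := algebraAlong (heckeAlphaBar Qb N q)
  letI i2 := S34KEY_alg (S34V3K_F1_mono K1 (S34V0K_dvd hN))
  haveI : Module.Finite ↥(modularFunctionFieldBar N) ↥(modularFunctionFieldBar (N * q)) :=
    Fermat.Agent.S37_helper21_B0c.S37B0_finiteAlong_alpha N q
  obtain ⟨hfd, hle⟩ := S34KEY_finrank_le (S34V3K_F1_mono K1 (S34V0K_dvd hN))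
    (S36DG_hdeg K1 N q hq hqN)
  haveI := hfd
  refine S35NB_norm_map (S35NBK_inc K1 N) (S35NBK_inc K1 (N * q))
    (S35NBK_comm K1 N q hN)
    (S35NB_top_le_span _ (S35NBK_adjoin K1 N q)) ?_ x
  rw [S36DG_finrank_alpha N q hq hqN]
  exact hle

end Descent

section Main

variable (N q : ℕ) [NeZero N] [NeZero q] [NeZero (N * q)]
  (hq : q.Prime) (hqN : q ∣ N)

include hq hqN

/-- **NORM-BRIDGE36, `α` side.**  `D` a divisor on `X₀(N q)` over `ℚ̄` with `div f = n • D`
whose push-forward to `X₀(N)` along `α` is principal: there is `hA` of level `N` over `ℚ̄` such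
that over EVERY field of constants `K1` over which `f` and `hA` are defined, the norm of `f` is
`hA ^ n`. -/
theorem S36NB_alpha_main (n : ℕ) (hn : 0 < n)
    (hα : HeckeAlphaBarIntegral Qb N q)
    (D : Divisor Qb (modularFunctionFieldBar (N * q)))
    (f : modularFunctionFieldBar (N * q)) (hf : f ≠ 0)
    (hord : ∀ P : Place Qb (modularFunctionFieldBar (N * q)), P.ord f = (n : ℤ) * D P)
    (hprα : (Divisor.pushforwardAlong (heckeAlphaBar Qb N q) hα D).IsPrincipal) :
    ∃ hA : LaurentSeries Qb,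
      hA ∈ modularFunctionFieldFullC Qb N ∧ hA ≠ 0 ∧
      ∀ (K1 : IntermediateField ℚ Qb) (f1 h1 : LaurentSeries K1)
        (hf1 : f1 ∈ modularFunctionFieldFullC K1 (N * q)),
        coeffMap (algebraMap K1 Qb) f1 = (f : LaurentSeries Qb) →
        h1 ∈ modularFunctionFieldFullC K1 N → coeffMap (algebraMap K1 Qb) h1 = hA →
        letI := S34KEY_alg (S34V3K_F1_mono K1 (S34V0K_dvd (Nat.mul_comm N q)))
        ((Algebra.norm ↥(S18K_F1 K1 N) (⟨f1, hf1⟩ : ↥(S18K_F1 K1 (N * q))) :
          ↥(S18K_F1 K1 N)) : LaurentSeries K1) = h1 ^ n := by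
  obtain ⟨hA, hA0, eA⟩ := S35NBK_norm_pow (heckeAlphaBar Qb N q) hα
    (Fermat.Agent.S37_helper21_B0c.S37B0_finiteAlong_alpha N q)
    (S35NBK_normFormula N q _ _) (S35NBK_const N) n hn D f hf hord hprα
  refine ⟨hA, S18G_bar_le N hA.2, fun h => hA0 (Subtype.ext h), ?_⟩
  intro K1 f1 h1 hf1 ef hh1 e1
  letI := S34KEY_alg (S34V3K_F1_mono K1 (S34V0K_dvd (Nat.mul_comm N q)))
  apply S18G_coeffMap_injective (algebraMap K1 Qb)
  rw [map_pow, e1]
  have h := S36NB_desc_mul K1 N q hq hqN (Nat.mul_comm N q) ⟨f1, hf1⟩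
  have hinc : S35NBK_inc K1 (N * q) ⟨f1, hf1⟩ = f := Subtype.ext ef
  rw [hinc, eA] at h
  have h' := congrArg (fun z : ↥(modularFunctionFieldBar N) => (z : LaurentSeries Qb)) h
  exact h'.symm

/-- **NORM-BRIDGE36, `α` side, with the level chosen by the consumer**: a finite set `S` of
constants such that over every `K1 ⊇ S` every `K1`-form `f1` of `f` is new along `α` in norm
form (`S35XD2_NewAlpha K1 q N n f1 hf1`, with the constant `c = 1`). -/
theorem S36NB_alpha_finset (n : ℕ) (hn : 0 < n)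
    (hα : HeckeAlphaBarIntegral Qb N q)
    (D : Divisor Qb (modularFunctionFieldBar (N * q)))
    (f : modularFunctionFieldBar (N * q)) (hf : f ≠ 0)
    (hord : ∀ P : Place Qb (modularFunctionFieldBar (N * q)), P.ord f = (n : ℤ) * D P)
    (hprα : (Divisor.pushforwardAlong (heckeAlphaBar Qb N q) hα D).IsPrincipal) :
    ∃ S : Finset Qb, ∀ (K1 : IntermediateField ℚ Qb), (∀ s ∈ S, s ∈ K1) →
      ∀ (f1 : LaurentSeries K1) (hf1 : f1 ∈ S18K_F1 K1 (N * q)),
        coeffMap (algebraMap K1 Qb) f1 = (f : LaurentSeries Qb) →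
        S35XD2_NewAlpha K1 q N n f1 hf1 := by
  classical
  obtain ⟨hA, hAF, hA0, H⟩ := S36NB_alpha_main N q hq hqN n hn hα D f hf hord hprα
  obtain ⟨S₁, hS₁⟩ := S18G_exists_finset (k₀ := ℚ) N hAF
  refine ⟨S₁, fun K1 hK f1 hf1 ef => ?_⟩
  obtain ⟨h1, hh1, e1⟩ := hS₁ K1 hK
  have E1 := H K1 f1 h1 hf1 ef hh1 e1
  have h10 : h1 ≠ 0 := by
    rintro rfl
    rw [map_zero] at e1
    exact hA0 e1.symm
  refine ⟨1, one_ne_zero, h1, hh1, h10, ?_⟩
  rw [map_one, one_mul]
  exact E1

end Main

end Fermat.Agent.S36_helper4_NB
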