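import Mathlib
import Fermat.Agent.S36_helper6_TORKK
import Fermat.Agent.S36_helper3_GEO

/-!
# S36, GEO36: the open input (II) `S36XB_HPt` of helper3's `S36XB_locContract_of` (helper6)

`S36TKK_HPt` : helper3's `S36XB_HPt A K1 M' q hq hqM` (= `hptα ∧ hptβ` for the canonical
family at the carriers) from [THICK] at every crossing (`S36TKK_Thick`), for any auxiliary
Hauptmodul datum `D : S36AUX_Data r` with `r ∣ M'`.
-/

set_option autoImplicit false
set_option linter.unusedSectionVars false
set_option linter.unusedVariables false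
set_option linter.style.haveILetI false
set_option synthInstance.maxHeartbeats 400000
set_option maxHeartbeats 1600000

open HahnSeries ModularCurve
open Fermat.Agent.S18_helper13_GAUSS Fermat.Agent.S18_helper25_COREDefs
  Fermat.Agent.S36_helper8_AUXDefs Fermat.Agent.S36_helper3_GEO
  Fermat.Agent.S36_helper6_TORKK

noncomputable section

namespace Fermat.Agent.S36_helper6_TORKH

local notation "Qb" => AlgebraicClosure ℚ

variable (A : ValuationSubring Qb) (K1 : IntermediateField ℚ Qb)
  [IsDiscreteValuationRing (S18K_O1 A K1)] {r : ℕ} [NeZero r] (D : S36AUX_Data r)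
  (q M' : ℕ) [NeZero M'] [NeZero q] [NeZero (M' * q)] [NeZero (M' * q * q)] [NeZero (q ^ 2)]
  [NeZero (q * q)] (hq : q.Prime) (hqM : ¬ q ∣ M') (hr : r ∣ M')

include hr in
/-- **helper3's open input (II)** from [THICK] at every crossing. -/
theorem S36TKK_HPt (hA : A.LiesOverPrime q)
    (hunr : Associated (S18K_D A K1).π ((q : ℕ) : S18K_O1 A K1))
    (hTH : S36TKK_Thick A K1 D q M' hq hqM) : S36XB_HPt A K1 M' q hq hqM :=
  ⟨S36TKK_ptα A K1 D q M' hq hqM hr hA hunr hTH, S36TKK_ptβ A K1 D q M' hq hqM hr hA hunr hTH⟩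

end Fermat.Agent.S36_helper6_TORKH
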