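import Mathlib
import Fermat.Agent.S36_helper7_E1K
import Fermat.Agent.S36_helper18_THICKP

/-!
# S36, GEO36 piece E1 (helper7): the hypothesis `hE1` of `S36THP_main` (THICK-PLUG), closed

`S36THP_E1 A K1 N' h` (helper18's elementwise form of E1 at the chart `S18K_A0 A K1 N'`) for the
two Hauptmoduln: `h = S36AUX_hK K1 S36A4_u` (`q` odd, `4 ∣ N'`) and `h = S36AUX_hK K1 S36A9_u`
(`q ≠ 3`, `9 ∣ N'`), from `S36E1_K4` / `S36E1_K9`.  No hypothesis left.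
-/

set_option autoImplicit false
set_option linter.unusedSectionVars false
set_option linter.style.haveILetI false
set_option linter.unusedVariables false
set_option maxHeartbeats 1000000
set_option synthInstance.maxHeartbeats 400000

noncomputable section

open ModularCurve Fermat.Agent.S18_helper13_GAUSS Fermat.Agent.S18_helper9_CDefs
open Fermat.Agent.S18A Fermat.Agent.S18AK Fermat.Agent.S18_helper25_COREDefs
open Fermat.Agent.S36_helper8_AUXDefs Fermat.Agent.S36_helper18_THICKP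

namespace Fermat.Agent.S36_helper7_E1THP

/-- `π ∈ A0(N')` at the carriers. -/
theorem S36E1_pi_mem_A0 (N' : ℕ) [NeZero N'] {q : ℕ} (hq : q.Prime) (hqN : ¬ q ∣ N')
    (A : ValuationSubring (AlgebraicClosure ℚ)) (hA : A.LiesOverPrime q)
    (K1 : IntermediateField ℚ (AlgebraicClosure ℚ)) [IsDiscreteValuationRing (S18K_O1 A K1)] :
    S18K_π A K1 ∈ S18K_A0 A K1 N' := by
  have S := setupK N' hq A hA hqN K1
  exact Fermat.Agent.S18_helper1_AIVC.S18AIVC_O_le S.chart0 S.O_le S.π_mem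

/-- **`hE1` of THICK-PLUG, `q` odd (`r = 4`).** -/
theorem S36E1_THP4 (N' : ℕ) [NeZero N'] {q : ℕ} (hq : q.Prime) (hq2 : q ≠ 2) (hqN : ¬ q ∣ N')
    (h4 : 4 ∣ N') (A : ValuationSubring (AlgebraicClosure ℚ)) (hA : A.LiesOverPrime q)
    (K1 : IntermediateField ℚ (AlgebraicClosure ℚ)) [IsDiscreteValuationRing (S18K_O1 A K1)]
    (h : S18K_Admissible A K1 q) :
    S36THP_E1 A K1 N' (S36AUX_hK K1 Fermat.Agent.S36_helper8_A4Q.S36A4_u) := by
  intro mB hm hπm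
  have hπ : S18K_π A K1 ∈ S18K_A0 A K1 N' := S36E1_pi_mem_A0 N' hq hqN A hA K1
  obtain ⟨x0, hx0, hx, hxm, hgen⟩ :=
    Fermat.Agent.S36_helper7_E1K.S36E1_K4 N' hq hq2 hqN h4 A hA K1 h hπ mB hm
      (hπm ⟨_, hπ⟩ rfl)
  refine ⟨x0, hx0, fun a ha => ?_, fun b hb => ?_⟩
  · have e : a = ⟨_, hx⟩ := Subtype.ext ha
    rw [e]
    exact hxm
  · obtain ⟨s, hs, α, β, e⟩ := hgen b hb
    exact ⟨s, hs, α, β, congrArg Subtype.val e⟩

/-- **`hE1` of THICK-PLUG, `q ≠ 3` (`r = 9`; used at `q = 2`).** -/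
theorem S36E1_THP9 (N' : ℕ) [NeZero N'] {q : ℕ} (hq : q.Prime) (hq3 : q ≠ 3) (hqN : ¬ q ∣ N')
    (h9 : 9 ∣ N') (A : ValuationSubring (AlgebraicClosure ℚ)) (hA : A.LiesOverPrime q)
    (K1 : IntermediateField ℚ (AlgebraicClosure ℚ)) [IsDiscreteValuationRing (S18K_O1 A K1)]
    (h : S18K_Admissible A K1 q) :
    S36THP_E1 A K1 N' (S36AUX_hK K1 Fermat.Agent.S36_helper24_A9Q.S36A9_u) := by
  intro mB hm hπm
  have hπ : S18K_π A K1 ∈ S18K_A0 A K1 N' := S36E1_pi_mem_A0 N' hq hqN A hA K1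
  obtain ⟨x0, hx0, hx, hxm, hgen⟩ :=
    Fermat.Agent.S36_helper7_E1K.S36E1_K9 N' hq hq3 hqN h9 A hA K1 h hπ mB hm
      (hπm ⟨_, hπ⟩ rfl)
  refine ⟨x0, hx0, fun a ha => ?_, fun b hb => ?_⟩
  · have e : a = ⟨_, hx⟩ := Subtype.ext ha
    rw [e]
    exact hxm
  · obtain ⟨s, hs, α, β, e⟩ := hgen b hb
    exact ⟨s, hs, α, β, congrArg Subtype.val e⟩

/-- transport of the level-`4` datum to any `r = 4`. -/
theorem S36E1_THP_r4 (r : ℕ) (hr : r = 4) [NeZero r] {q : ℕ} (hq : q.Prime) (hq2 : q ≠ 2)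
    (A : ValuationSubring (AlgebraicClosure ℚ)) (hA : A.LiesOverPrime q)
    (K1 : IntermediateField ℚ (AlgebraicClosure ℚ)) [IsDiscreteValuationRing (S18K_O1 A K1)]
    (h : S18K_Admissible A K1 q) :
    ∃ D : S36AUX_Data r, ∀ (N' : ℕ) [NeZero N'], r ∣ N' → ¬ q ∣ N' →
      S36THP_E1 A K1 N' (S36AUX_hK K1 D.u) := by
  subst hr
  exact ⟨Fermat.Agent.S36_helper8_A4Q.S36AUX_fourData, fun N' _ h4 hqN =>
    S36E1_THP4 N' hq hq2 hqN h4 A hA K1 h⟩

/-- transport of the level-`9` datum to any `r = 9`. -/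
theorem S36E1_THP_r9 (r : ℕ) (hr : r = 9) [NeZero r] {q : ℕ} (hq : q.Prime) (hq3 : q ≠ 3)
    (A : ValuationSubring (AlgebraicClosure ℚ)) (hA : A.LiesOverPrime q)
    (K1 : IntermediateField ℚ (AlgebraicClosure ℚ)) [IsDiscreteValuationRing (S18K_O1 A K1)]
    (h : S18K_Admissible A K1 q) :
    ∃ D : S36AUX_Data r, ∀ (N' : ℕ) [NeZero N'], r ∣ N' → ¬ q ∣ N' →
      S36THP_E1 A K1 N' (S36AUX_hK K1 D.u) := by
  subst hr
  exact ⟨Fermat.Agent.S36_helper24_A9Q.S36AUX_nineData, fun N' _ h9 hqN =>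
    S36E1_THP9 N' hq hq3 hqN h9 A hA K1 h⟩

end Fermat.Agent.S36_helper7_E1THP
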