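import Mathlib
import Fermat.Agent.S36_helper7_E1THP
import Fermat.Agent.S36_helper23_BCPLUG

/-!
# S36, GEO36 piece E1 (helper7): `hE1` of THICK-PLUG, uniform in `q`

`S36E1_THP_aux`: for every prime `q` there is an auxiliary datum `D` of level `S36BC_aux q`
(`9` for `q = 2`, `4` otherwise) such that E1 (`S36THP_E1`, helper18) holds for the Hauptmodul
`S36AUX_hK K1 D.u` at every level `N'` prime to `q` and divisible by `S36BC_aux q`.
-/

set_option autoImplicit false
set_option linter.unusedSectionVars false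
set_option linter.style.haveILetI false
set_option linter.unusedVariables false
set_option maxHeartbeats 1000000
set_option synthInstance.maxHeartbeats 400000

noncomputable section

open ModularCurve Fermat.Agent.S18_helper13_GAUSS Fermat.Agent.S18_helper9_CDefs
open Fermat.Agent.S18_helper25_COREDefs
open Fermat.Agent.S36_helper8_AUXDefs Fermat.Agent.S36_helper18_THICKP

namespace Fermat.Agent.S36_helper7_E1AUX

/-- **`hE1` of THICK-PLUG, uniform in `q`**: an auxiliary datum of level `S36BC_aux q`
(`9` for `q = 2`, `4` otherwise) for which E1 holds at every level `N'` prime to `q` and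
divisible by `S36BC_aux q`. -/
theorem S36E1_THP_aux {q : ℕ} (hq : q.Prime)
    (A : ValuationSubring (AlgebraicClosure ℚ)) (hA : A.LiesOverPrime q)
    (K1 : IntermediateField ℚ (AlgebraicClosure ℚ)) [IsDiscreteValuationRing (S18K_O1 A K1)]
    (h : S18K_Admissible A K1 q) [NeZero (Fermat.Agent.S36_helper23_BCPLUG.S36BC_aux q)] :
    ∃ D : S36AUX_Data (Fermat.Agent.S36_helper23_BCPLUG.S36BC_aux q),
      ∀ (N' : ℕ) [NeZero N'], Fermat.Agent.S36_helper23_BCPLUG.S36BC_aux q ∣ N' → ¬ q ∣ N' →
        S36THP_E1 A K1 N' (S36AUX_hK K1 D.u) := by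
  by_cases h2 : q = 2
  · exact Fermat.Agent.S36_helper7_E1THP.S36E1_THP_r9 _ (by rw [h2]; exact Fermat.Agent.S36_helper23_BCPLUG.S36BC_aux_two)
      hq (by omega) A hA K1 h
  · exact Fermat.Agent.S36_helper7_E1THP.S36E1_THP_r4 _ (Fermat.Agent.S36_helper23_BCPLUG.S36BC_aux_odd h2) hq h2 A hA K1 h

end Fermat.Agent.S36_helper7_E1AUX
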