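import Mathlib
import Fermat.Agent.S36_helper24_A9NINE
import Fermat.Agent.S36_helper8_A4Q

/-!
# S36, piece AUX (helper8): the concrete datum of level `9` and its identities

helper24's `S36AUX_nine` is a `Nonempty` statement; the concrete plugs need a named datum whose
series `u` satisfies the identities for `j(Q³)` and `j(Q⁹)`.  No new mathematics here:
everything is a call of helper24's `S36A9H_exists_root`, `S36A9V_V3`, `S36A9V_V9`,
`S36A9G_gen`, `S36A9G_mem` and helper10's `S36A9_phi3`.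

* `S36A9_u`, `S36AUX_nineData : S36AUX_Data 9`;
* `S36A9_relK`, `S36A9_V3K`, `S36A9_V9K` : the three identities over any commutative ring;
* `S36A9_hesse` : the Hesse form of the relation for `j(Q³)` (`t = 1 + 9/h`).
-/

set_option autoImplicit false
set_option maxHeartbeats 4000000
set_option maxRecDepth 100000

open ModularCurve PowerSeries
open Fermat.Agent.S36_helper8_AUXDefs Fermat.Agent.S36_helper24_A9Defs
  Fermat.Agent.S36_helper24_A9ALG Fermat.Agent.S36_helper24_A9H Fermat.Agent.S36_helper24_A9U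
  Fermat.Agent.S36_helper24_A9V Fermat.Agent.S36_helper24_A9G
open Fermat.Agent.S36_helper8_A4Q

noncomputable section

namespace Fermat.Agent.S36_helper8_A9X

/-- the power series `u` with `h = Q⁻¹ u` the Hauptmodul of level `9` -/
def S36A9_u : PowerSeries ℤ := S36A9H_exists_root.choose

theorem S36A9_u_cc : constantCoeff S36A9_u = 1 := S36A9H_exists_root.choose_spec.1

theorem S36A9_u_root :
    S36A9H_at PowerSeries.X S36A9_u ^ 3 = jNum * S36A9H_Bt PowerSeries.X S36A9_u :=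
  S36A9H_exists_root.choose_spec.2

theorem S36A9_phi3' : S36A9_Phi3 (jqModC ℤ) (qExpand ℤ 3 (jqModC ℤ)) = 0 :=
  Fermat.Agent.S36_helper10_AUX9Phi.S36A9_phi3

/-- **The auxiliary Hauptmodul datum of level `9`.** -/
def S36AUX_nineData : S36AUX_Data 9 where
  u := S36A9_u
  hu := S36A9_u_cc
  a := S36A9_a
  B := S36A9_B
  c := S36A9_c
  ha := S36A9G_a_monic
  hB := S36A9G_B_monic
  hdeg := by rw [S36A9G_a_natDegree, S36A9G_B_natDegree]
  rel := S36A9H_rel S36A9_u S36A9_u_root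
  hc := S36A9G_hc
  bez := S36A9G_bez
  mem := S36A9G_mem S36A9_u S36A9_u_cc S36A9_u_root S36A9_phi3'
  gen := S36A9G_gen S36A9_u S36A9_u_cc S36A9_u_root S36A9_phi3'

theorem S36AUX_nineData_u : S36AUX_nineData.u = S36A9_u := rfl

theorem S36AUX_nineData_a : S36AUX_nineData.a = S36A9_a := rfl

theorem S36AUX_nineData_B : S36AUX_nineData.B = S36A9_B := rfl

theorem S36AUX_nineData_c : S36AUX_nineData.c = S36A9_c := rfl

local notation "φ" => coeffMap (Int.castRingHom ℚ)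

/-- `j · B(h) = a(h)³` over `ℤ` -/
theorem S36A9_relZ :
    jqModC ℤ * S36A9_BE (S36AUX_h S36A9_u) = S36A9_aE (S36AUX_h S36A9_u) ^ 3 := by
  apply S36A4_phi_injective
  rw [map_mul, map_pow, coeffMap_jqModC, S36A9G_BE_map, S36A9G_aE_map, S36A4_phi_h]
  exact S36A9H_relQ S36A9_u S36A9_u_root

/-- `j(Q³) · d₃(h) = n₃(h)` over `ℤ` -/
theorem S36A9_V3Z : qExpand ℤ 3 (jqModC ℤ) * S36A9_d3E (S36AUX_h S36A9_u) =
    S36A9_n3E (S36AUX_h S36A9_u) := by
  apply S36A4_phi_injective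
  rw [map_mul, S36A4_phi_j, S36A9G_d3E_map, S36A9G_n3E_map, S36A4_phi_h,
    S36A9V_V3 S36A9_u S36A9_u_cc S36A9_u_root S36A9_phi3',
    div_mul_cancel₀ _ (S36A9V_d3E_ne S36A9_u S36A9_u_cc)]

/-- `j(Q⁹) · d₉(h) = n₉(h)` over `ℤ` -/
theorem S36A9_V9Z : qExpand ℤ 9 (jqModC ℤ) * S36A9_d9E (S36AUX_h S36A9_u) =
    S36A9_n9E (S36AUX_h S36A9_u) := by
  apply S36A4_phi_injective
  rw [map_mul, S36A4_phi_j, S36A9G_d9E_map, S36A9G_n9E_map, S36A4_phi_h,
    S36A9V_V9 S36A9_u S36A9_u_cc S36A9_u_root S36A9_phi3',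
    div_mul_cancel₀ _ (S36A9V_d9E_ne S36A9_u S36A9_u_cc)]

section AnyRing

variable (K : Type*) [CommRing K]

/-- `j · B(h) = a(h)³` over any ring -/
theorem S36A9_relK :
    jqModC K * S36A9_BE (S36AUX_hK K S36A9_u) = S36A9_aE (S36AUX_hK K S36A9_u) ^ 3 := by
  have h := congrArg (coeffMap (Int.castRingHom K)) S36A9_relZ
  rwa [map_mul, map_pow, coeffMap_jqModC, S36A9G_BE_map, S36A9G_aE_map, S36A4_coeffMap_h] at h

/-- `j(Q³) · d₃(h) = n₃(h)` over any ring -/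
theorem S36A9_V3K : qExpand K 3 (jqModC K) * S36A9_d3E (S36AUX_hK K S36A9_u) =
    S36A9_n3E (S36AUX_hK K S36A9_u) := by
  have h := congrArg (coeffMap (Int.castRingHom K)) S36A9_V3Z
  rwa [map_mul, S36A4_coeffMap_j, S36A9G_d3E_map, S36A9G_n3E_map, S36A4_coeffMap_h] at h

/-- `j(Q⁹) · d₉(h) = n₉(h)` over any ring -/
theorem S36A9_V9K : qExpand K 9 (jqModC K) * S36A9_d9E (S36AUX_hK K S36A9_u) =
    S36A9_n9E (S36AUX_hK K S36A9_u) := by
  have h := congrArg (coeffMap (Int.castRingHom K)) S36A9_V9Z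
  rwa [map_mul, S36A4_coeffMap_j, S36A9G_d9E_map, S36A9G_n9E_map, S36A4_coeffMap_h] at h

/-- helper7's form: `j(Q³) · (h³ (h² + 9 h + 27)³) = (h⁴ + 12 h³ + 54 h² + 324 h + 729)³` -/
theorem S36A9_V3K' : qExpand K 3 (jqModC K) *
    (S36AUX_hK K S36A9_u ^ 3 * (S36AUX_hK K S36A9_u ^ 2 + 9 * S36AUX_hK K S36A9_u + 27) ^ 3) =
      (S36AUX_hK K S36A9_u ^ 4 + 12 * S36AUX_hK K S36A9_u ^ 3 + 54 * S36AUX_hK K S36A9_u ^ 2
        + 324 * S36AUX_hK K S36A9_u + 729) ^ 3 :=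
  S36A9_V3K K

end AnyRing

section Hesse

variable (K : Type*) [Field K] [CharZero K]

/-- **The Hesse form**: with `t = 1 + 9/h` (i.e. `t h = h + 9`):
`27 (t (t³ + 8))³ = j(Q³) · (t³ - 1)³`. -/
theorem S36A9_hesse (t : LaurentSeries K) (ht : t * S36AUX_hK K S36A9_u = S36AUX_hK K S36A9_u + 9) :
    27 * (t * (t ^ 3 + 8)) ^ 3 = qExpand K 3 (jqModC K) * (t ^ 3 - 1) ^ 3 := by
  have hV := S36A9_V3K' K
  set h := S36AUX_hK K S36A9_u with hh
  have h0 : h ≠ 0 := by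
    intro h0
    rw [h0, mul_zero, zero_add] at ht
    have h9 : (9 : LaurentSeries K) ≠ 0 := by
      have e : (9 : LaurentSeries K) = HahnSeries.C (9 : K) :=
        (map_ofNat (HahnSeries.C : K →+* LaurentSeries K) 9).symm
      rw [e]
      intro h1
      have h2 : (9 : K) = 0 := HahnSeries.C_injective (h1.trans (map_zero _).symm)
      norm_num at h2
    exact h9 ht.symm
  have h12 : h ^ 12 ≠ 0 := pow_ne_zero _ h0
  apply mul_left_cancel₀ h12
  have e1 : h ^ 12 * (27 * (t * (t ^ 3 + 8)) ^ 3) =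
      27 * ((t * h) * ((t * h) ^ 3 + 8 * h ^ 3)) ^ 3 := by ring
  have e2 : h ^ 12 * (qExpand K 3 (jqModC K) * (t ^ 3 - 1) ^ 3) =
      qExpand K 3 (jqModC K) * (h ^ 3 * ((t * h) ^ 3 - h ^ 3) ^ 3) := by ring
  rw [e1, e2, ht]
  linear_combination (-19683 : LaurentSeries K) * hV

end Hesse

end Fermat.Agent.S36_helper8_A9X
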