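import Mathlib
import Fermat.Agent.S36_helper8_TRUNC

/-!
# S36, piece AUX (helper8): `jNum` modulo `X ^ 13` (generated)

`S36JT13_main : ∃ r, jNum = P + X ^ 13 * r` with the explicit polynomial `P = S36JT13_P`
(the first 13 coefficients of `Q · j`).  Every step is a polynomial identity checked by `ring`.
-/

set_option autoImplicit false
set_option maxHeartbeats 4000000
set_option maxRecDepth 100000

open PowerSeries ModularCurve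
open Fermat.Agent.S36_helper8_TRUNC

noncomputable section

namespace Fermat.Agent.S36_helper8_JT13

local notation "Y" => (Polynomial.X : Polynomial ℤ)

/-- `E₄` modulo `X ^ 13` -/
def S36JT13_E : Polynomial ℤ := 1 + 240 * Y + 2160 * Y ^ 2 + 6720 * Y ^ 3 + 17520 * Y ^ 4 + 30240 * Y ^ 5 + 60480 * Y ^ 6 + 82560 * Y ^ 7 + 140400 * Y ^ 8 + 181680 * Y ^ 9 + 272160 * Y ^ 10 + 319680 * Y ^ 11 + 490560 * Y ^ 12

/-- the Euler product modulo `X ^ 13` -/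
def S36JT13_e : Polynomial ℤ := 1 - Y - Y ^ 2 + Y ^ 5 + Y ^ 7 - Y ^ 12

/-- `η ^ 24 / Q` modulo `X ^ 13` -/
def S36JT13_D : Polynomial ℤ := 1 - 24 * Y + 252 * Y ^ 2 - 1472 * Y ^ 3 + 4830 * Y ^ 4 - 6048 * Y ^ 5 - 16744 * Y ^ 6 + 84480 * Y ^ 7 - 113643 * Y ^ 8 - 115920 * Y ^ 9 + 534612 * Y ^ 10 - 370944 * Y ^ 11 - 577738 * Y ^ 12

/-- `Q · j` modulo `X ^ 13` -/
def S36JT13_P : Polynomial ℤ := 1 + 744 * Y + 196884 * Y ^ 2 + 21493760 * Y ^ 3 + 864299970 * Y ^ 4 + 20245856256 * Y ^ 5 + 333202640600 * Y ^ 6 + 4252023300096 * Y ^ 7 + 44656994071935 * Y ^ 8 + 401490886656000 * Y ^ 9 + 3176440229784420 * Y ^ 10 + 22567393309593600 * Y ^ 11 + 146211911499519294 * Y ^ 12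

theorem S36JT13_hE : S36TR_pi 13 eisenstein4 = S36TR_psi 13 S36JT13_E := by
  refine S36TR_pi_eq_psi 13 _ _ fun m hm => ?_
  rw [S36JT13_E]
  interval_cases m <;>
    simp [eisenstein4, coeff_mk, Polynomial.coeff_X, Polynomial.coeff_one] <;> decide

theorem S36JT13_prod : ∏ n ∈ Finset.range 13, ((1 : Polynomial ℤ) - Y ^ (n + 1)) =
    S36JT13_e + Y ^ 13 * (Y - Y ^ 2 - Y ^ 3 - Y ^ 4 - Y ^ 5 + Y ^ 8 + 2 * Y ^ 9 + Y ^ 10 + Y ^ 11 + Y ^ 12 + Y ^ 13 + Y ^ 15 - Y ^ 16 - Y ^ 17 - 2 * Y ^ 18 - 2 * Y ^ 19 - 2 * Y ^ 20 - 2 * Y ^ 21 - 2 * Y ^ 22 + Y ^ 24 + Y ^ 25 + 2 * Y ^ 26 + Y ^ 27 + 3 * Y ^ 28 + 3 * Y ^ 29 + 2 * Y ^ 30 + Y ^ 31 + Y ^ 32 - Y ^ 33 - Y ^ 34 - 2 * Y ^ 35 - 3 * Y ^ 36 - 3 * Y ^ 37 - Y ^ 38 - 2 * Y ^ 39 - Y ^ 40 - Y ^ 41 + 2 * Y ^ 43 + 2 * Y ^ 44 + 2 * Y ^ 45 + 2 * Y ^ 46 + 2 * Y ^ 47 + Y ^ 48 + Y ^ 49 - Y ^ 50 - Y ^ 52 -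 Y ^ 53 - Y ^ 54 - Y ^ 55 - 2 * Y ^ 56 - Y ^ 57 + Y ^ 60 + Y ^ 61 + Y ^ 62 + Y ^ 63 - Y ^ 64 + Y ^ 66 - Y ^ 71 - Y ^ 73 + Y ^ 76 + Y ^ 77 - Y ^ 78) := by
  simp only [Finset.prod_range_succ, Finset.prod_range_zero, S36JT13_e]
  ring

theorem S36JT13_he : S36TR_pi 13 etaProd = S36TR_psi 13 S36JT13_e := by
  rw [S36TR_pi_etaProd, S36JT13_prod, S36TR_psi_add_X_pow_mul]

/-- truncated product (generated) -/
def S36JT13_t2 : Polynomial ℤ := 1 - 2 * Y - Y ^ 2 + 2 * Y ^ 3 + Y ^ 4 + 2 * Y ^ 5 - 2 * Y ^ 6 - 2 * Y ^ 8 - 2 * Y ^ 9 + Y ^ 10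

theorem S36JT13_t2_eq : S36JT13_e * S36JT13_e = S36JT13_t2 + Y ^ 13 * (2 + 3 * Y - 2 * Y ^ 4 - 2 * Y ^ 6 + Y ^ 11) := by
  simp only [S36JT13_e, S36JT13_e, S36JT13_t2]
  ring

theorem S36JT13_t2_psi : S36TR_psi 13 S36JT13_e * S36TR_psi 13 S36JT13_e = S36TR_psi 13 S36JT13_t2 := by
  rw [← map_mul, S36JT13_t2_eq, S36TR_psi_add_X_pow_mul]

/-- truncated product (generated) -/
def S36JT13_t3 : Polynomial ℤ := 1 - 3 * Y + 5 * Y ^ 3 - 7 * Y ^ 6 + 9 * Y ^ 10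

theorem S36JT13_t3_eq : S36JT13_t2 * S36JT13_e = S36JT13_t3 + Y ^ 13 * (-2 - Y - 3 * Y ^ 2 - 3 * Y ^ 3 - Y ^ 4 + 2 * Y ^ 5 + 2 * Y ^ 7 + 2 * Y ^ 8 - Y ^ 9) := by
  simp only [S36JT13_t2, S36JT13_e, S36JT13_t3]
  ring

theorem S36JT13_t3_psi : S36TR_psi 13 S36JT13_t2 * S36TR_psi 13 S36JT13_e = S36TR_psi 13 S36JT13_t3 := by
  rw [← map_mul, S36JT13_t3_eq, S36TR_psi_add_X_pow_mul]

/-- truncated product (generated) -/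
def S36JT13_t6 : Polynomial ℤ := 1 - 6 * Y + 9 * Y ^ 2 + 10 * Y ^ 3 - 30 * Y ^ 4 + 11 * Y ^ 6 + 42 * Y ^ 7 - 70 * Y ^ 9 + 18 * Y ^ 10 - 54 * Y ^ 11 + 49 * Y ^ 12

theorem S36JT13_t6_eq : S36JT13_t3 * S36JT13_t3 = S36JT13_t6 + Y ^ 13 * (90 - 126 * Y ^ 3 + 81 * Y ^ 7) := by
  simp only [S36JT13_t3, S36JT13_t3, S36JT13_t6]
  ring

theorem S36JT13_t6_psi : S36TR_psi 13 S36JT13_t3 * S36TR_psi 13 S36JT13_t3 = S36TR_psi 13 S36JT13_t6 := by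
  rw [← map_mul, S36JT13_t6_eq, S36TR_psi_add_X_pow_mul]

/-- truncated product (generated) -/
def S36JT13_t12 : Polynomial ℤ := 1 - 12 * Y + 54 * Y ^ 2 - 88 * Y ^ 3 - 99 * Y ^ 4 + 540 * Y ^ 5 - 418 * Y ^ 6 - 648 * Y ^ 7 + 594 * Y ^ 8 + 836 * Y ^ 9 + 1056 * Y ^ 10 - 4104 * Y ^ 11 - 209 * Y ^ 12

theorem S36JT13_t12_eq : S36JT13_t6 * S36JT13_t6 = S36JT13_t12 + Y ^ 13 * (3924 + 486 * Y + 2680 * Y ^ 2 - 8424 * Y ^ 3 + 324 * Y ^ 4 + 1442 * Y ^ 5 + 1596 * Y ^ 6 + 7884 * Y ^ 7 - 8804 * Y ^ 8 + 4680 * Y ^ 9 - 5292 * Y ^ 10 + 2401 * Y ^ 11) := by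
  simp only [S36JT13_t6, S36JT13_t6, S36JT13_t12]
  ring

theorem S36JT13_t12_psi : S36TR_psi 13 S36JT13_t6 * S36TR_psi 13 S36JT13_t6 = S36TR_psi 13 S36JT13_t12 := by
  rw [← map_mul, S36JT13_t12_eq, S36TR_psi_add_X_pow_mul]

/-- truncated product (generated) -/
def S36JT13_t24 : Polynomial ℤ := 1 - 24 * Y + 252 * Y ^ 2 - 1472 * Y ^ 3 + 4830 * Y ^ 4 - 6048 * Y ^ 5 - 16744 * Y ^ 6 + 84480 * Y ^ 7 - 113643 * Y ^ 8 - 115920 * Y ^ 9 + 534612 * Y ^ 10 - 370944 * Y ^ 11 - 577738 * Y ^ 12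

theorem S36JT13_t24_eq : S36JT13_t12 * S36JT13_t12 = S36JT13_t24 + Y ^ 13 * (393648 + 1316844 * Y + 521136 * Y ^ 2 - 6004374 * Y ^ 3 + 2829816 * Y ^ 4 + 7446932 * Y ^ 5 - 2839056 * Y ^ 6 - 5995044 * Y ^ 7 - 9017096 * Y ^ 8 + 16401408 * Y ^ 9 + 1715472 * Y ^ 10 + 43681 * Y ^ 11) := by
  simp only [S36JT13_t12, S36JT13_t12, S36JT13_t24]
  ring

theorem S36JT13_t24_psi : S36TR_psi 13 S36JT13_t12 * S36TR_psi 13 S36JT13_t12 = S36TR_psi 13 S36JT13_t24 := by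
  rw [← map_mul, S36JT13_t24_eq, S36TR_psi_add_X_pow_mul]

theorem S36JT13_t24_eq_D : S36JT13_t24 = S36JT13_D := rfl

theorem S36JT13_hD : S36TR_psi 13 S36JT13_e ^ 24 = S36TR_psi 13 S36JT13_D := by
  have h2 := S36JT13_t2_psi
  have h3 := S36JT13_t3_psi
  have h6 := S36JT13_t6_psi
  have h12 := S36JT13_t12_psi
  have h24 := S36JT13_t24_psi
  rw [← S36JT13_t24_eq_D, ← h24, ← h12, ← h6, ← h3, ← h2]
  ring

/-- truncated product (generated) -/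
def S36JT13_E2 : Polynomial ℤ := 1 + 480 * Y + 61920 * Y ^ 2 + 1050240 * Y ^ 3 + 7926240 * Y ^ 4 + 37500480 * Y ^ 5 + 135480960 * Y ^ 6 + 395301120 * Y ^ 7 + 1014559200 * Y ^ 8 + 2296875360 * Y ^ 9 + 4837561920 * Y ^ 10 + 9353842560 * Y ^ 11 + 17342613120 * Y ^ 12

theorem S36JT13_E2_eq : S36JT13_E * S36JT13_E = S36JT13_E2 + Y ^ 13 * (30118233600 + 50739148800 * Y + 79413811200 * Y ^ 2 + 119155104000 * Y ^ 3 + 164292364800 * Y ^ 4 + 221553849600 * Y ^ 5 + 269659468800 * Y ^ 6 + 327979238400 * Y ^ 7 + 352258099200 * Y ^ 8 + 369216921600 * Y ^ 9 + 313644441600 * Y ^ 10 + 240649113600 * Y ^ 11) := by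
  simp only [S36JT13_E, S36JT13_E, S36JT13_E2]
  ring

theorem S36JT13_E2_psi : S36TR_psi 13 S36JT13_E * S36TR_psi 13 S36JT13_E = S36TR_psi 13 S36JT13_E2 := by
  rw [← map_mul, S36JT13_E2_eq, S36TR_psi_add_X_pow_mul]

/-- truncated product (generated) -/
def S36JT13_E3 : Polynomial ℤ := 1 + 720 * Y + 179280 * Y ^ 2 + 16954560 * Y ^ 3 + 396974160 * Y ^ 4 + 4632858720 * Y ^ 5 + 34413301440 * Y ^ 6 + 187477879680 * Y ^ 7 + 814940600400 * Y ^ 8 + 2975469665040 * Y ^ 9 + 9486467837280 * Y ^ 10 + 27053330840640 * Y ^ 11 + 70485969919680 * Y ^ 12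

theorem S36JT13_E3_eq : S36JT13_E2 * S36JT13_E = S36JT13_E3 + Y ^ 13 * (169900559539200 + 376883998617600 * Y + 742756238438400 * Y ^ 2 + 1335919922496000 * Y ^ 3 + 2165648488473600 * Y ^ 4 + 3386578325875200 * Y ^ 5 + 4767344684697600 * Y ^ 6 + 6682867126732800 * Y ^ 7 + 8369774713958400 * Y ^ 8 + 10083316351795200 * Y ^ 9 + 10132707568435200 * Y ^ 10 + 8507592292147200 * Y ^ 11) := by
  simp only [S36JT13_E2, S36JT13_E, S36JT13_E3]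
  ring

theorem S36JT13_E3_psi : S36TR_psi 13 S36JT13_E2 * S36TR_psi 13 S36JT13_E = S36TR_psi 13 S36JT13_E3 := by
  rw [← map_mul, S36JT13_E3_eq, S36TR_psi_add_X_pow_mul]

/-- truncated product (generated) -/
def S36JT13_PD : Polynomial ℤ := 1 + 720 * Y + 179280 * Y ^ 2 + 16954560 * Y ^ 3 + 396974160 * Y ^ 4 + 4632858720 * Y ^ 5 + 34413301440 * Y ^ 6 + 187477879680 * Y ^ 7 + 814940600400 * Y ^ 8 + 2975469665040 * Y ^ 9 + 9486467837280 * Y ^ 10 + 27053330840640 * Y ^ 11 + 70485969919680 * Y ^ 12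

theorem S36JT13_PD_eq : S36JT13_P * S36JT13_D = S36JT13_PD + Y ^ 13 * (-874143789006821856 + 16111903324235956416 * Y - 128895821979598895744 * Y ^ 2 + 545049848097437964891 * Y ^ 3 - 1042477784938112072688 * Y ^ 4 - 927095481411458552000 * Y ^ 5 + 9614763100611201258432 * Y ^ 6 - 17708540104763307742032 * Y ^ 7 - 6294323495467838897760 * Y ^ 8 + 67960253061271929203568 * Y ^ 9 - 67274471975175672270336 * Y ^ 10 - 84472177325909277876972 * Y ^ 11) := by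
  simp only [S36JT13_P, S36JT13_D, S36JT13_PD]
  ring

theorem S36JT13_PD_psi : S36TR_psi 13 S36JT13_P * S36TR_psi 13 S36JT13_D = S36TR_psi 13 S36JT13_PD := by
  rw [← map_mul, S36JT13_PD_eq, S36TR_psi_add_X_pow_mul]

theorem S36JT13_PD_eq_E3 : S36JT13_PD = S36JT13_E3 := rfl

theorem S36JT13_hP : S36TR_psi 13 S36JT13_P * S36TR_psi 13 S36JT13_D = S36TR_psi 13 S36JT13_E ^ 3 := by
  rw [S36JT13_PD_psi, S36JT13_PD_eq_E3, ← S36JT13_E3_psi, ← S36JT13_E2_psi]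
  ring

/-- **`jNum ≡ P` modulo `X ^ 13`** -/
theorem S36JT13_pi : S36TR_pi 13 jNum = S36TR_psi 13 S36JT13_P :=
  S36TR_jNum 13 S36JT13_E S36JT13_e S36JT13_D S36JT13_P S36JT13_hE S36JT13_he S36JT13_hD S36JT13_hP

/-- **`jNum = P + X ^ 13 · r`** -/
theorem S36JT13_main : ∃ r : PowerSeries ℤ, jNum = (S36JT13_P : PowerSeries ℤ) + X ^ 13 * r :=
  S36TR_exists_rem 13 jNum S36JT13_P S36JT13_pi

end Fermat.Agent.S36_helper8_JT13
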