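import Mathlib
import Fermat.Agent.S36_helper9_CUSP0

/-!
# S36, GEO36, (REG36) at the cusps: the mirror cusp (helper9)

Abstract layer.  Three charts `Ainf = icl O[1/j]`, `A1 = icl O[1/θ₁]`, `At = icl O[1/θ]`
(`θ₁ = j_q`, `θ = j_qq`), the modular relations of level `q` between `(j, θ₁)` and `(θ₁, θ)`,
and `σ : Ainf ≃ At` induced by the Atkin-Lehner automorphism `w_(q²)`.

* `S36CM_mirror` : for every cusp `m` of `Ainf` there is a cusp `ms` of `Ainf` (the mirror cusp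
  `σ⁻¹ (mt)`, `mt` the cusp of `At` with the same local ring as `m`) such that `[IG]` at `ms`
  gives `[IG]` at `m`, and for all subrings `Q`, `Q'` exchanged by `σ`: `m` has a witness in
  `π Q` iff `ms` has a witness in `π Q'`.
-/

set_option autoImplicit false
set_option linter.style.haveILetI false
set_option linter.unusedVariables false
set_option linter.unusedSectionVars false

namespace Fermat.Agent.S36_helper9_CUSPM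

open Polynomial Fermat.Agent.S18_helper9_CDefs Fermat.Agent.S34_helper12_CDefs
  Fermat.Agent.S18_helper3_LOCRING Fermat.Agent.S18_helper20_CSAT
  Fermat.Agent.S34_helper18_CUSP Fermat.Agent.S34_helper18_CMP
  Fermat.Agent.S34_helper18_CUSPIG Fermat.Agent.S36_helper9_ONE
  Fermat.Agent.S36_helper9_CUSP0

variable {L : Type*} [Field L]

variable {O : Subring L} {π j θ : L} {F1 : Subfield L} {Ainf At : Subring L} {n : ℕ}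

/-- **The mirror cusp.** -/
theorem S36CM_mirror {θ₁ : L} {A1 : Subring L}
    (hAinf : ∀ y, y ∈ Ainf ↔ IsIntegral (adj O j⁻¹) y ∧ y ∈ F1)
    (hA1 : ∀ y, y ∈ A1 ↔ IsIntegral (adj O θ₁⁻¹) y ∧ y ∈ F1)
    (hAt : ∀ y, y ∈ At ↔ IsIntegral (adj O θ⁻¹) y ∧ y ∈ F1)
    (hOF : (O : Set L) ⊆ F1) (hjF : j ∈ F1) (hθ₁F : θ₁ ∈ F1) (hθF : θ ∈ F1)
    (htrj : Transcendental O j) (htrθ₁ : Transcendental O θ₁) (htrθ : Transcendental O θ)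
    (hrel : S34CUSP_Rel O j θ₁ n) (hrel' : S34CUSP_Rel O θ₁ j n)
    (hrel₁ : S34CUSP_Rel O θ₁ θ n) (hrel₁' : S34CUSP_Rel O θ θ₁ n)
    (hπ : π ∈ Ainf) (hu : j⁻¹ ∈ Ainf) (hπ1 : π ∈ A1) (hu1 : θ₁⁻¹ ∈ A1)
    (hπt : π ∈ At) (hut : θ⁻¹ ∈ At) (hOinf : O ≤ Ainf) (hO1 : O ≤ A1) (hOt : O ≤ At)
    (hres : ∀ (m : Ideal Ainf), m.IsMaximal → (⟨π, hπ⟩ : Ainf) ∈ m →
      ∀ z : Ainf, ∃ c : L, ∃ hc : c ∈ O, z - ⟨c, hOinf hc⟩ ∈ m)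
    (hOunit : ∀ (m : Ideal Ainf), m.IsMaximal → (⟨π, hπ⟩ : Ainf) ∈ m →
      ∀ (c : L) (hc : c ∈ O), (⟨c, hOinf hc⟩ : Ainf) ∉ m → c⁻¹ ∈ O)
    (hres1 : ∀ (m : Ideal A1), m.IsMaximal → (⟨π, hπ1⟩ : A1) ∈ m →
      ∀ z : A1, ∃ c : L, ∃ hc : c ∈ O, z - ⟨c, hO1 hc⟩ ∈ m)
    (hOunit1 : ∀ (m : Ideal A1), m.IsMaximal → (⟨π, hπ1⟩ : A1) ∈ m →
      ∀ (c : L) (hc : c ∈ O), (⟨c, hO1 hc⟩ : A1) ∉ m → c⁻¹ ∈ O)
    (σ : Ainf ≃+* At) (hσπ : σ ⟨π, hπ⟩ = ⟨π, hπt⟩) (hσu : σ ⟨j⁻¹, hu⟩ = ⟨θ⁻¹, hut⟩)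
    (m : Ideal Ainf) (hm : m.IsMaximal) (hπm : (⟨π, hπ⟩ : Ainf) ∈ m)
    (hum : (⟨j⁻¹, hu⟩ : Ainf) ∈ m) :
    ∃ ms : Ideal Ainf, ms.IsMaximal ∧ (⟨π, hπ⟩ : Ainf) ∈ ms ∧ (⟨j⁻¹, hu⟩ : Ainf) ∈ ms ∧
      (IGAt π Ainf ms → IGAt π Ainf m) ∧
      ∀ Q Q' : Subring L, Ainf ≤ Q → A1 ≤ Q → At ≤ Q →
        (∀ a : Ainf, (∃ v ∈ Q', (a : L) = π * v) ↔ ∃ v ∈ Q, ((σ a : At) : L) = π * v) →
        ((∃ d : Ainf, d ∉ m ∧ ∃ v ∈ Q, (d : L) = π * v) ↔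
          ∃ d : Ainf, d ∉ ms ∧ ∃ v ∈ Q', (d : L) = π * v) := by
  obtain ⟨m1, hm1, hπm1, hum1, hIGa, hthru_a⟩ :=
    S36C0_step hAinf hA1 hOF hjF hθ₁F htrj htrθ₁ hrel hrel' hπ hu hπ1 hu1 hOinf hO1
      m hm hπm hum (hres m hm hπm) (hOunit m hm hπm)
  obtain ⟨mt, hmt, hπmt, humt, hIGb, hthru_b⟩ :=
    S36C0_step hA1 hAt hOF hθ₁F hθF htrθ₁ htrθ hrel₁ hrel₁' hπ1 hu1 hπt hut hO1 hOt
      m1 hm1 hπm1 hum1 (hres1 m1 hm1 hπm1) (hOunit1 m1 hm1 hπm1)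
  have hmax' : (Ideal.comap (σ : Ainf →+* At) mt).IsMaximal :=
    Ideal.comap_isMaximal_of_surjective (σ : Ainf →+* At) σ.surjective
  refine ⟨Ideal.comap (σ : Ainf →+* At) mt, hmax', ?_, ?_, ?_, ?_⟩
  · rw [Ideal.mem_comap]; simpa [hσπ] using hπmt
  · rw [Ideal.mem_comap]; simpa [hσu] using humt
  · intro hIG'
    exact hIGa (hIGb (S34CIG_IGAt_equiv Ainf At σ π hπ hπt hσπ _ hIG'))
  · intro Q Q' hAinfQ hA1Q hAtQ hσ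
    constructor
    · rintro ⟨d1, hd1m, hd1v⟩
      have hnot : ¬ ∀ b : At, (∃ v ∈ Q, (b : L) = π * v) → b ∈ mt := by
        intro h
        exact hd1m ((hthru_a Q hAinfQ hA1Q).mp ((hthru_b Q hA1Q hAtQ).mp h) d1 hd1v)
      obtain ⟨dt, hdt⟩ := not_forall.mp hnot
      obtain ⟨hdtv, hdtm⟩ := Classical.not_imp.mp hdt
      exact ⟨σ.symm dt, by rw [Ideal.mem_comap]; simpa using hdtm,
        (hσ (σ.symm dt)).mpr (by simpa using hdtv)⟩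
    · rintro ⟨ds, hdsm, hdsv⟩
      have h1 : (σ ds : At) ∉ mt := fun h => hdsm (by rw [Ideal.mem_comap]; exact h)
      have h2 : ∃ v ∈ Q, ((σ ds : At) : L) = π * v := (hσ ds).mp hdsv
      have hnot : ¬ ∀ a : Ainf, (∃ v ∈ Q, (a : L) = π * v) → a ∈ m := by
        intro h
        exact h1 ((hthru_b Q hA1Q hAtQ).mpr ((hthru_a Q hAinfQ hA1Q).mpr h) (σ ds) h2)
      obtain ⟨d, hd⟩ := not_forall.mp hnot
      obtain ⟨hdv, hdm⟩ := Classical.not_imp.mp hd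
      exact ⟨d, hdm, hdv⟩

end Fermat.Agent.S36_helper9_CUSPM
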