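import Fermat.Statements.S37
import Fermat.Agent.S37_helper8_ENDPLUG
import Fermat.Agent.S37_helper4_B1
import Fermat.Agent.S18

set_option autoImplicit false
set_option synthInstance.maxHeartbeats 400000
set_option maxHeartbeats 1600000
open ModularCurve

namespace Fermat.Agent.S37

theorem result (N p : ℕ) [NeZero N] (hcomm : ModularCurve.HeckeOperatorsCommuteBar N) : letI := ModularCurve.heckeModuleBar N; ∀ (_ : SMulCommClass (AlgebraicClosure ℚ ≃ₐ[ℚ] AlgebraicClosure ℚ) ModularCurve.HeckeAlg (ModularCurve.JZero N)), ModularCurve.SpecializationExists (K := ℚ) (L := AlgebraicClosure ℚ) N p (ModularCurve.JZero N) := by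
  exact Fermat.Agent.S37EP.S37EP_of_RI_S18 N p hcomm
    (fun ℓ hℓ hℓN A hA => Fermat.Agent.S37_helper4_B1.S37B1_reductionInputs N hℓ hℓN A hA)
    (fun ℓ hℓ hℓN A hA h m hm z hmz hz =>
      haveI : Fact ℓ.Prime := ⟨hℓ⟩
      Fermat.Agent.S18.result N hℓN A hA h m hm z hmz hz)

end Fermat.Agent.S37
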