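import Mathlib
import Fermat.Prelude.Def_AlgebraicCurve_DivisorPushPull
import Fermat.Agent.S24_helper15_A1
import Fermat.Agent.S24_helper6_A2
import Fermat.Agent.S18_helper26_PLACE

/-!
# S37, block B1-DEF (part 1, abstract): values at a place and places from centres

* `S37DEF_val P hP : O_P →+* K`, the value of a function at a place `P` whose residue field is
  `K` (`hP : Function.Surjective (algebraMap K P.ResidueField)`);
* `S37DEF_exists_place`: a subring `R ⊇ k` of a function field `F / k` together with a ring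
  homomorphism `ε : R → k` killing a transcendental element has a *centre*: a place `Q` of `F`
  with `R ⊆ O_Q` and `ker ε ⊆ m_Q`.
-/

set_option autoImplicit false
set_option linter.unusedSectionVars false
set_option linter.style.haveILetI false

open AlgebraicCurve IntermediateField

namespace Fermat.Agent.S37_helper11_B1DEF

section Value

variable {K F : Type*} [Field K] [Field F] [Algebra K F] (P : Place K F)
  (hP : Function.Surjective (algebraMap K P.ResidueField))

/-- The identification of the constants with the residue field of a place of degree one. -/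
noncomputable def S37DEF_resEquiv : K ≃+* P.ResidueField :=
  RingEquiv.ofBijective (algebraMap K P.ResidueField)
    ⟨(algebraMap K P.ResidueField).injective, hP⟩

/-- The value of a function at a place of degree one. -/
noncomputable def S37DEF_val : P.toValuationSubring →+* K :=
  ((S37DEF_resEquiv P hP).symm : P.ResidueField →+* K).comp
    (IsLocalRing.residue P.toValuationSubring)

theorem S37DEF_algebraMap_val (y : P.toValuationSubring) :
    algebraMap K P.ResidueField (S37DEF_val P hP y) = IsLocalRing.residue _ y :=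
  (S37DEF_resEquiv P hP).apply_symm_apply _

/-- The constant function `c`, as an element of the valuation ring. -/
def S37DEF_const (c : K) : P.toValuationSubring := ⟨algebraMap K F c, P.algebraMap_mem' c⟩

theorem S37DEF_residue_const (c : K) :
    IsLocalRing.residue P.toValuationSubring (S37DEF_const P c) = algebraMap K P.ResidueField c :=
  rfl

@[simp]
theorem S37DEF_val_const (c : K) : S37DEF_val P hP (S37DEF_const P c) = c := by
  apply (algebraMap K P.ResidueField).injective
  rw [S37DEF_algebraMap_val, S37DEF_residue_const]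

theorem S37DEF_val_eq_zero_iff (y : P.toValuationSubring) :
    S37DEF_val P hP y = 0 ↔ y ∈ IsLocalRing.maximalIdeal P.toValuationSubring := by
  rw [← IsLocalRing.residue_eq_zero_iff, ← S37DEF_algebraMap_val P hP y,
    map_eq_zero_iff _ (algebraMap K P.ResidueField).injective]

theorem S37DEF_val_eq_zero_iff_valuation (y : P.toValuationSubring) :
    S37DEF_val P hP y = 0 ↔ P.toValuationSubring.valuation (y : F) < 1 := by
  rw [S37DEF_val_eq_zero_iff, ValuationSubring.valuation_lt_one_iff]

/-- `y - y(P)` lies in the maximal ideal. -/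
theorem S37DEF_sub_val_mem (y : P.toValuationSubring) :
    y - S37DEF_const P (S37DEF_val P hP y) ∈ IsLocalRing.maximalIdeal P.toValuationSubring := by
  rw [← S37DEF_val_eq_zero_iff P hP, map_sub, S37DEF_val_const, sub_self]

/-- The value is the unique constant congruent to `y` modulo the maximal ideal. -/
theorem S37DEF_val_eq_iff (y : P.toValuationSubring) (c : K) :
    S37DEF_val P hP y = c ↔
      y - S37DEF_const P c ∈ IsLocalRing.maximalIdeal P.toValuationSubring := by
  rw [← S37DEF_val_eq_zero_iff P hP, map_sub, S37DEF_val_const, sub_eq_zero]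

theorem S37DEF_val_eq_iff_valuation (y : P.toValuationSubring) (c : K) :
    S37DEF_val P hP y = c ↔ P.toValuationSubring.valuation ((y : F) - algebraMap K F c) < 1 := by
  rw [S37DEF_val_eq_iff, ValuationSubring.valuation_lt_one_iff]
  rfl

end Value

section Near

variable {K : Type*} [Field K] {E : IntermediateField K (LaurentSeries K)}

/-- `y ≡ c` modulo the maximal ideal of the place `P`: the series `y` lies in the function
field `E`, and `y - c` lies in the maximal ideal of `P`. -/
def S37DEF_Near (P : Place K E) (y : LaurentSeries K) (c : K) : Prop :=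
  ∃ h : y ∈ E, P.toValuationSubring.valuation ((⟨y, h⟩ : E) - algebraMap K E c) < 1

variable {P : Place K E}

theorem S37DEF_Near.mem {y : LaurentSeries K} {c : K} (h : S37DEF_Near P y c) : y ∈ E := h.1

theorem S37DEF_near_iff {y : E} {c : K} :
    S37DEF_Near P (y : LaurentSeries K) c ↔
      P.toValuationSubring.valuation (y - algebraMap K E c) < 1 :=
  ⟨fun ⟨_, h⟩ => h, fun h => ⟨y.2, h⟩⟩

theorem S37DEF_valuation_const_le (c : K) :
    P.toValuationSubring.valuation (algebraMap K E c) ≤ 1 :=
  (ValuationSubring.valuation_le_one_iff _ _).2 (P.algebraMap_mem' c)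

theorem S37DEF_Near.mem_valuationSubring {y : LaurentSeries K} {c : K}
    (h : S37DEF_Near P y c) : (⟨y, h.1⟩ : E) ∈ P.toValuationSubring := by
  obtain ⟨hy, hv⟩ := h
  have h1 : (⟨y, hy⟩ : E) = ((⟨y, hy⟩ : E) - algebraMap K E c) + algebraMap K E c := by ring
  rw [h1]
  exact P.toValuationSubring.add_mem _ _
    ((ValuationSubring.valuation_le_one_iff _ _).1 hv.le) (P.algebraMap_mem' c)

theorem S37DEF_near_const (c : K) : S37DEF_Near P (algebraMap K (LaurentSeries K) c) c := by
  refine ⟨(algebraMap K E c).2, ?_⟩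
  have : (⟨algebraMap K (LaurentSeries K) c, (algebraMap K E c).2⟩ : E) = algebraMap K E c := rfl
  rw [this, sub_self, map_zero]
  exact zero_lt_one

theorem S37DEF_Near.add {y y' : LaurentSeries K} {c c' : K} (h : S37DEF_Near P y c)
    (h' : S37DEF_Near P y' c') : S37DEF_Near P (y + y') (c + c') := by
  obtain ⟨hy, hv⟩ := h
  obtain ⟨hy', hv'⟩ := h'
  refine ⟨add_mem hy hy', ?_⟩
  have h1 : (⟨y + y', add_mem hy hy'⟩ : E) - algebraMap K E (c + c') =
      ((⟨y, hy⟩ : E) - algebraMap K E c) + ((⟨y', hy'⟩ : E) - algebraMap K E c') := by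
    rw [map_add]
    apply Subtype.ext
    push_cast
    ring
  rw [h1]
  exact lt_of_le_of_lt (Valuation.map_add _ _ _) (max_lt hv hv')

theorem S37DEF_Near.neg {y : LaurentSeries K} {c : K} (h : S37DEF_Near P y c) :
    S37DEF_Near P (-y) (-c) := by
  obtain ⟨hy, hv⟩ := h
  refine ⟨neg_mem hy, ?_⟩
  have h1 : (⟨-y, neg_mem hy⟩ : E) - algebraMap K E (-c) = -((⟨y, hy⟩ : E) - algebraMap K E c) := by
    rw [map_neg]
    apply Subtype.ext
    push_cast
    ring
  rw [h1, Valuation.map_neg]
  exact hv

theorem S37DEF_Near.mul {y y' : LaurentSeries K} {c c' : K} (h : S37DEF_Near P y c)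
    (h' : S37DEF_Near P y' c') : S37DEF_Near P (y * y') (c * c') := by
  have hm := h.mem_valuationSubring
  obtain ⟨hy, hv⟩ := h
  obtain ⟨hy', hv'⟩ := h'
  refine ⟨mul_mem hy hy', ?_⟩
  have h1 : (⟨y * y', mul_mem hy hy'⟩ : E) - algebraMap K E (c * c') =
      (⟨y, hy⟩ : E) * ((⟨y', hy'⟩ : E) - algebraMap K E c') +
        algebraMap K E c' * ((⟨y, hy⟩ : E) - algebraMap K E c) := by
    rw [map_mul]
    apply Subtype.ext
    push_cast
    ring
  rw [h1]
  refine lt_of_le_of_lt (Valuation.map_add _ _ _) (max_lt ?_ ?_)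
  · rw [map_mul]
    exact mul_lt_one_of_nonneg_of_lt_one_right
      ((ValuationSubring.valuation_le_one_iff _ _).2 hm) zero_le hv'
  · rw [map_mul]
    exact mul_lt_one_of_nonneg_of_lt_one_right (S37DEF_valuation_const_le c') zero_le hv

theorem S37DEF_near_zero : S37DEF_Near P (0 : LaurentSeries K) 0 := by
  have := S37DEF_near_const (P := P) (0 : K)
  rwa [map_zero] at this

theorem S37DEF_Near.sum {ι : Type*} (s : Finset ι) (y : ι → LaurentSeries K) (c : ι → K)
    (h : ∀ i ∈ s, S37DEF_Near P (y i) (c i)) :
    S37DEF_Near P (∑ i ∈ s, y i) (∑ i ∈ s, c i) := by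
  classical
  induction s using Finset.induction_on with
  | empty => simpa using S37DEF_near_zero (P := P)
  | insert i s hi ih =>
    rw [Finset.sum_insert hi, Finset.sum_insert hi]
    exact (h i (Finset.mem_insert_self i s)).add
      (ih fun j hj => h j (Finset.mem_insert_of_mem hj))

/-- The constant is unique. -/
theorem S37DEF_Near.unique {y : LaurentSeries K} {c c' : K} (h : S37DEF_Near P y c)
    (h' : S37DEF_Near P y c') : c = c' := by
  by_contra hne
  have h1 := h'.add h.neg
  rw [add_neg_cancel] at h1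
  obtain ⟨h0, hv⟩ := h1
  have h2 : (⟨(0 : LaurentSeries K), h0⟩ : E) - algebraMap K E (c' + -c) =
      algebraMap K E (c - c') := by
    apply Subtype.ext
    push_cast
    ring
  rw [h2] at hv
  have hu : IsUnit (⟨algebraMap K E (c - c'), P.algebraMap_mem' _⟩ : P.toValuationSubring) := by
    refine IsUnit.of_mul_eq_one (⟨algebraMap K E (c - c')⁻¹, P.algebraMap_mem' _⟩ :
      P.toValuationSubring) ?_
    apply Subtype.ext
    show algebraMap K E (c - c') * algebraMap K E (c - c')⁻¹ = 1
    rw [← map_mul, mul_inv_cancel₀ (sub_ne_zero.mpr hne), map_one]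
  rw [ValuationSubring.valuation_eq_one_iff] at hu
  exact absurd hu (ne_of_lt hv)

/-- Congruence to `0` is membership in the maximal ideal. -/
theorem S37DEF_near_zero_iff {y : E} :
    S37DEF_Near P (y : LaurentSeries K) 0 ↔ P.toValuationSubring.valuation y < 1 := by
  rw [S37DEF_near_iff, map_zero, sub_zero]

end Near

section Centre

variable {k F : Type*} [Field k] [Field F] [Algebra k F]

/-- **Existence of a centre.** Let `R` be a subring of the function field `F / k` containing `k`
and `ε : R → k` a ring homomorphism killing an element `t` transcendental over `k`.  Then there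
is a place `Q` of `F` whose valuation ring contains `R` and whose maximal ideal contains the
kernel of `ε`. -/
theorem S37DEF_exists_place (R : Subring F) (hk : ∀ a : k, algebraMap k F a ∈ R)
    (ε : R →+* k) (t : R) (ht : Transcendental k (t : F)) (hεt : ε t = 0)
    [FiniteDimensional k⟮(t : F)⟯ F] :
    ∃ Q : Place k F, (∀ a : R, (a : F) ∈ Q.toValuationSubring) ∧
      ∀ a : R, ε a = 0 → Q.toValuationSubring.valuation (a : F) < 1 := by
  haveI hprime : (RingHom.ker ε).IsPrime := RingHom.ker_isPrime ε
  obtain ⟨B, hle, hloc⟩ := (LocalSubring.ofPrime R (RingHom.ker ε)).exists_le_valuationSubring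
  have hRB : ∀ a : R, (a : F) ∈ B := fun a =>
    hle (LocalSubring.le_ofPrime R (RingHom.ker ε) a.2)
  have hker : ∀ a : R, ε a = 0 → B.valuation (a : F) < 1 := by
    intro a ha
    by_contra hcon
    have hmem : (a : F) ∈ B := hRB a
    have hunitB : IsUnit (⟨(a : F), hmem⟩ : B) := by
      rw [ValuationSubring.valuation_eq_one_iff]
      exact le_antisymm ((B.valuation_le_one_iff _).2 hmem) (not_lt.mp hcon)
    -- the inclusion is local, so `a` is a unit of the localisation
    let a' : (LocalSubring.ofPrime R (RingHom.ker ε)).toSubring :=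
      algebraMap R _ a
    have hunitL : IsUnit a' := by
      haveI := hloc
      refine IsUnit.of_map (Subring.inclusion hle) a' ?_
      exact hunitB
    have hnot : a' ∉ IsLocalRing.maximalIdeal (LocalSubring.ofPrime R (RingHom.ker ε)).toSubring :=
      fun h => (IsLocalRing.mem_maximalIdeal _).mp h hunitL
    rw [IsLocalization.AtPrime.to_map_mem_maximal_iff
      (LocalSubring.ofPrime R (RingHom.ker ε)).toSubring (RingHom.ker ε)] at hnot
    exact hnot ((RingHom.mem_ker).mpr ha)
  have htV : B.valuation (t : F) < 1 := hker t hεt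
  have hk' : ∀ a : k, algebraMap k F a ∈ B := fun a => hRB ⟨_, hk a⟩
  have ht0 : (t : F) ≠ 0 := by
    intro h0
    apply ht
    rw [h0]
    exact isAlgebraic_zero
  have hne : B ≠ ⊤ := by
    rintro rfl
    have h1 : (t : F)⁻¹ ∈ (⊤ : ValuationSubring F) := trivial
    have h2 := (ValuationSubring.valuation_le_one_iff _ _).2 h1
    rw [map_inv₀] at h2
    have h3 : (⊤ : ValuationSubring F).valuation (t : F) ≠ 0 :=
      (Valuation.ne_zero_iff _).2 ht0
    have h4 := (inv_le_one₀ (zero_lt_iff.mpr h3)).mp h2
    exact absurd htV (not_lt.mpr h4)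
  refine ⟨⟨B, hk', hne,
    Fermat.Agent.S18_helper26_PLACE.S18P15_isPrincipalIdealRing B hk' (t : F) ht htV⟩, hRB, hker⟩

/-- **Existence of a centre**, for a ring `T` embedded in `F` by an injective homomorphism. -/
theorem S37DEF_exists_place_of_injective {T : Type*} [CommRing T] (Ψ : T →+* F)
    (hΨ : Function.Injective Ψ) (ε : T →+* k)
    (hk : ∀ a : k, ∃ t : T, Ψ t = algebraMap k F a)
    (t₀ : T) (ht₀ : ε t₀ = 0) (ht₀t : Transcendental k (Ψ t₀)) [FiniteDimensional k⟮Ψ t₀⟯ F] :
    ∃ Q : Place k F, (∀ t : T, Ψ t ∈ Q.toValuationSubring) ∧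
      ∀ t : T, ε t = 0 → Q.toValuationSubring.valuation (Ψ t) < 1 := by
  let eΨ : T ≃+* Ψ.range :=
    RingEquiv.ofBijective Ψ.rangeRestrict
      ⟨fun a b h => hΨ (congrArg Subtype.val h), Ψ.rangeRestrict_surjective⟩
  let εb : Ψ.range →+* k := ε.comp (eΨ.symm : Ψ.range →+* T)
  have hεb : ∀ t : T, εb ⟨Ψ t, t, rfl⟩ = ε t := by
    intro t
    show ε (eΨ.symm ⟨Ψ t, t, rfl⟩) = ε t
    congr 1
    rw [RingEquiv.symm_apply_eq]
    rfl
  have hk' : ∀ a : k, algebraMap k F a ∈ Ψ.range := fun a => by
    obtain ⟨t, ht⟩ := hk a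
    exact ⟨t, ht⟩
  obtain ⟨Q, hQ1, hQ2⟩ := S37DEF_exists_place Ψ.range hk' εb ⟨Ψ t₀, t₀, rfl⟩ ht₀t
    ((hεb t₀).trans ht₀)
  exact ⟨Q, fun t => hQ1 ⟨Ψ t, t, rfl⟩, fun t ht => hQ2 ⟨Ψ t, t, rfl⟩ ((hεb t).trans ht)⟩

end Centre

end Fermat.Agent.S37_helper11_B1DEF
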