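import Mathlib
import Fermat.Prelude.Def_ModularCurve_ReductionModL
import Fermat.Prelude.Def_ModularCurve_IgusaScheme
import Fermat.Agent.S37_helper11_B1DEF
import Fermat.Agent.S28_helper18_TENSOR
import Fermat.Agent.S18_helper18_TENSORO
import Fermat.Agent.S18_helper25_GLUE
import Fermat.Agent.S18_helper26_CONST
import Fermat.Agent.S18_helper27_RESALGCL
import Fermat.Agent.S24_helper23_DEG
import Fermat.Agent.S24_helper23_GEN

/-!
# S37, block B1-DEF (part 2): the reduction map `r` on places, by centres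

`A` is a valuation subring of `ℚ̄` over `ℓ ∤ N`, `k` its residue field, `F = ℚ̄(j(q^d))`,
`F_k = k(j̄(q^d))`.  For a `ℤ_(ℓ)`-chart `C0` of the Igusa model (S28) a place `P` of `F` and a
place `Q` of `F_k` are *compatible* if every `x ∈ C0` has a value `c ∈ A` at `P` and its
reduction has the value `res c` at `Q`.
-/

set_option autoImplicit false
set_option linter.unusedSectionVars false
set_option linter.unusedVariables false
set_option linter.style.haveILetI false

noncomputable section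

open AlgebraicCurve IntermediateField ModularCurve ModularCurve.IgusaScheme
open Fermat.Agent.S28_helper14_Res Fermat.Agent.S28_helper14_Val
open Fermat.Agent.S18_helper18_TENSORO

namespace Fermat.Agent.S37_helper11_B1DEF

/-! ## Integrality and valuation rings -/

section Integral

/-- An element which is integral over a ring mapping into a valuation ring has its image in
the valuation ring. -/
theorem S37DEF_mem_of_isIntegralElem {S₀ T K : Type*} [CommRing S₀] [CommRing T] [Field K]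
    (g : S₀ →+* T) (f : T →+* K) (V : ValuationSubring K) (hV : ∀ s, f (g s) ∈ V)
    (x : T) (hx : g.IsIntegralElem x) : f x ∈ V := by
  obtain ⟨p, hp, hpx⟩ := hx
  let θ : S₀ →+* V := (f.comp g).codRestrict V.toSubring hV
  have hint : IsIntegral V (f x) := by
    refine ⟨p.map θ, hp.map θ, ?_⟩
    rw [Polynomial.eval₂_map]
    have hcomp : (algebraMap V K).comp θ = f.comp g := by
      ext s
      rfl
    rw [hcomp, ← Polynomial.hom_eval₂, hpx, map_zero]
  obtain ⟨y, hy⟩ := (isIntegrallyClosed_iff K).mp (inferInstance : IsIntegrallyClosed V) hint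
  rw [← hy]
  exact y.2

end Integral

/-! ## The base `A` -/

section Base

variable (A : ValuationSubring (AlgebraicClosure ℚ)) {ℓ : ℕ}

theorem S37DEF_natCast_mem (n : ℕ) : ((n : ℕ) : AlgebraicClosure ℚ) ∈ A := natCast_mem A n

theorem S37DEF_res_l (hA : A.LiesOverPrime ℓ) :
    IsLocalRing.residue A ((ℓ : ℕ) : A) = 0 := by
  rw [IsLocalRing.residue_eq_zero_iff, ValuationSubring.valuation_lt_one_iff]
  exact hA

theorem S37DEF_charP [Fact ℓ.Prime] (hA : A.LiesOverPrime ℓ) :
    CharP (IsLocalRing.ResidueField A) ℓ := by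
  have h0 : ((ℓ : ℕ) : IsLocalRing.ResidueField A) = 0 := by
    have := S37DEF_res_l A hA
    simpa using this
  exact (CharP.charP_iff_prime_eq_zero (Fact.out : ℓ.Prime)).2 h0

theorem S37DEF_isUnit_natCast [Fact ℓ.Prime] (hA : A.LiesOverPrime ℓ) (n : ℕ) (hn : ¬ ℓ ∣ n) :
    IsUnit ((n : ℕ) : A) := by
  haveI := S37DEF_charP A hA
  have h1 : IsLocalRing.residue A ((n : ℕ) : A) ≠ 0 := by
    rw [map_natCast]
    intro h0
    exact hn ((CharP.cast_eq_zero_iff (IsLocalRing.ResidueField A) ℓ n).1 h0)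
  by_contra hu
  exact h1 ((IsLocalRing.residue_eq_zero_iff _).2 ((IsLocalRing.mem_maximalIdeal _).2 hu))

theorem S37DEF_hinj : Function.Injective (algebraMap A (AlgebraicClosure ℚ)) :=
  Subtype.val_injective

end Base

/-! ## The side of `P` -/

section PSide

variable (N : ℕ) [NeZero N] (ℓ : ℕ) [Fact ℓ.Prime]
  (A : ValuationSubring (AlgebraicClosure ℚ))

/-- The coefficientwise embedding `ℚ(j(q^d)) → ℚ̄(j(q^d))`. -/
def S37DEF_emb : ↥(modularFunctionFieldFull N) →+* ↥(modularFunctionFieldBar N) :=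
  ((coeffEmb (AlgebraicClosure ℚ)).comp
    (algebraMap ↥(modularFunctionFieldFull N) (LaurentSeries ℚ))).codRestrict
    (modularFunctionFieldBar N)
    (fun x => coeffEmb_mem_laurentBaseChange (AlgebraicClosure ℚ) x.2)

theorem S37DEF_emb_coe (x : ↥(modularFunctionFieldFull N)) :
    ((S37DEF_emb N x : ↥(modularFunctionFieldBar N)) : LaurentSeries (AlgebraicClosure ℚ)) =
      coeffEmb (AlgebraicClosure ℚ) (x : LaurentSeries ℚ) := rfl

/-- The residue field of a place of `ℚ̄(j(q^d))` is `ℚ̄`. -/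
theorem S37DEF_hP (P : Place (AlgebraicClosure ℚ) ↥(modularFunctionFieldBar N)) :
    Function.Surjective (algebraMap (AlgebraicClosure ℚ) P.ResidueField) := by
  haveI := (Fermat.Agent.S24_helper23_DEG.DEG N).1
  exact Fermat.Agent.S24_helper15_A1.algebraMap_residue_surjective (Fermat.Agent.S24.jElt N)
    (Algebra.IsAlgebraic.of_finite _ _) P

variable {N}

/-- An element of the valuation ring is near its value. -/
theorem S37DEF_near_val (P : Place (AlgebraicClosure ℚ) ↥(modularFunctionFieldBar N))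
    (y : ↥(modularFunctionFieldBar N)) (hy : y ∈ P.toValuationSubring) :
    S37DEF_Near P (y : LaurentSeries (AlgebraicClosure ℚ))
      (S37DEF_val P (S37DEF_hP N P) ⟨y, hy⟩) :=
  S37DEF_near_iff.2 ((S37DEF_val_eq_iff_valuation P (S37DEF_hP N P) ⟨y, hy⟩ _).1 rfl)

theorem S37DEF_val_eq_of_near (P : Place (AlgebraicClosure ℚ) ↥(modularFunctionFieldBar N))
    (y : ↥(modularFunctionFieldBar N)) (hy : y ∈ P.toValuationSubring) (c : AlgebraicClosure ℚ)
    (h : S37DEF_Near P (y : LaurentSeries (AlgebraicClosure ℚ)) c) :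
    S37DEF_val P (S37DEF_hP N P) ⟨y, hy⟩ = c :=
  (S37DEF_near_val P y hy).unique h

variable (N) {ℓ}

/-- The constants of `ℤ_(ℓ)` are near constants of `A`. -/
theorem S37DEF_near_algebraMap (hA : A.LiesOverPrime ℓ)
    (P : Place (AlgebraicClosure ℚ) ↥(modularFunctionFieldBar N)) (r : Rl ℓ) :
    ∃ c : A, S37DEF_Near P (coeffEmb (AlgebraicClosure ℚ)
      ((algebraMap (Rl ℓ) ↥(modularFunctionFieldFull N) r : ↥(modularFunctionFieldFull N)) :
        LaurentSeries ℚ)) (c : AlgebraicClosure ℚ) := by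
  obtain ⟨φ, hφ⟩ := exists_phi (O := A) (K1 := AlgebraicClosure ℚ) ℓ (S37DEF_hinj A)
    (S37DEF_isUnit_natCast A hA)
  refine ⟨φ r, ?_⟩
  have h1 : coeffEmb (AlgebraicClosure ℚ)
      ((algebraMap (Rl ℓ) ↥(modularFunctionFieldFull N) r : ↥(modularFunctionFieldFull N)) :
        LaurentSeries ℚ) =
      algebraMap (AlgebraicClosure ℚ) (LaurentSeries (AlgebraicClosure ℚ))
        ((φ r : A) : AlgebraicClosure ℚ) := by
    have h2 : ((algebraMap (Rl ℓ) ↥(modularFunctionFieldFull N) r :
        ↥(modularFunctionFieldFull N)) : LaurentSeries ℚ) = HahnSeries.single 0 (r : ℚ) := by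
      rw [Fermat.Agent.S28_TENSOR.coe_algebraMap, incL, coeffMap_single]
      rfl
    rw [h2, coeffEmb, coeffMap_single, algebraMap_laurentSeries_eq_single]
    congr 1
    exact (hφ r).symm
  rw [h1]
  exact S37DEF_near_const _

/-- **The chart lies in the composite valuation ring.**  If the generators `S` of the chart
have values in `A` at `P`, then so has every element of the chart `chartAlg N ℓ S`. -/
theorem S37DEF_near_chart (hA : A.LiesOverPrime ℓ)
    (P : Place (AlgebraicClosure ℚ) ↥(modularFunctionFieldBar N))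
    (S : Set ↥(modularFunctionFieldFull N))
    (hS : ∀ s ∈ S, ∃ c : A, S37DEF_Near P (coeffEmb (AlgebraicClosure ℚ) (s : LaurentSeries ℚ))
      (c : AlgebraicClosure ℚ))
    (x : ↥(modularFunctionFieldFull N)) (hx : x ∈ chartAlg N ℓ S) :
    ∃ c : A, S37DEF_Near P (coeffEmb (AlgebraicClosure ℚ) (x : LaurentSeries ℚ))
      (c : AlgebraicClosure ℚ) := by
  -- the subalgebra of elements with a value in `A`
  let T₀ : Subalgebra (Rl ℓ) ↥(modularFunctionFieldFull N) :=
    { carrier := {s | ∃ c : A, S37DEF_Near P (coeffEmb (AlgebraicClosure ℚ) (s : LaurentSeries ℚ))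
        (c : AlgebraicClosure ℚ)}
      mul_mem' := by
        rintro a b ⟨c, hc⟩ ⟨c', hc'⟩
        refine ⟨c * c', ?_⟩
        have := hc.mul hc'
        simpa using this
      add_mem' := by
        rintro a b ⟨c, hc⟩ ⟨c', hc'⟩
        refine ⟨c + c', ?_⟩
        have := hc.add hc'
        simpa using this
      algebraMap_mem' := fun r => S37DEF_near_algebraMap N A hA P r }
  have hadj : Algebra.adjoin (Rl ℓ) S ≤ T₀ := Algebra.adjoin_le hS
  have hV : ∀ s : Algebra.adjoin (Rl ℓ) S,
      S37DEF_emb N (algebraMap _ ↥(modularFunctionFieldFull N) s) ∈ P.toValuationSubring := by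
    intro s
    obtain ⟨c, hc⟩ := hadj s.2
    exact hc.mem_valuationSubring
  -- step 1: `x` lies in the valuation ring of `P`
  have hint : IsIntegral (Algebra.adjoin (Rl ℓ) S) x := hx
  have hx1 : S37DEF_emb N x ∈ P.toValuationSubring :=
    S37DEF_mem_of_isIntegralElem (algebraMap _ ↥(modularFunctionFieldFull N)) (S37DEF_emb N)
      P.toValuationSubring hV x hint
  -- step 2: its value lies in `A`
  let T : Subring ↥(modularFunctionFieldFull N) :=
    P.toValuationSubring.toSubring.comap (S37DEF_emb N)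
  let e : T →+* P.toValuationSubring :=
    ((S37DEF_emb N).comp T.subtype).codRestrict P.toValuationSubring.toSubring (fun y => y.2)
  let v : T →+* AlgebraicClosure ℚ := (S37DEF_val P (S37DEF_hP N P)).comp e
  let g : Algebra.adjoin (Rl ℓ) S →+* T :=
    (algebraMap _ ↥(modularFunctionFieldFull N)).codRestrict T hV
  have hg : g.IsIntegralElem (⟨x, hx1⟩ : T) := by
    obtain ⟨p, hp, hpx⟩ := hint
    refine ⟨p, hp, ?_⟩
    apply Subtype.val_injective
    have h1 : T.subtype.comp g = algebraMap _ ↥(modularFunctionFieldFull N) := rfl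
    have h2 := Polynomial.hom_eval₂ p g T.subtype (⟨x, hx1⟩ : T)
    rw [h1] at h2
    exact h2.trans hpx
  have hV2 : ∀ s, v (g s) ∈ A := by
    intro s
    obtain ⟨c, hc⟩ := hadj s.2
    have : v (g s) = (c : AlgebraicClosure ℚ) :=
      S37DEF_val_eq_of_near P _ (hV s) _ hc
    rw [this]
    exact c.2
  have hx2 : v ⟨x, hx1⟩ ∈ A := S37DEF_mem_of_isIntegralElem g v A hV2 _ hg
  exact ⟨⟨v ⟨x, hx1⟩, hx2⟩, S37DEF_near_val P (S37DEF_emb N x) hx1⟩

end PSide

/-! ## The side of `Q`: existence of a compatible place -/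

section KSide

variable (N : ℕ) [NeZero N] {ℓ : ℕ} [Fact ℓ.Prime]
  (A : ValuationSubring (AlgebraicClosure ℚ)) {k : Type} [Field k] (res : A →+* k)

/-- The reduction modulo the maximal ideal of `A` of a series with rational coefficients
(meaningful for series with `ℓ`-integral coefficients). -/
def S37DEF_red (x : LaurentSeries ℚ) : LaurentSeries k :=
  redFunO (AlgebraicClosure ℚ) res (coeffEmb (AlgebraicClosure ℚ) x)

theorem S37DEF_red_eq [CharP k ℓ] (hA : A.LiesOverPrime ℓ) {x : LaurentSeries ℚ}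
    (hx : x ∈ Vring ℓ) :
    S37DEF_red A res x = coeffMap (ZMod.castHom (dvd_refl ℓ) k) (redFun ℓ x) :=
  redFunO_embQ ℓ res (S37DEF_hinj A) (S37DEF_isUnit_natCast A hA) hx

/-- The structure map `ℤ_(ℓ) → A`. -/
def S37DEF_phi (hA : A.LiesOverPrime ℓ) : Rl ℓ →+* A :=
  (exists_phi (O := A) (K1 := AlgebraicClosure ℚ) ℓ (S37DEF_hinj A)
    (S37DEF_isUnit_natCast A hA)).choose

/-- Two ring homomorphisms from `ℤ_(ℓ)` to a field of characteristic `ℓ` agree. -/
theorem S37DEF_ringHom_Rl_ext {K : Type} [Field K] [CharP K ℓ] (f g : Rl ℓ →+* K) : f = g := by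
  ext r
  have h1 := @Fermat.Agent.S28_TENSOR.algebraMap_eq_resR ℓ _ K _ _ f.toAlgebra r
  have h2 := @Fermat.Agent.S28_TENSOR.algebraMap_eq_resR ℓ _ K _ _ g.toAlgebra r
  exact h1.trans h2.symm

variable {N A}

set_option synthInstance.maxHeartbeats 400000 in
set_option maxHeartbeats 2000000 in
/-- **Existence of a compatible place.**  Let `C0 = chartAlg N ℓ S` be a chart whose generators
have values in `A` at `P`, which is `ℓ`-integral and `ℓ`-saturated (`hA0`, `hkey`: S28), whose
reductions lie in `F_k` (`hκ`: KAPPA) and which contains an element `s₀` with transcendental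
reduction.  Then there is a place `Q` of `F_k` such that every `x ∈ C0` has a value `c ∈ A` at
`P` and its reduction has the value `res c` at `Q`. -/
theorem S37DEF_exists_compat [CharP k ℓ] (hA : A.LiesOverPrime ℓ)
    (S : Set ↥(modularFunctionFieldFull N))
    (hA0 : ∀ x ∈ chartAlg N ℓ S, ((x : ↥(modularFunctionFieldFull N)) : LaurentSeries ℚ) ∈ Vring ℓ)
    (hkey : ∀ x ∈ chartAlg N ℓ S,
      redFun ℓ ((x : ↥(modularFunctionFieldFull N)) : LaurentSeries ℚ) = 0 →
        ∃ y ∈ chartAlg N ℓ S, x = (ℓ : ↥(modularFunctionFieldFull N)) * y)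
    (hκ : ∀ x ∈ chartAlg N ℓ S,
      S37DEF_red A res ((x : ↥(modularFunctionFieldFull N)) : LaurentSeries ℚ) ∈
        modularFunctionFieldFullC k N)
    (P : Place (AlgebraicClosure ℚ) ↥(modularFunctionFieldBar N))
    (hS : ∀ s ∈ S, ∃ c : A, S37DEF_Near P (coeffEmb (AlgebraicClosure ℚ) (s : LaurentSeries ℚ))
      (c : AlgebraicClosure ℚ))
    (s₀ : ↥(modularFunctionFieldFull N)) (hs₀ : s₀ ∈ chartAlg N ℓ S)
    (hs₀t : Transcendental k
      (⟨S37DEF_red A res (s₀ : LaurentSeries ℚ), hκ s₀ hs₀⟩ : ↥(modularFunctionFieldFullC k N))) :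
    ∃ Q : Place k ↥(modularFunctionFieldFullC k N),
      ∀ x ∈ chartAlg N ℓ S, ∃ c : A,
        S37DEF_Near P (coeffEmb (AlgebraicClosure ℚ) (x : LaurentSeries ℚ))
          (c : AlgebraicClosure ℚ) ∧
        S37DEF_Near Q (S37DEF_red A res (x : LaurentSeries ℚ)) (res c) := by
  classical
  letI alg : Algebra (Rl ℓ) k := (res.comp (S37DEF_phi A hA)).toAlgebra
  have hnear : ∀ x : chartAlg N ℓ S, ∃ c : A,
      S37DEF_Near P (coeffEmb (AlgebraicClosure ℚ) ((x : ↥(modularFunctionFieldFull N)) :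
        LaurentSeries ℚ)) (c : AlgebraicClosure ℚ) :=
    fun x => S37DEF_near_chart N A hA P S hS x x.2
  -- the value homomorphism `C0 → A`
  let e : chartAlg N ℓ S →+* P.toValuationSubring :=
    ((S37DEF_emb N).comp (chartAlg N ℓ S).val.toRingHom).codRestrict
      P.toValuationSubring.toSubring
      (fun x => by
        obtain ⟨c, hc⟩ := hnear x
        exact hc.mem_valuationSubring)
  have hval : ∀ x : chartAlg N ℓ S, ∀ c : A,
      S37DEF_Near P (coeffEmb (AlgebraicClosure ℚ) ((x : ↥(modularFunctionFieldFull N)) :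
        LaurentSeries ℚ)) (c : AlgebraicClosure ℚ) →
      S37DEF_val P (S37DEF_hP N P) (e x) = (c : AlgebraicClosure ℚ) := by
    intro x c hc
    exact S37DEF_val_eq_of_near P _ (e x).2 _ hc
  let vP : chartAlg N ℓ S →+* A :=
    ((S37DEF_val P (S37DEF_hP N P)).comp e).codRestrict A.toSubring
      (fun x => by
        obtain ⟨c, hc⟩ := hnear x
        show S37DEF_val P (S37DEF_hP N P) (e x) ∈ A
        rw [hval x c hc]
        exact c.2)
  have hvP : ∀ x : chartAlg N ℓ S,
      S37DEF_Near P (coeffEmb (AlgebraicClosure ℚ) ((x : ↥(modularFunctionFieldFull N)) :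
        LaurentSeries ℚ)) ((vP x : A) : AlgebraicClosure ℚ) := by
    intro x
    obtain ⟨c, hc⟩ := hnear x
    have : ((vP x : A) : AlgebraicClosure ℚ) = c := hval x c hc
    rw [this]
    exact hc
  let ε : chartAlg N ℓ S →+* k := res.comp vP
  let εAlg : chartAlg N ℓ S →ₐ[Rl ℓ] k :=
    { ε with
      commutes' := fun r => by
        have := S37DEF_ringHom_Rl_ext (ε.comp (algebraMap (Rl ℓ) (chartAlg N ℓ S)))
          (algebraMap (Rl ℓ) k)
        exact congrArg (fun f : Rl ℓ →+* k => f r) this }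
  let εt : TensorProduct (Rl ℓ) (chartAlg N ℓ S) k →+* k :=
    (Algebra.TensorProduct.lift εAlg (AlgHom.id (Rl ℓ) k)
      (fun _ _ => Commute.all _ _)).toRingHom
  have hεt : ∀ (x : chartAlg N ℓ S) (c : k), εt (x ⊗ₜ c) = ε x * c := by
    intro x c
    show (Algebra.TensorProduct.lift εAlg (AlgHom.id (Rl ℓ) k)
      (fun _ _ => Commute.all _ _)) (x ⊗ₜ c) = _
    rw [Algebra.TensorProduct.lift_tmul]
    rfl
  -- the comparison map of S28
  let Φ := Fermat.Agent.S28_TENSOR.Phi N ℓ k (chartAlg N ℓ S) hA0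
  have hΦinj : Function.Injective Φ :=
    Fermat.Agent.S28_TENSOR.Phi_injective N ℓ k (chartAlg N ℓ S) hA0 hkey
  have hρ : ∀ x : chartAlg N ℓ S, Fermat.Agent.S28_TENSOR.rho N ℓ k (chartAlg N ℓ S) hA0 x =
      S37DEF_red A res ((x : ↥(modularFunctionFieldFull N)) : LaurentSeries ℚ) := by
    intro x
    rw [Fermat.Agent.S28_TENSOR.rho_apply, S37DEF_red_eq A res hA (hA0 x x.2)]
  have hΦ : ∀ (x : chartAlg N ℓ S) (c : k), Φ (x ⊗ₜ c) =
      S37DEF_red A res ((x : ↥(modularFunctionFieldFull N)) : LaurentSeries ℚ) *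
        HahnSeries.single 0 c := by
    intro x c
    rw [← hρ]
    exact Fermat.Agent.S28_TENSOR.Phi_tmul N ℓ k (chartAlg N ℓ S) hA0 x c
  -- `Φ` takes its values in `F_k`
  have hΦmem : ∀ t : TensorProduct (Rl ℓ) (chartAlg N ℓ S) k,
      Φ t ∈ modularFunctionFieldFullC k N := by
    intro t
    induction t using TensorProduct.induction_on with
    | zero => rw [map_zero]; exact zero_mem _
    | tmul x c =>
      rw [hΦ]
      refine mul_mem (hκ x x.2) ?_
      rw [← algebraMap_laurentSeries_eq_single]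
      exact (algebraMap k ↥(modularFunctionFieldFullC k N) c).2
    | add a b ha hb => rw [map_add]; exact add_mem ha hb
  let Ψ : TensorProduct (Rl ℓ) (chartAlg N ℓ S) k →+* ↥(modularFunctionFieldFullC k N) :=
    RingHom.codRestrict (R := TensorProduct (Rl ℓ) (chartAlg N ℓ S) k) (S := LaurentSeries k)
      Φ (modularFunctionFieldFullC k N) hΦmem
  have hΨinj : Function.Injective Ψ := fun a b h => hΦinj (congrArg Subtype.val h)
  have hΨ1 : ∀ x : chartAlg N ℓ S, Ψ (x ⊗ₜ 1) =
      (⟨S37DEF_red A res ((x : ↥(modularFunctionFieldFull N)) : LaurentSeries ℚ),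
        hκ x x.2⟩ : ↥(modularFunctionFieldFullC k N)) := by
    intro x
    apply Subtype.ext
    show Φ (x ⊗ₜ 1) = _
    rw [hΦ, show (HahnSeries.single 0 (1 : k) : LaurentSeries k) = 1 from rfl, mul_one]
  have hΨc : ∀ a : k, Ψ ((1 : chartAlg N ℓ S) ⊗ₜ a) =
      algebraMap k ↥(modularFunctionFieldFullC k N) a := by
    intro a
    apply Subtype.ext
    show Φ ((1 : chartAlg N ℓ S) ⊗ₜ a) = algebraMap k (LaurentSeries k) a
    rw [hΦ]
    have h1 : S37DEF_red A res (((1 : chartAlg N ℓ S) : ↥(modularFunctionFieldFull N)) :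
        LaurentSeries ℚ) = 1 := by
      rw [← hρ, map_one]
    rw [h1, one_mul, algebraMap_laurentSeries_eq_single]
  -- the transcendental element
  let t₀ : TensorProduct (Rl ℓ) (chartAlg N ℓ S) k :=
    (⟨s₀, hs₀⟩ : chartAlg N ℓ S) ⊗ₜ (1 : k) - (1 : chartAlg N ℓ S) ⊗ₜ (ε ⟨s₀, hs₀⟩)
  have hΨt₀ : Ψ t₀ = (⟨S37DEF_red A res (s₀ : LaurentSeries ℚ), hκ s₀ hs₀⟩ :
      ↥(modularFunctionFieldFullC k N)) -
        algebraMap k ↥(modularFunctionFieldFullC k N) (ε ⟨s₀, hs₀⟩) := by
    rw [map_sub, hΨ1, hΨc]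
  have ht₀ : εt t₀ = 0 := by
    rw [map_sub, hεt, hεt, map_one, one_mul, mul_one, sub_self]
  have ht₀t : Transcendental k (Ψ t₀) := by
    intro halg
    apply hs₀t
    have h1 : (⟨S37DEF_red A res (s₀ : LaurentSeries ℚ), hκ s₀ hs₀⟩ :
        ↥(modularFunctionFieldFullC k N)) =
        Ψ t₀ + algebraMap k ↥(modularFunctionFieldFullC k N) (ε ⟨s₀, hs₀⟩) := by
      rw [hΨt₀, sub_add_cancel]
    rw [h1]
    exact halg.add (isAlgebraic_algebraMap _)
  haveI := Fermat.Agent.S18_helper26_CONST.S18P15_finiteDimensional k N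
  haveI : FiniteDimensional k⟮Ψ t₀⟯ ↥(modularFunctionFieldFullC k N) :=
    Fermat.Agent.S24_helper6_A2.finiteDimensional_adjoin_of_transcendental
      (Fermat.Agent.S18_helper26_CONST.S18P15_jbar k N)
      (Fermat.Agent.S18_helper26_CONST.S18P15_transcendental_jbar k N) _ ht₀t
  obtain ⟨Q, hQ1, hQ2⟩ := S37DEF_exists_place_of_injective Ψ hΨinj εt
    (fun a => ⟨_, hΨc a⟩) t₀ ht₀ ht₀t
  refine ⟨Q, fun x hx => ⟨vP ⟨x, hx⟩, hvP ⟨x, hx⟩, ?_⟩⟩
  have h0 : εt ((⟨x, hx⟩ : chartAlg N ℓ S) ⊗ₜ (1 : k) -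
      (1 : chartAlg N ℓ S) ⊗ₜ (ε ⟨x, hx⟩)) = 0 := by
    rw [map_sub, hεt, hεt, map_one, one_mul, mul_one, sub_self]
  have h1 := hQ2 _ h0
  rw [map_sub, hΨ1, hΨc] at h1
  exact ⟨hκ x hx, h1⟩

end KSide

end Fermat.Agent.S37_helper11_B1DEF
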