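import Fermat.Agent.S37_helper11_B1DEFL
import Fermat.Agent.S37_helper4_B1Defs2
import Fermat.Agent.S18_helper14_AK
import Fermat.Agent.S18_helper20_ASAT
import Fermat.Agent.S18_helper18_CHARTV

/-!
# S37, block B1-DEF (part 6): the reduction map is characterised by centres (DEF-KEY)
-/

set_option autoImplicit false
set_option linter.unusedSectionVars false
set_option linter.unusedVariables false
set_option linter.style.haveILetI false
set_option synthInstance.maxHeartbeats 400000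
set_option maxHeartbeats 1000000

noncomputable section

open AlgebraicCurve IntermediateField ModularCurve ModularCurve.IgusaScheme
open Fermat.Agent.S28_helper14_Res Fermat.Agent.S28_helper14_Val
open Fermat.Agent.S18_helper18_TENSORO Fermat.Agent.S18_helper25_COREDefs
open Fermat.Agent.S18_helper19_PLACEMOD Fermat.Agent.S37_helper4_B1Defs
open Fermat.Agent.S37_helper5_LEVEL Fermat.Agent.S18_helper13_GAUSS
open Fermat.Agent.S18A Fermat.Agent.S18_helper20_ASAT

namespace Fermat.Agent.S37_helper11_B1DEF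

local notation "Qb" => AlgebraicClosure ℚ

/-! ## Reduction of `j` over a general base -/

section RedJ

variable {ℓ : ℕ} [Fact ℓ.Prime] {k : Type} [Field k] [CharP k ℓ]
  {O K1 : Type} [CommRing O] [Field K1] [CharZero K1] [Algebra O K1] (ρ : O →+* k)

theorem S37DEF_jq_eq_incO : jqModC K1 = incO K1 (jqModC O) := by
  rw [incO, coeffMap_jqModC]

theorem S37DEF_jq_mem_VringO' : jqModC K1 ∈ VringO K1 ρ := by
  rw [S37DEF_jq_eq_incO (O := O)]
  exact incO_mem_VringO _ ρ _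

theorem S37DEF_redFunO_jq (hinj : Function.Injective (algebraMap O K1)) :
    redFunO K1 ρ (jqModC K1) = jqModC k := by
  rw [S37DEF_jq_eq_incO (O := O), redFunO_incO ρ hinj, redO, coeffMap_jqModC]

theorem S37DEF_jq_inv_mem_VringO' (hinj : Function.Injective (algebraMap O K1)) :
    (jqModC K1)⁻¹ ∈ VringO K1 ρ :=
  inv_mem_VringO ρ hinj (S37DEF_jq_mem_VringO' ρ)
    (by rw [S37DEF_redFunO_jq ρ hinj]; exact jqModC_ne_zero_of_nontrivial k)

theorem S37DEF_redFunO_jq_inv (hinj : Function.Injective (algebraMap O K1)) :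
    redFunO K1 ρ (jqModC K1)⁻¹ = (jqModC k)⁻¹ := by
  have hne : jqModC K1 ≠ 0 := jqModC_ne_zero_of_nontrivial _
  have h1 := redFunO_mul ρ hinj (S37DEF_jq_inv_mem_VringO' ρ hinj) (S37DEF_jq_mem_VringO' ρ)
  rw [inv_mul_cancel₀ hne, redFunO_one ρ hinj, S37DEF_redFunO_jq ρ hinj] at h1
  exact eq_inv_of_mul_eq_one_left h1.symm

end RedJ

/-! ## `j` is not constant -/

section NonConst

variable (k : Type) [Field k]

theorem S37DEF_jq_ne_const (u : k) : jqModC k ≠ algebraMap k (LaurentSeries k) u := by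
  intro h
  have ht := Fermat.Agent.S18_helper26_CONST.S18P15_transcendental_jbar k 1
  apply ht
  have h1 : Fermat.Agent.S18_helper26_CONST.S18P15_jbar k 1 =
      algebraMap k ↥(modularFunctionFieldFullC k 1) u := by
    apply Subtype.ext
    exact h
  rw [h1]
  exact isAlgebraic_algebraMap _

theorem S37DEF_jq_inv_ne_const (u : k) : (jqModC k)⁻¹ ≠ algebraMap k (LaurentSeries k) u := by
  intro h
  apply S37DEF_jq_ne_const k u⁻¹
  rw [map_inv₀, ← h, inv_inv]

end NonConst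

/-! ## The carriers at an admissible level -/

section Carriers

variable (N : ℕ) [NeZero N] {ℓ : ℕ} [Fact ℓ.Prime]
  (A : ValuationSubring Qb) (K1 : IntermediateField ℚ Qb)

theorem S37DEF_hφK (o : S18K_O1 A K1) :
    ∃ a : A, (a : Qb) = algebraMap K1 Qb (algebraMap (S18K_O1 A K1) K1 o) ∧
      IsLocalRing.residue A a = S18K_res A K1 o :=
  ⟨S18K_incl A K1 o, rfl, rfl⟩

variable [IsDiscreteValuationRing (S18K_O1 A K1)]

variable {N A K1}

/-- **(L) on the finite chart.** -/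
theorem S37DEF_near_A0 (hA : A.LiesOverPrime ℓ) (hℓN : ¬ ℓ ∣ N)
    (P : Place Qb ↥(modularFunctionFieldBar N))
    (Q : Place (IsLocalRing.ResidueField A) ↥(modularFunctionFieldFullC
      (IsLocalRing.ResidueField A) N))
    (h : S37DEF_Compat N A (IsLocalRing.residue A) ℓ {jFull N} P Q)
    {a : LaurentSeries K1} (ha : a ∈ S18K_A0 A K1 N) :
    ∃ c : A, S37DEF_Near P (coeffMap (algebraMap K1 Qb) a) (c : Qb) ∧
      S37DEF_Near Q ((S18K_D A K1).redFun a) (IsLocalRing.residue A c) := by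
  haveI : CharP (IsLocalRing.ResidueField A) ℓ :=
    Fermat.Agent.S18_helper5_BASE.S18A1_charP_residue A (Fact.out : ℓ.Prime) hA
  haveI : Algebra.IsAlgebraic ℚ ↥K1 :=
    Fermat.Agent.S18_helper5_BASE.S18A1_isAlgebraic_of_embedding ↥K1
      (algebraMap ↥K1 (AlgebraicClosure ℚ))
  rw [Fermat.Agent.S18AK.S18K_A0_eq,
    A0L_eq_chartFinO N ℓ (S18K_res A K1) (S18K_res_eq_zero_iff A K1) hℓN] at ha
  have h1 := S37DEF_compat_chartO (IsLocalRing.residue A) (S18K_res A K1)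
    (algebraMap K1 Qb) hA (S18ASAT_hinj (O := ↥(S18K_O1 A K1)) (K1 := ↥K1))
    (S18ASAT_hunit (O := ↥(S18K_O1 A K1)) ℓ (S18K_res A K1) (S18K_res_eq_zero_iff A K1))
    (S37DEF_hφK A K1) {jFull N} (hA_fin N ℓ) P Q h ha
  have h2 := Fermat.Agent.S18_helper18_CHARTV.redFunO_eq_redFun (S18K_D A K1) rfl a
  rw [← h2]
  exact h1

/-- **(L) on the chart at infinity.** -/
theorem S37DEF_near_Ainf (hA : A.LiesOverPrime ℓ) (hℓN : ¬ ℓ ∣ N)
    (P : Place Qb ↥(modularFunctionFieldBar N))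
    (Q : Place (IsLocalRing.ResidueField A) ↥(modularFunctionFieldFullC
      (IsLocalRing.ResidueField A) N))
    (h : S37DEF_Compat N A (IsLocalRing.residue A) ℓ {(jFull N)⁻¹} P Q)
    {a : LaurentSeries K1} (ha : a ∈ S18K_Ainf A K1 N) :
    ∃ c : A, S37DEF_Near P (coeffMap (algebraMap K1 Qb) a) (c : Qb) ∧
      S37DEF_Near Q ((S18K_D A K1).redFun a) (IsLocalRing.residue A c) := by
  haveI : CharP (IsLocalRing.ResidueField A) ℓ :=
    Fermat.Agent.S18_helper5_BASE.S18A1_charP_residue A (Fact.out : ℓ.Prime) hA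
  haveI : Algebra.IsAlgebraic ℚ ↥K1 :=
    Fermat.Agent.S18_helper5_BASE.S18A1_isAlgebraic_of_embedding ↥K1
      (algebraMap ↥K1 (AlgebraicClosure ℚ))
  rw [Fermat.Agent.S18AK.S18K_Ainf_eq,
    AinfL_eq_chartInfO N ℓ (S18K_res A K1) (S18K_res_eq_zero_iff A K1) hℓN] at ha
  have h1 := S37DEF_compat_chartO (IsLocalRing.residue A) (S18K_res A K1)
    (algebraMap K1 Qb) hA (S18ASAT_hinj (O := ↥(S18K_O1 A K1)) (K1 := ↥K1))
    (S18ASAT_hunit (O := ↥(S18K_O1 A K1)) ℓ (S18K_res A K1) (S18K_res_eq_zero_iff A K1))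
    (S37DEF_hφK A K1) {(jFull N)⁻¹} (hA_inf N ℓ) P Q h ha
  have h2 := Fermat.Agent.S18_helper18_CHARTV.redFunO_eq_redFun (S18K_D A K1) rfl a
  rw [← h2]
  exact h1


/-! ### Orders at level `K1` and congruences -/

theorem S37DEF_inc_ne_zero {a : LaurentSeries K1} (haF : a ∈ modularFunctionFieldFullC K1 N)
    (ha0 : a ≠ 0) : S18A3C_inc N (algebraMap K1 Qb) ⟨a, haF⟩ ≠ 0 := by
  rw [Ne, map_eq_zero]
  intro h
  exact ha0 (congrArg Subtype.val h)

theorem S37DEF_near_inc_iff (P : Place Qb ↥(modularFunctionFieldBar N))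
    {a : LaurentSeries K1} (haF : a ∈ modularFunctionFieldFullC K1 N) (c : Qb) :
    S37DEF_Near P (coeffMap (algebraMap K1 Qb) a) c ↔
      P.toValuationSubring.valuation (S18A3C_inc N (algebraMap K1 Qb) ⟨a, haF⟩ -
        algebraMap Qb ↥(modularFunctionFieldBar N) c) < 1 := by
  rw [← S37DEF_near_iff]
  rfl

theorem S37DEF_ordP_nonneg_of_near (P : Place Qb ↥(modularFunctionFieldBar N))
    {a : LaurentSeries K1} (haF : a ∈ modularFunctionFieldFullC K1 N) {c : Qb}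
    (h : S37DEF_Near P (coeffMap (algebraMap K1 Qb) a) c) : 0 ≤ S37B1_ordP N K1 P a := by
  rw [S37B1_ordP, dif_pos haF]
  exact Fermat.Agent.S24_helper6_A2.ord_nonneg_of_mem P h.mem_valuationSubring

theorem S37DEF_ordP_pos_iff_near (P : Place Qb ↥(modularFunctionFieldBar N))
    {a : LaurentSeries K1} (haF : a ∈ modularFunctionFieldFullC K1 N) (ha0 : a ≠ 0) :
    0 < S37B1_ordP N K1 P a ↔ S37DEF_Near P (coeffMap (algebraMap K1 Qb) a) 0 := by
  rw [S37B1_ordP, dif_pos haF, S37DEF_ord_pos_iff P (S37DEF_inc_ne_zero haF ha0),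
    S37DEF_near_inc_iff P haF, map_zero, sub_zero]

theorem S37DEF_exists_near_of_ordP_nonneg (P : Place Qb ↥(modularFunctionFieldBar N))
    {a : LaurentSeries K1} (haF : a ∈ modularFunctionFieldFullC K1 N)
    (h : 0 ≤ S37B1_ordP N K1 P a) :
    ∃ c : Qb, S37DEF_Near P (coeffMap (algebraMap K1 Qb) a) c := by
  rw [S37B1_ordP, dif_pos haF] at h
  have hm := Fermat.Agent.S24_helper6_A2.mem_of_ord_nonneg P h
  exact ⟨_, S37DEF_near_val P _ hm⟩

theorem S37DEF_ordQ_of_mem {k : Type} [Field k] (Q : Place k ↥(modularFunctionFieldFullC k N))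
    {w : LaurentSeries k} (hw : w ∈ modularFunctionFieldFullC k N) :
    S37B1_ordQ N Q w = Q.ord ⟨w, hw⟩ := by
  rw [S37B1_ordQ, dif_pos hw]

theorem S37DEF_near_zero_iff_ordQ {k : Type} [Field k]
    (Q : Place k ↥(modularFunctionFieldFullC k N)) {w : LaurentSeries k} :
    S37DEF_Near Q w 0 ↔ (w = 0 ∨ 0 < S37B1_ordQ N Q w) := by
  constructor
  · intro h
    have hw := h.mem
    have h1 : S37DEF_Near Q ((⟨w, hw⟩ : ↥(modularFunctionFieldFullC k N)) : LaurentSeries k) 0 :=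
      h
    rcases S37DEF_near_zero_iff_ord.1 h1 with h0 | hpos
    · exact Or.inl (congrArg Subtype.val h0)
    · exact Or.inr (by rw [S37DEF_ordQ_of_mem Q hw]; exact hpos)
  · rintro (h0 | hpos)
    · rw [h0]
      exact S37DEF_near_zero
    · by_cases hw : w ∈ modularFunctionFieldFullC k N
      · rw [S37DEF_ordQ_of_mem Q hw] at hpos
        exact S37DEF_near_zero_iff_ord.2
          (Or.inr hpos : (⟨w, hw⟩ : ↥(modularFunctionFieldFullC k N)) = 0 ∨ _)
      · rw [S37B1_ordQ, dif_neg hw] at hpos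
        exact absurd hpos (lt_irrefl 0)

theorem S37DEF_ordQ_nonneg_of_near {k : Type} [Field k]
    (Q : Place k ↥(modularFunctionFieldFullC k N)) {w : LaurentSeries k} {c : k}
    (h : S37DEF_Near Q w c) : 0 ≤ S37B1_ordQ N Q w := by
  rw [S37DEF_ordQ_of_mem Q h.mem]
  exact Fermat.Agent.S24_helper6_A2.ord_nonneg_of_mem Q h.mem_valuationSubring

/-- **Centred from congruences.** -/
theorem S37DEF_centred_of_near (As : Subring (LaurentSeries K1))
    (hAs : ∀ a ∈ As, a ∈ modularFunctionFieldFullC K1 N)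
    (P : Place Qb ↥(modularFunctionFieldBar N))
    (Q : Place (IsLocalRing.ResidueField A) ↥(modularFunctionFieldFullC
      (IsLocalRing.ResidueField A) N))
    (h : ∀ a ∈ As, ∃ c : A, S37DEF_Near P (coeffMap (algebraMap K1 Qb) a) (c : Qb) ∧
      S37DEF_Near Q ((S18K_D A K1).redFun a) (IsLocalRing.residue A c)) :
    S37B1_Centred N A K1 As P Q := by
  intro a ha ha0
  obtain ⟨c, hc1, hc2⟩ := h a ha
  have haF := hAs a ha
  refine ⟨S37DEF_ordP_nonneg_of_near P haF hc1, fun hpos => ?_⟩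
  have hn0 := (S37DEF_ordP_pos_iff_near P haF ha0).1 hpos
  have hc0 : (c : Qb) = 0 := hc1.unique hn0
  have hc0' : c = 0 := Subtype.ext hc0
  rw [hc0', map_zero] at hc2
  exact (S37DEF_near_zero_iff_ordQ Q).1 hc2

theorem S37DEF_A0_le_F1 {a : LaurentSeries K1} (ha : a ∈ S18K_A0 A K1 N) :
    a ∈ modularFunctionFieldFullC K1 N := ha.2

theorem S37DEF_Ainf_le_F1 {a : LaurentSeries K1} (ha : a ∈ S18K_Ainf A K1 N) :
    a ∈ modularFunctionFieldFullC K1 N := ha.2

/-- rationality, in terms of congruences -/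
theorem S37DEF_rational_mem {P : Place Qb ↥(modularFunctionFieldBar N)}
    (hP : S37LEVEL_IsRational N K1 P) {a : LaurentSeries K1}
    (haF : a ∈ modularFunctionFieldFullC K1 N) {c : Qb}
    (h : S37DEF_Near P (coeffMap (algebraMap K1 Qb) a) c) : c ∈ K1 := by
  refine hP a haF (S18A3C_inc N (algebraMap K1 Qb) ⟨a, haF⟩ -
    algebraMap Qb ↥(modularFunctionFieldBar N) c) c ?_ ?_
  · rw [Fermat.Agent.S18_helper26_CONST.S18P15_C_eq_algebraMap]
    rfl
  · have hv := (S37DEF_near_inc_iff P haF c).1 h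
    by_cases hz : S18A3C_inc N (algebraMap K1 Qb) ⟨a, haF⟩ -
        algebraMap Qb ↥(modularFunctionFieldBar N) c = 0
    · exact Or.inr hz
    · exact Or.inl ((S37DEF_ord_pos_iff P hz).2 hv)


/-! ### Consequences of centredness -/

theorem S37DEF_centred_near_zero (As : Subring (LaurentSeries K1))
    (hAs : ∀ a ∈ As, a ∈ modularFunctionFieldFullC K1 N)
    {P : Place Qb ↥(modularFunctionFieldBar N)}
    {Q : Place (IsLocalRing.ResidueField A) ↥(modularFunctionFieldFullC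
      (IsLocalRing.ResidueField A) N)}
    (hC : S37B1_Centred N A K1 As P Q) {a : LaurentSeries K1} (ha : a ∈ As)
    (hnear : S37DEF_Near P (coeffMap (algebraMap K1 Qb) a) 0) :
    S37DEF_Near Q ((S18K_D A K1).redFun a) 0 := by
  by_cases ha0 : a = 0
  · subst ha0
    have h2 := Fermat.Agent.S18_helper18_CHARTV.redFunO_eq_redFun (S18K_D A K1) rfl
      (0 : LaurentSeries K1)
    rw [← h2]
    have h3 := redFunO_zero (K1 := ↥K1) (S18K_D A K1).res
      (IsFractionRing.injective ↥(S18K_O1 A K1) ↥K1)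
    rw [h3]
    exact S37DEF_near_zero
  · have haF := hAs a ha
    obtain ⟨-, h2⟩ := hC a ha ha0
    exact (S37DEF_near_zero_iff_ordQ Q).2 (h2 ((S37DEF_ordP_pos_iff_near P haF ha0).2 hnear))

theorem S37DEF_centred_absurd (As : Subring (LaurentSeries K1))
    (hAs : ∀ a ∈ As, a ∈ modularFunctionFieldFullC K1 N)
    {P : Place Qb ↥(modularFunctionFieldBar N)}
    {Q : Place (IsLocalRing.ResidueField A) ↥(modularFunctionFieldFullC
      (IsLocalRing.ResidueField A) N)}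
    (hC : S37B1_Centred N A K1 As P Q) {a : LaurentSeries K1} (ha : a ∈ As)
    (hnear : S37DEF_Near P (coeffMap (algebraMap K1 Qb) a) 0)
    {u : IsLocalRing.ResidueField A} (hu : u ≠ 0)
    (hred : (S18K_D A K1).redFun a = algebraMap (IsLocalRing.ResidueField A)
      (LaurentSeries (IsLocalRing.ResidueField A)) u) : False := by
  have h1 := S37DEF_centred_near_zero As hAs hC ha hnear
  rw [hred] at h1
  have h2 := S37DEF_near_const (P := Q) u
  exact hu (h2.unique h1)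

theorem S37DEF_near_one {K : Type*} [Field K] {E : IntermediateField K (LaurentSeries K)}
    (P : Place K E) : S37DEF_Near P (1 : LaurentSeries K) 1 := by
  have := S37DEF_near_const (P := P) (1 : K)
  rwa [map_one] at this

/-- an element of `O1` from an element of `A ∩ K1` -/
def S37DEF_mkO1 (c : Qb) (hcK : c ∈ K1) (hcA : c ∈ A) : S18K_O1 A K1 := ⟨⟨c, hcK⟩, hcA⟩

theorem S37DEF_coeffMap_cstO_mk (c : Qb) (hcK : c ∈ K1) (hcA : c ∈ A) :
    coeffMap (algebraMap K1 Qb) (cstO ↥K1 (S37DEF_mkO1 (A := A) c hcK hcA)) =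
      algebraMap Qb (LaurentSeries Qb) c := by
  rw [S37DEF_coeffMap_cstO]
  rfl

theorem S37DEF_res_mk (c : Qb) (hcK : c ∈ K1) (hcA : c ∈ A) :
    S18K_res A K1 (S37DEF_mkO1 (A := A) c hcK hcA) = IsLocalRing.residue A ⟨c, hcA⟩ := rfl

theorem S37DEF_redFun_eq (x : LaurentSeries K1) :
    (S18K_D A K1).redFun x = redFunO ↥K1 (S18K_res A K1) x :=
  (Fermat.Agent.S18_helper18_CHARTV.redFunO_eq_redFun (S18K_D A K1) rfl x).symm

/-- `red (c·x - 1) = -1` if `res c = 0` -/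
theorem S37DEF_redFun_mul_sub_one {o : S18K_O1 A K1} (ho : S18K_res A K1 o = 0)
    {x : LaurentSeries K1} (hx : x ∈ VringO ↥K1 (S18K_res A K1)) :
    (S18K_D A K1).redFun (cstO ↥K1 o * x - 1) =
      algebraMap (IsLocalRing.ResidueField A) (LaurentSeries (IsLocalRing.ResidueField A))
        (-1) := by
  have hinj := IsFractionRing.injective ↥(S18K_O1 A K1) ↥K1
  have h1 := cstO_mem_VringO ↥K1 (S18K_res A K1) o
  have h3 : (1 : LaurentSeries K1) ∈ VringO ↥K1 (S18K_res A K1) := one_mem _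
  rw [S37DEF_redFun_eq, sub_eq_add_neg, redFunO_add _ hinj (mul_mem h1 hx) (neg_mem h3),
    redFunO_mul _ hinj h1 hx, redFunO_cstO _ hinj, ho, redFunO_neg _ hinj h3,
    redFunO_one _ hinj, map_neg, map_one]
  simp

/-- `red (x - c) = red x - res c` -/
theorem S37DEF_redFun_sub_cst (o : S18K_O1 A K1)
    {x : LaurentSeries K1} (hx : x ∈ VringO ↥K1 (S18K_res A K1)) :
    (S18K_D A K1).redFun (x - cstO ↥K1 o) =
      redFunO ↥K1 (S18K_res A K1) x -
        algebraMap (IsLocalRing.ResidueField A) (LaurentSeries (IsLocalRing.ResidueField A))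
          (S18K_res A K1 o) := by
  have hinj := IsFractionRing.injective ↥(S18K_O1 A K1) ↥K1
  have h1 := cstO_mem_VringO ↥K1 (S18K_res A K1) o
  rw [S37DEF_redFun_eq, sub_eq_add_neg, redFunO_add _ hinj hx (neg_mem h1),
    redFunO_neg _ hinj h1, redFunO_cstO _ hinj, algebraMap_laurentSeries_eq_single,
    sub_eq_add_neg]

theorem S37DEF_jq_mem_A0 (hA : A.LiesOverPrime ℓ) (hℓN : ¬ ℓ ∣ N) :
    jqModC K1 ∈ S18K_A0 A K1 N := by
  haveI : CharP (IsLocalRing.ResidueField A) ℓ :=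
    Fermat.Agent.S18_helper5_BASE.S18A1_charP_residue A (Fact.out : ℓ.Prime) hA
  haveI : Algebra.IsAlgebraic ℚ ↥K1 :=
    Fermat.Agent.S18_helper5_BASE.S18A1_isAlgebraic_of_embedding ↥K1
      (algebraMap ↥K1 (AlgebraicClosure ℚ))
  rw [Fermat.Agent.S18AK.S18K_A0_eq,
    A0L_eq_chartFinO N ℓ (S18K_res A K1) (S18K_res_eq_zero_iff A K1) hℓN]
  exact jq_mem_chartFinO N ℓ

theorem S37DEF_cst_mem_A0 (hA : A.LiesOverPrime ℓ) (hℓN : ¬ ℓ ∣ N) (o : S18K_O1 A K1) :
    cstO ↥K1 o ∈ S18K_A0 A K1 N := by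
  haveI : CharP (IsLocalRing.ResidueField A) ℓ :=
    Fermat.Agent.S18_helper5_BASE.S18A1_charP_residue A (Fact.out : ℓ.Prime) hA
  haveI : Algebra.IsAlgebraic ℚ ↥K1 :=
    Fermat.Agent.S18_helper5_BASE.S18A1_isAlgebraic_of_embedding ↥K1
      (algebraMap ↥K1 (AlgebraicClosure ℚ))
  rw [Fermat.Agent.S18AK.S18K_A0_eq,
    A0L_eq_chartFinO N ℓ (S18K_res A K1) (S18K_res_eq_zero_iff A K1) hℓN]
  exact cstO_mem_chartO N ℓ _ o

theorem S37DEF_jq_inv_mem_Ainf (hA : A.LiesOverPrime ℓ) (hℓN : ¬ ℓ ∣ N) :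
    (jqModC K1)⁻¹ ∈ S18K_Ainf A K1 N := by
  haveI : CharP (IsLocalRing.ResidueField A) ℓ :=
    Fermat.Agent.S18_helper5_BASE.S18A1_charP_residue A (Fact.out : ℓ.Prime) hA
  haveI : Algebra.IsAlgebraic ℚ ↥K1 :=
    Fermat.Agent.S18_helper5_BASE.S18A1_isAlgebraic_of_embedding ↥K1
      (algebraMap ↥K1 (AlgebraicClosure ℚ))
  rw [Fermat.Agent.S18AK.S18K_Ainf_eq,
    AinfL_eq_chartInfO N ℓ (S18K_res A K1) (S18K_res_eq_zero_iff A K1) hℓN]
  exact jq_inv_mem_chartInfO N ℓ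

theorem S37DEF_cst_mem_Ainf (hA : A.LiesOverPrime ℓ) (hℓN : ¬ ℓ ∣ N) (o : S18K_O1 A K1) :
    cstO ↥K1 o ∈ S18K_Ainf A K1 N := by
  haveI : CharP (IsLocalRing.ResidueField A) ℓ :=
    Fermat.Agent.S18_helper5_BASE.S18A1_charP_residue A (Fact.out : ℓ.Prime) hA
  haveI : Algebra.IsAlgebraic ℚ ↥K1 :=
    Fermat.Agent.S18_helper5_BASE.S18A1_isAlgebraic_of_embedding ↥K1
      (algebraMap ↥K1 (AlgebraicClosure ℚ))
  rw [Fermat.Agent.S18AK.S18K_Ainf_eq,
    AinfL_eq_chartInfO N ℓ (S18K_res A K1) (S18K_res_eq_zero_iff A K1) hℓN]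
  exact cstO_mem_chartO N ℓ _ o

/-- the residue of a non-unit vanishes -/
theorem S37DEF_residue_eq_zero_of_inv_not_mem {c : Qb} (hcA : c ∈ A) (hc : c⁻¹ ∉ A) :
    IsLocalRing.residue A ⟨c, hcA⟩ = 0 := by
  rw [IsLocalRing.residue_eq_zero_iff, IsLocalRing.mem_maximalIdeal, mem_nonunits_iff]
  rintro ⟨u, hu⟩
  apply hc
  have h1 : ((u⁻¹ : Aˣ) : A) * ⟨c, hcA⟩ = 1 := by rw [← hu]; exact u.inv_mul
  have h2 : (((u⁻¹ : Aˣ) : A) : Qb) * c = 1 := congrArg Subtype.val h1
  have hc0 : c ≠ 0 := by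
    rintro rfl
    rw [mul_zero] at h2
    exact zero_ne_one h2
  have h3 : (((u⁻¹ : Aˣ) : A) : Qb) = c⁻¹ := eq_inv_of_mul_eq_one_left h2
  rw [← h3]
  exact ((u⁻¹ : Aˣ) : A).2


/-! ### Chart matching -/

/-- **(v0)** A rational place centred on the finite chart lies in the finite chart. -/
theorem S37DEF_inChart0_of_centred (hA : A.LiesOverPrime ℓ) (hℓN : ¬ ℓ ∣ N)
    {P : Place Qb ↥(modularFunctionFieldBar N)} (hP : S37LEVEL_IsRational N K1 P)
    {Q : Place (IsLocalRing.ResidueField A) ↥(modularFunctionFieldFullC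
      (IsLocalRing.ResidueField A) N)}
    (hC : S37B1_Centred N A K1 (S18K_A0 A K1 N) P Q) : S37DEF_InChart0 N A P := by
  have hj1 : jqModC K1 ∈ S18K_A0 A K1 N := S37DEF_jq_mem_A0 hA hℓN
  have hjF : jqModC K1 ∈ modularFunctionFieldFullC K1 N := S37DEF_A0_le_F1 hj1
  have hj0 : jqModC K1 ≠ 0 := jqModC_ne_zero_of_nontrivial _
  obtain ⟨hnn, -⟩ := hC _ hj1 hj0
  obtain ⟨c₀, hn⟩ := S37DEF_exists_near_of_ordP_nonneg P hjF hnn
  have hcK := S37DEF_rational_mem hP hjF hn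
  by_contra hnot
  have hn' : S37DEF_Near P (jqModC Qb) c₀ := by
    rw [coeffMap_jqModC] at hn
    exact hn
  have hc₀A : c₀ ∉ A := fun h => hnot ⟨⟨c₀, h⟩, hn'⟩
  have hc₀0 : c₀ ≠ 0 := fun h => hc₀A (h ▸ A.zero_mem)
  have hinvA : c₀⁻¹ ∈ A := (A.mem_or_inv_mem c₀).resolve_left hc₀A
  have hinvK : c₀⁻¹ ∈ K1 := inv_mem hcK
  set o : S18K_O1 A K1 := S37DEF_mkO1 (A := A) c₀⁻¹ hinvK hinvA with ho
  have hρ : S18K_res A K1 o = 0 := by
    rw [ho, S37DEF_res_mk]
    exact S37DEF_residue_eq_zero_of_inv_not_mem hinvA (by rw [inv_inv]; exact hc₀A)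
  have hjV : jqModC K1 ∈ VringO ↥K1 (S18K_res A K1) :=
    S37DEF_jq_mem_VringO' (O := ↥(S18K_O1 A K1)) (S18K_res A K1)
  refine S37DEF_centred_absurd (S18K_A0 A K1 N) (fun a ha => S37DEF_A0_le_F1 ha) hC
    (a := cstO ↥K1 o * jqModC K1 - 1)
    (Subring.sub_mem _ (mul_mem (S37DEF_cst_mem_A0 hA hℓN o) hj1) (one_mem _)) ?_
    (u := -1) (neg_ne_zero.2 one_ne_zero) (S37DEF_redFun_mul_sub_one hρ hjV)
  rw [map_sub, map_mul, map_one, ho, S37DEF_coeffMap_cstO_mk]
  have h1 := ((S37DEF_near_const (P := P) c₀⁻¹).mul hn).sub (S37DEF_near_one P)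
  rw [inv_mul_cancel₀ hc₀0, sub_self] at h1
  exact h1

/-- **(v∞)** A rational place centred on the chart at infinity at a place `Q` where `j̄` has a
pole lies outside the finite chart. -/
theorem S37DEF_not_inChart0_of_centred (hA : A.LiesOverPrime ℓ) (hℓN : ¬ ℓ ∣ N)
    {P : Place Qb ↥(modularFunctionFieldBar N)} (hP : S37LEVEL_IsRational N K1 P)
    {Q : Place (IsLocalRing.ResidueField A) ↥(modularFunctionFieldFullC
      (IsLocalRing.ResidueField A) N)}
    (hC : S37B1_Centred N A K1 (S18K_Ainf A K1 N) P Q)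
    (hQ : ¬ 0 ≤ S37B1_ordQ N Q (jqModC (IsLocalRing.ResidueField A))) :
    ¬ S37DEF_InChart0 N A P := by
  rintro ⟨c, hc⟩
  have hinj := IsFractionRing.injective ↥(S18K_O1 A K1) ↥K1
  have hji : (jqModC K1)⁻¹ ∈ S18K_Ainf A K1 N := S37DEF_jq_inv_mem_Ainf hA hℓN
  have hjiF : (jqModC K1)⁻¹ ∈ modularFunctionFieldFullC K1 N := S37DEF_Ainf_le_F1 hji
  have hj0 : jqModC K1 ≠ 0 := jqModC_ne_zero_of_nontrivial _
  have hjF : jqModC K1 ∈ modularFunctionFieldFullC K1 N := by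
    have := inv_mem hjiF
    rwa [inv_inv] at this
  obtain ⟨hnn, -⟩ := hC _ hji (inv_ne_zero hj0)
  obtain ⟨c', hn'⟩ := S37DEF_exists_near_of_ordP_nonneg P hjiF hnn
  have hn : S37DEF_Near P (coeffMap (algebraMap K1 Qb) (jqModC K1)) (c : Qb) := by
    rw [coeffMap_jqModC]
    exact hc
  have hcc : c' * (c : Qb) = 1 := by
    have h1 := hn'.mul hn
    rw [← map_mul, inv_mul_cancel₀ hj0, map_one] at h1
    exact h1.unique (S37DEF_near_one P)
  have hc0 : (c : Qb) ≠ 0 := by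
    intro h
    rw [h, mul_zero] at hcc
    exact zero_ne_one hcc
  have hc' : c' = (c : Qb)⁻¹ := eq_inv_of_mul_eq_one_left hcc
  have hcK : (c : Qb) ∈ K1 := S37DEF_rational_mem hP hjF hn
  have hc'K : c' ∈ K1 := S37DEF_rational_mem hP hjiF hn'
  have hjiV : (jqModC K1)⁻¹ ∈ VringO ↥K1 (S18K_res A K1) :=
    S37DEF_jq_inv_mem_VringO' (O := ↥(S18K_O1 A K1)) (S18K_res A K1) hinj
  by_cases hcA : c' ∈ A
  · -- `c` is a unit of `A`
    set o' : S18K_O1 A K1 := S37DEF_mkO1 (A := A) c' hc'K hcA with ho'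
    have hnear : S37DEF_Near P
        (coeffMap (algebraMap K1 Qb) ((jqModC K1)⁻¹ - cstO ↥K1 o')) 0 := by
      rw [map_sub, ho', S37DEF_coeffMap_cstO_mk]
      have h1 := hn'.sub (S37DEF_near_const (P := P) c')
      rwa [sub_self] at h1
    have h2 := S37DEF_centred_near_zero (S18K_Ainf A K1 N) (fun a ha => S37DEF_Ainf_le_F1 ha) hC
      (Subring.sub_mem _ hji (S37DEF_cst_mem_Ainf hA hℓN o')) hnear
    rw [S37DEF_redFun_sub_cst o' hjiV, S37DEF_redFunO_jq_inv _ hinj] at h2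
    have h3 := h2.add (S37DEF_near_const (P := Q) (S18K_res A K1 o'))
    rw [sub_add_cancel, zero_add] at h3
    have hu : S18K_res A K1 o' ≠ 0 := by
      intro h0
      have h4 : IsLocalRing.residue A ⟨c', hcA⟩ * IsLocalRing.residue A c = 1 := by
        rw [← map_mul, ← map_one (IsLocalRing.residue A)]
        congr 1
        exact Subtype.ext hcc
      rw [ho', S37DEF_res_mk] at h0
      rw [h0, zero_mul] at h4
      exact zero_ne_one h4
    have h5 := h3.inv hu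
    rw [inv_inv] at h5
    exact hQ (S37DEF_ordQ_nonneg_of_near Q h5)
  · -- `c` is not a unit of `A`
    set o : S18K_O1 A K1 := S37DEF_mkO1 (A := A) (c : Qb) hcK c.2 with ho
    have hρ : S18K_res A K1 o = 0 := by
      rw [ho, S37DEF_res_mk]
      exact S37DEF_residue_eq_zero_of_inv_not_mem c.2 (by rw [← hc']; exact hcA)
    refine S37DEF_centred_absurd (S18K_Ainf A K1 N) (fun a ha => S37DEF_Ainf_le_F1 ha) hC
      (a := cstO ↥K1 o * (jqModC K1)⁻¹ - 1)
      (Subring.sub_mem _ (mul_mem (S37DEF_cst_mem_Ainf hA hℓN o) hji) (one_mem _)) ?_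
      (u := -1) (neg_ne_zero.2 one_ne_zero) (S37DEF_redFun_mul_sub_one hρ hjiV)
    rw [map_sub, map_mul, map_one, ho, S37DEF_coeffMap_cstO_mk]
    have h1 := ((S37DEF_near_const (P := P) (c : Qb)).mul hn').sub (S37DEF_near_one P)
    rw [mul_comm (c : Qb) c', hcc, sub_self] at h1
    exact h1

end Carriers

end Fermat.Agent.S37_helper11_B1DEF
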