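import Fermat.Agent.S37_helper11_B1DEFS

/-!
# S37, block B1-DEF (part 5): linear extension of compatibility to the charts over `O`

If `P` and `Q` are compatible on the chart `C0 = chartAlg N ℓ S` over `ℤ_(ℓ)`, then they are
compatible on `O · C0 ⊆ K1((q))` for every base `O → K1 → ℚ̄` whose residue map is induced by
that of `A`.
-/

set_option autoImplicit false
set_option linter.unusedSectionVars false
set_option linter.unusedVariables false
set_option linter.style.haveILetI false

noncomputable section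

open AlgebraicCurve IntermediateField ModularCurve ModularCurve.IgusaScheme
open Fermat.Agent.S28_helper14_Res Fermat.Agent.S28_helper14_Val
open Fermat.Agent.S18_helper18_TENSORO

namespace Fermat.Agent.S37_helper11_B1DEF

/-! ## Orders and valuations -/

section Ord

variable {K F : Type*} [Field K] [Field F] [Algebra K F] (P : Place K F)

theorem S37DEF_ord_pos_iff {y : F} (hy : y ≠ 0) :
    0 < P.ord y ↔ P.toValuationSubring.valuation y < 1 := by
  constructor
  · intro h
    have hm := Fermat.Agent.S24_helper6_A2.mem_of_ord_nonneg P h.le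
    have := Fermat.Agent.S24_helper15_A1.mem_maximalIdeal_of_ord_pos P hm h
    exact (ValuationSubring.valuation_lt_one_iff _ _).1 this
  · intro h
    have hm : y ∈ P.toValuationSubring := (ValuationSubring.valuation_le_one_iff _ _).1 h.le
    refine Fermat.Agent.S24_helper15_A1.ord_pos_of_not_isUnit (v := P) hm hy ?_
    intro hu
    have h1 := (ValuationSubring.valuation_eq_one_iff _ (⟨y, hm⟩ : P.toValuationSubring)).1 hu
    exact absurd h1 (ne_of_lt h)

theorem S37DEF_ord_nonneg_iff {y : F} : 0 ≤ P.ord y ↔ y ∈ P.toValuationSubring :=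
  ⟨fun h => Fermat.Agent.S24_helper6_A2.mem_of_ord_nonneg P h,
    fun h => Fermat.Agent.S24_helper6_A2.ord_nonneg_of_mem P h⟩

end Ord

section NearMore

variable {K : Type*} [Field K] {E : IntermediateField K (LaurentSeries K)} {P : Place K E}

/-- congruence to `0` in terms of the order -/
theorem S37DEF_near_zero_iff_ord {y : E} :
    S37DEF_Near P (y : LaurentSeries K) 0 ↔ y = 0 ∨ 0 < P.ord y := by
  rw [S37DEF_near_zero_iff]
  by_cases hy : y = 0
  · subst hy
    simp
  · rw [← S37DEF_ord_pos_iff P hy]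
    simp [hy]

theorem S37DEF_Near.sub {y y' : LaurentSeries K} {c c' : K} (h : S37DEF_Near P y c)
    (h' : S37DEF_Near P y' c') : S37DEF_Near P (y - y') (c - c') := by
  rw [sub_eq_add_neg, sub_eq_add_neg]
  exact h.add h'.neg

/-- the inverse of a function with a nonzero value -/
theorem S37DEF_Near.inv {y : LaurentSeries K} {c : K} (h : S37DEF_Near P y c) (hc : c ≠ 0) :
    S37DEF_Near P y⁻¹ c⁻¹ := by
  obtain ⟨hy, hv⟩ := h
  set yE : E := ⟨y, hy⟩ with hyE
  have hcoe : y⁻¹ = ((yE⁻¹ : E) : LaurentSeries K) := by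
    rw [IntermediateField.coe_inv]
  have hvc : P.toValuationSubring.valuation (algebraMap K E c) = 1 := by
    have hu : IsUnit (⟨algebraMap K E c, P.algebraMap_mem' c⟩ : P.toValuationSubring) := by
      refine IsUnit.of_mul_eq_one (⟨algebraMap K E c⁻¹, P.algebraMap_mem' _⟩ :
        P.toValuationSubring) ?_
      apply Subtype.ext
      show algebraMap K E c * algebraMap K E c⁻¹ = 1
      rw [← map_mul, mul_inv_cancel₀ hc, map_one]
    exact (ValuationSubring.valuation_eq_one_iff _ _).1 hu
  have hvy : P.toValuationSubring.valuation yE = 1 := by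
    have h1 : yE = (yE - algebraMap K E c) + algebraMap K E c := by ring
    rw [h1, Valuation.map_add_eq_of_lt_right]
    · exact hvc
    · rw [hvc]; exact hv
  have hy0 : yE ≠ 0 := by
    intro h0
    rw [h0, map_zero] at hvy
    exact zero_ne_one hvy
  have hc0' : algebraMap K E c ≠ 0 := by
    rw [Ne, map_eq_zero]; exact hc
  have h2 : yE⁻¹ - algebraMap K E c⁻¹ =
      -((yE - algebraMap K E c) * (yE⁻¹ * (algebraMap K E c)⁻¹)) := by
    rw [map_inv₀]
    field_simp
    ring
  rw [hcoe, S37DEF_near_iff, h2, Valuation.map_neg, map_mul, map_mul, map_inv₀, map_inv₀,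
    hvy, hvc, inv_one, mul_one, mul_one]
  exact hv

/-- a function with a nonzero value is a unit -/
theorem S37DEF_Near.ord_eq_zero {y : E} {c : K} (h : S37DEF_Near P (y : LaurentSeries K) c)
    (hc : c ≠ 0) : P.ord y = 0 := by
  have h1 := h.mem_valuationSubring
  have h2 := (h.inv hc).mem_valuationSubring
  have hy1 : 0 ≤ P.ord y := Fermat.Agent.S24_helper6_A2.ord_nonneg_of_mem P h1
  have hcoe : (⟨(y : LaurentSeries K)⁻¹, (h.inv hc).1⟩ : E) = y⁻¹ := by
    apply Subtype.ext
    rw [IntermediateField.coe_inv]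
  rw [hcoe] at h2
  have hy2 : 0 ≤ P.ord y⁻¹ := Fermat.Agent.S24_helper6_A2.ord_nonneg_of_mem P h2
  rw [Place.ord_inv] at hy2
  omega

end NearMore

/-! ## Linear extension -/

section Linear

variable (N : ℕ) [NeZero N] {ℓ : ℕ} [Fact ℓ.Prime]
  (A : ValuationSubring (AlgebraicClosure ℚ)) {k : Type} [Field k] [CharP k ℓ] (res : A →+* k)
  {O K1 : Type} [CommRing O] [Field K1] [CharZero K1] [Algebra O K1]
  (ρ : O →+* k) (φ : K1 →+* AlgebraicClosure ℚ)

theorem S37DEF_coeffMap_cstO (c : O) :
    coeffMap φ (cstO K1 c) =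
      algebraMap (AlgebraicClosure ℚ) (LaurentSeries (AlgebraicClosure ℚ))
        (φ (algebraMap O K1 c)) := by
  rw [cstO_apply, coeffMap_single, algebraMap_laurentSeries_eq_single]

theorem S37DEF_coeffMap_embQ (x : LaurentSeries ℚ) :
    coeffMap φ (embQ K1 x) = coeffEmb (AlgebraicClosure ℚ) x := by
  rw [embQ, coeffMap_coeffMap, coeffEmb]
  exact coeffMap_congr (RingHom.ext fun c => by simp) x

variable {N A}

/-- **Linear extension (L).** -/
theorem S37DEF_compat_chartO (hA : A.LiesOverPrime ℓ)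
    (hinj : Function.Injective (algebraMap O K1))
    (hunit : ∀ n : ℕ, ¬ ℓ ∣ n → IsUnit (n : O))
    (hφ : ∀ o : O, ∃ a : A, (a : AlgebraicClosure ℚ) = φ (algebraMap O K1 o) ∧ res a = ρ o)
    (S : Set ↥(modularFunctionFieldFull N))
    (hA0 : ∀ x ∈ chartAlg N ℓ S, ((x : ↥(modularFunctionFieldFull N)) : LaurentSeries ℚ) ∈ Vring ℓ)
    (P : Place (AlgebraicClosure ℚ) ↥(modularFunctionFieldBar N))
    (Q : Place k ↥(modularFunctionFieldFullC k N))
    (h : S37DEF_Compat N A res ℓ S P Q)
    {z : LaurentSeries K1} (hz : z ∈ chartO N ℓ (chartAlg N ℓ S) O K1) :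
    ∃ c : A, S37DEF_Near P (coeffMap φ z) (c : AlgebraicClosure ℚ) ∧
      S37DEF_Near Q (redFunO K1 ρ z) (res c) := by
  have key : z ∈ VringO K1 ρ ∧ ∃ c : A, S37DEF_Near P (coeffMap φ z) (c : AlgebraicClosure ℚ) ∧
      S37DEF_Near Q (redFunO K1 ρ z) (res c) := by
    refine chartO_induction N ℓ (chartAlg N ℓ S)
      (P := fun z => z ∈ VringO K1 ρ ∧ ∃ c : A,
        S37DEF_Near P (coeffMap φ z) (c : AlgebraicClosure ℚ) ∧
        S37DEF_Near Q (redFunO K1 ρ z) (res c)) ?_ ?_ ?_ ?_ hz
    · refine ⟨zero_mem _, 0, ?_, ?_⟩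
      · rw [map_zero, ZeroMemClass.coe_zero]
        exact S37DEF_near_zero
      · rw [redFunO_zero ρ hinj, map_zero]
        exact S37DEF_near_zero
    · intro c x
      have h1 := cstO_mem_VringO K1 ρ c
      have h2 := embC_mem_VringO N ℓ (chartAlg N ℓ S) ρ hA0 hinj hunit x
      obtain ⟨a₀, ha₀, hra₀⟩ := hφ c
      obtain ⟨c', hc'1, hc'2⟩ := h x x.2
      refine ⟨mul_mem h1 h2, a₀ * c', ?_, ?_⟩
      · rw [map_mul, S37DEF_coeffMap_cstO, embC_apply, S37DEF_coeffMap_embQ, ← ha₀]
        have := (S37DEF_near_const (P := P) (a₀ : AlgebraicClosure ℚ)).mul hc'1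
        exact this
      · rw [redFunO_mul ρ hinj h1 h2, redFunO_cstO ρ hinj,
          redFunO_embC N ℓ (chartAlg N ℓ S) ρ hA0 hinj hunit, map_mul,
          ← S37DEF_red_eq A res hA (hA0 x x.2), ← hra₀, ← algebraMap_laurentSeries_eq_single]
        exact (S37DEF_near_const (P := Q) (res a₀)).mul hc'2
    · rintro x y ⟨hx, c, hc1, hc2⟩ ⟨hy, c', hc'1, hc'2⟩
      refine ⟨add_mem hx hy, c + c', ?_, ?_⟩
      · rw [map_add]
        exact hc1.add hc'1
      · rw [redFunO_add ρ hinj hx hy, map_add]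
        exact hc2.add hc'2
    · rintro x ⟨hx, c, hc1, hc2⟩
      refine ⟨neg_mem hx, -c, ?_, ?_⟩
      · rw [map_neg]
        exact hc1.neg
      · rw [redFunO_neg ρ hinj hx, map_neg]
        exact hc2.neg
  exact key.2

end Linear

end Fermat.Agent.S37_helper11_B1DEF
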