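import Fermat.Agent.S37_helper11_B1DEFC

/-!
# S37, block B1-DEF (part 3): the two charts and the reduction map `r`
-/

set_option autoImplicit false
set_option linter.unusedSectionVars false
set_option linter.unusedVariables false
set_option linter.style.haveILetI false

noncomputable section

open AlgebraicCurve IntermediateField ModularCurve ModularCurve.IgusaScheme
open Fermat.Agent.S28_helper14_Res Fermat.Agent.S28_helper14_Val
open Fermat.Agent.S18_helper18_TENSORO

namespace Fermat.Agent.S37_helper11_B1DEF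

/-! ## The two charts -/

section Charts

variable (N : ℕ) [NeZero N] {ℓ : ℕ} [Fact ℓ.Prime]
  (A : ValuationSubring (AlgebraicClosure ℚ)) {k : Type} [Field k] (res : A →+* k)

/-- The reduction of `j`. -/
theorem S37DEF_red_jq : S37DEF_red A res jq = jqModC k := by
  have h1 : coeffEmb (AlgebraicClosure ℚ) jq =
      incO (AlgebraicClosure ℚ) (jqModC A) := by
    rw [← jqModC_rat, coeffEmb, coeffMap_jqModC, incO, coeffMap_jqModC]
  rw [S37DEF_red, h1, redFunO_incO res (S37DEF_hinj A), redO, coeffMap_jqModC]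

theorem S37DEF_coeffEmb_jq :
    coeffEmb (AlgebraicClosure ℚ) jq = jqModC (AlgebraicClosure ℚ) := by
  rw [← jqModC_rat, coeffEmb, coeffMap_jqModC]

theorem S37DEF_jq_mem_VringO :
    coeffEmb (AlgebraicClosure ℚ) jq ∈ VringO (AlgebraicClosure ℚ) res := by
  have h1 : coeffEmb (AlgebraicClosure ℚ) jq =
      incO (AlgebraicClosure ℚ) (jqModC A) := by
    rw [← jqModC_rat, coeffEmb, coeffMap_jqModC, incO, coeffMap_jqModC]
  rw [h1]
  exact incO_mem_VringO _ res _

/-- The reduction of `j⁻¹`. -/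
theorem S37DEF_red_jq_inv : S37DEF_red A res jq⁻¹ = (jqModC k)⁻¹ := by
  have hj0 : jqModC k ≠ 0 := jqModC_ne_zero_of_nontrivial k
  have hmem := S37DEF_jq_mem_VringO A res
  have hred : redFunO (AlgebraicClosure ℚ) res (coeffEmb (AlgebraicClosure ℚ) jq) = jqModC k :=
    S37DEF_red_jq A res
  have hinv : (coeffEmb (AlgebraicClosure ℚ) jq)⁻¹ ∈ VringO (AlgebraicClosure ℚ) res :=
    inv_mem_VringO res (S37DEF_hinj A) hmem (by rw [hred]; exact hj0)
  have hne : coeffEmb (AlgebraicClosure ℚ) jq ≠ 0 := by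
    rw [S37DEF_coeffEmb_jq]
    exact jqModC_ne_zero_of_nontrivial _
  have h1 := redFunO_mul res (S37DEF_hinj A) hinv hmem
  rw [inv_mul_cancel₀ hne, redFunO_one res (S37DEF_hinj A), hred] at h1
  rw [S37DEF_red, map_inv₀]
  exact eq_inv_of_mul_eq_one_left h1.symm

/-- `P` lies in the finite chart: `j` has a value in `A` at `P`. -/
def S37DEF_InChart0 (P : Place (AlgebraicClosure ℚ) ↥(modularFunctionFieldBar N)) : Prop :=
  ∃ c : A, S37DEF_Near P (jqModC (AlgebraicClosure ℚ)) (c : AlgebraicClosure ℚ)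

/-- `P` and `Q` are compatible on the chart `chartAlg N ℓ S`: every `x` of the chart has a
value `c ∈ A` at `P`, and its reduction has the value `res c` at `Q`. -/
def S37DEF_Compat (ℓ : ℕ) [Fact ℓ.Prime] (S : Set ↥(modularFunctionFieldFull N))
    (P : Place (AlgebraicClosure ℚ) ↥(modularFunctionFieldBar N))
    (Q : Place k ↥(modularFunctionFieldFullC k N)) : Prop :=
  ∀ x ∈ chartAlg N ℓ S, ∃ c : A,
    S37DEF_Near P (coeffEmb (AlgebraicClosure ℚ) (x : LaurentSeries ℚ))
      (c : AlgebraicClosure ℚ) ∧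
    S37DEF_Near Q (S37DEF_red A res (x : LaurentSeries ℚ)) (res c)

variable {N A}

theorem S37DEF_jBar_mem : jqModC (AlgebraicClosure ℚ) ∈ modularFunctionFieldBar N := by
  rw [← S37DEF_coeffEmb_jq]
  exact coeffEmb_mem_laurentBaseChange (AlgebraicClosure ℚ) (jFull N).2

/-- Outside the finite chart, `j⁻¹` has a value in the maximal ideal of `A`. -/
theorem S37DEF_near_inv_of_not_inChart0
    (hres : ∀ x : A, res x = 0 ↔ x ∈ IsLocalRing.maximalIdeal A)
    (P : Place (AlgebraicClosure ℚ) ↥(modularFunctionFieldBar N))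
    (hP : ¬ S37DEF_InChart0 N A P) :
    ∃ c : A, res c = 0 ∧
      S37DEF_Near P (jqModC (AlgebraicClosure ℚ))⁻¹ (c : AlgebraicClosure ℚ) := by
  set jP : ↥(modularFunctionFieldBar N) := ⟨jqModC (AlgebraicClosure ℚ), S37DEF_jBar_mem⟩
    with hjP
  have hcoe : (jqModC (AlgebraicClosure ℚ))⁻¹ =
      ((jP⁻¹ : ↥(modularFunctionFieldBar N)) : LaurentSeries (AlgebraicClosure ℚ)) := by
    rw [IntermediateField.coe_inv]
  have hjP0 : jP ≠ 0 := by
    intro h
    have := congrArg Subtype.val h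
    exact jqModC_ne_zero_of_nontrivial (AlgebraicClosure ℚ) this
  by_cases hmem : jP ∈ P.toValuationSubring
  · -- `j` has a value `c₀ ∉ A`
    have hn := S37DEF_near_val P jP hmem
    set c₀ := S37DEF_val P (S37DEF_hP N P) ⟨jP, hmem⟩ with hc₀
    have hc₀A : c₀ ∉ A := fun h => hP ⟨⟨c₀, h⟩, hn⟩
    have hc₀0 : c₀ ≠ 0 := fun h => hc₀A (h ▸ A.zero_mem)
    have hinvA : c₀⁻¹ ∈ A := (A.mem_or_inv_mem c₀).resolve_left hc₀A
    refine ⟨⟨c₀⁻¹, hinvA⟩, ?_, ?_⟩
    · rw [hres, IsLocalRing.mem_maximalIdeal, mem_nonunits_iff]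
      intro hu
      obtain ⟨u, hu⟩ := hu
      apply hc₀A
      have h1 : ((u⁻¹ : Aˣ) : A) * ⟨c₀⁻¹, hinvA⟩ = 1 := by rw [← hu]; exact u.inv_mul
      have h2 : (((u⁻¹ : Aˣ) : A) : AlgebraicClosure ℚ) * c₀⁻¹ = 1 :=
        congrArg Subtype.val h1
      have h3 : (((u⁻¹ : Aˣ) : A) : AlgebraicClosure ℚ) = c₀ :=
        (mul_inv_eq_one₀ hc₀0).1 h2
      rw [← h3]
      exact ((u⁻¹ : Aˣ) : A).2
    · rw [hcoe, S37DEF_near_iff]
      have hv := S37DEF_near_iff.1 hn
      have hvc : P.toValuationSubring.valuation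
          (algebraMap (AlgebraicClosure ℚ) ↥(modularFunctionFieldBar N) c₀) = 1 := by
        have hu : IsUnit (⟨algebraMap _ ↥(modularFunctionFieldBar N) c₀,
            P.algebraMap_mem' c₀⟩ : P.toValuationSubring) := by
          refine IsUnit.of_mul_eq_one (⟨algebraMap _ ↥(modularFunctionFieldBar N) c₀⁻¹,
            P.algebraMap_mem' _⟩ : P.toValuationSubring) ?_
          apply Subtype.ext
          show algebraMap _ ↥(modularFunctionFieldBar N) c₀ *
            algebraMap _ ↥(modularFunctionFieldBar N) c₀⁻¹ = 1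
          rw [← map_mul, mul_inv_cancel₀ hc₀0, map_one]
        exact (ValuationSubring.valuation_eq_one_iff _ _).1 hu
      have hvj : P.toValuationSubring.valuation jP = 1 := by
        have h1 : jP = (jP - algebraMap _ ↥(modularFunctionFieldBar N) c₀) +
            algebraMap _ ↥(modularFunctionFieldBar N) c₀ := by ring
        rw [h1, Valuation.map_add_eq_of_lt_right]
        · exact hvc
        · rw [hvc]; exact hv
      have hc0' : algebraMap (AlgebraicClosure ℚ) ↥(modularFunctionFieldBar N) c₀ ≠ 0 := by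
        rw [Ne, map_eq_zero]; exact hc₀0
      have h2 : jP⁻¹ - algebraMap (AlgebraicClosure ℚ) ↥(modularFunctionFieldBar N) c₀⁻¹ =
          -((jP - algebraMap _ ↥(modularFunctionFieldBar N) c₀) *
            (jP⁻¹ * (algebraMap _ ↥(modularFunctionFieldBar N) c₀)⁻¹)) := by
        rw [map_inv₀]
        field_simp
        ring
      show P.toValuationSubring.valuation
        (jP⁻¹ - algebraMap (AlgebraicClosure ℚ) ↥(modularFunctionFieldBar N) c₀⁻¹) < 1
      rw [h2, Valuation.map_neg, map_mul, map_mul, map_inv₀, map_inv₀, hvj, hvc, inv_one,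
        mul_one, mul_one]
      exact hv
  · -- `j` has a pole at `P`
    refine ⟨0, map_zero _, ?_⟩
    rw [hcoe, ZeroMemClass.coe_zero, S37DEF_near_zero_iff, map_inv₀]
    have h1 : 1 < P.toValuationSubring.valuation jP := by
      by_contra hle
      exact hmem ((ValuationSubring.valuation_le_one_iff _ _).1 (not_lt.mp hle))
    exact inv_lt_one_of_one_lt₀ h1

end Charts

end Fermat.Agent.S37_helper11_B1DEF
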