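import Fermat.Agent.S37_helper11_B1DEFR
import Fermat.Agent.S37_helper20_KAPPABC

/-!
# S37, block B1-DEF (part 4): the reduction map `r` on places

For every place `P` of `F = ℚ̄(X₀(N))` we choose a place `r P` of `F_k = k(X₀(N))`
(`k` a field of characteristic `ℓ ∤ N` receiving `A`) such that `P` and `r P` are compatible on
the finite chart if `j` has a value in `A` at `P`, and on the chart at infinity otherwise.
-/

set_option autoImplicit false
set_option linter.unusedSectionVars false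
set_option linter.unusedVariables false
set_option linter.style.haveILetI false

noncomputable section

open AlgebraicCurve IntermediateField ModularCurve ModularCurve.IgusaScheme
open Fermat.Agent.S28_helper14_Res Fermat.Agent.S28_helper14_Val
open Fermat.Agent.S18_helper18_TENSORO

namespace Fermat.Agent.S37_helper11_B1DEF

section R

variable (N : ℕ) [NeZero N] {ℓ : ℕ} [Fact ℓ.Prime]
  (A : ValuationSubring (AlgebraicClosure ℚ)) {k : Type} [Field k] (res : A →+* k)

/-- KAPPA on a chart, in the shape used by `S37DEF_exists_compat`, from KAPPA over `𝔽_ℓ`. -/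
theorem S37DEF_kappa_of [CharP k ℓ] (hA : A.LiesOverPrime ℓ)
    (S : Set ↥(modularFunctionFieldFull N))
    (hA0 : ∀ x ∈ chartAlg N ℓ S, ((x : ↥(modularFunctionFieldFull N)) : LaurentSeries ℚ) ∈ Vring ℓ)
    (hκ : ∀ x ∈ chartAlg N ℓ S,
      redFun ℓ ((x : ↥(modularFunctionFieldFull N)) : LaurentSeries ℚ) ∈
        modularFunctionFieldFullC (ZMod ℓ) N) :
    ∀ x ∈ chartAlg N ℓ S,
      S37DEF_red A res ((x : ↥(modularFunctionFieldFull N)) : LaurentSeries ℚ) ∈
        modularFunctionFieldFullC k N := by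
  intro x hx
  rw [S37DEF_red_eq A res hA (hA0 x hx)]
  exact Fermat.Agent.S18_helper25_GLUE.S18G_coeffMap_mem (ZMod.castHom (dvd_refl ℓ) k) N
    (hκ x hx)

variable {N A}

/-- existence of a compatible place on the finite chart -/
theorem S37DEF_exists_fin [CharP k ℓ] (hA : A.LiesOverPrime ℓ) (hℓN : ¬ ℓ ∣ N)
    (hκ : ∀ x ∈ chartAlgFin N ℓ,
      redFun ℓ ((x : ↥(modularFunctionFieldFull N)) : LaurentSeries ℚ) ∈
        modularFunctionFieldFullC (ZMod ℓ) N)
    (P : Place (AlgebraicClosure ℚ) ↥(modularFunctionFieldBar N))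
    (hP : S37DEF_InChart0 N A P) :
    ∃ Q : Place k ↥(modularFunctionFieldFullC k N), S37DEF_Compat N A res ℓ {jFull N} P Q := by
  have hκ' := S37DEF_kappa_of N A res hA {jFull N} (hA_fin N ℓ) hκ
  refine S37DEF_exists_compat res hA {jFull N} (hA_fin N ℓ) (hkey_fin N ℓ hℓN) hκ' P ?_
    (jFull N) (subset_chartAlg N ℓ _ rfl) ?_
  · intro s hs
    rw [Set.mem_singleton_iff] at hs
    subst hs
    obtain ⟨c, hc⟩ := hP
    refine ⟨c, ?_⟩
    have h1 : ((jFull N : ↥(modularFunctionFieldFull N)) : LaurentSeries ℚ) = jq := rfl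
    rw [h1, S37DEF_coeffEmb_jq]
    exact hc
  · have h1 : (⟨S37DEF_red A res ((jFull N : ↥(modularFunctionFieldFull N)) : LaurentSeries ℚ),
        hκ' (jFull N) (subset_chartAlg N ℓ _ rfl)⟩ : ↥(modularFunctionFieldFullC k N)) =
        Fermat.Agent.S18_helper26_CONST.S18P15_jbar k N := by
      apply Subtype.ext
      exact S37DEF_red_jq A res
    rw [h1]
    exact Fermat.Agent.S18_helper26_CONST.S18P15_transcendental_jbar k N

/-- existence of a compatible place on the chart at infinity -/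
theorem S37DEF_exists_inf [CharP k ℓ] (hA : A.LiesOverPrime ℓ) (hℓN : ¬ ℓ ∣ N)
    (hres : ∀ x : A, res x = 0 ↔ x ∈ IsLocalRing.maximalIdeal A)
    (hκ : ∀ x ∈ chartAlgFin N ℓ,
      redFun ℓ ((x : ↥(modularFunctionFieldFull N)) : LaurentSeries ℚ) ∈
        modularFunctionFieldFullC (ZMod ℓ) N)
    (P : Place (AlgebraicClosure ℚ) ↥(modularFunctionFieldBar N))
    (hP : ¬ S37DEF_InChart0 N A P) :
    ∃ Q : Place k ↥(modularFunctionFieldFullC k N),
      S37DEF_Compat N A res ℓ {(jFull N)⁻¹} P Q := by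
  have hκ' := S37DEF_kappa_of N A res hA {(jFull N)⁻¹} (hA_inf N ℓ)
    (Fermat.Agent.S37_helper20_KAPPABC.S37KBC_kappa_inf N ℓ hκ)
  have hcoe : (((jFull N)⁻¹ : ↥(modularFunctionFieldFull N)) : LaurentSeries ℚ) = jq⁻¹ := by
    rw [IntermediateField.coe_inv]
    rfl
  refine S37DEF_exists_compat res hA {(jFull N)⁻¹} (hA_inf N ℓ) (hkey_inf N ℓ hℓN) hκ' P ?_
    (jFull N)⁻¹ (subset_chartAlg N ℓ _ rfl) ?_
  · intro s hs
    rw [Set.mem_singleton_iff] at hs
    subst hs
    obtain ⟨c, -, hc⟩ := S37DEF_near_inv_of_not_inChart0 res hres P hP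
    refine ⟨c, ?_⟩
    rw [hcoe, coeffEmb, map_inv₀, ← coeffEmb, S37DEF_coeffEmb_jq]
    exact hc
  · have h1 : (⟨S37DEF_red A res (((jFull N)⁻¹ : ↥(modularFunctionFieldFull N)) :
          LaurentSeries ℚ),
        hκ' (jFull N)⁻¹ (subset_chartAlg N ℓ _ rfl)⟩ : ↥(modularFunctionFieldFullC k N)) =
        (Fermat.Agent.S18_helper26_CONST.S18P15_jbar k N)⁻¹ := by
      apply Subtype.ext
      show S37DEF_red A res (((jFull N)⁻¹ : ↥(modularFunctionFieldFull N)) :
          LaurentSeries ℚ) = (((Fermat.Agent.S18_helper26_CONST.S18P15_jbar k N)⁻¹ :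
          ↥(modularFunctionFieldFullC k N)) : LaurentSeries k)
      rw [hcoe, S37DEF_red_jq_inv, IntermediateField.coe_inv]
      rfl
    rw [h1]
    intro halg
    have := halg.inv
    rw [inv_inv] at this
    exact Fermat.Agent.S18_helper26_CONST.S18P15_transcendental_jbar k N this

/-- **The reduction map on places.** -/
theorem S37DEF_exists_r [CharP k ℓ] (hA : A.LiesOverPrime ℓ) (hℓN : ¬ ℓ ∣ N)
    (hres : ∀ x : A, res x = 0 ↔ x ∈ IsLocalRing.maximalIdeal A)
    (hκ : ∀ x ∈ chartAlgFin N ℓ,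
      redFun ℓ ((x : ↥(modularFunctionFieldFull N)) : LaurentSeries ℚ) ∈
        modularFunctionFieldFullC (ZMod ℓ) N) :
    ∃ r : Place (AlgebraicClosure ℚ) ↥(modularFunctionFieldBar N) →
        Place k ↥(modularFunctionFieldFullC k N),
      ∀ P, (S37DEF_InChart0 N A P → S37DEF_Compat N A res ℓ {jFull N} P (r P)) ∧
        (¬ S37DEF_InChart0 N A P → S37DEF_Compat N A res ℓ {(jFull N)⁻¹} P (r P)) := by
  classical
  have h : ∀ P : Place (AlgebraicClosure ℚ) ↥(modularFunctionFieldBar N),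
      ∃ Q : Place k ↥(modularFunctionFieldFullC k N),
        (S37DEF_InChart0 N A P → S37DEF_Compat N A res ℓ {jFull N} P Q) ∧
        (¬ S37DEF_InChart0 N A P → S37DEF_Compat N A res ℓ {(jFull N)⁻¹} P Q) := by
    intro P
    by_cases hP : S37DEF_InChart0 N A P
    · obtain ⟨Q, hQ⟩ := S37DEF_exists_fin res hA hℓN hκ P hP
      exact ⟨Q, fun _ => hQ, fun h => absurd hP h⟩
    · obtain ⟨Q, hQ⟩ := S37DEF_exists_inf res hA hℓN hres hκ P hP
      exact ⟨Q, fun h => absurd h hP, fun _ => hQ⟩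
  choose r hr using h
  exact ⟨r, hr⟩

/-- On the finite chart, `j̄` is regular at the compatible place. -/
theorem S37DEF_jbar_near_of_fin {P : Place (AlgebraicClosure ℚ) ↥(modularFunctionFieldBar N)}
    {Q : Place k ↥(modularFunctionFieldFullC k N)}
    (h : S37DEF_Compat N A res ℓ {jFull N} P Q) :
    ∃ c : A, S37DEF_Near P (jqModC (AlgebraicClosure ℚ)) (c : AlgebraicClosure ℚ) ∧
      S37DEF_Near Q (jqModC k) (res c) := by
  obtain ⟨c, hc1, hc2⟩ := h (jFull N) (subset_chartAlg N ℓ _ rfl)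
  have h1 : ((jFull N : ↥(modularFunctionFieldFull N)) : LaurentSeries ℚ) = jq := rfl
  rw [h1, S37DEF_coeffEmb_jq] at hc1
  rw [h1, S37DEF_red_jq] at hc2
  exact ⟨c, hc1, hc2⟩

/-- On the chart at infinity, `j̄⁻¹` vanishes at the compatible place of a place outside the
finite chart. -/
theorem S37DEF_jbar_inv_near_of_inf
    (hres : ∀ x : A, res x = 0 ↔ x ∈ IsLocalRing.maximalIdeal A)
    {P : Place (AlgebraicClosure ℚ) ↥(modularFunctionFieldBar N)}
    {Q : Place k ↥(modularFunctionFieldFullC k N)}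
    (hP : ¬ S37DEF_InChart0 N A P)
    (h : S37DEF_Compat N A res ℓ {(jFull N)⁻¹} P Q) :
    S37DEF_Near Q (jqModC k)⁻¹ 0 := by
  obtain ⟨c, hc1, hc2⟩ := h (jFull N)⁻¹ (subset_chartAlg N ℓ _ rfl)
  have hcoe : (((jFull N)⁻¹ : ↥(modularFunctionFieldFull N)) : LaurentSeries ℚ) = jq⁻¹ := by
    rw [IntermediateField.coe_inv]
    rfl
  rw [hcoe, coeffEmb, map_inv₀, ← coeffEmb, S37DEF_coeffEmb_jq] at hc1
  rw [hcoe, S37DEF_red_jq_inv] at hc2
  obtain ⟨c', hc'0, hc'⟩ := S37DEF_near_inv_of_not_inChart0 res hres P hP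
  have hcc : (c : AlgebraicClosure ℚ) = (c' : AlgebraicClosure ℚ) := hc1.unique hc'
  have hcc' : c = c' := Subtype.ext hcc
  rw [hcc', hc'0] at hc2
  exact hc2

end R

end Fermat.Agent.S37_helper11_B1DEF
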