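import Mathlib
import Fermat.Agent.S37_helper13_KAPPA3
import Fermat.Agent.S37_helper20_KAPPAEMB

/-!
# S37, B1-KAPPA: the residue field of the Gauss valuation on the modular function field

**KAPPA** (unconditional): for `ℓ ∤ N`, a valuation subring `A` of `ℚ̄` over `ℓ` and every
admissible `K1`, the reduction of every element of the Gauss valuation ring of
`F1 = K1(j(q^d) : d ∣ N)` lies in `F_k = k(j(q^d) : d ∣ N)`, `k` the residue field of `A`.

Route (E): `S37_helper13_KAPPA1` (degree count), `S37_helper13_KAPPA2` (isometry of Laurent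
embeddings from the saturation of the chart), `S37_helper20_KAPPAEMB` (the embeddings),
`S37_helper13_KAPPA3` (wiring).
-/

set_option autoImplicit false
set_option linter.unusedSectionVars false
set_option linter.style.haveILetI false

open ModularCurve Polynomial IntermediateField
open Fermat.Agent.S18_helper13_GAUSS Fermat.Agent.S18_helper13_REDPOW
  Fermat.Agent.S18_helper26_CONST Fermat.Agent.S18_helper9_CDefs
  Fermat.Agent.S37_helper13_KAPPA1 Fermat.Agent.S37_helper13_KAPPA2
  Fermat.Agent.S37_helper13_KAPPA3 Fermat.Agent.S37_helper20_KAPPAEMB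
  Fermat.Agent.S18_helper25_COREDefs Fermat.Agent.S20

noncomputable section

namespace Fermat.Agent.S37_helper13_KAPPA

section Generic

variable {O K κ : Type*} [CommRing O] [IsDomain O] [Field K] [Field κ] (D : GaussData O K κ)

/-- the contract of (E3) from the five items of `S37KE_family` -/
theorem S37KAPPA_embFamily_of (N : ℕ) [NeZero N]
    (ι : Q N → (modularFunctionFieldFullC K N →+* LaurentSeries K))
    (h1 : ∀ q (c : K) (hc : HahnSeries.C c ∈ modularFunctionFieldFullC K N),
      ι q ⟨HahnSeries.C c, hc⟩ = HahnSeries.C c)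
    (h2 : ∀ q (hj : jqModC K ∈ modularFunctionFieldFullC K N),
      ι q ⟨jqModC K, hj⟩ = qExpand K N (jqModC K))
    (h3 : ∀ q (d : ℕ) [NeZero d] (_ : d ∣ N)
      (hm : qExpand K d (jqModC K) ∈ modularFunctionFieldFullC K N),
      ∃ a : LaurentSeries O, ι q ⟨qExpand K d (jqModC K), hm⟩ = D.incS a)
    (h4 : ∀ q q' (hm : qExpand K N (jqModC K) ∈ modularFunctionFieldFullC K N),
      D.redFun (ι q ⟨qExpand K N (jqModC K), hm⟩) =
        D.redFun (ι q' ⟨qExpand K N (jqModC K), hm⟩) → q = q') :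
    S37KC_EmbFamily D N := by
  refine ⟨ι, fun q => ⟨fun c => ?_, ?_, ?_⟩, fun q q' hne heq => hne (h4 q q' _ heq)⟩
  · have hc : (HahnSeries.C c : LaurentSeries K) ∈ modularFunctionFieldFullC K N :=
      S18RP_C_mem_full N c
    have e : algebraMap K (modularFunctionFieldFullC K N) c = ⟨HahnSeries.C c, hc⟩ := by
      apply Subtype.ext
      show algebraMap K (LaurentSeries K) c = HahnSeries.C c
      rw [algebraMap_laurentSeries_eq_single, HahnSeries.C_apply]
    rw [e]
    exact h1 q c hc
  · exact h2 q _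
  · intro d _ hd
    obtain ⟨a, ha⟩ := h3 q d hd (jqModCd_mem_full K N hd)
    show ι q ⟨qExpand K d (jqModC K), _⟩ ∈ D.fracField
    rw [ha]
    exact D.incS_mem_fracField a

end Generic

/-- **KAPPA**, in the shape consumed by `S37B1_hgen_of_kappaV` and by B1-R2/DEF/SPFIB. -/
theorem S37KAPPA_hkappa (N : ℕ) [NeZero N] {ℓ : ℕ} (hℓ : ℓ.Prime)
    (A : ValuationSubring (AlgebraicClosure ℚ)) (hA : A.LiesOverPrime ℓ) (hℓN : ¬ ℓ ∣ N) :
    ∀ (K1 : IntermediateField ℚ (AlgebraicClosure ℚ)) (h : S18K_Admissible A K1 ℓ),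
      letI := h.dvr
      ∀ y ∈ S18K_V A K1 N,
        (S18K_D A K1).redFun y ∈ modularFunctionFieldFullC (IsLocalRing.ResidueField A) N := by
  refine S37KC_hkappa A N hℓ hA hℓN ?_
  intro K1 h
  letI := h.dvr
  obtain ⟨ι, -, h1, h2, h3, h4⟩ := S37KE_family A K1 N hℓ hℓN hA h
  refine S37KAPPA_embFamily_of (S18K_D A K1) N ι h1 h2 ?_ h4
  intro q d _ hd hm
  obtain ⟨e, u, -, hu⟩ := h3 q d hd hm
  exact ⟨_, hu⟩

end Fermat.Agent.S37_helper13_KAPPA
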