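import Mathlib
import Fermat.Agent.S37_helper4_B1Defs2
import Fermat.Agent.S37_helper15_HEXF
import Fermat.Agent.S37_helper2_SPFIB
import Fermat.Agent.S37_helper20_HGEN
import Fermat.Agent.S18_helper12_TOP
import Fermat.Agent.S18_helper14_SETUP

/-!
# S37, block B1, (F6)(uniq): uniqueness of the centre

For an admissible level `K1` and a `K1`-rational place `P` of the generic fibre, there is at most
one place `Q` of the special fibre with `S37B1_Centred N A K1 As P Q` (`As` one of the two charts).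

* `S37UQ_exists_centre` : the centre `M` (a maximal ideal of the chart containing `π`) of `P`,
  independent of `Q`, with `red X ⊆ O_Q`, `red M ⊆ m_Q` and `S37B1_IsCentre` for every `Q` at
  which `P` is centred;
* `S37UQ_uniq_chart` : uniqueness on a chart with `[IG]`;
* `S37UQ_uniq_A0`, `S37UQ_uniq_Ainf` : the two charts, unconditionally.
-/

set_option autoImplicit false
set_option linter.unusedSectionVars false
set_option linter.unusedVariables false
set_option linter.style.haveILetI false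

open HahnSeries ModularCurve AlgebraicCurve IsLocalRing
open Fermat.Agent.S18_helper9_CDefs Fermat.Agent.S18_helper25_COREDefs
  Fermat.Agent.S18_helper13_GAUSS Fermat.Agent.S37_helper4_B1Defs
  Fermat.Agent.S37_helper5_LEVEL Fermat.Agent.S37_helper2_SPFIB

noncomputable section

namespace Fermat.Agent.S37_helper13_UNIQ

local notation "Qb" => AlgebraicClosure ℚ

set_option synthInstance.maxHeartbeats 400000
set_option maxHeartbeats 1600000

section Chart

variable (N : ℕ) [NeZero N] (A : ValuationSubring Qb) (K1 : IntermediateField ℚ Qb)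
  [IsDiscreteValuationRing (S18K_O1 A K1)]

omit [NeZero N] in
/-- reduction of a constant of `O1`. -/
theorem S37UQ_redFun_C (c : S18K_O1 A K1) :
    (S18K_D A K1).redFun (HahnSeries.C (c : K1) : LaurentSeries K1)
      = HahnSeries.C (S18K_res A K1 c) := by
  have h1 : (HahnSeries.C (c : K1) : LaurentSeries K1)
      = (S18K_D A K1).incS (HahnSeries.C c) := (incS_C (D := S18K_D A K1) c).symm
  rw [h1, GaussData.redFun_incS, redS_C]
  rfl

omit [NeZero N] in
theorem S37UQ_C_mem_Vring (c : S18K_O1 A K1) :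
    (HahnSeries.C (c : K1) : LaurentSeries K1) ∈ (S18K_D A K1).Vring := by
  have h1 : (HahnSeries.C (c : K1) : LaurentSeries K1)
      = (S18K_D A K1).incS (HahnSeries.C c) := (incS_C (D := S18K_D A K1) c).symm
  rw [h1]
  exact (S18K_D A K1).incS_mem_Vring _

variable {N A K1}
variable {x : LaurentSeries K1} {X : Subring (LaurentSeries K1)}
  (hC : Chart (S18K_O A K1) (S18K_π A K1) x (S18K_F1 K1 N) (S18K_V A K1 N) X)
  (hxF : x ∈ modularFunctionFieldFullC K1 N)

include hC hxF in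
/-- the constants of `O1` lie in the chart. -/
theorem S37UQ_C_mem (c : S18K_O1 A K1) :
    (HahnSeries.C (c : K1) : LaurentSeries K1) ∈ X :=
  Os_le_chart (D := S18K_D A K1) (N := N) hC S37SPF_hOs hxF
    ((S18K_mem_O A K1 _).2 ⟨(c : K1), c.2, rfl⟩)

variable (P : Place Qb (modularFunctionFieldBar N))
  (ψ : X →+* K1)
  (hψC : ∀ (c : K1) (hc : (HahnSeries.C c : LaurentSeries K1) ∈ X), ψ ⟨HahnSeries.C c, hc⟩ = c)
  (hψ0 : ∀ a : X, (a : LaurentSeries K1) ≠ 0 → (ψ a = 0 ↔ 0 < S37B1_ordP N K1 P a))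
  (Q : Place (ResidueField A) (modularFunctionFieldFullC (ResidueField A) N))

omit [NeZero N] in
/-- `ord_Q (-1) = 0`. -/
theorem S37UQ_ordQ_neg_one : S37B1_ordQ N Q (-1 : LaurentSeries (ResidueField A)) = 0 := by
  have hmem : (-1 : LaurentSeries (ResidueField A)) ∈
      modularFunctionFieldFullC (ResidueField A) N :=
    (modularFunctionFieldFullC (ResidueField A) N).neg_mem
      (modularFunctionFieldFullC (ResidueField A) N).one_mem
  have h1 : S37B1_ordQ N Q (-1 : LaurentSeries (ResidueField A))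
      = Q.ord (⟨-1, hmem⟩ : modularFunctionFieldFullC (ResidueField A) N) :=
    S37B1_ordQ_eq N Q ⟨-1, hmem⟩
  rw [h1]
  have h2 : (⟨-1, hmem⟩ : modularFunctionFieldFullC (ResidueField A) N) = -1 := rfl
  rw [h2]
  have h3 : (-1 : modularFunctionFieldFullC (ResidueField A) N) * (-1) = 1 := by ring
  have hne : (-1 : modularFunctionFieldFullC (ResidueField A) N) ≠ 0 := by
    intro h0
    rw [h0, zero_mul] at h3
    exact zero_ne_one h3
  have h4 := Q.ord_mul hne hne
  rw [h3, Place.ord_one] at h4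
  omega

include hC hxF hψC hψ0 in
/-- **the values at `P` of the functions of the chart are integral** (if `P` is centred
somewhere). -/
theorem S37UQ_val_mem (hcen : S37B1_Centred N A K1 X P Q) (a : X) :
    ψ a ∈ S18K_O1 A K1 := by
  by_contra hna
  have hc0 : ψ a ≠ 0 := fun h0 => hna (h0 ▸ (S18K_O1 A K1).zero_mem)
  have hinv : (ψ a)⁻¹ ∈ S18K_O1 A K1 :=
    ((S18K_O1 A K1).mem_or_inv_mem (ψ a)).resolve_left hna
  have hres : S18K_res A K1 ⟨(ψ a)⁻¹, hinv⟩ = 0 := by
    rw [S18K_res_eq_zero_iff, IsLocalRing.mem_maximalIdeal, mem_nonunits_iff]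
    rintro ⟨u, hu⟩
    apply hna
    have h2 : ((u : S18K_O1 A K1) : K1) * (((u⁻¹ : (S18K_O1 A K1)ˣ) : S18K_O1 A K1) : K1)
        = 1 := congrArg (fun t : S18K_O1 A K1 => (t : K1)) u.mul_inv
    rw [hu] at h2
    have h3 : (((u⁻¹ : (S18K_O1 A K1)ˣ) : S18K_O1 A K1) : K1) = ψ a := by
      have h4 : (ψ a)⁻¹ * (((u⁻¹ : (S18K_O1 A K1)ˣ) : S18K_O1 A K1) : K1) = 1 := h2
      have h5 := eq_inv_of_mul_eq_one_right h4
      rw [inv_inv] at h5
      exact h5
    rw [← h3]
    exact ((u⁻¹ : (S18K_O1 A K1)ˣ) : S18K_O1 A K1).2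
  have hdX : (HahnSeries.C ((ψ a)⁻¹) : LaurentSeries K1) ∈ X :=
    S37UQ_C_mem hC hxF ⟨(ψ a)⁻¹, hinv⟩
  have haV : (a : LaurentSeries K1) ∈ (S18K_D A K1).Vring := (hC.le_V a.2).1
  have hdV : (HahnSeries.C ((ψ a)⁻¹) : LaurentSeries K1) ∈ (S18K_D A K1).Vring :=
    S37UQ_C_mem_Vring A K1 ⟨(ψ a)⁻¹, hinv⟩
  have hred1 : (S18K_D A K1).redFun
      ((HahnSeries.C ((ψ a)⁻¹) : LaurentSeries K1) * (a : LaurentSeries K1)) = 0 := by
    rw [(S18K_D A K1).redFun_mul hdV haV]
    have := S37UQ_redFun_C A K1 ⟨(ψ a)⁻¹, hinv⟩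
    rw [hres, map_zero] at this
    rw [this, zero_mul]
  have hred : (S18K_D A K1).redFun
      ((HahnSeries.C ((ψ a)⁻¹) : LaurentSeries K1) * (a : LaurentSeries K1) - 1) = -1 := by
    rw [(S18K_D A K1).redFun_sub ((S18K_D A K1).Vring.mul_mem hdV haV)
      (S18K_D A K1).Vring.one_mem, hred1, (S18K_D A K1).redFun_one, zero_sub]
  set b : X := ⟨HahnSeries.C ((ψ a)⁻¹), hdX⟩ * a - 1 with hb
  have hbcoe : (b : LaurentSeries K1)
      = (HahnSeries.C ((ψ a)⁻¹) : LaurentSeries K1) * (a : LaurentSeries K1) - 1 := rfl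
  have hb0 : (b : LaurentSeries K1) ≠ 0 := by
    intro h0
    rw [hbcoe] at h0
    rw [h0, (S18K_D A K1).redFun_zero] at hred
    have : (1 : LaurentSeries (ResidueField A)) = 0 := by
      have := congrArg Neg.neg hred
      rw [neg_neg, neg_zero] at this
      exact this.symm
    exact one_ne_zero this
  have hψb : ψ b = 0 := by
    rw [hb, map_sub, map_mul, map_one, hψC, inv_mul_cancel₀ hc0, sub_self]
  have hpos := (hψ0 b hb0).1 hψb
  rcases (hcen b b.2 hb0).2 hpos with h1 | h1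
  · rw [hbcoe, hred] at h1
    have : (1 : LaurentSeries (ResidueField A)) = 0 := by
      have := congrArg Neg.neg h1
      rw [neg_neg, neg_zero] at this
      exact this
    exact one_ne_zero this
  · rw [hbcoe, hred, S37UQ_ordQ_neg_one] at h1
    exact lt_irrefl _ h1

/-! ### The centre of `P` on the chart -/

/-- the value map at `P`, with target `O1`. -/
def S37UQ_valO (hmem : ∀ a : X, ψ a ∈ S18K_O1 A K1) : X →+* S18K_O1 A K1 :=
  ψ.codRestrict (S18K_O1 A K1) hmem

omit [NeZero N] in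
@[simp] theorem S37UQ_valO_coe (hmem : ∀ a : X, ψ a ∈ S18K_O1 A K1) (a : X) :
    ((S37UQ_valO ψ hmem a : S18K_O1 A K1) : K1) = ψ a := rfl

/-- the centre of `P` on the chart: the functions whose value at `P` lies in the maximal ideal
of `O1`. -/
def S37UQ_centre (hmem : ∀ a : X, ψ a ∈ S18K_O1 A K1) : Ideal X :=
  RingHom.ker ((S18K_res A K1).comp (S37UQ_valO ψ hmem))

omit [NeZero N] in
theorem S37UQ_mem_centre (hmem : ∀ a : X, ψ a ∈ S18K_O1 A K1) (a : X) :
    a ∈ S37UQ_centre ψ hmem ↔ S18K_res A K1 (S37UQ_valO ψ hmem a) = 0 := by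
  rw [S37UQ_centre, RingHom.mem_ker, RingHom.comp_apply]

include hC hxF hψC in
theorem S37UQ_valO_C (hmem : ∀ a : X, ψ a ∈ S18K_O1 A K1) (c : S18K_O1 A K1) :
    S37UQ_valO ψ hmem ⟨HahnSeries.C (c : K1), S37UQ_C_mem hC hxF c⟩ = c :=
  Subtype.ext (hψC _ _)

include hC hxF hψC in
theorem S37UQ_centre_isMaximal (hres : Function.Surjective (S18K_res A K1))
    (hmem : ∀ a : X, ψ a ∈ S18K_O1 A K1) : (S37UQ_centre ψ hmem).IsMaximal := by
  refine RingHom.ker_isMaximal_of_surjective _ ?_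
  intro u
  obtain ⟨c, rfl⟩ := hres u
  refine ⟨⟨HahnSeries.C (c : K1), S37UQ_C_mem hC hxF c⟩, ?_⟩
  rw [RingHom.comp_apply, S37UQ_valO_C hC hxF ψ hψC hmem c]

include hψC in
omit [NeZero N] in
theorem S37UQ_π_mem_centre (hmem : ∀ a : X, ψ a ∈ S18K_O1 A K1) (hπ : S18K_π A K1 ∈ X) :
    (⟨S18K_π A K1, hπ⟩ : X) ∈ S37UQ_centre ψ hmem := by
  rw [S37UQ_mem_centre]
  have h1 : S37UQ_valO ψ hmem ⟨S18K_π A K1, hπ⟩ = (S18K_D A K1).π := by
    apply Subtype.ext
    rw [S37UQ_valO_coe]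
    exact hψC _ _
  rw [h1]
  exact (S18K_D A K1).res_π

/-! ### Reduction of the functions of the chart at a place `Q` at which `P` is centred -/

omit [NeZero N] in
/-- nonunits of `O_Q` in terms of `ord_Q`. -/
theorem S37UQ_mem_nonunits_iff (r : modularFunctionFieldFullC (ResidueField A) N) :
    r ∈ Q.toValuationSubring.nonunits ↔ (r = 0 ∨ 0 < Q.ord r) := by
  constructor
  · intro h
    obtain ⟨hr, hm⟩ := ValuationSubring.mem_nonunits_iff_exists_mem_maximalIdeal.1 h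
    by_cases h0 : r = 0
    · exact Or.inl h0
    · right
      refine Fermat.Agent.S24_helper15_A1.ord_pos_of_not_isUnit Q hr h0 ?_
      rw [IsLocalRing.mem_maximalIdeal, mem_nonunits_iff] at hm
      exact hm
  · rintro (h | h)
    · rw [h]
      exact ValuationSubring.mem_nonunits_iff_exists_mem_maximalIdeal.2
        ⟨Q.toValuationSubring.zero_mem, Ideal.zero_mem _⟩
    · have hr : r ∈ Q.toValuationSubring :=
        Fermat.Agent.S24_helper6_A2.mem_of_ord_nonneg Q (le_of_lt h)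
      exact ValuationSubring.mem_nonunits_iff_exists_mem_maximalIdeal.2
        ⟨hr, Fermat.Agent.S24_helper15_A1.mem_maximalIdeal_of_ord_pos Q hr h⟩

variable (hκ : ∀ y ∈ S18K_V A K1 N, (S18K_D A K1).redFun y ∈
      modularFunctionFieldFullC (ResidueField A) N)

include hC hxF in
/-- reduction of a constant of `O1`, in `F_k`. -/
theorem S37UQ_red_C (c : S18K_O1 A K1) :
    S37SPF_red N A K1 hκ ⟨HahnSeries.C (c : K1), hC.le_V (S37UQ_C_mem hC hxF c)⟩
      = algebraMap (ResidueField A) (modularFunctionFieldFullC (ResidueField A) N)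
          (S18K_res A K1 c) := by
  apply Subtype.ext
  rw [S37SPF_red_coe]
  show (S18K_D A K1).redFun (HahnSeries.C (c : K1) : LaurentSeries K1)
    = algebraMap (ResidueField A) (LaurentSeries (ResidueField A)) (S18K_res A K1 c)
  rw [S37UQ_redFun_C, algebraMap_laurentSeries_eq_single, HahnSeries.C_apply]

include hC hxF hψC hψ0 in
/-- **decomposition**: `red a = w + (value of a at P mod m)`, with `w ∈ m_Q`. -/
theorem S37UQ_red_decomp (hmem : ∀ a : X, ψ a ∈ S18K_O1 A K1)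
    (hcen : S37B1_Centred N A K1 X P Q) (a : X) :
    ∃ w : modularFunctionFieldFullC (ResidueField A) N, (w = 0 ∨ 0 < Q.ord w) ∧
      S37SPF_red N A K1 hκ ⟨a, hC.le_V a.2⟩ = w +
        algebraMap (ResidueField A) (modularFunctionFieldFullC (ResidueField A) N)
          (S18K_res A K1 (S37UQ_valO ψ hmem a)) := by
  set c : S18K_O1 A K1 := S37UQ_valO ψ hmem a with hc
  set cX : X := ⟨HahnSeries.C (c : K1), S37UQ_C_mem hC hxF c⟩ with hcX
  set a0 : X := a - cX with ha0
  refine ⟨S37SPF_red N A K1 hκ ⟨a0, hC.le_V a0.2⟩, ?_, ?_⟩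
  · have hψa0 : ψ a0 = 0 := by
      rw [ha0, map_sub, hcX, hψC, hc, S37UQ_valO_coe, sub_self]
    by_cases h0 : (a0 : LaurentSeries K1) = 0
    · left
      have : (⟨a0, hC.le_V a0.2⟩ : S18K_V A K1 N) = 0 := Subtype.ext h0
      rw [this, map_zero]
    · have hpos := (hψ0 a0 h0).1 hψa0
      rcases (hcen a0 a0.2 h0).2 hpos with h1 | h1
      · left
        apply Subtype.ext
        rw [S37SPF_red_coe]
        exact h1
      · right
        have h2 := S37B1_ordQ_eq N Q (S37SPF_red N A K1 hκ ⟨a0, hC.le_V a0.2⟩)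
        rw [S37SPF_red_coe] at h2
        rw [← h2]
        exact h1
  · rw [← S37UQ_red_C hC hxF hκ c, ← map_add]
    congr 1
    apply Subtype.ext
    show (a : LaurentSeries K1) = ((a : LaurentSeries K1) - HahnSeries.C (c : K1))
      + HahnSeries.C (c : K1)
    ring

include hC hxF hψC hψ0 in
/-- `red X ⊆ O_Q`. -/
theorem S37UQ_red_mem (hmem : ∀ a : X, ψ a ∈ S18K_O1 A K1)
    (hcen : S37B1_Centred N A K1 X P Q) (a : X) :
    S37SPF_red N A K1 hκ ⟨a, hC.le_V a.2⟩ ∈ Q.toValuationSubring := by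
  obtain ⟨w, hw, heq⟩ := S37UQ_red_decomp hC hxF P ψ hψC hψ0 Q hκ hmem hcen a
  rw [heq]
  refine add_mem ?_ (Q.algebraMap_mem' _)
  exact ValuationSubring.nonunits_subset ((S37UQ_mem_nonunits_iff Q w).2 hw)

include hC hxF hψC hψ0 in
/-- `red M ⊆ m_Q`. -/
theorem S37UQ_red_mem_nonunits (hmem : ∀ a : X, ψ a ∈ S18K_O1 A K1)
    (hcen : S37B1_Centred N A K1 X P Q) (a : X) (ha : a ∈ S37UQ_centre ψ hmem) :
    S37SPF_red N A K1 hκ ⟨a, hC.le_V a.2⟩ ∈ Q.toValuationSubring.nonunits := by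
  obtain ⟨w, hw, heq⟩ := S37UQ_red_decomp hC hxF P ψ hψC hψ0 Q hκ hmem hcen a
  rw [heq, (S37UQ_mem_centre ψ hmem a).1 ha, map_zero, add_zero]
  exact (S37UQ_mem_nonunits_iff Q w).2 hw

end Chart

/-! ### The centre and uniqueness on a chart -/

section Main

variable {N : ℕ} [NeZero N] {A : ValuationSubring Qb} {K1 : IntermediateField ℚ Qb}
  [IsDiscreteValuationRing (S18K_O1 A K1)]
  {x : LaurentSeries K1} {X : Subring (LaurentSeries K1)}
  (hC : Chart (S18K_O A K1) (S18K_π A K1) x (S18K_F1 K1 N) (S18K_V A K1 N) X)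
  (hxF : x ∈ modularFunctionFieldFullC K1 N)
  (hκ : ∀ y ∈ S18K_V A K1 N, (S18K_D A K1).redFun y ∈
      modularFunctionFieldFullC (ResidueField A) N)
  (hres : Function.Surjective (S18K_res A K1))
  (hF1 : S37B1_F1 N K1)
  (P : Place Qb (modularFunctionFieldBar N)) (hrat : S37LEVEL_IsRational N K1 P)

include hC hxF hres hF1 hrat in
/-- **the centre of a rational place** `P` on a chart: a maximal ideal `M ∋ π` of the chart,
depending only on `P`, which is the centre of every place `Q` of the special fibre at which `P` is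
centred. -/
theorem S37UQ_exists_centre
    (Q0 : Place (ResidueField A) (modularFunctionFieldFullC (ResidueField A) N))
    (hcen0 : S37B1_Centred N A K1 X P Q0) :
    ∃ M : Ideal X, M.IsMaximal ∧ (∀ hπ : S18K_π A K1 ∈ X, (⟨S18K_π A K1, hπ⟩ : X) ∈ M) ∧
      ∀ Q : Place (ResidueField A) (modularFunctionFieldFullC (ResidueField A) N),
        S37B1_Centred N A K1 X P Q →
        (∀ a : X, S37SPF_red N A K1 hκ ⟨a, hC.le_V a.2⟩ ∈ Q.toValuationSubring) ∧
        (∀ a ∈ M, S37SPF_red N A K1 hκ ⟨a, hC.le_V a.2⟩ ∈ Q.toValuationSubring.nonunits) ∧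
        SpData (S18K_π A K1) (S18K_V A K1 N) X M (S37SPF_red N A K1 hκ)
          Q.toValuationSubring ∧
        S37B1_IsCentre N K1 A X Q M := by
  obtain ⟨ψ, hψC, hψ0⟩ := hF1 P hrat X (fun y hy => (hC.le_V hy).2)
    (fun y hy hy0 => (hcen0 y hy hy0).1)
  have hmem := S37UQ_val_mem hC hxF P ψ hψC hψ0 Q0 hcen0
  have hM := S37UQ_centre_isMaximal hC hxF ψ hψC hres hmem
  refine ⟨S37UQ_centre ψ hmem, hM, fun hπ => S37UQ_π_mem_centre ψ hψC hmem hπ, ?_⟩
  intro Q hcen
  have hXQ := S37UQ_red_mem hC hxF P ψ hψC hψ0 Q hκ hmem hcen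
  have hMQ := fun a ha => S37UQ_red_mem_nonunits hC hxF P ψ hψC hψ0 Q hκ hmem hcen a ha
  have hSp := S37SPF_spData_of_isMaximal hκ hres hC Q _ hM hXQ hMQ
  refine ⟨hXQ, hMQ, hSp, ?_⟩
  intro a
  rw [hSp.centre a, S37UQ_mem_nonunits_iff]
  have h2 := S37B1_ordQ_eq N Q (S37SPF_red N A K1 hκ ⟨a, hC.le_V a.2⟩)
  rw [S37SPF_red_coe] at h2
  rw [h2]
  constructor
  · rintro (h | h)
    · left
      have := congrArg Subtype.val h
      rw [S37SPF_red_coe] at this
      exact this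
    · exact Or.inr h
  · rintro (h | h)
    · left
      apply Subtype.ext
      rw [S37SPF_red_coe]
      exact h
    · exact Or.inr h

/-- **(F6)(uniq) on a chart with `[IG]`.** -/
theorem S37UQ_uniq_chart
    (S : Setup (S18K_O A K1) (S18K_π A K1) (S18K_j K1) (S18K_F1 K1 N) (S18K_V A K1 N)
      (S18K_A0 A K1 N) (S18K_Ainf A K1 N))
    (hC : Chart (S18K_O A K1) (S18K_π A K1) x (S18K_F1 K1 N) (S18K_V A K1 N) X)
    (hx : x = S18K_j K1 ∨ x = (S18K_j K1)⁻¹)
    (hIG : IG (S18K_π A K1) X)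
    (hκ : ∀ y ∈ S18K_V A K1 N, (S18K_D A K1).redFun y ∈
      modularFunctionFieldFullC (ResidueField A) N)
    (hres : Function.Surjective (S18K_res A K1))
    (hF1 : S37B1_F1 N K1)
    (P : Place Qb (modularFunctionFieldBar N)) (hrat : S37LEVEL_IsRational N K1 P)
    (Q Q' : Place (ResidueField A) (modularFunctionFieldFullC (ResidueField A) N))
    (hcen : S37B1_Centred N A K1 X P Q) (hcen' : S37B1_Centred N A K1 X P Q') : Q = Q' := by
  have hxF : x ∈ modularFunctionFieldFullC K1 N :=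
    gx_mem_F (D := S18K_D A K1) (N := N) S hx
  obtain ⟨M, hM, hπM, hall⟩ := S37UQ_exists_centre hC hxF hκ hres hF1 P hrat Q hcen
  obtain ⟨hXQ, hMQ, -, -⟩ := hall Q hcen
  obtain ⟨hXQ', hMQ', -, -⟩ := hall Q' hcen'
  exact S37SPF_unique hκ S hres hC hx Q hIG Q' M hM hπM hXQ hMQ hXQ' hMQ'

/-- **the centre of a rational place, interface form** (`S37B1_InChart` + `S37B1_IsCentre`). -/
theorem S37UQ_isCentre_of_centred
    (hC : Chart (S18K_O A K1) (S18K_π A K1) x (S18K_F1 K1 N) (S18K_V A K1 N) X)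
    (hxF : x ∈ modularFunctionFieldFullC K1 N)
    (hκ : ∀ y ∈ S18K_V A K1 N, (S18K_D A K1).redFun y ∈
      modularFunctionFieldFullC (ResidueField A) N)
    (hres : Function.Surjective (S18K_res A K1))
    (hF1 : S37B1_F1 N K1)
    (P : Place Qb (modularFunctionFieldBar N)) (hrat : S37LEVEL_IsRational N K1 P)
    (Q0 : Place (ResidueField A) (modularFunctionFieldFullC (ResidueField A) N))
    (hcen0 : S37B1_Centred N A K1 X P Q0) :
    ∃ M : Ideal X, M.IsMaximal ∧ (∀ hπ : S18K_π A K1 ∈ X, (⟨S18K_π A K1, hπ⟩ : X) ∈ M) ∧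
      ∀ Q : Place (ResidueField A) (modularFunctionFieldFullC (ResidueField A) N),
        S37B1_Centred N A K1 X P Q →
          S37B1_InChart N A K1 X Q ∧ S37B1_IsCentre N K1 A X Q M := by
  obtain ⟨M, hM, hπM, hall⟩ := S37UQ_exists_centre hC hxF hκ hres hF1 P hrat Q0 hcen0
  refine ⟨M, hM, hπM, fun Q hcen => ?_⟩
  obtain ⟨hXQ, -, -, hIC⟩ := hall Q hcen
  refine ⟨?_, hIC⟩
  intro a ha hmem
  exact hXQ ⟨a, ha⟩

/-- **two places of the special fibre with the same centre on a chart with `[IG]` are equal**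
(interface form of helper2's `S37SPF_unique`). -/
theorem S37UQ_eq_of_isCentre
    (S : Setup (S18K_O A K1) (S18K_π A K1) (S18K_j K1) (S18K_F1 K1 N) (S18K_V A K1 N)
      (S18K_A0 A K1 N) (S18K_Ainf A K1 N))
    (hC : Chart (S18K_O A K1) (S18K_π A K1) x (S18K_F1 K1 N) (S18K_V A K1 N) X)
    (hx : x = S18K_j K1 ∨ x = (S18K_j K1)⁻¹)
    (hIG : IG (S18K_π A K1) X)
    (hκ : ∀ y ∈ S18K_V A K1 N, (S18K_D A K1).redFun y ∈
      modularFunctionFieldFullC (ResidueField A) N)
    (hres : Function.Surjective (S18K_res A K1))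
    (Q Q' : Place (ResidueField A) (modularFunctionFieldFullC (ResidueField A) N))
    (M : Ideal X) (hM : M.IsMaximal)
    (hπM : ∀ hπ : S18K_π A K1 ∈ X, (⟨S18K_π A K1, hπ⟩ : X) ∈ M)
    (hin : S37B1_InChart N A K1 X Q) (hin' : S37B1_InChart N A K1 X Q')
    (hIC : S37B1_IsCentre N K1 A X Q M) (hIC' : S37B1_IsCentre N K1 A X Q' M) : Q = Q' := by
  have key : ∀ Q₁ : Place (ResidueField A) (modularFunctionFieldFullC (ResidueField A) N),
      S37B1_InChart N A K1 X Q₁ → S37B1_IsCentre N K1 A X Q₁ M →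
      (∀ a : X, S37SPF_red N A K1 hκ ⟨a, hC.le_V a.2⟩ ∈ Q₁.toValuationSubring) ∧
      (∀ a ∈ M, S37SPF_red N A K1 hκ ⟨a, hC.le_V a.2⟩ ∈ Q₁.toValuationSubring.nonunits) := by
    intro Q₁ h1 h2
    refine ⟨fun a => h1 a a.2 (hκ a (hC.le_V a.2)), fun a ha => ?_⟩
    rw [S37UQ_mem_nonunits_iff]
    have h3 := S37B1_ordQ_eq N Q₁ (S37SPF_red N A K1 hκ ⟨a, hC.le_V a.2⟩)
    rw [S37SPF_red_coe] at h3
    rcases (h2 a).1 ha with h4 | h4
    · left
      apply Subtype.ext
      rw [S37SPF_red_coe]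
      exact h4
    · right
      rw [← h3]
      exact h4
  obtain ⟨hXQ, hMQ⟩ := key Q hin hIC
  obtain ⟨hXQ', hMQ'⟩ := key Q' hin' hIC'
  exact S37SPF_unique hκ S hres hC hx Q hIG Q' M hM hπM hXQ hMQ hXQ' hMQ'

end Main

/-! ### The two charts, unconditionally -/

section Final

variable (N : ℕ) [NeZero N] {ℓ : ℕ} (hℓ : ℓ.Prime) (A : ValuationSubring Qb)
  (hA : A.LiesOverPrime ℓ) (hℓN : ¬ ℓ ∣ N) (K1 : IntermediateField ℚ Qb)
  (h : S18K_Admissible A K1 ℓ)
  (P : Place Qb (modularFunctionFieldBar N)) (hP : S37LEVEL_IsRational N K1 P)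
  (Q Q' : Place (ResidueField A) (modularFunctionFieldFullC (ResidueField A) N))

include hℓ hA hℓN h hP in
/-- **(F6)(uniq), chart `j ≠ ∞`**: a `K1`-rational place is centred at at most one place of the
special fibre. -/
theorem S37UQ_uniq_A0 :
    letI := h.dvr
    S37B1_Centred N A K1 (S18K_A0 A K1 N) P Q →
      S37B1_Centred N A K1 (S18K_A0 A K1 N) P Q' → Q = Q' := by
  letI := h.dvr
  haveI : Fact ℓ.Prime := ⟨hℓ⟩
  intro hcen hcen'
  have S := Fermat.Agent.S18AK.setupK N hℓ A hA hℓN K1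
  exact S37UQ_uniq_chart S S.chart0 (Or.inl rfl)
    (Fermat.Agent.S18_helper12_TOP.S18TOP_blockB N hℓN A hA K1 h).1
    (Fermat.Agent.S37_helper20_HGEN.S37HGEN_hkappa N hℓ hℓN A hA K1 h) h.res_surj
    (Fermat.Agent.S37_helper15_HEXF.S37HEXF_F1 N K1) P hP Q Q' hcen hcen'

include hℓ hA hℓN h hP in
/-- **(F6)(uniq), chart `j ≠ 0`.** -/
theorem S37UQ_uniq_Ainf :
    letI := h.dvr
    S37B1_Centred N A K1 (S18K_Ainf A K1 N) P Q →
      S37B1_Centred N A K1 (S18K_Ainf A K1 N) P Q' → Q = Q' := by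
  letI := h.dvr
  haveI : Fact ℓ.Prime := ⟨hℓ⟩
  intro hcen hcen'
  have S := Fermat.Agent.S18AK.setupK N hℓ A hA hℓN K1
  exact S37UQ_uniq_chart S S.chartInf (Or.inr rfl)
    (Fermat.Agent.S18_helper12_TOP.S18TOP_blockB N hℓN A hA K1 h).2
    (Fermat.Agent.S37_helper20_HGEN.S37HGEN_hkappa N hℓ hℓN A hA K1 h) h.res_surj
    (Fermat.Agent.S37_helper15_HEXF.S37HEXF_F1 N K1) P hP Q Q' hcen hcen'

include hℓ hA hℓN h hP in
/-- **the centre of a rational place on the chart `j ≠ ∞`**, unconditionally. -/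
theorem S37UQ_centre_A0
    (Q0 : Place (ResidueField A) (modularFunctionFieldFullC (ResidueField A) N)) :
    letI := h.dvr
    S37B1_Centred N A K1 (S18K_A0 A K1 N) P Q0 →
    ∃ M : Ideal (S18K_A0 A K1 N), M.IsMaximal ∧
      (∀ hπ : S18K_π A K1 ∈ S18K_A0 A K1 N, (⟨S18K_π A K1, hπ⟩ : S18K_A0 A K1 N) ∈ M) ∧
      ∀ Q : Place (ResidueField A) (modularFunctionFieldFullC (ResidueField A) N),
        S37B1_Centred N A K1 (S18K_A0 A K1 N) P Q →
          S37B1_InChart N A K1 (S18K_A0 A K1 N) Q ∧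
            S37B1_IsCentre N K1 A (S18K_A0 A K1 N) Q M := by
  letI := h.dvr
  intro hcen0
  have S := Fermat.Agent.S18AK.setupK N hℓ A hA hℓN K1
  exact S37UQ_isCentre_of_centred S.chart0 S.j_mem
    (Fermat.Agent.S37_helper20_HGEN.S37HGEN_hkappa N hℓ hℓN A hA K1 h) h.res_surj
    (Fermat.Agent.S37_helper15_HEXF.S37HEXF_F1 N K1) P hP Q0 hcen0

include hℓ hA hℓN h hP in
/-- **the centre of a rational place on the chart `j ≠ 0`**, unconditionally. -/
theorem S37UQ_centre_Ainf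
    (Q0 : Place (ResidueField A) (modularFunctionFieldFullC (ResidueField A) N)) :
    letI := h.dvr
    S37B1_Centred N A K1 (S18K_Ainf A K1 N) P Q0 →
    ∃ M : Ideal (S18K_Ainf A K1 N), M.IsMaximal ∧
      (∀ hπ : S18K_π A K1 ∈ S18K_Ainf A K1 N, (⟨S18K_π A K1, hπ⟩ : S18K_Ainf A K1 N) ∈ M) ∧
      ∀ Q : Place (ResidueField A) (modularFunctionFieldFullC (ResidueField A) N),
        S37B1_Centred N A K1 (S18K_Ainf A K1 N) P Q →
          S37B1_InChart N A K1 (S18K_Ainf A K1 N) Q ∧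
            S37B1_IsCentre N K1 A (S18K_Ainf A K1 N) Q M := by
  letI := h.dvr
  intro hcen0
  have S := Fermat.Agent.S18AK.setupK N hℓ A hA hℓN K1
  exact S37UQ_isCentre_of_centred S.chartInf
    ((modularFunctionFieldFullC K1 N).inv_mem S.j_mem)
    (Fermat.Agent.S37_helper20_HGEN.S37HGEN_hkappa N hℓ hℓN A hA K1 h) h.res_surj
    (Fermat.Agent.S37_helper15_HEXF.S37HEXF_F1 N K1) P hP Q0 hcen0

end Final

end Fermat.Agent.S37_helper13_UNIQ
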