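import Mathlib
import Fermat.Agent.S37_helper4_B1Defs2
import Fermat.Agent.S37_helper21_B2
import Fermat.Agent.S18_helper27_RESALGCL
import Fermat.Agent.S18_helper26_CONST

/-!
# S37, block B1, (F6) DEF-KEY: the abstract assembly

The reduction map `r` on places is defined by choice from the *existence* of centres on the two
charts; `S37B1_DefKey` then follows from *uniqueness* of centres, *restriction* to a smaller
level (`mono`), stability of admissible levels / rationality under *intersection*, and the two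
*value* facts relating the chart of `P` to the chart of its centre.  All inputs are explicit
`Prop`s (`S37DA_*`), to be proved verbatim by the owners of the pieces.
-/

set_option autoImplicit false
set_option linter.unusedSectionVars false
set_option linter.unusedVariables false
set_option linter.style.haveILetI false
set_option synthInstance.maxHeartbeats 400000
set_option maxHeartbeats 1000000

open AlgebraicCurve ModularCurve HahnSeries IntermediateField

noncomputable section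

namespace Fermat.Agent.S37_helper8_DEFASM

open Fermat.Agent.S18_helper25_COREDefs Fermat.Agent.S18_helper19_PLACEMOD
  Fermat.Agent.S18_helper13_GAUSS Fermat.Agent.S37_helper5_LEVEL
  Fermat.Agent.S37_helper4_B1Defs Fermat.Agent.S24

variable (N : ℕ) [NeZero N] (ℓ : ℕ) (A : ValuationSubring (AlgebraicClosure ℚ))

local notation "Qb" => AlgebraicClosure ℚ
local notation "PlP" => Place (AlgebraicClosure ℚ) (modularFunctionFieldBar N)
local notation "PlQ" => Place (IsLocalRing.ResidueField A)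
  (modularFunctionFieldFullC (IsLocalRing.ResidueField A) N)

/-- `P` is centred at `Q` on the chart `j ≠ ∞` at the admissible level `K1`. -/
def S37DA_C0 (K1 : IntermediateField ℚ Qb) (h : S18K_Admissible A K1 ℓ) (P : PlP) (Q : PlQ) :
    Prop :=
  letI := h.dvr
  S37B1_Centred N A K1 (S18K_A0 A K1 N) P Q

/-- `P` is centred at `Q` on the chart `j ≠ 0` at the admissible level `K1`. -/
def S37DA_Cinf (K1 : IntermediateField ℚ Qb) (h : S18K_Admissible A K1 ℓ) (P : PlP) (Q : PlQ) :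
    Prop :=
  letI := h.dvr
  S37B1_Centred N A K1 (S18K_Ainf A K1 N) P Q

/-- The branch predicate: `j` is regular at `P` and its value at `P` lies in `A`. -/
def S37DA_B (P : PlP) : Prop :=
  ∃ c : A, 0 < P.ord (jElt N - algebraMap Qb (modularFunctionFieldBar N) (c : Qb))

/-- `j̄` is regular at `Q`. -/
def S37DA_jReg (Q : PlQ) : Prop :=
  0 ≤ S37B1_ordQ N Q (jqModC (IsLocalRing.ResidueField A))

/-! ### the interface facts of (F6) -/

/-- (inter-adm) the intersection of two admissible levels is admissible -/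
def S37DA_InterAdm : Prop :=
  ∀ K1 K1' : IntermediateField ℚ Qb, S18K_Admissible A K1 ℓ → S18K_Admissible A K1' ℓ →
    S18K_Admissible A (K1 ⊓ K1') ℓ

/-- (inter-rat) a place rational at two admissible levels is rational at their intersection -/
def S37DA_InterRat : Prop :=
  ∀ (K1 K1' : IntermediateField ℚ Qb) (P : PlP), S18K_Admissible A K1 ℓ →
    S18K_Admissible A K1' ℓ → S37LEVEL_IsRational N K1 P → S37LEVEL_IsRational N K1' P →
    S37LEVEL_IsRational N (K1 ⊓ K1') P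

/-- (mono0) centres on the chart `j ≠ ∞` restrict to smaller admissible levels -/
def S37DA_Mono0 : Prop :=
  ∀ (K0 K1 : IntermediateField ℚ Qb) (h0 : S18K_Admissible A K0 ℓ)
    (h1 : S18K_Admissible A K1 ℓ), K0 ≤ K1 → ∀ (P : PlP) (Q : PlQ),
    S37DA_C0 N ℓ A K1 h1 P Q → S37DA_C0 N ℓ A K0 h0 P Q

/-- (mono∞) centres on the chart `j ≠ 0` restrict to smaller admissible levels -/
def S37DA_MonoInf : Prop :=
  ∀ (K0 K1 : IntermediateField ℚ Qb) (h0 : S18K_Admissible A K0 ℓ)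
    (h1 : S18K_Admissible A K1 ℓ), K0 ≤ K1 → ∀ (P : PlP) (Q : PlQ),
    S37DA_Cinf N ℓ A K1 h1 P Q → S37DA_Cinf N ℓ A K0 h0 P Q

/-- (uniq0) uniqueness of the centre on the chart `j ≠ ∞` -/
def S37DA_Uniq0 : Prop :=
  ∀ (K1 : IntermediateField ℚ Qb) (h : S18K_Admissible A K1 ℓ) (P : PlP),
    S37LEVEL_IsRational N K1 P → ∀ Q Q' : PlQ,
    S37DA_C0 N ℓ A K1 h P Q → S37DA_C0 N ℓ A K1 h P Q' → Q = Q'

/-- (uniq∞) uniqueness of the centre on the chart `j ≠ 0` -/
def S37DA_UniqInf : Prop :=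
  ∀ (K1 : IntermediateField ℚ Qb) (h : S18K_Admissible A K1 ℓ) (P : PlP),
    S37LEVEL_IsRational N K1 P → ∀ Q Q' : PlQ,
    S37DA_Cinf N ℓ A K1 h P Q → S37DA_Cinf N ℓ A K1 h P Q' → Q = Q'

/-- (ex0) existence of the centre on the chart `j ≠ ∞` when `j(P) ∈ A` -/
def S37DA_Ex0 : Prop :=
  ∀ (K1 : IntermediateField ℚ Qb) (h : S18K_Admissible A K1 ℓ) (P : PlP),
    S37LEVEL_IsRational N K1 P → S37DA_B N A P → ∃ Q : PlQ, S37DA_C0 N ℓ A K1 h P Q

/-- (ex∞) existence of the centre on the chart `j ≠ 0` when `j(P) ∉ A` -/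
def S37DA_ExInf : Prop :=
  ∀ (K1 : IntermediateField ℚ Qb) (h : S18K_Admissible A K1 ℓ) (P : PlP),
    S37LEVEL_IsRational N K1 P → ¬ S37DA_B N A P → ∃ Q : PlQ, S37DA_Cinf N ℓ A K1 h P Q

/-- (v0) a place with a centre on the chart `j ≠ ∞` has `j(P) ∈ A`, and `j̄` is regular at the
centre -/
def S37DA_V0 : Prop :=
  ∀ (K1 : IntermediateField ℚ Qb) (h : S18K_Admissible A K1 ℓ) (P : PlP) (Q : PlQ),
    S37LEVEL_IsRational N K1 P → S37DA_C0 N ℓ A K1 h P Q → S37DA_B N A P ∧ S37DA_jReg N A Q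

/-- (v∞) for a place with a centre `Q` on the chart `j ≠ 0`: `j(P) ∈ A` iff `j̄` is regular
at `Q` -/
def S37DA_VInf : Prop :=
  ∀ (K1 : IntermediateField ℚ Qb) (h : S18K_Admissible A K1 ℓ) (P : PlP) (Q : PlQ),
    S37LEVEL_IsRational N K1 P → S37DA_Cinf N ℓ A K1 h P Q →
    (S37DA_B N A P ↔ S37DA_jReg N A Q)

/-! ### degrees -/

theorem S37DA_degQ (Q : PlQ) : Q.deg = 1 := by
  haveI : IsAlgClosed (IsLocalRing.ResidueField A) :=
    Fermat.Agent.S18_helper27_RESALGCL.S18RES_isAlgClosed_residueField_Qbar A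
  haveI := Fermat.Agent.S18_helper26_CONST.S18P15_finiteDimensional (IsLocalRing.ResidueField A) N
  exact Fermat.Agent.S24_helper6_A2Shapes.deg_eq_one
    (Fermat.Agent.S18_helper26_CONST.S18P15_jbar (IsLocalRing.ResidueField A) N) Q

theorem S37DA_deg_eq (P : PlP) (Q : PlQ) : Q.deg = P.deg := by
  rw [S37DA_degQ N A Q, Fermat.Agent.S37_helper21_B2.S37B2_deg_eq_one N P]

/-! ### the assembly -/

variable {ℓ}

/-- **(F6) DEF-KEY, assembly.** -/
theorem S37DA_defKey (hℓ : ℓ.Prime) (hA : A.LiesOverPrime ℓ)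
    (hIA : S37DA_InterAdm ℓ A) (hIR : S37DA_InterRat N ℓ A)
    (hM0 : S37DA_Mono0 N ℓ A) (hMI : S37DA_MonoInf N ℓ A)
    (hU0 : S37DA_Uniq0 N ℓ A) (hUI : S37DA_UniqInf N ℓ A)
    (hE0 : S37DA_Ex0 N ℓ A) (hEI : S37DA_ExInf N ℓ A)
    (hV0 : S37DA_V0 N ℓ A) (hVI : S37DA_VInf N ℓ A) :
    ∃ r : PlP → PlQ, (∀ P, (r P).deg = P.deg) ∧
      S37B1_DefKey N ℓ A (S37LEVEL_IsRational N) r := by
  classical
  have hlev : ∀ P : PlP, ∃ K1 : IntermediateField ℚ Qb,
      S18K_Admissible A K1 ℓ ∧ S37LEVEL_IsRational N K1 P := by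
    intro P
    obtain ⟨K1, -, hadm, hrat⟩ := S37LEVEL_exists N hℓ A hA ∅ {P}
    exact ⟨K1, hadm, hrat P (Finset.mem_singleton_self P)⟩
  choose KP hKPadm hKPrat using hlev
  have hcen : ∀ P : PlP, ∃ Q : PlQ,
      (S37DA_B N A P → S37DA_C0 N ℓ A (KP P) (hKPadm P) P Q) ∧
      (¬ S37DA_B N A P → S37DA_Cinf N ℓ A (KP P) (hKPadm P) P Q) := by
    intro P
    by_cases hB : S37DA_B N A P
    · obtain ⟨Q, hQ⟩ := hE0 (KP P) (hKPadm P) P (hKPrat P) hB
      exact ⟨Q, fun _ => hQ, fun h => absurd hB h⟩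
    · obtain ⟨Q, hQ⟩ := hEI (KP P) (hKPadm P) P (hKPrat P) hB
      exact ⟨Q, fun h => absurd h hB, fun _ => hQ⟩
  choose r hr0 hrInf using hcen
  refine ⟨r, fun P => S37DA_deg_eq N A P (r P), ?_⟩
  intro K1 h P hrat Q
  have hadm0 := hIA K1 (KP P) h (hKPadm P)
  have hrat0 := hIR K1 (KP P) P h (hKPadm P) hrat (hKPrat P)
  have key0 : ∀ Q' : PlQ, S37DA_C0 N ℓ A K1 h P Q' → S37DA_B N A P → r P = Q' := by
    intro Q' hC hB
    have c1 := hM0 (K1 ⊓ KP P) K1 hadm0 h inf_le_left P Q' hC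
    have c2 := hM0 (K1 ⊓ KP P) (KP P) hadm0 (hKPadm P) inf_le_right P (r P) (hr0 P hB)
    exact hU0 _ hadm0 P hrat0 _ _ c2 c1
  have keyInf : ∀ Q' : PlQ, S37DA_Cinf N ℓ A K1 h P Q' → ¬ S37DA_B N A P → r P = Q' := by
    intro Q' hC hB
    have c1 := hMI (K1 ⊓ KP P) K1 hadm0 h inf_le_left P Q' hC
    have c2 := hMI (K1 ⊓ KP P) (KP P) hadm0 (hKPadm P) inf_le_right P (r P) (hrInf P hB)
    exact hUI _ hadm0 P hrat0 _ _ c2 c1
  show (S37DA_jReg N A Q → (r P = Q ↔ S37DA_C0 N ℓ A K1 h P Q)) ∧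
    (¬ S37DA_jReg N A Q → (r P = Q ↔ S37DA_Cinf N ℓ A K1 h P Q))
  constructor
  · intro hord
    constructor
    · intro hrQ
      by_cases hB : S37DA_B N A P
      · obtain ⟨Q', hQ'⟩ := hE0 K1 h P hrat hB
        have h1 := key0 Q' hQ' hB
        rw [← hrQ, h1]
        exact hQ'
      · have hc := hrInf P hB
        have h1 := (hVI (KP P) (hKPadm P) P (r P) (hKPrat P) hc).2 (by rw [hrQ]; exact hord)
        exact absurd h1 hB
    · intro hC
      exact key0 Q hC (hV0 K1 h P Q hrat hC).1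
  · intro hord
    constructor
    · intro hrQ
      by_cases hB : S37DA_B N A P
      · have h1 := (hV0 (KP P) (hKPadm P) P (r P) (hKPrat P) (hr0 P hB)).2
        rw [hrQ] at h1
        exact absurd h1 hord
      · obtain ⟨Q', hQ'⟩ := hEI K1 h P hrat hB
        have h1 := keyInf Q' hQ' hB
        rw [← hrQ, h1]
        exact hQ'
    · intro hC
      have hB : ¬ S37DA_B N A P := fun hB => hord ((hVI K1 h P Q hrat hC).1 hB)
      exact keyInf Q hC hB

end Fermat.Agent.S37_helper8_DEFASM
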