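import Mathlib
import Fermat.Agent.S37_helper8_DEFASM
import Fermat.Agent.S37_helper15_HEXF
import Fermat.Agent.S18_helper14_SETUP

/-!
# S37, block B1, (F6) value facts: auxiliary lemmas for `S37DA_V0` and `S37DA_VInf`
-/

set_option autoImplicit false
set_option linter.unusedSectionVars false
set_option linter.unusedVariables false
set_option linter.style.haveILetI false
set_option synthInstance.maxHeartbeats 400000
set_option maxHeartbeats 1000000

open AlgebraicCurve ModularCurve HahnSeries IntermediateField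

noncomputable section

namespace Fermat.Agent.S37_helper14_VALa

open Fermat.Agent.S18_helper25_COREDefs Fermat.Agent.S18_helper19_PLACEMOD
  Fermat.Agent.S18_helper13_GAUSS Fermat.Agent.S37_helper5_LEVEL
  Fermat.Agent.S37_helper4_B1Defs Fermat.Agent.S24 Fermat.Agent.S18_helper9_CDefs
  Fermat.Agent.S37_helper8_DEFASM Fermat.Agent.S18_helper19_PLACEUNR
  Fermat.Agent.S37_helper15_HEX Fermat.Agent.S37_helper15_HEXF

local notation "Qb" => AlgebraicClosure ℚ

variable (N : ℕ) [NeZero N] (A : ValuationSubring Qb) (K1 : IntermediateField ℚ Qb)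
  [IsDiscreteValuationRing (S18K_O1 A K1)]

local notation "PlP" => Place (AlgebraicClosure ℚ) (modularFunctionFieldBar N)
local notation "kA" => IsLocalRing.ResidueField A
local notation "PlQ" => Place (IsLocalRing.ResidueField A)
  (modularFunctionFieldFullC (IsLocalRing.ResidueField A) N)

/-! ### constants -/

theorem S37VAL_C_eq_incS (c : S18K_O1 A K1) :
    (HahnSeries.C ((c : K1)) : LaurentSeries K1) =
      (S18K_D A K1).incS (HahnSeries.C c) := by
  rw [GaussData.incS, HahnSeries.C_apply, HahnSeries.C_apply, coeffMap_single]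
  rfl

theorem S37VAL_C_mem_Vring (c : S18K_O1 A K1) :
    (HahnSeries.C ((c : K1)) : LaurentSeries K1) ∈ (S18K_D A K1).Vring := by
  rw [S37VAL_C_eq_incS]
  exact (S18K_D A K1).incS_mem_Vring _

theorem S37VAL_redFun_C (c : S18K_O1 A K1) :
    (S18K_D A K1).redFun (HahnSeries.C ((c : K1)) : LaurentSeries K1) =
      HahnSeries.C (S18K_res A K1 c) := by
  rw [S37VAL_C_eq_incS, GaussData.redFun_incS, GaussData.redS, HahnSeries.C_apply,
    coeffMap_single, HahnSeries.C_apply]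
  rfl

theorem S37VAL_C_mem_O (c : S18K_O1 A K1) :
    (HahnSeries.C ((c : K1)) : LaurentSeries K1) ∈ S18K_O A K1 :=
  (S18K_mem_O A K1 _).2 ⟨(c : K1), c.2, rfl⟩

/-- constants of the special fibre lie in the function field -/
theorem S37VAL_C_mem_Fk (c : kA) :
    (HahnSeries.C c : LaurentSeries kA) ∈ modularFunctionFieldFullC kA N := by
  have : (HahnSeries.C c : LaurentSeries kA) = algebraMap kA (LaurentSeries kA) c := by
    rw [Fermat.Agent.S18_helper26_CONST.S18P15_C_eq_algebraMap]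
  rw [this]
  exact IntermediateField.algebraMap_mem _ _

theorem S37VAL_ordQ_C (Q : PlQ) (c : kA) :
    S37B1_ordQ N Q (HahnSeries.C c : LaurentSeries kA) = 0 := by
  have h : (⟨HahnSeries.C c, S37VAL_C_mem_Fk N A c⟩ : modularFunctionFieldFullC kA N) =
      algebraMap kA (modularFunctionFieldFullC kA N) c := by
    apply Subtype.ext
    show (HahnSeries.C c : LaurentSeries kA) = algebraMap kA (LaurentSeries kA) c
    rw [Fermat.Agent.S18_helper26_CONST.S18P15_C_eq_algebraMap]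
  rw [S37B1_ordQ, dif_pos (S37VAL_C_mem_Fk N A c), h]
  exact Fermat.Agent.S24_helper6_A2.ord_algebraMap_eq_zero Q c


theorem S37VAL_ordQ_neg_one (Q : PlQ) : S37B1_ordQ N Q (-1 : LaurentSeries kA) = 0 := by
  have h : (-1 : LaurentSeries kA) = HahnSeries.C (-1 : kA) := by
    rw [map_neg, map_one]
  rw [h]
  exact S37VAL_ordQ_C N A Q _

/-- a non-unit of `O1` has zero residue; the inverse of an element outside `O1` is one -/
theorem S37VAL_res_inv_eq_zero {d : K1} (hd : d ∉ S18K_O1 A K1) :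
    ∃ e : S18K_O1 A K1, (e : K1) = d⁻¹ ∧ S18K_res A K1 e = 0 := by
  have hinv : d⁻¹ ∈ S18K_O1 A K1 := ((S18K_O1 A K1).mem_or_inv_mem d).resolve_left hd
  refine ⟨⟨d⁻¹, hinv⟩, rfl, ?_⟩
  rw [S18K_res_eq_zero_iff, IsLocalRing.mem_maximalIdeal, mem_nonunits_iff]
  intro hu
  apply hd
  obtain ⟨v, hv⟩ := isUnit_iff_exists_inv.1 hu
  have h1 : d⁻¹ * (v : K1) = 1 := congrArg (fun z : S18K_O1 A K1 => (z : K1)) hv
  have hd0 : d ≠ 0 := fun h => hd (h ▸ (S18K_O1 A K1).zero_mem)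
  have h2 : (v : K1) = d := by
    field_simp at h1
    exact h1
  rw [← h2]
  exact v.2

/-- an element of `O1` with nonzero residue is a unit: its inverse lies in `O1` -/
theorem S37VAL_inv_mem_of_res_ne_zero (d : S18K_O1 A K1) (h : S18K_res A K1 d ≠ 0) :
    (d : K1) ≠ 0 ∧ ∃ c : S18K_O1 A K1, (c : K1) = (d : K1)⁻¹ := by
  have hu : IsUnit d := by
    by_contra hnu
    apply h
    rw [S18K_res_eq_zero_iff, IsLocalRing.mem_maximalIdeal, mem_nonunits_iff]
    exact hnu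
  obtain ⟨v, hv⟩ := isUnit_iff_exists_inv.1 hu
  have h1 : (d : K1) * (v : K1) = 1 := congrArg (fun z : S18K_O1 A K1 => (z : K1)) hv
  have hd0 : (d : K1) ≠ 0 := left_ne_zero_of_mul_eq_one h1
  exact ⟨hd0, v, eq_inv_of_mul_eq_one_right h1⟩

/-! ### the generic chart lemma -/

section Core

variable {N A K1}
variable {x : LaurentSeries K1} {As : Subring (LaurentSeries K1)}

theorem S37VAL_core (hx : x ∈ As) (hO : S18K_O A K1 ≤ As)
    (hF : ∀ a ∈ As, a ∈ modularFunctionFieldFullC K1 N)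
    (hV : As ≤ (S18K_D A K1).Vring) (hnc : ∀ c : K1, x ≠ HahnSeries.C c)
    (P : PlP) (Q : PlQ) (hrat : S37LEVEL_IsRational N K1 P)
    (hcen : S37B1_Centred N A K1 As P Q) :
    ∃ d : S18K_O1 A K1, 0 < S37B1_ordP N K1 P (x - HahnSeries.C (d : K1)) ∧
      ((d : K1) ≠ 0 → S37B1_ordP N K1 P x = 0) ∧
      ((S18K_D A K1).redFun x - HahnSeries.C (S18K_res A K1 d) = 0 ∨
        0 < S37B1_ordQ N Q ((S18K_D A K1).redFun x - HahnSeries.C (S18K_res A K1 d))) := by
  have hnn : ∀ a ∈ As, a ≠ 0 → 0 ≤ S37B1_ordP N K1 P a := fun a ha h0 => (hcen a ha h0).1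
  obtain ⟨ψ, hψC, hψ0⟩ := S37HEXF_F1 N K1 P hrat As hF hnn
  have hx0 : x ≠ 0 := by
    intro h
    apply hnc 0
    rw [h, map_zero]
  -- the value lies in `O1`
  have hd0 : ψ ⟨x, hx⟩ ∈ S18K_O1 A K1 := by
    by_contra hnot
    obtain ⟨e, he, heres⟩ := S37VAL_res_inv_eq_zero A K1 hnot
    have hd00 : ψ ⟨x, hx⟩ ≠ 0 := fun h => hnot (h ▸ (S18K_O1 A K1).zero_mem)
    have hCe : (HahnSeries.C (e : K1) : LaurentSeries K1) ∈ As := hO (S37VAL_C_mem_O A K1 e)
    have ha : (HahnSeries.C (e : K1) : LaurentSeries K1) * x - 1 ∈ As :=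
      As.sub_mem (As.mul_mem hCe hx) As.one_mem
    have hψa : ψ ⟨(HahnSeries.C (e : K1) : LaurentSeries K1) * x - 1, ha⟩ = 0 := by
      have : (⟨(HahnSeries.C (e : K1) : LaurentSeries K1) * x - 1, ha⟩ : As) =
          ⟨HahnSeries.C (e : K1), hCe⟩ * ⟨x, hx⟩ - 1 := rfl
      rw [this, map_sub, map_mul, map_one, hψC, he, inv_mul_cancel₀ hd00, sub_self]
    have ha0 : (HahnSeries.C (e : K1) : LaurentSeries K1) * x - 1 ≠ 0 := by
      intro h
      have he0 : (e : K1) ≠ 0 := by rw [he]; exact inv_ne_zero hd00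
      apply hnc (e : K1)⁻¹
      have h1 : (HahnSeries.C (e : K1) : LaurentSeries K1) * x = 1 := sub_eq_zero.1 h
      have h2 : (HahnSeries.C ((e : K1)⁻¹) : LaurentSeries K1) * HahnSeries.C (e : K1) = 1 := by
        rw [← map_mul, inv_mul_cancel₀ he0, map_one]
      calc x = (HahnSeries.C ((e : K1)⁻¹) : LaurentSeries K1) *
            (HahnSeries.C (e : K1) * x) := by rw [← mul_assoc, h2, one_mul]
        _ = HahnSeries.C ((e : K1)⁻¹) := by rw [h1, mul_one]
    have hpos := (hψ0 ⟨_, ha⟩ ha0).1 hψa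
    have hred := (hcen _ ha ha0).2 hpos
    have hreda : (S18K_D A K1).redFun ((HahnSeries.C (e : K1) : LaurentSeries K1) * x - 1) =
        -1 := by
      rw [GaussData.redFun_sub _ ((S18K_D A K1).Vring.mul_mem (S37VAL_C_mem_Vring A K1 e)
        (hV hx)) (S18K_D A K1).Vring.one_mem,
        GaussData.redFun_mul _ (S37VAL_C_mem_Vring A K1 e) (hV hx), S37VAL_redFun_C, heres,
        map_zero, zero_mul, GaussData.redFun_one, zero_sub]
    rw [hreda] at hred
    rcases hred with h | h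
    · exact (neg_ne_zero.2 one_ne_zero) h
    · rw [S37VAL_ordQ_neg_one] at h
      exact lt_irrefl _ h
  -- the element `x - d`
  have hCd : (HahnSeries.C (ψ ⟨x, hx⟩) : LaurentSeries K1) ∈ As :=
    hO (S37VAL_C_mem_O A K1 ⟨_, hd0⟩)
  have hb : x - HahnSeries.C (ψ ⟨x, hx⟩) ∈ As := As.sub_mem hx hCd
  have hψb : ψ ⟨x - HahnSeries.C (ψ ⟨x, hx⟩), hb⟩ = 0 := by
    have : (⟨x - HahnSeries.C (ψ ⟨x, hx⟩), hb⟩ : As) =
        ⟨x, hx⟩ - ⟨HahnSeries.C (ψ ⟨x, hx⟩), hCd⟩ := rfl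
    rw [this, map_sub, hψC, sub_self]
  have hb0 : x - HahnSeries.C (ψ ⟨x, hx⟩) ≠ 0 := fun h => hnc _ (sub_eq_zero.1 h)
  have hpos := (hψ0 ⟨_, hb⟩ hb0).1 hψb
  refine ⟨⟨ψ ⟨x, hx⟩, hd0⟩, hpos, ?_, ?_⟩
  · intro hne
    have h1 := hnn x hx hx0
    have h2 : ¬ 0 < S37B1_ordP N K1 P x := fun h => hne ((hψ0 ⟨x, hx⟩ hx0).2 h)
    omega
  · have hred := (hcen _ hb hb0).2 hpos
    rw [GaussData.redFun_sub _ (hV hx) (S37VAL_C_mem_Vring A K1 ⟨_, hd0⟩),
      S37VAL_redFun_C] at hred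
    exact hred

end Core


/-! ### the two charts -/

theorem S37VAL_j_ne_C (c : K1) : jqModC K1 ≠ HahnSeries.C c := by
  intro h
  have h1 := coeff_jqModC_neg_one K1
  rw [h, HahnSeries.C_apply, HahnSeries.coeff_single_of_ne (by norm_num)] at h1
  exact zero_ne_one h1

theorem S37VAL_j_inv_ne_C (c : K1) : (jqModC K1)⁻¹ ≠ HahnSeries.C c := by
  intro h
  have hj0 : jqModC K1 ≠ 0 := jqModC_ne_zero_of_nontrivial K1
  have hc0 : c ≠ 0 := by
    rintro rfl
    rw [map_zero] at h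
    exact (inv_ne_zero hj0) h
  apply S37VAL_j_ne_C K1 c⁻¹
  rw [map_inv₀, ← h, inv_inv]

section Charts

variable {N A K1}
variable {π x : LaurentSeries K1} {As : Subring (LaurentSeries K1)}

theorem S37VAL_chart_x_mem
    (hC : Chart (S18K_O A K1) π x (S18K_F1 K1 N) (S18K_V A K1 N) As)
    (hxF : x ∈ S18K_F1 K1 N) : x ∈ As := by
  rw [hC.mem_iff]
  refine ⟨?_, hxF⟩
  have hx : x ∈ adj (S18K_O A K1) x := Subring.subset_closure (Or.inr rfl)
  exact isIntegral_algebraMap (R := adj (S18K_O A K1) x) (x := ⟨x, hx⟩)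

theorem S37VAL_chart_O_le
    (hC : Chart (S18K_O A K1) π x (S18K_F1 K1 N) (S18K_V A K1 N) As)
    (hOF : (S18K_O A K1 : Set (LaurentSeries K1)) ⊆ S18K_F1 K1 N) : S18K_O A K1 ≤ As := by
  intro c hc
  rw [hC.mem_iff]
  refine ⟨?_, hOF hc⟩
  have hx : c ∈ adj (S18K_O A K1) x := Subring.subset_closure (Or.inl hc)
  exact isIntegral_algebraMap (R := adj (S18K_O A K1) x) (x := ⟨c, hx⟩)

theorem S37VAL_chart_le_F
    (hC : Chart (S18K_O A K1) π x (S18K_F1 K1 N) (S18K_V A K1 N) As) :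
    ∀ a ∈ As, a ∈ modularFunctionFieldFullC K1 N :=
  fun a ha => ((S18K_mem_V A K1 N a).1 (hC.le_V ha)).2

theorem S37VAL_chart_le_V
    (hC : Chart (S18K_O A K1) π x (S18K_F1 K1 N) (S18K_V A K1 N) As) :
    As ≤ (S18K_D A K1).Vring :=
  fun a ha => ((S18K_mem_V A K1 N a).1 (hC.le_V ha)).1

end Charts

/-! ### the generic fibre -/

theorem S37VAL_jLaur_one : jLaur 1 = jqModC Qb := by
  have h1 : coeffMap (algebraMap ℚ Qb) (jqModC ℚ) = jLaur 1 := by
    rw [jLaur, coeffEmb, qExpand_one_apply]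
    rfl
  rw [← h1, coeffMap_jqModC]

theorem S37VAL_inc_j :
    S18A3C_inc N (algebraMap K1 Qb) ⟨jqModC K1, jqModC_mem_full K1 N⟩ = jElt N := by
  apply Subtype.ext
  rw [S18A3C_inc_coe]
  show coeffMap (algebraMap K1 Qb) (jqModC K1) = jLaur 1
  rw [coeffMap_jqModC, S37VAL_jLaur_one]

theorem S37VAL_jElt_ne_zero : jElt N ≠ 0 := by
  intro h
  have h1 := congrArg (fun z : modularFunctionFieldBar N => (z : LaurentSeries Qb)) h
  have h2 : ((jElt N : modularFunctionFieldBar N) : LaurentSeries Qb) = jLaur 1 := rfl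
  simp only [h2, S37VAL_jLaur_one] at h1
  exact jqModC_ne_zero_of_nontrivial Qb h1

theorem S37VAL_ordP_j_sub (P : PlP) (d : K1) :
    S37B1_ordP N K1 P (jqModC K1 - HahnSeries.C d) =
      P.ord (jElt N - algebraMap Qb (modularFunctionFieldBar N) ((d : Qb))) := by
  have hC : (HahnSeries.C d : LaurentSeries K1) ∈ modularFunctionFieldFullC K1 N := by
    rw [Fermat.Agent.S18_helper26_CONST.S18P15_C_eq_algebraMap]
    exact IntermediateField.algebraMap_mem _ _
  have h := S37B1_ordP_eq N K1 P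
    (⟨jqModC K1, jqModC_mem_full K1 N⟩ - ⟨HahnSeries.C d, hC⟩)
  rw [map_sub, S37VAL_inc_j, S37HEXF_inc_C] at h
  exact h

theorem S37VAL_ordP_j_inv_sub (P : PlP) (d : K1) :
    S37B1_ordP N K1 P ((jqModC K1)⁻¹ - HahnSeries.C d) =
      P.ord ((jElt N)⁻¹ - algebraMap Qb (modularFunctionFieldBar N) ((d : Qb))) := by
  have hC : (HahnSeries.C d : LaurentSeries K1) ∈ modularFunctionFieldFullC K1 N := by
    rw [Fermat.Agent.S18_helper26_CONST.S18P15_C_eq_algebraMap]
    exact IntermediateField.algebraMap_mem _ _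
  have h := S37B1_ordP_eq N K1 P
    ((⟨jqModC K1, jqModC_mem_full K1 N⟩)⁻¹ - ⟨HahnSeries.C d, hC⟩)
  rw [map_sub, map_inv₀, S37VAL_inc_j, S37HEXF_inc_C] at h
  exact h

theorem S37VAL_ordP_j_inv (P : PlP) :
    S37B1_ordP N K1 P ((jqModC K1)⁻¹) = P.ord ((jElt N)⁻¹) := by
  have h := S37B1_ordP_eq N K1 P ((⟨jqModC K1, jqModC_mem_full K1 N⟩)⁻¹)
  rw [map_inv₀, S37VAL_inc_j] at h
  exact h

/-! ### the special fibre -/

theorem S37VAL_ordQ_nonneg_of (Q : PlQ) {w : LaurentSeries kA}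
    (hw : w ∈ modularFunctionFieldFullC kA N) (c : kA)
    (h : w - HahnSeries.C c = 0 ∨ 0 < S37B1_ordQ N Q (w - HahnSeries.C c)) :
    0 ≤ S37B1_ordQ N Q w := by
  rcases h with h | h
  · rw [sub_eq_zero.1 h, S37VAL_ordQ_C]
  · have hc := S37VAL_C_mem_Fk N A c
    have e : S37B1_ordQ N Q (w - HahnSeries.C c) =
        Q.ord ((⟨w, hw⟩ : modularFunctionFieldFullC kA N) - ⟨HahnSeries.C c, hc⟩) :=
      S37B1_ordQ_eq N Q (⟨w, hw⟩ - ⟨HahnSeries.C c, hc⟩)
    rw [e] at h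
    have h1 := Fermat.Agent.S24_helper6_A2.mem_of_ord_nonneg Q h.le
    have h2 : (⟨HahnSeries.C c, hc⟩ : modularFunctionFieldFullC kA N) ∈ Q.toValuationSubring := by
      have : (⟨HahnSeries.C c, hc⟩ : modularFunctionFieldFullC kA N) =
          algebraMap kA (modularFunctionFieldFullC kA N) c := by
        apply Subtype.ext
        show (HahnSeries.C c : LaurentSeries kA) = algebraMap kA (LaurentSeries kA) c
        rw [Fermat.Agent.S18_helper26_CONST.S18P15_C_eq_algebraMap]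
      rw [this]
      exact Q.algebraMap_mem' c
    have h3 := Q.toValuationSubring.add_mem _ _ h1 h2
    rw [sub_add_cancel] at h3
    rw [S37B1_ordQ_eq N Q ⟨w, hw⟩]
    exact Fermat.Agent.S24_helper6_A2.ord_nonneg_of_mem Q h3

theorem S37VAL_not_ordQ_pos_of (Q : PlQ) {w : LaurentSeries kA}
    (hw : w ∈ modularFunctionFieldFullC kA N) (c : kA) (hc0 : c ≠ 0)
    (h : w - HahnSeries.C c = 0 ∨ 0 < S37B1_ordQ N Q (w - HahnSeries.C c)) :
    ¬ 0 < S37B1_ordQ N Q w := by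
  intro hpos
  have hc := S37VAL_C_mem_Fk N A c
  have hcE : (⟨HahnSeries.C c, hc⟩ : modularFunctionFieldFullC kA N) =
      algebraMap kA (modularFunctionFieldFullC kA N) c := by
    apply Subtype.ext
    show (HahnSeries.C c : LaurentSeries kA) = algebraMap kA (LaurentSeries kA) c
    rw [Fermat.Agent.S18_helper26_CONST.S18P15_C_eq_algebraMap]
  rw [S37B1_ordQ_eq N Q ⟨w, hw⟩] at hpos
  have hN1 := S18A3_isN_of_ord_pos Q hpos
  rcases h with h | h
  · have : (⟨w, hw⟩ : modularFunctionFieldFullC kA N) =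
        algebraMap kA (modularFunctionFieldFullC kA N) c := by
      rw [← hcE]
      exact Subtype.ext (sub_eq_zero.1 h)
    rw [this] at hN1
    exact hc0 (S37HEX_const_eq_zero_of_isN Q hN1)
  · have e : S37B1_ordQ N Q (w - HahnSeries.C c) =
        Q.ord ((⟨w, hw⟩ : modularFunctionFieldFullC kA N) - ⟨HahnSeries.C c, hc⟩) :=
      S37B1_ordQ_eq N Q (⟨w, hw⟩ - ⟨HahnSeries.C c, hc⟩)
    rw [e] at h
    have hN2 := S18A3_isN_of_ord_pos Q h
    have hN3 := S37HEX_isN_sub Q hN1 hN2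
    rw [sub_sub_cancel, hcE] at hN3
    exact hc0 (S37HEX_const_eq_zero_of_isN Q hN3)

theorem S37VAL_ordQ_inv (Q : PlQ) {w : LaurentSeries kA}
    (hw : w ∈ modularFunctionFieldFullC kA N) :
    S37B1_ordQ N Q w⁻¹ = - S37B1_ordQ N Q w := by
  have h := S37B1_ordQ_eq N Q (⟨w, hw⟩ : modularFunctionFieldFullC kA N)⁻¹
  rw [Place.ord_inv, ← S37B1_ordQ_eq N Q ⟨w, hw⟩] at h
  exact h

end Fermat.Agent.S37_helper14_VALa
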