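import Mathlib
import Fermat.Agent.S37_helper14_VALa

/-!
# S37, block B1, (F6) value facts: `S37DA_V0` and `S37DA_VInf`, verbatim
-/

set_option autoImplicit false
set_option linter.unusedSectionVars false
set_option linter.unusedVariables false
set_option linter.style.haveILetI false
set_option synthInstance.maxHeartbeats 400000
set_option maxHeartbeats 1000000

open AlgebraicCurve ModularCurve HahnSeries IntermediateField

noncomputable section

namespace Fermat.Agent.S37_helper14_VAL

open Fermat.Agent.S18_helper25_COREDefs Fermat.Agent.S18_helper19_PLACEMOD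
  Fermat.Agent.S18_helper13_GAUSS Fermat.Agent.S37_helper5_LEVEL
  Fermat.Agent.S37_helper4_B1Defs Fermat.Agent.S24 Fermat.Agent.S18_helper9_CDefs
  Fermat.Agent.S37_helper8_DEFASM Fermat.Agent.S18_helper19_PLACEUNR
  Fermat.Agent.S37_helper15_HEX Fermat.Agent.S37_helper15_HEXF
  Fermat.Agent.S37_helper14_VALa

local notation "Qb" => AlgebraicClosure ℚ

/-- **(v0)**, verbatim. -/
theorem S37VAL_V0 (N : ℕ) [NeZero N] {ℓ : ℕ} (hℓ : ℓ.Prime) (hℓN : ¬ ℓ ∣ N)
    (A : ValuationSubring (AlgebraicClosure ℚ)) (hA : A.LiesOverPrime ℓ) : S37DA_V0 N ℓ A := by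
  intro K1 h P Q hrat hcen
  letI := h.dvr
  have S := Fermat.Agent.S18AK.setupK N hℓ A hA hℓN K1
  have hcen' : S37B1_Centred N A K1 (S18K_A0 A K1 N) P Q := hcen
  have hjk : jqModC (IsLocalRing.ResidueField A) ∈
      modularFunctionFieldFullC (IsLocalRing.ResidueField A) N := jqModC_mem_full _ N
  obtain ⟨d, hpos, -, hred⟩ := S37VAL_core (x := jqModC K1)
    (S37VAL_chart_x_mem S.chart0 S.j_mem) (S37VAL_chart_O_le S.chart0 S.O_le)
    (S37VAL_chart_le_F S.chart0) (S37VAL_chart_le_V S.chart0) (S37VAL_j_ne_C K1) P Q hrat hcen'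
  rw [GaussData.redFun_jqModC] at hred
  constructor
  · refine ⟨⟨((d : K1) : Qb), d.2⟩, ?_⟩
    rw [S37VAL_ordP_j_sub] at hpos
    exact hpos
  · exact S37VAL_ordQ_nonneg_of N A Q hjk _ hred


/-- **(v∞)**, verbatim. -/
theorem S37VAL_VInf (N : ℕ) [NeZero N] {ℓ : ℕ} (hℓ : ℓ.Prime) (hℓN : ¬ ℓ ∣ N)
    (A : ValuationSubring (AlgebraicClosure ℚ)) (hA : A.LiesOverPrime ℓ) :
    S37DA_VInf N ℓ A := by
  intro K1 h P Q hrat hcen
  letI := h.dvr
  have S := Fermat.Agent.S18AK.setupK N hℓ A hA hℓN K1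
  have hcen' : S37B1_Centred N A K1 (S18K_Ainf A K1 N) P Q := hcen
  have hjk : jqModC (IsLocalRing.ResidueField A) ∈
      modularFunctionFieldFullC (IsLocalRing.ResidueField A) N := jqModC_mem_full _ N
  have hjk0 : jqModC (IsLocalRing.ResidueField A) ≠ 0 := jqModC_ne_zero_of_nontrivial _
  have hjinvF : (jqModC K1)⁻¹ ∈ S18K_F1 K1 N := (S18K_F1 K1 N).inv_mem S.j_mem
  obtain ⟨d, hpos, hunit, hred⟩ := S37VAL_core (x := (jqModC K1)⁻¹)
    (S37VAL_chart_x_mem S.chartInf hjinvF) (S37VAL_chart_O_le S.chartInf S.O_le)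
    (S37VAL_chart_le_F S.chartInf) (S37VAL_chart_le_V S.chartInf) (S37VAL_j_inv_ne_C K1)
    P Q hrat hcen'
  rw [GaussData.redFun_inv _ (GaussData.jqModC_mem_Vring _)
    (by rw [GaussData.redFun_jqModC]; exact hjk0), GaussData.redFun_jqModC] at hred
  rw [S37VAL_ordP_j_inv_sub] at hpos
  rw [S37VAL_ordP_j_inv] at hunit
  have hJ0 : jElt N ≠ 0 := S37VAL_jElt_ne_zero N
  have hjinvk : (jqModC (IsLocalRing.ResidueField A))⁻¹ ∈
      modularFunctionFieldFullC (IsLocalRing.ResidueField A) N := inv_mem hjk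
  have hN2 := S18A3_isN_of_ord_pos P hpos
  have hJinv_mem : (jElt N)⁻¹ ∈ P.toValuationSubring := by
    have := P.toValuationSubring.add_mem _ _ hN2.1 (P.algebraMap_mem' (((d : K1) : Qb)))
    rwa [sub_add_cancel] at this
  constructor
  · -- `j(P) ∈ A` implies `j̄` regular at `Q`
    rintro ⟨c, hc⟩
    have hN1 := S18A3_isN_of_ord_pos P hc
    have hJ_mem : jElt N ∈ P.toValuationSubring := by
      have := P.toValuationSubring.add_mem _ _ hN1.1 (P.algebraMap_mem' ((c : Qb)))
      rwa [sub_add_cancel] at this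
    have hN3 := S18A3_isN_add P (S18A3_isN_mul P hJinv_mem hN1)
      (S18A3_isN_mul P (P.algebraMap_mem' ((c : Qb))) hN2)
    have e : (jElt N)⁻¹ * (jElt N - algebraMap Qb (modularFunctionFieldBar N) (c : Qb)) +
        algebraMap Qb (modularFunctionFieldBar N) (c : Qb) *
          ((jElt N)⁻¹ - algebraMap Qb (modularFunctionFieldBar N) ((d : K1) : Qb)) =
        algebraMap Qb (modularFunctionFieldBar N) (1 - (c : Qb) * ((d : K1) : Qb)) := by
      rw [map_sub, map_one, map_mul]
      field_simp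
      ring
    rw [e] at hN3
    have hcd : (c : Qb) * ((d : K1) : Qb) = 1 := by
      have := S37HEX_const_eq_zero_of_isN P hN3
      exact (sub_eq_zero.1 this).symm
    -- `d` is a unit of `O1`
    have hres : S18K_res A K1 d ≠ 0 := by
      intro h0
      rw [S18K_res_eq_zero_iff, IsLocalRing.mem_maximalIdeal, mem_nonunits_iff] at h0
      apply h0
      have hd0 : (d : K1) ≠ 0 := by
        intro h1
        rw [h1] at hcd
        simp at hcd
      have hinv : (d : K1)⁻¹ ∈ S18K_O1 A K1 := by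
        rw [S18K_mem_O1]
        have : (((d : K1)⁻¹ : K1) : Qb) = (c : Qb) := by
          rw [eq_inv_of_mul_eq_one_left hcd]
          simp
        rw [this]
        exact c.2
      refine isUnit_iff_exists_inv.2 ⟨⟨(d : K1)⁻¹, hinv⟩, ?_⟩
      apply Subtype.ext
      show (d : K1) * (d : K1)⁻¹ = 1
      exact mul_inv_cancel₀ hd0
    have hnot := S37VAL_not_ordQ_pos_of N A Q hjinvk _ hres hred
    rw [S37VAL_ordQ_inv N A Q hjk] at hnot
    show 0 ≤ S37B1_ordQ N Q (jqModC (IsLocalRing.ResidueField A))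
    omega
  · -- `j̄` regular at `Q` implies `j(P) ∈ A`
    intro hreg
    have hreg' : 0 ≤ S37B1_ordQ N Q (jqModC (IsLocalRing.ResidueField A)) := hreg
    have hres : S18K_res A K1 d ≠ 0 := by
      intro h0
      rw [h0, map_zero, sub_zero] at hred
      rcases hred with h1 | h1
      · exact (inv_ne_zero hjk0) h1
      · rw [S37VAL_ordQ_inv N A Q hjk] at h1
        omega
    obtain ⟨hd0, c, hc⟩ := S37VAL_inv_mem_of_res_ne_zero A K1 d hres
    have hJinv0 := hunit hd0
    have hJord : P.ord (jElt N) = 0 := by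
      rw [Place.ord_inv] at hJinv0
      omega
    refine ⟨⟨((c : K1) : Qb), c.2⟩, ?_⟩
    have hcd : ((c : K1) : Qb) * ((d : K1) : Qb) = 1 := by
      rw [hc]
      push_cast
      have hd0' : ((d : K1) : Qb) ≠ 0 := by
        intro h2
        apply hd0
        exact_mod_cast h2
      exact inv_mul_cancel₀ hd0'
    have hc0 : ((c : K1) : Qb) ≠ 0 := left_ne_zero_of_mul_eq_one hcd
    have hdiff0 : (jElt N)⁻¹ - algebraMap Qb (modularFunctionFieldBar N) ((d : K1) : Qb) ≠ 0 := by
      intro h0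
      rw [h0, Place.ord_zero] at hpos
      exact lt_irrefl _ hpos
    have e : jElt N - algebraMap Qb (modularFunctionFieldBar N) ((c : K1) : Qb) =
        (algebraMap Qb (modularFunctionFieldBar N) (-((c : K1) : Qb)) * jElt N) *
          ((jElt N)⁻¹ - algebraMap Qb (modularFunctionFieldBar N) ((d : K1) : Qb)) := by
      have h1 : algebraMap Qb (modularFunctionFieldBar N) ((c : K1) : Qb) *
          algebraMap Qb (modularFunctionFieldBar N) ((d : K1) : Qb) = 1 := by
        rw [← map_mul, hcd, map_one]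
      rw [map_neg]
      field_simp
      linear_combination (-(jElt N)) * h1
    show 0 < P.ord (jElt N - algebraMap Qb (modularFunctionFieldBar N) ((c : K1) : Qb))
    have hcne : algebraMap Qb (modularFunctionFieldBar N) (-((c : K1) : Qb)) ≠ 0 := by
      rw [Ne, map_eq_zero, neg_eq_zero]
      exact hc0
    rw [e, P.ord_mul (mul_ne_zero hcne hJ0) hdiff0, P.ord_mul hcne hJ0,
      Fermat.Agent.S24_helper6_A2.ord_algebraMap_eq_zero, hJord]
    omega

end Fermat.Agent.S37_helper14_VAL
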