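import Fermat.Agent.S28_helper7_UNITDATA
import Fermat.Agent.S37_helper27_KTHETA

/-!
# S37 / B1-KAPPA, piece KUNIT: the modular unit as an eta quotient, formally

The formal data `UnitData N` of S28 can be chosen such that its series `V = X ^ m * U` satisfies

`V * Δ ^ k₀ * ∏_{uexp s < 0} Δ(q^{N/s}) ^ (-uexp s) = ∏_{0 ≤ uexp s} Δ(q^{N/s}) ^ (uexp s)`

in `R((q))` for every commutative ring `R`, where `s` runs over the divisors of `rad N`
(`S37KU_exists`).  Over a field: `V = ∏_s (Δ(q^{N/s}) / Δ) ^ (uexp s)` (`S37KU_exists_field`).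
-/

set_option autoImplicit false
set_option linter.unusedSectionVars false
set_option linter.style.haveILetI false

open UpperHalfPlane ModularForm CongruenceSubgroup Matrix.SpecialLinearGroup
open scoped MatrixGroups ModularForm Manifold Real
open Fermat.Agent.S20 Fermat.Agent.S28_helper14_Defs Fermat.Agent.S28_helper14_ADefs ModularCurve
open Fermat.Agent.S37_helper27_KTHETA

noncomputable section

namespace Fermat.Agent.S37_helper17_KUNIT

/-! ### `Δ(q ^ d)` -/

/-- The series `Δ(q ^ d)` over `R` (junk value `1` for `d = 0`). -/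
def S37KU_DeltaAt (R : Type*) [CommRing R] (d : ℕ) : LaurentSeries R :=
  if h : d = 0 then 1 else @qExpand R _ d ⟨h⟩ (S37K_DeltaS R)

theorem S37KU_DeltaAt_eq (R : Type*) [CommRing R] (d : ℕ) [hd : NeZero d] :
    S37KU_DeltaAt R d = qExpand R d (S37K_DeltaS R) := by
  unfold S37KU_DeltaAt
  rw [dif_neg (NeZero.ne d)]

theorem S37KU_coeffMap_DeltaAt {R S : Type*} [CommRing R] [CommRing S] (f : R →+* S) (d : ℕ) :
    coeffMap f (S37KU_DeltaAt R d) = S37KU_DeltaAt S d := by
  by_cases h : d = 0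
  · unfold S37KU_DeltaAt
    rw [dif_pos h, dif_pos h, map_one]
  · haveI : NeZero d := ⟨h⟩
    rw [S37KU_DeltaAt_eq, S37KU_DeltaAt_eq, coeffMap_qExpand, S37K_coeffMap_DeltaS]

theorem S37KU_coeffMap_Vser {R S : Type*} [CommRing R] [CommRing S] (f : R →+* S) (m : ℕ)
    (U : PowerSeries ℤ) : coeffMap f (Vser R m U) = Vser S m U := by
  unfold Vser
  rw [coeffMap_ofPowerSeries,
    ← RingHom.comp_apply (PowerSeries.map f) (PowerSeries.map (Int.castRingHom R)),
    ← PowerSeries.map_comp, RingHom.ext_int (f.comp (Int.castRingHom R)) (Int.castRingHom S)]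

theorem S37KU_coeffMap_injective {R S : Type*} [CommRing R] [CommRing S] (f : R →+* S)
    (hf : Function.Injective f) : Function.Injective (coeffMap f) := by
  intro x y h
  ext k
  apply hf
  rw [← coeffMap_coeff, ← coeffMap_coeff, h]

/-! ### the identity -/

/-- The eta quotient identity for the series `X ^ m * U` over `R`. -/
def S37KU_Identity (N : ℕ) (R : Type*) [CommRing R] (m : ℕ) (U : PowerSeries ℤ) : Prop :=
  Vser R m U * S37K_DeltaS R ^ (k0 N) *
      ∏ s ∈ (rad N).divisors.filter (fun s => uexp N s < 0),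
        S37KU_DeltaAt R (N / s) ^ (- uexp N s).toNat =
    ∏ s ∈ (rad N).divisors.filter (fun s => 0 ≤ uexp N s),
      S37KU_DeltaAt R (N / s) ^ (uexp N s).toNat

theorem S37KU_Identity_map {N : ℕ} {R S : Type*} [CommRing R] [CommRing S] (f : R →+* S)
    {m : ℕ} {U : PowerSeries ℤ} (h : S37KU_Identity N R m U) : S37KU_Identity N S m U := by
  unfold S37KU_Identity at h ⊢
  have h1 := congrArg (coeffMap f) h
  simpa only [map_mul, map_pow, map_prod, S37KU_coeffMap_Vser, S37K_coeffMap_DeltaS,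
    S37KU_coeffMap_DeltaAt] using h1

theorem S37KU_Identity_of_injective {N : ℕ} {R S : Type*} [CommRing R] [CommRing S]
    (f : R →+* S) (hf : Function.Injective f)
    {m : ℕ} {U : PowerSeries ℤ} (h : S37KU_Identity N S m U) : S37KU_Identity N R m U := by
  unfold S37KU_Identity at h ⊢
  apply S37KU_coeffMap_injective f hf
  simpa only [map_mul, map_pow, map_prod, S37KU_coeffMap_Vser, S37K_coeffMap_DeltaS,
    S37KU_coeffMap_DeltaAt] using h

/-! ### the identity over `ℂ` -/

theorem S37KU_DeltaL_eq : DeltaL = S37K_DeltaS ℂ := by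
  unfold DeltaL S37K_DeltaS
  rw [Fermat.Agent.S28_QDELTA.qExpansion_discriminant, map_mul, map_mul, PowerSeries.map_X,
    HahnSeries.ofPowerSeries_X]

theorem S37KU_nice_discriminant : Nice 1 discriminant :=
  Fermat.Agent.S28_EINT.nice_of_isMF1 isMF1_discriminant

theorem S37KU_an_tri {d : ℕ} (hd : 0 < d) :
    Fermat.Agent.S28_UNITDATA.An (tri d 1 0 discriminant) :=
  Fermat.Agent.S28_GCONJ.nice_analyticAt one_pos
    (Fermat.Agent.S28_HD.nice_tri_d S37KU_nice_discriminant hd)

theorem S37KU_L_tri {d : ℕ} (hd : 0 < d) :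
    Fermat.Agent.S28_UNITDATA.L (tri d 1 0 discriminant) = S37KU_DeltaAt ℂ d := by
  haveI : NeZero d := ⟨hd.ne'⟩
  rw [S37KU_DeltaAt_eq, ← S37KU_DeltaL_eq]
  exact Fermat.Agent.S28_HD.qExpansion_tri_d S37KU_nice_discriminant d

open Fermat.Agent.S28_UNITDATA in
theorem S37KU_an_prod {ι : Type*} (s : Finset ι) (F : ι → ℍ → ℂ) (h : ∀ i ∈ s, An (F i)) :
    An (∏ i ∈ s, F i) := by
  classical
  induction s using Finset.induction_on with
  | empty => simpa using an_one
  | insert a s ha ih =>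
    rw [Finset.prod_insert ha]
    exact (h a (Finset.mem_insert_self a s)).mul
      (ih fun i hi => h i (Finset.mem_insert_of_mem hi))

open Fermat.Agent.S28_UNITDATA in
theorem S37KU_L_prod {ι : Type*} (s : Finset ι) (F : ι → ℍ → ℂ) (h : ∀ i ∈ s, An (F i)) :
    L (∏ i ∈ s, F i) = ∏ i ∈ s, L (F i) := by
  classical
  induction s using Finset.induction_on with
  | empty => simpa using L_one
  | insert a s ha ih =>
    rw [Finset.prod_insert ha, Finset.prod_insert ha,
      L_mul (h a (Finset.mem_insert_self a s))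
        (S37KU_an_prod s F fun i hi => h i (Finset.mem_insert_of_mem hi)),
      ih fun i hi => h i (Finset.mem_insert_of_mem hi)]

/-- The eta quotient as an identity of functions without negative exponents. -/
theorem S37KU_GN_mul (N : ℕ) [NeZero N] :
    GN N * ∏ s ∈ (rad N).divisors.filter (fun s => uexp N s < 0),
        (tri (N / s) 1 0 discriminant) ^ (- uexp N s).toNat =
      ∏ s ∈ (rad N).divisors.filter (fun s => 0 ≤ uexp N s),
        (tri (N / s) 1 0 discriminant) ^ (uexp N s).toNat := by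
  funext z
  simp only [Pi.mul_apply, Finset.prod_apply, Pi.pow_apply]
  have hx : ∀ s : ℕ, tri (N / s) 1 0 discriminant z ≠ 0 := fun s => discriminant_ne_zero _
  have h2 : GN N z = ∏ s ∈ (rad N).divisors, tri (N / s) 1 0 discriminant z ^ uexp N s := rfl
  rw [h2, ← Finset.prod_filter_mul_prod_filter_not (rad N).divisors (fun s => 0 ≤ uexp N s)]
  have hneg : (rad N).divisors.filter (fun s => ¬ 0 ≤ uexp N s) =
      (rad N).divisors.filter (fun s => uexp N s < 0) := by
    refine Finset.filter_congr fun s _ => ?_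
    exact not_le
  rw [hneg, mul_assoc, ← Finset.prod_mul_distrib]
  have h3 : ∏ s ∈ (rad N).divisors.filter (fun s => uexp N s < 0),
      tri (N / s) 1 0 discriminant z ^ uexp N s *
        tri (N / s) 1 0 discriminant z ^ (- uexp N s).toNat = 1 := by
    refine Finset.prod_eq_one fun s hs => ?_
    have hu : uexp N s < 0 := (Finset.mem_filter.1 hs).2
    have e : ((- uexp N s).toNat : ℤ) = - uexp N s := Int.toNat_of_nonneg (by omega)
    rw [← zpow_natCast, e, ← zpow_add₀ (hx s), add_neg_cancel, zpow_zero]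
  rw [h3, mul_one]
  refine Finset.prod_congr rfl fun s hs => ?_
  have hu : 0 ≤ uexp N s := (Finset.mem_filter.1 hs).2
  conv_lhs => rw [← Int.toNat_of_nonneg hu]
  rw [zpow_natCast]

open Fermat.Agent.S28_UNITDATA in
/-- The eta quotient identity over `ℂ`. -/
theorem S37KU_identity_complex (N : ℕ) [NeZero N] (m : ℕ) (U : PowerSeries ℤ)
    (hG : L (GN N) = Vser ℂ m U * DeltaL ^ (k0 N)) : S37KU_Identity N ℂ m U := by
  have hN : 0 < N := Nat.pos_of_ne_zero (NeZero.ne N)
  have hpos : ∀ s ∈ (rad N).divisors, 0 < N / s := fun s hs =>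
    Nat.div_pos (Nat.le_of_dvd hN ((Nat.dvd_of_mem_divisors hs).trans
      (Fermat.Agent.S28_ORDER.rad_dvd N))) (Nat.pos_of_mem_divisors hs)
  have hGan : An (GN N) := an_of_isMF (Fermat.Agent.S28_GCONJ.isMF_GN N)
  have han : ∀ (n : ℕ → ℕ) (T : Finset ℕ), T ⊆ (rad N).divisors →
      ∀ s ∈ T, An ((tri (N / s) 1 0 discriminant) ^ (n s)) := fun n T hT s hs =>
    (S37KU_an_tri (hpos s (hT hs))).pow _
  have hL : ∀ (n : ℕ → ℕ) (T : Finset ℕ), T ⊆ (rad N).divisors →
      L (∏ s ∈ T, (tri (N / s) 1 0 discriminant) ^ (n s)) =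
        ∏ s ∈ T, S37KU_DeltaAt ℂ (N / s) ^ (n s) := by
    intro n T hT
    rw [S37KU_L_prod T _ (han n T hT)]
    refine Finset.prod_congr rfl fun s hs => ?_
    rw [L_pow (S37KU_an_tri (hpos s (hT hs))), S37KU_L_tri (hpos s (hT hs))]
  have key := congrArg L (S37KU_GN_mul N)
  rw [L_mul hGan (S37KU_an_prod _ _ (han _ _ (Finset.filter_subset _ _))),
    hL _ _ (Finset.filter_subset _ _), hL _ _ (Finset.filter_subset _ _), hG,
    S37KU_DeltaL_eq] at key
  exact key

/-! ### the unit data -/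

open Fermat.Agent.S28_UNITDATA in
/-- **KUNIT**, integral form: a `UnitData N` whose series is the eta quotient. -/
theorem S37KU_exists_int (N : ℕ) [NeZero N] :
    ∃ D : UnitData N, D.ι = Fintype.card (Q N) ∧ D.k₀ = k0 N ∧
      S37KU_Identity N ℤ (D.k₀ * (D.ι - 1)) D.U := by
  obtain ⟨U, p, u, hU, hpint, hp0, hpdeg, hu, hu', hu0, hpn, hE, hG, hrel⟩ :=
    Fermat.Agent.S28_RELF.exists_rel N
  have hGN : GNHyp N := Fermat.Agent.S28_GCONJ.isMF_GN N
  have hHd : HdHyp N := fun d _ hd =>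
    ⟨Fermat.Agent.S28_HD.isMF_Hd N d hd, Fermat.Agent.S28_HD.qExpansion_Hd N d hd⟩
  refine ⟨{
    ι := Fintype.card (Q N)
    k₀ := k0 N
    hι := card_Q_pos N
    hk₀ := Fermat.Agent.S28_ORDER.k0_pos N (NeZero.pos N)
    U := U
    hU := hU
    p := p
    hp_int := hpint
    hp0 := hp0
    hp_deg := hpdeg
    u := u
    hu := hu
    hu' := hu'
    hu0 := hu0
    hpι := hpn
    rel := hrel
    int := fun d hd _ => int_aux_of N hGN hHd hE hG d hd }, rfl, rfl, ?_⟩
  exact S37KU_Identity_of_injective (Int.castRingHom ℂ) Int.cast_injective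
    (S37KU_identity_complex N _ U hG)

/-- **KUNIT**: a `UnitData N` whose series is the eta quotient, over every commutative ring. -/
theorem S37KU_exists (N : ℕ) [NeZero N] :
    ∃ D : UnitData N, D.ι = Fintype.card (Q N) ∧ D.k₀ = k0 N ∧
      ∀ (R : Type) [CommRing R], S37KU_Identity N R (D.k₀ * (D.ι - 1)) D.U := by
  obtain ⟨D, h1, h2, h3⟩ := S37KU_exists_int N
  exact ⟨D, h1, h2, fun R _ => S37KU_Identity_map (Int.castRingHom R) h3⟩

/-! ### the field form -/

theorem S37KU_sum_uexp (N : ℕ) [NeZero N] : ∑ s ∈ (rad N).divisors, uexp N s = (k0 N : ℤ) := by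
  unfold uexp k0
  exact Fermat.Agent.S28_ORDER.sum_moebius_mul_div (rad N) (Fermat.Agent.S28_ORDER.rad_pos N)

theorem S37KU_DeltaAt_ne_zero (K : Type*) [Field K] (d : ℕ) : S37KU_DeltaAt K d ≠ 0 := by
  by_cases h : d = 0
  · unfold S37KU_DeltaAt
    rw [dif_pos h]
    exact one_ne_zero
  · haveI : NeZero d := ⟨h⟩
    rw [S37KU_DeltaAt_eq]
    intro h0
    exact S37K_DeltaS_ne_zero (R := K) (qExpand_injective d (by rw [h0, map_zero]))

theorem S37KU_prod_zpow {K : Type*} [Field K] {a : K} (ha : a ≠ 0) {ι : Type*} (s : Finset ι)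
    (f : ι → ℤ) : ∏ i ∈ s, a ^ f i = a ^ ∑ i ∈ s, f i := by
  classical
  induction s using Finset.induction_on with
  | empty => simp
  | insert b s hb ih => rw [Finset.prod_insert hb, Finset.sum_insert hb, ih, zpow_add₀ ha]

/-- Over a field the identity reads `V = ∏_{s ∣ rad N} (Δ(q^{N/s}) / Δ) ^ (uexp N s)`. -/
theorem S37KU_Identity_field {N : ℕ} [NeZero N] {K : Type*} [Field K] {m : ℕ}
    {U : PowerSeries ℤ} (h : S37KU_Identity N K m U) :
    Vser K m U =
      ∏ s ∈ (rad N).divisors, (S37KU_DeltaAt K (N / s) / S37K_DeltaS K) ^ (uexp N s) := by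
  unfold S37KU_Identity at h
  have hΔ : S37K_DeltaS K ≠ 0 := S37K_DeltaS_ne_zero
  have hD : ∀ s : ℕ, S37KU_DeltaAt K (N / s) ≠ 0 := fun s => S37KU_DeltaAt_ne_zero K _
  have h1 : ∏ s ∈ (rad N).divisors, (S37KU_DeltaAt K (N / s) / S37K_DeltaS K) ^ (uexp N s) =
      (∏ s ∈ (rad N).divisors, S37KU_DeltaAt K (N / s) ^ (uexp N s)) /
        S37K_DeltaS K ^ (k0 N) := by
    simp_rw [div_zpow]
    rw [Finset.prod_div_distrib, S37KU_prod_zpow hΔ, S37KU_sum_uexp, zpow_natCast]
  have h2 : ∏ s ∈ (rad N).divisors, S37KU_DeltaAt K (N / s) ^ (uexp N s) =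
      (∏ s ∈ (rad N).divisors.filter (fun s => 0 ≤ uexp N s),
          S37KU_DeltaAt K (N / s) ^ (uexp N s).toNat) /
        ∏ s ∈ (rad N).divisors.filter (fun s => uexp N s < 0),
          S37KU_DeltaAt K (N / s) ^ (- uexp N s).toNat := by
    rw [← Finset.prod_filter_mul_prod_filter_not (rad N).divisors (fun s => 0 ≤ uexp N s)]
    have hneg : (rad N).divisors.filter (fun s => ¬ 0 ≤ uexp N s) =
        (rad N).divisors.filter (fun s => uexp N s < 0) := by
      refine Finset.filter_congr fun s _ => ?_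
      exact not_le
    rw [hneg, eq_div_iff (Finset.prod_ne_zero_iff.2 fun s _ => pow_ne_zero _ (hD s)), mul_assoc,
      ← Finset.prod_mul_distrib]
    have h3 : ∏ s ∈ (rad N).divisors.filter (fun s => uexp N s < 0),
        S37KU_DeltaAt K (N / s) ^ uexp N s *
          S37KU_DeltaAt K (N / s) ^ (- uexp N s).toNat = 1 := by
      refine Finset.prod_eq_one fun s hs => ?_
      have hu : uexp N s < 0 := (Finset.mem_filter.1 hs).2
      have e : ((- uexp N s).toNat : ℤ) = - uexp N s := Int.toNat_of_nonneg (by omega)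
      rw [← zpow_natCast, e, ← zpow_add₀ (hD s), add_neg_cancel, zpow_zero]
    rw [h3, mul_one]
    refine Finset.prod_congr rfl fun s hs => ?_
    have hu : 0 ≤ uexp N s := (Finset.mem_filter.1 hs).2
    conv_lhs => rw [← Int.toNat_of_nonneg hu]
    rw [zpow_natCast]
  have hP : ∏ s ∈ (rad N).divisors.filter (fun s => uexp N s < 0),
      S37KU_DeltaAt K (N / s) ^ (- uexp N s).toNat ≠ 0 :=
    Finset.prod_ne_zero_iff.2 fun s _ => pow_ne_zero _ (hD s)
  rw [h1, h2, ← h, mul_div_cancel_right₀ _ hP, mul_div_cancel_right₀ _ (pow_ne_zero _ hΔ)]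

/-- **KUNIT**, field form. -/
theorem S37KU_exists_field (N : ℕ) [NeZero N] :
    ∃ D : UnitData N, D.ι = Fintype.card (Q N) ∧ D.k₀ = k0 N ∧
      ∀ (K : Type) [Field K], Vser K (D.k₀ * (D.ι - 1)) D.U =
        ∏ s ∈ (rad N).divisors, (S37KU_DeltaAt K (N / s) / S37K_DeltaS K) ^ (uexp N s) := by
  obtain ⟨D, h1, h2, h3⟩ := S37KU_exists_int N
  exact ⟨D, h1, h2, fun K _ => S37KU_Identity_field (S37KU_Identity_map (Int.castRingHom K) h3)⟩

end Fermat.Agent.S37_helper17_KUNIT
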