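import Fermat.Agent.S37_helper20_KAPPAEMB
import Fermat.Agent.S37_helper13_KAPPA2
import Fermat.Agent.S18_helper14_SETUP

/-!
# S37, B1-KAPPA by route (E) (helper20): assembly

`S37KEA_kappa` : for every admissible level `K1`, the reduction of the Gauss valuation ring of
`F1 = K1(j(q^d) : d ∣ N)` lies in `F_k = k(j(q^d) : d ∣ N)` (`k` the residue field of `A`).
This is the hypothesis `hkappa` of `S37B1_hgen_of_kappaV` (helper23), verbatim.

Inputs: (E1)+(E2) = `S37KB_kappa` (helper13), (E3) = `S37KE_family_gen` (helper20),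
the chart of block A (helper14 `setupK`) and the degree `[F1 : K1(j)] = #Q N` (helper26).
-/

set_option autoImplicit false
set_option linter.unusedSectionVars false
set_option linter.unusedVariables false
set_option linter.style.haveILetI false

noncomputable section

open ModularCurve IntermediateField Fermat.Agent.S20 Fermat.Agent.S24
open Fermat.Agent.S18_helper13_GAUSS Fermat.Agent.S18_helper13_REDPOW
  Fermat.Agent.S18_helper25_COREDefs Fermat.Agent.S18_helper26_CONST
  Fermat.Agent.S18_helper9_CDefs Fermat.Agent.S37_helper13_KAPPA2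
  Fermat.Agent.S37_helper20_KAPPAEMB

namespace Fermat.Agent.S37_helper20_KAPPAE

/-- `j(t^N)` is transcendental over the constants -/
theorem S37KEA_transcendental (κ : Type*) [Field κ] (N : ℕ) [NeZero N] :
    Transcendental κ (jqNModC κ N) := by
  intro halg
  obtain ⟨c, hc⟩ := mem_range_C_of_isAlgebraic halg
  have h1 : (jqNModC κ N).coeff ((N : ℤ) * (-1)) = 1 := by
    rw [jqNModC, qExpand_coeff_mul, coeff_jqModC_neg_one]
  rw [hc, HahnSeries.C_apply, HahnSeries.coeff_single_of_ne] at h1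
  · exact zero_ne_one h1
  · have hN : (0 : ℤ) < (N : ℤ) := by exact_mod_cast Nat.pos_of_ne_zero (NeZero.ne N)
    intro h
    linarith

section Gen

variable {O K1 κ : Type*} [CommRing O] [IsDomain O] [Field K1] [CharZero K1] [Field κ]
  (D : GaussData O K1 κ) (emb : K1 →+* Kbar) (N : ℕ) [NeZero N]

/-- **KAPPA by route (E), abstract base.** -/
theorem S37KEA_kappa_gen
    (hroots : ∀ w : ℂ, w ^ N = 1 → ∃ u : Oˣ, u ^ N = 1 ∧ phi0 (emb (D.inc (u : O))) = w)
    (hNres : D.res ((N : ℕ) : O) ≠ 0)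
    (hK : ∀ c : K1, ∃ a b : O, b ≠ 0 ∧ D.inc b * c = D.inc a)
    (hres : Function.Surjective D.res)
    {Oc : Subring (LaurentSeries K1)}
    (hOc : ∀ x, x ∈ Oc ↔ ∃ a : O, HahnSeries.C (D.inc a) = x)
    {A0 : Subring (LaurentSeries K1)}
    (hC : Chart Oc D.πK (jqModC K1) (modularFunctionFieldFullC K1 N).toSubfield
      (S18RP_V D N) A0)
    {y : LaurentSeries K1} (hyV : y ∈ D.Vring) (hyF : y ∈ modularFunctionFieldFullC K1 N) :
    D.redFun y ∈ modularFunctionFieldFullC κ N := by
  obtain ⟨ι, -, h1, h2, h3, h4⟩ := S37KE_family_gen D emb N hroots hNres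
  have hu : jqNModC K1 N ∈ D.Vring := D.jqNModC_mem_Vring N
  have hutr : Transcendental κ (D.redFun (jqNModC K1 N)) := by
    rw [D.redFun_jqNModC N]
    exact S37KEA_transcendental κ N
  have hE : ∀ q, S37KB_Emb D N (jqNModC K1 N) (ι q) := by
    intro q
    refine ⟨?_, ?_, ?_⟩
    · intro c
      have hc : HahnSeries.C c ∈ modularFunctionFieldFullC K1 N := by
        have h : HahnSeries.C c = algebraMap K1 (LaurentSeries K1) c := by
          rw [algebraMap_laurentSeries_eq_single, HahnSeries.C_apply]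
        rw [h]
        exact IntermediateField.algebraMap_mem _ c
      have h5 : algebraMap K1 (modularFunctionFieldFullC K1 N) c = ⟨HahnSeries.C c, hc⟩ := by
        apply Subtype.ext
        show algebraMap K1 (LaurentSeries K1) c = HahnSeries.C c
        rw [algebraMap_laurentSeries_eq_single, HahnSeries.C_apply]
      rw [h5]
      exact h1 q c hc
    · exact h2 q _
    · intro d _ hd
      obtain ⟨e, u, -, h⟩ := h3 q d hd (jqModCd_mem_full K1 N hd)
      have h6 : ι q (S18P15_jbard K1 N d hd) =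
          D.incS (qExpand O (e + 1) (S37KE_tw O u)) := h
      rw [h6]
      exact D.incS_mem_fracField _
  have hdist : ∀ i i', i ≠ i' → ∃ x : modularFunctionFieldFullC K1 N,
      (x : LaurentSeries K1) ∈ D.Vring ∧
        D.redFun (x : LaurentSeries K1) ∈ modularFunctionFieldFullC κ N ∧
        D.redFun (ι i x) ≠ D.redFun (ι i' x) := by
    intro i i' hne
    refine ⟨S18P15_jbard K1 N N dvd_rfl, D.jqNModC_mem_Vring N, ?_, ?_⟩
    · have h7 : D.redFun ((S18P15_jbard K1 N N dvd_rfl : modularFunctionFieldFullC K1 N) :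
          LaurentSeries K1) = jqNModC κ N := D.redFun_jqNModC N
      rw [h7]
      exact jqModCd_mem_full κ N dvd_rfl
    · intro h
      exact hne (h4 i i' (jqModCd_mem_full K1 N dvd_rfl) h)
  have hcard : Module.finrank K1⟮S18P15_jbar K1 N⟯ (modularFunctionFieldFullC K1 N) ≤
      Fintype.card (Q N) :=
    (Fermat.Agent.S18_helper26_DEGK1.S18DEG_finrank_card emb N).le
  exact S37KB_kappa hK hres hu hutr hOc hC ι hE hdist hcard hyV hyF

end Gen

section Level

variable (A : ValuationSubring (AlgebraicClosure ℚ))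
  (K1 : IntermediateField ℚ (AlgebraicClosure ℚ))

/-- **B1-KAPPA** (route (E)): the hypothesis `hkappa` of helper23's `S37B1_hgen_of_kappaV`. -/
theorem S37KEA_kappa (N : ℕ) [NeZero N] {ℓ : ℕ} (hℓ : ℓ.Prime) (hℓN : ¬ ℓ ∣ N)
    (hA : A.LiesOverPrime ℓ) (h : S18K_Admissible A K1 ℓ) :
    letI := h.dvr
    ∀ y ∈ S18K_V A K1 N,
      (S18K_D A K1).redFun y ∈ modularFunctionFieldFullC (IsLocalRing.ResidueField A) N := by
  letI := h.dvr
  intro y hy
  have hN : 0 < N := Nat.pos_of_ne_zero (NeZero.ne N)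
  have hS := Fermat.Agent.S18AK.setupK N hℓ A hA hℓN K1
  refine S37KEA_kappa_gen (S18K_D A K1) (algebraMap K1 (AlgebraicClosure ℚ)) N ?_ ?_
    (S37KE_hK A K1) h.res_surj (Oc := S18K_O A K1) ?_ (A0 := S18K_A0 A K1 N) hS.chart0 hy.1 hy.2
  · intro w hw
    obtain ⟨ζ, hζN, hζw⟩ := S37KE_exists_root N hN w hw
    obtain ⟨u, huζ, huN⟩ := S37KE_exists_unit A K1 ζ (h.roots N hℓN ζ hζN) N hN hζN
    refine ⟨u, huN, ?_⟩
    rw [← hζw, ← huζ]
    rfl
  · have h1 : (S18K_D A K1).res ((N : ℕ) : S18K_O1 A K1) =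
        ((N : ℕ) : IsLocalRing.ResidueField A) := map_natCast (S18K_res A K1) N
    rw [h1]
    exact S37KE_natCast_residue_ne_zero A hℓ hA N hℓN
  · intro x
    rw [S18K_mem_O]
    constructor
    · rintro ⟨c, hc, rfl⟩
      exact ⟨⟨c, hc⟩, rfl⟩
    · rintro ⟨a, rfl⟩
      exact ⟨a.1, a.2, rfl⟩

end Level

end Fermat.Agent.S37_helper20_KAPPAE
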