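import Fermat.Agent.S37_helper4_B1Defs2
import Fermat.Agent.S18_helper14_SETUP

/-!
# S37, B1-F6, level change of `S37B1_Centred` (helper20)

For two levels `K1 ≤ K1'` (intermediate fields of `ℚ̄ / ℚ` with `A ∩ K1`, `A ∩ K1'` discrete
valuation rings) the coefficientwise inclusion `K1((q)) → K1'((q))` preserves the function field,
the charts, the Gauss valuation ring, the order at a place of `F` and the Gauss reduction.

* `S37LC_centred_mono` : `Centred` at level `K1'` implies `Centred` at level `K1` (both charts).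
-/

set_option autoImplicit false
set_option linter.unusedSectionVars false
set_option linter.unusedVariables false
set_option linter.style.haveILetI false
set_option synthInstance.maxHeartbeats 400000

noncomputable section

open AlgebraicCurve ModularCurve HahnSeries IntermediateField
open Fermat.Agent.S18_helper25_COREDefs Fermat.Agent.S18_helper19_PLACEMOD
  Fermat.Agent.S18_helper13_GAUSS Fermat.Agent.S18_helper9_CDefs
  Fermat.Agent.S37_helper4_B1Defs Fermat.Agent.S18_helper25_GLUE

namespace Fermat.Agent.S37_helper20_LEVELCHG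

/-! ### Morphisms of Gauss data -/

section GaussMor

variable {O O' K K' κ : Type*} [CommRing O] [IsDomain O] [CommRing O'] [IsDomain O']
  [Field K] [Field K'] [Field κ]
  (D : GaussData O K κ) (D' : GaussData O' K' κ) (o : O →+* O') (f : K →+* K')
  (hinc : ∀ a, f (D.inc a) = D'.inc (o a)) (hres : ∀ a, D'.res (o a) = D.res a)

include hinc in
theorem S37LC_incS (a : LaurentSeries O) :
    coeffMap f (D.incS a) = D'.incS (coeffMap o a) := by
  ext n
  simp only [coeffMap_coeff, GaussData.incS_coeff]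
  exact hinc _

include hres in
theorem S37LC_redS (a : LaurentSeries O) : D'.redS (coeffMap o a) = D.redS a := by
  ext n
  simp only [coeffMap_coeff, GaussData.redS_coeff]
  exact hres _

include hinc hres in
theorem S37LC_mem_Vring {x : LaurentSeries K} (hx : x ∈ D.Vring) :
    coeffMap f x ∈ D'.Vring := by
  obtain ⟨a, b, hb, h⟩ := hx
  refine ⟨coeffMap o a, coeffMap o b, ?_, ?_⟩
  · rw [S37LC_redS D D' o hres]
    exact hb
  · rw [← S37LC_incS D D' o f hinc, ← S37LC_incS D D' o f hinc, ← map_mul, h]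

include hinc hres in
theorem S37LC_redFun {x : LaurentSeries K} (hx : x ∈ D.Vring) :
    D'.redFun (coeffMap f x) = D.redFun x := by
  obtain ⟨a, b, hb, h⟩ := hx
  have hb' : D'.redS (coeffMap o b) ≠ 0 := by
    rw [S37LC_redS D D' o hres]
    exact hb
  have h' : D'.incS (coeffMap o b) * coeffMap f x = D'.incS (coeffMap o a) := by
    rw [← S37LC_incS D D' o f hinc, ← S37LC_incS D D' o f hinc, ← map_mul, h]
  rw [D'.redFun_eq hb' h', D.redFun_eq hb h, S37LC_redS D D' o hres, S37LC_redS D D' o hres]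

end GaussMor

/-! ### Ring homomorphisms and integral closures inside fields -/

section Icl

variable {L L' : Type*} [Field L] [Field L'] (g : L →+* L')

theorem S37LC_adj_map (R : Subring L) (R' : Subring L') (x : L)
    (hR : ∀ r ∈ R, g r ∈ R') : ∀ y ∈ adj R x, g y ∈ adj R' (g x) := by
  intro y hy
  have h : adj R x ≤ (adj R' (g x)).comap g := by
    unfold adj
    rw [Subring.closure_le]
    rintro z (hz | hz)
    · exact Subring.subset_closure (Or.inl (hR z hz))
    · rw [Set.mem_singleton_iff] at hz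
      subst hz
      exact Subring.subset_closure (Or.inr rfl)
  exact h hy

theorem S37LC_isIntegral_map (R : Subring L) (R' : Subring L')
    (hR : ∀ r ∈ R, g r ∈ R') {y : L} (hy : IsIntegral R y) : IsIntegral R' (g y) := by
  let φ : R →+* R' := (g.comp R.subtype).codRestrict R' (fun r => hR r r.2)
  exact IsIntegral.map_of_comp_eq φ g (by ext r; rfl) hy

theorem S37LC_icl_map (R : Subring L) (R' : Subring L') (E : Subfield L) (E' : Subfield L')
    (hR : ∀ r ∈ R, g r ∈ R') (hE : ∀ y ∈ E, g y ∈ E') : ∀ y ∈ icl R E, g y ∈ icl R' E' := by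
  intro y hy
  rw [mem_icl] at hy ⊢
  exact ⟨S37LC_isIntegral_map g R R' hR hy.1, hE y hy.2⟩

end Icl

/-! ### Two levels -/

section Levels

variable (A : ValuationSubring (AlgebraicClosure ℚ))
  {K1 K1' : IntermediateField ℚ (AlgebraicClosure ℚ)} (hle : K1 ≤ K1')

/-- the inclusion of the levels -/
def S37LC_incl : K1 →+* K1' := (IntermediateField.inclusion hle).toRingHom

@[simp] theorem S37LC_incl_coe (x : K1) :
    ((S37LC_incl hle x : K1') : AlgebraicClosure ℚ) = (x : AlgebraicClosure ℚ) := rfl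

theorem S37LC_algebraMap_comp :
    (algebraMap K1' (AlgebraicClosure ℚ)).comp (S37LC_incl hle) =
      algebraMap K1 (AlgebraicClosure ℚ) := by
  ext x
  rfl

/-- the inclusion of the rings of integers -/
def S37LC_o : S18K_O1 A K1 →+* S18K_O1 A K1' where
  toFun x := ⟨S37LC_incl hle (x : K1), x.2⟩
  map_one' := rfl
  map_mul' _ _ := rfl
  map_zero' := rfl
  map_add' _ _ := rfl

/-- the coefficientwise inclusion `K1((q)) → K1'((q))` -/
def S37LC_cm : LaurentSeries K1 →+* LaurentSeries K1' := coeffMap (S37LC_incl hle)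

theorem S37LC_cm_injective : Function.Injective (S37LC_cm hle) :=
  (S37LC_cm hle).injective

theorem S37LC_cm_mem_F1 (N : ℕ) {x : LaurentSeries K1}
    (hx : x ∈ modularFunctionFieldFullC K1 N) :
    S37LC_cm hle x ∈ modularFunctionFieldFullC K1' N :=
  S18G_coeffMap_mem (S37LC_incl hle) N hx

theorem S37LC_cm_j : S37LC_cm hle (S18K_j K1) = S18K_j K1' :=
  coeffMap_jqModC (S37LC_incl hle)

theorem S37LC_cm_mem_O {x : LaurentSeries K1} (hx : x ∈ S18K_O A K1) :
    S37LC_cm hle x ∈ S18K_O A K1' := by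
  rw [S18K_mem_O] at hx ⊢
  obtain ⟨c, hc, rfl⟩ := hx
  refine ⟨S37LC_incl hle c, hc, ?_⟩
  rw [S37LC_cm, HahnSeries.C_apply, HahnSeries.C_apply, coeffMap_single]

theorem S37LC_cm_mem_A0 (N : ℕ) {x : LaurentSeries K1} (hx : x ∈ S18K_A0 A K1 N) :
    S37LC_cm hle x ∈ S18K_A0 A K1' N := by
  unfold S18K_A0 at hx ⊢
  refine S37LC_icl_map (S37LC_cm hle) _ _ _ _ ?_ ?_ x hx
  · intro r hr
    rw [← S37LC_cm_j hle]
    exact S37LC_adj_map (S37LC_cm hle) _ _ _ (fun r hr => S37LC_cm_mem_O A hle hr) r hr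
  · intro y hy
    exact S37LC_cm_mem_F1 hle N hy

theorem S37LC_cm_mem_Ainf (N : ℕ) {x : LaurentSeries K1} (hx : x ∈ S18K_Ainf A K1 N) :
    S37LC_cm hle x ∈ S18K_Ainf A K1' N := by
  unfold S18K_Ainf at hx ⊢
  refine S37LC_icl_map (S37LC_cm hle) _ _ _ _ ?_ ?_ x hx
  · intro r hr
    rw [← S37LC_cm_j hle, ← map_inv₀]
    exact S37LC_adj_map (S37LC_cm hle) _ _ _ (fun r hr => S37LC_cm_mem_O A hle hr) r hr
  · intro y hy
    exact S37LC_cm_mem_F1 hle N hy

theorem S37LC_ordP (N : ℕ) [NeZero N]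
    (P : Place (AlgebraicClosure ℚ) (modularFunctionFieldBar N)) {x : LaurentSeries K1}
    (hx : x ∈ modularFunctionFieldFullC K1 N) :
    S37B1_ordP N K1' P (S37LC_cm hle x) = S37B1_ordP N K1 P x := by
  rw [S37B1_ordP, S37B1_ordP, dif_pos hx, dif_pos (S37LC_cm_mem_F1 hle N hx)]
  congr 1

variable [IsDiscreteValuationRing (S18K_O1 A K1)] [IsDiscreteValuationRing (S18K_O1 A K1')]

theorem S37LC_cm_mem_Vring {x : LaurentSeries K1} (hx : x ∈ (S18K_D A K1).Vring) :
    S37LC_cm hle x ∈ (S18K_D A K1').Vring :=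
  S37LC_mem_Vring (S18K_D A K1) (S18K_D A K1') (S37LC_o A hle) (S37LC_incl hle)
    (fun _ => rfl) (fun _ => rfl) hx

theorem S37LC_redFun_cm {x : LaurentSeries K1} (hx : x ∈ (S18K_D A K1).Vring) :
    (S18K_D A K1').redFun (S37LC_cm hle x) = (S18K_D A K1).redFun x :=
  S37LC_redFun (S18K_D A K1) (S18K_D A K1') (S37LC_o A hle) (S37LC_incl hle)
    (fun _ => rfl) (fun _ => rfl) hx

/-- **(mono), abstract chart**: `Centred` descends along `K1 ≤ K1'`. -/
theorem S37LC_centred_mono_of (N : ℕ) [NeZero N]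
    (As : Subring (LaurentSeries K1)) (As' : Subring (LaurentSeries K1'))
    (hAs : ∀ a ∈ As, S37LC_cm hle a ∈ As')
    (hF : ∀ a ∈ As, a ∈ modularFunctionFieldFullC K1 N)
    (hV : ∀ a ∈ As, a ∈ (S18K_D A K1).Vring)
    (P : Place (AlgebraicClosure ℚ) (modularFunctionFieldBar N))
    (Q : Place (IsLocalRing.ResidueField A)
      (modularFunctionFieldFullC (IsLocalRing.ResidueField A) N))
    (h : S37B1_Centred N A K1' As' P Q) : S37B1_Centred N A K1 As P Q := by
  intro a ha ha0
  have ha0' : S37LC_cm hle a ≠ 0 := by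
    intro h0
    apply ha0
    apply S37LC_cm_injective hle
    rw [h0, map_zero]
  have h1 := h (S37LC_cm hle a) (hAs a ha) ha0'
  rw [S37LC_ordP hle N P (hF a ha), S37LC_redFun_cm A hle (hV a ha)] at h1
  exact h1

include hle in
/-- **(mono)** on the chart `j ≠ ∞`. -/
theorem S37LC_centred_mono_A0 (N : ℕ) [NeZero N] {ℓ : ℕ} (hℓ : ℓ.Prime)
    (hA : A.LiesOverPrime ℓ) (hℓN : ¬ ℓ ∣ N)
    (P : Place (AlgebraicClosure ℚ) (modularFunctionFieldBar N))
    (Q : Place (IsLocalRing.ResidueField A)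
      (modularFunctionFieldFullC (IsLocalRing.ResidueField A) N))
    (h : S37B1_Centred N A K1' (S18K_A0 A K1' N) P Q) :
    S37B1_Centred N A K1 (S18K_A0 A K1 N) P Q := by
  have hS := Fermat.Agent.S18AK.setupK N hℓ A hA hℓN K1
  refine S37LC_centred_mono_of A hle N _ _ (fun a ha => S37LC_cm_mem_A0 A hle N ha) ?_ ?_ P Q h
  · intro a ha
    exact (hS.chart0.le_V ha).2
  · intro a ha
    exact (hS.chart0.le_V ha).1

include hle in
/-- **(mono)** on the chart `j ≠ 0`. -/
theorem S37LC_centred_mono_Ainf (N : ℕ) [NeZero N] {ℓ : ℕ} (hℓ : ℓ.Prime)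
    (hA : A.LiesOverPrime ℓ) (hℓN : ¬ ℓ ∣ N)
    (P : Place (AlgebraicClosure ℚ) (modularFunctionFieldBar N))
    (Q : Place (IsLocalRing.ResidueField A)
      (modularFunctionFieldFullC (IsLocalRing.ResidueField A) N))
    (h : S37B1_Centred N A K1' (S18K_Ainf A K1' N) P Q) :
    S37B1_Centred N A K1 (S18K_Ainf A K1 N) P Q := by
  have hS := Fermat.Agent.S18AK.setupK N hℓ A hA hℓN K1
  refine S37LC_centred_mono_of A hle N _ _ (fun a ha => S37LC_cm_mem_Ainf A hle N ha) ?_ ?_ P Q h
  · intro a ha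
    exact (hS.chartInf.le_V ha).2
  · intro a ha
    exact (hS.chartInf.le_V ha).1

end Levels

end Fermat.Agent.S37_helper20_LEVELCHG
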