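import Mathlib
import Fermat.Agent.S37_helper21_END
import Fermat.Agent.S37_helper8_K2
import Fermat.Agent.S37_helper2_K2ABS
import Fermat.Agent.S37_helper15_DEGB
import Fermat.Agent.S37_helper8_ASM

/-!
# S37: the Eichler–Shimura relation for every reduction map (final plug)

`S37END_final` is the hypothesis `hEND` of `S37ASM_of_inputs` (helper8), unconditionally:
the inputs of the abstract endgame `S37END_frobenius_relation` are the landed Kronecker
congruence (`S37K2_reduction`, helper8), the freshman's dream for `q`-expansions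
(`S37K2_pow_eq_qExpand_frob`, helper2) and the degree of `β` (`S37DEGB_finrankAlong_beta`,
helper15).

`S37END_of_reduction` is then S37 with the two remaining inputs as hypotheses: the existence of
the reduction data (block B1) and the statement S18.
-/

set_option autoImplicit false
set_option linter.style.haveILetI false
set_option linter.unusedSectionVars false

open AlgebraicCurve IntermediateField ModularCurve HahnSeries

noncomputable section

namespace Fermat.Agent.S37_helper21_END

local notation "Qb" => AlgebraicClosure ℚ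
local notation "GQ" => (AlgebraicClosure ℚ ≃ₐ[ℚ] AlgebraicClosure ℚ)

set_option synthInstance.maxHeartbeats 400000 in
set_option maxHeartbeats 3200000 in
/-- **The Eichler–Shimura relation** `red (φ² x) - red (T_ℓ (φ x)) + ℓ red x = 0` for every
place reduction map at a prime `ℓ ∤ N` and every Frobenius element `φ`. -/
theorem S37END_final (N : ℕ) [NeZero N] (ℓ : ℕ) (hℓ : ℓ.Prime) (hℓN : ¬ ℓ ∣ N)
    (A : ValuationSubring Qb) (hA : A.LiesOverPrime ℓ)
    (r : Place Qb (modularFunctionFieldBar N) →
      Place (IsLocalRing.ResidueField A)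
        (modularFunctionFieldFullC (IsLocalRing.ResidueField A) N))
    (hr : IsPlaceReductionAlong A (IsLocalRing.residue A) N r)
    (hgen : PrincipalGeneratedByIntegral A (IsLocalRing.residue A) N)
    (σ : GQ) (hσ : A.IsFrobeniusAt σ ℓ) (x : JZero N) :
    reductionPic0Along r hr hgen (σ • σ • x)
      - reductionPic0Along r hr hgen (heckeOperatorBar N ⟨ℓ, hℓ⟩ (σ • x))
      + ℓ • reductionPic0Along r hr hgen x = 0 := by
  haveI : NeZero ℓ := ⟨hℓ.ne_zero⟩
  haveI : ExpChar (IsLocalRing.ResidueField A) ℓ :=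
    Fermat.Agent.S37_helper2_K2ABS.S37K2_expChar_residueField A hℓ hA
  have hτf : ∀ τ : IsLocalRing.ResidueField A ≃+* IsLocalRing.ResidueField A,
      (∀ x, τ x = x ^ ℓ) →
        ((τ : IsLocalRing.ResidueField A ≃+* IsLocalRing.ResidueField A) :
          IsLocalRing.ResidueField A →+* IsLocalRing.ResidueField A)
          = frobenius (IsLocalRing.ResidueField A) ℓ := fun τ hτ =>
    RingHom.ext fun a => by
      rw [frobenius_def]
      exact hτ a
  refine S37END_frobenius_relation hℓ hr hgen ?_ ?_
    (Fermat.Agent.S37_helper15_DEGB.S37DEGB_finrankAlong_beta N ℓ hℓ hℓN) σ hσ x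
  · intro τ hτ y hy
    obtain ⟨z, h1, h2⟩ := Fermat.Agent.S37K2.S37K2_reduction N ℓ hℓ hℓN A y hy
    refine ⟨z, h1, ?_⟩
    rw [hτf τ hτ]
    exact h2
  · intro τ hτ w
    rw [hτf τ hτ]
    exact Fermat.Agent.S37_helper2_K2ABS.S37K2_pow_eq_qExpand_frob ℓ w

set_option synthInstance.maxHeartbeats 400000 in
set_option maxHeartbeats 1000000 in
/-- **S37 from the reduction data and S18.** -/
theorem S37END_of_reduction (N p : ℕ) [NeZero N] (hcomm : HeckeOperatorsCommuteBar N)
    (hRI : ∀ ℓ : ℕ, ℓ.Prime → ¬ ℓ ∣ N → ∀ A : ValuationSubring Qb, A.LiesOverPrime ℓ →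
      ReductionInputsModL A N)
    (hS18 : ∀ ℓ : ℕ, ℓ.Prime → ¬ ℓ ∣ N → ∀ A : ValuationSubring Qb, A.LiesOverPrime ℓ →
      ReductionInputsModL A N → ∀ m : ℕ, ¬ ℓ ∣ m → ∀ z : JZero N, m • z = 0 →
        reductionModL A N z = 0 → z = 0) :
    letI := heckeModuleBar N
    ∀ (_ : SMulCommClass GQ HeckeAlg (JZero N)),
      SpecializationExists (K := ℚ) (L := Qb) N p (JZero N) :=
  Fermat.Agent.S37ASM.S37ASM_of_inputs N p hcomm hRI hS18
    (fun ℓ hℓ hℓN A hA r hr hgen σ hσ x => S37END_final N ℓ hℓ hℓN A hA r hr hgen σ hσ x)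

end Fermat.Agent.S37_helper21_END

end
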