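import Fermat.Agent.S28_helper17_KEYREP
import Fermat.Agent.S28_helper7_UNITDATA
import Fermat.Agent.S18_helper13_FIN
import Fermat.Agent.S37_helper20_KAPPABC

/-!
# S37, B1-KAPPA: reduction of KAPPA to `V̄ ∈ F_{𝔽_ℓ}` (helper24)

By `key_rep` (S28) every `y ∈ F_ℚ ∩ V` satisfies `A(j) y = ∑ B_i(j) V^i` with `A, B_i ∈ ℤ_(ℓ)[X]`
and `A mod ℓ ≠ 0`.  Hence `redFun ℓ y ∈ 𝔽_ℓ(j̄)(V̄)`, and KAPPA over `ℤ_(ℓ)` (the hypothesis `hκ`
of helper20's `S37KBC_kappaK_admissible`) follows as soon as the reduction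
`V̄ = Vser (ZMod ℓ) (k₀ (ι - 1)) U` of the modular unit lies in the level-`N` function field over
`𝔽_ℓ`.  No `key_rep` over a general Gauss base is needed.
-/

set_option autoImplicit false
set_option linter.unusedSectionVars false
set_option linter.unusedVariables false

noncomputable section

open ModularCurve ModularCurve.IgusaScheme Polynomial
open Fermat.Agent.S28_helper14_Defs Fermat.Agent.S28_helper14_Res Fermat.Agent.S28_helper14_Val
  Fermat.Agent.S18_helper13_GAUSS Fermat.Agent.S18_helper25_COREDefs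
  Fermat.Agent.S18_helper18_TENSORO

namespace Fermat.Agent.S37_helper24_KAPPAV

/-- polynomials in `j̄` lie in the function field -/
theorem S37KV_aeval_mem (k : Type*) [Field k] (N : ℕ) [NeZero N] (P : Polynomial k) :
    aeval (jqModC k) P ∈ modularFunctionFieldFullC k N := by
  have hj : jqModC k ∈ modularFunctionFieldFullC k N := jqModC_mem_full _ N
  have : aeval (jqModC k) P
      = ((aeval (⟨jqModC k, hj⟩ : modularFunctionFieldFullC k N) P :
          modularFunctionFieldFullC k N) : LaurentSeries k) := by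
    rw [← IntermediateField.coe_val, ← Polynomial.aeval_algHom_apply]
    rfl
  rw [this]
  exact SetLike.coe_mem _

/-- **KAPPA over `ℤ_(ℓ)` from `V̄ ∈ F_{𝔽_ℓ}`**: the reduction of every element of
`F_ℚ ∩ V` lies in `𝔽_ℓ(j̄)(V̄)`. -/
theorem S37KV_redFun_mem (N ℓ : ℕ) [NeZero N] [Fact ℓ.Prime] (hℓN : ¬ ℓ ∣ N) (D : UnitData N)
    (hV : Vser (ZMod ℓ) (D.k₀ * (D.ι - 1)) D.U ∈ modularFunctionFieldFullC (ZMod ℓ) N)
    (y : LaurentSeries ℚ) (hy : y ∈ modularFunctionFieldFull N) (hyV : y ∈ Vring ℓ) :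
    redFun ℓ y ∈ modularFunctionFieldFullC (ZMod ℓ) N := by
  obtain ⟨A, B, hA, hid⟩ := Fermat.Agent.S28_KEYREP.key_rep N ℓ hℓN D y hy hyV
  set a : LaurentSeries (Rl ℓ) := aeval (jqModC (Rl ℓ)) A with ha
  set b : LaurentSeries (Rl ℓ) := ∑ i ∈ Finset.range D.ι,
    aeval (jqModC (Rl ℓ)) (B i) * (Vser (Rl ℓ) (D.k₀ * (D.ι - 1)) D.U) ^ i with hb
  have hinca : incL ℓ a = aeval jq A := by
    rw [ha, Fermat.Agent.S28_KEYREP.incL_aeval, Fermat.Agent.S28_KEYREP.incL_jqModC]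
  have hincb : incL ℓ b = ∑ i ∈ Finset.range D.ι,
      aeval jq (B i) * (Vser ℚ (D.k₀ * (D.ι - 1)) D.U) ^ i := by
    rw [hb, map_sum]
    apply Finset.sum_congr rfl
    intro i _
    rw [map_mul, map_pow, Fermat.Agent.S28_KEYREP.incL_aeval,
      Fermat.Agent.S28_KEYREP.incL_jqModC, Fermat.Agent.S28_KEYREP.incL_Vser]
  have hreda : redL ℓ a = aeval (jqModC (ZMod ℓ)) (A.map (resR ℓ)) := by
    rw [ha, Fermat.Agent.S28_KEYREP.redL_aeval, Fermat.Agent.S28_KEYREP.redL_jqModC]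
  have hredb : redL ℓ b = ∑ i ∈ Finset.range D.ι,
      aeval (jqModC (ZMod ℓ)) ((B i).map (resR ℓ)) *
        (Vser (ZMod ℓ) (D.k₀ * (D.ι - 1)) D.U) ^ i := by
    rw [hb, map_sum]
    apply Finset.sum_congr rfl
    intro i _
    rw [map_mul, map_pow, Fermat.Agent.S28_KEYREP.redL_aeval,
      Fermat.Agent.S28_KEYREP.redL_jqModC, Fermat.Agent.S28_KEYREP.redL_Vser]
  have hne : redL ℓ a ≠ 0 := by
    rw [hreda]
    intro h0
    exact hA ((transcendental_iff_injective.mp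
      (Fermat.Agent.S18_helper13_FIN.S18FIN_transcendental (ZMod ℓ)))
      (by rw [h0, map_zero]))
  have hrel : incL ℓ a * y = incL ℓ b := by rw [hinca, hincb, hid]
  rw [redFun_eq ℓ hne hrel, hreda, hredb]
  refine div_mem ?_ (S37KV_aeval_mem (ZMod ℓ) N _)
  refine sum_mem fun i _ => mul_mem (S37KV_aeval_mem (ZMod ℓ) N _) (pow_mem hV i)

/-- the hypothesis `hκ` of helper20's `S37KBC_kappa*` -/
theorem S37KV_hκ (N ℓ : ℕ) [NeZero N] [Fact ℓ.Prime] (hℓN : ¬ ℓ ∣ N) (D : UnitData N)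
    (hV : Vser (ZMod ℓ) (D.k₀ * (D.ι - 1)) D.U ∈ modularFunctionFieldFullC (ZMod ℓ) N) :
    ∀ x ∈ chartAlgFin N ℓ,
      redFun ℓ ((x : ↥(modularFunctionFieldFull N)) : LaurentSeries ℚ) ∈
        modularFunctionFieldFullC (ZMod ℓ) N :=
  fun x hx => S37KV_redFun_mem N ℓ hℓN D hV _ x.2 (hA_fin N ℓ x hx)

/-- **KAPPA for the carriers `S18K_*` from `V̄ ∈ F_{𝔽_ℓ}`** (contract shape of B1-KAPPA). -/
theorem S37KV_kappa (N : ℕ) [NeZero N] {ℓ : ℕ} [Fact ℓ.Prime]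
    (A : ValuationSubring (AlgebraicClosure ℚ)) (hA : A.LiesOverPrime ℓ) (hℓN : ¬ ℓ ∣ N)
    (D : UnitData N)
    (hV : Vser (ZMod ℓ) (D.k₀ * (D.ι - 1)) D.U ∈ modularFunctionFieldFullC (ZMod ℓ) N)
    (K1 : IntermediateField ℚ (AlgebraicClosure ℚ)) (h : S18K_Admissible A K1 ℓ) :
    letI := h.dvr
    ∀ y ∈ S18K_V A K1 N,
      (S18K_D A K1).redFun y ∈ modularFunctionFieldFullC (IsLocalRing.ResidueField A) N :=
  Fermat.Agent.S37_helper20_KAPPABC.S37KBC_kappaK_admissible N A hA hℓN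
    (S37KV_hκ N ℓ hℓN D hV) K1 h

end Fermat.Agent.S37_helper24_KAPPAV
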