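import Mathlib
import Fermat.Agent.S37_helper4_B1Defs2
import Fermat.Agent.S37_helper15_HEXF
import Fermat.Agent.S37_helper2_SPFIB
import Fermat.Agent.S37_helper27_KAPPA
import Fermat.Agent.S18_helper14_SETUP
import Fermat.Agent.S18_helper26_PLACE
import Fermat.Agent.S18_helper26_CONST
import Fermat.Agent.S24_helper6_A2

/-!
# S37, block B1, fact (F6), sub-fact (ex): existence of the centre (helper27)

Let `K1` be an admissible level, `P` a `K1`-rational place of `F = ℚ̄(X₀(N))` and `(X, x)` one of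
the two charts (`x = j`, `X = S18K_A0`, or `x = 1/j`, `X = S18K_Ainf`).  If `x` is regular at `P`
and its value at `P` lies in `A`, there is a place `Q` of the special fibre `F_k` at which `P` is
centred on the chart `X` (`S37B1_Centred`).

* `S37EX_exists_place`           : abstract: a proper ideal of a subring of a function field is
  contained in the maximal ideal of a place containing the subring;
* `S37EX_exists_centred_chart`   : the generic chart form;
* `S37EX_exists_centred_A0`, `S37EX_exists_centred_Ainf` : the two charts, unconditional.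
-/

set_option autoImplicit false
set_option linter.unusedSectionVars false
set_option linter.unusedVariables false
set_option linter.style.haveILetI false

open HahnSeries ModularCurve AlgebraicCurve IntermediateField IsLocalRing
open Fermat.Agent.S18_helper9_CDefs Fermat.Agent.S18_helper25_COREDefs
  Fermat.Agent.S18_helper13_GAUSS Fermat.Agent.S18_helper19_PLACEMOD
  Fermat.Agent.S37_helper4_B1Defs Fermat.Agent.S37_helper5_LEVEL
  Fermat.Agent.S37_helper2_SPFIB Fermat.Agent.S37_helper15_HEXF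

noncomputable section

namespace Fermat.Agent.S37_helper27_EX

/-! ### Abstract part: places from proper ideals -/

section Abstract

variable {k F : Type*} [Field k] [Field F] [Algebra k F]

theorem S37EX_adjoin_sub (x : F) (c : k) : k⟮x - algebraMap k F c⟯ = k⟮x⟯ := by
  apply le_antisymm
  · rw [IntermediateField.adjoin_simple_le_iff]
    exact sub_mem (IntermediateField.mem_adjoin_simple_self k x)
      (IntermediateField.algebraMap_mem _ c)
  · rw [IntermediateField.adjoin_simple_le_iff]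
    have h : x = (x - algebraMap k F c) + algebraMap k F c := by ring
    rw [h]
    exact add_mem (by rw [← h]; exact IntermediateField.mem_adjoin_simple_self k _)
      (by rw [← h]; exact IntermediateField.algebraMap_mem _ c)

theorem S37EX_finiteDimensional_sub (x : F) (c : k) [h : FiniteDimensional k⟮x⟯ F] :
    FiniteDimensional k⟮x - algebraMap k F c⟯ F := by
  rw [S37EX_adjoin_sub]; exact h

theorem S37EX_transcendental_sub (x : F) (c : k) (hx : Transcendental k x) :
    Transcendental k (x - algebraMap k F c) := by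
  intro h
  apply hx
  have h1 : x = (x - algebraMap k F c) + algebraMap k F c := by ring
  rw [h1]
  exact h.add (isAlgebraic_algebraMap c)

/-- a nonzero element of the maximal ideal of a place has positive order -/
theorem S37EX_ord_pos_of_mem_nonunits (Q : Place k F) {w : F}
    (hw : w ∈ Q.toValuationSubring.nonunits) (h0 : w ≠ 0) : 0 < Q.ord w := by
  have hv : Q.toValuationSubring.valuation w < 1 := (Q.toValuationSubring.mem_nonunits_iff).1 hw
  have hmem : w ∈ Q.toValuationSubring := (Q.toValuationSubring.valuation_le_one_iff _).1 hv.le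
  have h1 : 0 ≤ Q.ord w := Fermat.Agent.S24_helper6_A2.ord_nonneg_of_mem Q hmem
  rcases h1.lt_or_eq with h | h
  · exact h
  · exfalso
    have h2 : 0 ≤ Q.ord w⁻¹ := by rw [Place.ord_inv, ← h]; simp
    have h3 : w⁻¹ ∈ Q.toValuationSubring := Fermat.Agent.S24_helper6_A2.mem_of_ord_nonneg Q h2
    have h4 : Q.toValuationSubring.valuation w⁻¹ ≤ 1 :=
      (Q.toValuationSubring.valuation_le_one_iff _).2 h3
    have h5 : Q.toValuationSubring.valuation w * Q.toValuationSubring.valuation w⁻¹ = 1 := by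
      rw [← map_mul, mul_inv_cancel₀ h0, map_one]
    have h6 : Q.toValuationSubring.valuation w * Q.toValuationSubring.valuation w⁻¹ < 1 := by
      calc Q.toValuationSubring.valuation w * Q.toValuationSubring.valuation w⁻¹
          ≤ Q.toValuationSubring.valuation w * 1 := by gcongr
        _ = Q.toValuationSubring.valuation w := mul_one _
        _ < 1 := hv
    rw [h5] at h6
    exact lt_irrefl _ h6

/-- A proper ideal `I` of a subring `B ⊇ k` of a function field `F / k` which contains an element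
`t` transcendental over `k` (with `F` finite over `k(t)`) is contained in the maximal ideal of a
place whose valuation ring contains `B`.  Any characteristic. -/
theorem S37EX_exists_place (B : Subring F) (I : Ideal B) (hI : I ≠ ⊤)
    (hk : ∀ c : k, algebraMap k F c ∈ B)
    (t : F) (htB : t ∈ B) (htI : (⟨t, htB⟩ : B) ∈ I) (ht : Transcendental k t)
    [FiniteDimensional k⟮t⟯ F] :
    ∃ Q : Place k F, (∀ b ∈ B, b ∈ Q.toValuationSubring) ∧
      ∀ b : B, b ∈ I → (b : F) ∈ Q.toValuationSubring.nonunits := by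
  obtain ⟨V, hBV, hIV⟩ := Ideal.image_subset_nonunits_valuationSubring I hI
  have hkV : ∀ c : k, algebraMap k F c ∈ V := fun c => hBV (hk c)
  have htV : t ∈ V.nonunits := hIV ⟨⟨t, htB⟩, htI, rfl⟩
  have htval : V.valuation t < 1 := (V.mem_nonunits_iff).1 htV
  have ht0 : t ≠ 0 := by
    rintro rfl
    exact ht ⟨Polynomial.X, Polynomial.X_ne_zero, by simp⟩
  have hne : V ≠ ⊤ := by
    rintro rfl
    have h1 : (⊤ : ValuationSubring F).valuation t⁻¹ ≤ 1 :=
      ((⊤ : ValuationSubring F).valuation_le_one_iff _).2 (ValuationSubring.mem_top _)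
    have h5 : (⊤ : ValuationSubring F).valuation t *
        (⊤ : ValuationSubring F).valuation t⁻¹ = 1 := by
      rw [← map_mul, mul_inv_cancel₀ ht0, map_one]
    have h6 : (⊤ : ValuationSubring F).valuation t *
        (⊤ : ValuationSubring F).valuation t⁻¹ < 1 := by
      calc (⊤ : ValuationSubring F).valuation t * (⊤ : ValuationSubring F).valuation t⁻¹
          ≤ (⊤ : ValuationSubring F).valuation t * 1 := by gcongr
        _ = (⊤ : ValuationSubring F).valuation t := mul_one _
        _ < 1 := htval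
    rw [h5] at h6
    exact lt_irrefl _ h6
  refine ⟨⟨V, hkV, hne,
    Fermat.Agent.S18_helper26_PLACE.S18P15_isPrincipalIdealRing V hkV t ht htval⟩, ?_, ?_⟩
  · intro b hb
    exact hBV hb
  · intro b hb
    exact hIV ⟨b, hb, rfl⟩

end Abstract

/-! ### The local ring of a place of the generic fibre, at level `K1` -/

section Concrete

local notation "Qb" => AlgebraicClosure ℚ

set_option synthInstance.maxHeartbeats 400000
set_option maxHeartbeats 1600000

variable (N : ℕ) [NeZero N] (K1 : IntermediateField ℚ Qb)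

/-- the elements of `F1` which are regular at `P` -/
def S37EX_RP (P : Place Qb (modularFunctionFieldBar N)) : Subring (LaurentSeries K1) :=
  (P.toValuationSubring.toSubring.comap (S18A3C_inc N (algebraMap K1 Qb))).map
    (modularFunctionFieldFullC K1 N).toSubfield.toSubring.subtype

theorem S37EX_mem_RP (P : Place Qb (modularFunctionFieldBar N)) (y : LaurentSeries K1) :
    y ∈ S37EX_RP N K1 P ↔ ∃ h : y ∈ modularFunctionFieldFullC K1 N,
      S18A3C_inc N (algebraMap K1 Qb) ⟨y, h⟩ ∈ P.toValuationSubring := by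
  constructor
  · rintro ⟨z, hz, rfl⟩
    exact ⟨z.2, hz⟩
  · rintro ⟨h, hy⟩
    exact ⟨⟨y, h⟩, hy, rfl⟩

theorem S37EX_RP_le (P : Place Qb (modularFunctionFieldBar N)) :
    ∀ y ∈ S37EX_RP N K1 P, y ∈ modularFunctionFieldFullC K1 N := fun y hy =>
  ((S37EX_mem_RP N K1 P y).1 hy).1

theorem S37EX_RP_nonneg (P : Place Qb (modularFunctionFieldBar N)) :
    ∀ y ∈ S37EX_RP N K1 P, y ≠ 0 → 0 ≤ S37B1_ordP N K1 P y := by
  intro y hy _
  obtain ⟨h, hy'⟩ := (S37EX_mem_RP N K1 P y).1 hy
  rw [S37B1_ordP_eq N K1 P ⟨y, h⟩]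
  exact Fermat.Agent.S24_helper6_A2.ord_nonneg_of_mem P hy'

theorem S37EX_mem_RP_of_nonneg (P : Place Qb (modularFunctionFieldBar N)) (y : LaurentSeries K1)
    (h : y ∈ modularFunctionFieldFullC K1 N) (hy : 0 ≤ S37B1_ordP N K1 P y) :
    y ∈ S37EX_RP N K1 P := by
  refine (S37EX_mem_RP N K1 P y).2 ⟨h, ?_⟩
  rw [S37B1_ordP_eq N K1 P ⟨y, h⟩] at hy
  exact Fermat.Agent.S24_helper6_A2.mem_of_ord_nonneg P hy

theorem S37EX_C_mem_RP (P : Place Qb (modularFunctionFieldBar N)) (c : K1) :
    (HahnSeries.C c : LaurentSeries K1) ∈ S37EX_RP N K1 P := by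
  have h : (HahnSeries.C c : LaurentSeries K1) ∈ modularFunctionFieldFullC K1 N := by
    rw [Fermat.Agent.S18_helper26_CONST.S18P15_C_eq_algebraMap]
    exact (modularFunctionFieldFullC K1 N).algebraMap_mem c
  refine (S37EX_mem_RP N K1 P _).2 ⟨h, ?_⟩
  rw [S37HEXF_inc_C N (algebraMap K1 Qb) c h]
  exact P.algebraMap_mem' _


/-! ### The generic chart form -/

section Chart

variable {N K1}
variable (A : ValuationSubring Qb) [IsDiscreteValuationRing (S18K_O1 A K1)]
  (hκ : ∀ y ∈ S18K_V A K1 N, (S18K_D A K1).redFun y ∈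
      modularFunctionFieldFullC (ResidueField A) N)
  (S : Setup (S18K_O A K1) (S18K_π A K1) (S18K_j K1) (S18K_F1 K1 N) (S18K_V A K1 N)
      (S18K_A0 A K1 N) (S18K_Ainf A K1 N))
  (hres : Function.Surjective (S18K_res A K1))
  {x : LaurentSeries K1} {X : Subring (LaurentSeries K1)}
  (hC : Chart (S18K_O A K1) (S18K_π A K1) x (S18K_F1 K1 N) (S18K_V A K1 N) X)
  (hx : x = S18K_j K1 ∨ x = (S18K_j K1)⁻¹)
  (P : Place Qb (modularFunctionFieldBar N))

include S hC hx in
/-- **Step 1**: the chart is regular at `P` as soon as its coordinate is. -/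
theorem S37EX_chart_le_RP (hxP : 0 ≤ S37B1_ordP N K1 P x) : X ≤ S37EX_RP N K1 P := by
  have hxF : x ∈ modularFunctionFieldFullC K1 N := gx_mem_F (D := S18K_D A K1) (N := N) S hx
  have hOR : S18K_O A K1 ≤ S37EX_RP N K1 P := by
    rintro c ⟨c1, hc1, rfl⟩
    exact S37EX_C_mem_RP N K1 P c1
  have hxR : x ∈ S37EX_RP N K1 P := S37EX_mem_RP_of_nonneg N K1 P x hxF hxP
  have hadj : adj (S18K_O A K1) x ≤ S37EX_RP N K1 P := by
    rw [adj, Subring.closure_le]
    rintro y (hy | hy)
    · exact hOR hy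
    · rw [Set.mem_singleton_iff] at hy
      subst hy
      exact hxR
  intro a ha
  obtain ⟨hint, haF⟩ := (hC.mem_iff a).1 ha
  refine (S37EX_mem_RP N K1 P a).2 ⟨haF, ?_⟩
  -- integrality over `O[x]`, transported to `F`
  let F1s : Subring (LaurentSeries K1) := (modularFunctionFieldFullC K1 N).toSubfield.toSubring
  have hF1s : ∀ y ∈ F1s, y ∈ modularFunctionFieldFullC K1 N := fun y hy => hy
  let ι : F1s →+* modularFunctionFieldBar N :=
    (S18A3C_inc N (algebraMap K1 Qb)).comp (S37HEXF_incl N F1s hF1s)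
  have hle : adj (S18K_O A K1) x ≤ F1s := fun y hy => S37EX_RP_le N K1 P y (hadj hy)
  have hB : ∀ b : adj (S18K_O A K1) x, ι ⟨b, hle b.2⟩ ∈ P.toValuationSubring := fun b =>
    ((S37EX_mem_RP N K1 P b).1 (hadj b.2)).2
  exact mem_W_of_isIntegral (red := ι) (W := P.toValuationSubring) hle hB (a := a) haF hint

include S hres hC hx hκ in
/-- **(ex), generic chart form.**  If the coordinate `x` of the chart `X` is regular at the
`K1`-rational place `P`, with value in `A`, then `P` is centred at some place `Q` of `F_k` on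
the chart `X`. -/
theorem S37EX_exists_centred_chart (hP : S37LEVEL_IsRational N K1 P)
    (hxP : 0 ≤ S37B1_ordP N K1 P x)
    (hxA : ∀ c : K1, (0 < S37B1_ordP N K1 P (x - HahnSeries.C c) ∨ x = HahnSeries.C c) →
      (c : Qb) ∈ A) :
    ∃ Q : Place (ResidueField A) (modularFunctionFieldFullC (ResidueField A) N),
      S37B1_Centred N A K1 X P Q := by
  classical
  have hxF : x ∈ modularFunctionFieldFullC K1 N := gx_mem_F (D := S18K_D A K1) (N := N) S hx
  have hXF : ∀ a ∈ X, a ∈ modularFunctionFieldFullC K1 N := fun a ha => ((hC.mem_iff a).1 ha).2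
  have hOX : S18K_O A K1 ≤ X := Os_le_chart (D := S18K_D A K1) (N := N) hC S37SPF_hOs hxF
  have hxX : x ∈ X := x_mem_chart (D := S18K_D A K1) (N := N) hC S37SPF_hOs hxF
  have hadjX : adj (S18K_O A K1) x ≤ X :=
    adj_le_chart (D := S18K_D A K1) (N := N) hC S37SPF_hOs hxF
  have hXR : X ≤ S37EX_RP N K1 P := S37EX_chart_le_RP A S hC hx P hxP
  -- Step 2: the value map on the local ring of `P`
  obtain ⟨ψ, hψC, hψ0⟩ := S37HEXF_F1 N K1 P hP (S37EX_RP N K1 P) (S37EX_RP_le N K1 P)
    (S37EX_RP_nonneg N K1 P)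
  let ψX : X →+* K1 := ψ.comp (Subring.inclusion hXR)
  -- Step 3: the values of the chart lie in `O1`
  have hψO : ∀ c : S18K_O A K1, ψX ⟨c, hOX c.2⟩ ∈ S18K_O1 A K1 := by
    rintro ⟨c, c1, hc1, rfl⟩
    have : ψX ⟨HahnSeries.C c1, hOX ⟨c1, hc1, rfl⟩⟩ = c1 := hψC c1 _
    rw [this]
    exact hc1
  have hψx : ψX ⟨x, hxX⟩ ∈ S18K_O1 A K1 := by
    apply hxA
    have hmem : x - HahnSeries.C (ψX ⟨x, hxX⟩) ∈ S37EX_RP N K1 P :=
      (S37EX_RP N K1 P).sub_mem (hXR hxX) (S37EX_C_mem_RP N K1 P _)
    have hval : ψ ⟨x - HahnSeries.C (ψX ⟨x, hxX⟩), hmem⟩ = 0 := by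
      have h1 : (⟨x - HahnSeries.C (ψX ⟨x, hxX⟩), hmem⟩ : S37EX_RP N K1 P) =
          ⟨x, hXR hxX⟩ - ⟨HahnSeries.C (ψX ⟨x, hxX⟩), S37EX_C_mem_RP N K1 P _⟩ := rfl
      rw [h1, map_sub, hψC]
      exact sub_self _
    by_cases h0 : x - HahnSeries.C (ψX ⟨x, hxX⟩) = 0
    · exact Or.inr (sub_eq_zero.1 h0)
    · exact Or.inl ((hψ0 ⟨_, hmem⟩ h0).1 hval)
  have hψmem : ∀ a : X, ψX a ∈ S18K_O1 A K1 := by
    intro a
    obtain ⟨hle, hadj⟩ := red_adj_mem (red := ψX) (W := S18K_O1 A K1) hOX hxX hψO hψx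
    exact mem_W_of_isIntegral (red := ψX) (W := S18K_O1 A K1) hle hadj
      (a := (a : LaurentSeries K1)) a.2
      ((hC.mem_iff a).1 a.2).1
  -- Step 4: the residue map of `P` on the chart, and its kernel
  let ψO : X →+* S18K_O1 A K1 := RingHom.codRestrict ψX (S18K_O1 A K1) hψmem
  let ε : X →+* ResidueField A := (S18K_res A K1).comp ψO
  let M : Ideal X := RingHom.ker ε
  have hCX : ∀ c : S18K_O1 A K1, (HahnSeries.C (c : K1) : LaurentSeries K1) ∈ X := fun c =>
    hOX ⟨c, c.2, rfl⟩
  have hεC : ∀ c : S18K_O1 A K1, ε ⟨HahnSeries.C (c : K1), hCX c⟩ = S18K_res A K1 c := by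
    intro c
    show S18K_res A K1 (ψO ⟨HahnSeries.C (c : K1), hCX c⟩) = S18K_res A K1 c
    congr 1
    apply Subtype.ext
    exact hψC (c : K1) _
  -- the Gauss reduction on the chart
  let ρ : X →+* modularFunctionFieldFullC (ResidueField A) N :=
    (S37SPF_red N A K1 hκ).comp (Subring.inclusion hC.le_V)
  have hρC : ∀ c : S18K_O1 A K1, ρ ⟨HahnSeries.C (c : K1), hCX c⟩ =
      algebraMap (ResidueField A) (modularFunctionFieldFullC (ResidueField A) N)
        (S18K_res A K1 c) := by
    intro c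
    have hmem : (S18K_D A K1).incS (HahnSeries.C c) ∈ S18K_V A K1 N := by
      rw [incS_C]
      exact hC.le_V (hCX c)
    have h := gred_const (D := S18K_D A K1) (N := N) hκ c hmem
    have h1 : ρ ⟨HahnSeries.C (c : K1), hCX c⟩ =
        gred (S18K_D A K1) N hκ ⟨(S18K_D A K1).incS (HahnSeries.C c), hmem⟩ := by
      apply Subtype.ext
      show (S18K_D A K1).redFun (HahnSeries.C (c : K1)) =
        (S18K_D A K1).redFun ((S18K_D A K1).incS (HahnSeries.C c))
      rw [incS_C]
      rfl
    rw [h1, h]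
    rfl
  have hπX : (S18K_D A K1).πK ∈ X := hCX (S18K_D A K1).π
  have hεπ : ε ⟨(S18K_D A K1).πK, hπX⟩ = 0 := by
    have h := hεC (S18K_D A K1).π
    have h2 : S18K_res A K1 (S18K_D A K1).π = 0 := (S18K_D A K1).res_π
    rw [h2] at h
    exact h
  have hker : ∀ a : X, ρ a = 0 → ε a = 0 := by
    intro a ha
    obtain ⟨w, hw, haw⟩ := (gred_ker (D := S18K_D A K1) (N := N) hκ ⟨a, hC.le_V a.2⟩).1 ha
    have hwX : w ∈ X := hC.sat w hw (by
      show (S18K_D A K1).πK * w ∈ X
      rw [← haw]
      exact a.2)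
    have h1 : a = ⟨(S18K_D A K1).πK, hπX⟩ * ⟨w, hwX⟩ := Subtype.ext haw
    rw [h1, map_mul, hεπ, zero_mul]
  let B : Subring (modularFunctionFieldFullC (ResidueField A) N) := ρ.range
  let I : Ideal B := Ideal.map ρ.rangeRestrict M
  have hI : I ≠ ⊤ := by
    intro h
    have h1 : (1 : B) ∈ I := by rw [h]; trivial
    obtain ⟨m, hm, hm1⟩ :=
      (Ideal.mem_map_iff_of_surjective ρ.rangeRestrict ρ.rangeRestrict_surjective).1 h1
    have h2 : ρ (m - 1) = 0 := by
      have h3 : ρ m = 1 := congrArg (fun b : B =>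
        (b : modularFunctionFieldFullC (ResidueField A) N)) hm1
      rw [map_sub, map_one, h3, sub_self]
    have h3 := hker _ h2
    rw [map_sub, map_one, (RingHom.mem_ker).1 hm, zero_sub, neg_eq_zero] at h3
    exact one_ne_zero h3
  have hk : ∀ c : ResidueField A,
      algebraMap (ResidueField A) (modularFunctionFieldFullC (ResidueField A) N) c ∈ B := by
    intro c
    obtain ⟨a, rfl⟩ := hres c
    exact ⟨⟨HahnSeries.C (a : K1), hCX a⟩, hρC a⟩
  -- the element `x - x(P)` of the kernel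
  let y : X := ⟨x, hxX⟩ - ⟨HahnSeries.C ((ψO ⟨x, hxX⟩ : S18K_O1 A K1) : K1), hCX _⟩
  have hyM : y ∈ M := by
    rw [RingHom.mem_ker, map_sub, hεC]
    exact sub_self _
  have hρy : ρ y = ρ ⟨x, hxX⟩ -
      algebraMap (ResidueField A) (modularFunctionFieldFullC (ResidueField A) N)
        (S18K_res A K1 (ψO ⟨x, hxX⟩)) := by
    rw [map_sub, hρC]
  have htr : Transcendental (ResidueField A) (ρ y) ∧
      FiniteDimensional (ResidueField A)⟮ρ y⟯
        (modularFunctionFieldFullC (ResidueField A) N) := by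
    rw [hρy]
    rcases hx with hx | hx
    · have h1 : ρ ⟨x, hxX⟩ =
          Fermat.Agent.S18_helper26_CONST.S18P15_jbar (ResidueField A) N := by
        subst hx
        exact S37SPF_red_j hκ _
      rw [h1]
      haveI := Fermat.Agent.S18_helper26_CONST.S18P15_finiteDimensional (ResidueField A) N
      exact ⟨S37EX_transcendental_sub _ _
        (Fermat.Agent.S18_helper26_CONST.S18P15_transcendental_jbar (ResidueField A) N),
        S37EX_finiteDimensional_sub _ _⟩
    · have h1 : ρ ⟨x, hxX⟩ =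
          (Fermat.Agent.S18_helper26_CONST.S18P15_jbar (ResidueField A) N)⁻¹ := by
        subst hx
        exact S37SPF_red_j_inv hκ (S37SPF_j_mem_V S) _
      rw [h1]
      haveI := Fermat.Agent.S18_helper26_CONST.S18P15_finiteDimensional (ResidueField A) N
      haveI : FiniteDimensional
          (ResidueField A)⟮(Fermat.Agent.S18_helper26_CONST.S18P15_jbar (ResidueField A) N)⁻¹⟯
          (modularFunctionFieldFullC (ResidueField A) N) :=
        Fermat.Agent.S24_helper6_A2.finiteDimensional_adjoin_inv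
          (Fermat.Agent.S18_helper26_CONST.S18P15_jbar (ResidueField A) N)
      have htr : Transcendental (ResidueField A)
          (Fermat.Agent.S18_helper26_CONST.S18P15_jbar (ResidueField A) N)⁻¹ := by
        intro h
        exact Fermat.Agent.S18_helper26_CONST.S18P15_transcendental_jbar (ResidueField A) N
          (by simpa using h.inv)
      exact ⟨S37EX_transcendental_sub _ _ htr, S37EX_finiteDimensional_sub _ _⟩
  obtain ⟨ht, hfd⟩ := htr
  obtain ⟨Q, hQB, hQI⟩ := S37EX_exists_place B I hI hk (ρ y) ⟨y, rfl⟩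
    (Ideal.mem_map_of_mem ρ.rangeRestrict hyM) ht
  refine ⟨Q, ?_⟩
  intro a ha ha0
  refine ⟨S37EX_RP_nonneg N K1 P a (hXR ha) ha0, fun hpos => ?_⟩
  have h1 : ψ ⟨a, hXR ha⟩ = 0 := (hψ0 ⟨a, hXR ha⟩ ha0).2 hpos
  have h2 : (⟨a, ha⟩ : X) ∈ M := by
    rw [RingHom.mem_ker]
    show S18K_res A K1 (ψO ⟨a, ha⟩) = 0
    have h3 : ψO ⟨a, ha⟩ = 0 := Subtype.ext h1
    rw [h3, map_zero]
  have h3 := hQI (ρ.rangeRestrict ⟨a, ha⟩) (Ideal.mem_map_of_mem ρ.rangeRestrict h2)
  by_cases h0 : (S18K_D A K1).redFun a = 0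
  · exact Or.inl h0
  · right
    have h4 : S37B1_ordQ N Q ((S18K_D A K1).redFun a) = Q.ord (ρ ⟨a, ha⟩) :=
      S37B1_ordQ_eq N Q (ρ ⟨a, ha⟩)
    rw [h4]
    refine S37EX_ord_pos_of_mem_nonunits Q h3 (fun h => h0 ?_)
    exact congrArg (fun z : modularFunctionFieldFullC (ResidueField A) N =>
      (z : LaurentSeries (ResidueField A))) h

end Chart

/-! ### The two charts, unconditional -/

section Final

variable {N K1}

/-- **(ex) on the chart `j ≠ ∞`.**  `K1` admissible, `P` a `K1`-rational place at which `j` is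
regular with value in `A`: `P` is centred at a place `Q` of `F_k` on the chart `S18K_A0`. -/
theorem S37EX_exists_centred_A0 {ℓ : ℕ} (hℓ : ℓ.Prime) (A : ValuationSubring Qb)
    (hA : A.LiesOverPrime ℓ) (hℓN : ¬ ℓ ∣ N) (h : S18K_Admissible A K1 ℓ)
    (P : Place Qb (modularFunctionFieldBar N)) (hP : S37LEVEL_IsRational N K1 P)
    (hj : 0 ≤ S37B1_ordP N K1 P (jqModC K1))
    (hjA : ∀ c : K1, (0 < S37B1_ordP N K1 P (jqModC K1 - HahnSeries.C c) ∨
      jqModC K1 = HahnSeries.C c) → (c : Qb) ∈ A) :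
    letI := h.dvr
    ∃ Q : Place (ResidueField A) (modularFunctionFieldFullC (ResidueField A) N),
      S37B1_Centred N A K1 (S18K_A0 A K1 N) P Q := by
  letI := h.dvr
  haveI : Fact ℓ.Prime := ⟨hℓ⟩
  have hκ := Fermat.Agent.S37_helper27_KAPPA.S37KAPPA_hkappa (N := N) hℓN A hA K1 h
  have S := Fermat.Agent.S18AK.setupK N hℓ A hA hℓN K1
  exact S37EX_exists_centred_chart A hκ S h.res_surj S.chart0 (Or.inl rfl) P hP hj hjA

/-- **(ex) on the chart `j ≠ 0`.**  `K1` admissible, `P` a `K1`-rational place at which `1/j` is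
regular with value in `A`: `P` is centred at a place `Q` of `F_k` on the chart `S18K_Ainf`. -/
theorem S37EX_exists_centred_Ainf {ℓ : ℕ} (hℓ : ℓ.Prime) (A : ValuationSubring Qb)
    (hA : A.LiesOverPrime ℓ) (hℓN : ¬ ℓ ∣ N) (h : S18K_Admissible A K1 ℓ)
    (P : Place Qb (modularFunctionFieldBar N)) (hP : S37LEVEL_IsRational N K1 P)
    (hj : 0 ≤ S37B1_ordP N K1 P (jqModC K1)⁻¹)
    (hjA : ∀ c : K1, (0 < S37B1_ordP N K1 P ((jqModC K1)⁻¹ - HahnSeries.C c) ∨
      (jqModC K1)⁻¹ = HahnSeries.C c) → (c : Qb) ∈ A) :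
    letI := h.dvr
    ∃ Q : Place (ResidueField A) (modularFunctionFieldFullC (ResidueField A) N),
      S37B1_Centred N A K1 (S18K_Ainf A K1 N) P Q := by
  letI := h.dvr
  haveI : Fact ℓ.Prime := ⟨hℓ⟩
  have hκ := Fermat.Agent.S37_helper27_KAPPA.S37KAPPA_hkappa (N := N) hℓN A hA K1 h
  have S := Fermat.Agent.S18AK.setupK N hℓ A hA hℓN K1
  exact S37EX_exists_centred_chart A hκ S h.res_surj S.chartInf (Or.inr rfl) P hP hj hjA

end Final

end Concrete

end Fermat.Agent.S37_helper27_EX
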