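import Mathlib
import Fermat.Agent.S37_helper27_KTHETA
import Fermat.Agent.S28_helper3_NORMARG
import Fermat.Agent.S28_helper2_INDEPC_Order
import Fermat.Agent.S28_helper14_Defs

/-!
# S37 / B1-KAPPA, piece KSEP: separability and the derivation argument

* `S37K_theta_mem_of_isSeparable`: if `θ` maps `K0` into `E · t` and `x ∈ E` is separable over
  `K0`, then `θ x ∈ E · t`.
* `S37K_isSeparable_V`: the modular unit `V` (formal data as in S28 `UnitData`) is separable over
  `k(j)`, in every characteristic.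
* `S37K_DeltaQuot_mem`: `Δ(q^d) / Δ(q) ∈ k(j(q^e) : e ∣ N)` for `d ∣ N`, as soon as `j(q^d)` is
  separable over `k(j)`, `d ≠ 0` in `k` and `(θ j)^6 = j^4 (j - 1728)^3 Δ`.
-/

set_option autoImplicit false
set_option linter.unusedVariables false

open HahnSeries ModularCurve Polynomial IntermediateField
open Fermat.Agent.S37_helper27_KTHETA Fermat.Agent.S28_helper14_Defs

noncomputable section

namespace Fermat.Agent.S37_helper27_KSEP

/-! ### The abstract derivation lemma -/

section Abstract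

variable {k L : Type*} [Field k] [Field L] [Algebra k L]

theorem S37K_aeval_mem (K0 E : IntermediateField k L) (hKE : K0 ≤ E) {x : L} (hxE : x ∈ E)
    (P : Polynomial K0) : Polynomial.aeval x P ∈ E := by
  rw [Polynomial.aeval_eq_sum_range]
  refine sum_mem fun i _ => ?_
  rw [Algebra.smul_def]
  exact mul_mem (hKE (P.coeff i).2) (pow_mem hxE i)

theorem S37K_exists_theta_aeval (θ : L →+ L) (hθ : ∀ a b, θ (a * b) = θ a * b + a * θ b)
    (K0 E : IntermediateField k L) (hKE : K0 ≤ E) (t : L)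
    (hK0 : ∀ c ∈ K0, ∃ e ∈ E, θ c = e * t) {x : L} (hxE : x ∈ E) (P : Polynomial K0) :
    ∃ e ∈ E, θ (Polynomial.aeval x P) =
      e * t + Polynomial.aeval x (Polynomial.derivative P) * θ x := by
  induction P using Polynomial.induction_on with
  | C a =>
    obtain ⟨e, he, h⟩ := hK0 (a : L) a.2
    refine ⟨e, he, ?_⟩
    rw [Polynomial.aeval_C, Polynomial.derivative_C, map_zero, zero_mul, add_zero]
    exact h
  | add p q hp hq =>
    obtain ⟨e1, he1, h1⟩ := hp
    obtain ⟨e2, he2, h2⟩ := hq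
    refine ⟨e1 + e2, add_mem he1 he2, ?_⟩
    rw [map_add, map_add, h1, h2, Polynomial.derivative_add, map_add]
    ring
  | monomial n a h =>
    obtain ⟨e, he, h1⟩ := h
    refine ⟨e * x, mul_mem he hxE, ?_⟩
    have e1 : (Polynomial.C a * Polynomial.X ^ (n + 1) : Polynomial K0) =
        (Polynomial.C a * Polynomial.X ^ n) * Polynomial.X := by
      rw [pow_succ, mul_assoc]
    have e2 : Polynomial.derivative (Polynomial.C a * Polynomial.X ^ (n + 1) : Polynomial K0) =
        Polynomial.derivative (Polynomial.C a * Polynomial.X ^ n) * Polynomial.X +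
          Polynomial.C a * Polynomial.X ^ n := by
      rw [e1, Polynomial.derivative_mul, Polynomial.derivative_X, mul_one]
    have e3 : Polynomial.aeval x (Polynomial.C a * Polynomial.X ^ (n + 1) : Polynomial K0) =
        Polynomial.aeval x (Polynomial.C a * Polynomial.X ^ n : Polynomial K0) * x := by
      rw [e1, map_mul, Polynomial.aeval_X]
    have e4 : Polynomial.aeval x
        (Polynomial.derivative (Polynomial.C a * Polynomial.X ^ (n + 1) : Polynomial K0)) =
        Polynomial.aeval x (Polynomial.derivative (Polynomial.C a * Polynomial.X ^ n)) * x +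
          Polynomial.aeval x (Polynomial.C a * Polynomial.X ^ n : Polynomial K0) := by
      rw [e2, _root_.map_add (Polynomial.aeval x), _root_.map_mul (Polynomial.aeval x),
        Polynomial.aeval_X]
    rw [e3, hθ, h1, e4]
    ring

/-- If `θ` is a derivation with `θ K0 ⊆ E t` and `x ∈ E` is separable over `K0`, then
`θ x ∈ E t`. -/
theorem S37K_theta_mem_of_isSeparable (θ : L →+ L)
    (hθ : ∀ a b, θ (a * b) = θ a * b + a * θ b)
    (K0 E : IntermediateField k L) (hKE : K0 ≤ E) (t : L)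
    (hK0 : ∀ c ∈ K0, ∃ e ∈ E, θ c = e * t) {x : L} (hxE : x ∈ E)
    (hsep : IsSeparable K0 x) : ∃ e ∈ E, θ x = e * t := by
  have h0 : Polynomial.aeval x (minpoly K0 x) = 0 := minpoly.aeval K0 x
  have h1 : Polynomial.aeval x (Polynomial.derivative (minpoly K0 x)) ≠ 0 :=
    Polynomial.Separable.aeval_derivative_ne_zero hsep h0
  obtain ⟨e, he, h⟩ := S37K_exists_theta_aeval θ hθ K0 E hKE t hK0 hxE (minpoly K0 x)
  rw [h0, map_zero] at h
  set m' := Polynomial.aeval x (Polynomial.derivative (minpoly K0 x)) with hm'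
  have hm'E : m' ∈ E := S37K_aeval_mem K0 E hKE hxE _
  refine ⟨-(e * m'⁻¹), neg_mem (mul_mem he (inv_mem hm'E)), ?_⟩
  have h2 : m' * θ x = -(e * t) := by
    rw [eq_neg_iff_add_eq_zero, add_comm]
    exact h.symm
  calc θ x = m'⁻¹ * (m' * θ x) := by rw [← mul_assoc, inv_mul_cancel₀ h1, one_mul]
    _ = -(e * m'⁻¹) * t := by rw [h2]; ring

/-- An element with a polynomial relation whose derivative does not vanish is separable. -/
theorem S37K_isSeparable_of_aeval_derivative_ne_zero (K0 : IntermediateField k L) {x : L}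
    (P : Polynomial K0) (h0 : Polynomial.aeval x P = 0)
    (h1 : Polynomial.aeval x (Polynomial.derivative P) ≠ 0) : IsSeparable K0 x := by
  have hP : P ≠ 0 := by
    rintro rfl
    simp at h1
  have hint : IsIntegral K0 x := isAlgebraic_iff_isIntegral.mp ⟨P, hP, h0⟩
  obtain ⟨g, hg⟩ := minpoly.dvd K0 x h0
  have h2 : Polynomial.aeval x (Polynomial.derivative (minpoly K0 x)) ≠ 0 := by
    intro h
    apply h1
    rw [hg, Polynomial.derivative_mul, map_add, map_mul, map_mul, h, minpoly.aeval, zero_mul,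
      zero_mul, add_zero]
  have h3 : Polynomial.derivative (minpoly K0 x) ≠ 0 := by
    intro h
    rw [h, map_zero] at h2
    exact h2 rfl
  exact (Polynomial.separable_iff_derivative_ne_zero (minpoly.irreducible hint)).mpr h3

end Abstract

/-! ### The field `k(j)` -/

section Kj

variable (k : Type*) [Field k]

/-- `θ` as an additive map satisfies Leibniz -/
theorem S37K_theta_leibniz (a b : LaurentSeries k) :
    S37K_theta k (a * b) = S37K_theta k a * b + a * S37K_theta k b :=
  S37K_theta_mul a b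

theorem S37K_theta_algebraMap (c : k) :
    S37K_theta k (algebraMap k (LaurentSeries k) c) = 0 := by
  rw [algebraMap_laurentSeries_eq_single, S37K_theta_single, Int.cast_zero, zero_mul,
    HahnSeries.single_eq_zero]

/-- `θ` maps `k(x)` into `k(x) · θ x`. -/
theorem S37K_theta_adjoin_simple (x : LaurentSeries k) :
    ∀ c ∈ k⟮x⟯, ∃ e ∈ k⟮x⟯, S37K_theta k c = e * S37K_theta k x := by
  intro c hc
  induction hc using IntermediateField.adjoin_induction with
  | mem y hy =>
    rw [Set.mem_singleton_iff] at hy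
    subst hy
    exact ⟨1, one_mem _, (one_mul _).symm⟩
  | algebraMap y =>
    exact ⟨0, zero_mem _, by rw [S37K_theta_algebraMap, zero_mul]⟩
  | add y z hy hz h1 h2 =>
    obtain ⟨e1, he1, h1⟩ := h1
    obtain ⟨e2, he2, h2⟩ := h2
    exact ⟨e1 + e2, add_mem he1 he2, by rw [map_add, h1, h2, add_mul]⟩
  | inv y hy h1 =>
    obtain ⟨e1, he1, h1⟩ := h1
    by_cases hy0 : y = 0
    · subst hy0
      exact ⟨0, zero_mem _, by rw [inv_zero, map_zero, zero_mul]⟩
    · refine ⟨-e1 * (y⁻¹) ^ 2, mul_mem (neg_mem he1) (pow_mem (inv_mem hy) 2), ?_⟩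
      rw [S37K_theta_inv y hy0, h1]
      ring
  | mul y z hy hz h1 h2 =>
    obtain ⟨e1, he1, h1⟩ := h1
    obtain ⟨e2, he2, h2⟩ := h2
    refine ⟨e1 * z + y * e2, add_mem (mul_mem he1 hz) (mul_mem hy he2), ?_⟩
    rw [S37K_theta_mul, h1, h2]
    ring

theorem S37K_aeval_mem_Kj (x : LaurentSeries k) (p : Polynomial k) :
    Polynomial.aeval x p ∈ k⟮x⟯ :=
  IntermediateField.algebra_adjoin_le_adjoin k {x} (Polynomial.aeval_mem_adjoin_singleton k x)

/-- `p(x)` as an element of `k(x)`. -/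
def S37K_jP (x : LaurentSeries k) (p : Polynomial k) : k⟮x⟯ :=
  ⟨Polynomial.aeval x p, S37K_aeval_mem_Kj k x p⟩

theorem S37K_algebraMap_jP (x : LaurentSeries k) (p : Polynomial k) :
    algebraMap k⟮x⟯ (LaurentSeries k) (S37K_jP k x p) = Polynomial.aeval x p := rfl

end Kj

/-! ### Separability of the modular unit -/

section Unit

variable {k : Type*} [Field k]

theorem S37K_coeff_zero_term (ι k₀ : ℕ) (hι : 0 < ι) (hk₀ : 0 < k₀)
    (j V : LaurentSeries k) (hj : j.orderTop = ((-1 : ℤ) : WithTop ℤ))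
    (hV : V.orderTop = (((k₀ * (ι - 1) : ℕ) : ℤ) : WithTop ℤ))
    (p : Polynomial k) (i : ℕ) (hi : i + 2 ≤ ι) (hdeg : p.natDegree ≤ k₀ * i) :
    (Polynomial.aeval j p * V ^ (ι - i)).coeff 0 = 0 := by
  apply HahnSeries.coeff_eq_zero_of_lt_orderTop
  have h1 : ((-((k₀ * i : ℕ) : ℤ) : ℤ) : WithTop ℤ) ≤ (Polynomial.aeval j p).orderTop :=
    Fermat.Agent.S28_NORMARG.le_orderTop_aeval j (by rw [hj]) p (k₀ * i) hdeg
  have h2 : (V ^ (ι - i)).orderTop = ((((ι - i) * (k₀ * (ι - 1)) : ℕ) : ℤ) : WithTop ℤ) := by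
    rw [Fermat.Agent.S28_NORMARG.orderTop_pow, hV, ← WithTop.coe_nsmul]
    congr 1
  rw [HahnSeries.orderTop_mul, h2]
  have h3 : ((0 : ℤ) : WithTop ℤ) <
      ((-((k₀ * i : ℕ) : ℤ) : ℤ) : WithTop ℤ) +
        ((((ι - i) * (k₀ * (ι - 1)) : ℕ) : ℤ) : WithTop ℤ) := by
    rw [← WithTop.coe_add, WithTop.coe_lt_coe]
    have e1 : (ι - i) * (k₀ * (ι - 1)) ≥ 2 * (k₀ * (ι - 1)) :=
      Nat.mul_le_mul_right _ (by omega)
    have e2 : k₀ * i + k₀ * 2 ≤ k₀ * ι := by
      rw [← mul_add]
      exact Nat.mul_le_mul_left _ hi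
    have e3 : k₀ * (ι - 1) + k₀ = k₀ * ι := by
      rw [← Nat.mul_succ]
      congr 1
      omega
    have e4 : 0 < k₀ * ι := Nat.mul_pos hk₀ hι
    have e5 : k₀ * i < (ι - i) * (k₀ * (ι - 1)) := by
      have e6 : k₀ * i + k₀ * 2 ≤ 2 * (k₀ * (ι - 1)) + k₀ := by
        have : 2 * (k₀ * (ι - 1)) + k₀ = k₀ * (ι - 1) + k₀ * ι := by rw [← e3]; ring
        rw [this]
        exact le_trans e2 (Nat.le_add_left _ _)
      have e7 : 0 < k₀ * 2 - k₀ := by omega
      omega
    have e8 : ((k₀ * i : ℕ) : ℤ) < (((ι - i) * (k₀ * (ι - 1)) : ℕ) : ℤ) := by exact_mod_cast e5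
    omega
  exact lt_of_lt_of_le h3 (add_le_add_left h1 _)

/-- **The modular unit is separable over `k(j)`** (any characteristic). -/
theorem S37K_isSeparable_V (ι k₀ : ℕ) (hι : 0 < ι) (hk₀ : 0 < k₀)
    (j V : LaurentSeries k) (hj : j.orderTop = ((-1 : ℤ) : WithTop ℤ))
    (hV : V.orderTop = (((k₀ * (ι - 1) : ℕ) : ℤ) : WithTop ℤ))
    (p : ℕ → Polynomial k) (hdeg : ∀ i, (p i).natDegree ≤ k₀ * i)
    (u : k) (hu : u ≠ 0) (hpι : p ι = Polynomial.C u)
    (rel : ∑ i ∈ Finset.range (ι + 1), Polynomial.aeval j (p i) * V ^ (ι - i) = 0) :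
    IsSeparable k⟮j⟯ V := by
  classical
  set Pm : Polynomial k⟮j⟯ :=
    ∑ i ∈ Finset.range (ι + 1), Polynomial.C (S37K_jP k j (p i)) * Polynomial.X ^ (ι - i) with hPm
  have h0 : Polynomial.aeval V Pm = 0 := by
    rw [hPm, map_sum, ← rel]
    refine Finset.sum_congr rfl fun i _ => ?_
    rw [map_mul, Polynomial.aeval_C, map_pow, Polynomial.aeval_X, S37K_algebraMap_jP]
  set T : ℕ → LaurentSeries k := fun i => Polynomial.aeval j (p i) * V ^ (ι - i) with hT
  have hW : V * Polynomial.aeval V (Polynomial.derivative Pm) =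
      ∑ i ∈ Finset.range (ι + 1), HahnSeries.C (((ι - i : ℕ) : k)) * T i := by
    rw [hPm, Polynomial.derivative_sum, map_sum, Finset.mul_sum]
    refine Finset.sum_congr rfl fun i hi => ?_
    have hi' : i ≤ ι := Nat.lt_succ_iff.mp (Finset.mem_range.mp hi)
    rw [Polynomial.derivative_C_mul, Polynomial.derivative_X_pow, map_mul, Polynomial.aeval_C,
      map_mul, map_pow, Polynomial.aeval_X, S37K_algebraMap_jP, map_natCast, hT]
    simp only
    rcases Nat.eq_or_lt_of_le hi' with h | h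
    · subst h
      simp
    · have e : V * V ^ (ι - i - 1) = V ^ (ι - i) := by
        rw [← pow_succ']
        congr 1
        omega
      have hC : (HahnSeries.C ((ι - i : ℕ) : k) : LaurentSeries k) =
          ((ι - i : ℕ) : LaurentSeries k) := map_natCast _ _
      have hA : Polynomial.aeval V (((ι - i : ℕ) : ℕ) : Polynomial k⟮j⟯) =
          ((ι - i : ℕ) : LaurentSeries k) := map_natCast _ _
      rw [hC, hA]
      linear_combination (Polynomial.aeval j (p i) * ((ι - i : ℕ) : LaurentSeries k)) * e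
  have hW2 : V * Polynomial.aeval V (Polynomial.derivative Pm) =
      ∑ i ∈ Finset.range (ι + 1), HahnSeries.C (((ι - i : ℕ) : k) - 1) * T i := by
    have : ∑ i ∈ Finset.range (ι + 1), HahnSeries.C (((ι - i : ℕ) : k) - 1) * T i =
        ∑ i ∈ Finset.range (ι + 1), HahnSeries.C (((ι - i : ℕ) : k)) * T i -
          ∑ i ∈ Finset.range (ι + 1), T i := by
      rw [← Finset.sum_sub_distrib]
      refine Finset.sum_congr rfl fun i _ => ?_
      rw [map_sub, map_one]
      ring
    rw [this, ← hW, rel, sub_zero]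
  have hc : (V * Polynomial.aeval V (Polynomial.derivative Pm)).coeff 0 = -u := by
    rw [hW2, HahnSeries.coeff_sum, Finset.sum_eq_single ι]
    · rw [Nat.sub_self, Nat.cast_zero, zero_sub, hT]
      simp only
      rw [hpι, Polynomial.aeval_C, Nat.sub_self, pow_zero, mul_one, HahnSeries.C_mul_eq_smul,
        HahnSeries.coeff_smul, algebraMap_laurentSeries_eq_single,
        HahnSeries.coeff_single_same, smul_eq_mul]
      ring
    · intro i hi hne
      have hi' : i < ι := lt_of_le_of_ne (Nat.lt_succ_iff.mp (Finset.mem_range.mp hi)) hne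
      rw [HahnSeries.C_mul_eq_smul, HahnSeries.coeff_smul, smul_eq_mul]
      by_cases h2 : i + 2 ≤ ι
      · rw [hT]
        simp only
        rw [S37K_coeff_zero_term ι k₀ hι hk₀ j V hj hV (p i) i h2 (hdeg i), mul_zero]
      · have : ι - i = 1 := by omega
        rw [this, Nat.cast_one, sub_self, zero_mul]
    · intro h
      exact absurd (Finset.mem_range.mpr (Nat.lt_succ_self ι)) h
  have h1 : Polynomial.aeval V (Polynomial.derivative Pm) ≠ 0 := by
    intro h
    rw [h, mul_zero, HahnSeries.coeff_zero] at hc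
    exact hu (neg_eq_zero.mp hc.symm)
  exact S37K_isSeparable_of_aeval_derivative_ne_zero k⟮j⟯ Pm h0 h1

/-- Elements of the `k[j]`-span of the powers of `V`, divided by a nonzero polynomial in `j`, are
separable over `k(j)` when `V` is. -/
theorem S37K_isSeparable_of_rep (j V y : LaurentSeries k) (hV : IsSeparable k⟮j⟯ V) (n : ℕ)
    (A : Polynomial k) (B : ℕ → Polynomial k) (hA : Polynomial.aeval j A ≠ 0)
    (h : Polynomial.aeval j A * y = ∑ i ∈ Finset.range n, Polynomial.aeval j (B i) * V ^ i) :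
    IsSeparable k⟮j⟯ y := by
  rw [← mem_separableClosure_iff] at hV ⊢
  have hmem : ∀ p : Polynomial k,
      Polynomial.aeval j p ∈ separableClosure k⟮j⟯ (LaurentSeries k) := fun p =>
    (separableClosure k⟮j⟯ (LaurentSeries k)).algebraMap_mem (S37K_jP k j p)
  have hy : y = (Polynomial.aeval j A)⁻¹ *
      ∑ i ∈ Finset.range n, Polynomial.aeval j (B i) * V ^ i := by
    rw [← h, ← mul_assoc, inv_mul_cancel₀ hA, one_mul]
  rw [hy]
  exact mul_mem (inv_mem (hmem A)) (sum_mem fun i _ => mul_mem (hmem (B i)) (pow_mem hV i))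

end Unit

/-! ### The quotients `Δ(q^d) / Δ(q)` -/

section DeltaQuot

variable (k : Type*) [Field k]

theorem S37K_theta_jqModC_ne_zero : S37K_theta k (jqModC k) ≠ 0 := by
  intro h
  have h1 := congrArg (fun x => HahnSeries.coeff x (-1)) h
  simp only [S37K_theta_coeff, HahnSeries.coeff_zero] at h1
  rw [coeff_jqModC_neg_one] at h1
  simp at h1

theorem S37K_jqModC_sub_ne_zero (c : k) :
    jqModC k - HahnSeries.C c ≠ 0 := by
  intro h
  have h1 := congrArg (fun x => HahnSeries.coeff x (-1)) h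
  simp only [HahnSeries.coeff_sub, HahnSeries.coeff_zero] at h1
  rw [coeff_jqModC_neg_one, HahnSeries.C_apply,
    HahnSeries.coeff_single_of_ne (by norm_num : (-1 : ℤ) ≠ 0), sub_zero] at h1
  exact one_ne_zero h1

/-- `Δ(q^d) / Δ(q)` lies in the function field of level `N`, for `d ∣ N`. -/
theorem S37K_DeltaQuot_mem (N d : ℕ) [NeZero N] [NeZero d] (hd : d ∣ N) (hdk : (d : k) ≠ 0)
    (hram : (S37K_theta k (jqModC k)) ^ 6 =
      (jqModC k) ^ 4 * (jqModC k - 1728) ^ 3 * S37K_DeltaS k)
    (hsep : IsSeparable k⟮jqModC k⟯ (qExpand k d (jqModC k))) :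
    qExpand k d (S37K_DeltaS k) * (S37K_DeltaS k)⁻¹ ∈ modularFunctionFieldFullC k N := by
  set j := jqModC k with hj
  set F := modularFunctionFieldFullC k N with hF
  have hjF : j ∈ F := jqModC_mem_full k N
  have hjdF : qExpand k d j ∈ F := jqModCd_mem_full k N hd
  have hKF : k⟮j⟯ ≤ F := by
    rw [IntermediateField.adjoin_simple_le_iff]
    exact hjF
  -- θ (j_d) = e θ j with e ∈ F
  obtain ⟨e, heF, he⟩ := S37K_theta_mem_of_isSeparable (S37K_theta k) (S37K_theta_leibniz k)
    k⟮j⟯ F hKF (S37K_theta k j)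
    (fun c hc => by
      obtain ⟨e, he, h⟩ := S37K_theta_adjoin_simple k j c hc
      exact ⟨e, hKF he, h⟩) hjdF hsep
  have hθ0 : S37K_theta k j ≠ 0 := S37K_theta_jqModC_ne_zero k
  have h1728 : (1728 : LaurentSeries k) = HahnSeries.C (1728 : k) := by
    rw [map_ofNat]
  have hj0 : j ≠ 0 := jqModC_ne_zero_of_nontrivial k
  have hj1 : j - 1728 ≠ 0 := by
    rw [h1728]
    exact S37K_jqModC_sub_ne_zero k _
  have hjd0 : qExpand k d j ≠ 0 := fun h => hj0 (qExpand_injective d (by rw [h, map_zero]))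
  have hjd1 : qExpand k d j - 1728 ≠ 0 := by
    intro h
    apply hj1
    apply qExpand_injective (R := k) d
    rw [map_sub, map_zero, ← h, h1728, qExpand_C]
  have hΔ0 : S37K_DeltaS k ≠ 0 := S37K_DeltaS_ne_zero
  -- the identity at level d
  have hramd : (qExpand k d (S37K_theta k j)) ^ 6 =
      (qExpand k d j) ^ 4 * (qExpand k d j - 1728) ^ 3 * qExpand k d (S37K_DeltaS k) := by
    have := congrArg (qExpand k d) hram
    rw [map_pow, map_mul, map_mul, map_pow, map_pow, map_sub] at this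
    rw [this, h1728, qExpand_C]
  have hCd : (HahnSeries.C (d : k) : LaurentSeries k) ≠ 0 := by
    rw [Ne, map_eq_zero]
    exact hdk
  have hθd : qExpand k d (S37K_theta k j) = (HahnSeries.C (d : k))⁻¹ * (e * S37K_theta k j) := by
    rw [← he, S37K_theta_qExpand, ← mul_assoc, inv_mul_cancel₀ hCd, one_mul]
  -- solve for the quotient
  have hquot : qExpand k d (S37K_DeltaS k) * (S37K_DeltaS k)⁻¹ =
      ((HahnSeries.C (d : k))⁻¹ * e) ^ 6 * (j ^ 4 * (j - 1728) ^ 3) *
        ((qExpand k d j) ^ 4 * (qExpand k d j - 1728) ^ 3)⁻¹ := by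
    have hden : (qExpand k d j) ^ 4 * (qExpand k d j - 1728) ^ 3 ≠ 0 :=
      mul_ne_zero (pow_ne_zero _ hjd0) (pow_ne_zero _ hjd1)
    have hnum : j ^ 4 * (j - 1728) ^ 3 ≠ 0 := mul_ne_zero (pow_ne_zero _ hj0) (pow_ne_zero _ hj1)
    have hΔd : qExpand k d (S37K_DeltaS k) =
        ((qExpand k d j) ^ 4 * (qExpand k d j - 1728) ^ 3)⁻¹ *
          (qExpand k d (S37K_theta k j)) ^ 6 := by
      rw [hramd, ← mul_assoc, inv_mul_cancel₀ hden, one_mul]
    have hΔ : (S37K_DeltaS k)⁻¹ = (j ^ 4 * (j - 1728) ^ 3) * ((S37K_theta k j) ^ 6)⁻¹ := by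
      rw [hram, mul_inv, ← mul_assoc, mul_inv_cancel₀ hnum, one_mul]
    rw [hΔd, hΔ, hθd]
    have hθ6 : (S37K_theta k j) ^ 6 ≠ 0 := pow_ne_zero _ hθ0
    field_simp
  rw [hquot]
  have hCmem : (HahnSeries.C (d : k))⁻¹ ∈ F := by
    apply inv_mem
    have : (HahnSeries.C (d : k) : LaurentSeries k) = algebraMap k (LaurentSeries k) (d : k) := by
      rw [algebraMap_laurentSeries_eq_single]
      rfl
    rw [this]
    exact F.algebraMap_mem _
  have h1728F : (1728 : LaurentSeries k) ∈ F := by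
    have : (1728 : LaurentSeries k) = algebraMap k (LaurentSeries k) (1728 : k) := by
      rw [map_ofNat]
    rw [this]
    exact F.algebraMap_mem _
  exact mul_mem (mul_mem (pow_mem (mul_mem hCmem heF) 6)
    (mul_mem (pow_mem hjF 4) (pow_mem (sub_mem hjF h1728F) 3)))
    (inv_mem (mul_mem (pow_mem hjdF 4) (pow_mem (sub_mem hjdF h1728F) 3)))

end DeltaQuot

end Fermat.Agent.S37_helper27_KSEP
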