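import Mathlib
import Fermat.Agent.S37_helper27_KTHETA
import Fermat.Agent.S28_helper7_UNITDATA

/-!
# S37 / B1-KAPPA, piece KUNIT: the modular unit of S28 as a product of `Δ`-quotients

* `S37KUNIT_exists`: a `UnitData N` whose series `V` satisfies, over `ℤ`,
  `V · Δ ^ k0 = q ^ ordG · ∏_{s ∣ rad N} (triPowSeries (N / s) (uexp N s))`.
* `S37KUNIT_prod`: over a field `k`, the right hand side is
  `∏_{s ∣ rad N} (Δ (q ^ (N / s))) ^ (uexp N s)`.
* `S37KUNIT_V_eq`: hence `V = ∏_{s ∣ rad N} (Δ (q ^ (N / s)) / Δ) ^ (uexp N s)` over every field.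
-/

set_option autoImplicit false
set_option linter.unusedVariables false

open HahnSeries ModularCurve UpperHalfPlane ModularForm
open Fermat.Agent.S37_helper27_KTHETA Fermat.Agent.S28_helper14_Defs
  Fermat.Agent.S28_helper14_ADefs Fermat.Agent.S28_GCONJ Fermat.Agent.S20

noncomputable section

namespace Fermat.Agent.S37_helper27_KUNIT

/-! ### Expansion `q ↦ q ^ a` without instance arguments -/

section qE

variable (R : Type*) [CommRing R]

/-- `x (q ^ a)`; junk value `x` for `a = 0`. -/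
def S37K_qE (a : ℕ) (x : LaurentSeries R) : LaurentSeries R :=
  if h : a = 0 then x else @qExpand R _ a ⟨h⟩ x

theorem S37K_qE_eq (a : ℕ) [NeZero a] (x : LaurentSeries R) : S37K_qE R a x = qExpand R a x := by
  rw [S37K_qE, dif_neg (NeZero.ne a)]

theorem S37K_coeffMap_single_one {S : Type*} [CommRing S] (f : R →+* S) (n : ℤ) :
    coeffMap f (HahnSeries.single n (1 : R)) = HahnSeries.single n (1 : S) := by
  rw [coeffMap_single, map_one]

theorem S37K_coeffMap_ofPowerSeries_int {S : Type*} [CommRing S] (f : R →+* S)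
    (U : PowerSeries ℤ) :
    coeffMap f (HahnSeries.ofPowerSeries ℤ R (U.map (Int.castRingHom R))) =
      HahnSeries.ofPowerSeries ℤ S (U.map (Int.castRingHom S)) := by
  rw [coeffMap_ofPowerSeries,
    ← RingHom.comp_apply (PowerSeries.map f) (PowerSeries.map (Int.castRingHom R)),
    ← PowerSeries.map_comp, RingHom.ext_int (f.comp (Int.castRingHom R)) (Int.castRingHom S)]

theorem S37K_qExpand_ofPowerSeries (a : ℕ) [NeZero a] (U : PowerSeries ℤ) :
    qExpand R a (HahnSeries.ofPowerSeries ℤ R (U.map (Int.castRingHom R))) =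
      HahnSeries.ofPowerSeries ℤ R ((expandSeries a U).map (Int.castRingHom R)) := by
  have ha : 0 < a := Nat.pos_of_ne_zero (NeZero.ne a)
  ext n
  rcases lt_or_ge n 0 with hn | hn
  · rw [ofPowerSeries_coeff_of_neg _ hn]
    by_cases hd : (a : ℤ) ∣ n
    · obtain ⟨m, rfl⟩ := hd
      rw [qExpand_coeff_mul]
      have hm : m < 0 := by
        by_contra h
        rw [not_lt] at h
        have : 0 ≤ (a : ℤ) * m := mul_nonneg (by exact_mod_cast ha.le) h
        omega
      exact ofPowerSeries_coeff_of_neg _ hm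
    · exact qExpand_coeff_of_not_dvd a _ hd
  · obtain ⟨n', rfl⟩ := Int.eq_ofNat_of_zero_le hn
    rw [HahnSeries.ofPowerSeries_apply_coeff, PowerSeries.coeff_map, expandSeries,
      PowerSeries.coeff_mk]
    by_cases hd : a ∣ n'
    · rw [if_pos hd]
      obtain ⟨m, rfl⟩ := hd
      rw [Nat.mul_div_cancel_left _ ha]
      push_cast
      rw [qExpand_coeff_mul, HahnSeries.ofPowerSeries_apply_coeff, PowerSeries.coeff_map]
    · rw [if_neg hd, map_zero, qExpand_coeff_of_not_dvd]
      exact_mod_cast hd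

theorem S37K_qExpand_DeltaS (a : ℕ) [NeZero a] :
    qExpand R a (S37K_DeltaS R) = HahnSeries.single (a : ℤ) (1 : R) *
      HahnSeries.ofPowerSeries ℤ R ((expandSeries a dedekindEtaUnit).map (Int.castRingHom R)) := by
  rw [S37K_DeltaS, map_mul, qExpand_single, mul_one, S37K_qExpand_ofPowerSeries]

theorem S37K_qExpand_DeltaInvS (a : ℕ) [NeZero a] :
    qExpand R a (S37K_DeltaInvS R) = HahnSeries.single (-(a : ℤ)) (1 : R) *
      HahnSeries.ofPowerSeries ℤ R
        ((expandSeries a dedekindEtaUnitInv).map (Int.castRingHom R)) := by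
  rw [S37K_DeltaInvS, map_mul, qExpand_single, mul_neg, mul_one, S37K_qExpand_ofPowerSeries]

end qE

/-! ### The product formula over a field -/

section prod

variable (k : Type*) [Field k]

theorem S37K_DeltaS_inv : (S37K_DeltaS k)⁻¹ = S37K_DeltaInvS k :=
  inv_eq_of_eq_mul_inv_cancel (S37K_DeltaS_mul_inv)
where
  inv_eq_of_eq_mul_inv_cancel {x y : LaurentSeries k} (h : x * y = 1) : x⁻¹ = y :=
    inv_eq_of_mul_eq_one_right h

theorem S37K_single_pow (a : ℤ) (n : ℕ) :
    (HahnSeries.single a (1 : k) : LaurentSeries k) ^ n = HahnSeries.single (n * a) 1 := by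
  induction n with
  | zero => simp
  | succ n ih =>
    rw [pow_succ, ih, HahnSeries.single_mul_single, one_mul]
    congr 1
    push_cast
    ring_nf

/-- one factor -/
theorem S37K_qE_zpow (a : ℕ) (ha : 0 < a) (e : ℤ) :
    (S37K_qE k a (S37K_DeltaS k)) ^ e = HahnSeries.single (e * (a : ℤ)) (1 : k) *
      HahnSeries.ofPowerSeries ℤ k ((triPowSeries a e).map (Int.castRingHom k)) := by
  have : NeZero a := ⟨ha.ne'⟩
  rw [S37K_qE_eq]
  unfold triPowSeries
  split_ifs with h
  · obtain ⟨n, rfl⟩ := Int.eq_ofNat_of_zero_le h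
    rw [zpow_natCast, Int.toNat_natCast, S37K_qExpand_DeltaS, mul_pow, S37K_single_pow, map_pow,
      map_pow]
  · rw [not_le] at h
    obtain ⟨n, hn⟩ := Int.eq_ofNat_of_zero_le (by omega : 0 ≤ -e)
    have he : e = -(n : ℤ) := by omega
    rw [hn, Int.toNat_natCast, he, zpow_neg, zpow_natCast, ← inv_pow, ← map_inv₀,
      S37K_DeltaS_inv, S37K_qExpand_DeltaInvS, mul_pow, S37K_single_pow, map_pow, map_pow]
    congr 2
    ring_nf

theorem S37K_prod_single {α : Type*} (S : Finset α) (f : α → ℤ) :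
    ∏ s ∈ S, (HahnSeries.single (f s) (1 : k) : LaurentSeries k) =
      HahnSeries.single (∑ s ∈ S, f s) 1 := by
  classical
  induction S using Finset.induction_on with
  | empty => simp
  | insert a S ha ih =>
    rw [Finset.prod_insert ha, Finset.sum_insert ha, ih, HahnSeries.single_mul_single, one_mul]

theorem S37KUNIT_prod (N : ℕ) [NeZero N] :
    HahnSeries.ofPowerSeries ℤ k ((PowerSeries.X ^ (ordG N).toNat *
      ∏ s ∈ (rad N).divisors, triPowSeries (N / s) (uexp N s)).map (Int.castRingHom k)) =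
      ∏ s ∈ (rad N).divisors, (S37K_qE k (N / s) (S37K_DeltaS k)) ^ (uexp N s) := by
  have hN : 0 < N := Nat.pos_of_ne_zero (NeZero.ne N)
  have hpos : ∀ s ∈ (rad N).divisors, 0 < N / s := fun s hs =>
    Nat.div_pos (Nat.le_of_dvd hN ((Nat.dvd_of_mem_divisors hs).trans (rad_dvd N)))
      (Nat.pos_of_mem_divisors hs)
  have h1 : ∏ s ∈ (rad N).divisors, (S37K_qE k (N / s) (S37K_DeltaS k)) ^ (uexp N s) =
      ∏ s ∈ (rad N).divisors, (HahnSeries.single (uexp N s * ((N / s : ℕ) : ℤ)) (1 : k) *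
        HahnSeries.ofPowerSeries ℤ k
          ((triPowSeries (N / s) (uexp N s)).map (Int.castRingHom k))) :=
    Finset.prod_congr rfl fun s hs => S37K_qE_zpow k (N / s) (hpos s hs) _
  rw [h1, Finset.prod_mul_distrib, S37K_prod_single, map_mul, map_pow, PowerSeries.map_X,
    map_mul, map_pow, HahnSeries.ofPowerSeries_X, S37K_single_pow, map_prod, map_prod]
  congr 2
  have h3 : ∑ s ∈ (rad N).divisors, uexp N s * ((N / s : ℕ) : ℤ) = ordG N := rfl
  rw [h3, mul_one, Int.toNat_of_nonneg (Fermat.Agent.S28_ORDER.ordG_nonneg N hN)]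

theorem S37K_prod_zpow {α : Type*} (S : Finset α) (e : α → ℤ) (x : LaurentSeries k)
    (hx : x ≠ 0) : ∏ s ∈ S, x ^ (e s) = x ^ (∑ s ∈ S, e s) := by
  classical
  induction S using Finset.induction_on with
  | empty => simp
  | insert a S ha ih =>
    rw [Finset.prod_insert ha, Finset.sum_insert ha, ih, zpow_add₀ hx]

end prod

/-! ### The unit data with its product formula -/

section exists_

variable (N : ℕ) [NeZero N]

theorem S37K_DeltaL_eq : DeltaL = S37K_DeltaS ℂ := by
  unfold DeltaL S37K_DeltaS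
  rw [Fermat.Agent.S28_QDELTA.qExpansion_discriminant,
    map_mul (PowerSeries.map (Int.castRingHom ℂ)), PowerSeries.map_X, map_mul,
    HahnSeries.ofPowerSeries_X]

theorem S37K_qExpansion_GN :
    qExpansion 1 (GN N) = (PowerSeries.X ^ (ordG N).toNat *
      ∏ s ∈ (rad N).divisors, triPowSeries (N / s) (uexp N s)).map (Int.castRingHom ℂ) := by
  have hN : 0 < N := Nat.pos_of_ne_zero (NeZero.ne N)
  have hpos : ∀ s ∈ (rad N).divisors, 0 < N / s := fun s hs =>
    Nat.div_pos (Nat.le_of_dvd hN ((Nat.dvd_of_mem_divisors hs).trans (rad_dvd N)))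
      (Nat.pos_of_mem_divisors hs)
  have hnice : ∀ s ∈ (rad N).divisors, Nice (1 : ℝ) (triPow (N / s) 1 0 (uexp N s)) :=
    fun s hs => by
      simpa using nice_triPow (hpos s hs) one_pos one_pos (dvd_refl 1) 0 (uexp N s)
  rw [GN_eq, qExpansion_mul' one_pos (nice_pow (nice_qN one_pos) _) (nice_prod _ _ hnice),
    qExpansion_pow' one_pos (nice_qN one_pos), qExpansion_qN one_pos,
    qExpansion_prod' one_pos _ _ hnice, map_mul, map_pow, PowerSeries.map_X, map_prod]
  congr 1
  exact Finset.prod_congr rfl fun s hs => qExpansion_triPow_one (hpos s hs) _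

theorem S37K_coeffMap_Vser {A B : Type*} [CommRing A] [CommRing B] (f : A →+* B) (m : ℕ)
    (U : PowerSeries ℤ) : coeffMap f (Vser A m U) = Vser B m U := by
  rw [Vser, Vser, coeffMap_ofPowerSeries]
  congr 1
  ext n
  simp only [PowerSeries.coeff_map, eq_intCast, map_intCast]

theorem S37K_coeffMap_int_injective :
    Function.Injective (coeffMap (Int.castRingHom ℂ)) := by
  intro x y hxy
  ext n
  have := congrArg (fun z => HahnSeries.coeff z n) hxy
  simp only [coeffMap_coeff, eq_intCast] at this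
  exact_mod_cast this

/-- **The unit data of S28, together with the product formula for `V`** (over `ℤ`). -/
theorem S37KUNIT_exists : ∃ D : UnitData N, D.k₀ = k0 N ∧
    Vser ℤ (D.k₀ * (D.ι - 1)) D.U * (S37K_DeltaS ℤ) ^ (k0 N) =
      HahnSeries.ofPowerSeries ℤ ℤ ((PowerSeries.X ^ (ordG N).toNat *
        ∏ s ∈ (rad N).divisors, triPowSeries (N / s) (uexp N s)).map (Int.castRingHom ℤ)) := by
  have hGN := Fermat.Agent.S28_GCONJ.isMF_GN N
  have hHd : Fermat.Agent.S28_UNITDATA.HdHyp N := fun d _ hd =>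
    ⟨Fermat.Agent.S28_HD.isMF_Hd N d hd, Fermat.Agent.S28_HD.qExpansion_Hd N d hd⟩
  obtain ⟨U, p, u, hU, hpint, hp0, hpdeg, hu, hu', hu0, hpn, hE, hG, hrel⟩ :=
    Fermat.Agent.S28_RELF.exists_rel N
  refine ⟨{
    ι := Fintype.card (Q N)
    k₀ := k0 N
    hι := Fermat.Agent.S28_UNITDATA.card_Q_pos N
    hk₀ := Fermat.Agent.S28_ORDER.k0_pos N (NeZero.pos N)
    U := U
    hU := hU
    p := p
    hp_int := hpint
    hp0 := hp0
    hp_deg := hpdeg
    u := u
    hu := hu
    hu' := hu'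
    hu0 := hu0
    hpι := hpn
    rel := hrel
    int := fun d hd _ => Fermat.Agent.S28_UNITDATA.int_aux_of N hGN hHd hE hG d hd }, rfl, ?_⟩
  apply S37K_coeffMap_int_injective
  rw [map_mul, map_pow, S37K_coeffMap_Vser, S37K_coeffMap_DeltaS, coeffMap_ofPowerSeries,
    ← S37K_DeltaL_eq, ← hG, S37K_qExpansion_GN]
  congr 1

end exists_

/-- **`V` as a product of `Δ`-quotients**, over any field. -/
theorem S37KUNIT_V_eq (N : ℕ) [NeZero N] (D : UnitData N) (hk0 : D.k₀ = k0 N)
    (hD : Vser ℤ (D.k₀ * (D.ι - 1)) D.U * (S37K_DeltaS ℤ) ^ (k0 N) =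
      HahnSeries.ofPowerSeries ℤ ℤ ((PowerSeries.X ^ (ordG N).toNat *
        ∏ s ∈ (rad N).divisors, triPowSeries (N / s) (uexp N s)).map (Int.castRingHom ℤ)))
    (k : Type*) [Field k] :
    Vser k (D.k₀ * (D.ι - 1)) D.U =
      ∏ s ∈ (rad N).divisors,
        (S37K_qE k (N / s) (S37K_DeltaS k) * (S37K_DeltaS k)⁻¹) ^ (uexp N s) := by
  have hN : 0 < N := Nat.pos_of_ne_zero (NeZero.ne N)
  have hΔ : S37K_DeltaS k ≠ 0 := S37K_DeltaS_ne_zero
  have h1 := congrArg (coeffMap (Int.castRingHom k)) hD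
  rw [map_mul, map_pow, S37K_coeffMap_Vser, S37K_coeffMap_DeltaS,
    S37K_coeffMap_ofPowerSeries_int, S37KUNIT_prod] at h1
  have h2 : ∏ s ∈ (rad N).divisors,
      (S37K_qE k (N / s) (S37K_DeltaS k) * (S37K_DeltaS k)⁻¹) ^ (uexp N s) =
      (∏ s ∈ (rad N).divisors, (S37K_qE k (N / s) (S37K_DeltaS k)) ^ (uexp N s)) *
        ((S37K_DeltaS k) ^ (k0 N))⁻¹ := by
    rw [← zpow_natCast (S37K_DeltaS k) (k0 N), ← Fermat.Agent.S28_ORDER.sum_uexp N hN,
      ← S37K_prod_zpow k _ _ _ hΔ, ← Finset.prod_inv_distrib, ← Finset.prod_mul_distrib]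
    refine Finset.prod_congr rfl fun s _ => ?_
    rw [mul_zpow, inv_zpow]
  rw [h2, ← h1, mul_assoc, mul_inv_cancel₀ (pow_ne_zero _ hΔ), mul_one]

end Fermat.Agent.S37_helper27_KUNIT
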