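import Mathlib
import Fermat.Agent.S37_helper27_KSEP
import Fermat.Agent.S37_helper27_KUNIT
import Fermat.Agent.S28_helper17_KEYREP
import Fermat.Agent.S28_helper29_INDEPMOD
import Fermat.Agent.S28_helper22_VAL2

/-!
# S37 / B1-KAPPA, piece KAPPA0: the residue field of the Gauss valuation on `ℚ(j(q^d) : d ∣ N)`
is `𝔽_ℓ(j(q^d) : d ∣ N)`

Input: the formal identity `(θ j)^6 = j^4 (j - 1728)^3 Δ` over `ℤ` (hypothesis `hram`, piece KRAM).

Output: for every `y` in the function field `modularFunctionFieldFull N` with `ℓ`-integral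
`q`-expansion (i.e. `y ∈ Vring ℓ`), the reduction `redFun ℓ y` lies in
`modularFunctionFieldFullC (ZMod ℓ) N`; in particular for every element of the chart
`chartAlgFin N ℓ` of the Igusa model.
-/

set_option autoImplicit false
set_option linter.unusedVariables false

open HahnSeries ModularCurve ModularCurve.IgusaScheme Polynomial IntermediateField
open Fermat.Agent.S37_helper27_KTHETA Fermat.Agent.S37_helper27_KSEP
  Fermat.Agent.S37_helper27_KUNIT Fermat.Agent.S28_helper14_Defs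
  Fermat.Agent.S28_helper14_ADefs Fermat.Agent.S28_helper14_Res Fermat.Agent.S28_helper14_Val
  Fermat.Agent.S28_KEYREP

noncomputable section

namespace Fermat.Agent.S37_helper27_KAPPA0

variable (N : ℕ) [NeZero N] (ℓ : ℕ) [Fact ℓ.Prime]

/-- the hypothesis KRAM -/
def S37K_Ram : Prop :=
  (S37K_theta ℤ (jqModC ℤ)) ^ 6 = (jqModC ℤ) ^ 4 * (jqModC ℤ - 1728) ^ 3 * S37K_DeltaS ℤ

/-- KRAM over any commutative ring -/
theorem S37K_ram_map (hram : S37K_Ram) (R : Type*) [CommRing R] :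
    (S37K_theta R (jqModC R)) ^ 6 = (jqModC R) ^ 4 * (jqModC R - 1728) ^ 3 * S37K_DeltaS R := by
  have h := congrArg (coeffMap (Int.castRingHom R)) hram
  rw [map_pow, ← S37K_theta_coeffMap, coeffMap_jqModC, map_mul, map_mul, map_pow, map_pow,
    map_sub, coeffMap_jqModC, S37K_coeffMap_DeltaS, map_ofNat] at h
  exact h

omit [NeZero N] in
/-- Reduction of a representation `A(j) y = ∑ B_i(j) V^i`. -/
theorem S37K_red_rep (m : ℕ) (U : PowerSeries ℤ) (n : ℕ) (y : LaurentSeries ℚ)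
    (hyV : y ∈ Vring ℓ) (A : Polynomial (Rl ℓ)) (B : ℕ → Polynomial (Rl ℓ))
    (h : Polynomial.aeval jq A * y =
      ∑ i ∈ Finset.range n, Polynomial.aeval jq (B i) * (Vser ℚ m U) ^ i) :
    Polynomial.aeval (jqModC (ZMod ℓ)) (A.map (resR ℓ)) * redFun ℓ y =
      ∑ i ∈ Finset.range n,
        Polynomial.aeval (jqModC (ZMod ℓ)) ((B i).map (resR ℓ)) * (Vser (ZMod ℓ) m U) ^ i := by
  set jR := jqModC (Rl ℓ) with hjR
  set VR := Vser (Rl ℓ) m U with hVR
  set a : LaurentSeries (Rl ℓ) := Polynomial.aeval jR A with ha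
  set b : LaurentSeries (Rl ℓ) := ∑ i ∈ Finset.range n, Polynomial.aeval jR (B i) * VR ^ i with hb
  have hinca : incL ℓ a = Polynomial.aeval jq A := by
    rw [ha, incL_aeval, hjR, incL_jqModC]
  have hincb : incL ℓ b =
      ∑ i ∈ Finset.range n, Polynomial.aeval jq (B i) * (Vser ℚ m U) ^ i := by
    rw [hb, map_sum]
    apply Finset.sum_congr rfl
    intro i _
    rw [map_mul, map_pow, incL_aeval, hjR, incL_jqModC, hVR, incL_Vser]
  obtain ⟨α, β, hβ, hαβ⟩ := hyV
  have h1 : a * α = β * b := by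
    apply incL_injective ℓ
    rw [map_mul, map_mul, hinca, hincb, ← h, ← hαβ]
    ring
  have h2 : redL ℓ a * redL ℓ α = redL ℓ β * redL ℓ b := by
    rw [← map_mul, ← map_mul, h1]
  have h3 : redL ℓ a = Polynomial.aeval (jqModC (ZMod ℓ)) (A.map (resR ℓ)) := by
    rw [ha, redL_aeval, hjR, redL_jqModC]
  have h4 : redL ℓ b = ∑ i ∈ Finset.range n,
      Polynomial.aeval (jqModC (ZMod ℓ)) ((B i).map (resR ℓ)) * (Vser (ZMod ℓ) m U) ^ i := by
    rw [hb, map_sum]
    apply Finset.sum_congr rfl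
    intro i _
    rw [map_mul, map_pow, redL_aeval, hjR, redL_jqModC, hVR, redL_Vser]
  rw [redFun_eq ℓ hβ hαβ, ← h3, ← h4]
  field_simp
  linear_combination h2

omit [NeZero N] in
theorem S37K_qExpand_jq_mem_Vring (d : ℕ) [NeZero d] : qExpand ℚ d jq ∈ Vring ℓ := by
  have : qExpand ℚ d jq = incL ℓ (qExpand (Rl ℓ) d (jqModC (Rl ℓ))) := by
    rw [incL, coeffMap_qExpand, coeffMap_jqModC]
    rfl
  rw [this]
  exact incL_mem_Vring ℓ _

omit [NeZero N] in
theorem S37K_redFun_qExpand_jq (d : ℕ) [NeZero d] :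
    redFun ℓ (qExpand ℚ d jq) = qExpand (ZMod ℓ) d (jqModC (ZMod ℓ)) := by
  have : qExpand ℚ d jq = incL ℓ (qExpand (Rl ℓ) d (jqModC (Rl ℓ))) := by
    rw [incL, coeffMap_qExpand, coeffMap_jqModC]
    rfl
  rw [this, redFun_incL, redL, coeffMap_qExpand, coeffMap_jqModC]

omit [NeZero N] in
theorem S37K_aeval_mem_full (k : Type*) [Field k] (P : Polynomial k) :
    Polynomial.aeval (jqModC k) P ∈ modularFunctionFieldFullC k N := by
  have hKF : k⟮jqModC k⟯ ≤ modularFunctionFieldFullC k N := by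
    rw [IntermediateField.adjoin_simple_le_iff]
    exact jqModC_mem_full k N
  exact hKF (S37K_aeval_mem_Kj k (jqModC k) P)

/-- **The reduction of the modular unit lies in `𝔽_ℓ(j(q^d) : d ∣ N)`**, and every reduction of
an `ℓ`-integral element of the function field does. -/
theorem S37KAPPA0_redFun_mem (hℓN : ¬ ℓ ∣ N) (hram : S37K_Ram)
    (y : LaurentSeries ℚ) (hy : y ∈ modularFunctionFieldFull N) (hyV : y ∈ Vring ℓ) :
    redFun ℓ y ∈ modularFunctionFieldFullC (ZMod ℓ) N := by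
  classical
  have hN : 0 < N := Nat.pos_of_ne_zero (NeZero.ne N)
  obtain ⟨D, hk0, hD⟩ := S37KUNIT_exists N
  set k := ZMod ℓ with hk
  set j := jqModC k with hj
  set m := D.k₀ * (D.ι - 1) with hm
  set V := Vser k m D.U with hV
  set F := modularFunctionFieldFullC k N with hF
  have hjord : j.orderTop = ((-1 : ℤ) : WithTop ℤ) := Fermat.Agent.S28_INDEPC.orderTop_jqModC k
  -- the relation modulo ℓ
  obtain ⟨p', hp'⟩ := Fermat.Agent.S28_RELRAT.rel_rat N ℓ hℓN D
  have hp'' : ∀ i ≤ D.ι, (p' i).map (Fermat.Agent.S28_INDEPMOD.emb ℓ) = D.p i := hp'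
  have hrelR : ∑ i ∈ Finset.range (D.ι + 1),
      Polynomial.aeval (jqModC (Rl ℓ)) (p' i) *
        (Vser (Rl ℓ) (D.k₀ * (D.ι - 1)) D.U) ^ (D.ι - i) = 0 := by
    apply Fermat.Agent.S28_INDEPMOD.coeffMap_injective (Fermat.Agent.S28_INDEPMOD.emb ℓ)
      (Fermat.Agent.S28_INDEPMOD.emb_injective ℓ)
    rw [Fermat.Agent.S28_INDEPMOD.coeffMap_rel, map_zero, ← D.rel]
    refine Finset.sum_congr rfl fun i hi => ?_
    rw [hp'' i (by have := Finset.mem_range.mp hi; omega)]
  have hrelF := congrArg (coeffMap (resR ℓ)) hrelR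
  rw [Fermat.Agent.S28_INDEPMOD.coeffMap_rel, map_zero] at hrelF
  have hφu : Fermat.Agent.S28_INDEPMOD.emb ℓ ((p' D.ι).coeff 0) = D.u := by
    have := congrArg (fun P : Polynomial ℂ => P.coeff 0) (hp'' D.ι le_rfl)
    simp only [Polynomial.coeff_map, D.hpι, Polynomial.coeff_C_zero] at this
    exact this
  have hp'ι : p' D.ι = Polynomial.C ((p' D.ι).coeff 0) := by
    apply Polynomial.map_injective (Fermat.Agent.S28_INDEPMOD.emb ℓ)
      (Fermat.Agent.S28_INDEPMOD.emb_injective ℓ)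
    rw [hp'' D.ι le_rfl, Polynomial.map_C, hφu, D.hpι]
  have hu : resR ℓ ((p' D.ι).coeff 0) ≠ 0 := by
    apply Fermat.Agent.S28_INDEPMOD.resR_ne_zero_of_unit N ℓ hℓN
    · rw [hφu]; exact D.hu0
    · rw [hφu]; exact D.hu'
  set pb : ℕ → Polynomial k := fun i => if i ≤ D.ι then (p' i).map (resR ℓ) else 0 with hpb
  have hrelF' : ∑ i ∈ Finset.range (D.ι + 1),
      Polynomial.aeval j (pb i) * V ^ (D.ι - i) = 0 := by
    rw [← hrelF]
    refine Finset.sum_congr rfl fun i hi => ?_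
    have hi' : i ≤ D.ι := by have := Finset.mem_range.mp hi; omega
    simp only [hpb, hi', if_true]
    rfl
  have hdeg : ∀ i, (pb i).natDegree ≤ D.k₀ * i := by
    intro i
    by_cases hi : i ≤ D.ι
    · simp only [hpb, hi, if_true]
      calc ((p' i).map (resR ℓ)).natDegree ≤ (p' i).natDegree := Polynomial.natDegree_map_le
        _ = ((p' i).map (Fermat.Agent.S28_INDEPMOD.emb ℓ)).natDegree :=
            (Polynomial.natDegree_map_eq_of_injective
              (Fermat.Agent.S28_INDEPMOD.emb_injective ℓ) _).symm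
        _ = (D.p i).natDegree := by rw [hp'' i hi]
        _ ≤ D.k₀ * i := D.hp_deg i
    · simp only [hpb, hi, if_false, Polynomial.natDegree_zero]
      exact Nat.zero_le _
  have hpbι : pb D.ι = Polynomial.C (resR ℓ ((p' D.ι).coeff 0)) := by
    simp only [hpb, le_refl, if_true]
    conv_lhs => rw [hp'ι]
    rw [Polynomial.map_C]
  -- separability of V
  have hsepV : IsSeparable k⟮j⟯ V :=
    S37K_isSeparable_V D.ι D.k₀ D.hι D.hk₀ j V hjord
      (Fermat.Agent.S28_INDEPC.orderTop_Vser k _ D.U D.hU) pb hdeg _ hu hpbι hrelF'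
  -- representation of reductions
  have hrep : ∀ z : LaurentSeries ℚ, z ∈ modularFunctionFieldFull N → z ∈ Vring ℓ →
      ∃ (A : Polynomial k) (B : ℕ → Polynomial k), Polynomial.aeval j A ≠ 0 ∧
        Polynomial.aeval j A * redFun ℓ z =
          ∑ i ∈ Finset.range D.ι, Polynomial.aeval j (B i) * V ^ i := by
    intro z hz hzV
    obtain ⟨A, B, hA, h⟩ := key_rep N ℓ hℓN D z hz hzV
    refine ⟨A.map (resR ℓ), fun i => (B i).map (resR ℓ), ?_, ?_⟩
    · intro h0
      apply hA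
      have := Fermat.Agent.S28_NORMARG.aeval_injective j hjord
      exact this (by rw [h0, map_zero])
    · exact S37K_red_rep ℓ _ D.U D.ι z hzV A B h
  -- separability of the `j(q^d)`
  have hsepd : ∀ (d : ℕ) [NeZero d], d ∣ N → IsSeparable k⟮j⟯ (qExpand k d j) := by
    intro d _ hd
    obtain ⟨A, B, hA, h⟩ := hrep (qExpand ℚ d jq) (jqd_mem_full N hd)
      (S37K_qExpand_jq_mem_Vring ℓ d)
    rw [S37K_redFun_qExpand_jq] at h
    exact S37K_isSeparable_of_rep j V _ hsepV D.ι A B hA h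
  -- the Δ-quotients
  have hramk := S37K_ram_map hram k
  have hquot : ∀ s ∈ (rad N).divisors,
      S37K_qE k (N / s) (S37K_DeltaS k) * (S37K_DeltaS k)⁻¹ ∈ F := by
    intro s hs
    have hsN : s ∣ N := (Nat.dvd_of_mem_divisors hs).trans (Fermat.Agent.S28_ORDER.rad_dvd N)
    have hpos : 0 < N / s := Nat.div_pos (Nat.le_of_dvd hN hsN) (Nat.pos_of_mem_divisors hs)
    have : NeZero (N / s) := ⟨hpos.ne'⟩
    have hdN : N / s ∣ N := Nat.div_dvd_of_dvd hsN
    rw [S37K_qE_eq]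
    refine S37K_DeltaQuot_mem k N (N / s) hdN ?_ hramk (hsepd (N / s) hdN)
    intro h0
    have h0' : ((N / s : ℕ) : ZMod ℓ) = 0 := h0
    exact hℓN (((ZMod.natCast_eq_zero_iff _ _).mp h0').trans hdN)
  -- V lies in the function field
  have hVF : V ∈ F := by
    rw [hV, hm, S37KUNIT_V_eq N D hk0 hD k]
    exact prod_mem fun s hs => zpow_mem (hquot s hs) _
  -- conclusion
  obtain ⟨A, B, hA, h⟩ := hrep y hy hyV
  have hy' : redFun ℓ y = (Polynomial.aeval j A)⁻¹ *
      ∑ i ∈ Finset.range D.ι, Polynomial.aeval j (B i) * V ^ i := by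
    rw [← h, ← mul_assoc, inv_mul_cancel₀ hA, one_mul]
  rw [hy']
  exact mul_mem (inv_mem (S37K_aeval_mem_full N k A))
    (sum_mem fun i _ => mul_mem (S37K_aeval_mem_full N k (B i)) (pow_mem hVF i))

/-- **KAPPA on the chart `chartAlgFin N ℓ` of the Igusa model** (helper20's `hκ`), from KRAM. -/
theorem S37KAPPA0_chart (hℓN : ¬ ℓ ∣ N) (hram : S37K_Ram) :
    ∀ x ∈ chartAlgFin N ℓ,
      redFun ℓ ((x : ↥(modularFunctionFieldFull N)) : LaurentSeries ℚ) ∈
        modularFunctionFieldFullC (ZMod ℓ) N := fun x hx =>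
  S37KAPPA0_redFun_mem N ℓ hℓN hram _ x.2
    (Fermat.Agent.S28_VAL2.chartAlg_le_Vring N ℓ _ (by simp) x hx)

end Fermat.Agent.S37_helper27_KAPPA0
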