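import Mathlib
import Fermat.Agent.S37_helper2_F5
import Fermat.Agent.S37_helper20_HGEN
import Fermat.Agent.S18_helper14_SETUP

/-!
# S37, block B1: the fields `f5a0`, `f5ainf`, `f5d0`, `f5dinf` of `S37B1_Facts`

Unconditional (`ℓ` prime, `ℓ ∤ N`, `A` over `ℓ`): helper4's interface facts (F5a) and (F5d) at every
admissible level, for both charts, in the exact shape of the fields of `S37B1_Facts`.
-/

set_option autoImplicit false
set_option linter.unusedSectionVars false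
set_option linter.style.haveILetI false

open HahnSeries ModularCurve AlgebraicCurve IsLocalRing
open Fermat.Agent.S18_helper9_CDefs Fermat.Agent.S18_helper25_COREDefs
open Fermat.Agent.S37_helper4_B1Defs

noncomputable section

namespace Fermat.Agent.S37_helper2_SPFIB

local notation "Qb" => AlgebraicClosure ℚ

set_option synthInstance.maxHeartbeats 400000
set_option maxHeartbeats 1600000

variable (N : ℕ) [NeZero N] {ℓ : ℕ} (hℓ : ℓ.Prime) (hℓN : ¬ ℓ ∣ N)
  (A : ValuationSubring Qb) (hA : A.LiesOverPrime ℓ)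

include hℓ hℓN hA

/-- field `f5a0` of `S37B1_Facts`. -/
theorem S37SPF_f5a0 : ∀ (K1 : IntermediateField ℚ Qb) (h : S18K_Admissible A K1 ℓ),
    letI := h.dvr
    S37B1_F5a N K1 A (S18K_A0 A K1 N) := fun K1 h =>
  letI := h.dvr
  S37SPF_F5a (Fermat.Agent.S37_helper20_HGEN.S37HGEN_hkappa N hℓ hℓN A hA K1 h)
    (Fermat.Agent.S18AK.setupK_admissible N hℓ A hA hℓN K1 h) h.res_surj
    (Fermat.Agent.S18AK.setupK_admissible N hℓ A hA hℓN K1 h).chart0 (Or.inl rfl)

/-- field `f5ainf` of `S37B1_Facts`. -/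
theorem S37SPF_f5ainf : ∀ (K1 : IntermediateField ℚ Qb) (h : S18K_Admissible A K1 ℓ),
    letI := h.dvr
    S37B1_F5a N K1 A (S18K_Ainf A K1 N) := fun K1 h =>
  letI := h.dvr
  S37SPF_F5a (Fermat.Agent.S37_helper20_HGEN.S37HGEN_hkappa N hℓ hℓN A hA K1 h)
    (Fermat.Agent.S18AK.setupK_admissible N hℓ A hA hℓN K1 h) h.res_surj
    (Fermat.Agent.S18AK.setupK_admissible N hℓ A hA hℓN K1 h).chartInf (Or.inr rfl)

/-- field `f5d0` of `S37B1_Facts`. -/
theorem S37SPF_f5d0 : ∀ (K1 : IntermediateField ℚ Qb) (h : S18K_Admissible A K1 ℓ),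
    letI := h.dvr
    S37B1_F5d N K1 A (S18K_A0 A K1 N) := fun K1 h =>
  letI := h.dvr
  S37SPF_F5d (Fermat.Agent.S37_helper20_HGEN.S37HGEN_hkappa N hℓ hℓN A hA K1 h)
    (Fermat.Agent.S18AK.setupK_admissible N hℓ A hA hℓN K1 h) h.res_surj
    (Fermat.Agent.S18AK.setupK_admissible N hℓ A hA hℓN K1 h).chart0 (Or.inl rfl)

/-- field `f5dinf` of `S37B1_Facts`. -/
theorem S37SPF_f5dinf : ∀ (K1 : IntermediateField ℚ Qb) (h : S18K_Admissible A K1 ℓ),
    letI := h.dvr
    S37B1_F5d N K1 A (S18K_Ainf A K1 N) := fun K1 h =>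
  letI := h.dvr
  S37SPF_F5d (Fermat.Agent.S37_helper20_HGEN.S37HGEN_hkappa N hℓ hℓN A hA K1 h)
    (Fermat.Agent.S18AK.setupK_admissible N hℓ A hA hℓN K1 h) h.res_surj
    (Fermat.Agent.S18AK.setupK_admissible N hℓ A hA hℓN K1 h).chartInf (Or.inr rfl)

end Fermat.Agent.S37_helper2_SPFIB
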