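import Mathlib
import Fermat.Agent.S37_helper4_B1FINAL
import Fermat.Agent.S37_helper2_F5PLUG
import Fermat.Agent.S37_helper11_B1DEFM
import Fermat.Agent.S37_helper27_KAPPA
import Fermat.Agent.S37_helper8_E1

/-!
# S37, block B1: the unconditional plug

`S37B1PLUG_reductionInputs`: `ReductionInputsModL A N` for every valuation subring `A` of `ℚ̄`
over a prime `ℓ ∤ N` (helper4's assembly + helper2's (F5) + helper11's DEF-KEY + helper27's KAPPA
+ the landed S18 blocks), and the consequence (E1) for Project G.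
-/

set_option autoImplicit false
set_option linter.unusedSectionVars false
set_option linter.unusedVariables false
set_option linter.style.haveILetI false
set_option synthInstance.maxHeartbeats 400000
set_option maxHeartbeats 1600000

open AlgebraicCurve ModularCurve

noncomputable section

namespace Fermat.Agent.S37_helper8_B1PLUG

/-- **B1, unconditional.** -/
theorem S37B1PLUG_reductionInputs (N : ℕ) [NeZero N] {ℓ : ℕ} (hℓ : ℓ.Prime) (hℓN : ¬ ℓ ∣ N)
    (A : ValuationSubring (AlgebraicClosure ℚ)) (hA : A.LiesOverPrime ℓ) :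
    ReductionInputsModL A N := by
  haveI : Fact ℓ.Prime := ⟨hℓ⟩
  have hAB : Fermat.Agent.S18_helper25_COREDefs.S18K_BlocksAB A N ℓ :=
    Fermat.Agent.S18_helper25_FINAL.S18K_blocksAB_of_blockB N hℓN A hA
      (Fermat.Agent.S18_helper12_TOP.S18TOP_blockB N hℓN A hA)
  exact Fermat.Agent.S37_helper4_B1FINAL.S37B1_reductionInputs_of_facts N hℓ hℓN A hA
    (Fermat.Agent.S37_helper4_B1FINAL.S37B1_facts_of_F5 N A
      (Fermat.Agent.S37_helper2_SPFIB.S37SPF_f5a0 N hℓ hℓN A hA)
      (Fermat.Agent.S37_helper2_SPFIB.S37SPF_f5ainf N hℓ hℓN A hA)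
      (Fermat.Agent.S37_helper2_SPFIB.S37SPF_f5d0 N hℓ hℓN A hA)
      (Fermat.Agent.S37_helper2_SPFIB.S37SPF_f5dinf N hℓ hℓN A hA))
    (Fermat.Agent.S37_helper11_B1DEF.S37DEF_defKey N hℓN A hA hAB
      (Fermat.Agent.S37_helper27_KAPPA.S37KAPPA_chart N ℓ hℓN))

/-- **(E1) for all levels and primes**, unconditional (= helper29's `PGS_E1_all`, unfolded). -/
theorem S37B1PLUG_E1_all :
    ∀ (N p : ℕ) [NeZero N], p.Prime → Fermat.Agent.G_helper29_WDefs.PG_E1_statement N p :=
  Fermat.Agent.S37_helper8_E1.S37E1_of_RI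
    (fun N _ ℓ hℓ hℓN A hA => S37B1PLUG_reductionInputs N hℓ hℓN A hA)

end Fermat.Agent.S37_helper8_B1PLUG
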