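import Fermat.Statements.S49
import Fermat.Agent.S49_Eigen

set_option autoImplicit false
open CuspForm EisensteinWeightOne CongruenceSubgroup ModularFormClass
open FLT FLT.AbstractIntegralStructure

namespace Fermat.Agent.S49

theorem hecke_congr {N : ℕ} [NeZero N] {a : ℕ → ℤ}
    (heig : FormalHecke.IsEigensystem
      (fun ℓ => if ℓ ∣ N then 0 else ((chiNegThree ℓ : ℤ) : ℤ)) a)
    (f₀ : CuspForm (Gamma0 N) 2) (af : ℕ → ℤ)
    (haf : ∀ n, (af n : ℂ) = ModularFormClass.qCoeff f₀ n)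
    (hafa : ∀ n, (3 : ℤ) ∣ af n - a n) :
    (∀ (ℓ : ℕ) (hℓ : ℓ.Prime) (hℓN : ¬ ℓ ∣ N),
      IsDiv3 (heckeTLin 2 hℓ hℓN f₀ - (a ℓ) • f₀)) ∧
    (∀ (ℓ : ℕ) (_ : ℓ.Prime) (hℓN : ℓ ∣ N),
      IsDiv3 (heckeULin 2 hℓN f₀ - (a ℓ) • f₀)) := by
  constructor
  · intro ℓ hℓ hℓN n
    rw [qc_sub, qc_heckeT hℓ hℓN, qc_zsmul]
    simp only [← haf]
    have e := heig.2 ℓ hℓ n
    simp only [if_neg hℓN] at e
    obtain ⟨d1, h1⟩ := hafa (n * ℓ)
    obtain ⟨d3, h3⟩ := hafa n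
    obtain ⟨r, hr⟩ := chi_congr ℓ
    rw [mul_comm ℓ n] at e
    by_cases hd : ℓ ∣ n
    · rw [if_pos hd] at e
      rw [if_pos hd]
      obtain ⟨d2, h2⟩ := hafa (n / ℓ)
      refine ⟨r * a (n / ℓ) + d1 + ℓ * d2 - a ℓ * d3, ?_⟩
      have hZ : af (n * ℓ) + (ℓ : ℤ) * af (n / ℓ) - a ℓ * af n =
          3 * (r * a (n / ℓ) + d1 + ℓ * d2 - a ℓ * d3) := by
        linear_combination e + h1 + (ℓ : ℤ) * h2 - a ℓ * h3 + a (n / ℓ) * hr
      exact_mod_cast hZ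
    · rw [if_neg hd, mul_zero, add_zero] at e
      rw [if_neg hd, add_zero]
      refine ⟨d1 - a ℓ * d3, ?_⟩
      have hZ : af (n * ℓ) - a ℓ * af n = 3 * (d1 - a ℓ * d3) := by
        linear_combination e + h1 - a ℓ * h3
      exact_mod_cast hZ
  · intro ℓ hℓ hℓN n
    rw [qc_sub, qc_heckeU hℓ hℓN, qc_zsmul]
    simp only [← haf]
    have e := heig.2 ℓ hℓ n
    simp only [if_pos hℓN, zero_mul, add_zero] at e
    obtain ⟨d1, h1⟩ := hafa (n * ℓ)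
    obtain ⟨d3, h3⟩ := hafa n
    rw [mul_comm ℓ n] at e
    refine ⟨d1 - a ℓ * d3, ?_⟩
    have hZ : af (n * ℓ) - a ℓ * af n = 3 * (d1 - a ℓ * d3) := by
      linear_combination e + h1 - a ℓ * h3
    exact_mod_cast hZ

theorem result
    {N : ℕ} [NeZero N] (h : CuspForm.HasIntegralBasis N) {a : ℕ → ℤ}
    (heig : FormalHecke.IsEigensystem
      (fun ℓ => if ℓ ∣ N then 0 else ((chiNegThree ℓ : ℤ) : ℤ)) a)
    (hreal : CuspForm.IsLatticeRealized N a) :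
    ∃ (f : CuspForm (Gamma0 N) 2) (_ : f.IsNormalizedEigenform)
      (𝔪' : Ideal (integralClosure ℤ ℂ)), 𝔪'.IsMaximal ∧
      ((3 : ℕ) : integralClosure ℤ ℂ) ∈ 𝔪' ∧
      ∀ (ℓ : ℕ) (_ : ℓ.Prime) (_ : ¬ ℓ ∣ N),
        ∃ c : integralClosure ℤ ℂ, (c : ℂ) = ModularFormClass.qCoeff f ℓ ∧
          c - (a ℓ : integralClosure ℤ ℂ) ∈ 𝔪' := by
  obtain ⟨f₀, -, af, haf, h3⟩ := hreal
  have hafa : ∀ n, (3 : ℤ) ∣ af n - a n := fun n => by
    have := dvd_add (h3 n) (bridge_coeff a n)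
    simpa using this
  have hf₀int : IsInt f₀ := fun n => ⟨af n, (haf n).symm⟩
  have h1 : ∀ m : ℤ, ModularFormClass.qCoeff ⇑f₀ 1 ≠ 3 * (m : ℂ) := by
    intro m hm
    rw [← haf] at hm
    have hm' : af 1 = 3 * m := by exact_mod_cast hm
    have h31 : (3 : ℤ) ∣ a 1 := by
      have := dvd_sub (Dvd.intro m hm'.symm) (hafa 1)
      simpa using this
    rw [heig.1] at h31
    norm_num at h31
  obtain ⟨hT, hU⟩ := hecke_congr heig f₀ af haf hafa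
  have hall := exists_int_sub_mem a hT hU
  have hmax : (mIdeal f₀).IsMaximal := mIdeal_isMaximal hf₀int h1 hall
  have hprime : (mIdeal f₀).IsPrime := hmax.isPrime
  have hfd : FiniteDimensional ℂ (CuspForm (Gamma0 N) 2) := finiteDimensional_cusp
  have hnt : Nontrivial (CuspForm (Gamma0 N) 2) := by
    refine ⟨⟨f₀, 0, fun h0 => ?_⟩⟩
    apply h1 0
    rw [h0, qc_zero]
    simp
  obtain ⟨v, hv0, χ, hχ, hker⟩ := exists_eigenvector_ker_le (K := ℂ) (rhoHecke N) (mIdeal f₀)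
    (by
      intro x hx
      rw [RingHom.mem_ker] at hx
      have : x = 0 := rhoHecke_injective (hx.trans (map_zero _).symm)
      rw [this]
      exact zero_mem _)
  obtain ⟨𝔪', h𝔪', hmem⟩ := exists_maximal_over χ (isIntegral_chi h χ) (mIdeal f₀) hker
  obtain ⟨hES, hcoeff⟩ := isEigensystem_normalized v hv0 χ hχ
  refine ⟨(ModularFormClass.qCoeff ⇑v 1)⁻¹ • v, isNormalizedEigenform_of_eigensystem _ hES,
    𝔪', h𝔪', ?_, ?_⟩
  · apply hmem ((3 : ℤ) : HeckeAlg N) (three_mem_mIdeal hf₀int)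
    rw [map_intCast]
    push_cast
    rfl
  · intro ℓ hℓ hℓN
    refine ⟨⟨χ (heckeAlgebra.T hℓ hℓN (Set.notMem_empty ℓ)), isIntegral_chi h χ _⟩, ?_, ?_⟩
    · exact (hcoeff ℓ hℓ hℓN).symm
    · apply hmem (heckeAlgebra.T hℓ hℓN (Set.notMem_empty ℓ) - ((a ℓ : ℤ) : HeckeAlg N))
      · rw [mem_mIdeal, sub_intCast_apply]
        exact hT ℓ hℓ hℓN
      · rw [map_sub, map_intCast]
        push_cast
        rfl

end Fermat.Agent.S49
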