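import Fermat.Agent.S49_Lattice

set_option autoImplicit false

open CuspForm CongruenceSubgroup ModularFormClass

namespace Fermat.Agent.S49

noncomputable section

variable {N : ℕ} [NeZero N]

abbrev HeckeAlg (N : ℕ) [NeZero N] : Type := ↥(heckeAlgebra N 2 (∅ : Set ℕ))

local notation "V" => CuspForm (Gamma0 N) 2
local notation "𝕋" => HeckeAlg N

def mIdeal (f₀ : V) : Ideal 𝕋 where
  carrier := {t | IsDiv3 ((t : Module.End ℂ V) f₀)}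
  add_mem' := by
    intro s t hs ht
    show IsDiv3 (((s + t : 𝕋) : Module.End ℂ V) f₀)
    have : ((s + t : 𝕋) : Module.End ℂ V) f₀ =
        (s : Module.End ℂ V) f₀ + (t : Module.End ℂ V) f₀ := rfl
    rw [this]
    exact IsDiv3.add hs ht
  zero_mem' := by
    show IsDiv3 (((0 : 𝕋) : Module.End ℂ V) f₀)
    have : ((0 : 𝕋) : Module.End ℂ V) f₀ = 0 := rfl
    rw [this]
    exact isDiv3_zero
  smul_mem' := by
    intro s t ht
    show IsDiv3 (((s * t : 𝕋) : Module.End ℂ V) f₀)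
    have : ((s * t : 𝕋) : Module.End ℂ V) f₀ =
        (s : Module.End ℂ V) ((t : Module.End ℂ V) f₀) := rfl
    rw [this]
    exact IsDiv3.hecke s.2 ht

theorem mem_mIdeal (f₀ : V) (t : 𝕋) :
    t ∈ mIdeal f₀ ↔ IsDiv3 ((t : Module.End ℂ V) f₀) := Iff.rfl

theorem intCast_apply (c : ℤ) (f : V) : (((c : 𝕋) : Module.End ℂ V)) f = c • f := by
  have : ((c : 𝕋) : Module.End ℂ V) = (c : Module.End ℂ V) := rfl
  rw [this]
  rw [← Int.cast_smul_eq_zsmul ℂ]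
  have h2 : (c : Module.End ℂ V) = algebraMap ℂ (Module.End ℂ V) (c : ℂ) := by
    simp
  rw [h2, Module.algebraMap_end_apply]

theorem sub_intCast_apply (t : 𝕋) (c : ℤ) (f : V) :
    ((t - (c : 𝕋) : 𝕋) : Module.End ℂ V) f = (t : Module.End ℂ V) f - c • f := by
  have : ((t - (c : 𝕋) : 𝕋) : Module.End ℂ V) f =
      (t : Module.End ℂ V) f - ((c : 𝕋) : Module.End ℂ V) f := rfl
  rw [this, intCast_apply]

theorem three_mem_mIdeal {f₀ : V} (hf₀ : IsInt f₀) : ((3 : ℤ) : 𝕋) ∈ mIdeal f₀ := by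
  rw [mem_mIdeal, intCast_apply]
  exact hf₀.three_zsmul

theorem exists_int_sub_mem {f₀ : V} (a : ℕ → ℤ)
    (hT : ∀ (ℓ : ℕ) (hℓ : ℓ.Prime) (hℓN : ¬ ℓ ∣ N),
      IsDiv3 (heckeTLin 2 hℓ hℓN f₀ - (a ℓ) • f₀))
    (hU : ∀ (ℓ : ℕ) (_ : ℓ.Prime) (hℓN : ℓ ∣ N),
      IsDiv3 (heckeULin 2 hℓN f₀ - (a ℓ) • f₀))
    (t : 𝕋) : ∃ c : ℤ, t - (c : 𝕋) ∈ mIdeal f₀ := by
  obtain ⟨t, ht⟩ := t
  induction ht using Algebra.adjoin_induction with
  | mem x hx =>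
    rcases hx with ⟨ℓ, hℓ, hℓN, -, rfl⟩ | ⟨q, hqN, hq, -, rfl⟩
    · refine ⟨a ℓ, ?_⟩
      rw [mem_mIdeal, sub_intCast_apply]
      exact hT ℓ hℓ hℓN
    · refine ⟨a q, ?_⟩
      rw [mem_mIdeal, sub_intCast_apply]
      exact hU q hq hqN
  | algebraMap r =>
    refine ⟨r, ?_⟩
    rw [mem_mIdeal, sub_intCast_apply]
    have : (algebraMap ℤ (Module.End ℂ V) r) f₀ = r • f₀ := by
      have h2 : algebraMap ℤ (Module.End ℂ V) r = algebraMap ℂ (Module.End ℂ V) (r : ℂ) := by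
        simp
      rw [h2, Module.algebraMap_end_apply, Int.cast_smul_eq_zsmul]
    show IsDiv3 ((algebraMap ℤ (Module.End ℂ V) r) f₀ - r • f₀)
    rw [this, sub_self]
    exact isDiv3_zero
  | add x y hx hy ihx ihy =>
    obtain ⟨c, hc⟩ := ihx
    obtain ⟨d, hd⟩ := ihy
    refine ⟨c + d, ?_⟩
    have := (mIdeal f₀).add_mem hc hd
    convert this using 1
    apply Subtype.ext
    push_cast
    show x + y - ((c : 𝕋) + (d : 𝕋) : 𝕋).1 = (x - (c : 𝕋).1) + (y - (d : 𝕋).1)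
    show x + y - ((c : 𝕋).1 + (d : 𝕋).1) = (x - (c : 𝕋).1) + (y - (d : 𝕋).1)
    abel
  | mul x y hx hy ihx ihy =>
    obtain ⟨c, hc⟩ := ihx
    obtain ⟨d, hd⟩ := ihy
    refine ⟨c * d, ?_⟩
    have h1 := (mIdeal f₀).mul_mem_left ⟨x, hx⟩ hd
    have h2 := (mIdeal f₀).mul_mem_left (d : 𝕋) hc
    have := (mIdeal f₀).add_mem h1 h2
    convert this using 1
    have e : (⟨x * y, Subalgebra.mul_mem _ hx hy⟩ : 𝕋) = ⟨x, hx⟩ * ⟨y, hy⟩ := rfl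
    rw [e]
    push_cast
    ring

theorem one_notMem_mIdeal {f₀ : V} (h1 : ∀ m : ℤ, qCoeff ⇑f₀ 1 ≠ 3 * (m : ℂ)) :
    (1 : 𝕋) ∉ mIdeal f₀ := by
  intro h
  rw [mem_mIdeal] at h
  obtain ⟨m, hm⟩ := h 1
  exact h1 m hm

theorem mIdeal_isMaximal {f₀ : V} (hf₀ : IsInt f₀) (h1 : ∀ m : ℤ, qCoeff ⇑f₀ 1 ≠ 3 * (m : ℂ))
    (hall : ∀ t : 𝕋, ∃ c : ℤ, t - (c : 𝕋) ∈ mIdeal f₀) : (mIdeal f₀).IsMaximal := by
  rw [Ideal.isMaximal_iff]
  refine ⟨one_notMem_mIdeal h1, ?_⟩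
  intro J x hJ hx hxJ
  obtain ⟨c, hc⟩ := hall x
  have h3 : ((3 : ℤ) : 𝕋) ∈ J := hJ (three_mem_mIdeal hf₀)
  have hcJ : (c : 𝕋) ∈ J := by
    have := J.sub_mem hxJ (hJ hc)
    simpa using this
  have hc3 : ¬ (3 : ℤ) ∣ c := by
    rintro ⟨d, rfl⟩
    apply hx
    have : x = (x - ((3 * d : ℤ) : 𝕋)) + ((3 : ℤ) : 𝕋) * ((d : ℤ) : 𝕋) := by
      push_cast
      ring
    rw [this]
    exact (mIdeal f₀).add_mem hc ((mIdeal f₀).mul_mem_right _ (three_mem_mIdeal hf₀))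
  have hcop : IsCoprime c 3 := by
    rw [Int.isCoprime_iff_gcd_eq_one]
    have hp : Nat.Prime 3 := by norm_num
    have := (Nat.Prime.coprime_iff_not_dvd hp (n := c.natAbs)).2 (by
      intro hd
      apply hc3
      exact Int.natCast_dvd.mpr hd)
    rw [Nat.coprime_comm] at this
    exact this
  obtain ⟨u, v, huv⟩ := hcop
  have : (1 : 𝕋) = ((u : ℤ) : 𝕋) * (c : 𝕋) + ((v : ℤ) : 𝕋) * ((3 : ℤ) : 𝕋) := by
    have := congrArg (fun z : ℤ => (z : 𝕋)) huv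
    push_cast at this
    rw [← this]
    push_cast
    ring
  rw [this]
  exact J.add_mem (J.mul_mem_left _ hcJ) (J.mul_mem_left _ h3)

end

end Fermat.Agent.S49
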