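import Fermat.Agent.S49_Ideal

set_option autoImplicit false

open CuspForm CongruenceSubgroup ModularFormClass EisensteinWeightOne

namespace Fermat.Agent.S49

noncomputable section

theorem isIntegral_of_hom {A B : Type*} [Ring A] [Ring B] (φ : A →+* B)
    (hφ : Function.Injective φ) (χ : A →+* ℂ) (t : A) (h : IsIntegral ℤ (φ t)) :
    IsIntegral ℤ (χ t) := by
  have ht : IsIntegral ℤ t := (isIntegral_algHom_iff φ.toIntAlgHom hφ).mp h
  exact map_isIntegral_int χ ht

theorem exists_maximal_over {A : Type*} [CommRing A] (χ : A →+* ℂ)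
    (hint : ∀ a, IsIntegral ℤ (χ a)) (𝔪 : Ideal A) [𝔪.IsPrime] (hker : RingHom.ker χ ≤ 𝔪) :
    ∃ 𝔪' : Ideal (integralClosure ℤ ℂ), 𝔪'.IsMaximal ∧
      ∀ a ∈ 𝔪, ∀ c : integralClosure ℤ ℂ, (c : ℂ) = χ a → c ∈ 𝔪' := by
  let χ' : A →+* integralClosure ℤ ℂ := χ.codRestrict (integralClosure ℤ ℂ) hint
  let _ : Algebra A (integralClosure ℤ ℂ) := χ'.toAlgebra
  have : Algebra.IsIntegral A (integralClosure ℤ ℂ) := Algebra.IsIntegral.tower_top ℤ
  have hcomap : Ideal.comap (algebraMap A (integralClosure ℤ ℂ)) ⊥ ≤ 𝔪 := by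
    intro x hx
    apply hker
    rw [RingHom.mem_ker]
    have : χ' x = 0 := hx
    have h2 := congrArg Subtype.val this
    exact h2
  obtain ⟨Q, -, hQ, hQc⟩ := Ideal.exists_ideal_over_prime_of_isIntegral 𝔪
    (⊥ : Ideal (integralClosure ℤ ℂ)) hcomap
  obtain ⟨M, hM, hQM⟩ := Ideal.exists_le_maximal Q hQ.ne_top
  refine ⟨M, hM, fun a ha c hc => hQM ?_⟩
  have hc' : c = χ' a := Subtype.ext hc
  rw [hc']
  have : a ∈ Ideal.comap (algebraMap A (integralClosure ℤ ℂ)) Q := by
    rw [hQc]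
    exact ha
  exact this

variable {N : ℕ} [NeZero N]

local notation "V" => CuspForm (Gamma0 N) 2
local notation "𝕋" => HeckeAlg N

def rhoHecke (N : ℕ) [NeZero N] : HeckeAlg N →+* Module.End ℂ (CuspForm (Gamma0 N) 2) where
  toFun t := t.1
  map_one' := rfl
  map_mul' _ _ := rfl
  map_zero' := rfl
  map_add' _ _ := rfl

theorem rhoHecke_injective : Function.Injective (rhoHecke N) := fun _ _ h => Subtype.ext h

omit [NeZero N] in
theorem hasIntegralStructure_of_basis (h : CuspForm.HasIntegralBasis N) :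
    CuspForm.HasIntegralStructure N 2 := by
  rw [CuspForm.HasIntegralStructure, eq_top_iff]
  rw [CuspForm.HasIntegralBasis] at h
  rw [← h]
  apply Submodule.span_mono
  intro f hf
  apply Submodule.subset_span
  intro n
  obtain ⟨m, hm⟩ := Subring.mem_bot.mp (hf n)
  exact ⟨m, hm.symm⟩

theorem isIntegral_chi (h : CuspForm.HasIntegralBasis N) (χ : 𝕋 →+* ℂ) (t : 𝕋) :
    IsIntegral ℤ (χ t) := by
  have := intLattice.moduleFinite N
  apply isIntegral_of_hom (latticeActionHom N (∅ : Set ℕ))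
    (latticeActionHom_injective N ∅ (hasIntegralStructure_of_basis h)) χ t
  exact Algebra.IsIntegral.isIntegral _

theorem bridge_coeff (a : ℕ → ℤ) (n : ℕ) :
    (3 : ℤ) ∣ (bridgeProduct a).coeff n - a n := by
  set E' : PowerSeries ℤ := PowerSeries.mk fun n => if n = 0 then 0 else 2 * sigmaChi n with hE'
  have hE : e1Chi3In ℤ = 1 + PowerSeries.C (3 : ℤ) * E' := by
    ext k
    simp only [e1Chi3In, e1Chi3, PowerSeries.coeff_map, PowerSeries.coeff_mk, map_add,
      PowerSeries.coeff_one, PowerSeries.coeff_C_mul, hE', Int.coe_castRingHom, Int.cast_id]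
    split_ifs <;> ring
  have hprod : PowerSeries.mk a * (1 + PowerSeries.C (3 : ℤ) * E') =
      PowerSeries.mk a + PowerSeries.C (3 : ℤ) * (PowerSeries.mk a * E') := by ring
  rw [bridgeProduct, hE, hprod, map_add, PowerSeries.coeff_mk, PowerSeries.coeff_C_mul]
  exact ⟨(PowerSeries.coeff n) (PowerSeries.mk a * E'), by ring⟩

theorem chi_congr (ℓ : ℕ) : (3 : ℤ) ∣ (ℓ : ℤ) - chiNegThree ℓ := by
  unfold chiNegThree
  split_ifs <;> omega

end

end Fermat.Agent.S49
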