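import Mathlib

set_option autoImplicit false
set_option linter.style.haveILetI false

namespace Fermat.Agent.S49_helper2_DS

open scoped IsMulCommutative in
theorem exists_eigen_char {T : Type*} [CommRing T] {V : Type*} [AddCommGroup V] [Module ℂ V]
    [FiniteDimensional ℂ V]
    (ι : T →+* Module.End ℂ V) (hι : Function.Injective ι) (𝔪 : Ideal T) [h𝔪 : 𝔪.IsPrime] :
    ∃ (v : V) (χ : T →+* ℂ), v ≠ 0 ∧ (∀ t, ι t v = χ t • v) ∧ RingHom.ker χ ≤ 𝔪 := by
  classical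
  let A : Subalgebra ℂ (Module.End ℂ V) := Algebra.adjoin ℂ (Set.range ι)
  have hcomm : ∀ a ∈ Set.range ι, ∀ b ∈ Set.range ι, Commute a b := by
    rintro _ ⟨s, rfl⟩ _ ⟨t, rfl⟩
    show ι s * ι t = ι t * ι s
    rw [← map_mul, ← map_mul, mul_comm]
  have : IsMulCommutative A := Algebra.isMulCommutative_adjoin ℂ hcomm
  let _ : CommRing A := inferInstance
  have : Module.Finite ℂ A := inferInstance
  have : IsArtinianRing A := IsArtinianRing.of_finite ℂ A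
  have : IsNoetherianRing A := inferInstance
  have : Module.Finite A V := Module.Finite.of_restrictScalars_finite ℂ A V
  let ι' : T →+* A := ι.codRestrict A.toSubring (fun t => Algebra.subset_adjoin ⟨t, rfl⟩)
  have hι' : ∀ t, ((ι' t : A) : Module.End ℂ V) = ι t := fun t => rfl
  have hι'inj : Function.Injective ι' := fun s t h => hι (by rw [← hι', ← hι', h])
  have hdisj : Disjoint ((⊥ : Ideal A) : Set A) (𝔪.primeCompl.map (ι' : T →* A)) := by
    rw [Set.disjoint_left]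
    rintro a ha ⟨s, hs, rfl⟩
    have h0 : ι' s = 0 := ha
    have : s = 0 := hι'inj (by rw [h0, map_zero])
    exact hs (this ▸ 𝔪.zero_mem)
  obtain ⟨𝔫, h𝔫prime, -, h𝔫disj⟩ := Ideal.exists_le_prime_disjoint (⊥ : Ideal A) _ hdisj
  have hle : 𝔫.comap ι' ≤ 𝔪 := by
    intro t ht
    by_contra htm
    exact Set.disjoint_left.mp h𝔫disj ht ⟨t, htm, rfl⟩
  have h𝔫max : 𝔫.IsMaximal := IsArtinianRing.isMaximal_of_isPrime 𝔫
  have hann : Module.annihilator A V = ⊥ := by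
    rw [eq_bot_iff]
    intro a ha
    rw [Module.mem_annihilator] at ha
    rw [Ideal.mem_bot]
    apply Subtype.ext
    apply LinearMap.ext
    intro v
    exact ha v
  have hmin : 𝔫 ∈ (Module.annihilator A V).minimalPrimes := by
    rw [hann]
    refine ⟨⟨h𝔫prime, bot_le⟩, ?_⟩
    rintro 𝔮 ⟨h𝔮prime, -⟩ h𝔮le
    have h𝔮max : 𝔮.IsMaximal := IsArtinianRing.isMaximal_of_isPrime 𝔮
    exact (h𝔮max.eq_of_le h𝔫prime.ne_top h𝔮le).ge
  have hass : IsAssociatedPrime 𝔫 V :=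
    Module.associatedPrimes.minimalPrimes_annihilator_subset_associatedPrimes A V hmin
  obtain ⟨-, x, hx⟩ := isAssociatedPrime_iff.mp hass
  have hx0 : x ≠ 0 := by
    rintro rfl
    apply h𝔫prime.ne_top
    rw [hx, Ideal.eq_top_iff_one, Submodule.mem_colon_singleton]
    simp
  have hxkill : ∀ a ∈ 𝔫, (a : Module.End ℂ V) x = 0 := by
    intro a ha
    rw [hx, Submodule.mem_colon_singleton] at ha
    exact ha
  let _ : Field (A ⧸ 𝔫) := Ideal.Quotient.field 𝔫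
  have : Algebra.IsIntegral ℂ (A ⧸ 𝔫) := inferInstance
  have hbij : Function.Bijective (algebraMap ℂ (A ⧸ 𝔫)) :=
    IsAlgClosed.algebraMap_bijective_of_isIntegral
  let e : ℂ ≃+* (A ⧸ 𝔫) := RingEquiv.ofBijective (algebraMap ℂ (A ⧸ 𝔫)) hbij
  let χA : A →+* ℂ := (e.symm : (A ⧸ 𝔫) →+* ℂ).comp (Ideal.Quotient.mk 𝔫)
  have hχA : ∀ a : A, a - algebraMap ℂ A (χA a) ∈ 𝔫 := by
    intro a
    rw [← Ideal.Quotient.eq]
    have : algebraMap ℂ (A ⧸ 𝔫) (χA a) = Ideal.Quotient.mk 𝔫 a := e.apply_symm_apply _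
    rw [← this]
    rfl
  refine ⟨x, χA.comp ι', hx0, ?_, ?_⟩
  · intro t
    have h1 := hxkill _ (hχA (ι' t))
    have h2 : ((ι' t - algebraMap ℂ A (χA (ι' t)) : A) : Module.End ℂ V) x
        = ι t x - χA (ι' t) • x := by
      simp [hι', Module.algebraMap_end_apply]
    rw [h2, sub_eq_zero] at h1
    exact h1
  · intro t ht
    apply hle
    rw [Ideal.mem_comap]
    have h1 := hχA (ι' t)
    have h2 : χA (ι' t) = 0 := ht
    rw [h2, map_zero, sub_zero] at h1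
    exact h1

theorem exists_eigen_lift {T : Type*} [CommRing T] {V : Type*} [AddCommGroup V] [Module ℂ V]
    [FiniteDimensional ℂ V]
    (ι : T →+* Module.End ℂ V) (hι : Function.Injective ι) (hint : ∀ t : T, IsIntegral ℤ t)
    (𝔪 : Ideal T) [h𝔪 : 𝔪.IsMaximal] :
    ∃ (v : V) (χ : T →+* integralClosure ℤ ℂ) (𝔪' : Ideal (integralClosure ℤ ℂ)),
      v ≠ 0 ∧ (∀ t, ι t v = ((χ t : integralClosure ℤ ℂ) : ℂ) • v) ∧
      𝔪'.IsMaximal ∧ 𝔪'.comap χ = 𝔪 := by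
  obtain ⟨v, χ₀, hv, heig, hker⟩ := exists_eigen_char ι hι 𝔪
  have hχint : ∀ t, χ₀ t ∈ integralClosure ℤ ℂ := fun t =>
    (hint t).map χ₀.toIntAlgHom
  let χ : T →+* integralClosure ℤ ℂ :=
    χ₀.codRestrict (integralClosure ℤ ℂ).toSubring hχint
  have hχ : ∀ t, ((χ t : integralClosure ℤ ℂ) : ℂ) = χ₀ t := fun t => rfl
  letI : Algebra T (integralClosure ℤ ℂ) := χ.toAlgebra
  have hintT : Algebra.IsIntegral T (integralClosure ℤ ℂ) := by
    constructor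
    intro x
    have hx : IsIntegral ℤ x := Algebra.IsIntegral.isIntegral x
    exact hx.tower_top
  have hkerχ : RingHom.ker (algebraMap T (integralClosure ℤ ℂ)) ≤ 𝔪 := by
    intro t ht
    apply hker
    rw [RingHom.mem_ker] at ht ⊢
    have : χ t = 0 := ht
    rw [← hχ, this]
    rfl
  obtain ⟨𝔪', h𝔪'max, h𝔪'comap⟩ := Ideal.exists_ideal_over_maximal_of_isIntegral 𝔪 hkerχ
  exact ⟨v, χ, 𝔪', hv, fun t => by rw [hχ]; exact heig t, h𝔪'max, h𝔪'comap⟩

theorem exists_eigen_lift_iff {T : Type*} [CommRing T] {V : Type*} [AddCommGroup V]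
    [Module ℂ V] [FiniteDimensional ℂ V]
    (ι : T →+* Module.End ℂ V) (hι : Function.Injective ι) (hint : ∀ t : T, IsIntegral ℤ t)
    (𝔪 : Ideal T) [h𝔪 : 𝔪.IsMaximal] :
    ∃ (v : V) (χ : T →+* integralClosure ℤ ℂ) (𝔪' : Ideal (integralClosure ℤ ℂ)),
      v ≠ 0 ∧ (∀ t, ι t v = ((χ t : integralClosure ℤ ℂ) : ℂ) • v) ∧
      𝔪'.IsMaximal ∧ ∀ t, χ t ∈ 𝔪' ↔ t ∈ 𝔪 := by
  obtain ⟨v, χ, 𝔪', hv, heig, hmax, hcomap⟩ := exists_eigen_lift ι hι hint 𝔪
  refine ⟨v, χ, 𝔪', hv, heig, hmax, fun t => ?_⟩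
  rw [← hcomap, Ideal.mem_comap]

end Fermat.Agent.S49_helper2_DS
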