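import Mathlib

set_option autoImplicit false

namespace Fermat.Agent.S51_helper19_T1

/-- `S m n`: the point `X = m / n` lifts to a rational point with `Y ≠ 0`
on `Y ^ 2 = X (X - 1) (X - 81)`. -/
def S (m n : ℤ) : Prop :=
  ∃ k : ℤ, k ≠ 0 ∧ m * n * (m - n) * (m - 81 * n) = k ^ 2

lemma sq_dvd_of_mul_sq_eq {e Z W : ℤ} (h : e ^ 2 * Z = W ^ 2) (he : e ≠ 0) :
    ∃ w : ℤ, W = e * w ∧ Z = w ^ 2 := by
  have hd : e ^ 2 ∣ W ^ 2 := ⟨Z, h.symm⟩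
  have hd' : e ∣ W := (Int.pow_dvd_pow_iff (by norm_num)).mp hd
  obtain ⟨w, rfl⟩ := hd'
  refine ⟨w, rfl, ?_⟩
  have he2 : e ^ 2 ≠ 0 := pow_ne_zero 2 he
  apply mul_left_cancel₀ he2
  rw [h]; ring

/-- Halving lemma. -/
lemma S_halve {a b c e : ℤ} (he : e ≠ 0) (h1 : a ^ 2 - b ^ 2 = e ^ 2)
    (h2 : a ^ 2 - c ^ 2 = 81 * e ^ 2) (hac : a + c ≠ 0) (hbc : b + c ≠ 0) :
    S (a + c) (a - b) := by
  have hab : a - b ≠ 0 := by
    intro h
    have : e ^ 2 = 0 := by rw [← h1]; have : a = b := by linarith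
                           rw [this]; ring
    exact he (by simpa using this)
  have key : e ^ 2 * ((a + c) * (a - b) * ((a + c) - (a - b)) * ((a + c) - 81 * (a - b)))
      = ((a + c) * (a - b) * (b + c)) ^ 2 := by
    linear_combination (-((a + c) * (a - b) * (b + c)) * (a + c)) * h1
      + ((a + c) * (a - b) * (b + c) * (a - b)) * h2
  obtain ⟨w, hw, hZ⟩ := sq_dvd_of_mul_sq_eq key he
  refine ⟨w, ?_, hZ⟩
  rintro rfl
  have : (a + c) * (a - b) * (b + c) = 0 := by rw [hw]; ring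
  have h3 := mul_ne_zero (mul_ne_zero hac hab) hbc
  exact h3 this

/-! ### Congruence lemmas -/

lemma three_dvd_of_sq_add_sq {a c : ℤ} (h : (3 : ℤ) ∣ a ^ 2 + c ^ 2) : (3 : ℤ) ∣ a ∧ (3 : ℤ) ∣ c := by
  have h0 : ((a ^ 2 + c ^ 2 : ℤ) : ZMod 3) = 0 :=
    (ZMod.intCast_zmod_eq_zero_iff_dvd _ 3).mpr (by exact_mod_cast h)
  push_cast at h0
  have key : ∀ x y : ZMod 3, x ^ 2 + y ^ 2 = 0 → x = 0 ∧ y = 0 := by decide
  obtain ⟨ha, hc⟩ := key _ _ h0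
  exact ⟨by exact_mod_cast (ZMod.intCast_zmod_eq_zero_iff_dvd a 3).mp ha,
    by exact_mod_cast (ZMod.intCast_zmod_eq_zero_iff_dvd c 3).mp hc⟩

lemma nine_dvd_of_sq_add_sq {a c E : ℤ} (h : a ^ 2 + c ^ 2 = 81 * E) :
    ∃ a₂ c₂ : ℤ, a = 9 * a₂ ∧ c = 9 * c₂ ∧ a₂ ^ 2 + c₂ ^ 2 = E := by
  obtain ⟨⟨a₁, rfl⟩, ⟨c₁, rfl⟩⟩ := three_dvd_of_sq_add_sq (a := a) (c := c) ⟨27 * E, by rw [h]; ring⟩
  have h' : a₁ ^ 2 + c₁ ^ 2 = 9 * E := by linarith
  obtain ⟨⟨a₂, rfl⟩, ⟨c₂, rfl⟩⟩ := three_dvd_of_sq_add_sq (a := a₁) (c := c₁) ⟨3 * E, by rw [h']; ring⟩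
  exact ⟨a₂, c₂, by ring, by ring, by linarith⟩

lemma nine_dvd_of_sq_sub_five_sq {a c E : ℤ} (h : a ^ 2 - 5 * c ^ 2 = 81 * E) :
    ∃ a₂ c₂ : ℤ, a = 9 * a₂ ∧ c = 9 * c₂ ∧ a₂ ^ 2 - 5 * c₂ ^ 2 = E := by
  obtain ⟨⟨a₁, rfl⟩, ⟨c₁, rfl⟩⟩ := three_dvd_of_sq_add_sq (a := a) (c := c)
    ⟨27 * E + 2 * c ^ 2, by linear_combination h⟩
  have h' : a₁ ^ 2 - 5 * c₁ ^ 2 = 9 * E := by linarith
  obtain ⟨⟨a₂, rfl⟩, ⟨c₂, rfl⟩⟩ := three_dvd_of_sq_add_sq (a := a₁) (c := c₁)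
    ⟨3 * E + 2 * c₁ ^ 2, by linear_combination h'⟩
  exact ⟨a₂, c₂, by ring, by ring, by linarith⟩

/-! ### The four descent steps -/

lemma descent_pos0 {a b c e : ℤ} (ha : 0 < a) (hb : 0 < b) (hc : 0 < c) (he : 0 < e)
    (h1 : a ^ 2 - e ^ 2 = b ^ 2) (h2 : a ^ 2 - 81 * e ^ 2 = c ^ 2) :
    ∃ m' n' : ℤ, S m' n' ∧ |m'| < a ^ 2 ∧ |n'| < a ^ 2 := by
  have hca : c < a := by nlinarith
  have hba : b < a := by nlinarith
  have ha2 : 2 ≤ a := by nlinarith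
  refine ⟨a + c, a - b, S_halve (a := a) (b := b) (c := c) (e := e) he.ne' (by linarith)
    (by linarith) (by positivity) (by positivity), ?_, ?_⟩
  · rw [abs_of_pos (by linarith)]; nlinarith
  · rw [abs_of_pos (by linarith)]; nlinarith

lemma descent_neg0 {a b c e : ℤ} (ha : 0 < a) (hb : 0 < b) (hc : 0 < c) (he : 0 < e)
    (h1 : e ^ 2 - a ^ 2 = b ^ 2) (h2 : 81 * e ^ 2 - a ^ 2 = c ^ 2) :
    ∃ m' n' : ℤ, S m' n' ∧ |m'| < e ^ 2 ∧ |n'| < e ^ 2 := by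
  obtain ⟨a₂, c₂, rfl, rfl, h3⟩ := nine_dvd_of_sq_add_sq (a := a) (c := c) (E := e ^ 2)
    (by linarith)
  have ha₂ : 0 < a₂ := by linarith
  have hc₂ : 0 < c₂ := by linarith
  have hbe : b < e := by nlinarith
  have hce : c₂ < e := by nlinarith
  have he2 : 2 ≤ e := by nlinarith
  refine ⟨e + b, e - c₂, S_halve (a := e) (b := c₂) (c := b) (e := a₂) ha₂.ne' (by linarith)
    (by linarith) (by positivity) (by positivity), ?_, ?_⟩
  · rw [abs_of_pos (by linarith)]; nlinarith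
  · rw [abs_of_pos (by linarith)]; nlinarith

lemma descent_pos1 {a b c e : ℤ} (ha : 0 < a) (hb : 0 < b) (hc : 0 < c) (he : 0 < e)
    (h1 : a ^ 2 - e ^ 2 = 5 * b ^ 2) (h2 : a ^ 2 - 81 * e ^ 2 = 5 * c ^ 2) :
    ∃ m' n' : ℤ, S m' n' ∧ |m'| < a ^ 2 ∧ |n'| < a ^ 2 := by
  obtain ⟨a₂, c₂, rfl, rfl, h3⟩ := nine_dvd_of_sq_sub_five_sq (a := a) (c := c) (E := e ^ 2)
    (by linarith)
  have ha₂ : 0 < a₂ := by linarith
  have hc₂ : 0 < c₂ := by linarith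
  have hea : e < a₂ := by nlinarith
  have hb1 : 4 * a₂ < b := by nlinarith
  have hb2 : b < 5 * a₂ := by nlinarith
  refine ⟨b + 4 * e, b - 4 * a₂, S_halve (a := b) (b := 4 * a₂) (c := 4 * e) (e := c₂) hc₂.ne'
    (by linarith) (by linarith) (by positivity) (by positivity), ?_, ?_⟩
  · rw [abs_of_pos (by linarith)]; nlinarith
  · rw [abs_of_pos (by linarith)]; nlinarith

lemma descent_neg1 {a b c e : ℤ} (ha : 0 < a) (hb : 0 < b) (hc : 0 < c) (he : 0 < e)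
    (h1 : e ^ 2 - a ^ 2 = 5 * b ^ 2) (h2 : 81 * e ^ 2 - a ^ 2 = 5 * c ^ 2) :
    ∃ m' n' : ℤ, S m' n' ∧ |m'| < e ^ 2 ∧ |n'| < e ^ 2 := by
  have hae : a < e := by nlinarith
  have he3 : 3 ≤ e := by nlinarith
  have hc1 : 4 * e < c := by nlinarith
  have hc2 : 4 * a < c := by nlinarith
  have hc3 : c < 5 * e := by nlinarith
  refine ⟨c + (-(4 * a)), c - 4 * e, S_halve (a := c) (b := 4 * e) (c := -(4 * a)) (e := b) hb.ne'
    (by linarith) (by linarith) (by linarith) (by linarith), ?_, ?_⟩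
  · rw [abs_of_pos (by linarith)]; nlinarith
  · rw [abs_of_pos (by linarith)]; nlinarith

/-! ### Classification -/

lemma eq_sq_of_coprime_of_pos {A D w : ℤ} (hcop : IsCoprime A D) (hA : 0 < A)
    (h : A * D = w ^ 2) : ∃ a : ℤ, 0 < a ∧ A = a ^ 2 := by
  obtain ⟨a₀, ha₀ | ha₀⟩ := Int.sq_of_isCoprime hcop h
  · have hne : a₀ ≠ 0 := by
      rintro rfl
      simp at ha₀
      omega
    exact ⟨|a₀|, abs_pos.mpr hne, by rw [sq_abs]; exact ha₀⟩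
  · exfalso
    have : 0 ≤ a₀ ^ 2 := sq_nonneg _
    linarith

lemma classify_n {m n : ℤ} (hcop : IsCoprime m n) (hn : 0 < n) (hS : S m n) :
    ∃ e k₁ : ℤ, 0 < e ∧ n = e ^ 2 ∧ k₁ ≠ 0 ∧ m * (m - n) * (m - 81 * n) = k₁ ^ 2 := by
  obtain ⟨k, hk, hprod⟩ := hS
  have h1 : IsCoprime n m := hcop.symm
  have h2 : IsCoprime n (m - n) := by
    have := h1.add_mul_left_right (-1)
    have e : m + n * -1 = m - n := by ring
    rwa [e] at this
  have h3 : IsCoprime n (m - 81 * n) := by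
    have := h1.add_mul_left_right (-81)
    have e : m + n * -81 = m - 81 * n := by ring
    rwa [e] at this
  have h4 : IsCoprime n (m * (m - n) * (m - 81 * n)) := (h1.mul_right h2).mul_right h3
  have heq : n * (m * (m - n) * (m - 81 * n)) = k ^ 2 := by rw [← hprod]; ring
  obtain ⟨e, he, hne⟩ := eq_sq_of_coprime_of_pos h4 hn heq
  subst hne
  obtain ⟨w, hw, hZ⟩ := sq_dvd_of_mul_sq_eq heq he.ne'
  refine ⟨e, w, he, rfl, ?_, hZ⟩
  rintro rfl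
  exact hk (by rw [hw]; ring)

lemma classify_m_aux {g r A₀ e k₁ : ℤ} (hgr : g * r = 81) (hg : 0 < g) (hA₀ : 0 < A₀)
    (hcop1 : IsCoprime A₀ e) (hcop2 : IsCoprime A₀ r)
    (h : (g * A₀) * (g * A₀ - e ^ 2) * (g * A₀ - 81 * e ^ 2) = k₁ ^ 2) :
    ∃ a₀ t₀ : ℤ, 0 < a₀ ∧ A₀ = a₀ ^ 2 ∧
      a₀ ^ 2 * (g * a₀ ^ 2 - 82 * e ^ 2) + r * e ^ 4 = t₀ ^ 2 := by
  have key : g ^ 2 * (A₀ * (A₀ * (g * A₀ - 82 * e ^ 2) + r * e ^ 4)) = k₁ ^ 2 := by
    rw [← h]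
    linear_combination (g * A₀ * e ^ 4) * hgr
  obtain ⟨w, -, hw⟩ := sq_dvd_of_mul_sq_eq key hg.ne'
  have hcop : IsCoprime A₀ (A₀ * (g * A₀ - 82 * e ^ 2) + r * e ^ 4) := by
    have h1 : IsCoprime A₀ (r * e ^ 4) := hcop2.mul_right hcop1.pow_right
    exact h1.mul_add_left_right _
  obtain ⟨a₀, ha₀, hAa⟩ := eq_sq_of_coprime_of_pos hcop hA₀ hw
  rw [hAa] at hw
  obtain ⟨t₀, -, ht₀⟩ := sq_dvd_of_mul_sq_eq hw ha₀.ne'
  exact ⟨a₀, t₀, ha₀, hAa, ht₀⟩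

lemma not_three_dvd_of_coprime {A e : ℤ} (hcop : IsCoprime A (e ^ 2)) (h3 : (3 : ℤ) ∣ A) :
    ¬ (3 : ℤ) ∣ e := by
  intro h
  have h3e : (3 : ℤ) ∣ e ^ 2 := dvd_pow h (by norm_num)
  have := hcop.isUnit_of_dvd' h3 h3e
  rw [Int.isUnit_iff] at this
  omega

lemma isCoprime_three_pow {A : ℤ} (h : ¬ (3 : ℤ) ∣ A) (n : ℕ) : IsCoprime A (3 ^ n) := by
  have : IsCoprime (3 : ℤ) A := (Prime.coprime_iff_not_dvd Int.prime_three).mpr h
  exact this.symm.pow_right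

lemma mod_three_contra {a e t g r : ℤ} (ha : ¬ (3 : ℤ) ∣ a) (he : ¬ (3 : ℤ) ∣ e)
    (hg : (3 : ℤ) ∣ g) (hr : (3 : ℤ) ∣ r)
    (h : a ^ 2 * (g * a ^ 2 - 82 * e ^ 2) + r * e ^ 4 = t ^ 2) : False := by
  have ha' : (a : ZMod 3) ≠ 0 := fun h0 =>
    ha (by exact_mod_cast (ZMod.intCast_zmod_eq_zero_iff_dvd a 3).mp h0)
  have he' : (e : ZMod 3) ≠ 0 := fun h0 =>
    he (by exact_mod_cast (ZMod.intCast_zmod_eq_zero_iff_dvd e 3).mp h0)
  have hg' : (g : ZMod 3) = 0 := (ZMod.intCast_zmod_eq_zero_iff_dvd g 3).mpr (by exact_mod_cast hg)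
  have hr' : (r : ZMod 3) = 0 := (ZMod.intCast_zmod_eq_zero_iff_dvd r 3).mpr (by exact_mod_cast hr)
  have h' := congrArg (Int.cast : ℤ → ZMod 3) h
  push_cast at h'
  rw [hg', hr'] at h'
  have key : ∀ x y z : ZMod 3, x ≠ 0 → y ≠ 0 →
      x ^ 2 * (0 * x ^ 2 - 82 * y ^ 2) + 0 * y ^ 4 ≠ z ^ 2 := by decide
  exact key _ _ _ ha' he' h'

lemma classify_m {m e k₁ : ℤ} (hcop : IsCoprime m (e ^ 2)) (he : 0 < e) (hk : k₁ ≠ 0)
    (h : m * (m - e ^ 2) * (m - 81 * e ^ 2) = k₁ ^ 2) :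
    ∃ a t : ℤ, 0 < a ∧ m = a ^ 2 ∧ t ≠ 0 ∧ (a ^ 2 - e ^ 2) * (a ^ 2 - 81 * e ^ 2) = t ^ 2 := by
  have hme : IsCoprime m e := (IsCoprime.pow_right_iff (by norm_num : 0 < 2)).mp hcop
  have hmpos : 0 < m := by
    by_contra hm
    rw [not_lt] at hm
    have hm0 : m ≠ 0 := by
      rintro rfl
      apply hk
      have : k₁ ^ 2 = 0 := by rw [← h]; ring
      simpa using this
    have hm' : m < 0 := lt_of_le_of_ne hm hm0
    have he2 : 0 < e ^ 2 := by positivity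
    have h1 : m - e ^ 2 < 0 := by linarith
    have h2 : m - 81 * e ^ 2 < 0 := by linarith
    have h3 : 0 < m * (m - e ^ 2) := mul_pos_of_neg_of_neg hm' h1
    have h4 : m * (m - e ^ 2) * (m - 81 * e ^ 2) < 0 := mul_neg_of_pos_of_neg h3 h2
    have h5 : 0 ≤ k₁ ^ 2 := sq_nonneg _
    linarith
  -- the final assembling step
  have finish : ∀ a : ℤ, 0 < a → m = a ^ 2 →
      ∃ a t : ℤ, 0 < a ∧ m = a ^ 2 ∧ t ≠ 0 ∧ (a ^ 2 - e ^ 2) * (a ^ 2 - 81 * e ^ 2) = t ^ 2 := by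
    intro a ha hma
    have h' : a ^ 2 * ((a ^ 2 - e ^ 2) * (a ^ 2 - 81 * e ^ 2)) = k₁ ^ 2 := by
      rw [← h, hma]; ring
    obtain ⟨t, ht, hZ⟩ := sq_dvd_of_mul_sq_eq h' ha.ne'
    refine ⟨a, t, ha, hma, ?_, hZ⟩
    rintro rfl
    exact hk (by rw [ht]; ring)
  by_cases d1 : (3 : ℤ) ∣ m
  swap
  · -- g = 1
    obtain ⟨a₀, t₀, ha₀, hA, -⟩ := classify_m_aux (g := 1) (r := 81) (A₀ := m) (e := e)
      (k₁ := k₁) (by norm_num) (by norm_num) hmpos hme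
      (by have := isCoprime_three_pow d1 4; norm_num at this; exact this)
      (by rw [← h]; ring)
    exact finish a₀ ha₀ hA
  have h3e : ¬ (3 : ℤ) ∣ e := not_three_dvd_of_coprime hcop d1
  obtain ⟨m₁, rfl⟩ := d1
  have hm₁pos : 0 < m₁ := by linarith
  have hm₁e : IsCoprime m₁ e := hme.of_mul_left_right
  by_cases d2 : (3 : ℤ) ∣ m₁
  swap
  · -- g = 3 : contradiction
    exfalso
    obtain ⟨a₀, t₀, ha₀, hA, ht₀⟩ := classify_m_aux (g := 3) (r := 27) (A₀ := m₁) (e := e)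
      (k₁ := k₁) (by norm_num) (by norm_num) hm₁pos hm₁e
      (by have := isCoprime_three_pow d2 3; norm_num at this; exact this)
      (by rw [← h])
    have ha3 : ¬ (3 : ℤ) ∣ a₀ := fun hd => d2 (by rw [hA]; exact dvd_pow hd (by norm_num))
    exact mod_three_contra ha3 h3e (by norm_num) (by norm_num) ht₀
  obtain ⟨m₂, rfl⟩ := d2
  have hm₂pos : 0 < m₂ := by linarith
  have hm₂e : IsCoprime m₂ e := hm₁e.of_mul_left_right
  by_cases d3 : (3 : ℤ) ∣ m₂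
  swap
  · -- g = 9
    obtain ⟨a₀, t₀, ha₀, hA, -⟩ := classify_m_aux (g := 9) (r := 9) (A₀ := m₂) (e := e)
      (k₁ := k₁) (by norm_num) (by norm_num) hm₂pos hm₂e
      (by have := isCoprime_three_pow d3 2; norm_num at this; exact this)
      (by rw [← h]; ring)
    exact finish (3 * a₀) (by linarith) (by rw [hA]; ring)
  obtain ⟨m₃, rfl⟩ := d3
  have hm₃pos : 0 < m₃ := by linarith
  have hm₃e : IsCoprime m₃ e := hm₂e.of_mul_left_right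
  by_cases d4 : (3 : ℤ) ∣ m₃
  swap
  · -- g = 27 : contradiction
    exfalso
    obtain ⟨a₀, t₀, ha₀, hA, ht₀⟩ := classify_m_aux (g := 27) (r := 3) (A₀ := m₃) (e := e)
      (k₁ := k₁) (by norm_num) (by norm_num) hm₃pos hm₃e
      (by have := isCoprime_three_pow d4 1; norm_num at this; exact this)
      (by rw [← h]; ring)
    have ha3 : ¬ (3 : ℤ) ∣ a₀ := fun hd => d4 (by rw [hA]; exact dvd_pow hd (by norm_num))
    exact mod_three_contra ha3 h3e (by norm_num) (by norm_num) ht₀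
  obtain ⟨m₄, rfl⟩ := d4
  have hm₄pos : 0 < m₄ := by linarith
  have hm₄e : IsCoprime m₄ e := hm₃e.of_mul_left_right
  -- g = 81
  obtain ⟨a₀, t₀, ha₀, hA, -⟩ := classify_m_aux (g := 81) (r := 1) (A₀ := m₄) (e := e)
    (k₁ := k₁) (by norm_num) (by norm_num) hm₄pos hm₄e isCoprime_one_right
    (by rw [← h]; ring)
  exact finish (9 * a₀) (by linarith) (by rw [hA]; ring)

lemma parity_lemma {a e : ℤ} (hcop : IsCoprime a e) (h2 : (2 : ℤ) ∣ a ^ 2 - e ^ 2) :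
    (8 : ℤ) ∣ a ^ 2 - e ^ 2 ∧ (8 : ℤ) ∣ a ^ 2 - 81 * e ^ 2 ∧ ¬ (2 : ℤ) ∣ e := by
  have hnot : ¬ ((2 : ℤ) ∣ a ∧ (2 : ℤ) ∣ e) := by
    rintro ⟨h1, h2⟩
    have := hcop.isUnit_of_dvd' h1 h2
    rw [Int.isUnit_iff] at this
    omega
  have e1 : (4 : ZMod 8) * ((a : ZMod 8) ^ 2 - (e : ZMod 8) ^ 2) = 0 := by
    have : ((4 * (a ^ 2 - e ^ 2) : ℤ) : ZMod 8) = 0 := by
      rw [ZMod.intCast_zmod_eq_zero_iff_dvd]
      obtain ⟨k, hk⟩ := h2
      exact ⟨k, by push_cast; rw [hk]; ring⟩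
    push_cast at this
    exact this
  have e2 : ¬ ((4 : ZMod 8) * (a : ZMod 8) = 0 ∧ (4 : ZMod 8) * (e : ZMod 8) = 0) := by
    rintro ⟨h1, h2⟩
    apply hnot
    constructor
    · have : ((4 * a : ℤ) : ZMod 8) = 0 := by push_cast; exact h1
      rw [ZMod.intCast_zmod_eq_zero_iff_dvd] at this
      obtain ⟨k, hk⟩ := this
      exact ⟨k, by push_cast at hk; linarith⟩
    · have : ((4 * e : ℤ) : ZMod 8) = 0 := by push_cast; exact h2
      rw [ZMod.intCast_zmod_eq_zero_iff_dvd] at this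
      obtain ⟨k, hk⟩ := this
      exact ⟨k, by push_cast at hk; linarith⟩
  have key : ∀ x y : ZMod 8, 4 * (x ^ 2 - y ^ 2) = 0 → ¬(4 * x = 0 ∧ 4 * y = 0) →
      x ^ 2 - y ^ 2 = 0 ∧ x ^ 2 - 81 * y ^ 2 = 0 ∧ 4 * y ≠ 0 := by decide
  obtain ⟨k1, k2, k3⟩ := key _ _ e1 e2
  refine ⟨?_, ?_, ?_⟩
  · have : ((a ^ 2 - e ^ 2 : ℤ) : ZMod 8) = 0 := by push_cast; exact k1
    exact_mod_cast (ZMod.intCast_zmod_eq_zero_iff_dvd _ 8).mp this
  · have : ((a ^ 2 - 81 * e ^ 2 : ℤ) : ZMod 8) = 0 := by push_cast; exact k2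
    exact_mod_cast (ZMod.intCast_zmod_eq_zero_iff_dvd _ 8).mp this
  · rintro ⟨k, rfl⟩
    apply k3
    have : ((4 * (2 * k) : ℤ) : ZMod 8) = 0 := by
      rw [ZMod.intCast_zmod_eq_zero_iff_dvd]
      exact ⟨k, by push_cast; ring⟩
    push_cast at this
    push_cast
    exact this

lemma mod_four_contra {b c e r : ℤ} (he : ¬ (2 : ℤ) ∣ e) (hr : r = 10 ∨ r = 2)
    (h : b ^ 2 - c ^ 2 = r * e ^ 2) : False := by
  have he' : (2 : ZMod 4) * (e : ZMod 4) ≠ 0 := by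
    intro h0
    apply he
    have : ((2 * e : ℤ) : ZMod 4) = 0 := by push_cast; exact h0
    rw [ZMod.intCast_zmod_eq_zero_iff_dvd] at this
    obtain ⟨k, hk⟩ := this
    exact ⟨k, by push_cast at hk; linarith⟩
  have h' := congrArg (Int.cast : ℤ → ZMod 4) h
  push_cast at h'
  have key : ∀ x y z : ZMod 4, 2 * z ≠ 0 → x ^ 2 - y ^ 2 ≠ 10 * z ^ 2 ∧
      x ^ 2 - y ^ 2 ≠ 2 * z ^ 2 := by decide
  obtain ⟨k1, k2⟩ := key (b : ZMod 4) (c : ZMod 4) (e : ZMod 4) he'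
  rcases hr with rfl | rfl
  · apply k1; simpa using h'
  · apply k2; simpa using h'

/-- The four admissible classes. -/
def Cls (a e b c : ℤ) : Prop :=
  (a ^ 2 - e ^ 2 = b ^ 2 ∧ a ^ 2 - 81 * e ^ 2 = c ^ 2) ∨
  (e ^ 2 - a ^ 2 = b ^ 2 ∧ 81 * e ^ 2 - a ^ 2 = c ^ 2) ∨
  (a ^ 2 - e ^ 2 = 5 * b ^ 2 ∧ a ^ 2 - 81 * e ^ 2 = 5 * c ^ 2) ∨
  (e ^ 2 - a ^ 2 = 5 * b ^ 2 ∧ 81 * e ^ 2 - a ^ 2 = 5 * c ^ 2)

lemma classify_BC {a e t : ℤ} (hcop : IsCoprime a e) (ht : t ≠ 0)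
    (h : (a ^ 2 - e ^ 2) * (a ^ 2 - 81 * e ^ 2) = t ^ 2) :
    ∃ b c : ℤ, 0 < b ∧ 0 < c ∧ Cls a e b c := by
  have hBne : a ^ 2 - e ^ 2 ≠ 0 := by
    intro h0
    rw [h0, zero_mul] at h
    exact ht (by simpa using h.symm)
  have hCne : a ^ 2 - 81 * e ^ 2 ≠ 0 := by
    intro h0
    rw [h0, mul_zero] at h
    exact ht (by simpa using h.symm)
  have hgpos : 0 < Int.gcd (a ^ 2 - e ^ 2) (a ^ 2 - 81 * e ^ 2) :=
    Int.gcd_pos_of_ne_zero_left _ hBne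
  obtain ⟨B₀, C₀, hcop₀, hB, hC⟩ := Int.exists_gcd_one hgpos
  have hdB := Int.gcd_dvd_left (a ^ 2 - e ^ 2) (a ^ 2 - 81 * e ^ 2)
  have hdC := Int.gcd_dvd_right (a ^ 2 - e ^ 2) (a ^ 2 - 81 * e ^ 2)
  have hd8 : ∀ x : ℤ, x ∣ a ^ 2 - e ^ 2 → x ∣ a ^ 2 - 81 * e ^ 2 →
      x ∣ (Int.gcd (a ^ 2 - e ^ 2) (a ^ 2 - 81 * e ^ 2) : ℤ) := fun x h1 h2 =>
    Int.dvd_coe_gcd h1 h2
  generalize Int.gcd (a ^ 2 - e ^ 2) (a ^ 2 - 81 * e ^ 2) = g at hgpos hB hC hdB hdC hd8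
  have hgz : (0 : ℤ) < (g : ℤ) := by exact_mod_cast hgpos
  have hcop₀' : IsCoprime B₀ C₀ := Int.isCoprime_iff_gcd_eq_one.mpr hcop₀
  -- g divides 80
  have hBe : IsCoprime (a ^ 2 - e ^ 2) (e ^ 2) := by
    have h1 : IsCoprime (e ^ 2) (a ^ 2) := hcop.symm.pow
    have := h1.add_mul_left_right (-1)
    have e' : a ^ 2 + e ^ 2 * -1 = a ^ 2 - e ^ 2 := by ring
    rw [e'] at this
    exact this.symm
  have hge : IsCoprime (g : ℤ) (e ^ 2) := hBe.of_isCoprime_of_dvd_left hdB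
  have hg80 : (g : ℤ) ∣ 80 := by
    apply hge.dvd_of_dvd_mul_right
    have : (g : ℤ) ∣ (a ^ 2 - e ^ 2) - (a ^ 2 - 81 * e ^ 2) := dvd_sub hdB hdC
    have e' : (a ^ 2 - e ^ 2) - (a ^ 2 - 81 * e ^ 2) = 80 * e ^ 2 := by ring
    rwa [e'] at this
  have hg80' : g ∣ 80 := by exact_mod_cast hg80
  have hmem : g ∈ ({1, 2, 4, 5, 8, 10, 16, 20, 40, 80} : Finset ℕ) := by
    have hd : Nat.divisors 80 = {1, 2, 4, 5, 8, 10, 16, 20, 40, 80} := by decide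
    rw [← hd]
    exact Nat.mem_divisors.mpr ⟨hg80', by norm_num⟩
  -- B₀ * C₀ is a nonzero square
  have hprod : (g : ℤ) ^ 2 * (B₀ * C₀) = t ^ 2 := by
    rw [← h]
    linear_combination (-(a ^ 2 - 81 * e ^ 2)) * hB + (-(B₀ * (g : ℤ))) * hC
  obtain ⟨w, hw, hBC⟩ := sq_dvd_of_mul_sq_eq hprod hgz.ne'
  have hwne : w ≠ 0 := by
    rintro rfl
    exact ht (by rw [hw]; ring)
  have hB₀ne : B₀ ≠ 0 := by
    rintro rfl
    apply hwne
    have : w ^ 2 = 0 := by rw [← hBC]; ring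
    simpa using this
  have hC₀ne : C₀ ≠ 0 := by
    rintro rfl
    apply hwne
    have : w ^ 2 = 0 := by rw [← hBC]; ring
    simpa using this
  obtain ⟨b₀, hb₀⟩ := Int.sq_of_isCoprime hcop₀' hBC
  obtain ⟨c₀, hc₀⟩ := Int.sq_of_isCoprime hcop₀'.symm (by rw [mul_comm]; exact hBC)
  have hb₀ne : b₀ ≠ 0 := by
    rintro rfl
    rcases hb₀ with h1 | h1 <;> exact hB₀ne (by rw [h1]; ring)
  have hc₀ne : c₀ ≠ 0 := by
    rintro rfl
    rcases hc₀ with h1 | h1 <;> exact hC₀ne (by rw [h1]; ring)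
  have hb₀pos : 0 < |b₀| := abs_pos.mpr hb₀ne
  have hc₀pos : 0 < |c₀| := abs_pos.mpr hc₀ne
  have hb₀sq : 0 < b₀ ^ 2 := by positivity
  have hc₀sq : 0 < c₀ ^ 2 := by positivity
  have hw2 : 0 < w ^ 2 := by positivity
  -- sign analysis
  have hsign : (B₀ = b₀ ^ 2 ∧ C₀ = c₀ ^ 2) ∨ (B₀ = -b₀ ^ 2 ∧ C₀ = -c₀ ^ 2) := by
    rcases hb₀ with h1 | h1 <;> rcases hc₀ with h2 | h2
    · exact Or.inl ⟨h1, h2⟩
    · exfalso
      rw [h1, h2] at hBC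
      nlinarith
    · exfalso
      rw [h1, h2] at hBC
      nlinarith
    · exact Or.inr ⟨h1, h2⟩
  have hdiff : (B₀ - C₀) * (g : ℤ) = 80 * e ^ 2 := by
    linear_combination hC - hB
  -- the two good shapes
  have fin0 : ∀ j : ℤ, 0 < j → (g : ℤ) = j ^ 2 → ∃ b c : ℤ, 0 < b ∧ 0 < c ∧ Cls a e b c := by
    intro j hj hgj
    refine ⟨j * |b₀|, j * |c₀|, by positivity, by positivity, ?_⟩
    rcases hsign with ⟨h1, h2⟩ | ⟨h1, h2⟩
    · left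
      refine ⟨?_, ?_⟩
      · rw [hB, h1, hgj, mul_pow, sq_abs]; ring
      · rw [hC, h2, hgj, mul_pow, sq_abs]; ring
    · right; left
      refine ⟨?_, ?_⟩
      · have : a ^ 2 - e ^ 2 = -(j * |b₀|) ^ 2 := by
          rw [hB, h1, hgj, mul_pow, sq_abs]; ring
        linarith
      · have : a ^ 2 - 81 * e ^ 2 = -(j * |c₀|) ^ 2 := by
          rw [hC, h2, hgj, mul_pow, sq_abs]; ring
        linarith
  have fin1 : ∀ j : ℤ, 0 < j → (g : ℤ) = 5 * j ^ 2 →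
      ∃ b c : ℤ, 0 < b ∧ 0 < c ∧ Cls a e b c := by
    intro j hj hgj
    refine ⟨j * |b₀|, j * |c₀|, by positivity, by positivity, ?_⟩
    rcases hsign with ⟨h1, h2⟩ | ⟨h1, h2⟩
    · right; right; left
      refine ⟨?_, ?_⟩
      · rw [hB, h1, hgj, mul_pow, sq_abs]; ring
      · rw [hC, h2, hgj, mul_pow, sq_abs]; ring
    · right; right; right
      refine ⟨?_, ?_⟩
      · have : a ^ 2 - e ^ 2 = -(5 * (j * |b₀|) ^ 2) := by
          rw [hB, h1, hgj, mul_pow, sq_abs]; ring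
        linarith
      · have : a ^ 2 - 81 * e ^ 2 = -(5 * (j * |c₀|) ^ 2) := by
          rw [hC, h2, hgj, mul_pow, sq_abs]; ring
        linarith
  -- the bad shapes
  have bad2 : (2 : ℤ) ∣ (g : ℤ) → ¬ (8 : ℤ) ∣ (g : ℤ) → False := by
    intro h2 h8
    have hpar := parity_lemma hcop (h2.trans hdB)
    exact h8 (hd8 8 hpar.1 hpar.2.1)
  have bad8 : ∀ r : ℤ, (r = 10 ∨ r = 2) → (2 : ℤ) ∣ (g : ℤ) → (g : ℤ) * r = 80 → False := by
    intro r hr h2 hgr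
    have hpar := parity_lemma hcop (h2.trans hdB)
    have hBCr : B₀ - C₀ = r * e ^ 2 := by
      apply mul_left_cancel₀ hgz.ne'
      linear_combination hdiff - e ^ 2 * hgr
    rcases hsign with ⟨h1, h2⟩ | ⟨h1, h2⟩
    · rw [h1, h2] at hBCr
      exact mod_four_contra hpar.2.2 hr hBCr
    · rw [h1, h2] at hBCr
      exact mod_four_contra (b := c₀) (c := b₀) hpar.2.2 hr (by linarith)
  simp only [Finset.mem_insert, Finset.mem_singleton] at hmem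
  rcases hmem with rfl | rfl | rfl | rfl | rfl | rfl | rfl | rfl | rfl | rfl
  · exact fin0 1 (by norm_num) (by norm_num)
  · exact (bad2 (by norm_num) (by norm_num)).elim
  · exact (bad2 (by norm_num) (by norm_num)).elim
  · exact fin1 1 (by norm_num) (by norm_num)
  · exact (bad8 10 (Or.inl rfl) (by norm_num) (by norm_num)).elim
  · exact (bad2 (by norm_num) (by norm_num)).elim
  · exact fin0 4 (by norm_num) (by norm_num)
  · exact (bad2 (by norm_num) (by norm_num)).elim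
  · exact (bad8 2 (Or.inr rfl) (by norm_num) (by norm_num)).elim
  · exact fin1 4 (by norm_num) (by norm_num)

/-! ### Reduction to lowest terms and the descent -/

lemma S_neg {m n : ℤ} (hS : S m n) : S (-m) (-n) := by
  obtain ⟨k, hk, h⟩ := hS
  exact ⟨k, hk, by rw [← h]; ring⟩

lemma S_reduce {m n : ℤ} (hS : S m n) :
    ∃ m₀ n₀ : ℤ, IsCoprime m₀ n₀ ∧ 0 < n₀ ∧ S m₀ n₀ ∧ |m₀| ≤ |m| ∧ |n₀| ≤ |n| := by
  obtain ⟨k, hk, hprod⟩ := hS
  have hn : n ≠ 0 := by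
    rintro rfl
    apply hk
    have : k ^ 2 = 0 := by rw [← hprod]; ring
    simpa using this
  have hgpos : 0 < Int.gcd m n := Int.gcd_pos_iff.mpr (Or.inr hn)
  obtain ⟨m₁, n₁, hcop, hm, hn'⟩ := Int.exists_gcd_one hgpos
  generalize Int.gcd m n = g at hgpos hm hn'
  have hgz : (0 : ℤ) < (g : ℤ) := by exact_mod_cast hgpos
  have hg1 : (1 : ℤ) ≤ (g : ℤ) := hgz
  have key : ((g : ℤ) ^ 2) ^ 2 * (m₁ * n₁ * (m₁ - n₁) * (m₁ - 81 * n₁)) = k ^ 2 := by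
    rw [← hprod, hm, hn']; ring
  obtain ⟨w, hw, hZ⟩ := sq_dvd_of_mul_sq_eq key (pow_ne_zero 2 hgz.ne')
  have hwne : w ≠ 0 := by
    rintro rfl
    exact hk (by rw [hw]; ring)
  have hS₁ : S m₁ n₁ := ⟨w, hwne, hZ⟩
  have hcop' : IsCoprime m₁ n₁ := Int.isCoprime_iff_gcd_eq_one.mpr hcop
  have hn₁ : n₁ ≠ 0 := by
    rintro rfl
    exact hn (by rw [hn']; ring)
  have hm_le : |m₁| ≤ |m| := by
    rw [hm, abs_mul, abs_of_pos hgz]
    nlinarith [abs_nonneg m₁]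
  have hn_le : |n₁| ≤ |n| := by
    rw [hn', abs_mul, abs_of_pos hgz]
    nlinarith [abs_nonneg n₁]
  rcases lt_or_gt_of_ne hn₁ with h | h
  · exact ⟨-m₁, -n₁, hcop'.neg_neg, by linarith, S_neg hS₁, by rwa [abs_neg], by rwa [abs_neg]⟩
  · exact ⟨m₁, n₁, hcop', h, hS₁, hm_le, hn_le⟩

theorem no_S_aux : ∀ N : ℕ, ∀ m n : ℤ, |m| < (N : ℤ) → |n| < (N : ℤ) → ¬ S m n := by
  intro N
  induction N with
  | zero =>
    intro m n hm _ _
    have := abs_nonneg m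
    simp at hm
    linarith
  | succ N ih =>
    intro m n hm hn hS
    obtain ⟨m₀, n₀, hcop, hn₀, hS₀, hm₀le, hn₀le⟩ := S_reduce hS
    obtain ⟨e, k₁, he, rfl, hk₁, hk⟩ := classify_n hcop hn₀ hS₀
    obtain ⟨a, t, ha, rfl, ht, hBC⟩ := classify_m hcop he hk₁ hk
    have hae : IsCoprime a e := (IsCoprime.pow_iff (by norm_num) (by norm_num)).mp hcop
    obtain ⟨b, c, hb, hc, hcls⟩ := classify_BC hae ht hBC
    have hA : a ^ 2 ≤ (N : ℤ) := by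
      have h1 : |a ^ 2| = a ^ 2 := abs_of_nonneg (sq_nonneg a)
      push_cast at hm
      linarith
    have hE : e ^ 2 ≤ (N : ℤ) := by
      have h1 : |e ^ 2| = e ^ 2 := abs_of_nonneg (sq_nonneg e)
      push_cast at hn
      linarith
    rcases hcls with ⟨h1, h2⟩ | ⟨h1, h2⟩ | ⟨h1, h2⟩ | ⟨h1, h2⟩
    · obtain ⟨m', n', hS', hm', hn'⟩ := descent_pos0 ha hb hc he h1 h2
      exact ih m' n' (by linarith) (by linarith) hS'
    · obtain ⟨m', n', hS', hm', hn'⟩ := descent_neg0 ha hb hc he h1 h2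
      exact ih m' n' (by linarith) (by linarith) hS'
    · obtain ⟨m', n', hS', hm', hn'⟩ := descent_pos1 ha hb hc he h1 h2
      exact ih m' n' (by linarith) (by linarith) hS'
    · obtain ⟨m', n', hS', hm', hn'⟩ := descent_neg1 ha hb hc he h1 h2
      exact ih m' n' (by linarith) (by linarith) hS'

theorem no_S (m n : ℤ) : ¬ S m n := by
  apply no_S_aux (|m| + |n| + 1).toNat m n
  · have h1 := abs_nonneg m
    have h2 := abs_nonneg n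
    rw [Int.toNat_of_nonneg (by linarith)]
    linarith
  · have h1 := abs_nonneg m
    have h2 := abs_nonneg n
    rw [Int.toNat_of_nonneg (by linarith)]
    linarith

/-! ### Rational points -/

/-- A rational number whose square is an integer is an integer. -/
lemma exists_int_of_sq_eq_int {q : ℚ} {I : ℤ} (h : q ^ 2 = (I : ℚ)) : ∃ k : ℤ, q = (k : ℚ) := by
  have hden : (q ^ 2).den = 1 := by rw [h]; exact Rat.den_intCast I
  rw [Rat.den_pow] at hden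
  have hd1 : q.den = 1 := (Nat.pow_eq_one.mp hden).resolve_right (by norm_num)
  exact ⟨q.num, by
    conv_lhs => rw [← Rat.num_div_den q]
    rw [hd1]; simp⟩

/-- The only rational points on `Y ^ 2 = X (X - 1) (X - 81)` have `Y = 0`. -/
theorem ratPoints_aux (X Y : ℚ) (h : Y ^ 2 = X * (X - 1) * (X - 81)) : Y = 0 := by
  by_contra hY
  have hden : (X.den : ℚ) ≠ 0 := by exact_mod_cast X.den_nz
  have hX : (X.num : ℚ) = X * (X.den : ℚ) := (Rat.mul_den_eq_num X).symm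
  have key : ((X.den : ℚ) ^ 2 * Y) ^ 2 =
      ((X.num * (X.den : ℤ) * (X.num - (X.den : ℤ)) * (X.num - 81 * (X.den : ℤ)) : ℤ) : ℚ) := by
    push_cast
    rw [hX]
    linear_combination ((X.den : ℚ) ^ 4) * h
  obtain ⟨k, hk⟩ := exists_int_of_sq_eq_int key
  have hk0 : k ≠ 0 := by
    rintro rfl
    have : (X.den : ℚ) ^ 2 * Y = 0 := by rw [hk]; simp
    rcases mul_eq_zero.mp this with h1 | h1
    · exact hden (pow_eq_zero_iff (by norm_num) |>.mp h1)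
    · exact hY h1
  apply no_S X.num (X.den : ℤ)
  refine ⟨k, hk0, ?_⟩
  rw [hk] at key
  exact_mod_cast key.symm

/-- The rational points on `y ^ 2 = x (x + 9) (x - 16)` (the curve `15a`). -/
theorem ratPoints_15a (x y : ℚ) (h : y ^ 2 = x * (x + 9) * (x - 16)) :
    x = 0 ∨ x = -9 ∨ x = 16 ∨ x = 36 ∨ x = -4 := by
  by_cases hx : x = 16
  · exact Or.inr (Or.inr (Or.inl hx))
  have hx' : x - 16 ≠ 0 := sub_ne_zero.mpr hx
  have key := ratPoints_aux (x * (x + 9) / (x - 16)) (y * (x + 4) * (x - 36) / (x - 16) ^ 2) (by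
    rw [div_pow, mul_pow, mul_pow, h]
    field_simp
    ring)
  have h0 : y * (x + 4) * (x - 36) = 0 := by
    have h2 : (x - 16) ^ 2 ≠ 0 := pow_ne_zero 2 hx'
    rcases div_eq_zero_iff.mp key with h3 | h3
    · exact h3
    · exact (h2 h3).elim
  rcases mul_eq_zero.mp h0 with h1 | h1
  · rcases mul_eq_zero.mp h1 with h2 | h2
    · rw [h2] at h
      have h3 : x * (x + 9) * (x - 16) = 0 := by rw [← h]; ring
      rcases mul_eq_zero.mp h3 with h4 | h4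
      · rcases mul_eq_zero.mp h4 with h5 | h5
        · exact Or.inl h5
        · exact Or.inr (Or.inl (by linarith))
      · exact (hx' h4).elim
    · exact Or.inr (Or.inr (Or.inr (Or.inr (by linarith))))
  · exact Or.inr (Or.inr (Or.inr (Or.inl (by linarith))))

/-- Same statement in the normalisation `Y ^ 2 = p (9 p - 4) (4 p + 1)`. -/
theorem ratPoints_X0_15 (p Y : ℚ) (h : Y ^ 2 = p * (9 * p - 4) * (4 * p + 1)) :
    p = 0 ∨ p = -1 / 4 ∨ p = 4 / 9 ∨ p = 1 ∨ p = -1 / 9 := by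
  have key := ratPoints_15a (36 * p) (36 * Y) (by linear_combination 1296 * h)
  rcases key with h1 | h1 | h1 | h1 | h1
  · exact Or.inl (by linarith)
  · exact Or.inr (Or.inl (by linarith))
  · exact Or.inr (Or.inr (Or.inl (by linarith)))
  · exact Or.inr (Or.inr (Or.inr (Or.inl (by linarith))))
  · exact Or.inr (Or.inr (Or.inr (Or.inr (by linarith))))

/-- Piece T1 of the S51 plan, in the exact shape requested. -/
theorem T1_rational_points (X Y : ℚ) (h : Y ^ 2 = X * (X + 9) * (X - 16)) :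
    X = 0 ∨ X = -9 ∨ X = 16 ∨ X = 36 ∨ X = -4 :=
  ratPoints_15a X Y h

/-- Piece T1 of the S51 plan, `p`-form. -/
theorem T1_p_form (p Y : ℚ) (h : Y ^ 2 = p * (9 * p - 4) * (4 * p + 1)) :
    p = 0 ∨ p = -1 / 4 ∨ p = 4 / 9 ∨ p = 1 ∨ p = -1 / 9 :=
  ratPoints_X0_15 p Y h

end Fermat.Agent.S51_helper19_T1
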