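import Mathlib

set_option autoImplicit false

namespace Fermat.Agent.S51_helper4_Defs

section poly
variable {K : Type*} [Field K]

/-- `ψ₂² = 4x³ + b₂x² + 2b₄x + b₆`. -/
def Bp (b2 b4 b6 x : K) : K := 4 * x ^ 3 + b2 * x ^ 2 + 2 * b4 * x + b6

/-- numerator of the duplication formula: `x(2P) = Ap(x) / Bp(x)`. -/
def Ap (b4 b6 b8 x : K) : K := x ^ 4 - b4 * x ^ 2 - 2 * b6 * x - b8

/-- the third division polynomial. -/
def psi3 (b2 b4 b6 b8 x : K) : K := 3 * x ^ 4 + b2 * x ^ 3 + 3 * b4 * x ^ 2 + 3 * b6 * x + b8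

/-- discriminant in terms of the `b`'s. -/
def Dl (b2 b4 b6 b8 : K) : K := -b2 ^ 2 * b8 - 8 * b4 ^ 3 - 27 * b6 ^ 2 + 9 * b2 * b4 * b6

/-- the level 15 coordinate `p`. -/
def pfun (x0 x1 x2 : K) : K := (x0 - x1) * (x0 - x2) / (x1 - x2) ^ 2

/-- the level 15 coordinate `Y₀` (satisfies `Y₀² = p(9p-4)(4p+1)`). -/
def Yfun (b2 b4 b6 x0 x1 x2 : K) : K :=
  ((x0 - x1) / (x2 - x1)) * (2 * ((x0 - x1) / (x2 - x1)) - 1) *
    (2 * ((x2 - x1) ^ 3 / Bp b2 b4 b6 x1) * ((x0 - x1) / (x2 - x1)) +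
      3 * (((x0 - x1) / (x2 - x1)) - 1) ^ 2) / (((x0 - x1) / (x2 - x1)) - 1)

/-- the level 5 Hauptmodul `t₅ = Δ / (x₁ - x₂)⁶`. -/
def tfun (b2 b4 b6 b8 x1 x2 : K) : K := Dl b2 b4 b6 b8 / (x1 - x2) ^ 6

end poly

end Fermat.Agent.S51_helper4_Defs
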