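import Mathlib
import Fermat.Agent.S51_helper4_Defs

set_option autoImplicit false

namespace Fermat.Agent.S51_helper24_T5Id

open Fermat.Agent.S51_helper4_Defs

section identities

variable {K : Type*} [Field K]

def Q4 (b2 b4 b6 b8 x : K) : K :=
  2 * x ^ 6 + b2 * x ^ 5 + 5 * b4 * x ^ 4 + 10 * b6 * x ^ 3 + 10 * b8 * x ^ 2 +
    (b2 * b8 - b4 * b6) * x + (b4 * b8 - b6 ^ 2)

def psi5 (b2 b4 b6 b8 x : K) : K :=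
  Bp b2 b4 b6 x ^ 2 * Q4 b2 b4 b6 b8 x - psi3 b2 b4 b6 b8 x ^ 3

variable [CharZero K] (b2 b4 b6 b8 x : K)

theorem b8_eq (hb : 4 * b8 = b2 * b6 - b4 ^ 2) : b8 = (b2 * b6 - b4 ^ 2) / 4 := by
  field_simp
  linear_combination hb

omit [CharZero K] in
theorem psi3_eq : psi3 b2 b4 b6 b8 x = x * Bp b2 b4 b6 x - Ap b4 b6 b8 x := by
  simp only [psi3, Bp, Ap]
  ring

theorem ident_D4 (hb : 4 * b8 = b2 * b6 - b4 ^ 2) :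
    4 * Ap b4 b6 b8 x ^ 3 + b2 * Ap b4 b6 b8 x ^ 2 * Bp b2 b4 b6 x +
      2 * b4 * Ap b4 b6 b8 x * Bp b2 b4 b6 x ^ 2 + b6 * Bp b2 b4 b6 x ^ 3 =
    Q4 b2 b4 b6 b8 x ^ 2 := by
  obtain rfl := b8_eq b2 b4 b6 b8 hb
  simp only [Ap, Bp, Q4]
  ring

theorem ident_F (hb : 4 * b8 = b2 * b6 - b4 ^ 2) :
    Ap b4 b6 b8 x ^ 4 - b4 * Ap b4 b6 b8 x ^ 2 * Bp b2 b4 b6 x ^ 2 -
      2 * b6 * Ap b4 b6 b8 x * Bp b2 b4 b6 x ^ 3 - b8 * Bp b2 b4 b6 x ^ 4 -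
      x * Bp b2 b4 b6 x * (4 * Ap b4 b6 b8 x ^ 3 + b2 * Ap b4 b6 b8 x ^ 2 * Bp b2 b4 b6 x +
      2 * b4 * Ap b4 b6 b8 x * Bp b2 b4 b6 x ^ 2 + b6 * Bp b2 b4 b6 x ^ 3) =
    - (psi3 b2 b4 b6 b8 x * psi5 b2 b4 b6 b8 x) := by
  obtain rfl := b8_eq b2 b4 b6 b8 hb
  simp only [Ap, Bp, Q4, psi3, psi5]
  ring

theorem ident_bezout (hb : 4 * b8 = b2 * b6 - b4 ^ 2) :
    (-48 * x ^ 2 - 8 * x * b2 - 32 * b4 + b2 ^ 2) * Ap b4 b6 b8 x +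
      (12 * x ^ 3 - x ^ 2 * b2 - 10 * x * b4 - 27 * b6 + b2 * b4) * Bp b2 b4 b6 x =
    Dl b2 b4 b6 b8 := by
  obtain rfl := b8_eq b2 b4 b6 b8 hb
  simp only [Ap, Bp, Dl]
  ring

end identities

end Fermat.Agent.S51_helper24_T5Id
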