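import Mathlib
import Fermat.Agent.S51_helper4_Defs

set_option autoImplicit false
set_option linter.unusedSectionVars false
set_option linter.unusedSimpArgs false

namespace Fermat.Agent.S51_helper4_Dup

open WeierstrassCurve WeierstrassCurve.Affine Fermat.Agent.S51_helper4_Defs

variable {K : Type*} [Field K] [DecidableEq K] (E : WeierstrassCurve K)

lemma sq_eq_Bp {x y : K} (h : E.toAffine.Equation x y) :
    (y - E.toAffine.negY x y) ^ 2 = Bp E.b₂ E.b₄ E.b₆ x := by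
  rw [Affine.equation_iff] at h
  simp only [Bp, negY, WeierstrassCurve.b₂, WeierstrassCurve.b₄, WeierstrassCurve.b₆]
  linear_combination 4 * h

lemma Bp_eq_zero_iff {x y : K} (h : E.toAffine.Equation x y) :
    Bp E.b₂ E.b₄ E.b₆ x = 0 ↔ y = E.toAffine.negY x y := by
  rw [← sq_eq_Bp E h, sq_eq_zero_iff, sub_eq_zero]

lemma addX_mul_Bp {x y : K} (h : E.toAffine.Equation x y) (hy : y ≠ E.toAffine.negY x y) :
    E.toAffine.addX x x (E.toAffine.slope x x y y) * Bp E.b₂ E.b₄ E.b₆ x =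
      Ap E.b₄ E.b₆ E.b₈ x := by
  have hD : y - E.toAffine.negY x y ≠ 0 := sub_ne_zero.mpr hy
  rw [← sq_eq_Bp E h, slope_of_Y_ne rfl hy]
  rw [Affine.equation_iff] at h
  simp only [addX]
  field_simp
  simp only [Ap, negY, WeierstrassCurve.b₂, WeierstrassCurve.b₄, WeierstrassCurve.b₆,
    WeierstrassCurve.b₈]
  linear_combination (-(E.a₁ ^ 2 + 4 * E.a₂) - 8 * x) * h

theorem T4_two_smul_eq_zero {x y : K} (h : E.toAffine.Nonsingular x y)
    (hy : y = E.toAffine.negY x y) :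
    Bp E.b₂ E.b₄ E.b₆ x = 0 ∧ (2 : ℤ) • (Point.some x y h) = 0 := by
  refine ⟨(Bp_eq_zero_iff E h.1).mpr hy, ?_⟩
  rw [two_smul]
  exact Point.add_self_of_Y_eq hy

theorem T4_two_smul_some {x y : K} (h : E.toAffine.Nonsingular x y)
    (hy : y ≠ E.toAffine.negY x y) :
    Bp E.b₂ E.b₄ E.b₆ x ≠ 0 ∧
    ∃ (x' y' : K) (h' : E.toAffine.Nonsingular x' y'),
      (2 : ℤ) • (Point.some x y h) = Point.some x' y' h' ∧
      x' * Bp E.b₂ E.b₄ E.b₆ x = Ap E.b₄ E.b₆ E.b₈ x := by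
  refine ⟨fun h0 => hy ((Bp_eq_zero_iff E h.1).mp h0), ?_⟩
  refine ⟨_, _, nonsingular_add h h fun hxy => hy hxy.right, ?_, addX_mul_Bp E h.1 hy⟩
  rw [two_smul]
  exact Point.add_self_of_Y_ne hy

end Fermat.Agent.S51_helper4_Dup
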