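import Mathlib
import Fermat.Agent.S51_helper4_Defs
import Fermat.Agent.S51_helper4_Dup
import Fermat.Agent.S51_helper24_T5Id

set_option autoImplicit false
set_option linter.unusedSectionVars false

namespace Fermat.Agent.S51_helper24_T5

open WeierstrassCurve WeierstrassCurve.Affine Fermat.Agent.S51_helper4_Defs
  Fermat.Agent.S51_helper4_Dup Fermat.Agent.S51_helper24_T5Id
open Polynomial

section group

variable {G : Type*} [AddCommGroup G]

lemma eq_zero_of_two_five (P : G) (h2 : (2 : ℤ) • P = 0) (h5 : (5 : ℤ) • P = 0) : P = 0 := by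
  have : P = (5 : ℤ) • P - (2 : ℤ) • ((2 : ℤ) • P) := by
    rw [smul_smul, ← sub_smul]
    norm_num
  rw [this, h5, h2, smul_zero, sub_zero]

lemma eq_zero_of_four_five (P : G) (h4 : (2 : ℤ) • ((2 : ℤ) • P) = 0) (h5 : (5 : ℤ) • P = 0) :
    P = 0 := by
  have : P = (5 : ℤ) • P - (2 : ℤ) • ((2 : ℤ) • P) := by
    rw [smul_smul, ← sub_smul]
    norm_num
  rw [this, h5, h4, sub_zero]

lemma eq_zero_of_three_five (P : G) (h3 : P = -((2 : ℤ) • P)) (h5 : (5 : ℤ) • P = 0) :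
    P = 0 := by
  have h3' : (3 : ℤ) • P = 0 := by
    have : (3 : ℤ) • P = P + (2 : ℤ) • P := by
      rw [show (3 : ℤ) = 1 + 2 by norm_num, add_smul, one_smul]
    rw [this]
    nth_rewrite 1 [h3]
    exact neg_add_cancel _
  have : P = (2 : ℤ) • ((3 : ℤ) • P) - (5 : ℤ) • P := by
    rw [smul_smul, ← sub_smul]
    norm_num
  rw [this, h5, h3', smul_zero, sub_zero]

lemma four_eq_neg_of_five (P : G) (h5 : (5 : ℤ) • P = 0) : (2 : ℤ) • ((2 : ℤ) • P) = -P := by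
  have : (2 : ℤ) • ((2 : ℤ) • P) = (5 : ℤ) • P - P := by
    rw [smul_smul]
    nth_rewrite 3 [← one_smul ℤ P]
    rw [← sub_smul]
    norm_num
  rw [this, h5, zero_sub]

lemma five_of_four_eq_neg (P : G) (h : (2 : ℤ) • ((2 : ℤ) • P) = -P) : (5 : ℤ) • P = 0 := by
  have : (5 : ℤ) • P = (2 : ℤ) • ((2 : ℤ) • P) + P := by
    rw [smul_smul]
    nth_rewrite 3 [← one_smul ℤ P]
    rw [← add_smul]
    norm_num
  rw [this, h, neg_add_cancel]

end group

variable {K : Type*} [Field K] [DecidableEq K] (E : WeierstrassCurve K)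

lemma Dl_eq : Dl E.b₂ E.b₄ E.b₆ E.b₈ = E.Δ := by
  simp only [Dl, WeierstrassCurve.Δ]

lemma hb_rel : 4 * E.b₈ = E.b₂ * E.b₆ - E.b₄ ^ 2 := by
  simp only [WeierstrassCurve.b₂, WeierstrassCurve.b₄, WeierstrassCurve.b₆, WeierstrassCurve.b₈]
  ring

lemma Bp_x2_mul [CharZero K] {x1 x2 : K}
    (hx2 : x2 * Bp E.b₂ E.b₄ E.b₆ x1 = Ap E.b₄ E.b₆ E.b₈ x1) :
    Bp E.b₂ E.b₄ E.b₆ x2 * Bp E.b₂ E.b₄ E.b₆ x1 ^ 3 = Q4 E.b₂ E.b₄ E.b₆ E.b₈ x1 ^ 2 := by
  rw [← ident_D4 E.b₂ E.b₄ E.b₆ E.b₈ x1 (hb_rel E), ← hx2]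
  simp only [Bp]
  ring

lemma Ap_x2_sub [CharZero K] {x1 x2 : K}
    (hx2 : x2 * Bp E.b₂ E.b₄ E.b₆ x1 = Ap E.b₄ E.b₆ E.b₈ x1) :
    (Ap E.b₄ E.b₆ E.b₈ x2 - x1 * Bp E.b₂ E.b₄ E.b₆ x2) * Bp E.b₂ E.b₄ E.b₆ x1 ^ 4 =
      - (psi3 E.b₂ E.b₄ E.b₆ E.b₈ x1 * psi5 E.b₂ E.b₄ E.b₆ E.b₈ x1) := by
  rw [← ident_F E.b₂ E.b₄ E.b₆ E.b₈ x1 (hb_rel E), ← hx2]
  simp only [Bp, Ap]
  ring

lemma psi3_eq_sub {x1 x2 : K}
    (hx2 : x2 * Bp E.b₂ E.b₄ E.b₆ x1 = Ap E.b₄ E.b₆ E.b₈ x1) :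
    psi3 E.b₂ E.b₄ E.b₆ E.b₈ x1 = (x1 - x2) * Bp E.b₂ E.b₄ E.b₆ x1 := by
  rw [psi3_eq, ← hx2]
  ring

theorem T5_of_five_smul [CharZero K] (hΔ : E.Δ ≠ 0) {x1 y1 : K}
    (h : E.toAffine.Nonsingular x1 y1)
    (hP : (5 : ℤ) • (Point.some x1 y1 h) = 0) :
    ∃ (x2 y2 : K) (h' : E.toAffine.Nonsingular x2 y2),
      (2 : ℤ) • (Point.some x1 y1 h) = Point.some x2 y2 h' ∧ x1 ≠ x2 ∧
      Bp E.b₂ E.b₄ E.b₆ x1 ≠ 0 ∧ Bp E.b₂ E.b₄ E.b₆ x2 ≠ 0 ∧
      Ap E.b₄ E.b₆ E.b₈ x1 = x2 * Bp E.b₂ E.b₄ E.b₆ x1 ∧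
      Ap E.b₄ E.b₆ E.b₈ x2 = x1 * Bp E.b₂ E.b₄ E.b₆ x2 := by
  have hP0 : Point.some x1 y1 h ≠ 0 := Point.some_ne_zero _
  by_cases hy : y1 = E.toAffine.negY x1 y1
  · exact absurd (eq_zero_of_two_five _ (T4_two_smul_eq_zero E h hy).2 hP) hP0
  obtain ⟨hB1, x2, y2, h2, h2P, hx2⟩ := T4_two_smul_some E h hy
  by_cases hy2 : y2 = E.toAffine.negY x2 y2
  · have h4 : (2 : ℤ) • ((2 : ℤ) • Point.some x1 y1 h) = 0 := by
      rw [h2P]
      exact (T4_two_smul_eq_zero E h2 hy2).2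
    exact absurd (eq_zero_of_four_five _ h4 hP) hP0
  obtain ⟨hB2, x4, y4, h4, h4P, hx4⟩ := T4_two_smul_some E h2 hy2
  have h4neg : Point.some x4 y4 h4 = -Point.some x1 y1 h := by
    rw [← h4P, ← h2P]
    exact four_eq_neg_of_five _ hP
  rw [Point.neg_some] at h4neg
  have hx41 : x4 = x1 := by
    have := Point.some.inj h4neg
    exact this.1
  refine ⟨x2, y2, h2, h2P, ?_, hB1, hB2, hx2.symm, ?_⟩
  · intro h12
    subst h12
    rcases Y_eq_of_X_eq h.1 h2.1 rfl with hyy | hyy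
    · subst hyy
      have : Point.some x1 y1 h = (2 : ℤ) • Point.some x1 y1 h := h2P.symm
      apply hP0
      have h3 : (2 : ℤ) • Point.some x1 y1 h = Point.some x1 y1 h + Point.some x1 y1 h :=
        two_smul _ _
      rw [h3] at this
      exact left_eq_add.mp this
    · apply hP0
      apply eq_zero_of_three_five _ _ hP
      rw [h2P, Point.neg_some]
      congr 1
  · rw [← hx41]
    exact hx4.symm

section polys

variable {K : Type*} [Field K]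

noncomputable def BpPoly (b2 b4 b6 : K) : K[X] :=
  4 * X ^ 3 + C b2 * X ^ 2 + C (2 * b4) * X + C b6

noncomputable def psi3Poly (b2 b4 b6 b8 : K) : K[X] :=
  3 * X ^ 4 + C b2 * X ^ 3 + C (3 * b4) * X ^ 2 + C (3 * b6) * X + C b8

noncomputable def Q4Poly (b2 b4 b6 b8 : K) : K[X] :=
  2 * X ^ 6 + C b2 * X ^ 5 + C (5 * b4) * X ^ 4 + C (10 * b6) * X ^ 3 + C (10 * b8) * X ^ 2 +
    C (b2 * b8 - b4 * b6) * X + C (b4 * b8 - b6 ^ 2)

noncomputable def psi5Poly (b2 b4 b6 b8 : K) : K[X] :=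
  BpPoly b2 b4 b6 ^ 2 * Q4Poly b2 b4 b6 b8 - psi3Poly b2 b4 b6 b8 ^ 3

theorem eval_psi5Poly (b2 b4 b6 b8 x : K) :
    (psi5Poly b2 b4 b6 b8).eval x = psi5 b2 b4 b6 b8 x := by
  simp only [psi5Poly, BpPoly, Q4Poly, psi3Poly, psi5, Bp, Q4, psi3, eval_sub, eval_mul, eval_pow,
    eval_add, eval_C, eval_X, eval_ofNat]

theorem natDegree_psi5Poly [CharZero K] (b2 b4 b6 b8 : K) :
    (psi5Poly b2 b4 b6 b8).natDegree = 12 := by
  unfold psi5Poly BpPoly Q4Poly psi3Poly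
  compute_degree!

theorem psi5Poly_ne_zero [CharZero K] (b2 b4 b6 b8 : K) : psi5Poly b2 b4 b6 b8 ≠ 0 := by
  intro h
  have := natDegree_psi5Poly b2 b4 b6 b8
  rw [h, natDegree_zero] at this
  omega

end polys

variable {K : Type*} [Field K] [DecidableEq K] (E : WeierstrassCurve K)

lemma Bp_ne_zero_of_psi5 [CharZero K] (hΔ : E.Δ ≠ 0) {x1 : K}
    (h5 : psi5 E.b₂ E.b₄ E.b₆ E.b₈ x1 = 0) : Bp E.b₂ E.b₄ E.b₆ x1 ≠ 0 := by
  intro hB
  have h3 : psi3 E.b₂ E.b₄ E.b₆ E.b₈ x1 = 0 := by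
    have : psi3 E.b₂ E.b₄ E.b₆ E.b₈ x1 ^ 3 = 0 := by
      have h5' := h5
      rw [psi5, hB] at h5'
      linear_combination -h5'
    exact pow_eq_zero_iff (by norm_num) |>.mp this
  have hA : Ap E.b₄ E.b₆ E.b₈ x1 = 0 := by
    have := psi3_eq E.b₂ E.b₄ E.b₆ E.b₈ x1
    rw [h3, hB] at this
    linear_combination this
  have hbz := ident_bezout E.b₂ E.b₄ E.b₆ E.b₈ x1 (hb_rel E)
  rw [hA, hB, Dl_eq] at hbz
  apply hΔ
  rw [← hbz]
  ring

lemma five_smul_of_psi5 [CharZero K] (hΔ : E.Δ ≠ 0) {x1 y1 : K}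
    (h : E.toAffine.Nonsingular x1 y1) (h5 : psi5 E.b₂ E.b₄ E.b₆ E.b₈ x1 = 0) :
    (5 : ℤ) • (Point.some x1 y1 h) = 0 := by
  have hB1 := Bp_ne_zero_of_psi5 E hΔ h5
  have hy : y1 ≠ E.toAffine.negY x1 y1 := fun hy => hB1 (T4_two_smul_eq_zero E h hy).1
  obtain ⟨-, x2, y2, h2, h2P, hx2⟩ := T4_two_smul_some E h hy
  have hBQ := Bp_x2_mul E hx2
  have h3eq := psi3_eq_sub E hx2
  have hQ4 : Q4 E.b₂ E.b₄ E.b₆ E.b₈ x1 ≠ 0 := by
    intro hQ
    have h3 : psi3 E.b₂ E.b₄ E.b₆ E.b₈ x1 = 0 := by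
      have : psi3 E.b₂ E.b₄ E.b₆ E.b₈ x1 ^ 3 = 0 := by
        have h5' := h5
        rw [psi5, hQ] at h5'
        linear_combination -h5'
      exact pow_eq_zero_iff (by norm_num) |>.mp this
    rw [h3eq] at h3
    have hx12 : x1 = x2 := by
      rcases mul_eq_zero.mp h3 with h0 | h0
      · exact sub_eq_zero.mp h0
      · exact absurd h0 hB1
    rw [← hx12, hQ] at hBQ
    have : Bp E.b₂ E.b₄ E.b₆ x1 ^ 4 = 0 := by linear_combination hBQ
    exact hB1 (pow_eq_zero_iff (by norm_num) |>.mp this)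
  have hB2 : Bp E.b₂ E.b₄ E.b₆ x2 ≠ 0 := by
    intro hB
    rw [hB, zero_mul] at hBQ
    exact hQ4 (pow_eq_zero_iff (by norm_num) |>.mp hBQ.symm)
  have hy2 : y2 ≠ E.toAffine.negY x2 y2 := fun hy => hB2 (T4_two_smul_eq_zero E h2 hy).1
  obtain ⟨-, x4, y4, h4, h4P, hx4⟩ := T4_two_smul_some E h2 hy2
  have hF := Ap_x2_sub E hx2
  rw [h5, mul_zero, neg_zero] at hF
  have hA2 : Ap E.b₄ E.b₆ E.b₈ x2 = x1 * Bp E.b₂ E.b₄ E.b₆ x2 := by
    rcases mul_eq_zero.mp hF with h0 | h0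
    · exact sub_eq_zero.mp h0
    · exact absurd (pow_eq_zero_iff (by norm_num) |>.mp h0) hB1
  have hx41 : x4 = x1 := by
    have : x4 * Bp E.b₂ E.b₄ E.b₆ x2 = x1 * Bp E.b₂ E.b₄ E.b₆ x2 := by rw [hx4, hA2]
    exact mul_right_cancel₀ hB2 this
  subst hx41
  apply five_of_four_eq_neg
  rw [h2P, h4P, Point.neg_some]
  rcases Y_eq_of_X_eq h4.1 h.1 rfl with hyy | hyy
  · exfalso
    subst hyy
    have h3P : Point.some x2 y2 h2 = -Point.some x4 y4 h := by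
      have e1 : (2 : ℤ) • Point.some x2 y2 h2 = Point.some x4 y4 h := h4P
      rw [← h2P] at e1 ⊢
      have e2 : (2 : ℤ) • ((2 : ℤ) • Point.some x4 y4 h) =
          (2 : ℤ) • Point.some x4 y4 h + (2 : ℤ) • Point.some x4 y4 h := two_smul _ _
      have e3 : (2 : ℤ) • Point.some x4 y4 h = Point.some x4 y4 h + Point.some x4 y4 h :=
        two_smul _ _
      rw [e2] at e1
      have e4 : (2 : ℤ) • Point.some x4 y4 h + Point.some x4 y4 h = 0 := by
        have e5 : (2 : ℤ) • Point.some x4 y4 h + (2 : ℤ) • Point.some x4 y4 h =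
            ((2 : ℤ) • Point.some x4 y4 h + Point.some x4 y4 h) + Point.some x4 y4 h := by
          nth_rewrite 2 [e3]
          rw [add_assoc]
        rw [e5] at e1
        exact add_eq_right.mp e1
      exact eq_neg_of_add_eq_zero_left e4
    rw [Point.neg_some] at h3P
    have hx24 : x2 = x4 := (Point.some.inj h3P).1
    rw [hx24, sub_self, zero_mul] at h3eq
    have hQ : Q4 E.b₂ E.b₄ E.b₆ E.b₈ x4 = 0 := by
      have h5' := h5
      rw [psi5, h3eq] at h5'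
      have : Bp E.b₂ E.b₄ E.b₆ x4 ^ 2 * Q4 E.b₂ E.b₄ E.b₆ E.b₈ x4 = 0 := by
        linear_combination h5'
      rcases mul_eq_zero.mp this with h0 | h0
      · exact absurd (pow_eq_zero_iff (by norm_num) |>.mp h0) hB1
      · exact h0
    exact hQ4 hQ
  · congr 1

theorem T5_exists_order_five [IsAlgClosed K] [CharZero K] (hΔ : E.Δ ≠ 0) :
    ∃ P : E.toAffine.Point, P ≠ 0 ∧ (5 : ℤ) • P = 0 := by
  have hdeg : (psi5Poly E.b₂ E.b₄ E.b₆ E.b₈).degree ≠ 0 := by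
    rw [degree_eq_natDegree (psi5Poly_ne_zero _ _ _ _), natDegree_psi5Poly]
    norm_num
  obtain ⟨x1, hx1⟩ := IsAlgClosed.exists_root _ hdeg
  rw [IsRoot, eval_psi5Poly] at hx1
  obtain ⟨s, hs⟩ := IsAlgClosed.exists_pow_nat_eq (Bp E.b₂ E.b₄ E.b₆ x1) (n := 2) (by norm_num)
  have heq : E.toAffine.Equation x1 ((s - (E.a₁ * x1 + E.a₃)) / 2) := by
    rw [Affine.equation_iff]
    simp only [Bp, WeierstrassCurve.b₂, WeierstrassCurve.b₄, WeierstrassCurve.b₆] at hs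
    field_simp
    linear_combination hs
  have hns : E.toAffine.Nonsingular x1 ((s - (E.a₁ * x1 + E.a₃)) / 2) :=
    (E.toAffine.equation_iff_nonsingular_of_Δ_ne_zero hΔ).mp heq
  exact ⟨Point.some x1 _ hns, Point.some_ne_zero _, five_smul_of_psi5 E hΔ hns hx1⟩

lemma psi5_of_five_smul [CharZero K] (hΔ : E.Δ ≠ 0) {x1 y1 : K}
    (h : E.toAffine.Nonsingular x1 y1) (hP : (5 : ℤ) • (Point.some x1 y1 h) = 0) :
    psi5 E.b₂ E.b₄ E.b₆ E.b₈ x1 = 0 := by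
  obtain ⟨x2, y2, h2, -, h12, hB1, -, hA1, hA2⟩ := T5_of_five_smul E hΔ h hP
  have hF := Ap_x2_sub E hA1.symm
  rw [hA2, sub_self, zero_mul] at hF
  have h3 : psi3 E.b₂ E.b₄ E.b₆ E.b₈ x1 ≠ 0 := by
    rw [psi3_eq_sub E hA1.symm]
    exact mul_ne_zero (sub_ne_zero.mpr h12) hB1
  have : psi3 E.b₂ E.b₄ E.b₆ E.b₈ x1 * psi5 E.b₂ E.b₄ E.b₆ E.b₈ x1 = 0 := by
    linear_combination hF
  exact (mul_eq_zero.mp this).resolve_left h3

theorem T5_card_five_torsion [CharZero K] (hΔ : E.Δ ≠ 0) :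
    Finite (Submodule.torsionBy ℤ E.toAffine.Point 5) ∧
      Nat.card (Submodule.torsionBy ℤ E.toAffine.Point 5) ≤ 25 := by
  classical
  set R := (psi5Poly E.b₂ E.b₄ E.b₆ E.b₈).roots.toFinset with hR
  have hRcard : R.card ≤ 12 := by
    calc R.card ≤ Multiset.card (psi5Poly E.b₂ E.b₄ E.b₆ E.b₈).roots :=
          Multiset.toFinset_card_le _
      _ ≤ (psi5Poly E.b₂ E.b₄ E.b₆ E.b₈).natDegree := Polynomial.card_roots' _
      _ = 12 := natDegree_psi5Poly _ _ _ _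
  let pt : K → E.toAffine.Point := fun x =>
    if hx : ∃ y, E.toAffine.Nonsingular x y then Point.some x hx.choose hx.choose_spec else 0
  let g : K × Bool → E.toAffine.Point := fun p => if p.2 then pt p.1 else -pt p.1
  set D : Finset (K × Bool) := R ×ˢ (Finset.univ : Finset Bool) with hD
  set T : Set E.toAffine.Point := insert 0 (g '' (D : Set (K × Bool))) with hT
  have hTfin : T.Finite := (Set.Finite.image _ (Finset.finite_toSet _)).insert _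
  have hTcard : T.ncard ≤ 25 := by
    have h1 : T.ncard ≤ (g '' (D : Set (K × Bool))).ncard + 1 := Set.ncard_insert_le _ _
    have h2 : (g '' (D : Set (K × Bool))).ncard ≤ (D : Set (K × Bool)).ncard :=
      Set.ncard_image_le (Finset.finite_toSet _)
    have h3 : (D : Set (K × Bool)).ncard = D.card := Set.ncard_coe_finset D
    have h4 : D.card = R.card * 2 := by
      rw [hD, Finset.card_product]
      simp
    omega
  have hsub : ((Submodule.torsionBy ℤ E.toAffine.Point 5 : Submodule ℤ _) :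
      Set E.toAffine.Point) ⊆ T := by
    intro P hP
    rw [SetLike.mem_coe, Submodule.mem_torsionBy_iff] at hP
    rcases P with _ | ⟨x1, y1, h1⟩
    · exact Set.mem_insert _ _
    · right
      have h5 : psi5 E.b₂ E.b₄ E.b₆ E.b₈ x1 = 0 := psi5_of_five_smul E hΔ h1 hP
      have hx1R : x1 ∈ R := by
        rw [hR, Multiset.mem_toFinset, mem_roots (psi5Poly_ne_zero _ _ _ _), IsRoot,
          eval_psi5Poly]
        exact h5
      have hex : ∃ y, E.toAffine.Nonsingular x1 y := ⟨y1, h1⟩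
      have hpt : pt x1 = Point.some x1 hex.choose hex.choose_spec := dif_pos hex
      rcases Y_eq_of_X_eq h1.1 hex.choose_spec.1 rfl with hy | hy
      · refine ⟨(x1, true), ?_, ?_⟩
        · simp [hD, hx1R]
        · show (if (true : Bool) then pt x1 else -pt x1) = _
          rw [if_pos rfl, hpt]
          congr 1
          exact hy.symm
      · refine ⟨(x1, false), ?_, ?_⟩
        · simp [hD, hx1R]
        · show (if (false : Bool) = true then pt x1 else -pt x1) = _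
          rw [if_neg (by simp), hpt, Point.neg_some]
          congr 1
          exact hy.symm
  have hfin : ((Submodule.torsionBy ℤ E.toAffine.Point 5 : Submodule ℤ _) :
      Set E.toAffine.Point).Finite := hTfin.subset hsub
  refine ⟨Set.finite_coe_iff.mpr hfin, ?_⟩
  have hcard : Nat.card (Submodule.torsionBy ℤ E.toAffine.Point 5) =
      ((Submodule.torsionBy ℤ E.toAffine.Point 5 : Submodule ℤ _) :
        Set E.toAffine.Point).ncard := rfl
  rw [hcard]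
  exact (Set.ncard_le_ncard hsub hTfin).trans hTcard

end Fermat.Agent.S51_helper24_T5
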