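import Mathlib
import Fermat.Agent.S51_helper4_Defs

set_option autoImplicit false

namespace Fermat.Agent.S51_helper25_T2c

open Fermat.Agent.S51_helper4_Defs

variable {K : Type*} [Field K]

/-- translation invariance of the discriminant (needs the `b₈` relation). -/
theorem Dl_translate (b2 b4 b6 b8 r : K) (hb : 4 * b8 = b2 * b6 - b4 ^ 2) :
    Dl (b2 + 12 * r) (b4 + r * b2 + 6 * r ^ 2) (Bp b2 b4 b6 r) (psi3 b2 b4 b6 b8 r) =
      Dl b2 b4 b6 b8 := by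
  unfold Dl Bp psi3
  linear_combination (-6 * b2 * r - 36 * r ^ 2) * hb

theorem Dl_aux (c2 e u : K) (hM : c2 * e * u = (e ^ 2 - u) ^ 2 - 4 * e ^ 2 * u) :
    Dl c2 (e ^ 2 - u) (e * u) (-(e ^ 2 * u)) * u = e ^ 4 * (e ^ 4 - 11 * e ^ 2 * u - u ^ 2) := by
  unfold Dl
  linear_combination (c2 * e * u + ((e ^ 2 - u) ^ 2 - 4 * e ^ 2 * u) + 9 * (e ^ 2 - u) * u) * hM

theorem psi3_aux (c2 e u y : K) (hM : c2 * e * u = (e ^ 2 - u) ^ 2 - 4 * e ^ 2 * u) :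
    e * u * (3 * y ^ 4 + c2 * y ^ 3 + 3 * (e ^ 2 - u) * y ^ 2 + 3 * (e * u) * y - e ^ 2 * u) =
      e ^ 4 * y ^ 3 + 3 * e * u * y ^ 2 * (y - e) ^ 2 + u ^ 2 * (y - e) ^ 3 := by
  linear_combination y ^ 3 * hM

/-- The core reduction to the two parameters `e = x2 - x1`, `u = Bp(x1)/e`. -/
theorem core (b2 b4 b6 b8 x1 x2 : K)
    (hb : 4 * b8 = b2 * b6 - b4 ^ 2)
    (h1 : Ap b4 b6 b8 x1 = x2 * Bp b2 b4 b6 x1)
    (h2 : Ap b4 b6 b8 x2 = x1 * Bp b2 b4 b6 x2)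
    (hB1 : Bp b2 b4 b6 x1 ≠ 0) (h12 : x1 ≠ x2) :
    ∃ u : K, u ≠ 0 ∧ Bp b2 b4 b6 x1 = (x2 - x1) * u ∧
      Dl b2 b4 b6 b8 * u =
        (x2 - x1) ^ 4 * ((x2 - x1) ^ 4 - 11 * (x2 - x1) ^ 2 * u - u ^ 2) ∧
      ∀ x0 : K, (x2 - x1) * u * psi3 b2 b4 b6 b8 x0 =
        (x2 - x1) ^ 4 * (x0 - x1) ^ 3 + 3 * (x2 - x1) * u * (x0 - x1) ^ 2 * (x0 - x2) ^ 2 +
          u ^ 2 * (x0 - x2) ^ 3 := by
  have he : x2 - x1 ≠ 0 := sub_ne_zero.mpr (Ne.symm h12)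
  set e := x2 - x1 with he_def
  set c4 := b4 + x1 * b2 + 6 * x1 ^ 2 with hc4
  set c2 := b2 + 12 * x1 with hc2
  set u := e ^ 2 - c4 with hu
  have hx2 : x2 = x1 + e := by rw [he_def]; ring
  have hc6 : Bp b2 b4 b6 x1 = e * u := by
    apply mul_left_cancel₀ he
    rw [hu, hc4]
    unfold Ap Bp at *
    rw [hx2] at h1 h2
    linear_combination -h2 + h1
  have hu0 : u ≠ 0 := by
    intro h0
    apply hB1
    rw [hc6, h0, mul_zero]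
  have hc8 : psi3 b2 b4 b6 b8 x1 = -(e ^ 2 * u) := by
    have : psi3 b2 b4 b6 b8 x1 = -(e * Bp b2 b4 b6 x1) := by
      unfold psi3
      unfold Ap Bp at h1
      unfold Bp
      rw [hx2] at h1
      linear_combination -h1
    rw [this, hc6]; ring
  have hc4' : c4 = e ^ 2 - u := by rw [hu]; ring
  have hM : c2 * e * u = (e ^ 2 - u) ^ 2 - 4 * e ^ 2 * u := by
    have hbc : 4 * psi3 b2 b4 b6 b8 x1 = c2 * Bp b2 b4 b6 x1 - c4 ^ 2 := by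
      rw [hc2, hc4]
      unfold psi3 Bp
      linear_combination hb
    rw [hc8, hc6, hc4'] at hbc
    linear_combination -hbc
  refine ⟨u, hu0, hc6, ?_, ?_⟩
  · have := Dl_translate b2 b4 b6 b8 x1 hb
    rw [show b4 + x1 * b2 + 6 * x1 ^ 2 = c4 from rfl, show b2 + 12 * x1 = c2 from rfl,
      hc6, hc8, hc4'] at this
    rw [← this]
    exact Dl_aux c2 e u hM
  · intro x0
    have hps : psi3 b2 b4 b6 b8 x0 =
        3 * (x0 - x1) ^ 4 + c2 * (x0 - x1) ^ 3 + 3 * c4 * (x0 - x1) ^ 2 +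
          3 * Bp b2 b4 b6 x1 * (x0 - x1) + psi3 b2 b4 b6 b8 x1 := by
      rw [hc2, hc4]
      unfold psi3 Bp
      ring
    rw [hps, hc6, hc8, hc4']
    have := psi3_aux c2 e u (x0 - x1) hM
    have hx0 : x0 - x2 = (x0 - x1) - e := by rw [he_def]; ring
    rw [hx0]
    linear_combination this

variable [CharZero K] (b2 b4 b6 b8 x0 x1 x2 : K)

theorem T2_cases
    (hb : 4 * b8 = b2 * b6 - b4 ^ 2)
    (h1 : Ap b4 b6 b8 x1 = x2 * Bp b2 b4 b6 x1)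
    (h2 : Ap b4 b6 b8 x2 = x1 * Bp b2 b4 b6 x2)
    (hB1 : Bp b2 b4 b6 x1 ≠ 0) (hB2 : Bp b2 b4 b6 x2 ≠ 0) (h12 : x1 ≠ x2)
    (h0 : psi3 b2 b4 b6 b8 x0 = 0) (h01 : x0 ≠ x1) (h02 : x0 ≠ x2)
    (hΔ : Dl b2 b4 b6 b8 ≠ 0) :
    (pfun x0 x1 x2 = -1 / 4 → tfun b2 b4 b6 b8 x1 x2 = -25 / 2) ∧
    (pfun x0 x1 x2 = 4 / 9 → tfun b2 b4 b6 b8 x1 x2 = -25 / 8) ∧
    (pfun x0 x1 x2 = 1 → tfun b2 b4 b6 b8 x1 x2 = -10) ∧
    (pfun x0 x1 x2 = -1 / 9 → tfun b2 b4 b6 b8 x1 x2 = -40) := by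
  obtain ⟨u, hu0, -, hD, hpsi⟩ := core b2 b4 b6 b8 x1 x2 hb h1 h2 hB1 h12
  have he : x2 - x1 ≠ 0 := sub_ne_zero.mpr (Ne.symm h12)
  have he' : x1 - x2 ≠ 0 := sub_ne_zero.mpr h12
  have hG := hpsi x0
  rw [h0, mul_zero] at hG
  -- notation
  set e := x2 - x1 with he_def
  set y := x0 - x1 with hy_def
  have hye : x0 - x2 = y - e := by rw [he_def, hy_def]; ring
  rw [hye] at hG
  replace hG := hG.symm
  have hF1 : e ^ 4 - 11 * e ^ 2 * u - u ^ 2 ≠ 0 := by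
    intro h
    rw [h, mul_zero] at hD
    rcases mul_eq_zero.mp hD with h' | h'
    · exact hΔ h'
    · exact hu0 h'
  -- the key relation for `t`
  have ht : ∀ τ : K, e ^ 4 - 11 * e ^ 2 * u - u ^ 2 = τ * (e ^ 2 * u) →
      tfun b2 b4 b6 b8 x1 x2 = τ := by
    intro τ hτ
    unfold tfun
    have hx : x1 - x2 = -e := by rw [he_def]; ring
    rw [hx, div_eq_iff (pow_ne_zero 6 (neg_ne_zero.mpr he))]
    have h4 : e ^ 4 ≠ 0 := pow_ne_zero 4 he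
    apply mul_right_cancel₀ hu0
    rw [hD, hτ]
    ring
  have hp : ∀ π : K, pfun x0 x1 x2 = π → y * (y - e) = π * e ^ 2 := by
    intro π hπ
    unfold pfun at hπ
    rw [div_eq_iff (pow_ne_zero 2 he')] at hπ
    rw [← hye, hy_def, hπ, he_def]
    ring
  have he3 : e ^ 3 ≠ 0 := pow_ne_zero 3 he
  have he6 : e ^ 6 ≠ 0 := pow_ne_zero 6 he
  refine ⟨fun h => ?_, fun h => ?_, fun h => ?_, fun h => ?_⟩
  · -- p = -1/4 : 2 y = e
    have hq := hp _ h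
    have h2y : 2 * y - e = 0 := by
      have : (2 * y - e) ^ 2 = 0 := by linear_combination 4 * hq
      exact pow_eq_zero_iff (two_ne_zero) |>.mp this
    apply ht
    have key : e ^ 3 * (2 * e ^ 4 + 3 * e ^ 2 * u - 2 * u ^ 2) = 0 := by
      linear_combination (16 : K) * hG -
        (24 * y ^ 3 * e * u + 8 * y ^ 2 * e ^ 4 - 36 * y ^ 2 * e ^ 2 * u + 8 * y ^ 2 * u ^ 2 +
          4 * y * e ^ 5 + 6 * y * e ^ 3 * u - 20 * y * e * u ^ 2 + 2 * e ^ 6 + 3 * e ^ 4 * u +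
          14 * e ^ 2 * u ^ 2) * h2y
    have key' := (mul_eq_zero.mp key).resolve_left he3
    linear_combination (1 / 2 : K) * key'
  · -- p = 4/9 : (3y - 4e)(3y + e) = 0
    have hq := hp _ h
    have hprod : (3 * y - 4 * e) * (3 * y + e) = 0 := by linear_combination 9 * hq
    apply ht
    rcases mul_eq_zero.mp hprod with hy | hy
    · have key : e ^ 3 * (8 * e ^ 2 + u) ^ 2 = 0 := by
        linear_combination (27 : K) * hG -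
          (27 * y ^ 3 * e * u + 9 * y ^ 2 * e ^ 4 - 18 * y ^ 2 * e ^ 2 * u + 9 * y ^ 2 * u ^ 2 +
            12 * y * e ^ 5 + 3 * y * e ^ 3 * u - 15 * y * e * u ^ 2 + 16 * e ^ 6 +
            4 * e ^ 4 * u + 7 * e ^ 2 * u ^ 2) * hy
      have key' := pow_eq_zero_iff (two_ne_zero) |>.mp ((mul_eq_zero.mp key).resolve_left he3)
      linear_combination (1 / 8 : K) * (e ^ 2 - 8 * u) * key'
    · have key : e ^ 3 * (e ^ 2 - 8 * u) ^ 2 = 0 := by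
        linear_combination (-27 : K) * hG +
          (27 * y ^ 3 * e * u + 9 * y ^ 2 * e ^ 4 - 63 * y ^ 2 * e ^ 2 * u + 9 * y ^ 2 * u ^ 2 -
            3 * y * e ^ 5 + 48 * y * e ^ 3 * u - 30 * y * e * u ^ 2 + e ^ 6 - 16 * e ^ 4 * u +
            37 * e ^ 2 * u ^ 2) * hy
      have key' := pow_eq_zero_iff (two_ne_zero) |>.mp ((mul_eq_zero.mp key).resolve_left he3)
      linear_combination (1 / 8 : K) * (8 * e ^ 2 + u) * key'
  · -- p = 1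
    have hq := hp _ h
    have hq3 : y ^ 2 - e * y - e ^ 2 = 0 := by linear_combination hq
    apply ht
    have key : e ^ 6 * ((e ^ 4 - 11 * e ^ 2 * u - u ^ 2) * (e ^ 4 - e ^ 2 * u - u ^ 2)) = 0 := by
      linear_combination
        (-(-2 * y * e ^ 6 - 2 * y * e ^ 2 * u ^ 2 + 3 * e ^ 7 + 3 * e ^ 5 * u - e ^ 3 * u ^ 2)) * hG -
        (6 * y ^ 3 * e ^ 7 * u + 6 * y ^ 3 * e ^ 3 * u ^ 3 + 2 * y ^ 2 * e ^ 10 -
          15 * y ^ 2 * e ^ 8 * u - 5 * y ^ 2 * e ^ 6 * u ^ 2 - 3 * y ^ 2 * e ^ 4 * u ^ 3 +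
          2 * y ^ 2 * e ^ 2 * u ^ 4 - y * e ^ 11 + 12 * y * e ^ 9 * u + 5 * y * e ^ 7 * u ^ 2 -
          3 * y * e ^ 3 * u ^ 4 + e ^ 12 - 12 * e ^ 10 * u + 6 * e ^ 8 * u ^ 2 + 9 * e ^ 6 * u ^ 3 +
          2 * e ^ 4 * u ^ 4) * hq3
    have key' := (mul_eq_zero.mp ((mul_eq_zero.mp key).resolve_left he6)).resolve_left hF1
    linear_combination key'
  · -- p = -1/9
    have hq := hp _ h
    have hq4 : 9 * y ^ 2 - 9 * e * y + e ^ 2 = 0 := by linear_combination 9 * hq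
    apply ht
    have key : e ^ 6 * ((e ^ 4 - 11 * e ^ 2 * u - u ^ 2) * (e ^ 4 + 29 * e ^ 2 * u - u ^ 2)) = 0 := by
      linear_combination
        (729 : K) * (-(8 / 9 : K) * y * e ^ 6 - (8 / 9 : K) * y * e ^ 2 * u ^ 2 +
          (7 / 9 : K) * e ^ 7 + (1 / 27 : K) * e ^ 5 * u + (1 / 9 : K) * e ^ 3 * u ^ 2) * hG +
        (729 : K) * ((8 / 27 : K) * y ^ 3 * e ^ 7 * u + (8 / 27 : K) * y ^ 3 * e ^ 3 * u ^ 3 +
          (8 / 81 : K) * y ^ 2 * e ^ 10 - (5 / 9 : K) * y ^ 2 * e ^ 8 * u +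
          (5 / 27 : K) * y ^ 2 * e ^ 6 * u ^ 2 - (1 / 3 : K) * y ^ 2 * e ^ 4 * u ^ 3 +
          (8 / 81 : K) * y ^ 2 * e ^ 2 * u ^ 4 + (1 / 81 : K) * y * e ^ 11 +
          (2 / 9 : K) * y * e ^ 9 * u - (5 / 27 : K) * y * e ^ 7 * u ^ 2 -
          (17 / 81 : K) * y * e ^ 3 * u ^ 4 + (1 / 729 : K) * e ^ 12 + (2 / 81 : K) * e ^ 10 * u +
          (82 / 243 : K) * e ^ 8 * u ^ 2 + (1 / 81 : K) * e ^ 6 * u ^ 3 +
          (82 / 729 : K) * e ^ 4 * u ^ 4) * hq4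
    have key' := (mul_eq_zero.mp ((mul_eq_zero.mp key).resolve_left he6)).resolve_left hF1
    linear_combination key'

end Fermat.Agent.S51_helper25_T2c
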