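import Mathlib
import Fermat.Prelude.Def_FLTPrelim_Modularity

set_option autoImplicit false

namespace Fermat.Agent.S51_helper29_T3

open WeierstrassCurve

/-- integer form: `A * c₄ ^ 3 = B * Δ` with `5 ∣ B`, `¬ 125 ∣ B`, `¬ 5 ∣ A` contradicts
semistability at `5`. -/
theorem semistable_int_contra (W : WeierstrassCurve ℤ) (hss : W.IsSemistableModel)
    (A B : ℤ) (hA : ¬ (5 : ℤ) ∣ A) (hB5 : (5 : ℤ) ∣ B) (hB125 : ¬ (125 : ℤ) ∣ B)
    (hΔ : W.Δ ≠ 0)
    (h : A * W.c₄ ^ 3 = B * W.Δ) : False := by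
  have h5 : Prime (5 : ℤ) := by
    rw [Int.prime_iff_natAbs_prime]; norm_num
  have hc : (5 : ℤ) ∣ W.c₄ := by
    have h1 : (5 : ℤ) ∣ A * W.c₄ ^ 3 := by rw [h]; exact Dvd.dvd.mul_right hB5 _
    rcases h5.dvd_or_dvd h1 with h2 | h2
    · exact absurd h2 hA
    · exact h5.dvd_of_dvd_pow h2
  have hΔ5 : ¬ (5 : ℤ) ∣ W.Δ := fun hd => hss 5 (by norm_num) (by exact_mod_cast hd) (by exact_mod_cast hc)
  obtain ⟨c, hc⟩ := hc
  have h125 : (125 : ℤ) ∣ B * W.Δ := by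
    rw [← h, hc]; exact ⟨A * c ^ 3, by ring⟩
  have hcop : IsCoprime (125 : ℤ) W.Δ := by
    have : IsCoprime (5 : ℤ) W.Δ := (Prime.coprime_iff_not_dvd h5).mpr hΔ5
    have h3 : IsCoprime ((5 : ℤ) ^ 3) W.Δ := this.pow_left
    norm_num at h3
    exact h3
  exact hB125 (hcop.dvd_of_dvd_mul_right h125)

theorem semistable_j_contra (W : WeierstrassCurve ℤ) (hss : W.IsSemistableModel)
    (hΔ : W.Δ ≠ 0) (t : ℚ) (ht : t = -10 ∨ t = -25/2 ∨ t = -25/8 ∨ t = -40)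
    (h : (W.c₄ : ℚ) ^ 3 * t = (W.Δ : ℚ) * (t ^ 2 + 10 * t + 5) ^ 3) : False := by
  rcases ht with rfl | rfl | rfl | rfl
  · -- t = -10 : c4^3 * (-10) = Δ * 125  →  2 c4^3 = -25 Δ
    refine semistable_int_contra W hss 2 (-25) (by norm_num) (by norm_num) (by norm_num) hΔ ?_
    have : ((2 * W.c₄ ^ 3 : ℤ) : ℚ) = ((-25 * W.Δ : ℤ) : ℚ) := by
      push_cast; linarith
    exact_mod_cast this
  · -- t = -25/2 : (t^2+10t+5) = 145/4
    refine semistable_int_contra W hss 32 (-121945) (by norm_num) (by norm_num) (by norm_num) hΔ ?_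
    have : ((32 * W.c₄ ^ 3 : ℤ) : ℚ) = ((-121945 * W.Δ : ℤ) : ℚ) := by
      push_cast; linarith
    exact_mod_cast this
  · -- t = -25/8
    refine semistable_int_contra W hss 32768 46969655 (by norm_num) (by norm_num) (by norm_num) hΔ ?_
    have : ((32768 * W.c₄ ^ 3 : ℤ) : ℚ) = ((46969655 * W.Δ : ℤ) : ℚ) := by
      push_cast; linarith
    exact_mod_cast this
  · -- t = -40
    refine semistable_int_contra W hss 8 (-349938025) (by norm_num) (by norm_num) (by norm_num) hΔ ?_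
    have : ((8 * W.c₄ ^ 3 : ℤ) : ℚ) = ((-349938025 * W.Δ : ℤ) : ℚ) := by
      push_cast; linarith
    exact_mod_cast this

end Fermat.Agent.S51_helper29_T3
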