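import Mathlib
import Fermat.Agent.S51_helper4_Defs
import Fermat.Agent.S51_helper4_Dup

set_option autoImplicit false
set_option linter.unusedSectionVars false
set_option linter.unusedVariables false

namespace Fermat.Agent.S51_helper2_T4b

open WeierstrassCurve WeierstrassCurve.Affine Fermat.Agent.S51_helper4_Defs
open Fermat.Agent.S51_helper4_Dup

variable {K : Type*} [Field K] [DecidableEq K] (E : WeierstrassCurve K)

lemma bezout_identity [CharZero K] (x : K) :
    (12 * (x + E.b₂ / 12) ^ 2 + 16 * (-(E.c₄) / 48)) *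
        (Ap E.b₄ E.b₆ E.b₈ x + E.b₂ / 12 * Bp E.b₂ E.b₄ E.b₆ x)
      - (3 * (x + E.b₂ / 12) ^ 3 - 5 * (-(E.c₄) / 48) * (x + E.b₂ / 12) - 27 * (-(E.c₆) / 864)) *
        Bp E.b₂ E.b₄ E.b₆ x = - E.Δ / 4 := by
  simp only [Ap, Bp, WeierstrassCurve.c₄, WeierstrassCurve.c₆, WeierstrassCurve.Δ,
    WeierstrassCurve.b₂, WeierstrassCurve.b₄, WeierstrassCurve.b₆, WeierstrassCurve.b₈]
  field_simp
  ring

lemma Δ_eq_zero_of_Ap_Bp [CharZero K] {x : K} (hA : Ap E.b₄ E.b₆ E.b₈ x = 0)
    (hB : Bp E.b₂ E.b₄ E.b₆ x = 0) : E.Δ = 0 := by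
  have h := bezout_identity E x
  rw [hA, hB] at h
  simp only [mul_zero, add_zero, sub_zero] at h
  have h4 : (4 : K) ≠ 0 := by norm_num
  field_simp at h
  linear_combination h

lemma psi3_eq (b2 b4 b6 b8 x : K) :
    psi3 b2 b4 b6 b8 x = x * Bp b2 b4 b6 x - Ap b4 b6 b8 x := by
  simp only [psi3, Ap, Bp]; ring

open Polynomial in
/-- the polynomial whose evaluation is `psi3`. -/
noncomputable def psi3Poly (b2 b4 b6 b8 : K) : K[X] :=
  C 3 * X ^ 4 + C b2 * X ^ 3 + C (3 * b4) * X ^ 2 + C (3 * b6) * X + C b8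

open Polynomial in
lemma eval_psi3Poly (b2 b4 b6 b8 x : K) :
    (psi3Poly b2 b4 b6 b8).eval x = psi3 b2 b4 b6 b8 x := by
  simp only [psi3Poly, psi3, eval_add, eval_mul, eval_C, eval_pow, eval_X]

open Polynomial in
lemma natDegree_psi3Poly [CharZero K] (b2 b4 b6 b8 : K) :
    (psi3Poly b2 b4 b6 b8).natDegree = 4 := by
  have h3 : (3 : K) ≠ 0 := by norm_num
  unfold psi3Poly
  compute_degree!

open Polynomial in
lemma psi3Poly_ne_zero [CharZero K] (b2 b4 b6 b8 : K) : psi3Poly b2 b4 b6 b8 ≠ 0 := by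
  intro h
  have := natDegree_psi3Poly b2 b4 b6 b8
  rw [h] at this
  simp at this

open Polynomial in
/-- the Weierstrass quadratic in `y` at a given `x`. -/
noncomputable def yPoly (x : K) : K[X] :=
  X ^ 2 + C (E.a₁ * x + E.a₃) * X - C (x ^ 3 + E.a₂ * x ^ 2 + E.a₄ * x + E.a₆)

open Polynomial in
lemma eval_yPoly (x y : K) :
    (yPoly E x).eval y =
      y ^ 2 + E.a₁ * x * y + E.a₃ * y - (x ^ 3 + E.a₂ * x ^ 2 + E.a₄ * x + E.a₆) := by
  simp only [yPoly, eval_add, eval_sub, eval_mul, eval_C, eval_pow, eval_X]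
  ring

open Polynomial in
lemma natDegree_yPoly (x : K) : (yPoly E x).natDegree = 2 := by
  unfold yPoly
  compute_degree!

open Polynomial in
lemma yPoly_ne_zero (x : K) : yPoly E x ≠ 0 := by
  intro h
  have := natDegree_yPoly E x
  rw [h] at this
  simp at this

lemma equation_iff_eval_yPoly (x y : K) :
    E.toAffine.Equation x y ↔ (yPoly E x).eval y = 0 := by
  rw [Affine.equation_iff, eval_yPoly, sub_eq_zero]

theorem T4_psi3_of_three_smul (hΔ : E.Δ ≠ 0) {x y : K} (h : E.toAffine.Nonsingular x y)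
    (hP : (3 : ℤ) • (Point.some x y h) = 0) : psi3 E.b₂ E.b₄ E.b₆ E.b₈ x = 0 := by
  by_cases hy : y = E.toAffine.negY x y
  · exfalso
    have h2 := (T4_two_smul_eq_zero E h hy).2
    have h3 : (3 : ℤ) • (Point.some x y h) =
        (2 : ℤ) • (Point.some x y h) + Point.some x y h := by
      rw [show (3 : ℤ) = 2 + 1 by norm_num, add_smul, one_smul]
    rw [h3, h2, zero_add] at hP
    exact Point.some_ne_zero h hP
  · obtain ⟨hB, x', y', h', h2, hx'⟩ := T4_two_smul_some E h hy
    have h3 : (3 : ℤ) • (Point.some x y h) =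
        (2 : ℤ) • (Point.some x y h) + Point.some x y h := by
      rw [show (3 : ℤ) = 2 + 1 by norm_num, add_smul, one_smul]
    rw [h3, h2] at hP
    have hneg : Point.some x' y' h' = - Point.some x y h := eq_neg_of_add_eq_zero_left hP
    rw [Point.neg_some] at hneg
    have hxx : x' = x := by
      injection hneg
    rw [psi3_eq, ← hx', hxx]
    ring

theorem T4_exists_order_three [IsAlgClosed K] [CharZero K] (hΔ : E.Δ ≠ 0) :
    ∃ P : E.toAffine.Point, P ≠ 0 ∧ (3 : ℤ) • P = 0 := by
  obtain ⟨x, hx⟩ := IsAlgClosed.exists_root (psi3Poly E.b₂ E.b₄ E.b₆ E.b₈)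
    (by rw [Polynomial.degree_eq_natDegree (psi3Poly_ne_zero _ _ _ _), natDegree_psi3Poly]
        norm_num)
  rw [Polynomial.IsRoot.def, eval_psi3Poly] at hx
  obtain ⟨y, hy⟩ := IsAlgClosed.exists_root (yPoly E x)
    (by rw [Polynomial.degree_eq_natDegree (yPoly_ne_zero _ _), natDegree_yPoly]; norm_num)
  rw [Polynomial.IsRoot.def, ← equation_iff_eval_yPoly] at hy
  have hns : E.toAffine.Nonsingular x y := (equation_iff_nonsingular_of_Δ_ne_zero hΔ).mp hy
  have hAB : Ap E.b₄ E.b₆ E.b₈ x = x * Bp E.b₂ E.b₄ E.b₆ x := by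
    rw [psi3_eq] at hx
    linear_combination -hx
  have hB : Bp E.b₂ E.b₄ E.b₆ x ≠ 0 := by
    intro hB
    apply hΔ
    apply Δ_eq_zero_of_Ap_Bp E _ hB
    rw [hAB, hB, mul_zero]
  have hyne : y ≠ E.toAffine.negY x y := fun h => hB ((Bp_eq_zero_iff E hy).mpr h)
  obtain ⟨-, x', y', h', h2, hx'⟩ := T4_two_smul_some E hns hyne
  have hxx : x' = x := by
    apply mul_right_cancel₀ hB
    rw [hx', hAB]
  subst hxx
  refine ⟨Point.some x' y hns, Point.some_ne_zero hns, ?_⟩
  have h3 : (3 : ℤ) • (Point.some x' y hns) =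
      (2 : ℤ) • (Point.some x' y hns) + Point.some x' y hns := by
    rw [show (3 : ℤ) = 2 + 1 by norm_num, add_smul, one_smul]
  rw [h3, h2]
  rcases Y_eq_of_X_eq h'.1 hy rfl with hyy | hyy
  · exfalso
    subst hyy
    have : (2 : ℤ) • (Point.some x' y' hns) = Point.some x' y' hns := h2
    rw [two_smul] at this
    simp at this
  · subst hyy
    rw [← Point.neg_some hns, neg_add_cancel]

/-- the finite set containing the coordinates of all 3-torsion points. -/
noncomputable def torsSet [CharZero K] : Finset (Option (K × K)) :=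
  insert none (((psi3Poly E.b₂ E.b₄ E.b₆ E.b₈).roots.toFinset.biUnion
    (fun x => (yPoly E x).roots.toFinset.image (fun y => (x, y)))).image some)

lemma card_torsSet_le [CharZero K] : (torsSet E).card ≤ 9 := by
  unfold torsSet
  refine (Finset.card_insert_le _ _).trans ?_
  have h1 : (((psi3Poly E.b₂ E.b₄ E.b₆ E.b₈).roots.toFinset.biUnion
      (fun x => (yPoly E x).roots.toFinset.image (fun y => (x, y)))).image some).card ≤ 8 := by
    refine Finset.card_image_le.trans ?_
    refine Finset.card_biUnion_le.trans ?_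
    have h2 : ∀ x ∈ (psi3Poly E.b₂ E.b₄ E.b₆ E.b₈).roots.toFinset,
        ((yPoly E x).roots.toFinset.image (fun y => (x, y))).card ≤ 2 := by
      intro x _
      refine Finset.card_image_le.trans ?_
      refine (Multiset.toFinset_card_le _).trans ?_
      refine (Polynomial.card_roots' _).trans ?_
      rw [natDegree_yPoly]
    refine (Finset.sum_le_card_nsmul _ _ 2 h2).trans ?_
    have h3 : (psi3Poly E.b₂ E.b₄ E.b₆ E.b₈).roots.toFinset.card ≤ 4 := by
      refine (Multiset.toFinset_card_le _).trans ?_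
      refine (Polynomial.card_roots' _).trans ?_
      rw [natDegree_psi3Poly]
    rw [smul_eq_mul]
    omega
  omega

/-- coordinates of a point. -/
def coords : E.toAffine.Point → Option (K × K)
  | .zero => none
  | .some x y _ => some (x, y)

lemma coords_injective : Function.Injective (coords E) := by
  rintro (_ | ⟨x₁, y₁, h₁⟩) (_ | ⟨x₂, y₂, h₂⟩) h <;>
    simp only [coords, Option.some.injEq, Prod.mk.injEq, reduceCtorEq] at h
  · rfl
  · obtain ⟨rfl, rfl⟩ := h; rfl

lemma coords_mem_torsSet [CharZero K] (hΔ : E.Δ ≠ 0) (P : E.toAffine.Point)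
    (hP : (3 : ℤ) • P = 0) : coords E P ∈ torsSet E := by
  unfold torsSet
  rcases P with _ | ⟨x, y, h⟩
  · exact Finset.mem_insert_self _ _
  · apply Finset.mem_insert_of_mem
    simp only [coords, Finset.mem_image, Finset.mem_biUnion, Multiset.mem_toFinset,
      Option.some.injEq, exists_eq_right]
    refine ⟨x, ?_, y, ?_, rfl⟩
    · rw [Polynomial.mem_roots (psi3Poly_ne_zero _ _ _ _), Polynomial.IsRoot.def, eval_psi3Poly]
      exact T4_psi3_of_three_smul E hΔ h hP
    · rw [Polynomial.mem_roots (yPoly_ne_zero E x), Polynomial.IsRoot.def,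
        ← equation_iff_eval_yPoly]
      exact h.1

theorem T4_card_three_torsion [CharZero K] (hΔ : E.Δ ≠ 0) :
    Finite (Submodule.torsionBy ℤ E.toAffine.Point 3) ∧
      Nat.card (Submodule.torsionBy ℤ E.toAffine.Point 3) ≤ 9 := by
  let g : Submodule.torsionBy ℤ E.toAffine.Point 3 → (torsSet E : Set (Option (K × K))) :=
    fun P => ⟨coords E P.1, coords_mem_torsSet E hΔ P.1
      ((Submodule.mem_torsionBy_iff _ _).mp P.2)⟩
  have hg : Function.Injective g := by
    intro P Q h
    apply Subtype.ext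
    apply coords_injective E
    exact congrArg Subtype.val h
  have hfin : Finite (Submodule.torsionBy ℤ E.toAffine.Point 3) := Finite.of_injective g hg
  refine ⟨hfin, ?_⟩
  have h1 := Nat.card_le_card_of_injective g hg
  have h2 : Nat.card (torsSet E : Set (Option (K × K))) = (torsSet E).card := by
    rw [Nat.card_eq_fintype_card]
    simp
  rw [h2] at h1
  exact h1.trans (card_torsSet_le E)

end Fermat.Agent.S51_helper2_T4b
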