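import Mathlib

set_option autoImplicit false
set_option linter.unusedVariables false

namespace Fermat.Agent.S51_helper4_Line

/-- In a `ZMod p`-vector space with at most `p ^ 2` elements, a proper subspace is spanned by
any of its nonzero vectors. -/
theorem exists_generator {p : ℕ} [Fact p.Prime] {V : Type*} [AddCommGroup V] [Module (ZMod p) V]
    [Finite V] (hcard : Nat.card V ≤ p ^ 2) (N : Submodule (ZMod p) V)
    (htop : N ≠ ⊤) :
    ∀ P ∈ N, P ≠ 0 → ∀ Q ∈ N, ∃ c : ZMod p, Q = c • P := by
  have hp : 1 < p := (Fact.out : p.Prime).one_lt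
  have : Module.Finite (ZMod p) V := Module.Finite.of_finite
  have hV : Module.finrank (ZMod p) V ≤ 2 := by
    have h1 : Nat.card V = p ^ Module.finrank (ZMod p) V := by
      have := Module.natCard_eq_pow_finrank (K := ZMod p) (V := V)
      rwa [Nat.card_zmod] at this
    rw [h1] at hcard
    exact (Nat.pow_le_pow_iff_right hp).mp hcard
  have hN : Module.finrank (ZMod p) N < Module.finrank (ZMod p) V :=
    Submodule.finrank_lt htop
  have hN1 : Module.finrank (ZMod p) N ≤ 1 := by omega
  intro P hP hP0 Q hQ
  by_contra hcon
  push Not at hcon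
  have hli : LinearIndependent (ZMod p) ![(⟨P, hP⟩ : N), ⟨Q, hQ⟩] := by
    rw [LinearIndependent.pair_iff]
    intro s t hst
    have hst' : s • P + t • Q = 0 := by
      have := congrArg Subtype.val hst
      simpa using this
    by_cases ht : t = 0
    · subst ht
      simp only [zero_smul, add_zero] at hst'
      rcases smul_eq_zero.mp hst' with h | h
      · exact ⟨h, rfl⟩
      · exact absurd h hP0
    · exfalso
      apply hcon (-(t⁻¹ * s))
      have : t • Q = -(s • P) := by
        rw [eq_neg_iff_add_eq_zero, add_comm]; exact hst'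
      calc Q = t⁻¹ • (t • Q) := by rw [smul_smul, inv_mul_cancel₀ ht, one_smul]
        _ = -(t⁻¹ * s) • P := by rw [this, smul_neg, smul_smul, neg_smul]
  have := hli.fintype_card_le_finrank
  simp at this
  omega

end Fermat.Agent.S51_helper4_Line
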