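import Fermat.Statements.S51
import Fermat.Agent.S51_helper4_Defs
import Fermat.Agent.S51_helper4_Line

set_option autoImplicit false
set_option linter.unusedVariables false
set_option linter.unusedSectionVars false

namespace Fermat.Agent.S51_helper4_Asm1

open WeierstrassCurve WeierstrassCurve.Affine WeierstrassCurve.Affine.Point
open Fermat.Agent.S51_helper4_Defs

local notation "Kb" => AlgebraicClosure ℚ

section xc

variable {F : Type*} [Field F] [DecidableEq F] {E : WeierstrassCurve F}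

/-- the `x`-coordinate of a point (junk value `0` at the origin). -/
def xc : E.toAffine.Point → F
  | .zero => 0
  | .some x _ _ => x

@[simp] lemma xc_some {x y : F} (h : E.toAffine.Nonsingular x y) :
    xc (Point.some x y h : E.toAffine.Point) = x := rfl

lemma xc_neg (P : E.toAffine.Point) : xc (-P) = xc P := by
  cases P <;> rfl

lemma eq_or_eq_neg_of_xc_eq {P Q : E.toAffine.Point} (hP : P ≠ 0) (hQ : Q ≠ 0)
    (h : xc P = xc Q) : P = Q ∨ P = -Q := by
  rcases P with _ | ⟨x₁, y₁, h₁⟩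
  · exact absurd rfl hP
  rcases Q with _ | ⟨x₂, y₂, h₂⟩
  · exact absurd rfl hQ
  exact Point.X_eq_iff.mp h

end xc

section galois

variable (E₀ : WeierstrassCurve ℚ)

lemma xc_map (σ : Kb ≃ₐ[ℚ] Kb) (P : (E₀⁄Kb).Point) :
    xc (E := E₀.baseChange Kb) (Point.map σ.toAlgHom P) = σ (xc (E := E₀.baseChange Kb) P) := by
  rcases P with _ | ⟨x, y, h⟩
  · exact (map_zero σ).symm
  · rfl

lemma map_ne_zero' (σ : Kb ≃ₐ[ℚ] Kb) {P : (E₀⁄Kb).Point} (hP : P ≠ 0) :
    Point.map (W' := E₀) σ.toAlgHom P ≠ 0 := by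
  intro h
  apply hP
  apply Point.map_injective (W' := E₀) σ.toAlgHom
  rw [h]; rfl

lemma smul_val (n : ℕ) (σ : Kb ≃ₐ[ℚ] Kb) (P : Submodule.torsionBy ℤ (E₀⁄Kb).Point n) :
    ((σ • P : Submodule.torsionBy ℤ (E₀⁄Kb).Point n) : (E₀⁄Kb).Point) =
      Point.map σ.toAlgHom (P : (E₀⁄Kb).Point) := rfl

lemma zmod_smul_val (n : ℕ) [NeZero n] (c : ZMod n) (P : Submodule.torsionBy ℤ (E₀⁄Kb).Point n) :
    ((c • P : Submodule.torsionBy ℤ (E₀⁄Kb).Point n) : (E₀⁄Kb).Point) =
      c.val • (P : (E₀⁄Kb).Point) := by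
  conv_lhs => rw [← ZMod.natCast_zmod_val c, Nat.cast_smul_eq_nsmul]
  rfl

end galois

end Fermat.Agent.S51_helper4_Asm1
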