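import Mathlib
import Fermat.Agent.S51_helper4_Defs

set_option autoImplicit false
set_option linter.unusedVariables false

open Fermat.Agent.S51_helper4_Defs

namespace Fermat.Agent.S51_helper9_T2a

variable {K : Type*} [Field K]

/-- translated invariants: with `r = x1`, `d = x2 - x1`. -/
theorem translate (b2 b4 b6 b8 x1 x2 : K)
    (hb : 4 * b8 = b2 * b6 - b4 ^ 2)
    (h1 : Ap b4 b6 b8 x1 = x2 * Bp b2 b4 b6 x1)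
    (h2 : Ap b4 b6 b8 x2 = x1 * Bp b2 b4 b6 x2)
    (h12 : x1 ≠ x2) :
    psi3 b2 b4 b6 b8 x1 = -(x2 - x1) * Bp b2 b4 b6 x1 ∧
    Bp b2 b4 b6 x1 = (x2 - x1) * ((x2 - x1) ^ 2 - (b4 + x1 * b2 + 6 * x1 ^ 2)) ∧
    (b2 + 12 * x1) * Bp b2 b4 b6 x1 =
      (b4 + x1 * b2 + 6 * x1 ^ 2) ^ 2 + 4 * psi3 b2 b4 b6 b8 x1 := by
  have hd0 : x2 - x1 ≠ 0 := sub_ne_zero.mpr (Ne.symm h12)
  have E1 : psi3 b2 b4 b6 b8 x1 = -(x2 - x1) * Bp b2 b4 b6 x1 := by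
    unfold psi3 Bp Ap at *
    linear_combination -h1
  refine ⟨E1, ?_, ?_⟩
  · have h : (x2 - x1) * (Bp b2 b4 b6 x1 -
        (x2 - x1) * ((x2 - x1) ^ 2 - (b4 + x1 * b2 + 6 * x1 ^ 2))) = 0 := by
      unfold psi3 Bp Ap at *
      linear_combination -h2 + h1
    rcases mul_eq_zero.mp h with h | h
    · exact absurd h hd0
    · exact sub_eq_zero.mp h
  · unfold psi3 Bp
    linear_combination -hb

theorem key (β2 β4 β6 β8 d : K) (h6 : β6 ≠ 0)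
    (E1 : β8 = -d * β6) (E2 : β6 = d * (d ^ 2 - β4)) (E3 : β2 * β6 = β4 ^ 2 + 4 * β8) :
    (β2 ^ 2 - 24 * β4) * d ^ 10 =
      (Dl β2 β4 β6 β8) ^ 2 + 10 * Dl β2 β4 β6 β8 * d ^ 6 + 5 * d ^ 12 := by
  have hβ2 : β2 = (β4 ^ 2 + 4 * β8) / β6 := by
    rw [eq_div_iff h6]; exact E3
  subst E1
  subst hβ2
  have hd : d ≠ 0 := by
    rintro rfl
    apply h6
    rw [E2]; ring
  have hq : d ^ 2 - β4 ≠ 0 := by
    intro h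
    apply h6
    rw [E2, h, mul_zero]
  rw [E2]
  unfold Dl
  field_simp
  ring

theorem T2_j_formula (b2 b4 b6 b8 x1 x2 : K)
    (hb : 4 * b8 = b2 * b6 - b4 ^ 2)
    (h1 : Ap b4 b6 b8 x1 = x2 * Bp b2 b4 b6 x1)
    (h2 : Ap b4 b6 b8 x2 = x1 * Bp b2 b4 b6 x2)
    (hB1 : Bp b2 b4 b6 x1 ≠ 0) (hB2 : Bp b2 b4 b6 x2 ≠ 0) (h12 : x1 ≠ x2) :
    (b2 ^ 2 - 24 * b4) ^ 3 * tfun b2 b4 b6 b8 x1 x2 =
      Dl b2 b4 b6 b8 * ((tfun b2 b4 b6 b8 x1 x2) ^ 2 + 10 * tfun b2 b4 b6 b8 x1 x2 + 5) ^ 3 := by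
  obtain ⟨E1, E2, E3⟩ := translate b2 b4 b6 b8 x1 x2 hb h1 h2 h12
  have hk := key (b2 + 12 * x1) (b4 + x1 * b2 + 6 * x1 ^ 2) (Bp b2 b4 b6 x1)
    (psi3 b2 b4 b6 b8 x1) (x2 - x1) hB1 E1 E2 E3
  have hc4 : (b2 + 12 * x1) ^ 2 - 24 * (b4 + x1 * b2 + 6 * x1 ^ 2) = b2 ^ 2 - 24 * b4 := by ring
  have hDl : Dl (b2 + 12 * x1) (b4 + x1 * b2 + 6 * x1 ^ 2) (Bp b2 b4 b6 x1)
      (psi3 b2 b4 b6 b8 x1) = Dl b2 b4 b6 b8 := by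
    unfold Dl Bp psi3
    linear_combination (-6 * b2 * x1 - 36 * x1 ^ 2) * hb
  rw [hc4, hDl] at hk
  have he : x1 - x2 ≠ 0 := sub_ne_zero.mpr h12
  have he6 : (x1 - x2) ^ 6 ≠ 0 := pow_ne_zero _ he
  have hk' : (b2 ^ 2 - 24 * b4) * (x1 - x2) ^ 10 =
      (Dl b2 b4 b6 b8) ^ 2 + 10 * Dl b2 b4 b6 b8 * (x1 - x2) ^ 6 + 5 * (x1 - x2) ^ 12 := by
    have e10 : (x1 - x2) ^ 10 = (x2 - x1) ^ 10 := by ring
    have e6 : (x1 - x2) ^ 6 = (x2 - x1) ^ 6 := by ring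
    have e12 : (x1 - x2) ^ 12 = (x2 - x1) ^ 12 := by ring
    rw [e10, e6, e12]; exact hk
  unfold tfun
  have h5 : ((Dl b2 b4 b6 b8 / (x1 - x2) ^ 6) ^ 2 + 10 * (Dl b2 b4 b6 b8 / (x1 - x2) ^ 6) + 5)
      = (b2 ^ 2 - 24 * b4) / (x1 - x2) ^ 2 := by
    rw [eq_div_iff (pow_ne_zero _ he)]
    field_simp
    linear_combination -hk'
  rw [h5]
  field_simp

end Fermat.Agent.S51_helper9_T2a
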