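import Mathlib
import Fermat.Agent.S51_helper4_Defs
import Fermat.Agent.S51_helper9_T2a

set_option autoImplicit false
set_option linter.unusedVariables false

open Fermat.Agent.S51_helper4_Defs

namespace Fermat.Agent.S51_helper9_T2b

variable {K : Type*} [Field K]

theorem keyG (β2 β4 β6 β8 d u : K) (h6 : β6 ≠ 0)
    (E1 : β8 = -d * β6) (E2 : β6 = d * (d ^ 2 - β4)) (E3 : β2 * β6 = β4 ^ 2 + 4 * β8)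
    (h0 : 3 * u ^ 4 + β2 * u ^ 3 + 3 * β4 * u ^ 2 + 3 * β6 * u + β8 = 0) :
    (d ^ 3 / β6) ^ 2 * (u / d) ^ 3 + 3 * (d ^ 3 / β6) * (u / d) ^ 2 * (u / d - 1) ^ 2
      + (u / d - 1) ^ 3 = 0 := by
  have hβ2 : β2 = (β4 ^ 2 + 4 * β8) / β6 := by
    rw [eq_div_iff h6]; exact E3
  subst E1
  subst hβ2
  have hd : d ≠ 0 := by
    rintro rfl
    apply h6
    rw [E2]; ring
  have hq : d ^ 2 - β4 ≠ 0 := by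
    intro h
    apply h6
    rw [E2, h, mul_zero]
  subst E2
  field_simp at h0 ⊢
  linear_combination h0

theorem keyB (β2 β4 β6 β8 d : K) (h6 : β6 ≠ 0)
    (E1 : β8 = -d * β6) (E2 : β6 = d * (d ^ 2 - β4)) (E3 : β2 * β6 = β4 ^ 2 + 4 * β8) :
    (4 * d ^ 3 + β2 * d ^ 2 + 2 * β4 * d + β6) * β6 = d ^ 6 := by
  have hβ2 : β2 = (β4 ^ 2 + 4 * β8) / β6 := by
    rw [eq_div_iff h6]; exact E3
  subst E1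
  subst hβ2
  have hd : d ≠ 0 := by
    rintro rfl
    apply h6
    rw [E2]; ring
  have hq : d ^ 2 - β4 ≠ 0 := by
    intro h
    apply h6
    rw [E2, h, mul_zero]
  subst E2
  field_simp
  ring

/-- `Bp(x1) * Bp(x2) = (x1 - x2)^6`. -/
theorem Bp_mul_Bp (b2 b4 b6 b8 x1 x2 : K)
    (hb : 4 * b8 = b2 * b6 - b4 ^ 2)
    (h1 : Ap b4 b6 b8 x1 = x2 * Bp b2 b4 b6 x1)
    (h2 : Ap b4 b6 b8 x2 = x1 * Bp b2 b4 b6 x2)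
    (hB1 : Bp b2 b4 b6 x1 ≠ 0) (h12 : x1 ≠ x2) :
    Bp b2 b4 b6 x2 * Bp b2 b4 b6 x1 = (x2 - x1) ^ 6 := by
  obtain ⟨E1, E2, E3⟩ := S51_helper9_T2a.translate b2 b4 b6 b8 x1 x2 hb h1 h2 h12
  have hk := keyB (b2 + 12 * x1) (b4 + x1 * b2 + 6 * x1 ^ 2) (Bp b2 b4 b6 x1)
    (psi3 b2 b4 b6 b8 x1) (x2 - x1) hB1 E1 E2 E3
  have e : Bp b2 b4 b6 x2 = 4 * (x2 - x1) ^ 3 + (b2 + 12 * x1) * (x2 - x1) ^ 2 +
      2 * (b4 + x1 * b2 + 6 * x1 ^ 2) * (x2 - x1) + Bp b2 b4 b6 x1 := by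
    unfold Bp; ring
  rw [e]; exact hk

/-- the cubic relation `G(c, ξ) = 0` between `ξ = (x0-x1)/(x2-x1)` and `c = (x2-x1)^3/Bp(x1)`. -/
theorem G_eq_zero (b2 b4 b6 b8 x0 x1 x2 : K)
    (hb : 4 * b8 = b2 * b6 - b4 ^ 2)
    (h1 : Ap b4 b6 b8 x1 = x2 * Bp b2 b4 b6 x1)
    (h2 : Ap b4 b6 b8 x2 = x1 * Bp b2 b4 b6 x2)
    (hB1 : Bp b2 b4 b6 x1 ≠ 0) (h12 : x1 ≠ x2)
    (h0 : psi3 b2 b4 b6 b8 x0 = 0) :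
    ((x2 - x1) ^ 3 / Bp b2 b4 b6 x1) ^ 2 * ((x0 - x1) / (x2 - x1)) ^ 3 +
      3 * ((x2 - x1) ^ 3 / Bp b2 b4 b6 x1) * ((x0 - x1) / (x2 - x1)) ^ 2 *
        ((x0 - x1) / (x2 - x1) - 1) ^ 2 + ((x0 - x1) / (x2 - x1) - 1) ^ 3 = 0 := by
  obtain ⟨E1, E2, E3⟩ := S51_helper9_T2a.translate b2 b4 b6 b8 x1 x2 hb h1 h2 h12
  refine keyG (b2 + 12 * x1) (b4 + x1 * b2 + 6 * x1 ^ 2) (Bp b2 b4 b6 x1)
    (psi3 b2 b4 b6 b8 x1) (x2 - x1) (x0 - x1) hB1 E1 E2 E3 ?_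
  unfold psi3 Bp at *
  linear_combination h0

theorem T2_Y_sq (b2 b4 b6 b8 x0 x1 x2 : K)
    (hb : 4 * b8 = b2 * b6 - b4 ^ 2)
    (h1 : Ap b4 b6 b8 x1 = x2 * Bp b2 b4 b6 x1)
    (h2 : Ap b4 b6 b8 x2 = x1 * Bp b2 b4 b6 x2)
    (hB1 : Bp b2 b4 b6 x1 ≠ 0) (hB2 : Bp b2 b4 b6 x2 ≠ 0) (h12 : x1 ≠ x2)
    (h0 : psi3 b2 b4 b6 b8 x0 = 0) (h01 : x0 ≠ x1) (h02 : x0 ≠ x2) :
    (Yfun b2 b4 b6 x0 x1 x2) ^ 2 =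
      pfun x0 x1 x2 * (9 * pfun x0 x1 x2 - 4) * (4 * pfun x0 x1 x2 + 1) := by
  have hG := G_eq_zero b2 b4 b6 b8 x0 x1 x2 hb h1 h2 hB1 h12 h0
  have hd : x2 - x1 ≠ 0 := sub_ne_zero.mpr (Ne.symm h12)
  have hd' : x1 - x2 ≠ 0 := sub_ne_zero.mpr h12
  have hp : pfun x0 x1 x2 = ((x0 - x1) / (x2 - x1)) * ((x0 - x1) / (x2 - x1) - 1) := by
    unfold pfun
    field_simp
    ring
  have hξ1 : (x0 - x1) / (x2 - x1) - 1 ≠ 0 := by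
    intro h
    apply h02
    have h' := sub_eq_zero.mp h
    rw [div_eq_one_iff_eq hd] at h'
    exact sub_left_injective h'
  rw [hp]
  unfold Yfun
  generalize (x0 - x1) / (x2 - x1) = ξ at hG hξ1 ⊢
  generalize (x2 - x1) ^ 3 / Bp b2 b4 b6 x1 = c at hG ⊢
  rw [div_pow, div_eq_iff (pow_ne_zero 2 hξ1)]
  linear_combination 4 * ξ * (2 * ξ - 1) ^ 2 * hG

theorem T2_Y_symm (b2 b4 b6 b8 x0 x1 x2 : K)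
    (hb : 4 * b8 = b2 * b6 - b4 ^ 2)
    (h1 : Ap b4 b6 b8 x1 = x2 * Bp b2 b4 b6 x1)
    (h2 : Ap b4 b6 b8 x2 = x1 * Bp b2 b4 b6 x2)
    (hB1 : Bp b2 b4 b6 x1 ≠ 0) (hB2 : Bp b2 b4 b6 x2 ≠ 0) (h12 : x1 ≠ x2)
    (h0 : psi3 b2 b4 b6 b8 x0 = 0) (h01 : x0 ≠ x1) (h02 : x0 ≠ x2) :
    Yfun b2 b4 b6 x0 x2 x1 = Yfun b2 b4 b6 x0 x1 x2 := by
  have hG := G_eq_zero b2 b4 b6 b8 x0 x1 x2 hb h1 h2 hB1 h12 h0
  have hBB := Bp_mul_Bp b2 b4 b6 b8 x1 x2 hb h1 h2 hB1 h12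
  have hd : x2 - x1 ≠ 0 := sub_ne_zero.mpr (Ne.symm h12)
  have hd' : x1 - x2 ≠ 0 := sub_ne_zero.mpr h12
  have hu : x0 - x1 ≠ 0 := sub_ne_zero.mpr h01
  have hξ0 : (x0 - x1) / (x2 - x1) ≠ 0 := div_ne_zero hu hd
  have hξ1 : (x0 - x1) / (x2 - x1) - 1 ≠ 0 := by
    intro h
    apply h02
    have h' := sub_eq_zero.mp h
    rw [div_eq_one_iff_eq hd] at h'
    exact sub_left_injective h'
  have hc0 : (x2 - x1) ^ 3 / Bp b2 b4 b6 x1 ≠ 0 := div_ne_zero (pow_ne_zero _ hd) hB1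
  have hξ' : (x0 - x2) / (x1 - x2) = 1 - (x0 - x1) / (x2 - x1) := by
    field_simp
    ring
  have hc' : (x1 - x2) ^ 3 / Bp b2 b4 b6 x2 = -1 / ((x2 - x1) ^ 3 / Bp b2 b4 b6 x1) := by
    rw [div_div_eq_mul_div, div_eq_div_iff hB2 (pow_ne_zero _ hd)]
    linear_combination hBB
  unfold Yfun
  rw [hξ', hc']
  generalize (x0 - x1) / (x2 - x1) = ξ at hG hξ0 hξ1 ⊢
  generalize (x2 - x1) ^ 3 / Bp b2 b4 b6 x1 = c at hG hc0 ⊢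
  have h1ξ : 1 - ξ - 1 ≠ 0 := by
    rw [sub_sub_cancel_left]; exact neg_ne_zero.mpr hξ0
  rw [div_eq_div_iff h1ξ hξ1]
  field_simp
  linear_combination (2 * (2 * ξ - 1)) * hG

end Fermat.Agent.S51_helper9_T2b
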