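import Mathlib

set_option autoImplicit false
set_option linter.style.haveILetI false

namespace Fermat.Agent.S51_helper9_T6

theorem isAlgQb : Algebra.IsAlgebraic ℚ (AlgebraicClosure ℚ) := AlgebraicClosure.isAlgebraic ℚ

theorem isAlgClosureQb : IsAlgClosure ℚ (AlgebraicClosure ℚ) :=
  haveI := isAlgQb
  ⟨inferInstance, inferInstance⟩

theorem normalQb : Normal ℚ (AlgebraicClosure ℚ) :=
  haveI := isAlgClosureQb
  IsAlgClosure.normal ℚ (AlgebraicClosure ℚ)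

theorem isGaloisQb : IsGalois ℚ (AlgebraicClosure ℚ) :=
  haveI := isAlgQb
  haveI := normalQb
  ⟨⟩

theorem T6_fixed_mem_range (z : AlgebraicClosure ℚ)
    (hz : ∀ σ : AlgebraicClosure ℚ ≃ₐ[ℚ] AlgebraicClosure ℚ, σ z = z) :
    ∃ q : ℚ, algebraMap ℚ (AlgebraicClosure ℚ) q = z := by
  haveI := isGaloisQb
  have h := (InfiniteGalois.mem_range_algebraMap_iff_fixed (k := ℚ) (K := AlgebraicClosure ℚ) z).mpr
    (fun σ => hz σ)
  obtain ⟨q, hq⟩ := h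
  exact ⟨q, hq⟩

theorem T6_sq_descent (q : ℚ) (z : AlgebraicClosure ℚ)
    (hz : ∀ σ : AlgebraicClosure ℚ ≃ₐ[ℚ] AlgebraicClosure ℚ, σ z = z)
    (h : z ^ 2 = algebraMap ℚ (AlgebraicClosure ℚ) q) : ∃ r : ℚ, r ^ 2 = q := by
  obtain ⟨r, hr⟩ := T6_fixed_mem_range z hz
  refine ⟨r, ?_⟩
  apply (algebraMap ℚ (AlgebraicClosure ℚ)).injective
  rw [map_pow, hr, h]

end Fermat.Agent.S51_helper9_T6
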