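import Fermat.Statements.S51
import Fermat.Agent.S51_helper4_Defs
import Fermat.Agent.S51_helper4_Line
import Fermat.Agent.S51_helper4_Asm1
import Fermat.Agent.S51_helper19_T1
import Fermat.Agent.S51_helper9_T2a
import Fermat.Agent.S51_helper9_T2b
import Fermat.Agent.S51_helper25_T2c
import Fermat.Agent.S51_helper2_T4b
import Fermat.Agent.S51_helper24_T5
import Fermat.Agent.S51_helper9_T6

set_option autoImplicit false
set_option linter.unusedVariables false
set_option linter.unusedSectionVars false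

namespace Fermat.Agent.S51_helper4_Asm2

open WeierstrassCurve WeierstrassCurve.Affine WeierstrassCurve.Affine.Point
open Fermat.Agent.S51_helper4_Defs Fermat.Agent.S51_helper4_Asm1
open Fermat.Agent.S51_helper19_T1 Fermat.Agent.S51_helper9_T2a Fermat.Agent.S51_helper9_T2b
open Fermat.Agent.S51_helper25_T2c Fermat.Agent.S51_helper2_T4b Fermat.Agent.S51_helper24_T5
open Fermat.Agent.S51_helper9_T6

local notation "Kb" => AlgebraicClosure ℚ

variable (E₀ : WeierstrassCurve ℚ)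

/-- A reducible `E[p]` with a point of order `p` and at most `p²` points contains a Galois-stable
line: a nonzero `P` with `σ P ∈ {c • P}` for all `σ`. -/
theorem exists_stable_line (p : ℕ) [Fact p.Prime]
    (hex : ∃ P : (E₀⁄Kb).Point, P ≠ 0 ∧ (p : ℤ) • P = 0)
    (hfin : Finite (Submodule.torsionBy ℤ (E₀⁄Kb).Point p))
    (hcard : Nat.card (Submodule.torsionBy ℤ (E₀⁄Kb).Point p) ≤ p ^ 2)
    (hred : ¬ GaloisRepIsIrreducible (K := Kb) ℚ E₀ p) :
    ∃ P : (E₀⁄Kb).Point, P ≠ 0 ∧ (p : ℤ) • P = 0 ∧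
      ∀ σ : Kb ≃ₐ[ℚ] Kb, ∃ c : ZMod p, c ≠ 0 ∧ Point.map σ.toAlgHom P = c.val • P := by
  haveI : NeZero p := ⟨(Fact.out : p.Prime).ne_zero⟩
  unfold GaloisRepIsIrreducible at hred
  have hnt : Nontrivial (Submodule.torsionBy ℤ (E₀⁄Kb).Point p) := by
    obtain ⟨P, hP0, hP⟩ := hex
    refine ⟨⟨⟨P, ?_⟩, 0, ?_⟩⟩
    · rw [Submodule.mem_torsionBy_iff]; exact hP
    · intro h
      exact hP0 (congrArg Subtype.val h)
  have hred' : ∃ N : Submodule (ZMod p) (Submodule.torsionBy ℤ (E₀⁄Kb).Point p),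
      IsGaloisStable ℚ N ∧ N ≠ ⊥ ∧ N ≠ ⊤ := by
    by_contra hcon
    apply hred
    refine ⟨hnt, fun N hN => ?_⟩
    by_contra h2
    push Not at h2
    exact hcon ⟨N, hN, h2.1, h2.2⟩
  obtain ⟨N, hstab, hbot, htop⟩ := hred'
  obtain ⟨P, hPN, hP0⟩ := (Submodule.ne_bot_iff N).mp hbot
  have hgen := Fermat.Agent.S51_helper4_Line.exists_generator hcard N htop P hPN hP0
  refine ⟨P.val, fun h => hP0 (Subtype.ext h), ?_, fun σ => ?_⟩
  · have := P.property
    rwa [Submodule.mem_torsionBy_iff] at this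
  · obtain ⟨c, hc⟩ := hgen (σ • P) (hstab σ P hPN)
    have hval : Point.map σ.toAlgHom (P : (E₀⁄Kb).Point) = c.val • (P : (E₀⁄Kb).Point) := by
      rw [← smul_val E₀ p σ P, hc, zmod_smul_val]
    refine ⟨c, ?_, hval⟩
    rintro rfl
    have hne : Point.map (W' := E₀) σ.toAlgHom (P : (E₀⁄Kb).Point) ≠ 0 :=
      map_ne_zero' E₀ σ (fun h => hP0 (Subtype.ext h))
    apply hne
    rw [hval]
    simp

end Fermat.Agent.S51_helper4_Asm2
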