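import Fermat.Statements.S51
import Fermat.Agent.S51_helper4_Defs
import Fermat.Agent.S51_helper4_Line
import Fermat.Agent.S51_helper4_Asm1
import Fermat.Agent.S51_helper4_Asm2
import Fermat.Agent.S51_helper19_T1
import Fermat.Agent.S51_helper9_T2a
import Fermat.Agent.S51_helper9_T2b
import Fermat.Agent.S51_helper25_T2c
import Fermat.Agent.S51_helper2_T4b
import Fermat.Agent.S51_helper24_T5
import Fermat.Agent.S51_helper9_T6

set_option autoImplicit false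
set_option linter.unusedVariables false
set_option linter.unusedSectionVars false

namespace Fermat.Agent.S51_helper4_Asm3

open WeierstrassCurve WeierstrassCurve.Affine WeierstrassCurve.Affine.Point
open Fermat.Agent.S51_helper4_Defs Fermat.Agent.S51_helper4_Asm1 Fermat.Agent.S51_helper4_Asm2
open Fermat.Agent.S51_helper19_T1 Fermat.Agent.S51_helper9_T2a Fermat.Agent.S51_helper9_T2b
open Fermat.Agent.S51_helper25_T2c Fermat.Agent.S51_helper2_T4b Fermat.Agent.S51_helper24_T5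
open Fermat.Agent.S51_helper9_T6

local notation "Kb" => AlgebraicClosure ℚ

variable (E₀ : WeierstrassCurve ℚ)

/-- the Galois-stable point of order 3: its `x`-coordinate is fixed by Galois. -/
theorem three_part (hΔ : (E₀.baseChange Kb).Δ ≠ 0)
    (hred : ¬ GaloisRepIsIrreducible (K := Kb) ℚ E₀ 3) :
    ∃ P : (E₀⁄Kb).Point, P ≠ 0 ∧ (3 : ℤ) • P = 0 ∧
      ∀ σ : Kb ≃ₐ[ℚ] Kb, σ (xc (E := E₀.baseChange Kb) P) = xc (E := E₀.baseChange Kb) P := by
  haveI : Fact (Nat.Prime 3) := ⟨Nat.prime_three⟩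
  obtain ⟨hfin, hcard⟩ := T4_card_three_torsion (E₀.baseChange Kb) hΔ
  obtain ⟨P, hP0, hP3, hσ⟩ := exists_stable_line E₀ 3
    (T4_exists_order_three (E₀.baseChange Kb) hΔ) hfin (by simpa using hcard) hred
  refine ⟨P, hP0, hP3, fun σ => ?_⟩
  obtain ⟨c, hc0, hc⟩ := hσ σ
  rw [← xc_map, hc]
  have h3 : (3 : ℕ) • P = 0 := by
    have := hP3
    rwa [natCast_zsmul] at this
  have h2 : (2 : ℕ) • P = -P := by
    rw [eq_neg_iff_add_eq_zero]
    calc (2 : ℕ) • P + P = (3 : ℕ) • P := by abel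
      _ = 0 := h3
  fin_cases c
  · exact absurd rfl hc0
  · show xc ((1 : ℕ) • P) = xc P
    rw [one_nsmul]
  · show xc ((2 : ℕ) • P) = xc P
    rw [h2, xc_neg]

/-- the Galois-stable point of order 5: Galois fixes or swaps `x(P)`, `x(2P)`. -/
theorem five_part (hΔ : (E₀.baseChange Kb).Δ ≠ 0)
    (hred : ¬ GaloisRepIsIrreducible (K := Kb) ℚ E₀ 5) :
    ∃ P : (E₀⁄Kb).Point, P ≠ 0 ∧ (5 : ℤ) • P = 0 ∧
      ∀ σ : Kb ≃ₐ[ℚ] Kb,
        (σ (xc (E := E₀.baseChange Kb) P) = xc (E := E₀.baseChange Kb) P ∧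
          σ (xc (E := E₀.baseChange Kb) ((2 : ℤ) • P)) = xc (E := E₀.baseChange Kb) ((2 : ℤ) • P)) ∨
        (σ (xc (E := E₀.baseChange Kb) P) = xc (E := E₀.baseChange Kb) ((2 : ℤ) • P) ∧
          σ (xc (E := E₀.baseChange Kb) ((2 : ℤ) • P)) = xc (E := E₀.baseChange Kb) P) := by
  haveI : Fact (Nat.Prime 5) := ⟨Nat.prime_five⟩
  obtain ⟨hfin, hcard⟩ := T5_card_five_torsion (E₀.baseChange Kb) hΔ
  obtain ⟨P, hP0, hP5, hσ⟩ := exists_stable_line E₀ 5
    (T5_exists_order_five (E₀.baseChange Kb) hΔ) hfin (by simpa using hcard) hred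
  refine ⟨P, hP0, hP5, fun σ => ?_⟩
  obtain ⟨c, hc0, hc⟩ := hσ σ
  have h5 : (5 : ℕ) • P = 0 := by
    have := hP5
    rwa [natCast_zsmul] at this
  have e2 : (2 : ℤ) • P = (2 : ℕ) • P := by
    rw [ofNat_zsmul]
  have h3 : (3 : ℕ) • P = -((2 : ℕ) • P) := by
    rw [eq_neg_iff_add_eq_zero, ← add_nsmul]; exact h5
  have h4 : (4 : ℕ) • P = -P := by
    rw [eq_neg_iff_add_eq_zero]
    calc (4 : ℕ) • P + P = (5 : ℕ) • P := by abel
      _ = 0 := h5
  have h6 : (6 : ℕ) • P = P := by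
    calc (6 : ℕ) • P = (5 : ℕ) • P + P := by abel
      _ = P := by rw [h5, zero_add]
  have h8 : (8 : ℕ) • P = -((2 : ℕ) • P) := by
    calc (8 : ℕ) • P = (5 : ℕ) • P + (3 : ℕ) • P := by abel
      _ = -((2 : ℕ) • P) := by rw [h5, zero_add, h3]
  have hc2 : Point.map (W' := E₀) σ.toAlgHom ((2 : ℕ) • P) = (2 * c.val) • P := by
    rw [map_nsmul, hc, mul_nsmul']
  rw [e2, ← xc_map, ← xc_map, hc, hc2]
  fin_cases c
  · exact absurd rfl hc0
  · left
    refine ⟨?_, ?_⟩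
    · show xc ((1 : ℕ) • P) = xc P
      rw [one_nsmul]
    · show xc ((2 * 1 : ℕ) • P) = xc ((2 : ℕ) • P)
      rfl
  · right
    refine ⟨?_, ?_⟩
    · show xc ((2 : ℕ) • P) = xc ((2 : ℕ) • P)
      rfl
    · show xc ((2 * 2 : ℕ) • P) = xc P
      rw [show (2 * 2 : ℕ) = 4 from rfl, h4, xc_neg]
  · right
    refine ⟨?_, ?_⟩
    · show xc ((3 : ℕ) • P) = xc ((2 : ℕ) • P)
      rw [h3, xc_neg]
    · show xc ((2 * 3 : ℕ) • P) = xc P
      rw [show (2 * 3 : ℕ) = 6 from rfl, h6]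
  · left
    refine ⟨?_, ?_⟩
    · show xc ((4 : ℕ) • P) = xc P
      rw [h4, xc_neg]
    · show xc ((2 * 4 : ℕ) • P) = xc ((2 : ℕ) • P)
      rw [show (2 * 4 : ℕ) = 8 from rfl, h8, xc_neg]

end Fermat.Agent.S51_helper4_Asm3
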