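import Fermat.Statements.S51
import Fermat.Agent.S51_helper4_Defs
import Fermat.Agent.S51_helper4_Asm1
import Fermat.Agent.S51_helper4_Asm3
import Fermat.Agent.S51_helper19_T1
import Fermat.Agent.S51_helper9_T2a
import Fermat.Agent.S51_helper9_T2b
import Fermat.Agent.S51_helper25_T2c
import Fermat.Agent.S51_helper2_T4b
import Fermat.Agent.S51_helper24_T5
import Fermat.Agent.S51_helper9_T6
import Fermat.Agent.S51_helper29_T3

set_option autoImplicit false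
set_option linter.unusedVariables false
set_option linter.unusedSectionVars false

namespace Fermat.Agent.S51_helper4_Asm4

open WeierstrassCurve WeierstrassCurve.Affine WeierstrassCurve.Affine.Point
open Fermat.Agent.S51_helper4_Defs Fermat.Agent.S51_helper4_Asm1 Fermat.Agent.S51_helper4_Asm3
open Fermat.Agent.S51_helper19_T1 Fermat.Agent.S51_helper9_T2a Fermat.Agent.S51_helper9_T2b
open Fermat.Agent.S51_helper25_T2c Fermat.Agent.S51_helper2_T4b Fermat.Agent.S51_helper24_T5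
open Fermat.Agent.S51_helper9_T6

local notation "Kb" => AlgebraicClosure ℚ

lemma pfun_swap {K : Type*} [Field K] (x0 x1 x2 : K) : pfun x0 x2 x1 = pfun x0 x1 x2 := by
  unfold pfun
  rw [show (x2 - x1) ^ 2 = (x1 - x2) ^ 2 by ring, mul_comm]

lemma tfun_swap {K : Type*} [Field K] (b2 b4 b6 b8 x1 x2 : K) :
    tfun b2 b4 b6 b8 x2 x1 = tfun b2 b4 b6 b8 x1 x2 := by
  unfold tfun
  rw [show (x2 - x1) ^ 6 = (x1 - x2) ^ 6 by ring]

lemma map_pfun (σ : Kb ≃ₐ[ℚ] Kb) (x0 x1 x2 : Kb) :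
    σ (pfun x0 x1 x2) = pfun (σ x0) (σ x1) (σ x2) := by
  simp only [pfun, map_div₀, map_mul, map_sub, map_pow]

lemma map_Bp (σ : Kb ≃ₐ[ℚ] Kb) (b2 b4 b6 x : Kb) :
    σ (Bp b2 b4 b6 x) = Bp (σ b2) (σ b4) (σ b6) (σ x) := by
  simp only [Bp, map_add, map_mul, map_pow, map_ofNat]

lemma map_Yfun (σ : Kb ≃ₐ[ℚ] Kb) (b2 b4 b6 x0 x1 x2 : Kb) :
    σ (Yfun b2 b4 b6 x0 x1 x2) = Yfun (σ b2) (σ b4) (σ b6) (σ x0) (σ x1) (σ x2) := by
  simp only [Yfun, map_div₀, map_mul, map_sub, map_add, map_pow, map_ofNat, map_one, map_Bp]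

lemma map_Dl (σ : Kb ≃ₐ[ℚ] Kb) (b2 b4 b6 b8 : Kb) :
    σ (Dl b2 b4 b6 b8) = Dl (σ b2) (σ b4) (σ b6) (σ b8) := by
  simp only [Dl, map_add, map_sub, map_mul, map_pow, map_neg, map_ofNat]

lemma map_tfun (σ : Kb ≃ₐ[ℚ] Kb) (b2 b4 b6 b8 x1 x2 : Kb) :
    σ (tfun b2 b4 b6 b8 x1 x2) = tfun (σ b2) (σ b4) (σ b6) (σ b8) (σ x1) (σ x2) := by
  simp only [tfun, map_div₀, map_sub, map_pow, map_Dl]

lemma eq_zero_of_three_of_five {G : Type*} [AddCommGroup G] (P Q : G) (h3 : (3 : ℤ) • P = 0)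
    (h5 : (5 : ℤ) • Q = 0) (h : P = Q ∨ P = -Q) : P = 0 := by
  have h5' : (5 : ℤ) • P = 0 := by
    rcases h with h | h
    · rw [h]; exact h5
    · rw [h, smul_neg, h5, _root_.neg_zero]
  have e : P = (2 : ℤ) • ((3 : ℤ) • P) - (5 : ℤ) • P := by
    rw [smul_smul, ← sub_smul]; norm_num
  rw [e, h3, h5', smul_zero, sub_zero]

lemma two_smul_five {G : Type*} [AddCommGroup G] (P : G) (h5 : (5 : ℤ) • P = 0) :
    (5 : ℤ) • ((2 : ℤ) • P) = 0 := by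
  rw [smul_comm, h5, smul_zero]

theorem main (W : WeierstrassCurve ℤ) (hΔ : W.Δ ≠ 0) (hW : W.IsSemistableModel)
    (h3 : ¬ W.ModRepIsIrreducible 3) (h5 : ¬ W.ModRepIsIrreducible 5) : False := by
  unfold ModRepIsIrreducible at h3 h5
  set E₀ : WeierstrassCurve ℚ := W.map (Int.castRingHom ℚ) with hE₀
  set E : WeierstrassCurve Kb := E₀.baseChange Kb with hE
  have hinj : Function.Injective (algebraMap ℚ Kb) := (algebraMap ℚ Kb).injective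
  have hb2 : E.b₂ = algebraMap ℚ Kb E₀.b₂ := map_b₂ _ _
  have hb4 : E.b₄ = algebraMap ℚ Kb E₀.b₄ := map_b₄ _ _
  have hb6 : E.b₆ = algebraMap ℚ Kb E₀.b₆ := map_b₆ _ _
  have hb8 : E.b₈ = algebraMap ℚ Kb E₀.b₈ := map_b₈ _ _
  have hc4 : E.c₄ = algebraMap ℚ Kb ((W.c₄ : ℤ) : ℚ) := by
    rw [hE, WeierstrassCurve.baseChange, map_c₄, hE₀, map_c₄]; rfl
  have hΔ' : E.Δ = algebraMap ℚ Kb ((W.Δ : ℤ) : ℚ) := by
    rw [hE, WeierstrassCurve.baseChange, map_Δ, hE₀, map_Δ]; rfl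
  have hΔE : E.Δ ≠ 0 := by
    rw [hΔ']
    intro h
    have := hinj (h.trans (_root_.map_zero _).symm)
    exact hΔ (by exact_mod_cast this)
  obtain ⟨P3, hP30, hP3, hσ3⟩ := three_part E₀ hΔE h3
  obtain ⟨P5, hP50, hP5, hσ5⟩ := five_part E₀ hΔE h5
  rcases P3 with _ | ⟨x0, y0, h0⟩
  · exact hP30 rfl
  rcases P5 with _ | ⟨x1, y1, h1⟩
  · exact hP50 rfl
  obtain ⟨x2, y2, h2, h2P, h12, hB1, hB2, hA1, hA2⟩ := T5_of_five_smul E hΔE h1 hP5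
  have hpsi := T4_psi3_of_three_smul E hΔE h0 hP3
  rw [h2P] at hσ5
  simp only [xc_some] at hσ3 hσ5
  -- x0 ≠ x1, x0 ≠ x2
  have key : ∀ Q : E.toAffine.Point, (5 : ℤ) • Q = 0 →
      (Point.some x0 y0 h0 = Q ∨ Point.some x0 y0 h0 = -Q) → False := fun Q hQ hPQ =>
    hP30 (eq_zero_of_three_of_five _ Q hP3 hQ hPQ)
  have h01 : x0 ≠ x1 := fun h =>
    key (Point.some x1 y1 h1) hP5 (Point.X_eq_iff.mp h)
  have h02 : x0 ≠ x2 := fun h =>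
    key (Point.some x2 y2 h2) (h2P ▸ two_smul_five _ hP5) (Point.X_eq_iff.mp h)
  have hb := E.b_relation
  -- Galois invariance
  have hσb2 : ∀ σ : Kb ≃ₐ[ℚ] Kb, σ E.b₂ = E.b₂ := fun σ => by rw [hb2]; exact σ.commutes _
  have hσb4 : ∀ σ : Kb ≃ₐ[ℚ] Kb, σ E.b₄ = E.b₄ := fun σ => by rw [hb4]; exact σ.commutes _
  have hσb6 : ∀ σ : Kb ≃ₐ[ℚ] Kb, σ E.b₆ = E.b₆ := fun σ => by rw [hb6]; exact σ.commutes _
  have hσb8 : ∀ σ : Kb ≃ₐ[ℚ] Kb, σ E.b₈ = E.b₈ := fun σ => by rw [hb8]; exact σ.commutes _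
  have hYsymm := T2_Y_symm E.b₂ E.b₄ E.b₆ E.b₈ x0 x1 x2 hb hA1 hA2 hB1 hB2 h12 hpsi h01 h02
  have hpfix : ∀ σ : Kb ≃ₐ[ℚ] Kb, σ (pfun x0 x1 x2) = pfun x0 x1 x2 := by
    intro σ
    rw [map_pfun, hσ3 σ]
    rcases hσ5 σ with ⟨e1, e2⟩ | ⟨e1, e2⟩
    · rw [e1, e2]
    · rw [e1, e2, pfun_swap]
  have hYfix : ∀ σ : Kb ≃ₐ[ℚ] Kb,
      σ (Yfun E.b₂ E.b₄ E.b₆ x0 x1 x2) = Yfun E.b₂ E.b₄ E.b₆ x0 x1 x2 := by
    intro σ
    rw [map_Yfun, hσ3 σ, hσb2, hσb4, hσb6]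
    rcases hσ5 σ with ⟨e1, e2⟩ | ⟨e1, e2⟩
    · rw [e1, e2]
    · rw [e1, e2, hYsymm]
  have htfix : ∀ σ : Kb ≃ₐ[ℚ] Kb,
      σ (tfun E.b₂ E.b₄ E.b₆ E.b₈ x1 x2) = tfun E.b₂ E.b₄ E.b₆ E.b₈ x1 x2 := by
    intro σ
    rw [map_tfun, hσb2, hσb4, hσb6, hσb8]
    rcases hσ5 σ with ⟨e1, e2⟩ | ⟨e1, e2⟩
    · rw [e1, e2]
    · rw [e1, e2, tfun_swap]
  obtain ⟨p, hp⟩ := T6_fixed_mem_range _ hpfix
  obtain ⟨Y, hY⟩ := T6_fixed_mem_range _ hYfix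
  obtain ⟨t, ht⟩ := T6_fixed_mem_range _ htfix
  have hYsq := T2_Y_sq E.b₂ E.b₄ E.b₆ E.b₈ x0 x1 x2 hb hA1 hA2 hB1 hB2 h12 hpsi h01 h02
  have hj := T2_j_formula E.b₂ E.b₄ E.b₆ E.b₈ x1 x2 hb hA1 hA2 hB1 hB2 h12
  have hcases := T2_cases E.b₂ E.b₄ E.b₆ E.b₈ x0 x1 x2 hb hA1 hA2 hB1 hB2 h12 hpsi h01 h02 hΔE
  rw [← hp, ← hY] at hYsq
  rw [← ht] at hj
  rw [← hp, ← ht] at hcases
  -- descend to ℚ
  have hYsqQ : Y ^ 2 = p * (9 * p - 4) * (4 * p + 1) := by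
    apply hinj
    simpa only [map_pow, map_mul, map_sub, map_add, map_ofNat, map_one] using hYsq
  have hjQ : ((W.c₄ : ℤ) : ℚ) ^ 3 * t = ((W.Δ : ℤ) : ℚ) * (t ^ 2 + 10 * t + 5) ^ 3 := by
    apply hinj
    have e1 : E.b₂ ^ 2 - 24 * E.b₄ = algebraMap ℚ Kb ((W.c₄ : ℤ) : ℚ) := hc4
    have e2 : Dl E.b₂ E.b₄ E.b₆ E.b₈ = algebraMap ℚ Kb ((W.Δ : ℤ) : ℚ) := hΔ'
    rw [e1, e2] at hj
    simpa only [map_pow, map_mul, map_sub, map_add, map_ofNat, map_one] using hj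
  have hp0 : p ≠ 0 := by
    intro h
    rw [h, _root_.map_zero] at hp
    unfold pfun at hp
    have h3 : (x1 - x2) ^ 2 ≠ 0 := pow_ne_zero _ (sub_ne_zero.mpr h12)
    rcases (div_eq_zero_iff.mp hp.symm) with h' | h'
    · rcases mul_eq_zero.mp h' with h'' | h''
      · exact h01 (sub_eq_zero.mp h'')
      · exact h02 (sub_eq_zero.mp h'')
    · exact h3 h'
  have hT1 := T1_rational_points (36 * p) (36 * Y) (by rw [mul_pow, hYsqQ]; ring)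
  have hval : ∀ (a : ℚ), p = a → algebraMap ℚ Kb p = (algebraMap ℚ Kb a) := fun a h => by rw [h]
  have htQ : t = -10 ∨ t = -25 / 2 ∨ t = -25 / 8 ∨ t = -40 := by
    obtain ⟨c1, c2, c3, c4⟩ := hcases
    rcases hT1 with h | h | h | h | h
    · exact absurd (by linarith) hp0
    · right; left
      have hp' : p = -1 / 4 := by linarith
      apply hinj
      rw [c1 (by rw [hp']; simp [map_div₀, map_neg, map_one, map_ofNat])]
      simp [map_div₀, map_neg, map_ofNat]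
    · right; right; left
      have hp' : p = 4 / 9 := by linarith
      apply hinj
      rw [c2 (by rw [hp']; simp [map_div₀, map_ofNat])]
      simp [map_div₀, map_neg, map_ofNat]
    · left
      have hp' : p = 1 := by linarith
      apply hinj
      rw [c3 (by rw [hp']; simp)]
      simp [map_neg, map_ofNat]
    · right; right; right
      have hp' : p = -1 / 9 := by linarith
      apply hinj
      rw [c4 (by rw [hp']; simp [map_div₀, map_neg, map_one, map_ofNat])]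
      simp [map_neg, map_ofNat]
  exact Fermat.Agent.S51_helper29_T3.semistable_j_contra W hW hΔ t htQ hjQ

end Fermat.Agent.S51_helper4_Asm4
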