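import Mathlib
import Fermat.Prelude.Def_GaloisRep_DeformationRingData
import Fermat.Prelude.Def_GaloisRep_DeformationCondition

set_option autoImplicit false

open IsLocalRing

noncomputable section

namespace Fermat.Agent.S53_helper16_Defs

/-- The absolute Galois group of `ℚ`. -/
abbrev Gal : Type := AlgebraicClosure ℚ ≃ₐ[ℚ] AlgebraicClosure ℚ

/-- Adic continuity of a matrix valued representation. -/
def MatCont {A : Type} [CommRing A] [IsLocalRing A]
    (M : Gal →* Matrix (Fin 2) (Fin 2) A) : Prop :=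
  ∀ n : ℕ, ∃ L : IntermediateField ℚ (AlgebraicClosure ℚ), FiniteDimensional ℚ L ∧
    ∀ σ : Gal, (∀ x ∈ L, σ x = x) → ∀ i j, (M σ - 1) i j ∈ maximalIdeal A ^ n

/-- Push a matrix representation forward along a ring homomorphism. -/
def mapRep {A B : Type} [CommRing A] [CommRing B] (φ : A →+* B)
    (M : Gal →* Matrix (Fin 2) (Fin 2) A) : Gal →* Matrix (Fin 2) (Fin 2) B :=
  (RingHom.mapMatrix φ).toMonoidHom.comp M

@[simp] theorem mapRep_apply {A B : Type} [CommRing A] [CommRing B] (φ : A →+* B)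
    (M : Gal →* Matrix (Fin 2) (Fin 2) A) (σ : Gal) :
    mapRep φ M σ = (M σ).map φ := rfl

theorem matCont_mapRep {A B : Type} [CommRing A] [CommRing B] [IsLocalRing A] [IsLocalRing B]
    (φ : A →+* B) (hφ : IsLocalHom φ) {M : Gal →* Matrix (Fin 2) (Fin 2) A}
    (hM : MatCont M) : MatCont (mapRep φ M) := by
  intro n
  obtain ⟨L, hL, h⟩ := hM n
  refine ⟨L, hL, fun σ hσ i j => ?_⟩
  have hmap : (maximalIdeal A ^ n).map φ ≤ maximalIdeal B ^ n := by
    rw [Ideal.map_pow]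
    exact Ideal.pow_right_mono (Ideal.map_le_iff_le_comap.mpr fun a ha =>
      Ideal.mem_comap.mpr (haveI := hφ; map_nonunit φ a ha)) n
  have h1 : (mapRep φ M σ - 1) i j = φ ((M σ - 1) i j) := by
    simp only [mapRep_apply, Matrix.sub_apply, Matrix.map_apply, map_sub]
    congr 1
    by_cases hij : i = j
    · subst hij; simp
    · simp [Matrix.one_apply_ne hij]
  rw [h1]
  exact hmap (Ideal.mem_map_of_mem φ (h σ hσ i j))

theorem mem_smul_top_of_forall_mem {A : Type} [CommRing A] (I : Ideal A) (w : Fin 2 → A)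
    (hw : ∀ i, w i ∈ I) : w ∈ I • (⊤ : Submodule A (Fin 2 → A)) := by
  have : w = ∑ i, w i • (Pi.single i (1 : A) : Fin 2 → A) := by
    ext j
    simp [Finset.sum_apply, Pi.single_apply]
  rw [this]
  exact Submodule.sum_mem _ fun i _ => Submodule.smul_mem_smul (hw i) Submodule.mem_top

/-- The `GaloisRepAdic` attached to a continuous matrix representation. -/
def toAdic {A : Type} [CommRing A] [IsLocalRing A]
    (M : Gal →* Matrix (Fin 2) (Fin 2) A) (hM : MatCont M) : GaloisRepAdic A where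
  V := Fin 2 → A
  finrank_eq := by simp
  ρ :=
    { toFun := fun σ => Matrix.toLin' (M σ)
      map_one' := by rw [map_one, Matrix.toLin'_one]; rfl
      map_mul' := fun σ τ => by rw [map_mul, Matrix.toLin'_mul]; rfl }
  isAdicContinuous := by
    intro n
    obtain ⟨L, hL, h⟩ := hM n
    refine ⟨L, hL, fun σ hσ v => ?_⟩
    refine mem_smul_top_of_forall_mem _ _ fun i => ?_
    have h0 : Matrix.toLin' (M σ) v - v = Matrix.toLin' (M σ - 1) v := by
      rw [map_sub, Matrix.toLin'_one, LinearMap.sub_apply, LinearMap.id_apply]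
    have : (Matrix.toLin' (M σ) v - v) i = ∑ j, (M σ - 1) i j * v j := by
      rw [h0, Matrix.toLin'_apply]
      rfl
    change (Matrix.toLin' (M σ) v - v) i ∈ _
    rw [this]
    exact Ideal.sum_mem _ fun j _ => Ideal.mul_mem_right _ _ (h σ hσ i j)

@[simp] theorem toAdic_ρ_apply {A : Type} [CommRing A] [IsLocalRing A]
    (M : Gal →* Matrix (Fin 2) (Fin 2) A) (hM : MatCont M) (σ : Gal) :
    (toAdic M hM).ρ σ = Matrix.toLin' (M σ) := rfl

/-- the canonical map `k → k_A` on residue fields. -/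
def kappa (𝒪 : Type) [CommRing 𝒪] [IsLocalRing 𝒪] (A : Type) [CommRing A]
    [IsLocalRing A] [Algebra 𝒪 A] (hloc : IsLocalHom (algebraMap 𝒪 A)) :
    ResidueField 𝒪 →+* ResidueField A :=
  @ResidueField.map 𝒪 A _ _ _ _ (algebraMap 𝒪 A) hloc

/-- A chosen basis of the residual representation. -/
def rbBasis {k : Type} [Field k] (ρbar : ResidualGaloisRep k) :
    Module.Basis (Fin 2) k ρbar.V :=
  Module.finBasisOfFinrankEq k ρbar.V ρbar.finrank_eq

/-- The residual representation in matrix form (w.r.t. `rbBasis`). -/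
def rbMat {k : Type} [Field k] (ρbar : ResidualGaloisRep k) :
    Gal →* Matrix (Fin 2) (Fin 2) k :=
  ((LinearMap.toMatrixAlgEquiv (rbBasis ρbar)).toAlgHom.toRingHom.toMonoidHom).comp ρbar.ρ

@[simp] theorem rbMat_apply {k : Type} [Field k] (ρbar : ResidualGaloisRep k) (σ : Gal) :
    rbMat ρbar σ = LinearMap.toMatrix (rbBasis ρbar) (rbBasis ρbar) (ρbar.ρ σ) := rfl

/-- `M` is a strict lift of `ρbar` to the `𝒪`-algebra `A`. -/
def IsStrictLift (𝒪 : Type) [CommRing 𝒪] [IsLocalRing 𝒪] {A : Type} [CommRing A]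
    [IsLocalRing A] [Algebra 𝒪 A] (hloc : IsLocalHom (algebraMap 𝒪 A))
    (ρbar : ResidualGaloisRep (ResidueField 𝒪)) (M : Gal →* Matrix (Fin 2) (Fin 2) A) : Prop :=
  ∀ σ : Gal, (M σ).map (residue A) = (rbMat ρbar σ).map (kappa 𝒪 A hloc)

/-- the fibre product `A ×_k B` as a subalgebra of `A × B`. -/
def fibProd (𝒪 : Type) [CommRing 𝒪] (A B : Type) [CommRing A] [IsLocalRing A] [Algebra 𝒪 A]
    [CommRing B] [IsLocalRing B] [Algebra 𝒪 B] : Subalgebra 𝒪 (A × B) where
  carrier := {x | ∃ c : 𝒪, x.1 - algebraMap 𝒪 A c ∈ maximalIdeal A ∧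
    x.2 - algebraMap 𝒪 B c ∈ maximalIdeal B}
  mul_mem' := by
    rintro x y ⟨c, hc1, hc2⟩ ⟨d, hd1, hd2⟩
    refine ⟨c * d, ?_, ?_⟩
    · have : x.1 * y.1 - algebraMap 𝒪 A (c * d) =
          (x.1 - algebraMap 𝒪 A c) * y.1 + algebraMap 𝒪 A c * (y.1 - algebraMap 𝒪 A d) := by
        rw [map_mul]; ring
      rw [Prod.fst_mul, this]
      exact Ideal.add_mem _ (Ideal.mul_mem_right _ _ hc1) (Ideal.mul_mem_left _ _ hd1)
    · have : x.2 * y.2 - algebraMap 𝒪 B (c * d) =
          (x.2 - algebraMap 𝒪 B c) * y.2 + algebraMap 𝒪 B c * (y.2 - algebraMap 𝒪 B d) := by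
        rw [map_mul]; ring
      rw [Prod.snd_mul, this]
      exact Ideal.add_mem _ (Ideal.mul_mem_right _ _ hc2) (Ideal.mul_mem_left _ _ hd2)
  add_mem' := by
    rintro x y ⟨c, hc1, hc2⟩ ⟨d, hd1, hd2⟩
    refine ⟨c + d, ?_, ?_⟩
    · have : x.1 + y.1 - algebraMap 𝒪 A (c + d) =
          (x.1 - algebraMap 𝒪 A c) + (y.1 - algebraMap 𝒪 A d) := by rw [map_add]; ring
      rw [Prod.fst_add, this]; exact Ideal.add_mem _ hc1 hd1
    · have : x.2 + y.2 - algebraMap 𝒪 B (c + d) =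
          (x.2 - algebraMap 𝒪 B c) + (y.2 - algebraMap 𝒪 B d) := by rw [map_add]; ring
      rw [Prod.snd_add, this]; exact Ideal.add_mem _ hc2 hd2
  algebraMap_mem' := fun c => ⟨c, by simp, by simp⟩

/-- first projection of the fibre product -/
def fibFst (𝒪 : Type) [CommRing 𝒪] (A B : Type) [CommRing A] [IsLocalRing A] [Algebra 𝒪 A]
    [CommRing B] [IsLocalRing B] [Algebra 𝒪 B] : fibProd 𝒪 A B →ₐ[𝒪] A :=
  (AlgHom.fst 𝒪 A B).comp (fibProd 𝒪 A B).val

/-- second projection of the fibre product -/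
def fibSnd (𝒪 : Type) [CommRing 𝒪] (A B : Type) [CommRing A] [IsLocalRing A] [Algebra 𝒪 A]
    [CommRing B] [IsLocalRing B] [Algebra 𝒪 B] : fibProd 𝒪 A B →ₐ[𝒪] B :=
  (AlgHom.snd 𝒪 A B).comp (fibProd 𝒪 A B).val

/-- the `𝒪`-algebra structure on dual numbers used by `GaloisRep.TangentFinite`. -/
@[reducible] def dualAlg (𝒪 : Type) [CommRing 𝒪] [IsLocalRing 𝒪] :
    Algebra 𝒪 (DualNumber (ResidueField 𝒪)) :=
  ((algebraMap (ResidueField 𝒪) (DualNumber (ResidueField 𝒪))).comp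
      (algebraMap 𝒪 (ResidueField 𝒪))).toAlgebra

end Fermat.Agent.S53_helper16_Defs

end
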