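import Mathlib
import Fermat.Agent.S53_helper16_Defs

set_option autoImplicit false

open IsLocalRing Fermat.Agent.S53_helper16_Defs GaloisRep

noncomputable section

namespace Fermat.Agent.S53_helper16_Core

variable (𝒪 : Type) [CommRing 𝒪] [IsLocalRing 𝒪]
variable (ρbar : ResidualGaloisRep (ResidueField 𝒪))
variable (𝒟 : ∀ ⦃A : Type⦄ [CommRing A] [IsLocalRing A] [Algebra 𝒪 A], GaloisRepAdic A → Prop)

/-- `M` is a continuous strict lift of `ρbar` of type `𝒟` over the local `𝒪`-algebra `A`. -/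
structure IsDLift {A : Type} [CommRing A] [IsLocalRing A] [Algebra 𝒪 A]
    (hloc : IsLocalHom (algebraMap 𝒪 A)) (M : Gal →* Matrix (Fin 2) (Fin 2) A) : Prop where
  cont : MatCont M
  strict : IsStrictLift 𝒪 hloc ρbar M
  isD : 𝒟 (toAdic M cont)

/-- The elements `h i` generate all trace rings of `𝒟`-lifts over Artinian test algebras. -/
def Generates (d : ℕ) (h : Fin d → Gal) : Prop :=
  ∀ ⦃A : Type⦄ [CommRing A] [IsLocalRing A] [Algebra 𝒪 A] (hA : IsArtinianTestAlgebra 𝒪 A)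
    (M : Gal →* Matrix (Fin 2) (Fin 2) A), IsDLift 𝒪 ρbar 𝒟 hA.isLocalHom M →
    ∀ σ : Gal, (M σ).trace ∈ Algebra.adjoin 𝒪 (Set.range fun i => (M (h i)).trace)

/-- The power series ring in `d` variables. -/
abbrev Lam (d : ℕ) : Type := MvPowerSeries (Fin d) 𝒪

/-- The tautological trace elements `X_i + a_i`. -/
def tautTr {d : ℕ} (a : Fin d → 𝒪) (i : Fin d) : Lam 𝒪 d :=
  MvPowerSeries.X i + algebraMap 𝒪 (Lam 𝒪 d) (a i)

/-- The family of kernels of the classifying maps of all `𝒟`-lifts over Artinian test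
algebras. -/
def famF {d : ℕ} (h : Fin d → Gal) (a : Fin d → 𝒪) : Set (Ideal (Lam 𝒪 d)) :=
  {I | ∃ (A : Type) (_ : CommRing A) (_ : IsLocalRing A) (_ : Algebra 𝒪 A)
      (hA : IsArtinianTestAlgebra 𝒪 A) (M : Gal →* Matrix (Fin 2) (Fin 2) A)
      (_ : IsDLift 𝒪 ρbar 𝒟 hA.isLocalHom M) (ψ : Lam 𝒪 d →ₐ[𝒪] A),
      (∀ i, ψ (tautTr 𝒪 a i) = (M (h i)).trace) ∧ I = RingHom.ker (ψ : Lam 𝒪 d →+* A)}

end Fermat.Agent.S53_helper16_Core

end
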