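import Mathlib
import Fermat.Agent.S53_helper16_Defs

set_option autoImplicit false

open IsLocalRing Fermat.Agent.S53_helper16_Defs

namespace Fermat.Agent.S53_helper23_I1

/-- I1a: trace of `toAdic`. -/
theorem I1a_trace_toAdic {A : Type} [CommRing A] [IsLocalRing A]
    (M : Gal →* Matrix (Fin 2) (Fin 2) A) (hM : MatCont M) (σ : Gal) :
    LinearMap.trace A _ ((toAdic M hM).ρ σ) = (M σ).trace := by
  rw [toAdic_ρ_apply]
  exact Matrix.trace_toLin'_eq (M σ)

/-- I1b: equivalent adic representations have equal traces. -/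
theorem I1b_trace_eq_of_isEquiv {A : Type} [CommRing A] [IsLocalRing A]
    {ρ₁ ρ₂ : GaloisRepAdic A} (h : ρ₁.IsEquiv ρ₂) (σ : Gal) :
    LinearMap.trace A _ (ρ₁.ρ σ) = LinearMap.trace A _ (ρ₂.ρ σ) := by
  obtain ⟨e⟩ := h
  have hconj : ρ₂.ρ σ = e.toLinearEquiv.conj (ρ₁.ρ σ) := by
    apply LinearMap.ext
    intro x
    rw [LinearEquiv.conj_apply_apply, e.map_apply, LinearEquiv.apply_symm_apply]
  rw [hconj, LinearMap.trace_conj']

/-- I1c: trace of a base change. -/
theorem I1c_trace_baseChangeAlong {A B : Type} [CommRing A] [IsLocalRing A] [CommRing B]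
    [IsLocalRing B] (φ : A →+* B) (hφ : IsLocalHom φ) (ρ : GaloisRepAdic A) (σ : Gal) :
    LinearMap.trace B _ ((ρ.baseChangeAlong φ hφ).ρ σ) = φ (LinearMap.trace A _ (ρ.ρ σ)) := by
  let _ : Algebra A B := φ.toAlgebra
  exact LinearMap.trace_baseChange (ρ.ρ σ) B

end Fermat.Agent.S53_helper23_I1
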