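import Mathlib
import Fermat.Prelude.Def_GaloisRep_DeformationRingData
import Fermat.Prelude.Def_GaloisRep_DeformationCondition

set_option autoImplicit false
set_option linter.style.haveILetI false

open IsLocalRing

namespace Fermat.Agent.S53_helper26_H7

theorem finite_residueField (𝒪 : Type) [CommRing 𝒪] [IsLocalRing 𝒪] [Finite (ResidueField 𝒪)]
    {A : Type} [CommRing A] [IsLocalRing A] [Algebra 𝒪 A]
    (hA : GaloisRep.IsArtinianTestAlgebra 𝒪 A) : Finite (ResidueField A) := by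
  haveI := hA.isLocalHom
  refine Finite.of_surjective (IsLocalRing.ResidueField.map (algebraMap 𝒪 A)) ?_
  intro y
  obtain ⟨x, hx⟩ := hA.residue_surjective y
  exact ⟨residue 𝒪 x, by simpa using hx⟩

/-- H7a: Artinian test algebras over `𝒪` with finite residue field are finite. -/
theorem H7a_finite (𝒪 : Type) [CommRing 𝒪] [IsLocalRing 𝒪] [Finite (ResidueField 𝒪)]
    {A : Type} [CommRing A] [IsLocalRing A] [Algebra 𝒪 A]
    (hA : GaloisRep.IsArtinianTestAlgebra 𝒪 A) : Finite A := by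
  haveI := hA.isArtinian
  haveI := finite_residueField 𝒪 hA
  obtain ⟨n, hn⟩ := IsArtinianRing.isNilpotent_jacobson_bot (R := A)
  have hfin : Finite (A ⧸ (⊥ : Ideal A)) := by
    rw [IsLocalRing.finite_quotient_iff]
    refine ⟨n, ?_⟩
    rw [IsLocalRing.jacobson_eq_maximalIdeal _ bot_ne_top] at hn
    exact hn.le
  exact Finite.of_equiv _ (RingEquiv.quotientBot A).toEquiv

theorem isUnit_of_isUnit_val {𝒪 : Type} [CommRing 𝒪] {A : Type} [CommRing A] [Algebra 𝒪 A]
    [Finite A] (A₁ : Subalgebra 𝒪 A) (a : A₁) (ha : IsUnit (a : A)) : IsUnit a := by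
  obtain ⟨u, hu⟩ := ha
  obtain ⟨n, hn, hun⟩ := isOfFinOrder_of_finite u |>.exists_pow_eq_one
  have h1 : (a : A) ^ n = 1 := by
    rw [← hu, ← Units.val_pow_eq_pow_val, hun, Units.val_one]
  obtain ⟨m, rfl⟩ : ∃ m, n = m + 1 := ⟨n - 1, by omega⟩
  refine isUnit_iff_exists_inv.mpr ⟨a ^ m, ?_⟩
  apply Subtype.ext
  push_cast
  rw [← pow_succ', h1]

/-- H7b: subalgebras of Artinian test algebras are local. -/
theorem H7b_isLocalRing (𝒪 : Type) [CommRing 𝒪] [IsLocalRing 𝒪] [Finite (ResidueField 𝒪)]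
    {A : Type} [CommRing A] [IsLocalRing A] [Algebra 𝒪 A]
    (hA : GaloisRep.IsArtinianTestAlgebra 𝒪 A) (A₁ : Subalgebra 𝒪 A) : IsLocalRing A₁ := by
  haveI := H7a_finite 𝒪 hA
  refine IsLocalRing.of_isUnit_or_isUnit_one_sub_self fun a => ?_
  rcases IsLocalRing.isUnit_or_isUnit_one_sub_self (a : A) with h | h
  · exact Or.inl (isUnit_of_isUnit_val A₁ a h)
  · exact Or.inr (isUnit_of_isUnit_val A₁ (1 - a) (by simpa using h))

/-- H7c: subalgebras of Artinian test algebras are Artinian test algebras. -/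
theorem H7c_isArtinianTestAlgebra (𝒪 : Type) [CommRing 𝒪] [IsLocalRing 𝒪]
    [Finite (ResidueField 𝒪)]
    {A : Type} [CommRing A] [IsLocalRing A] [Algebra 𝒪 A]
    (hA : GaloisRep.IsArtinianTestAlgebra 𝒪 A) (A₁ : Subalgebra 𝒪 A) :
    letI := H7b_isLocalRing 𝒪 hA A₁
    GaloisRep.IsArtinianTestAlgebra 𝒪 A₁ ∧ IsLocalHom (A₁.val : A₁ →+* A) := by
  letI := H7b_isLocalRing 𝒪 hA A₁
  haveI := H7a_finite 𝒪 hA
  haveI := hA.isLocalHom
  have hval : IsLocalHom (A₁.val : A₁ →+* A) :=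
    ⟨fun a ha => isUnit_of_isUnit_val A₁ a ha⟩
  refine ⟨⟨?_, ?_, ?_⟩, hval⟩
  · refine ⟨fun x hx => ?_⟩
    have h2 : IsUnit (algebraMap 𝒪 A x) := by
      have := hx.map (A₁.val : A₁ →+* A)
      simpa using this
    exact IsUnit.of_map (algebraMap 𝒪 A) x h2
  · intro y
    obtain ⟨a, rfl⟩ := IsLocalRing.residue_surjective y
    obtain ⟨x, hx⟩ := hA.residue_surjective (residue A (a : A))
    refine ⟨x, ?_⟩
    simp only [Function.comp_apply] at hx ⊢
    rw [← sub_eq_zero, ← map_sub, IsLocalRing.residue_eq_zero_iff] at hx ⊢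
    rw [IsLocalRing.mem_maximalIdeal, mem_nonunits_iff] at hx ⊢
    intro hu
    apply hx
    have := hu.map (A₁.val : A₁ →+* A)
    simpa using this
  · infer_instance

end Fermat.Agent.S53_helper26_H7
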