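import Mathlib
import Fermat.Prelude.Def_GaloisRep_DeformationCondition

set_option autoImplicit false
set_option linter.unusedSectionVars false
set_option linter.style.haveILetI false
set_option linter.unusedVariables false

open IsLocalRing

namespace Fermat.Agent.S53_helper9_H4

/-- the `𝒪`-algebra structure on dual numbers used by `GaloisRep.TangentFinite`. -/
@[reducible] noncomputable def dualAlg (𝒪 : Type) [CommRing 𝒪] [IsLocalRing 𝒪] :
    Algebra 𝒪 (DualNumber (ResidueField 𝒪)) :=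
  ((algebraMap (ResidueField 𝒪) (DualNumber (ResidueField 𝒪))).comp
      (algebraMap 𝒪 (ResidueField 𝒪))).toAlgebra

section aux

variable {𝒪 : Type} [CommRing 𝒪] [IsLocalRing 𝒪]
  {A : Type} [CommRing A] [IsLocalRing A] [Algebra 𝒪 A]

theorem exists_sub_mem (hA : GaloisRep.IsArtinianTestAlgebra 𝒪 A) (a : A) :
    ∃ o : 𝒪, a - algebraMap 𝒪 A o ∈ maximalIdeal A := by
  obtain ⟨o, ho⟩ := hA.residue_surjective (residue A a)
  refine ⟨o, ?_⟩
  rw [← residue_eq_zero_iff, map_sub, sub_eq_zero]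
  exact ho.symm

theorem exists_pow_eq_bot (hA : GaloisRep.IsArtinianTestAlgebra 𝒪 A) :
    ∃ n : ℕ, maximalIdeal A ^ n = ⊥ := by
  haveI := hA.isArtinian
  have h := IsArtinianRing.isNilpotent_jacobson_bot (R := A)
  rw [IsLocalRing.jacobson_eq_maximalIdeal ⊥ bot_ne_top] at h
  obtain ⟨n, hn⟩ := h
  exact ⟨n, by simpa using hn⟩

/-- Successive approximation: if `A = A₁ + m²` then `m^j ⊆ (A₁ ∩ m^j) + m^(j+1)`. -/
theorem approx (A₁ : Subalgebra 𝒪 A)
    (H : ∀ x ∈ maximalIdeal A, ∃ a ∈ A₁, a ∈ maximalIdeal A ∧ x - a ∈ maximalIdeal A ^ 2)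
    (j : ℕ) :
    ∀ y ∈ maximalIdeal A ^ (j + 1),
      ∃ a ∈ A₁, a ∈ maximalIdeal A ^ (j + 1) ∧ y - a ∈ maximalIdeal A ^ (j + 2) := by
  induction j with
  | zero =>
    intro y hy
    rw [zero_add, pow_one] at hy
    obtain ⟨a, ha1, ham, hya⟩ := H y hy
    exact ⟨a, ha1, by simpa using ham, by simpa using hya⟩
  | succ j ih =>
    intro y hy
    rw [pow_succ] at hy
    refine Submodule.mul_induction_on hy ?_ ?_
    · intro u hu v hv
      obtain ⟨a, ha1, ham, hua⟩ := ih u hu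
      obtain ⟨b, hb1, hbm, hvb⟩ := H v hv
      refine ⟨a * b, A₁.mul_mem ha1 hb1, ?_, ?_⟩
      · rw [pow_succ]
        exact Ideal.mul_mem_mul ham hbm
      · have e : u * v - a * b = (u - a) * v + a * (v - b) := by ring
        rw [e]
        refine Ideal.add_mem _ ?_ ?_
        · have : (u - a) * v ∈ maximalIdeal A ^ (j + 2) * maximalIdeal A :=
            Ideal.mul_mem_mul hua hv
          rwa [← pow_succ] at this
        · have : a * (v - b) ∈ maximalIdeal A ^ (j + 1) * maximalIdeal A ^ 2 :=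
            Ideal.mul_mem_mul ham hvb
          rwa [← pow_add] at this
    · intro u v ⟨a, ha1, ham, hua⟩ ⟨b, hb1, hbm, hvb⟩
      refine ⟨a + b, A₁.add_mem ha1 hb1, Ideal.add_mem _ ham hbm, ?_⟩
      have e : u + v - (a + b) = (u - a) + (v - b) := by ring
      rw [e]
      exact Ideal.add_mem _ hua hvb

theorem maximalIdeal_le_of_approx (hA : GaloisRep.IsArtinianTestAlgebra 𝒪 A)
    (A₁ : Subalgebra 𝒪 A)
    (H : ∀ x ∈ maximalIdeal A, ∃ a ∈ A₁, a ∈ maximalIdeal A ∧ x - a ∈ maximalIdeal A ^ 2) :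
    ∀ x ∈ maximalIdeal A, x ∈ A₁ := by
  obtain ⟨n, hn⟩ := exists_pow_eq_bot hA
  -- downward induction
  have key : ∀ i : ℕ, ∀ j : ℕ, n ≤ i + (j + 1) → ∀ y ∈ maximalIdeal A ^ (j + 1), y ∈ A₁ := by
    intro i
    induction i with
    | zero =>
      intro j hj y hy
      have : maximalIdeal A ^ (j + 1) = ⊥ := by
        rw [eq_bot_iff, ← hn]
        exact Ideal.pow_le_pow_right (by omega)
      rw [this] at hy
      rw [Ideal.mem_bot.mp hy]
      exact A₁.zero_mem
    | succ i ih =>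
      intro j hj y hy
      obtain ⟨a, ha1, -, hya⟩ := approx A₁ H j y hy
      have h2 : y - a ∈ A₁ := ih (j + 1) (by omega) (y - a) hya
      have : y = (y - a) + a := by ring
      rw [this]
      exact A₁.add_mem h2 ha1
  intro x hx
  exact key n 0 (by omega) x (by simpa using hx)

theorem eq_top_of_sup (hA : GaloisRep.IsArtinianTestAlgebra 𝒪 A) (A₁ : Subalgebra 𝒪 A)
    (H : Subalgebra.toSubmodule A₁ ⊔ (maximalIdeal A ^ 2).restrictScalars 𝒪 = ⊤) :
    A₁ = ⊤ := by
  have H' : ∀ x ∈ maximalIdeal A, ∃ a ∈ A₁, a ∈ maximalIdeal A ∧ x - a ∈ maximalIdeal A ^ 2 := by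
    intro x hx
    have hx' : x ∈ Subalgebra.toSubmodule A₁ ⊔ (maximalIdeal A ^ 2).restrictScalars 𝒪 := by
      rw [H]; trivial
    obtain ⟨a, ha, z, hz, rfl⟩ := Submodule.mem_sup.mp hx'
    have hz' : z ∈ maximalIdeal A ^ 2 := hz
    have hzm : z ∈ maximalIdeal A := Ideal.pow_le_self (by norm_num) hz'
    refine ⟨a, ha, ?_, by simpa using hz'⟩
    have : a = (a + z) - z := by ring
    rw [this]
    exact Ideal.sub_mem _ hx hzm
  have hm := maximalIdeal_le_of_approx hA A₁ H'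
  rw [eq_top_iff]
  intro a _
  obtain ⟨o, ho⟩ := exists_sub_mem hA a
  have : a = (a - algebraMap 𝒪 A o) + algebraMap 𝒪 A o := by ring
  rw [this]
  exact A₁.add_mem (hm _ ho) (A₁.algebraMap_mem o)

end aux

/-- H4: a proper `𝒪`-subalgebra of an Artinian test algebra is killed into `k` by some surjection
onto the dual numbers. -/
theorem H4_exists_dualNumber (𝒪 : Type) [CommRing 𝒪] [IsLocalRing 𝒪]
    {A : Type} [CommRing A] [IsLocalRing A] [Algebra 𝒪 A]
    (hA : GaloisRep.IsArtinianTestAlgebra 𝒪 A) (A₁ : Subalgebra 𝒪 A) (h : A₁ ≠ ⊤) :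
    letI := dualAlg 𝒪
    ∃ φ : A →ₐ[𝒪] DualNumber (ResidueField 𝒪), Function.Surjective φ ∧
      ∀ a ∈ A₁, φ a ∈ (algebraMap (ResidueField 𝒪) (DualNumber (ResidueField 𝒪))).range := by
  classical
  letI := dualAlg 𝒪
  haveI := hA.isLocalHom
  let U : Submodule 𝒪 A :=
    Subalgebra.toSubmodule A₁ ⊔ (maximalIdeal A ^ 2).restrictScalars 𝒪
  have hU : U ≠ ⊤ := fun H => h (eq_top_of_sup hA A₁ H)
  have hA₁U : ∀ a ∈ A₁, a ∈ U := fun a ha =>
    Submodule.mem_sup_left (show a ∈ Subalgebra.toSubmodule A₁ from ha)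
  have hm2U : ∀ a ∈ maximalIdeal A ^ 2, a ∈ U := fun a ha =>
    Submodule.mem_sup_right (show a ∈ (maximalIdeal A ^ 2).restrictScalars 𝒪 from ha)
  have hmap : ∀ o ∈ maximalIdeal 𝒪, algebraMap 𝒪 A o ∈ maximalIdeal A := by
    intro o ho
    rw [mem_maximalIdeal, mem_nonunits_iff] at ho ⊢
    exact fun hu => ho (isUnit_of_map_unit (algebraMap 𝒪 A) o hu)
  -- `A ⧸ U` is killed by the maximal ideal of `𝒪`
  have htors : Module.IsTorsionBySet 𝒪 (A ⧸ U) (maximalIdeal 𝒪 : Set 𝒪) := by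
    rintro x ⟨o, ho⟩
    obtain ⟨a, rfl⟩ := Submodule.Quotient.mk_surjective U x
    show o • Submodule.Quotient.mk a = 0
    rw [← Submodule.Quotient.mk_smul, Submodule.Quotient.mk_eq_zero]
    obtain ⟨o', ho'⟩ := exists_sub_mem hA a
    have e : o • a = algebraMap 𝒪 A (o * o') + algebraMap 𝒪 A o * (a - algebraMap 𝒪 A o') := by
      rw [Algebra.smul_def, map_mul]; ring
    rw [e]
    refine U.add_mem (hA₁U _ (A₁.algebraMap_mem _)) (hm2U _ ?_)
    rw [pow_two]
    exact Ideal.mul_mem_mul (hmap o ho) ho'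
  letI instMod : Module (ResidueField 𝒪) (A ⧸ U) := htors.module
  haveI : Nontrivial (A ⧸ U) := Submodule.Quotient.nontrivial_iff.mpr hU
  obtain ⟨v, hv⟩ := exists_ne (0 : A ⧸ U)
  obtain ⟨f, hf⟩ : ∃ f : (A ⧸ U) →ₗ[ResidueField 𝒪] ResidueField 𝒪, f v ≠ 0 := by
    obtain ⟨f, hf⟩ := Module.Projective.exists_dual_ne_zero (ResidueField 𝒪) hv
    exact ⟨f, hf⟩
  -- the derivation
  let D : A → ResidueField 𝒪 := fun a => f (Submodule.Quotient.mk a)
  have hDadd : ∀ a b, D (a + b) = D a + D b := fun a b => by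
    show f (Submodule.Quotient.mk (a + b)) = _
    rw [Submodule.Quotient.mk_add, map_add]
  have hDU : ∀ a ∈ U, D a = 0 := fun a ha => by
    show f (Submodule.Quotient.mk a) = 0
    rw [(Submodule.Quotient.mk_eq_zero U).mpr ha, map_zero]
  have hDsmul : ∀ (o : 𝒪) (a : A), D (algebraMap 𝒪 A o * a) = residue 𝒪 o * D a := fun o a => by
    show f (Submodule.Quotient.mk (algebraMap 𝒪 A o * a)) = _
    rw [← Algebra.smul_def, Submodule.Quotient.mk_smul]
    have : (o • (Submodule.Quotient.mk a : A ⧸ U)) =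
        (residue 𝒪 o : ResidueField 𝒪) • (Submodule.Quotient.mk a : A ⧸ U) := rfl
    rw [this, map_smul, smul_eq_mul]
  -- the residue map to `k`
  have hbij : Function.Bijective (ResidueField.map (algebraMap 𝒪 A)) := by
    refine ⟨(ResidueField.map (algebraMap 𝒪 A)).injective, fun y => ?_⟩
    obtain ⟨a, rfl⟩ := residue_surjective y
    obtain ⟨o, ho⟩ := hA.residue_surjective (residue A a)
    exact ⟨residue 𝒪 o, by rw [ResidueField.map_residue]; exact ho⟩
  let e : ResidueField 𝒪 ≃+* ResidueField A := RingEquiv.ofBijective _ hbij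
  let π : A →+* ResidueField 𝒪 := (e.symm : ResidueField A →+* ResidueField 𝒪).comp (residue A)
  have hπalg : ∀ o : 𝒪, π (algebraMap 𝒪 A o) = residue 𝒪 o := fun o => by
    show e.symm (residue A (algebraMap 𝒪 A o)) = residue 𝒪 o
    rw [RingEquiv.symm_apply_eq]
    show _ = ResidueField.map (algebraMap 𝒪 A) (residue 𝒪 o)
    rw [ResidueField.map_residue]
  have hπm : ∀ x ∈ maximalIdeal A, π x = 0 := fun x hx => by
    show e.symm (residue A x) = 0
    rw [(residue_eq_zero_iff x).mpr hx, map_zero]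
  have hDleib : ∀ a b, D (a * b) = π a * D b + π b * D a := by
    intro a b
    obtain ⟨o, ho⟩ := exists_sub_mem hA a
    obtain ⟨o', ho'⟩ := exists_sub_mem hA b
    set x := a - algebraMap 𝒪 A o with hx
    set x' := b - algebraMap 𝒪 A o' with hx'
    have ha : a = algebraMap 𝒪 A o + x := by rw [hx]; ring
    have hb : b = algebraMap 𝒪 A o' + x' := by rw [hx']; ring
    have hDa : D a = D x := by
      rw [ha, hDadd, hDU _ (hA₁U _ (A₁.algebraMap_mem o)), zero_add]
    have hDb : D b = D x' := by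
      rw [hb, hDadd, hDU _ (hA₁U _ (A₁.algebraMap_mem o')), zero_add]
    have hπa : π a = residue 𝒪 o := by
      rw [ha, map_add, hπalg, hπm x ho, add_zero]
    have hπb : π b = residue 𝒪 o' := by
      rw [hb, map_add, hπalg, hπm x' ho', add_zero]
    have hprod : a * b = algebraMap 𝒪 A (o * o') + algebraMap 𝒪 A o * x'
        + algebraMap 𝒪 A o' * x + x * x' := by
      rw [ha, hb, map_mul]; ring
    have hxx : D (x * x') = 0 := hDU _ (hm2U _ (by rw [pow_two]; exact Ideal.mul_mem_mul ho ho'))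
    rw [hprod, hDadd, hDadd, hDadd, hDU _ (hA₁U _ (A₁.algebraMap_mem _)), hDsmul, hDsmul, hxx,
      hDa, hDb, hπa, hπb]
    ring
  have hD1 : D 1 = 0 := hDU _ (hA₁U _ A₁.one_mem)
  have hD0 : D 0 = 0 := hDU _ U.zero_mem
  let φ₀ : A →+* DualNumber (ResidueField 𝒪) :=
    { toFun := fun a => TrivSqZeroExt.inl (π a) + TrivSqZeroExt.inr (D a)
      map_one' := by
        rw [hD1, map_one, TrivSqZeroExt.inr_zero, add_zero, TrivSqZeroExt.inl_one]
      map_mul' := fun a b => by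
        apply TrivSqZeroExt.ext
        · simp
        · simp [hDleib, mul_comm]
      map_zero' := by
        rw [hD0, map_zero, TrivSqZeroExt.inr_zero, add_zero, TrivSqZeroExt.inl_zero]
      map_add' := fun a b => by
        apply TrivSqZeroExt.ext
        · simp
        · simp [hDadd] }
  have hφ₀ : ∀ a, φ₀ a = TrivSqZeroExt.inl (π a) + TrivSqZeroExt.inr (D a) := fun _ => rfl
  let φ : A →ₐ[𝒪] DualNumber (ResidueField 𝒪) :=
    { φ₀ with
      commutes' := fun o => by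
        show φ₀ (algebraMap 𝒪 A o) = algebraMap (ResidueField 𝒪) (DualNumber (ResidueField 𝒪))
          (algebraMap 𝒪 (ResidueField 𝒪) o)
        rw [hφ₀, hπalg, hDU _ (hA₁U _ (A₁.algebraMap_mem o)), TrivSqZeroExt.inr_zero, add_zero]
        rfl }
  have hφ : ∀ a, φ a = TrivSqZeroExt.inl (π a) + TrivSqZeroExt.inr (D a) := fun _ => rfl
  refine ⟨φ, ?_, ?_⟩
  · -- surjectivity
    obtain ⟨a₀, rfl⟩ := Submodule.Quotient.mk_surjective U v
    obtain ⟨o, ho⟩ := exists_sub_mem hA a₀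
    set a₁ := a₀ - algebraMap 𝒪 A o with ha₁
    have hDa₁ : D a₁ ≠ 0 := by
      have : D a₀ = D a₁ := by
        have : a₀ = algebraMap 𝒪 A o + a₁ := by rw [ha₁]; ring
        rw [this, hDadd, hDU _ (hA₁U _ (A₁.algebraMap_mem o)), zero_add]
      rw [← this]
      exact hf
    intro z
    obtain ⟨o₀, ho₀⟩ := residue_surjective z.fst
    obtain ⟨o₁, ho₁⟩ := residue_surjective (z.snd / D a₁)
    refine ⟨algebraMap 𝒪 A o₀ + algebraMap 𝒪 A o₁ * a₁, ?_⟩
    rw [hφ]
    apply TrivSqZeroExt.ext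
    · have : π (algebraMap 𝒪 A o₁ * a₁) = 0 := by
        rw [map_mul, hπm a₁ ho, mul_zero]
      simp [hπalg, this, ho₀]
    · have : D (algebraMap 𝒪 A o₀ + algebraMap 𝒪 A o₁ * a₁) = z.snd := by
        rw [hDadd, hDU _ (hA₁U _ (A₁.algebraMap_mem o₀)), zero_add, hDsmul, ho₁,
          div_mul_cancel₀ _ hDa₁]
      simp [this]
  · intro a ha
    refine ⟨π a, ?_⟩
    rw [hφ, hDU _ (hA₁U _ ha), TrivSqZeroExt.inr_zero, add_zero]
    rfl

/-- Same as `H4_exists_dualNumber`, with the algebra instance spelled out exactly as in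
`GaloisRep.TangentFinite`. -/
theorem H4_exists_dualNumber' (𝒪 : Type) [CommRing 𝒪] [IsLocalRing 𝒪]
    {A : Type} [CommRing A] [IsLocalRing A] [Algebra 𝒪 A]
    (hA : GaloisRep.IsArtinianTestAlgebra 𝒪 A) (A₁ : Subalgebra 𝒪 A) (h : A₁ ≠ ⊤) :
    letI : Algebra 𝒪 (DualNumber (ResidueField 𝒪)) :=
      ((algebraMap (ResidueField 𝒪) (DualNumber (ResidueField 𝒪))).comp
        (algebraMap 𝒪 (ResidueField 𝒪))).toAlgebra
    ∃ φ : A →ₐ[𝒪] DualNumber (ResidueField 𝒪), Function.Surjective φ ∧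
      ∀ a ∈ A₁, φ a ∈ (algebraMap (ResidueField 𝒪) (DualNumber (ResidueField 𝒪))).range :=
  H4_exists_dualNumber 𝒪 hA A₁ h

end Fermat.Agent.S53_helper9_H4
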