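import Mathlib
import Fermat.Agent.S53_helper16_Core
import Fermat.Agent.S53_helper23_I1
import Fermat.Agent.S53_helper26_H7
import Fermat.Agent.S53_helper9_H4

set_option autoImplicit false
set_option linter.style.haveILetI false

open IsLocalRing Fermat.Agent.S53_helper16_Defs Fermat.Agent.S53_helper16_Core GaloisRep
open Fermat.Agent.S53_helper23_I1 Fermat.Agent.S53_helper26_H7

namespace Fermat.Agent.S53_helper15_C5

section
variable (𝒪 : Type) [CommRing 𝒪] [IsLocalRing 𝒪]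

local notation "kk" => ResidueField 𝒪
local notation "kε" => DualNumber (ResidueField 𝒪)

theorem dual_algebraMap_apply (c : 𝒪) :
    letI := dualAlg 𝒪
    algebraMap 𝒪 kε c = algebraMap kk kε (residue 𝒪 c) := rfl

theorem dual_isLocalHom :
    letI := dualAlg 𝒪
    IsLocalHom (algebraMap 𝒪 kε) := by
  letI := dualAlg 𝒪
  refine ⟨fun c hc => ?_⟩
  rw [dual_algebraMap_apply] at hc
  have h1 : IsUnit (TrivSqZeroExt.fst (algebraMap kk kε (residue 𝒪 c))) :=
    TrivSqZeroExt.isUnit_iff_isUnit_fst.mp hc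
  have h2 : TrivSqZeroExt.fst (algebraMap kk kε (residue 𝒪 c)) = residue 𝒪 c := rfl
  rw [h2] at h1
  exact (residue_ne_zero_iff_isUnit c).mp h1.ne_zero

theorem dual_residue_surjective :
    letI := dualAlg 𝒪
    Function.Surjective (residue kε ∘ algebraMap 𝒪 kε) := by
  letI := dualAlg 𝒪
  intro x
  obtain ⟨y, rfl⟩ := residue_surjective x
  obtain ⟨c, hc⟩ := residue_surjective (TrivSqZeroExt.fst y)
  refine ⟨c, ?_⟩
  rw [Function.comp_apply, dual_algebraMap_apply, hc, ← sub_eq_zero, ← map_sub,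
    residue_eq_zero_iff, DualNumber.maximalIdeal_eq_span_singleton_eps,
    Ideal.mem_span_singleton, ← DualNumber.fst_eq_zero_iff_eps_dvd]
  simp [TrivSqZeroExt.algebraMap_eq_inl]

theorem dual_isArtinianRing : IsArtinianRing kε := by
  rw [isArtinianRing_iff_isNilpotent_maximalIdeal, DualNumber.maximalIdeal_eq_span_singleton_eps]
  refine ⟨2, ?_⟩
  rw [Ideal.span_singleton_pow, pow_two, DualNumber.eps_mul_eps]
  simp

theorem dual_isArtinianTestAlgebra :
    letI := dualAlg 𝒪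
    IsArtinianTestAlgebra 𝒪 kε :=
  letI := dualAlg 𝒪
  ⟨dual_isLocalHom 𝒪, dual_residue_surjective 𝒪, dual_isArtinianRing 𝒪⟩

theorem kappa_dual :
    letI := dualAlg 𝒪
    kappa 𝒪 kε (dual_isLocalHom 𝒪) = (residue kε).comp (algebraMap kk kε) := by
  letI := dualAlg 𝒪
  refine RingHom.ext fun x => ?_
  obtain ⟨c, rfl⟩ := residue_surjective x
  rfl

theorem eps_not_mem_range : (DualNumber.eps : kε) ∉ (algebraMap kk kε).range := by
  rintro ⟨c, hc⟩
  have := congrArg TrivSqZeroExt.snd hc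
  simp [TrivSqZeroExt.algebraMap_eq_inl] at this

end

section
variable (𝒪 : Type) [CommRing 𝒪] [IsLocalRing 𝒪] [Finite (ResidueField 𝒪)]
variable (ρbar : ResidualGaloisRep (ResidueField 𝒪))
variable (𝒟 : ∀ ⦃A : Type⦄ [CommRing A] [IsLocalRing A] [Algebra 𝒪 A], GaloisRepAdic A → Prop)

local notation "kk" => ResidueField 𝒪
local notation "kε" => DualNumber (ResidueField 𝒪)

/-- C5 (generation lemma; this is where `TangentFinite` is used), with the pieces
`C3_dlift_descend`, `C2b_dlift_map`, `C1b_residual_of_strict` taken as hypotheses. -/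
theorem C5_generation_of_pieces
    (hC3 : ∀ {A₀ A : Type} [CommRing A₀] [IsLocalRing A₀] [Algebra 𝒪 A₀]
      [CommRing A] [IsLocalRing A] [Algebra 𝒪 A]
      (hA₀ : IsArtinianTestAlgebra 𝒪 A₀) (hA : IsArtinianTestAlgebra 𝒪 A)
      (ι : A₀ →ₐ[𝒪] A) (_ : Function.Injective ι)
      {M : Gal →* Matrix (Fin 2) (Fin 2) A} (_ : IsDLift 𝒪 ρbar 𝒟 hA.isLocalHom M)
      (_ : ∀ σ, (M σ).trace ∈ (ι : A₀ →+* A).range),
      ∃ M₀ : Gal →* Matrix (Fin 2) (Fin 2) A₀, IsDLift 𝒪 ρbar 𝒟 hA₀.isLocalHom M₀ ∧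
        ∀ σ, ι ((M₀ σ).trace) = (M σ).trace)
    (hC2b : ∀ {A B : Type} [CommRing A] [IsLocalRing A] [Algebra 𝒪 A]
      [CommRing B] [IsLocalRing B] [Algebra 𝒪 B]
      (hA : IsArtinianTestAlgebra 𝒪 A) (hB : IsArtinianTestAlgebra 𝒪 B)
      (φ : A →ₐ[𝒪] B) (_ : IsLocalHom (φ : A →+* B))
      {M : Gal →* Matrix (Fin 2) (Fin 2) A} (_ : IsDLift 𝒪 ρbar 𝒟 hA.isLocalHom M),
      IsDLift 𝒪 ρbar 𝒟 hB.isLocalHom (mapRep (φ : A →+* B) M))
    (hC1b : ∀ {A : Type} [CommRing A] [IsLocalRing A] [Algebra 𝒪 A]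
      (hloc : IsLocalHom (algebraMap 𝒪 A))
      (M : Gal →* Matrix (Fin 2) (Fin 2) A) (hM : MatCont M)
      (_ : IsStrictLift 𝒪 hloc ρbar M),
      (toAdic M hM).residual.IsEquiv (ρbar.baseChangeAlong (kappa 𝒪 A hloc)))
    (hfin : TangentFinite 𝒪 ρbar 𝒟) :
    ∃ (d : ℕ) (h : Fin d → Gal), Generates 𝒪 ρbar 𝒟 d h := by
  classical
  letI inst1 : Algebra 𝒪 kε := dualAlg 𝒪
  letI inst2 : Algebra kk (ResidueField kε) :=
    ((IsLocalRing.residue kε).comp (algebraMap kk kε)).toAlgebra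
  let T : Type 1 := {ρ : GaloisRepAdic kε //
      𝒟 ρ ∧ ρ.residual.IsEquiv (ρbar.baseChange (ResidueField kε))}
  let s : Setoid T := ⟨fun ρ ρ' => ρ.1.IsEquiv ρ'.1, ⟨fun ρ => ⟨GaloisRepAdic.Equiv.refl ρ.1⟩,
        fun ⟨e⟩ => ⟨e.symm⟩, fun ⟨e⟩ ⟨e'⟩ => ⟨e.trans e'⟩⟩⟩
  have hfinQ : Finite (Quotient s) := hfin
  let trf : T → (Gal → kε) := fun ρ σ => LinearMap.trace kε ρ.1.V (ρ.1.ρ σ)
  have htrf : ∀ a b : T, s.r a b → trf a = trf b := fun a b hab =>
    funext fun σ => I1b_trace_eq_of_isEquiv hab σ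
  let trq : Quotient s → (Gal → kε) := Quotient.lift trf htrf
  let pick : Quotient s → Gal := fun q =>
    if hq : ∃ σ, trq q σ ∉ (algebraMap kk kε).range then hq.choose else 1
  have hpick : ∀ q, (∃ σ, trq q σ ∉ (algebraMap kk kε).range) →
      trq q (pick q) ∉ (algebraMap kk kε).range := by
    intro q hq
    simp only [pick, dif_pos hq]
    exact hq.choose_spec
  let e := Finite.equivFin (Quotient s)
  refine ⟨Nat.card (Quotient s), fun i => pick (e.symm i), ?_⟩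
  intro A _ _ _ hA M hM σ
  by_contra hσ
  -- the trace algebra
  let Atr : Subalgebra 𝒪 A := Algebra.adjoin 𝒪 (Set.range fun τ => (M τ).trace)
  letI : IsLocalRing Atr := H7b_isLocalRing 𝒪 hA Atr
  have hAtr : IsArtinianTestAlgebra 𝒪 Atr := (H7c_isArtinianTestAlgebra 𝒪 hA Atr).1
  -- descend
  obtain ⟨M₀, hM₀, htr₀⟩ := hC3 hAtr hA Atr.val
    Subtype.val_injective hM (fun τ => ⟨⟨(M τ).trace, Algebra.subset_adjoin ⟨τ, rfl⟩⟩, rfl⟩)
  -- the subalgebra generated by the traces at the chosen elements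
  let A₁ : Subalgebra 𝒪 Atr :=
    Algebra.adjoin 𝒪 (Set.range fun i => (M₀ (pick (e.symm i))).trace)
  have hmapA₁ : A₁.map Atr.val =
      Algebra.adjoin 𝒪 (Set.range fun i => (M (pick (e.symm i))).trace) := by
    rw [AlgHom.map_adjoin, ← Set.range_comp]
    congr 2
    funext i
    exact htr₀ _
  have hmapTop : Algebra.adjoin 𝒪 (Set.range fun τ => (M₀ τ).trace) = (⊤ : Subalgebra 𝒪 Atr) := by
    apply Subalgebra.map_injective (f := Atr.val) Subtype.val_injective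
    rw [AlgHom.map_adjoin, ← Set.range_comp, Algebra.map_top, Subalgebra.range_val]
    congr 2
    funext τ
    exact htr₀ _
  have hA₁ : A₁ ≠ ⊤ := by
    intro htop
    apply hσ
    rw [← hmapA₁, htop]
    exact ⟨⟨(M σ).trace, Algebra.subset_adjoin ⟨σ, rfl⟩⟩, Algebra.mem_top, rfl⟩
  obtain ⟨φ, hφsurj, hφA₁⟩ := Fermat.Agent.S53_helper9_H4.H4_exists_dualNumber 𝒪 hAtr A₁ hA₁
  have hφloc : IsLocalHom (φ : Atr →+* kε) := IsLocalHom.of_surjective _ hφsurj
  have hdual : IsArtinianTestAlgebra 𝒪 kε := dual_isArtinianTestAlgebra 𝒪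
  have hN : IsDLift 𝒪 ρbar 𝒟 hdual.isLocalHom (mapRep (φ : Atr →+* kε) M₀) :=
    hC2b hAtr hdual φ hφloc hM₀
  have hres := hC1b hdual.isLocalHom _ hN.cont hN.strict
  have hkap : kappa 𝒪 kε hdual.isLocalHom = (residue kε).comp (algebraMap kk kε) :=
    kappa_dual 𝒪
  rw [hkap] at hres
  let t : T := ⟨toAdic (mapRep (φ : Atr →+* kε) M₀) hN.cont, hN.isD, hres⟩
  have htrt : ∀ τ, trq (Quotient.mk s t) τ = φ ((M₀ τ).trace) := by
    intro τ
    change LinearMap.trace kε _ ((toAdic (mapRep (φ : Atr →+* kε) M₀) hN.cont).ρ τ) = _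
    rw [I1a_trace_toAdic, mapRep_apply]
    exact (AddMonoidHom.map_trace (φ : Atr →+* kε) (M₀ τ)).symm
  by_cases hcase : ∃ τ, trq (Quotient.mk s t) τ ∉ (algebraMap kk kε).range
  · have h1 := hpick _ hcase
    rw [htrt] at h1
    apply h1
    have h2 : (M₀ (pick (Quotient.mk s t))).trace ∈ A₁ := by
      refine Algebra.subset_adjoin ⟨e (Quotient.mk s t), ?_⟩
      simp
    exact hφA₁ _ h2
  · simp only [not_exists, not_not] at hcase
    -- all traces land in `k`, hence the whole image of `φ`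
    let K : Subalgebra 𝒪 kε :=
      { (algebraMap kk kε).range with
        algebraMap_mem' := fun c => ⟨residue 𝒪 c, rfl⟩ }
    have hK : (⊤ : Subalgebra 𝒪 Atr).map φ ≤ K := by
      rw [← hmapTop, AlgHom.map_adjoin]
      refine Algebra.adjoin_le ?_
      rintro _ ⟨_, ⟨τ, rfl⟩, rfl⟩
      have := hcase τ
      rw [htrt] at this
      exact this
    obtain ⟨a, ha⟩ := hφsurj DualNumber.eps
    have : (DualNumber.eps : kε) ∈ K := by
      rw [← ha]
      exact hK ⟨a, Algebra.mem_top, rfl⟩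
    exact eps_not_mem_range 𝒪 this

end

end Fermat.Agent.S53_helper15_C5
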