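import Mathlib
import Fermat.Agent.S53_helper16_Defs

set_option autoImplicit false

open IsLocalRing Fermat.Agent.S53_helper16_Defs

namespace Fermat.Agent.S53_helper15_I2

theorem repr_mem_of_mem_smul_top {A : Type} [CommRing A] {V : Type} [AddCommGroup V]
    [Module A V] (b : Module.Basis (Fin 2) A V) (I : Ideal A) {w : V}
    (hw : w ∈ I • (⊤ : Submodule A V)) (i : Fin 2) : b.repr w i ∈ I := by
  refine Submodule.smul_induction_on (p := fun w => b.repr w i ∈ I) hw ?_ ?_
  · intro r hr v _
    rw [map_smul, Finsupp.smul_apply, smul_eq_mul]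
    exact Ideal.mul_mem_right _ _ hr
  · intro x y hx hy
    rw [map_add, Finsupp.add_apply]
    exact Ideal.add_mem _ hx hy

/-- I2: every adic representation over a local ring is equivalent to a matrix one. -/
theorem I2_exists_matrix {A : Type} [CommRing A] [IsLocalRing A] (ρ : GaloisRepAdic A) :
    ∃ (M : Gal →* Matrix (Fin 2) (Fin 2) A) (hM : MatCont M), (toAdic M hM).IsEquiv ρ := by
  classical
  let b : Module.Basis (Fin 2) A ρ.V := Module.finBasisOfFinrankEq A ρ.V ρ.finrank_eq
  let M : Gal →* Matrix (Fin 2) (Fin 2) A :=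
    ((LinearMap.toMatrixAlgEquiv b).toAlgHom.toRingHom.toMonoidHom).comp ρ.ρ
  have hMapp : ∀ σ, M σ = LinearMap.toMatrix b b (ρ.ρ σ) := fun σ => rfl
  have hM : MatCont M := by
    intro n
    obtain ⟨L, hL, h⟩ := ρ.isAdicContinuous n
    refine ⟨L, hL, fun σ hσ i j => ?_⟩
    have h1 : (M σ - 1) i j = b.repr (ρ.ρ σ (b j) - b j) i := by
      rw [Matrix.sub_apply, hMapp, LinearMap.toMatrix_apply, map_sub, Finsupp.sub_apply,
        Module.Basis.repr_self, Matrix.one_apply, Finsupp.single_apply]
      congr 1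
      by_cases hij : i = j
      · subst hij; simp
      · rw [if_neg hij, if_neg (Ne.symm hij)]
    rw [h1]
    exact repr_mem_of_mem_smul_top b _ (h σ hσ (b j)) i
  have key : ∀ (σ : Gal) (x : Fin 2 → A),
      b.equivFun.symm (Matrix.toLin' (M σ) x) = ρ.ρ σ (b.equivFun.symm x) := by
    intro σ x
    have h2 : ρ.ρ σ = Matrix.toLin b b (M σ) := by
      rw [hMapp, Matrix.toLin_toMatrix]
    rw [h2, Matrix.toLin_apply, Matrix.toLin'_apply, Module.Basis.equivFun_symm_apply]
    simp [Module.Basis.equivFun_symm_apply]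
  exact ⟨M, hM, ⟨{ toLinearEquiv := b.equivFun.symm, map_apply := key }⟩⟩

end Fermat.Agent.S53_helper15_I2
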