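import Mathlib
import Fermat.Agent.S53_helper16_Defs

set_option autoImplicit false

open IsLocalRing Fermat.Agent.S53_helper16_Defs
open scoped TensorProduct

namespace Fermat.Agent.S53_helper15_I4

/-- I4: base change of `toAdic` is `toAdic` of the mapped representation. -/
theorem I4_baseChangeAlong_toAdic {A B : Type} [CommRing A] [IsLocalRing A] [CommRing B]
    [IsLocalRing B] (φ : A →+* B) (hφ : IsLocalHom φ)
    (M : Gal →* Matrix (Fin 2) (Fin 2) A) (hM : MatCont M) :
    ((toAdic M hM).baseChangeAlong φ hφ).IsEquiv
      (toAdic (mapRep φ M) (matCont_mapRep φ hφ hM)) := by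
  classical
  letI : Algebra A B := φ.toAlgebra
  let e : B ⊗[A] (Fin 2 → A) ≃ₗ[B] (Fin 2 → B) := TensorProduct.piScalarRight A B B (Fin 2)
  have key : ∀ (σ : Gal) (x : B ⊗[A] (Fin 2 → A)),
      e ((Matrix.toLin' (M σ)).baseChange B x) = Matrix.toLin' ((M σ).map φ) (e x) := by
    intro σ x
    induction x using TensorProduct.induction_on with
    | zero => simp only [map_zero]
    | tmul c v =>
      rw [LinearMap.baseChange_tmul]
      ext j
      simp only [e, TensorProduct.piScalarRight_apply, TensorProduct.piScalarRightHom_tmul,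
        Matrix.toLin'_apply, Matrix.mulVec, dotProduct, Matrix.map_apply]
      rw [Algebra.smul_def, map_sum, Finset.sum_mul]
      refine Finset.sum_congr rfl fun i _ => ?_
      rw [Algebra.smul_def, map_mul]
      change φ (M σ j i) * φ (v i) * c = φ (M σ j i) * (φ (v i) * c)
      ring
    | add x y hx hy => simp only [map_add, hx, hy]
  exact ⟨{ toLinearEquiv := e, map_apply := key }⟩

end Fermat.Agent.S53_helper15_I4
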