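import Mathlib
import Fermat.Agent.S53_helper18_Carayol

set_option linter.unusedSectionVars false
set_option linter.unusedSimpArgs false

namespace Fermat.Agent.S53_helper18

open IsLocalRing Matrix

section TwoByTwo

variable {B : Type*} [CommRing B]

/-- Polarised Cayley–Hamilton for `2 × 2` matrices. -/
lemma mul_mul_self_eq (P W : Matrix (Fin 2) (Fin 2) B) :
    P * W * P = (P * W).trace • P - P.det • W.adjugate := by
  ext i j
  fin_cases i <;> fin_cases j <;>
    simp [Matrix.mul_apply, Fin.sum_univ_two, Matrix.trace, Matrix.det_fin_two,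
      Matrix.adjugate_fin_two] <;> ring

lemma mul_mul_self_of_det_eq_zero (P W : Matrix (Fin 2) (Fin 2) B) (hP : P.det = 0) :
    P * W * P = (P * W).trace • P := by
  rw [mul_mul_self_eq, hP, zero_smul, sub_zero]

/-- powers of a matrix with entries in an ideal -/
lemma pow_apply_mem_pow (I : Ideal B) (X : Matrix (Fin 2) (Fin 2) B) (hX : ∀ i j, X i j ∈ I)
    (n : ℕ) : ∀ i j, (X ^ n) i j ∈ I ^ n := by
  induction n with
  | zero => intro i j; simp
  | succ n ih =>
    intro i j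
    rw [pow_succ X n, Matrix.mul_apply, pow_succ I n]
    exact Ideal.sum_mem _ fun k _ => Ideal.mul_mem_mul (ih i k) (hX k j)

lemma isNilpotent_of_entries_nilpotent (X : Matrix (Fin 2) (Fin 2) B)
    (hX : ∀ i j, IsNilpotent (X i j)) : IsNilpotent X := by
  set I : Ideal B := Ideal.span (Set.range fun p : Fin 2 × Fin 2 => X p.1 p.2) with hI
  have hfg : I.FG := Submodule.fg_span (Set.finite_range _)
  have hle : I ≤ (⊥ : Ideal B).radical := by
    rw [hI, Ideal.span_le]
    rintro _ ⟨p, rfl⟩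
    obtain ⟨n, hn⟩ := hX p.1 p.2
    exact ⟨n, by simpa using hn⟩
  obtain ⟨N, hN⟩ := Ideal.exists_pow_le_of_le_radical_of_fg hle hfg
  refine ⟨N, ?_⟩
  ext i j
  have := hN (pow_apply_mem_pow I X (fun i j => Ideal.subset_span ⟨(i, j), rfl⟩) N i j)
  simpa using this

end TwoByTwo


section SpanAlg

variable {G : Type*} [Monoid G] {A₀ A : Type*} [CommRing A₀] [CommRing A] [Algebra A₀ A]

/-- The `A₀`-subalgebra of `M₂(A)` generated by the image of `r`. -/
def spanAlg (A₀ : Type*) [CommRing A₀] [Algebra A₀ A] (r : G →* Matrix (Fin 2) (Fin 2) A) :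
    Subalgebra A₀ (Matrix (Fin 2) (Fin 2) A) :=
  Algebra.adjoin A₀ (Set.range r)

lemma mem_spanAlg_iff (r : G →* Matrix (Fin 2) (Fin 2) A) (X : Matrix (Fin 2) (Fin 2) A) :
    X ∈ spanAlg A₀ r ↔ X ∈ Submodule.span A₀ (Set.range r) := by
  rw [spanAlg, ← Subalgebra.mem_toSubmodule, Algebra.adjoin_eq_span]
  have : (Submonoid.closure (Set.range r) : Set (Matrix (Fin 2) (Fin 2) A)) = Set.range r := by
    rw [← MonoidHom.coe_mrange, Submonoid.closure_eq]
  rw [this]

lemma apply_mem_spanAlg (r : G →* Matrix (Fin 2) (Fin 2) A) (s : G) : r s ∈ spanAlg A₀ r :=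
  Algebra.subset_adjoin ⟨s, rfl⟩

lemma trace_mem_of_mem_spanAlg (r : G →* Matrix (Fin 2) (Fin 2) A)
    (htr : ∀ s, (r s).trace ∈ (algebraMap A₀ A).range)
    {X : Matrix (Fin 2) (Fin 2) A} (hX : X ∈ spanAlg A₀ r) :
    X.trace ∈ (algebraMap A₀ A).range := by
  rw [mem_spanAlg_iff] at hX
  induction hX using Submodule.span_induction with
  | mem X hX => obtain ⟨s, rfl⟩ := hX; exact htr s
  | zero => rw [Matrix.trace_zero]; exact zero_mem _
  | add X Y _ _ h₁ h₂ => rw [Matrix.trace_add]; exact add_mem h₁ h₂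
  | smul c X _ h =>
    rw [Matrix.trace_smul, Algebra.smul_def]
    exact mul_mem ⟨c, rfl⟩ h

variable [IsLocalRing A]

/-- every matrix over the residue field lifts to `spanAlg`. -/
lemma exists_mem_spanAlg_map_residue (r : G →* Matrix (Fin 2) (Fin 2) A)
    (hk : ∀ a : A, ∃ a₀ : A₀, a - algebraMap A₀ A a₀ ∈ maximalIdeal A)
    (hspan : Submodule.span (ResidueField A)
      (Set.range fun s => (r s).map (residue A)) = ⊤)
    (Y : Matrix (Fin 2) (Fin 2) (ResidueField A)) :
    ∃ X ∈ spanAlg A₀ r, X.map (residue A) = Y := by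
  have hY : Y ∈ Submodule.span (ResidueField A)
      (Set.range fun s => (r s).map (residue A)) := hspan ▸ Submodule.mem_top
  induction hY using Submodule.span_induction with
  | mem Y hY => obtain ⟨s, rfl⟩ := hY; exact ⟨r s, apply_mem_spanAlg r s, rfl⟩
  | zero => exact ⟨0, zero_mem _, by ext i j; simp⟩
  | add Y₁ Y₂ _ _ h₁ h₂ =>
    obtain ⟨X₁, hX₁, rfl⟩ := h₁
    obtain ⟨X₂, hX₂, rfl⟩ := h₂
    exact ⟨X₁ + X₂, add_mem hX₁ hX₂, map_residue_add _ _⟩
  | smul c Y _ h =>
    obtain ⟨X, hX, rfl⟩ := h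
    obtain ⟨a, rfl⟩ := residue_surjective c
    obtain ⟨a₀, ha₀⟩ := hk a
    refine ⟨a₀ • X, Subalgebra.smul_mem _ hX a₀, ?_⟩
    have h1 : residue A (algebraMap A₀ A a₀) = residue A a := by
      rw [← sub_eq_zero, ← map_sub, residue_eq_zero_iff, ← neg_sub, neg_mem_iff]
      exact ha₀
    ext i j
    simp only [Matrix.map_apply, Matrix.smul_apply]
    rw [Algebra.smul_def, map_mul, h1, smul_eq_mul]


/-- reduction of `spanAlg` as a ring homomorphism -/
noncomputable def redAlg (A₀ : Type*) [CommRing A₀] [Algebra A₀ A]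
    (r : G →* Matrix (Fin 2) (Fin 2) A) :
    spanAlg A₀ r →+* Matrix (Fin 2) (Fin 2) (ResidueField A) :=
  (residue A).mapMatrix.comp (spanAlg A₀ r).val.toRingHom

lemma redAlg_apply (r : G →* Matrix (Fin 2) (Fin 2) A) (x : spanAlg A₀ r) :
    redAlg A₀ r x = (x : Matrix (Fin 2) (Fin 2) A).map (residue A) := rfl

lemma exists_idempotent_lift (r : G →* Matrix (Fin 2) (Fin 2) A)
    (hnilA : ∀ x ∈ maximalIdeal A, IsNilpotent x)
    (hk : ∀ a : A, ∃ a₀ : A₀, a - algebraMap A₀ A a₀ ∈ maximalIdeal A)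
    (hspan : Submodule.span (ResidueField A)
      (Set.range fun s => (r s).map (residue A)) = ⊤) :
    ∃ e ∈ spanAlg A₀ r, e * e = e ∧ e.map (residue A) = Matrix.single 0 0 1 := by
  have hker : ∀ x ∈ RingHom.ker (redAlg A₀ r), IsNilpotent x := by
    intro x hx
    rw [RingHom.mem_ker, redAlg_apply] at hx
    have hent : ∀ i j, IsNilpotent ((x : Matrix (Fin 2) (Fin 2) A) i j) := by
      intro i j
      apply hnilA
      have := congrFun (congrFun hx i) j
      simpa [Matrix.map_apply] using this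
    obtain ⟨n, hn⟩ := isNilpotent_of_entries_nilpotent _ hent
    exact ⟨n, Subtype.ext (by simpa using hn)⟩
  have hrange : (Matrix.single 0 0 1 : Matrix (Fin 2) (Fin 2) (ResidueField A)) ∈
      (redAlg A₀ r).range := by
    obtain ⟨X, hX, hXr⟩ := exists_mem_spanAlg_map_residue (A₀ := A₀) r hk hspan
      (Matrix.single 0 0 1)
    exact ⟨⟨X, hX⟩, hXr⟩
  have hidem : IsIdempotentElem
      (Matrix.single 0 0 1 : Matrix (Fin 2) (Fin 2) (ResidueField A)) := by
    unfold IsIdempotentElem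
    ext i j
    fin_cases i <;> fin_cases j <;> simp [Matrix.mul_apply, Matrix.single]
  obtain ⟨e', he', hfe'⟩ :=
    exists_isIdempotentElem_eq_of_ker_isNilpotent (redAlg A₀ r) hker _ hrange hidem
  refine ⟨e'.1, e'.2, ?_, hfe'⟩
  have := congrArg Subtype.val he'.eq
  simpa using this

lemma det_eq_zero_of_idempotent (e : Matrix (Fin 2) (Fin 2) A) (he : e * e = e)
    (hdet : residue A e.det = 0) : e.det = 0 := by
  have h1 : e.det * e.det = e.det := by rw [← Matrix.det_mul, he]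
  have h2 : e.det * (1 - e.det) = 0 := by rw [mul_sub, mul_one, h1, sub_self]
  have hm : e.det ∈ maximalIdeal A := (residue_eq_zero_iff _).mp hdet
  have hu : IsUnit (1 - e.det) := by
    by_contra hnu
    have h3 : (1 - e.det) ∈ maximalIdeal A := hnu
    have : (1 : A) ∈ maximalIdeal A := by
      have := add_mem h3 hm
      simp at this
    exact (Ideal.ne_top_iff_one _).mp (maximalIdeal.isMaximal A).ne_top this
  exact (hu.mul_left_eq_zero).mp h2


/-- the key `2 × 2` computation: in terms of an idempotent `e` of "rank one" and elements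
`b, c`, multiplication by `X` on the basis `(e ε₀, (1-e) c e ε₀)` is given by traces. -/
lemma key_computation {B : Type*} [CommRing B] (e b c X : Matrix (Fin 2) (Fin 2) B)
    (he : e * e = e) (hdet : e.det = 0) (hdet' : (1 - e).det = 0)
    (β' : B) (hβ : β' * (e * b * (1 - e) * c).trace = 1) :
    X * (e * Matrix.single 0 0 1 + (1 - e) * c * e * Matrix.single 0 1 1) =
      (e * Matrix.single 0 0 1 + (1 - e) * c * e * Matrix.single 0 1 1) *
        !![(e * X).trace, (e * (X * (1 - e) * c)).trace;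
           β' * ((1 - e) * (X * e * b)).trace, ((1 - e) * X).trace] := by
  set f₁ := (1 - e) * c * e with hf₁
  set β := (e * b * (1 - e) * c).trace with hβdef
  have he' : (1 - e) * (1 - e) = 1 - e := by
    rw [mul_sub, mul_one, sub_mul, one_mul, he, sub_self, sub_zero]
  have hee' : e * (1 - e) = 0 := by rw [mul_sub, mul_one, he, sub_self]
  have he'e : (1 - e) * e = 0 := by rw [sub_mul, one_mul, he, sub_self]
  -- (i)
  have h1 : e * X * e = (e * X).trace • e := mul_mul_self_of_det_eq_zero e X hdet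
  -- (ii)
  have h2 : e * X * f₁ = (e * (X * (1 - e) * c)).trace • e := by
    have := mul_mul_self_of_det_eq_zero e (X * (1 - e) * c) hdet
    rw [← this, hf₁]; noncomm_ring
  -- (iii)
  have h3 : (1 - e) * X * f₁ = ((1 - e) * X).trace • f₁ := by
    have := mul_mul_self_of_det_eq_zero (1 - e) X hdet'
    calc (1 - e) * X * f₁ = ((1 - e) * X * (1 - e)) * (c * e) := by
          rw [hf₁]; noncomm_ring
      _ = ((1 - e) * X).trace • f₁ := by
          rw [this, hf₁, Matrix.smul_mul, mul_assoc]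
  -- (iv)
  have h4a : β • e = e * b * (1 - e) * c * e := by
    have := mul_mul_self_of_det_eq_zero e (b * (1 - e) * c) hdet
    rw [hβdef]
    have e1 : e * b * (1 - e) * c = e * (b * (1 - e) * c) := by noncomm_ring
    rw [e1, ← this]
  have h4 : β • ((1 - e) * X * e) = ((1 - e) * (X * e * b)).trace • f₁ := by
    have := mul_mul_self_of_det_eq_zero (1 - e) (X * e * b) hdet'
    calc β • ((1 - e) * X * e) = (1 - e) * X * (β • e) := by
          rw [Matrix.mul_smul]
      _ = ((1 - e) * (X * e * b) * (1 - e)) * (c * e) := by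
          rw [h4a]; noncomm_ring
      _ = ((1 - e) * (X * e * b)).trace • f₁ := by
          rw [this, Matrix.smul_mul, hf₁, ← mul_assoc (1 - e) c e]
  have h4' : (1 - e) * X * e = (β' * ((1 - e) * (X * e * b)).trace) • f₁ := by
    calc (1 - e) * X * e = (β' * β) • ((1 - e) * X * e) := by rw [hβ, one_smul]
      _ = β' • (β • ((1 - e) * X * e)) := by rw [mul_smul]
      _ = (β' * ((1 - e) * (X * e * b)).trace) • f₁ := by rw [h4, ← mul_smul]
  have hXe : X * e = (e * X).trace • e + (β' * ((1 - e) * (X * e * b)).trace) • f₁ := by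
    rw [← h1, ← h4']; noncomm_ring
  have hXf : X * f₁ = (e * (X * (1 - e) * c)).trace • e + ((1 - e) * X).trace • f₁ := by
    rw [← h2, ← h3]; noncomm_ring
  have hE0 : ∀ z₀₀ z₀₁ z₁₀ z₁₁ : B, (Matrix.single 0 0 1 : Matrix (Fin 2) (Fin 2) B) *
      !![z₀₀, z₀₁; z₁₀, z₁₁] = z₀₀ • Matrix.single 0 0 1 + z₀₁ • Matrix.single 0 1 1 := by
    intro z₀₀ z₀₁ z₁₀ z₁₁
    ext i j
    fin_cases i <;> fin_cases j <;> simp [Matrix.mul_apply, Fin.sum_univ_two, Matrix.single]
  have hE1 : ∀ z₀₀ z₀₁ z₁₀ z₁₁ : B, (Matrix.single 0 1 1 : Matrix (Fin 2) (Fin 2) B) *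
      !![z₀₀, z₀₁; z₁₀, z₁₁] = z₁₀ • Matrix.single 0 0 1 + z₁₁ • Matrix.single 0 1 1 := by
    intro z₀₀ z₀₁ z₁₀ z₁₁
    ext i j
    fin_cases i <;> fin_cases j <;> simp [Matrix.mul_apply, Fin.sum_univ_two, Matrix.single]
  generalize (e * X).trace = z₀₀ at hXe ⊢
  generalize (e * (X * (1 - e) * c)).trace = z₀₁ at hXf ⊢
  generalize β' * ((1 - e) * (X * e * b)).trace = z₁₀ at hXe ⊢
  generalize ((1 - e) * X).trace = z₁₁ at hXf ⊢
  rw [mul_add, ← mul_assoc, ← mul_assoc X, hXe, hXf, add_mul _ _ (!![z₀₀, z₀₁; z₁₀, z₁₁]),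
    mul_assoc e, hE0, mul_assoc f₁, hE1]
  simp only [add_mul, mul_add, Matrix.smul_mul, Matrix.mul_smul]
  abel


lemma isUnit_of_isUnit_algebraMap [IsLocalRing A₀]
    (hk : ∀ a : A, ∃ a₀ : A₀, a - algebraMap A₀ A a₀ ∈ maximalIdeal A)
    (a₀ : A₀) (h : IsUnit (algebraMap A₀ A a₀)) : IsUnit a₀ := by
  by_contra hnu
  have hmem : a₀ ∈ maximalIdeal A₀ := hnu
  set φ : A₀ →+* ResidueField A := (residue A).comp (algebraMap A₀ A) with hφ
  have hsurj : Function.Surjective φ := by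
    intro c
    obtain ⟨a, rfl⟩ := residue_surjective c
    obtain ⟨b₀, hb₀⟩ := hk a
    refine ⟨b₀, ?_⟩
    rw [hφ, RingHom.comp_apply, ← sub_eq_zero, ← map_sub, residue_eq_zero_iff, ← neg_sub,
      neg_mem_iff]
    exact hb₀
  have hmax : (RingHom.ker φ).IsMaximal := RingHom.ker_isMaximal_of_surjective φ hsurj
  have hker : RingHom.ker φ = maximalIdeal A₀ := IsLocalRing.eq_maximalIdeal hmax
  have h0 : φ a₀ = 0 := by rw [← RingHom.mem_ker, hker]; exact hmem
  rw [hφ, RingHom.comp_apply, residue_eq_zero_iff] at h0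
  exact h0 h

lemma exists_monoidHom_of_entries_mem {A₀ A : Type*} [CommRing A₀] [CommRing A]
    (ι : A₀ →+* A) (hι : Function.Injective ι) (r₁ : G →* Matrix (Fin 2) (Fin 2) A)
    (h : ∀ s, ∃ Z : Matrix (Fin 2) (Fin 2) A₀, Z.map ι = r₁ s) :
    ∃ r₀ : G →* Matrix (Fin 2) (Fin 2) A₀, ∀ s, (r₀ s).map ι = r₁ s := by
  choose Z hZ using h
  have hinj : Function.Injective (ι.mapMatrix : Matrix (Fin 2) (Fin 2) A₀ →+* _) := by
    intro X Y hXY
    simp only [RingHom.mapMatrix_apply] at hXY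
    exact Matrix.map_injective hι hXY
  refine ⟨{ toFun := Z, map_one' := ?_, map_mul' := ?_ }, hZ⟩
  · apply hinj
    rw [RingHom.mapMatrix_apply, hZ, map_one, map_one]
  · intro s t
    apply hinj
    rw [map_mul, RingHom.mapMatrix_apply, RingHom.mapMatrix_apply, RingHom.mapMatrix_apply,
      hZ, hZ, hZ, map_mul]

/-- **Carayol descent**, algebra version. -/
theorem descent_alg [IsLocalRing A₀]
    (hinj : Function.Injective (algebraMap A₀ A))
    (hnilA : ∀ x ∈ maximalIdeal A, IsNilpotent x)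
    (hk : ∀ a : A, ∃ a₀ : A₀, a - algebraMap A₀ A a₀ ∈ maximalIdeal A)
    (r : G →* Matrix (Fin 2) (Fin 2) A)
    (hspan : Submodule.span (ResidueField A)
      (Set.range fun s => (r s).map (residue A)) = ⊤)
    (htr : ∀ s, (r s).trace ∈ (algebraMap A₀ A).range) :
    ∃ (r₀ : G →* Matrix (Fin 2) (Fin 2) A₀) (u : Matrix (Fin 2) (Fin 2) A),
      IsUnit u ∧ u.map (residue A) = 1 ∧
        ∀ s, u * r s = (r₀ s).map (algebraMap A₀ A) * u := by
  obtain ⟨e, he𝔄, he, hered⟩ := exists_idempotent_lift (A₀ := A₀) r hnilA hk hspan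
  obtain ⟨c, hc𝔄, hcred⟩ := exists_mem_spanAlg_map_residue (A₀ := A₀) r hk hspan
    (Matrix.single 1 0 1)
  obtain ⟨b, hb𝔄, hbred⟩ := exists_mem_spanAlg_map_residue (A₀ := A₀) r hk hspan
    (Matrix.single 0 1 1)
  have h1e𝔄 : (1 - e) ∈ spanAlg A₀ r := sub_mem (one_mem _) he𝔄
  have he' : (1 - e) * (1 - e) = 1 - e := by
    rw [mul_sub, mul_one, sub_mul, one_mul, he, sub_self, sub_zero]
  have h1ered : (1 - e).map (residue A) = Matrix.single 1 1 1 := by
    rw [map_residue_sub, hered]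
    ext i j
    fin_cases i <;> fin_cases j <;> simp [Matrix.single, Matrix.one_apply]
  have hdet : e.det = 0 := by
    apply det_eq_zero_of_idempotent e he
    rw [RingHom.map_det, RingHom.mapMatrix_apply, hered]
    simp [Matrix.det_fin_two, Matrix.single]
  have hdet' : (1 - e).det = 0 := by
    apply det_eq_zero_of_idempotent (1 - e) he'
    rw [RingHom.map_det, RingHom.mapMatrix_apply, h1ered]
    simp [Matrix.det_fin_two, Matrix.single]
  -- β
  have hβ𝔄 : e * b * (1 - e) * c ∈ spanAlg A₀ r :=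
    mul_mem (mul_mem (mul_mem he𝔄 hb𝔄) h1e𝔄) hc𝔄
  obtain ⟨β₀, hβ₀⟩ := trace_mem_of_mem_spanAlg r htr hβ𝔄
  have hβres : residue A (e * b * (1 - e) * c).trace = 1 := by
    have : (e * b * (1 - e) * c).map (residue A) = Matrix.single 0 0 1 := by
      rw [map_residue_mul, map_residue_mul, map_residue_mul, hered, hbred, h1ered, hcred]
      ext i j
      fin_cases i <;> fin_cases j <;> simp [Matrix.mul_apply, Fin.sum_univ_two, Matrix.single]
    have h2 : residue A (e * b * (1 - e) * c).trace =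
        ((e * b * (1 - e) * c).map (residue A)).trace := by
      simp only [Matrix.trace, Matrix.diag, Fin.sum_univ_two, Matrix.map_apply, map_add]
    rw [h2, this]
    simp [Matrix.trace, Matrix.single]
  have hβunit : IsUnit (algebraMap A₀ A β₀) := by
    rw [hβ₀]
    by_contra hnu
    have : residue A (e * b * (1 - e) * c).trace = 0 := (residue_eq_zero_iff _).mpr hnu
    rw [hβres] at this
    exact one_ne_zero this
  obtain ⟨β₀u, hβ₀u⟩ := isUnit_of_isUnit_algebraMap hk β₀ hβunit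
  set β' : A := algebraMap A₀ A ↑β₀u⁻¹ with hβ'
  have hβ'β : β' * (e * b * (1 - e) * c).trace = 1 := by
    rw [hβ', ← hβ₀, ← hβ₀u, ← map_mul, Units.inv_mul, map_one]
  -- Y
  set Y : Matrix (Fin 2) (Fin 2) A :=
    e * Matrix.single 0 0 1 + (1 - e) * c * e * Matrix.single 0 1 1 with hY
  have hYred : Y.map (residue A) = 1 := by
    rw [hY, map_residue_add, map_residue_mul, map_residue_mul, map_residue_mul, map_residue_mul,
      hered, h1ered, hcred]
    ext i j
    fin_cases i <;> fin_cases j <;>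
      simp [Matrix.mul_apply, Fin.sum_univ_two, Matrix.single, Matrix.map_apply,
        Matrix.one_apply]
  obtain ⟨Yu, hYu⟩ := isUnit_of_map_residue_eq_one Y hYred
  -- the conjugated representation
  let r₁ : G →* Matrix (Fin 2) (Fin 2) A :=
    { toFun := fun s => (↑Yu⁻¹ : Matrix (Fin 2) (Fin 2) A) * r s * ↑Yu
      map_one' := by rw [map_one, mul_one, Units.inv_mul]
      map_mul' := fun s t => by
        rw [map_mul]
        calc (↑Yu⁻¹ : Matrix (Fin 2) (Fin 2) A) * (r s * r t) * ↑Yu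
            = ↑Yu⁻¹ * r s * (↑Yu * ↑Yu⁻¹) * r t * ↑Yu := by
              rw [Units.mul_inv, mul_one]; noncomm_ring
          _ = _ := by noncomm_ring }
  have hr₁ : ∀ s, ∃ Z : Matrix (Fin 2) (Fin 2) A₀, Z.map (algebraMap A₀ A) = r₁ s := by
    intro s
    have hX𝔄 := apply_mem_spanAlg (A₀ := A₀) r s
    have key : r s * Y = Y * !![(e * r s).trace, (e * (r s * (1 - e) * c)).trace;
           β' * ((1 - e) * (r s * e * b)).trace, ((1 - e) * r s).trace] :=
      key_computation e b c (r s) he hdet hdet' β' hβ'β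
    obtain ⟨z₀₀, hz₀₀⟩ := trace_mem_of_mem_spanAlg r htr (mul_mem he𝔄 hX𝔄)
    obtain ⟨z₀₁, hz₀₁⟩ := trace_mem_of_mem_spanAlg r htr
      (mul_mem he𝔄 (mul_mem (mul_mem hX𝔄 h1e𝔄) hc𝔄))
    obtain ⟨z₁₀, hz₁₀⟩ := trace_mem_of_mem_spanAlg r htr
      (mul_mem h1e𝔄 (mul_mem (mul_mem hX𝔄 he𝔄) hb𝔄))
    obtain ⟨z₁₁, hz₁₁⟩ := trace_mem_of_mem_spanAlg r htr (mul_mem h1e𝔄 hX𝔄)
    refine ⟨!![z₀₀, z₀₁; ↑β₀u⁻¹ * z₁₀, z₁₁], ?_⟩
    have hZ : (!![z₀₀, z₀₁; ↑β₀u⁻¹ * z₁₀, z₁₁] : Matrix (Fin 2) (Fin 2) A₀).map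
        (algebraMap A₀ A) =
        !![(e * r s).trace, (e * (r s * (1 - e) * c)).trace;
           β' * ((1 - e) * (r s * e * b)).trace, ((1 - e) * r s).trace] := by
      ext i j
      fin_cases i <;> fin_cases j <;> simp [hz₀₀, hz₀₁, hz₁₀, hz₁₁, hβ']
    rw [hZ]
    show _ = (↑Yu⁻¹ : Matrix (Fin 2) (Fin 2) A) * r s * (↑Yu : Matrix (Fin 2) (Fin 2) A)
    rw [← hYu] at key
    rw [mul_assoc (↑Yu⁻¹ : Matrix (Fin 2) (Fin 2) A) (r s) (↑Yu : Matrix (Fin 2) (Fin 2) A),
      key, Units.inv_mul_cancel_left]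
  obtain ⟨r₀, hr₀⟩ := exists_monoidHom_of_entries_mem (algebraMap A₀ A) hinj r₁ hr₁
  refine ⟨r₀, ↑Yu⁻¹, Units.isUnit _, ?_, fun s => ?_⟩
  · -- reduction of the inverse
    have h1 : ((↑Yu⁻¹ : Matrix (Fin 2) (Fin 2) A) * Y).map (residue A) = 1 := by
      rw [← hYu, Units.inv_mul]
      ext i j
      fin_cases i <;> fin_cases j <;> simp [Matrix.map_apply, Matrix.one_apply]
    rw [map_residue_mul, hYred, mul_one] at h1
    exact h1
  · rw [hr₀]
    show _ = (↑Yu⁻¹ : Matrix (Fin 2) (Fin 2) A) * r s * (↑Yu : Matrix (Fin 2) (Fin 2) A) *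
      (↑Yu⁻¹ : Matrix (Fin 2) (Fin 2) A)
    rw [mul_assoc _ (↑Yu : Matrix (Fin 2) (Fin 2) A) (↑Yu⁻¹ : Matrix (Fin 2) (Fin 2) A),
      Units.mul_inv, mul_one]

end SpanAlg

/-- **Carayol descent.** If `ι : A₀ → A` is an injective homomorphism of local rings inducing an
isomorphism on residue fields, the maximal ideal of `A` is nil, and `r : G → M₂(A)` is residually
spanning with all traces in `ι(A₀)`, then `r` is conjugate (by a matrix reducing to `1`) to a
representation defined over `A₀`. -/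
theorem descent {G : Type*} [Monoid G] {A₀ A : Type*} [CommRing A₀] [CommRing A]
    [IsLocalRing A₀] [IsLocalRing A] (ι : A₀ →+* A) (hι : Function.Injective ι)
    (hnilA : ∀ x ∈ maximalIdeal A, IsNilpotent x)
    (hk : ∀ a : A, ∃ a₀ : A₀, a - ι a₀ ∈ maximalIdeal A)
    (r : G →* Matrix (Fin 2) (Fin 2) A)
    (hspan : Submodule.span (ResidueField A)
      (Set.range fun s => (r s).map (residue A)) = ⊤)
    (htr : ∀ s, (r s).trace ∈ ι.range) :
    ∃ (r₀ : G →* Matrix (Fin 2) (Fin 2) A₀) (u : Matrix (Fin 2) (Fin 2) A),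
      IsUnit u ∧ u.map (residue A) = 1 ∧ ∀ s, u * r s = (r₀ s).map ι * u := by
  let _ : Algebra A₀ A := ι.toAlgebra
  exact descent_alg (A₀ := A₀) hι hnilA hk r hspan htr

end Fermat.Agent.S53_helper18
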