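import Mathlib
import Fermat.Agent.S53_helper16_Defs
import Fermat.Agent.S53_helper26_H7

set_option autoImplicit false
set_option linter.style.haveILetI false
set_option linter.unusedSectionVars false

open IsLocalRing Fermat.Agent.S53_helper16_Defs

namespace Fermat.Agent.S53_helper22_F1

section F1
variable (𝒪 : Type) [CommRing 𝒪] [IsLocalRing 𝒪] [Finite (ResidueField 𝒪)]

/-- the comparison map on residue fields, evaluated on a residue class. -/
theorem kappa_residue {A : Type} [CommRing A] [IsLocalRing A] [Algebra 𝒪 A]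
    (hloc : IsLocalHom (algebraMap 𝒪 A)) (c : 𝒪) :
    kappa 𝒪 A hloc (residue 𝒪 c) = residue A (algebraMap 𝒪 A c) := rfl

/-- F1a: the residue map `A → k` of a test algebra as an `𝒪`-algebra map -/
theorem F1a_exists_resk {A : Type} [CommRing A] [IsLocalRing A] [Algebra 𝒪 A]
    (hloc : IsLocalHom (algebraMap 𝒪 A))
    (hsurj : Function.Surjective (residue A ∘ algebraMap 𝒪 A)) :
    Function.Bijective (kappa 𝒪 A hloc) ∧
    ∃ f : A →ₐ[𝒪] ResidueField 𝒪, (∀ a, kappa 𝒪 A hloc (f a) = residue A a) ∧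
      (∀ a, f a = 0 ↔ a ∈ maximalIdeal A) := by
  have hbij : Function.Bijective (kappa 𝒪 A hloc) := by
    refine ⟨(kappa 𝒪 A hloc).injective, fun y => ?_⟩
    obtain ⟨c, hc⟩ := hsurj y
    exact ⟨residue 𝒪 c, by rw [kappa_residue]; exact hc⟩
  refine ⟨hbij, ?_⟩
  let e : ResidueField 𝒪 ≃+* ResidueField A := RingEquiv.ofBijective (kappa 𝒪 A hloc) hbij
  have he : ∀ x, e x = kappa 𝒪 A hloc x := fun x => rfl
  let f0 : A →+* ResidueField 𝒪 := (e.symm : ResidueField A →+* ResidueField 𝒪).comp (residue A)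
  have hf0 : ∀ a, kappa 𝒪 A hloc (f0 a) = residue A a := by
    intro a
    change kappa 𝒪 A hloc (e.symm (residue A a)) = residue A a
    rw [← he, RingEquiv.apply_symm_apply]
  let f : A →ₐ[𝒪] ResidueField 𝒪 :=
    { f0 with
      commutes' := by
        intro c
        change f0 (algebraMap 𝒪 A c) = algebraMap 𝒪 (ResidueField 𝒪) c
        apply hbij.1
        rw [hf0]
        rfl }
  refine ⟨f, hf0, fun a => ?_⟩
  change f0 a = 0 ↔ _
  rw [← residue_eq_zero_iff, ← hf0 a]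
  constructor
  · intro h; rw [h, map_zero]
  · intro h; exact hbij.1 (by rw [h, map_zero])

/-- membership in the fibre product -/
theorem mem_fibProd_iff {A B : Type} [CommRing A] [IsLocalRing A] [Algebra 𝒪 A]
    [CommRing B] [IsLocalRing B] [Algebra 𝒪 B] (x : A × B) :
    x ∈ fibProd 𝒪 A B ↔ ∃ c : 𝒪, x.1 - algebraMap 𝒪 A c ∈ maximalIdeal A ∧
      x.2 - algebraMap 𝒪 B c ∈ maximalIdeal B := Iff.rfl

/-- if the witness is a unit, so are both components, and conversely -/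
theorem isUnit_fst_iff_witness {A : Type} [CommRing A] [IsLocalRing A] [Algebra 𝒪 A]
    (hloc : IsLocalHom (algebraMap 𝒪 A)) (a : A) (c : 𝒪)
    (h : a - algebraMap 𝒪 A c ∈ maximalIdeal A) : IsUnit a ↔ IsUnit c := by
  constructor
  · intro ha
    haveI := hloc
    apply IsUnit.of_map (algebraMap 𝒪 A) c
    by_contra hc
    have hc' : algebraMap 𝒪 A c ∈ maximalIdeal A := hc
    have : a ∈ maximalIdeal A := by
      have := Ideal.add_mem _ h hc'
      simpa using this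
    exact this ha
  · intro hc
    by_contra ha
    have ha' : a ∈ maximalIdeal A := ha
    have : algebraMap 𝒪 A c ∈ maximalIdeal A := by
      have := Ideal.sub_mem _ ha' h
      simpa using this
    exact this (hc.map (algebraMap 𝒪 A))

/-- an element of the fibre product whose first component is a unit is a unit. -/
theorem isUnit_of_isUnit_fst {A B : Type} [CommRing A] [IsLocalRing A] [Algebra 𝒪 A]
    [CommRing B] [IsLocalRing B] [Algebra 𝒪 B]
    (hlocA : IsLocalHom (algebraMap 𝒪 A)) (hlocB : IsLocalHom (algebraMap 𝒪 B))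
    (x : fibProd 𝒪 A B) (hx : IsUnit (x : A × B).1) : IsUnit x := by
  obtain ⟨c, hc1, hc2⟩ := x.2
  have hcu : IsUnit c := (isUnit_fst_iff_witness 𝒪 hlocA _ c hc1).mp hx
  have hx2 : IsUnit (x : A × B).2 := (isUnit_fst_iff_witness 𝒪 hlocB _ c hc2).mpr hcu
  obtain ⟨u, hu⟩ := hx
  obtain ⟨v, hv⟩ := hx2
  obtain ⟨w, hw⟩ := hcu
  have hmem : ((↑u⁻¹ : A), (↑v⁻¹ : B)) ∈ fibProd 𝒪 A B := by
    refine ⟨↑w⁻¹, ?_, ?_⟩
    · have : (↑u⁻¹ : A) - algebraMap 𝒪 A ↑w⁻¹ =
          -(↑u⁻¹ * algebraMap 𝒪 A ↑w⁻¹ * ((x : A × B).1 - algebraMap 𝒪 A c)) := by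
        have h1 : (↑u⁻¹ : A) * (x : A × B).1 = 1 := by rw [← hu]; exact u.inv_mul
        have h2 : algebraMap 𝒪 A ↑w⁻¹ * algebraMap 𝒪 A c = 1 := by
          rw [← map_mul, ← hw, Units.inv_mul, map_one]
        linear_combination (algebraMap 𝒪 A ↑w⁻¹) * h1 - (↑u⁻¹ : A) * h2
      change (↑u⁻¹ : A) - algebraMap 𝒪 A ↑w⁻¹ ∈ maximalIdeal A
      rw [this]
      exact Ideal.neg_mem_iff _ |>.mpr (Ideal.mul_mem_left _ _ hc1)
    · have : (↑v⁻¹ : B) - algebraMap 𝒪 B ↑w⁻¹ =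
          -(↑v⁻¹ * algebraMap 𝒪 B ↑w⁻¹ * ((x : A × B).2 - algebraMap 𝒪 B c)) := by
        have h1 : (↑v⁻¹ : B) * (x : A × B).2 = 1 := by rw [← hv]; exact v.inv_mul
        have h2 : algebraMap 𝒪 B ↑w⁻¹ * algebraMap 𝒪 B c = 1 := by
          rw [← map_mul, ← hw, Units.inv_mul, map_one]
        linear_combination (algebraMap 𝒪 B ↑w⁻¹) * h1 - (↑v⁻¹ : B) * h2
      change (↑v⁻¹ : B) - algebraMap 𝒪 B ↑w⁻¹ ∈ maximalIdeal B
      rw [this]
      exact Ideal.neg_mem_iff _ |>.mpr (Ideal.mul_mem_left _ _ hc2)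
  refine isUnit_iff_exists_inv.mpr ⟨⟨_, hmem⟩, ?_⟩
  apply Subtype.ext
  apply Prod.ext
  · change (x : A × B).1 * ↑u⁻¹ = 1
    rw [← hu]; exact u.mul_inv
  · change (x : A × B).2 * ↑v⁻¹ = 1
    rw [← hv]; exact v.mul_inv

/-- the components of a unit of the fibre product are units -/
theorem isUnit_fst_of_isUnit {A B : Type} [CommRing A] [IsLocalRing A] [Algebra 𝒪 A]
    [CommRing B] [IsLocalRing B] [Algebra 𝒪 B]
    (x : fibProd 𝒪 A B) (hx : IsUnit x) : IsUnit (x : A × B).1 := by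
  have := hx.map (fibFst 𝒪 A B)
  exact this

theorem isUnit_snd_of_isUnit {A B : Type} [CommRing A] [IsLocalRing A] [Algebra 𝒪 A]
    [CommRing B] [IsLocalRing B] [Algebra 𝒪 B]
    (x : fibProd 𝒪 A B) (hx : IsUnit x) : IsUnit (x : A × B).2 := by
  have := hx.map (fibSnd 𝒪 A B)
  exact this

theorem isUnit_fst_iff_isUnit_snd {A B : Type} [CommRing A] [IsLocalRing A] [Algebra 𝒪 A]
    [CommRing B] [IsLocalRing B] [Algebra 𝒪 B]
    (hlocA : IsLocalHom (algebraMap 𝒪 A)) (hlocB : IsLocalHom (algebraMap 𝒪 B))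
    (x : fibProd 𝒪 A B) : IsUnit (x : A × B).1 ↔ IsUnit (x : A × B).2 := by
  obtain ⟨c, hc1, hc2⟩ := x.2
  rw [isUnit_fst_iff_witness 𝒪 hlocA _ c hc1, isUnit_fst_iff_witness 𝒪 hlocB _ c hc2]

/-- F1b: the fibre product of two Artinian test algebras is a local ring. -/
theorem F1b_isLocalRing {A B : Type} [CommRing A] [IsLocalRing A] [Algebra 𝒪 A]
    [CommRing B] [IsLocalRing B] [Algebra 𝒪 B]
    (hA : GaloisRep.IsArtinianTestAlgebra 𝒪 A) (hB : GaloisRep.IsArtinianTestAlgebra 𝒪 B) :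
    IsLocalRing (fibProd 𝒪 A B) := by
  refine IsLocalRing.of_isUnit_or_isUnit_one_sub_self fun x => ?_
  rcases IsLocalRing.isUnit_or_isUnit_one_sub_self (x : A × B).1 with h | h
  · exact Or.inl (isUnit_of_isUnit_fst 𝒪 hA.isLocalHom hB.isLocalHom x h)
  · exact Or.inr (isUnit_of_isUnit_fst 𝒪 hA.isLocalHom hB.isLocalHom (1 - x) h)

/-- F1c: it is an Artinian test algebra, the projections are local, and the maximal ideal is
`m_A × m_B`. -/
theorem F1c_isArtinianTestAlgebra {A B : Type} [CommRing A] [IsLocalRing A] [Algebra 𝒪 A]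
    [CommRing B] [IsLocalRing B] [Algebra 𝒪 B]
    (hA : GaloisRep.IsArtinianTestAlgebra 𝒪 A) (hB : GaloisRep.IsArtinianTestAlgebra 𝒪 B) :
    letI := F1b_isLocalRing 𝒪 hA hB
    GaloisRep.IsArtinianTestAlgebra 𝒪 (fibProd 𝒪 A B) ∧
    IsLocalHom ((fibFst 𝒪 A B : fibProd 𝒪 A B →ₐ[𝒪] A) : fibProd 𝒪 A B →+* A) ∧
    IsLocalHom ((fibSnd 𝒪 A B : fibProd 𝒪 A B →ₐ[𝒪] B) : fibProd 𝒪 A B →+* B) ∧
    (∀ x : fibProd 𝒪 A B, x ∈ maximalIdeal (fibProd 𝒪 A B) ↔
      (x : A × B).1 ∈ maximalIdeal A ∧ (x : A × B).2 ∈ maximalIdeal B) ∧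
    (∀ a b, a ∈ maximalIdeal A → b ∈ maximalIdeal B → (a, b) ∈ fibProd 𝒪 A B) := by
  letI := F1b_isLocalRing 𝒪 hA hB
  have hlocA := hA.isLocalHom
  have hlocB := hB.isLocalHom
  have hmax : ∀ x : fibProd 𝒪 A B, x ∈ maximalIdeal (fibProd 𝒪 A B) ↔
      (x : A × B).1 ∈ maximalIdeal A ∧ (x : A × B).2 ∈ maximalIdeal B := by
    intro x
    constructor
    · intro hx
      have h1 : ¬ IsUnit (x : A × B).1 := fun h =>
        hx (isUnit_of_isUnit_fst 𝒪 hlocA hlocB x h)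
      exact ⟨h1, fun h => h1 ((isUnit_fst_iff_isUnit_snd 𝒪 hlocA hlocB x).mpr h)⟩
    · rintro ⟨h1, _⟩ hx
      exact h1 (isUnit_fst_of_isUnit 𝒪 x hx)
  refine ⟨⟨?_, ?_, ?_⟩, ?_, ?_, hmax, ?_⟩
  · -- local structure map
    refine ⟨fun c hc => ?_⟩
    have h1 : IsUnit (algebraMap 𝒪 A c) := isUnit_fst_of_isUnit 𝒪 _ hc
    haveI := hlocA
    exact IsUnit.of_map (algebraMap 𝒪 A) c h1
  · -- residue surjective
    intro y
    obtain ⟨x, rfl⟩ := IsLocalRing.residue_surjective y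
    obtain ⟨c, hc1, hc2⟩ := x.2
    refine ⟨c, ?_⟩
    simp only [Function.comp_apply]
    rw [← sub_eq_zero, ← map_sub, IsLocalRing.residue_eq_zero_iff, hmax]
    refine ⟨?_, ?_⟩
    · have : (algebraMap 𝒪 A c - (x : A × B).1) = -((x : A × B).1 - algebraMap 𝒪 A c) := by ring
      change (algebraMap 𝒪 A c - (x : A × B).1) ∈ maximalIdeal A
      rw [this]
      exact (Ideal.neg_mem_iff _).mpr hc1
    · have : (algebraMap 𝒪 B c - (x : A × B).2) = -((x : A × B).2 - algebraMap 𝒪 B c) := by ring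
      change (algebraMap 𝒪 B c - (x : A × B).2) ∈ maximalIdeal B
      rw [this]
      exact (Ideal.neg_mem_iff _).mpr hc2
  · -- Artinian
    haveI : Finite A := Fermat.Agent.S53_helper26_H7.H7a_finite 𝒪 hA
    haveI : Finite B := Fermat.Agent.S53_helper26_H7.H7a_finite 𝒪 hB
    haveI : Finite (fibProd 𝒪 A B) := inferInstance
    infer_instance
  · exact ⟨fun x hx => isUnit_of_isUnit_fst 𝒪 hlocA hlocB x hx⟩
  · refine ⟨fun x hx => ?_⟩
    exact isUnit_of_isUnit_fst 𝒪 hlocA hlocB x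
      ((isUnit_fst_iff_isUnit_snd 𝒪 hlocA hlocB x).mpr hx)
  · intro a b ha hb
    exact ⟨0, by simpa using ha, by simpa using hb⟩

end F1

end Fermat.Agent.S53_helper22_F1
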