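import Mathlib
import Fermat.Agent.S53_helper16_Defs
import Fermat.Agent.S53_helper16_Core
import Fermat.Agent.S53_helper15_I4
import Fermat.Agent.S53_helper22_F1

set_option autoImplicit false

open IsLocalRing Fermat.Agent.S53_helper16_Defs Fermat.Agent.S53_helper16_Core
  Fermat.Agent.S53_helper15_I4 Fermat.Agent.S53_helper22_F1 GaloisRep

namespace Fermat.Agent.S53_helper23_C4

/-- the maximal ideal of an Artinian local ring is nilpotent -/
theorem exists_maximalIdeal_pow_eq_bot (A : Type) [CommRing A] [IsLocalRing A]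
    [IsArtinianRing A] : ∃ n : ℕ, maximalIdeal A ^ n = ⊥ := by
  have h := IsArtinianRing.isNilpotent_jacobson_bot (R := A)
  rw [IsLocalRing.jacobson_eq_maximalIdeal (⊥ : Ideal A) bot_ne_top] at h
  obtain ⟨n, hn⟩ := h
  exact ⟨n, by simpa using hn⟩

/-- a continuous matrix representation over an Artinian local ring is trivial on an open
subgroup -/
theorem matCont_artinian {A : Type} [CommRing A] [IsLocalRing A] [IsArtinianRing A]
    {M : Gal →* Matrix (Fin 2) (Fin 2) A} (hM : MatCont M) :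
    ∃ L : IntermediateField ℚ (AlgebraicClosure ℚ), FiniteDimensional ℚ L ∧
      ∀ σ : Gal, (∀ x ∈ L, σ x = x) → M σ = 1 := by
  obtain ⟨n, hn⟩ := exists_maximalIdeal_pow_eq_bot A
  obtain ⟨L, hL, h⟩ := hM n
  refine ⟨L, hL, fun σ hσ => ?_⟩
  have h1 : M σ - 1 = 0 := by
    ext i j
    have := h σ hσ i j
    rw [hn] at this
    simpa using this
  exact sub_eq_zero.mp h1

/-- the residue field as an Artinian test algebra -/
theorem isArtinianTestAlgebra_residueField (𝒪 : Type) [CommRing 𝒪] [IsLocalRing 𝒪] :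
    IsArtinianTestAlgebra 𝒪 (ResidueField 𝒪) where
  isLocalHom := by
    have : algebraMap 𝒪 (ResidueField 𝒪) = residue 𝒪 := rfl
    rw [this]
    infer_instance
  residue_surjective := by
    have : algebraMap 𝒪 (ResidueField 𝒪) = residue 𝒪 := rfl
    rw [this]
    exact (residue_surjective (R := ResidueField 𝒪)).comp (residue_surjective (R := 𝒪))
  isArtinian := inferInstance

variable (𝒪 : Type) [CommRing 𝒪] [IsLocalRing 𝒪] [Finite (ResidueField 𝒪)]
variable (ρbar : ResidualGaloisRep (ResidueField 𝒪))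
variable (𝒟 : ∀ ⦃A : Type⦄ [CommRing A] [IsLocalRing A] [Algebra 𝒪 A], GaloisRepAdic A → Prop)

omit [Finite (ResidueField 𝒪)] in
/-- entries of two strict lifts pair up to elements of the fibre product -/
theorem pair_mem_fibProd {A B : Type} [CommRing A] [IsLocalRing A] [Algebra 𝒪 A]
    [CommRing B] [IsLocalRing B] [Algebra 𝒪 B]
    (hlocA : IsLocalHom (algebraMap 𝒪 A)) (hlocB : IsLocalHom (algebraMap 𝒪 B))
    {M : Gal →* Matrix (Fin 2) (Fin 2) A} {M' : Gal →* Matrix (Fin 2) (Fin 2) B}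
    (hM : IsStrictLift 𝒪 hlocA ρbar M) (hM' : IsStrictLift 𝒪 hlocB ρbar M')
    (σ : Gal) (i j : Fin 2) :
    ∃ c : 𝒪, residue 𝒪 c = rbMat ρbar σ i j ∧
      M σ i j - algebraMap 𝒪 A c ∈ maximalIdeal A ∧
      M' σ i j - algebraMap 𝒪 B c ∈ maximalIdeal B := by
  obtain ⟨c, hc⟩ := residue_surjective (R := 𝒪) (rbMat ρbar σ i j)
  refine ⟨c, hc, ?_, ?_⟩
  · have h := congrFun (congrFun (hM σ) i) j
    simp only [Matrix.map_apply] at h
    rw [← residue_eq_zero_iff, map_sub, h, ← hc, sub_eq_zero]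
    rfl
  · have h := congrFun (congrFun (hM' σ) i) j
    simp only [Matrix.map_apply] at h
    rw [← residue_eq_zero_iff, map_sub, h, ← hc, sub_eq_zero]
    rfl

/-- C4: fibre products of `𝒟`-lifts. -/
theorem C4_dlift_fib (h𝒟 : IsDeformationCondition 𝒪 𝒟)
    {A B : Type} [CommRing A] [IsLocalRing A] [Algebra 𝒪 A]
    [CommRing B] [IsLocalRing B] [Algebra 𝒪 B]
    (hA : IsArtinianTestAlgebra 𝒪 A) (hB : IsArtinianTestAlgebra 𝒪 B)
    {M : Gal →* Matrix (Fin 2) (Fin 2) A} {M' : Gal →* Matrix (Fin 2) (Fin 2) B}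
    (hM : IsDLift 𝒪 ρbar 𝒟 hA.isLocalHom M) (hM' : IsDLift 𝒪 ρbar 𝒟 hB.isLocalHom M') :
    ∃ (_ : IsLocalRing (fibProd 𝒪 A B)) (hP : IsArtinianTestAlgebra 𝒪 (fibProd 𝒪 A B))
      (N : Gal →* Matrix (Fin 2) (Fin 2) (fibProd 𝒪 A B)),
      IsDLift 𝒪 ρbar 𝒟 hP.isLocalHom N ∧
      mapRep (fibFst 𝒪 A B : fibProd 𝒪 A B →+* A) N = M ∧
      mapRep (fibSnd 𝒪 A B : fibProd 𝒪 A B →+* B) N = M' := by
  let hPloc : IsLocalRing (fibProd 𝒪 A B) := F1b_isLocalRing 𝒪 hA hB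
  obtain ⟨hP, hpA, hpB, hmax, -⟩ := F1c_isArtinianTestAlgebra 𝒪 hA hB
  have := hA.isArtinian
  have := hB.isArtinian
  -- membership of the paired entries
  have hmem : ∀ (σ : Gal) (i j : Fin 2), ((M σ i j, M' σ i j) : A × B) ∈ fibProd 𝒪 A B := by
    intro σ i j
    obtain ⟨c, -, h1, h2⟩ :=
      pair_mem_fibProd 𝒪 ρbar hA.isLocalHom hB.isLocalHom hM.strict hM'.strict σ i j
    exact ⟨c, h1, h2⟩
  -- joint injectivity of the two projections on matrices
  have hinj : ∀ X Y : Matrix (Fin 2) (Fin 2) (fibProd 𝒪 A B),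
      X.map (fibFst 𝒪 A B) = Y.map (fibFst 𝒪 A B) →
      X.map (fibSnd 𝒪 A B) = Y.map (fibSnd 𝒪 A B) → X = Y := by
    intro X Y h1 h2
    ext i j
    · exact congrFun (congrFun h1 i) j
    · exact congrFun (congrFun h2 i) j
  let N0 : Gal → Matrix (Fin 2) (Fin 2) (fibProd 𝒪 A B) := fun σ =>
    Matrix.of fun i j => ⟨(M σ i j, M' σ i j), hmem σ i j⟩
  have hN0fst : ∀ σ, (N0 σ).map (fibFst 𝒪 A B) = M σ := fun σ => by
    ext i j; rfl
  have hN0snd : ∀ σ, (N0 σ).map (fibSnd 𝒪 A B) = M' σ := fun σ => by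
    ext i j; rfl
  have hmapone1 : (1 : Matrix (Fin 2) (Fin 2) (fibProd 𝒪 A B)).map (fibFst 𝒪 A B) = 1 := by
    have := map_one (RingHom.mapMatrix (m := Fin 2) ((fibFst 𝒪 A B : fibProd 𝒪 A B →+* A)))
    simp
  have hmapone2 : (1 : Matrix (Fin 2) (Fin 2) (fibProd 𝒪 A B)).map (fibSnd 𝒪 A B) = 1 := by
    have := map_one (RingHom.mapMatrix (m := Fin 2) ((fibSnd 𝒪 A B : fibProd 𝒪 A B →+* B)))
    simp
  have hmapmul1 : ∀ X Y : Matrix (Fin 2) (Fin 2) (fibProd 𝒪 A B),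
      (X * Y).map (fibFst 𝒪 A B) = X.map (fibFst 𝒪 A B) * Y.map (fibFst 𝒪 A B) := by
    intro X Y
    have := map_mul (RingHom.mapMatrix (m := Fin 2)
      ((fibFst 𝒪 A B : fibProd 𝒪 A B →+* A))) X Y
    simp
  have hmapmul2 : ∀ X Y : Matrix (Fin 2) (Fin 2) (fibProd 𝒪 A B),
      (X * Y).map (fibSnd 𝒪 A B) = X.map (fibSnd 𝒪 A B) * Y.map (fibSnd 𝒪 A B) := by
    intro X Y
    have := map_mul (RingHom.mapMatrix (m := Fin 2)
      ((fibSnd 𝒪 A B : fibProd 𝒪 A B →+* B))) X Y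
    simp
  let N : Gal →* Matrix (Fin 2) (Fin 2) (fibProd 𝒪 A B) :=
    { toFun := N0
      map_one' := by
        apply hinj
        · rw [hN0fst, hmapone1, map_one]
        · rw [hN0snd, hmapone2, map_one]
      map_mul' := fun σ τ => by
        apply hinj
        · rw [hN0fst, hmapmul1, hN0fst, hN0fst, map_mul]
        · rw [hN0snd, hmapmul2, hN0snd, hN0snd, map_mul] }
  have hNfst : mapRep (fibFst 𝒪 A B : fibProd 𝒪 A B →+* A) N = M := by
    ext σ i j; rfl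
  have hNsnd : mapRep (fibSnd 𝒪 A B : fibProd 𝒪 A B →+* B) N = M' := by
    ext σ i j; rfl
  -- continuity
  have hcont : MatCont N := by
    intro n
    obtain ⟨L₁, hL₁, h₁⟩ := matCont_artinian hM.cont
    obtain ⟨L₂, hL₂, h₂⟩ := matCont_artinian hM'.cont
    have := hL₁
    have := hL₂
    refine ⟨L₁ ⊔ L₂, inferInstance, fun σ hσ i j => ?_⟩
    have e1 : M σ = 1 := h₁ σ fun x hx => hσ x ((le_sup_left : L₁ ≤ L₁ ⊔ L₂) hx)
    have e2 : M' σ = 1 := h₂ σ fun x hx => hσ x ((le_sup_right : L₂ ≤ L₁ ⊔ L₂) hx)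
    have e : N σ = 1 := by
      apply hinj
      · rw [hmapone1]; exact (hN0fst σ).trans e1
      · rw [hmapone2]; exact (hN0snd σ).trans e2
    rw [e, sub_self]
    exact Ideal.zero_mem _
  -- strictness
  have hstrict : IsStrictLift 𝒪 hP.isLocalHom ρbar N := by
    intro σ
    ext i j
    simp only [Matrix.map_apply]
    obtain ⟨c, hc, h1, h2⟩ :=
      pair_mem_fibProd 𝒪 ρbar hA.isLocalHom hB.isLocalHom hM.strict hM'.strict σ i j
    have hx : N σ i j - algebraMap 𝒪 (fibProd 𝒪 A B) c ∈ maximalIdeal (fibProd 𝒪 A B) := by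
      rw [hmax]
      exact ⟨h1, h2⟩
    rw [← residue_eq_zero_iff, map_sub, sub_eq_zero] at hx
    rw [hx, ← hc]
    rfl
  -- the deformation condition
  have hD : 𝒟 (toAdic N hcont) := by
    obtain ⟨-, f, hf1, hf2⟩ := F1a_exists_resk 𝒪 hA.isLocalHom hA.residue_surjective
    obtain ⟨-, g, hg1, hg2⟩ := F1a_exists_resk 𝒪 hB.isLocalHom hB.residue_surjective
    have hfg : ∀ (a : A) (b : B) (c : 𝒪), a - algebraMap 𝒪 A c ∈ maximalIdeal A →
        b - algebraMap 𝒪 B c ∈ maximalIdeal B → f a = g b := by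
      intro a b c ha hb
      have h1 : f (a - algebraMap 𝒪 A c) = 0 := (hf2 _).mpr ha
      have h2 : g (b - algebraMap 𝒪 B c) = 0 := (hg2 _).mpr hb
      rw [map_sub, sub_eq_zero, AlgHom.commutes] at h1 h2
      rw [h1, h2]
    refine h𝒟.of_fibreProduct hA hB (isArtinianTestAlgebra_residueField 𝒪) hP f g
      (fibFst 𝒪 A B) (fibSnd 𝒪 A B) hpA hpB ?_ ?_ ?_ ?_ ?_
    · ext x
      obtain ⟨c, h1, h2⟩ := x.2
      exact hfg _ _ c h1 h2
    · intro x y hxy
      simp only [Prod.mk.injEq] at hxy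
      exact Subtype.ext (Prod.ext hxy.1 hxy.2)
    · intro a b hab
      obtain ⟨c, hc⟩ := residue_surjective (R := 𝒪) (f a)
      have ha : a - algebraMap 𝒪 A c ∈ maximalIdeal A := by
        rw [← hf2, map_sub, AlgHom.commutes, sub_eq_zero, ← hc]; rfl
      have hb : b - algebraMap 𝒪 B c ∈ maximalIdeal B := by
        rw [← hg2, map_sub, AlgHom.commutes, sub_eq_zero, ← hab, ← hc]; rfl
      exact ⟨⟨(a, b), c, ha, hb⟩, rfl, rfl⟩
    · have h4 := I4_baseChangeAlong_toAdic (fibFst 𝒪 A B : fibProd 𝒪 A B →+* A) hpA N hcont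
      obtain ⟨e⟩ := h4
      have hD' : 𝒟 (toAdic (mapRep (fibFst 𝒪 A B : fibProd 𝒪 A B →+* A) N)
          (matCont_mapRep _ hpA hcont)) := by
        have := hM.isD
        convert this
      exact h𝒟.of_isEquiv hA ⟨e.symm⟩ hD'
    · have h4 := I4_baseChangeAlong_toAdic (fibSnd 𝒪 A B : fibProd 𝒪 A B →+* B) hpB N hcont
      obtain ⟨e⟩ := h4
      have hD' : 𝒟 (toAdic (mapRep (fibSnd 𝒪 A B : fibProd 𝒪 A B →+* B) N)
          (matCont_mapRep _ hpB hcont)) := by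
        have := hM'.isD
        convert this
      exact h𝒟.of_isEquiv hB ⟨e.symm⟩ hD'
  exact ⟨hPloc, hP, N, ⟨hcont, hstrict, hD⟩, hNfst, hNsnd⟩

end Fermat.Agent.S53_helper23_C4
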