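import Mathlib
import Fermat.Agent.S53_helper16_Defs
import Fermat.Agent.S53_helper16_Core
import Fermat.Agent.S53_helper23_C4

set_option autoImplicit false

open IsLocalRing Fermat.Agent.S53_helper16_Defs Fermat.Agent.S53_helper16_Core GaloisRep

namespace Fermat.Agent.S53_helper23_C6

variable (𝒪 : Type) [CommRing 𝒪] [IsLocalRing 𝒪] [Finite (ResidueField 𝒪)]
variable (ρbar : ResidualGaloisRep (ResidueField 𝒪))
variable (𝒟 : ∀ ⦃A : Type⦄ [CommRing A] [IsLocalRing A] [Algebra 𝒪 A], GaloisRepAdic A → Prop)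

/-- a ring homomorphism commutes with the trace of a `2 × 2` matrix -/
theorem map_trace_two {R S : Type} [CommRing R] [CommRing S] (φ : R →+* S)
    (X : Matrix (Fin 2) (Fin 2) R) : φ X.trace = (X.map φ).trace := by
  simp [Matrix.trace_fin_two]

/-- C6: separation: `𝒟`-lifts with equal traces at the generators have equal traces. -/
theorem C6_separation (h𝒟 : IsDeformationCondition 𝒪 𝒟)
    {d : ℕ} {h : Fin d → Gal} (hgen : Generates 𝒪 ρbar 𝒟 d h)
    {A : Type} [CommRing A] [IsLocalRing A] [Algebra 𝒪 A]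
    (hA : IsArtinianTestAlgebra 𝒪 A)
    {M M' : Gal →* Matrix (Fin 2) (Fin 2) A} (hM : IsDLift 𝒪 ρbar 𝒟 hA.isLocalHom M)
    (hM' : IsDLift 𝒪 ρbar 𝒟 hA.isLocalHom M')
    (heq : ∀ i, (M (h i)).trace = (M' (h i)).trace) (σ : Gal) :
    (M σ).trace = (M' σ).trace := by
  obtain ⟨hPloc, hP, N, hN, h1, h2⟩ :=
    Fermat.Agent.S53_helper23_C4.C4_dlift_fib 𝒪 ρbar 𝒟 h𝒟 hA hA hM hM'
  have hg := hgen hP N hN σ
  have hfst : ∀ τ, (fibFst 𝒪 A A : fibProd 𝒪 A A →+* A) (N τ).trace = (M τ).trace := by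
    intro τ
    rw [map_trace_two, ← mapRep_apply, h1]
  have hsnd : ∀ τ, (fibSnd 𝒪 A A : fibProd 𝒪 A A →+* A) (N τ).trace = (M' τ).trace := by
    intro τ
    rw [map_trace_two, ← mapRep_apply, h2]
  have hle : Algebra.adjoin 𝒪 (Set.range fun i => (N (h i)).trace) ≤
      AlgHom.equalizer (fibFst 𝒪 A A) (fibSnd 𝒪 A A) := by
    refine Algebra.adjoin_le ?_
    rintro _ ⟨i, rfl⟩
    show fibFst 𝒪 A A (N (h i)).trace = fibSnd 𝒪 A A (N (h i)).trace
    have e1 := hfst (h i)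
    have e2 := hsnd (h i)
    simp only [RingHom.coe_coe] at e1 e2
    rw [e1, e2, heq i]
  have hmem := hle hg
  have hmem' : fibFst 𝒪 A A (N σ).trace = fibSnd 𝒪 A A (N σ).trace := hmem
  have e1 := hfst σ
  have e2 := hsnd σ
  simp only [RingHom.coe_coe] at e1 e2
  rw [← e1, ← e2, hmem']

end Fermat.Agent.S53_helper23_C6
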