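import Mathlib
import Fermat.Agent.S53_helper16_Defs
import Fermat.Agent.S53_helper26_H1

set_option autoImplicit false

open IsLocalRing Fermat.Agent.S53_helper16_Defs

namespace Fermat.Agent.S53_helper28_C0

variable (𝒪 : Type) [CommRing 𝒪] [IsLocalRing 𝒪] [Finite (ResidueField 𝒪)]
variable (ρbar : ResidualGaloisRep (ResidueField 𝒪))

/-- C0: strict lifts of an absolutely irreducible `ρbar` are residually spanning. -/
theorem C0_hspan (habs : ρbar.IsAbsolutelyIrreducible)
    {A : Type} [CommRing A] [IsLocalRing A] [Algebra 𝒪 A]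
    (hloc : IsLocalHom (algebraMap 𝒪 A))
    (hsurj : Function.Surjective (residue A ∘ algebraMap 𝒪 A))
    (M : Gal →* Matrix (Fin 2) (Fin 2) A) (hM : IsStrictLift 𝒪 hloc ρbar M) :
    Submodule.span (ResidueField A) (Set.range fun σ => (M σ).map (residue A)) = ⊤ := by
  have h1 : (fun σ => (M σ).map (residue A)) =
      fun σ => (rbMat ρbar σ).map (kappa 𝒪 A hloc) := funext hM
  rw [h1]
  exact Fermat.Agent.S53_helper26_H1.span_range_map_eq_top (kappa 𝒪 A hloc)
    (fun σ => rbMat ρbar σ)
    (Fermat.Agent.S53_helper26_H1.span_toMatrix_eq_top ρbar habs (rbBasis ρbar))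

end Fermat.Agent.S53_helper28_C0
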