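import Mathlib
import Fermat.Agent.S53_helper16_Defs
import Fermat.Agent.S53_helper16_Core
import Fermat.Agent.S53_helper18_Carayol
import Fermat.Agent.S53_helper28_C0
import Fermat.Agent.S53_helper23_C6

set_option autoImplicit false

open IsLocalRing Fermat.Agent.S53_helper16_Defs Fermat.Agent.S53_helper16_Core GaloisRep

namespace Fermat.Agent.S53_helper23_C7

variable (𝒪 : Type) [CommRing 𝒪] [IsLocalRing 𝒪] [Finite (ResidueField 𝒪)]
variable (ρbar : ResidualGaloisRep (ResidueField 𝒪))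
variable (𝒟 : ∀ ⦃A : Type⦄ [CommRing A] [IsLocalRing A] [Algebra 𝒪 A], GaloisRepAdic A → Prop)

/-- C7: `𝒟`-lifts with equal traces at the generators are conjugate. -/
theorem C7_conj (habs : ρbar.IsAbsolutelyIrreducible) (h𝒟 : IsDeformationCondition 𝒪 𝒟)
    {d : ℕ} {h : Fin d → Gal} (hgen : Generates 𝒪 ρbar 𝒟 d h)
    {A : Type} [CommRing A] [IsLocalRing A] [Algebra 𝒪 A]
    (hA : IsArtinianTestAlgebra 𝒪 A)
    {M M' : Gal →* Matrix (Fin 2) (Fin 2) A} (hM : IsDLift 𝒪 ρbar 𝒟 hA.isLocalHom M)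
    (hM' : IsDLift 𝒪 ρbar 𝒟 hA.isLocalHom M')
    (heq : ∀ i, (M (h i)).trace = (M' (h i)).trace) :
    ∃ u : Matrix (Fin 2) (Fin 2) A, IsUnit u ∧ u.map (residue A) = 1 ∧
      ∀ σ, u * M σ = M' σ * u := by
  have hspan := Fermat.Agent.S53_helper28_C0.C0_hspan 𝒪 ρbar habs hA.isLocalHom
    hA.residue_surjective M hM.strict
  have hres : ∀ s, (M s).map (residue A) = (M' s).map (residue A) := fun s =>
    (hM.strict s).trans (hM'.strict s).symm
  have htr : ∀ s, (M s).trace = (M' s).trace :=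
    Fermat.Agent.S53_helper23_C6.C6_separation 𝒪 ρbar 𝒟 h𝒟 hgen hA hM hM' heq
  exact Fermat.Agent.S53_helper18.conj_of_trace_eq M M' hspan hres htr

end Fermat.Agent.S53_helper23_C7
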