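import Mathlib

set_option autoImplicit false

open IsLocalRing

namespace Fermat.Agent.S53_helper8_H5

section Key

variable {σ R : Type*} [CommRing R]

open MvPowerSeries in
theorem coe_mem_pow_span_X {n : ℕ} {a : MvPolynomial σ R}
    (ha : a ∈ MvPolynomial.idealOfVars σ R ^ n) :
    (a : MvPowerSeries σ R) ∈
      (Ideal.span (Set.range (X : σ → MvPowerSeries σ R))) ^ n := by
  have h1 : (MvPolynomial.idealOfVars σ R).map
      (MvPolynomial.coeToMvPowerSeries.ringHom (R := R) (σ := σ)) =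
      Ideal.span (Set.range (X : σ → MvPowerSeries σ R)) := by
    rw [MvPolynomial.idealOfVars, Ideal.map_span, ← Set.range_comp]
    congr 2
    ext1 i
    simp
  rw [← h1, ← Ideal.map_pow]
  exact Ideal.mem_map_of_mem _ ha

variable [Finite σ]

open MvPowerSeries in
theorem coe_truncTotal_one (f : MvPowerSeries σ R) :
    ((truncTotal 1 f : MvPolynomial σ R) : MvPowerSeries σ R) = C (constantCoeff f) := by
  classical
  ext x
  rw [MvPolynomial.coeff_coe, coeff_truncTotal_eq_ite, coeff_C]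
  by_cases hx : x = 0
  · subst hx
    simp
  · have : ¬ Finsupp.degree x < 1 := by
      intro h
      apply hx
      have h0 : Finsupp.degree x = 0 := by omega
      exact (Finsupp.degree_eq_zero_iff x).mp h0
    rw [if_neg this, if_neg hx]


open MvPowerSeries in
theorem sub_truncTotal_mem (f : MvPowerSeries σ R) (n : ℕ) :
    f - ((truncTotal n f : MvPolynomial σ R) : MvPowerSeries σ R) ∈
      (Ideal.span (Set.range (X : σ → MvPowerSeries σ R))) ^ n := by
  set g : MvPowerSeries σ R := f - ((truncTotal n f : MvPolynomial σ R) : MvPowerSeries σ R)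
    with hg
  set e := toAdicCompletionAlgEquiv σ R with he
  have htr : truncTotal n g ∈ MvPolynomial.idealOfVars σ R ^ n := by
    rw [MvPolynomial.mem_pow_idealOfVars_iff']
    intro x hx
    rw [coeff_truncTotal _ hx, hg, map_sub, MvPolynomial.coeff_coe, coeff_truncTotal _ hx, sub_self]
  have hval : (e g).val n = 0 := by
    rw [he, toAdicCompletionAlgEquiv_apply, toAdicCompletion_apply_eq_mk_truncTotal]
    rw [Ideal.Quotient.eq_zero_iff_mem]
    simpa using htr
  have hker : e g ∈ LinearMap.ker (AdicCompletion.eval (MvPolynomial.idealOfVars σ R)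
      (MvPolynomial σ R) n) := by
    rw [LinearMap.mem_ker]
    exact hval
  rw [← AdicCompletion.pow_smul_top_eq_ker_eval (MvPolynomial.idealOfVars_fg σ R)] at hker
  have hgoal : ∀ y ∈ ((MvPolynomial.idealOfVars σ R) ^ n •
      (⊤ : Submodule (MvPolynomial σ R) (AdicCompletion (MvPolynomial.idealOfVars σ R)
        (MvPolynomial σ R)))),
      e.symm y ∈ (Ideal.span (Set.range (X : σ → MvPowerSeries σ R))) ^ n := by
    intro y hy
    refine Submodule.smul_induction_on hy ?_ ?_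
    · intro a ha x _
      rw [map_smul, Algebra.smul_def]
      refine Ideal.mul_mem_right _ _ ?_
      exact coe_mem_pow_span_X ha
    · intro x y hx hy
      rw [map_add]
      exact Ideal.add_mem _ hx hy
  have := hgoal _ hker
  rwa [AlgEquiv.symm_apply_apply] at this

end Key

section Basic
variable (𝒪 : Type) [CommRing 𝒪] [IsLocalRing 𝒪] (d : ℕ)

omit [IsLocalRing 𝒪] in
theorem H5b_isLocalHom' : IsLocalHom (algebraMap 𝒪 (MvPowerSeries (Fin d) 𝒪)) := by
  constructor
  intro a ha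
  have := ha.map (MvPowerSeries.constantCoeff (σ := Fin d) (R := 𝒪))
  simpa [MvPowerSeries.algebraMap_apply] using this

theorem sub_C_constantCoeff_mem_maximalIdeal (f : MvPowerSeries (Fin d) 𝒪) :
    f - MvPowerSeries.C (MvPowerSeries.constantCoeff f) ∈
      maximalIdeal (MvPowerSeries (Fin d) 𝒪) := by
  rw [mem_maximalIdeal, mem_nonunits_iff, MvPowerSeries.isUnit_iff_constantCoeff]
  simp

theorem H5c_residue_surjective' :
    Function.Surjective (residue (MvPowerSeries (Fin d) 𝒪) ∘ algebraMap 𝒪 _) := by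
  intro x
  obtain ⟨f, rfl⟩ := residue_surjective x
  refine ⟨MvPowerSeries.constantCoeff f, ?_⟩
  rw [Function.comp_apply, eq_comm, ← sub_eq_zero, ← map_sub, residue_eq_zero_iff,
    MvPowerSeries.algebraMap_apply, Algebra.algebraMap_self, RingHom.id_apply]
  exact sub_C_constantCoeff_mem_maximalIdeal 𝒪 d f

theorem map_le_maximalIdeal :
    (maximalIdeal 𝒪).map (algebraMap 𝒪 (MvPowerSeries (Fin d) 𝒪)) ≤
      maximalIdeal (MvPowerSeries (Fin d) 𝒪) := by
  rw [Ideal.map_le_iff_le_comap]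
  intro a ha
  rw [Ideal.mem_comap, mem_maximalIdeal, mem_nonunits_iff,
    MvPowerSeries.isUnit_iff_constantCoeff]
  simpa [MvPowerSeries.algebraMap_apply] using ha

theorem span_X_le_maximalIdeal :
    Ideal.span (Set.range (MvPowerSeries.X : Fin d → MvPowerSeries (Fin d) 𝒪)) ≤
      maximalIdeal (MvPowerSeries (Fin d) 𝒪) := by
  rw [Ideal.span_le]
  rintro _ ⟨i, rfl⟩
  rw [SetLike.mem_coe, mem_maximalIdeal, mem_nonunits_iff,
    MvPowerSeries.isUnit_iff_constantCoeff]
  simp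

theorem H5d_maximalIdeal_eq' :
    maximalIdeal (MvPowerSeries (Fin d) 𝒪) =
      (maximalIdeal 𝒪).map (algebraMap 𝒪 _) ⊔ Ideal.span (Set.range MvPowerSeries.X) := by
  apply le_antisymm
  · intro f hf
    have h0 : MvPowerSeries.constantCoeff f ∈ maximalIdeal 𝒪 := by
      rw [mem_maximalIdeal, mem_nonunits_iff] at hf ⊢
      rwa [MvPowerSeries.isUnit_iff_constantCoeff] at hf
    have h1 : f = algebraMap 𝒪 (MvPowerSeries (Fin d) 𝒪) (MvPowerSeries.constantCoeff f) +
        (f - MvPowerSeries.C (MvPowerSeries.constantCoeff f)) := by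
      rw [MvPowerSeries.algebraMap_apply, Algebra.algebraMap_self, RingHom.id_apply]
      ring
    rw [h1]
    refine Ideal.add_mem _ (Ideal.mem_sup_left (Ideal.mem_map_of_mem _ h0))
      (Ideal.mem_sup_right ?_)
    have := sub_truncTotal_mem f 1
    rwa [coe_truncTotal_one f, pow_one] at this
  · exact sup_le (map_le_maximalIdeal 𝒪 d) (span_X_le_maximalIdeal 𝒪 d)

theorem H5e_dense' (f : MvPowerSeries (Fin d) 𝒪) (n : ℕ) :
    ∃ p ∈ Algebra.adjoin 𝒪 (Set.range (MvPowerSeries.X : Fin d → MvPowerSeries (Fin d) 𝒪)),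
      f - p ∈ maximalIdeal (MvPowerSeries (Fin d) 𝒪) ^ n := by
  refine ⟨((MvPowerSeries.truncTotal n f : MvPolynomial (Fin d) 𝒪) : MvPowerSeries (Fin d) 𝒪),
    ?_, ?_⟩
  · have h1 : (MvPowerSeries.truncTotal n f : MvPolynomial (Fin d) 𝒪) ∈
        Algebra.adjoin 𝒪 (Set.range (MvPolynomial.X : Fin d → MvPolynomial (Fin d) 𝒪)) := by
      rw [MvPolynomial.adjoin_range_X]
      exact Algebra.mem_top
    have h2 : (MvPolynomial.coeToMvPowerSeries.algHom (R := 𝒪) (σ := Fin d) 𝒪)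
        (MvPowerSeries.truncTotal n f : MvPolynomial (Fin d) 𝒪) ∈
        (Algebra.adjoin 𝒪 (Set.range (MvPolynomial.X : Fin d → MvPolynomial (Fin d) 𝒪))).map
          (MvPolynomial.coeToMvPowerSeries.algHom (R := 𝒪) (σ := Fin d) 𝒪) :=
      Subalgebra.mem_map.mpr ⟨_, h1, rfl⟩
    rw [AlgHom.map_adjoin, ← Set.range_comp] at h2
    have h3 : (⇑(MvPolynomial.coeToMvPowerSeries.algHom (R := 𝒪) (σ := Fin d) 𝒪) ∘
        (MvPolynomial.X : Fin d → MvPolynomial (Fin d) 𝒪)) =
        (MvPowerSeries.X : Fin d → MvPowerSeries (Fin d) 𝒪) := by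
      ext1 i
      simp [MvPolynomial.coeToMvPowerSeries.algHom_apply]
    rw [h3] at h2
    simpa [MvPolynomial.coeToMvPowerSeries.algHom_apply] using h2
  · exact Ideal.pow_right_mono (span_X_le_maximalIdeal 𝒪 d) n (sub_truncTotal_mem f n)

end Basic

section Lift
variable (𝒪 : Type) [CommRing 𝒪] (d : ℕ)

theorem H5f_lift' {A : Type} [CommRing A] [IsLocalRing A] [Algebra 𝒪 A]
    (hnil : ∃ n : ℕ, maximalIdeal A ^ n = ⊥)
    (a : Fin d → A) (ha : ∀ i, a i ∈ maximalIdeal A) :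
    ∃ φ : MvPowerSeries (Fin d) 𝒪 →ₐ[𝒪] A, ∀ i, φ (MvPowerSeries.X i) = a i := by
  obtain ⟨n, hn⟩ := hnil
  have hmap : (MvPolynomial.idealOfVars (Fin d) 𝒪).map
      (MvPolynomial.aeval a : MvPolynomial (Fin d) 𝒪 →ₐ[𝒪] A).toRingHom ≤ maximalIdeal A := by
    rw [MvPolynomial.idealOfVars, Ideal.map_span, Ideal.span_le]
    rintro _ ⟨_, ⟨i, rfl⟩, rfl⟩
    simpa using ha i
  have hkill : ∀ p ∈ (MvPolynomial.idealOfVars (Fin d) 𝒪) ^ n,
      (MvPolynomial.aeval a : MvPolynomial (Fin d) 𝒪 →ₐ[𝒪] A) p = 0 := by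
    intro p hp
    have h1 : (MvPolynomial.aeval a : MvPolynomial (Fin d) 𝒪 →ₐ[𝒪] A).toRingHom p ∈
        ((MvPolynomial.idealOfVars (Fin d) 𝒪) ^ n).map
          (MvPolynomial.aeval a : MvPolynomial (Fin d) 𝒪 →ₐ[𝒪] A).toRingHom :=
      Ideal.mem_map_of_mem _ hp
    rw [Ideal.map_pow] at h1
    have h2 := Ideal.pow_right_mono hmap n h1
    rw [hn] at h2
    simpa using h2
  let ψ : (MvPolynomial (Fin d) 𝒪 ⧸ (MvPolynomial.idealOfVars (Fin d) 𝒪) ^ n) →ₐ[𝒪] A :=
    Ideal.Quotient.liftₐ ((MvPolynomial.idealOfVars (Fin d) 𝒪) ^ n) (MvPolynomial.aeval a) hkill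
  let τ : MvPowerSeries (Fin d) 𝒪 →ₐ[𝒪]
      (MvPolynomial (Fin d) 𝒪 ⧸ (MvPolynomial.idealOfVars (Fin d) 𝒪) ^ n) :=
    (MvPowerSeries.truncTotalAlgHom (Fin d) 𝒪 n).restrictScalars 𝒪
  refine ⟨ψ.comp τ, fun i => ?_⟩
  have h1 : τ (MvPowerSeries.X i) =
      Ideal.Quotient.mk ((MvPolynomial.idealOfVars (Fin d) 𝒪) ^ n) (MvPolynomial.X i) := by
    have h := (MvPowerSeries.truncTotalAlgHom (Fin d) 𝒪 n).commutes (MvPolynomial.X i)
    have h2 : algebraMap (MvPolynomial (Fin d) 𝒪) (MvPowerSeries (Fin d) 𝒪) (MvPolynomial.X i) =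
        MvPowerSeries.X i := by
      rw [MvPowerSeries.algebraMap_apply', Algebra.algebraMap_self, MvPowerSeries.map_id]
      simp
    rw [h2] at h
    exact h
  rw [AlgHom.comp_apply, h1]
  show (MvPolynomial.aeval a : MvPolynomial (Fin d) 𝒪 →ₐ[𝒪] A) (MvPolynomial.X i) = a i
  exact MvPolynomial.aeval_X a i

end Lift

section Complete
variable (𝒪 : Type) [CommRing 𝒪] [IsLocalRing 𝒪] (d : ℕ)

/-- Claim A: elements of `M^n` have `e`-th coefficient in `m^(n - deg e)`. -/
theorem coeff_mem_of_mem_pow (n : ℕ) (g : MvPowerSeries (Fin d) 𝒪)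
    (hg : g ∈ maximalIdeal (MvPowerSeries (Fin d) 𝒪) ^ n) (e : Fin d →₀ ℕ) :
    MvPowerSeries.coeff e g ∈ maximalIdeal 𝒪 ^ (n - Finsupp.degree e) := by
  induction n generalizing g e with
  | zero => simp
  | succ n ih =>
    rw [pow_succ] at hg
    refine Submodule.mul_induction_on hg ?_ ?_ e
    · intro u hu v hv e
      rw [MvPowerSeries.coeff_mul]
      refine Ideal.sum_mem _ ?_
      rintro ⟨e₁, e₂⟩ he
      replace he : e₁ + e₂ = e := Finset.HasAntidiagonal.mem_antidiagonal.mp he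
      show MvPowerSeries.coeff e₁ u * MvPowerSeries.coeff e₂ v ∈ _
      have hdeg : Finsupp.degree e = Finsupp.degree e₁ + Finsupp.degree e₂ := by
        rw [← he, map_add]
      have h1 := ih u hu e₁
      by_cases h2 : e₂ = 0
      · subst h2
        have hv0 : MvPowerSeries.coeff 0 v ∈ maximalIdeal 𝒪 := by
          rw [mem_maximalIdeal, mem_nonunits_iff] at hv ⊢
          rwa [MvPowerSeries.isUnit_iff_constantCoeff] at hv
        have h3 : MvPowerSeries.coeff e₁ u * MvPowerSeries.coeff 0 v ∈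
            maximalIdeal 𝒪 ^ (n - Finsupp.degree e₁ + 1) := by
          rw [pow_succ]
          exact Ideal.mul_mem_mul h1 hv0
        refine Ideal.pow_le_pow_right ?_ h3
        simp only [map_zero, add_zero] at hdeg
        omega
      · have hpos : 0 < Finsupp.degree e₂ := by
          rcases Nat.eq_zero_or_pos (Finsupp.degree e₂) with h | h
          · exact absurd ((Finsupp.degree_eq_zero_iff e₂).mp h) h2
          · exact h
        refine Ideal.mul_mem_right _ _ (Ideal.pow_le_pow_right ?_ h1)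
        omega
    · intro x y hx hy e
      rw [map_add]
      exact Ideal.add_mem _ (hx e) (hy e)

/-- Claim B. -/
theorem mem_pow_of_coeff_mem (n : ℕ) (g : MvPowerSeries (Fin d) 𝒪)
    (hg : ∀ e : Fin d →₀ ℕ, Finsupp.degree e < n →
      MvPowerSeries.coeff e g ∈ maximalIdeal 𝒪 ^ (n - Finsupp.degree e)) :
    g ∈ maximalIdeal (MvPowerSeries (Fin d) 𝒪) ^ n := by
  classical
  have h1 : g = ((MvPowerSeries.truncTotal n g : MvPolynomial (Fin d) 𝒪) :
      MvPowerSeries (Fin d) 𝒪) +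
      (g - ((MvPowerSeries.truncTotal n g : MvPolynomial (Fin d) 𝒪) :
        MvPowerSeries (Fin d) 𝒪)) := by ring
  rw [h1]
  refine Ideal.add_mem _ ?_
    (Ideal.pow_right_mono (span_X_le_maximalIdeal 𝒪 d) n (sub_truncTotal_mem g n))
  rw [MvPolynomial.as_sum (MvPowerSeries.truncTotal n g)]
  show MvPolynomial.coeToMvPowerSeries.ringHom (∑ v ∈ (MvPowerSeries.truncTotal n g).support,
    MvPolynomial.monomial v (MvPolynomial.coeff v (MvPowerSeries.truncTotal n g))) ∈ _
  rw [map_sum]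
  refine Ideal.sum_mem _ ?_
  intro e he
  have hdeg : Finsupp.degree e < n := by
    by_contra hcon
    rw [MvPolynomial.mem_support_iff] at he
    exact he (MvPowerSeries.coeff_truncTotal_eq_zero _ (not_lt.mp hcon))
  rw [MvPowerSeries.coeff_truncTotal _ hdeg]
  have hc := hg e hdeg
  have hmon : (MvPolynomial.monomial e (MvPowerSeries.coeff e g) : MvPolynomial (Fin d) 𝒪) =
      MvPolynomial.C (MvPowerSeries.coeff e g) * MvPolynomial.monomial e 1 := by
    rw [MvPolynomial.C_mul_monomial, mul_one]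
  rw [hmon, map_mul]
  have hn : n = (n - Finsupp.degree e) + Finsupp.degree e := by omega
  rw [hn, pow_add]
  refine Ideal.mul_mem_mul ?_ ?_
  · have h2 : MvPolynomial.coeToMvPowerSeries.ringHom
        (MvPolynomial.C (MvPowerSeries.coeff e g) : MvPolynomial (Fin d) 𝒪) =
        algebraMap 𝒪 (MvPowerSeries (Fin d) 𝒪) (MvPowerSeries.coeff e g) := by
      simp [MvPowerSeries.algebraMap_apply]
    rw [h2]
    have h3 := Ideal.mem_map_of_mem (algebraMap 𝒪 (MvPowerSeries (Fin d) 𝒪)) hc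
    rw [Ideal.map_pow] at h3
    exact Ideal.pow_right_mono (map_le_maximalIdeal 𝒪 d) _ h3
  · refine Ideal.pow_right_mono (span_X_le_maximalIdeal 𝒪 d) _ ?_
    refine coe_mem_pow_span_X (σ := Fin d) (R := 𝒪) (n := Finsupp.degree e)
      (a := MvPolynomial.monomial e 1) ?_
    rw [MvPolynomial.monomial_mem_pow_idealOfVars_iff _ _ one_ne_zero]

end Complete

section Final
variable (𝒪 : Type) [CommRing 𝒪] [IsLocalRing 𝒪] [IsNoetherianRing 𝒪]
  [IsAdicComplete (maximalIdeal 𝒪) 𝒪] (d : ℕ)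

omit [IsNoetherianRing 𝒪] in
theorem isPrecomplete_maximalIdeal :
    IsPrecomplete (maximalIdeal (MvPowerSeries (Fin d) 𝒪)) (MvPowerSeries (Fin d) 𝒪) := by
  constructor
  intro f hf
  -- coefficient sequences
  have hcauchy : ∀ e : Fin d →₀ ℕ, ∀ {j k : ℕ}, j ≤ k →
      MvPowerSeries.coeff e (f (j + Finsupp.degree e)) ≡
        MvPowerSeries.coeff e (f (k + Finsupp.degree e))
        [SMOD (maximalIdeal 𝒪 ^ j • ⊤ : Submodule 𝒪 𝒪)] := by
    intro e j k hjk
    have h1 := hf (m := j + Finsupp.degree e) (n := k + Finsupp.degree e) (by omega)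
    rw [SModEq.sub_mem, smul_eq_mul, Ideal.mul_top] at h1 ⊢
    have h2 := coeff_mem_of_mem_pow 𝒪 d _ _ h1 e
    rw [map_sub] at h2
    convert h2 using 2
    omega
  choose c hc using fun e : Fin d →₀ ℕ =>
    IsPrecomplete.prec (I := maximalIdeal 𝒪) (M := 𝒪) inferInstance
      (f := fun k => MvPowerSeries.coeff e (f (k + Finsupp.degree e))) (hcauchy e)
  obtain ⟨L, hL⟩ : ∃ L : MvPowerSeries (Fin d) 𝒪, ∀ e, MvPowerSeries.coeff e L = c e :=
    ⟨c, fun e => rfl⟩
  refine ⟨L, fun n => ?_⟩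
  rw [SModEq.sub_mem, smul_eq_mul, Ideal.mul_top]
  refine mem_pow_of_coeff_mem 𝒪 d n _ ?_
  intro e he
  have h1 := hc e (n - Finsupp.degree e)
  rw [SModEq.sub_mem, smul_eq_mul, Ideal.mul_top] at h1
  have h2 : n - Finsupp.degree e + Finsupp.degree e = n := by omega
  simp only [h2] at h1
  rw [map_sub, hL]
  exact h1

theorem H5a_isAdicComplete' :
    IsAdicComplete (maximalIdeal (MvPowerSeries (Fin d) 𝒪)) (MvPowerSeries (Fin d) 𝒪) :=
  { toIsHausdorff := inferInstance
    toIsPrecomplete := isPrecomplete_maximalIdeal 𝒪 d }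

end Final

section H5
variable (𝒪 : Type) [CommRing 𝒪] [IsLocalRing 𝒪] [IsNoetherianRing 𝒪]
  [IsAdicComplete (maximalIdeal 𝒪) 𝒪] (d : ℕ)

set_option linter.unusedSectionVars false

/-- H5a -/
theorem H5a_isAdicComplete :
    IsAdicComplete (maximalIdeal (MvPowerSeries (Fin d) 𝒪)) (MvPowerSeries (Fin d) 𝒪) :=
  H5a_isAdicComplete' 𝒪 d

/-- H5b -/
theorem H5b_isLocalHom : IsLocalHom (algebraMap 𝒪 (MvPowerSeries (Fin d) 𝒪)) :=
  H5b_isLocalHom' 𝒪 d

/-- H5c -/
theorem H5c_residue_surjective :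
    Function.Surjective (residue (MvPowerSeries (Fin d) 𝒪) ∘ algebraMap 𝒪 _) :=
  H5c_residue_surjective' 𝒪 d

/-- H5d: the maximal ideal is generated by `m_𝒪` and the variables. -/
theorem H5d_maximalIdeal_eq :
    maximalIdeal (MvPowerSeries (Fin d) 𝒪) =
      (maximalIdeal 𝒪).map (algebraMap 𝒪 _) ⊔ Ideal.span (Set.range MvPowerSeries.X) :=
  H5d_maximalIdeal_eq' 𝒪 d

/-- H5e: polynomials in the variables are dense. -/
theorem H5e_dense (f : MvPowerSeries (Fin d) 𝒪) (n : ℕ) :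
    ∃ p ∈ Algebra.adjoin 𝒪 (Set.range (MvPowerSeries.X : Fin d → MvPowerSeries (Fin d) 𝒪)),
      f - p ∈ maximalIdeal (MvPowerSeries (Fin d) 𝒪) ^ n :=
  H5e_dense' 𝒪 d f n

/-- H5f: lifting property towards local algebras with nilpotent maximal ideal. -/
theorem H5f_lift {A : Type} [CommRing A] [IsLocalRing A] [Algebra 𝒪 A]
    (hloc : IsLocalHom (algebraMap 𝒪 A)) (hnil : ∃ n : ℕ, maximalIdeal A ^ n = ⊥)
    (a : Fin d → A) (ha : ∀ i, a i ∈ maximalIdeal A) :
    ∃ φ : MvPowerSeries (Fin d) 𝒪 →ₐ[𝒪] A, ∀ i, φ (MvPowerSeries.X i) = a i :=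
  H5f_lift' 𝒪 d hnil a ha

end H5

end Fermat.Agent.S53_helper8_H5
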