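import Mathlib
import Fermat.Agent.S53_helper16_Defs
import Fermat.Agent.S53_helper16_Core
import Fermat.Agent.S53_helper8_H5
import Fermat.Agent.S53_helper23_C4

set_option autoImplicit false

open IsLocalRing Fermat.Agent.S53_helper16_Defs Fermat.Agent.S53_helper16_Core GaloisRep

namespace Fermat.Agent.S53_helper23_T0

section T
variable (𝒪 : Type) [CommRing 𝒪] [IsLocalRing 𝒪] [Finite (ResidueField 𝒪)]
  [IsNoetherianRing 𝒪] [IsAdicComplete (maximalIdeal 𝒪) 𝒪]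
variable (ρbar : ResidualGaloisRep (ResidueField 𝒪))
variable (𝒟 : ∀ ⦃A : Type⦄ [CommRing A] [IsLocalRing A] [Algebra 𝒪 A], GaloisRepAdic A → Prop)
variable {d : ℕ} (h : Fin d → Gal) (a : Fin d → 𝒪)

omit [Finite (ResidueField 𝒪)] [IsNoetherianRing 𝒪] [IsAdicComplete (maximalIdeal 𝒪) 𝒪] in
/-- T0: for a strict lift, `tr M (h i) - a_i` lies in the maximal ideal. -/
theorem T0_trace_sub_mem (ha : ∀ i, residue 𝒪 (a i) = (rbMat ρbar (h i)).trace)
    {A : Type} [CommRing A] [IsLocalRing A] [Algebra 𝒪 A]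
    (hloc : IsLocalHom (algebraMap 𝒪 A))
    {M : Gal →* Matrix (Fin 2) (Fin 2) A} (hM : IsStrictLift 𝒪 hloc ρbar M) (i : Fin d) :
    (M (h i)).trace - algebraMap 𝒪 A (a i) ∈ maximalIdeal A := by
  rw [← residue_eq_zero_iff, map_sub, sub_eq_zero]
  have h1 : residue A (M (h i)).trace = ((M (h i)).map (residue A)).trace := by
    simp [Matrix.trace_fin_two]
  have h2 : ((rbMat ρbar (h i)).map (kappa 𝒪 A hloc)).trace =
      kappa 𝒪 A hloc (rbMat ρbar (h i)).trace := by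
    simp [Matrix.trace_fin_two]
  rw [h1, hM (h i), h2, ← ha i]
  rfl

omit [Finite (ResidueField 𝒪)] in
/-- T0b: existence of the classifying map of a `𝒟`-lift over an Artinian test algebra. -/
theorem T0b_exists_classifying (ha : ∀ i, residue 𝒪 (a i) = (rbMat ρbar (h i)).trace)
    {A : Type} [CommRing A] [IsLocalRing A] [Algebra 𝒪 A]
    (hA : IsArtinianTestAlgebra 𝒪 A)
    {M : Gal →* Matrix (Fin 2) (Fin 2) A} (hM : IsStrictLift 𝒪 hA.isLocalHom ρbar M) :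
    ∃ ψ : Lam 𝒪 d →ₐ[𝒪] A, (∀ i, ψ (tautTr 𝒪 a i) = (M (h i)).trace) ∧
      ∀ i, ψ (MvPowerSeries.X i) ∈ maximalIdeal A := by
  have := hA.isArtinian
  have hnil := Fermat.Agent.S53_helper23_C4.exists_maximalIdeal_pow_eq_bot A
  obtain ⟨ψ, hψ⟩ := Fermat.Agent.S53_helper8_H5.H5f_lift 𝒪 d hA.isLocalHom hnil
    (fun i => (M (h i)).trace - algebraMap 𝒪 A (a i))
    (fun i => T0_trace_sub_mem 𝒪 ρbar h a ha hA.isLocalHom hM i)
  refine ⟨ψ, fun i => ?_, fun i => ?_⟩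
  · rw [tautTr, map_add, hψ i, AlgHom.commutes]
    ring
  · rw [hψ i]
    exact T0_trace_sub_mem 𝒪 ρbar h a ha hA.isLocalHom hM i

end T

end Fermat.Agent.S53_helper23_T0
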