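import Mathlib
import Fermat.Agent.S53_helper16_Defs
import Fermat.Agent.S53_helper16_Core
import Fermat.Agent.S53_helper8_H5
import Fermat.Agent.S53_helper23_C4
import Fermat.Agent.S53_helper23_T0

set_option autoImplicit false

open IsLocalRing Fermat.Agent.S53_helper16_Defs Fermat.Agent.S53_helper16_Core GaloisRep

namespace Fermat.Agent.S53_helper23_T4

/-- an `𝒪`-algebra map out of the power series ring which sends the variables into the maximal
ideal sends the maximal ideal into the maximal ideal -/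
theorem map_maximalIdeal_le (𝒪 : Type) [CommRing 𝒪] [IsLocalRing 𝒪] {d : ℕ}
    {A : Type} [CommRing A] [IsLocalRing A] [Algebra 𝒪 A]
    (hloc : IsLocalHom (algebraMap 𝒪 A))
    (φ : Lam 𝒪 d →ₐ[𝒪] A) (hX : ∀ i, φ (MvPowerSeries.X i) ∈ maximalIdeal A) :
    (maximalIdeal (Lam 𝒪 d)).map (φ : Lam 𝒪 d →+* A) ≤ maximalIdeal A := by
  rw [Fermat.Agent.S53_helper8_H5.H5d_maximalIdeal_eq' 𝒪 d, Ideal.map_sup, sup_le_iff]
  constructor
  · rw [Ideal.map_map, Ideal.map_le_iff_le_comap]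
    intro c hc
    rw [Ideal.mem_comap]
    have : ((φ : Lam 𝒪 d →+* A).comp (algebraMap 𝒪 (MvPowerSeries (Fin d) 𝒪))) c =
        algebraMap 𝒪 A c := by
      simp
    rw [this]
    exact map_nonunit (algebraMap 𝒪 A) c hc
  · rw [Ideal.map_span, Ideal.span_le]
    rintro _ ⟨_, ⟨i, rfl⟩, rfl⟩
    exact hX i

/-- the same for powers -/
theorem map_maximalIdeal_pow_le (𝒪 : Type) [CommRing 𝒪] [IsLocalRing 𝒪] {d : ℕ}
    {A : Type} [CommRing A] [IsLocalRing A] [Algebra 𝒪 A]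
    (hloc : IsLocalHom (algebraMap 𝒪 A))
    (φ : Lam 𝒪 d →ₐ[𝒪] A) (hX : ∀ i, φ (MvPowerSeries.X i) ∈ maximalIdeal A) (n : ℕ) :
    (maximalIdeal (Lam 𝒪 d) ^ n).map (φ : Lam 𝒪 d →+* A) ≤ maximalIdeal A ^ n := by
  rw [Ideal.map_pow]
  exact Ideal.pow_right_mono (map_maximalIdeal_le 𝒪 hloc φ hX) n

section T
variable (𝒪 : Type) [CommRing 𝒪] [IsLocalRing 𝒪] [Finite (ResidueField 𝒪)]
  [IsNoetherianRing 𝒪] [IsAdicComplete (maximalIdeal 𝒪) 𝒪]
variable (ρbar : ResidualGaloisRep (ResidueField 𝒪))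
variable (𝒟 : ∀ ⦃A : Type⦄ [CommRing A] [IsLocalRing A] [Algebra 𝒪 A], GaloisRepAdic A → Prop)
variable {d : ℕ} (h : Fin d → Gal) (a : Fin d → 𝒪)

omit [Finite (ResidueField 𝒪)] [IsNoetherianRing 𝒪] [IsAdicComplete (maximalIdeal 𝒪) 𝒪] in
/-- T4: members of the family are open and proper. -/
theorem T4_open (ha : ∀ i, residue 𝒪 (a i) = (rbMat ρbar (h i)).trace)
    (I : Ideal (Lam 𝒪 d)) (hI : I ∈ famF 𝒪 ρbar 𝒟 h a) :
    (∃ n : ℕ, maximalIdeal (Lam 𝒪 d) ^ n ≤ I) ∧ I ≠ ⊤ := by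
  obtain ⟨A, _, _, _, hA, M, hM, ψ, hψ, rfl⟩ := hI
  have := hA.isArtinian
  obtain ⟨n, hn⟩ := Fermat.Agent.S53_helper23_C4.exists_maximalIdeal_pow_eq_bot A
  have hX : ∀ i, ψ (MvPowerSeries.X i) ∈ maximalIdeal A := by
    intro i
    have h1 : ψ (MvPowerSeries.X i) = (M (h i)).trace - algebraMap 𝒪 A (a i) := by
      rw [← hψ i, tautTr, map_add, AlgHom.commutes]
      ring
    rw [h1]
    exact Fermat.Agent.S53_helper23_T0.T0_trace_sub_mem 𝒪 ρbar h a ha hA.isLocalHom hM.strict i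
  constructor
  · refine ⟨n, fun x hx => ?_⟩
    rw [RingHom.mem_ker]
    have h2 := map_maximalIdeal_pow_le 𝒪 hA.isLocalHom ψ hX n (Ideal.mem_map_of_mem _ hx)
    rw [hn] at h2
    simpa using h2
  · intro htop
    have h1 : (1 : Lam 𝒪 d) ∈ RingHom.ker (ψ : Lam 𝒪 d →+* A) := by
      rw [htop]; exact Submodule.mem_top
    rw [RingHom.mem_ker, map_one] at h1
    exact one_ne_zero h1

end T

end Fermat.Agent.S53_helper23_T4
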