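import Mathlib
import Fermat.Agent.S53_helper16_Defs

set_option autoImplicit false

open IsLocalRing Fermat.Agent.S53_helper16_Defs
open scoped TensorProduct

namespace Fermat.Agent.S53_helper28_I5

/-- General principle: two representations on modules with bases are intertwined by a linear
equivalence iff their matrices are conjugate by an invertible matrix. -/
theorem exists_equiv_iff_conj {K : Type} [Field K] {G : Type}
    {V₁ V₂ : Type} [AddCommGroup V₁] [Module K V₁] [AddCommGroup V₂] [Module K V₂]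
    (b₁ : Module.Basis (Fin 2) K V₁) (b₂ : Module.Basis (Fin 2) K V₂)
    (r₁ : G → Module.End K V₁) (r₂ : G → Module.End K V₂) :
    (∃ e : V₁ ≃ₗ[K] V₂, ∀ σ x, e (r₁ σ x) = r₂ σ (e x)) ↔
      ∃ u : Matrix (Fin 2) (Fin 2) K, IsUnit u ∧
        ∀ σ, u * LinearMap.toMatrix b₁ b₁ (r₁ σ) = LinearMap.toMatrix b₂ b₂ (r₂ σ) * u := by
  constructor
  · rintro ⟨e, he⟩
    refine ⟨LinearMap.toMatrix b₁ b₂ e.toLinearMap, ?_, fun σ => ?_⟩
    · refine IsUnit.of_mul_eq_one (LinearMap.toMatrix b₂ b₁ e.symm.toLinearMap) ?_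
      rw [← LinearMap.toMatrix_comp b₂ b₁ b₂]
      have : e.toLinearMap ∘ₗ e.symm.toLinearMap = LinearMap.id := by
        ext x; simp
      rw [this, LinearMap.toMatrix_id]
    · rw [← LinearMap.toMatrix_comp b₁ b₁ b₂, ← LinearMap.toMatrix_comp b₁ b₂ b₂]
      congr 1
      ext x
      simpa using he σ x
  · rintro ⟨u, hu, h⟩
    obtain ⟨v, huv, hvu⟩ : ∃ v : Matrix (Fin 2) (Fin 2) K, u * v = 1 ∧ v * u = 1 := by
      obtain ⟨w, rfl⟩ := hu
      exact ⟨(w⁻¹ : (Matrix (Fin 2) (Fin 2) K)ˣ), w.mul_inv, w.inv_mul⟩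
    let e : V₁ ≃ₗ[K] V₂ :=
      LinearEquiv.ofLinearMap (Matrix.toLin b₁ b₂ u) (Matrix.toLin b₂ b₁ v)
        (by rw [← Matrix.toLin_mul b₂ b₁ b₂, huv, Matrix.toLin_one])
        (by rw [← Matrix.toLin_mul b₁ b₂ b₁, hvu, Matrix.toLin_one])
    refine ⟨e, fun σ x => ?_⟩
    have h1 : (Matrix.toLin b₁ b₂ u) ∘ₗ (r₁ σ) = (r₂ σ) ∘ₗ (Matrix.toLin b₁ b₂ u) := by
      apply (LinearMap.toMatrix b₁ b₂).injective
      rw [LinearMap.toMatrix_comp b₁ b₁ b₂, LinearMap.toMatrix_comp b₁ b₂ b₂,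
        LinearMap.toMatrix_toLin, h σ]
    exact LinearMap.congr_fun h1 x

/-- matrix of `toLin'` in the standard basis -/
theorem toMatrix_toLin'_basisFun {A : Type} [CommRing A] (N : Matrix (Fin 2) (Fin 2) A) :
    LinearMap.toMatrix (Pi.basisFun A (Fin 2)) (Pi.basisFun A (Fin 2)) (Matrix.toLin' N) = N := by
  rw [LinearMap.toMatrix_eq_toMatrix', LinearMap.toMatrix'_toLin']

/-- generic version of I5 for an arbitrary residual representation with a basis -/
theorem isEquiv_baseChangeAlong_iff {k k' : Type} [Field k] [Field k'] (φ : k →+* k')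
    (ρbar : ResidualGaloisRep k) (b : Module.Basis (Fin 2) k ρbar.V)
    (ρ₁ : ResidualGaloisRep k') (b₁ : Module.Basis (Fin 2) k' ρ₁.V) :
    ρ₁.IsEquiv (ρbar.baseChangeAlong φ) ↔
      ∃ u : Matrix (Fin 2) (Fin 2) k', IsUnit u ∧
        ∀ σ, u * LinearMap.toMatrix b₁ b₁ (ρ₁.ρ σ) =
          (LinearMap.toMatrix b b (ρbar.ρ σ)).map φ * u := by
  letI : Algebra k k' := φ.toAlgebra
  let b₂ : Module.Basis (Fin 2) k' (k' ⊗[k] ρbar.V) := Algebra.TensorProduct.basis k' b
  have key := exists_equiv_iff_conj (G := Gal) b₁ b₂ (fun σ => ρ₁.ρ σ)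
    (fun σ => (ρbar.ρ σ).baseChange k')
  have hm2 : ∀ σ, LinearMap.toMatrix b₂ b₂ ((ρbar.ρ σ).baseChange k')
      = (LinearMap.toMatrix b b (ρbar.ρ σ)).map φ := by
    intro σ
    rw [LinearMap.toMatrix_baseChange]
    rfl
  simp only [hm2] at key
  rw [← key]
  constructor
  · rintro ⟨e⟩
    exact ⟨e.toLinearEquiv, fun σ x => e.map_apply σ x⟩
  · rintro ⟨e, he⟩
    exact ⟨⟨e, fun σ x => he σ x⟩⟩

/-- I5: the residual representation of `toAdic M` is equivalent to the base change of `ρbar`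
iff the reduction of `M` is conjugate to the matrix form of `ρbar`. -/
theorem I5_residual_iff (𝒪 : Type) [CommRing 𝒪] [IsLocalRing 𝒪] {A : Type} [CommRing A]
    [IsLocalRing A] [Algebra 𝒪 A] (hloc : IsLocalHom (algebraMap 𝒪 A))
    (ρbar : ResidualGaloisRep (ResidueField 𝒪))
    (M : Gal →* Matrix (Fin 2) (Fin 2) A) (hM : MatCont M) :
    (toAdic M hM).residual.IsEquiv (ρbar.baseChangeAlong (kappa 𝒪 A hloc)) ↔
      ∃ u : Matrix (Fin 2) (Fin 2) (ResidueField A), IsUnit u ∧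
        ∀ σ, u * (M σ).map (residue A) = (rbMat ρbar σ).map (kappa 𝒪 A hloc) * u := by
  let b₁ : Module.Basis (Fin 2) (ResidueField A) (toAdic M hM).residual.V :=
    Algebra.TensorProduct.basis (ResidueField A) (Pi.basisFun A (Fin 2))
  have key := isEquiv_baseChangeAlong_iff (kappa 𝒪 A hloc) ρbar (rbBasis ρbar)
    (toAdic M hM).residual b₁
  have hm1 : ∀ σ, LinearMap.toMatrix b₁ b₁ ((toAdic M hM).residual.ρ σ)
      = (M σ).map (residue A) := by
    intro σ
    change LinearMap.toMatrix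
      (Algebra.TensorProduct.basis (ResidueField A) (Pi.basisFun A (Fin 2)))
      (Algebra.TensorProduct.basis (ResidueField A) (Pi.basisFun A (Fin 2)))
      ((Matrix.toLin' (M σ)).baseChange (ResidueField A)) = _
    rw [LinearMap.toMatrix_baseChange, toMatrix_toLin'_basisFun]
    rfl
  simp only [hm1] at key
  exact key

/-- I6: over the residue field itself, `ofResidualGaloisRep ρbar` is `toAdic` of the matrix
form. -/
theorem I6_ofResidual {k : Type} [Field k] (ρbar : ResidualGaloisRep k) :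
    ∃ hM : MatCont (rbMat ρbar),
      (toAdic (rbMat ρbar) hM).IsEquiv (GaloisRepAdic.ofResidualGaloisRep ρbar) := by
  have hM : MatCont (rbMat ρbar) := by
    intro n
    obtain ⟨L, hL, h1⟩ := ρbar.factorsThroughFiniteLevel
    refine ⟨L, hL, fun σ hσ i j => ?_⟩
    have : rbMat ρbar σ = 1 := by
      rw [rbMat_apply, h1 σ hσ]
      exact LinearMap.toMatrix_one _
    rw [this, sub_self]
    exact Ideal.zero_mem _
  refine ⟨hM, ⟨?_⟩⟩
  refine
    { toLinearEquiv := (rbBasis ρbar).equivFun.symm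
      map_apply := fun σ x => ?_ }
  change (rbBasis ρbar).equivFun.symm (Matrix.toLin' (rbMat ρbar σ) x) =
    ρbar.ρ σ ((rbBasis ρbar).equivFun.symm x)
  apply (rbBasis ρbar).equivFun.injective
  rw [LinearEquiv.apply_symm_apply]
  have h3 := LinearMap.toMatrix_mulVec_repr (rbBasis ρbar) (rbBasis ρbar) (ρbar.ρ σ)
    ((rbBasis ρbar).equivFun.symm x)
  have hx : ⇑((rbBasis ρbar).repr ((rbBasis ρbar).equivFun.symm x)) = x :=
    (rbBasis ρbar).equivFun.apply_symm_apply x
  rw [hx] at h3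
  exact h3

end Fermat.Agent.S53_helper28_I5
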