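import Mathlib
import Fermat.Agent.S53_helper16_Defs
import Fermat.Agent.S53_helper16_Core
import Fermat.Agent.S53_helper28_I5
import Fermat.Agent.S53_helper23_C4
import Fermat.Agent.S53_helper23_T0

set_option autoImplicit false

open IsLocalRing Fermat.Agent.S53_helper16_Defs Fermat.Agent.S53_helper16_Core GaloisRep

namespace Fermat.Agent.S53_helper23_T5

/-- the matrix form of `ρbar` is a strict lift of `ρbar` over the residue field -/
theorem isStrictLift_rbMat (𝒪 : Type) [CommRing 𝒪] [IsLocalRing 𝒪]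
    (ρbar : ResidualGaloisRep (ResidueField 𝒪))
    (hloc : IsLocalHom (algebraMap 𝒪 (ResidueField 𝒪))) :
    IsStrictLift 𝒪 hloc ρbar (rbMat ρbar) := by
  intro σ
  ext i j
  simp only [Matrix.map_apply]
  obtain ⟨c, hc⟩ := residue_surjective (R := 𝒪) (rbMat ρbar σ i j)
  rw [← hc]
  rfl

section T
variable (𝒪 : Type) [CommRing 𝒪] [IsLocalRing 𝒪] [Finite (ResidueField 𝒪)]
  [IsNoetherianRing 𝒪] [IsAdicComplete (maximalIdeal 𝒪) 𝒪]
variable (ρbar : ResidualGaloisRep (ResidueField 𝒪))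
variable (𝒟 : ∀ ⦃A : Type⦄ [CommRing A] [IsLocalRing A] [Algebra 𝒪 A], GaloisRepAdic A → Prop)
variable {d : ℕ} (h : Fin d → Gal) (a : Fin d → 𝒪)

omit [Finite (ResidueField 𝒪)] in
/-- T5: the family is nonempty. -/
theorem T5_nonempty (h𝒟 : IsDeformationCondition 𝒪 𝒟)
    (hbar : 𝒟 (GaloisRepAdic.ofResidualGaloisRep ρbar))
    (ha : ∀ i, residue 𝒪 (a i) = (rbMat ρbar (h i)).trace) :
    (famF 𝒪 ρbar 𝒟 h a).Nonempty := by
  have hk := Fermat.Agent.S53_helper23_C4.isArtinianTestAlgebra_residueField 𝒪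
  obtain ⟨hcont, ⟨e⟩⟩ := Fermat.Agent.S53_helper28_I5.I6_ofResidual ρbar
  have hstrict := isStrictLift_rbMat 𝒪 ρbar hk.isLocalHom
  have hD : 𝒟 (toAdic (rbMat ρbar) hcont) := h𝒟.of_isEquiv hk ⟨e.symm⟩ hbar
  have hlift : IsDLift 𝒪 ρbar 𝒟 hk.isLocalHom (rbMat ρbar) := ⟨hcont, hstrict, hD⟩
  obtain ⟨ψ, hψ, -⟩ :=
    Fermat.Agent.S53_helper23_T0.T0b_exists_classifying 𝒪 ρbar h a ha hk hstrict
  exact ⟨RingHom.ker (ψ : Lam 𝒪 d →+* ResidueField 𝒪),
    ResidueField 𝒪, inferInstance, inferInstance, inferInstance, hk, rbMat ρbar, hlift, ψ, hψ, rfl⟩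

end T

end Fermat.Agent.S53_helper23_T5
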