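import Mathlib
import Fermat.Agent.S53_helper16_Defs

set_option autoImplicit false

open IsLocalRing Fermat.Agent.S53_helper16_Defs

namespace Fermat.Agent.S53_helper23_I7

/-- I7b: a matrix which is a unit modulo the maximal ideal is a unit. -/
theorem I7b_isUnit_of_map_residue {A : Type} [CommRing A] [IsLocalRing A]
    (v : Matrix (Fin 2) (Fin 2) A) (hv : IsUnit (v.map (residue A))) : IsUnit v := by
  rw [Matrix.isUnit_iff_isUnit_det] at hv ⊢
  have h : (v.map (residue A)).det = residue A v.det := by
    have := (RingHom.map_det (residue A) v).symm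
    simpa [RingHom.mapMatrix_apply] using this
  rw [h] at hv
  exact isUnit_of_map_unit (residue A) _ hv

/-- I7: lifting units of `M₂(k_A)` to units of `M₂(A)`. -/
theorem I7_lift_unit {A : Type} [CommRing A] [IsLocalRing A]
    (u : Matrix (Fin 2) (Fin 2) (ResidueField A)) (hu : IsUnit u) :
    ∃ v : Matrix (Fin 2) (Fin 2) A, IsUnit v ∧ v.map (residue A) = u := by
  have hs : Function.Surjective (residue A) := residue_surjective
  choose f hf using hs
  refine ⟨Matrix.of fun i j => f (u i j), ?_, ?_⟩
  · apply I7b_isUnit_of_map_residue
    have : (Matrix.of fun i j => f (u i j)).map (residue A) = u := by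
      ext i j
      simp [hf]
    rw [this]
    exact hu
  · ext i j
    simp [hf]

end Fermat.Agent.S53_helper23_I7
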