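import Mathlib
import Fermat.Agent.S53_helper16_Defs

set_option autoImplicit false

open IsLocalRing Fermat.Agent.S53_helper16_Defs

namespace Fermat.Agent.S53_helper29_I3

theorem conj_apply_aux {A : Type} [CommRing A]
    (M M' : Gal →* Matrix (Fin 2) (Fin 2) A)
    (U : (Matrix (Fin 2) (Fin 2) A)ˣ) (h : ∀ σ, (U : Matrix (Fin 2) (Fin 2) A) * M σ = M' σ * U)
    (e : (Fin 2 → A) ≃ₗ[A] (Fin 2 → A))
    (he : ∀ x, e x = Matrix.toLin' (U : Matrix (Fin 2) (Fin 2) A) x)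
    (σ : Gal) (x : Fin 2 → A) :
    e (Matrix.toLin' (M σ) x) = Matrix.toLin' (M' σ) (e x) := by
  rw [he, he, ← LinearMap.comp_apply, ← LinearMap.comp_apply, ← Matrix.toLin'_mul,
    ← Matrix.toLin'_mul, h σ]

/-- I3: conjugate matrix representations give equivalent adic representations. -/
theorem I3_isEquiv_of_conj {A : Type} [CommRing A] [IsLocalRing A]
    (M M' : Gal →* Matrix (Fin 2) (Fin 2) A) (hM : MatCont M) (hM' : MatCont M')
    (u : Matrix (Fin 2) (Fin 2) A) (hu : IsUnit u) (h : ∀ σ, u * M σ = M' σ * u) :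
    (toAdic M hM).IsEquiv (toAdic M' hM') := by
  obtain ⟨U, rfl⟩ := hu
  let e : (Fin 2 → A) ≃ₗ[A] (Fin 2 → A) :=
    Matrix.toLin'OfInv (M' := (U : Matrix (Fin 2) (Fin 2) A))
      (M := ((U⁻¹ : (Matrix (Fin 2) (Fin 2) A)ˣ) : Matrix (Fin 2) (Fin 2) A))
      (by simp) (by simp)
  have he : ∀ x : Fin 2 → A, e x = Matrix.toLin' (U : Matrix (Fin 2) (Fin 2) A) x :=
    fun x => rfl
  exact ⟨{ toLinearEquiv := e
           map_apply := fun σ x => conj_apply_aux M M' U h e he σ x }⟩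

/-- I3b: conjugating a continuous matrix representation by a unit is continuous. -/
theorem I3b_matCont_conj {A : Type} [CommRing A] [IsLocalRing A]
    (M M' : Gal →* Matrix (Fin 2) (Fin 2) A) (hM : MatCont M)
    (u : Matrix (Fin 2) (Fin 2) A) (hu : IsUnit u) (h : ∀ σ, u * M σ = M' σ * u) :
    MatCont M' := by
  obtain ⟨U, rfl⟩ := hu
  intro n
  obtain ⟨L, hL, hLM⟩ := hM n
  refine ⟨L, hL, fun σ hσ i j => ?_⟩
  have key : M' σ - 1 = (U : Matrix (Fin 2) (Fin 2) A) * (M σ - 1) *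
      ((U⁻¹ : (Matrix (Fin 2) (Fin 2) A)ˣ) : Matrix (Fin 2) (Fin 2) A) := by
    have h1 : M' σ = (U : Matrix (Fin 2) (Fin 2) A) * M σ *
        ((U⁻¹ : (Matrix (Fin 2) (Fin 2) A)ˣ) : Matrix (Fin 2) (Fin 2) A) := by
      rw [h σ, mul_assoc, Units.mul_inv, mul_one]
    rw [h1, mul_sub, sub_mul, mul_one, Units.mul_inv]
  rw [key, Matrix.mul_apply]
  refine Ideal.sum_mem _ fun k _ => Ideal.mul_mem_right _ _ ?_
  rw [Matrix.mul_apply]
  exact Ideal.sum_mem _ fun l _ => Ideal.mul_mem_left _ _ (hLM σ hσ l k)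

end Fermat.Agent.S53_helper29_I3
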