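import Mathlib
import Fermat.Agent.S53_helper16_Defs
import Fermat.Agent.S53_helper15_I2
import Fermat.Agent.S53_helper29_I3
import Fermat.Agent.S53_helper28_I5
import Fermat.Agent.S53_helper23_I7

set_option autoImplicit false
set_option linter.unusedSectionVars false
set_option linter.unusedVariables false

open IsLocalRing Fermat.Agent.S53_helper16_Defs GaloisRep
  Fermat.Agent.S53_helper15_I2 Fermat.Agent.S53_helper29_I3 Fermat.Agent.S53_helper28_I5
  Fermat.Agent.S53_helper23_I7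

noncomputable section

namespace Fermat.Agent.S53_helper27_C1

/-- conjugate of a matrix representation by a unit. -/
def conjRep {A : Type} [CommRing A] (v : (Matrix (Fin 2) (Fin 2) A)ˣ)
    (M : Gal →* Matrix (Fin 2) (Fin 2) A) : Gal →* Matrix (Fin 2) (Fin 2) A where
  toFun σ := (v : Matrix (Fin 2) (Fin 2) A) * M σ * ((v⁻¹ : (Matrix (Fin 2) (Fin 2) A)ˣ) :
    Matrix (Fin 2) (Fin 2) A)
  map_one' := by rw [map_one, mul_one, Units.mul_inv]
  map_mul' σ τ := by
    rw [map_mul]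
    have h : ((v⁻¹ : (Matrix (Fin 2) (Fin 2) A)ˣ) : Matrix (Fin 2) (Fin 2) A) *
        (v : Matrix (Fin 2) (Fin 2) A) = 1 := Units.inv_mul v
    calc (v : Matrix (Fin 2) (Fin 2) A) * (M σ * M τ) * ((v⁻¹ : (Matrix (Fin 2) (Fin 2) A)ˣ) :
          Matrix (Fin 2) (Fin 2) A)
        = (v : Matrix (Fin 2) (Fin 2) A) * M σ * 1 * (M τ *
            ((v⁻¹ : (Matrix (Fin 2) (Fin 2) A)ˣ) : Matrix (Fin 2) (Fin 2) A)) := by
          rw [mul_one]; simp only [mul_assoc]
      _ = _ := by rw [← h]; simp only [mul_assoc]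

theorem conjRep_mul {A : Type} [CommRing A] (v : (Matrix (Fin 2) (Fin 2) A)ˣ)
    (M : Gal →* Matrix (Fin 2) (Fin 2) A) (σ : Gal) :
    (v : Matrix (Fin 2) (Fin 2) A) * M σ = conjRep v M σ * (v : Matrix (Fin 2) (Fin 2) A) := by
  show _ = (v : Matrix (Fin 2) (Fin 2) A) * M σ *
    ((v⁻¹ : (Matrix (Fin 2) (Fin 2) A)ˣ) : Matrix (Fin 2) (Fin 2) A) *
      (v : Matrix (Fin 2) (Fin 2) A)
  rw [mul_assoc _ _ (v : Matrix (Fin 2) (Fin 2) A), Units.inv_mul, mul_one]

section C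
variable (𝒪 : Type) [CommRing 𝒪] [IsLocalRing 𝒪] [Finite (ResidueField 𝒪)]
variable (ρbar : ResidualGaloisRep (ResidueField 𝒪))

/-- C1: an adic representation with the right residual representation is equivalent to a
strict matrix lift. -/
theorem C1_strict_of_adic
    {A : Type} [CommRing A] [IsLocalRing A] [Algebra 𝒪 A]
    (hloc : IsLocalHom (algebraMap 𝒪 A))
    (hsurj : Function.Surjective (residue A ∘ algebraMap 𝒪 A))
    (ρA : GaloisRepAdic A)
    (hres : ρA.residual.IsEquiv (ρbar.baseChangeAlong (kappa 𝒪 A hloc))) :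
    ∃ (M : Gal →* Matrix (Fin 2) (Fin 2) A) (hM : MatCont M),
      IsStrictLift 𝒪 hloc ρbar M ∧ (toAdic M hM).IsEquiv ρA := by
  obtain ⟨M₀, hM₀, hE⟩ := I2_exists_matrix ρA
  have h1 : (toAdic M₀ hM₀).residual.IsEquiv (ρbar.baseChangeAlong (kappa 𝒪 A hloc)) := by
    obtain ⟨e⟩ := hE
    obtain ⟨e'⟩ := hres
    exact ⟨(GaloisRepAdic.Equiv.residual e).trans e'⟩
  obtain ⟨u, hu, huM⟩ := (I5_residual_iff 𝒪 hloc ρbar M₀ hM₀).1 h1
  obtain ⟨v, hv, hvu⟩ := I7_lift_unit u hu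
  have hconj : ∀ σ, v * M₀ σ = conjRep hv.unit M₀ σ * v := fun σ => by
    have := conjRep_mul hv.unit M₀ σ
    rwa [IsUnit.unit_spec] at this
  have hM : MatCont (conjRep hv.unit M₀) :=
    I3b_matCont_conj M₀ (conjRep hv.unit M₀) hM₀ v hv hconj
  refine ⟨conjRep hv.unit M₀, hM, ?_, ?_⟩
  · intro σ
    have h2 : (v * M₀ σ).map (residue A) = (conjRep hv.unit M₀ σ * v).map (residue A) := by
      rw [hconj σ]
    rw [Matrix.map_mul, Matrix.map_mul, hvu] at h2
    have h3 : (conjRep hv.unit M₀ σ).map (residue A) * u =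
        (rbMat ρbar σ).map (kappa 𝒪 A hloc) * u := by
      rw [← h2, huM σ]
    exact hu.mul_left_injective h3
  · obtain ⟨e⟩ := I3_isEquiv_of_conj M₀ (conjRep hv.unit M₀) hM₀ hM v hv hconj
    obtain ⟨e'⟩ := hE
    exact ⟨e.symm.trans e'⟩

/-- C1b: conversely the residual representation of a strict lift is the right one. -/
theorem C1b_residual_of_strict
    {A : Type} [CommRing A] [IsLocalRing A] [Algebra 𝒪 A]
    (hloc : IsLocalHom (algebraMap 𝒪 A))
    (M : Gal →* Matrix (Fin 2) (Fin 2) A) (hM : MatCont M)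
    (hs : IsStrictLift 𝒪 hloc ρbar M) :
    (toAdic M hM).residual.IsEquiv (ρbar.baseChangeAlong (kappa 𝒪 A hloc)) :=
  (I5_residual_iff 𝒪 hloc ρbar M hM).2
    ⟨1, isUnit_one, fun σ => by rw [one_mul, mul_one]; exact hs σ⟩

end C

end Fermat.Agent.S53_helper27_C1

end
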