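import Mathlib
import Fermat.Agent.S53_helper16_Defs
import Fermat.Agent.S53_helper16_Core
import Fermat.Agent.S53_helper8_H5

set_option autoImplicit false

open IsLocalRing Fermat.Agent.S53_helper16_Defs Fermat.Agent.S53_helper16_Core GaloisRep

namespace Fermat.Agent.S53_helper27_D2

set_option linter.unusedSectionVars false

section D
variable (𝒪 : Type) [CommRing 𝒪] [IsLocalRing 𝒪] [Finite (ResidueField 𝒪)]
variable [IsNoetherianRing 𝒪] [IsAdicComplete (maximalIdeal 𝒪) 𝒪]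

/-- the maximal ideal of the power series ring is mapped into the maximal ideal -/
theorem lam_map_maximalIdeal_le {d : ℕ} {A : Type} [CommRing A] [IsLocalRing A] [Algebra 𝒪 A]
    (hloc : IsLocalHom (algebraMap 𝒪 A))
    (φ : Lam 𝒪 d →ₐ[𝒪] A) (hX : ∀ i, φ (MvPowerSeries.X i) ∈ maximalIdeal A) :
    (maximalIdeal (Lam 𝒪 d)).map (φ : Lam 𝒪 d →+* A) ≤ maximalIdeal A := by
  rw [Fermat.Agent.S53_helper8_H5.H5d_maximalIdeal_eq' 𝒪 d, Ideal.map_sup]
  refine sup_le ?_ ?_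
  · rw [Ideal.map_map, Ideal.map_le_iff_le_comap]
    intro c hc
    rw [Ideal.mem_comap]
    have h1 : ((φ : Lam 𝒪 d →+* A).comp (algebraMap 𝒪 (MvPowerSeries (Fin d) 𝒪))) c =
        algebraMap 𝒪 A c := by
      rw [RingHom.comp_apply]
      exact φ.commutes c
    rw [h1]
    exact haveI := hloc; map_nonunit (algebraMap 𝒪 A) c hc
  · rw [Ideal.map_span, Ideal.span_le]
    rintro _ ⟨_, ⟨i, rfl⟩, rfl⟩
    exact hX i

/-- D2b: such a map sends the maximal ideal into the maximal ideal, hence kills a power of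
it. -/
theorem D2b_lam_map_maximalIdeal {d : ℕ} {A : Type} [CommRing A] [IsLocalRing A] [Algebra 𝒪 A]
    (hloc : IsLocalHom (algebraMap 𝒪 A))
    (φ : Lam 𝒪 d →ₐ[𝒪] A) (hX : ∀ i, φ (MvPowerSeries.X i) ∈ maximalIdeal A) (n : ℕ) :
    (maximalIdeal (Lam 𝒪 d) ^ n).map (φ : Lam 𝒪 d →+* A) ≤ maximalIdeal A ^ n := by
  rw [Ideal.map_pow]
  exact Ideal.pow_right_mono (lam_map_maximalIdeal_le 𝒪 hloc φ hX) n

/-- D2: two `𝒪`-algebra maps from the power series ring to a local `𝒪`-algebra with nilpotent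
maximal ideal agree as soon as they agree on the variables (whose images are assumed to lie in
the maximal ideal). -/
theorem D2_lam_hom_ext {d : ℕ} {A : Type} [CommRing A] [IsLocalRing A] [Algebra 𝒪 A]
    (hloc : IsLocalHom (algebraMap 𝒪 A)) (hnil : ∃ n : ℕ, maximalIdeal A ^ n = ⊥)
    (φ φ' : Lam 𝒪 d →ₐ[𝒪] A) (hX : ∀ i, φ (MvPowerSeries.X i) ∈ maximalIdeal A)
    (h : ∀ i, φ (MvPowerSeries.X i) = φ' (MvPowerSeries.X i)) : φ = φ' := by
  obtain ⟨n, hn⟩ := hnil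
  have hX' : ∀ i, φ' (MvPowerSeries.X i) ∈ maximalIdeal A := fun i => h i ▸ hX i
  have hkill : ∀ (ψ : Lam 𝒪 d →ₐ[𝒪] A), (∀ i, ψ (MvPowerSeries.X i) ∈ maximalIdeal A) →
      ∀ g ∈ maximalIdeal (Lam 𝒪 d) ^ n, ψ g = 0 := by
    intro ψ hψ g hg
    have h1 := D2b_lam_map_maximalIdeal 𝒪 hloc ψ hψ n (Ideal.mem_map_of_mem _ hg)
    rw [hn] at h1
    simpa using h1
  have hadj : ∀ p ∈ Algebra.adjoin 𝒪
      (Set.range (MvPowerSeries.X : Fin d → MvPowerSeries (Fin d) 𝒪)), φ p = φ' p := by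
    intro p hp
    have hEq : Set.EqOn φ φ'
        (Set.range (MvPowerSeries.X : Fin d → MvPowerSeries (Fin d) 𝒪)) := by
      rintro _ ⟨i, rfl⟩
      exact h i
    exact AlgHom.eqOn_adjoin_iff.mpr hEq hp
  ext f
  obtain ⟨p, hp, hfp⟩ := Fermat.Agent.S53_helper8_H5.H5e_dense' 𝒪 d f n
  have e1 : φ f = φ p := by
    have := hkill φ hX _ hfp
    rwa [map_sub, sub_eq_zero] at this
  have e2 : φ' f = φ' p := by
    have := hkill φ' hX' _ hfp
    rwa [map_sub, sub_eq_zero] at this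
  rw [e1, e2, hadj p hp]

end D

end Fermat.Agent.S53_helper27_D2
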