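import Mathlib
import Fermat.Agent.S53_helper16_Defs
import Fermat.Agent.S53_helper16_Core
import Fermat.Agent.S53_helper15_I4
import Fermat.Agent.S53_helper29_I3
import Fermat.Agent.S53_helper23_I7

set_option autoImplicit false
set_option linter.unusedSectionVars false

open IsLocalRing Fermat.Agent.S53_helper16_Defs Fermat.Agent.S53_helper16_Core GaloisRep

namespace Fermat.Agent.S53_helper3_C2

section C
variable (𝒪 : Type) [CommRing 𝒪] [IsLocalRing 𝒪] [Finite (ResidueField 𝒪)]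
variable (ρbar : ResidualGaloisRep (ResidueField 𝒪))
variable (𝒟 : ∀ ⦃A : Type⦄ [CommRing A] [IsLocalRing A] [Algebra 𝒪 A], GaloisRepAdic A → Prop)

theorem kappa_comp {A B : Type} [CommRing A] [IsLocalRing A] [Algebra 𝒪 A]
    [CommRing B] [IsLocalRing B] [Algebra 𝒪 B]
    (hlocA : IsLocalHom (algebraMap 𝒪 A)) (hlocB : IsLocalHom (algebraMap 𝒪 B))
    (φ : A →ₐ[𝒪] B) (hφ : IsLocalHom (φ : A →+* B)) (x : ResidueField 𝒪) :
    (@ResidueField.map A B _ _ _ _ (φ : A →+* B) hφ) (kappa 𝒪 A hlocA x) =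
      kappa 𝒪 B hlocB x := by
  obtain ⟨c, rfl⟩ := residue_surjective x
  simp only [kappa]
  have e1 : (@ResidueField.map 𝒪 A _ _ _ _ (algebraMap 𝒪 A) hlocA) (residue 𝒪 c) =
      residue A (algebraMap 𝒪 A c) := rfl
  have e2 : (@ResidueField.map 𝒪 B _ _ _ _ (algebraMap 𝒪 B) hlocB) (residue 𝒪 c) =
      residue B (algebraMap 𝒪 B c) := rfl
  rw [e1, e2]
  have e3 : (@ResidueField.map A B _ _ _ _ (φ : A →+* B) hφ) (residue A (algebraMap 𝒪 A c)) =
      residue B ((φ : A →+* B) (algebraMap 𝒪 A c)) := rfl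
  rw [e3]
  congr 1
  exact φ.commutes c

/-- C2a: strictness is preserved by `𝒪`-algebra maps. -/
theorem C2a_strict_map {A B : Type} [CommRing A] [IsLocalRing A] [Algebra 𝒪 A]
    [CommRing B] [IsLocalRing B] [Algebra 𝒪 B]
    (hlocA : IsLocalHom (algebraMap 𝒪 A)) (hlocB : IsLocalHom (algebraMap 𝒪 B))
    (φ : A →ₐ[𝒪] B) (hφ : IsLocalHom (φ : A →+* B))
    {M : Gal →* Matrix (Fin 2) (Fin 2) A} (hM : IsStrictLift 𝒪 hlocA ρbar M) :
    IsStrictLift 𝒪 hlocB ρbar (mapRep (φ : A →+* B) M) := by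
  intro σ
  have h1 := hM σ
  ext i j
  have h2 := congrFun (congrFun h1 i) j
  simp only [Matrix.map_apply] at h2
  simp only [mapRep_apply, Matrix.map_apply]
  have h3 : residue B ((φ : A →+* B) (M σ i j)) =
      (@ResidueField.map A B _ _ _ _ (φ : A →+* B) hφ) (residue A (M σ i j)) := by
    rfl
  rw [h3, h2]
  exact kappa_comp 𝒪 hlocA hlocB φ hφ _

/-- C2b: `𝒟`-lifts are preserved by maps of Artinian test algebras. -/
theorem C2b_dlift_map (h𝒟 : IsDeformationCondition 𝒪 𝒟)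
    {A B : Type} [CommRing A] [IsLocalRing A] [Algebra 𝒪 A]
    [CommRing B] [IsLocalRing B] [Algebra 𝒪 B]
    (hA : IsArtinianTestAlgebra 𝒪 A) (hB : IsArtinianTestAlgebra 𝒪 B)
    (φ : A →ₐ[𝒪] B) (hφ : IsLocalHom (φ : A →+* B))
    {M : Gal →* Matrix (Fin 2) (Fin 2) A} (hM : IsDLift 𝒪 ρbar 𝒟 hA.isLocalHom M) :
    IsDLift 𝒪 ρbar 𝒟 hB.isLocalHom (mapRep (φ : A →+* B) M) where
  cont := matCont_mapRep (φ : A →+* B) hφ hM.cont
  strict := C2a_strict_map 𝒪 ρbar hA.isLocalHom hB.isLocalHom φ hφ hM.strict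
  isD := h𝒟.of_isEquiv hB (Fermat.Agent.S53_helper15_I4.I4_baseChangeAlong_toAdic (φ : A →+* B) hφ M hM.cont)
    (h𝒟.baseChangeAlong hA hB φ hφ hM.isD)

/-- C2c: `𝒟`-lifts are preserved by conjugation by matrices reducing to `1`. -/
theorem C2c_dlift_conj (h𝒟 : IsDeformationCondition 𝒪 𝒟)
    {A : Type} [CommRing A] [IsLocalRing A] [Algebra 𝒪 A]
    (hA : IsArtinianTestAlgebra 𝒪 A)
    {M M' : Gal →* Matrix (Fin 2) (Fin 2) A} (hM : IsDLift 𝒪 ρbar 𝒟 hA.isLocalHom M)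
    (u : Matrix (Fin 2) (Fin 2) A) (hu : u.map (residue A) = 1)
    (h : ∀ σ, u * M σ = M' σ * u) :
    IsDLift 𝒪 ρbar 𝒟 hA.isLocalHom M' := by
  have huu : IsUnit u := Fermat.Agent.S53_helper23_I7.I7b_isUnit_of_map_residue u (by rw [hu]; exact isUnit_one)
  have hcont : MatCont M' := Fermat.Agent.S53_helper29_I3.I3b_matCont_conj M M' hM.cont u huu h
  refine ⟨hcont, ?_, ?_⟩
  · intro σ
    rw [← hM.strict σ]
    have h1 := congrArg (fun X => X.map (residue A)) (h σ)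
    simp only [Matrix.map_mul, hu, one_mul, mul_one] at h1
    exact h1.symm
  · exact h𝒟.of_isEquiv hA (Fermat.Agent.S53_helper29_I3.I3_isEquiv_of_conj M M' hM.cont hcont u huu h) hM.isD

end C

end Fermat.Agent.S53_helper3_C2
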