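import Mathlib
import Fermat.Agent.S53_helper16_Defs
import Fermat.Agent.S53_helper16_Core
import Fermat.Agent.S53_helper15_I4
import Fermat.Agent.S53_helper18_Descent
import Fermat.Agent.S53_helper28_C0
import Fermat.Agent.S53_helper3_C2

set_option autoImplicit false

open IsLocalRing Fermat.Agent.S53_helper16_Defs Fermat.Agent.S53_helper16_Core GaloisRep

namespace Fermat.Agent.S53_helper28_C3

/-- In an Artinian local ring every element of the maximal ideal is nilpotent. -/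
theorem isNilpotent_of_mem_maximalIdeal {A : Type} [CommRing A] [IsLocalRing A]
    [IsArtinianRing A] {x : A} (hx : x ∈ maximalIdeal A) : IsNilpotent x := by
  have h1 : IsNilpotent (⊥ : Ideal A).jacobson := IsArtinianRing.isNilpotent_jacobson_bot
  obtain ⟨n, hn⟩ := h1
  refine ⟨n, ?_⟩
  have h2 : x ∈ (⊥ : Ideal A).jacobson := by
    rw [IsLocalRing.jacobson_eq_maximalIdeal ⊥ bot_ne_top]
    exact hx
  have h3 : x ^ n ∈ (⊥ : Ideal A).jacobson ^ n := Ideal.pow_mem_pow h2 n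
  rw [hn] at h3
  simpa using h3

/-- The maximal ideal of an Artinian local ring is nilpotent. -/
theorem exists_maximalIdeal_pow_eq_bot {A : Type} [CommRing A] [IsLocalRing A]
    [IsArtinianRing A] : ∃ n : ℕ, maximalIdeal A ^ n = ⊥ := by
  have h1 : IsNilpotent (⊥ : Ideal A).jacobson := IsArtinianRing.isNilpotent_jacobson_bot
  obtain ⟨n, hn⟩ := h1
  refine ⟨n, ?_⟩
  rw [← IsLocalRing.jacobson_eq_maximalIdeal ⊥ bot_ne_top]
  simpa using hn

/-- An injective ring hom out of a local ring with nil maximal ideal into a nontrivial ring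
is local. -/
theorem isLocalHom_of_injective_of_nil {A₀ A : Type} [CommRing A₀] [CommRing A]
    [IsLocalRing A₀] [Nontrivial A] (ι : A₀ →+* A)
    (hnil : ∀ x ∈ maximalIdeal A₀, IsNilpotent x) : IsLocalHom ι := by
  refine ⟨fun a ha => ?_⟩
  by_contra hna
  have h1 : a ∈ maximalIdeal A₀ := (IsLocalRing.mem_maximalIdeal a).mpr hna
  obtain ⟨n, hn⟩ := hnil a h1
  have h2 : (ι a) ^ n = 0 := by rw [← map_pow, hn, map_zero]
  have h3 : IsUnit ((ι a) ^ n) := ha.pow n
  rw [h2] at h3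
  exact not_isUnit_zero h3

section C
variable (𝒪 : Type) [CommRing 𝒪] [IsLocalRing 𝒪] [Finite (ResidueField 𝒪)]
variable (ρbar : ResidualGaloisRep (ResidueField 𝒪))
variable (𝒟 : ∀ ⦃A : Type⦄ [CommRing A] [IsLocalRing A] [Algebra 𝒪 A], GaloisRepAdic A → Prop)

/-- C3: Carayol descent for `𝒟`-lifts. -/
theorem C3_dlift_descend (habs : ρbar.IsAbsolutelyIrreducible)
    (h𝒟 : IsDeformationCondition 𝒪 𝒟)
    {A₀ A : Type} [CommRing A₀] [IsLocalRing A₀] [Algebra 𝒪 A₀]
    [CommRing A] [IsLocalRing A] [Algebra 𝒪 A]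
    (hA₀ : IsArtinianTestAlgebra 𝒪 A₀) (hA : IsArtinianTestAlgebra 𝒪 A)
    (ι : A₀ →ₐ[𝒪] A) (hι : Function.Injective ι)
    {M : Gal →* Matrix (Fin 2) (Fin 2) A} (hM : IsDLift 𝒪 ρbar 𝒟 hA.isLocalHom M)
    (htr : ∀ σ, (M σ).trace ∈ (ι : A₀ →+* A).range) :
    ∃ M₀ : Gal →* Matrix (Fin 2) (Fin 2) A₀, IsDLift 𝒪 ρbar 𝒟 hA₀.isLocalHom M₀ ∧
      ∀ σ, ι ((M₀ σ).trace) = (M σ).trace := by
  haveI := hA₀.isArtinian
  haveI := hA.isArtinian
  have hnil : ∀ x ∈ maximalIdeal A₀, IsNilpotent x := fun x hx =>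
    isNilpotent_of_mem_maximalIdeal hx
  have hιloc : IsLocalHom (ι : A₀ →+* A) := isLocalHom_of_injective_of_nil _ hnil
  -- residue surjectivity in the form needed by `H3`
  have hk : ∀ a : A, ∃ a0 : A₀, a - (ι : A₀ →+* A) a0 ∈ maximalIdeal A := by
    intro a
    obtain ⟨c, hc⟩ := hA.residue_surjective (residue A a)
    refine ⟨algebraMap 𝒪 A₀ c, ?_⟩
    rw [← Ideal.Quotient.eq]
    change residue A a = residue A ((ι : A₀ →+* A) (algebraMap 𝒪 A₀ c))
    rw [← hc]
    simp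
  have hspan := Fermat.Agent.S53_helper28_C0.C0_hspan 𝒪 ρbar habs hA.isLocalHom hA.residue_surjective M hM.strict
  obtain ⟨M₀, u, hu, hu1, hconj⟩ :=
    Fermat.Agent.S53_helper18.descent (ι : A₀ →+* A) hι
      (fun x hx => isNilpotent_of_mem_maximalIdeal hx) hk M hspan htr
  -- the pushed-forward representation is a `𝒟`-lift over `A`
  have hM' : IsDLift 𝒪 ρbar 𝒟 hA.isLocalHom (mapRep (ι : A₀ →+* A) M₀) :=
    Fermat.Agent.S53_helper3_C2.C2c_dlift_conj 𝒪 ρbar 𝒟 h𝒟 hA hM u hu1 (fun σ => by rw [mapRep_apply]; exact hconj σ)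
  -- continuity of `M₀`
  have hcont : MatCont M₀ := by
    intro n
    obtain ⟨N, hN⟩ := exists_maximalIdeal_pow_eq_bot (A := A)
    obtain ⟨L, hL, h⟩ := hM'.cont N
    refine ⟨L, hL, fun σ hσ i j => ?_⟩
    have h1 : (mapRep (ι : A₀ →+* A) M₀ σ - 1) i j = 0 := by
      have := h σ hσ i j
      rw [hN] at this
      simpa using this
    have h2 : (ι : A₀ →+* A) ((M₀ σ - 1) i j) = 0 := by
      rw [← h1]
      simp only [mapRep_apply, Matrix.sub_apply, Matrix.map_apply, map_sub]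
      congr 1
      by_cases hij : i = j
      · subst hij; simp
      · simp [Matrix.one_apply_ne hij]
    have h3 : (M₀ σ - 1) i j = 0 :=
      hι (show ι ((M₀ σ - 1) i j) = ι 0 by rw [map_zero]; exact h2)
    rw [h3]
    exact Ideal.zero_mem _
  -- strictness of `M₀`
  have hstrict : IsStrictLift 𝒪 hA₀.isLocalHom ρbar M₀ := by
    intro σ
    ext i j
    simp only [Matrix.map_apply]
    obtain ⟨c, hc⟩ := residue_surjective (R := 𝒪) (rbMat ρbar σ i j)
    have hs := hM'.strict σ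
    have hs' : residue A ((ι : A₀ →+* A) (M₀ σ i j)) =
        kappa 𝒪 A hA.isLocalHom (rbMat ρbar σ i j) := by
      have := congrFun (congrFun hs i) j
      simpa [mapRep_apply, Matrix.map_apply] using this
    have hκA : kappa 𝒪 A hA.isLocalHom (residue 𝒪 c) = residue A (algebraMap 𝒪 A c) := by
      haveI := hA.isLocalHom
      exact ResidueField.map_residue (algebraMap 𝒪 A) c
    have hκA₀ : kappa 𝒪 A₀ hA₀.isLocalHom (residue 𝒪 c) = residue A₀ (algebraMap 𝒪 A₀ c) := by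
      haveI := hA₀.isLocalHom
      exact ResidueField.map_residue (algebraMap 𝒪 A₀) c
    rw [← hc, hκA₀]
    rw [← hc, hκA] at hs'
    -- now compare in `A`
    have h1 : (ι : A₀ →+* A) (M₀ σ i j - algebraMap 𝒪 A₀ c) ∈ maximalIdeal A := by
      rw [map_sub, ← Ideal.Quotient.eq]
      change residue A _ = residue A _
      rw [hs']
      congr 1
      exact (ι.commutes c).symm
    have h2 : M₀ σ i j - algebraMap 𝒪 A₀ c ∈ maximalIdeal A₀ := by
      rw [IsLocalRing.mem_maximalIdeal] at h1 ⊢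
      intro hunit
      exact h1 (hunit.map (ι : A₀ →+* A))
    rw [← sub_eq_zero, ← map_sub]
    exact (IsLocalRing.residue_eq_zero_iff _).mpr h2
  -- the condition `𝒟`
  have hD : 𝒟 (toAdic M₀ hcont) := by
    refine h𝒟.of_baseChangeAlong_injective hA₀ hA ι hιloc hι ?_
    have hI4 := Fermat.Agent.S53_helper15_I4.I4_baseChangeAlong_toAdic (ι : A₀ →+* A) hιloc M₀ hcont
    obtain ⟨e⟩ := hI4
    exact h𝒟.of_isEquiv hA ⟨e.symm⟩ hM'.isD
  refine ⟨M₀, ⟨hcont, hstrict, hD⟩, fun σ => ?_⟩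
  -- traces
  have h1 : ((M₀ σ).map (ι : A₀ →+* A)).trace = (M σ).trace := by
    obtain ⟨w, rfl⟩ := hu
    have h2 : (M₀ σ).map (ι : A₀ →+* A) =
        (w : Matrix (Fin 2) (Fin 2) A) * M σ * ((w⁻¹ : (Matrix (Fin 2) (Fin 2) A)ˣ) :
          Matrix (Fin 2) (Fin 2) A) := by
      rw [hconj σ, mul_assoc, Units.mul_inv, mul_one]
    rw [h2, Matrix.trace_mul_comm, ← mul_assoc, Units.inv_mul, one_mul]
  rw [← h1]
  simp [Matrix.trace, Matrix.map_apply]

end C

end Fermat.Agent.S53_helper28_C3
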