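import Mathlib
import Fermat.Prelude.Def_GaloisRep_DeformationRingData
import Fermat.Prelude.Def_GaloisRep_DeformationCondition

set_option autoImplicit false

open IsLocalRing

namespace Fermat.Agent.S53_helper28_H6

variable {Λ : Type} [CommRing Λ] [IsLocalRing Λ] [IsNoetherianRing Λ]

/-- For each level `j` there is a member of the directed family which is least modulo `m^j`. -/
theorem exists_least_mod [Finite (ResidueField Λ)]
    (F : Set (Ideal Λ)) (hne : F.Nonempty)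
    (hdir : ∀ I ∈ F, ∀ J ∈ F, ∃ K ∈ F, K ≤ I ⊓ J) (j : ℕ) :
    ∃ I ∈ F, ∀ J ∈ F, I ≤ J ⊔ maximalIdeal Λ ^ j := by
  classical
  have : Finite (Λ ⧸ maximalIdeal Λ) := ‹Finite (ResidueField Λ)›
  have : Finite (Λ ⧸ maximalIdeal Λ ^ j) :=
    Ideal.finite_quotient_pow (IsNoetherian.noetherian (maximalIdeal Λ)) j
  have : Finite (Ideal (Λ ⧸ maximalIdeal Λ ^ j)) :=
    Finite.of_injective (fun I : Ideal (Λ ⧸ maximalIdeal Λ ^ j) => (I : Set (Λ ⧸ maximalIdeal Λ ^ j)))
      SetLike.coe_injective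
  set q := Ideal.Quotient.mk (maximalIdeal Λ ^ j) with hq
  have hsurj : Function.Surjective q := Ideal.Quotient.mk_surjective
  let T : Set (Ideal (Λ ⧸ maximalIdeal Λ ^ j)) := (fun I => Ideal.map q I) '' F
  have hT : T.Nonempty := hne.image _
  obtain ⟨M, hMT, hMmin⟩ := (Set.toFinite T).exists_minimal hT
  obtain ⟨I, hIF, rfl⟩ := hMT
  refine ⟨I, hIF, fun J hJF => ?_⟩
  obtain ⟨K, hKF, hK⟩ := hdir I hIF J hJF
  have hKI : Ideal.map q K ≤ Ideal.map q I := Ideal.map_mono (hK.trans inf_le_left)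
  have hKJ : Ideal.map q K ≤ Ideal.map q J := Ideal.map_mono (hK.trans inf_le_right)
  have hIK : Ideal.map q I ≤ Ideal.map q K := hMmin ⟨K, hKF, rfl⟩ hKI
  have hIJ : Ideal.map q I ≤ Ideal.map q J := hIK.trans hKJ
  have h1 : I ≤ Ideal.comap q (Ideal.map q I) := Ideal.le_comap_map
  have h2 : Ideal.comap q (Ideal.map q J) = J ⊔ maximalIdeal Λ ^ j := by
    rw [Ideal.comap_map_of_surjective q hsurj, ← RingHom.ker_eq_comap_bot, hq, Ideal.mk_ker]
  calc I ≤ Ideal.comap q (Ideal.map q I) := h1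
    _ ≤ Ideal.comap q (Ideal.map q J) := Ideal.comap_mono hIJ
    _ = J ⊔ maximalIdeal Λ ^ j := h2

/-- H6 (Chevalley-type lemma). -/
theorem H6_chevalley
    [IsAdicComplete (maximalIdeal Λ) Λ] [Finite (ResidueField Λ)]
    (F : Set (Ideal Λ)) (hne : F.Nonempty)
    (hdir : ∀ I ∈ F, ∀ J ∈ F, ∃ K ∈ F, K ≤ I ⊓ J)
    (hopen : ∀ I ∈ F, ∃ n : ℕ, maximalIdeal Λ ^ n ≤ I) (n : ℕ) :
    ∃ I ∈ F, I ≤ sInf F ⊔ maximalIdeal Λ ^ n := by
  classical
  set m := maximalIdeal Λ with hm
  -- choose least members at each level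
  choose Ic hIcF hIcmin using fun j => exists_least_mod F hne hdir j
  refine ⟨Ic n, hIcF n, fun x hx => ?_⟩
  -- one step of the approximation
  have step : ∀ j : ℕ, ∀ y ∈ Ic j, ∃ y' ∈ Ic (j + 1), y - y' ∈ m ^ j := by
    intro j y hy
    have : y ∈ Ic (j + 1) ⊔ m ^ j := hIcmin j (Ic (j + 1)) (hIcF (j + 1)) hy
    obtain ⟨a, ha, b, hb, hab⟩ := Submodule.mem_sup.mp this
    exact ⟨a, ha, by rw [← hab]; simpa using hb⟩
  -- the sequence, as a dependent sequence in subtypes
  let s : (i : ℕ) → {y : Λ // y ∈ Ic (n + i)} := fun i =>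
    Nat.rec (motive := fun i => {y : Λ // y ∈ Ic (n + i)}) ⟨x, hx⟩
      (fun i y => ⟨(step (n + i) y.1 y.2).choose, (step (n + i) y.1 y.2).choose_spec.1⟩) i
  let t : ℕ → Λ := fun i => (s i).1
  have ht_mem : ∀ i, t i ∈ Ic (n + i) := fun i => (s i).2
  have hs_succ : ∀ i, t i - t (i + 1) ∈ m ^ (n + i) := fun i =>
    (step (n + i) (s i).1 (s i).2).choose_spec.2
  have hs0 : t 0 = x := rfl
  -- telescoping
  have htel : ∀ i l, t i - t (i + l) ∈ m ^ (n + i) := by
    intro i l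
    induction l with
    | zero => simp
    | succ l ih =>
      have h1 : t (i + l) - t (i + l + 1) ∈ m ^ (n + i) :=
        Ideal.pow_le_pow_right (by omega) (hs_succ (i + l))
      have : t i - t (i + (l + 1)) =
          (t i - t (i + l)) + (t (i + l) - t (i + l + 1)) := by
        rw [← add_assoc]; ring
      rw [this]
      exact Ideal.add_mem _ ih h1
  -- Cauchy
  have hcauchy : ∀ {a b : ℕ}, a ≤ b →
      t a ≡ t b [SMOD (m ^ a • ⊤ : Submodule Λ Λ)] := by
    intro a b hab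
    obtain ⟨l, rfl⟩ := Nat.exists_eq_add_of_le hab
    rw [SModEq.sub_mem, smul_eq_mul, Ideal.mul_top]
    exact Ideal.pow_le_pow_right (by omega) (htel a l)
  obtain ⟨L, hL⟩ := IsPrecomplete.prec (IsAdicComplete.toIsPrecomplete (I := m) (M := Λ)) hcauchy
  have hL' : ∀ i, t i - L ∈ m ^ i := by
    intro i
    have := hL i
    rwa [SModEq.sub_mem, smul_eq_mul, Ideal.mul_top] at this
  -- `L` lies in every member of `F`
  have hLF : L ∈ sInf F := by
    rw [Submodule.mem_sInf]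
    intro I hI
    obtain ⟨N, hN⟩ := hopen I hI
    have h1 : t N ∈ I := by
      have h2 : t N ∈ I ⊔ m ^ (n + N) := hIcmin (n + N) I hI (ht_mem N)
      have h3 : I ⊔ m ^ (n + N) ≤ I :=
        sup_le le_rfl ((Ideal.pow_le_pow_right (by omega)).trans hN)
      exact h3 h2
    have h4 : t N - L ∈ I := hN (hL' N)
    have : L = t N - (t N - L) := by ring
    rw [this]
    exact Ideal.sub_mem _ h1 h4
  -- conclude
  have hxL : x - L ∈ m ^ n := by
    have h1 : t 0 - t (0 + n) ∈ m ^ (n + 0) := htel 0 n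
    have h2 : t (0 + n) - L ∈ m ^ n := by simpa using hL' n
    have : x - L = (t 0 - t (0 + n)) + (t (0 + n) - L) := by rw [hs0]; ring
    rw [this]
    exact Ideal.add_mem _ (by simpa using h1) h2
  have : x = L + (x - L) := by ring
  rw [this]
  exact Submodule.add_mem_sup hLF hxL

end Fermat.Agent.S53_helper28_H6
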