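import Mathlib
import Fermat.Agent.S53_helper16_Defs
import Fermat.Agent.S53_helper16_Core
import Fermat.Agent.S53_helper26_H7
import Fermat.Agent.S53_helper28_C3
import Fermat.Agent.S53_helper3_C2

set_option autoImplicit false

open IsLocalRing Fermat.Agent.S53_helper16_Defs Fermat.Agent.S53_helper16_Core GaloisRep

namespace Fermat.Agent.S53_helper28_T1

/-- The trace of a mapped matrix. -/
theorem trace_map_ringHom {A B : Type} [CommRing A] [CommRing B] (φ : A →+* B)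
    (m : Matrix (Fin 2) (Fin 2) A) : (m.map φ).trace = φ m.trace := by
  simp [Matrix.trace, Matrix.map_apply]

section T
variable (𝒪 : Type) [CommRing 𝒪] [IsLocalRing 𝒪] [Finite (ResidueField 𝒪)]
  [IsNoetherianRing 𝒪] [IsAdicComplete (maximalIdeal 𝒪) 𝒪]
variable (ρbar : ResidualGaloisRep (ResidueField 𝒪))
variable (𝒟 : ∀ ⦃A : Type⦄ [CommRing A] [IsLocalRing A] [Algebra 𝒪 A], GaloisRepAdic A → Prop)
variable {d : ℕ} (h : Fin d → Gal) (a : Fin d → 𝒪)

/-- T1: a member of the family gives tautological `𝒟`-lifts over all Artinian quotients of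
`Λ` lying above it. -/
theorem T1_exists_taut (habs : ρbar.IsAbsolutelyIrreducible)
    (h𝒟 : IsDeformationCondition 𝒪 𝒟) (hgen : Generates 𝒪 ρbar 𝒟 d h)
    (ha : ∀ i, residue 𝒪 (a i) = (rbMat ρbar (h i)).trace)
    {I : Ideal (Lam 𝒪 d)} (hI : I ∈ famF 𝒪 ρbar 𝒟 h a)
    {B : Type} [CommRing B] [IsLocalRing B] [Algebra 𝒪 B] (hB : IsArtinianTestAlgebra 𝒪 B)
    (π : Lam 𝒪 d →ₐ[𝒪] B) (hπ : Function.Surjective π)
    (hle : I ≤ RingHom.ker (π : Lam 𝒪 d →+* B)) :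
    ∃ M : Gal →* Matrix (Fin 2) (Fin 2) B, IsDLift 𝒪 ρbar 𝒟 hB.isLocalHom M ∧
      ∀ i, (M (h i)).trace = π (tautTr 𝒪 a i) := by
  obtain ⟨A, instA1, instA2, instA3, hA, MA, hMA, ψ, hψ, rfl⟩ := hI
  -- the image of `ψ`
  letI : IsLocalRing ψ.range := Fermat.Agent.S53_helper26_H7.H7b_isLocalRing 𝒪 hA ψ.range
  obtain ⟨hA₀, -⟩ := Fermat.Agent.S53_helper26_H7.H7c_isArtinianTestAlgebra 𝒪 hA ψ.range
  -- traces lie in the image
  have htr : ∀ σ, (MA σ).trace ∈ ((ψ.range.val : ψ.range →ₐ[𝒪] A) : ψ.range →+* A).range := by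
    intro σ
    have h1 := hgen hA MA hMA σ
    have h2 : Algebra.adjoin 𝒪 (Set.range fun i => (MA (h i)).trace) ≤ ψ.range := by
      refine Algebra.adjoin_le ?_
      rintro _ ⟨i, rfl⟩
      exact ⟨tautTr 𝒪 a i, hψ i⟩
    exact ⟨⟨_, h2 h1⟩, rfl⟩
  obtain ⟨M₀, hM₀, hM₀tr⟩ := Fermat.Agent.S53_helper28_C3.C3_dlift_descend 𝒪 ρbar 𝒟 habs h𝒟
    hA₀ hA ψ.range.val Subtype.val_injective hMA htr
  -- factor `π` through the image
  have hψ₀surj : Function.Surjective ψ.rangeRestrict := ψ.rangeRestrict_surjective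
  have hker : RingHom.ker ψ.rangeRestrict.toRingHom ≤ RingHom.ker π.toRingHom := by
    intro x hx
    apply hle
    rw [RingHom.mem_ker] at hx ⊢
    have := congrArg Subtype.val hx
    simpa using this
  let φ : ψ.range →ₐ[𝒪] B := AlgHom.liftOfSurjective ψ.rangeRestrict hψ₀surj π hker
  have hφ : ∀ x, φ (ψ.rangeRestrict x) = π x := fun x =>
    AlgHom.liftOfSurjective_apply ψ.rangeRestrict hψ₀surj π hker x
  haveI := hA₀.isArtinian
  have hφloc : IsLocalHom (φ : ψ.range →+* B) :=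
    Fermat.Agent.S53_helper28_C3.isLocalHom_of_injective_of_nil _
      (fun x hx => Fermat.Agent.S53_helper28_C3.isNilpotent_of_mem_maximalIdeal hx)
  refine ⟨mapRep (φ : ψ.range →+* B) M₀,
    Fermat.Agent.S53_helper3_C2.C2b_dlift_map 𝒪 ρbar 𝒟 h𝒟 hA₀ hB φ hφloc hM₀, fun i => ?_⟩
  rw [mapRep_apply, trace_map_ringHom]
  have h3 : (M₀ (h i)).trace = ψ.rangeRestrict (tautTr 𝒪 a i) := by
    apply Subtype.val_injective
    have := hM₀tr (h i)
    rw [← hψ i] at this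
    exact this
  rw [h3]
  exact hφ _

end T

end Fermat.Agent.S53_helper28_T1
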