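import Mathlib
import Fermat.Agent.S53_helper16_Defs
import Fermat.Agent.S53_helper16_Core

set_option autoImplicit false
set_option linter.unusedSectionVars false
set_option linter.unusedVariables false
set_option linter.style.haveILetI false

open IsLocalRing Fermat.Agent.S53_helper16_Defs Fermat.Agent.S53_helper16_Core GaloisRep

namespace Fermat.Agent.S53_helper2_D1

section D
variable (𝒪 : Type) [CommRing 𝒪] [IsLocalRing 𝒪] [Finite (ResidueField 𝒪)]

/-- D1a: the residue field is an Artinian test algebra. -/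
theorem D1a_test_residueField : IsArtinianTestAlgebra 𝒪 (ResidueField 𝒪) := by
  refine ⟨?_, ?_, ?_⟩
  · exact (inferInstance : IsLocalHom (IsLocalRing.residue 𝒪))
  · intro x
    obtain ⟨y, rfl⟩ := IsLocalRing.residue_surjective
      (R := ResidueField 𝒪) x
    obtain ⟨z, rfl⟩ := IsLocalRing.residue_surjective (R := 𝒪) y
    exact ⟨z, rfl⟩
  · infer_instance

/-- D1b: the dual numbers (with the `dualAlg` structure) are an Artinian test algebra. -/
theorem D1b_test_dualNumber :
    letI := dualAlg 𝒪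
    IsArtinianTestAlgebra 𝒪 (DualNumber (ResidueField 𝒪)) := by
  letI := dualAlg 𝒪
  have hloc1 : IsLocalHom (algebraMap (ResidueField 𝒪) (DualNumber (ResidueField 𝒪))) := by
    constructor
    intro a ha
    by_contra hna
    have h0 : a = 0 := by
      by_contra h
      exact hna (isUnit_iff_ne_zero.mpr h)
    rw [h0, map_zero] at ha
    exact not_isUnit_zero ha
  refine ⟨?_, ?_, ?_⟩
  · show IsLocalHom ((algebraMap (ResidueField 𝒪) (DualNumber (ResidueField 𝒪))).comp
      (algebraMap 𝒪 (ResidueField 𝒪)))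
    haveI : IsLocalHom (algebraMap 𝒪 (ResidueField 𝒪)) :=
      (inferInstance : IsLocalHom (IsLocalRing.residue 𝒪))
    exact RingHom.isLocalHom_comp _ _
  · intro x
    obtain ⟨y, rfl⟩ := IsLocalRing.residue_surjective (R := DualNumber (ResidueField 𝒪)) x
    -- y = a + b ε, residue y = residue (algebraMap a)
    obtain ⟨z, hz⟩ := IsLocalRing.residue_surjective (R := 𝒪) (TrivSqZeroExt.fst y)
    refine ⟨z, ?_⟩
    show residue _ (algebraMap (ResidueField 𝒪) (DualNumber (ResidueField 𝒪))
      (algebraMap 𝒪 (ResidueField 𝒪) z)) = residue _ y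
    rw [← sub_eq_zero, ← map_sub, IsLocalRing.residue_eq_zero_iff]
    have hz' : algebraMap 𝒪 (ResidueField 𝒪) z = TrivSqZeroExt.fst y := hz
    rw [hz']
    rw [IsLocalRing.mem_maximalIdeal, mem_nonunits_iff, TrivSqZeroExt.isUnit_iff_isUnit_fst]
    simp [TrivSqZeroExt.algebraMap_eq_inl]
  · have hfin : Module.Finite (ResidueField 𝒪) (DualNumber (ResidueField 𝒪)) :=
      inferInstanceAs (Module.Finite (ResidueField 𝒪) (ResidueField 𝒪 × ResidueField 𝒪))
    exact IsArtinianRing.of_finite (ResidueField 𝒪) (DualNumber (ResidueField 𝒪))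

/-- D1c: a quotient of a local ring by a proper ideal is local. -/
theorem D1c_quot_isLocalRing {S : Type} [CommRing S] [IsLocalRing S] (I : Ideal S)
    (hI : I ≠ ⊤) : IsLocalRing (S ⧸ I) := by
  haveI : Nontrivial (S ⧸ I) := Ideal.Quotient.nontrivial_iff.mpr hI
  exact IsLocalRing.of_surjective' (Ideal.Quotient.mk I) Ideal.Quotient.mk_surjective

theorem D1_maximalIdeal_quot {S : Type} [CommRing S] [IsLocalRing S] (I : Ideal S)
    (hI : I ≠ ⊤) :
    letI := D1c_quot_isLocalRing I hI
    (maximalIdeal S).map (Ideal.Quotient.mk I) = maximalIdeal (S ⧸ I) := by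
  letI := D1c_quot_isLocalRing I hI
  haveI : IsLocalHom (Ideal.Quotient.mk I) :=
    IsLocalHom.of_surjective (Ideal.Quotient.mk I) Ideal.Quotient.mk_surjective
  apply le_antisymm
  · exact IsLocalRing.map_maximalIdeal_le (Ideal.Quotient.mk I)
  · intro x hx
    obtain ⟨s, rfl⟩ := Ideal.Quotient.mk_surjective x
    apply Ideal.mem_map_of_mem
    rw [IsLocalRing.mem_maximalIdeal, mem_nonunits_iff] at hx ⊢
    intro hs
    exact hx (hs.map (Ideal.Quotient.mk I))

/-- D1d: a quotient of a Noetherian local test algebra by a proper open ideal is an Artinian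
test algebra, and the quotient map is local. -/
theorem D1d_quot_test {S : Type} [CommRing S] [IsLocalRing S] [Algebra 𝒪 S]
    [IsNoetherianRing S] (hloc : IsLocalHom (algebraMap 𝒪 S))
    (hsurj : Function.Surjective (residue S ∘ algebraMap 𝒪 S))
    (I : Ideal S) (hI : I ≠ ⊤) (n : ℕ) (hn : maximalIdeal S ^ n ≤ I) :
    letI := D1c_quot_isLocalRing I hI
    IsArtinianTestAlgebra 𝒪 (S ⧸ I) ∧
      IsLocalHom ((Ideal.Quotient.mkₐ 𝒪 I : S →ₐ[𝒪] S ⧸ I) : S →+* S ⧸ I) ∧
      maximalIdeal (S ⧸ I) ^ n = ⊥ := by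
  letI := D1c_quot_isLocalRing I hI
  have hmkloc : IsLocalHom (Ideal.Quotient.mk I) :=
    IsLocalHom.of_surjective (Ideal.Quotient.mk I) Ideal.Quotient.mk_surjective
  have hmax := D1_maximalIdeal_quot I hI
  have hpow : maximalIdeal (S ⧸ I) ^ n = ⊥ := by
    rw [← hmax, ← Ideal.map_pow, Ideal.map_eq_bot_iff_le_ker, Ideal.mk_ker]
    exact hn
  refine ⟨⟨?_, ?_, ?_⟩, ?_, hpow⟩
  · show IsLocalHom ((Ideal.Quotient.mk I).comp (algebraMap 𝒪 S))
    exact RingHom.isLocalHom_comp _ _
  · intro x
    obtain ⟨y, rfl⟩ := IsLocalRing.residue_surjective (R := S ⧸ I) x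
    obtain ⟨s, rfl⟩ := Ideal.Quotient.mk_surjective y
    obtain ⟨c, hc⟩ := hsurj (residue S s)
    refine ⟨c, ?_⟩
    show residue (S ⧸ I) (Ideal.Quotient.mk I (algebraMap 𝒪 S c)) = _
    rw [← sub_eq_zero, ← map_sub, ← map_sub, IsLocalRing.residue_eq_zero_iff]
    have h1 : algebraMap 𝒪 S c - s ∈ maximalIdeal S := by
      rw [← IsLocalRing.residue_eq_zero_iff, map_sub, sub_eq_zero]
      exact hc
    exact map_nonunit (Ideal.Quotient.mk I) _ h1
  · have hnoeth : IsNoetherianRing (S ⧸ I) := inferInstance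
    rw [isArtinianRing_iff_isNilpotent_maximalIdeal]
    exact ⟨n, hpow⟩
  · exact hmkloc

/-- D1e: a surjective ring homomorphism between local rings is local. -/
theorem D1e_isLocalHom_of_surjective {S T : Type} [CommRing S] [IsLocalRing S] [CommRing T]
    [IsLocalRing T] (f : S →+* T) (hf : Function.Surjective f) : IsLocalHom f :=
  IsLocalHom.of_surjective f hf

/-- D1f: any `𝒪`-algebra homomorphism out of an Artinian test algebra into a local ring is
local; and the maximal ideal of an Artinian test algebra is nilpotent. -/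
theorem D1f_isLocalHom_of_artinian {A B : Type} [CommRing A] [IsLocalRing A] [Algebra 𝒪 A]
    [CommRing B] [IsLocalRing B] [Algebra 𝒪 B] (hA : IsArtinianTestAlgebra 𝒪 A)
    (φ : A →ₐ[𝒪] B) : IsLocalHom (φ : A →+* B) ∧ ∃ n : ℕ, maximalIdeal A ^ n = ⊥ := by
  haveI := hA.isArtinian
  have hnil : ∃ n : ℕ, maximalIdeal A ^ n = ⊥ := by
    have h := IsArtinianRing.isNilpotent_jacobson_bot (R := A)
    rw [IsLocalRing.jacobson_eq_maximalIdeal _ bot_ne_top] at h
    exact h
  refine ⟨⟨fun a ha => ?_⟩, hnil⟩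
  by_contra hna
  obtain ⟨n, hn⟩ := hnil
  have ham : a ∈ maximalIdeal A := hna
  have han : a ^ n = 0 := by
    have : a ^ n ∈ maximalIdeal A ^ n := Ideal.pow_mem_pow ham n
    rw [hn] at this
    exact this
  have h0 : ((φ : A →+* B) a) ^ n = 0 := by
    rw [← map_pow, han, map_zero]
  have hu : IsUnit (((φ : A →+* B) a) ^ n) := ha.pow n
  rw [h0] at hu
  exact not_isUnit_zero hu

end D

end Fermat.Agent.S53_helper2_D1
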