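import Mathlib

set_option autoImplicit false

namespace Fermat.Agent.S53_helper2_D3

/-- Compatibility of a coherent system with all transition maps. -/
theorem D3_factor_compat {S : Type} [CommRing S] (I : Ideal S)
    (x : ∀ n : ℕ, S ⧸ I ^ (n + 1))
    (hx : ∀ n, Ideal.Quotient.factor (Ideal.pow_le_pow_right (Nat.le_succ (n + 1))) (x (n + 1))
      = x n) (m n : ℕ) (hmn : m ≤ n) :
    Ideal.Quotient.factor (Ideal.pow_le_pow_right (Nat.succ_le_succ hmn)) (x n) = x m := by
  induction n, hmn using Nat.le_induction with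
  | base =>
    obtain ⟨y, hy⟩ := Ideal.Quotient.mk_surjective (x m)
    rw [← hy, Ideal.Quotient.factor_mk]
  | succ n hmn ih =>
    rw [← ih, ← hx n]
    obtain ⟨y, hy⟩ := Ideal.Quotient.mk_surjective (x (n + 1))
    rw [← hy, Ideal.Quotient.factor_mk, Ideal.Quotient.factor_mk, Ideal.Quotient.factor_mk]

/-- D3: limits in an adically complete ring (index shifted by one). -/
theorem D3_exists_unique_limit {S : Type} [CommRing S] (I : Ideal S) [IsAdicComplete I S]
    (x : ∀ n : ℕ, S ⧸ I ^ (n + 1))
    (hx : ∀ n, Ideal.Quotient.factor (Ideal.pow_le_pow_right (Nat.le_succ (n + 1))) (x (n + 1))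
      = x n) :
    ∃! s : S, ∀ n, Ideal.Quotient.mk (I ^ (n + 1)) s = x n := by
  classical
  -- choose lifts
  have hsurj : ∀ n, ∃ y : S, Ideal.Quotient.mk (I ^ (n + 1)) y = x n :=
    fun n => Ideal.Quotient.mk_surjective (x n)
  choose y hy using hsurj
  -- the sequence f n := y (n - 1) is Cauchy
  have hcompat : ∀ m n, m ≤ n → y m - y n ∈ I ^ (m + 1) := by
    intro m n hmn
    have h := D3_factor_compat I x hx m n hmn
    rw [← hy n, ← hy m, Ideal.Quotient.factor_mk] at h
    have h2 := (Ideal.Quotient.eq).1 h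
    have : y m - y n = -(y n - y m) := by ring
    rw [this]
    exact (I ^ (m + 1)).neg_mem h2
  have hprec : ∃ L : S, ∀ n, (fun k => y (k - 1)) n ≡ L [SMOD (I ^ n • ⊤ : Submodule S S)] := by
    apply IsPrecomplete.prec (I := I) (M := S) inferInstance
    intro m n hmn
    rcases Nat.eq_zero_or_pos m with h0 | hpos
    · subst h0
      rw [SModEq.sub_mem]
      simp
    · have hm : m - 1 + 1 = m := Nat.sub_add_cancel hpos
      have hle : m - 1 ≤ n - 1 := Nat.sub_le_sub_right hmn 1
      have := hcompat (m - 1) (n - 1) hle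
      rw [hm] at this
      rw [SModEq.sub_mem]
      simpa using this
  obtain ⟨L, hL⟩ := hprec
  refine ⟨L, ?_, ?_⟩
  · intro n
    have h := hL (n + 1)
    rw [SModEq.sub_mem] at h
    have h' : y n - L ∈ I ^ (n + 1) := by simpa using h
    rw [← hy n]
    exact ((Ideal.Quotient.eq).2 h').symm
  · intro s hs
    have hmem : ∀ n, s - L ∈ I ^ (n + 1) := by
      intro n
      have h1 := hs n
      have h := hL (n + 1)
      rw [SModEq.sub_mem] at h
      have h' : y n - L ∈ I ^ (n + 1) := by simpa using h
      have h2 : s - y n ∈ I ^ (n + 1) := by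
        rw [← hy n] at h1
        exact (Ideal.Quotient.eq).1 h1
      have : s - L = (s - y n) + (y n - L) := by ring
      rw [this]
      exact (I ^ (n + 1)).add_mem h2 h'
    have hzero : s - L = 0 := by
      apply IsHausdorff.haus (I := I) (M := S) inferInstance
      intro n
      rw [SModEq.sub_mem]
      have hn : s - L ∈ I ^ n := Ideal.pow_le_pow_right (Nat.le_succ n) (hmem n)
      simpa using hn
    exact sub_eq_zero.1 hzero

end Fermat.Agent.S53_helper2_D3
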