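import Mathlib
import Fermat.Agent.S53_helper16_Defs
import Fermat.Agent.S53_helper16_Core
import Fermat.Agent.S53_helper15_C5
import Fermat.Agent.S53_helper15_I2
import Fermat.Agent.S53_helper15_I4
import Fermat.Agent.S53_helper18_Carayol
import Fermat.Agent.S53_helper18_Descent
import Fermat.Agent.S53_helper22_F1
import Fermat.Agent.S53_helper23_C4
import Fermat.Agent.S53_helper23_C6
import Fermat.Agent.S53_helper23_C7
import Fermat.Agent.S53_helper23_I1
import Fermat.Agent.S53_helper23_I7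
import Fermat.Agent.S53_helper23_T0
import Fermat.Agent.S53_helper23_T4
import Fermat.Agent.S53_helper23_T5
import Fermat.Agent.S53_helper26_H1
import Fermat.Agent.S53_helper26_H7
import Fermat.Agent.S53_helper27_C1
import Fermat.Agent.S53_helper27_D2
import Fermat.Agent.S53_helper28_C0
import Fermat.Agent.S53_helper28_C3
import Fermat.Agent.S53_helper28_H6
import Fermat.Agent.S53_helper28_I5
import Fermat.Agent.S53_helper28_T1
import Fermat.Agent.S53_helper28_T3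
import Fermat.Agent.S53_helper29_I3
import Fermat.Agent.S53_helper2_D1
import Fermat.Agent.S53_helper2_D3
import Fermat.Agent.S53_helper3_C2
import Fermat.Agent.S53_helper8_H5
import Fermat.Agent.S53_helper9_H4

set_option autoImplicit false

open IsLocalRing Fermat.Agent.S53_helper16_Defs Fermat.Agent.S53_helper16_Core GaloisRep

namespace Fermat.Agent.S53_helper16_Pieces

/-! ### H pieces -/

theorem H1_burnside {k : Type} [Field k] (ρbar : ResidualGaloisRep k)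
    (h : ρbar.IsAbsolutelyIrreducible) :
    Submodule.span k (Set.range ρbar.ρ) = (⊤ : Submodule k (Module.End k ρbar.V)) :=
  by first | exact Fermat.Agent.S53_helper26_H1.H1_burnside ρbar h | exact Fermat.Agent.S53_helper26_H1.H1_burnside .. | (apply Fermat.Agent.S53_helper26_H1.H1_burnside <;> assumption)

theorem H2_conj_of_trace_eq {G : Type} [Monoid G] {A : Type} [CommRing A] [IsLocalRing A]
    (r r' : G →* Matrix (Fin 2) (Fin 2) A)
    (hspan : Submodule.span (ResidueField A)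
      (Set.range fun s => (r s).map (residue A)) = ⊤)
    (hres : ∀ s, (r s).map (residue A) = (r' s).map (residue A))
    (htr : ∀ s, (r s).trace = (r' s).trace) :
    ∃ u : Matrix (Fin 2) (Fin 2) A, IsUnit u ∧ u.map (residue A) = 1 ∧
      ∀ s, u * r s = r' s * u :=
  Fermat.Agent.S53_helper18.conj_of_trace_eq r r' hspan hres htr

theorem H3_descent {G : Type} [Monoid G] {A₀ A : Type} [CommRing A₀] [CommRing A]
    [IsLocalRing A₀] [IsLocalRing A] (ι : A₀ →+* A) (hι : Function.Injective ι)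
    (hnilA : ∀ x ∈ maximalIdeal A, IsNilpotent x)
    (hk : ∀ a : A, ∃ a₀ : A₀, a - ι a₀ ∈ maximalIdeal A)
    (r : G →* Matrix (Fin 2) (Fin 2) A)
    (hspan : Submodule.span (ResidueField A)
      (Set.range fun s => (r s).map (residue A)) = ⊤)
    (htr : ∀ s, (r s).trace ∈ ι.range) :
    ∃ (r₀ : G →* Matrix (Fin 2) (Fin 2) A₀) (u : Matrix (Fin 2) (Fin 2) A),
      IsUnit u ∧ u.map (residue A) = 1 ∧ ∀ s, u * r s = (r₀ s).map ι * u :=
  Fermat.Agent.S53_helper18.descent ι hι hnilA hk r hspan htr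

theorem H4_exists_dualNumber (𝒪 : Type) [CommRing 𝒪] [IsLocalRing 𝒪]
    {A : Type} [CommRing A] [IsLocalRing A] [Algebra 𝒪 A]
    (hA : GaloisRep.IsArtinianTestAlgebra 𝒪 A) (A₁ : Subalgebra 𝒪 A) (h : A₁ ≠ ⊤) :
    letI := dualAlg 𝒪
    ∃ φ : A →ₐ[𝒪] DualNumber (ResidueField 𝒪), Function.Surjective φ ∧
      ∀ a ∈ A₁, φ a ∈ (algebraMap (ResidueField 𝒪) (DualNumber (ResidueField 𝒪))).range :=
  by first | exact Fermat.Agent.S53_helper9_H4.H4_exists_dualNumber 𝒪 hA A₁ h | exact Fermat.Agent.S53_helper9_H4.H4_exists_dualNumber .. | (apply Fermat.Agent.S53_helper9_H4.H4_exists_dualNumber <;> assumption)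

section H5
variable (𝒪 : Type) [CommRing 𝒪] [IsLocalRing 𝒪] [IsNoetherianRing 𝒪]
  [IsAdicComplete (maximalIdeal 𝒪) 𝒪] (d : ℕ)

theorem H5a_isAdicComplete :
    IsAdicComplete (maximalIdeal (MvPowerSeries (Fin d) 𝒪)) (MvPowerSeries (Fin d) 𝒪) :=
  by first | exact Fermat.Agent.S53_helper8_H5.H5a_isAdicComplete 𝒪 d | exact Fermat.Agent.S53_helper8_H5.H5a_isAdicComplete .. | (apply Fermat.Agent.S53_helper8_H5.H5a_isAdicComplete <;> assumption)

theorem H5b_isLocalHom : IsLocalHom (algebraMap 𝒪 (MvPowerSeries (Fin d) 𝒪)) :=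
  by first | exact Fermat.Agent.S53_helper8_H5.H5b_isLocalHom 𝒪 d | exact Fermat.Agent.S53_helper8_H5.H5b_isLocalHom .. | (apply Fermat.Agent.S53_helper8_H5.H5b_isLocalHom <;> assumption)

theorem H5c_residue_surjective :
    Function.Surjective (residue (MvPowerSeries (Fin d) 𝒪) ∘ algebraMap 𝒪 _) :=
  by first | exact Fermat.Agent.S53_helper8_H5.H5c_residue_surjective 𝒪 d | exact Fermat.Agent.S53_helper8_H5.H5c_residue_surjective .. | (apply Fermat.Agent.S53_helper8_H5.H5c_residue_surjective <;> assumption)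

theorem H5d_maximalIdeal_eq :
    maximalIdeal (MvPowerSeries (Fin d) 𝒪) =
      (maximalIdeal 𝒪).map (algebraMap 𝒪 _) ⊔ Ideal.span (Set.range MvPowerSeries.X) :=
  by first | exact Fermat.Agent.S53_helper8_H5.H5d_maximalIdeal_eq 𝒪 d | exact Fermat.Agent.S53_helper8_H5.H5d_maximalIdeal_eq .. | (apply Fermat.Agent.S53_helper8_H5.H5d_maximalIdeal_eq <;> assumption)

theorem H5e_dense (f : MvPowerSeries (Fin d) 𝒪) (n : ℕ) :
    ∃ p ∈ Algebra.adjoin 𝒪 (Set.range (MvPowerSeries.X : Fin d → MvPowerSeries (Fin d) 𝒪)),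
      f - p ∈ maximalIdeal (MvPowerSeries (Fin d) 𝒪) ^ n :=
  by first | exact Fermat.Agent.S53_helper8_H5.H5e_dense 𝒪 d f n | exact Fermat.Agent.S53_helper8_H5.H5e_dense .. | (apply Fermat.Agent.S53_helper8_H5.H5e_dense <;> assumption)

theorem H5f_lift {A : Type} [CommRing A] [IsLocalRing A] [Algebra 𝒪 A]
    (hloc : IsLocalHom (algebraMap 𝒪 A)) (hnil : ∃ n : ℕ, maximalIdeal A ^ n = ⊥)
    (a : Fin d → A) (ha : ∀ i, a i ∈ maximalIdeal A) :
    ∃ φ : MvPowerSeries (Fin d) 𝒪 →ₐ[𝒪] A, ∀ i, φ (MvPowerSeries.X i) = a i :=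
  by first | exact Fermat.Agent.S53_helper8_H5.H5f_lift 𝒪 d hloc hnil a ha | exact Fermat.Agent.S53_helper8_H5.H5f_lift .. | (apply Fermat.Agent.S53_helper8_H5.H5f_lift <;> assumption)

end H5

theorem H6_chevalley {Λ : Type} [CommRing Λ] [IsLocalRing Λ] [IsNoetherianRing Λ]
    [IsAdicComplete (maximalIdeal Λ) Λ] [Finite (ResidueField Λ)]
    (F : Set (Ideal Λ)) (hne : F.Nonempty)
    (hdir : ∀ I ∈ F, ∀ J ∈ F, ∃ K ∈ F, K ≤ I ⊓ J)
    (hopen : ∀ I ∈ F, ∃ n : ℕ, maximalIdeal Λ ^ n ≤ I) (n : ℕ) :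
    ∃ I ∈ F, I ≤ sInf F ⊔ maximalIdeal Λ ^ n :=
  by first | exact Fermat.Agent.S53_helper28_H6.H6_chevalley F hne hdir hopen n | exact Fermat.Agent.S53_helper28_H6.H6_chevalley .. | (apply Fermat.Agent.S53_helper28_H6.H6_chevalley <;> assumption)

theorem H7a_finite (𝒪 : Type) [CommRing 𝒪] [IsLocalRing 𝒪] [Finite (ResidueField 𝒪)]
    {A : Type} [CommRing A] [IsLocalRing A] [Algebra 𝒪 A]
    (hA : GaloisRep.IsArtinianTestAlgebra 𝒪 A) : Finite A :=
  by first | exact Fermat.Agent.S53_helper26_H7.H7a_finite 𝒪 hA | exact Fermat.Agent.S53_helper26_H7.H7a_finite .. | (apply Fermat.Agent.S53_helper26_H7.H7a_finite <;> assumption)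

theorem H7b_isLocalRing (𝒪 : Type) [CommRing 𝒪] [IsLocalRing 𝒪] [Finite (ResidueField 𝒪)]
    {A : Type} [CommRing A] [IsLocalRing A] [Algebra 𝒪 A]
    (hA : GaloisRep.IsArtinianTestAlgebra 𝒪 A) (A₁ : Subalgebra 𝒪 A) : IsLocalRing A₁ :=
  by first | exact Fermat.Agent.S53_helper26_H7.H7b_isLocalRing 𝒪 hA A₁ | exact Fermat.Agent.S53_helper26_H7.H7b_isLocalRing .. | (apply Fermat.Agent.S53_helper26_H7.H7b_isLocalRing <;> assumption)

theorem H7c_isArtinianTestAlgebra (𝒪 : Type) [CommRing 𝒪] [IsLocalRing 𝒪]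
    [Finite (ResidueField 𝒪)]
    {A : Type} [CommRing A] [IsLocalRing A] [Algebra 𝒪 A]
    (hA : GaloisRep.IsArtinianTestAlgebra 𝒪 A) (A₁ : Subalgebra 𝒪 A) :
    letI := H7b_isLocalRing 𝒪 hA A₁
    GaloisRep.IsArtinianTestAlgebra 𝒪 A₁ ∧ IsLocalHom (A₁.val : A₁ →+* A) :=
  by first | exact Fermat.Agent.S53_helper26_H7.H7c_isArtinianTestAlgebra 𝒪 hA A₁ | exact Fermat.Agent.S53_helper26_H7.H7c_isArtinianTestAlgebra .. | (apply Fermat.Agent.S53_helper26_H7.H7c_isArtinianTestAlgebra <;> assumption)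

/-! ### I pieces -/

theorem I1a_trace_toAdic {A : Type} [CommRing A] [IsLocalRing A]
    (M : Gal →* Matrix (Fin 2) (Fin 2) A) (hM : MatCont M) (σ : Gal) :
    LinearMap.trace A _ ((toAdic M hM).ρ σ) = (M σ).trace :=
  by first | exact Fermat.Agent.S53_helper23_I1.I1a_trace_toAdic M hM σ | exact Fermat.Agent.S53_helper23_I1.I1a_trace_toAdic .. | (apply Fermat.Agent.S53_helper23_I1.I1a_trace_toAdic <;> assumption)

theorem I1b_trace_eq_of_isEquiv {A : Type} [CommRing A] [IsLocalRing A]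
    {ρ₁ ρ₂ : GaloisRepAdic A} (h : ρ₁.IsEquiv ρ₂) (σ : Gal) :
    LinearMap.trace A _ (ρ₁.ρ σ) = LinearMap.trace A _ (ρ₂.ρ σ) :=
  by first | exact Fermat.Agent.S53_helper23_I1.I1b_trace_eq_of_isEquiv h σ | exact Fermat.Agent.S53_helper23_I1.I1b_trace_eq_of_isEquiv .. | (apply Fermat.Agent.S53_helper23_I1.I1b_trace_eq_of_isEquiv <;> assumption)

theorem I1c_trace_baseChangeAlong {A B : Type} [CommRing A] [IsLocalRing A] [CommRing B]
    [IsLocalRing B] (φ : A →+* B) (hφ : IsLocalHom φ) (ρ : GaloisRepAdic A) (σ : Gal) :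
    LinearMap.trace B _ ((ρ.baseChangeAlong φ hφ).ρ σ) = φ (LinearMap.trace A _ (ρ.ρ σ)) :=
  by first | exact Fermat.Agent.S53_helper23_I1.I1c_trace_baseChangeAlong φ hφ ρ σ | exact Fermat.Agent.S53_helper23_I1.I1c_trace_baseChangeAlong .. | (apply Fermat.Agent.S53_helper23_I1.I1c_trace_baseChangeAlong <;> assumption)

theorem I2_exists_matrix {A : Type} [CommRing A] [IsLocalRing A] (ρ : GaloisRepAdic A) :
    ∃ (M : Gal →* Matrix (Fin 2) (Fin 2) A) (hM : MatCont M), (toAdic M hM).IsEquiv ρ :=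
  by first | exact Fermat.Agent.S53_helper15_I2.I2_exists_matrix ρ | exact Fermat.Agent.S53_helper15_I2.I2_exists_matrix .. | (apply Fermat.Agent.S53_helper15_I2.I2_exists_matrix <;> assumption)

theorem I3_isEquiv_of_conj {A : Type} [CommRing A] [IsLocalRing A]
    (M M' : Gal →* Matrix (Fin 2) (Fin 2) A) (hM : MatCont M) (hM' : MatCont M')
    (u : Matrix (Fin 2) (Fin 2) A) (hu : IsUnit u) (h : ∀ σ, u * M σ = M' σ * u) :
    (toAdic M hM).IsEquiv (toAdic M' hM') :=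
  by first | exact Fermat.Agent.S53_helper29_I3.I3_isEquiv_of_conj M M' hM hM' u hu h | exact Fermat.Agent.S53_helper29_I3.I3_isEquiv_of_conj .. | (apply Fermat.Agent.S53_helper29_I3.I3_isEquiv_of_conj <;> assumption)

theorem I3b_matCont_conj {A : Type} [CommRing A] [IsLocalRing A]
    (M M' : Gal →* Matrix (Fin 2) (Fin 2) A) (hM : MatCont M)
    (u : Matrix (Fin 2) (Fin 2) A) (hu : IsUnit u) (h : ∀ σ, u * M σ = M' σ * u) :
    MatCont M' :=
  by first | exact Fermat.Agent.S53_helper29_I3.I3b_matCont_conj M M' hM u hu h | exact Fermat.Agent.S53_helper29_I3.I3b_matCont_conj .. | (apply Fermat.Agent.S53_helper29_I3.I3b_matCont_conj <;> assumption)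

theorem I4_baseChangeAlong_toAdic {A B : Type} [CommRing A] [IsLocalRing A] [CommRing B]
    [IsLocalRing B] (φ : A →+* B) (hφ : IsLocalHom φ)
    (M : Gal →* Matrix (Fin 2) (Fin 2) A) (hM : MatCont M) :
    ((toAdic M hM).baseChangeAlong φ hφ).IsEquiv
      (toAdic (mapRep φ M) (matCont_mapRep φ hφ hM)) :=
  by first | exact Fermat.Agent.S53_helper15_I4.I4_baseChangeAlong_toAdic φ hφ M hM | exact Fermat.Agent.S53_helper15_I4.I4_baseChangeAlong_toAdic .. | (apply Fermat.Agent.S53_helper15_I4.I4_baseChangeAlong_toAdic <;> assumption)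

theorem I5_residual_iff (𝒪 : Type) [CommRing 𝒪] [IsLocalRing 𝒪] {A : Type} [CommRing A]
    [IsLocalRing A] [Algebra 𝒪 A] (hloc : IsLocalHom (algebraMap 𝒪 A))
    (ρbar : ResidualGaloisRep (ResidueField 𝒪))
    (M : Gal →* Matrix (Fin 2) (Fin 2) A) (hM : MatCont M) :
    (toAdic M hM).residual.IsEquiv (ρbar.baseChangeAlong (kappa 𝒪 A hloc)) ↔
      ∃ u : Matrix (Fin 2) (Fin 2) (ResidueField A), IsUnit u ∧
        ∀ σ, u * (M σ).map (residue A) = (rbMat ρbar σ).map (kappa 𝒪 A hloc) * u :=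
  by first | exact Fermat.Agent.S53_helper28_I5.I5_residual_iff 𝒪 hloc ρbar M hM | exact Fermat.Agent.S53_helper28_I5.I5_residual_iff .. | (apply Fermat.Agent.S53_helper28_I5.I5_residual_iff <;> assumption)

theorem I6_ofResidual {k : Type} [Field k] (ρbar : ResidualGaloisRep k) :
    ∃ hM : MatCont (rbMat ρbar),
      (toAdic (rbMat ρbar) hM).IsEquiv (GaloisRepAdic.ofResidualGaloisRep ρbar) :=
  by first | exact Fermat.Agent.S53_helper28_I5.I6_ofResidual ρbar | exact Fermat.Agent.S53_helper28_I5.I6_ofResidual .. | (apply Fermat.Agent.S53_helper28_I5.I6_ofResidual <;> assumption)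

theorem I7_lift_unit {A : Type} [CommRing A] [IsLocalRing A]
    (u : Matrix (Fin 2) (Fin 2) (ResidueField A)) (hu : IsUnit u) :
    ∃ v : Matrix (Fin 2) (Fin 2) A, IsUnit v ∧ v.map (residue A) = u :=
  by first | exact Fermat.Agent.S53_helper23_I7.I7_lift_unit u hu | exact Fermat.Agent.S53_helper23_I7.I7_lift_unit .. | (apply Fermat.Agent.S53_helper23_I7.I7_lift_unit <;> assumption)

theorem I7b_isUnit_of_map_residue {A : Type} [CommRing A] [IsLocalRing A]
    (v : Matrix (Fin 2) (Fin 2) A) (hv : IsUnit (v.map (residue A))) : IsUnit v :=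
  by first | exact Fermat.Agent.S53_helper23_I7.I7b_isUnit_of_map_residue v hv | exact Fermat.Agent.S53_helper23_I7.I7b_isUnit_of_map_residue .. | (apply Fermat.Agent.S53_helper23_I7.I7b_isUnit_of_map_residue <;> assumption)

/-! ### F pieces -/

section F1
variable (𝒪 : Type) [CommRing 𝒪] [IsLocalRing 𝒪] [Finite (ResidueField 𝒪)]

theorem F1a_exists_resk {A : Type} [CommRing A] [IsLocalRing A] [Algebra 𝒪 A]
    (hloc : IsLocalHom (algebraMap 𝒪 A))
    (hsurj : Function.Surjective (residue A ∘ algebraMap 𝒪 A)) :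
    Function.Bijective (kappa 𝒪 A hloc) ∧
    ∃ f : A →ₐ[𝒪] ResidueField 𝒪, (∀ a, kappa 𝒪 A hloc (f a) = residue A a) ∧
      (∀ a, f a = 0 ↔ a ∈ maximalIdeal A) :=
  by first | exact Fermat.Agent.S53_helper22_F1.F1a_exists_resk 𝒪 hloc hsurj | exact Fermat.Agent.S53_helper22_F1.F1a_exists_resk .. | (apply Fermat.Agent.S53_helper22_F1.F1a_exists_resk <;> assumption)

theorem F1b_isLocalRing {A B : Type} [CommRing A] [IsLocalRing A] [Algebra 𝒪 A]
    [CommRing B] [IsLocalRing B] [Algebra 𝒪 B]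
    (hA : GaloisRep.IsArtinianTestAlgebra 𝒪 A) (hB : GaloisRep.IsArtinianTestAlgebra 𝒪 B) :
    IsLocalRing (fibProd 𝒪 A B) :=
  by first | exact Fermat.Agent.S53_helper22_F1.F1b_isLocalRing 𝒪 hA hB | exact Fermat.Agent.S53_helper22_F1.F1b_isLocalRing .. | (apply Fermat.Agent.S53_helper22_F1.F1b_isLocalRing <;> assumption)

theorem F1c_isArtinianTestAlgebra {A B : Type} [CommRing A] [IsLocalRing A] [Algebra 𝒪 A]
    [CommRing B] [IsLocalRing B] [Algebra 𝒪 B]
    (hA : GaloisRep.IsArtinianTestAlgebra 𝒪 A) (hB : GaloisRep.IsArtinianTestAlgebra 𝒪 B) :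
    letI := F1b_isLocalRing 𝒪 hA hB
    GaloisRep.IsArtinianTestAlgebra 𝒪 (fibProd 𝒪 A B) ∧
    IsLocalHom ((fibFst 𝒪 A B : fibProd 𝒪 A B →ₐ[𝒪] A) : fibProd 𝒪 A B →+* A) ∧
    IsLocalHom ((fibSnd 𝒪 A B : fibProd 𝒪 A B →ₐ[𝒪] B) : fibProd 𝒪 A B →+* B) ∧
    (∀ x : fibProd 𝒪 A B, x ∈ maximalIdeal (fibProd 𝒪 A B) ↔
      (x : A × B).1 ∈ maximalIdeal A ∧ (x : A × B).2 ∈ maximalIdeal B) ∧
    (∀ a b, a ∈ maximalIdeal A → b ∈ maximalIdeal B → (a, b) ∈ fibProd 𝒪 A B) :=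
  by first | exact Fermat.Agent.S53_helper22_F1.F1c_isArtinianTestAlgebra 𝒪 hA hB | exact Fermat.Agent.S53_helper22_F1.F1c_isArtinianTestAlgebra .. | (apply Fermat.Agent.S53_helper22_F1.F1c_isArtinianTestAlgebra <;> assumption)

end F1

/-! ### C pieces (core lemmas on `𝒟`-lifts) -/

section C
variable (𝒪 : Type) [CommRing 𝒪] [IsLocalRing 𝒪] [Finite (ResidueField 𝒪)]
variable (ρbar : ResidualGaloisRep (ResidueField 𝒪))
variable (𝒟 : ∀ ⦃A : Type⦄ [CommRing A] [IsLocalRing A] [Algebra 𝒪 A], GaloisRepAdic A → Prop)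

/-- C0: strict lifts of an absolutely irreducible `ρbar` are residually spanning. -/
theorem C0_hspan (habs : ρbar.IsAbsolutelyIrreducible)
    {A : Type} [CommRing A] [IsLocalRing A] [Algebra 𝒪 A]
    (hloc : IsLocalHom (algebraMap 𝒪 A))
    (hsurj : Function.Surjective (residue A ∘ algebraMap 𝒪 A))
    (M : Gal →* Matrix (Fin 2) (Fin 2) A) (hM : IsStrictLift 𝒪 hloc ρbar M) :
    Submodule.span (ResidueField A) (Set.range fun σ => (M σ).map (residue A)) = ⊤ :=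
  by first | exact Fermat.Agent.S53_helper28_C0.C0_hspan 𝒪 ρbar habs hloc hsurj M hM | exact Fermat.Agent.S53_helper28_C0.C0_hspan .. | (apply Fermat.Agent.S53_helper28_C0.C0_hspan <;> assumption)

/-- C1: an adic representation with the right residual representation is equivalent to a
strict matrix lift. -/
theorem C1_strict_of_adic
    {A : Type} [CommRing A] [IsLocalRing A] [Algebra 𝒪 A]
    (hloc : IsLocalHom (algebraMap 𝒪 A))
    (hsurj : Function.Surjective (residue A ∘ algebraMap 𝒪 A))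
    (ρA : GaloisRepAdic A)
    (hres : ρA.residual.IsEquiv (ρbar.baseChangeAlong (kappa 𝒪 A hloc))) :
    ∃ (M : Gal →* Matrix (Fin 2) (Fin 2) A) (hM : MatCont M),
      IsStrictLift 𝒪 hloc ρbar M ∧ (toAdic M hM).IsEquiv ρA :=
  by first | exact Fermat.Agent.S53_helper27_C1.C1_strict_of_adic 𝒪 ρbar hloc hsurj ρA hres | exact Fermat.Agent.S53_helper27_C1.C1_strict_of_adic .. | (apply Fermat.Agent.S53_helper27_C1.C1_strict_of_adic <;> assumption)

/-- C1b: conversely the residual representation of a strict lift is the right one. -/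
theorem C1b_residual_of_strict
    {A : Type} [CommRing A] [IsLocalRing A] [Algebra 𝒪 A]
    (hloc : IsLocalHom (algebraMap 𝒪 A))
    (M : Gal →* Matrix (Fin 2) (Fin 2) A) (hM : MatCont M)
    (hs : IsStrictLift 𝒪 hloc ρbar M) :
    (toAdic M hM).residual.IsEquiv (ρbar.baseChangeAlong (kappa 𝒪 A hloc)) :=
  by first | exact Fermat.Agent.S53_helper27_C1.C1b_residual_of_strict 𝒪 ρbar hloc M hM hs | exact Fermat.Agent.S53_helper27_C1.C1b_residual_of_strict .. | (apply Fermat.Agent.S53_helper27_C1.C1b_residual_of_strict <;> assumption)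

/-- C2a: strictness is preserved by `𝒪`-algebra maps. -/
theorem C2a_strict_map {A B : Type} [CommRing A] [IsLocalRing A] [Algebra 𝒪 A]
    [CommRing B] [IsLocalRing B] [Algebra 𝒪 B]
    (hlocA : IsLocalHom (algebraMap 𝒪 A)) (hlocB : IsLocalHom (algebraMap 𝒪 B))
    (φ : A →ₐ[𝒪] B) (hφ : IsLocalHom (φ : A →+* B))
    {M : Gal →* Matrix (Fin 2) (Fin 2) A} (hM : IsStrictLift 𝒪 hlocA ρbar M) :
    IsStrictLift 𝒪 hlocB ρbar (mapRep (φ : A →+* B) M) :=
  by first | exact Fermat.Agent.S53_helper3_C2.C2a_strict_map 𝒪 ρbar hlocA hlocB φ hφ φ hM | exact Fermat.Agent.S53_helper3_C2.C2a_strict_map .. | (apply Fermat.Agent.S53_helper3_C2.C2a_strict_map <;> assumption)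

/-- C2b: `𝒟`-lifts are preserved by maps of Artinian test algebras. -/
theorem C2b_dlift_map (h𝒟 : IsDeformationCondition 𝒪 𝒟)
    {A B : Type} [CommRing A] [IsLocalRing A] [Algebra 𝒪 A]
    [CommRing B] [IsLocalRing B] [Algebra 𝒪 B]
    (hA : IsArtinianTestAlgebra 𝒪 A) (hB : IsArtinianTestAlgebra 𝒪 B)
    (φ : A →ₐ[𝒪] B) (hφ : IsLocalHom (φ : A →+* B))
    {M : Gal →* Matrix (Fin 2) (Fin 2) A} (hM : IsDLift 𝒪 ρbar 𝒟 hA.isLocalHom M) :
    IsDLift 𝒪 ρbar 𝒟 hB.isLocalHom (mapRep (φ : A →+* B) M) :=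
  by first | exact Fermat.Agent.S53_helper3_C2.C2b_dlift_map 𝒪 ρbar 𝒟 h𝒟 hA hB φ hφ φ hM | exact Fermat.Agent.S53_helper3_C2.C2b_dlift_map .. | (apply Fermat.Agent.S53_helper3_C2.C2b_dlift_map <;> assumption)

/-- C2c: `𝒟`-lifts are preserved by conjugation by matrices reducing to `1`. -/
theorem C2c_dlift_conj (h𝒟 : IsDeformationCondition 𝒪 𝒟)
    {A : Type} [CommRing A] [IsLocalRing A] [Algebra 𝒪 A]
    (hA : IsArtinianTestAlgebra 𝒪 A)
    {M M' : Gal →* Matrix (Fin 2) (Fin 2) A} (hM : IsDLift 𝒪 ρbar 𝒟 hA.isLocalHom M)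
    (u : Matrix (Fin 2) (Fin 2) A) (hu : u.map (residue A) = 1)
    (h : ∀ σ, u * M σ = M' σ * u) :
    IsDLift 𝒪 ρbar 𝒟 hA.isLocalHom M' :=
  by first | exact Fermat.Agent.S53_helper3_C2.C2c_dlift_conj 𝒪 ρbar 𝒟 h𝒟 hA hM u hu h | exact Fermat.Agent.S53_helper3_C2.C2c_dlift_conj .. | (apply Fermat.Agent.S53_helper3_C2.C2c_dlift_conj <;> assumption)

/-- C3: Carayol descent for `𝒟`-lifts. -/
theorem C3_dlift_descend (habs : ρbar.IsAbsolutelyIrreducible)
    (h𝒟 : IsDeformationCondition 𝒪 𝒟)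
    {A₀ A : Type} [CommRing A₀] [IsLocalRing A₀] [Algebra 𝒪 A₀]
    [CommRing A] [IsLocalRing A] [Algebra 𝒪 A]
    (hA₀ : IsArtinianTestAlgebra 𝒪 A₀) (hA : IsArtinianTestAlgebra 𝒪 A)
    (ι : A₀ →ₐ[𝒪] A) (hι : Function.Injective ι)
    {M : Gal →* Matrix (Fin 2) (Fin 2) A} (hM : IsDLift 𝒪 ρbar 𝒟 hA.isLocalHom M)
    (htr : ∀ σ, (M σ).trace ∈ (ι : A₀ →+* A).range) :
    ∃ M₀ : Gal →* Matrix (Fin 2) (Fin 2) A₀, IsDLift 𝒪 ρbar 𝒟 hA₀.isLocalHom M₀ ∧
      ∀ σ, ι ((M₀ σ).trace) = (M σ).trace :=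
  by first | exact Fermat.Agent.S53_helper28_C3.C3_dlift_descend 𝒪 ρbar 𝒟 habs h𝒟 hA₀ hA ι hι hM htr ι | exact Fermat.Agent.S53_helper28_C3.C3_dlift_descend .. | (apply Fermat.Agent.S53_helper28_C3.C3_dlift_descend <;> assumption)

/-- C4: fibre products of `𝒟`-lifts. -/
theorem C4_dlift_fib (h𝒟 : IsDeformationCondition 𝒪 𝒟)
    {A B : Type} [CommRing A] [IsLocalRing A] [Algebra 𝒪 A]
    [CommRing B] [IsLocalRing B] [Algebra 𝒪 B]
    (hA : IsArtinianTestAlgebra 𝒪 A) (hB : IsArtinianTestAlgebra 𝒪 B)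
    {M : Gal →* Matrix (Fin 2) (Fin 2) A} {M' : Gal →* Matrix (Fin 2) (Fin 2) B}
    (hM : IsDLift 𝒪 ρbar 𝒟 hA.isLocalHom M) (hM' : IsDLift 𝒪 ρbar 𝒟 hB.isLocalHom M') :
    ∃ (_ : IsLocalRing (fibProd 𝒪 A B)) (hP : IsArtinianTestAlgebra 𝒪 (fibProd 𝒪 A B))
      (N : Gal →* Matrix (Fin 2) (Fin 2) (fibProd 𝒪 A B)),
      IsDLift 𝒪 ρbar 𝒟 hP.isLocalHom N ∧
      mapRep (fibFst 𝒪 A B : fibProd 𝒪 A B →+* A) N = M ∧
      mapRep (fibSnd 𝒪 A B : fibProd 𝒪 A B →+* B) N = M' :=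
  by first | exact Fermat.Agent.S53_helper23_C4.C4_dlift_fib 𝒪 ρbar 𝒟 h𝒟 hA hB hM hM' | exact Fermat.Agent.S53_helper23_C4.C4_dlift_fib .. | (apply Fermat.Agent.S53_helper23_C4.C4_dlift_fib <;> assumption)

/-- C5: the generation lemma (this is where `TangentFinite` is used). -/
theorem C5_generation (habs : ρbar.IsAbsolutelyIrreducible)
    (h𝒟 : IsDeformationCondition 𝒪 𝒟) (hfin : TangentFinite 𝒪 ρbar 𝒟) :
    ∃ (d : ℕ) (h : Fin d → Gal), Generates 𝒪 ρbar 𝒟 d h :=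
  Fermat.Agent.S53_helper15_C5.C5_generation_of_pieces 𝒪 ρbar 𝒟 (fun hA₀ hA ι hι _ hM htr => C3_dlift_descend 𝒪 ρbar 𝒟 habs h𝒟 hA₀ hA ι hι hM htr) (fun hA hB φ hφ _ hM => C2b_dlift_map 𝒪 ρbar 𝒟 h𝒟 hA hB φ hφ hM) (fun hloc M hM hs => C1b_residual_of_strict 𝒪 ρbar hloc M hM hs) hfin

/-- C6: separation: `𝒟`-lifts with equal traces at the generators have equal traces. -/
theorem C6_separation (h𝒟 : IsDeformationCondition 𝒪 𝒟)
    {d : ℕ} {h : Fin d → Gal} (hgen : Generates 𝒪 ρbar 𝒟 d h)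
    {A : Type} [CommRing A] [IsLocalRing A] [Algebra 𝒪 A]
    (hA : IsArtinianTestAlgebra 𝒪 A)
    {M M' : Gal →* Matrix (Fin 2) (Fin 2) A} (hM : IsDLift 𝒪 ρbar 𝒟 hA.isLocalHom M)
    (hM' : IsDLift 𝒪 ρbar 𝒟 hA.isLocalHom M')
    (heq : ∀ i, (M (h i)).trace = (M' (h i)).trace) (σ : Gal) :
    (M σ).trace = (M' σ).trace :=
  by first | exact Fermat.Agent.S53_helper23_C6.C6_separation 𝒪 ρbar 𝒟 h𝒟 hgen hA hM hM' heq σ | exact Fermat.Agent.S53_helper23_C6.C6_separation .. | (apply Fermat.Agent.S53_helper23_C6.C6_separation <;> assumption)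

/-- C7: `𝒟`-lifts with equal traces at the generators are conjugate. -/
theorem C7_conj (habs : ρbar.IsAbsolutelyIrreducible) (h𝒟 : IsDeformationCondition 𝒪 𝒟)
    {d : ℕ} {h : Fin d → Gal} (hgen : Generates 𝒪 ρbar 𝒟 d h)
    {A : Type} [CommRing A] [IsLocalRing A] [Algebra 𝒪 A]
    (hA : IsArtinianTestAlgebra 𝒪 A)
    {M M' : Gal →* Matrix (Fin 2) (Fin 2) A} (hM : IsDLift 𝒪 ρbar 𝒟 hA.isLocalHom M)
    (hM' : IsDLift 𝒪 ρbar 𝒟 hA.isLocalHom M')
    (heq : ∀ i, (M (h i)).trace = (M' (h i)).trace) :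
    ∃ u : Matrix (Fin 2) (Fin 2) A, IsUnit u ∧ u.map (residue A) = 1 ∧
      ∀ σ, u * M σ = M' σ * u :=
  by first | exact Fermat.Agent.S53_helper23_C7.C7_conj 𝒪 ρbar 𝒟 habs h𝒟 hgen hA hM hM' heq | exact Fermat.Agent.S53_helper23_C7.C7_conj .. | (apply Fermat.Agent.S53_helper23_C7.C7_conj <;> assumption)

end C

/-! ### D pieces (rings and the ideal family) -/

section D
variable (𝒪 : Type) [CommRing 𝒪] [IsLocalRing 𝒪] [Finite (ResidueField 𝒪)]

/-- D1a: the residue field is an Artinian test algebra. -/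
theorem D1a_test_residueField : IsArtinianTestAlgebra 𝒪 (ResidueField 𝒪) :=
  by first | exact Fermat.Agent.S53_helper2_D1.D1a_test_residueField 𝒪 | exact Fermat.Agent.S53_helper2_D1.D1a_test_residueField .. | (apply Fermat.Agent.S53_helper2_D1.D1a_test_residueField <;> assumption)

/-- D1b: the dual numbers (with the `dualAlg` structure) are an Artinian test algebra. -/
theorem D1b_test_dualNumber :
    letI := dualAlg 𝒪
    IsArtinianTestAlgebra 𝒪 (DualNumber (ResidueField 𝒪)) :=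
  by first | exact Fermat.Agent.S53_helper2_D1.D1b_test_dualNumber 𝒪 | exact Fermat.Agent.S53_helper2_D1.D1b_test_dualNumber .. | (apply Fermat.Agent.S53_helper2_D1.D1b_test_dualNumber <;> assumption)

/-- D1c: a quotient of a local ring by a proper ideal is local. -/
theorem D1c_quot_isLocalRing {S : Type} [CommRing S] [IsLocalRing S] (I : Ideal S)
    (hI : I ≠ ⊤) : IsLocalRing (S ⧸ I) :=
  by first | exact Fermat.Agent.S53_helper2_D1.D1c_quot_isLocalRing I hI | exact Fermat.Agent.S53_helper2_D1.D1c_quot_isLocalRing .. | (apply Fermat.Agent.S53_helper2_D1.D1c_quot_isLocalRing <;> assumption)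

/-- D1d: a quotient of a Noetherian local test algebra by a proper open ideal is an Artinian
test algebra, and the quotient map is local. -/
theorem D1d_quot_test {S : Type} [CommRing S] [IsLocalRing S] [Algebra 𝒪 S]
    [IsNoetherianRing S] (hloc : IsLocalHom (algebraMap 𝒪 S))
    (hsurj : Function.Surjective (residue S ∘ algebraMap 𝒪 S))
    (I : Ideal S) (hI : I ≠ ⊤) (n : ℕ) (hn : maximalIdeal S ^ n ≤ I) :
    letI := D1c_quot_isLocalRing I hI
    IsArtinianTestAlgebra 𝒪 (S ⧸ I) ∧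
      IsLocalHom ((Ideal.Quotient.mkₐ 𝒪 I : S →ₐ[𝒪] S ⧸ I) : S →+* S ⧸ I) ∧
      maximalIdeal (S ⧸ I) ^ n = ⊥ :=
  by first | exact Fermat.Agent.S53_helper2_D1.D1d_quot_test 𝒪 hloc hsurj I hI n hn | exact Fermat.Agent.S53_helper2_D1.D1d_quot_test .. | (apply Fermat.Agent.S53_helper2_D1.D1d_quot_test <;> assumption)

/-- D1e: a surjective ring homomorphism between local rings is local. -/
theorem D1e_isLocalHom_of_surjective {S T : Type} [CommRing S] [IsLocalRing S] [CommRing T]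
    [IsLocalRing T] (f : S →+* T) (hf : Function.Surjective f) : IsLocalHom f :=
  by first | exact Fermat.Agent.S53_helper2_D1.D1e_isLocalHom_of_surjective f hf | exact Fermat.Agent.S53_helper2_D1.D1e_isLocalHom_of_surjective .. | (apply Fermat.Agent.S53_helper2_D1.D1e_isLocalHom_of_surjective <;> assumption)

/-- D1f: any `𝒪`-algebra homomorphism out of an Artinian test algebra into a local ring is
local; and the maximal ideal of an Artinian test algebra is nilpotent. -/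
theorem D1f_isLocalHom_of_artinian {A B : Type} [CommRing A] [IsLocalRing A] [Algebra 𝒪 A]
    [CommRing B] [IsLocalRing B] [Algebra 𝒪 B] (hA : IsArtinianTestAlgebra 𝒪 A)
    (φ : A →ₐ[𝒪] B) : IsLocalHom (φ : A →+* B) ∧ ∃ n : ℕ, maximalIdeal A ^ n = ⊥ :=
  by first | exact Fermat.Agent.S53_helper2_D1.D1f_isLocalHom_of_artinian 𝒪 hA φ | exact Fermat.Agent.S53_helper2_D1.D1f_isLocalHom_of_artinian .. | (apply Fermat.Agent.S53_helper2_D1.D1f_isLocalHom_of_artinian <;> assumption)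

variable [IsNoetherianRing 𝒪] [IsAdicComplete (maximalIdeal 𝒪) 𝒪]

/-- D2: two `𝒪`-algebra maps from the power series ring to a local `𝒪`-algebra with nilpotent
maximal ideal agree as soon as they agree on the variables (whose images are assumed to lie in
the maximal ideal). -/
theorem D2_lam_hom_ext {d : ℕ} {A : Type} [CommRing A] [IsLocalRing A] [Algebra 𝒪 A]
    (hloc : IsLocalHom (algebraMap 𝒪 A)) (hnil : ∃ n : ℕ, maximalIdeal A ^ n = ⊥)
    (φ φ' : Lam 𝒪 d →ₐ[𝒪] A) (hX : ∀ i, φ (MvPowerSeries.X i) ∈ maximalIdeal A)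
    (h : ∀ i, φ (MvPowerSeries.X i) = φ' (MvPowerSeries.X i)) : φ = φ' :=
  by first | exact Fermat.Agent.S53_helper27_D2.D2_lam_hom_ext 𝒪 hloc hnil φ φ' hX h | exact Fermat.Agent.S53_helper27_D2.D2_lam_hom_ext .. | (apply Fermat.Agent.S53_helper27_D2.D2_lam_hom_ext <;> assumption)

/-- D2b: such a map sends the maximal ideal into the maximal ideal, hence kills a power of
it. -/
theorem D2b_lam_map_maximalIdeal {d : ℕ} {A : Type} [CommRing A] [IsLocalRing A] [Algebra 𝒪 A]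
    (hloc : IsLocalHom (algebraMap 𝒪 A))
    (φ : Lam 𝒪 d →ₐ[𝒪] A) (hX : ∀ i, φ (MvPowerSeries.X i) ∈ maximalIdeal A) (n : ℕ) :
    (maximalIdeal (Lam 𝒪 d) ^ n).map (φ : Lam 𝒪 d →+* A) ≤ maximalIdeal A ^ n :=
  by first | exact Fermat.Agent.S53_helper27_D2.D2b_lam_map_maximalIdeal 𝒪 hloc φ hX n | exact Fermat.Agent.S53_helper27_D2.D2b_lam_map_maximalIdeal .. | (apply Fermat.Agent.S53_helper27_D2.D2b_lam_map_maximalIdeal <;> assumption)

end D

/-- D3: limits in an adically complete ring (index shifted by one). -/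
theorem D3_exists_unique_limit {S : Type} [CommRing S] (I : Ideal S) [IsAdicComplete I S]
    (x : ∀ n : ℕ, S ⧸ I ^ (n + 1))
    (hx : ∀ n, Ideal.Quotient.factor (Ideal.pow_le_pow_right (Nat.le_succ (n + 1))) (x (n + 1))
      = x n) :
    ∃! s : S, ∀ n, Ideal.Quotient.mk (I ^ (n + 1)) s = x n :=
  by first | exact Fermat.Agent.S53_helper2_D3.D3_exists_unique_limit I x hx | exact Fermat.Agent.S53_helper2_D3.D3_exists_unique_limit .. | (apply Fermat.Agent.S53_helper2_D3.D3_exists_unique_limit <;> assumption)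

section T
variable (𝒪 : Type) [CommRing 𝒪] [IsLocalRing 𝒪] [Finite (ResidueField 𝒪)]
  [IsNoetherianRing 𝒪] [IsAdicComplete (maximalIdeal 𝒪) 𝒪]
variable (ρbar : ResidualGaloisRep (ResidueField 𝒪))
variable (𝒟 : ∀ ⦃A : Type⦄ [CommRing A] [IsLocalRing A] [Algebra 𝒪 A], GaloisRepAdic A → Prop)
variable {d : ℕ} (h : Fin d → Gal) (a : Fin d → 𝒪)

/-- T0: for a strict lift, `tr M (h i) - a_i` lies in the maximal ideal. -/
theorem T0_trace_sub_mem (ha : ∀ i, residue 𝒪 (a i) = (rbMat ρbar (h i)).trace)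
    {A : Type} [CommRing A] [IsLocalRing A] [Algebra 𝒪 A]
    (hloc : IsLocalHom (algebraMap 𝒪 A))
    {M : Gal →* Matrix (Fin 2) (Fin 2) A} (hM : IsStrictLift 𝒪 hloc ρbar M) (i : Fin d) :
    (M (h i)).trace - algebraMap 𝒪 A (a i) ∈ maximalIdeal A :=
  by first | exact Fermat.Agent.S53_helper23_T0.T0_trace_sub_mem 𝒪 ρbar h a ha hloc hM i | exact Fermat.Agent.S53_helper23_T0.T0_trace_sub_mem .. | (apply Fermat.Agent.S53_helper23_T0.T0_trace_sub_mem <;> assumption)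

/-- T0b: existence of the classifying map of a `𝒟`-lift over an Artinian test algebra. -/
theorem T0b_exists_classifying (ha : ∀ i, residue 𝒪 (a i) = (rbMat ρbar (h i)).trace)
    {A : Type} [CommRing A] [IsLocalRing A] [Algebra 𝒪 A]
    (hA : IsArtinianTestAlgebra 𝒪 A)
    {M : Gal →* Matrix (Fin 2) (Fin 2) A} (hM : IsStrictLift 𝒪 hA.isLocalHom ρbar M) :
    ∃ ψ : Lam 𝒪 d →ₐ[𝒪] A, (∀ i, ψ (tautTr 𝒪 a i) = (M (h i)).trace) ∧
      ∀ i, ψ (MvPowerSeries.X i) ∈ maximalIdeal A :=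
  by first | exact Fermat.Agent.S53_helper23_T0.T0b_exists_classifying 𝒪 ρbar h a ha hA hM | exact Fermat.Agent.S53_helper23_T0.T0b_exists_classifying .. | (apply Fermat.Agent.S53_helper23_T0.T0b_exists_classifying <;> assumption)

/-- T1: a member of the family gives tautological `𝒟`-lifts over all Artinian quotients of
`Λ` lying above it. -/
theorem T1_exists_taut (habs : ρbar.IsAbsolutelyIrreducible)
    (h𝒟 : IsDeformationCondition 𝒪 𝒟) (hgen : Generates 𝒪 ρbar 𝒟 d h)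
    (ha : ∀ i, residue 𝒪 (a i) = (rbMat ρbar (h i)).trace)
    {I : Ideal (Lam 𝒪 d)} (hI : I ∈ famF 𝒪 ρbar 𝒟 h a)
    {B : Type} [CommRing B] [IsLocalRing B] [Algebra 𝒪 B] (hB : IsArtinianTestAlgebra 𝒪 B)
    (π : Lam 𝒪 d →ₐ[𝒪] B) (hπ : Function.Surjective π)
    (hle : I ≤ RingHom.ker (π : Lam 𝒪 d →+* B)) :
    ∃ M : Gal →* Matrix (Fin 2) (Fin 2) B, IsDLift 𝒪 ρbar 𝒟 hB.isLocalHom M ∧
      ∀ i, (M (h i)).trace = π (tautTr 𝒪 a i) :=
  by first | exact Fermat.Agent.S53_helper28_T1.T1_exists_taut 𝒪 ρbar 𝒟 h a habs h𝒟 hgen ha hI hB π hπ hle π | exact Fermat.Agent.S53_helper28_T1.T1_exists_taut .. | (apply Fermat.Agent.S53_helper28_T1.T1_exists_taut <;> assumption)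

/-- T3: the family is directed. -/
theorem T3_directed (h𝒟 : IsDeformationCondition 𝒪 𝒟)
    (ha : ∀ i, residue 𝒪 (a i) = (rbMat ρbar (h i)).trace)
    (I : Ideal (Lam 𝒪 d)) (hI : I ∈ famF 𝒪 ρbar 𝒟 h a)
    (I' : Ideal (Lam 𝒪 d)) (hI' : I' ∈ famF 𝒪 ρbar 𝒟 h a) :
    ∃ K ∈ famF 𝒪 ρbar 𝒟 h a, K ≤ I ⊓ I' :=
  by first | exact Fermat.Agent.S53_helper28_T3.T3_directed 𝒪 ρbar 𝒟 h a h𝒟 ha I hI I' hI' | exact Fermat.Agent.S53_helper28_T3.T3_directed .. | (apply Fermat.Agent.S53_helper28_T3.T3_directed <;> assumption)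

/-- T4: members of the family are open and proper. -/
theorem T4_open (ha : ∀ i, residue 𝒪 (a i) = (rbMat ρbar (h i)).trace)
    (I : Ideal (Lam 𝒪 d)) (hI : I ∈ famF 𝒪 ρbar 𝒟 h a) :
    (∃ n : ℕ, maximalIdeal (Lam 𝒪 d) ^ n ≤ I) ∧ I ≠ ⊤ :=
  by first | exact Fermat.Agent.S53_helper23_T4.T4_open 𝒪 ρbar 𝒟 h a ha I hI | exact Fermat.Agent.S53_helper23_T4.T4_open .. | (apply Fermat.Agent.S53_helper23_T4.T4_open <;> assumption)

/-- T5: the family is nonempty. -/
theorem T5_nonempty (h𝒟 : IsDeformationCondition 𝒪 𝒟)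
    (hbar : 𝒟 (GaloisRepAdic.ofResidualGaloisRep ρbar))
    (ha : ∀ i, residue 𝒪 (a i) = (rbMat ρbar (h i)).trace) :
    (famF 𝒪 ρbar 𝒟 h a).Nonempty :=
  by first | exact Fermat.Agent.S53_helper23_T5.T5_nonempty 𝒪 ρbar 𝒟 h a h𝒟 hbar ha | exact Fermat.Agent.S53_helper23_T5.T5_nonempty .. | (apply Fermat.Agent.S53_helper23_T5.T5_nonempty <;> assumption)

end T

end Fermat.Agent.S53_helper16_Pieces
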