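import Mathlib
import Fermat.Agent.S53_helper16_Pieces
import Fermat.Prelude.Thm_IsLocalRing_isAdicComplete_of_module_finite

set_option autoImplicit false

open IsLocalRing Fermat.Agent.S53_helper16_Defs Fermat.Agent.S53_helper16_Core
  Fermat.Agent.S53_helper16_Pieces GaloisRep

noncomputable section

namespace Fermat.Agent.S53_helper16_Final1

/-- conjugate of a matrix representation by a unit -/
def conjRep {A : Type} [CommRing A] (u : (Matrix (Fin 2) (Fin 2) A)ˣ)
    (M : Gal →* Matrix (Fin 2) (Fin 2) A) : Gal →* Matrix (Fin 2) (Fin 2) A where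
  toFun σ := (u : Matrix (Fin 2) (Fin 2) A) * M σ * ((u⁻¹ : (Matrix (Fin 2) (Fin 2) A)ˣ) :
    Matrix (Fin 2) (Fin 2) A)
  map_one' := by simp
  map_mul' σ τ := by
    rw [map_mul]
    calc (u : Matrix (Fin 2) (Fin 2) A) * (M σ * M τ) * ↑u⁻¹
        = ↑u * M σ * (↑u⁻¹ * ↑u) * M τ * ↑u⁻¹ := by
          rw [Units.inv_mul, mul_one]; simp only [mul_assoc]
      _ = _ := by simp only [mul_assoc]

theorem conjRep_apply {A : Type} [CommRing A] (u : (Matrix (Fin 2) (Fin 2) A)ˣ)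
    (M : Gal →* Matrix (Fin 2) (Fin 2) A) (σ : Gal) :
    conjRep u M σ = (u : Matrix (Fin 2) (Fin 2) A) * M σ *
      ((u⁻¹ : (Matrix (Fin 2) (Fin 2) A)ˣ) : Matrix (Fin 2) (Fin 2) A) := rfl

theorem conjRep_rel {A : Type} [CommRing A] (u : (Matrix (Fin 2) (Fin 2) A)ˣ)
    (M : Gal →* Matrix (Fin 2) (Fin 2) A) (σ : Gal) :
    (u : Matrix (Fin 2) (Fin 2) A) * M σ = conjRep u M σ * u := by
  rw [conjRep_apply, mul_assoc, Units.inv_mul, mul_one]

theorem conjRep_trace {A : Type} [CommRing A] (u : (Matrix (Fin 2) (Fin 2) A)ˣ)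
    (M : Gal →* Matrix (Fin 2) (Fin 2) A) (σ : Gal) :
    (conjRep u M σ).trace = (M σ).trace := by
  rw [conjRep_apply, Matrix.trace_mul_comm, ← mul_assoc, Units.inv_mul, one_mul]

theorem eq_conjRep_of_rel {A : Type} [CommRing A] (u : (Matrix (Fin 2) (Fin 2) A)ˣ)
    (M M' : Gal →* Matrix (Fin 2) (Fin 2) A)
    (h : ∀ σ, (u : Matrix (Fin 2) (Fin 2) A) * M σ = M' σ * u) : M' = conjRep u M := by
  ext1 σ
  rw [conjRep_apply, h σ, mul_assoc, Units.mul_inv, mul_one]

theorem mapRep_conjRep {A B : Type} [CommRing A] [CommRing B] (φ : A →+* B)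
    (u : (Matrix (Fin 2) (Fin 2) A)ˣ) (M : Gal →* Matrix (Fin 2) (Fin 2) A) :
    mapRep φ (conjRep u M) = conjRep (Units.map (RingHom.mapMatrix φ).toMonoidHom u)
      (mapRep φ M) := by
  ext1 σ
  simp only [mapRep_apply, conjRep_apply]
  rw [← RingHom.mapMatrix_apply, map_mul, map_mul]
  rfl

theorem mapRep_comp {A B C : Type} [CommRing A] [CommRing B] [CommRing C] (φ : A →+* B)
    (ψ : B →+* C) (M : Gal →* Matrix (Fin 2) (Fin 2) A) :
    mapRep ψ (mapRep φ M) = mapRep (ψ.comp φ) M := by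
  ext1 σ
  simp only [mapRep_apply, Matrix.map_map]
  rfl

theorem mapRep_trace {A B : Type} [CommRing A] [CommRing B] (φ : A →+* B)
    (M : Gal →* Matrix (Fin 2) (Fin 2) A) (σ : Gal) :
    (mapRep φ M σ).trace = φ ((M σ).trace) := by
  rw [mapRep_apply]
  simp [Matrix.trace, Matrix.map_apply]

end Fermat.Agent.S53_helper16_Final1

end
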