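import Mathlib
import Fermat.Agent.S53_helper16_Defs
import Fermat.Prelude.Def_GaloisRep_DeformationCondition

set_option autoImplicit false
set_option linter.style.haveILetI false

open IsLocalRing

namespace Fermat.Agent.S53_helper26_Limit

/-- Two matrices over an `I`-adically separated ring agreeing modulo all `I ^ n` are equal. -/
theorem matrix_eq_of_forall_map_mk {R : Type*} [CommRing R] (I : Ideal R) [IsHausdorff I R]
    {m : Type*} (X Y : Matrix m m R)
    (h : ∀ n, X.map (Ideal.Quotient.mk (I ^ n)) = Y.map (Ideal.Quotient.mk (I ^ n))) :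
    X = Y := by
  have := IsHausdorff.funext' (R := m × m) I (f := fun p => X p.1 p.2) (g := fun p => Y p.1 p.2)
    (fun n p => by
      have := congrFun (congrFun (h n) p.1) p.2
      simpa using this)
  ext i j
  exact congrFun this (i, j)

/-- K1: exact limit of a compatible system of matrix representations. -/
theorem K1_exact_limit {R : Type*} [CommRing R] (I : Ideal R) [IsAdicComplete I R]
    {G : Type*} [Monoid G]
    (N : ∀ n : ℕ, G →* Matrix (Fin 2) (Fin 2) (R ⧸ I ^ n))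
    (hc : ∀ n g, (N (n + 1) g).map (Ideal.Quotient.factorPow I (Nat.le_succ n)) = N n g) :
    ∃ M : G →* Matrix (Fin 2) (Fin 2) R,
      ∀ n g, (M g).map (Ideal.Quotient.mk (I ^ n)) = N n g := by
  classical
  let X := G × Fin 2 × Fin 2
  let f : ∀ n : ℕ, MvPolynomial X ℤ →+* R ⧸ I ^ n := fun n =>
    MvPolynomial.eval₂Hom (Int.castRingHom _) (fun x : X => N n x.1 x.2.1 x.2.2)
  have hf : ∀ {m : ℕ}, (Ideal.Quotient.factorPow I (strictMono_id.monotone m.le_succ)).comp
      (f (m + 1)) = f m := by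
    intro m
    apply MvPolynomial.ringHom_ext
    · intro z
      simp [f]
    · intro x
      have := congrFun (congrFun (hc m x.1) x.2.1) x.2.2
      simpa [f] using this
  let F : MvPolynomial X ℤ →+* R := IsAdicComplete.StrictMono.liftRingHom I strictMono_id f hf
  have hF : ∀ n (x : X), Ideal.Quotient.mk (I ^ n) (F (MvPolynomial.X x)) = N n x.1 x.2.1 x.2.2 := by
    intro n x
    have := IsAdicComplete.StrictMono.mk_liftRingHom I strictMono_id f hf (n := n)
      (MvPolynomial.X x)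
    simpa [f] using this
  let Mf : G → Matrix (Fin 2) (Fin 2) R := fun g => Matrix.of fun i j => F (MvPolynomial.X (g, i, j))
  have hMf : ∀ n g, (Mf g).map (Ideal.Quotient.mk (I ^ n)) = N n g := by
    intro n g
    ext i j
    simpa [Mf] using hF n (g, i, j)
  refine ⟨{ toFun := Mf, map_one' := ?_, map_mul' := ?_ }, hMf⟩
  · apply matrix_eq_of_forall_map_mk I
    intro n
    rw [hMf, map_one]
    ext i j
    by_cases hij : i = j
    · subst hij; simp
    · simp [Matrix.one_apply_ne hij]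
  · intro g h
    apply matrix_eq_of_forall_map_mk I
    intro n
    rw [hMf, map_mul, Matrix.map_mul, hMf, hMf]


section General

variable {R : Type*} [CommRing R] (I : Ideal R)

/-- A matrix over `R ⧸ I ^ (n+1)` congruent to `1` modulo `I`. -/
def OneMod (n : ℕ) (v : Matrix (Fin 2) (Fin 2) (R ⧸ I ^ (n + 1))) : Prop :=
  ∀ i j, (v - 1) i j ∈ I.map (Ideal.Quotient.mk (I ^ (n + 1)))

theorem oneMod_one (n : ℕ) : OneMod I n 1 := by
  intro i j
  simp

theorem oneMod_mul (n : ℕ) {v w : Matrix (Fin 2) (Fin 2) (R ⧸ I ^ (n + 1))}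
    (hv : OneMod I n v) (hw : OneMod I n w) : OneMod I n (v * w) := by
  intro i j
  have h : v * w - 1 = (v - 1) * w + (w - 1) := by
    rw [sub_mul, one_mul]; abel
  rw [h, Matrix.add_apply, Matrix.mul_apply]
  refine Ideal.add_mem _ (Ideal.sum_mem _ fun k _ => Ideal.mul_mem_right _ _ (hv i k)) (hw i j)

theorem isNilpotent_of_mem_map (n : ℕ) {x : R ⧸ I ^ (n + 1)}
    (hx : x ∈ I.map (Ideal.Quotient.mk (I ^ (n + 1)))) : IsNilpotent x := by
  refine ⟨n + 1, ?_⟩
  have h1 : x ^ (n + 1) ∈ (I.map (Ideal.Quotient.mk (I ^ (n + 1)))) ^ (n + 1) :=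
    Ideal.pow_mem_pow hx _
  rw [← Ideal.map_pow, Ideal.map_quotient_self] at h1
  simpa using h1

theorem isUnit_of_oneMod (n : ℕ) {v : Matrix (Fin 2) (Fin 2) (R ⧸ I ^ (n + 1))}
    (hv : OneMod I n v) : IsUnit v := by
  rw [Matrix.isUnit_iff_isUnit_det]
  have h00 := hv 0 0
  have h01 := hv 0 1
  have h10 := hv 1 0
  have h11 := hv 1 1
  simp only [Matrix.sub_apply, Matrix.one_apply_eq, ne_eq, zero_ne_one, not_false_eq_true,
    Matrix.one_apply_ne, one_ne_zero, sub_zero] at h00 h01 h10 h11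
  have hdet : v.det = 1 + ((v 0 0 - 1) + (v 1 1 - 1) + (v 0 0 - 1) * (v 1 1 - 1)
      - v 0 1 * v 1 0) := by
    rw [Matrix.det_fin_two]; ring
  rw [hdet]
  have hmem : ((v 0 0 - 1) + (v 1 1 - 1) + (v 0 0 - 1) * (v 1 1 - 1) - v 0 1 * v 1 0) ∈
      I.map (Ideal.Quotient.mk (I ^ (n + 1))) :=
    Ideal.sub_mem _ (Ideal.add_mem _ (Ideal.add_mem _ h00 h11) (Ideal.mul_mem_left _ _ h11))
      (Ideal.mul_mem_left _ _ h10)
  have := (isNilpotent_of_mem_map I n hmem).isUnit_one_add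
  exact this

/-- The transition map `R ⧸ I ^ (n+2) → R ⧸ I ^ (n+1)`. -/
abbrev tr (n : ℕ) : R ⧸ I ^ (n + 1 + 1) →+* R ⧸ I ^ (n + 1) :=
  Ideal.Quotient.factorPow I (Nat.le_succ (n + 1))

theorem exists_lift_oneMod (n : ℕ) {w : Matrix (Fin 2) (Fin 2) (R ⧸ I ^ (n + 1))}
    (hw : OneMod I n w) :
    ∃ w' : Matrix (Fin 2) (Fin 2) (R ⧸ I ^ (n + 1 + 1)), OneMod I (n + 1) w' ∧
      w'.map (tr I n) = w := by
  have hsurj : Function.Surjective (tr I n) := Ideal.Quotient.factor_surjective _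
  have key : ∀ i j, ∃ y ∈ I.map (Ideal.Quotient.mk (I ^ (n + 1 + 1))),
      tr I n y = (w - 1) i j := by
    intro i j
    have h1 := hw i j
    have h2 : I.map (Ideal.Quotient.mk (I ^ (n + 1))) =
        (I.map (Ideal.Quotient.mk (I ^ (n + 1 + 1)))).map (tr I n) := by
      rw [Ideal.map_map]
      congr 1
    rw [h2] at h1
    exact (Ideal.mem_map_iff_of_surjective _ hsurj).mp h1
  choose y hy hy' using key
  refine ⟨1 + Matrix.of y, ?_, ?_⟩
  · intro i j
    simpa using hy i j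
  · ext i j
    have := hy' i j
    simp only [Matrix.map_apply, Matrix.add_apply, Matrix.of_apply, map_add, this,
      Matrix.sub_apply]
    by_cases hij : i = j
    · subst hij; simp
    · simp [Matrix.one_apply_ne hij]

end General

section Recursion

variable {R : Type*} [CommRing R] (I : Ideal R)

/-- Unit matrices over `R ⧸ I ^ (n+1)` congruent to `1` modulo `I`. -/
abbrev W (n : ℕ) : Type _ :=
  {v : (Matrix (Fin 2) (Fin 2) (R ⧸ I ^ (n + 1)))ˣ //
    OneMod I n (v : Matrix (Fin 2) (Fin 2) (R ⧸ I ^ (n + 1)))}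

theorem exists_liftW (n : ℕ) (w : W I n) :
    ∃ w' : W I (n + 1),
      (w'.1 : Matrix (Fin 2) (Fin 2) (R ⧸ I ^ (n + 1 + 1))).map (tr I n) = w.1 := by
  obtain ⟨w', hw', h⟩ := exists_lift_oneMod I n w.2
  exact ⟨⟨(isUnit_of_oneMod I (n + 1) hw').unit, hw'⟩, h⟩

/-- A chosen lift. -/
noncomputable def liftW (n : ℕ) (w : W I n) : W I (n + 1) := (exists_liftW I n w).choose

theorem liftW_spec (n : ℕ) (w : W I n) :
    ((liftW I n w).1 : Matrix (Fin 2) (Fin 2) (R ⧸ I ^ (n + 1 + 1))).map (tr I n) = w.1 :=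
  (exists_liftW I n w).choose_spec

/-- Multiplication in `W`. -/
def mulW (n : ℕ) (a b : W I n) : W I n := ⟨a.1 * b.1, by
  rw [Units.val_mul]; exact oneMod_mul I n a.2 b.2⟩

/-- The recursively defined gauge transformations. -/
noncomputable def gauge (u : ∀ n, W I n) : ∀ n, W I n
  | 0 => ⟨1, by rw [Units.val_one]; exact oneMod_one I 0⟩
  | n + 1 => liftW I n (mulW I n (gauge u n) (u n))

theorem gauge_succ (u : ∀ n, W I n) (n : ℕ) :
    ((gauge I u (n + 1)).1 : Matrix (Fin 2) (Fin 2) (R ⧸ I ^ (n + 1 + 1))).map (tr I n) =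
      (gauge I u n).1 * (u n).1 := by
  rw [gauge, liftW_spec]
  rfl

theorem map_inv_eq {A B : Type*} [CommRing A] [CommRing B] (f : A →+* B)
    (v : (Matrix (Fin 2) (Fin 2) A)ˣ) (w : (Matrix (Fin 2) (Fin 2) B)ˣ)
    (h : (v : Matrix (Fin 2) (Fin 2) A).map f = w) :
    ((v⁻¹ : (Matrix (Fin 2) (Fin 2) A)ˣ) : Matrix (Fin 2) (Fin 2) A).map f =
      ((w⁻¹ : (Matrix (Fin 2) (Fin 2) B)ˣ) : Matrix (Fin 2) (Fin 2) B) := by
  have h1 : Units.map (RingHom.mapMatrix f).toMonoidHom v = w := by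
    apply Units.ext
    exact h
  have h2 := congrArg (fun x : (Matrix (Fin 2) (Fin 2) B)ˣ => ((x⁻¹ : (Matrix (Fin 2) (Fin 2) B)ˣ) :
    Matrix (Fin 2) (Fin 2) B)) h1
  simp only [← map_inv] at h2
  exact h2

variable {G : Type*} [Monoid G]

/-- Conjugate of a monoid homomorphism by a unit. -/
def conjHom {M : Type*} [Monoid M] (v : Mˣ) (f : G →* M) : G →* M where
  toFun g := v * f g * ((v⁻¹ : Mˣ) : M)
  map_one' := by simp
  map_mul' a b := by
    simp only [map_mul]
    calc (v : M) * (f a * f b) * ((v⁻¹ : Mˣ) : M)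
        = (v : M) * f a * (((v⁻¹ : Mˣ) : M) * (v : M)) * f b * ((v⁻¹ : Mˣ) : M) := by
          rw [Units.inv_mul, mul_one]; simp only [mul_assoc]
      _ = _ := by simp only [mul_assoc]

/-- K2 (general form): limit of a system of matrix representations which is compatible up to
conjugation by matrices congruent to `1` modulo `I`. -/
theorem K2_conj_limit [IsAdicComplete I R]
    (N : ∀ n : ℕ, G →* Matrix (Fin 2) (Fin 2) (R ⧸ I ^ (n + 1)))
    (hconj : ∀ n, ∃ u : Matrix (Fin 2) (Fin 2) (R ⧸ I ^ (n + 1)), OneMod I n u ∧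
      ∀ g, u * (N (n + 1) g).map (tr I n) = N n g * u) :
    ∃ M : G →* Matrix (Fin 2) (Fin 2) R, ∀ n,
      ∃ v : Matrix (Fin 2) (Fin 2) (R ⧸ I ^ (n + 1)), OneMod I n v ∧ IsUnit v ∧
        ∀ g, v * N n g = (M g).map (Ideal.Quotient.mk (I ^ (n + 1))) * v := by
  classical
  choose u hu1 hu2 using hconj
  let uW : ∀ n, W I n := fun n => ⟨(isUnit_of_oneMod I n (hu1 n)).unit, hu1 n⟩
  let v : ∀ n, W I n := gauge I uW
  let N' : ∀ n, G →* Matrix (Fin 2) (Fin 2) (R ⧸ I ^ (n + 1)) := fun n => conjHom (v n).1 (N n)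
  have hN' : ∀ n g, (N' (n + 1) g).map (tr I n) = N' n g := by
    intro n g
    have hv := gauge_succ I uW n
    have hvinv := map_inv_eq (tr I n) (v (n + 1)).1 ((v n).1 * (uW n).1) hv
    change (((v (n + 1)).1 : Matrix (Fin 2) (Fin 2) _) * N (n + 1) g *
      (((v (n + 1)).1⁻¹ : (Matrix (Fin 2) (Fin 2) _)ˣ) : Matrix (Fin 2) (Fin 2) _)).map (tr I n) =
      ((v n).1 : Matrix (Fin 2) (Fin 2) _) * N n g *
      (((v n).1⁻¹ : (Matrix (Fin 2) (Fin 2) _)ˣ) : Matrix (Fin 2) (Fin 2) _)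
    rw [Matrix.map_mul, Matrix.map_mul, hv, hvinv, mul_inv_rev, Units.val_mul]
    have hu := hu2 n g
    have huW : ((uW n).1 : Matrix (Fin 2) (Fin 2) _) = u n := rfl
    rw [huW]
    calc ((v n).1 : Matrix (Fin 2) (Fin 2) _) * u n * (N (n + 1) g).map (tr I n) *
          ((((uW n).1⁻¹ : (Matrix (Fin 2) (Fin 2) _)ˣ) : Matrix (Fin 2) (Fin 2) _) *
            (((v n).1⁻¹ : (Matrix (Fin 2) (Fin 2) _)ˣ) : Matrix (Fin 2) (Fin 2) _))
        = ((v n).1 : Matrix (Fin 2) (Fin 2) _) * (u n * (N (n + 1) g).map (tr I n)) *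
          ((((uW n).1⁻¹ : (Matrix (Fin 2) (Fin 2) _)ˣ) : Matrix (Fin 2) (Fin 2) _) *
            (((v n).1⁻¹ : (Matrix (Fin 2) (Fin 2) _)ˣ) : Matrix (Fin 2) (Fin 2) _)) := by
          simp only [mul_assoc]
      _ = ((v n).1 : Matrix (Fin 2) (Fin 2) _) * N n g *
          (((uW n).1 : Matrix (Fin 2) (Fin 2) _) *
            (((uW n).1⁻¹ : (Matrix (Fin 2) (Fin 2) _)ˣ) : Matrix (Fin 2) (Fin 2) _)) *
            (((v n).1⁻¹ : (Matrix (Fin 2) (Fin 2) _)ˣ) : Matrix (Fin 2) (Fin 2) _) := by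
          rw [hu, huW]; simp only [mul_assoc]
      _ = _ := by rw [Units.mul_inv, mul_one]
  -- re-index to apply K1
  let N'' : ∀ n : ℕ, G →* Matrix (Fin 2) (Fin 2) (R ⧸ I ^ n) := fun n =>
    match n with
    | 0 => 1
    | n + 1 => N' n
  have hsub : Subsingleton (R ⧸ I ^ 0) := by
    rw [pow_zero, Ideal.one_eq_top]
    exact Ideal.Quotient.subsingleton_iff.mpr rfl
  obtain ⟨M, hM⟩ := K1_exact_limit I N'' (by
    intro n g
    cases n with
    | zero => exact Subsingleton.elim _ _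
    | succ n => exact hN' n g)
  refine ⟨M, fun n => ⟨(v n).1, (v n).2, (v n).1.isUnit, fun g => ?_⟩⟩
  rw [hM (n + 1) g]
  change _ = ((v n).1 : Matrix (Fin 2) (Fin 2) _) * N n g *
      (((v n).1⁻¹ : (Matrix (Fin 2) (Fin 2) _)ˣ) : Matrix (Fin 2) (Fin 2) _) * _
  rw [mul_assoc, Units.inv_mul, mul_one]

end Recursion

section Local

open Fermat.Agent.S53_helper16_Defs

variable {R : Type*} [CommRing R] [IsLocalRing R]

theorem maximalIdeal_pow_succ_ne_top (n : ℕ) : maximalIdeal R ^ (n + 1) ≠ ⊤ := by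
  intro h
  have h1 : maximalIdeal R ^ (n + 1) ≤ maximalIdeal R := Ideal.pow_le_self (by omega)
  rw [h] at h1
  exact (maximalIdeal.isMaximal R).ne_top (top_le_iff.mp h1)

/-- `R ⧸ m ^ (n+1)` is a local ring. -/
theorem isLocalRing_quot_pow (n : ℕ) : IsLocalRing (R ⧸ maximalIdeal R ^ (n + 1)) := by
  haveI : Nontrivial (R ⧸ maximalIdeal R ^ (n + 1)) :=
    Ideal.Quotient.nontrivial_iff.mpr (maximalIdeal_pow_succ_ne_top n)
  exact IsLocalRing.of_surjective' (Ideal.Quotient.mk _) Ideal.Quotient.mk_surjective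

theorem isLocalHom_mk_quot_pow (n : ℕ) [IsLocalRing (R ⧸ maximalIdeal R ^ (n + 1))] :
    IsLocalHom (Ideal.Quotient.mk (maximalIdeal R ^ (n + 1))) :=
  IsLocalHom.of_surjective _ Ideal.Quotient.mk_surjective

theorem maximalIdeal_quot_pow (n : ℕ) [IsLocalRing (R ⧸ maximalIdeal R ^ (n + 1))] :
    maximalIdeal (R ⧸ maximalIdeal R ^ (n + 1)) =
      (maximalIdeal R).map (Ideal.Quotient.mk (maximalIdeal R ^ (n + 1))) := by
  haveI := isLocalHom_mk_quot_pow (R := R) n
  ext x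
  obtain ⟨x, rfl⟩ := Ideal.Quotient.mk_surjective x
  constructor
  · intro hx
    refine Ideal.mem_map_of_mem _ ?_
    rw [mem_maximalIdeal, mem_nonunits_iff] at hx ⊢
    exact fun h => hx (h.map _)
  · intro hx
    obtain ⟨y, hy, hxy⟩ := (Ideal.mem_map_iff_of_surjective _ Ideal.Quotient.mk_surjective).mp hx
    rw [← hxy]
    rw [mem_maximalIdeal, mem_nonunits_iff] at hy ⊢
    exact fun h => hy (isUnit_of_map_unit (Ideal.Quotient.mk (maximalIdeal R ^ (n + 1))) y h)

theorem map_residue_eq_one_iff {S : Type*} [CommRing S] [IsLocalRing S]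
    (v : Matrix (Fin 2) (Fin 2) S) :
    v.map (residue S) = 1 ↔ ∀ i j, (v - 1) i j ∈ maximalIdeal S := by
  constructor
  · intro h i j
    have := congrFun (congrFun h i) j
    rw [← residue_eq_zero_iff]
    simp only [Matrix.map_apply] at this
    rw [Matrix.sub_apply, map_sub, this]
    by_cases hij : i = j
    · subst hij; simp
    · simp [Matrix.one_apply_ne hij]
  · intro h
    ext i j
    have := (residue_eq_zero_iff _).mpr (h i j)
    rw [Matrix.sub_apply, map_sub, sub_eq_zero] at this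
    rw [Matrix.map_apply, this]
    by_cases hij : i = j
    · subst hij; simp
    · simp [Matrix.one_apply_ne hij]

theorem oneMod_iff_map_residue (n : ℕ) [IsLocalRing (R ⧸ maximalIdeal R ^ (n + 1))]
    (v : Matrix (Fin 2) (Fin 2) (R ⧸ maximalIdeal R ^ (n + 1))) :
    OneMod (maximalIdeal R) n v ↔ v.map (residue (R ⧸ maximalIdeal R ^ (n + 1))) = 1 := by
  rw [map_residue_eq_one_iff, maximalIdeal_quot_pow]
  rfl

/-- K2 (local form): limit of a system of matrix representations over the `R ⧸ m ^ (n+1)` which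
is compatible up to conjugation by matrices reducing to `1` in the residue field. -/
theorem K2_conj_limit_local [IsAdicComplete (maximalIdeal R) R] {G : Type*} [Monoid G]
    [hloc : ∀ n, IsLocalRing (R ⧸ maximalIdeal R ^ (n + 1))]
    (N : ∀ n : ℕ, G →* Matrix (Fin 2) (Fin 2) (R ⧸ maximalIdeal R ^ (n + 1)))
    (hconj : ∀ n, ∃ u : Matrix (Fin 2) (Fin 2) (R ⧸ maximalIdeal R ^ (n + 1)),
      u.map (residue (R ⧸ maximalIdeal R ^ (n + 1))) = 1 ∧
      ∀ g, u * (N (n + 1) g).map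
        (Ideal.Quotient.factorPow (maximalIdeal R) (Nat.le_succ (n + 1))) = N n g * u) :
    ∃ M : G →* Matrix (Fin 2) (Fin 2) R, ∀ n,
      ∃ v : Matrix (Fin 2) (Fin 2) (R ⧸ maximalIdeal R ^ (n + 1)), IsUnit v ∧
        v.map (residue (R ⧸ maximalIdeal R ^ (n + 1))) = 1 ∧
        ∀ g, v * N n g = (M g).map (Ideal.Quotient.mk (maximalIdeal R ^ (n + 1))) * v := by
  obtain ⟨M, hM⟩ := K2_conj_limit (maximalIdeal R) N (fun n => by
    obtain ⟨u, hu1, hu2⟩ := hconj n
    exact ⟨u, (oneMod_iff_map_residue n u).mpr hu1, hu2⟩)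
  refine ⟨M, fun n => ?_⟩
  obtain ⟨v, hv1, hv2, hv3⟩ := hM n
  exact ⟨v, hv2, (oneMod_iff_map_residue n v).mp hv1, hv3⟩

/-- K3: a matrix representation over a local ring all of whose reductions modulo `m ^ (n+1)` are
continuous is continuous. -/
theorem K3_matCont_of_quot {R : Type} [CommRing R] [IsLocalRing R]
    (M : Gal →* Matrix (Fin 2) (Fin 2) R)
    [hloc : ∀ n, IsLocalRing (R ⧸ maximalIdeal R ^ (n + 1))]
    (h : ∀ n, MatCont (mapRep (Ideal.Quotient.mk (maximalIdeal R ^ (n + 1))) M)) :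
    MatCont M := by
  intro n
  obtain ⟨L, hL, hLσ⟩ := h n (n + 1)
  refine ⟨L, hL, fun σ hσ i j => ?_⟩
  have h1 := hLσ σ hσ i j
  rw [maximalIdeal_quot_pow, ← Ideal.map_pow, Ideal.map_quotient_self] at h1
  have h2 : (mapRep (Ideal.Quotient.mk (maximalIdeal R ^ (n + 1))) M σ - 1) i j =
      Ideal.Quotient.mk (maximalIdeal R ^ (n + 1)) ((M σ - 1) i j) := by
    simp only [mapRep_apply, Matrix.sub_apply, Matrix.map_apply, map_sub]
    congr 1
    by_cases hij : i = j
    · subst hij; simp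
    · simp [Matrix.one_apply_ne hij]
  rw [h2] at h1
  have h3 : (M σ - 1) i j ∈ maximalIdeal R ^ (n + 1) :=
    Ideal.Quotient.eq_zero_iff_mem.mp (by simpa using h1)
  exact Ideal.pow_le_pow_right (Nat.le_succ n) h3

/-- K3b: strictness is reflected by local algebra maps. -/
theorem K3b_strict_of_map (𝒪 : Type) [CommRing 𝒪] [IsLocalRing 𝒪]
    (ρbar : ResidualGaloisRep (ResidueField 𝒪))
    {A B : Type} [CommRing A] [IsLocalRing A] [Algebra 𝒪 A]
    [CommRing B] [IsLocalRing B] [Algebra 𝒪 B]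
    (hlocA : IsLocalHom (algebraMap 𝒪 A)) (hlocB : IsLocalHom (algebraMap 𝒪 B))
    (φ : A →ₐ[𝒪] B) (hφ : IsLocalHom (φ : A →+* B))
    {M : Gal →* Matrix (Fin 2) (Fin 2) A}
    (hM : IsStrictLift 𝒪 hlocB ρbar (mapRep (φ : A →+* B) M)) :
    IsStrictLift 𝒪 hlocA ρbar M := by
  intro σ
  have h1 := hM σ
  haveI := hφ
  haveI := hlocA
  haveI := hlocB
  have hinj : Function.Injective (ResidueField.map (φ : A →+* B)) :=
    (ResidueField.map (φ : A →+* B)).injective
  ext i j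
  apply hinj
  have h2 := congrFun (congrFun h1 i) j
  simp only [mapRep_apply, Matrix.map_apply, kappa] at h2 ⊢
  rw [ResidueField.map_residue, h2]
  have h3 : (ResidueField.map (φ : A →+* B)).comp (ResidueField.map (algebraMap 𝒪 A)) =
      ResidueField.map (algebraMap 𝒪 B) := by
    apply RingHom.ext
    intro x
    obtain ⟨x, rfl⟩ := residue_surjective x
    simp [ResidueField.map_residue]
  exact (congrFun (congrArg DFunLike.coe h3) _).symm

end Local

section Universality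

/-- K4u: two local `𝒪`-algebra maps into a separated local ring which agree on a set whose
`𝒪`-adjoin is dense are equal. -/
theorem K4u_algHom_ext_of_dense {𝒪 R A : Type*} [CommRing 𝒪] [CommRing R] [CommRing A]
    [Algebra 𝒪 R] [Algebra 𝒪 A] [IsLocalRing R] [IsLocalRing A]
    [IsHausdorff (maximalIdeal A) A] (φ φ' : R →ₐ[𝒪] A)
    (hφ : IsLocalHom (φ : R →+* A)) (hφ' : IsLocalHom (φ' : R →+* A)) (S : Set R)
    (hS : ∀ (r : R) (n : ℕ), ∃ p ∈ Algebra.adjoin 𝒪 S, r - p ∈ maximalIdeal R ^ n)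
    (h : ∀ s ∈ S, φ s = φ' s) : φ = φ' := by
  have hadj : ∀ p ∈ Algebra.adjoin 𝒪 S, φ p = φ' p := by
    intro p hp
    induction hp using Algebra.adjoin_induction with
    | mem x hx => exact h x hx
    | algebraMap r => simp
    | add x y _ _ hx hy => rw [map_add, map_add, hx, hy]
    | mul x y _ _ hx hy => rw [map_mul, map_mul, hx, hy]
  have hmap : ∀ (ψ : R →ₐ[𝒪] A), IsLocalHom (ψ : R →+* A) → ∀ n x, x ∈ maximalIdeal R ^ n →
      ψ x ∈ maximalIdeal A ^ n := by
    intro ψ hψ n x hx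
    have h1 : (maximalIdeal R ^ n).map (ψ : R →+* A) ≤ maximalIdeal A ^ n := by
      rw [Ideal.map_pow]
      exact Ideal.pow_right_mono (Ideal.map_le_iff_le_comap.mpr fun a ha =>
        Ideal.mem_comap.mpr (haveI := hψ; map_nonunit (ψ : R →+* A) a ha)) n
    exact h1 (Ideal.mem_map_of_mem (ψ : R →+* A) hx)
  apply AlgHom.ext
  intro r
  rw [IsHausdorff.eq_iff_smodEq (I := maximalIdeal A)]
  intro n
  obtain ⟨p, hp, hrp⟩ := hS r n
  rw [SModEq.sub_mem]
  have h1 : φ r - φ' r = φ (r - p) - φ' (r - p) := by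
    rw [map_sub, map_sub, hadj p hp]; ring
  rw [h1]
  have h2 := Ideal.sub_mem _ (hmap φ hφ n _ hrp) (hmap φ' hφ' n _ hrp)
  simpa using h2

/-- K5: the quotients `A ⧸ m ^ (n+1)` of a Noetherian local `𝒪`-algebra with residue field `k`
are Artinian test algebras. -/
theorem K5_quot_isArtinianTestAlgebra (𝒪 : Type) [CommRing 𝒪] [IsLocalRing 𝒪]
    [Finite (ResidueField 𝒪)] {A : Type} [CommRing A] [IsLocalRing A] [IsNoetherianRing A]
    [Algebra 𝒪 A] (hloc : IsLocalHom (algebraMap 𝒪 A))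
    (hsurj : Function.Surjective (residue A ∘ algebraMap 𝒪 A)) (n : ℕ)
    [IsLocalRing (A ⧸ maximalIdeal A ^ (n + 1))] :
    GaloisRep.IsArtinianTestAlgebra 𝒪 (A ⧸ maximalIdeal A ^ (n + 1)) := by
  haveI := hloc
  haveI hmk := isLocalHom_mk_quot_pow (R := A) n
  haveI : Finite (ResidueField A) := by
    refine Finite.of_surjective (ResidueField.map (algebraMap 𝒪 A)) ?_
    intro y
    obtain ⟨x, hx⟩ := hsurj y
    exact ⟨residue 𝒪 x, by simpa using hx⟩
  haveI : Finite (A ⧸ maximalIdeal A ^ (n + 1)) :=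
    IsLocalRing.finite_quotient_iff.mpr ⟨n + 1, le_rfl⟩
  refine ⟨?_, ?_, inferInstance⟩
  · refine ⟨fun x hx => ?_⟩
    have h1 : IsUnit (Ideal.Quotient.mk (maximalIdeal A ^ (n + 1)) (algebraMap 𝒪 A x)) := hx
    exact isUnit_of_map_unit (algebraMap 𝒪 A) x
      (isUnit_of_map_unit (Ideal.Quotient.mk (maximalIdeal A ^ (n + 1))) _ h1)
  · intro y
    obtain ⟨a, rfl⟩ := residue_surjective y
    obtain ⟨a, rfl⟩ := Ideal.Quotient.mk_surjective a
    obtain ⟨c, hc⟩ := hsurj (residue A a)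
    refine ⟨c, ?_⟩
    simp only [Function.comp_apply] at hc ⊢
    rw [← sub_eq_zero, ← map_sub, residue_eq_zero_iff] at hc ⊢
    rw [maximalIdeal_quot_pow]
    have : algebraMap 𝒪 (A ⧸ maximalIdeal A ^ (n + 1)) c - Ideal.Quotient.mk _ a =
        Ideal.Quotient.mk (maximalIdeal A ^ (n + 1)) (algebraMap 𝒪 A c - a) := by
      rw [map_sub]; rfl
    rw [this]
    exact Ideal.mem_map_of_mem _ hc

end Universality

end Fermat.Agent.S53_helper26_Limit
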