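import Mathlib
import Fermat.Agent.S53_helper16_Pieces
import Fermat.Agent.S53_helper16_Final1
import Fermat.Agent.S53_helper26_Limit

set_option autoImplicit false

open IsLocalRing Fermat.Agent.S53_helper16_Defs Fermat.Agent.S53_helper16_Core
  Fermat.Agent.S53_helper16_Pieces Fermat.Agent.S53_helper16_Final1
  Fermat.Agent.S53_helper26_Limit GaloisRep

noncomputable section

namespace Fermat.Agent.S53_helper16_Final2

theorem trace_eq_of_conj {A : Type} [CommRing A] {u X Y : Matrix (Fin 2) (Fin 2) A}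
    (hu : IsUnit u) (h : u * X = Y * u) : X.trace = Y.trace := by
  obtain ⟨u, rfl⟩ := hu
  have : Y = u * X * ((u⁻¹ : (Matrix (Fin 2) (Fin 2) A)ˣ) : Matrix (Fin 2) (Fin 2) A) := by
    rw [h, mul_assoc, Units.mul_inv, mul_one]
  rw [this, Matrix.trace_mul_comm, ← mul_assoc, Units.inv_mul, one_mul]

theorem eq_of_forall_mk_eq {R : Type} [CommRing R] (I : Ideal R) [IsHausdorff I R] {x y : R}
    (h : ∀ n : ℕ, Ideal.Quotient.mk (I ^ (n + 1)) x = Ideal.Quotient.mk (I ^ (n + 1)) y) :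
    x = y := by
  rw [← sub_eq_zero]
  apply IsHausdorff.haus' (I := I)
  intro n
  rw [SModEq.zero, smul_eq_mul, Ideal.mul_top]
  have h1 := h n
  rw [Ideal.Quotient.eq] at h1
  exact Ideal.pow_le_pow_right (Nat.le_succ n) h1

theorem map_pow_maximalIdeal_le {A B : Type} [CommRing A] [CommRing B] [IsLocalRing A]
    [IsLocalRing B] (φ : A →+* B) (hφ : IsLocalHom φ) (n : ℕ) :
    (maximalIdeal A ^ n).map φ ≤ maximalIdeal B ^ n := by
  rw [Ideal.map_pow]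
  exact Ideal.pow_right_mono (Ideal.map_le_iff_le_comap.mpr fun a ha =>
    Ideal.mem_comap.mpr (haveI := hφ; map_nonunit φ a ha)) n

section
variable (𝒪 : Type) [CommRing 𝒪] [IsLocalRing 𝒪] [Finite (ResidueField 𝒪)]
  [IsNoetherianRing 𝒪] [IsAdicComplete (maximalIdeal 𝒪) 𝒪]
variable (ρbar : ResidualGaloisRep (ResidueField 𝒪))
variable (𝒟 : ∀ ⦃A : Type⦄ [CommRing A] [IsLocalRing A] [Algebra 𝒪 A], GaloisRepAdic A → Prop)
variable {d : ℕ} (h : Fin d → Gal) (a : Fin d → 𝒪)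

/-- Construction of the universal representation over a quotient `R` of `Λ` such that every
`ker π + m ^ n` contains a member of the family. -/
theorem exists_rep_of_quot (habs : ρbar.IsAbsolutelyIrreducible)
    (h𝒟 : IsDeformationCondition 𝒪 𝒟)
    (hgen : Generates 𝒪 ρbar 𝒟 d h) (ha : ∀ i, residue 𝒪 (a i) = (rbMat ρbar (h i)).trace)
    {R : Type} [CommRing R] [IsLocalRing R] [IsNoetherianRing R]
    [IsAdicComplete (maximalIdeal R) R] [Algebra 𝒪 R]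
    (hlocR : IsLocalHom (algebraMap 𝒪 R))
    (hsurjR : Function.Surjective (residue R ∘ algebraMap 𝒪 R))
    (π : Lam 𝒪 d →ₐ[𝒪] R) (hπ : Function.Surjective π)
    (hfam : ∀ n : ℕ, ∃ I ∈ famF 𝒪 ρbar 𝒟 h a,
      I ≤ RingHom.ker (π : Lam 𝒪 d →+* R) ⊔ maximalIdeal (Lam 𝒪 d) ^ n) :
    ∃ (MR : Gal →* Matrix (Fin 2) (Fin 2) R) (_ : MatCont MR),
      IsStrictLift 𝒪 hlocR ρbar MR ∧ (∀ i, (MR (h i)).trace = π (tautTr 𝒪 a i)) ∧
      ∀ {B : Type} [CommRing B] [IsLocalRing B] [Algebra 𝒪 B]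
        (hB : IsArtinianTestAlgebra 𝒪 B) (q : R →ₐ[𝒪] B), Function.Surjective q →
        IsDLift 𝒪 ρbar 𝒟 hB.isLocalHom (mapRep (q : R →+* B) MR) := by
  classical
  have hlocn : ∀ n, IsLocalRing (R ⧸ maximalIdeal R ^ (n + 1)) :=
    fun n => isLocalRing_quot_pow n
  have hT : ∀ n, IsArtinianTestAlgebra 𝒪 (R ⧸ maximalIdeal R ^ (n + 1)) := fun n =>
    K5_quot_isArtinianTestAlgebra 𝒪 hlocR hsurjR n
  -- the quotient maps
  let p : ∀ n, R →ₐ[𝒪] R ⧸ maximalIdeal R ^ (n + 1) := fun n => Ideal.Quotient.mkₐ 𝒪 _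
  let πn : ∀ n, Lam 𝒪 d →ₐ[𝒪] R ⧸ maximalIdeal R ^ (n + 1) := fun n => (p n).comp π
  have hπn : ∀ n, Function.Surjective (πn n) := fun n =>
    (Ideal.Quotient.mk_surjective).comp hπ
  have hπloc : IsLocalHom (π : Lam 𝒪 d →+* R) := D1e_isLocalHom_of_surjective _ hπ
  have hle : ∀ n, RingHom.ker (π : Lam 𝒪 d →+* R) ⊔ maximalIdeal (Lam 𝒪 d) ^ (n + 1) ≤
      RingHom.ker (πn n : Lam 𝒪 d →+* R ⧸ maximalIdeal R ^ (n + 1)) := by
    intro n
    refine sup_le ?_ ?_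
    · intro x hx
      rw [RingHom.mem_ker] at hx ⊢
      show (p n) (π x) = 0
      rw [show π x = 0 from hx, map_zero]
    · intro x hx
      rw [RingHom.mem_ker]
      show Ideal.Quotient.mk _ (π x) = 0
      rw [Ideal.Quotient.eq_zero_iff_mem]
      exact map_pow_maximalIdeal_le (π : Lam 𝒪 d →+* R) hπloc (n + 1)
        (Ideal.mem_map_of_mem _ hx)
  -- tautological lifts
  have hN : ∀ n, ∃ M : Gal →* Matrix (Fin 2) (Fin 2) (R ⧸ maximalIdeal R ^ (n + 1)),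
      IsDLift 𝒪 ρbar 𝒟 (hT n).isLocalHom M ∧
        ∀ i, (M (h i)).trace = πn n (tautTr 𝒪 a i) := by
    intro n
    obtain ⟨I, hI, hIle⟩ := hfam (n + 1)
    exact T1_exists_taut 𝒪 ρbar 𝒟 h a habs h𝒟 hgen ha hI (hT n) (πn n) (hπn n)
      (hIle.trans (hle n))
  choose N hND hNtr using hN
  have hconj : ∀ n, ∃ u : Matrix (Fin 2) (Fin 2) (R ⧸ maximalIdeal R ^ (n + 1)),
      u.map (residue (R ⧸ maximalIdeal R ^ (n + 1))) = 1 ∧
      ∀ g, u * (N (n + 1) g).map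
        (Ideal.Quotient.factorPow (maximalIdeal R) (Nat.le_succ (n + 1))) = N n g * u := by
    intro n
    let φ : (R ⧸ maximalIdeal R ^ (n + 1 + 1)) →ₐ[𝒪] (R ⧸ maximalIdeal R ^ (n + 1)) :=
      Ideal.Quotient.factorₐ 𝒪 (Ideal.pow_le_pow_right (Nat.le_succ (n + 1)))
    have hφloc : IsLocalHom (φ : (R ⧸ maximalIdeal R ^ (n + 1 + 1)) →+*
        (R ⧸ maximalIdeal R ^ (n + 1))) := (D1f_isLocalHom_of_artinian 𝒪 (hT (n + 1)) φ).1
    have h1 := C2b_dlift_map 𝒪 ρbar 𝒟 h𝒟 (hT (n + 1)) (hT n) φ hφloc (hND (n + 1))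
    have htr : ∀ i, (mapRep (φ : (R ⧸ maximalIdeal R ^ (n + 1 + 1)) →+*
        (R ⧸ maximalIdeal R ^ (n + 1))) (N (n + 1)) (h i)).trace = (N n (h i)).trace := by
      intro i
      rw [mapRep_trace, hNtr, hNtr]
      rfl
    obtain ⟨u, hu, hu1, hu2⟩ := C7_conj 𝒪 ρbar 𝒟 habs h𝒟 hgen (hT n) h1 (hND n) htr
    exact ⟨u, hu1, fun g => hu2 g⟩
  obtain ⟨M, hM⟩ := K2_conj_limit_local N hconj
  choose v hv hv1 hv2 using hM
  have hMD : ∀ n, IsDLift 𝒪 ρbar 𝒟 (hT n).isLocalHom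
      (mapRep (Ideal.Quotient.mk (maximalIdeal R ^ (n + 1))) M) := fun n =>
    C2c_dlift_conj 𝒪 ρbar 𝒟 h𝒟 (hT n) (hND n) (v n) (hv1 n) (fun σ => hv2 n σ)
  have hcont : MatCont M := K3_matCont_of_quot M (fun n => (hMD n).cont)
  refine ⟨M, hcont, ?_, ?_, ?_⟩
  · exact K3b_strict_of_map 𝒪 ρbar hlocR (hT 0).isLocalHom (p 0) (isLocalHom_mk_quot_pow 0)
      (hMD 0).strict
  · intro i
    apply eq_of_forall_mk_eq (maximalIdeal R)
    intro n
    have h1 := trace_eq_of_conj (hv n) (hv2 n (h i))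
    rw [hNtr] at h1
    have h2 := mapRep_trace (Ideal.Quotient.mk (maximalIdeal R ^ (n + 1))) M (h i)
    rw [mapRep_apply] at h2
    rw [← h2, ← h1]
    rfl
  · intro B _ _ _ hB q hq
    obtain ⟨-, n, hn⟩ := D1f_isLocalHom_of_artinian 𝒪 hB (AlgHom.id 𝒪 B)
    have hqloc : IsLocalHom (q : R →+* B) := D1e_isLocalHom_of_surjective _ hq
    have hker : ∀ x ∈ maximalIdeal R ^ (n + 1), q x = 0 := by
      intro x hx
      have h1 := map_pow_maximalIdeal_le (q : R →+* B) hqloc n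
        (Ideal.mem_map_of_mem _ (Ideal.pow_le_pow_right (Nat.le_succ n) hx))
      rw [hn] at h1
      simpa using h1
    let qbar : (R ⧸ maximalIdeal R ^ (n + 1)) →ₐ[𝒪] B :=
      Ideal.Quotient.liftₐ (maximalIdeal R ^ (n + 1)) q hker
    have hqbar : IsLocalHom (qbar : (R ⧸ maximalIdeal R ^ (n + 1)) →+* B) :=
      (D1f_isLocalHom_of_artinian 𝒪 (hT n) qbar).1
    have h1 := C2b_dlift_map 𝒪 ρbar 𝒟 h𝒟 (hT n) hB qbar hqbar (hMD n)
    rw [mapRep_comp] at h1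
    have h2 : (qbar : (R ⧸ maximalIdeal R ^ (n + 1)) →+* B).comp
        (Ideal.Quotient.mk (maximalIdeal R ^ (n + 1))) =
        (q : R →+* B) := by
      ext x
      rfl
    rw [h2] at h1
    exact h1

end

end Fermat.Agent.S53_helper16_Final2

end
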