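import Mathlib
import Fermat.Agent.S53_helper16_Pieces
import Fermat.Agent.S53_helper16_Final1
import Fermat.Agent.S53_helper16_Final2
import Fermat.Agent.S53_helper26_Limit
import Fermat.Prelude.Thm_IsLocalRing_isAdicComplete_of_module_finite

set_option autoImplicit false

open IsLocalRing Fermat.Agent.S53_helper16_Defs Fermat.Agent.S53_helper16_Core
  Fermat.Agent.S53_helper16_Pieces Fermat.Agent.S53_helper16_Final1
  Fermat.Agent.S53_helper16_Final2
  Fermat.Agent.S53_helper26_Limit GaloisRep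

noncomputable section

namespace Fermat.Agent.S53_helper16_Final3

/-- Quotients of a complete Noetherian local `𝒪`-algebra by a proper ideal inherit everything. -/
theorem quot_ring_props (𝒪 : Type) [CommRing 𝒪] [IsLocalRing 𝒪]
    {Λ : Type} [CommRing Λ] [IsLocalRing Λ] [IsNoetherianRing Λ]
    [IsAdicComplete (maximalIdeal Λ) Λ] [Algebra 𝒪 Λ] (hloc : IsLocalHom (algebraMap 𝒪 Λ))
    (hsurj : Function.Surjective (residue Λ ∘ algebraMap 𝒪 Λ)) (J : Ideal Λ) (hJ : J ≠ ⊤) :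
    ∃ (_ : IsLocalRing (Λ ⧸ J)), IsAdicComplete (maximalIdeal (Λ ⧸ J)) (Λ ⧸ J) ∧
      IsLocalHom (algebraMap 𝒪 (Λ ⧸ J)) ∧
      Function.Surjective (residue (Λ ⧸ J) ∘ algebraMap 𝒪 (Λ ⧸ J)) := by
  haveI hR : IsLocalRing (Λ ⧸ J) := D1c_quot_isLocalRing J hJ
  have hmk : IsLocalHom (Ideal.Quotient.mk J) :=
    D1e_isLocalHom_of_surjective _ Ideal.Quotient.mk_surjective
  haveI hmk' : IsLocalHom (algebraMap Λ (Λ ⧸ J)) := hmk
  refine ⟨hR, ?_, ?_, ?_⟩
  · exact IsLocalRing.isAdicComplete_of_module_finite (𝒪 := Λ) (T := Λ ⧸ J)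
  · refine ⟨fun x hx => ?_⟩
    have h1 : IsUnit (Ideal.Quotient.mk J (algebraMap 𝒪 Λ x)) := hx
    haveI := hmk
    haveI := hloc
    exact isUnit_of_map_unit (algebraMap 𝒪 Λ) x
      (isUnit_of_map_unit (Ideal.Quotient.mk J) _ h1)
  · intro y
    obtain ⟨y, rfl⟩ := residue_surjective y
    obtain ⟨x, rfl⟩ := Ideal.Quotient.mk_surjective y
    obtain ⟨c, hc⟩ := hsurj (residue Λ x)
    refine ⟨c, ?_⟩
    simp only [Function.comp_apply] at hc ⊢
    rw [← sub_eq_zero, ← map_sub, residue_eq_zero_iff] at hc ⊢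
    have h2 : algebraMap 𝒪 (Λ ⧸ J) c - Ideal.Quotient.mk J x =
        Ideal.Quotient.mk J (algebraMap 𝒪 Λ c - x) := by
      rw [map_sub]; rfl
    rw [h2]
    haveI := hmk
    exact map_nonunit (Ideal.Quotient.mk J) _ hc

theorem finite_residueField_of_surj (𝒪 : Type) [CommRing 𝒪] [IsLocalRing 𝒪]
    [Finite (ResidueField 𝒪)]
    {Λ : Type} [CommRing Λ] [IsLocalRing Λ] [Algebra 𝒪 Λ]
    (hsurj : Function.Surjective (residue Λ ∘ algebraMap 𝒪 Λ)) : Finite (ResidueField Λ) := by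
  have h1 : ∀ x y : 𝒪, residue 𝒪 x = residue 𝒪 y →
      residue Λ (algebraMap 𝒪 Λ x) = residue Λ (algebraMap 𝒪 Λ y) := by
    intro x y hxy
    by_contra hne
    rw [← sub_eq_zero, ← map_sub, residue_eq_zero_iff] at hxy
    have h2 : residue Λ (algebraMap 𝒪 Λ (x - y)) ≠ 0 := by
      rw [map_sub, map_sub]; exact sub_ne_zero.mpr hne
    -- (x - y) is a non-unit in 𝒪, so `1 - (x-y) u` is a unit, contradiction if image is a unit
    have h3 : IsUnit (residue Λ (algebraMap 𝒪 Λ (x - y))) := IsUnit.mk0 _ h2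
    obtain ⟨c, hc⟩ := hsurj (h3.unit⁻¹ : (ResidueField Λ)ˣ)
    simp only [Function.comp_apply] at hc
    have h4 : residue Λ (algebraMap 𝒪 Λ ((x - y) * c)) = 1 := by
      rw [map_mul, map_mul, hc]
      exact h3.mul_val_inv
    have h5 : IsUnit (1 - (x - y) * c) := by
      have : (x - y) * c ∈ maximalIdeal 𝒪 := Ideal.mul_mem_right _ _ hxy
      by_contra hnu
      have h6 : (1 - (x - y) * c) ∈ maximalIdeal 𝒪 := hnu
      have h7 := Ideal.add_mem _ h6 this
      rw [sub_add_cancel] at h7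
      exact (maximalIdeal.isMaximal 𝒪).ne_top ((Ideal.eq_top_iff_one _).mpr h7)
    have h6 : residue Λ (algebraMap 𝒪 Λ (1 - (x - y) * c)) = 0 := by
      rw [map_sub, map_sub, h4, map_one, map_one, sub_self]
    exact (h5.map ((residue Λ).comp (algebraMap 𝒪 Λ))).ne_zero h6
  let f : ResidueField 𝒪 → ResidueField Λ := fun z =>
    residue Λ (algebraMap 𝒪 Λ (residue_surjective z).choose)
  refine Finite.of_surjective f ?_
  intro y
  obtain ⟨c, hc⟩ := hsurj y
  refine ⟨residue 𝒪 c, ?_⟩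
  show residue Λ (algebraMap 𝒪 Λ _) = y
  rw [← hc]
  exact h1 _ _ (residue_surjective (residue 𝒪 c)).choose_spec

end Fermat.Agent.S53_helper16_Final3

end
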