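import Mathlib
import Fermat.Agent.S53_helper16_Pieces
import Fermat.Agent.S53_helper16_Final1

set_option autoImplicit false

open IsLocalRing Fermat.Agent.S53_helper16_Defs Fermat.Agent.S53_helper16_Core
  Fermat.Agent.S53_helper16_Pieces Fermat.Agent.S53_helper16_Final1 GaloisRep

noncomputable section

namespace Fermat.Agent.S53_helper16_Final4

section
variable (𝒪 : Type) [CommRing 𝒪] [IsLocalRing 𝒪] [Finite (ResidueField 𝒪)]
  [IsNoetherianRing 𝒪] [IsAdicComplete (maximalIdeal 𝒪) 𝒪]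
variable (ρbar : ResidualGaloisRep (ResidueField 𝒪))
variable (𝒟 : ∀ ⦃A : Type⦄ [CommRing A] [IsLocalRing A] [Algebra 𝒪 A], GaloisRepAdic A → Prop)

theorem isOfType_of_hDR (h𝒟 : IsDeformationCondition 𝒪 𝒟)
    {R : Type} [CommRing R] [IsLocalRing R] [IsNoetherianRing R]
    [IsAdicComplete (maximalIdeal R) R] [Algebra 𝒪 R]
    (hlocR : IsLocalHom (algebraMap 𝒪 R))
    (hsurjR : Function.Surjective (residue R ∘ algebraMap 𝒪 R))
    (MR : Gal →* Matrix (Fin 2) (Fin 2) R) (hcont : MatCont MR)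
    (hDR : ∀ {B : Type} [CommRing B] [IsLocalRing B] [Algebra 𝒪 B]
        (hB : IsArtinianTestAlgebra 𝒪 B) (q : R →ₐ[𝒪] B), Function.Surjective q →
        IsDLift 𝒪 ρbar 𝒟 hB.isLocalHom (mapRep (q : R →+* B) MR)) :
    𝒟 (toAdic MR hcont) := by
  rw [h𝒟.iff_forall_surjective hlocR hsurjR]
  intro B _ _ _ hB q hq hqs
  have h1 := hDR hB q hqs
  obtain ⟨e⟩ := I4_baseChangeAlong_toAdic (q : R →+* B) hq MR hcont
  exact h𝒟.of_isEquiv hB ⟨e.symm⟩ h1.isD

end

end Fermat.Agent.S53_helper16_Final4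

end
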