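import Mathlib
import Fermat.Agent.S53_helper16_Pieces
import Fermat.Agent.S53_helper16_Final1
import Fermat.Agent.S53_helper16_Final2
import Fermat.Agent.S53_helper26_Limit

set_option autoImplicit false

open IsLocalRing Fermat.Agent.S53_helper16_Defs Fermat.Agent.S53_helper16_Core
  Fermat.Agent.S53_helper16_Pieces Fermat.Agent.S53_helper16_Final1
  Fermat.Agent.S53_helper16_Final2
  Fermat.Agent.S53_helper26_Limit GaloisRep

noncomputable section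

namespace Fermat.Agent.S53_helper16_Final5

section
variable (𝒪 : Type) [CommRing 𝒪] [IsLocalRing 𝒪] [Finite (ResidueField 𝒪)]
  [IsNoetherianRing 𝒪] [IsAdicComplete (maximalIdeal 𝒪) 𝒪]
variable (ρbar : ResidualGaloisRep (ResidueField 𝒪))
variable (𝒟 : ∀ ⦃A : Type⦄ [CommRing A] [IsLocalRing A] [Algebra 𝒪 A], GaloisRepAdic A → Prop)
variable {d : ℕ} (h : Fin d → Gal) (a : Fin d → 𝒪)

/-- U0: over complete rings, `𝒟` is invariant under equivalence. -/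
theorem D_of_isEquiv_complete (h𝒟 : IsDeformationCondition 𝒪 𝒟)
    {A : Type} [CommRing A] [IsLocalRing A] [IsNoetherianRing A]
    [IsAdicComplete (maximalIdeal A) A] [Algebra 𝒪 A]
    (hlocA : IsLocalHom (algebraMap 𝒪 A))
    (hsurjA : Function.Surjective (residue A ∘ algebraMap 𝒪 A))
    {ρ ρ' : GaloisRepAdic A} (e : ρ.IsEquiv ρ') (hρ : 𝒟 ρ) : 𝒟 ρ' := by
  rw [h𝒟.iff_forall_surjective hlocA hsurjA] at hρ ⊢
  intro B _ _ _ hB q hq hqs
  obtain ⟨e⟩ := e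
  exact h𝒟.of_isEquiv hB ⟨e.baseChangeAlong (q : A →+* B) hq⟩ (hρ hB q hq hqs)

/-- U1: a strict matrix lift of type `𝒟` over a complete ring gives `𝒟`-lifts over all its
Artinian quotients. -/
theorem dlift_quot (h𝒟 : IsDeformationCondition 𝒪 𝒟)
    {A : Type} [CommRing A] [IsLocalRing A] [IsNoetherianRing A]
    [IsAdicComplete (maximalIdeal A) A] [Algebra 𝒪 A]
    (hlocA : IsLocalHom (algebraMap 𝒪 A))
    (hsurjA : Function.Surjective (residue A ∘ algebraMap 𝒪 A))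
    (MA : Gal →* Matrix (Fin 2) (Fin 2) A) (hMA : MatCont MA)
    (hs : IsStrictLift 𝒪 hlocA ρbar MA) (hD : 𝒟 (toAdic MA hMA))
    {B : Type} [CommRing B] [IsLocalRing B] [Algebra 𝒪 B]
    (hB : IsArtinianTestAlgebra 𝒪 B) (q : A →ₐ[𝒪] B) (hq : Function.Surjective q) :
    IsDLift 𝒪 ρbar 𝒟 hB.isLocalHom (mapRep (q : A →+* B) MA) := by
  have hqloc : IsLocalHom (q : A →+* B) := D1e_isLocalHom_of_surjective _ hq
  refine ⟨matCont_mapRep _ hqloc hMA,
    C2a_strict_map 𝒪 ρbar hlocA hB.isLocalHom q hqloc hs, ?_⟩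
  have h1 := (h𝒟.iff_forall_surjective hlocA hsurjA (toAdic MA hMA)).mp hD hB q hqloc hq
  exact h𝒟.of_isEquiv hB (I4_baseChangeAlong_toAdic (q : A →+* B) hqloc MA hMA) h1

/-- U2: the property `hDR` for arbitrary (not necessarily surjective) maps. -/
theorem hDR_any (h𝒟 : IsDeformationCondition 𝒪 𝒟)
    {R : Type} [CommRing R] [IsLocalRing R] [Algebra 𝒪 R]
    (MR : Gal →* Matrix (Fin 2) (Fin 2) R)
    (hDR : ∀ {B : Type} [CommRing B] [IsLocalRing B] [Algebra 𝒪 B]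
        (hB : IsArtinianTestAlgebra 𝒪 B) (q : R →ₐ[𝒪] B), Function.Surjective q →
        IsDLift 𝒪 ρbar 𝒟 hB.isLocalHom (mapRep (q : R →+* B) MR))
    {B : Type} [CommRing B] [IsLocalRing B] [Algebra 𝒪 B]
    (hB : IsArtinianTestAlgebra 𝒪 B) (q : R →ₐ[𝒪] B) :
    IsDLift 𝒪 ρbar 𝒟 hB.isLocalHom (mapRep (q : R →+* B) MR) := by
  letI hA₁ : IsLocalRing q.range := H7b_isLocalRing 𝒪 hB q.range
  obtain ⟨hT, hval⟩ := H7c_isArtinianTestAlgebra 𝒪 hB q.range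
  have h1 := hDR hT q.rangeRestrict q.rangeRestrict_surjective
  have h2 := C2b_dlift_map 𝒪 ρbar 𝒟 h𝒟 hT hB q.range.val hval h1
  rw [mapRep_comp] at h2
  exact h2

/-- U3: classifying maps out of `R`. -/
theorem exists_classifying_R (ha : ∀ i, residue 𝒪 (a i) = (rbMat ρbar (h i)).trace)
    {R : Type} [CommRing R] [Algebra 𝒪 R]
    (π : Lam 𝒪 d →ₐ[𝒪] R) (hπ : Function.Surjective π)
    (hker : ∀ I ∈ famF 𝒪 ρbar 𝒟 h a, RingHom.ker (π : Lam 𝒪 d →+* R) ≤ I)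
    {B : Type} [CommRing B] [IsLocalRing B] [Algebra 𝒪 B]
    (hB : IsArtinianTestAlgebra 𝒪 B)
    {MB : Gal →* Matrix (Fin 2) (Fin 2) B} (hMB : IsDLift 𝒪 ρbar 𝒟 hB.isLocalHom MB) :
    ∃ ψ : R →ₐ[𝒪] B, ∀ i, ψ (π (tautTr 𝒪 a i)) = (MB (h i)).trace := by
  obtain ⟨ψ, hψ, -⟩ := T0b_exists_classifying 𝒪 ρbar h a ha hB hMB.strict
  have hmem : RingHom.ker (ψ : Lam 𝒪 d →+* B) ∈ famF 𝒪 ρbar 𝒟 h a :=
    ⟨B, inferInstance, inferInstance, inferInstance, hB, MB, hMB, ψ, hψ, rfl⟩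
  have hle := hker _ hmem
  have hk : ∀ x y : Lam 𝒪 d, π x = π y → ψ x = ψ y := by
    intro x y hxy
    have : x - y ∈ RingHom.ker (π : Lam 𝒪 d →+* R) := by
      rw [RingHom.mem_ker]
      show π (x - y) = 0
      rw [map_sub, hxy, sub_self]
    have h2 := hle this
    rw [RingHom.mem_ker] at h2
    have h3 : ψ (x - y) = 0 := h2
    rw [map_sub, sub_eq_zero] at h3
    exact h3
  let g : R → B := fun r => ψ (hπ r).choose
  have hg : ∀ x, g (π x) = ψ x := fun x => hk _ _ (hπ (π x)).choose_spec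
  have hg1 : g 1 = 1 := by rw [← map_one π, hg, map_one]
  have hgmul : ∀ x y, g (x * y) = g x * g y := by
    intro x y
    obtain ⟨x, rfl⟩ := hπ x
    obtain ⟨y, rfl⟩ := hπ y
    rw [← map_mul, hg, hg, hg, map_mul]
  have hg0 : g 0 = 0 := by rw [← map_zero π, hg, map_zero]
  have hgadd : ∀ x y, g (x + y) = g x + g y := by
    intro x y
    obtain ⟨x, rfl⟩ := hπ x
    obtain ⟨y, rfl⟩ := hπ y
    rw [← map_add, hg, hg, hg, map_add]
  have hgalg : ∀ c : 𝒪, g (algebraMap 𝒪 R c) = algebraMap 𝒪 B c := by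
    intro c
    rw [← AlgHom.commutes π, hg, AlgHom.commutes]
  let ψbar : R →ₐ[𝒪] B :=
    { toFun := g
      map_one' := hg1
      map_mul' := hgmul
      map_zero' := hg0
      map_add' := hgadd
      commutes' := hgalg }
  exact ⟨ψbar, fun i => (hg _).trans (hψ i)⟩

/-- U3': uniqueness of classifying maps out of `R`. -/
theorem classifying_R_unique (ha : ∀ i, residue 𝒪 (a i) = (rbMat ρbar (h i)).trace)
    {R : Type} [CommRing R] [Algebra 𝒪 R]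
    (π : Lam 𝒪 d →ₐ[𝒪] R) (hπ : Function.Surjective π)
    {B : Type} [CommRing B] [IsLocalRing B] [Algebra 𝒪 B]
    (hB : IsArtinianTestAlgebra 𝒪 B)
    {MB : Gal →* Matrix (Fin 2) (Fin 2) B} (hMB : IsStrictLift 𝒪 hB.isLocalHom ρbar MB)
    (ψ ψ' : R →ₐ[𝒪] B)
    (hψ : ∀ i, ψ (π (tautTr 𝒪 a i)) = (MB (h i)).trace)
    (hψ' : ∀ i, ψ' (π (tautTr 𝒪 a i)) = (MB (h i)).trace) : ψ = ψ' := by
  have hX : ∀ (χ : R →ₐ[𝒪] B), (∀ i, χ (π (tautTr 𝒪 a i)) = (MB (h i)).trace) →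
      ∀ i, (χ.comp π) (MvPowerSeries.X i) = (MB (h i)).trace - algebraMap 𝒪 B (a i) := by
    intro χ hχ i
    rw [← hχ i]
    simp only [tautTr, AlgHom.comp_apply, map_add, AlgHom.commutes]
    ring
  have h1 : ψ.comp π = ψ'.comp π := by
    refine D2_lam_hom_ext 𝒪 hB.isLocalHom (D1f_isLocalHom_of_artinian 𝒪 hB (AlgHom.id 𝒪 B)).2
      (ψ.comp π) (ψ'.comp π) ?_ ?_
    · intro i
      rw [hX ψ hψ i]
      exact T0_trace_sub_mem 𝒪 ρbar h a ha hB.isLocalHom hMB i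
    · intro i
      rw [hX ψ hψ i, hX ψ' hψ' i]
  apply AlgHom.ext
  intro r
  obtain ⟨x, rfl⟩ := hπ r
  exact congrFun (congrArg DFunLike.coe h1) x

/-- trace comparison from equivalences -/
theorem trace_of_equivs
    {R A : Type} [CommRing R] [IsLocalRing R] [CommRing A] [IsLocalRing A]
    (MR : Gal →* Matrix (Fin 2) (Fin 2) R) (hcont : MatCont MR)
    (MA : Gal →* Matrix (Fin 2) (Fin 2) A) (hMA : MatCont MA)
    (ρA : GaloisRepAdic A) (eA : (toAdic MA hMA).IsEquiv ρA)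
    (φ : R →+* A) (hφ : IsLocalHom φ)
    (e : ((toAdic MR hcont).baseChangeAlong φ hφ).IsEquiv ρA) (σ : Gal) :
    φ ((MR σ).trace) = (MA σ).trace := by
  rw [← I1a_trace_toAdic MR hcont σ, ← I1c_trace_baseChangeAlong φ hφ (toAdic MR hcont) σ,
    I1b_trace_eq_of_isEquiv e σ, ← I1b_trace_eq_of_isEquiv eA σ, I1a_trace_toAdic MA hMA σ]

/-- Universality. -/
theorem universal_of_rep (habs : ρbar.IsAbsolutelyIrreducible)
    (h𝒟 : IsDeformationCondition 𝒪 𝒟)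
    (hgen : Generates 𝒪 ρbar 𝒟 d h) (ha : ∀ i, residue 𝒪 (a i) = (rbMat ρbar (h i)).trace)
    {R : Type} [CommRing R] [IsLocalRing R] [IsNoetherianRing R]
    [IsAdicComplete (maximalIdeal R) R] [Algebra 𝒪 R]
    (hlocR : IsLocalHom (algebraMap 𝒪 R))
    (π : Lam 𝒪 d →ₐ[𝒪] R) (hπ : Function.Surjective π)
    (hker : ∀ I ∈ famF 𝒪 ρbar 𝒟 h a, RingHom.ker (π : Lam 𝒪 d →+* R) ≤ I)
    (MR : Gal →* Matrix (Fin 2) (Fin 2) R) (hcont : MatCont MR)
    (hstrict : IsStrictLift 𝒪 hlocR ρbar MR)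
    (htr : ∀ i, (MR (h i)).trace = π (tautTr 𝒪 a i))
    (hDR : ∀ {B : Type} [CommRing B] [IsLocalRing B] [Algebra 𝒪 B]
        (hB : IsArtinianTestAlgebra 𝒪 B) (q : R →ₐ[𝒪] B), Function.Surjective q →
        IsDLift 𝒪 ρbar 𝒟 hB.isLocalHom (mapRep (q : R →+* B) MR)) :
    ∀ (A : Type) [CommRing A] [IsLocalRing A] [IsNoetherianRing A]
      [IsAdicComplete (IsLocalRing.maximalIdeal A) A] [Algebra 𝒪 A]
      [IsLocalHom (algebraMap 𝒪 A)],
      Function.Surjective (IsLocalRing.residue A ∘ algebraMap 𝒪 A) →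
      ∀ ρA : GaloisRepAdic A, 𝒟 ρA →
        ρA.residual.IsEquiv
          (ρbar.baseChangeAlong (IsLocalRing.ResidueField.map (algebraMap 𝒪 A))) →
        ∃! φ : R →ₐ[𝒪] A, ∃ hφ : IsLocalHom (φ : R →+* A),
          ((toAdic MR hcont).baseChangeAlong (φ : R →+* A) hφ).IsEquiv ρA := by
  intro A _ _ _ _ _ hlocA hsurjA ρA hDA hresA
  classical
  obtain ⟨MA, hMA, hsA, heA⟩ := C1_strict_of_adic 𝒪 ρbar hlocA hsurjA ρA hresA
  have hDMA : 𝒟 (toAdic MA hMA) := by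
    obtain ⟨eA⟩ := heA
    exact D_of_isEquiv_complete 𝒪 𝒟 h𝒟 hlocA hsurjA ⟨eA.symm⟩ hDA
  have hlocn : ∀ n, IsLocalRing (A ⧸ maximalIdeal A ^ (n + 1)) :=
    fun n => isLocalRing_quot_pow n
  have hT : ∀ n, IsArtinianTestAlgebra 𝒪 (A ⧸ maximalIdeal A ^ (n + 1)) := fun n =>
    K5_quot_isArtinianTestAlgebra 𝒪 hlocA hsurjA n
  let p : ∀ n, A →ₐ[𝒪] A ⧸ maximalIdeal A ^ (n + 1) := fun n => Ideal.Quotient.mkₐ 𝒪 _
  have hMAn : ∀ n, IsDLift 𝒪 ρbar 𝒟 (hT n).isLocalHom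
      (mapRep (p n : A →+* A ⧸ maximalIdeal A ^ (n + 1)) MA) := fun n =>
    dlift_quot 𝒪 ρbar 𝒟 h𝒟 hlocA hsurjA MA hMA hsA hDMA (hT n) (p n)
      (Ideal.Quotient.mkₐ_surjective 𝒪 _)
  have hψ : ∀ n, ∃ ψ : R →ₐ[𝒪] A ⧸ maximalIdeal A ^ (n + 1),
      ∀ i, ψ (π (tautTr 𝒪 a i)) =
        (mapRep (p n : A →+* A ⧸ maximalIdeal A ^ (n + 1)) MA (h i)).trace := fun n =>
    exists_classifying_R 𝒪 ρbar 𝒟 h a ha π hπ hker (hT n) (hMAn n)
  choose ψ hψtr using hψ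
  -- uniqueness principle at level n
  have huniq : ∀ n (χ : R →ₐ[𝒪] A ⧸ maximalIdeal A ^ (n + 1)),
      (∀ i, χ (π (tautTr 𝒪 a i)) =
        (mapRep (p n : A →+* A ⧸ maximalIdeal A ^ (n + 1)) MA (h i)).trace) → χ = ψ n :=
    fun n χ hχ => classifying_R_unique 𝒪 ρbar h a ha π hπ (hT n) (hMAn n).strict χ (ψ n)
      hχ (hψtr n)
  -- compatibility
  have hcompat : ∀ {m n : ℕ} (hle : m ≤ n),
      (Ideal.Quotient.factorₐ 𝒪 (Ideal.pow_le_pow_right (Nat.succ_le_succ hle))).comp (ψ n)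
        = ψ m := by
    intro m n hle
    apply huniq
    intro i
    rw [AlgHom.comp_apply, hψtr, mapRep_trace, mapRep_trace]
    rfl
  -- the maps to all quotients `A ⧸ m ^ n`
  let f : ∀ n : ℕ, R →ₐ[𝒪] A ⧸ maximalIdeal A ^ n := fun n =>
    (Ideal.Quotient.factorₐ 𝒪 (Ideal.pow_le_pow_right (Nat.le_succ n))).comp (ψ n)
  have hf : ∀ {m n : ℕ} (hle : m ≤ n),
      (Ideal.Quotient.factorₐ 𝒪 (Ideal.pow_le_pow_right hle)).comp (f n) = f m := by
    intro m n hle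
    apply AlgHom.ext
    intro x
    have h1 := congrFun (congrArg DFunLike.coe (hcompat hle)) x
    simp only [f, AlgHom.comp_apply] at h1 ⊢
    rw [← h1]
    obtain ⟨y, hy⟩ := Ideal.Quotient.mk_surjective (ψ n x)
    rw [← hy]
    rfl
  let φ : R →ₐ[𝒪] A := IsAdicComplete.liftAlgHom (maximalIdeal A) f hf
  have hφn : ∀ n, (p n).comp φ = ψ n := by
    intro n
    have h1 : (Ideal.Quotient.mkₐ 𝒪 (maximalIdeal A ^ (n + 1))).comp φ = f (n + 1) :=
      IsAdicComplete.mkₐ_comp_liftAlgHom (maximalIdeal A) f hf (n + 1)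
    rw [show (p n) = Ideal.Quotient.mkₐ 𝒪 (maximalIdeal A ^ (n + 1)) from rfl, h1]
    apply huniq
    intro i
    have h2 := congrFun (congrArg DFunLike.coe (hcompat (Nat.le_succ n))) (π (tautTr 𝒪 a i))
    rw [hψtr n] at h2
    rw [← h2]
  -- traces of level-n maps
  have htrn : ∀ n (χ : R →ₐ[𝒪] A ⧸ maximalIdeal A ^ (n + 1)), χ = ψ n → ∀ σ,
      χ ((MR σ).trace) = Ideal.Quotient.mk (maximalIdeal A ^ (n + 1)) ((MA σ).trace) := by
    intro n χ hχ σ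
    subst hχ
    have h1 := hDR_any 𝒪 ρbar 𝒟 h𝒟 MR hDR (hT n) (ψ n)
    have h2 := C6_separation 𝒪 ρbar 𝒟 h𝒟 hgen (hT n) h1 (hMAn n) (fun i => by
      rw [mapRep_trace, htr i]
      exact hψtr n i) σ
    rw [mapRep_trace, mapRep_trace] at h2
    exact h2
  -- locality of maps R → A which are compatible with ψ 0
  have hlocal : ∀ χ : R →ₐ[𝒪] A, (p 0).comp χ = ψ 0 → IsLocalHom (χ : R →+* A) := by
    intro χ hχ
    have hπloc : IsLocalHom (π : Lam 𝒪 d →+* R) := D1e_isLocalHom_of_surjective _ hπ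
    have hX : ∀ i, ((ψ 0).comp π) (MvPowerSeries.X i) ∈
        maximalIdeal (A ⧸ maximalIdeal A ^ (0 + 1)) := by
      intro i
      have h1 : ((ψ 0).comp π) (MvPowerSeries.X i) =
          (mapRep (p 0 : A →+* A ⧸ maximalIdeal A ^ (0 + 1)) MA (h i)).trace -
            algebraMap 𝒪 _ (a i) := by
        rw [← hψtr 0 i]
        simp only [tautTr, AlgHom.comp_apply, map_add, AlgHom.commutes]
        ring
      rw [h1]
      exact T0_trace_sub_mem 𝒪 ρbar h a ha (hT 0).isLocalHom (hMAn 0).strict i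
    have hD2b := D2b_lam_map_maximalIdeal 𝒪 (hT 0).isLocalHom ((ψ 0).comp π) hX 1
    refine ⟨fun x hx => ?_⟩
    by_contra hnu
    obtain ⟨y, rfl⟩ := hπ x
    have hy : y ∈ maximalIdeal (Lam 𝒪 d) := by
      rw [mem_maximalIdeal, mem_nonunits_iff]
      exact fun hyu => hnu (hyu.map π)
    have hy1 : y ∈ maximalIdeal (Lam 𝒪 d) ^ 1 := by rw [pow_one]; exact hy
    have h1 := Ideal.pow_le_self one_ne_zero (hD2b (Ideal.mem_map_of_mem _ hy1))
    have h2 : ((ψ 0).comp π) y = (p 0) (χ (π y)) := by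
      rw [← hχ]; rfl
    have h3 : IsUnit ((p 0) (χ (π y))) := hx.map (p 0)
    rw [← h2] at h3
    exact h1 h3
  have hφloc : IsLocalHom (φ : R →+* A) := hlocal φ (hφn 0)
  have htrφ : ∀ (χ : R →ₐ[𝒪] A), (∀ n, (p n).comp χ = ψ n) → ∀ σ,
      χ ((MR σ).trace) = (MA σ).trace := by
    intro χ hχ σ
    apply eq_of_forall_mk_eq (maximalIdeal A)
    intro n
    exact htrn n ((p n).comp χ) (hχ n) σ
  refine ⟨φ, ⟨hφloc, ?_⟩, ?_⟩
  · -- equivalence
    obtain ⟨e1⟩ := I4_baseChangeAlong_toAdic (φ : R →+* A) hφloc MR hcont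
    have hsφ := C2a_strict_map 𝒪 ρbar hlocR hlocA φ hφloc hstrict
    obtain ⟨u, hu, -, hu2⟩ := H2_conj_of_trace_eq (mapRep (φ : R →+* A) MR) MA
      (C0_hspan 𝒪 ρbar habs hlocA hsurjA _ hsφ)
      (fun s => (hsφ s).trans (hsA s).symm)
      (fun s => by rw [mapRep_trace]; exact htrφ φ hφn s)
    obtain ⟨e2⟩ := I3_isEquiv_of_conj (mapRep (φ : R →+* A) MR) MA
      (matCont_mapRep _ hφloc hcont) hMA u hu hu2
    obtain ⟨eA⟩ := heA
    exact ⟨(e1.trans e2).trans eA⟩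
  · -- uniqueness
    rintro φ' ⟨hφ', he'⟩
    have htr' : ∀ σ, φ' ((MR σ).trace) = (MA σ).trace := fun σ =>
      trace_of_equivs MR hcont MA hMA ρA heA (φ' : R →+* A) hφ' he' σ
    have hn : ∀ n, (p n).comp φ' = ψ n := by
      intro n
      apply huniq
      intro i
      rw [AlgHom.comp_apply, ← htr i, htr' (h i), mapRep_trace]
      rfl
    apply AlgHom.ext
    intro x
    apply eq_of_forall_mk_eq (maximalIdeal A)
    intro n
    have h1 := congrFun (congrArg DFunLike.coe (hn n)) x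
    have h2 := congrFun (congrArg DFunLike.coe (hφn n)) x
    exact h1.trans h2.symm

end

end Fermat.Agent.S53_helper16_Final5

end
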