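import Fermat.Statements.S53
import Fermat.Agent.S53_helper16_Pieces
import Fermat.Agent.S53_helper16_Final1
import Fermat.Agent.S53_helper16_Final2
import Fermat.Agent.S53_helper16_Final3
import Fermat.Agent.S53_helper16_Final4
import Fermat.Agent.S53_helper16_Final5

set_option autoImplicit false
open GaloisRep
open IsLocalRing Fermat.Agent.S53_helper16_Defs Fermat.Agent.S53_helper16_Core
  Fermat.Agent.S53_helper16_Pieces Fermat.Agent.S53_helper16_Final1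
  Fermat.Agent.S53_helper16_Final2 Fermat.Agent.S53_helper16_Final3
  Fermat.Agent.S53_helper16_Final4 Fermat.Agent.S53_helper16_Final5

namespace Fermat.Agent.S53

theorem result
    (𝒪 : Type) [CommRing 𝒪] [IsDomain 𝒪] [IsDiscreteValuationRing 𝒪]
    [IsAdicComplete (IsLocalRing.maximalIdeal 𝒪) 𝒪] [Finite (IsLocalRing.ResidueField 𝒪)]
    (ρbar : ResidualGaloisRep (IsLocalRing.ResidueField 𝒪))
    (𝒟 : ∀ ⦃A : Type⦄ [CommRing A] [IsLocalRing A] [Algebra 𝒪 A], GaloisRepAdic A → Prop)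
    (habs : ρbar.IsAbsolutelyIrreducible)
    (h𝒟 : GaloisRep.IsDeformationCondition 𝒪 𝒟)
    (hbar : 𝒟 (GaloisRepAdic.ofResidualGaloisRep ρbar))
    (hfin : GaloisRep.TangentFinite 𝒪 ρbar 𝒟) :
    Nonempty (GaloisRep.DeformationRingData 𝒪 ρbar 𝒟) := by
  classical
  obtain ⟨d, h, hgen⟩ := C5_generation 𝒪 ρbar 𝒟 habs h𝒟 hfin
  have hax : ∀ i, ∃ x : 𝒪, residue 𝒪 x = (rbMat ρbar (h i)).trace :=
    fun i => residue_surjective _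
  choose a ha using hax
  -- the power series ring
  have hΛc : IsAdicComplete (maximalIdeal (Lam 𝒪 d)) (Lam 𝒪 d) := H5a_isAdicComplete 𝒪 d
  have hΛloc : IsLocalHom (algebraMap 𝒪 (Lam 𝒪 d)) := H5b_isLocalHom 𝒪 d
  have hΛsurj : Function.Surjective (residue (Lam 𝒪 d) ∘ algebraMap 𝒪 (Lam 𝒪 d)) :=
    H5c_residue_surjective 𝒪 d
  have hΛfin : Finite (ResidueField (Lam 𝒪 d)) := finite_residueField_of_surj 𝒪 hΛsurj
  -- the ideal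
  have hne := T5_nonempty 𝒪 ρbar 𝒟 h a h𝒟 hbar ha
  have hJ : sInf (famF 𝒪 ρbar 𝒟 h a) ≠ ⊤ := by
    obtain ⟨I, hI⟩ := hne
    intro htop
    have h1 : (⊤ : Ideal (Lam 𝒪 d)) ≤ I := htop ▸ sInf_le hI
    exact (T4_open 𝒪 ρbar 𝒟 h a ha I hI).2 (top_le_iff.mp h1)
  obtain ⟨hR, hcomp, hlocR, hsurjR⟩ :=
    quot_ring_props 𝒪 hΛloc hΛsurj (sInf (famF 𝒪 ρbar 𝒟 h a)) hJ
  have hfam : ∀ n : ℕ, ∃ I ∈ famF 𝒪 ρbar 𝒟 h a,
      I ≤ RingHom.ker ((Ideal.Quotient.mkₐ 𝒪 (sInf (famF 𝒪 ρbar 𝒟 h a)) :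
        Lam 𝒪 d →ₐ[𝒪] (Lam 𝒪 d ⧸ sInf (famF 𝒪 ρbar 𝒟 h a))) :
          Lam 𝒪 d →+* (Lam 𝒪 d ⧸ sInf (famF 𝒪 ρbar 𝒟 h a))) ⊔ maximalIdeal (Lam 𝒪 d) ^ n := by
    intro n
    obtain ⟨I, hI, hle⟩ := H6_chevalley (famF 𝒪 ρbar 𝒟 h a) hne
      (fun I hI I' hI' => T3_directed 𝒪 ρbar 𝒟 h a h𝒟 ha I hI I' hI')
      (fun I hI => (T4_open 𝒪 ρbar 𝒟 h a ha I hI).1) n
    refine ⟨I, hI, hle.trans (sup_le_sup_right ?_ _)⟩
    intro x hx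
    rw [RingHom.mem_ker]
    exact Ideal.Quotient.eq_zero_iff_mem.mpr hx
  have hker : ∀ I ∈ famF 𝒪 ρbar 𝒟 h a,
      RingHom.ker ((Ideal.Quotient.mkₐ 𝒪 (sInf (famF 𝒪 ρbar 𝒟 h a)) :
        Lam 𝒪 d →ₐ[𝒪] (Lam 𝒪 d ⧸ sInf (famF 𝒪 ρbar 𝒟 h a))) :
          Lam 𝒪 d →+* (Lam 𝒪 d ⧸ sInf (famF 𝒪 ρbar 𝒟 h a))) ≤ I := by
    intro I hI x hx
    rw [RingHom.mem_ker] at hx
    exact sInf_le hI (Ideal.Quotient.eq_zero_iff_mem.mp hx)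
  obtain ⟨MR, hcont, hstrict, htr, hDR⟩ := exists_rep_of_quot 𝒪 ρbar 𝒟 h a habs h𝒟 hgen ha
    hlocR hsurjR (Ideal.Quotient.mkₐ 𝒪 (sInf (famF 𝒪 ρbar 𝒟 h a)))
    (Ideal.Quotient.mkₐ_surjective 𝒪 _) hfam
  exact ⟨{
    R := Lam 𝒪 d ⧸ sInf (famF 𝒪 ρbar 𝒟 h a)
    instIsLocalRing := hR
    instIsAdicComplete := hcomp
    instIsLocalHom := hlocR
    residue_surjective := hsurjR
    absIrr := habs
    ρ := toAdic MR hcont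
    isOfType := isOfType_of_hDR 𝒪 ρbar 𝒟 h𝒟 hlocR hsurjR MR hcont hDR
    residual_isEquiv := C1b_residual_of_strict 𝒪 ρbar hlocR MR hcont hstrict
    universal := universal_of_rep 𝒪 ρbar 𝒟 h a habs h𝒟 hgen ha hlocR
      (Ideal.Quotient.mkₐ 𝒪 (sInf (famF 𝒪 ρbar 𝒟 h a))) (Ideal.Quotient.mkₐ_surjective 𝒪 _)
      hker MR hcont hstrict htr hDR }⟩

end Fermat.Agent.S53
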