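import Mathlib

set_option autoImplicit false

open IsLocalRing

namespace Fermat.Agent.S53_helper13_GaugeUnique

/-- entries of a product of `2 × 2` matrices -/
theorem mul_apply_two {A : Type} [CommRing A] (X Y : Matrix (Fin 2) (Fin 2) A) (i j : Fin 2) :
    (X * Y) i j = X i 0 * Y 0 j + X i 1 * Y 1 j := by
  rw [Matrix.mul_apply, Fin.sum_univ_two]

/-- A unit plus an element of the maximal ideal is a unit. -/
theorem isUnit_of_sub_mem {A : Type} [CommRing A] [IsLocalRing A] {x y : A} (hx : IsUnit x)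
    (h : y - x ∈ maximalIdeal A) : IsUnit y := by
  by_contra hy
  have hy' : y ∈ maximalIdeal A := (IsLocalRing.mem_maximalIdeal y).mpr hy
  have : x ∈ maximalIdeal A := by
    have := (maximalIdeal A).sub_mem hy' h
    simpa using this
  exact ((IsLocalRing.mem_maximalIdeal x).mp this) hx

/-- If `u` intertwines `N` and `N'`, which have the same first column with unit lower entry,
then `u = a + b N'`. -/
theorem eq_add_smul_of_firstCol {A : Type} [CommRing A]
    (N N' u : Matrix (Fin 2) (Fin 2) A) (h00 : N 0 0 = N' 0 0) (h10 : N 1 0 = N' 1 0)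
    (c : A) (hc : N 1 0 * c = 1) (hconj : u * N = N' * u) :
    u = (u 0 0 - u 1 0 * c * N' 0 0) • (1 : Matrix (Fin 2) (Fin 2) A) + (u 1 0 * c) • N' := by
  have e00 := congrFun (congrFun hconj 0) 0
  have e10 := congrFun (congrFun hconj 1) 0
  rw [mul_apply_two, mul_apply_two] at e00 e10
  rw [h00, h10] at e00 e10
  rw [h10] at hc
  ext i j
  fin_cases i <;> fin_cases j
  · simp [Matrix.add_apply, Matrix.smul_apply]
  · simp only [Fin.zero_eta, Fin.isValue, Fin.mk_one, Matrix.add_apply, Matrix.smul_apply,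
      Matrix.one_apply_ne, ne_eq, zero_ne_one, not_false_eq_true, smul_eq_mul, mul_zero, zero_add]
    linear_combination c * e00 - u 0 1 * hc
  · simp only [Fin.mk_one, Fin.isValue, Fin.zero_eta, Matrix.add_apply, Matrix.smul_apply,
      Matrix.one_apply_ne, ne_eq, one_ne_zero, not_false_eq_true, smul_eq_mul, mul_zero, zero_add]
    linear_combination (-(u 1 0)) * hc
  · simp only [Fin.mk_one, Fin.isValue, Matrix.add_apply, Matrix.smul_apply, Matrix.one_apply_eq,
      smul_eq_mul, mul_one]
    linear_combination c * e10 - (u 1 1 - u 0 0) * hc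


/-- **Uniqueness of gauge-fixed lifts.** Two matrix representations over a local ring which
agree modulo the maximal ideal at `g₁`, are both "in gauge" (same first column at `g₀`, same
`(i,j)` entry at `g₁`), and are conjugate by a unit matrix, are equal, provided that the
lower-left entry at `g₀` and the `(i,j)` entry of the commutator are units. -/
theorem gauge_unique {A : Type} [CommRing A] [IsLocalRing A] {G : Type} [Monoid G]
    (M M' : G →* Matrix (Fin 2) (Fin 2) A) (g₀ g₁ : G) (i j : Fin 2)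
    (hres : ∀ a b, M g₁ a b - M' g₁ a b ∈ maximalIdeal A)
    (h10 : IsUnit (M g₀ 1 0))
    (hcomm : IsUnit ((M g₀ * M g₁ - M g₁ * M g₀) i j))
    (hg00 : M g₀ 0 0 = M' g₀ 0 0) (hg10 : M g₀ 1 0 = M' g₀ 1 0) (hg1 : M g₁ i j = M' g₁ i j)
    (u : Matrix (Fin 2) (Fin 2) A) (hu : IsUnit u) (hconj : ∀ g, u * M g = M' g * u) :
    M = M' := by
  obtain ⟨c, hc⟩ := h10.exists_right_inv
  obtain ⟨a, b, hab⟩ : ∃ a b : A, u = a • (1 : Matrix (Fin 2) (Fin 2) A) + b • M' g₀ :=
    ⟨_, _, eq_add_smul_of_firstCol (M g₀) (M' g₀) u hg00 hg10 c hc (hconj g₀)⟩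
  subst hab
  -- `N = N'`
  have hN : M g₀ = M' g₀ := by
    have h1 := hconj g₀
    have h2 : M' g₀ * (a • (1 : Matrix (Fin 2) (Fin 2) A) + b • M' g₀) =
        (a • (1 : Matrix (Fin 2) (Fin 2) A) + b • M' g₀) * M' g₀ := by
      simp only [mul_add, add_mul, Matrix.mul_smul, Matrix.smul_mul, mul_one, one_mul]
    rw [h2] at h1
    exact hu.mul_right_inj.mp h1
  -- the `(i,j)` entry at `g₁`
  have h1 := congrFun (congrFun (hconj g₁) i) j
  have e1 : ((a • (1 : Matrix (Fin 2) (Fin 2) A) + b • M' g₀) * M g₁) i j =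
      a * M g₁ i j + b * (M' g₀ * M g₁) i j := by
    simp only [add_mul, Matrix.smul_mul, one_mul, Matrix.add_apply, Matrix.smul_apply,
      smul_eq_mul]
  have e2 : (M' g₁ * (a • (1 : Matrix (Fin 2) (Fin 2) A) + b • M' g₀)) i j =
      a * M' g₁ i j + b * (M' g₁ * M' g₀) i j := by
    simp only [mul_add, Matrix.mul_smul, mul_one, Matrix.add_apply, Matrix.smul_apply,
      smul_eq_mul]
  rw [e1, e2, hg1] at h1
  have hb0 : b * ((M' g₀ * M g₁) i j - (M' g₁ * M' g₀) i j) = 0 := by
    linear_combination h1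
  have hunit : IsUnit ((M' g₀ * M g₁) i j - (M' g₁ * M' g₀) i j) := by
    refine isUnit_of_sub_mem hcomm ?_
    rw [hN]
    have : (M' g₀ * M g₁) i j - (M' g₁ * M' g₀) i j - (M' g₀ * M g₁ - M g₁ * M' g₀) i j =
        (M g₁ i 0 - M' g₁ i 0) * M' g₀ 0 j + (M g₁ i 1 - M' g₁ i 1) * M' g₀ 1 j := by
      simp only [Matrix.sub_apply, mul_apply_two]
      ring
    rw [this]
    exact (maximalIdeal A).add_mem ((maximalIdeal A).mul_mem_right _ (hres i 0))
      ((maximalIdeal A).mul_mem_right _ (hres i 1))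
  have hb : b = 0 := by
    obtain ⟨w, hw⟩ := hunit.exists_right_inv
    calc b = b * ((M' g₀ * M g₁) i j - (M' g₁ * M' g₀) i j) * w := by
            rw [mul_assoc, hw, mul_one]
      _ = 0 := by rw [hb0, zero_mul]
  subst hb
  simp only [zero_smul, add_zero] at hu hconj
  -- `a` is a unit
  obtain ⟨v, hv⟩ := hu.exists_right_inv
  have ha : a * v 0 0 = 1 := by
    have := congrFun (congrFun hv 0) 0
    simpa [Matrix.smul_mul, Matrix.smul_apply] using this
  refine MonoidHom.ext fun g => ?_
  have hg := hconj g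
  simp only [Matrix.smul_mul, one_mul, Matrix.mul_smul, mul_one] at hg
  calc M g = (v 0 0 * a) • M g := by rw [mul_comm, ha, one_smul]
    _ = v 0 0 • (a • M g) := by rw [mul_smul]
    _ = v 0 0 • (a • M' g) := by rw [hg]
    _ = (v 0 0 * a) • M' g := by rw [mul_smul]
    _ = M' g := by rw [mul_comm, ha, one_smul]

end Fermat.Agent.S53_helper13_GaugeUnique
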