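import Mathlib
import Fermat.Agent.S53_helper13_GaugeUnique

set_option autoImplicit false

open IsLocalRing Polynomial

namespace Fermat.Agent.S53_helper13_GaugeExists

open Fermat.Agent.S53_helper13_GaugeUnique

/-- Hensel's lemma for a (not necessarily monic) quadratic `ε + u b + w b²` with `ε ∈ 𝔪`,
`u` a unit. -/
theorem quadratic_hensel {A : Type} [CommRing A] [IsLocalRing A]
    [IsAdicComplete (maximalIdeal A) A]
    (ε u w : A) (hε : ε ∈ maximalIdeal A) (hu : IsUnit u) :
    ∃ b ∈ maximalIdeal A, ε + u * b + w * b ^ 2 = 0 := by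
  let f : A[X] := X ^ 2 + (C u * X + C (ε * w))
  have hf : f.Monic := by
    apply Polynomial.monic_X_pow_add
    exact lt_of_le_of_lt (Polynomial.degree_linear_le) (by norm_num)
  have h0 : f.eval 0 ∈ maximalIdeal A := by
    simp only [f, eval_add, eval_pow, eval_X, eval_mul, eval_C, ne_eq, OfNat.ofNat_ne_zero,
      not_false_eq_true, zero_pow, mul_zero, zero_add]
    exact (maximalIdeal A).mul_mem_right _ hε
  have h1 : IsUnit (Ideal.Quotient.mk (maximalIdeal A) (f.derivative.eval 0)) := by
    have : f.derivative.eval 0 = u := by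
      simp [f, derivative_add, derivative_mul, derivative_C, derivative_X]
    rw [this]
    exact hu.map _
  obtain ⟨c, hroot, hc⟩ := HenselianRing.is_henselian (I := maximalIdeal A) f hf 0 h0 h1
  rw [sub_zero] at hc
  have hroot' : c ^ 2 + (u * c + ε * w) = 0 := by
    have := hroot
    simpa [f, Polynomial.IsRoot.def, eval_add, eval_pow, eval_X, eval_mul, eval_C] using this
  have huc : IsUnit (u + c) := isUnit_of_sub_mem hu (by simpa using hc)
  obtain ⟨d, hd⟩ := huc.exists_right_inv
  refine ⟨-ε * d, (maximalIdeal A).mul_mem_right _ ((maximalIdeal A).neg_mem hε), ?_⟩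
  linear_combination (ε * d ^ 2) * hroot' + (-ε - ε * d * c) * hd

/-- For `2 × 2` matrices the adjugate is affine-linear. -/
theorem adjugate_one_add_smul {A : Type} [CommRing A] (b : A) (N : Matrix (Fin 2) (Fin 2) A) :
    Matrix.adjugate (1 + b • N) = 1 + b • Matrix.adjugate N := by
  rw [Matrix.adjugate_fin_two, Matrix.adjugate_fin_two]
  ext i j
  fin_cases i <;> fin_cases j <;> simp

theorem det_one_add_smul {A : Type} [CommRing A] (b : A) (N : Matrix (Fin 2) (Fin 2) A) :
    Matrix.det (1 + b • N) = 1 + b * Matrix.trace N + b ^ 2 * Matrix.det N := by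
  rw [Matrix.det_fin_two, Matrix.det_fin_two, Matrix.trace_fin_two]
  simp only [Matrix.add_apply, Matrix.one_apply_eq, Matrix.smul_apply, smul_eq_mul, ne_eq,
    zero_ne_one, not_false_eq_true, Matrix.one_apply_ne, zero_add, one_ne_zero]
  ring

theorem add_adjugate {A : Type} [CommRing A] (N : Matrix (Fin 2) (Fin 2) A) :
    N + Matrix.adjugate N = Matrix.trace N • (1 : Matrix (Fin 2) (Fin 2) A) := by
  rw [Matrix.adjugate_fin_two, Matrix.trace_fin_two]
  ext i j
  fin_cases i <;> fin_cases j <;> simp [add_comm]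


section residue

variable {A : Type} [CommRing A] [IsLocalRing A]

/-- reduction of matrices modulo the maximal ideal -/
noncomputable abbrev red (X : Matrix (Fin 2) (Fin 2) A) :
    Matrix (Fin 2) (Fin 2) (ResidueField A) :=
  X.map (residue A)

theorem red_mul (X Y : Matrix (Fin 2) (Fin 2) A) : red (X * Y) = red X * red Y :=
  Matrix.map_mul

theorem red_one : red (1 : Matrix (Fin 2) (Fin 2) A) = 1 :=
  Matrix.map_one _ (map_zero _) (map_one _)

theorem red_sub (X Y : Matrix (Fin 2) (Fin 2) A) : red (X - Y) = red X - red Y :=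
  Matrix.map_sub (f := residue A) (by intro a b; exact map_sub _ a b) X Y

theorem red_add (X Y : Matrix (Fin 2) (Fin 2) A) : red (X + Y) = red X + red Y :=
  Matrix.map_add (f := residue A) (by intro a b; exact map_add _ a b) X Y

theorem red_smul (b : A) (X : Matrix (Fin 2) (Fin 2) A) : red (b • X) = residue A b • red X := by
  ext i j
  simp [red]

theorem sub_mem_of_red_eq {X Y : Matrix (Fin 2) (Fin 2) A} (h : red X = red Y) (i j : Fin 2) :
    X i j - Y i j ∈ maximalIdeal A := by
  have := congrFun (congrFun h i) j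
  simp only [red, Matrix.map_apply] at this
  rw [← Ideal.Quotient.eq_zero_iff_mem]
  change residue A (X i j - Y i j) = 0
  rw [map_sub, this, sub_self]

theorem red_eq_of_sub_mem {X Y : Matrix (Fin 2) (Fin 2) A}
    (h : ∀ i j, X i j - Y i j ∈ maximalIdeal A) : red X = red Y := by
  ext i j
  simp only [red, Matrix.map_apply]
  have := h i j
  rw [← Ideal.Quotient.eq_zero_iff_mem] at this
  change residue A (X i j - Y i j) = 0 at this
  rw [map_sub, sub_eq_zero] at this
  exact this

theorem isUnit_of_red_eq {X Y : Matrix (Fin 2) (Fin 2) A} (h : red X = red Y) {i j : Fin 2}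
    (hY : IsUnit (Y i j)) : IsUnit (X i j) :=
  isUnit_of_sub_mem hY (sub_mem_of_red_eq h i j)

end residue

/-- Step 1 of gauge fixing: normalise the first column of `N`. -/
theorem gauge_step1 {A : Type} [CommRing A] [IsLocalRing A] (N : Matrix (Fin 2) (Fin 2) A)
    (c₁ c₂ : A) (h00 : N 0 0 - c₁ ∈ maximalIdeal A) (h10 : N 1 0 - c₂ ∈ maximalIdeal A)
    (hc₂ : IsUnit c₂) :
    ∃ u v : Matrix (Fin 2) (Fin 2) A, u * v = 1 ∧ v * u = 1 ∧ red u = 1 ∧ red v = 1 ∧
      (u * N * v) 0 0 = c₁ ∧ (u * N * v) 1 0 = c₂ := by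
  have hn : IsUnit (N 1 0) := isUnit_of_sub_mem hc₂ h10
  obtain ⟨e, he⟩ := hn.exists_right_inv
  obtain ⟨f, hf⟩ := hc₂.exists_right_inv
  let u : Matrix (Fin 2) (Fin 2) A := !![1, (c₁ - N 0 0) * e; 0, c₂ * e]
  let v : Matrix (Fin 2) (Fin 2) A := !![1, -((c₁ - N 0 0) * e) * (N 1 0 * f); 0, N 1 0 * f]
  have huv : u * v = 1 := by
    ext i j
    fin_cases i <;> fin_cases j
    · simp [u, v, mul_apply_two]
    · simp [u, v, mul_apply_two]
    · simp [u, v, mul_apply_two]
    · simp only [u, v, mul_apply_two, Fin.mk_one, Fin.isValue, Matrix.of_apply, Matrix.cons_val',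
        Matrix.cons_val_one, Matrix.cons_val_fin_one, Matrix.cons_val_zero, zero_mul, zero_add,
        Matrix.one_apply_eq]
      linear_combination (c₂ * f) * he + hf
  have hvu : v * u = 1 := by
    exact mul_eq_one_comm.mp huv
  have hru : red u = 1 := by
    rw [← red_one]
    apply red_eq_of_sub_mem
    intro i j
    fin_cases i <;> fin_cases j
    · simp [u]
    · simp only [u, Fin.zero_eta, Fin.isValue, Fin.mk_one, Matrix.of_apply, Matrix.cons_val',
        Matrix.cons_val_one, Matrix.cons_val_fin_one, Matrix.cons_val_zero, ne_eq, zero_ne_one,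
        not_false_eq_true, Matrix.one_apply_ne, sub_zero]
      refine (maximalIdeal A).mul_mem_right _ ?_
      rw [← neg_sub]
      exact (maximalIdeal A).neg_mem h00
    · simp [u]
    · simp only [u, Fin.mk_one, Fin.isValue, Matrix.of_apply, Matrix.cons_val', Matrix.cons_val_one,
        Matrix.cons_val_fin_one, Matrix.one_apply_eq]
      have : c₂ * e - 1 = -((N 1 0 - c₂) * e) := by linear_combination he
      rw [this]
      exact (maximalIdeal A).neg_mem ((maximalIdeal A).mul_mem_right _ h10)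
  have hrv : red v = 1 := by
    have h1 : red (v * u) = 1 := by rw [hvu, red_one]
    rw [red_mul, hru, mul_one] at h1
    exact h1
  refine ⟨u, v, huv, hvu, hru, hrv, ?_, ?_⟩
  · simp only [u, v, mul_apply_two, Fin.isValue, Matrix.of_apply, Matrix.cons_val',
      Matrix.cons_val_zero, Matrix.cons_val_fin_one, Matrix.cons_val_one, one_mul, mul_one,
      mul_zero, add_zero]
    linear_combination (c₁ - N 0 0) * he
  · simp only [u, v, mul_apply_two, Fin.isValue, Matrix.of_apply, Matrix.cons_val',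
      Matrix.cons_val_zero, Matrix.cons_val_fin_one, Matrix.cons_val_one, zero_mul, zero_add,
      mul_one, mul_zero, add_zero]
    linear_combination c₂ * he


/-- Step 2 of gauge fixing: normalise the `(i,j)` entry of `M` by conjugating with an element
`1 + b N` of the centraliser of `N`. -/
theorem gauge_step2 {A : Type} [CommRing A] [IsLocalRing A] [IsAdicComplete (maximalIdeal A) A]
    (N M : Matrix (Fin 2) (Fin 2) A) (i j : Fin 2) (c₃ : A)
    (h1 : M i j - c₃ ∈ maximalIdeal A) (hcomm : IsUnit ((N * M - M * N) i j)) :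
    ∃ Y Y' : Matrix (Fin 2) (Fin 2) A, Y * Y' = 1 ∧ Y' * Y = 1 ∧ red Y = 1 ∧ red Y' = 1 ∧
      Y * N = N * Y ∧ (Y * M * Y') i j = c₃ := by
  have key : M * Matrix.adjugate N = Matrix.trace N • M - M * N := by
    have h := add_adjugate N
    have h2 : Matrix.adjugate N = Matrix.trace N • (1 : Matrix (Fin 2) (Fin 2) A) - N := by
      rw [← h]; abel
    rw [h2, mul_sub, Matrix.mul_smul, mul_one]
  set uu : A := (N * M + M * Matrix.adjugate N) i j - c₃ * Matrix.trace N with huu
  set w : A := (N * M * Matrix.adjugate N) i j - c₃ * Matrix.det N with hw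
  have huu_unit : IsUnit uu := by
    refine isUnit_of_sub_mem hcomm ?_
    have : uu - (N * M - M * N) i j = Matrix.trace N * (M i j - c₃) := by
      rw [huu, key]
      simp only [Matrix.add_apply, Matrix.sub_apply, Matrix.smul_apply, smul_eq_mul]
      ring
    rw [this]
    exact (maximalIdeal A).mul_mem_left _ h1
  obtain ⟨b, hb, hquad⟩ := quadratic_hensel (M i j - c₃) uu w h1 huu_unit
  have hΔ : IsUnit (Matrix.det (1 + b • N)) := by
    refine isUnit_of_sub_mem isUnit_one ?_
    rw [det_one_add_smul]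
    have : 1 + b * Matrix.trace N + b ^ 2 * Matrix.det N - 1 =
        b * (Matrix.trace N + b * Matrix.det N) := by ring
    rw [this]
    exact (maximalIdeal A).mul_mem_right _ hb
  obtain ⟨d, hd⟩ := hΔ.exists_right_inv
  have hYY' : (1 + b • N) * (d • Matrix.adjugate (1 + b • N)) = 1 := by
    rw [Matrix.mul_smul, Matrix.mul_adjugate, smul_smul, mul_comm, hd, one_smul]
  have hredY : red (1 + b • N) = 1 := by
    rw [red_add, red_one, red_smul]
    have : residue A b = 0 := by
      rw [IsLocalRing.residue_eq_zero_iff]; exact hb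
    rw [this, zero_smul, add_zero]
  have hredY' : red (d • Matrix.adjugate (1 + b • N)) = 1 := by
    have h1 : red ((1 + b • N) * (d • Matrix.adjugate (1 + b • N))) = 1 := by
      rw [hYY', red_one]
    rw [red_mul, hredY, one_mul] at h1
    exact h1
  refine ⟨1 + b • N, d • Matrix.adjugate (1 + b • N), hYY', mul_eq_one_comm.mp hYY', hredY,
    hredY', ?_, ?_⟩
  · simp only [add_mul, mul_add, one_mul, mul_one, Matrix.smul_mul, Matrix.mul_smul]
  · rw [Matrix.mul_smul, Matrix.smul_apply, smul_eq_mul, adjugate_one_add_smul]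
    have hexp : ((1 + b • N) * M * (1 + b • Matrix.adjugate N)) i j =
        M i j + b * (N * M + M * Matrix.adjugate N) i j +
          b ^ 2 * (N * M * Matrix.adjugate N) i j := by
      simp only [add_mul, mul_add, one_mul, mul_one, Matrix.smul_mul, Matrix.mul_smul,
        Matrix.add_apply, Matrix.smul_apply, smul_eq_mul, smul_smul]
      ring
    rw [hexp]
    have hdet := det_one_add_smul b N
    rw [hdet] at hd
    linear_combination d * hquad + c₃ * hd


/-- **Existence of gauge-fixed conjugates** over an adically complete local ring. -/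
theorem gauge_exists {A : Type} [CommRing A] [IsLocalRing A] [IsAdicComplete (maximalIdeal A) A]
    (N M : Matrix (Fin 2) (Fin 2) A) (i j : Fin 2) (c₁ c₂ c₃ : A)
    (h00 : N 0 0 - c₁ ∈ maximalIdeal A) (h10 : N 1 0 - c₂ ∈ maximalIdeal A)
    (h1 : M i j - c₃ ∈ maximalIdeal A) (hc₂ : IsUnit c₂)
    (hcomm : IsUnit ((N * M - M * N) i j)) :
    ∃ u v : Matrix (Fin 2) (Fin 2) A, u * v = 1 ∧ v * u = 1 ∧ red u = 1 ∧ red v = 1 ∧
      (u * N * v) 0 0 = c₁ ∧ (u * N * v) 1 0 = c₂ ∧ (u * M * v) i j = c₃ := by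
  obtain ⟨u₁, v₁, huv₁, hvu₁, hru₁, hrv₁, hN0, hN1⟩ := gauge_step1 N c₁ c₂ h00 h10 hc₂
  have hredN : red (u₁ * N * v₁) = red N := by
    rw [red_mul, red_mul, hru₁, hrv₁, one_mul, mul_one]
  have hredM : red (u₁ * M * v₁) = red M := by
    rw [red_mul, red_mul, hru₁, hrv₁, one_mul, mul_one]
  have h1' : (u₁ * M * v₁) i j - c₃ ∈ maximalIdeal A := by
    have := (maximalIdeal A).add_mem (sub_mem_of_red_eq hredM i j) h1
    simpa using this
  have hcomm' : IsUnit (((u₁ * N * v₁) * (u₁ * M * v₁) - (u₁ * M * v₁) * (u₁ * N * v₁)) i j) := by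
    refine isUnit_of_red_eq ?_ hcomm
    simp only [red_sub, red_mul, hru₁, hrv₁, one_mul, mul_one]
  obtain ⟨Y, Y', hYY', hY'Y, hrY, hrY', hYN, hYM⟩ :=
    gauge_step2 (u₁ * N * v₁) (u₁ * M * v₁) i j c₃ h1' hcomm'
  have hN2 : Y * u₁ * N * (v₁ * Y') = u₁ * N * v₁ := by
    calc Y * u₁ * N * (v₁ * Y') = Y * (u₁ * N * v₁) * Y' := by simp only [mul_assoc]
      _ = (u₁ * N * v₁) * Y * Y' := by rw [hYN]
      _ = u₁ * N * v₁ := by rw [mul_assoc _ Y Y', hYY', mul_one]
  refine ⟨Y * u₁, v₁ * Y', ?_, ?_, ?_, ?_, ?_, ?_, ?_⟩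
  · calc Y * u₁ * (v₁ * Y') = Y * (u₁ * v₁) * Y' := by simp only [mul_assoc]
      _ = 1 := by rw [huv₁, mul_one, hYY']
  · calc v₁ * Y' * (Y * u₁) = v₁ * (Y' * Y) * u₁ := by simp only [mul_assoc]
      _ = 1 := by rw [hY'Y, mul_one, hvu₁]
  · rw [red_mul, hrY, hru₁, one_mul]
  · rw [red_mul, hrY', hrv₁, one_mul]
  · rw [hN2]; exact hN0
  · rw [hN2]; exact hN1
  · have : Y * u₁ * M * (v₁ * Y') = Y * (u₁ * M * v₁) * Y' := by simp only [mul_assoc]
    rw [this]; exact hYM

/-- Conjugate of a matrix representation. -/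
def conjRep {A : Type} [CommRing A] {G : Type} [Monoid G] (u v : Matrix (Fin 2) (Fin 2) A)
    (huv : u * v = 1) (M : G →* Matrix (Fin 2) (Fin 2) A) : G →* Matrix (Fin 2) (Fin 2) A where
  toFun g := u * M g * v
  map_one' := by rw [map_one, mul_one, huv]
  map_mul' g h := by
    have hvu : v * u = 1 := mul_eq_one_comm.mp huv
    rw [map_mul]
    calc u * (M g * M h) * v = u * M g * (1 * (M h * v)) := by
          rw [one_mul]; simp only [mul_assoc]
      _ = u * M g * v * (u * M h * v) := by rw [← hvu]; simp only [mul_assoc]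

@[simp] theorem conjRep_apply {A : Type} [CommRing A] {G : Type} [Monoid G]
    (u v : Matrix (Fin 2) (Fin 2) A) (huv : u * v = 1) (M : G →* Matrix (Fin 2) (Fin 2) A)
    (g : G) : conjRep u v huv M g = u * M g * v := rfl

theorem conjRep_mul {A : Type} [CommRing A] {G : Type} [Monoid G]
    (u v : Matrix (Fin 2) (Fin 2) A) (huv : u * v = 1) (M : G →* Matrix (Fin 2) (Fin 2) A)
    (g : G) : u * M g = conjRep u v huv M g * u := by
  have hvu : v * u = 1 := mul_eq_one_comm.mp huv
  rw [conjRep_apply, mul_assoc, hvu, mul_one]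

end Fermat.Agent.S53_helper13_GaugeExists
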