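import Mathlib
import Fermat.Agent.S53_helper18_Carayol
import Fermat.Agent.S53_helper18_Descent

set_option autoImplicit false

namespace Fermat.Agent.S53_helper18

open IsLocalRing

/-- H2 (Carayol-Serre uniqueness over an arbitrary local ring), spec shape. -/
theorem H2_conj_of_trace_eq {A : Type} [CommRing A] [IsLocalRing A] {G : Type} [Group G]
    (M M' : G →* Matrix (Fin 2) (Fin 2) A)
    (hres : ∀ g, (M g).map (residue A) = (M' g).map (residue A))
    (hspan : Submodule.span (ResidueField A)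
      (Set.range fun g => (M g).map (residue A)) = ⊤)
    (htr : ∀ g, (M g).trace = (M' g).trace) :
    ∃ u : Matrix (Fin 2) (Fin 2) A, IsUnit u ∧ u.map (residue A) = 1 ∧
      ∀ g, M' g * u = u * M g := by
  obtain ⟨u, hu, hu1, h⟩ := conj_of_trace_eq M M' hspan hres htr
  exact ⟨u, hu, hu1, fun g => (h g).symm⟩

/-- H3 (Carayol descent to a local subring with nilpotent maximal ideal), spec shape. -/
theorem H3_descent {A₀ A : Type} [CommRing A₀] [CommRing A] [IsLocalRing A₀] [IsLocalRing A]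
    (ι : A₀ →+* A) (hι : Function.Injective ι) (hloc : IsLocalHom ι)
    (hnil : ∃ n : ℕ, maximalIdeal A₀ ^ n = ⊥) (hnilA : ∃ n : ℕ, maximalIdeal A ^ n = ⊥)
    (hressurj : Function.Surjective (residue A ∘ ι))
    {G : Type} [Group G] (M : G →* Matrix (Fin 2) (Fin 2) A)
    (hspan : Submodule.span (ResidueField A)
      (Set.range fun g => (M g).map (residue A)) = ⊤)
    (htr : ∀ g, (M g).trace ∈ ι.range) :
    ∃ (u : Matrix (Fin 2) (Fin 2) A) (M₀ : G →* Matrix (Fin 2) (Fin 2) A₀),
      IsUnit u ∧ u.map (residue A) = 1 ∧ ∀ g, (M₀ g).map ι * u = u * M g := by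
  have hnilA' : ∀ x ∈ maximalIdeal A, IsNilpotent x := by
    obtain ⟨n, hn⟩ := hnilA
    intro x hx
    refine ⟨n, ?_⟩
    have : x ^ n ∈ maximalIdeal A ^ n := Ideal.pow_mem_pow hx n
    rw [hn] at this
    simpa using this
  have hk : ∀ a : A, ∃ a₀ : A₀, a - ι a₀ ∈ maximalIdeal A := by
    intro a
    obtain ⟨a₀, ha₀⟩ := hressurj (residue A a)
    refine ⟨a₀, ?_⟩
    rw [← residue_eq_zero_iff, map_sub, sub_eq_zero]
    exact ha₀.symm
  obtain ⟨r₀, u, hu, hu1, h⟩ := descent ι hι hnilA' hk M hspan htr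
  exact ⟨u, r₀, hu, hu1, fun g => (h g).symm⟩

end Fermat.Agent.S53_helper18
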