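import Mathlib
import Fermat.Agent.S53_helper16_Defs
import Fermat.Agent.S53_helper16_Core
import Fermat.Agent.S53_helper15_I4
import Fermat.Agent.S53_helper18_Carayol
import Fermat.Agent.S53_helper23_C6
import Fermat.Agent.S53_helper23_I1
import Fermat.Agent.S53_helper23_T0
import Fermat.Agent.S53_helper26_H7
import Fermat.Agent.S53_helper26_Limit
import Fermat.Agent.S53_helper27_C1
import Fermat.Agent.S53_helper27_D2
import Fermat.Agent.S53_helper28_C0
import Fermat.Agent.S53_helper29_I3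
import Fermat.Agent.S53_helper3_C2
import Fermat.Agent.S53_helper8_H5
import Fermat.Agent.S53_helper28_C3

set_option autoImplicit false
set_option linter.style.haveILetI false
set_option linter.unusedVariables false
set_option linter.unusedSectionVars false

open IsLocalRing Fermat.Agent.S53_helper16_Defs Fermat.Agent.S53_helper16_Core GaloisRep

namespace Fermat.Agent.S53_helper26_Univ

open Fermat.Agent.S53_helper26_Limit

/-- Any `𝒪`-algebra map between local `𝒪`-algebras is local as soon as the structure map of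
the target is local and the residue field of the target is a quotient of `𝒪`. -/
theorem isLocalHom_of_algHom {𝒪 R A : Type*} [CommRing 𝒪] [CommRing R] [CommRing A]
    [Algebra 𝒪 R] [Algebra 𝒪 A] [IsLocalRing R] [IsLocalRing A]
    (hlocA : IsLocalHom (algebraMap 𝒪 A))
    (hsurj : Function.Surjective (residue A ∘ algebraMap 𝒪 A)) (φ : R →ₐ[𝒪] A) :
    IsLocalHom (φ : R →+* A) := by
  refine ⟨fun r hr => ?_⟩
  by_contra hnu
  obtain ⟨c, hc⟩ := hsurj (residue A (φ r))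
  simp only [Function.comp_apply] at hc
  have hmem : algebraMap 𝒪 A c - φ r ∈ maximalIdeal A := by
    rw [← residue_eq_zero_iff, map_sub, hc, sub_self]
  have hcu : IsUnit (algebraMap 𝒪 A c) := by
    have h1 : IsUnit (residue A (algebraMap 𝒪 A c)) := by
      rw [hc]; exact hr.map (residue A)
    exact isUnit_of_map_unit (residue A) _ h1
  have hcO : IsUnit c := hlocA.map_nonunit c hcu
  have hcR : IsUnit (algebraMap 𝒪 R c) := hcO.map (algebraMap 𝒪 R)
  have hsum : IsUnit (r + (algebraMap 𝒪 R c - r)) := by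
    have : r + (algebraMap 𝒪 R c - r) = algebraMap 𝒪 R c := by ring
    rw [this]; exact hcR
  rcases IsLocalRing.isUnit_or_isUnit_of_isUnit_add hsum with h1 | h1
  · exact hnu h1
  · have h2 : IsUnit ((φ : R →+* A) (algebraMap 𝒪 R c - r)) := h1.map (φ : R →+* A)
    have h3 : (φ : R →+* A) (algebraMap 𝒪 R c - r) = algebraMap 𝒪 A c - φ r := by
      simp
    rw [h3] at h2
    exact hmem h2

theorem mapRep_comp {A B C : Type} [CommRing A] [CommRing B] [CommRing C] (f : A →+* B)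
    (g : B →+* C) (M : Gal →* Matrix (Fin 2) (Fin 2) A) :
    mapRep g (mapRep f M) = mapRep (g.comp f) M := by
  ext σ i j
  simp [mapRep_apply]

/-- Elements of an adically separated ring are equal if they agree modulo all `I ^ (n+1)`. -/
theorem eq_of_forall_mk_succ_eq {A : Type*} [CommRing A] (I : Ideal A) [IsHausdorff I A]
    {x y : A}
    (h : ∀ n : ℕ, Ideal.Quotient.mk (I ^ (n + 1)) x = Ideal.Quotient.mk (I ^ (n + 1)) y) :
    x = y := by
  rw [← sub_eq_zero]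
  apply IsHausdorff.haus (I := I) inferInstance
  intro n
  rw [SModEq.zero, smul_eq_mul, Ideal.mul_top]
  have h1 : x - y ∈ I ^ (n + 1) := by
    rw [← Ideal.Quotient.eq]; exact h n
  exact Ideal.pow_le_pow_right (Nat.le_succ n) h1

/-- Glue a compatible system of algebra maps into the quotients `A ⧸ I ^ (n+1)` of an adically
complete ring. -/
theorem exists_algHom_of_compat {𝒪 R A : Type*} [CommRing 𝒪] [CommRing R] [CommRing A]
    [Algebra 𝒪 R] [Algebra 𝒪 A] (I : Ideal A) [IsAdicComplete I A]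
    (f : ∀ n : ℕ, R →ₐ[𝒪] A ⧸ I ^ (n + 1))
    (hf : ∀ n x, Ideal.Quotient.factorPow I (Nat.le_succ (n + 1)) (f (n + 1) x) = f n x) :
    ∃ φ : R →ₐ[𝒪] A, ∀ n x, Ideal.Quotient.mk (I ^ (n + 1)) (φ x) = f n x := by
  have ha : StrictMono (fun n : ℕ => n + 1) := fun a b hab => Nat.succ_lt_succ hab
  let g : ∀ n : ℕ, R →+* A ⧸ I ^ ((fun n : ℕ => n + 1) n) := fun n => (f n : R →+* _)
  have hg : ∀ {m : ℕ}, (Ideal.Quotient.factorPow I (ha.monotone m.le_succ)).comp (g (m + 1)) =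
      g m := by
    intro m
    ext x
    exact hf m x
  let F : R →+* A := IsAdicComplete.StrictMono.liftRingHom I ha g hg
  have hF : ∀ n x, Ideal.Quotient.mk (I ^ (n + 1)) (F x) = f n x := by
    intro n x
    exact IsAdicComplete.StrictMono.mk_liftRingHom I ha g hg (n := n) x
  refine ⟨{ F with commutes' := fun c => ?_ }, hF⟩
  apply eq_of_forall_mk_succ_eq I
  intro n
  show Ideal.Quotient.mk (I ^ (n + 1)) (F (algebraMap 𝒪 R c)) = _
  rw [hF, AlgHom.commutes]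
  rfl

section Main

variable (𝒪 : Type) [CommRing 𝒪] [IsLocalRing 𝒪] [Finite (ResidueField 𝒪)]
  [IsNoetherianRing 𝒪] [IsAdicComplete (maximalIdeal 𝒪) 𝒪]
variable (ρbar : ResidualGaloisRep (ResidueField 𝒪))
variable (𝒟 : ∀ ⦃A : Type⦄ [CommRing A] [IsLocalRing A] [Algebra 𝒪 A], GaloisRepAdic A → Prop)
variable {d : ℕ} (h : Fin d → Gal) (a : Fin d → 𝒪)

/-- `𝒟` holds for the representation over `R` as soon as it holds over all Artinian quotients. -/
theorem isOfType_of_props (h𝒟 : IsDeformationCondition 𝒪 𝒟)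
    {R : Type} [CommRing R] [IsLocalRing R] [IsNoetherianRing R]
    [IsAdicComplete (maximalIdeal R) R] [Algebra 𝒪 R]
    (hlocR : IsLocalHom (algebraMap 𝒪 R))
    (hsurjR : Function.Surjective (residue R ∘ algebraMap 𝒪 R))
    (MR : Gal →* Matrix (Fin 2) (Fin 2) R) (hcont : MatCont MR)
    (hDR : ∀ {B : Type} [CommRing B] [IsLocalRing B] [Algebra 𝒪 B]
      (hB : IsArtinianTestAlgebra 𝒪 B) (q : R →ₐ[𝒪] B), Function.Surjective q →
      IsDLift 𝒪 ρbar 𝒟 hB.isLocalHom (mapRep (q : R →+* B) MR)) :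
    𝒟 (toAdic MR hcont) := by
  rw [h𝒟.iff_forall_surjective hlocR hsurjR]
  intro B _ _ _ hB q hq hqs
  have h1 := hDR hB q hqs
  obtain ⟨e⟩ := Fermat.Agent.S53_helper15_I4.I4_baseChangeAlong_toAdic (q : R →+* B) hq MR hcont
  exact h𝒟.of_isEquiv hB ⟨e.symm⟩ h1.isD

/-- The push-forward of `MR` along any algebra map to an Artinian test algebra is a `𝒟`-lift
(factor through the image). -/
theorem dlift_of_algHom (h𝒟 : IsDeformationCondition 𝒪 𝒟)
    {R : Type} [CommRing R] [IsLocalRing R] [Algebra 𝒪 R]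
    (MR : Gal →* Matrix (Fin 2) (Fin 2) R)
    (hDR : ∀ {B : Type} [CommRing B] [IsLocalRing B] [Algebra 𝒪 B]
      (hB : IsArtinianTestAlgebra 𝒪 B) (q : R →ₐ[𝒪] B), Function.Surjective q →
      IsDLift 𝒪 ρbar 𝒟 hB.isLocalHom (mapRep (q : R →+* B) MR))
    {B : Type} [CommRing B] [IsLocalRing B] [Algebra 𝒪 B]
    (hB : IsArtinianTestAlgebra 𝒪 B) (f : R →ₐ[𝒪] B) :
    IsDLift 𝒪 ρbar 𝒟 hB.isLocalHom (mapRep (f : R →+* B) MR) := by
  letI := Fermat.Agent.S53_helper26_H7.H7b_isLocalRing 𝒪 hB f.range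
  obtain ⟨hB₁, hval⟩ := Fermat.Agent.S53_helper26_H7.H7c_isArtinianTestAlgebra 𝒪 hB f.range
  have h1 := hDR hB₁ f.rangeRestrict f.rangeRestrict_surjective
  have h2 := Fermat.Agent.S53_helper3_C2.C2b_dlift_map 𝒪 ρbar 𝒟 h𝒟 hB₁ hB f.range.val hval h1
  have h3 : mapRep (f.range.val : f.range →+* B) (mapRep (f.rangeRestrict : R →+* f.range) MR) =
      mapRep (f : R →+* B) MR := by
    rw [mapRep_comp]
    rfl
  rw [h3] at h2
  exact h2

/-- The reduction of a strict matrix lift realising a representation of type `𝒟` modulo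
`𝔪 ^ (n+1)` is a `𝒟`-lift. -/
theorem dlift_quot (h𝒟 : IsDeformationCondition 𝒪 𝒟)
    {A : Type} [CommRing A] [IsLocalRing A] [IsNoetherianRing A]
    [IsAdicComplete (maximalIdeal A) A] [Algebra 𝒪 A]
    (hlocA : IsLocalHom (algebraMap 𝒪 A))
    (hsurjA : Function.Surjective (residue A ∘ algebraMap 𝒪 A))
    (ρA : GaloisRepAdic A) (hρA : 𝒟 ρA)
    (MA : Gal →* Matrix (Fin 2) (Fin 2) A) (hMA : MatCont MA)
    (hstrict : IsStrictLift 𝒪 hlocA ρbar MA) (hE : (toAdic MA hMA).IsEquiv ρA) (n : ℕ)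
    [IsLocalRing (A ⧸ maximalIdeal A ^ (n + 1))]
    (hAn : IsArtinianTestAlgebra 𝒪 (A ⧸ maximalIdeal A ^ (n + 1))) :
    IsDLift 𝒪 ρbar 𝒟 hAn.isLocalHom
      (mapRep (Ideal.Quotient.mk (maximalIdeal A ^ (n + 1))) MA) := by
  have hq : IsLocalHom (Ideal.Quotient.mk (maximalIdeal A ^ (n + 1))) :=
    isLocalHom_mk_quot_pow n
  have hq' : IsLocalHom ((Ideal.Quotient.mkₐ 𝒪 (maximalIdeal A ^ (n + 1)) :
      A →ₐ[𝒪] A ⧸ maximalIdeal A ^ (n + 1)) : A →+* A ⧸ maximalIdeal A ^ (n + 1)) := hq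
  refine ⟨matCont_mapRep _ hq hMA, ?_, ?_⟩
  · exact Fermat.Agent.S53_helper3_C2.C2a_strict_map 𝒪 ρbar hlocA hAn.isLocalHom
      (Ideal.Quotient.mkₐ 𝒪 (maximalIdeal A ^ (n + 1))) hq' hstrict
  · have h1 := (h𝒟.iff_forall_surjective hlocA hsurjA ρA).mp hρA hAn
      (Ideal.Quotient.mkₐ 𝒪 (maximalIdeal A ^ (n + 1))) hq'
      (Ideal.Quotient.mkₐ_surjective 𝒪 _)
    obtain ⟨e⟩ := hE
    obtain ⟨e'⟩ := Fermat.Agent.S53_helper15_I4.I4_baseChangeAlong_toAdic
      (Ideal.Quotient.mk (maximalIdeal A ^ (n + 1))) hq MA hMA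
    have e2 := GaloisRepAdic.Equiv.baseChangeAlong
      (Ideal.Quotient.mk (maximalIdeal A ^ (n + 1))) hq e
    exact h𝒟.of_isEquiv hAn ⟨e2.symm.trans e'⟩ h1


/-- Uniqueness part: two local algebra maps `R → A` realising the same representation agree. -/
theorem unique_hom_of_props
    {R : Type} [CommRing R] [IsLocalRing R] [Algebra 𝒪 R]
    (π : Lam 𝒪 d →ₐ[𝒪] R) (hπ : Function.Surjective π)
    (MR : Gal →* Matrix (Fin 2) (Fin 2) R) (hcont : MatCont MR)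
    (htr : ∀ i, (MR (h i)).trace = π (tautTr 𝒪 a i))
    {A : Type} [CommRing A] [IsLocalRing A] [IsHausdorff (maximalIdeal A) A] [Algebra 𝒪 A]
    (ρA : GaloisRepAdic A)
    (φ φ' : R →ₐ[𝒪] A) (hφ : IsLocalHom (φ : R →+* A)) (hφ' : IsLocalHom (φ' : R →+* A))
    (hE : ((toAdic MR hcont).baseChangeAlong (φ : R →+* A) hφ).IsEquiv ρA)
    (hE' : ((toAdic MR hcont).baseChangeAlong (φ' : R →+* A) hφ').IsEquiv ρA) :
    φ = φ' := by
  have key : ∀ (ψ : R →ₐ[𝒪] A) (hψ : IsLocalHom (ψ : R →+* A)),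
      ((toAdic MR hcont).baseChangeAlong (ψ : R →+* A) hψ).IsEquiv ρA →
      ∀ σ, ψ (MR σ).trace = LinearMap.trace A _ (ρA.ρ σ) := by
    intro ψ hψ hEψ σ
    have h1 := Fermat.Agent.S53_helper23_I1.I1b_trace_eq_of_isEquiv hEψ σ
    have h2 := Fermat.Agent.S53_helper23_I1.I1c_trace_baseChangeAlong (ψ : R →+* A) hψ
      (toAdic MR hcont) σ
    have h3 := Fermat.Agent.S53_helper23_I1.I1a_trace_toAdic MR hcont σ
    rw [← h1, h2, h3]
    rfl
  have hπloc : IsLocalHom (π : Lam 𝒪 d →+* R) :=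
    IsLocalHom.of_surjective (π : Lam 𝒪 d →+* R) hπ
  refine K4u_algHom_ext_of_dense φ φ' hφ hφ' (Set.range fun i => π (tautTr 𝒪 a i)) ?_ ?_
  · intro r n
    obtain ⟨f, rfl⟩ := hπ r
    obtain ⟨p, hp, hfp⟩ := Fermat.Agent.S53_helper8_H5.H5e_dense 𝒪 d f n
    refine ⟨π p, ?_, ?_⟩
    · have h1 : π p ∈ Subalgebra.map π (Algebra.adjoin 𝒪
          (Set.range (MvPowerSeries.X : Fin d → MvPowerSeries (Fin d) 𝒪))) :=
        ⟨p, hp, rfl⟩
      rw [AlgHom.map_adjoin] at h1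
      refine Algebra.adjoin_le ?_ h1
      rintro _ ⟨_, ⟨i, rfl⟩, rfl⟩
      have h2 : π (MvPowerSeries.X i) = π (tautTr 𝒪 a i) - algebraMap 𝒪 R (a i) := by
        rw [tautTr, map_add, AlgHom.commutes, add_sub_cancel_right]
      show π (MvPowerSeries.X i) ∈ Algebra.adjoin 𝒪 (Set.range fun i => π (tautTr 𝒪 a i))
      rw [h2]
      exact Subalgebra.sub_mem _ (Algebra.subset_adjoin ⟨i, rfl⟩) (Subalgebra.algebraMap_mem _ _)
    · rw [← map_sub]
      have hmap : (maximalIdeal (Lam 𝒪 d) ^ n).map (π : Lam 𝒪 d →+* R) ≤ maximalIdeal R ^ n := by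
        rw [Ideal.map_pow]
        exact Ideal.pow_right_mono (Ideal.map_le_iff_le_comap.mpr fun x hx =>
          Ideal.mem_comap.mpr (map_nonunit (π : Lam 𝒪 d →+* R) x hx)) n
      exact hmap (Ideal.mem_map_of_mem (π : Lam 𝒪 d →+* R) hfp)
  · rintro _ ⟨i, rfl⟩
    show φ (π (tautTr 𝒪 a i)) = φ' (π (tautTr 𝒪 a i))
    rw [← htr i, key φ hφ hE, key φ' hφ' hE']


/-- Existence part. -/
theorem exists_hom_of_props (habs : ρbar.IsAbsolutelyIrreducible)
    (h𝒟 : IsDeformationCondition 𝒪 𝒟)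
    (hgen : Generates 𝒪 ρbar 𝒟 d h)
    (ha : ∀ i, residue 𝒪 (a i) = (rbMat ρbar (h i)).trace)
    {R : Type} [CommRing R] [IsLocalRing R] [Algebra 𝒪 R]
    (hlocR : IsLocalHom (algebraMap 𝒪 R))
    (π : Lam 𝒪 d →ₐ[𝒪] R) (hπ : Function.Surjective π)
    (hker : ∀ I ∈ famF 𝒪 ρbar 𝒟 h a, RingHom.ker (π : Lam 𝒪 d →+* R) ≤ I)
    (MR : Gal →* Matrix (Fin 2) (Fin 2) R) (hcont : MatCont MR)
    (hstrict : IsStrictLift 𝒪 hlocR ρbar MR)
    (htr : ∀ i, (MR (h i)).trace = π (tautTr 𝒪 a i))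
    (hDR : ∀ {B : Type} [CommRing B] [IsLocalRing B] [Algebra 𝒪 B]
      (hB : IsArtinianTestAlgebra 𝒪 B) (q : R →ₐ[𝒪] B), Function.Surjective q →
      IsDLift 𝒪 ρbar 𝒟 hB.isLocalHom (mapRep (q : R →+* B) MR))
    {A : Type} [CommRing A] [IsLocalRing A] [IsNoetherianRing A]
    [IsAdicComplete (maximalIdeal A) A] [Algebra 𝒪 A]
    (hlocA : IsLocalHom (algebraMap 𝒪 A))
    (hsurjA : Function.Surjective (residue A ∘ algebraMap 𝒪 A))
    (ρA : GaloisRepAdic A) (hρA : 𝒟 ρA)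
    (hres : ρA.residual.IsEquiv (ρbar.baseChangeAlong (kappa 𝒪 A hlocA))) :
    ∃ φ : R →ₐ[𝒪] A, ∃ hφ : IsLocalHom (φ : R →+* A),
      ((toAdic MR hcont).baseChangeAlong (φ : R →+* A) hφ).IsEquiv ρA := by
  -- Step 1: a strict matrix model of `ρA`
  obtain ⟨MA, hMA, hMAs, hMAe⟩ :=
    Fermat.Agent.S53_helper27_C1.C1_strict_of_adic 𝒪 ρbar hlocA hsurjA ρA hres
  -- Step 2: the Artinian levels
  haveI hlocn : ∀ n, IsLocalRing (A ⧸ maximalIdeal A ^ (n + 1)) := fun n =>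
    isLocalRing_quot_pow n
  have hAn : ∀ n, IsArtinianTestAlgebra 𝒪 (A ⧸ maximalIdeal A ^ (n + 1)) := fun n =>
    K5_quot_isArtinianTestAlgebra 𝒪 hlocA hsurjA n
  have hDn : ∀ n, IsDLift 𝒪 ρbar 𝒟 (hAn n).isLocalHom
      (mapRep (Ideal.Quotient.mk (maximalIdeal A ^ (n + 1))) MA) := fun n =>
    dlift_quot 𝒪 ρbar 𝒟 h𝒟 hlocA hsurjA ρA hρA MA hMA hMAs hMAe n (hAn n)
  -- Step 3: classifying maps
  choose ψ hψtr hψX using fun n =>
    Fermat.Agent.S53_helper23_T0.T0b_exists_classifying 𝒪 ρbar h a ha (hAn n) (hDn n).strict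
  have hmem : ∀ n, RingHom.ker ((ψ n : Lam 𝒪 d →ₐ[𝒪] A ⧸ maximalIdeal A ^ (n + 1)) :
      Lam 𝒪 d →+* A ⧸ maximalIdeal A ^ (n + 1)) ∈ famF 𝒪 ρbar 𝒟 h a := fun n =>
    ⟨_, _, _, _, hAn n, _, hDn n, ψ n, hψtr n, rfl⟩
  have hle : ∀ n, RingHom.ker (π : Lam 𝒪 d →+* R) ≤
      RingHom.ker ((ψ n : Lam 𝒪 d →ₐ[𝒪] A ⧸ maximalIdeal A ^ (n + 1)) :
        Lam 𝒪 d →+* A ⧸ maximalIdeal A ^ (n + 1)) := fun n => hker _ (hmem n)
  let φn : ∀ n, R →ₐ[𝒪] A ⧸ maximalIdeal A ^ (n + 1) := fun n =>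
    AlgHom.liftOfSurjective π hπ (ψ n) (hle n)
  have hφn : ∀ n x, φn n (π x) = ψ n x := fun n x =>
    AlgHom.liftOfSurjective_apply π hπ (ψ n) (hle n) x
  -- Step 4: compatibility
  have hcompat : ∀ n x, Ideal.Quotient.factorPow (maximalIdeal A) (Nat.le_succ (n + 1))
      (φn (n + 1) x) = φn n x := by
    intro n x
    obtain ⟨y, rfl⟩ := hπ x
    rw [hφn, hφn]
    haveI := (hAn n).isArtinian
    have hfl : IsLocalHom (Ideal.Quotient.factorPow (maximalIdeal A) (Nat.le_succ (n + 1))) :=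
      IsLocalHom.of_surjective _ (Ideal.Quotient.factor_surjective _)
    have hfmk : ∀ z : A, Ideal.Quotient.factorPow (maximalIdeal A) (Nat.le_succ (n + 1))
        (Ideal.Quotient.mk (maximalIdeal A ^ (n + 1 + 1)) z) =
        Ideal.Quotient.mk (maximalIdeal A ^ (n + 1)) z := fun z => rfl
    have hXeq : ∀ (m : ℕ) (i : Fin d), ψ m (MvPowerSeries.X i) =
        Ideal.Quotient.mk (maximalIdeal A ^ (m + 1)) ((MA (h i)).trace - algebraMap 𝒪 A (a i)) := by
      intro m i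
      have h1 := hψtr m i
      rw [tautTr, map_add, AlgHom.commutes] at h1
      rw [eq_sub_of_add_eq h1, map_sub, mapRep_apply, Matrix.trace_fin_two, Matrix.trace_fin_two]
      simp only [Matrix.map_apply, map_add]
      rfl
    have key := Fermat.Agent.S53_helper27_D2.D2_lam_hom_ext 𝒪 (hAn n).isLocalHom
      Fermat.Agent.S53_helper28_C3.exists_maximalIdeal_pow_eq_bot
      ((Ideal.Quotient.factorₐ 𝒪 (Ideal.pow_le_pow_right (Nat.le_succ (n + 1)))).comp (ψ (n + 1)))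
      (ψ n)
      (fun i => by
        show Ideal.Quotient.factorPow (maximalIdeal A) (Nat.le_succ (n + 1))
          (ψ (n + 1) (MvPowerSeries.X i)) ∈ maximalIdeal _
        exact map_nonunit _ _ (hψX (n + 1) i))
      (fun i => by
        show Ideal.Quotient.factorPow (maximalIdeal A) (Nat.le_succ (n + 1))
          (ψ (n + 1) (MvPowerSeries.X i)) = ψ n (MvPowerSeries.X i)
        rw [hXeq, hXeq, hfmk])
    exact DFunLike.congr_fun key y
  -- Step 5: the limit map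
  obtain ⟨φ, hφq⟩ := exists_algHom_of_compat (𝒪 := 𝒪) (maximalIdeal A) φn hcompat
  have hφ : IsLocalHom (φ : R →+* A) := isLocalHom_of_algHom hlocA hsurjA φ
  refine ⟨φ, hφ, ?_⟩
  -- Step 6: traces
  have htrA : ∀ σ, (mapRep (φ : R →+* A) MR σ).trace = (MA σ).trace := by
    intro σ
    apply eq_of_forall_mk_succ_eq (maximalIdeal A)
    intro n
    have h1 := Fermat.Agent.S53_helper23_C6.C6_separation 𝒪 ρbar 𝒟 h𝒟 hgen (hAn n)
      (dlift_of_algHom 𝒪 ρbar 𝒟 h𝒟 MR hDR (hAn n) (φn n)) (hDn n)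
      (fun i => by
        rw [mapRep_apply, ← Fermat.Agent.S53_helper23_C6.map_trace_two, htr i]
        show φn n (π (tautTr 𝒪 a i)) = _
        rw [hφn, hψtr]) σ
    rw [mapRep_apply, ← Fermat.Agent.S53_helper23_C6.map_trace_two] at h1
    rw [mapRep_apply, ← Fermat.Agent.S53_helper23_C6.map_trace_two]
    rw [mapRep_apply, ← Fermat.Agent.S53_helper23_C6.map_trace_two] at h1
    rw [← h1]
    exact hφq n _
  -- Step 7: conjugacy
  have hstrφ : IsStrictLift 𝒪 hlocA ρbar (mapRep (φ : R →+* A) MR) :=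
    Fermat.Agent.S53_helper3_C2.C2a_strict_map 𝒪 ρbar hlocR hlocA φ hφ hstrict
  have hspan := Fermat.Agent.S53_helper28_C0.C0_hspan 𝒪 ρbar habs hlocA hsurjA
    (mapRep (φ : R →+* A) MR) hstrφ
  obtain ⟨u, hu, -, hconj⟩ := Fermat.Agent.S53_helper18.conj_of_trace_eq
    (mapRep (φ : R →+* A) MR) MA hspan (fun σ => (hstrφ σ).trans (hMAs σ).symm) htrA
  obtain ⟨e1⟩ := Fermat.Agent.S53_helper15_I4.I4_baseChangeAlong_toAdic (φ : R →+* A) hφ MR hcont
  obtain ⟨e2⟩ := Fermat.Agent.S53_helper29_I3.I3_isEquiv_of_conj (mapRep (φ : R →+* A) MR) MA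
    (matCont_mapRep (φ : R →+* A) hφ hcont) hMA u hu hconj
  obtain ⟨e3⟩ := hMAe
  exact ⟨(e1.trans e2).trans e3⟩


/-- **Universality.** The conclusion is literally the `universal` field of
`GaloisRep.DeformationRingData` for `ρ := toAdic MR hcont`. -/
theorem universal_of_props (habs : ρbar.IsAbsolutelyIrreducible)
    (h𝒟 : IsDeformationCondition 𝒪 𝒟)
    (hgen : Generates 𝒪 ρbar 𝒟 d h)
    (ha : ∀ i, residue 𝒪 (a i) = (rbMat ρbar (h i)).trace)
    {R : Type} [CommRing R] [IsLocalRing R] [IsNoetherianRing R]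
    [IsAdicComplete (maximalIdeal R) R] [Algebra 𝒪 R]
    (hlocR : IsLocalHom (algebraMap 𝒪 R))
    (hsurjR : Function.Surjective (residue R ∘ algebraMap 𝒪 R))
    (π : Lam 𝒪 d →ₐ[𝒪] R) (hπ : Function.Surjective π)
    (hker : ∀ I ∈ famF 𝒪 ρbar 𝒟 h a, RingHom.ker (π : Lam 𝒪 d →+* R) ≤ I)
    (MR : Gal →* Matrix (Fin 2) (Fin 2) R) (hcont : MatCont MR)
    (hstrict : IsStrictLift 𝒪 hlocR ρbar MR)
    (htr : ∀ i, (MR (h i)).trace = π (tautTr 𝒪 a i))
    (hDR : ∀ {B : Type} [CommRing B] [IsLocalRing B] [Algebra 𝒪 B]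
      (hB : IsArtinianTestAlgebra 𝒪 B) (q : R →ₐ[𝒪] B), Function.Surjective q →
      IsDLift 𝒪 ρbar 𝒟 hB.isLocalHom (mapRep (q : R →+* B) MR)) :
    ∀ (A : Type) [CommRing A] [IsLocalRing A] [IsNoetherianRing A]
      [IsAdicComplete (IsLocalRing.maximalIdeal A) A] [Algebra 𝒪 A]
      [IsLocalHom (algebraMap 𝒪 A)],
      Function.Surjective (IsLocalRing.residue A ∘ algebraMap 𝒪 A) →
      ∀ ρA : GaloisRepAdic A, 𝒟 ρA →
        ρA.residual.IsEquiv
          (ρbar.baseChangeAlong (IsLocalRing.ResidueField.map (algebraMap 𝒪 A))) →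
        ∃! φ : R →ₐ[𝒪] A, ∃ hφ : IsLocalHom (φ : R →+* A),
          ((toAdic MR hcont).baseChangeAlong (φ : R →+* A) hφ).IsEquiv ρA := by
  intro A _ _ _ _ _ hlocA hsurjA ρA hρA hres
  obtain ⟨φ, hφ, hE⟩ := exists_hom_of_props 𝒪 ρbar 𝒟 h a habs h𝒟 hgen ha hlocR π hπ hker MR
    hcont hstrict htr hDR hlocA hsurjA ρA hρA hres
  refine ⟨φ, ⟨hφ, hE⟩, ?_⟩
  rintro φ' ⟨hφ', hE'⟩
  exact unique_hom_of_props 𝒪 h a π hπ MR hcont htr ρA φ' φ hφ' hφ hE' hE

end Main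

section Package

/-- Packaging: the deformation ring data from the properties of `(R, π, MR)`. -/
theorem nonempty_deformationRingData_of_props
    (𝒪 : Type) [CommRing 𝒪] [IsDomain 𝒪] [IsDiscreteValuationRing 𝒪]
    [IsAdicComplete (IsLocalRing.maximalIdeal 𝒪) 𝒪] [Finite (IsLocalRing.ResidueField 𝒪)]
    (ρbar : ResidualGaloisRep (IsLocalRing.ResidueField 𝒪))
    (𝒟 : ∀ ⦃A : Type⦄ [CommRing A] [IsLocalRing A] [Algebra 𝒪 A], GaloisRepAdic A → Prop)
    {d : ℕ} (h : Fin d → Gal) (a : Fin d → 𝒪)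
    (habs : ρbar.IsAbsolutelyIrreducible)
    (h𝒟 : IsDeformationCondition 𝒪 𝒟)
    (hgen : Generates 𝒪 ρbar 𝒟 d h)
    (ha : ∀ i, residue 𝒪 (a i) = (rbMat ρbar (h i)).trace)
    {R : Type} [CommRing R] [IsLocalRing R] [IsNoetherianRing R]
    [IsAdicComplete (maximalIdeal R) R] [Algebra 𝒪 R]
    (hlocR : IsLocalHom (algebraMap 𝒪 R))
    (hsurjR : Function.Surjective (residue R ∘ algebraMap 𝒪 R))
    (π : Lam 𝒪 d →ₐ[𝒪] R) (hπ : Function.Surjective π)
    (hker : ∀ I ∈ famF 𝒪 ρbar 𝒟 h a, RingHom.ker (π : Lam 𝒪 d →+* R) ≤ I)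
    (MR : Gal →* Matrix (Fin 2) (Fin 2) R) (hcont : MatCont MR)
    (hstrict : IsStrictLift 𝒪 hlocR ρbar MR)
    (htr : ∀ i, (MR (h i)).trace = π (tautTr 𝒪 a i))
    (hDR : ∀ {B : Type} [CommRing B] [IsLocalRing B] [Algebra 𝒪 B]
      (hB : IsArtinianTestAlgebra 𝒪 B) (q : R →ₐ[𝒪] B), Function.Surjective q →
      IsDLift 𝒪 ρbar 𝒟 hB.isLocalHom (mapRep (q : R →+* B) MR)) :
    Nonempty (DeformationRingData 𝒪 ρbar 𝒟) :=
  ⟨{ R := R
     instIsLocalHom := hlocR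
     residue_surjective := hsurjR
     absIrr := habs
     ρ := toAdic MR hcont
     isOfType := isOfType_of_props 𝒪 ρbar 𝒟 h𝒟 hlocR hsurjR MR hcont hDR
     residual_isEquiv :=
       Fermat.Agent.S53_helper27_C1.C1b_residual_of_strict 𝒪 ρbar hlocR MR hcont hstrict
     universal := universal_of_props 𝒪 ρbar 𝒟 h a habs h𝒟 hgen ha hlocR hsurjR π hπ hker MR
       hcont hstrict htr hDR }⟩

end Package

end Fermat.Agent.S53_helper26_Univ
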