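import Mathlib
import Fermat.Agent.S53_helper16_Defs
import Fermat.Agent.S53_helper16_Core
import Fermat.Agent.S53_helper23_C4
import Fermat.Agent.S53_helper23_T0
import Fermat.Agent.S53_helper27_D2
import Fermat.Agent.S53_helper28_C3

set_option autoImplicit false

open IsLocalRing Fermat.Agent.S53_helper16_Defs Fermat.Agent.S53_helper16_Core GaloisRep

namespace Fermat.Agent.S53_helper28_T3

section T
variable (𝒪 : Type) [CommRing 𝒪] [IsLocalRing 𝒪] [Finite (ResidueField 𝒪)]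
  [IsNoetherianRing 𝒪] [IsAdicComplete (maximalIdeal 𝒪) 𝒪]
variable (ρbar : ResidualGaloisRep (ResidueField 𝒪))
variable (𝒟 : ∀ ⦃A : Type⦄ [CommRing A] [IsLocalRing A] [Algebra 𝒪 A], GaloisRepAdic A → Prop)
variable {d : ℕ} (h : Fin d → Gal) (a : Fin d → 𝒪)

/-- Two classifying maps agree as soon as they take the same values on the tautological
traces, the first one sending the variables into the maximal ideal. -/
theorem classifying_ext {A : Type} [CommRing A] [IsLocalRing A] [Algebra 𝒪 A]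
    (hA : IsArtinianTestAlgebra 𝒪 A) (φ φ' : Lam 𝒪 d →ₐ[𝒪] A)
    (hX : ∀ i, φ (MvPowerSeries.X i) ∈ maximalIdeal A)
    (heq : ∀ i, φ (tautTr 𝒪 a i) = φ' (tautTr 𝒪 a i)) : φ = φ' := by
  haveI := hA.isArtinian
  refine Fermat.Agent.S53_helper27_D2.D2_lam_hom_ext 𝒪 hA.isLocalHom
    Fermat.Agent.S53_helper28_C3.exists_maximalIdeal_pow_eq_bot φ φ' hX (fun i => ?_)
  have h1 := heq i
  simp only [tautTr, map_add, AlgHom.commutes] at h1
  exact add_right_cancel h1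

/-- T3: the family is directed. -/
theorem T3_directed (h𝒟 : IsDeformationCondition 𝒪 𝒟)
    (ha : ∀ i, residue 𝒪 (a i) = (rbMat ρbar (h i)).trace)
    (I : Ideal (Lam 𝒪 d)) (hI : I ∈ famF 𝒪 ρbar 𝒟 h a)
    (I' : Ideal (Lam 𝒪 d)) (hI' : I' ∈ famF 𝒪 ρbar 𝒟 h a) :
    ∃ K ∈ famF 𝒪 ρbar 𝒟 h a, K ≤ I ⊓ I' := by
  obtain ⟨A, instA1, instA2, instA3, hA, M, hM, ψ, hψ, rfl⟩ := hI
  obtain ⟨A', instA1', instA2', instA3', hA', M', hM', ψ', hψ', rfl⟩ := hI'
  obtain ⟨instP, hP, N, hN, hN1, hN2⟩ :=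
    Fermat.Agent.S53_helper23_C4.C4_dlift_fib 𝒪 ρbar 𝒟 h𝒟 hA hA' hM hM'
  obtain ⟨ψP, hψP, hψPX⟩ :=
    Fermat.Agent.S53_helper23_T0.T0b_exists_classifying 𝒪 ρbar h a ha hP hN.strict
  haveI := hP.isArtinian
  have hnilP : ∀ x ∈ maximalIdeal (fibProd 𝒪 A A'), IsNilpotent x := fun x hx =>
    Fermat.Agent.S53_helper28_C3.isNilpotent_of_mem_maximalIdeal hx
  have hloc1 : IsLocalHom ((fibFst 𝒪 A A' : fibProd 𝒪 A A' →ₐ[𝒪] A) : fibProd 𝒪 A A' →+* A) :=
    Fermat.Agent.S53_helper28_C3.isLocalHom_of_injective_of_nil _ hnilP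
  have hloc2 : IsLocalHom
      ((fibSnd 𝒪 A A' : fibProd 𝒪 A A' →ₐ[𝒪] A') : fibProd 𝒪 A A' →+* A') :=
    Fermat.Agent.S53_helper28_C3.isLocalHom_of_injective_of_nil _ hnilP
  -- the two projections of the classifying map are the given classifying maps
  have e1 : (fibFst 𝒪 A A').comp ψP = ψ := by
    refine classifying_ext 𝒪 a hA _ _ (fun i => ?_) (fun i => ?_)
    · have := hψPX i
      rw [IsLocalRing.mem_maximalIdeal, mem_nonunits_iff] at this ⊢
      intro hu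
      exact this (hloc1.map_nonunit _ hu)
    · rw [AlgHom.comp_apply, hψP i, hψ i, ← hN1, mapRep_apply]
      simp [Matrix.trace, Matrix.map_apply]
  have e2 : (fibSnd 𝒪 A A').comp ψP = ψ' := by
    refine classifying_ext 𝒪 a hA' _ _ (fun i => ?_) (fun i => ?_)
    · have := hψPX i
      rw [IsLocalRing.mem_maximalIdeal, mem_nonunits_iff] at this ⊢
      intro hu
      exact this (hloc2.map_nonunit _ hu)
    · rw [AlgHom.comp_apply, hψP i, hψ' i, ← hN2, mapRep_apply]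
      simp [Matrix.trace, Matrix.map_apply]
  refine ⟨RingHom.ker (ψP : Lam 𝒪 d →+* fibProd 𝒪 A A'),
    ⟨fibProd 𝒪 A A', inferInstance, instP, inferInstance, hP, N, hN, ψP, hψP, rfl⟩, ?_⟩
  intro x hx
  rw [RingHom.mem_ker] at hx
  have hx' : ψP x = 0 := hx
  refine ⟨?_, ?_⟩
  · rw [SetLike.mem_coe, RingHom.mem_ker]
    change ψ x = 0
    rw [← e1, AlgHom.comp_apply, hx', map_zero]
  · rw [SetLike.mem_coe, RingHom.mem_ker]
    change ψ' x = 0
    rw [← e2, AlgHom.comp_apply, hx', map_zero]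

end T

end Fermat.Agent.S53_helper28_T3
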