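import Mathlib

set_option autoImplicit false

namespace Fermat.Agent.S57_helper21

open MvPowerSeries RingTheory.Sequence
open scoped Pointwise

section

variable (A : Type) [CommRing A]

noncomputable def iota (n : ℕ) : MvPowerSeries (Fin n) A →+* MvPowerSeries (Fin (n + 1)) A :=
  ((MvPowerSeries.finSuccEquiv A n).symm : PowerSeries (MvPowerSeries (Fin n) A) →+*
    MvPowerSeries (Fin (n + 1)) A).comp PowerSeries.C

noncomputable def sigma (n : ℕ) : MvPowerSeries (Fin (n + 1)) A →+* MvPowerSeries (Fin n) A :=
  (PowerSeries.constantCoeff).comp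
    ((MvPowerSeries.finSuccEquiv A n : MvPowerSeries (Fin (n + 1)) A →+*
      PowerSeries (MvPowerSeries (Fin n) A)))

variable {A}

lemma sigma_iota (n : ℕ) (f : MvPowerSeries (Fin n) A) : sigma A n (iota A n f) = f := by
  simp [sigma, iota]

lemma iota_X (n : ℕ) (j : Fin n) : iota A n (X j) = X j.succ := by
  simp [iota, AlgEquiv.symm_apply_eq]

lemma iota_C (n : ℕ) (a : A) : iota A n (C a) = C a := by
  simp [iota, AlgEquiv.symm_apply_eq]

lemma sigma_eq_zero_iff (n : ℕ) (g : MvPowerSeries (Fin (n + 1)) A) :
    sigma A n g = 0 ↔ ∃ h, g = X 0 * h := by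
  constructor
  · intro hg
    have h1 : PowerSeries.X ∣ MvPowerSeries.finSuccEquiv A n g := by
      rw [PowerSeries.X_dvd_iff]; exact hg
    obtain ⟨h, hh⟩ := h1
    refine ⟨(MvPowerSeries.finSuccEquiv A n).symm h, ?_⟩
    apply (MvPowerSeries.finSuccEquiv A n).injective
    rw [map_mul, hh, MvPowerSeries.finSuccEquiv_X_zero, AlgEquiv.apply_symm_apply]
  · rintro ⟨h, rfl⟩
    simp [sigma]

lemma X_zero_mul_cancel (n : ℕ) {g h : MvPowerSeries (Fin (n + 1)) A}
    (e : X 0 * g = X 0 * h) : g = h := by
  apply (MvPowerSeries.finSuccEquiv A n).injective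
  apply PowerSeries.X_mul_cancel
  rw [← MvPowerSeries.finSuccEquiv_X_zero (R := A) (n := n), ← map_mul, ← map_mul, e]

lemma constantCoeff_sigma (n : ℕ) (g : MvPowerSeries (Fin (n + 1)) A) :
    constantCoeff (sigma A n g) = constantCoeff g := by
  have := MvPowerSeries.coeff_coeff_finSuccEquiv (R := A) (n := n) g (k := 0) (x := 0)
  simpa [sigma] using this

end

section

variable (A : Type) [CommRing A]

noncomputable def seqP (n : ℕ) (as : List A) : List (MvPowerSeries (Fin n) A) :=
  List.ofFn (fun i : Fin n => (X i : MvPowerSeries (Fin n) A)) ++ as.map C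

variable {A}

lemma seqP_succ (n : ℕ) (as : List A) :
    seqP A (n + 1) as = X 0 :: (seqP A n as).map (iota A n) := by
  unfold seqP
  rw [List.ofFn_succ, List.map_append, List.map_ofFn, List.map_map, List.cons_append]
  congr 2
  · congr 1
    funext i
    simp [iota_X]
  · apply List.map_congr_left
    intro a _
    simp [iota_C]

lemma length_seqP (n : ℕ) (as : List A) : (seqP A n as).length = n + as.length := by
  simp [seqP]

noncomputable def quotEquiv (n : ℕ) :
    MvPowerSeries (Fin n) A ≃+ QuotSMulTop (X 0 : MvPowerSeries (Fin (n + 1)) A)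
      (MvPowerSeries (Fin (n + 1)) A) :=
  AddEquiv.ofBijective
    ((Submodule.mkQ _).toAddMonoidHom.comp (iota A n).toAddMonoidHom)
    (by
      constructor
      · rw [injective_iff_map_eq_zero]
        intro f hf
        have h1 : iota A n f ∈ (X 0 : MvPowerSeries (Fin (n + 1)) A) •
            (⊤ : Submodule (MvPowerSeries (Fin (n + 1)) A) (MvPowerSeries (Fin (n + 1)) A)) := by
          have hf' : Submodule.Quotient.mk (p := (X 0 : MvPowerSeries (Fin (n + 1)) A) •
              (⊤ : Submodule (MvPowerSeries (Fin (n + 1)) A) (MvPowerSeries (Fin (n + 1)) A)))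
              (iota A n f) = 0 := hf
          exact (Submodule.Quotient.mk_eq_zero _).1 hf'
        obtain ⟨h, -, hh⟩ := (Submodule.mem_smul_pointwise_iff_exists _ _ _).1 h1
        have h2 : sigma A n (iota A n f) = 0 := (sigma_eq_zero_iff n _).2 ⟨h, hh.symm⟩
        rwa [sigma_iota] at h2
      · intro q
        obtain ⟨g, rfl⟩ := Submodule.mkQ_surjective _ q
        refine ⟨sigma A n g, ?_⟩
        have h0 : sigma A n (g - iota A n (sigma A n g)) = 0 := by
          rw [map_sub, sigma_iota, sub_self]
        obtain ⟨h, hh⟩ := (sigma_eq_zero_iff n _).1 h0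
        symm
        simp only [AddMonoidHom.coe_comp, Function.comp_apply]
        change Submodule.Quotient.mk g = Submodule.Quotient.mk (iota A n (sigma A n g))
        rw [Submodule.Quotient.eq]
        rw [hh]
        exact (Submodule.mem_smul_pointwise_iff_exists _ _ _).2 ⟨h, trivial, rfl⟩)

lemma quotEquiv_apply (n : ℕ) (f : MvPowerSeries (Fin n) A) :
    quotEquiv (A := A) n f = Submodule.Quotient.mk (iota A n f) := rfl

theorem isWeaklyRegular_seqP (n : ℕ) (as : List A) (h : IsWeaklyRegular A as) :
    IsWeaklyRegular (MvPowerSeries (Fin n) A) (seqP A n as) := by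
  induction n with
  | zero =>
    have hs : seqP A 0 as = as.map C := by simp [seqP]
    rw [hs]
    let e : A ≃+ MvPowerSeries (Fin 0) A :=
      (MvPowerSeries.isEmptyEquiv (Fin 0) A).symm.toAddEquiv
    refine (AddEquiv.isWeaklyRegular_congr (e := e) ?_).1 h
    refine List.forall₂_map_right_iff.mpr (List.forall₂_same.mpr fun r _ x => ?_)
    change C (r • x) = C r • C x
    simp
  | succ n ih =>
    rw [seqP_succ, isWeaklyRegular_cons_iff]
    refine ⟨?_, ?_⟩
    · intro g h e
      exact X_zero_mul_cancel n e
    · refine (AddEquiv.isWeaklyRegular_congr (e := quotEquiv (A := A) n) ?_).1 ih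
      refine List.forall₂_map_right_iff.mpr (List.forall₂_same.mpr fun r _ x => ?_)
      rw [quotEquiv_apply, quotEquiv_apply, smul_eq_mul, map_mul]
      rfl

lemma mem_span_X_of_constantCoeff_eq_zero (n : ℕ) (g : MvPowerSeries (Fin n) A)
    (hg : constantCoeff g = 0) :
    g ∈ Ideal.span (Set.range (fun i : Fin n => (X i : MvPowerSeries (Fin n) A))) := by
  induction n with
  | zero =>
    have : g = 0 := by
      apply (MvPowerSeries.isEmptyEquiv (Fin 0) A).injective
      simpa using hg
    rw [this]; exact Submodule.zero_mem _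
  | succ n ih =>
    have h1 := ih (sigma A n g) (by rw [constantCoeff_sigma, hg])
    have h2 : iota A n (sigma A n g) ∈
        Ideal.span (Set.range (fun i : Fin (n + 1) => (X i : MvPowerSeries (Fin (n + 1)) A))) := by
      have := Ideal.mem_map_of_mem (iota A n) h1
      rw [Ideal.map_span] at this
      refine Ideal.span_mono ?_ this
      rintro _ ⟨_, ⟨j, rfl⟩, rfl⟩
      exact ⟨j.succ, (iota_X n j).symm⟩
    have h0 : sigma A n (g - iota A n (sigma A n g)) = 0 := by
      rw [map_sub, sigma_iota, sub_self]
    obtain ⟨h, hh⟩ := (sigma_eq_zero_iff n _).1 h0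
    have h3 : g = X 0 * h + iota A n (sigma A n g) := by rw [← hh]; ring
    rw [h3]
    refine Ideal.add_mem _ (Ideal.mul_mem_right _ _ (Ideal.subset_span ⟨0, rfl⟩)) h2

theorem maximalIdeal_eq_ofList_seqP [IsLocalRing A] (n : ℕ) (as : List A)
    (has : IsLocalRing.maximalIdeal A = Ideal.ofList as) :
    IsLocalRing.maximalIdeal (MvPowerSeries (Fin n) A) = Ideal.ofList (seqP A n as) := by
  apply le_antisymm
  · intro g hg
    have hg' : constantCoeff g ∈ IsLocalRing.maximalIdeal A := by
      rw [IsLocalRing.mem_maximalIdeal, mem_nonunits_iff] at hg ⊢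
      rwa [MvPowerSeries.isUnit_iff_constantCoeff] at hg
    have h1 : g - C (constantCoeff g) ∈ Ideal.ofList (seqP A n as) := by
      have := mem_span_X_of_constantCoeff_eq_zero n (g - C (constantCoeff g)) (by simp)
      refine Ideal.span_mono ?_ this
      rintro _ ⟨i, rfl⟩
      simp [seqP]
    have h2 : C (constantCoeff g) ∈ Ideal.ofList (seqP A n as) := by
      rw [has] at hg'
      have := Ideal.mem_map_of_mem (C : A →+* MvPowerSeries (Fin n) A) hg'
      rw [Ideal.ofList, Ideal.map_span] at this
      refine Ideal.span_mono ?_ this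
      rintro _ ⟨a, ha, rfl⟩
      simp only [seqP, List.mem_append, List.mem_map, Set.mem_ofPred_eq]
      exact Or.inr ⟨a, ha, rfl⟩
    have := Ideal.add_mem _ h1 h2
    simpa using this
  · rw [Ideal.ofList, Ideal.span_le]
    intro g hg
    simp only [seqP, List.mem_append, List.mem_ofFn, List.mem_map, Set.mem_ofPred_eq] at hg
    rw [SetLike.mem_coe, IsLocalRing.mem_maximalIdeal, mem_nonunits_iff,
      MvPowerSeries.isUnit_iff_constantCoeff]
    rcases hg with ⟨i, rfl⟩ | ⟨a, ha, rfl⟩
    · simp
    · have : a ∈ IsLocalRing.maximalIdeal A := by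
        rw [has]; exact Ideal.subset_span ha
      simpa using this

end


end Fermat.Agent.S57_helper21
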