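import Mathlib

set_option autoImplicit false

namespace Fermat.Agent.S57_helper21

open CategoryTheory IsLocalRing RingTheory.Sequence

section

variable {P : Type} [CommRing P] [IsLocalRing P]

lemma hasProjectiveDimensionLT_of_isFiniteLength (n : ℕ)
    (hk : HasProjectiveDimensionLT (ModuleCat.of P (P ⧸ maximalIdeal P)) n)
    (Q : Type) [AddCommGroup Q] [Module P Q] (hQ : IsFiniteLength P Q) :
    HasProjectiveDimensionLT (ModuleCat.of P Q) n := by
  induction hQ with
  | @of_subsingleton M _ _ _ =>
    have hz : Limits.IsZero (ModuleCat.of P M) := ModuleCat.isZero_of_subsingleton _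
    have := hz.hasProjectiveDimensionLT_zero
    exact hasProjectiveDimensionLT_of_ge (ModuleCat.of P M) 0 n (Nat.zero_le _)
  | @of_simple_quotient M _ _ N' hs _ ih =>
    obtain ⟨I, hI, ⟨e⟩⟩ := isSimpleModule_iff_quot_maximal.1 hs
    have hIm : I = maximalIdeal P := IsLocalRing.eq_maximalIdeal hI
    subst hIm
    have h3 : HasProjectiveDimensionLT (ModuleCat.of P (M ⧸ N')) n :=
      hasProjectiveDimensionLT_of_iso e.symm.toModuleIso n
    have hS := LinearMap.shortExact_shortComplexKer (f := N'.mkQ) (Submodule.mkQ_surjective N')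
    have e1 : N' ≃ₗ[P] LinearMap.ker N'.mkQ := LinearEquiv.ofEq _ _ (Submodule.ker_mkQ N').symm
    have h1 : HasProjectiveDimensionLT (ModuleCat.of P (LinearMap.ker N'.mkQ)) n :=
      hasProjectiveDimensionLT_of_iso e1.toModuleIso n
    exact hS.hasProjectiveDimensionLT_X₂ n h1 h3

theorem free_of_isWeaklyRegular_of_isFiniteLength [IsNoetherianRing P]
    (rs : List P) (hrs : IsRegular P rs) (hm : Ideal.ofList rs = maximalIdeal P)
    (N : Type) [AddCommGroup N] [Module P N] [Module.Finite P N] [Nontrivial N]
    (ys : List P) (hys : IsWeaklyRegular N ys) (hmem : ∀ y ∈ ys, y ∈ maximalIdeal P)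
    (hlen : ys.length = rs.length)
    (hQ : IsFiniteLength P (N ⧸ (Ideal.ofList ys • ⊤ : Submodule P N))) :
    Module.Free P N := by
  have hk : projectiveDimension (ModuleCat.of P (P ⧸ maximalIdeal P)) = rs.length := by
    have h1 := ModuleCat.projectiveDimension_quotient_eq_length.{0} rs hrs
    rw [← h1, hm]
    exact projectiveDimension_eq_of_iso (Shrink.linearEquiv P (P ⧸ maximalIdeal P)).symm.toModuleIso
  have hk' : HasProjectiveDimensionLT (ModuleCat.of P (P ⧸ maximalIdeal P)) (rs.length + 1) := by
    have : projectiveDimension (ModuleCat.of P (P ⧸ maximalIdeal P)) ≤ (rs.length : ℕ) := by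
      rw [hk]
    exact (projectiveDimension_le_iff _ _).1 this
  have hQ' := hasProjectiveDimensionLT_of_isFiniteLength (rs.length + 1) hk' _ hQ
  have hQle : projectiveDimension
      (ModuleCat.of P (N ⧸ (Ideal.ofList ys • ⊤ : Submodule P N))) ≤ (rs.length : ℕ) :=
    (projectiveDimension_le_iff _ _).2 hQ'
  have hpd := ModuleCat.projectiveDimension_quotient_eq_add_length_of_isWeaklyRegular
    (ModuleCat.of P N) ys hys hmem
  rw [hpd, hlen] at hQle
  have h0 : projectiveDimension (ModuleCat.of P N) ≤ ((0 : ℕ) : WithBot ℕ∞) := by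
    have : projectiveDimension (ModuleCat.of P N) + (rs.length : ℕ) ≤
        ((0 : ℕ) : WithBot ℕ∞) + (rs.length : ℕ) := by
      simpa using hQle
    exact (ENat.WithBot.add_le_add_natCast_right_iff).1 this
  have hproj : HasProjectiveDimensionLT (ModuleCat.of P N) 1 :=
    (projectiveDimension_le_iff _ _).1 h0
  have hproj' : Projective (ModuleCat.of P N) := projective_iff_hasProjectiveDimensionLT_one.2 hproj
  have : Module.Projective P N := (IsProjective.iff_projective N).2 hproj'
  exact Module.free_of_flat_of_isLocalRing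

end

end Fermat.Agent.S57_helper21
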