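import Mathlib
import Fermat.Prelude.Def_Algebra_PatchingDatum
import Fermat.Agent.S57_helper21_PowerSeries
import Fermat.Agent.S57_helper21_ProjDim

set_option autoImplicit false

namespace Fermat.Agent.S57_helper21

open MvPowerSeries RingTheory.Sequence IsLocalRing
open scoped Pointwise

section

variable {𝒪 : Type} [CommRing 𝒪] [IsDomain 𝒪] [IsDiscreteValuationRing 𝒪]
    {r : ℕ} {R : Type} [CommRing R] [Algebra 𝒪 R]
    {M : Type} [AddCommGroup M] [Module R M] [Nontrivial M]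
    (L : Algebra.PatchingLevel 𝒪 r R M ⊥)

include L in
lemma nontrivial_R : Nontrivial R := by
  by_contra h
  rw [not_nontrivial_iff_subsingleton] at h
  have : Subsingleton M := Module.subsingleton R M
  exact not_subsingleton M this

include L in
lemma nontrivial_N : Nontrivial L.N := by
  obtain ⟨x, y, hxy⟩ := exists_pair_ne M
  obtain ⟨x', rfl⟩ := L.π_surjective x
  obtain ⟨y', rfl⟩ := L.π_surjective y
  exact ⟨x', y', fun h => hxy (by rw [h])⟩

lemma finite_N : Module.Finite (MvPowerSeries (Fin r) 𝒪) L.N := by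
  have h : Submodule.span (MvPowerSeries (Fin r) 𝒪) (Set.range L.b) = ⊤ := by
    rw [eq_top_iff]
    intro x _
    obtain ⟨c, hc⟩ := L.b_span x
    rw [hc]
    exact Submodule.sum_mem _ fun i _ =>
      Submodule.smul_mem _ _ (Submodule.subset_span ⟨i, rfl⟩)
  exact Module.finite_def.2 (h ▸ Submodule.fg_span (Set.finite_range L.b))

/-- the additive equivalence `P^d ≃ N` -/
noncomputable def basisEquiv : (Fin L.d → MvPowerSeries (Fin r) 𝒪) ≃+ L.N :=
  AddEquiv.ofBijective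
    ({ toFun := fun c => ∑ i, L.φ (c i) • L.b i
       map_zero' := by simp
       map_add' := fun c c' => by
        simp only [Pi.add_apply, map_add, add_smul, Finset.sum_add_distrib] } :
      (Fin L.d → MvPowerSeries (Fin r) 𝒪) →+ L.N)
    (by
      constructor
      · rw [injective_iff_map_eq_zero]
        intro c hc
        have := (L.b_rel c).1 hc
        funext i
        simpa using this i
      · intro x
        obtain ⟨c, hc⟩ := L.b_span x
        exact ⟨c, hc.symm⟩)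

lemma basisEquiv_apply (c : Fin L.d → MvPowerSeries (Fin r) 𝒪) :
    basisEquiv L c = ∑ i, L.φ (c i) • L.b i := rfl

lemma basisEquiv_smul (f : MvPowerSeries (Fin r) 𝒪) (c : Fin L.d → MvPowerSeries (Fin r) 𝒪) :
    basisEquiv L (f • c) = L.φ f • basisEquiv L c := by
  simp only [basisEquiv_apply, Pi.smul_apply, smul_eq_mul, map_mul, Finset.smul_sum, mul_smul]

end

end Fermat.Agent.S57_helper21

namespace Fermat.Agent.S57_helper21

open MvPowerSeries RingTheory.Sequence IsLocalRing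
open scoped Pointwise TensorProduct

section

variable {𝒪 : Type} [CommRing 𝒪] [IsDomain 𝒪] [IsDiscreteValuationRing 𝒪]
    {r : ℕ} {R : Type} [CommRing R] [Algebra 𝒪 R]
    {M : Type} [AddCommGroup M] [Module R M] [Nontrivial M]
    (L : Algebra.PatchingLevel 𝒪 r R M ⊥)

lemma isWeaklyRegular_pi (d : ℕ) (ϖ : 𝒪) (hϖ : ϖ ≠ 0) :
    IsWeaklyRegular (Fin d → MvPowerSeries (Fin r) 𝒪) (seqP 𝒪 r [ϖ]) := by
  have h1 : IsWeaklyRegular 𝒪 [ϖ] := by
    rw [isWeaklyRegular_singleton_iff]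
    intro a b h
    exact mul_left_cancel₀ hϖ h
  have h2 := isWeaklyRegular_seqP r [ϖ] h1
  have h3 := h2.isWeaklyRegular_rTensor (M₂ := Fin d → MvPowerSeries (Fin r) 𝒪)
  exact (LinearEquiv.isWeaklyRegular_congr
    (TensorProduct.lid (MvPowerSeries (Fin r) 𝒪) (Fin d → MvPowerSeries (Fin r) 𝒪)) _).1 h3

lemma isWeaklyRegular_N (ϖ : 𝒪) (hϖ : ϖ ≠ 0) :
    IsWeaklyRegular L.N ((seqP 𝒪 r [ϖ]).map L.φ) := by
  refine (AddEquiv.isWeaklyRegular_congr (e := basisEquiv L) ?_).1 (isWeaklyRegular_pi L.d ϖ hϖ)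
  exact List.forall₂_map_right_iff.mpr (List.forall₂_same.mpr fun f _ c => basisEquiv_smul L f c)

lemma phi_C (a : 𝒪) : L.φ (C a) = C a := by
  have := L.φ.commutes a
  simpa [MvPowerSeries.algebraMap_apply] using this

include L in
lemma mem_maximalIdeal_of_mem_ys (ϖ : 𝒪) (hϖ : Irreducible ϖ) :
    ∀ y ∈ (seqP 𝒪 r [ϖ]).map L.φ, y ∈ maximalIdeal (MvPowerSeries (Fin r) 𝒪) := by
  intro y hy
  simp only [seqP, List.map_append, List.map_ofFn, List.map_map, List.mem_append, List.mem_ofFn,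
    List.mem_map, List.mem_singleton] at hy
  rcases hy with ⟨i, rfl⟩ | ⟨a, rfl, rfl⟩
  · rw [IsLocalRing.mem_maximalIdeal, mem_nonunits_iff]
    intro hu
    have hu' := hu.map L.ψ
    simp only [Function.comp_apply] at hu'
    rw [L.ψ_φ_X] at hu'
    have hR := nontrivial_R L
    exact not_isUnit_zero hu'
  · simp only [Function.comp_apply]
    rw [phi_C, IsLocalRing.mem_maximalIdeal, mem_nonunits_iff,
      MvPowerSeries.isUnit_iff_constantCoeff]
    simpa using hϖ.not_isUnit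

end

end Fermat.Agent.S57_helper21

namespace Fermat.Agent.S57_helper21

open MvPowerSeries RingTheory.Sequence IsLocalRing
open scoped Pointwise TensorProduct

section

variable {𝒪 : Type} [CommRing 𝒪] [IsDomain 𝒪] [IsDiscreteValuationRing 𝒪]
    {r : ℕ}

/-- abstract version: a module over the power series ring that is finitely generated over `𝒪`
and killed by `ϖ` is Artinian. -/
lemma isArtinian_of_finite_of_torsion (Q : Type) [AddCommGroup Q]
    [Module (MvPowerSeries (Fin r) 𝒪) Q] [Module 𝒪 Q]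
    [IsScalarTower 𝒪 (MvPowerSeries (Fin r) 𝒪) Q] [Module.Finite 𝒪 Q]
    (ϖ : 𝒪) (hϖ : Irreducible ϖ) (htors : Module.IsTorsionBy 𝒪 Q ϖ) :
    IsArtinian (MvPowerSeries (Fin r) 𝒪) Q := by
  refine isArtinian_of_tower 𝒪 ?_
  have hmax : (Ideal.span {ϖ}).IsMaximal := by
    rw [← hϖ.maximalIdeal_eq]; infer_instance
  have hM : Module.IsTorsionBySet 𝒪 Q (Ideal.span {ϖ} : Ideal 𝒪) := by
    rwa [Module.isTorsionBySet_span_singleton_iff]
  letI := hM.module
  letI : Field (𝒪 ⧸ Ideal.span {ϖ}) := Ideal.Quotient.field _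
  haveI : IsScalarTower 𝒪 (𝒪 ⧸ Ideal.span {ϖ}) Q := hM.isScalarTower
  haveI : Module.Finite (𝒪 ⧸ Ideal.span {ϖ}) Q := Module.Finite.of_restrictScalars_finite 𝒪 _ _
  haveI : IsArtinian (𝒪 ⧸ Ideal.span {ϖ}) Q := inferInstance
  exact isArtinian_of_surjective_algebraMap (R := 𝒪 ⧸ Ideal.span {ϖ}) (S := 𝒪)
    Ideal.Quotient.mk_surjective


end

section

variable {𝒪 : Type} [CommRing 𝒪] [IsDomain 𝒪] [IsDiscreteValuationRing 𝒪]
    {r : ℕ} {R : Type} [CommRing R] [Algebra 𝒪 R]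
    {M : Type} [AddCommGroup M] [Module R M] [Nontrivial M]
    (L : Algebra.PatchingLevel 𝒪 r R M ⊥)

lemma phi_X_mem (ϖ : 𝒪) (i : Fin r) :
    L.φ (X i) ∈ Ideal.ofList ((seqP 𝒪 r [ϖ]).map L.φ) := by
  apply Ideal.subset_span
  simp only [seqP, List.map_append, List.map_ofFn, List.mem_append, List.mem_ofFn,
    Set.mem_ofPred_eq]
  exact Or.inl ⟨i, rfl⟩

lemma C_mem (ϖ : 𝒪) :
    (C ϖ : MvPowerSeries (Fin r) 𝒪) ∈ Ideal.ofList ((seqP 𝒪 r [ϖ]).map L.φ) := by
  apply Ideal.subset_span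
  simp only [seqP, List.map_append, List.map_ofFn, List.mem_append, List.mem_ofFn,
    Set.mem_ofPred_eq, List.map_cons, List.map_nil, List.mem_singleton]
  exact Or.inr (phi_C L ϖ).symm

lemma phi_sub_C_mem (ϖ : 𝒪) (c : MvPowerSeries (Fin r) 𝒪) :
    L.φ c - C (constantCoeff c) ∈ Ideal.ofList ((seqP 𝒪 r [ϖ]).map L.φ) := by
  have h1 := mem_span_X_of_constantCoeff_eq_zero r (c - C (constantCoeff c)) (by simp)
  have h2 := Ideal.mem_map_of_mem (L.φ : MvPowerSeries (Fin r) 𝒪 →+* MvPowerSeries (Fin r) 𝒪) h1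
  rw [Ideal.map_span] at h2
  have h3 : (L.φ : MvPowerSeries (Fin r) 𝒪 →+* MvPowerSeries (Fin r) 𝒪) (c - C (constantCoeff c))
      = L.φ c - C (constantCoeff c) := by
    simp [phi_C]
  rw [h3] at h2
  refine Ideal.span_le.2 ?_ h2
  rintro _ ⟨_, ⟨i, rfl⟩, rfl⟩
  exact phi_X_mem L ϖ i

lemma isFiniteLength_Q (ϖ : 𝒪) (hϖ : Irreducible ϖ) :
    IsFiniteLength (MvPowerSeries (Fin r) 𝒪)
      (L.N ⧸ (Ideal.ofList ((seqP 𝒪 r [ϖ]).map L.φ) • ⊤ :
        Submodule (MvPowerSeries (Fin r) 𝒪) L.N)) := by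
  haveI := finite_N L
  rw [isFiniteLength_iff_isNoetherian_isArtinian]
  refine ⟨inferInstance, ?_⟩
  letI : Module 𝒪 L.N := Module.compHom L.N (algebraMap 𝒪 (MvPowerSeries (Fin r) 𝒪))
  haveI : IsScalarTower 𝒪 (MvPowerSeries (Fin r) 𝒪) L.N := ⟨fun a f x => by
    change (a • f) • x = (algebraMap 𝒪 (MvPowerSeries (Fin r) 𝒪) a) • (f • x)
    rw [Algebra.smul_def, mul_smul]⟩
  have hsmul : ∀ (a : 𝒪) (x : L.N), a • x = (C a : MvPowerSeries (Fin r) 𝒪) • x := fun a x => rfl
  have key : ∀ (c : MvPowerSeries (Fin r) 𝒪) (x : L.N),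
      (Submodule.Quotient.mk (L.φ c • x) : L.N ⧸ (Ideal.ofList ((seqP 𝒪 r [ϖ]).map L.φ) • ⊤ :
        Submodule (MvPowerSeries (Fin r) 𝒪) L.N)) =
      (constantCoeff c : 𝒪) • Submodule.Quotient.mk x := by
    intro c x
    rw [← Submodule.Quotient.mk_smul, hsmul, Submodule.Quotient.eq, ← sub_smul]
    exact Submodule.smul_mem_smul (phi_sub_C_mem L ϖ c) Submodule.mem_top
  haveI : Module.Finite 𝒪 (L.N ⧸ (Ideal.ofList ((seqP 𝒪 r [ϖ]).map L.φ) • ⊤ :
        Submodule (MvPowerSeries (Fin r) 𝒪) L.N)) := by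
    have h : Submodule.span 𝒪 (Set.range fun i => (Submodule.Quotient.mk (L.b i) :
        L.N ⧸ (Ideal.ofList ((seqP 𝒪 r [ϖ]).map L.φ) • ⊤ :
        Submodule (MvPowerSeries (Fin r) 𝒪) L.N))) = ⊤ := by
      rw [eq_top_iff]
      intro q _
      obtain ⟨x, rfl⟩ := Submodule.Quotient.mk_surjective _ q
      obtain ⟨c, hc⟩ := L.b_span x
      rw [hc, ← Submodule.mkQ_apply, map_sum]
      refine Submodule.sum_mem _ fun i _ => ?_
      rw [Submodule.mkQ_apply, key]
      exact Submodule.smul_mem _ _ (Submodule.subset_span ⟨i, rfl⟩)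
    exact Module.finite_def.2 (h ▸ Submodule.fg_span (Set.finite_range _))
  refine isArtinian_of_finite_of_torsion _ ϖ hϖ ?_
  intro q
  obtain ⟨x, rfl⟩ := Submodule.Quotient.mk_surjective _ q
  rw [← Submodule.Quotient.mk_smul, hsmul, Submodule.Quotient.mk_eq_zero]
  exact Submodule.smul_mem_smul (C_mem L ϖ) Submodule.mem_top

end

end Fermat.Agent.S57_helper21

namespace Fermat.Agent.S57_helper21

open MvPowerSeries RingTheory.Sequence IsLocalRing
open scoped Pointwise TensorProduct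

section

variable {𝒪 : Type} [CommRing 𝒪] [IsDomain 𝒪] [IsDiscreteValuationRing 𝒪]
    {r : ℕ} {R : Type} [CommRing R] [Algebra 𝒪 R]
    {M : Type} [AddCommGroup M] [Module R M] [Nontrivial M]
    (L : Algebra.PatchingLevel 𝒪 r R M ⊥)

theorem free_N : Module.Free (MvPowerSeries (Fin r) 𝒪) L.N := by
  obtain ⟨ϖ, hϖ⟩ := IsDiscreteValuationRing.exists_irreducible 𝒪
  haveI := finite_N L
  haveI := nontrivial_N L
  have h1 : IsWeaklyRegular 𝒪 [ϖ] := by
    rw [isWeaklyRegular_singleton_iff]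
    intro a b h
    exact mul_left_cancel₀ hϖ.ne_zero h
  have hreg_w : IsWeaklyRegular (MvPowerSeries (Fin r) 𝒪) (seqP 𝒪 r [ϖ]) :=
    isWeaklyRegular_seqP r [ϖ] h1
  have hm : maximalIdeal (MvPowerSeries (Fin r) 𝒪) = Ideal.ofList (seqP 𝒪 r [ϖ]) :=
    maximalIdeal_eq_ofList_seqP r [ϖ] (by rw [hϖ.maximalIdeal_eq, Ideal.ofList_singleton])
  have hreg : IsRegular (MvPowerSeries (Fin r) 𝒪) (seqP 𝒪 r [ϖ]) :=
    IsRegular.of_isWeaklyRegular_of_mem_maximalIdeal (MvPowerSeries (Fin r) 𝒪)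
      (fun x hx => by rw [hm]; exact Ideal.subset_span hx) hreg_w
  exact free_of_isWeaklyRegular_of_isFiniteLength (seqP 𝒪 r [ϖ]) hreg hm.symm L.N
    ((seqP 𝒪 r [ϖ]).map L.φ) (isWeaklyRegular_N L ϖ hϖ.ne_zero)
    (mem_maximalIdeal_of_mem_ys L ϖ hϖ) (by simp) (isFiniteLength_Q L ϖ hϖ)

lemma mem_smul_top_iff_repr {P N ι : Type} [CommRing P] [AddCommGroup N] [Module P N]
    (e : Module.Basis ι P N) (I : Ideal P) (x : N) :
    x ∈ (I • ⊤ : Submodule P N) ↔ ∀ j, e.repr x j ∈ I := by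
  rw [← e.span_eq, Submodule.mem_ideal_smul_span_iff_exists_sum]
  constructor
  · rintro ⟨a, ha, rfl⟩ j
    have : (a.sum fun i c => c • e i) = Finsupp.linearCombination P e a := rfl
    rw [this, e.repr_linearCombination]
    exact ha j
  · intro h
    exact ⟨e.repr x, h, e.linearCombination_repr x⟩

theorem main :
    Module.Free R M ∧ Module.annihilator R M = ⊥ ∧
      RingHom.ker L.ψ = Ideal.span (Set.range fun i : Fin r => L.φ (MvPowerSeries.X i)) := by
  haveI := free_N L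
  haveI := finite_N L
  haveI := nontrivial_N L
  let e := Module.Free.chooseBasis (MvPowerSeries (Fin r) 𝒪) L.N
  obtain ⟨j₀⟩ : Nonempty (Module.Free.ChooseBasisIndex (MvPowerSeries (Fin r) 𝒪) L.N) :=
    e.index_nonempty
  set 𝔞 : Ideal (MvPowerSeries (Fin r) 𝒪) :=
    Ideal.span (Set.range fun i : Fin r => L.φ (MvPowerSeries.X i)) with h𝔞
  have h𝔞ψ : 𝔞 ≤ RingHom.ker L.ψ := by
    rw [h𝔞, Ideal.span_le]
    rintro _ ⟨i, rfl⟩
    exact L.ψ_φ_X i
  have hker : ∀ x : L.N, L.π x = 0 ↔ ∀ j, e.repr x j ∈ 𝔞 := fun x => by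
    rw [L.ker_π, mem_smul_top_iff_repr e]
  have hπsum : ∀ (s : Finset _) (c : _ → MvPowerSeries (Fin r) 𝒪),
      L.π (∑ i ∈ s, c i • e i) = ∑ i ∈ s, L.ψ (c i) • L.π (e i) := by
    intro s c
    rw [map_sum]
    exact Finset.sum_congr rfl fun i _ => L.π_smul _ _
  have hli : LinearIndependent R (fun j => L.π (e j)) := by
    rw [linearIndependent_iff']
    intro s g hg i hi
    choose c hc using fun i => L.ψ_surjective (g i)
    have hx : L.π (∑ i ∈ s, c i • e i) = 0 := by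
      rw [hπsum, ← hg]
      exact Finset.sum_congr rfl fun i _ => by rw [hc]
    have := (hker _).1 hx i
    have hrepr : e.repr (∑ i ∈ s, c i • e i) i = c i := by
      classical
      simp [map_sum, Finsupp.single_apply, Finset.sum_ite_eq', hi]
    rw [hrepr] at this
    rw [← hc i]
    exact h𝔞ψ this
  have hspan : ⊤ ≤ Submodule.span R (Set.range fun j => L.π (e j)) := by
    intro m _
    obtain ⟨x, rfl⟩ := L.π_surjective m
    have hx : x = ∑ i ∈ (e.repr x).support, e.repr x i • e i := by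
      conv_lhs => rw [← e.linearCombination_repr x]
      rfl
    rw [hx, hπsum]
    exact Submodule.sum_mem _ fun i _ =>
      Submodule.smul_mem _ _ (Submodule.subset_span ⟨i, rfl⟩)
  refine ⟨Module.Free.of_basis (Module.Basis.mk hli hspan), ?_, ?_⟩
  · rw [eq_bot_iff]
    intro a ha
    rw [Module.mem_annihilator] at ha
    have := linearIndependent_iff'.1 hli {j₀} (fun _ => a) (by simpa using ha _) j₀ (by simp)
    simpa using this
  · apply le_antisymm _ h𝔞ψ
    intro f hf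
    have h0 : L.π (f • e j₀) = 0 := by
      rw [L.π_smul, (RingHom.mem_ker).1 hf, zero_smul]
    have := (hker _).1 h0 j₀
    simpa using this

end

end Fermat.Agent.S57_helper21
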