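import Mathlib
import Fermat.Agent.S05_helper5_Inertia

/-!
# S58 (E3-RAW) [HENSQ]: the critical point at the node and the tangent slopes

For an integral Weierstrass model with `c₄` a unit at a valuation `v` of an algebraically closed
field of characteristic zero (any residue characteristic, `2` and `3` included):

* `S58HQ_root`, `S58HQ_fixed`: Hensel's lemma for a quadratic, with uniqueness, and invariance of
  the root under the ring endomorphisms congruent to the identity modulo the maximal ideal;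
* `S58HQ_crit_xy`: near an integral point at which both partial derivatives of the Weierstrass
  polynomial are small there is an exact common zero `(x₀, y₀)` of the partial derivatives;
* `S58HQ_slopes`: the tangent slopes `g₁`, `g₂` (roots of `T² + a₁ T - (3 x₀ + a₂)`);
* `S58HQ_crit_abs`: the two together;
* `S58HQ_crit`: the same for `W : WeierstrassCurve ℤ` at a valuation subring of `Q-bar` over a
  prime `q` not dividing `c₄`, with invariance under the inertia group.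
-/

set_option autoImplicit false

namespace Fermat.Agent.S58_helper20_HENSQ

section Quad

variable {K : Type*} [Field K] {Γ₀ : Type*} [LinearOrderedCommGroupWithZero Γ₀]
  (v : Valuation K Γ₀)

/-- One half of Hensel's lemma for a split quadratic `c₂ (X - r₁)(X - r₂)`: if the value at `x`
is small and the derivative at `x` is a unit, and `v (x - r₁) ≤ v (x - r₂)`, then `r₁` is the
unique root near `x`. -/
theorem S58HQ_aux (c₂ r₁ r₂ x : K) (hc₂v : v c₂ ≤ 1)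
    (hsmall : v (c₂ * (x - r₁) * (x - r₂)) < 1)
    (hunit : v (c₂ * ((x - r₁) + (x - r₂))) = 1)
    (hle : v (x - r₁) ≤ v (x - r₂)) :
    v (x - r₁) < 1 ∧ ¬ v (x - r₂) < 1 := by
  have h1 : v ((x - r₁) + (x - r₂)) ≤ v (x - r₂) :=
    (v.map_add _ _).trans (max_le hle le_rfl)
  have h2 : (1 : Γ₀) ≤ v c₂ * v (x - r₂) := by
    rw [← hunit, map_mul]
    exact mul_le_mul' le_rfl h1
  have h3 : ¬ v (x - r₂) < 1 := by
    intro h
    have : v c₂ * v (x - r₂) < 1 := by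
      calc v c₂ * v (x - r₂) ≤ 1 * v (x - r₂) := mul_le_mul' hc₂v le_rfl
        _ = v (x - r₂) := one_mul _
        _ < 1 := h
    exact absurd h2 (not_le.mpr this)
  refine ⟨?_, h3⟩
  by_contra h
  have h4 : (1 : Γ₀) ≤ v (x - r₁) := not_lt.mp h
  have h5 : (1 : Γ₀) ≤ v (c₂ * (x - r₁) * (x - r₂)) := by
    rw [mul_assoc, mul_comm (x - r₁), ← mul_assoc, map_mul, map_mul]
    calc (1 : Γ₀) = 1 * 1 := (one_mul 1).symm
      _ ≤ (v c₂ * v (x - r₂)) * v (x - r₁) := mul_le_mul' h2 h4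
  exact absurd h5 (not_le.mpr hsmall)

variable [IsAlgClosed K]

/-- **Hensel's lemma for a quadratic** over an algebraically closed valued field: an approximate
simple root lifts to a unique root. The leading coefficient need not be a unit. -/
theorem S58HQ_root (c₂ c₁ c₀ x : K) (hc₂ : c₂ ≠ 0) (hc₂v : v c₂ ≤ 1)
    (hsmall : v (c₂ * x ^ 2 + c₁ * x + c₀) < 1)
    (hunit : v (2 * c₂ * x + c₁) = 1) :
    ∃ x₀ : K, c₂ * x₀ ^ 2 + c₁ * x₀ + c₀ = 0 ∧ v (x₀ - x) < 1 ∧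
      ∀ x₁ : K, c₂ * x₁ ^ 2 + c₁ * x₁ + c₀ = 0 → v (x₁ - x) < 1 → x₁ = x₀ := by
  -- a root `r₁` and the other root `r₂`
  have hdeg : (Polynomial.C c₂ * Polynomial.X ^ 2 + Polynomial.C c₁ * Polynomial.X +
      Polynomial.C c₀ : Polynomial K).degree ≠ 0 := by
    rw [Polynomial.degree_quadratic hc₂]
    decide
  obtain ⟨r₁, hr₁⟩ := IsAlgClosed.exists_root _ hdeg
  simp only [Polynomial.IsRoot, Polynomial.eval_add, Polynomial.eval_mul, Polynomial.eval_C,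
    Polynomial.eval_pow, Polynomial.eval_X] at hr₁
  set r₂ : K := -c₁ / c₂ - r₁ with hr₂
  have he2 : c₂ * r₂ = -c₁ - c₂ * r₁ := by
    rw [hr₂]; field_simp
  have hsum : c₁ = -c₂ * (r₁ + r₂) := by
    linear_combination he2
  have hprod : c₀ = c₂ * r₁ * r₂ := by
    linear_combination hr₁ - r₁ * he2
  have hfac : ∀ X : K, c₂ * X ^ 2 + c₁ * X + c₀ = c₂ * (X - r₁) * (X - r₂) := by
    intro X; rw [hsum, hprod]; ring
  have hder : 2 * c₂ * x + c₁ = c₂ * ((x - r₁) + (x - r₂)) := by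
    rw [hsum]; ring
  rw [hfac] at hsmall
  rw [hder] at hunit
  have hroot : ∀ x₁ : K, c₂ * x₁ ^ 2 + c₁ * x₁ + c₀ = 0 → x₁ = r₁ ∨ x₁ = r₂ := by
    intro x₁ h
    rw [hfac] at h
    rcases mul_eq_zero.mp h with h | h
    · rcases mul_eq_zero.mp h with h | h
      · exact absurd h hc₂
      · exact Or.inl (sub_eq_zero.mp h)
    · exact Or.inr (sub_eq_zero.mp h)
  have hsymm : ∀ a b : K, v (a - b) = v (b - a) := fun a b => v.map_sub_swap a b
  rcases le_total (v (x - r₁)) (v (x - r₂)) with hle | hle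
  · obtain ⟨h1, h2⟩ := S58HQ_aux v c₂ r₁ r₂ x hc₂v hsmall hunit hle
    refine ⟨r₁, by rw [hfac]; simp, by rw [hsymm]; exact h1, ?_⟩
    intro x₁ hx₁ hx₁v
    rcases hroot x₁ hx₁ with h | h
    · exact h
    · exfalso; apply h2; rw [hsymm, ← h]; exact hx₁v
  · have hsmall' : v (c₂ * (x - r₂) * (x - r₁)) < 1 := by
      rw [mul_assoc, mul_comm (x - r₂), ← mul_assoc]; exact hsmall
    have hunit' : v (c₂ * ((x - r₂) + (x - r₁))) = 1 := by
      rw [add_comm]; exact hunit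
    obtain ⟨h1, h2⟩ := S58HQ_aux v c₂ r₂ r₁ x hc₂v hsmall' hunit' hle
    refine ⟨r₂, by rw [hfac]; simp, by rw [hsymm]; exact h1, ?_⟩
    intro x₁ hx₁ hx₁v
    rcases hroot x₁ hx₁ with h | h
    · exfalso; apply h2; rw [hsymm, ← h]; exact hx₁v
    · exact h

omit [IsAlgClosed K] in
/-- The root of `S58HQ_root` is fixed by every ring endomorphism that fixes the coefficients and
moves the root by a small amount. -/
theorem S58HQ_fixed (c₂ c₁ c₀ x x₀ : K)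
    (hx₀ : c₂ * x₀ ^ 2 + c₁ * x₀ + c₀ = 0) (hx₀v : v (x₀ - x) < 1)
    (huniq : ∀ x₁ : K, c₂ * x₁ ^ 2 + c₁ * x₁ + c₀ = 0 → v (x₁ - x) < 1 → x₁ = x₀)
    (τ : K →+* K) (h₂ : τ c₂ = c₂) (h₁ : τ c₁ = c₁) (h₀ : τ c₀ = c₀)
    (hτ : v (τ x₀ - x₀) < 1) : τ x₀ = x₀ := by
  apply huniq
  · have := congrArg τ hx₀
    simpa [h₂, h₁, h₀] using this
  · have : τ x₀ - x = (τ x₀ - x₀) + (x₀ - x) := by ring
    rw [this]
    exact lt_of_le_of_lt (v.map_add _ _) (max_lt hτ hx₀v)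

end Quad

section Crit

variable {K : Type*} [Field K] {Γ₀ : Type*} [LinearOrderedCommGroupWithZero Γ₀]
  (v : Valuation K Γ₀)

theorem S58HQ_sq_one {a : Γ₀} (h : a ^ 2 = 1) : a = 1 := by
  rcases lt_trichotomy a 1 with h1 | h1 | h1
  · exfalso
    have : a ^ 2 < 1 := by
      rw [sq]
      calc a * a ≤ a * 1 := mul_le_mul' le_rfl h1.le
        _ = a := mul_one a
        _ < 1 := h1
    rw [h] at this
    exact lt_irrefl _ this
  · exact h1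
  · exfalso
    have : 1 < a ^ 2 := by
      rw [sq]
      calc (1 : Γ₀) < a := h1
        _ = a * 1 := (mul_one a).symm
        _ ≤ a * a := mul_le_mul' le_rfl h1.le
    rw [h] at this
    exact lt_irrefl _ this

/-- `v (a + b) = 1` when `v a = 1` and `v b < 1`. -/
theorem S58HQ_unit_add {a b : K} (ha : v a = 1) (hb : v b < 1) : v (a + b) = 1 := by
  rw [← ha]
  exact v.map_add_eq_of_lt_left (by rw [ha]; exact hb)

/-- small times integral is small -/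
theorem S58HQ_small_mul {a b : K} (ha : v a ≤ 1) (hb : v b < 1) : v (a * b) < 1 := by
  rw [map_mul]
  calc v a * v b ≤ 1 * v b := mul_le_mul' ha le_rfl
    _ = v b := one_mul _
    _ < 1 := hb

theorem S58HQ_small_add {a b : K} (ha : v a < 1) (hb : v b < 1) : v (a + b) < 1 :=
  lt_of_le_of_lt (v.map_add _ _) (max_lt ha hb)

theorem S58HQ_int_add {a b : K} (ha : v a ≤ 1) (hb : v b ≤ 1) : v (a + b) ≤ 1 :=
  (v.map_add _ _).trans (max_le ha hb)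

theorem S58HQ_int_mul {a b : K} (ha : v a ≤ 1) (hb : v b ≤ 1) : v (a * b) ≤ 1 := by
  rw [map_mul]
  calc v a * v b ≤ 1 * 1 := mul_le_mul' ha hb
    _ = 1 := one_mul _

/-- a unit divides small elements -/
theorem S58HQ_small_of_unit_mul {a b : K} (ha : v a = 1) (hab : v (a * b) < 1) : v b < 1 := by
  rwa [map_mul, ha, one_mul] at hab

end Crit

section Crit

variable {K : Type*} [Field K] {Γ₀ : Type*} [LinearOrderedCommGroupWithZero Γ₀]
  (v : Valuation K Γ₀)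

variable [IsAlgClosed K] [CharZero K]

/-- **The critical point.** Near an integral point `(x, y)` at which both partial derivatives of
the Weierstrass polynomial are small (a point reducing to the node, `c₄` a unit), there is an
exact common zero `(x₀, y₀)` of the two partial derivatives; it is fixed by every ring
endomorphism `τ` fixing the coefficients with `τ a ≡ a` modulo the maximal ideal. -/
theorem S58HQ_crit_xy (h2 : v 2 ≤ 1) (h3 : v 3 ≤ 1)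
    (a₁ a₂ a₃ a₄ : K) (ha₁ : v a₁ ≤ 1) (ha₂ : v a₂ ≤ 1) (ha₃ : v a₃ ≤ 1) (ha₄ : v a₄ ≤ 1)
    (hc4 : v ((a₁ ^ 2 + 4 * a₂) ^ 2 - 24 * (2 * a₄ + a₁ * a₃)) = 1)
    (x y : K) (hx : v x ≤ 1) (hy : v y ≤ 1)
    (hFx : v (a₁ * y - 3 * x ^ 2 - 2 * a₂ * x - a₄) < 1)
    (hFy : v (2 * y + a₁ * x + a₃) < 1) :
    ∃ x₀ y₀ : K, v (x₀ - x) < 1 ∧ v (y₀ - y) < 1 ∧
      a₁ * y₀ - 3 * x₀ ^ 2 - 2 * a₂ * x₀ - a₄ = 0 ∧ 2 * y₀ + a₁ * x₀ + a₃ = 0 ∧
      ∀ τ : K →+* K, τ a₁ = a₁ → τ a₂ = a₂ → τ a₃ = a₃ → τ a₄ = a₄ →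
        (∀ a : K, v a ≤ 1 → v (τ a - a) < 1) → τ x₀ = x₀ ∧ τ y₀ = y₀ := by
  have h4 : v (4 : K) ≤ 1 := by
    have : (4 : K) = 2 * 2 := by norm_num
    rw [this]; exact S58HQ_int_mul v h2 h2
  have h6 : v (6 : K) ≤ 1 := by
    have : (6 : K) = 2 * 3 := by norm_num
    rw [this]; exact S58HQ_int_mul v h2 h3
  have h12 : v (12 : K) ≤ 1 := by
    have : (12 : K) = 2 * 6 := by norm_num
    rw [this]; exact S58HQ_int_mul v h2 h6
  have h24 : v (24 : K) ≤ 1 := by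
    have : (24 : K) = 2 * 12 := by norm_num
    rw [this]; exact S58HQ_int_mul v h2 h12
  have hneg : ∀ a : K, v a ≤ 1 → v (-a) ≤ 1 := fun a ha => by rwa [Valuation.map_neg]
  have hnegs : ∀ a : K, v a < 1 → v (-a) < 1 := fun a ha => by rwa [Valuation.map_neg]
  rcases lt_or_eq_of_le h2 with h2lt | h2eq
  · -- residue characteristic two: `a₁` is a unit, eliminate `x`
    have ha₁u : v a₁ = 1 := by
      have e : a₁ ^ 4 = ((a₁ ^ 2 + 4 * a₂) ^ 2 - 24 * (2 * a₄ + a₁ * a₃)) +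
          2 * (-(4 * a₁ ^ 2 * a₂ + 8 * a₂ ^ 2 - 24 * a₄ - 12 * a₁ * a₃)) := by ring
      have hm : v (4 * a₁ ^ 2 * a₂ + 8 * a₂ ^ 2 - 24 * a₄ - 12 * a₁ * a₃) ≤ 1 := by
        have e1 : v (4 * a₁ ^ 2 * a₂) ≤ 1 :=
          S58HQ_int_mul v (S58HQ_int_mul v h4 (by rw [sq]; exact S58HQ_int_mul v ha₁ ha₁)) ha₂
        have h8 : v (8 : K) ≤ 1 := by
          have : (8 : K) = 2 * 4 := by norm_num
          rw [this]; exact S58HQ_int_mul v h2 h4
        have e2 : v (8 * a₂ ^ 2) ≤ 1 :=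
          S58HQ_int_mul v h8 (by rw [sq]; exact S58HQ_int_mul v ha₂ ha₂)
        have e3 : v (24 * a₄) ≤ 1 := S58HQ_int_mul v h24 ha₄
        have e4 : v (12 * a₁ * a₃) ≤ 1 := S58HQ_int_mul v (S58HQ_int_mul v h12 ha₁) ha₃
        rw [sub_eq_add_neg, sub_eq_add_neg]
        exact S58HQ_int_add v (S58HQ_int_add v (S58HQ_int_add v e1 e2) (hneg _ e3)) (hneg _ e4)
      have h1 : v (a₁ ^ 4) = 1 := by
        rw [e]
        refine S58HQ_unit_add v hc4 ?_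
        rw [map_mul]
        calc v 2 * v (-(4 * a₁ ^ 2 * a₂ + 8 * a₂ ^ 2 - 24 * a₄ - 12 * a₁ * a₃))
            ≤ v 2 * 1 := mul_le_mul' le_rfl (hneg _ hm)
          _ = v 2 := mul_one _
          _ < 1 := h2lt
      rw [map_pow] at h1
      have h1' : (v a₁ ^ 2) ^ 2 = 1 := by rw [← pow_mul]; exact h1
      exact S58HQ_sq_one (S58HQ_sq_one h1')
    have ha₁0 : a₁ ≠ 0 := by
      intro h0; rw [h0, map_zero] at ha₁u; exact zero_ne_one ha₁u
    -- the quadratic in `y`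
    set c₂ : K := -12 with hc₂
    set c₁ : K := a₁ ^ 3 - 12 * a₃ + 4 * a₁ * a₂ with hc₁
    set c₀ : K := -3 * a₃ ^ 2 + 2 * a₁ * a₂ * a₃ - a₁ ^ 2 * a₄ with hc₀
    have hHy : c₂ * y ^ 2 + c₁ * y + c₀ = a₁ ^ 2 * (a₁ * y - 3 * x ^ 2 - 2 * a₂ * x - a₄) +
        (2 * y + a₁ * x + a₃) * (3 * (2 * y + a₁ * x + a₃) - 6 * (2 * y + a₃) + 2 * a₁ * a₂) := by
      rw [hc₂, hc₁, hc₀]; ring
    have hsmall : v (c₂ * y ^ 2 + c₁ * y + c₀) < 1 := by
      rw [hHy]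
      refine S58HQ_small_add v (S58HQ_small_mul v (by rw [sq]; exact S58HQ_int_mul v ha₁ ha₁) hFx)
        ?_
      rw [mul_comm]
      refine S58HQ_small_mul v ?_ hFy
      have e1 : v (3 * (2 * y + a₁ * x + a₃)) ≤ 1 := S58HQ_int_mul v h3 hFy.le
      have e2 : v (6 * (2 * y + a₃)) ≤ 1 :=
        S58HQ_int_mul v h6 (S58HQ_int_add v (S58HQ_int_mul v h2 hy) ha₃)
      have e3 : v (2 * a₁ * a₂) ≤ 1 := S58HQ_int_mul v (S58HQ_int_mul v h2 ha₁) ha₂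
      rw [sub_eq_add_neg]
      exact S58HQ_int_add v (S58HQ_int_add v e1 (hneg _ e2)) e3
    have hunit : v (2 * c₂ * y + c₁) = 1 := by
      have e : 2 * c₂ * y + c₁ = a₁ ^ 3 + 2 * (-(12 * y) - 6 * a₃ + 2 * a₁ * a₂) := by
        rw [hc₂, hc₁]; ring
      rw [e]
      refine S58HQ_unit_add v (by rw [map_pow, ha₁u, one_pow]) ?_
      rw [map_mul]
      have e1 : v (-(12 * y) - 6 * a₃ + 2 * a₁ * a₂) ≤ 1 := by
        rw [sub_eq_add_neg]
        exact S58HQ_int_add v (S58HQ_int_add v (hneg _ (S58HQ_int_mul v h12 hy))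
          (hneg _ (S58HQ_int_mul v h6 ha₃))) (S58HQ_int_mul v (S58HQ_int_mul v h2 ha₁) ha₂)
      calc v 2 * v (-(12 * y) - 6 * a₃ + 2 * a₁ * a₂) ≤ v 2 * 1 := mul_le_mul' le_rfl e1
        _ = v 2 := mul_one _
        _ < 1 := h2lt
    have hc₂0 : c₂ ≠ 0 := by rw [hc₂]; norm_num
    have hc₂v : v c₂ ≤ 1 := by rw [hc₂]; exact hneg _ h12
    obtain ⟨y₀, hy₀, hy₀v, huniq⟩ := S58HQ_root v c₂ c₁ c₀ y hc₂0 hc₂v hsmall hunit
    set x₀ : K := -(2 * y₀ + a₃) / a₁ with hx₀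
    have hFy₀ : 2 * y₀ + a₁ * x₀ + a₃ = 0 := by
      rw [hx₀]; field_simp; ring
    have hFx₀ : a₁ * y₀ - 3 * x₀ ^ 2 - 2 * a₂ * x₀ - a₄ = 0 := by
      have e : a₁ ^ 2 * (a₁ * y₀ - 3 * x₀ ^ 2 - 2 * a₂ * x₀ - a₄) = 0 := by
        have : a₁ ^ 2 * (a₁ * y₀ - 3 * x₀ ^ 2 - 2 * a₂ * x₀ - a₄) =
            (c₂ * y₀ ^ 2 + c₁ * y₀ + c₀) - (2 * y₀ + a₁ * x₀ + a₃) *
              (3 * (2 * y₀ + a₁ * x₀ + a₃) - 6 * (2 * y₀ + a₃) + 2 * a₁ * a₂) := by
          rw [hc₂, hc₁, hc₀]; ring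
        rw [this, hy₀, hFy₀]; ring
      rcases mul_eq_zero.mp e with h | h
      · exact absurd (pow_eq_zero_iff (two_ne_zero) |>.mp h) ha₁0
      · exact h
    have hx₀v : v (x₀ - x) < 1 := by
      have e : a₁ * (x₀ - x) = -(2 * y + a₁ * x + a₃) + 2 * (-(y₀ - y)) := by
        linear_combination hFy₀
      refine S58HQ_small_of_unit_mul v ha₁u ?_
      rw [e]
      exact S58HQ_small_add v (hnegs _ hFy) (S58HQ_small_mul v h2 (hnegs _ hy₀v))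
    refine ⟨x₀, y₀, hx₀v, hy₀v, hFx₀, hFy₀, ?_⟩
    intro τ t₁ t₂ t₃ t₄ hτ
    have hy₀int : v y₀ ≤ 1 := by
      have : y₀ = (y₀ - y) + y := by ring
      rw [this]; exact S58HQ_int_add v hy₀v.le hy
    have hτy : τ y₀ = y₀ := by
      refine S58HQ_fixed v c₂ c₁ c₀ y y₀ hy₀ hy₀v huniq τ ?_ ?_ ?_ (hτ y₀ hy₀int)
      · rw [hc₂, map_neg, map_ofNat]
      · rw [hc₁]; simp only [map_add, map_sub, map_mul, map_pow, map_ofNat, t₁, t₂, t₃]
      · rw [hc₀]; simp only [map_add, map_sub, map_mul, map_pow, map_neg, map_ofNat, t₁, t₂, t₃, t₄]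
    refine ⟨?_, hτy⟩
    rw [hx₀, map_div₀, map_neg, map_add, map_mul, hτy, t₃, t₁, map_ofNat]
  · -- odd residue characteristic: the quadratic `6 X² + b₂ X + b₄` in `x`
    have h20 : (2 : K) ≠ 0 := two_ne_zero
    set b₂ : K := a₁ ^ 2 + 4 * a₂ with hb₂
    set b₄ : K := 2 * a₄ + a₁ * a₃ with hb₄
    have hh : (6 : K) * x ^ 2 + b₂ * x + b₄ =
        a₁ * (2 * y + a₁ * x + a₃) + 2 * (-(a₁ * y - 3 * x ^ 2 - 2 * a₂ * x - a₄)) := by
      rw [hb₂, hb₄]; ring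
    have hsmall : v ((6 : K) * x ^ 2 + b₂ * x + b₄) < 1 := by
      rw [hh]
      exact S58HQ_small_add v (S58HQ_small_mul v ha₁ hFy) (S58HQ_small_mul v h2 (hnegs _ hFx))
    have hunit : v (2 * 6 * x + b₂) = 1 := by
      have e : (2 * 6 * x + b₂) ^ 2 = (b₂ ^ 2 - 24 * b₄) + 24 * ((6 : K) * x ^ 2 + b₂ * x + b₄) := by
        ring
      have h1 : v ((2 * 6 * x + b₂) ^ 2) = 1 := by
        rw [e]
        exact S58HQ_unit_add v hc4 (S58HQ_small_mul v h24 hsmall)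
      rw [map_pow] at h1
      exact S58HQ_sq_one h1
    have h60 : (6 : K) ≠ 0 := by norm_num
    obtain ⟨x₀, hx₀, hx₀v, huniq⟩ := S58HQ_root v 6 b₂ b₄ x h60 h6 hsmall hunit
    set y₀ : K := -(a₁ * x₀ + a₃) / 2 with hy₀
    have hFy₀ : 2 * y₀ + a₁ * x₀ + a₃ = 0 := by
      rw [hy₀]; field_simp; ring
    have hFx₀ : a₁ * y₀ - 3 * x₀ ^ 2 - 2 * a₂ * x₀ - a₄ = 0 := by
      have e : 2 * (a₁ * y₀ - 3 * x₀ ^ 2 - 2 * a₂ * x₀ - a₄) = 0 := by
        have : 2 * (a₁ * y₀ - 3 * x₀ ^ 2 - 2 * a₂ * x₀ - a₄) =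
            a₁ * (2 * y₀ + a₁ * x₀ + a₃) - ((6 : K) * x₀ ^ 2 + b₂ * x₀ + b₄) := by
          rw [hb₂, hb₄]; ring
        rw [this, hx₀, hFy₀]; ring
      rcases mul_eq_zero.mp e with h | h
      · exact absurd h h20
      · exact h
    have hy₀v : v (y₀ - y) < 1 := by
      have e : 2 * (y₀ - y) = -(2 * y + a₁ * x + a₃) + a₁ * (-(x₀ - x)) := by
        linear_combination hFy₀
      refine S58HQ_small_of_unit_mul v h2eq ?_
      rw [e]
      exact S58HQ_small_add v (hnegs _ hFy) (S58HQ_small_mul v ha₁ (hnegs _ hx₀v))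
    refine ⟨x₀, y₀, hx₀v, hy₀v, hFx₀, hFy₀, ?_⟩
    intro τ t₁ t₂ t₃ t₄ hτ
    have hx₀int : v x₀ ≤ 1 := by
      have : x₀ = (x₀ - x) + x := by ring
      rw [this]; exact S58HQ_int_add v hx₀v.le hx
    have hτx : τ x₀ = x₀ := by
      refine S58HQ_fixed v 6 b₂ b₄ x x₀ hx₀ hx₀v huniq τ ?_ ?_ ?_ (hτ x₀ hx₀int)
      · exact map_ofNat τ 6
      · rw [hb₂]; simp only [map_add, map_mul, map_pow, map_ofNat, t₁, t₂]
      · rw [hb₄]; simp only [map_add, map_mul, map_ofNat, t₁, t₃, t₄]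
    refine ⟨hτx, ?_⟩
    rw [hy₀, map_div₀, map_neg, map_add, map_mul, hτx, t₃, t₁, map_ofNat]

end Crit

section Slopes

variable {K : Type*} [Field K] {Γ₀ : Type*} [LinearOrderedCommGroupWithZero Γ₀]
  (v : Valuation K Γ₀)

variable [IsAlgClosed K]

/-- **The tangent slopes at the node**: the two roots of `T² + a₁ T - c` when the discriminant
`a₁² + 4 c` is a unit. They are integral, differ by a unit and are fixed by every ring
endomorphism `τ` fixing `a₁`, `c` with `τ a ≡ a` modulo the maximal ideal. -/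
theorem S58HQ_slopes (a₁ c : K) (ha₁ : v a₁ ≤ 1) (hc : v c ≤ 1)
    (hdisc : v (a₁ ^ 2 + 4 * c) = 1) :
    ∃ g₁ g₂ : K, g₁ + g₂ = -a₁ ∧ g₁ * g₂ = -c ∧ v g₁ ≤ 1 ∧ v g₂ ≤ 1 ∧ v (g₁ - g₂) = 1 ∧
      ∀ τ : K →+* K, τ a₁ = a₁ → τ c = c → (∀ a : K, v a ≤ 1 → v (τ a - a) < 1) →
        τ g₁ = g₁ ∧ τ g₂ = g₂ := by
  have hdeg : (Polynomial.C (1 : K) * Polynomial.X ^ 2 + Polynomial.C a₁ * Polynomial.X +
      Polynomial.C (-c) : Polynomial K).degree ≠ 0 := by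
    rw [Polynomial.degree_quadratic one_ne_zero]
    decide
  obtain ⟨g₁, hg₁⟩ := IsAlgClosed.exists_root _ hdeg
  simp only [Polynomial.IsRoot, Polynomial.eval_add, Polynomial.eval_mul, Polynomial.eval_C,
    Polynomial.eval_pow, Polynomial.eval_X, one_mul] at hg₁
  set g₂ : K := -a₁ - g₁ with hg₂
  have hsum : g₁ + g₂ = -a₁ := by rw [hg₂]; ring
  have hprod : g₁ * g₂ = -c := by rw [hg₂]; linear_combination -hg₁
  have hint : ∀ g : K, g ^ 2 + a₁ * g + -c = 0 → v g ≤ 1 := by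
    intro g hg
    by_contra hgt
    have hgt' : 1 < v g := not_le.mp hgt
    have e : g ^ 2 = c + -(a₁ * g) := by linear_combination hg
    have h1 : v (g ^ 2) ≤ v g := by
      rw [e]
      refine (v.map_add _ _).trans (max_le (hc.trans hgt'.le) ?_)
      rw [Valuation.map_neg, map_mul]
      calc v a₁ * v g ≤ 1 * v g := mul_le_mul' ha₁ le_rfl
        _ = v g := one_mul _
    have h2 : v g < v (g ^ 2) := by
      rw [map_pow, sq]
      have hpos : 0 < v g := lt_trans zero_lt_one hgt'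
      calc v g = v g * 1 := (mul_one _).symm
        _ < v g * v g := by
            exact (mul_lt_mul_iff_right₀ hpos).mpr hgt'
    exact absurd h1 (not_le.mpr h2)
  have hg₂root : g₂ ^ 2 + a₁ * g₂ + -c = 0 := by rw [hg₂]; linear_combination hg₁
  have hdiff : v (g₁ - g₂) = 1 := by
    have e : (g₁ - g₂) ^ 2 = a₁ ^ 2 + 4 * c := by
      have : (g₁ - g₂) ^ 2 = (g₁ + g₂) ^ 2 - 4 * (g₁ * g₂) := by ring
      rw [this, hsum, hprod]; ring
    have h1 : v ((g₁ - g₂) ^ 2) = 1 := by rw [e]; exact hdisc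
    rw [map_pow] at h1
    exact S58HQ_sq_one h1
  refine ⟨g₁, g₂, hsum, hprod, hint g₁ hg₁, hint g₂ hg₂root, hdiff, ?_⟩
  intro τ t₁ tc hτ
  have hroots : ∀ g : K, g ^ 2 + a₁ * g + -c = 0 → g = g₁ ∨ g = g₂ := by
    intro g hg
    have : (g - g₁) * (g - g₂) = 0 := by
      have e : (g - g₁) * (g - g₂) = g ^ 2 - (g₁ + g₂) * g + g₁ * g₂ := by ring
      rw [e, hsum, hprod]; linear_combination hg
    rcases mul_eq_zero.mp this with h | h
    · exact Or.inl (sub_eq_zero.mp h)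
    · exact Or.inr (sub_eq_zero.mp h)
  have hτroot : ∀ g : K, g ^ 2 + a₁ * g + -c = 0 → (τ g) ^ 2 + a₁ * τ g + -c = 0 := by
    intro g hg
    have := congrArg τ hg
    simpa only [map_add, map_mul, map_pow, map_neg, map_zero, t₁, tc] using this
  constructor
  · rcases hroots _ (hτroot g₁ hg₁) with h | h
    · exact h
    · exfalso
      have h1 := hτ g₁ (hint g₁ hg₁)
      rw [h, Valuation.map_sub_swap, hdiff] at h1
      exact lt_irrefl _ h1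
  · rcases hroots _ (hτroot g₂ hg₂root) with h | h
    · exfalso
      have h1 := hτ g₂ (hint g₂ hg₂root)
      rw [h, hdiff] at h1
      exact lt_irrefl _ h1
    · exact h

end Slopes

section CritAbs

variable {K : Type*} [Field K] {Γ₀ : Type*} [LinearOrderedCommGroupWithZero Γ₀]
  (v : Valuation K Γ₀)

variable [IsAlgClosed K] [CharZero K]

/-- **[HENSQ], abstract form**: the exact critical point `(x₀, y₀)` near a point reducing to the
node, and the two tangent slopes `g₁`, `g₂` at it; everything is fixed by the ring endomorphisms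
fixing the coefficients and congruent to the identity modulo the maximal ideal. -/
theorem S58HQ_crit_abs (h2 : v 2 ≤ 1) (h3 : v 3 ≤ 1)
    (a₁ a₂ a₃ a₄ : K) (ha₁ : v a₁ ≤ 1) (ha₂ : v a₂ ≤ 1) (ha₃ : v a₃ ≤ 1) (ha₄ : v a₄ ≤ 1)
    (hc4 : v ((a₁ ^ 2 + 4 * a₂) ^ 2 - 24 * (2 * a₄ + a₁ * a₃)) = 1)
    (x y : K) (hx : v x ≤ 1) (hy : v y ≤ 1)
    (hFx : v (a₁ * y - 3 * x ^ 2 - 2 * a₂ * x - a₄) < 1)
    (hFy : v (2 * y + a₁ * x + a₃) < 1) :
    ∃ x₀ y₀ g₁ g₂ : K, v x₀ ≤ 1 ∧ v y₀ ≤ 1 ∧ v g₁ ≤ 1 ∧ v g₂ ≤ 1 ∧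
      v (x₀ - x) < 1 ∧ v (y₀ - y) < 1 ∧
      a₁ * y₀ - 3 * x₀ ^ 2 - 2 * a₂ * x₀ - a₄ = 0 ∧ 2 * y₀ + a₁ * x₀ + a₃ = 0 ∧
      g₁ + g₂ = -a₁ ∧ g₁ * g₂ = -(3 * x₀ + a₂) ∧ v (g₁ - g₂) = 1 ∧
      ∀ τ : K →+* K, τ a₁ = a₁ → τ a₂ = a₂ → τ a₃ = a₃ → τ a₄ = a₄ →
        (∀ a : K, v a ≤ 1 → v (τ a - a) < 1) →
          τ x₀ = x₀ ∧ τ y₀ = y₀ ∧ τ g₁ = g₁ ∧ τ g₂ = g₂ := by
  obtain ⟨x₀, y₀, hx₀v, hy₀v, hFx₀, hFy₀, hτxy⟩ :=
    S58HQ_crit_xy v h2 h3 a₁ a₂ a₃ a₄ ha₁ ha₂ ha₃ ha₄ hc4 x y hx hy hFx hFy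
  have hx₀int : v x₀ ≤ 1 := by
    have : x₀ = (x₀ - x) + x := by ring
    rw [this]; exact S58HQ_int_add v hx₀v.le hx
  have hy₀int : v y₀ ≤ 1 := by
    have : y₀ = (y₀ - y) + y := by ring
    rw [this]; exact S58HQ_int_add v hy₀v.le hy
  have hcint : v (3 * x₀ + a₂) ≤ 1 := S58HQ_int_add v (S58HQ_int_mul v h3 hx₀int) ha₂
  have hdisc : v (a₁ ^ 2 + 4 * (3 * x₀ + a₂)) = 1 := by
    have e : (a₁ ^ 2 + 4 * (3 * x₀ + a₂)) ^ 2 =
        (a₁ ^ 2 + 4 * a₂) ^ 2 - 24 * (2 * a₄ + a₁ * a₃) := by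
      linear_combination (24 * a₁) * hFy₀ - 48 * hFx₀
    have h1 : v ((a₁ ^ 2 + 4 * (3 * x₀ + a₂)) ^ 2) = 1 := by rw [e]; exact hc4
    rw [map_pow] at h1
    exact S58HQ_sq_one h1
  obtain ⟨g₁, g₂, hsum, hprod, hg₁, hg₂, hdiff, hτg⟩ :=
    S58HQ_slopes v a₁ (3 * x₀ + a₂) ha₁ hcint hdisc
  refine ⟨x₀, y₀, g₁, g₂, hx₀int, hy₀int, hg₁, hg₂, hx₀v, hy₀v, hFx₀, hFy₀, hsum, hprod, hdiff,
    ?_⟩
  intro τ t₁ t₂ t₃ t₄ hτ
  obtain ⟨hτx, hτy⟩ := hτxy τ t₁ t₂ t₃ t₄ hτ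
  have tc : τ (3 * x₀ + a₂) = 3 * x₀ + a₂ := by
    rw [map_add, map_mul, hτx, t₂, map_ofNat]
  obtain ⟨hτ1, hτ2⟩ := hτg τ t₁ tc hτ
  exact ⟨hτx, hτy, hτ1, hτ2⟩

end CritAbs

local notation "Qb" => AlgebraicClosure ℚ

/-- the valuation of an integer prime to `q` at a valuation subring over `q` is one -/
theorem S58HQ_val_int_unit (A : ValuationSubring Qb) {q : ℕ} (hq : q.Prime)
    (hA : A.LiesOverPrime q) (n : ℤ) (hn : ¬ (q : ℤ) ∣ n) : A.valuation ((n : ℤ) : Qb) = 1 := by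
  have hcop : IsCoprime (q : ℤ) n :=
    (Prime.coprime_iff_not_dvd (Nat.prime_iff_prime_int.mp hq)).mpr hn
  obtain ⟨u, w, huw⟩ := hcop
  have hqv : A.valuation ((q : ℕ) : Qb) < 1 := hA
  have hint : ∀ m : ℤ, A.valuation ((m : ℤ) : Qb) ≤ 1 := fun m =>
    (A.valuation_le_one_iff _).mpr (intCast_mem A m)
  have e : ((w : ℤ) : Qb) * ((n : ℤ) : Qb) = 1 + -(((u : ℤ) : Qb) * ((q : ℕ) : Qb)) := by
    have := congrArg (fun z : ℤ => (z : Qb)) huw
    push_cast at this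
    linear_combination this
  have h1 : A.valuation (((w : ℤ) : Qb) * ((n : ℤ) : Qb)) = 1 := by
    rw [e]
    refine S58HQ_unit_add A.valuation (map_one _) ?_
    rw [Valuation.map_neg]
    exact S58HQ_small_mul A.valuation (hint u) hqv
  rw [map_mul] at h1
  refine le_antisymm (hint n) ?_
  by_contra hlt
  have hlt' : A.valuation ((n : ℤ) : Qb) < 1 := not_le.mp hlt
  have : A.valuation ((w : ℤ) : Qb) * A.valuation ((n : ℤ) : Qb) < 1 := by
    calc A.valuation ((w : ℤ) : Qb) * A.valuation ((n : ℤ) : Qb)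
        ≤ 1 * A.valuation ((n : ℤ) : Qb) := mul_le_mul' (hint w) le_rfl
      _ = A.valuation ((n : ℤ) : Qb) := one_mul _
      _ < 1 := hlt'
  rw [h1] at this
  exact lt_irrefl _ this

/-- **[HENSQ]** for an integral Weierstrass model `W` at a valuation subring `A` of `Q-bar` over a
prime `q` not dividing `c₄`: near every integral point `(x, y)` with both partial derivatives of
the Weierstrass polynomial in the maximal ideal there is an exact critical point `(x₀, y₀)`,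
with tangent slopes `g₁`, `g₂`; all four are integral and fixed by the inertia group of `A`. -/
theorem S58HQ_crit (W : WeierstrassCurve ℤ) (A : ValuationSubring Qb) {q : ℕ} (hq : q.Prime)
    (hA : A.LiesOverPrime q) (hc4 : ¬ (q : ℤ) ∣ W.c₄) (x y : Qb) (hx : x ∈ A) (hy : y ∈ A)
    (hFx : A.valuation (((W.a₁ : ℤ) : Qb) * y - 3 * x ^ 2 - 2 * ((W.a₂ : ℤ) : Qb) * x -
      ((W.a₄ : ℤ) : Qb)) < 1)
    (hFy : A.valuation (2 * y + ((W.a₁ : ℤ) : Qb) * x + ((W.a₃ : ℤ) : Qb)) < 1) :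
    ∃ x₀ y₀ g₁ g₂ : Qb, x₀ ∈ A ∧ y₀ ∈ A ∧ g₁ ∈ A ∧ g₂ ∈ A ∧
      A.valuation (x₀ - x) < 1 ∧ A.valuation (y₀ - y) < 1 ∧
      ((W.a₁ : ℤ) : Qb) * y₀ - 3 * x₀ ^ 2 - 2 * ((W.a₂ : ℤ) : Qb) * x₀ - ((W.a₄ : ℤ) : Qb) = 0 ∧
      2 * y₀ + ((W.a₁ : ℤ) : Qb) * x₀ + ((W.a₃ : ℤ) : Qb) = 0 ∧
      g₁ + g₂ = -((W.a₁ : ℤ) : Qb) ∧ g₁ * g₂ = -(3 * x₀ + ((W.a₂ : ℤ) : Qb)) ∧
      A.valuation (g₁ - g₂) = 1 ∧
      ∀ τ : Qb ≃ₐ[ℚ] Qb, τ ∈ A.inertiaSubgroupIn ℚ →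
        τ x₀ = x₀ ∧ τ y₀ = y₀ ∧ τ g₁ = g₁ ∧ τ g₂ = g₂ := by
  have hint : ∀ m : ℤ, A.valuation ((m : ℤ) : Qb) ≤ 1 := fun m =>
    (A.valuation_le_one_iff _).mpr (intCast_mem A m)
  have h2 : A.valuation (2 : Qb) ≤ 1 := (A.valuation_le_one_iff _).mpr (ofNat_mem A 2)
  have h3 : A.valuation (3 : Qb) ≤ 1 := (A.valuation_le_one_iff _).mpr (ofNat_mem A 3)
  have hc4' : A.valuation ((((W.a₁ : ℤ) : Qb) ^ 2 + 4 * ((W.a₂ : ℤ) : Qb)) ^ 2 -
      24 * (2 * ((W.a₄ : ℤ) : Qb) + ((W.a₁ : ℤ) : Qb) * ((W.a₃ : ℤ) : Qb))) = 1 := by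
    have := S58HQ_val_int_unit A hq hA W.c₄ hc4
    have e : ((W.c₄ : ℤ) : Qb) = (((W.a₁ : ℤ) : Qb) ^ 2 + 4 * ((W.a₂ : ℤ) : Qb)) ^ 2 -
        24 * (2 * ((W.a₄ : ℤ) : Qb) + ((W.a₁ : ℤ) : Qb) * ((W.a₃ : ℤ) : Qb)) := by
      simp only [WeierstrassCurve.c₄, WeierstrassCurve.b₂, WeierstrassCurve.b₄]
      push_cast
      ring
    rwa [e] at this
  obtain ⟨x₀, y₀, g₁, g₂, hx₀, hy₀, hg₁, hg₂, hx₀v, hy₀v, hFx₀, hFy₀, hsum, hprod, hdiff, hτ⟩ :=
    S58HQ_crit_abs A.valuation h2 h3 _ _ _ _ (hint W.a₁) (hint W.a₂) (hint W.a₃) (hint W.a₄)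
      hc4' x y ((A.valuation_le_one_iff _).mpr hx) ((A.valuation_le_one_iff _).mpr hy) hFx hFy
  refine ⟨x₀, y₀, g₁, g₂, (A.valuation_le_one_iff _).mp hx₀, (A.valuation_le_one_iff _).mp hy₀,
    (A.valuation_le_one_iff _).mp hg₁, (A.valuation_le_one_iff _).mp hg₂, hx₀v, hy₀v, hFx₀, hFy₀,
    hsum, hprod, hdiff, ?_⟩
  intro τ hτmem
  exact hτ (τ : Qb →+* Qb) (map_intCast _ _) (map_intCast _ _) (map_intCast _ _)
    (map_intCast _ _) (fun a ha =>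
      (Fermat.Agent.S05_helper5_Inertia.inertia_spec_gen A τ hτmem a
        ((A.valuation_le_one_iff _).mp ha)).2)

end Fermat.Agent.S58_helper20_HENSQ
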