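import Fermat.Agent.S58_helper5_E3RAW
import Fermat.Agent.S58_helper20_HENSQ

/-!
# S58 (helper18, owner): (E3raw), closed

`S58H_E3raw (W : WeierstrassCurve ℤ) : S58T_E3raw W`: at a prime `q ∤ c₄`, an element `τ` of an
inertia group at `q` satisfies `(τ - 1) ^ 2 = 0` on `W[n]`, `n` prime to `q`.

Assembly of the landed bricks: helper5's `S58E3R_of_crit` (group law, integrality, chord /
tangent identities at the node) and helper20's `S58HQ_crit` (the exact critical point near a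
point reducing to the node, fixed by inertia).
-/

set_option autoImplicit false

open Fermat.Agent.S58_helper2_TORS Fermat.Agent.S58_helper5_E3RAW

namespace Fermat.Agent.S58_helper18_E3FIN

/-- helper20's critical point in helper5's shape -/
theorem S58H_crit (W : WeierstrassCurve ℤ) : S58E3R_Crit W := by
  intro q hq hc4 A hA x y hx hy hFx hFy
  have hFx' : A.valuation (((W.a₁ : ℤ) : AlgebraicClosure ℚ) * y - 3 * x ^ 2
      - 2 * ((W.a₂ : ℤ) : AlgebraicClosure ℚ) * x - ((W.a₄ : ℤ) : AlgebraicClosure ℚ)) < 1 := by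
    have e : ((W.a₁ : ℤ) : AlgebraicClosure ℚ) * y - 3 * x ^ 2
        - 2 * ((W.a₂ : ℤ) : AlgebraicClosure ℚ) * x - ((W.a₄ : ℤ) : AlgebraicClosure ℚ)
        = ((W.a₁ : ℤ) : AlgebraicClosure ℚ) * y -
          (3 * x ^ 2 + 2 * ((W.a₂ : ℤ) : AlgebraicClosure ℚ) * x
            + ((W.a₄ : ℤ) : AlgebraicClosure ℚ)) := by ring
    rw [e]
    exact hFx
  obtain ⟨x₀, y₀, g₁, g₂, hx₀, hy₀, hg₁, hg₂, hx₀v, hy₀v, hFx₀, hFy₀, hsum, hprod, hdiff, hτ⟩ :=
    Fermat.Agent.S58_helper20_HENSQ.S58HQ_crit W A hq hA hc4 x y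
      ((A.valuation_le_one_iff _).mp hx) ((A.valuation_le_one_iff _).mp hy) hFx' hFy
  refine ⟨x₀, y₀, g₁, g₂, hFy₀, ?_, hsum, hprod, hdiff, (A.valuation_le_one_iff _).mpr hg₁,
    (A.valuation_le_one_iff _).mpr hg₂, ?_, ?_, hτ⟩
  · rw [← hFx₀]
    ring
  · rw [Valuation.map_sub_swap]
    exact hx₀v
  · rw [Valuation.map_sub_swap]
    exact hy₀v

/-- **(E3raw)**, closed. -/
theorem S58H_E3raw (W : WeierstrassCurve ℤ) : S58T_E3raw W :=
  S58E3R_of_crit W (S58H_crit W)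

end Fermat.Agent.S58_helper18_E3FIN
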