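import Mathlib

/-!
# S58, piece (RES), brick [IRR-ABS] (helper12): irreducibility is detected by the traces

Let `r : G →* End_K V` and `r' : G →* End_K' V'` be two representations of a monoid `G` on
spaces of dimension 2 over fields `K`, `K'` (`2 ≠ 0` in `K`), and `φ : K →+* K'` a ring
homomorphism with `charpoly (r' g) = (charpoly (r g)).map φ` for every `g` (only the traces,
and one determinant, are used).  Let `c ∈ G` be an element with `c * c = 1` and `det (r c) = -1`.

* `S58IA_main` : if `r` is irreducible (every stable subspace is `⊥` or `⊤`), so is `r'`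
  (`S58IA_core`: the same for a monoid; `S58IA_main'`, `S58IA_core'`: with `det (r' c) = -1`;
  `S58IA_main_trace`: with the traces only).

The proof: in eigenbases of `r c` and `r' c` the diagonal entries `A g` of `r g` are
`(tr (r g) + tr (r (c * g))) / 2`, and `B g * C h = A (g * h) - A g * A h`; a stable line of
`r'` is an eigenline of `r' c`, so `B' g * C' h = 0` for all `g`, `h`, hence `B g * C h = 0`
for all `g`, `h`, and one of the two eigenlines of `r c` is stable under `r`.

Typical use: `K = ZMod p`, `V = W[p]`, `K'` an algebraic closure of the residue field,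
`r'` the base change of the residual representation, `c` a complex conjugation.
-/

set_option autoImplicit false
set_option linter.unusedSectionVars false
set_option linter.unusedVariables false
set_option linter.style.haveILetI false

open Polynomial

namespace Fermat.Agent.S58_helper12_IRRABS

section Eigen

variable {K : Type*} [Field K] {V : Type*} [AddCommGroup V] [Module K V]

theorem S58IA_one_ne_neg_one (h2 : (2 : K) ≠ 0) : (1 : K) ≠ -1 := by
  intro h
  apply h2
  have h3 : (2 : K) = 1 - (-1) := by ring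
  rw [h3, ← h, sub_self]

/-- the decomposition of a vector in a basis indexed by `Fin 2`. -/
theorem S58IA_repr (b : Module.Basis (Fin 2) K V) (x : V) :
    x = b.repr x 0 • b 0 + b.repr x 1 • b 1 := by
  conv_lhs => rw [← b.sum_repr x]
  rw [Fin.sum_univ_two]

/-- the two basis vectors are not proportional. -/
theorem S58IA_indep (b : Module.Basis (Fin 2) K V) (α β : K) (h : α • b 0 + β • b 1 = 0) :
    α = 0 ∧ β = 0 := by
  have hli := b.linearIndependent
  have h' := LinearIndependent.pair_iff.mp
    (by
      have : ![b 0, b 1] = b := by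
        ext i
        fin_cases i <;> rfl
      rw [this]
      exact hli) α β h
  exact h'

/-- **an involution of determinant `-1` on a plane has an eigenbasis.** -/
theorem S58IA_eigenbasis (hV : Module.finrank K V = 2) (h2 : (2 : K) ≠ 0)
    (s : Module.End K V) (hss : s * s = 1) (hdet : LinearMap.det s = -1) :
    ∃ b : Module.Basis (Fin 2) K V, s (b 0) = b 0 ∧ s (b 1) = -b 1 := by
  have hne1 : (1 : K) ≠ -1 := S58IA_one_ne_neg_one h2
  have hs1 : s ≠ 1 := by
    rintro rfl
    rw [map_one] at hdet
    exact hne1 hdet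
  have hs2 : s ≠ -1 := by
    rintro rfl
    have h := LinearMap.det_smul (-1 : K) (1 : Module.End K V)
    rw [hV, map_one, mul_one, neg_one_sq, neg_one_smul] at h
    rw [h] at hdet
    exact hne1 hdet
  obtain ⟨w, hw⟩ : ∃ w, s w + w ≠ 0 := by
    by_contra hall
    push Not at hall
    apply hs2
    ext x
    rw [LinearMap.neg_apply, Module.End.one_apply]
    exact eq_neg_of_add_eq_zero_left (hall x)
  obtain ⟨v, hv⟩ : ∃ v, s v - v ≠ 0 := by
    by_contra hall
    push Not at hall
    apply hs1
    ext x
    rw [Module.End.one_apply]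
    exact sub_eq_zero.mp (hall x)
  have hssx : ∀ x, s (s x) = x := fun x => by
    have h := congrArg (fun f : Module.End K V => f x) hss
    simpa using h
  have hp : s (s w + w) = s w + w := by rw [map_add, hssx, add_comm]
  have hm : s (s v - v) = -(s v - v) := by rw [map_sub, hssx, neg_sub]
  have hli : LinearIndependent K ![s w + w, s v - v] := by
    rw [LinearIndependent.pair_iff]
    intro α β hab
    have h1 := congrArg s hab
    rw [map_add, map_smul, map_smul, hp, hm, map_zero, smul_neg] at h1
    have hα : (2 * α) • (s w + w) = 0 := by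
      have e : (2 * α) • (s w + w) =
          (α • (s w + w) + β • (s v - v)) + (α • (s w + w) + -(β • (s v - v))) := by
        rw [mul_smul, two_smul]
        abel
      rw [e, hab, h1, add_zero]
    have hα0 : α = 0 := by
      rcases smul_eq_zero.mp hα with h | h
      · rcases mul_eq_zero.mp h with h | h
        · exact absurd h h2
        · exact h
      · exact absurd h hw
    refine ⟨hα0, ?_⟩
    rw [hα0, zero_smul, zero_add] at hab
    rcases smul_eq_zero.mp hab with h | h
    · exact h
    · exact absurd h hv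
  have hcard : Fintype.card (Fin 2) = Module.finrank K V := by
    rw [hV, Fintype.card_fin]
  refine ⟨basisOfLinearIndependentOfCardEqFinrank hli hcard, ?_, ?_⟩
  · rw [coe_basisOfLinearIndependentOfCardEqFinrank]
    exact hp
  · rw [coe_basisOfLinearIndependentOfCardEqFinrank]
    exact hm

end Eigen

section Entries

variable {K : Type*} [Field K] {V : Type*} [AddCommGroup V] [Module K V]

/-- the entries of an endomorphism in a basis indexed by `Fin 2` -/
noncomputable def S58IA_ent (b : Module.Basis (Fin 2) K V) (T : Module.End K V) (i j : Fin 2) :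
    K := b.repr (T (b j)) i

theorem S58IA_ent_eq (b : Module.Basis (Fin 2) K V) (T : Module.End K V) (i j : Fin 2) :
    S58IA_ent b T i j = LinearMap.toMatrix b b T i j := by
  rw [LinearMap.toMatrix_apply, S58IA_ent]

theorem S58IA_apply (b : Module.Basis (Fin 2) K V) (T : Module.End K V) (j : Fin 2) :
    T (b j) = S58IA_ent b T 0 j • b 0 + S58IA_ent b T 1 j • b 1 :=
  S58IA_repr b (T (b j))

theorem S58IA_trace [Module.Finite K V] (b : Module.Basis (Fin 2) K V) (T : Module.End K V) :
    LinearMap.trace K V T = S58IA_ent b T 0 0 + S58IA_ent b T 1 1 := by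
  rw [LinearMap.trace_eq_matrix_trace K b T, Matrix.trace_fin_two, S58IA_ent_eq, S58IA_ent_eq]

theorem S58IA_ent_mul (b : Module.Basis (Fin 2) K V) (S T : Module.End K V) (i j : Fin 2) :
    S58IA_ent b (S * T) i j =
      S58IA_ent b S i 0 * S58IA_ent b T 0 j + S58IA_ent b S i 1 * S58IA_ent b T 1 j := by
  rw [S58IA_ent_eq, LinearMap.toMatrix_mul, Matrix.mul_apply, Fin.sum_univ_two,
    ← S58IA_ent_eq, ← S58IA_ent_eq, ← S58IA_ent_eq, ← S58IA_ent_eq]

/-- the entries of the involution in its eigenbasis -/
theorem S58IA_ent_invol (b : Module.Basis (Fin 2) K V) (s : Module.End K V)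
    (h0 : s (b 0) = b 0) (h1 : s (b 1) = -b 1) :
    S58IA_ent b s 0 0 = 1 ∧ S58IA_ent b s 0 1 = 0 ∧ S58IA_ent b s 1 0 = 0 ∧
      S58IA_ent b s 1 1 = -1 := by
  refine ⟨?_, ?_, ?_, ?_⟩
  · rw [S58IA_ent, h0, b.repr_self]
    simp
  · rw [S58IA_ent, h1, map_neg, b.repr_self]
    simp
  · rw [S58IA_ent, h0, b.repr_self]
    simp
  · rw [S58IA_ent, h1, map_neg, b.repr_self]
    simp

/-- **the upper left entry from the traces**: `2 A(T) = tr T + tr (s T)`. -/
theorem S58IA_two_mul_ent [Module.Finite K V] (b : Module.Basis (Fin 2) K V)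
    (s : Module.End K V) (h0 : s (b 0) = b 0) (h1 : s (b 1) = -b 1) (T : Module.End K V) :
    2 * S58IA_ent b T 0 0 = LinearMap.trace K V T + LinearMap.trace K V (s * T) := by
  obtain ⟨e00, e01, e10, e11⟩ := S58IA_ent_invol b s h0 h1
  rw [S58IA_trace b T, S58IA_trace b (s * T), S58IA_ent_mul, S58IA_ent_mul, e00, e01, e10, e11]
  ring

end Entries

section Main

variable {G : Type*} [Monoid G] {K K' : Type*} [Field K] [Field K']
  {V V' : Type*} [AddCommGroup V] [Module K V] [AddCommGroup V'] [Module K' V']

/-- the trace of a linear map from its characteristic polynomial, compatibly with `φ`. -/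
theorem S58IA_trace_of_charpoly [Module.Finite K V] [Module.Finite K' V']
    (φ : K →+* K') (T : Module.End K V) (T' : Module.End K' V')
    (h : LinearMap.charpoly T' = (LinearMap.charpoly T).map φ) :
    LinearMap.trace K' V' T' = φ (LinearMap.trace K V T) := by
  let b := Module.finBasis K V
  let b' := Module.finBasis K' V'
  rw [LinearMap.trace_eq_matrix_trace K b T, LinearMap.trace_eq_matrix_trace K' b' T',
    Matrix.trace_eq_neg_charpoly_nextCoeff, Matrix.trace_eq_neg_charpoly_nextCoeff,
    LinearMap.charpoly_toMatrix, LinearMap.charpoly_toMatrix, h,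
    Polynomial.nextCoeff_map φ.injective, map_neg]

/-- the determinant of a linear map from its characteristic polynomial, compatibly with `φ`. -/
theorem S58IA_det_of_charpoly [Module.Finite K V] [Module.Finite K' V']
    (hV : Module.finrank K V = 2) (hV' : Module.finrank K' V' = 2)
    (φ : K →+* K') (T : Module.End K V) (T' : Module.End K' V')
    (h : LinearMap.charpoly T' = (LinearMap.charpoly T).map φ) :
    LinearMap.det T' = φ (LinearMap.det T) := by
  rw [LinearMap.det_eq_sign_charpoly_coeff, LinearMap.det_eq_sign_charpoly_coeff, hV, hV', h,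
    Polynomial.coeff_map, map_mul, map_pow, map_neg, map_one]

/-- **the core**: with eigenbases `b`, `b'` of `r c`, `r' c` and compatible traces, the
products of the off-diagonal entries correspond. -/
theorem S58IA_offdiag [Module.Finite K V] [Module.Finite K' V']
    (φ : K →+* K') (h2 : (2 : K) ≠ 0)
    (r : G →* Module.End K V) (r' : G →* Module.End K' V')
    (htr : ∀ g, LinearMap.trace K' V' (r' g) = φ (LinearMap.trace K V (r g)))
    (c : G) (b : Module.Basis (Fin 2) K V) (b' : Module.Basis (Fin 2) K' V')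
    (h0 : r c (b 0) = b 0) (h1 : r c (b 1) = -b 1)
    (h0' : r' c (b' 0) = b' 0) (h1' : r' c (b' 1) = -b' 1) (g h : G) :
    S58IA_ent b' (r' g) 0 1 * S58IA_ent b' (r' h) 1 0 =
      φ (S58IA_ent b (r g) 0 1 * S58IA_ent b (r h) 1 0) := by
  have h2' : (2 : K') ≠ 0 := by
    have : (2 : K') = φ 2 := by rw [map_ofNat]
    rw [this]
    exact (map_ne_zero φ).mpr h2
  have hA : ∀ x : G, S58IA_ent b' (r' x) 0 0 = φ (S58IA_ent b (r x) 0 0) := by
    intro x
    have e := S58IA_two_mul_ent b (r c) h0 h1 (r x)
    have e' := S58IA_two_mul_ent b' (r' c) h0' h1' (r' x)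
    rw [← map_mul, htr, htr, map_mul, ← map_add, ← e, map_mul, map_ofNat] at e'
    exact mul_left_cancel₀ h2' e'
  have e := S58IA_ent_mul b (r g) (r h) 0 0
  have e' := S58IA_ent_mul b' (r' g) (r' h) 0 0
  rw [← map_mul, hA, hA, hA, map_mul, e, map_add, map_mul, map_mul] at e'
  have := add_left_cancel e'
  rw [map_mul]
  exact this.symm

/-- **[IRR-ABS], trace form.** -/
theorem S58IA_main_trace (hV : Module.finrank K V = 2) (hV' : Module.finrank K' V' = 2)
    (φ : K →+* K') (h2 : (2 : K) ≠ 0)
    (r : G →* Module.End K V) (r' : G →* Module.End K' V')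
    (htr : ∀ g, LinearMap.trace K' V' (r' g) = φ (LinearMap.trace K V (r g)))
    (c : G) (hcc : c * c = 1) (hdet : LinearMap.det (r c) = -1)
    (hdet' : LinearMap.det (r' c) = -1)
    (hirr : ∀ U : Submodule K V, (∀ g : G, ∀ x ∈ U, r g x ∈ U) → U = ⊥ ∨ U = ⊤)
    (U' : Submodule K' V') (hU' : ∀ g : G, ∀ x ∈ U', r' g x ∈ U') : U' = ⊥ ∨ U' = ⊤ := by
  haveI : Module.Finite K V := Module.finite_of_finrank_eq_succ hV
  haveI : Module.Finite K' V' := Module.finite_of_finrank_eq_succ hV'
  have h2' : (2 : K') ≠ 0 := by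
    have : (2 : K') = φ 2 := by rw [map_ofNat]
    rw [this]
    exact (map_ne_zero φ).mpr h2
  have hss : r c * r c = 1 := by rw [← map_mul, hcc, map_one]
  have hss' : r' c * r' c = 1 := by rw [← map_mul, hcc, map_one]
  obtain ⟨b, h0, h1⟩ := S58IA_eigenbasis hV h2 (r c) hss hdet
  obtain ⟨b', h0', h1'⟩ := S58IA_eigenbasis hV' h2' (r' c) hss' hdet'
  by_contra hcon
  push Not at hcon
  obtain ⟨hbot, htop⟩ := hcon
  -- a nonzero vector of `U'`
  obtain ⟨u, huU, hu0⟩ := (Submodule.ne_bot_iff U').mp hbot
  have hu := S58IA_repr b' u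
  set α := b'.repr u 0 with hα
  set β := b'.repr u 1 with hβ
  have hsu : r' c u = α • b' 0 - β • b' 1 := by
    rw [hu, map_add, map_smul, map_smul, h0', h1', smul_neg, sub_eq_add_neg]
  have hsuU : α • b' 0 - β • b' 1 ∈ U' := hsu ▸ hU' c u huU
  have huU' : α • b' 0 + β • b' 1 ∈ U' := hu ▸ huU
  have hαU : α ≠ 0 → b' 0 ∈ U' := by
    intro hα0
    have h : (2 * α) • b' 0 ∈ U' := by
      have e : (2 * α) • b' 0 = (α • b' 0 + β • b' 1) + (α • b' 0 - β • b' 1) := by
        rw [mul_smul, two_smul]
        abel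
      rw [e]
      exact U'.add_mem huU' hsuU
    exact (U'.smul_mem_iff (mul_ne_zero h2' hα0)).mp h
  have hβU : β ≠ 0 → b' 1 ∈ U' := by
    intro hβ0
    have h : (2 * β) • b' 1 ∈ U' := by
      have e : (2 * β) • b' 1 = (α • b' 0 + β • b' 1) - (α • b' 0 - β • b' 1) := by
        rw [mul_smul, two_smul]
        abel
      rw [e]
      exact U'.sub_mem huU' hsuU
    exact (U'.smul_mem_iff (mul_ne_zero h2' hβ0)).mp h
  have hnotboth : ¬ (b' 0 ∈ U' ∧ b' 1 ∈ U') := by
    rintro ⟨m0, m1⟩
    apply htop
    rw [eq_top_iff]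
    intro x _
    rw [S58IA_repr b' x]
    exact U'.add_mem (U'.smul_mem _ m0) (U'.smul_mem _ m1)
  -- the off-diagonal products vanish for `r'`
  have hprod' : ∀ g h : G, S58IA_ent b' (r' g) 0 1 * S58IA_ent b' (r' h) 1 0 = 0 := by
    intro g h
    by_cases hα0 : α = 0
    · have hβ0 : β ≠ 0 := by
        intro hβ0
        apply hu0
        rw [hu, hα0, hβ0, zero_smul, zero_smul, add_zero]
      have m1 := hβU hβ0
      have m0 : b' 0 ∉ U' := fun m0 => hnotboth ⟨m0, m1⟩
      have hB : S58IA_ent b' (r' g) 0 1 = 0 := by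
        by_contra hB
        apply m0
        have hmem := hU' g _ m1
        rw [S58IA_apply b' (r' g) 1] at hmem
        have hmem2 : S58IA_ent b' (r' g) 0 1 • b' 0 ∈ U' := by
          have := U'.sub_mem hmem (U'.smul_mem (S58IA_ent b' (r' g) 1 1) m1)
          rwa [add_sub_cancel_right] at this
        exact (U'.smul_mem_iff hB).mp hmem2
      rw [hB, zero_mul]
    · have m0 := hαU hα0
      have m1 : b' 1 ∉ U' := fun m1 => hnotboth ⟨m0, m1⟩
      have hC : S58IA_ent b' (r' h) 1 0 = 0 := by
        by_contra hC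
        apply m1
        have hmem := hU' h _ m0
        rw [S58IA_apply b' (r' h) 0] at hmem
        have hmem2 : S58IA_ent b' (r' h) 1 0 • b' 1 ∈ U' := by
          have := U'.sub_mem hmem (U'.smul_mem (S58IA_ent b' (r' h) 0 0) m0)
          rwa [add_sub_cancel_left] at this
        exact (U'.smul_mem_iff hC).mp hmem2
      rw [hC, mul_zero]
  -- hence for `r`
  have hprod : ∀ g h : G, S58IA_ent b (r g) 0 1 * S58IA_ent b (r h) 1 0 = 0 := by
    intro g h
    have e := S58IA_offdiag φ h2 r r' htr c b b' h0 h1 h0' h1' g h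
    rw [hprod' g h] at e
    exact ((map_eq_zero φ).mp e.symm)
  -- one of the eigenlines of `r c` is stable
  have hb0 : b 0 ≠ 0 := b.ne_zero 0
  have hb1 : b 1 ≠ 0 := b.ne_zero 1
  by_cases hB : ∀ g : G, S58IA_ent b (r g) 0 1 = 0
  · -- the line of `b 1` is stable
    have hst : ∀ g : G, ∀ x ∈ Submodule.span K ({b 1} : Set V),
        r g x ∈ Submodule.span K ({b 1} : Set V) := by
      intro g x hx
      obtain ⟨t, rfl⟩ := Submodule.mem_span_singleton.mp hx
      rw [map_smul, S58IA_apply b (r g) 1, hB g, zero_smul, zero_add]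
      exact Submodule.smul_mem _ _ (Submodule.smul_mem _ _ (Submodule.mem_span_singleton_self _))
    rcases hirr _ hst with h | h
    · exact hb1 ((Submodule.span_singleton_eq_bot).mp h)
    · have hmem : b 0 ∈ Submodule.span K ({b 1} : Set V) := h ▸ Submodule.mem_top
      obtain ⟨t, ht⟩ := Submodule.mem_span_singleton.mp hmem
      have e : (1 : K) • b 0 + (-t) • b 1 = 0 := by
        rw [one_smul, neg_smul, ht, add_neg_cancel]
      exact one_ne_zero (S58IA_indep b 1 (-t) e).1
  · push Not at hB
    obtain ⟨g₀, hg₀⟩ := hB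
    have hC : ∀ h : G, S58IA_ent b (r h) 1 0 = 0 := by
      intro h
      rcases mul_eq_zero.mp (hprod g₀ h) with h' | h'
      · exact absurd h' hg₀
      · exact h'
    have hst : ∀ g : G, ∀ x ∈ Submodule.span K ({b 0} : Set V),
        r g x ∈ Submodule.span K ({b 0} : Set V) := by
      intro g x hx
      obtain ⟨t, rfl⟩ := Submodule.mem_span_singleton.mp hx
      rw [map_smul, S58IA_apply b (r g) 0, hC g, zero_smul, add_zero]
      exact Submodule.smul_mem _ _ (Submodule.smul_mem _ _ (Submodule.mem_span_singleton_self _))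
    rcases hirr _ hst with h | h
    · exact hb0 ((Submodule.span_singleton_eq_bot).mp h)
    · have hmem : b 1 ∈ Submodule.span K ({b 0} : Set V) := h ▸ Submodule.mem_top
      obtain ⟨t, ht⟩ := Submodule.mem_span_singleton.mp hmem
      have e : (-t) • b 0 + (1 : K) • b 1 = 0 := by
        rw [one_smul, neg_smul, ht, neg_add_cancel]
      exact one_ne_zero (S58IA_indep b (-t) 1 e).2

/-- **[IRR-ABS]**, monoid form: two representations on planes with corresponding characteristic
polynomials, and an involution `c` with `det (r c) = -1`: if `r` is irreducible, so is `r'`. -/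
theorem S58IA_core [Module.Finite K V] [Module.Finite K' V']
    (hV : Module.finrank K V = 2) (hV' : Module.finrank K' V' = 2)
    (φ : K →+* K') (h2 : (2 : K) ≠ 0)
    (r : G →* Module.End K V) (r' : G →* Module.End K' V')
    (hcp : ∀ g, LinearMap.charpoly (r' g) = (LinearMap.charpoly (r g)).map φ)
    (c : G) (hcc : c * c = 1) (hdet : LinearMap.det (r c) = -1)
    (hirr : ∀ U : Submodule K V, (∀ g : G, ∀ x ∈ U, r g x ∈ U) → U = ⊥ ∨ U = ⊤)
    (U' : Submodule K' V') (hU' : ∀ g : G, ∀ x ∈ U', r' g x ∈ U') : U' = ⊥ ∨ U' = ⊤ := by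
  have hdet' : LinearMap.det (r' c) = -1 := by
    rw [S58IA_det_of_charpoly hV hV' φ (r c) (r' c) (hcp c), hdet, map_neg, map_one]
  exact S58IA_main_trace hV hV' φ h2 r r'
    (fun g => S58IA_trace_of_charpoly φ (r g) (r' g) (hcp g)) c hcc hdet hdet' hirr U' hU'

/-- **[IRR-ABS]**, monoid form, with the determinant condition on the side of `r'`. -/
theorem S58IA_core' [Module.Finite K V] [Module.Finite K' V']
    (hV : Module.finrank K V = 2) (hV' : Module.finrank K' V' = 2)
    (φ : K →+* K') (h2 : (2 : K) ≠ 0)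
    (r : G →* Module.End K V) (r' : G →* Module.End K' V')
    (hcp : ∀ g, LinearMap.charpoly (r' g) = (LinearMap.charpoly (r g)).map φ)
    (c : G) (hcc : c * c = 1) (hdet' : LinearMap.det (r' c) = -1)
    (hirr : ∀ U : Submodule K V, (∀ g : G, ∀ x ∈ U, r g x ∈ U) → U = ⊥ ∨ U = ⊤)
    (U' : Submodule K' V') (hU' : ∀ g : G, ∀ x ∈ U', r' g x ∈ U') : U' = ⊥ ∨ U' = ⊤ := by
  have hdet : LinearMap.det (r c) = -1 := by
    have e := S58IA_det_of_charpoly hV hV' φ (r c) (r' c) (hcp c)
    rw [hdet'] at e
    apply φ.injective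
    rw [← e, map_neg, map_one]
  exact S58IA_core hV hV' φ h2 r r' hcp c hcc hdet hirr U' hU'

end Main

section Final

/-- **[IRR-ABS]** (the shape asked for by the (RES) main file): two representations of a
group on planes with corresponding characteristic polynomials, and an involution `c` with
`det (r c) = -1`: if `r` is irreducible, so is `r'`. -/
theorem S58IA_main {G : Type*} [Group G] {K K' : Type*} [Field K] [Field K'] (φ : K →+* K')
    (h2 : (2 : K) ≠ 0)
    {V V' : Type*} [AddCommGroup V] [Module K V] [Module.Finite K V] [AddCommGroup V']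
    [Module K' V'] [Module.Finite K' V']
    (hV : Module.finrank K V = 2) (hV' : Module.finrank K' V' = 2)
    (r : G →* Module.End K V) (r' : G →* Module.End K' V')
    (hcp : ∀ g, LinearMap.charpoly (r' g) = (LinearMap.charpoly (r g)).map φ)
    (c : G) (hcc : c * c = 1) (hdet : LinearMap.det (r c) = -1)
    (hirr : ∀ L : Submodule K V, (∀ g, ∀ x ∈ L, r g x ∈ L) → L = ⊥ ∨ L = ⊤) :
    ∀ L' : Submodule K' V', (∀ g, ∀ x ∈ L', r' g x ∈ L') → L' = ⊥ ∨ L' = ⊤ :=
  fun L' hL' => S58IA_core hV hV' φ h2 r r' hcp c hcc hdet hirr L' hL'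

/-- **[IRR-ABS]**, same shape, with the determinant condition on the side of `r'`. -/
theorem S58IA_main' {G : Type*} [Group G] {K K' : Type*} [Field K] [Field K'] (φ : K →+* K')
    (h2 : (2 : K) ≠ 0)
    {V V' : Type*} [AddCommGroup V] [Module K V] [Module.Finite K V] [AddCommGroup V']
    [Module K' V'] [Module.Finite K' V']
    (hV : Module.finrank K V = 2) (hV' : Module.finrank K' V' = 2)
    (r : G →* Module.End K V) (r' : G →* Module.End K' V')
    (hcp : ∀ g, LinearMap.charpoly (r' g) = (LinearMap.charpoly (r g)).map φ)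
    (c : G) (hcc : c * c = 1) (hdet' : LinearMap.det (r' c) = -1)
    (hirr : ∀ L : Submodule K V, (∀ g, ∀ x ∈ L, r g x ∈ L) → L = ⊥ ∨ L = ⊤) :
    ∀ L' : Submodule K' V', (∀ g, ∀ x ∈ L', r' g x ∈ L') → L' = ⊥ ∨ L' = ⊤ :=
  fun L' hL' => S58IA_core' hV hV' φ h2 r r' hcp c hcc hdet' hirr L' hL'

end Final

end Fermat.Agent.S58_helper12_IRRABS
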