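import Fermat.Agent.S58_helper18_Contracts

/-!
# S58 piece (BOUND) (helper13): the trivial bound `a_q ≠ ± (q + 1)`

For a Weierstrass curve `W` over `ℤ` and a prime `q`, the reduction `W mod q` has at least one
point (the point at infinity) and at most `2 q + 1` points (for every `x` at most two `y`), so
`apOfModel q = q + 1 - #W(F_q)` satisfies `- q ≤ apOfModel q ≤ q`; in particular it is neither
`q + 1` nor `- (q + 1)`.  No Hasse bound is used, and the reduction may be singular
(Mathlib's `Point` type then only contains the nonsingular points, which is harmless).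
-/

set_option autoImplicit false

open Polynomial

namespace Fermat.Agent.S58_helper13_BOUND

open WeierstrassCurve Fermat.Agent.S58_helper18_Contracts

section Field

variable {F : Type*} [Field F]

/-- The quadratic in `Y` cut out by the Weierstrass equation at a fixed `x`. -/
noncomputable def S58BD_quad (W : WeierstrassCurve.Affine F) (x : F) : F[X] :=
  C (1 : F) * X ^ 2 + C (W.a₁ * x + W.a₃) * X + C (-(x ^ 3 + W.a₂ * x ^ 2 + W.a₄ * x + W.a₆))

theorem S58BD_quad_natDegree (W : WeierstrassCurve.Affine F) (x : F) :
    (S58BD_quad W x).natDegree = 2 :=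
  natDegree_quadratic one_ne_zero

theorem S58BD_quad_ne_zero (W : WeierstrassCurve.Affine F) (x : F) : S58BD_quad W x ≠ 0 := by
  intro h
  have := S58BD_quad_natDegree W x
  rw [h, natDegree_zero] at this
  exact absurd this (by norm_num)

theorem S58BD_quad_isRoot (W : WeierstrassCurve.Affine F) {x y : F} (h : W.Equation x y) :
    (S58BD_quad W x).IsRoot y := by
  rw [WeierstrassCurve.Affine.equation_iff] at h
  simp only [S58BD_quad, IsRoot.def, eval_add, eval_mul, eval_C, eval_pow, eval_X]
  linear_combination h

/-- The injection of the points into `Option (F × F)`. -/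
def S58BD_toOpt (W : WeierstrassCurve.Affine F) : W.Point → Option (F × F)
  | .zero => none
  | .some x y _ => some (x, y)

theorem S58BD_toOpt_injective (W : WeierstrassCurve.Affine F) :
    Function.Injective (S58BD_toOpt W) := by
  rintro (_ | ⟨x₁, y₁, h₁⟩) (_ | ⟨x₂, y₂, h₂⟩) h <;>
    simp only [S58BD_toOpt, Option.some.injEq, Prod.mk.injEq, reduceCtorEq] at h
  · rfl
  · obtain ⟨rfl, rfl⟩ := h; rfl

theorem S58BD_toOpt_mem (W : WeierstrassCurve.Affine F) (P : W.Point) (x y : F)
    (h : S58BD_toOpt W P = some (x, y)) : (S58BD_quad W x).IsRoot y := by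
  rcases P with _ | ⟨x₁, y₁, h₁⟩
  · simp [S58BD_toOpt] at h
  · simp only [S58BD_toOpt, Option.some.injEq, Prod.mk.injEq] at h
    obtain ⟨rfl, rfl⟩ := h
    exact S58BD_quad_isRoot W h₁.1

end Field

section Count

variable {F : Type*} [Field F] [Fintype F] [DecidableEq F]

/-- The finite set of pairs `(x, y)` with `y` a root of the quadratic at `x`. -/
noncomputable def S58BD_pairs (W : WeierstrassCurve.Affine F) : Finset (F × F) :=
  Finset.univ.sigma (fun x : F => (S58BD_quad W x).roots.toFinset) |>.map
    ⟨fun p => (p.1, p.2), fun a b h => by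
      rcases a with ⟨a1, a2⟩; rcases b with ⟨b1, b2⟩
      simp only [Prod.mk.injEq] at h
      obtain ⟨rfl, rfl⟩ := h; rfl⟩

theorem S58BD_pairs_card_le (W : WeierstrassCurve.Affine F) :
    (S58BD_pairs W).card ≤ 2 * Fintype.card F := by
  classical
  rw [S58BD_pairs, Finset.card_map, Finset.card_sigma]
  calc ∑ x : F, ((S58BD_quad W x).roots.toFinset).card
      ≤ ∑ _x : F, 2 := by
        refine Finset.sum_le_sum fun x _ => ?_
        calc ((S58BD_quad W x).roots.toFinset).card
            ≤ Multiset.card (S58BD_quad W x).roots := Multiset.toFinset_card_le _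
          _ ≤ (S58BD_quad W x).natDegree := Polynomial.card_roots' _
          _ = 2 := S58BD_quad_natDegree W x
    _ = 2 * Fintype.card F := by
        rw [Finset.sum_const, Finset.card_univ, smul_eq_mul, mul_comm]

theorem S58BD_mem_pairs (W : WeierstrassCurve.Affine F) {x y : F}
    (h : (S58BD_quad W x).IsRoot y) : (x, y) ∈ S58BD_pairs W := by
  classical
  rw [S58BD_pairs, Finset.mem_map]
  refine ⟨⟨x, y⟩, ?_, rfl⟩
  rw [Finset.mem_sigma]
  refine ⟨Finset.mem_univ _, ?_⟩
  rw [Multiset.mem_toFinset, Polynomial.mem_roots (S58BD_quad_ne_zero W x)]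
  exact h

/-- **The trivial upper bound**: a Weierstrass curve over a finite field `F` has at most
`2 #F + 1` points. -/
theorem S58BD_card_le (W : WeierstrassCurve.Affine F) :
    Nat.card W.Point ≤ 2 * Fintype.card F + 1 := by
  classical
  have hsub : Set.range (S58BD_toOpt W) ⊆
      (↑(insert none ((S58BD_pairs W).map ⟨some, Option.some_injective _⟩)) :
        Set (Option (F × F))) := by
    rintro o ⟨P, rfl⟩
    rw [Finset.mem_coe, Finset.mem_insert]
    rcases hP : S58BD_toOpt W P with _ | ⟨x, y⟩
    · exact Or.inl rfl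
    · right
      rw [Finset.mem_map]
      exact ⟨(x, y), S58BD_mem_pairs W (S58BD_toOpt_mem W P x y hP), rfl⟩
  calc Nat.card W.Point = Nat.card (Set.range (S58BD_toOpt W)) :=
        (Nat.card_range_of_injective (S58BD_toOpt_injective W)).symm
    _ = (Set.range (S58BD_toOpt W)).ncard := Nat.card_coe_set_eq _
    _ ≤ (↑(insert none ((S58BD_pairs W).map ⟨some, Option.some_injective _⟩)) :
          Set (Option (F × F))).ncard := Set.ncard_le_ncard hsub (Finset.finite_toSet _)
    _ = (insert none ((S58BD_pairs W).map ⟨some, Option.some_injective _⟩)).card :=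
        Set.ncard_coe_finset _
    _ ≤ ((S58BD_pairs W).map ⟨some, Option.some_injective _⟩).card + 1 :=
        Finset.card_insert_le _ _
    _ = (S58BD_pairs W).card + 1 := by rw [Finset.card_map]
    _ ≤ 2 * Fintype.card F + 1 := Nat.add_le_add_right (S58BD_pairs_card_le W) 1

omit [DecidableEq F] in
/-- **The trivial lower bound**: there is at least one point. -/
theorem S58BD_card_pos (W : WeierstrassCurve.Affine F) : 0 < Nat.card W.Point := by
  classical
  have : Finite W.Point := Finite.of_injective _ (S58BD_toOpt_injective W)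
  exact Nat.card_pos

end Count

/-- `- q ≤ apOfModel q ≤ q` for every prime `q` (trivial bounds, singular reduction allowed). -/
theorem S58BD_bounds (W : WeierstrassCurve ℤ) (q : ℕ) (hq : q.Prime) :
    -(q : ℤ) ≤ W.apOfModel q ∧ W.apOfModel q ≤ (q : ℤ) := by
  have : Fact q.Prime := ⟨hq⟩
  have hcardF : Nat.card (ZMod q) = q := by
    rw [Nat.card_eq_fintype_card, ZMod.card]
  have hle := S58BD_card_le (W.reductionMod q).toAffine
  have hpos := S58BD_card_pos (W.reductionMod q).toAffine
  rw [ZMod.card] at hle
  have hap : W.apOfModel q = (q : ℤ) + 1 - (Nat.card (W.reductionMod q).toAffine.Point : ℤ) := by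
    simp only [WeierstrassCurve.apOfModel, WeierstrassCurve.traceOfFrobenius,
      WeierstrassCurve.card, hcardF]
  rw [hap]
  constructor <;> omega

/-- **(BOUND)**: the contract `S58C_BOUND`. -/
theorem S58BD_main : S58C_BOUND := by
  intro W q hq
  obtain ⟨h1, h2⟩ := S58BD_bounds W q hq
  constructor
  · intro h; rw [h] at h2; omega
  · intro h; rw [h] at h1
    have : (0 : ℤ) < q := by exact_mod_cast hq.pos
    omega

end Fermat.Agent.S58_helper13_BOUND
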