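import Fermat.Prelude.Def_CuspForm_Newforms

/-!
# S58 piece (NF) (helper13): the newform below a normalized eigenform

The prelude's `CuspForm.IsNewform f` (level `N`) says: `f` is a normalized eigenform and for no
proper divisor `M` of `N` the good eigensystem of `f` occurs at level `M`
(`CuspForm.GoodEigensystemOccursAt f M`: there is a normalized eigenform of level `M` with the
same `qCoeff` at every prime not dividing `N`).

So, for a normalized eigenform `f` of level `N ≠ 0`, the least divisor `M` of `N` at which the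
good eigensystem of `f` occurs carries a newform `h` with the same prime coefficients away
from `N`: any occurrence of the good eigensystem of `h` at a proper divisor `M'` of `M` would be
an occurrence of the good eigensystem of `f` at `M' < M`.
-/

set_option autoImplicit false

namespace Fermat.Agent.S58_helper13_NF

open CuspForm ModularFormClass

/-- The good eigensystem of `f` (level `N`) occurs at the divisor `M` of `N`. -/
def S58NF_occ {N : ℕ} (f : CuspForm (CongruenceSubgroup.Gamma0 N) 2) (M : ℕ) : Prop :=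
  M ∣ N ∧ ∃ g : CuspForm (CongruenceSubgroup.Gamma0 M) 2, g.IsNormalizedEigenform ∧
    ∀ ℓ : ℕ, ℓ.Prime → ¬ ℓ ∣ N → qCoeff g ℓ = qCoeff f ℓ

theorem S58NF_occ_self {N : ℕ} (f : CuspForm (CongruenceSubgroup.Gamma0 N) 2)
    (hf : f.IsNormalizedEigenform) : S58NF_occ f N :=
  ⟨dvd_rfl, f, hf, fun _ _ _ => rfl⟩

/-- Transitivity: an occurrence of the good eigensystem of `h` (level `M`, `M ∣ N`, same prime
coefficients as `f` away from `N`) at a divisor `M'` of `M` is an occurrence of the good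
eigensystem of `f` at `M'`. -/
theorem S58NF_occ_trans {N M M' : ℕ} (f : CuspForm (CongruenceSubgroup.Gamma0 N) 2)
    (h : CuspForm (CongruenceSubgroup.Gamma0 M) 2) (hMN : M ∣ N)
    (hh : ∀ ℓ : ℕ, ℓ.Prime → ¬ ℓ ∣ N → qCoeff h ℓ = qCoeff f ℓ)
    (hM' : M' ∣ M) (hocc : GoodEigensystemOccursAt h M') : S58NF_occ f M' := by
  obtain ⟨g, hg, hgh⟩ := hocc
  refine ⟨hM'.trans hMN, g, hg, fun ℓ hℓ hℓN => ?_⟩
  have hℓM : ¬ ℓ ∣ M := fun hd => hℓN (hd.trans hMN)
  rw [hgh ℓ hℓ hℓM, hh ℓ hℓ hℓN]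

/-- **(NF)**: below every normalized eigenform `f` of level `N ≠ 0` there is a newform `h` of
a level `M ∣ N` with the same `qCoeff` at every prime not dividing `N`. -/
theorem S58NF_main (N : ℕ) (hN : N ≠ 0) (f : CuspForm (CongruenceSubgroup.Gamma0 N) 2)
    (hf : f.IsNormalizedEigenform) :
    ∃ (M : ℕ) (_ : M ∣ N) (h : CuspForm (CongruenceSubgroup.Gamma0 M) 2), h.IsNewform ∧
      ∀ ℓ : ℕ, ℓ.Prime → ¬ ℓ ∣ N → ModularFormClass.qCoeff h ℓ = ModularFormClass.qCoeff f ℓ := by
  classical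
  have hex : ∃ M : ℕ, S58NF_occ f M := ⟨N, S58NF_occ_self f hf⟩
  obtain ⟨hMN, h, hh, hcoef⟩ := Nat.find_spec hex
  have hmin : ∀ M' : ℕ, M' < Nat.find hex → ¬ S58NF_occ f M' := fun M' hlt => Nat.find_min hex hlt
  have hM0 : Nat.find hex ≠ 0 := by
    intro h0
    rw [h0] at hMN
    exact hN (Nat.eq_zero_of_zero_dvd hMN)
  refine ⟨Nat.find hex, hMN, h, ⟨hh, fun M' hM'M hne hocc => ?_⟩, hcoef⟩
  have hlt : M' < Nat.find hex :=
    lt_of_le_of_ne (Nat.le_of_dvd (Nat.pos_of_ne_zero hM0) hM'M) hne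
  exact hmin M' hlt (S58NF_occ_trans f h hMN hcoef hM'M hocc)

/-- Variant with the extra information that the level `M` of the newform is positive and that
the newform is in particular a normalized eigenform. -/
theorem S58NF_main_pos (N : ℕ) (hN : N ≠ 0) (f : CuspForm (CongruenceSubgroup.Gamma0 N) 2)
    (hf : f.IsNormalizedEigenform) :
    ∃ (M : ℕ) (_ : M ∣ N) (_ : 0 < M) (h : CuspForm (CongruenceSubgroup.Gamma0 M) 2),
      h.IsNewform ∧ h.IsNormalizedEigenform ∧
      ∀ ℓ : ℕ, ℓ.Prime → ¬ ℓ ∣ N → ModularFormClass.qCoeff h ℓ = ModularFormClass.qCoeff f ℓ := by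
  obtain ⟨M, hMN, h, hnew, hcoef⟩ := S58NF_main N hN f hf
  have hM0 : M ≠ 0 := by
    rintro rfl
    exact hN (Nat.eq_zero_of_zero_dvd hMN)
  exact ⟨M, hMN, Nat.pos_of_ne_zero hM0, h, hnew, hnew.1, hcoef⟩

end Fermat.Agent.S58_helper13_NF
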