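import Mathlib

/-!
# S58, piece (RES), part 1 (helper14): an involution inverts the roots of unity of odd order

Elementary Artin–Schreier.  Let `Ω` be a field of characteristic `≠ 2` in which every element is a
square, and `c` a ring endomorphism of `Ω` with `c ∘ c = id` and `c ≠ id`.  Then
* there is `i` with `i * i = -1` and `c i = -i` (`S58INV_exists_i`);
* every fixed element is `±` the square of a fixed element (`S58INV_sq_or_neg_sq`);
* a sum of two squares of fixed elements is the square of a fixed element (`S58INV_add_sq`);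
* `-1` is not the square of a fixed element (`S58INV_not_neg_one`);
* a fixed root of unity of odd order is `1` (`S58INV_fixed_root`);
* `c ζ = ζ⁻¹` for every root of unity `ζ` of odd order (`S58INV_inv`).
-/

set_option autoImplicit false
set_option linter.unusedSectionVars false
set_option linter.unusedVariables false

namespace Fermat.Agent.S58_helper14_INVOL

section

variable {Ω : Type*} [Field Ω]

theorem S58INV_exists_i (hsq : ∀ x : Ω, ∃ y : Ω, y * y = x)
    (c : Ω →+* Ω) (hcc : ∀ x, c (c x) = x) (hc1 : ∃ β, c β ≠ β) :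
    ∃ i : Ω, i * i = -1 ∧ c i = -i := by
  obtain ⟨β, hβ⟩ := hc1
  set δ : Ω := β - c β with hδdef
  have hδ : δ ≠ 0 := by
    intro h
    apply hβ
    have : β = c β := sub_eq_zero.mp h
    exact this.symm
  have hcδ : c δ = -δ := by
    rw [hδdef, map_sub, hcc]
    ring
  obtain ⟨α, hα⟩ := hsq δ
  have hcα : c α * c α = -δ := by
    rw [← map_mul, hα, hcδ]
  refine ⟨α * c α / δ, ?_, ?_⟩
  · have e : α * c α / δ * (α * c α / δ) = (α * α) * (c α * c α) / (δ * δ) := by
      field_simp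
    rw [e, hα, hcα]
    field_simp
  · rw [map_div₀, map_mul, hcc, hcδ]
    field_simp

variable (hsq : ∀ x : Ω, ∃ y : Ω, y * y = x) (c : Ω →+* Ω) (hcc : ∀ x, c (c x) = x)
  (i : Ω) (hi : i * i = -1) (hci : c i = -i)

include hsq hcc hi hci in
theorem S58INV_sq_or_neg_sq (x : Ω) (hx : c x = x) :
    ∃ e : Ω, c e = e ∧ (x = e * e ∨ -x = e * e) := by
  obtain ⟨w, hw⟩ := hsq x
  have h1 : c w * c w = w * w := by rw [← map_mul, hw, hx]
  have h2 : (c w - w) * (c w + w) = 0 := by
    have : (c w - w) * (c w + w) = c w * c w - w * w := by ring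
    rw [this, h1, sub_self]
  rcases mul_eq_zero.mp h2 with h | h
  · refine ⟨w, sub_eq_zero.mp h, Or.inl hw.symm⟩
  · have hcw : c w = -w := eq_neg_of_add_eq_zero_left h
    refine ⟨w * i, ?_, Or.inr ?_⟩
    · rw [map_mul, hcw, hci]
      ring
    · have : w * i * (w * i) = (w * w) * (i * i) := by ring
      rw [this, hw, hi]
      ring

include hsq hcc hi hci in
theorem S58INV_add_sq (a b : Ω) (ha : c a = a) (hb : c b = b) :
    ∃ e : Ω, c e = e ∧ a * a + b * b = e * e := by
  obtain ⟨w, hw⟩ := hsq (a + i * b)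
  refine ⟨w * c w, ?_, ?_⟩
  · rw [map_mul, hcc]
    ring
  · have h1 : c w * c w = a - i * b := by
      rw [← map_mul, hw, map_add, map_mul, ha, hb, hci]
      ring
    have : w * c w * (w * c w) = (w * w) * (c w * c w) := by ring
    rw [this, hw, h1]
    have : (a + i * b) * (a - i * b) = a * a - (i * i) * (b * b) := by ring
    rw [this, hi]
    ring

include hi hci in
theorem S58INV_not_neg_one (h2 : (2 : Ω) ≠ 0) (e : Ω) (he : c e = e) : e * e ≠ -1 := by
  intro h
  have hi0 : i ≠ 0 := by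
    rintro rfl
    rw [mul_zero] at hi
    have : (1 : Ω) = 0 := by
      have := congrArg (fun t => -t) hi
      simpa using this.symm
    exact one_ne_zero this
  have h1 : (e - i) * (e + i) = 0 := by
    have : (e - i) * (e + i) = e * e - i * i := by ring
    rw [this, h, hi, sub_self]
  have hfix : c i = i := by
    rcases mul_eq_zero.mp h1 with h' | h'
    · have : e = i := sub_eq_zero.mp h'
      rw [← this]
      exact he
    · have : e = -i := eq_neg_of_add_eq_zero_left h'
      have h3 : c (-i) = -i := by rw [← this]; exact he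
      rw [map_neg] at h3
      exact neg_injective h3
  rw [hci] at hfix
  have : (2 : Ω) * i = 0 := by
    have : i + i = 0 := by
      nth_rewrite 1 [← hfix]
      ring
    rw [two_mul]
    exact this
  rcases mul_eq_zero.mp this with h' | h'
  · exact h2 h'
  · exact hi0 h'

/-- the positive cone: nonzero squares of fixed elements -/
def S58INV_P (c : Ω →+* Ω) (x : Ω) : Prop := ∃ e : Ω, c e = e ∧ e ≠ 0 ∧ x = e * e

theorem S58INV_P_one : S58INV_P c (1 : Ω) := ⟨1, map_one c, one_ne_zero, (mul_one 1).symm⟩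

theorem S58INV_P_ne_zero {x : Ω} (hx : S58INV_P c x) : x ≠ 0 := by
  obtain ⟨e, -, he0, rfl⟩ := hx
  exact mul_ne_zero he0 he0

theorem S58INV_P_mul {x y : Ω} (hx : S58INV_P c x) (hy : S58INV_P c y) :
    S58INV_P c (x * y) := by
  obtain ⟨e, he, he0, rfl⟩ := hx
  obtain ⟨f, hf, hf0, rfl⟩ := hy
  exact ⟨e * f, by rw [map_mul, he, hf], mul_ne_zero he0 hf0, by ring⟩

theorem S58INV_P_pow {x : Ω} (hx : S58INV_P c x) (n : ℕ) : S58INV_P c (x ^ n) := by
  induction n with
  | zero => rw [pow_zero]; exact S58INV_P_one c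
  | succ n ih => rw [pow_succ]; exact S58INV_P_mul c ih hx

include hsq hcc hi hci in
theorem S58INV_P_add (h2 : (2 : Ω) ≠ 0) {x y : Ω} (hx : S58INV_P c x) (hy : S58INV_P c y) :
    S58INV_P c (x + y) := by
  obtain ⟨a, ha, ha0, rfl⟩ := hx
  obtain ⟨b, hb, hb0, rfl⟩ := hy
  obtain ⟨e, he, hab⟩ := S58INV_add_sq hsq c hcc i hi hci a b ha hb
  refine ⟨e, he, ?_, hab⟩
  rintro rfl
  rw [mul_zero] at hab
  -- `(a / b) ^ 2 = -1`
  have hfix : c (a / b) = a / b := by rw [map_div₀, ha, hb]
  apply S58INV_not_neg_one c i hi hci h2 (a / b) hfix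
  have : a / b * (a / b) = (a * a) / (b * b) := by field_simp
  rw [this, eq_neg_of_add_eq_zero_left hab]
  field_simp

include hsq hcc hi hci in
theorem S58INV_P_geom (h2 : (2 : Ω) ≠ 0) {x : Ω} (hx : S58INV_P c x) (n : ℕ) :
    S58INV_P c (∑ j ∈ Finset.range (n + 1), x ^ j) := by
  induction n with
  | zero => simpa using S58INV_P_one c
  | succ n ih =>
    rw [Finset.sum_range_succ]
    exact S58INV_P_add hsq c hcc i hi hci h2 ih (S58INV_P_pow c hx (n + 1))

include hsq hcc hi hci in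
/-- a fixed root of unity of odd order is `1` -/
theorem S58INV_fixed_root_aux (h2 : (2 : Ω) ≠ 0) {n : ℕ} (hn : Odd n) (η : Ω)
    (hη : η ^ n = 1) (hfix : c η = η) : η = 1 := by
  obtain ⟨m, rfl⟩ : ∃ m, n = m + 1 := by
    obtain ⟨k, hk⟩ := hn
    exact ⟨2 * k, hk⟩
  have hη0 : η ≠ 0 := by
    rintro rfl
    rw [zero_pow (Nat.succ_ne_zero m)] at hη
    exact zero_ne_one hη
  obtain ⟨e, he, h | h⟩ := S58INV_sq_or_neg_sq hsq c hcc i hi hci η hfix
  · -- `η` is positive
    have he0 : e ≠ 0 := by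
      rintro rfl
      rw [mul_zero] at h
      exact hη0 h
    have hP : S58INV_P c η := ⟨e, he, he0, h⟩
    have hsum := S58INV_P_ne_zero c (S58INV_P_geom hsq c hcc i hi hci h2 hP m)
    have hg : (∑ j ∈ Finset.range (m + 1), η ^ j) * (η - 1) = 0 := by
      rw [geom_sum_mul, hη, sub_self]
    rcases mul_eq_zero.mp hg with h' | h'
    · exact absurd h' hsum
    · exact sub_eq_zero.mp h'
  · -- `-η` is positive: impossible
    exfalso
    have he0 : e ≠ 0 := by
      rintro rfl
      rw [mul_zero] at h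
      exact hη0 (neg_eq_zero.mp h)
    have hP : S58INV_P c (-η) := ⟨e, he, he0, h⟩
    have hP' := S58INV_P_pow c hP (m + 1)
    rw [Odd.neg_pow hn, hη] at hP'
    obtain ⟨f, hf, -, hf2⟩ := hP'
    exact S58INV_not_neg_one c i hi hci h2 f hf hf2.symm

end

/-- **A fixed root of unity of odd order is `1`.** -/
theorem S58INV_fixed_root {Ω : Type*} [Field Ω] (hsq : ∀ x : Ω, ∃ y : Ω, y * y = x)
    (h2 : (2 : Ω) ≠ 0) (c : Ω →+* Ω) (hcc : ∀ x, c (c x) = x) (hc1 : ∃ β, c β ≠ β)
    {n : ℕ} (hn : Odd n) (η : Ω) (hη : η ^ n = 1) (hfix : c η = η) : η = 1 := by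
  obtain ⟨i, hi, hci⟩ := S58INV_exists_i hsq c hcc hc1
  exact S58INV_fixed_root_aux hsq c hcc i hi hci h2 hn η hη hfix

/-- **An involution `≠ id` inverts every root of unity of odd order.** -/
theorem S58INV_inv {Ω : Type*} [Field Ω] (hsq : ∀ x : Ω, ∃ y : Ω, y * y = x)
    (h2 : (2 : Ω) ≠ 0) (c : Ω →+* Ω) (hcc : ∀ x, c (c x) = x) (hc1 : ∃ β, c β ≠ β)
    {n : ℕ} (hn : Odd n) (ζ : Ω) (hζ : ζ ^ n = 1) : c ζ = ζ⁻¹ := by
  have hη : (ζ * c ζ) ^ n = 1 := by
    rw [mul_pow, ← map_pow, hζ, map_one, mul_one]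
  have hfix : c (ζ * c ζ) = ζ * c ζ := by
    rw [map_mul, hcc, mul_comm]
  have h1 := S58INV_fixed_root hsq h2 c hcc hc1 hn (ζ * c ζ) hη hfix
  exact eq_inv_of_mul_eq_one_right h1

/-- The same for an element of order two of the absolute Galois group of `ℚ`. -/
theorem S58INV_galois (c : AlgebraicClosure ℚ ≃ₐ[ℚ] AlgebraicClosure ℚ) (hc2 : c * c = 1)
    (hc1 : c ≠ 1) {n : ℕ} (hn : Odd n) (ζ : AlgebraicClosure ℚ) (hζ : ζ ^ n = 1) :
    c ζ = ζ⁻¹ := by
  have hsq : ∀ x : AlgebraicClosure ℚ, ∃ y : AlgebraicClosure ℚ, y * y = x := by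
    intro x
    obtain ⟨y, hy⟩ := IsAlgClosed.exists_pow_nat_eq x (n := 2) (by norm_num)
    exact ⟨y, by rw [← hy]; ring⟩
  have h2 : (2 : AlgebraicClosure ℚ) ≠ 0 := two_ne_zero
  have hcc : ∀ x, (c : AlgebraicClosure ℚ →+* AlgebraicClosure ℚ)
      ((c : AlgebraicClosure ℚ →+* AlgebraicClosure ℚ) x) = x := by
    intro x
    have := congrArg (fun f : AlgebraicClosure ℚ ≃ₐ[ℚ] AlgebraicClosure ℚ => f x) hc2
    simpa using this
  have hne : ∃ β, (c : AlgebraicClosure ℚ →+* AlgebraicClosure ℚ) β ≠ β := by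
    by_contra hall
    push_neg at hall
    apply hc1
    ext x
    exact hall x
  exact S58INV_inv hsq h2 (c : AlgebraicClosure ℚ →+* AlgebraicClosure ℚ) hcc hne hn ζ hζ

end Fermat.Agent.S58_helper14_INVOL
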