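import Mathlib
import Fermat.Prelude.Def_GaloisRep_Adic
import Fermat.Prelude.Def_GaloisRep_LocalConditions
import Fermat.Agent.G_helper9_FROBDENS
import Fermat.Agent.S31_helper20_ABS

/-!
# S58, piece (CMP) (helper14): comparison of characteristic polynomials by Frobenius density

`S58CMP_main`: let `ρ` be an adic Galois representation over a local ring `O`, `I` an ideal of `O`
containing a power of the maximal ideal, and `r` a representation of `G_ℚ` on a free module of
rank 2 over a ring `R₂` factoring through a finite level, with a ring homomorphism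
`φ : R₂ →+* O ⧸ I`.  If the characteristic polynomials of `ρ σ` and `r σ` agree in `(O ⧸ I)[X]`
at every Frobenius element `σ` at every prime outside a finite set `S`, they agree at every
element of `G_ℚ`.

No isomorphism of representations and no Brauer–Nesbitt: only Frobenius density at finite level
(`PG_frobenius_density`) and "the characteristic polynomial of a power of a `2 × 2` matrix is a
function of its characteristic polynomial".
-/

set_option autoImplicit false
set_option linter.unusedSectionVars false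
set_option linter.unusedVariables false
set_option linter.style.haveILetI false
set_option linter.unusedSimpArgs false

open Polynomial IsLocalRing

namespace Fermat.Agent.S58_helper14_CMP

open Fermat.Agent.S31_helper20_ABS

/-- the absolute Galois group of `ℚ` -/
abbrev S58CMP_GQ : Type := AlgebraicClosure ℚ ≃ₐ[ℚ] AlgebraicClosure ℚ

/-! ### `2 × 2` matrices -/

theorem S58CMP_charpoly_eq_iff {R : Type*} [CommRing R] [Nontrivial R]
    (M N : Matrix (Fin 2) (Fin 2) R) :
    M.charpoly = N.charpoly ↔ M.trace = N.trace ∧ M.det = N.det := by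
  constructor
  · intro h
    rw [Matrix.charpoly_fin_two, Matrix.charpoly_fin_two] at h
    have h1 := congrArg (fun P : R[X] => P.coeff 1) h
    have h0 := congrArg (fun P : R[X] => P.coeff 0) h
    simp only [coeff_add, coeff_sub, coeff_C_mul, coeff_X_one, coeff_X_pow, coeff_C_zero,
      coeff_X_zero, mul_one, mul_zero] at h1 h0
    simp at h1 h0
    exact ⟨h1, h0⟩
  · rintro ⟨h1, h0⟩
    rw [Matrix.charpoly_fin_two, Matrix.charpoly_fin_two, h1, h0]

theorem S58CMP_trace_det_pow {R : Type*} [CommRing R] (M N : Matrix (Fin 2) (Fin 2) R)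
    (h : M.trace = N.trace ∧ M.det = N.det) (b : ℕ) :
    (M ^ b).trace = (N ^ b).trace ∧ (M ^ b).det = (N ^ b).det := by
  refine ⟨?_, ?_⟩
  · rw [S31A_trace_pow, S31A_trace_pow, h.1, h.2]
  · rw [Matrix.det_pow, Matrix.det_pow, h.2]

/-! ### a representation factoring through a finite level -/

theorem S58CMP_eq_of_agree {X : Type*} [Monoid X] (M : S58CMP_GQ →* X)
    (L : IntermediateField ℚ (AlgebraicClosure ℚ))
    (hL : ∀ σ : S58CMP_GQ, (∀ x ∈ L, σ x = x) → M σ = 1)
    (g h : S58CMP_GQ) (hgh : ∀ x ∈ L, g x = h x) : M g = M h := by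
  have h1 : M (g⁻¹ * h) = 1 := by
    apply hL
    intro x hx
    rw [AlgEquiv.mul_apply, ← hgh x hx]
    exact AlgEquiv.symm_apply_apply g x
  have h2 : M h = M g * M (g⁻¹ * h) := by
    rw [← map_mul, mul_inv_cancel_left]
  rw [h2, h1, mul_one]

/-- **Abstract density.** Two matrix representations of `G_ℚ` over the same ring, both factoring
through a finite level, with equal trace and determinant at every Frobenius element at every prime
outside a finite set, have equal trace and determinant everywhere. -/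
theorem S58CMP_density {R : Type} [CommRing R]
    (M N : S58CMP_GQ →* Matrix (Fin 2) (Fin 2) R)
    (hM : GaloisFactorsThroughFiniteLevel M) (hN : GaloisFactorsThroughFiniteLevel N)
    (S : Finset ℕ)
    (hF : ∀ ℓ : ℕ, ℓ.Prime → ℓ ∉ S → ∀ A : ValuationSubring (AlgebraicClosure ℚ),
      A.LiesOverPrime ℓ → ∀ σ : S58CMP_GQ, A.IsFrobeniusAt σ ℓ →
        (M σ).trace = (N σ).trace ∧ (M σ).det = (N σ).det)
    (g : S58CMP_GQ) : (M g).trace = (N g).trace ∧ (M g).det = (N g).det := by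
  obtain ⟨L₁, hL₁fd, hL₁⟩ := hM
  obtain ⟨L₂, hL₂fd, hL₂⟩ := hN
  haveI := hL₁fd
  haveI := hL₂fd
  haveI : FiniteDimensional ℚ (L₁ ⊔ L₂ : IntermediateField ℚ (AlgebraicClosure ℚ)) :=
    IntermediateField.finiteDimensional_sup L₁ L₂
  obtain ⟨ℓ, A, σ, b, hℓ, hℓS, hA, hσ, hg⟩ :=
    Fermat.Agent.G_helper9_FROBDENS.PG_frobenius_density (L₁ ⊔ L₂) g S
  have e1 : M g = M σ ^ b := by
    rw [← map_pow]
    exact S58CMP_eq_of_agree M L₁ hL₁ g (σ ^ b)
      (fun x hx => hg x ((le_sup_left : L₁ ≤ L₁ ⊔ L₂) hx))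
  have e2 : N g = N σ ^ b := by
    rw [← map_pow]
    exact S58CMP_eq_of_agree N L₂ hL₂ g (σ ^ b)
      (fun x hx => hg x ((le_sup_right : L₂ ≤ L₁ ⊔ L₂) hx))
  rw [e1, e2]
  exact S58CMP_trace_det_pow _ _ (hF ℓ hℓ hℓS A hA σ hσ) b

/-! ### the matrix representation attached to a module representation -/

/-- The matrix representation, with coefficients pushed along `φ`, of a representation on a module
with a basis indexed by `Fin 2`. -/
noncomputable def S58CMP_matRep {R₁ R : Type} [CommRing R₁] [CommRing R] {V : Type}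
    [AddCommGroup V] [Module R₁ V] (b : Module.Basis (Fin 2) R₁ V)
    (r : S58CMP_GQ →* Module.End R₁ V) (φ : R₁ →+* R) :
    S58CMP_GQ →* Matrix (Fin 2) (Fin 2) R :=
  ((φ.mapMatrix : Matrix (Fin 2) (Fin 2) R₁ →+* Matrix (Fin 2) (Fin 2) R) : _ →* _).comp
    (((LinearMap.toMatrixAlgEquiv b : Module.End R₁ V ≃ₐ[R₁] Matrix (Fin 2) (Fin 2) R₁) :
      Module.End R₁ V →* Matrix (Fin 2) (Fin 2) R₁).comp r)

theorem S58CMP_matRep_apply {R₁ R : Type} [CommRing R₁] [CommRing R] {V : Type}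
    [AddCommGroup V] [Module R₁ V] (b : Module.Basis (Fin 2) R₁ V)
    (r : S58CMP_GQ →* Module.End R₁ V) (φ : R₁ →+* R) (g : S58CMP_GQ) :
    S58CMP_matRep b r φ g = (LinearMap.toMatrix b b (r g)).map φ := rfl

theorem S58CMP_matRep_charpoly {R₁ R : Type} [CommRing R₁] [CommRing R] {V : Type}
    [AddCommGroup V] [Module R₁ V] [Module.Free R₁ V] [Module.Finite R₁ V]
    (b : Module.Basis (Fin 2) R₁ V)
    (r : S58CMP_GQ →* Module.End R₁ V) (φ : R₁ →+* R) (g : S58CMP_GQ) :
    (S58CMP_matRep b r φ g).charpoly = (LinearMap.charpoly (r g)).map φ := by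
  rw [S58CMP_matRep_apply, Matrix.charpoly_map, LinearMap.charpoly_toMatrix]

theorem S58CMP_matRep_level {R₁ R : Type} [CommRing R₁] [CommRing R] {V : Type}
    [AddCommGroup V] [Module R₁ V] (b : Module.Basis (Fin 2) R₁ V)
    (r : S58CMP_GQ →* Module.End R₁ V) (φ : R₁ →+* R)
    (hr : GaloisFactorsThroughFiniteLevel r) :
    GaloisFactorsThroughFiniteLevel (S58CMP_matRep b r φ) := by
  obtain ⟨L, hLfd, hL⟩ := hr
  refine ⟨L, hLfd, fun σ hσ => ?_⟩
  rw [S58CMP_matRep_apply, hL σ hσ, LinearMap.toMatrix_one]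
  exact (φ.mapMatrix : Matrix (Fin 2) (Fin 2) R₁ →+* Matrix (Fin 2) (Fin 2) R).map_one

/-- An adic representation modulo an ideal containing a power of the maximal ideal factors through
a finite level. -/
theorem S58CMP_matRep_level_adic {O : Type} [CommRing O] [IsLocalRing O] (ρ : GaloisRepAdic O)
    (b : Module.Basis (Fin 2) O ρ.V) (I : Ideal O) (n : ℕ) (hI : maximalIdeal O ^ n ≤ I) :
    GaloisFactorsThroughFiniteLevel (S58CMP_matRep b ρ.ρ (Ideal.Quotient.mk I)) := by
  obtain ⟨L, hLfd, hL⟩ := ρ.isAdicContinuous n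
  refine ⟨L, hLfd, fun σ hσ => ?_⟩
  rw [S58CMP_matRep_apply]
  ext i j
  have h1 : (S31A_mat ρ b σ - 1) i j ∈ I :=
    hI (S31A_mat_sub_one_mem ρ b (maximalIdeal O ^ n) σ (hL σ hσ) i j)
  have h2 : Ideal.Quotient.mk I ((S31A_mat ρ b σ - 1) i j) = 0 :=
    Ideal.Quotient.eq_zero_iff_mem.mpr h1
  rw [Matrix.sub_apply, map_sub, sub_eq_zero] at h2
  rw [Matrix.map_apply]
  change Ideal.Quotient.mk I (S31A_mat ρ b σ i j) = _
  rw [h2, Matrix.one_apply, Matrix.one_apply]
  split_ifs
  · exact map_one _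
  · exact map_zero _

/-! ### the comparison theorem -/

/-- **(CMP), general form**: two module representations pushed to a common ring `R`. -/
theorem S58CMP_main_gen {R₁ R₂ R : Type} [CommRing R₁] [CommRing R₂] [CommRing R]
    {V₁ V₂ : Type} [AddCommGroup V₁] [Module R₁ V₁] [Module.Free R₁ V₁] [Module.Finite R₁ V₁]
    [AddCommGroup V₂] [Module R₂ V₂] [Module.Free R₂ V₂] [Module.Finite R₂ V₂]
    (b₁ : Module.Basis (Fin 2) R₁ V₁) (b₂ : Module.Basis (Fin 2) R₂ V₂)
    (r₁ : S58CMP_GQ →* Module.End R₁ V₁) (r₂ : S58CMP_GQ →* Module.End R₂ V₂)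
    (φ₁ : R₁ →+* R) (φ₂ : R₂ →+* R)
    (h₁ : GaloisFactorsThroughFiniteLevel (S58CMP_matRep b₁ r₁ φ₁))
    (h₂ : GaloisFactorsThroughFiniteLevel (S58CMP_matRep b₂ r₂ φ₂))
    (S : Finset ℕ)
    (hF : ∀ ℓ : ℕ, ℓ.Prime → ℓ ∉ S → ∀ A : ValuationSubring (AlgebraicClosure ℚ),
      A.LiesOverPrime ℓ → ∀ σ : S58CMP_GQ, A.IsFrobeniusAt σ ℓ →
        (LinearMap.charpoly (r₁ σ)).map φ₁ = (LinearMap.charpoly (r₂ σ)).map φ₂)
    (g : S58CMP_GQ) :
    (LinearMap.charpoly (r₁ g)).map φ₁ = (LinearMap.charpoly (r₂ g)).map φ₂ := by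
  rcases subsingleton_or_nontrivial R with hR | hR
  · haveI := hR
    exact Subsingleton.elim _ _
  · haveI := hR
    rw [← S58CMP_matRep_charpoly b₁ r₁ φ₁ g, ← S58CMP_matRep_charpoly b₂ r₂ φ₂ g,
      S58CMP_charpoly_eq_iff]
    refine S58CMP_density _ _ h₁ h₂ S (fun ℓ hℓ hℓS A hA σ hσ => ?_) g
    rw [← S58CMP_charpoly_eq_iff, S58CMP_matRep_charpoly, S58CMP_matRep_charpoly]
    exact hF ℓ hℓ hℓS A hA σ hσ

/-- **(CMP)**: an adic representation `ρ` modulo `I ⊇ 𝔪 ^ n` against a finite-level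
representation `r` on a free module of rank 2 (think `r = W[lam ^ k]`, `I = (lam ^ k)`). -/
theorem S58CMP_main {O : Type} [CommRing O] [IsLocalRing O] (ρ : GaloisRepAdic O)
    (I : Ideal O) (n : ℕ) (hI : maximalIdeal O ^ n ≤ I)
    {R₂ : Type} [CommRing R₂] [Nontrivial R₂] {V₂ : Type} [AddCommGroup V₂] [Module R₂ V₂]
    [Module.Free R₂ V₂] [Module.Finite R₂ V₂] (hV₂ : Module.finrank R₂ V₂ = 2)
    (r : S58CMP_GQ →* Module.End R₂ V₂)
    (hr : GaloisFactorsThroughFiniteLevel r) (φ : R₂ →+* O ⧸ I) (S : Finset ℕ)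
    (hF : ∀ ℓ : ℕ, ℓ.Prime → ℓ ∉ S → ∀ A : ValuationSubring (AlgebraicClosure ℚ),
      A.LiesOverPrime ℓ → ∀ σ : S58CMP_GQ, A.IsFrobeniusAt σ ℓ →
        (LinearMap.charpoly (ρ.ρ σ)).map (Ideal.Quotient.mk I)
          = (LinearMap.charpoly (r σ)).map φ)
    (g : S58CMP_GQ) :
    (LinearMap.charpoly (ρ.ρ g)).map (Ideal.Quotient.mk I)
      = (LinearMap.charpoly (r g)).map φ := by
  let b₁ : Module.Basis (Fin 2) O ρ.V := Module.finBasisOfFinrankEq O ρ.V ρ.finrank_eq
  let b₂ : Module.Basis (Fin 2) R₂ V₂ := Module.finBasisOfFinrankEq R₂ V₂ hV₂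
  exact S58CMP_main_gen b₁ b₂ ρ.ρ r (Ideal.Quotient.mk I) φ
    (S58CMP_matRep_level_adic ρ b₁ I n hI) (S58CMP_matRep_level b₂ r φ hr) S hF g

end Fermat.Agent.S58_helper14_CMP
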