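import Mathlib
import Fermat.Agent.S58_helper14_CMP

/-!
# S58, piece (CMP), consumers (helper14)

`S58CMPC_charpoly_of_levels`: let `ρ` be an adic Galois representation over a discrete valuation
ring `O` in which the prime `lam` is a nonzero non-unit.  Suppose that for every `k` there is a
representation `r_k` of `G_ℚ` on a free `ZMod (lam ^ (k + 1))`-module of rank 2, factoring through
a finite level, whose Frobenius characteristic polynomials outside a finite set `S` are the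
reductions of the same integer polynomials as those of `ρ`, and that `r_k g` has characteristic
polynomial `Q mod lam ^ (k + 1)` for a fixed integer polynomial `Q`.  Then `ρ g` has
characteristic polynomial `Q`.

Consumers: `S58CMPC_unipotent` (`Q = (X - 1) ^ 2` on inertia) and `S58CMPC_frob_coeff`
(`Q = X ^ 2 - a X + ℓ` at a Frobenius element).
-/

set_option autoImplicit false
set_option linter.unusedSectionVars false
set_option linter.unusedVariables false
set_option linter.style.haveILetI false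
set_option linter.unusedSimpArgs false

open Polynomial IsLocalRing

namespace Fermat.Agent.S58_helper14_CMPC

open Fermat.Agent.S58_helper14_CMP

/-- The ring homomorphism `ZMod n →+* R` for a ring `R` in which `n = 0`. -/
noncomputable def S58CMPC_zmodHom (n : ℕ) (R : Type*) [CommRing R] (h : (n : R) = 0) :
    ZMod n →+* R :=
  haveI : CharP R (ringChar R) := ringChar.charP R
  ZMod.castHom (ringChar.dvd h) R

theorem S58CMPC_natCast_quot {O : Type*} [CommRing O] (x : ℕ) :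
    ((x : ℕ) : O ⧸ Ideal.span {((x : ℕ) : O)}) = 0 := by
  have h : Ideal.Quotient.mk (Ideal.span {((x : ℕ) : O)}) ((x : ℕ) : O) = 0 :=
    Ideal.Quotient.eq_zero_iff_mem.mpr (Ideal.subset_span rfl)
  rwa [map_natCast] at h

/-- In a discrete valuation ring every nonzero principal ideal contains a power of the maximal
ideal. -/
theorem S58CMPC_pow_le_span {O : Type*} [CommRing O] [IsDomain O] [IsDiscreteValuationRing O]
    (x : O) (hx : x ≠ 0) : ∃ n : ℕ, maximalIdeal O ^ n ≤ Ideal.span {x} := by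
  obtain ⟨ϖ, hϖ⟩ := IsDiscreteValuationRing.exists_irreducible O
  have hne : Ideal.span {x} ≠ ⊥ := by
    rw [Ne, Ideal.span_singleton_eq_bot]
    exact hx
  obtain ⟨n, hn⟩ := IsDiscreteValuationRing.ideal_eq_span_pow_irreducible hne hϖ
  refine ⟨n, ?_⟩
  rw [hn, hϖ.maximalIdeal_eq, Ideal.span_singleton_pow]

/-- A discrete valuation ring is `x`-adically separated for every non-unit `x`. -/
theorem S58CMPC_separated {O : Type*} [CommRing O] [IsDomain O] [IsDiscreteValuationRing O]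
    (x : O) (hx : x ∈ maximalIdeal O) (y : O)
    (h : ∀ k : ℕ, y ∈ Ideal.span {x ^ (k + 1)}) : y = 0 := by
  have hI : Ideal.span {x} ≠ ⊤ := by
    intro htop
    rw [Ideal.span_singleton_eq_top] at htop
    exact hx htop
  have hbot := Ideal.iInf_pow_eq_bot_of_isLocalRing (Ideal.span {x}) hI
  have hy : y ∈ ⨅ i : ℕ, Ideal.span {x} ^ i := by
    rw [Ideal.mem_iInf]
    intro i
    rcases i with _ | k
    · rw [pow_zero, Ideal.one_eq_top]
      exact Submodule.mem_top
    · rw [Ideal.span_singleton_pow]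
      exact h k
  rw [hbot] at hy
  exact hy

/-- Two polynomials over a discrete valuation ring which agree modulo `x ^ (k + 1)` for every `k`
(`x` a non-unit) are equal. -/
theorem S58CMPC_poly_eq {O : Type*} [CommRing O] [IsDomain O] [IsDiscreteValuationRing O]
    (x : O) (hx : x ∈ maximalIdeal O) (P Q : O[X])
    (h : ∀ k : ℕ, P.map (Ideal.Quotient.mk (Ideal.span {x ^ (k + 1)}))
      = Q.map (Ideal.Quotient.mk (Ideal.span {x ^ (k + 1)}))) : P = Q := by
  ext i
  rw [← sub_eq_zero]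
  refine S58CMPC_separated x hx _ (fun k => ?_)
  have h1 := congrArg (fun R => R.coeff i) (h k)
  simp only [coeff_map] at h1
  rw [← Ideal.Quotient.eq_zero_iff_mem, map_sub, h1, sub_self]

theorem S58CMPC_quad_inj {R : Type*} [CommRing R] (t t' e e' : R)
    (h : (X ^ 2 - C t * X + C e : R[X]) = X ^ 2 - C t' * X + C e') : t = t' ∧ e = e' := by
  have h1 := congrArg (fun P : R[X] => P.coeff 1) h
  have h0 := congrArg (fun P : R[X] => P.coeff 0) h
  simp only [coeff_add, coeff_sub, coeff_C_mul, coeff_X_one, coeff_X_pow, coeff_C_zero,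
    coeff_X_zero, mul_one, mul_zero] at h1 h0
  simp at h1 h0
  exact ⟨h1, h0⟩

theorem S58CMPC_quad_map {R : Type*} [CommRing R] (a d : ℤ) :
    (X ^ 2 - C a * X + C d : ℤ[X]).map (Int.castRingHom R)
      = X ^ 2 - C ((a : ℤ) : R) * X + C ((d : ℤ) : R) := by
  rw [Polynomial.map_add, Polynomial.map_sub, Polynomial.map_mul, Polynomial.map_pow,
    Polynomial.map_X, Polynomial.map_C, Polynomial.map_C, eq_intCast, eq_intCast]

/-- **(CMP), consumer form.** -/
theorem S58CMPC_charpoly_of_levels {O : Type} [CommRing O] [IsDomain O]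
    [IsDiscreteValuationRing O] (ρ : GaloisRepAdic O) (lam : ℕ) (hlam1 : 1 < lam)
    (hlam : (lam : O) ∈ maximalIdeal O) (hlam0 : (lam : O) ≠ 0) (S : Finset ℕ)
    (g : S58CMP_GQ) (Q : ℤ[X])
    (h : ∀ k : ℕ, ∃ (V₂ : Type) (_ : AddCommGroup V₂) (_ : Module (ZMod (lam ^ (k + 1))) V₂)
      (_ : Module.Free (ZMod (lam ^ (k + 1))) V₂) (_ : Module.Finite (ZMod (lam ^ (k + 1))) V₂)
      (r : S58CMP_GQ →* Module.End (ZMod (lam ^ (k + 1))) V₂),
      Module.finrank (ZMod (lam ^ (k + 1))) V₂ = 2 ∧ GaloisFactorsThroughFiniteLevel r ∧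
      (∀ ℓ : ℕ, ℓ.Prime → ℓ ∉ S → ∀ A : ValuationSubring (AlgebraicClosure ℚ),
        A.LiesOverPrime ℓ → ∀ σ : S58CMP_GQ, A.IsFrobeniusAt σ ℓ →
          ∃ Qσ : ℤ[X], LinearMap.charpoly (ρ.ρ σ) = Qσ.map (Int.castRingHom O) ∧
            LinearMap.charpoly (r σ) = Qσ.map (Int.castRingHom (ZMod (lam ^ (k + 1))))) ∧
      LinearMap.charpoly (r g) = Q.map (Int.castRingHom (ZMod (lam ^ (k + 1))))) :
    LinearMap.charpoly (ρ.ρ g) = Q.map (Int.castRingHom O) := by
  refine S58CMPC_poly_eq (lam : O) hlam _ _ (fun k => ?_)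
  obtain ⟨V₂, i1, i2, i3, i4, r, hrk, hlev, hF, hg⟩ := h k
  haveI : Fact (1 < lam ^ (k + 1)) := ⟨Nat.one_lt_pow (Nat.succ_ne_zero k) hlam1⟩
  have hx0 : (lam : O) ^ (k + 1) ≠ 0 := pow_ne_zero _ hlam0
  obtain ⟨n, hn⟩ := S58CMPC_pow_le_span ((lam : O) ^ (k + 1)) hx0
  have hcast : ((lam ^ (k + 1) : ℕ) : O ⧸ Ideal.span {(lam : O) ^ (k + 1)}) = 0 := by
    have h0 : Ideal.Quotient.mk (Ideal.span {(lam : O) ^ (k + 1)}) ((lam : O) ^ (k + 1)) = 0 :=
      Ideal.Quotient.eq_zero_iff_mem.mpr (Ideal.subset_span rfl)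
    rw [Nat.cast_pow, ← h0, map_pow, map_natCast]
  let φ : ZMod (lam ^ (k + 1)) →+* O ⧸ Ideal.span {(lam : O) ^ (k + 1)} :=
    S58CMPC_zmodHom (lam ^ (k + 1)) _ hcast
  have hmap1 : ∀ P : ℤ[X], (P.map (Int.castRingHom O)).map
      (Ideal.Quotient.mk (Ideal.span {(lam : O) ^ (k + 1)}))
      = P.map (Int.castRingHom (O ⧸ Ideal.span {(lam : O) ^ (k + 1)})) := by
    intro P
    rw [Polynomial.map_map]
    exact congrArg (fun f => P.map f) (RingHom.ext_int _ _)
  have hmap2 : ∀ P : ℤ[X], (P.map (Int.castRingHom (ZMod (lam ^ (k + 1))))).map φ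
      = P.map (Int.castRingHom (O ⧸ Ideal.span {(lam : O) ^ (k + 1)})) := by
    intro P
    rw [Polynomial.map_map]
    exact congrArg (fun f => P.map f) (RingHom.ext_int _ _)
  have key := S58CMP_main ρ (Ideal.span {(lam : O) ^ (k + 1)}) n hn hrk r hlev φ S
    (fun ℓ hℓ hℓS A hA σ hσ => by
      obtain ⟨Qσ, h1, h2⟩ := hF ℓ hℓ hℓS A hA σ hσ
      rw [h1, h2, hmap1, hmap2]) g
  rw [key, hg, hmap1, hmap2]

/-- **(CMP) ⟹ unipotent inertia**: if inertia at `q` acts on every `r_k` with characteristic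
polynomial `(X - 1) ^ 2`, then `ρ` is unipotent on inertia at `q`. -/
theorem S58CMPC_unipotent {O : Type} [CommRing O] [IsDomain O]
    [IsDiscreteValuationRing O] (ρ : GaloisRepAdic O) (lam : ℕ) (hlam1 : 1 < lam)
    (hlam : (lam : O) ∈ maximalIdeal O) (hlam0 : (lam : O) ≠ 0) (S : Finset ℕ) (q : ℕ)
    (h : ∀ k : ℕ, ∃ (V₂ : Type) (_ : AddCommGroup V₂) (_ : Module (ZMod (lam ^ (k + 1))) V₂)
      (_ : Module.Free (ZMod (lam ^ (k + 1))) V₂) (_ : Module.Finite (ZMod (lam ^ (k + 1))) V₂)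
      (r : S58CMP_GQ →* Module.End (ZMod (lam ^ (k + 1))) V₂),
      Module.finrank (ZMod (lam ^ (k + 1))) V₂ = 2 ∧ GaloisFactorsThroughFiniteLevel r ∧
      (∀ ℓ : ℕ, ℓ.Prime → ℓ ∉ S → ∀ A : ValuationSubring (AlgebraicClosure ℚ),
        A.LiesOverPrime ℓ → ∀ σ : S58CMP_GQ, A.IsFrobeniusAt σ ℓ →
          ∃ Qσ : ℤ[X], LinearMap.charpoly (ρ.ρ σ) = Qσ.map (Int.castRingHom O) ∧
            LinearMap.charpoly (r σ) = Qσ.map (Int.castRingHom (ZMod (lam ^ (k + 1))))) ∧
      ∀ P : ValuationSubring (AlgebraicClosure ℚ), P.LiesOverPrime q →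
        ∀ τ ∈ P.inertiaSubgroupIn ℚ, LinearMap.charpoly (r τ) = (X - 1) ^ 2) :
    ρ.IsUnipotentOnInertiaAt q := by
  intro P hP τ hτ
  have key := S58CMPC_charpoly_of_levels ρ lam hlam1 hlam hlam0 S τ ((X - 1) ^ 2)
    (fun k => by
      obtain ⟨V₂, i1, i2, i3, i4, r, hrk, hlev, hF, hu⟩ := h k
      refine ⟨V₂, i1, i2, i3, i4, r, hrk, hlev, hF, ?_⟩
      rw [hu P hP τ hτ]
      simp)
  rw [key]
  simp

/-- **(CMP) ⟹ the Frobenius coefficient**: if `g` acts on every `r_k` with characteristic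
polynomial `X ^ 2 - a X + d` (`a, d` integers) and `ρ g` has characteristic polynomial
`X ^ 2 - t X + d'`, then `t = a` and `d' = d` in `O`. -/
theorem S58CMPC_frob_coeff {O : Type} [CommRing O] [IsDomain O]
    [IsDiscreteValuationRing O] (ρ : GaloisRepAdic O) (lam : ℕ) (hlam1 : 1 < lam)
    (hlam : (lam : O) ∈ maximalIdeal O) (hlam0 : (lam : O) ≠ 0) (S : Finset ℕ)
    (g : S58CMP_GQ) (a d : ℤ) (t d' : O)
    (hρ : LinearMap.charpoly (ρ.ρ g) = X ^ 2 - C t * X + C d')
    (h : ∀ k : ℕ, ∃ (V₂ : Type) (_ : AddCommGroup V₂) (_ : Module (ZMod (lam ^ (k + 1))) V₂)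
      (_ : Module.Free (ZMod (lam ^ (k + 1))) V₂) (_ : Module.Finite (ZMod (lam ^ (k + 1))) V₂)
      (r : S58CMP_GQ →* Module.End (ZMod (lam ^ (k + 1))) V₂),
      Module.finrank (ZMod (lam ^ (k + 1))) V₂ = 2 ∧ GaloisFactorsThroughFiniteLevel r ∧
      (∀ ℓ : ℕ, ℓ.Prime → ℓ ∉ S → ∀ A : ValuationSubring (AlgebraicClosure ℚ),
        A.LiesOverPrime ℓ → ∀ σ : S58CMP_GQ, A.IsFrobeniusAt σ ℓ →
          ∃ Qσ : ℤ[X], LinearMap.charpoly (ρ.ρ σ) = Qσ.map (Int.castRingHom O) ∧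
            LinearMap.charpoly (r σ) = Qσ.map (Int.castRingHom (ZMod (lam ^ (k + 1))))) ∧
      LinearMap.charpoly (r g) = X ^ 2 - C ((a : ℤ) : ZMod (lam ^ (k + 1))) * X
        + C ((d : ℤ) : ZMod (lam ^ (k + 1)))) :
    t = (a : O) ∧ d' = (d : O) := by
  have key := S58CMPC_charpoly_of_levels ρ lam hlam1 hlam hlam0 S g
    (X ^ 2 - C a * X + C d)
    (fun k => by
      obtain ⟨V₂, i1, i2, i3, i4, r, hrk, hlev, hF, hu⟩ := h k
      refine ⟨V₂, i1, i2, i3, i4, r, hrk, hlev, hF, ?_⟩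
      rw [hu, S58CMPC_quad_map])
  rw [hρ, S58CMPC_quad_map] at key
  exact S58CMPC_quad_inj _ _ _ _ key

end Fermat.Agent.S58_helper14_CMPC
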