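import Fermat.Statements.S35
import Fermat.Statements.S36
import Fermat.Statements.S58

/-!
# S58 (helper18, owner): the contracts

Definitions only.  Everything for S58 (conductor-level matching) is typed against this file; the
top theorem `contracts -> frozen S58` is `S58_helper18_TOP.lean`.

* `S58C_S35`, `S58C_S36` : the frozen statements S35 / S36 as `Prop`s (black boxes);
* `S58C_NF`    : the newform below an eigenform;
* `S58C_OLD`   : stabilisation of an eigenform of level `M` up to a squarefree level `R`;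
* `S58C_O`     : eigencharacter + coefficient ring + `iota` at an auxiliary prime `lam` outside a
  finite set, with the detection property `iota (a_l) = a => a_l = a`;
* `S58C_Op`    : the same at a GIVEN prime `p`, when all eigenvalues outside `S` are integers;
* `S58C_RES`   : `W[p]` irreducible, `p` odd => every representation with the Frobenius
  characteristic polynomials of `W` has absolutely irreducible odd reduction;
* `S58C_XFER`  : the elliptic side, transferred: a representation with the Frobenius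
  characteristic polynomials of `W` at almost all primes has them at EVERY good prime, and is
  unipotent on inertia at every prime `q ≠ lam` (`W` semistable);
* `S58C_BOUND` : the trivial bound `a_q ≠ ± (q + 1)`;
* `S58C_FROBEX`: a Frobenius element exists at every prime.
-/

set_option autoImplicit false
set_option linter.unusedSectionVars false
set_option linter.unusedVariables false
set_option linter.style.haveILetI false

open Polynomial
open CuspForm CuspForm.IsNewform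

noncomputable section

namespace Fermat.Agent.S58_helper18_Contracts

/-- the frozen statement S35, as a `Prop` -/
def S58C_S35 : Prop :=
  ∀ {M : ℕ} [NeZero M] {g : CuspForm (CongruenceSubgroup.Gamma0 M) 2} (hg : g.IsNewform)
    (lam : ℕ) [Fact lam.Prime]
    (S : Finset ℕ)
    (O' : Type) [CommRing O'] [IsDomain O'] [IsDiscreteValuationRing O']
    [IsAdicComplete (IsLocalRing.maximalIdeal O') O'] [Finite (IsLocalRing.ResidueField O')]
    [CharZero O'] (hlamO' : (lam : O') ∈ IsLocalRing.maximalIdeal O')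
    (chig : CuspForm.heckeAlgebra M 2 (↑S : Set ℕ) →+* ℂ)
    (hchig : ∀ (ℓ : ℕ) (hℓ : ℓ.Prime) (hℓM : ¬ ℓ ∣ M) (hℓS : ℓ ∉ (↑S : Set ℕ)),
      chig (CuspForm.heckeAlgebra.T hℓ hℓM hℓS) = ModularFormClass.qCoeff g ℓ)
    (iota : chig.range →+* O')
    (hlamS : lam ∈ S) (hMS : ∀ q : ℕ, q.Prime → q ∣ M → q ∈ S),
    ∃ (O'' : Type) (_ : CommRing O'') (_ : IsDomain O'') (_ : IsDiscreteValuationRing O'')
      (_ : IsAdicComplete (IsLocalRing.maximalIdeal O'') O'') (_ : Finite (IsLocalRing.ResidueField O''))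
      (_ : CharZero O'') (_ : Algebra O' O'') (_ : Module.Finite O' O'') (_ : IsLocalHom (algebraMap O' O'')),
      Function.Injective (algebraMap O' O'') ∧
      ∃ ρ : GaloisRepAdic O'',
        (∀ (ℓ : ℕ) (hℓ : ℓ.Prime) (hℓM : ¬ ℓ ∣ M) (hℓS : ℓ ∉ (↑S : Set ℕ)),
          ∀ A : ValuationSubring (AlgebraicClosure ℚ), A.LiesOverPrime ℓ →
            ∀ σ : AlgebraicClosure ℚ ≃ₐ[ℚ] AlgebraicClosure ℚ, A.IsFrobeniusAt σ ℓ →
              LinearMap.charpoly (ρ.ρ σ) =
                X ^ 2 - C (algebraMap O' O'' ((iota.comp chig.rangeRestrict) (CuspForm.heckeAlgebra.T hℓ hℓM hℓS))) * X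
                  + C ((ℓ : O''))) ∧
        (∀ q : ℕ, q.Prime → q ≠ lam → q ∣ M → ¬ q ^ 2 ∣ M →
          ∀ A : ValuationSubring (AlgebraicClosure ℚ), A.LiesOverPrime q →
            ∀ σ : AlgebraicClosure ℚ ≃ₐ[ℚ] AlgebraicClosure ℚ, A.IsFrobeniusAt σ q →
              LinearMap.charpoly (ρ.ρ σ) = X ^ 2 - C ((q : O'') + 1) * X + C ((q : O'')) ∨
              LinearMap.charpoly (ρ.ρ σ) = X ^ 2 + C ((q : O'') + 1) * X + C ((q : O'')))

/-- the frozen statement S36, as a `Prop` -/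
def S58C_S36 : Prop :=
  ∀ {M : ℕ} [NeZero M] {g : CuspForm (CongruenceSubgroup.Gamma0 M) 2} (hg : g.IsNewform)
    (lam : ℕ) [Fact lam.Prime]
    (S : Finset ℕ)
    (O' : Type) [CommRing O'] [IsDomain O'] [IsDiscreteValuationRing O']
    [IsAdicComplete (IsLocalRing.maximalIdeal O') O'] [Finite (IsLocalRing.ResidueField O')]
    [CharZero O'] (hlamO' : (lam : O') ∈ IsLocalRing.maximalIdeal O')
    (hlam2 : lam ≠ 2)
    (chig : CuspForm.heckeAlgebra M 2 (↑S : Set ℕ) →+* ℂ)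
    (hchig : ∀ (ℓ : ℕ) (hℓ : ℓ.Prime) (hℓM : ¬ ℓ ∣ M) (hℓS : ℓ ∉ (↑S : Set ℕ)),
      chig (CuspForm.heckeAlgebra.T hℓ hℓM hℓS) = ModularFormClass.qCoeff g ℓ)
    (iota : chig.range →+* O')
    (hlamS : lam ∈ S) (hMS : ∀ q : ℕ, q.Prime → q ∣ M → q ∈ S)
    (hres : ∀ (O'' : Type) [CommRing O''] [IsDomain O''] [IsDiscreteValuationRing O'']
      [IsAdicComplete (IsLocalRing.maximalIdeal O'') O''] [Finite (IsLocalRing.ResidueField O'')] [CharZero O'']
      [Algebra O' O''] [Module.Finite O' O''] [IsLocalHom (algebraMap O' O'')],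
      Function.Injective (algebraMap O' O'') → ∀ (ρ : GaloisRepAdic O''),
      (∀ (ℓ : ℕ) (hℓ : ℓ.Prime) (hℓlam : ℓ ≠ lam) (hℓM : ¬ ℓ ∣ M) (hℓS : ℓ ∉ (↑S : Set ℕ)),
        ∀ A : ValuationSubring (AlgebraicClosure ℚ), A.LiesOverPrime ℓ →
          ∀ σ : AlgebraicClosure ℚ ≃ₐ[ℚ] AlgebraicClosure ℚ, A.IsFrobeniusAt σ ℓ →
            LinearMap.charpoly (ρ.ρ σ) =
              X ^ 2 - C (algebraMap O' O'' ((iota.comp chig.rangeRestrict) (CuspForm.heckeAlgebra.T hℓ hℓM hℓS))) * X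
                + C ((ℓ : O'')))
      → ρ.residual.IsAbsolutelyIrreducible ∧ ρ.residual.IsOdd),
    ∃ (O'' : Type) (_ : CommRing O'') (_ : IsDomain O'') (_ : IsDiscreteValuationRing O'')
      (_ : IsAdicComplete (IsLocalRing.maximalIdeal O'') O'') (_ : Finite (IsLocalRing.ResidueField O''))
      (_ : CharZero O'') (_ : Algebra O' O'') (_ : Module.Finite O' O'') (_ : IsLocalHom (algebraMap O' O'')),
      Function.Injective (algebraMap O' O'') ∧
      ∃ ρ : GaloisRepAdic O'',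
        (∀ (ℓ : ℕ) (hℓ : ℓ.Prime) (hℓM : ¬ ℓ ∣ M) (hℓS : ℓ ∉ (↑S : Set ℕ)),
          ∀ A : ValuationSubring (AlgebraicClosure ℚ), A.LiesOverPrime ℓ →
            ∀ σ : AlgebraicClosure ℚ ≃ₐ[ℚ] AlgebraicClosure ℚ, A.IsFrobeniusAt σ ℓ →
              LinearMap.charpoly (ρ.ρ σ) =
                X ^ 2 - C (algebraMap O' O'' ((iota.comp chig.rangeRestrict) (CuspForm.heckeAlgebra.T hℓ hℓM hℓS))) * X
                  + C ((ℓ : O''))) ∧
        (∀ q : ℕ, q.Prime → q ≠ lam → M.factorization q = 2 → ¬ ρ.IsUnipotentOnInertiaAt q)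

/-- **(NF)** the newform below an eigenform -/
def S58C_NF : Prop :=
  ∀ (N : ℕ) (hN : N ≠ 0) (f : CuspForm (CongruenceSubgroup.Gamma0 N) 2)
    (hf : f.IsNormalizedEigenform),
    ∃ (M : ℕ) (_ : M ∣ N) (h : CuspForm (CongruenceSubgroup.Gamma0 M) 2), h.IsNewform ∧
      ∀ ℓ : ℕ, ℓ.Prime → ¬ ℓ ∣ N → ModularFormClass.qCoeff h ℓ = ModularFormClass.qCoeff f ℓ

/-- **(OLD)** stabilisation up to a squarefree level -/
def S58C_OLD : Prop :=
  ∀ {M R : ℕ} (hMR : M ∣ R) (hR : Squarefree R)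
    (h : CuspForm (CongruenceSubgroup.Gamma0 M) 2) (hh : h.IsNormalizedEigenform),
    ∃ g : CuspForm (CongruenceSubgroup.Gamma0 R) 2, g.IsNormalizedEigenform ∧
      ∀ ℓ : ℕ, ℓ.Prime → ¬ ℓ ∣ R → ModularFormClass.qCoeff g ℓ = ModularFormClass.qCoeff h ℓ

/-- **(O)** at an auxiliary prime: for an eigenform `h` of level `M`, a finite set `T` of primes
containing the primes of `M`, such that all eigenvalues outside `T` except possibly the one at
`l0` are integers, and a finite set `B` to avoid: a prime `lam ∉ B`, the eigencharacter on the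
Hecke algebra away from `insert lam T`, a coefficient ring `O'` and `iota`, with detection. -/
def S58C_O : Prop :=
  ∀ {M : ℕ} [NeZero M] (h : CuspForm (CongruenceSubgroup.Gamma0 M) 2)
    (hh : h.IsNormalizedEigenform) (T B : Finset ℕ) (l0 : ℕ)
    (hMT : ∀ q : ℕ, q.Prime → q ∣ M → q ∈ T)
    (hint : ∀ ℓ : ℕ, ℓ.Prime → ℓ ∉ T → ¬ ℓ ∣ M → ℓ ≠ l0 →
      ∃ a : ℤ, ModularFormClass.qCoeff h ℓ = (a : ℂ)),
    ∃ (lam : ℕ) (_ : Fact lam.Prime) (_ : lam ∉ B)
      (chig : CuspForm.heckeAlgebra M 2 (↑(insert lam T) : Set ℕ) →+* ℂ)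
      (_ : ∀ (ℓ : ℕ) (hℓ : ℓ.Prime) (hℓM : ¬ ℓ ∣ M) (hℓS : ℓ ∉ (↑(insert lam T) : Set ℕ)),
        chig (CuspForm.heckeAlgebra.T hℓ hℓM hℓS) = ModularFormClass.qCoeff h ℓ)
      (O' : Type) (_ : CommRing O') (_ : IsDomain O') (_ : IsDiscreteValuationRing O')
      (_ : IsAdicComplete (IsLocalRing.maximalIdeal O') O')
      (_ : Finite (IsLocalRing.ResidueField O')) (_ : CharZero O')
      (iota : chig.range →+* O'),
      (lam : O') ∈ IsLocalRing.maximalIdeal O' ∧
      ∀ (ℓ : ℕ) (hℓ : ℓ.Prime) (hℓM : ¬ ℓ ∣ M) (hℓS : ℓ ∉ (↑(insert lam T) : Set ℕ)) (a : ℤ),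
        iota (chig.rangeRestrict (CuspForm.heckeAlgebra.T hℓ hℓM hℓS)) = (a : O') →
        ModularFormClass.qCoeff h ℓ = (a : ℂ)

/-- **(O) at a given prime `p`**, when all eigenvalues outside `S` are integers -/
def S58C_Op : Prop :=
  ∀ {M : ℕ} [NeZero M] (h : CuspForm (CongruenceSubgroup.Gamma0 M) 2)
    (hh : h.IsNormalizedEigenform) (p : ℕ) [Fact p.Prime] (S : Finset ℕ)
    (hMS : ∀ q : ℕ, q.Prime → q ∣ M → q ∈ S)
    (hint : ∀ ℓ : ℕ, ℓ.Prime → ℓ ∉ S → ¬ ℓ ∣ M →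
      ∃ a : ℤ, ModularFormClass.qCoeff h ℓ = (a : ℂ)),
    ∃ (chig : CuspForm.heckeAlgebra M 2 (↑S : Set ℕ) →+* ℂ)
      (_ : ∀ (ℓ : ℕ) (hℓ : ℓ.Prime) (hℓM : ¬ ℓ ∣ M) (hℓS : ℓ ∉ (↑S : Set ℕ)),
        chig (CuspForm.heckeAlgebra.T hℓ hℓM hℓS) = ModularFormClass.qCoeff h ℓ)
      (O' : Type) (_ : CommRing O') (_ : IsDomain O') (_ : IsDiscreteValuationRing O')
      (_ : IsAdicComplete (IsLocalRing.maximalIdeal O') O')
      (_ : Finite (IsLocalRing.ResidueField O')) (_ : CharZero O')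
      (iota : chig.range →+* O'),
      (p : O') ∈ IsLocalRing.maximalIdeal O'

/-- the hypothesis 'rho has the Frobenius characteristic polynomials of `W` outside `B`' -/
def S58C_Frob (W : WeierstrassCurve ℤ) (lam : ℕ) {O'' : Type} [CommRing O''] [IsLocalRing O'']
    (ρ : GaloisRepAdic O'') (B : Finset ℕ) : Prop :=
  ∀ ℓ : ℕ, ℓ.Prime → ℓ ∉ B → W.IsGoodPrimeFor ℓ → ℓ ≠ lam →
    ∀ A : ValuationSubring (AlgebraicClosure ℚ), A.LiesOverPrime ℓ →
      ∀ σ : AlgebraicClosure ℚ ≃ₐ[ℚ] AlgebraicClosure ℚ, A.IsFrobeniusAt σ ℓ →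
        LinearMap.charpoly (ρ.ρ σ) =
          X ^ 2 - C (((W.apOfModel ℓ : ℤ) : O'')) * X + C ((ℓ : O''))

/-- **(RES)** `W[p]` irreducible, `p` odd: every representation with the Frobenius characteristic
polynomials of `W` has absolutely irreducible, odd reduction. -/
def S58C_RES : Prop :=
  ∀ (W : WeierstrassCurve ℤ) (hΔ : W.Δ ≠ 0) (hss : W.IsSemistableModel)
    (p : ℕ) [Fact p.Prime] (hp2 : p ≠ 2) (hirr : W.ModRepIsIrreducible p)
    (O'' : Type) [CommRing O''] [IsDomain O''] [IsDiscreteValuationRing O'']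
    [IsAdicComplete (IsLocalRing.maximalIdeal O'') O''] [Finite (IsLocalRing.ResidueField O'')]
    [CharZero O''] (hp : (p : O'') ∈ IsLocalRing.maximalIdeal O'')
    (ρ : GaloisRepAdic O'') (B : Finset ℕ), S58C_Frob W p ρ B →
    ρ.residual.IsAbsolutelyIrreducible ∧ ρ.residual.IsOdd

/-- **(XFER)** the elliptic side, transferred to a representation with the Frobenius
characteristic polynomials of `W` at almost all primes. -/
def S58C_XFER : Prop :=
  ∀ (W : WeierstrassCurve ℤ) (hΔ : W.Δ ≠ 0) (hss : W.IsSemistableModel)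
    (lam : ℕ) [Fact lam.Prime]
    (O'' : Type) [CommRing O''] [IsDomain O''] [IsDiscreteValuationRing O'']
    [IsAdicComplete (IsLocalRing.maximalIdeal O'') O''] [Finite (IsLocalRing.ResidueField O'')]
    [CharZero O''] (hlam : (lam : O'') ∈ IsLocalRing.maximalIdeal O'')
    (ρ : GaloisRepAdic O'') (B : Finset ℕ), S58C_Frob W lam ρ B →
    S58C_Frob W lam ρ ∅ ∧ ∀ q : ℕ, q.Prime → q ≠ lam → ρ.IsUnipotentOnInertiaAt q

/-- **(BOUND)** the trivial bound on the point count -/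
def S58C_BOUND : Prop :=
  ∀ (W : WeierstrassCurve ℤ) (q : ℕ), q.Prime →
    W.apOfModel q ≠ (q : ℤ) + 1 ∧ W.apOfModel q ≠ -((q : ℤ) + 1)

/-- **(FROBEX)** a Frobenius element exists at every prime -/
def S58C_FROBEX : Prop :=
  ∀ q : ℕ, q.Prime → ∃ A : ValuationSubring (AlgebraicClosure ℚ), A.LiesOverPrime q ∧
    ∃ σ : AlgebraicClosure ℚ ≃ₐ[ℚ] AlgebraicClosure ℚ, A.IsFrobeniusAt σ q

/-- the frozen statement S58, as a `Prop` -/
def S58C_Frozen : Prop :=
  ∀ (W : WeierstrassCurve ℤ) (hss : W.IsSemistableModel) (N : ℕ)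
    (p : ℕ) [Fact p.Prime] (hp2 : p ≠ 2) (hirr : W.ModRepIsIrreducible p)
    (hp2N : ¬ p ^ 2 ∣ N)
    (hN : W.IsModularModelOfLevel N) (hbad : ∀ ℓ : ℕ, ℓ.Prime → (ℓ : ℤ) ∣ W.Δ → ℓ ∣ N)
    (hN3 : ∀ q : ℕ, q.Prime → ¬ q ^ 3 ∣ N),
    W.IsModularModelOfLevel W.conductorLevel

end Fermat.Agent.S58_helper18_Contracts
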