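import Mathlib
import Fermat.Prelude.Def_WeierstrassCurve_ConductorLevel
import Fermat.Prelude.Def_FLTPrelim_ModularRep
import Fermat.Prelude.Def_FLTPrelim_Ramification

/-!
# S58, elliptic side (helper2): vocabulary and typed contracts (E0), (E3)

* `S58T_Tors W n` : the `n`-torsion of `W(Q-bar)` in the prelude's own shape
  (the module of `WeierstrassCurve.ModRepIsIrreducible`), a `ZMod n`-module with the
  prelude's Galois action;
* `S58T_gal W n σ` : the action of `σ` as a `ZMod n`-linear endomorphism;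
* `S58T_cp W n b σ` : the characteristic polynomial of `σ` on `W[n]` in a basis `b`;
* `S58T_E0 W lam` : **(E0)** `W[lam ^ k]` is free of rank two over `ZMod (lam ^ k)`, all `k`;
* `S58T_E3 W lam` : **(E3)** at every prime `q ≠ lam`, inertia at `q` has characteristic
  polynomial `(X - 1) ^ 2` on `W[lam ^ k]`, all `k`;
* `S58T_E3good`, `S58T_E3raw` : the two raw geometric inputs of (E3): inertia at a prime of
  good reduction is trivial on `W[n]`; inertia at a bad prime satisfies `(τ - 1) ^ 2 = 0`.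
-/

set_option autoImplicit false

open Polynomial WeierstrassCurve WeierstrassCurve.Affine

noncomputable section

namespace Fermat.Agent.S58_helper2_TORS

/-- the `n`-torsion of `W(Q-bar)`, in the prelude's own shape. -/
abbrev S58T_Tors (W : WeierstrassCurve ℤ) (n : ℕ) : Type :=
  Submodule.torsionBy ℤ
    (((W.map (Int.castRingHom ℚ)).toAffine)⁄(AlgebraicClosure ℚ)).Point n

/-- the action of `σ` on `W[n]` as a `ZMod n`-linear map. -/
def S58T_gal (W : WeierstrassCurve ℤ) (n : ℕ)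
    (σ : AlgebraicClosure ℚ ≃ₐ[ℚ] AlgebraicClosure ℚ) :
    S58T_Tors W n →ₗ[ZMod n] S58T_Tors W n :=
  (DistribSMul.toAddMonoidHom (S58T_Tors W n) σ).toZModLinearMap n

theorem S58T_gal_apply (W : WeierstrassCurve ℤ) (n : ℕ)
    (σ : AlgebraicClosure ℚ ≃ₐ[ℚ] AlgebraicClosure ℚ) (P : S58T_Tors W n) :
    S58T_gal W n σ P = σ • P := rfl

theorem S58T_gal_one (W : WeierstrassCurve ℤ) (n : ℕ) : S58T_gal W n 1 = LinearMap.id := by
  ext P
  simp [S58T_gal_apply]

theorem S58T_gal_mul (W : WeierstrassCurve ℤ) (n : ℕ)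
    (σ τ : AlgebraicClosure ℚ ≃ₐ[ℚ] AlgebraicClosure ℚ) :
    S58T_gal W n (σ * τ) = (S58T_gal W n σ).comp (S58T_gal W n τ) := by
  ext P
  simp [S58T_gal_apply, mul_smul]

/-- the characteristic polynomial of `σ` on `W[n]`, computed in the basis `b`. -/
def S58T_cp (W : WeierstrassCurve ℤ) (n : ℕ)
    (b : Module.Basis (Fin 2) (ZMod n) (S58T_Tors W n))
    (σ : AlgebraicClosure ℚ ≃ₐ[ℚ] AlgebraicClosure ℚ) : (ZMod n)[X] :=
  (LinearMap.toMatrix b b (S58T_gal W n σ)).charpoly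

/-- **(E0)**: `W[lam ^ k](Q-bar)` is free of rank two over `ZMod (lam ^ k)`, for every `k`. -/
def S58T_E0 (W : WeierstrassCurve ℤ) (lam : ℕ) : Prop :=
  ∀ k : ℕ, Nonempty (Module.Basis (Fin 2) (ZMod (lam ^ k)) (S58T_Tors W (lam ^ k)))

/-- **(E3)**: at every prime `q ≠ lam` the inertia groups act on `W[lam ^ k]` with
characteristic polynomial `(X - 1) ^ 2` (in every basis), for every `k`. -/
def S58T_E3 (W : WeierstrassCurve ℤ) (lam : ℕ) : Prop :=
  ∀ q : ℕ, q.Prime → q ≠ lam → ∀ (k : ℕ)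
    (b : Module.Basis (Fin 2) (ZMod (lam ^ k)) (S58T_Tors W (lam ^ k)))
    (A : ValuationSubring (AlgebraicClosure ℚ)), A.LiesOverPrime q →
      ∀ τ ∈ A.inertiaSubgroupIn ℚ, S58T_cp W (lam ^ k) b τ = (X - 1) ^ 2

/-- raw input of (E3) at the primes of good reduction: inertia is trivial on `W[n]`,
`n` prime to `q`. -/
def S58T_E3good (W : WeierstrassCurve ℤ) : Prop :=
  ∀ q : ℕ, q.Prime → ¬ (q : ℤ) ∣ W.Δ → ∀ n : ℕ, n.Coprime q →
    ∀ A : ValuationSubring (AlgebraicClosure ℚ), A.LiesOverPrime q →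
      ∀ τ ∈ A.inertiaSubgroupIn ℚ, ∀ P : S58T_Tors W n, τ • P = P

/-- raw input of (E3) at the primes of multiplicative reduction: `(τ - 1) ^ 2 = 0` on `W[n]`,
`n` prime to `q`. -/
def S58T_E3raw (W : WeierstrassCurve ℤ) : Prop :=
  ∀ q : ℕ, q.Prime → (q : ℤ) ∣ W.Δ → ¬ (q : ℤ) ∣ W.c₄ → ∀ n : ℕ, n.Coprime q →
    ∀ A : ValuationSubring (AlgebraicClosure ℚ), A.LiesOverPrime q →
      ∀ τ ∈ A.inertiaSubgroupIn ℚ, ∀ P : S58T_Tors W n, τ • (τ • P) + P = τ • P + τ • P

end Fermat.Agent.S58_helper2_TORS
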