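import Mathlib
import Fermat.Agent.S58_helper18_Contracts
import Fermat.Agent.S58_helper2_TORS
import Fermat.Agent.S58_helper14_CMPC
import Fermat.Agent.G_helper12_S42AUX

/-!
# S58, the plug (XFER) (helper14)

`S58XF_main`: helper18's contract `S58C_XFER` from the three elliptic contracts
* `S58T_E0 W lam` (helper2): `W[lam ^ k]` is free of rank two over `ZMod (lam ^ k)`;
* `S58XF_E1 W lam` : at every good prime `ℓ ≠ lam`, a Frobenius element at `ℓ` acts on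
  `W[lam ^ k]` with characteristic polynomial `X ^ 2 - a_ℓ X + ℓ`;
* `S58T_E3 W lam` (helper2): inertia at every prime `q ≠ lam` acts on `W[lam ^ k]` with
  characteristic polynomial `(X - 1) ^ 2`;
through the comparison (CMP) (`S58CMPC_charpoly_of_levels`, `S58CMPC_unipotent`).  The finite
level of `W[lam ^ k]` is the landed `PG42_torsion_level`.
-/

set_option autoImplicit false
set_option linter.unusedSectionVars false
set_option linter.unusedVariables false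
set_option linter.style.haveILetI false
set_option linter.unusedSimpArgs false

open Polynomial IsLocalRing

namespace Fermat.Agent.S58_helper14_XFER

open Fermat.Agent.S58_helper18_Contracts Fermat.Agent.S58_helper2_TORS
open Fermat.Agent.S58_helper14_CMP Fermat.Agent.S58_helper14_CMPC

/-- **(E1)**, typed: at every good prime `ℓ ≠ lam` a Frobenius element at `ℓ` acts on
`W[lam ^ k]` with characteristic polynomial `X ^ 2 - a_ℓ X + ℓ`. -/
def S58XF_E1 (W : WeierstrassCurve ℤ) (lam : ℕ) : Prop :=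
  ∀ ℓ : ℕ, ℓ.Prime → W.IsGoodPrimeFor ℓ → ℓ ≠ lam → ∀ (k : ℕ)
    (b : Module.Basis (Fin 2) (ZMod (lam ^ k)) (S58T_Tors W (lam ^ k)))
    (A : ValuationSubring (AlgebraicClosure ℚ)), A.LiesOverPrime ℓ →
      ∀ σ : AlgebraicClosure ℚ ≃ₐ[ℚ] AlgebraicClosure ℚ, A.IsFrobeniusAt σ ℓ →
        S58T_cp W (lam ^ k) b σ
          = X ^ 2 - C ((W.apOfModel ℓ : ℤ) : ZMod (lam ^ k)) * X + C ((ℓ : ℕ) : ZMod (lam ^ k))

/-- the Galois representation on `W[n]` (the prelude's `galoisRepModuleEnd`) -/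
noncomputable def S58XF_rep (W : WeierstrassCurve ℤ) (n : ℕ) :
    S58CMP_GQ →* Module.End (ZMod n) (S58T_Tors W n) :=
  WeierstrassCurve.Affine.Point.galoisRepModuleEnd (S := ℚ) (K := AlgebraicClosure ℚ)
    (W.map (Int.castRingHom ℚ)).toAffine n

theorem S58XF_rep_eq (W : WeierstrassCurve ℤ) (n : ℕ) (σ : S58CMP_GQ) :
    S58XF_rep W n σ = S58T_gal W n σ :=
  LinearMap.ext (fun P => rfl)

/-- the characteristic polynomial of `σ` on `W[n]` is helper2's `S58T_cp` -/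
theorem S58XF_charpoly (W : WeierstrassCurve ℤ) (n : ℕ)
    (b : Module.Basis (Fin 2) (ZMod n) (S58T_Tors W n))
    [Module.Free (ZMod n) (S58T_Tors W n)] [Module.Finite (ZMod n) (S58T_Tors W n)]
    (σ : S58CMP_GQ) :
    LinearMap.charpoly (S58XF_rep W n σ) = S58T_cp W n b σ := by
  rw [S58XF_rep_eq, S58T_cp, LinearMap.charpoly_toMatrix]

/-- the level data of `W[lam ^ (k + 1)]` in the shape of `S58CMPC_charpoly_of_levels` -/
theorem S58XF_levels (W : WeierstrassCurve ℤ) (hΔ : W.Δ ≠ 0) (lam : ℕ) [Fact lam.Prime]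
    (hE0 : S58T_E0 W lam) (hE1 : S58XF_E1 W lam)
    (O'' : Type) [CommRing O''] [IsLocalRing O'']
    (ρ : GaloisRepAdic O'') (B : Finset ℕ) (hF : S58C_Frob W lam ρ B)
    (g : S58CMP_GQ) (Qk : ∀ k : ℕ, (ZMod (lam ^ (k + 1)))[X])
    (hg : ∀ (k : ℕ) (b : Module.Basis (Fin 2) (ZMod (lam ^ (k + 1)))
      (S58T_Tors W (lam ^ (k + 1)))), S58T_cp W (lam ^ (k + 1)) b g = Qk k) (k : ℕ) :
    ∃ (V₂ : Type) (_ : AddCommGroup V₂) (_ : Module (ZMod (lam ^ (k + 1))) V₂)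
      (_ : Module.Free (ZMod (lam ^ (k + 1))) V₂) (_ : Module.Finite (ZMod (lam ^ (k + 1))) V₂)
      (r : S58CMP_GQ →* Module.End (ZMod (lam ^ (k + 1))) V₂),
      Module.finrank (ZMod (lam ^ (k + 1))) V₂ = 2 ∧ GaloisFactorsThroughFiniteLevel r ∧
      (∀ ℓ : ℕ, ℓ.Prime → ℓ ∉ (B ∪ {lam} ∪ W.Δ.natAbs.primeFactors) →
        ∀ A : ValuationSubring (AlgebraicClosure ℚ),
        A.LiesOverPrime ℓ → ∀ σ : S58CMP_GQ, A.IsFrobeniusAt σ ℓ →
          ∃ Qσ : ℤ[X], LinearMap.charpoly (ρ.ρ σ) = Qσ.map (Int.castRingHom O'') ∧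
            LinearMap.charpoly (r σ) = Qσ.map (Int.castRingHom (ZMod (lam ^ (k + 1))))) ∧
      LinearMap.charpoly (r g) = Qk k := by
  have hlamp : lam.Prime := Fact.out
  haveI : Fact (1 < lam ^ (k + 1)) := ⟨Nat.one_lt_pow (Nat.succ_ne_zero k) hlamp.one_lt⟩
  haveI : NeZero (lam ^ (k + 1)) := ⟨pow_ne_zero _ hlamp.ne_zero⟩
  obtain ⟨b⟩ := hE0 (k + 1)
  haveI hfree : Module.Free (ZMod (lam ^ (k + 1))) (S58T_Tors W (lam ^ (k + 1))) :=
    Module.Free.of_basis b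
  haveI hfin : Module.Finite (ZMod (lam ^ (k + 1))) (S58T_Tors W (lam ^ (k + 1))) :=
    Module.Finite.of_basis b
  haveI hfinite : Finite (S58T_Tors W (lam ^ (k + 1))) :=
    Module.finite_of_finite (ZMod (lam ^ (k + 1)))
  refine ⟨S58T_Tors W (lam ^ (k + 1)), inferInstance, inferInstance, hfree, hfin,
    S58XF_rep W (lam ^ (k + 1)), ?_, ?_, ?_, ?_⟩
  · rw [Module.finrank_eq_card_basis b, Fintype.card_fin]
  · exact Fermat.Agent.G_helper12_S42AUX.PG42_torsion_level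
      (W.map (Int.castRingHom ℚ)).toAffine (lam ^ (k + 1)) hfinite
  · intro ℓ hℓ hℓS A hA σ hσ
    simp only [Finset.mem_union, Finset.mem_singleton, not_or] at hℓS
    obtain ⟨⟨hℓB, hℓlam⟩, hℓΔ⟩ := hℓS
    have hgood : W.IsGoodPrimeFor ℓ := by
      intro hdvd
      apply hℓΔ
      rw [Nat.mem_primeFactors]
      exact ⟨hℓ, Int.natCast_dvd.mp hdvd, Int.natAbs_ne_zero.mpr hΔ⟩
    refine ⟨X ^ 2 - C (W.apOfModel ℓ) * X + C (ℓ : ℤ), ?_, ?_⟩
    · rw [S58CMPC_quad_map, hF ℓ hℓ hℓB hgood hℓlam A hA σ hσ, Int.cast_natCast]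
    · rw [S58CMPC_quad_map, S58XF_charpoly W _ b, hE1 ℓ hℓ hgood hℓlam (k + 1) b A hA σ hσ,
        Int.cast_natCast]
  · rw [S58XF_charpoly W _ b, hg k b]

/-- **(XFER) for one curve.** -/
theorem S58XF_xfer (W : WeierstrassCurve ℤ) (hΔ : W.Δ ≠ 0) (lam : ℕ) [Fact lam.Prime]
    (hE0 : S58T_E0 W lam) (hE1 : S58XF_E1 W lam) (hE3 : S58T_E3 W lam)
    (O'' : Type) [CommRing O''] [IsDomain O''] [IsDiscreteValuationRing O''] [CharZero O'']
    (hlam : (lam : O'') ∈ maximalIdeal O'') (ρ : GaloisRepAdic O'') (B : Finset ℕ)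
    (hF : S58C_Frob W lam ρ B) :
    S58C_Frob W lam ρ ∅ ∧ ∀ q : ℕ, q.Prime → q ≠ lam → ρ.IsUnipotentOnInertiaAt q := by
  have hlamp : lam.Prime := Fact.out
  have hlam0 : (lam : O'') ≠ 0 := Nat.cast_ne_zero.mpr hlamp.ne_zero
  refine ⟨?_, ?_⟩
  · intro ℓ hℓ _ hgood hℓlam A hA σ hσ
    have key := S58CMPC_charpoly_of_levels ρ lam hlamp.one_lt hlam hlam0
      (B ∪ {lam} ∪ W.Δ.natAbs.primeFactors) σ (X ^ 2 - C (W.apOfModel ℓ) * X + C (ℓ : ℤ))
      (fun k => S58XF_levels W hΔ lam hE0 hE1 O'' ρ B hF σ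
        (fun k => (X ^ 2 - C (W.apOfModel ℓ) * X + C (ℓ : ℤ) : ℤ[X]).map
          (Int.castRingHom (ZMod (lam ^ (k + 1)))))
        (fun k b => by
          rw [S58CMPC_quad_map, hE1 ℓ hℓ hgood hℓlam (k + 1) b A hA σ hσ, Int.cast_natCast]) k)
    rw [key, S58CMPC_quad_map, Int.cast_natCast]
  · intro q hq hqlam
    intro P hP τ hτ
    have key := S58CMPC_charpoly_of_levels ρ lam hlamp.one_lt hlam hlam0
      (B ∪ {lam} ∪ W.Δ.natAbs.primeFactors) τ ((X - 1) ^ 2)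
      (fun k => S58XF_levels W hΔ lam hE0 hE1 O'' ρ B hF τ
        (fun k => ((X - 1) ^ 2 : ℤ[X]).map (Int.castRingHom (ZMod (lam ^ (k + 1)))))
        (fun k b => by
          rw [hE3 q hq hqlam (k + 1) b P hP τ hτ]
          simp) k)
    rw [key]
    simp

/-- **(XFER)**: helper18's contract from the three elliptic contracts. -/
theorem S58XF_main
    (h : ∀ (W : WeierstrassCurve ℤ), W.Δ ≠ 0 → W.IsSemistableModel →
      ∀ (lam : ℕ) [Fact lam.Prime], S58T_E0 W lam ∧ S58XF_E1 W lam ∧ S58T_E3 W lam) :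
    S58C_XFER := by
  intro W hΔ hss lam _ O'' _ _ _ _ _ _ hlam ρ B hF
  obtain ⟨hE0, hE1, hE3⟩ := h W hΔ hss lam
  exact S58XF_xfer W hΔ lam hE0 hE1 hE3 O'' hlam ρ B hF

end Fermat.Agent.S58_helper14_XFER
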