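import Mathlib
import Fermat.Prelude.Def_GaloisRep_ComplexConjugation
import Fermat.Agent.S58_helper18_Contracts
import Fermat.Agent.S58_helper2_TORS
import Fermat.Agent.S58_helper14_XFER
import Fermat.Agent.S58_helper14_INVOL
import Fermat.Agent.S31_helper5_LEVEL
import Fermat.Agent.S30_helper17_CYCADIC
import Fermat.Agent.G_helper7_CYC

/-!
# S58, piece (RES) (helper14): the plug

`S58RES_main`: helper18's contract `S58C_RES` from
* `S58T_E0 W p` (helper2) and `S58XF_E1 W p` at level `p` (only `k = 1` is used), and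
* the abstract transfer of irreducibility `S58RES_IA` (helper12's `S58IA_main`, typed here as a
  `Prop`): two representations of dimension 2 with the same characteristic polynomials, an
  involution `c` with `det (r c) = -1`, `r` irreducible over `K` ⟹ `r'` irreducible over `K'`.

Steps: (1) `S58RES_det_of_inv`: `det ρ̄(c) = -1` for every `c` inverting the `p`-th roots of unity
(Frobenius density + `det ρ(Frob_ℓ) = ℓ` + `Frob_ℓ ζ = ζ ^ ℓ`); so `ρ̄` is odd by
`S58INV_galois`; (2) `S58RES_cmp`: `charpoly ρ̄(g) = map (charpoly (g | W[p]))` for all `g`, by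
(CMP) at `I = 𝔪`; (3) base change to the algebraic closure and `S58RES_IA`.
-/

set_option autoImplicit false
set_option linter.unusedSectionVars false
set_option linter.unusedVariables false
set_option linter.style.haveILetI false
set_option linter.unusedSimpArgs false

open Polynomial IsLocalRing

namespace Fermat.Agent.S58_helper14_RES

open Fermat.Agent.S58_helper18_Contracts Fermat.Agent.S58_helper2_TORS
open Fermat.Agent.S58_helper14_CMP Fermat.Agent.S58_helper14_CMPC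
open Fermat.Agent.S58_helper14_XFER

/-- the abstract transfer of irreducibility (helper12's `S58IA_main`), as a `Prop` -/
def S58RES_IA : Prop :=
  ∀ {G : Type} [Group G] {K K' : Type} [Field K] [Field K'] (φ : K →+* K') (h2 : (2 : K) ≠ 0)
    {V V' : Type} [AddCommGroup V] [Module K V] [Module.Finite K V]
    [AddCommGroup V'] [Module K' V'] [Module.Finite K' V']
    (hV : Module.finrank K V = 2) (hV' : Module.finrank K' V' = 2)
    (r : G →* Module.End K V) (r' : G →* Module.End K' V')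
    (hcp : ∀ g, LinearMap.charpoly (r' g) = (LinearMap.charpoly (r g)).map φ)
    (c : G) (hcc : c * c = 1) (hdet : LinearMap.det (r c) = -1)
    (hirr : ∀ L : Submodule K V, (∀ g, ∀ x ∈ L, r g x ∈ L) → L = ⊥ ∨ L = ⊤),
    ∀ L' : Submodule K' V', (∀ g, ∀ x ∈ L', r' g x ∈ L') → L' = ⊥ ∨ L' = ⊤

section

variable (W : WeierstrassCurve ℤ) (p : ℕ) [Fact p.Prime]
  {O'' : Type} [CommRing O''] [IsLocalRing O'']

theorem S58RES_natCast_residue (hp : (p : O'') ∈ maximalIdeal O'') :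
    ((p : ℕ) : ResidueField O'') = 0 := by
  have h := (IsLocalRing.residue_eq_zero_iff (p : O'')).mpr hp
  rwa [map_natCast] at h

/-- the determinant of the residual representation at a Frobenius element -/
theorem S58RES_det_frob (ρ : GaloisRepAdic O'') (B : Finset ℕ) (hF : S58C_Frob W p ρ B)
    (ℓ : ℕ) (hℓ : ℓ.Prime) (hℓB : ℓ ∉ B) (hgood : W.IsGoodPrimeFor ℓ) (hℓp : ℓ ≠ p)
    (A : ValuationSubring (AlgebraicClosure ℚ)) (hA : A.LiesOverPrime ℓ)
    (σ : S58CMP_GQ) (hσ : A.IsFrobeniusAt σ ℓ) :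
    LinearMap.det (ρ.residual.ρ σ) = ((ℓ : ℕ) : ResidueField O'') := by
  refine (LinearMap.det_baseChange (A := ResidueField O'') (f := ρ.ρ σ)).trans ?_
  rw [LinearMap.det_eq_sign_charpoly_coeff, ρ.finrank_eq, hF ℓ hℓ hℓB hgood hℓp A hA σ hσ]
  simp

/-- **(1)** `det ρ̄(c) = -1` for every `c` inverting the `p`-th roots of unity. -/
theorem S58RES_det_of_inv (hΔ : W.Δ ≠ 0) (hp : (p : O'') ∈ maximalIdeal O'')
    (ρ : GaloisRepAdic O'') (B : Finset ℕ) (hF : S58C_Frob W p ρ B)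
    (c : S58CMP_GQ) (hinv : ∀ ζ : AlgebraicClosure ℚ, ζ ^ p = 1 → c ζ = ζ⁻¹) :
    LinearMap.det (ρ.residual.ρ c) = -1 := by
  have hpp : p.Prime := Fact.out
  haveI : NeZero p := ⟨hpp.ne_zero⟩
  obtain ⟨L₀, hfd, hL₀⟩ := ρ.residual.factorsThroughFiniteLevel
  obtain ⟨ζ, hζ⟩ := Fermat.Agent.G_helper7_CYC.PGCYC_exists_primitiveRoot p
  haveI := hfd
  haveI hQb : Algebra.IsAlgebraic ℚ (AlgebraicClosure ℚ) := AlgebraicClosure.isAlgebraic ℚ
  haveI hfd2 : FiniteDimensional ℚ (IntermediateField.adjoin ℚ {ζ}) :=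
    IntermediateField.adjoin.finiteDimensional
      (Algebra.IsAlgebraic.isAlgebraic (R := ℚ) ζ).isIntegral
  haveI : FiniteDimensional ℚ
      (L₀ ⊔ IntermediateField.adjoin ℚ {ζ} : IntermediateField ℚ (AlgebraicClosure ℚ)) :=
    IntermediateField.finiteDimensional_sup L₀ _
  obtain ⟨ℓ, A, σ, b, hℓ, hℓS, hA, hσ, hg⟩ :=
    Fermat.Agent.G_helper9_FROBDENS.PG_frobenius_density
      (L₀ ⊔ IntermediateField.adjoin ℚ {ζ}) c (B ∪ {p} ∪ W.Δ.natAbs.primeFactors)
  simp only [Finset.mem_union, Finset.mem_singleton, not_or] at hℓS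
  obtain ⟨⟨hℓB, hℓp⟩, hℓΔ⟩ := hℓS
  have hgood : W.IsGoodPrimeFor ℓ := by
    intro hdvd
    apply hℓΔ
    rw [Nat.mem_primeFactors]
    exact ⟨hℓ, Int.natCast_dvd.mp hdvd, Int.natAbs_ne_zero.mpr hΔ⟩
  -- the representation at `c`
  have e1 : ρ.residual.ρ c = ρ.residual.ρ σ ^ b := by
    rw [← map_pow]
    exact S58CMP_eq_of_agree ρ.residual.ρ L₀ hL₀ c (σ ^ b)
      (fun x hx => hg x ((le_sup_left : L₀ ≤ L₀ ⊔ IntermediateField.adjoin ℚ {ζ}) hx))
  rw [e1, map_pow, S58RES_det_frob W p ρ B hF ℓ hℓ hℓB hgood hℓp A hA σ hσ]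
  -- the root of unity
  have hζL : ζ ∈ (L₀ ⊔ IntermediateField.adjoin ℚ {ζ} :
      IntermediateField ℚ (AlgebraicClosure ℚ)) :=
    (le_sup_right : IntermediateField.adjoin ℚ {ζ} ≤ L₀ ⊔ IntermediateField.adjoin ℚ {ζ})
      (IntermediateField.mem_adjoin_simple_self ℚ ζ)
  have hcop : Nat.Coprime ℓ p := (Nat.coprime_primes hℓ hpp).mpr hℓp
  have h1 : c ζ = ζ ^ (ℓ ^ b) := by
    rw [hg ζ hζL]
    exact Fermat.Agent.S31_helper5_LEVEL.S31L_frob_pow_root hcop A hA σ hσ b hζ.pow_eq_one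
  have h2 : ζ ^ (ℓ ^ b + 1) = 1 := by
    rw [pow_succ, ← h1, hinv ζ hζ.pow_eq_one]
    exact inv_mul_cancel₀ (hζ.ne_zero hpp.ne_zero)
  obtain ⟨m, hm⟩ := hζ.dvd_of_pow_eq_one _ h2
  have h3 : ((ℓ ^ b + 1 : ℕ) : ResidueField O'') = 0 := by
    rw [hm, Nat.cast_mul, S58RES_natCast_residue p hp, zero_mul]
  rw [Nat.cast_add, Nat.cast_pow, Nat.cast_one] at h3
  exact eq_neg_of_add_eq_zero_left h3

/-- **(1')** the residual representation is odd. -/
theorem S58RES_odd (hΔ : W.Δ ≠ 0) (hp2 : p ≠ 2) (hp : (p : O'') ∈ maximalIdeal O'')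
    (ρ : GaloisRepAdic O'') (B : Finset ℕ) (hF : S58C_Frob W p ρ B) :
    ρ.residual.IsOdd := by
  have hpp : p.Prime := Fact.out
  intro c hcc hc1
  exact S58RES_det_of_inv W p hΔ hp ρ B hF c
    (fun ζ hζ => Fermat.Agent.S58_helper14_INVOL.S58INV_galois c hcc hc1
      (hpp.odd_of_ne_two hp2) ζ hζ)

/-- the determinant at complex conjugation -/
theorem S58RES_det_conj (hΔ : W.Δ ≠ 0) (hp : (p : O'') ∈ maximalIdeal O'')
    (ρ : GaloisRepAdic O'') (B : Finset ℕ) (hF : S58C_Frob W p ρ B) :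
    LinearMap.det (ρ.residual.ρ complexConjugation) = -1 := by
  have hpp : p.Prime := Fact.out
  exact S58RES_det_of_inv W p hΔ hp ρ B hF complexConjugation
    (fun ζ hζ => Fermat.Agent.S30_helper17_CYCADIC.S30CYC_conj_apply hpp.ne_zero hζ)

end

section

variable (W : WeierstrassCurve ℤ) (p : ℕ) [Fact p.Prime]
  {O'' : Type} [CommRing O''] [IsLocalRing O'']

/-- **(2)** the residual comparison: `charpoly ρ̄(g) = map φ (charpoly (g | W[p]))`. -/
theorem S58RES_cmp (hΔ : W.Δ ≠ 0)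
    (b : Module.Basis (Fin 2) (ZMod p) (S58T_Tors W p))
    (hE1 : ∀ ℓ : ℕ, ℓ.Prime → W.IsGoodPrimeFor ℓ → ℓ ≠ p →
      ∀ (A : ValuationSubring (AlgebraicClosure ℚ)), A.LiesOverPrime ℓ →
      ∀ σ : AlgebraicClosure ℚ ≃ₐ[ℚ] AlgebraicClosure ℚ, A.IsFrobeniusAt σ ℓ →
        S58T_cp W p b σ = X ^ 2 - C ((W.apOfModel ℓ : ℤ) : ZMod p) * X + C ((ℓ : ℕ) : ZMod p))
    (ρ : GaloisRepAdic O'') (B : Finset ℕ) (hF : S58C_Frob W p ρ B)
    (φ : ZMod p →+* ResidueField O'') (g : S58CMP_GQ) :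
    LinearMap.charpoly (ρ.residual.ρ g) = (S58T_cp W p b g).map φ := by
  have hpp : p.Prime := Fact.out
  haveI : NeZero p := ⟨hpp.ne_zero⟩
  haveI hfin : Module.Finite (ZMod p) (S58T_Tors W p) := Module.Finite.of_basis b
  haveI hfinite : Finite (S58T_Tors W p) := Module.finite_of_finite (ZMod p)
  have hrk : Module.finrank (ZMod p) (S58T_Tors W p) = 2 := by
    rw [Module.finrank_eq_card_basis b, Fintype.card_fin]
  have hlev : GaloisFactorsThroughFiniteLevel (S58XF_rep W p) :=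
    Fermat.Agent.G_helper12_S42AUX.PG42_torsion_level
      (W.map (Int.castRingHom ℚ)).toAffine p hfinite
  have hI : maximalIdeal O'' ^ 1 ≤ maximalIdeal O'' := by rw [pow_one]
  have hmap : ∀ (P : ℤ[X]) (ψ : ZMod p →+* ResidueField O''),
      (P.map (Int.castRingHom (ZMod p))).map ψ
        = (P.map (Int.castRingHom O'')).map (Ideal.Quotient.mk (maximalIdeal O'')) := by
    intro P ψ
    rw [Polynomial.map_map, Polynomial.map_map]
    exact congrArg (fun f => P.map f) (RingHom.ext_int _ _)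
  have key := S58CMP_main ρ (maximalIdeal O'') 1 hI hrk (S58XF_rep W p) hlev φ
    (B ∪ {p} ∪ W.Δ.natAbs.primeFactors)
    (fun ℓ hℓ hℓS A hA σ hσ => by
      simp only [Finset.mem_union, Finset.mem_singleton, not_or] at hℓS
      obtain ⟨⟨hℓB, hℓp⟩, hℓΔ⟩ := hℓS
      have hgood : W.IsGoodPrimeFor ℓ := by
        intro hdvd
        apply hℓΔ
        rw [Nat.mem_primeFactors]
        exact ⟨hℓ, Int.natCast_dvd.mp hdvd, Int.natAbs_ne_zero.mpr hΔ⟩
      have h1 : LinearMap.charpoly (ρ.ρ σ)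
          = (X ^ 2 - C (W.apOfModel ℓ) * X + C (ℓ : ℤ) : ℤ[X]).map (Int.castRingHom O'') := by
        rw [S58CMPC_quad_map, hF ℓ hℓ hℓB hgood hℓp A hA σ hσ, Int.cast_natCast]
      have h2 : LinearMap.charpoly (S58XF_rep W p σ)
          = (X ^ 2 - C (W.apOfModel ℓ) * X + C (ℓ : ℤ) : ℤ[X]).map
              (Int.castRingHom (ZMod p)) := by
        rw [S58CMPC_quad_map, S58XF_charpoly W p b, hE1 ℓ hℓ hgood hℓp A hA σ hσ,
          Int.cast_natCast]
      rw [h1, h2]
      exact (hmap _ φ).symm) g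
  rw [S58XF_charpoly W p b g] at key
  refine (LinearMap.charpoly_baseChange (A := ResidueField O'') (f := ρ.ρ g)).trans ?_
  exact key

end

/-- **(RES) for one curve**, from the level-`p` data. -/
theorem S58RES_one (hIA : S58RES_IA) (W : WeierstrassCurve ℤ) (hΔ : W.Δ ≠ 0)
    (p : ℕ) [Fact p.Prime] (hp2 : p ≠ 2) (hirr : W.ModRepIsIrreducible p)
    (b : Module.Basis (Fin 2) (ZMod p) (S58T_Tors W p))
    (hE1 : ∀ ℓ : ℕ, ℓ.Prime → W.IsGoodPrimeFor ℓ → ℓ ≠ p →
      ∀ (A : ValuationSubring (AlgebraicClosure ℚ)), A.LiesOverPrime ℓ →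
      ∀ σ : AlgebraicClosure ℚ ≃ₐ[ℚ] AlgebraicClosure ℚ, A.IsFrobeniusAt σ ℓ →
        S58T_cp W p b σ = X ^ 2 - C ((W.apOfModel ℓ : ℤ) : ZMod p) * X + C ((ℓ : ℕ) : ZMod p))
    (O'' : Type) [CommRing O''] [IsLocalRing O'']
    (hp : (p : O'') ∈ maximalIdeal O'')
    (ρ : GaloisRepAdic O'') (B : Finset ℕ) (hF : S58C_Frob W p ρ B) :
    ρ.residual.IsAbsolutelyIrreducible ∧ ρ.residual.IsOdd := by
  have hpp : p.Prime := Fact.out
  haveI : NeZero p := ⟨hpp.ne_zero⟩
  refine ⟨?_, S58RES_odd W p hΔ hp2 hp ρ B hF⟩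
  -- the residue field has characteristic `p`
  haveI hchar : CharP (ResidueField O'') p :=
    (CharP.charP_iff_prime_eq_zero hpp).mpr (S58RES_natCast_residue p hp)
  let φ : ZMod p →+* ResidueField O'' := ZMod.castHom (dvd_refl p) (ResidueField O'')
  let φ' : ZMod p →+* AlgebraicClosure (ResidueField O'') :=
    (algebraMap (ResidueField O'') (AlgebraicClosure (ResidueField O''))).comp φ
  haveI hfin : Module.Finite (ZMod p) (S58T_Tors W p) := Module.Finite.of_basis b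
  have hrk : Module.finrank (ZMod p) (S58T_Tors W p) = 2 := by
    rw [Module.finrank_eq_card_basis b, Fintype.card_fin]
  have h2 : (2 : ZMod p) ≠ 0 := by
    intro h
    have h' : ((2 : ℕ) : ZMod p) = 0 := by exact_mod_cast h
    rw [ZMod.natCast_eq_zero_iff] at h'
    exact hp2 ((Nat.prime_dvd_prime_iff_eq hpp Nat.prime_two).mp h')
  -- the comparison over the algebraic closure
  have hcp : ∀ g : S58CMP_GQ,
      LinearMap.charpoly ((ρ.residual.baseChange (AlgebraicClosure (ResidueField O''))).ρ g)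
        = (LinearMap.charpoly (S58XF_rep W p g)).map φ' := by
    intro g
    refine (LinearMap.charpoly_baseChange (A := AlgebraicClosure (ResidueField O''))
      (f := ρ.residual.ρ g)).trans ?_
    rw [S58RES_cmp W p hΔ b hE1 ρ B hF φ g, Polynomial.map_map, S58XF_charpoly W p b g]
  -- the determinant at complex conjugation
  have hdet : LinearMap.det (S58XF_rep W p complexConjugation) = -1 := by
    have h1 := S58RES_det_conj W p hΔ hp ρ B hF
    have h3 := S58RES_cmp W p hΔ b hE1 ρ B hF φ complexConjugation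
    have h4 : LinearMap.det (ρ.residual.ρ complexConjugation)
        = φ (LinearMap.det (S58XF_rep W p complexConjugation)) := by
      rw [LinearMap.det_eq_sign_charpoly_coeff, LinearMap.det_eq_sign_charpoly_coeff, h3,
        ρ.residual.finrank_eq, hrk, S58XF_charpoly W p b complexConjugation,
        Polynomial.coeff_map, map_mul, map_pow, map_neg, map_one]
    rw [h1] at h4
    apply φ.injective
    rw [← h4, map_neg, map_one]
  exact hIA φ' h2 hrk (ρ.residual.baseChange (AlgebraicClosure (ResidueField O''))).finrank_eq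
    (S58XF_rep W p) (ρ.residual.baseChange (AlgebraicClosure (ResidueField O''))).ρ hcp
    complexConjugation complexConjugation_mul_self hdet
    (fun L hL => hirr.2 L (fun σ x hx => hL σ x hx))

/-- **(RES)**: helper18's contract, from (E0) and (E1) at the prime `p`. -/
theorem S58RES_main (hIA : S58RES_IA)
    (h : ∀ (W : WeierstrassCurve ℤ), W.Δ ≠ 0 → W.IsSemistableModel →
      ∀ (p : ℕ) [Fact p.Prime], S58T_E0 W p ∧ S58XF_E1 W p) :
    S58C_RES := by
  intro W hΔ hss p _ hp2 hirr O'' _ _ _ _ _ _ hp ρ B hF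
  obtain ⟨hE0, hE1⟩ := h W hΔ hss p
  have keyb : ∀ n : ℕ, n = p →
      Nonempty (Module.Basis (Fin 2) (ZMod n) (S58T_Tors W n)) →
      Nonempty (Module.Basis (Fin 2) (ZMod p) (S58T_Tors W p)) := by
    intro n hn
    subst hn
    exact id
  obtain ⟨b⟩ := keyb (p ^ 1) (pow_one p) (hE0 1)
  have hE1' : ∀ ℓ : ℕ, ℓ.Prime → W.IsGoodPrimeFor ℓ → ℓ ≠ p →
      ∀ (b : Module.Basis (Fin 2) (ZMod p) (S58T_Tors W p))
      (A : ValuationSubring (AlgebraicClosure ℚ)), A.LiesOverPrime ℓ →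
      ∀ σ : AlgebraicClosure ℚ ≃ₐ[ℚ] AlgebraicClosure ℚ, A.IsFrobeniusAt σ ℓ →
        S58T_cp W p b σ
          = X ^ 2 - C ((W.apOfModel ℓ : ℤ) : ZMod p) * X + C ((ℓ : ℕ) : ZMod p) := by
    intro ℓ hℓ hgood hℓp
    have key : ∀ n : ℕ, n = p →
        (∀ (b : Module.Basis (Fin 2) (ZMod n) (S58T_Tors W n))
          (A : ValuationSubring (AlgebraicClosure ℚ)), A.LiesOverPrime ℓ →
          ∀ σ : AlgebraicClosure ℚ ≃ₐ[ℚ] AlgebraicClosure ℚ, A.IsFrobeniusAt σ ℓ →
            S58T_cp W n b σ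
              = X ^ 2 - C ((W.apOfModel ℓ : ℤ) : ZMod n) * X + C ((ℓ : ℕ) : ZMod n)) →
        (∀ (b : Module.Basis (Fin 2) (ZMod p) (S58T_Tors W p))
          (A : ValuationSubring (AlgebraicClosure ℚ)), A.LiesOverPrime ℓ →
          ∀ σ : AlgebraicClosure ℚ ≃ₐ[ℚ] AlgebraicClosure ℚ, A.IsFrobeniusAt σ ℓ →
            S58T_cp W p b σ
              = X ^ 2 - C ((W.apOfModel ℓ : ℤ) : ZMod p) * X + C ((ℓ : ℕ) : ZMod p)) := by
      intro n hn
      subst hn
      exact id
    exact key (p ^ 1) (pow_one p) (hE1 ℓ hℓ hgood hℓp 1)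
  exact S58RES_one hIA W hΔ p hp2 hirr b
    (fun ℓ hℓ hgood hℓp A hA σ hσ => hE1' ℓ hℓ hgood hℓp b A hA σ hσ) O'' hp ρ B hF

end Fermat.Agent.S58_helper14_RES
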