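import Fermat.Agent.S58_helper18_TOPODD
import Fermat.Agent.S58_helper14_XFER

/-!
# S58 (helper18, owner): (XFER) at the odd primes from the elliptic contracts at the odd primes

`S58XO_main`: if `(E0)`, `(E1)`, `(E3)` hold at every ODD prime `lam` (for every semistable `W`
with `Δ ≠ 0`), then `S58C_XFERodd`; together with `S58TO_top` this is the frozen statement with
the elliptic contracts asked at the odd primes only.
-/

set_option autoImplicit false

open Fermat.Agent.S58_helper18_Contracts Fermat.Agent.S58_helper2_TORS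
open Fermat.Agent.S58_helper14_XFER Fermat.Agent.S58_helper18_TOPODD

namespace Fermat.Agent.S58_helper18_XFERODD

/-- **(XFER), odd primes**, from the three elliptic contracts at the odd primes. -/
theorem S58XO_main
    (h : ∀ (W : WeierstrassCurve ℤ), W.Δ ≠ 0 → W.IsSemistableModel →
      ∀ (lam : ℕ) [Fact lam.Prime], lam ≠ 2 →
        S58T_E0 W lam ∧ S58XF_E1 W lam ∧ S58T_E3 W lam) :
    S58C_XFERodd := by
  intro W hΔ hss lam _ hlam2 O'' _ _ _ _ _ _ hlam ρ B hF
  obtain ⟨hE0, hE1, hE3⟩ := h W hΔ hss lam hlam2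
  exact S58XF_xfer W hΔ lam hE0 hE1 hE3 O'' hlam ρ B hF

end Fermat.Agent.S58_helper18_XFERODD
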