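import Mathlib
import Fermat.Prelude.Def_CuspForm_HeckeAlgebra

/-!
# S58 (O): the coefficient ring and the map `iota` (simplified route)

Brick (O) of the S58 plan.  The attached Galois representations of S30 / S35 / S36 need a
complete discrete valuation ring `O'` and a ring homomorphism `iota : chig.range →+* O'`.
Here `O' = ℤ_[lam]`, whose instances are all in Mathlib, and `iota` need not be injective.

* `S58O_padic_mem`: `lam` lies in the maximal ideal of `ℤ_[lam]`.
* `S58O_iota_int`: if all the values of `chig` at the `T_ℓ` are integers, there is a ring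
  homomorphism from `chig.range` to every ring.
* `S58O_exists_iota`, `S58O_exists_iota_range`: for an algebraic integer `α` and a finite set `B`
  of primes there are a prime `lam ∉ B` and a ring homomorphism `ℤ[α] →+* ℤ_[lam]`
  (Euclid's argument on the values of the minimal polynomial, and Hensel's lemma).
* `S58O_eq_int`: if some ring homomorphism into a ring of characteristic zero sends the algebraic
  integer `α` to an integer `a`, then `α = a`.
* `S58O_range_le`: the range of a character of the Hecke algebra away from `S` is contained in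
  every subring containing the values at the generators.
-/

set_option autoImplicit false

open Polynomial

namespace Fermat.Agent.S58_helper20_O

/-- `p` lies in the maximal ideal of `ℤ_[p]`. -/
theorem S58O_padic_mem (p : ℕ) [Fact p.Prime] :
    (p : ℤ_[p]) ∈ IsLocalRing.maximalIdeal ℤ_[p] := by
  rw [PadicInt.maximalIdeal_eq_span_p]
  exact Ideal.subset_span rfl

/-- The residue field of `ℤ_[p]` is finite. -/
theorem S58O_padic_finite (p : ℕ) [Fact p.Prime] :
    Finite (IsLocalRing.ResidueField ℤ_[p]) := by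
  infer_instance

/-- A prime not dividing a nonzero integer. -/
theorem S58O_exists_prime_not_dvd (P : ℤ) (hP : P ≠ 0) :
    ∃ lam : ℕ, lam.Prime ∧ ¬ (lam : ℤ) ∣ P := by
  obtain ⟨lam, hle, hlam⟩ := Nat.exists_infinite_primes (P.natAbs + 1)
  refine ⟨lam, hlam, fun hdvd => ?_⟩
  have h1 : lam ∣ P.natAbs := Int.natCast_dvd.mp hdvd
  have h2 : lam ≤ P.natAbs := Nat.le_of_dvd (Int.natAbs_pos.mpr hP) h1
  omega

/-- Euclid's argument for the values of a non-constant integer polynomial: outside every nonzero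
integer `P` there is a prime dividing a value of `m`. -/
theorem S58O_euclid (m : ℤ[X]) (hdeg : 1 ≤ m.natDegree) (P : ℤ) (hP : P ≠ 0) :
    ∃ lam : ℕ, lam.Prime ∧ ¬ (lam : ℤ) ∣ P ∧ ∃ a : ℤ, (lam : ℤ) ∣ m.eval a := by
  set c : ℤ := m.eval 0 with hc
  by_cases hc0 : c = 0
  · obtain ⟨lam, hlam, hnd⟩ := S58O_exists_prime_not_dvd P hP
    exact ⟨lam, hlam, hnd, 0, by rw [← hc, hc0]; exact dvd_zero _⟩
  -- the polynomial `m (c P X)`
  have hcP : c * P ≠ 0 := mul_ne_zero hc0 hP
  set g : ℤ[X] := m.comp (C (c * P) * X) with hg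
  have hgdeg : g.natDegree = m.natDegree := by
    rw [hg, natDegree_comp, natDegree_C_mul_X _ hcP, mul_one]
  have h1 : g - C c ≠ 0 := by
    intro h
    have : (g - C c).natDegree = m.natDegree := by rw [natDegree_sub_C, hgdeg]
    rw [h, natDegree_zero] at this
    omega
  have h2 : g + C c ≠ 0 := by
    intro h
    have : (g + C c).natDegree = m.natDegree := by rw [natDegree_add_C, hgdeg]
    rw [h, natDegree_zero] at this
    omega
  have h3 : (g - C c) * (g + C c) ≠ 0 := mul_ne_zero h1 h2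
  obtain ⟨t, ht⟩ : ∃ t : ℤ, ((g - C c) * (g + C c)).eval t ≠ 0 := by
    by_contra hcon
    exact h3 (Polynomial.funext fun x => by
      rw [eval_zero]
      by_contra hx
      exact hcon ⟨x, hx⟩)
  rw [eval_mul, eval_sub, eval_add, eval_C] at ht
  have hgt : g.eval t = m.eval (c * P * t) := by
    rw [hg, eval_comp, eval_mul, eval_C, eval_X]
  -- `m (c P t) = c (1 + P t k)`
  obtain ⟨k, hk⟩ : (c * P * t - 0) ∣ m.eval (c * P * t) - m.eval 0 := sub_dvd_eval_sub _ _ _
  rw [sub_zero, ← hc] at hk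
  set v : ℤ := 1 + P * t * k with hv
  have hmv : m.eval (c * P * t) = c * v := by rw [hv]; linear_combination hk
  by_cases hv0 : v = 0
  · obtain ⟨lam, hlam, hnd⟩ := S58O_exists_prime_not_dvd P hP
    exact ⟨lam, hlam, hnd, c * P * t, by rw [hmv, hv0, mul_zero]; exact dvd_zero _⟩
  have hv1 : v ≠ 1 := by
    intro h
    apply ht
    rw [hgt, hmv, h]
    ring
  have hvm1 : v ≠ -1 := by
    intro h
    apply ht
    rw [hgt, hmv, h]
    ring
  have hvabs : v.natAbs ≠ 1 := by
    intro h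
    rcases Int.natAbs_eq v with h' | h'
    · rw [h] at h'; exact hv1 (by simpa using h')
    · rw [h] at h'; exact hvm1 (by simpa using h')
  obtain ⟨lam, hlam, hdvd⟩ := Nat.exists_prime_and_dvd hvabs
  have hdvd' : (lam : ℤ) ∣ v := Int.natCast_dvd.mpr hdvd
  refine ⟨lam, hlam, fun hP' => ?_, c * P * t, by rw [hmv]; exact Dvd.dvd.mul_left hdvd' c⟩
  have : (lam : ℤ) ∣ 1 := by
    have h4 : (lam : ℤ) ∣ P * t * k := Dvd.dvd.mul_right (Dvd.dvd.mul_right hP' t) k
    have h5 : (1 : ℤ) = v - P * t * k := by rw [hv]; ring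
    rw [h5]
    exact dvd_sub hdvd' h4
  have h6 : lam ∣ 1 := by exact_mod_cast this
  exact hlam.one_lt.ne' (Nat.dvd_one.mp h6)

/-- The Bezout constant of an irreducible monic integer polynomial and its derivative. -/
theorem S58O_bezout (m : ℤ[X]) (hm : m.Monic) (hirr : Irreducible m) :
    ∃ (u v : ℤ[X]) (D : ℤ), D ≠ 0 ∧ u * m + v * derivative m = C D := by
  have hirrQ : Irreducible (m.map (algebraMap ℤ ℚ)) :=
    (Monic.irreducible_iff_irreducible_map_fraction_map (K := ℚ) hm).mp hirr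
  have hsep : (m.map (algebraMap ℤ ℚ)).Separable := hirrQ.separable
  obtain ⟨a, b, hab⟩ := hsep
  obtain ⟨d₁, hd₁, hA⟩ := IsLocalization.integerNormalization_spec (nonZeroDivisors ℤ) a
  obtain ⟨d₂, hd₂, hB⟩ := IsLocalization.integerNormalization_spec (nonZeroDivisors ℤ) b
  set A := IsLocalization.integerNormalization (nonZeroDivisors ℤ) a
  set B := IsLocalization.integerNormalization (nonZeroDivisors ℤ) b
  have hd₁0 : d₁ ≠ 0 := nonZeroDivisors.ne_zero hd₁
  have hd₂0 : d₂ ≠ 0 := nonZeroDivisors.ne_zero hd₂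
  refine ⟨C d₂ * A, C d₁ * B, d₁ * d₂, mul_ne_zero hd₁0 hd₂0, ?_⟩
  apply Polynomial.map_injective (algebraMap ℤ ℚ) (RingHom.injective_int (algebraMap ℤ ℚ))
  simp only [Polynomial.map_add, Polynomial.map_mul, Polynomial.map_C, hA, hB,
    ← Polynomial.derivative_map]
  simp only [Algebra.smul_def, algebraMap_int_eq, eq_intCast, map_mul, map_intCast] at hab ⊢
  linear_combination ((d₁ : ℚ[X]) * (d₂ : ℚ[X])) * hab

/-- A prime `lam` outside a finite set and a root in `ℤ_[lam]` of a monic irreducible integer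
polynomial. -/
theorem S58O_exists_root (m : ℤ[X]) (hm : m.Monic) (hirr : Irreducible m) (B : Finset ℕ) :
    ∃ (lam : ℕ) (_ : Fact lam.Prime), lam ∉ B ∧ ∃ z : ℤ_[lam], Polynomial.aeval z m = 0 := by
  have hdeg : 1 ≤ m.natDegree := by
    rcases Nat.eq_zero_or_pos m.natDegree with h | h
    · exact absurd ((Polynomial.Monic.natDegree_eq_zero hm).mp h) hirr.ne_one
    · exact h
  obtain ⟨u, v, D, hD, huv⟩ := S58O_bezout m hm hirr
  set Q : ℤ := ∏ b ∈ B.filter Nat.Prime, (b : ℤ) with hQ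
  have hQ0 : Q ≠ 0 := by
    rw [hQ]
    refine Finset.prod_ne_zero_iff.mpr fun b hb => ?_
    have : b.Prime := (Finset.mem_filter.mp hb).2
    exact_mod_cast this.ne_zero
  obtain ⟨lam, hlam, hnd, a, ha⟩ := S58O_euclid m hdeg (D * Q) (mul_ne_zero hD hQ0)
  have hlamB : lam ∉ B := by
    intro hB
    apply hnd
    have h1 : (lam : ℤ) ∣ Q :=
      Finset.dvd_prod_of_mem (fun b : ℕ => (b : ℤ)) (Finset.mem_filter.mpr ⟨hB, hlam⟩)
    exact Dvd.dvd.mul_left h1 D
  have hlamD : ¬ (lam : ℤ) ∣ D := fun h => hnd (Dvd.dvd.mul_right h Q)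
  have hder : ¬ (lam : ℤ) ∣ (derivative m).eval a := by
    intro h
    apply hlamD
    have h2 := congrArg (Polynomial.eval a) huv
    rw [eval_add, eval_mul, eval_mul, eval_C] at h2
    rw [← h2]
    exact dvd_add (Dvd.dvd.mul_left ha _) (Dvd.dvd.mul_left h _)
  have hF : Fact lam.Prime := ⟨hlam⟩
  refine ⟨lam, hF, hlamB, ?_⟩
  have e1 : Polynomial.aeval (a : ℤ_[lam]) m = ((m.eval a : ℤ) : ℤ_[lam]) := by
    have := Polynomial.aeval_algebraMap_apply_eq_algebraMap_eval (A := ℤ_[lam]) a m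
    simpa using this
  have e2 : Polynomial.aeval (a : ℤ_[lam]) (derivative m) =
      (((derivative m).eval a : ℤ) : ℤ_[lam]) := by
    have := Polynomial.aeval_algebraMap_apply_eq_algebraMap_eval (A := ℤ_[lam]) a (derivative m)
    simpa using this
  have n1 : ‖Polynomial.aeval (a : ℤ_[lam]) m‖ < 1 := by
    rw [e1]; exact (PadicInt.norm_int_lt_one_iff_dvd _).mpr ha
  have n2 : ‖Polynomial.aeval (a : ℤ_[lam]) (derivative m)‖ = 1 := by
    rw [e2]
    have hle := PadicInt.norm_le_one (((derivative m).eval a : ℤ) : ℤ_[lam])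
    have hnlt : ¬ ‖(((derivative m).eval a : ℤ) : ℤ_[lam])‖ < 1 := fun h =>
      hder ((PadicInt.norm_int_lt_one_iff_dvd _).mp h)
    exact le_antisymm hle (not_lt.mp hnlt)
  have hnorm : ‖Polynomial.aeval (a : ℤ_[lam]) m‖ <
      ‖Polynomial.aeval (a : ℤ_[lam]) (derivative m)‖ ^ 2 := by
    rw [n2, one_pow]; exact n1
  obtain ⟨z, hz, -⟩ := hensels_lemma hnorm
  exact ⟨z, hz⟩

/-- For an algebraic integer `α` and a finite set `B` of primes there are a prime `lam ∉ B` and a
ring homomorphism `ℤ[α] →+* ℤ_[lam]`. -/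
theorem S58O_exists_iota (α : ℂ) (hα : IsIntegral ℤ α) (B : Finset ℕ) :
    ∃ (lam : ℕ) (_ : Fact lam.Prime), lam ∉ B ∧
      Nonempty (Algebra.adjoin ℤ ({α} : Set ℂ) →+* ℤ_[lam]) := by
  obtain ⟨lam, hF, hB, z, hz⟩ :=
    S58O_exists_root (minpoly ℤ α) (minpoly.monic hα) (minpoly.irreducible hα) B
  refine ⟨lam, hF, hB, ⟨?_⟩⟩
  have h : (minpoly ℤ α).eval₂ (algebraMap ℤ ℤ_[lam]) z = 0 := by
    rw [← Polynomial.aeval_def]; exact hz
  exact (AdjoinRoot.lift (algebraMap ℤ ℤ_[lam]) z h).comp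
    ((minpoly.equivAdjoin hα).symm : Algebra.adjoin ℤ ({α} : Set ℂ) →+* AdjoinRoot (minpoly ℤ α))

/-- A ring homomorphism defined on a subring of `ℂ` sends an element that is an integer to that
integer. -/
theorem S58O_iota_int_val {R : Type*} [Ring R] (A : Subring ℂ) (iota : A →+* R) (x : A) (a : ℤ)
    (hx : (x : ℂ) = (a : ℂ)) : iota x = (a : R) := by
  have : x = ((a : ℤ) : A) := Subtype.ext (by rw [hx]; simp)
  rw [this, map_intCast]

/-- No injectivity is needed: if a ring homomorphism into a ring of characteristic zero sends the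
algebraic integer `α` to the integer `a`, then `α = a`. -/
theorem S58O_eq_int {R : Type*} [CommRing R] [CharZero R] (α : ℂ) (hα : IsIntegral ℤ α)
    (A : Subring ℂ) (hαA : α ∈ A) (iota : A →+* R) (a : ℤ) (h : iota ⟨α, hαA⟩ = (a : R)) :
    α = (a : ℂ) := by
  set m := minpoly ℤ α with hm
  -- `m (α) = 0` inside `A`
  have h1 : Polynomial.eval₂ (Int.castRingHom A) (⟨α, hαA⟩ : A) m = 0 := by
    have h2 := Polynomial.hom_eval₂ m (Int.castRingHom A) A.subtype (⟨α, hαA⟩ : A)
    have h3 : (A.subtype.comp (Int.castRingHom A)) = algebraMap ℤ ℂ := RingHom.ext_int _ _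
    rw [h3] at h2
    have h2' : A.subtype (Polynomial.eval₂ (Int.castRingHom A) (⟨α, hαA⟩ : A) m) = 0 := by
      rw [h2]
      exact minpoly.aeval ℤ α
    exact Subtype.ext h2'
  -- apply `iota`
  have h4 := congrArg iota h1
  rw [Polynomial.hom_eval₂, map_zero, h] at h4
  have h5 : (iota.comp (Int.castRingHom A)) = Int.castRingHom R := RingHom.ext_int _ _
  rw [h5] at h4
  have h6 : ((m.eval a : ℤ) : R) = 0 := by
    rw [← h4]
    exact (Polynomial.eval₂_at_intCast (p := m) (Int.castRingHom R) a).symm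
  have h7 : m.eval a = 0 := by exact_mod_cast h6
  -- `X - a` divides the irreducible monic `m`
  have h8 : (X - C a) ∣ m := Polynomial.dvd_iff_isRoot.mpr h7
  have hirr : Irreducible m := minpoly.irreducible hα
  have h9 : Associated (X - C a) m :=
    (Polynomial.irreducible_X_sub_C a).associated_of_dvd hirr h8
  have h10 : X - C a = m :=
    Polynomial.eq_of_monic_of_associated (Polynomial.monic_X_sub_C a) (minpoly.monic hα) h9
  have h11 := minpoly.aeval ℤ α
  rw [← hm, ← h10] at h11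
  simp only [map_sub, aeval_X, eq_intCast, map_intCast] at h11
  exact sub_eq_zero.mp h11

/-- The range of a character of the Hecke algebra away from `S` (with `S` containing the primes
of the level) is contained in every subring containing the values at the `T_ℓ`. -/
theorem S58O_range_le {M : ℕ} [NeZero M] (S : Set ℕ)
    (chig : CuspForm.heckeAlgebra M 2 S →+* ℂ) (A : Subring ℂ)
    (hMS : ∀ q : ℕ, q.Prime → q ∣ M → q ∈ S)
    (hT : ∀ (ℓ : ℕ) (hℓ : ℓ.Prime) (hℓM : ¬ ℓ ∣ M) (hℓS : ℓ ∉ S),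
      chig (CuspForm.heckeAlgebra.T hℓ hℓM hℓS) ∈ A) :
    chig.range ≤ A := by
  rintro x ⟨⟨y, hy⟩, rfl⟩
  induction hy using Algebra.adjoin_induction with
  | mem y hy =>
    rcases hy with ⟨ℓ, hℓ, hℓN, hℓS, rfl⟩ | ⟨q, hqN, hq, hqS, rfl⟩
    · exact hT ℓ hℓ hℓN hℓS
    · exact absurd (hMS q hq hqN) hqS
  | algebraMap r =>
    have : (⟨algebraMap ℤ _ r, Subalgebra.algebraMap_mem _ r⟩ : CuspForm.heckeAlgebra M 2 S) =
        ((r : ℤ) : CuspForm.heckeAlgebra M 2 S) := by
      apply Subtype.ext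
      simp
    rw [this, map_intCast]
    exact intCast_mem A r
  | add y z hy hz hy' hz' =>
    have : (⟨y + z, Subalgebra.add_mem _ hy hz⟩ : CuspForm.heckeAlgebra M 2 S) =
        ⟨y, hy⟩ + ⟨z, hz⟩ := rfl
    rw [this, map_add]
    exact A.add_mem hy' hz'
  | mul y z hy hz hy' hz' =>
    have : (⟨y * z, Subalgebra.mul_mem _ hy hz⟩ : CuspForm.heckeAlgebra M 2 S) =
        ⟨y, hy⟩ * ⟨z, hz⟩ := rfl
    rw [this, map_mul]
    exact A.mul_mem hy' hz'

/-- If all the values of the character at the `T_ℓ` are integers, then there is a ring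
homomorphism from its range to every ring (the range is the image of `ℤ`). -/
theorem S58O_iota_int {M : ℕ} [NeZero M] (S : Set ℕ)
    (chig : CuspForm.heckeAlgebra M 2 S →+* ℂ)
    (hMS : ∀ q : ℕ, q.Prime → q ∣ M → q ∈ S)
    (hT : ∀ (ℓ : ℕ) (hℓ : ℓ.Prime) (hℓM : ¬ ℓ ∣ M) (hℓS : ℓ ∉ S),
      ∃ a : ℤ, chig (CuspForm.heckeAlgebra.T hℓ hℓM hℓS) = (a : ℂ))
    (R : Type*) [Ring R] : Nonempty (chig.range →+* R) := by
  have hle : chig.range ≤ (Int.castRingHom ℂ).range :=
    S58O_range_le S chig _ hMS fun ℓ hℓ hℓM hℓS => by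
      obtain ⟨a, ha⟩ := hT ℓ hℓ hℓM hℓS
      exact ⟨a, by rw [ha]; rfl⟩
  have hinj : Function.Injective (Int.castRingHom ℂ) := Int.cast_injective
  let e : ℤ ≃+* (Int.castRingHom ℂ).range := RingEquiv.ofLeftInverse
    (g := fun z => (Function.invFun (Int.castRingHom ℂ) z))
    (Function.leftInverse_invFun hinj)
  exact ⟨((Int.castRingHom R).comp (e.symm : (Int.castRingHom ℂ).range →+* ℤ)).comp
    (Subring.inclusion hle)⟩

/-- If all the values of the character at the `T_ℓ` lie in `ℤ[α]`, `α` an algebraic integer, then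
for every finite set `B` of primes there are a prime `lam ∉ B` and a ring homomorphism from the
range of the character to `ℤ_[lam]`. -/
theorem S58O_exists_iota_range {M : ℕ} [NeZero M] (S : Set ℕ)
    (chig : CuspForm.heckeAlgebra M 2 S →+* ℂ) (α : ℂ) (hα : IsIntegral ℤ α)
    (hMS : ∀ q : ℕ, q.Prime → q ∣ M → q ∈ S)
    (hT : ∀ (ℓ : ℕ) (hℓ : ℓ.Prime) (hℓM : ¬ ℓ ∣ M) (hℓS : ℓ ∉ S),
      chig (CuspForm.heckeAlgebra.T hℓ hℓM hℓS) ∈ Algebra.adjoin ℤ ({α} : Set ℂ))
    (B : Finset ℕ) :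
    ∃ (lam : ℕ) (_ : Fact lam.Prime), lam ∉ B ∧ Nonempty (chig.range →+* ℤ_[lam]) := by
  obtain ⟨lam, hF, hB, ⟨iota⟩⟩ := S58O_exists_iota α hα B
  refine ⟨lam, hF, hB, ⟨?_⟩⟩
  have hle : chig.range ≤ (Algebra.adjoin ℤ ({α} : Set ℂ)).toSubring :=
    S58O_range_le S chig _ hMS fun ℓ hℓ hℓM hℓS =>
      Subalgebra.mem_toSubring.mpr (hT ℓ hℓ hℓM hℓS)
  exact iota.comp (RingHom.codRestrict chig.range.subtype (Algebra.adjoin ℤ ({α} : Set ℂ))
    fun x => Subalgebra.mem_toSubring.mp (hle x.2))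

end Fermat.Agent.S58_helper20_O
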