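import Fermat.Agent.S58_helper18_Contracts
import Fermat.Agent.S58_helper20_O
import Fermat.Agent.G_helper23_G1b
import Fermat.Agent.S22

/-!
# S58 (O): the contracts `S58C_O` and `S58C_Op` of helper18

* `S58OP_chi`: the eigencharacter of the Hecke algebra away from `S` (with `S` containing the
  primes of the level) on a normalized eigenform `h`: `chig t = a_1 (t h)`.
* `S58OP_isIntegral`: its values are algebraic integers (landed S22).
* `S58OP_Op : S58C_Op` and `S58OP_O : S58C_O`.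
-/

set_option autoImplicit false

open Polynomial
open CuspForm ModularFormClass

namespace Fermat.Agent.S58_helper20_OPLUG

open Fermat.Agent.S58_helper18_Contracts Fermat.Agent.S58_helper20_O

/-- Every element of the Hecke algebra away from `S` has the normalized eigenform `h` as an
eigenvector (when `S` contains the primes of the level). -/
theorem S58OP_eigen {M : ℕ} [NeZero M] (h : CuspForm (CongruenceSubgroup.Gamma0 M) 2)
    (hh : h.IsNormalizedEigenform) (S : Set ℕ) (hMS : ∀ q : ℕ, q.Prime → q ∣ M → q ∈ S)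
    (t : Module.End ℂ (CuspForm (CongruenceSubgroup.Gamma0 M) 2))
    (ht : t ∈ CuspForm.heckeAlgebra M 2 S) : ∃ c : ℂ, t h = c • h := by
  induction ht using Algebra.adjoin_induction with
  | mem y hy =>
    rcases hy with ⟨ℓ, hℓ, hℓN, hℓS, rfl⟩ | ⟨q, hqN, hq, hqS, rfl⟩
    · exact ⟨_, Fermat.Agent.G_helper23_G1b.PG_eigen_of_normalized hh hℓ hℓN⟩
    · exact absurd (hMS q hq hqN) hqS
  | algebraMap r =>
    refine ⟨(r : ℂ), ?_⟩
    simp only [Algebra.algebraMap_eq_smul_one, LinearMap.smul_apply, Module.End.one_apply]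
    exact (Int.cast_smul_eq_zsmul ℂ r h).symm
  | add y z hy hz hy' hz' =>
    obtain ⟨c, hc⟩ := hy'
    obtain ⟨d, hd⟩ := hz'
    exact ⟨c + d, by rw [LinearMap.add_apply, hc, hd, add_smul]⟩
  | mul y z hy hz hy' hz' =>
    obtain ⟨c, hc⟩ := hy'
    obtain ⟨d, hd⟩ := hz'
    exact ⟨d * c, by rw [Module.End.mul_apply, hd, map_smul, hc, smul_smul]⟩

/-- The eigenvalue is the first coefficient. -/
theorem S58OP_eigen_val {M : ℕ} [NeZero M] (h : CuspForm (CongruenceSubgroup.Gamma0 M) 2)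
    (hh : h.IsNormalizedEigenform) (S : Set ℕ) (hMS : ∀ q : ℕ, q.Prime → q ∣ M → q ∈ S)
    (t : Module.End ℂ (CuspForm (CongruenceSubgroup.Gamma0 M) 2))
    (ht : t ∈ CuspForm.heckeAlgebra M 2 S) : t h = qCoeff (t h) 1 • h := by
  obtain ⟨c, hc⟩ := S58OP_eigen h hh S hMS t ht
  have : qCoeff (t h) 1 = c := by
    rw [hc, Fermat.Agent.S49.qc_smul, hh.qCoeff_one, mul_one]
  rw [this, hc]

/-- **(CHI)** the eigencharacter of a normalized eigenform on the Hecke algebra away from `S`,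
for `S` containing the primes of the level. -/
theorem S58OP_chi {M : ℕ} [NeZero M] (h : CuspForm (CongruenceSubgroup.Gamma0 M) 2)
    (hh : h.IsNormalizedEigenform) (S : Set ℕ) (hMS : ∀ q : ℕ, q.Prime → q ∣ M → q ∈ S) :
    ∃ chig : CuspForm.heckeAlgebra M 2 S →+* ℂ,
      ∀ (ℓ : ℕ) (hℓ : ℓ.Prime) (hℓM : ¬ ℓ ∣ M) (hℓS : ℓ ∉ S),
        chig (CuspForm.heckeAlgebra.T hℓ hℓM hℓS) = ModularFormClass.qCoeff h ℓ := by
  have key := S58OP_eigen_val h hh S hMS
  refine ⟨{ toFun := fun t => qCoeff ((t : Module.End ℂ (CuspForm (CongruenceSubgroup.Gamma0 M) 2)) h) 1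
            map_one' := ?_
            map_mul' := ?_
            map_zero' := ?_
            map_add' := ?_ }, ?_⟩
  · show qCoeff (((1 : CuspForm.heckeAlgebra M 2 S) : Module.End ℂ (CuspForm (CongruenceSubgroup.Gamma0 M) 2)) h) 1 = 1
    rw [OneMemClass.coe_one, Module.End.one_apply, hh.qCoeff_one]
  · intro t t'
    show qCoeff (((t * t' : CuspForm.heckeAlgebra M 2 S) : Module.End ℂ (CuspForm (CongruenceSubgroup.Gamma0 M) 2)) h) 1 =
      qCoeff ((t : Module.End ℂ (CuspForm (CongruenceSubgroup.Gamma0 M) 2)) h) 1 * qCoeff ((t' : Module.End ℂ (CuspForm (CongruenceSubgroup.Gamma0 M) 2)) h) 1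
    rw [MulMemClass.coe_mul, Module.End.mul_apply]
    conv_lhs => rw [key t' t'.2, map_smul, Fermat.Agent.S49.qc_smul]
    ring
  · show qCoeff (((0 : CuspForm.heckeAlgebra M 2 S) : Module.End ℂ (CuspForm (CongruenceSubgroup.Gamma0 M) 2)) h) 1 = 0
    rw [ZeroMemClass.coe_zero, LinearMap.zero_apply, Fermat.Agent.S49.qc_zero]
  · intro t t'
    show qCoeff (((t + t' : CuspForm.heckeAlgebra M 2 S) : Module.End ℂ (CuspForm (CongruenceSubgroup.Gamma0 M) 2)) h) 1 =
      qCoeff ((t : Module.End ℂ (CuspForm (CongruenceSubgroup.Gamma0 M) 2)) h) 1 + qCoeff ((t' : Module.End ℂ (CuspForm (CongruenceSubgroup.Gamma0 M) 2)) h) 1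
    rw [AddMemClass.coe_add, LinearMap.add_apply, Fermat.Agent.S49.qc_add]
  · intro ℓ hℓ hℓM hℓS
    show qCoeff (CuspForm.heckeTLin 2 hℓ hℓM h) 1 = qCoeff h ℓ
    rw [Fermat.Agent.G_helper23_G1b.PG_eigen_of_normalized hh hℓ hℓM,
      Fermat.Agent.S49.qc_smul, hh.qCoeff_one, mul_one]

/-- The values of a character of the Hecke algebra are algebraic integers (landed S22). -/
theorem S58OP_isIntegral {M : ℕ} [NeZero M] (S : Set ℕ)
    (chig : CuspForm.heckeAlgebra M 2 S →+* ℂ) (t : CuspForm.heckeAlgebra M 2 S) :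
    IsIntegral ℤ (chig t) := by
  haveI : Module.Finite ℤ (CuspForm.heckeAlgebra M 2 S) := Fermat.Agent.S22.result M 2 S
  have ht : IsIntegral ℤ t := Algebra.IsIntegral.isIntegral t
  exact ht.map chig.toIntAlgHom

/-- The coefficients of a normalized eigenform at the primes not dividing the level are
algebraic integers. -/
theorem S58OP_isIntegral_qCoeff {M : ℕ} [NeZero M] (h : CuspForm (CongruenceSubgroup.Gamma0 M) 2)
    (hh : h.IsNormalizedEigenform) {ℓ : ℕ} (hℓ : ℓ.Prime) (hℓM : ¬ ℓ ∣ M) :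
    IsIntegral ℤ (qCoeff h ℓ) := by
  obtain ⟨chig, hchig⟩ := S58OP_chi h hh {q | q.Prime ∧ q ∣ M} fun q hq hqM => ⟨hq, hqM⟩
  have hS : ℓ ∉ {q : ℕ | q.Prime ∧ q ∣ M} := fun hmem => hℓM hmem.2
  rw [← hchig ℓ hℓ hℓM hS]
  exact S58OP_isIntegral _ chig _

/-- **(O) at a given prime**: helper18's contract `S58C_Op`. -/
theorem S58OP_Op : S58C_Op := by
  intro M _ h hh p _ S hMS hint
  obtain ⟨chig, hchig⟩ := S58OP_chi h hh (↑S : Set ℕ) hMS
  obtain ⟨iota⟩ := S58O_iota_int (↑S : Set ℕ) chig hMS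
    (fun ℓ hℓ hℓM hℓS => by
      obtain ⟨a, ha⟩ := hint ℓ hℓ hℓS hℓM
      exact ⟨a, by rw [hchig ℓ hℓ hℓM hℓS, ha]⟩) ℤ_[p]
  exact ⟨chig, hchig, ℤ_[p], inferInstance, inferInstance, inferInstance, inferInstance,
    inferInstance, inferInstance, iota, S58O_padic_mem p⟩

/-- **(O) at an auxiliary prime**: helper18's contract `S58C_O`. -/
theorem S58OP_O : S58C_O := by
  intro M _ h hh T B l0 hMT hint
  classical
  -- the only possibly non-integral eigenvalue
  set α : ℂ := if l0.Prime ∧ ¬ l0 ∣ M then qCoeff h l0 else 0 with hα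
  have hαint : IsIntegral ℤ α := by
    rw [hα]
    split_ifs with hl
    · exact S58OP_isIntegral_qCoeff h hh hl.1 hl.2
    · exact isIntegral_zero
  obtain ⟨lam, hF, hB, ⟨iota₀⟩⟩ := S58O_exists_iota α hαint B
  have hMS : ∀ q : ℕ, q.Prime → q ∣ M → q ∈ (↑(insert lam T) : Set ℕ) := fun q hq hqM =>
    Finset.mem_coe.mpr (Finset.mem_insert_of_mem (hMT q hq hqM))
  obtain ⟨chig, hchig⟩ := S58OP_chi h hh (↑(insert lam T) : Set ℕ) hMS
  have hle : chig.range ≤ (Algebra.adjoin ℤ ({α} : Set ℂ)).toSubring :=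
    S58O_range_le _ chig _ hMS fun ℓ hℓ hℓM hℓS => by
      rw [Subalgebra.mem_toSubring, hchig ℓ hℓ hℓM hℓS]
      by_cases hl : ℓ = l0
      · have : α = qCoeff h ℓ := by
          rw [hα, if_pos ⟨hl ▸ hℓ, hl ▸ hℓM⟩, hl]
        rw [← this]
        exact Algebra.subset_adjoin rfl
      · have hℓT : ℓ ∉ T := fun hT =>
          hℓS (Finset.mem_coe.mpr (Finset.mem_insert_of_mem hT))
        obtain ⟨a, ha⟩ := hint ℓ hℓ hℓT hℓM hl
        rw [ha]
        exact intCast_mem _ a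
  let iota : chig.range →+* ℤ_[lam] :=
    iota₀.comp (RingHom.codRestrict chig.range.subtype (Algebra.adjoin ℤ ({α} : Set ℂ))
      fun x => Subalgebra.mem_toSubring.mp (hle x.2))
  refine ⟨lam, hF, hB, chig, hchig, ℤ_[lam], inferInstance, inferInstance, inferInstance,
    inferInstance, inferInstance, inferInstance, iota, S58O_padic_mem lam, ?_⟩
  intro ℓ hℓ hℓM hℓS a ha
  rw [← hchig ℓ hℓ hℓM hℓS]
  exact S58O_eq_int (chig (CuspForm.heckeAlgebra.T hℓ hℓM hℓS)) (S58OP_isIntegral _ chig _)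
    chig.range ⟨_, rfl⟩ iota a ha

end Fermat.Agent.S58_helper20_OPLUG
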