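import Fermat.Agent.S35
import Fermat.Agent.S36
import Fermat.Agent.S54_Frob
import Fermat.Agent.S58_helper18_Contracts

/-!
# S58 wiring (helper27): the black-box contracts of `S58_helper18_Contracts` that are already
theorems on main

* `S58W_S35 : S58C_S35`  from `Fermat.Agent.S35.result`;
* `S58W_S36 : S58C_S36`  from `Fermat.Agent.S36.result`;
* `S58W_FROBEX : S58C_FROBEX` from `Fermat.Agent.S54Frob.exists_frobenius`.
-/

set_option autoImplicit false

namespace Fermat.Agent.S58_helper27_WIRE

open Fermat.Agent.S58_helper18_Contracts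

/-- the contract (S35) is the landed statement S35 -/
theorem S58W_S35 : S58C_S35 :=
  fun hg lam _ S O' _ _ _ _ _ _ hlamO' chig hchig iota hlamS hMS =>
    Fermat.Agent.S35.result hg lam S O' hlamO' chig hchig iota hlamS hMS

/-- the contract (S36) is the landed statement S36 -/
theorem S58W_S36 : S58C_S36 :=
  fun hg lam _ S O' _ _ _ _ _ _ hlamO' hlam2 chig hchig iota hlamS hMS hres =>
    Fermat.Agent.S36.result hg lam S O' hlamO' hlam2 chig hchig iota hlamS hMS hres

/-- the contract (FROBEX): a Frobenius element exists at every prime -/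
theorem S58W_FROBEX : S58C_FROBEX :=
  fun q hq => Fermat.Agent.S54Frob.exists_frobenius q hq

end Fermat.Agent.S58_helper27_WIRE
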