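import Mathlib
import Fermat.Agent.S58_helper2_TORS

/-!
# S58, elliptic side (helper2): E3-ALG

The contract (E3) of `S58_helper2_TORS` from (E0) and the two raw geometric inputs:

* `S58E3A_int` : a `2 × 2` integer matrix `N` with `N ^ 2 ≡ 0` modulo `n ^ 2` has
  `n ∣ tr N` and `n ∣ det N`;
* `S58E3A_mu`, `S58E3A_basis` : multiplication by `n` from `W[n * n]` onto `W[n]` and the
  basis `(n • b' i)` of `W[n]` attached to a basis `b'` of `W[n * n]`;
* `S58E3A_main` : `(τ - 1) ^ 2 = 0` on `W[n * n]` gives the characteristic polynomial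
  `(X - 1) ^ 2` on `W[n]` (two levels: no cyclicity of the toric part is needed);
* `S58E3A_E3` : `S58T_E0 W lam → S58T_E3good W → S58T_E3raw W → S58T_E3 W lam` for a
  semistable model `W`.
-/

set_option autoImplicit false
set_option linter.style.haveILetI false

open Polynomial Matrix WeierstrassCurve WeierstrassCurve.Affine
open Fermat.Agent.S58_helper2_TORS

noncomputable section

namespace Fermat.Agent.S58_helper2_E3ALG

/-- integer algebra: a `2 × 2` integer matrix whose square vanishes modulo `n ^ 2` has trace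
and determinant divisible by `n`. -/
theorem S58E3A_int (N : Matrix (Fin 2) (Fin 2) ℤ) (n : ℤ) (h : ∀ i j, n ^ 2 ∣ (N * N) i j) :
    n ∣ N.trace ∧ n ∣ N.det := by
  have hdet : (n ^ 2) ^ 2 ∣ N.det ^ 2 := by
    have e : N.det ^ 2 = (N * N).det := by rw [Matrix.det_mul, sq]
    rw [e, Matrix.det_fin_two]
    exact dvd_sub (by rw [sq]; exact mul_dvd_mul (h 0 0) (h 1 1))
      (by rw [sq]; exact mul_dvd_mul (h 0 1) (h 1 0))
  have hdet' : n ^ 2 ∣ N.det := (Int.pow_dvd_pow_iff two_ne_zero).mp hdet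
  have htr : N.trace ^ 2 = (N * N).trace + 2 * N.det := by
    simp only [Matrix.trace_fin_two, Matrix.det_fin_two, Matrix.mul_apply, Fin.sum_univ_two]
    ring
  have htr' : n ^ 2 ∣ N.trace ^ 2 := by
    rw [htr]
    refine dvd_add ?_ (Dvd.dvd.mul_left hdet' 2)
    rw [Matrix.trace_fin_two]
    exact dvd_add (h 0 0) (h 1 1)
  exact ⟨(Int.pow_dvd_pow_iff two_ne_zero).mp htr', dvd_trans (dvd_pow_self n two_ne_zero) hdet'⟩

theorem S58E3A_dvd_of (n m : ℕ) (hm : m = n * n) (hn : 0 < n) (x : ℤ)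
    (h : (m : ℤ) ∣ (n : ℤ) * x) : (n : ℤ) ∣ x := by
  have hmZ : (m : ℤ) = (n : ℤ) * n := by rw [hm]; push_cast; rfl
  rw [hmZ] at h
  exact (mul_dvd_mul_iff_left (by exact_mod_cast hn.ne')).mp h

/-- the scalar action of `ZMod n` on `W[n]` through integer lifts. -/
theorem S58E3A_smul (W : WeierstrassCurve ℤ) (n : ℕ) (z : ZMod n) (P : S58T_Tors W n) :
    z • P = (z.cast : ℤ) • P := by
  conv_lhs => rw [← ZMod.intCast_zmod_cast z]
  exact Int.cast_smul_eq_zsmul (ZMod n) _ P

theorem S58E3A_gal_zsmul (W : WeierstrassCurve ℤ) (n : ℕ)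
    (σ : AlgebraicClosure ℚ ≃ₐ[ℚ] AlgebraicClosure ℚ) (c : ℤ) (P : S58T_Tors W n) :
    σ • (c • P) = c • (σ • P) := by
  have := (S58T_gal W n σ).map_smul (c : ZMod n) P
  rw [Int.cast_smul_eq_zsmul, Int.cast_smul_eq_zsmul] at this
  exact this

/-- multiplication by `n` from `W[n * n]` to `W[n]`. -/
def S58E3A_mu (W : WeierstrassCurve ℤ) (n m : ℕ) (hm : m = n * n) :
    S58T_Tors W m →+ S58T_Tors W n where
  toFun Q := ⟨(n : ℤ) • (Q : (((W.map (Int.castRingHom ℚ)).toAffine)⁄(AlgebraicClosure ℚ)).Point),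
    by
      rw [Submodule.mem_torsionBy_iff, smul_smul]
      have h := Q.2
      rw [Submodule.mem_torsionBy_iff] at h
      rw [← h]
      congr 1
      rw [hm]
      push_cast
      ring⟩
  map_zero' := by
    apply Subtype.ext
    simp
  map_add' P Q := by
    apply Subtype.ext
    change (n : ℤ) • (P.1 + Q.1) = (n : ℤ) • P.1 + (n : ℤ) • Q.1
    exact zsmul_add _ _ _

theorem S58E3A_mu_val (W : WeierstrassCurve ℤ) (n m : ℕ) (hm : m = n * n) (Q : S58T_Tors W m) :
    ((S58E3A_mu W n m hm Q : S58T_Tors W n) :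
      (((W.map (Int.castRingHom ℚ)).toAffine)⁄(AlgebraicClosure ℚ)).Point) = (n : ℤ) • Q.1 := rfl

theorem S58E3A_mu_gal (W : WeierstrassCurve ℤ) (n m : ℕ) (hm : m = n * n)
    (σ : AlgebraicClosure ℚ ≃ₐ[ℚ] AlgebraicClosure ℚ) (Q : S58T_Tors W m) :
    S58E3A_mu W n m hm (σ • Q) = σ • S58E3A_mu W n m hm Q := by
  apply Subtype.ext
  change (n : ℤ) • (σ • Q.1) = σ • ((n : ℤ) • Q.1)
  exact (WeierstrassCurve.Affine.Point.algEquiv_smul_zsmul σ (n : ℤ) Q.1).symm

/-- integer independence of a basis of `W[m]`. -/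
theorem S58E3A_indep (W : WeierstrassCurve ℤ) (m : ℕ)
    (b' : Module.Basis (Fin 2) (ZMod m) (S58T_Tors W m)) (c : Fin 2 → ℤ)
    (h : ∑ i, c i • b' i = 0) (i : Fin 2) : (m : ℤ) ∣ c i := by
  have h' : ∑ i, ((c i : ℤ) : ZMod m) • b' i = 0 := by
    rw [← h]
    refine Finset.sum_congr rfl fun i _ => ?_
    exact Int.cast_smul_eq_zsmul (ZMod m) _ _
  have := (Fintype.linearIndependent_iff.mp b'.linearIndependent) (fun i => ((c i : ℤ) : ZMod m)) h' i
  exact (ZMod.intCast_zmod_eq_zero_iff_dvd (c i) m).mp this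

/-- integer expansion in a basis of `W[m]`. -/
theorem S58E3A_expand (W : WeierstrassCurve ℤ) (m : ℕ)
    (b' : Module.Basis (Fin 2) (ZMod m) (S58T_Tors W m)) (P : S58T_Tors W m) :
    P = ∑ i, ((b'.repr P i).cast : ℤ) • b' i := by
  conv_lhs => rw [← b'.sum_repr P]
  refine Finset.sum_congr rfl fun i _ => ?_
  exact S58E3A_smul W m _ _


/-- the points `n • b' i` span `W[n]` over the integers. -/
theorem S58E3A_mu_surj (W : WeierstrassCurve ℤ) (n m : ℕ) (hm : m = n * n) (hn : 0 < n)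
    (b' : Module.Basis (Fin 2) (ZMod m) (S58T_Tors W m)) (P : S58T_Tors W n) :
    ∃ c : Fin 2 → ℤ, P = ∑ i, c i • S58E3A_mu W n m hm (b' i) := by
  have hPm : P.1 ∈ Submodule.torsionBy ℤ
      (((W.map (Int.castRingHom ℚ)).toAffine)⁄(AlgebraicClosure ℚ)).Point (m : ℤ) := by
    rw [Submodule.mem_torsionBy_iff]
    have h := P.2
    rw [Submodule.mem_torsionBy_iff] at h
    rw [hm]
    push_cast
    rw [mul_smul, h, smul_zero]
  set P' : S58T_Tors W m := ⟨P.1, hPm⟩ with hP'
  have hexp := S58E3A_expand W m b' P'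
  have hnP : (n : ℤ) • P' = 0 := by
    apply Subtype.ext
    have h := P.2
    rw [Submodule.mem_torsionBy_iff] at h
    exact h
  have hdiv : ∀ i, (n : ℤ) ∣ ((b'.repr P' i).cast : ℤ) := by
    intro i
    have h0 : ∑ i, ((n : ℤ) * ((b'.repr P' i).cast : ℤ)) • b' i = 0 := by
      rw [← hnP]
      conv_rhs => rw [hexp]
      rw [Finset.smul_sum]
      refine Finset.sum_congr rfl fun i _ => ?_
      rw [mul_smul]
    have h1 := S58E3A_indep W m b' _ h0 i
    exact S58E3A_dvd_of n m hm hn _ h1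
  choose w hw using hdiv
  refine ⟨w, ?_⟩
  have hQ : S58E3A_mu W n m hm (∑ i, w i • b' i) = P := by
    apply Subtype.ext
    rw [S58E3A_mu_val]
    have e1 : (n : ℤ) • (∑ i, w i • b' i) = P' := by
      conv_rhs => rw [hexp]
      rw [Finset.smul_sum]
      refine Finset.sum_congr rfl fun i _ => ?_
      rw [← mul_smul, ← hw i]
    have e2 := congrArg Subtype.val e1
    exact e2
  rw [← hQ, map_sum]
  refine Finset.sum_congr rfl fun i _ => ?_
  rw [map_zsmul]

/-- the points `n • b' i` are independent over `ZMod n`. -/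
theorem S58E3A_mu_indep (W : WeierstrassCurve ℤ) (n m : ℕ) (hm : m = n * n) (hn : 0 < n)
    (b' : Module.Basis (Fin 2) (ZMod m) (S58T_Tors W m)) (c : Fin 2 → ℤ)
    (h : ∑ i, c i • S58E3A_mu W n m hm (b' i) = 0) (i : Fin 2) : (n : ℤ) ∣ c i := by
  have h1 : S58E3A_mu W n m hm (∑ i, c i • b' i) = 0 := by
    rw [map_sum, ← h]
    refine Finset.sum_congr rfl fun i _ => ?_
    rw [map_zsmul]
  have h2 : (n : ℤ) • (∑ i, c i • b' i) = 0 := by
    apply Subtype.ext
    have := congrArg Subtype.val h1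
    rw [S58E3A_mu_val] at this
    exact this
  have h3 : ∑ i, ((n : ℤ) * c i) • b' i = 0 := by
    rw [← h2, Finset.smul_sum]
    refine Finset.sum_congr rfl fun i _ => ?_
    rw [mul_smul]
  have h4 := S58E3A_indep W m b' _ h3 i
  exact S58E3A_dvd_of n m hm hn _ h4

/-- the basis `(n • b' i)` of `W[n]`. -/
def S58E3A_basis (W : WeierstrassCurve ℤ) (n m : ℕ) (hm : m = n * n) (hn : 0 < n)
    (b' : Module.Basis (Fin 2) (ZMod m) (S58T_Tors W m)) :
    Module.Basis (Fin 2) (ZMod n) (S58T_Tors W n) :=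
  Module.Basis.mk (v := fun i => S58E3A_mu W n m hm (b' i))
    (by
      rw [Fintype.linearIndependent_iff]
      intro g hg i
      have h : ∑ i, ((g i).cast : ℤ) • S58E3A_mu W n m hm (b' i) = 0 := by
        rw [← hg]
        refine Finset.sum_congr rfl fun i _ => ?_
        exact (S58E3A_smul W n _ _).symm
      have h1 := S58E3A_mu_indep W n m hm hn b' _ h i
      rw [← ZMod.intCast_zmod_cast (g i)]
      exact (ZMod.intCast_zmod_eq_zero_iff_dvd _ n).mpr h1)
    (by
      intro P _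
      obtain ⟨c, hc⟩ := S58E3A_mu_surj W n m hm hn b' P
      rw [hc]
      refine Submodule.sum_mem _ fun i _ => ?_
      rw [← Int.cast_smul_eq_zsmul (ZMod n)]
      exact Submodule.smul_mem _ _ (Submodule.subset_span ⟨i, rfl⟩))

theorem S58E3A_basis_apply (W : WeierstrassCurve ℤ) (n m : ℕ) (hm : m = n * n) (hn : 0 < n)
    (b' : Module.Basis (Fin 2) (ZMod m) (S58T_Tors W m)) (i : Fin 2) :
    S58E3A_basis W n m hm hn b' i = S58E3A_mu W n m hm (b' i) := by
  simp [S58E3A_basis]


/-- **E3-ALG (core)**: if `(τ - 1) ^ 2 = 0` on `W[n * n]` (free of rank two) then `τ` has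
characteristic polynomial `(X - 1) ^ 2` on `W[n]`, in every basis. -/
theorem S58E3A_main (W : WeierstrassCurve ℤ) (n m : ℕ) (hm : m = n * n) (hn : 0 < n)
    (b' : Module.Basis (Fin 2) (ZMod m) (S58T_Tors W m))
    (b : Module.Basis (Fin 2) (ZMod n) (S58T_Tors W n))
    (τ : AlgebraicClosure ℚ ≃ₐ[ℚ] AlgebraicClosure ℚ)
    (hraw : ∀ P : S58T_Tors W m, τ • (τ • P) + P = τ • P + τ • P) :
    S58T_cp W n b τ = (X - 1) ^ 2 := by
  haveI : NeZero n := ⟨hn.ne'⟩
  rcases Nat.lt_or_ge 1 n with hn1 | hn1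
  swap
  · obtain rfl : n = 1 := by omega
    haveI : Subsingleton (ZMod 1) := inferInstanceAs (Subsingleton (Fin 1))
    exact Subsingleton.elim _ _
  haveI : Fact (1 < n) := ⟨hn1⟩
  set a : Matrix (Fin 2) (Fin 2) ℤ :=
    Matrix.of fun i j => ((b'.repr (τ • b' j) i).cast : ℤ) with ha
  have hτb : ∀ j, τ • b' j = ∑ i, a i j • b' i := fun j => S58E3A_expand W m b' (τ • b' j)
  set N : Matrix (Fin 2) (Fin 2) ℤ := a - 1 with hN
  have hone : ∀ j, ∑ i, (1 : Matrix (Fin 2) (Fin 2) ℤ) i j • b' i = b' j := by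
    intro j
    rw [Finset.sum_eq_single j]
    · simp
    · intro i _ hij
      simp [Matrix.one_apply_ne hij]
    · intro h
      exact absurd (Finset.mem_univ j) h
  have hN1 : ∀ j, τ • b' j - b' j = ∑ i, N i j • b' i := by
    intro j
    rw [hτb j]
    conv_lhs => rw [← hone j]
    rw [← Finset.sum_sub_distrib]
    refine Finset.sum_congr rfl fun i _ => ?_
    rw [hN, Matrix.sub_apply, sub_smul]
  have hN2 : ∀ j, ∑ l, (N * N) l j • b' l = 0 := by
    intro j
    have h1 : τ • (τ • b' j - b' j) - (τ • b' j - b' j) = 0 := by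
      rw [smul_sub]
      have := hraw (b' j)
      have e : τ • τ • b' j - τ • b' j - (τ • b' j - b' j)
          = (τ • (τ • b' j) + b' j) - (τ • b' j + τ • b' j) := by abel
      rw [e, this, sub_self]
    rw [hN1 j, Finset.smul_sum] at h1
    simp only [S58E3A_gal_zsmul] at h1
    rw [← Finset.sum_sub_distrib] at h1
    simp only [← smul_sub, hN1] at h1
    rw [← h1]
    simp only [Matrix.mul_apply, Finset.sum_smul, Finset.smul_sum]
    rw [Finset.sum_comm]
    refine Finset.sum_congr rfl fun i _ => Finset.sum_congr rfl fun l _ => ?_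
    rw [mul_smul]
    exact smul_comm (N l i) (N i j) (b' l)
  have hdvd : ∀ i j, (n : ℤ) ^ 2 ∣ (N * N) i j := by
    intro i j
    have h1 := S58E3A_indep W m b' (fun l => (N * N) l j) (hN2 j) i
    have hmZ : (m : ℤ) = (n : ℤ) ^ 2 := by rw [hm]; push_cast; ring
    rwa [hmZ] at h1
  obtain ⟨htr, hdet⟩ := S58E3A_int N n hdvd
  -- trace and determinant of `a` modulo `n`
  have htr' : ((a.trace : ℤ) : ZMod n) = 2 := by
    have e : N.trace = a.trace - 2 := by
      simp only [hN, Matrix.trace_fin_two, Matrix.sub_apply, Matrix.one_apply_eq]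
      ring
    rw [e] at htr
    have := (ZMod.intCast_zmod_eq_zero_iff_dvd _ n).mpr htr
    rw [Int.cast_sub, Int.cast_ofNat] at this
    exact sub_eq_zero.mp this
  have hdet' : ((a.det : ℤ) : ZMod n) = 1 := by
    have e : N.det = a.det - a.trace + 1 := by
      simp only [hN, Matrix.det_fin_two, Matrix.trace_fin_two, Matrix.sub_apply,
        Matrix.one_apply_eq, Matrix.one_apply_ne (show (0 : Fin 2) ≠ 1 by decide),
        Matrix.one_apply_ne (show (1 : Fin 2) ≠ 0 by decide)]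
      ring
    rw [e] at hdet
    have := (ZMod.intCast_zmod_eq_zero_iff_dvd _ n).mpr hdet
    rw [Int.cast_add, Int.cast_sub, Int.cast_one, htr'] at this
    linear_combination this
  -- the matrix of `τ` in the basis `(n • b' i)`
  set F := S58E3A_basis W n m hm hn b' with hF
  have hFi : ∀ i, F i = S58E3A_mu W n m hm (b' i) := S58E3A_basis_apply W n m hm hn b'
  have hτF : ∀ j, τ • F j = ∑ i, ((a i j : ℤ) : ZMod n) • F i := by
    intro j
    rw [hFi j, ← S58E3A_mu_gal, hτb j, map_sum]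
    refine Finset.sum_congr rfl fun i _ => ?_
    rw [map_zsmul, hFi i, Int.cast_smul_eq_zsmul]
  have hmat : LinearMap.toMatrix F F (S58T_gal W n τ) = a.map (Int.castRingHom (ZMod n)) := by
    ext i j
    rw [LinearMap.toMatrix_apply, S58T_gal_apply, hτF j, Module.Basis.repr_sum_self]
    simp
  haveI : Module.Free (ZMod n) (S58T_Tors W n) := Module.Free.of_basis b
  haveI : Module.Finite (ZMod n) (S58T_Tors W n) := Module.Finite.of_basis b
  have hcp : S58T_cp W n b τ = (LinearMap.toMatrix F F (S58T_gal W n τ)).charpoly := by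
    rw [S58T_cp, LinearMap.charpoly_toMatrix, LinearMap.charpoly_toMatrix]
  rw [hcp, hmat, Matrix.charpoly_fin_two]
  have e1 : (a.map (Int.castRingHom (ZMod n))).trace = 2 := by
    rw [← htr']
    simp [Matrix.trace_fin_two]
  have e2 : (a.map (Int.castRingHom (ZMod n))).det = 1 := by
    rw [← hdet']
    simp [Matrix.det_fin_two]
  rw [e1, e2]
  simp only [map_ofNat, map_one]
  ring


/-- **E3-ALG**: the contract (E3) from (E0) and the two raw geometric inputs. -/
theorem S58E3A_E3 (W : WeierstrassCurve ℤ) (hss : W.IsSemistableModel) (lam : ℕ)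
    (hlam : lam.Prime) (hE0 : S58T_E0 W lam) (hgood : S58T_E3good W) (hraw : S58T_E3raw W) :
    S58T_E3 W lam := by
  intro q hq hql k b A hA τ hτ
  have hcop : ∀ j : ℕ, (lam ^ j).Coprime q :=
    fun j => Nat.Coprime.pow_left j ((Nat.coprime_primes hlam hq).mpr (Ne.symm hql))
  by_cases hbad : (q : ℤ) ∣ W.Δ
  · obtain ⟨b'⟩ := hE0 (2 * k)
    refine S58E3A_main W (lam ^ k) (lam ^ (2 * k)) (by ring) (pow_pos hlam.pos k) b' b τ ?_
    exact hraw q hq hbad (hss q hq hbad) (lam ^ (2 * k)) (hcop _) A hA τ hτ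
  · have h1 : S58T_gal W (lam ^ k) τ = LinearMap.id := by
      ext P
      rw [S58T_gal_apply, hgood q hq hbad (lam ^ k) (hcop k) A hA τ hτ P]
      rfl
    rw [S58T_cp, h1, LinearMap.toMatrix_id, Matrix.charpoly_one]
    simp

end Fermat.Agent.S58_helper2_E3ALG
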