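import Mathlib

/-!
# S58 piece [E0-FIBRE] (helper13): the generic fibre of a rational function in characteristic 0

`K` an algebraically closed field of characteristic `0`, `Φ Ψ : K[X]` coprime with
`deg Ψ < deg Φ = D`, and `B ≠ 0` an auxiliary polynomial.  Then for all but finitely many
`c : K` the equation `Φ x = c Ψ x` has exactly `D` distinct solutions `x`, all of them with
`Ψ x ≠ 0` and `B x ≠ 0`.

Proof: `F_c := Φ - c Ψ` has degree `D`; a root `x` of `F_c` has `Ψ x ≠ 0` (coprimality), so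
`c = Φ x / Ψ x`; if `x` is a multiple root of `F_c`, or a root of `B`, then `x` is a root of
`B * (Φ' Ψ - Φ Ψ')`, a nonzero polynomial (the Wronskian vanishes only if `Φ ∣ Φ'`, impossible
in characteristic `0`); this leaves finitely many bad values of `c`.
-/

set_option autoImplicit false

open Polynomial

namespace Fermat.Agent.S58_helper13_FIBRE

variable {K : Type*} [Field K]

/-- The Wronskian `Φ' Ψ - Φ Ψ'`. -/
noncomputable def S58E0_wr (Φ Ψ : K[X]) : K[X] :=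
  derivative Φ * Ψ - Φ * derivative Ψ

/-- The polynomial `F_c = Φ - c Ψ`. -/
noncomputable def S58E0_F (Φ Ψ : K[X]) (c : K) : K[X] :=
  Φ - C c * Ψ

theorem S58E0_F_natDegree (Φ Ψ : K[X]) (hdeg : Ψ.natDegree < Φ.natDegree) (c : K) :
    (S58E0_F Φ Ψ c).natDegree = Φ.natDegree := by
  unfold S58E0_F
  apply natDegree_sub_eq_left_of_natDegree_lt
  exact lt_of_le_of_lt (natDegree_C_mul_le c Ψ) hdeg

theorem S58E0_F_ne_zero (Φ Ψ : K[X]) (hdeg : Ψ.natDegree < Φ.natDegree) (c : K) :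
    S58E0_F Φ Ψ c ≠ 0 := by
  intro h
  have := S58E0_F_natDegree Φ Ψ hdeg c
  rw [h, natDegree_zero] at this
  omega

theorem S58E0_F_eval (Φ Ψ : K[X]) (c x : K) :
    (S58E0_F Φ Ψ c).eval x = Φ.eval x - c * Ψ.eval x := by
  simp [S58E0_F]

theorem S58E0_F_derivative_eval (Φ Ψ : K[X]) (c x : K) :
    (derivative (S58E0_F Φ Ψ c)).eval x = (derivative Φ).eval x - c * (derivative Ψ).eval x := by
  simp [S58E0_F]

/-- At a common zero of `Φ - c Ψ`, coprimality forces `Ψ x ≠ 0`. -/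
theorem S58E0_psi_ne_zero (Φ Ψ : K[X]) (hcop : IsCoprime Φ Ψ) {c x : K}
    (hx : Φ.eval x = c * Ψ.eval x) : Ψ.eval x ≠ 0 := by
  intro h0
  obtain ⟨a, b, hab⟩ := hcop
  have h1 := congrArg (eval x) hab
  simp only [eval_add, eval_mul, eval_one, h0, hx, mul_zero, add_zero] at h1
  exact zero_ne_one h1

/-- In characteristic `0` the Wronskian of coprime `Φ`, `Ψ` with `deg Ψ < deg Φ` is nonzero. -/
theorem S58E0_wr_ne_zero [CharZero K] (Φ Ψ : K[X]) (hcop : IsCoprime Φ Ψ)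
    (hdeg : Ψ.natDegree < Φ.natDegree) : S58E0_wr Φ Ψ ≠ 0 := by
  intro h
  have hD : Φ.natDegree ≠ 0 := by omega
  have heq : derivative Φ * Ψ = Φ * derivative Ψ := sub_eq_zero.mp h
  have hdvd : Φ ∣ derivative Φ * Ψ := ⟨derivative Ψ, heq⟩
  have hdvd' : Φ ∣ derivative Φ := hcop.dvd_of_dvd_mul_right hdvd
  have hder0 : derivative Φ = 0 :=
    eq_zero_of_dvd_of_natDegree_lt hdvd' (natDegree_derivative_lt hD)
  exact hD (derivative_eq_zero.mp hder0)

/-- The finite set of bad values of `c`. -/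
noncomputable def S58E0_badSet [DecidableEq K] (Φ Ψ B : K[X]) : Finset K :=
  (B * S58E0_wr Φ Ψ).roots.toFinset.image (fun w => Φ.eval w / Ψ.eval w)

/-- For `c` outside the bad set, every root of `F_c` is simple, and is not a root of `Ψ` or
of `B`. -/
theorem S58E0_root_good [CharZero K] [DecidableEq K] (Φ Ψ B : K[X]) (hcop : IsCoprime Φ Ψ)
    (hdeg : Ψ.natDegree < Φ.natDegree) (hB : B ≠ 0) {c : K} (hc : c ∉ S58E0_badSet Φ Ψ B)
    {x : K} (hx : (S58E0_F Φ Ψ c).IsRoot x) :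
    Ψ.eval x ≠ 0 ∧ B.eval x ≠ 0 ∧ Φ.eval x = c * Ψ.eval x ∧
      (S58E0_F Φ Ψ c).rootMultiplicity x = 1 := by
  have hx' : Φ.eval x = c * Ψ.eval x := by
    have := hx
    rw [IsRoot.def, S58E0_F_eval] at this
    exact sub_eq_zero.mp this
  have hΨ : Ψ.eval x ≠ 0 := S58E0_psi_ne_zero Φ Ψ hcop hx'
  have hcx : c = Φ.eval x / Ψ.eval x := by
    rw [hx', mul_div_assoc, div_self hΨ, mul_one]
  have hBW : B * S58E0_wr Φ Ψ ≠ 0 := mul_ne_zero hB (S58E0_wr_ne_zero Φ Ψ hcop hdeg)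
  have hnot : ¬ (B * S58E0_wr Φ Ψ).IsRoot x := by
    intro hroot
    apply hc
    rw [S58E0_badSet, Finset.mem_image]
    exact ⟨x, by rw [Multiset.mem_toFinset, mem_roots hBW]; exact hroot, hcx.symm⟩
  have hBx : B.eval x ≠ 0 := by
    intro h0
    apply hnot
    rw [IsRoot.def, eval_mul, h0, zero_mul]
  have hWx : (S58E0_wr Φ Ψ).eval x ≠ 0 := by
    intro h0
    apply hnot
    rw [IsRoot.def, eval_mul, h0, mul_zero]
  refine ⟨hΨ, hBx, hx', ?_⟩
  have hF0 := S58E0_F_ne_zero Φ Ψ hdeg c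
  have hpos : 0 < (S58E0_F Φ Ψ c).rootMultiplicity x :=
    (rootMultiplicity_pos hF0).mpr hx
  have hle : ¬ 1 < (S58E0_F Φ Ψ c).rootMultiplicity x := by
    rw [one_lt_rootMultiplicity_iff_isRoot hF0]
    rintro ⟨-, hder⟩
    apply hWx
    rw [IsRoot.def, S58E0_F_derivative_eval] at hder
    have hd : (derivative Φ).eval x = c * (derivative Ψ).eval x := sub_eq_zero.mp hder
    simp only [S58E0_wr, eval_sub, eval_mul, hd, hx']
    ring
  omega

/-- For `c` outside the bad set, the roots of `F_c` form a finset of cardinality `deg Φ`. -/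
theorem S58E0_card_roots [IsAlgClosed K] [CharZero K] [DecidableEq K] (Φ Ψ B : K[X])
    (hcop : IsCoprime Φ Ψ) (hdeg : Ψ.natDegree < Φ.natDegree) (hB : B ≠ 0) {c : K}
    (hc : c ∉ S58E0_badSet Φ Ψ B) :
    (S58E0_F Φ Ψ c).roots.toFinset.card = Φ.natDegree := by
  have hF0 := S58E0_F_ne_zero Φ Ψ hdeg c
  have hnodup : (S58E0_F Φ Ψ c).roots.Nodup := by
    rw [Multiset.nodup_iff_count_le_one]
    intro x
    rw [count_roots]
    by_cases hx : (S58E0_F Φ Ψ c).IsRoot x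
    · exact (S58E0_root_good Φ Ψ B hcop hdeg hB hc hx).2.2.2.le
    · rw [rootMultiplicity_eq_zero hx]
      exact Nat.zero_le _
  rw [Multiset.toFinset_card_of_nodup hnodup, IsAlgClosed.card_roots_eq_natDegree,
    S58E0_F_natDegree Φ Ψ hdeg c]

/-- **[E0-FIBRE], with a finite set of values to avoid.** -/
theorem S58E0_fibre_avoid [IsAlgClosed K] [CharZero K] (Φ Ψ B : K[X]) (hcop : IsCoprime Φ Ψ)
    (hdeg : Ψ.natDegree < Φ.natDegree) (hB : B ≠ 0) (bad : Finset K) :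
    ∃ c : K, c ∉ bad ∧ ∃ s : Finset K, s.card = Φ.natDegree ∧
      ∀ x ∈ s, Ψ.eval x ≠ 0 ∧ B.eval x ≠ 0 ∧ Φ.eval x = c * Ψ.eval x := by
  classical
  obtain ⟨c, hc⟩ := Infinite.exists_notMem_finset (bad ∪ S58E0_badSet Φ Ψ B)
  rw [Finset.mem_union, not_or] at hc
  refine ⟨c, hc.1, (S58E0_F Φ Ψ c).roots.toFinset,
    S58E0_card_roots Φ Ψ B hcop hdeg hB hc.2, fun x hx => ?_⟩
  rw [Multiset.mem_toFinset, mem_roots (S58E0_F_ne_zero Φ Ψ hdeg c)] at hx
  obtain ⟨h1, h2, h3, -⟩ := S58E0_root_good Φ Ψ B hcop hdeg hB hc.2 hx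
  exact ⟨h1, h2, h3⟩

/-- **[E0-FIBRE]**: over an algebraically closed field of characteristic `0`, for coprime
`Φ`, `Ψ` with `deg Ψ < deg Φ = D` and `B ≠ 0`, there is a value `c` whose fibre under `Φ / Ψ`
consists of `D` distinct points, none of them a zero of `Ψ` or of `B`. -/
theorem S58E0_fibre [IsAlgClosed K] [CharZero K] (Φ Ψ B : K[X]) (hcop : IsCoprime Φ Ψ)
    (hdeg : Ψ.natDegree < Φ.natDegree) (hB : B ≠ 0) :
    ∃ (c : K) (s : Finset K), s.card = Φ.natDegree ∧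
      ∀ x ∈ s, Ψ.eval x ≠ 0 ∧ B.eval x ≠ 0 ∧ Φ.eval x = c * Ψ.eval x := by
  obtain ⟨c, -, s, hs⟩ := S58E0_fibre_avoid Φ Ψ B hcop hdeg hB ∅
  exact ⟨c, s, hs⟩

/-- The set of values `c` without a full fibre is finite. -/
theorem S58E0_fibre_bad_finite [IsAlgClosed K] [CharZero K] (Φ Ψ B : K[X])
    (hcop : IsCoprime Φ Ψ) (hdeg : Ψ.natDegree < Φ.natDegree) (hB : B ≠ 0) :
    {c : K | ¬ ∃ s : Finset K, s.card = Φ.natDegree ∧
      ∀ x ∈ s, Ψ.eval x ≠ 0 ∧ B.eval x ≠ 0 ∧ Φ.eval x = c * Ψ.eval x}.Finite := by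
  classical
  refine (Finset.finite_toSet (S58E0_badSet Φ Ψ B)).subset fun c hc => ?_
  by_contra hcb
  apply hc
  refine ⟨(S58E0_F Φ Ψ c).roots.toFinset,
    S58E0_card_roots Φ Ψ B hcop hdeg hB hcb, fun x hx => ?_⟩
  rw [Multiset.mem_toFinset, mem_roots (S58E0_F_ne_zero Φ Ψ hdeg c)] at hx
  obtain ⟨h1, h2, h3, -⟩ := S58E0_root_good Φ Ψ B hcop hdeg hB hcb hx
  exact ⟨h1, h2, h3⟩

/-- The fibre is exactly the root set: for `c` outside the bad set, EVERY solution `x` of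
`Φ x = c Ψ x` lies in the finset `s` of `S58E0_fibre` (here given explicitly as the root set),
so the number of solutions is exactly `deg Φ`. -/
theorem S58E0_fibre_exact [IsAlgClosed K] [CharZero K] (Φ Ψ B : K[X]) (hcop : IsCoprime Φ Ψ)
    (hdeg : Ψ.natDegree < Φ.natDegree) (hB : B ≠ 0) (bad : Finset K) :
    ∃ c : K, c ∉ bad ∧ ∃ s : Finset K, s.card = Φ.natDegree ∧
      (∀ x ∈ s, Ψ.eval x ≠ 0 ∧ B.eval x ≠ 0 ∧ Φ.eval x = c * Ψ.eval x) ∧
      ∀ x : K, Φ.eval x = c * Ψ.eval x → x ∈ s := by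
  classical
  obtain ⟨c, hc⟩ := Infinite.exists_notMem_finset (bad ∪ S58E0_badSet Φ Ψ B)
  rw [Finset.mem_union, not_or] at hc
  refine ⟨c, hc.1, (S58E0_F Φ Ψ c).roots.toFinset,
    S58E0_card_roots Φ Ψ B hcop hdeg hB hc.2, fun x hx => ?_, fun x hx => ?_⟩
  · rw [Multiset.mem_toFinset, mem_roots (S58E0_F_ne_zero Φ Ψ hdeg c)] at hx
    obtain ⟨h1, h2, h3, -⟩ := S58E0_root_good Φ Ψ B hcop hdeg hB hc.2 hx
    exact ⟨h1, h2, h3⟩
  · rw [Multiset.mem_toFinset, mem_roots (S58E0_F_ne_zero Φ Ψ hdeg c), IsRoot.def,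
      S58E0_F_eval, hx, sub_self]

end Fermat.Agent.S58_helper13_FIBRE
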