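import Mathlib
import Fermat.Agent.S58_helper2_TORS

/-!
# S58 (helper3): `[E0-ALG]`, the algebra of (E0)

An abelian group `G` with `#G[p] = p²` and `p • : G → G` surjective has `G[p ^ k]` free of rank
two over `ZMod (p ^ k)` for every `k` (for any `ZMod (p ^ k)`-module structure on the torsion).

* `S58E0A_IsBasis n x₁ x₂` : the integer form of "`x₁, x₂` is a basis of `G[n]`";
* `S58E0A_step`  : lifting a basis of `G[p ^ (k+1)]` to a basis of `G[p ^ (k+2)]`;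
* `S58E0A_exists` : a basis (integer form) of `G[p ^ k]`, all `k`;
* `S58E0A_basis` : integer form ⟹ `Module.Basis (Fin 2) (ZMod n) (torsionBy ℤ G n)`;
* `S58E0A_main`  : the statement above;
* `S58E0A_E0`    : helper2's `S58T_E0 W lam` from `#W[lam] = lam²` and `lam`-divisibility.
-/

set_option autoImplicit false
set_option linter.unusedSectionVars false
set_option linter.unusedVariables false

open WeierstrassCurve WeierstrassCurve.Affine

noncomputable section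

namespace Fermat.Agent.S58_helper3_E0ALG

variable {G : Type*} [AddCommGroup G]

/-- the integer form of "`x₁, x₂` is a basis of `G[n]` over `ℤ / n`" -/
structure S58E0A_IsBasis (n : ℕ) (x₁ x₂ : G) : Prop where
  tors₁ : (n : ℤ) • x₁ = 0
  tors₂ : (n : ℤ) • x₂ = 0
  span : ∀ y : G, (n : ℤ) • y = 0 → ∃ a b : ℤ, y = a • x₁ + b • x₂
  indep : ∀ a b : ℤ, a • x₁ + b • x₂ = 0 → (n : ℤ) ∣ a ∧ (n : ℤ) ∣ b

/-- the trivial basis of `G[1]` -/
theorem S58E0A_one : S58E0A_IsBasis 1 (0 : G) 0 where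
  tors₁ := smul_zero _
  tors₂ := smul_zero _
  span y hy := ⟨0, 0, by
    rw [Nat.cast_one, one_smul] at hy
    rw [hy, smul_zero, add_zero]⟩
  indep a b _ := ⟨by rw [Nat.cast_one]; exact one_dvd a, by rw [Nat.cast_one]; exact one_dvd b⟩

/-- **the lifting step** -/
theorem S58E0A_step (p k : ℕ) {e₁ e₂ x₁ x₂ y₁ y₂ : G} (he : S58E0A_IsBasis p e₁ e₂)
    (hx : S58E0A_IsBasis (p ^ (k + 1)) x₁ x₂) (h1 : ((p : ℤ) ^ k) • x₁ = e₁)
    (h2 : ((p : ℤ) ^ k) • x₂ = e₂) (hy1 : (p : ℤ) • y₁ = x₁) (hy2 : (p : ℤ) • y₂ = x₂) :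
    S58E0A_IsBasis (p ^ (k + 2)) y₁ y₂ ∧ ((p : ℤ) ^ (k + 1)) • y₁ = e₁ ∧
      ((p : ℤ) ^ (k + 1)) • y₂ = e₂ := by
  have e1 : ((p : ℤ) ^ (k + 1)) • y₁ = e₁ := by
    rw [pow_succ, mul_smul, hy1, h1]
  have e2 : ((p : ℤ) ^ (k + 1)) • y₂ = e₂ := by
    rw [pow_succ, mul_smul, hy2, h2]
  have c1 : ((p ^ (k + 1) : ℕ) : ℤ) = (p : ℤ) ^ (k + 1) := by push_cast; rfl
  have c2 : ((p ^ (k + 2) : ℕ) : ℤ) = (p : ℤ) ^ (k + 1) * p := by push_cast; ring
  refine ⟨⟨?_, ?_, ?_, ?_⟩, e1, e2⟩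
  · rw [c2, mul_smul, hy1, ← c1]
    exact hx.tors₁
  · rw [c2, mul_smul, hy2, ← c1]
    exact hx.tors₂
  · intro y hy
    have hpy : ((p ^ (k + 1) : ℕ) : ℤ) • ((p : ℤ) • y) = 0 := by
      rw [← mul_smul, c1, ← c2]
      exact hy
    obtain ⟨a, b, hab⟩ := hx.span _ hpy
    have hz : ((p : ℕ) : ℤ) • (y - (a • y₁ + b • y₂)) = 0 := by
      rw [smul_sub, hab, smul_add, smul_comm _ a, smul_comm _ b, hy1, hy2, sub_self]
    obtain ⟨c, d, hcd⟩ := he.span _ hz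
    refine ⟨a + c * (p : ℤ) ^ (k + 1), b + d * (p : ℤ) ^ (k + 1), ?_⟩
    rw [add_smul, add_smul, mul_smul, mul_smul, e1, e2]
    rw [sub_eq_iff_eq_add] at hcd
    rw [hcd]
    abel
  · intro a b hab
    have h0 : a • x₁ + b • x₂ = 0 := by
      rw [← hy1, ← hy2, smul_comm a, smul_comm b, ← smul_add, hab, smul_zero]
    obtain ⟨⟨a', ha'⟩, ⟨b', hb'⟩⟩ := hx.indep a b h0
    rw [c1] at ha' hb'
    have h3 : a' • e₁ + b' • e₂ = 0 := by
      rw [← e1, ← e2, ← mul_smul, ← mul_smul, mul_comm a', mul_comm b', ← ha', ← hb']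
      exact hab
    obtain ⟨⟨a'', ha''⟩, ⟨b'', hb''⟩⟩ := he.indep a' b' h3
    rw [c2]
    exact ⟨⟨a'', by rw [ha', ha'']; ring⟩, ⟨b'', by rw [hb', hb'']; ring⟩⟩

/-- a basis (integer form) of `G[p ^ (k+1)]` lifting a given basis of `G[p]` -/
theorem S58E0A_exists_succ (p : ℕ) (hdiv : ∀ x : G, ∃ y : G, (p : ℤ) • y = x) {e₁ e₂ : G}
    (he : S58E0A_IsBasis p e₁ e₂) (k : ℕ) :
    ∃ x₁ x₂ : G, S58E0A_IsBasis (p ^ (k + 1)) x₁ x₂ ∧ ((p : ℤ) ^ k) • x₁ = e₁ ∧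
      ((p : ℤ) ^ k) • x₂ = e₂ := by
  induction k with
  | zero =>
    refine ⟨e₁, e₂, ?_, by rw [pow_zero, one_smul], by rw [pow_zero, one_smul]⟩
    rw [zero_add, pow_one]
    exact he
  | succ k ih =>
    obtain ⟨x₁, x₂, hx, h1, h2⟩ := ih
    obtain ⟨y₁, hy1⟩ := hdiv x₁
    obtain ⟨y₂, hy2⟩ := hdiv x₂
    exact ⟨y₁, y₂, S58E0A_step p k he hx h1 h2 hy1 hy2⟩

/-- a basis (integer form) of `G[p ^ k]`, all `k` -/
theorem S58E0A_exists (p : ℕ) (hdiv : ∀ x : G, ∃ y : G, (p : ℤ) • y = x) {e₁ e₂ : G}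
    (he : S58E0A_IsBasis p e₁ e₂) (k : ℕ) :
    ∃ x₁ x₂ : G, S58E0A_IsBasis (p ^ k) x₁ x₂ := by
  rcases k with _ | k
  · exact ⟨0, 0, by rw [pow_zero]; exact S58E0A_one⟩
  · obtain ⟨x₁, x₂, hx, -, -⟩ := S58E0A_exists_succ p hdiv he k
    exact ⟨x₁, x₂, hx⟩

/-- **integer form ⟹ `Module.Basis`**, for any `ZMod n`-module structure on the torsion. -/
theorem S58E0A_basis (n : ℕ) [NeZero n] {x₁ x₂ : G} (hx : S58E0A_IsBasis n x₁ x₂)
    [Module (ZMod n) (Submodule.torsionBy ℤ G ((n : ℕ) : ℤ))] :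
    Nonempty (Module.Basis (Fin 2) (ZMod n) (Submodule.torsionBy ℤ G ((n : ℕ) : ℤ))) := by
  let t₁ : Submodule.torsionBy ℤ G ((n : ℕ) : ℤ) :=
    ⟨x₁, (Submodule.mem_torsionBy_iff _ _).2 hx.tors₁⟩
  let t₂ : Submodule.torsionBy ℤ G ((n : ℕ) : ℤ) :=
    ⟨x₂, (Submodule.mem_torsionBy_iff _ _).2 hx.tors₂⟩
  let φ : (Fin 2 → ZMod n) →ₗ[ZMod n] Submodule.torsionBy ℤ G ((n : ℕ) : ℤ) :=
    (LinearMap.proj (R := ZMod n) (φ := fun _ : Fin 2 => ZMod n) 0).smulRight t₁ +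
      (LinearMap.proj (R := ZMod n) (φ := fun _ : Fin 2 => ZMod n) 1).smulRight t₂
  have hφ : ∀ c : Fin 2 → ZMod n, φ c = c 0 • t₁ + c 1 • t₂ := fun c => rfl
  have hcast : ∀ (a : ℤ) (t : Submodule.torsionBy ℤ G ((n : ℕ) : ℤ)),
      ((a : ZMod n) • t : Submodule.torsionBy ℤ G ((n : ℕ) : ℤ)) = a • t := fun a t =>
    Int.cast_smul_eq_zsmul (ZMod n) a t
  have hcoe : ∀ (a b : ℤ), (((a • t₁ + b • t₂ : Submodule.torsionBy ℤ G ((n : ℕ) : ℤ))) : G) =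
      a • x₁ + b • x₂ := fun a b => rfl
  have hinj : Function.Injective φ := by
    rw [← LinearMap.ker_eq_bot, LinearMap.ker_eq_bot']
    intro c hc
    rw [hφ, ← ZMod.intCast_zmod_cast (c 0), ← ZMod.intCast_zmod_cast (c 1), hcast, hcast] at hc
    have h0 := congrArg (Subtype.val) hc
    rw [hcoe] at h0
    obtain ⟨h1, h2⟩ := hx.indep _ _ h0
    funext i
    fin_cases i
    · show c 0 = 0
      rw [← ZMod.intCast_zmod_cast (c 0)]
      exact (ZMod.intCast_zmod_eq_zero_iff_dvd _ n).2 h1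
    · show c 1 = 0
      rw [← ZMod.intCast_zmod_cast (c 1)]
      exact (ZMod.intCast_zmod_eq_zero_iff_dvd _ n).2 h2
  have hsurj : Function.Surjective φ := by
    intro t
    obtain ⟨a, b, hab⟩ := hx.span (t : G) ((Submodule.mem_torsionBy_iff _ _).1 t.2)
    refine ⟨![(a : ZMod n), (b : ZMod n)], ?_⟩
    rw [hφ]
    simp only [Matrix.cons_val_zero, Matrix.cons_val_one]
    rw [hcast, hcast]
    exact Subtype.ext (by rw [hcoe, hab])
  exact ⟨Module.Basis.ofEquivFun (LinearEquiv.ofBijective φ ⟨hinj, hsurj⟩).symm⟩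

/-- **`Module.Basis` ⟹ integer form** -/
theorem S58E0A_isBasis_of_basis (n : ℕ) [NeZero n]
    [Module (ZMod n) (Submodule.torsionBy ℤ G ((n : ℕ) : ℤ))]
    (b : Module.Basis (Fin 2) (ZMod n) (Submodule.torsionBy ℤ G ((n : ℕ) : ℤ))) :
    S58E0A_IsBasis n ((b 0 : Submodule.torsionBy ℤ G ((n : ℕ) : ℤ)) : G)
      ((b 1 : Submodule.torsionBy ℤ G ((n : ℕ) : ℤ)) : G) := by
  have hcast : ∀ (a : ℤ) (t : Submodule.torsionBy ℤ G ((n : ℕ) : ℤ)),
      ((a : ZMod n) • t : Submodule.torsionBy ℤ G ((n : ℕ) : ℤ)) = a • t := fun a t =>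
    Int.cast_smul_eq_zsmul (ZMod n) a t
  refine ⟨(Submodule.mem_torsionBy_iff _ _).1 (b 0).2, (Submodule.mem_torsionBy_iff _ _).1 (b 1).2,
    ?_, ?_⟩
  · intro y hy
    have h1 := b.sum_repr (⟨y, (Submodule.mem_torsionBy_iff _ _).2 hy⟩ :
      Submodule.torsionBy ℤ G ((n : ℕ) : ℤ))
    rw [Fin.sum_univ_two] at h1
    set c₀ := b.repr ⟨y, (Submodule.mem_torsionBy_iff _ _).2 hy⟩ 0
    set c₁ := b.repr ⟨y, (Submodule.mem_torsionBy_iff _ _).2 hy⟩ 1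
    rw [← ZMod.intCast_zmod_cast c₀, ← ZMod.intCast_zmod_cast c₁, hcast, hcast] at h1
    exact ⟨_, _, (congrArg Subtype.val h1).symm⟩
  · intro a c hac
    have h1 : (a : ZMod n) • b 0 + (c : ZMod n) • b 1 = 0 := by
      rw [hcast, hcast]
      exact Subtype.ext hac
    have hli := b.linearIndependent
    rw [Fintype.linearIndependent_iff] at hli
    have h2 := hli ![(a : ZMod n), (c : ZMod n)] (by
      rw [Fin.sum_univ_two]
      simpa using h1)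
    have h20 := h2 0
    have h21 := h2 1
    simp only [Matrix.cons_val_zero, Matrix.cons_val_one] at h20 h21
    exact ⟨(ZMod.intCast_zmod_eq_zero_iff_dvd _ n).1 h20,
      (ZMod.intCast_zmod_eq_zero_iff_dvd _ n).1 h21⟩

/-- the `ZMod n`-module structure on `G[n]` -/
@[reducible] def S58E0A_mod (n : ℕ) : Module (ZMod n) (Submodule.torsionBy ℤ G ((n : ℕ) : ℤ)) :=
  AddCommGroup.zmodModule (n := n) (fun x => by
    have := (Submodule.mem_torsionBy_iff _ _).1 x.2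
    apply Subtype.ext
    rw [← natCast_zsmul]
    exact this)

/-- a basis (integer form) of `G[p]` from `#G[p] = p²`, for a given module structure -/
theorem S58E0A_of_card_aux (p : ℕ) [Fact p.Prime]
    [Module (ZMod p) (Submodule.torsionBy ℤ G ((p : ℕ) : ℤ))]
    (hcard : Nat.card (Submodule.torsionBy ℤ G ((p : ℕ) : ℤ)) = p ^ 2) :
    ∃ e₁ e₂ : G, S58E0A_IsBasis p e₁ e₂ := by
  have hp : p.Prime := Fact.out
  haveI : NeZero p := ⟨hp.ne_zero⟩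
  haveI : Finite (Submodule.torsionBy ℤ G ((p : ℕ) : ℤ)) :=
    Nat.finite_of_card_ne_zero (by rw [hcard]; exact pow_ne_zero 2 hp.ne_zero)
  haveI : Module.Finite (ZMod p) (Submodule.torsionBy ℤ G ((p : ℕ) : ℤ)) :=
    Module.Finite.of_finite
  have hfr : Module.finrank (ZMod p) (Submodule.torsionBy ℤ G ((p : ℕ) : ℤ)) = 2 := by
    have h1 := Module.natCard_eq_pow_finrank (K := ZMod p)
      (V := Submodule.torsionBy ℤ G ((p : ℕ) : ℤ))
    rw [hcard, Nat.card_zmod] at h1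
    exact (Nat.pow_right_injective hp.two_le h1).symm
  exact ⟨_, _, S58E0A_isBasis_of_basis p
    (Module.finBasisOfFinrankEq (ZMod p) (Submodule.torsionBy ℤ G ((p : ℕ) : ℤ)) hfr)⟩

/-- a basis (integer form) of `G[p]` from `#G[p] = p²` -/
theorem S58E0A_of_card (p : ℕ) [Fact p.Prime]
    (hcard : Nat.card (Submodule.torsionBy ℤ G ((p : ℕ) : ℤ)) = p ^ 2) :
    ∃ e₁ e₂ : G, S58E0A_IsBasis p e₁ e₂ :=
  @S58E0A_of_card_aux G _ p _ (S58E0A_mod (G := G) p) hcard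

/-- **[E0-ALG]**: `#G[p] = p²` and `p`-divisibility make `G[p ^ k]` free of rank two over
`ZMod (p ^ k)`, for every `k` and every module structure. -/
theorem S58E0A_main (p : ℕ) [Fact p.Prime]
    (hcard : Nat.card (Submodule.torsionBy ℤ G ((p : ℕ) : ℤ)) = p ^ 2)
    (hdiv : ∀ x : G, ∃ y : G, p • y = x) (k : ℕ)
    [Module (ZMod (p ^ k)) (Submodule.torsionBy ℤ G ((p ^ k : ℕ) : ℤ))] :
    Nonempty (Module.Basis (Fin 2) (ZMod (p ^ k))
      (Submodule.torsionBy ℤ G ((p ^ k : ℕ) : ℤ))) := by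
  have hp : p.Prime := Fact.out
  haveI : NeZero (p ^ k) := ⟨pow_ne_zero k hp.ne_zero⟩
  obtain ⟨e₁, e₂, he⟩ := S58E0A_of_card p hcard
  have hdiv' : ∀ x : G, ∃ y : G, (p : ℤ) • y = x := fun x => by
    obtain ⟨y, hy⟩ := hdiv x
    exact ⟨y, by rw [natCast_zsmul, hy]⟩
  obtain ⟨x₁, x₂, hx⟩ := S58E0A_exists p hdiv' he k
  exact S58E0A_basis (p ^ k) hx

open Fermat.Agent.S58_helper2_TORS in
/-- **helper2's `S58T_E0`** from `#W[lam] = lam²` and the `lam`-divisibility of `W(Q-bar)`. -/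
theorem S58E0A_E0 (W : WeierstrassCurve ℤ) (lam : ℕ) [Fact lam.Prime]
    (hcard : Nat.card (S58T_Tors W lam) = lam ^ 2)
    (hdiv : ∀ x : (((W.map (Int.castRingHom ℚ)).toAffine)⁄(AlgebraicClosure ℚ)).Point,
      ∃ y, lam • y = x) : S58T_E0 W lam :=
  fun k => S58E0A_main lam hcard hdiv k

end Fermat.Agent.S58_helper3_E0ALG
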