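import Mathlib
import Fermat.Agent.S13_helper27_DPG
import Fermat.Agent.S13_helper19_DPEXIST
import Fermat.Agent.S58_helper2_TORS
import Fermat.Agent.S58_helper3_E0ALG

/-!
# S58 [E0-DIV] (helper3): multiplication by `n` is surjective on `W(K)`, `K` algebraically closed

* `S58E0D_generic` : there is a finite set `E` of `x`-coordinates such that every affine point
  `(x₀, y₀)` with `x₀ ∉ E` is `n • P` for some `P`  (root of `A - x₀ B`, where
  `A / B = Φₙ / ΨSqₙ` in lowest terms, + the landed DP-X `exists_nsmul_eq_some`);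
* `S58E0D_surj`    : `n • : W(K) → W(K)` is surjective (`K` algebraically closed, `Δ ≠ 0`,
  `1, …, n` invertible in `K`): a subgroup with finite complement in an infinite group is
  everything;
* `S58E0D_main`    : the hypothesis `hdiv` of `S58E0A_E0`, for `W / ℤ` with `Δ ≠ 0`;
* `S58E0D_E0`      : helper2's `S58T_E0 W lam` from `#W[lam] = lam²` ALONE.
-/

set_option autoImplicit false
set_option linter.unusedSectionVars false
set_option linter.unusedVariables false

open Polynomial WeierstrassCurve WeierstrassCurve.Affine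

noncomputable section

namespace Fermat.Agent.S58_helper3_E0DIV

open Fermat.Agent.S13_helper27_DPG Fermat.Agent.S13_helper19_DPEXIST

section Generic

variable {K : Type*} [Field K] [IsAlgClosed K]

/-- a rational function `Φ / Ψ` with `deg Ψ < deg Φ` takes every value outside a finite set at
a point where a given nonzero polynomial `Cbad` does not vanish (and `Ψ` neither). -/
theorem S58E0D_value (Φ Ψ Cbad : K[X]) (hΨ : Ψ ≠ 0) (hC : Cbad ≠ 0)
    (hdeg : Ψ.natDegree < Φ.natDegree) :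
    ∃ E : Finset K, ∀ c : K, c ∉ E →
      ∃ x : K, Cbad.eval x ≠ 0 ∧ Ψ.eval x ≠ 0 ∧ Φ.eval x = c * Ψ.eval x := by
  classical
  set g := EuclideanDomain.gcd Φ Ψ with hg
  obtain ⟨A, hA⟩ := EuclideanDomain.gcd_dvd_left Φ Ψ
  obtain ⟨B₁, hB⟩ := EuclideanDomain.gcd_dvd_right Φ Ψ
  rw [← hg] at hA hB
  have hg0 : g ≠ 0 := by
    intro h0
    rw [h0, zero_mul] at hB
    exact hΨ hB
  have hB0 : B₁ ≠ 0 := by
    rintro rfl
    exact hΨ (by rw [hB, mul_zero])
  have hΦ0 : Φ ≠ 0 := by
    rintro rfl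
    simp at hdeg
  have hA0 : A ≠ 0 := by
    rintro rfl
    exact hΦ0 (by rw [hA, mul_zero])
  have hbez := EuclideanDomain.gcd_eq_gcd_ab Φ Ψ
  rw [← hg] at hbez
  set s := EuclideanDomain.gcdA Φ Ψ
  set t := EuclideanDomain.gcdB Φ Ψ
  have hcop : A * s + B₁ * t = 1 := by
    have h1 : g * (A * s + B₁ * t) = g * 1 := by
      rw [mul_one]
      conv_rhs => rw [hbez]
      conv_rhs => rw [hA, hB]
      ring
    exact mul_left_cancel₀ hg0 h1
  have hcopx : ∀ x, ¬ (A.eval x = 0 ∧ B₁.eval x = 0) := by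
    rintro x ⟨h1, h2⟩
    have := congrArg (eval x) hcop
    simp [h1, h2] at this
  have hdA : Φ.natDegree = g.natDegree + A.natDegree := by
    rw [hA, natDegree_mul hg0 hA0]
  have hdB : Ψ.natDegree = g.natDegree + B₁.natDegree := by
    rw [hB, natDegree_mul hg0 hB0]
  have hdAB : B₁.natDegree < A.natDegree := by omega
  set bad := Cbad * Ψ with hbad
  have hbad0 : bad ≠ 0 := mul_ne_zero hC hΨ
  refine ⟨bad.roots.toFinset.image (fun z => A.eval z / B₁.eval z), fun c hc => ?_⟩
  set h := A - C c * B₁ with hh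
  have hhdeg : h.natDegree = A.natDegree := by
    apply natDegree_sub_eq_left_of_natDegree_lt
    calc (C c * B₁).natDegree ≤ B₁.natDegree := natDegree_C_mul_le c B₁
      _ < A.natDegree := hdAB
  have hh0 : h ≠ 0 := by
    intro h0
    rw [h0, natDegree_zero] at hhdeg
    omega
  obtain ⟨x, hx⟩ := IsAlgClosed.exists_root h (by
    rw [degree_eq_natDegree hh0]
    intro hd
    have : h.natDegree = 0 := by exact_mod_cast hd
    omega)
  have hx' : A.eval x = c * B₁.eval x := by
    have := hx.eq_zero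
    rw [hh, eval_sub, eval_mul, eval_C] at this
    linear_combination this
  have hbx : bad.eval x ≠ 0 := by
    intro hbx
    have hBx : B₁.eval x ≠ 0 := by
      intro h0
      exact hcopx x ⟨by rw [hx', h0, mul_zero], h0⟩
    apply hc
    rw [Finset.mem_image]
    refine ⟨x, ?_, ?_⟩
    · rw [Multiset.mem_toFinset, mem_roots hbad0]
      exact hbx
    · rw [hx', mul_div_assoc, div_self hBx, mul_one]
  rw [hbad, eval_mul] at hbx
  refine ⟨x, left_ne_zero_of_mul hbx, right_ne_zero_of_mul hbx, ?_⟩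
  rw [hA, hB, eval_mul, eval_mul, hx']
  ring

end Generic

section Surj

variable {K : Type*} [Field K] [IsAlgClosed K] [DecidableEq K]

/-- **generic divisibility**: outside a finite set of `x`-coordinates every affine point is
`n • P`. -/
theorem S58E0D_generic (W : WeierstrassCurve.Affine K) (hΔ : W.Δ ≠ 0) (n : ℕ) (hn : 1 ≤ n)
    (hchar : ∀ k : ℕ, 1 ≤ k → k ≤ n → (k : K) ≠ 0) :
    ∃ E : Finset K, ∀ (x₀ y₀ : K) (h₀ : W.Nonsingular x₀ y₀), x₀ ∉ E →
      ∃ P : W.Point, n • P = Point.some x₀ y₀ h₀ := by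
  have hnK : ((n : ℤ) : K) ≠ 0 := by
    have := hchar n hn le_rfl
    exact_mod_cast this
  have hΨ0 : W.ΨSq (n : ℤ) ≠ 0 := W.ΨSq_ne_zero hnK
  have hdeg : (W.ΨSq (n : ℤ)).natDegree < (W.Φ (n : ℤ)).natDegree := by
    rw [W.natDegree_ΨSq hnK, W.natDegree_Φ]
    have : 0 < (n : ℤ).natAbs ^ 2 := by
      apply pow_pos
      simp only [Int.natAbs_natCast]
      omega
    omega
  obtain ⟨E, hE⟩ := S58E0D_value (W.Φ (n : ℤ)) (W.ΨSq (n : ℤ)) (badPoly W n) hΨ0
    (badPoly_ne_zero W n hchar) hdeg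
  refine ⟨E, fun x₀ y₀ h₀ hx₀ => ?_⟩
  obtain ⟨x, hbad, hΨx, hrel⟩ := hE x₀ hx₀
  obtain ⟨y, h⟩ := exists_point_of_X W hΔ x
  obtain ⟨x', y', h', hP, hx'⟩ :=
    exists_nsmul_eq_some h hn (ΨSq_eval_ne_zero_of_badPoly W hbad)
  have hxx : x' = x₀ := by
    have : x' * (W.ΨSq (n : ℤ)).eval x = x₀ * (W.ΨSq (n : ℤ)).eval x := by rw [hx', hrel]
    exact mul_right_cancel₀ hΨx this
  subst hxx
  rcases WeierstrassCurve.Affine.Y_eq_of_X_eq h'.1 h₀.1 rfl with hv | hv
  · subst hv
    exact ⟨Point.some x y h, hP⟩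
  · refine ⟨-Point.some x y h, ?_⟩
    rw [smul_neg, hP, Point.neg_some]
    congr 1
    rw [hv, WeierstrassCurve.Affine.negY_negY]

/-- the points of `W` over an algebraically closed field form an infinite set. -/
theorem S58E0D_infinite (W : WeierstrassCurve.Affine K) (hΔ : W.Δ ≠ 0) : Infinite W.Point := by
  have hK : Infinite K := IsAlgClosed.instInfinite
  have hex : ∀ x : K, ∃ P : W.Point, xc W P = x := by
    intro x
    obtain ⟨y, h⟩ := exists_point_of_X W hΔ x
    exact ⟨Point.some x y h, rfl⟩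
  choose f hf using hex
  refine Infinite.of_injective f (fun a b hab => ?_)
  rw [← hf a, ← hf b, hab]

/-- the points with `x`-coordinate in a finite set, together with `0`, form a finite set. -/
theorem S58E0D_finite (W : WeierstrassCurve.Affine K) (E : Finset K) :
    Set.Finite {P : W.Point | P = 0 ∨ xc W P ∈ E} := by
  classical
  -- one chosen point above each `x ∈ E` (if any)
  let f : K → W.Point := fun x => if hx : ∃ P : W.Point, P ≠ 0 ∧ xc W P = x then hx.choose else 0
  have hsub : {P : W.Point | P = 0 ∨ xc W P ∈ E} ⊆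
      (({0} : Finset W.Point) ∪ E.image f ∪ E.image (fun x => -f x) : Finset W.Point) := by
    intro P hP
    simp only [Finset.coe_union, Finset.coe_singleton, Finset.coe_image, Set.mem_union,
      Set.mem_singleton_iff, Set.mem_image, Finset.mem_coe]
    by_cases hP0 : P = 0
    · exact Or.inl (Or.inl hP0)
    · have hPE : xc W P ∈ E := by
        rcases hP with hP | hP
        · exact absurd hP hP0
        · exact hP
      have hx : ∃ P' : W.Point, P' ≠ 0 ∧ xc W P' = xc W P := ⟨P, hP0, rfl⟩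
      have hfx : f (xc W P) = hx.choose := dif_pos hx
      have hspec := hx.choose_spec
      rcases eq_or_eq_neg_of_xc_eq W hP0 hspec.1 hspec.2.symm with e | e
      · exact Or.inl (Or.inr ⟨xc W P, hPE, by rw [hfx, ← e]⟩)
      · exact Or.inr ⟨xc W P, hPE, by rw [hfx, ← e]⟩
  exact (Finset.finite_toSet _).subset hsub

/-- **[E0-DIV]**: over an algebraically closed field in which `1, …, n` are invertible,
multiplication by `n` is surjective on the points of an elliptic curve. -/
theorem S58E0D_surj (W : WeierstrassCurve.Affine K) (hΔ : W.Δ ≠ 0) (n : ℕ) (hn : 1 ≤ n)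
    (hchar : ∀ k : ℕ, 1 ≤ k → k ≤ n → (k : K) ≠ 0) (Q : W.Point) :
    ∃ P : W.Point, n • P = Q := by
  classical
  obtain ⟨E, hE⟩ := S58E0D_generic W hΔ n hn hchar
  set Bad : Set W.Point := {P : W.Point | P = 0 ∨ xc W P ∈ E} with hBad
  have hfin : Bad.Finite := S58E0D_finite W E
  have hgood : ∀ T : W.Point, T ∉ Bad → ∃ P : W.Point, n • P = T := by
    intro T hT
    have hT0 : T ≠ 0 := fun h0 => hT (Or.inl h0)
    obtain ⟨x, y, h, rfl⟩ := exists_some_of_ne_zero W hT0
    exact hE x y h (fun hx => hT (Or.inr hx))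
  have hinf : Infinite W.Point := S58E0D_infinite W hΔ
  have hfin2 : (Bad ∪ (fun R => Q - R) '' Bad).Finite := hfin.union (hfin.image _)
  obtain ⟨T, hT⟩ := hfin2.infinite_compl.nonempty
  rw [Set.mem_compl_iff, Set.mem_union, not_or] at hT
  obtain ⟨P₁, hP₁⟩ := hgood T hT.1
  obtain ⟨P₂, hP₂⟩ := hgood (Q - T) (fun hQT => hT.2 ⟨Q - T, hQT, sub_sub_cancel Q T⟩)
  refine ⟨P₁ + P₂, ?_⟩
  rw [smul_add, hP₁, hP₂]
  exact add_sub_cancel T Q

end Surj

section Main

/-- **[E0-DIV] for `W / ℤ`**: `W(Q-bar)` is `n`-divisible for every `n ≥ 1`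
(the hypothesis `hdiv` of `S58E0A_E0`). -/
theorem S58E0D_main (W : WeierstrassCurve ℤ) (hΔ : W.Δ ≠ 0) (n : ℕ) (hn : 1 ≤ n) :
    ∀ x : (((W.map (Int.castRingHom ℚ)).toAffine)⁄(AlgebraicClosure ℚ)).Point,
      ∃ y, n • y = x := by
  intro x
  have hΔ' : (((W.map (Int.castRingHom ℚ)).toAffine)⁄(AlgebraicClosure ℚ)).Δ ≠ 0 := by
    have h1 : (((W.map (Int.castRingHom ℚ)).toAffine)⁄(AlgebraicClosure ℚ)).Δ
        = algebraMap ℚ (AlgebraicClosure ℚ) ((Int.castRingHom ℚ) W.Δ) := by
      change ((W.map (Int.castRingHom ℚ)).map (algebraMap ℚ (AlgebraicClosure ℚ))).Δ = _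
      rw [WeierstrassCurve.map_Δ, WeierstrassCurve.map_Δ]
    rw [h1]
    intro h0
    have h2 : (Int.castRingHom ℚ) W.Δ = 0 :=
      (map_eq_zero_iff _ (algebraMap ℚ (AlgebraicClosure ℚ)).injective).mp h0
    exact hΔ (by simpa using h2)
  exact S58E0D_surj _ hΔ' n hn (fun k hk1 _ => Nat.cast_ne_zero.mpr (by omega)) x

open Fermat.Agent.S58_helper2_TORS Fermat.Agent.S58_helper3_E0ALG in
/-- **(E0) from [E0-CARD] alone**: `S58T_E0 W lam` from `#W[lam](Q-bar) = lam²`. -/
theorem S58E0D_E0 (W : WeierstrassCurve ℤ) (hΔ : W.Δ ≠ 0) (lam : ℕ) [Fact lam.Prime]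
    (hcard : Nat.card (S58T_Tors W lam) = lam ^ 2) : S58T_E0 W lam :=
  S58E0A_E0 W lam hcard (S58E0D_main W hΔ lam (Fact.out : lam.Prime).one_le)

end Main

end Fermat.Agent.S58_helper3_E0DIV
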