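import Mathlib
import Fermat.Agent.S13_helper29_BIQ

/-!
# S58 (E1a) [A-VAL]: the local quasi-parallelogram law at an arbitrary valuation

`K` a field, `v : Valuation K Γ₀` (multiplicative convention: a pole of `x` is `1 < v x`),
`W` a Weierstrass curve over `K` with `v`-integral coefficients and `v W.Δ = 1`.
With the multiplicative local height `S58A_H v P = max 1 (v (x P))` (`= 1` at `O`):

* `S58A_local`: `H (P + Q) * H (P - Q) * v (x P - x Q) ^ 2 = H P ^ 2 * H Q ^ 2` if `x P ≠ x Q`;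
* `S58A_local_two`: `H (2 • P) * v (Ψ₂Sq (x P)) = H P ^ 4` if `2 • P ≠ 0`.
-/

namespace Fermat.Agent.S58_helper8_LOC

open WeierstrassCurve WeierstrassCurve.Affine
open Fermat.Agent.S13_helper29_BIQ

variable {K : Type*} [Field K] {Γ₀ : Type*} [LinearOrderedCommGroupWithZero Γ₀]

/-- The `x`-coordinate of a point (junk value `0` at the point at infinity). -/
def S58A_x {W : WeierstrassCurve.Affine K} : W.Point → K
  | .zero => 0
  | .some x _ _ => x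

/-- The multiplicative local height `max 1 (v (x P))`, with value `1` at the point at
infinity. -/
noncomputable def S58A_H (v : Valuation K Γ₀) {W : WeierstrassCurve.Affine K} :
    W.Point → Γ₀
  | .zero => 1
  | .some x _ _ => max 1 (v x)

@[simp] theorem S58A_x_some {W : WeierstrassCurve.Affine K} {x y : K} (h : W.Nonsingular x y) :
    S58A_x (Point.some x y h) = x := rfl

@[simp] theorem S58A_H_some (v : Valuation K Γ₀) {W : WeierstrassCurve.Affine K} {x y : K}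
    (h : W.Nonsingular x y) : S58A_H v (Point.some x y h) = max 1 (v x) := rfl

@[simp] theorem S58A_H_zero (v : Valuation K Γ₀) {W : WeierstrassCurve.Affine K} :
    S58A_H v (0 : W.Point) = 1 := rfl

@[simp] theorem S58A_x_zero {W : WeierstrassCurve.Affine K} :
    S58A_x (0 : W.Point) = 0 := rfl

theorem S58A_one_le_H (v : Valuation K Γ₀) {W : WeierstrassCurve.Affine K} (P : W.Point) :
    1 ≤ S58A_H v P := by
  cases P with
  | zero => exact le_rfl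
  | some x y h => exact le_max_left _ _

theorem S58A_H_ne_zero (v : Valuation K Γ₀) {W : WeierstrassCurve.Affine K} (P : W.Point) :
    S58A_H v P ≠ 0 :=
  (lt_of_lt_of_le zero_lt_one (S58A_one_le_H v P)).ne'

theorem S58A_H_eq (v : Valuation K Γ₀) {W : WeierstrassCurve.Affine K} (P : W.Point) :
    S58A_H v P = max 1 (v (S58A_x P)) := by
  cases P with
  | zero => simp [show (Point.zero : W.Point) = 0 from rfl]
  | some x y h => rfl

theorem S58A_x_neg [DecidableEq K] {W : WeierstrassCurve.Affine K} (P : W.Point) :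
    S58A_x (-P) = S58A_x P := by
  cases P with
  | zero => rfl
  | some x y h => rfl

theorem S58A_H_neg [DecidableEq K] (v : Valuation K Γ₀) {W : WeierstrassCurve.Affine K}
    (P : W.Point) : S58A_H v (-P) = S58A_H v P := by
  rw [S58A_H_eq, S58A_H_eq, S58A_x_neg]

/-! ### Gauss' lemma for a monic quadratic -/

theorem S58A_gauss_aux (v : Valuation K Γ₀) (a b : K) (hab : v a ≤ v b) :
    max 1 (v a) * max 1 (v b) = max 1 (max (v (a + b)) (v (a * b))) := by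
  rcases le_or_gt (v b) 1 with hb | hb
  · have ha : v a ≤ 1 := hab.trans hb
    rw [max_eq_left ha, max_eq_left hb, one_mul]
    symm
    apply max_eq_left
    apply max_le
    · exact v.map_add_le ha hb
    · rw [map_mul]; exact mul_le_one' ha hb
  · rcases le_or_gt (v a) 1 with ha | ha
    · rw [max_eq_left ha, max_eq_right hb.le, one_mul]
      have h1 : v (a + b) = v b := v.map_add_eq_of_lt_right (lt_of_le_of_lt ha hb)
      have h2 : v (a * b) ≤ v b := by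
        rw [map_mul]
        calc v a * v b ≤ 1 * v b := mul_le_mul_left ha _
          _ = v b := one_mul _
      rw [h1, max_eq_left h2, max_eq_right hb.le]
    · rw [max_eq_right ha.le, max_eq_right hb.le]
      have h1 : v (a + b) ≤ v (a * b) := by
        rw [map_mul]
        calc v (a + b) ≤ v b := v.map_add_le hab le_rfl
          _ = 1 * v b := (one_mul _).symm
          _ ≤ v a * v b := mul_le_mul_left ha.le _
      have h2 : 1 ≤ v (a * b) := by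
        rw [map_mul]
        calc (1 : Γ₀) = 1 * 1 := (one_mul _).symm
          _ ≤ v a * v b := mul_le_mul' ha.le hb.le
      rw [max_eq_right h1, max_eq_right h2, map_mul]

theorem S58A_gauss (v : Valuation K Γ₀) (a b : K) :
    max 1 (v a) * max 1 (v b) = max 1 (max (v (a + b)) (v (a * b))) := by
  rcases le_total (v a) (v b) with h | h
  · exact S58A_gauss_aux v a b h
  · have := S58A_gauss_aux v b a h
    rw [mul_comm, this, add_comm, mul_comm b a]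

/-! ### Normalised homogeneous coordinates -/

theorem S58A_homog (v : Valuation K Γ₀) (x : K) :
    ∃ ξ η : K, ξ ∈ v.integer ∧ η ∈ v.integer ∧ η ≠ 0 ∧ x * η = ξ ∧
      v η * max 1 (v x) = 1 ∧ (η = 1 ∨ (ξ = 1 ∧ v η < 1)) := by
  rcases le_or_gt (v x) 1 with hx | hx
  · refine ⟨x, 1, ?_, ?_, one_ne_zero, mul_one _, ?_, Or.inl rfl⟩
    · exact (Valuation.mem_integer_iff _ _).mpr hx
    · exact (Valuation.mem_integer_iff _ _).mpr (by simp)
    · rw [max_eq_left hx]; simp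
  · have hx0 : x ≠ 0 := by
      rintro rfl
      simp at hx
    have hvx : v x ≠ 0 := (Valuation.ne_zero_iff _).mpr hx0
    have hinv : v x⁻¹ < 1 := by
      rw [map_inv₀]
      exact (inv_lt_one₀ (zero_lt_iff.mpr hvx)).mpr hx
    refine ⟨1, x⁻¹, ?_, ?_, inv_ne_zero hx0, mul_inv_cancel₀ hx0, ?_, Or.inr ⟨rfl, hinv⟩⟩
    · exact (Valuation.mem_integer_iff _ _).mpr (by simp)
    · exact (Valuation.mem_integer_iff _ _).mpr hinv.le
    · rw [max_eq_right hx.le, map_inv₀, inv_mul_cancel₀ hvx]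


/-! ### Integrality of the `b`-invariants -/

section integrality

variable (v : Valuation K Γ₀) (W : WeierstrassCurve.Affine K)

/-- The model is `v`-integral. -/
def S58A_Integral : Prop :=
  v W.a₁ ≤ 1 ∧ v W.a₂ ≤ 1 ∧ v W.a₃ ≤ 1 ∧ v W.a₄ ≤ 1 ∧ v W.a₆ ≤ 1

variable {v W}

theorem S58A_b_mem (hW : S58A_Integral v W) :
    W.b₂ ∈ v.integer ∧ W.b₄ ∈ v.integer ∧ W.b₆ ∈ v.integer ∧ W.b₈ ∈ v.integer := by
  obtain ⟨h₁, h₂, h₃, h₄, h₆⟩ := hW
  have m₁ : W.a₁ ∈ v.integer := (Valuation.mem_integer_iff _ _).mpr h₁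
  have m₂ : W.a₂ ∈ v.integer := (Valuation.mem_integer_iff _ _).mpr h₂
  have m₃ : W.a₃ ∈ v.integer := (Valuation.mem_integer_iff _ _).mpr h₃
  have m₄ : W.a₄ ∈ v.integer := (Valuation.mem_integer_iff _ _).mpr h₄
  have m₆ : W.a₆ ∈ v.integer := (Valuation.mem_integer_iff _ _).mpr h₆
  have n2 : (2 : K) ∈ v.integer := ofNat_mem _ 2
  have n4 : (4 : K) ∈ v.integer := ofNat_mem _ 4
  refine ⟨?_, ?_, ?_, ?_⟩
  · simp only [WeierstrassCurve.b₂]
    apply_rules [Subring.add_mem, Subring.mul_mem, Subring.sub_mem, Subring.pow_mem]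
  · simp only [WeierstrassCurve.b₄]
    apply_rules [Subring.add_mem, Subring.mul_mem, Subring.sub_mem, Subring.pow_mem]
  · simp only [WeierstrassCurve.b₆]
    apply_rules [Subring.add_mem, Subring.mul_mem, Subring.sub_mem, Subring.pow_mem]
  · simp only [WeierstrassCurve.b₈]
    apply_rules [Subring.add_mem, Subring.mul_mem, Subring.sub_mem, Subring.pow_mem]

end integrality

/-! ### The certificates -/

/-- The no-common-zero certificate of `(Ψ₂Sq, Φ₂)`. -/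
theorem S58A_cert (W : WeierstrassCurve.Affine K) (x : K) :
    (12 * x ^ 3 - W.b₂ * x ^ 2 - 10 * W.b₄ * x - 27 * W.b₆ + W.b₂ * W.b₄)
        * (4 * x ^ 3 + W.b₂ * x ^ 2 + 2 * W.b₄ * x + W.b₆)
      + (-48 * x ^ 2 - 8 * W.b₂ * x - 32 * W.b₄ + W.b₂ ^ 2)
        * (x ^ 4 - W.b₄ * x ^ 2 - 2 * W.b₆ * x - W.b₈) = W.Δ := by
  simp only [WeierstrassCurve.Δ, WeierstrassCurve.b₂, WeierstrassCurve.b₄, WeierstrassCurve.b₆,
    WeierstrassCurve.b₈]
  ring

/-- The no-common-zero certificate of `((x₁ - x₂)², biqS, biqT)` in the finite chart. -/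
theorem S58A_cert₂ (W : WeierstrassCurve.Affine K) (x₁ x₂ : K) :
    (12 * x₁ ^ 3 - W.b₂ * x₁ ^ 2 - 10 * W.b₄ * x₁ - 27 * W.b₆ + W.b₂ * W.b₄) * biqS W x₁ x₂
      + (-48 * x₁ ^ 2 - 8 * W.b₂ * x₁ - 32 * W.b₄ + W.b₂ ^ 2) * biqT W x₁ x₂
      + (x₁ - x₂) *
        ((12 * x₁ ^ 3 - W.b₂ * x₁ ^ 2 - 10 * W.b₄ * x₁ - 27 * W.b₆ + W.b₂ * W.b₄)
            * (2 * x₁ * (x₂ + 2 * x₁) + W.b₂ * x₁ + W.b₄)
          + (-48 * x₁ ^ 2 - 8 * W.b₂ * x₁ - 32 * W.b₄ + W.b₂ ^ 2)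
            * (x₁ ^ 2 * (x₁ + x₂) - W.b₄ * x₁ - W.b₆)) = W.Δ := by
  rw [← S58A_cert W x₁]
  simp only [biqS, biqT]
  ring


/-! ### The bihomogeneous forms -/

/-- Bihomogeneous form of `(x₁ - x₂)²`. -/
def S58A_G0 (ξ₁ η₁ ξ₂ η₂ : K) : K := (ξ₁ * η₂ - ξ₂ * η₁) ^ 2

/-- Bihomogeneous form of `biqS`. -/
def S58A_G1 (W : WeierstrassCurve.Affine K) (ξ₁ η₁ ξ₂ η₂ : K) : K :=
  2 * (ξ₁ * η₂ + ξ₂ * η₁) * (ξ₁ * ξ₂) + W.b₂ * (ξ₁ * ξ₂) * (η₁ * η₂)
    + W.b₄ * (ξ₁ * η₂ + ξ₂ * η₁) * (η₁ * η₂) + W.b₆ * (η₁ * η₂) ^ 2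

/-- Bihomogeneous form of `biqT`. -/
def S58A_G2 (W : WeierstrassCurve.Affine K) (ξ₁ η₁ ξ₂ η₂ : K) : K :=
  (ξ₁ * ξ₂) ^ 2 - W.b₄ * (ξ₁ * ξ₂) * (η₁ * η₂)
    - W.b₆ * (ξ₁ * η₂ + ξ₂ * η₁) * (η₁ * η₂) - W.b₈ * (η₁ * η₂) ^ 2

section unit

variable {v : Valuation K Γ₀} {W : WeierstrassCurve.Affine K}

theorem S58A_G_le (hW : S58A_Integral v W) {ξ₁ η₁ ξ₂ η₂ : K}
    (hξ₁ : ξ₁ ∈ v.integer) (hη₁ : η₁ ∈ v.integer) (hξ₂ : ξ₂ ∈ v.integer)
    (hη₂ : η₂ ∈ v.integer) :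
    v (S58A_G0 ξ₁ η₁ ξ₂ η₂) ≤ 1 ∧ v (S58A_G1 W ξ₁ η₁ ξ₂ η₂) ≤ 1 ∧
      v (S58A_G2 W ξ₁ η₁ ξ₂ η₂) ≤ 1 := by
  obtain ⟨hb₂, hb₄, hb₆, hb₈⟩ := S58A_b_mem hW
  have n2 : (2 : K) ∈ v.integer := ofNat_mem _ 2
  refine ⟨(Valuation.mem_integer_iff _ _).mp ?_, (Valuation.mem_integer_iff _ _).mp ?_,
    (Valuation.mem_integer_iff _ _).mp ?_⟩
  · simp only [S58A_G0]
    apply_rules [Subring.add_mem, Subring.mul_mem, Subring.sub_mem, Subring.pow_mem]
  · simp only [S58A_G1]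
    apply_rules [Subring.add_mem, Subring.mul_mem, Subring.sub_mem, Subring.pow_mem]
  · simp only [S58A_G2]
    apply_rules [Subring.add_mem, Subring.mul_mem, Subring.sub_mem, Subring.pow_mem]

theorem S58A_lt_of_sq_lt {a : Γ₀} (h : a ^ 2 < 1) : a < 1 := by
  by_contra hcon
  exact absurd (one_le_pow₀ (not_lt.mp hcon) (n := 2)) (not_le.mpr h)

theorem S58A_finite_chart (hW : S58A_Integral v W) (hΔ : v W.Δ = 1) {x₁ x₂ : K}
    (h₁ : v x₁ ≤ 1) (h₂ : v x₂ ≤ 1) :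
    1 ≤ max (v ((x₁ - x₂) ^ 2)) (max (v (biqS W x₁ x₂)) (v (biqT W x₁ x₂))) := by
  by_contra hcon
  replace hcon := not_le.mp hcon
  have h0 : v ((x₁ - x₂) ^ 2) < 1 := lt_of_le_of_lt (le_max_left _ _) hcon
  have hS : v (biqS W x₁ x₂) < 1 :=
    lt_of_le_of_lt ((le_max_left _ _).trans (le_max_right _ _)) hcon
  have hT : v (biqT W x₁ x₂) < 1 :=
    lt_of_le_of_lt ((le_max_right _ _).trans (le_max_right _ _)) hcon
  have hd : v (x₁ - x₂) < 1 := by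
    rw [map_pow] at h0
    exact S58A_lt_of_sq_lt h0
  obtain ⟨hb₂, hb₄, hb₆, hb₈⟩ := S58A_b_mem hW
  have m₁ : x₁ ∈ v.integer := (Valuation.mem_integer_iff _ _).mpr h₁
  have m₂ : x₂ ∈ v.integer := (Valuation.mem_integer_iff _ _).mpr h₂
  have n2 : (2 : K) ∈ v.integer := ofNat_mem _ 2
  have n8 : (8 : K) ∈ v.integer := ofNat_mem _ 8
  have n10 : (10 : K) ∈ v.integer := ofNat_mem _ 10
  have n12 : (12 : K) ∈ v.integer := ofNat_mem _ 12
  have n27 : (27 : K) ∈ v.integer := ofNat_mem _ 27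
  have n32 : (32 : K) ∈ v.integer := ofNat_mem _ 32
  have n48 : (-48 : K) ∈ v.integer := Subring.neg_mem _ (ofNat_mem _ 48)
  have hA : v (12 * x₁ ^ 3 - W.b₂ * x₁ ^ 2 - 10 * W.b₄ * x₁ - 27 * W.b₆ + W.b₂ * W.b₄) ≤ 1 := by
    apply (Valuation.mem_integer_iff _ _).mp
    apply_rules [Subring.add_mem, Subring.mul_mem, Subring.sub_mem, Subring.pow_mem]
  have hB : v (-48 * x₁ ^ 2 - 8 * W.b₂ * x₁ - 32 * W.b₄ + W.b₂ ^ 2) ≤ 1 := by
    apply (Valuation.mem_integer_iff _ _).mp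
    apply_rules [Subring.add_mem, Subring.mul_mem, Subring.sub_mem, Subring.pow_mem]
  have hC : v ((12 * x₁ ^ 3 - W.b₂ * x₁ ^ 2 - 10 * W.b₄ * x₁ - 27 * W.b₆ + W.b₂ * W.b₄)
            * (2 * x₁ * (x₂ + 2 * x₁) + W.b₂ * x₁ + W.b₄)
          + (-48 * x₁ ^ 2 - 8 * W.b₂ * x₁ - 32 * W.b₄ + W.b₂ ^ 2)
            * (x₁ ^ 2 * (x₁ + x₂) - W.b₄ * x₁ - W.b₆)) ≤ 1 := by
    apply (Valuation.mem_integer_iff _ _).mp
    apply_rules [Subring.add_mem, Subring.mul_mem, Subring.sub_mem, Subring.pow_mem]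
  have hlt : v W.Δ < 1 := by
    rw [← S58A_cert₂ W x₁ x₂]
    refine lt_of_le_of_lt (v.map_add_le (v.map_add_le (le_max_left _ _)
      ((le_max_left _ _).trans (le_max_right _ _))) ((le_max_right _ _).trans (le_max_right _ _)))
      (max_lt ?_ (max_lt ?_ ?_))
    · rw [map_mul]; exact Right.mul_lt_one_of_le_of_lt hA hS
    · rw [map_mul]; exact Right.mul_lt_one_of_le_of_lt hB hT
    · rw [map_mul, mul_comm]; exact Right.mul_lt_one_of_le_of_lt hC hd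
  rw [hΔ] at hlt
  exact lt_irrefl _ hlt

theorem S58A_unit_pair (hW : S58A_Integral v W) (hΔ : v W.Δ = 1) {ξ₁ η₁ ξ₂ η₂ : K}
    (hξ₁ : ξ₁ ∈ v.integer) (hη₁ : η₁ ∈ v.integer) (hξ₂ : ξ₂ ∈ v.integer)
    (hη₂ : η₂ ∈ v.integer)
    (c₁ : η₁ = 1 ∨ (ξ₁ = 1 ∧ v η₁ < 1)) (c₂ : η₂ = 1 ∨ (ξ₂ = 1 ∧ v η₂ < 1)) :
    max (v (S58A_G0 ξ₁ η₁ ξ₂ η₂))
      (max (v (S58A_G1 W ξ₁ η₁ ξ₂ η₂)) (v (S58A_G2 W ξ₁ η₁ ξ₂ η₂))) = 1 := by
  obtain ⟨m₀, m₁, m₂⟩ := S58A_G_le hW hξ₁ hη₁ hξ₂ hη₂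
  apply le_antisymm (max_le m₀ (max_le m₁ m₂))
  obtain ⟨hb₂, hb₄, hb₆, hb₈⟩ := S58A_b_mem hW
  have hξ₁' := (Valuation.mem_integer_iff _ _).mp hξ₁
  have hξ₂' := (Valuation.mem_integer_iff _ _).mp hξ₂
  have hη₁' := (Valuation.mem_integer_iff _ _).mp hη₁
  have hη₂' := (Valuation.mem_integer_iff _ _).mp hη₂
  rcases c₁ with rfl | ⟨rfl, hlt₁⟩
  · rcases c₂ with rfl | ⟨rfl, hlt₂⟩
    · have e0 : S58A_G0 ξ₁ 1 ξ₂ 1 = (ξ₁ - ξ₂) ^ 2 := by simp only [S58A_G0]; ring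
      have e1 : S58A_G1 W ξ₁ 1 ξ₂ 1 = biqS W ξ₁ ξ₂ := by simp only [S58A_G1, biqS]; ring
      have e2 : S58A_G2 W ξ₁ 1 ξ₂ 1 = biqT W ξ₁ ξ₂ := by simp only [S58A_G2, biqT]; ring
      rw [e0, e1, e2]
      exact S58A_finite_chart hW hΔ hξ₁' hξ₂'
    · -- `x₂ = ∞`, `x₁` finite
      refine le_trans (le_of_eq ?_) (le_max_left _ _)
      have e0 : S58A_G0 ξ₁ 1 1 η₂ = (1 - ξ₁ * η₂) ^ 2 := by simp only [S58A_G0]; ring
      rw [e0, map_pow, Valuation.map_one_sub_of_lt, one_pow]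
      rw [map_mul, mul_comm]
      exact Right.mul_lt_one_of_le_of_lt hξ₁' hlt₂ |> fun h => by rwa [mul_comm] at h
  · rcases c₂ with rfl | ⟨rfl, hlt₂⟩
    · refine le_trans (le_of_eq ?_) (le_max_left _ _)
      have e0 : S58A_G0 1 η₁ ξ₂ 1 = (1 - ξ₂ * η₁) ^ 2 := by simp only [S58A_G0]; ring
      rw [e0, map_pow, Valuation.map_one_sub_of_lt, one_pow]
      rw [map_mul]
      exact Right.mul_lt_one_of_le_of_lt hξ₂' hlt₁
    · refine le_trans (le_of_eq ?_) ((le_max_right _ _).trans (le_max_right _ _))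
      have e2 : S58A_G2 W 1 η₁ 1 η₂ = 1 - (η₁ * η₂)
          * (W.b₄ + W.b₆ * (η₂ + η₁) + W.b₈ * (η₁ * η₂)) := by
        simp only [S58A_G2]; ring
      rw [e2, Valuation.map_one_sub_of_lt]
      have hin : v (W.b₄ + W.b₆ * (η₂ + η₁) + W.b₈ * (η₁ * η₂)) ≤ 1 := by
        apply (Valuation.mem_integer_iff _ _).mp
        apply_rules [Subring.add_mem, Subring.mul_mem, Subring.sub_mem, Subring.pow_mem]
      have h12 : v (η₁ * η₂) < 1 := by
        rw [map_mul]; exact Right.mul_lt_one_of_le_of_lt hη₁' hlt₂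
      rw [map_mul, mul_comm]
      exact Right.mul_lt_one_of_le_of_lt hin h12

end unit


/-! ### The maximum of the three forms -/

section maxforms

variable {v : Valuation K Γ₀} {W : WeierstrassCurve.Affine K}

theorem S58A_scale {g G e H : Γ₀} (h : g * e = G) (he : e * H = 1) : g = G * H := by
  rw [← h, mul_assoc, he, mul_one]

theorem S58A_max_pair (hW : S58A_Integral v W) (hΔ : v W.Δ = 1) (x₁ x₂ : K) :
    max (v ((x₁ - x₂) ^ 2)) (max (v (biqS W x₁ x₂)) (v (biqT W x₁ x₂)))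
      = max 1 (v x₁) ^ 2 * max 1 (v x₂) ^ 2 := by
  obtain ⟨ξ₁, η₁, hξ₁, hη₁, hη₁0, e₁, n₁, c₁⟩ := S58A_homog v x₁
  obtain ⟨ξ₂, η₂, hξ₂, hη₂, hη₂0, e₂, n₂, c₂⟩ := S58A_homog v x₂
  have key := S58A_unit_pair hW hΔ hξ₁ hη₁ hξ₂ hη₂ c₁ c₂
  have i₀ : (x₁ - x₂) ^ 2 * (η₁ * η₂) ^ 2 = S58A_G0 ξ₁ η₁ ξ₂ η₂ := by
    rw [← e₁, ← e₂]; simp only [S58A_G0]; ring
  have i₁ : biqS W x₁ x₂ * (η₁ * η₂) ^ 2 = S58A_G1 W ξ₁ η₁ ξ₂ η₂ := by
    rw [← e₁, ← e₂]; simp only [S58A_G1, biqS]; ring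
  have i₂ : biqT W x₁ x₂ * (η₁ * η₂) ^ 2 = S58A_G2 W ξ₁ η₁ ξ₂ η₂ := by
    rw [← e₁, ← e₂]; simp only [S58A_G2, biqT]; ring
  have he : v ((η₁ * η₂) ^ 2) * (max 1 (v x₁) ^ 2 * max 1 (v x₂) ^ 2) = 1 := by
    rw [map_pow, map_mul]
    calc (v η₁ * v η₂) ^ 2 * (max 1 (v x₁) ^ 2 * max 1 (v x₂) ^ 2)
        = (v η₁ * max 1 (v x₁)) ^ 2 * (v η₂ * max 1 (v x₂)) ^ 2 := by
          rw [mul_pow, mul_pow, mul_pow]; exact mul_mul_mul_comm _ _ _ _
      _ = 1 := by rw [n₁, n₂]; simp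
  have j₀ := S58A_scale (by rw [← map_mul, i₀]) he
  have j₁ := S58A_scale (by rw [← map_mul, i₁]) he
  have j₂ := S58A_scale (by rw [← map_mul, i₂]) he
  rw [j₀, j₁, j₂, max_mul_mul_right, max_mul_mul_right, key, one_mul]

/-- Homogeneous form of `Ψ₂Sq`. -/
def S58A_F1 (W : WeierstrassCurve.Affine K) (ξ η : K) : K :=
  4 * ξ ^ 3 * η + W.b₂ * ξ ^ 2 * η ^ 2 + 2 * W.b₄ * ξ * η ^ 3 + W.b₆ * η ^ 4

/-- Homogeneous form of `Φ₂`. -/
def S58A_F2 (W : WeierstrassCurve.Affine K) (ξ η : K) : K :=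
  ξ ^ 4 - W.b₄ * ξ ^ 2 * η ^ 2 - 2 * W.b₆ * ξ * η ^ 3 - W.b₈ * η ^ 4

theorem S58A_max_single (hW : S58A_Integral v W) (hΔ : v W.Δ = 1) (x : K) :
    max (v (W.Ψ₂Sq.eval x)) (v ((W.Φ 2).eval x)) = max 1 (v x) ^ 4 := by
  obtain ⟨ξ, η, hξ, hη, hη0, e, n, c⟩ := S58A_homog v x
  obtain ⟨hb₂, hb₄, hb₆, hb₈⟩ := S58A_b_mem hW
  have n2 : (2 : K) ∈ v.integer := ofNat_mem _ 2
  have n4 : (4 : K) ∈ v.integer := ofNat_mem _ 4
  have hξ' := (Valuation.mem_integer_iff _ _).mp hξ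
  have hη' := (Valuation.mem_integer_iff _ _).mp hη
  have m₁ : v (S58A_F1 W ξ η) ≤ 1 := by
    apply (Valuation.mem_integer_iff _ _).mp
    simp only [S58A_F1]
    apply_rules [Subring.add_mem, Subring.mul_mem, Subring.sub_mem, Subring.pow_mem]
  have m₂ : v (S58A_F2 W ξ η) ≤ 1 := by
    apply (Valuation.mem_integer_iff _ _).mp
    simp only [S58A_F2]
    apply_rules [Subring.add_mem, Subring.mul_mem, Subring.sub_mem, Subring.pow_mem]
  have key : max (v (S58A_F1 W ξ η)) (v (S58A_F2 W ξ η)) = 1 := by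
    apply le_antisymm (max_le m₁ m₂)
    rcases c with rfl | ⟨rfl, hlt⟩
    · by_contra hcon
      replace hcon := not_le.mp hcon
      have h1 : v (S58A_F1 W ξ 1) < 1 := lt_of_le_of_lt (le_max_left _ _) hcon
      have h2 : v (S58A_F2 W ξ 1) < 1 := lt_of_le_of_lt (le_max_right _ _) hcon
      have n8 : (8 : K) ∈ v.integer := ofNat_mem _ 8
      have n10 : (10 : K) ∈ v.integer := ofNat_mem _ 10
      have n12 : (12 : K) ∈ v.integer := ofNat_mem _ 12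
      have n27 : (27 : K) ∈ v.integer := ofNat_mem _ 27
      have n32 : (32 : K) ∈ v.integer := ofNat_mem _ 32
      have n48 : (-48 : K) ∈ v.integer := Subring.neg_mem _ (ofNat_mem _ 48)
      have hA : v (12 * ξ ^ 3 - W.b₂ * ξ ^ 2 - 10 * W.b₄ * ξ - 27 * W.b₆ + W.b₂ * W.b₄) ≤ 1 := by
        apply (Valuation.mem_integer_iff _ _).mp
        apply_rules [Subring.add_mem, Subring.mul_mem, Subring.sub_mem, Subring.pow_mem]
      have hB : v (-48 * ξ ^ 2 - 8 * W.b₂ * ξ - 32 * W.b₄ + W.b₂ ^ 2) ≤ 1 := by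
        apply (Valuation.mem_integer_iff _ _).mp
        apply_rules [Subring.add_mem, Subring.mul_mem, Subring.sub_mem, Subring.pow_mem]
      have hlt : v W.Δ < 1 := by
        have hc : (12 * ξ ^ 3 - W.b₂ * ξ ^ 2 - 10 * W.b₄ * ξ - 27 * W.b₆ + W.b₂ * W.b₄)
            * S58A_F1 W ξ 1 + (-48 * ξ ^ 2 - 8 * W.b₂ * ξ - 32 * W.b₄ + W.b₂ ^ 2)
            * S58A_F2 W ξ 1 = W.Δ := by
          rw [← S58A_cert W ξ]; simp only [S58A_F1, S58A_F2]; ring
        rw [← hc]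
        refine lt_of_le_of_lt (v.map_add_le (le_max_left _ _) (le_max_right _ _))
          (max_lt ?_ ?_)
        · rw [map_mul]; exact Right.mul_lt_one_of_le_of_lt hA h1
        · rw [map_mul]; exact Right.mul_lt_one_of_le_of_lt hB h2
      rw [hΔ] at hlt
      exact lt_irrefl _ hlt
    · refine le_trans (le_of_eq ?_) (le_max_right _ _)
      have e2 : S58A_F2 W 1 η = 1 - η * (W.b₄ * η + 2 * W.b₆ * η ^ 2 + W.b₈ * η ^ 3) := by
        simp only [S58A_F2]; ring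
      rw [e2, Valuation.map_one_sub_of_lt]
      have hin : v (W.b₄ * η + 2 * W.b₆ * η ^ 2 + W.b₈ * η ^ 3) ≤ 1 := by
        apply (Valuation.mem_integer_iff _ _).mp
        apply_rules [Subring.add_mem, Subring.mul_mem, Subring.sub_mem, Subring.pow_mem]
      rw [map_mul, mul_comm]
      exact Right.mul_lt_one_of_le_of_lt hin hlt
  have i₁ : W.Ψ₂Sq.eval x * η ^ 4 = S58A_F1 W ξ η := by
    rw [Ψ₂Sq_eval_eq, ← e]; simp only [S58A_F1]; ring
  have i₂ : (W.Φ 2).eval x * η ^ 4 = S58A_F2 W ξ η := by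
    rw [Φ_two_eval_eq, ← e]; simp only [S58A_F2]; ring
  have he : v (η ^ 4) * max 1 (v x) ^ 4 = 1 := by
    rw [map_pow, ← mul_pow, n, one_pow]
  have j₁ := S58A_scale (by rw [← map_mul, i₁]) he
  have j₂ := S58A_scale (by rw [← map_mul, i₂]) he
  rw [j₁, j₂, max_mul_mul_right, key, one_mul]

end maxforms

/-! ### The local laws -/

section laws

variable [DecidableEq K] (v : Valuation K Γ₀) (W : WeierstrassCurve.Affine K)

omit [DecidableEq K] in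
theorem S58A_x_eq_iff {P Q : W.Point} (hP : P ≠ 0) (hQ : Q ≠ 0) :
    S58A_x P = S58A_x Q ↔ P = Q ∨ P = -Q := by
  cases P with
  | zero => exact absurd rfl hP
  | some x₁ y₁ h₁ =>
    cases Q with
    | zero => exact absurd rfl hQ
    | some x₂ y₂ h₂ =>
      simp only [S58A_x_some, Point.neg_some, Point.some.injEq]
      constructor
      · intro hx
        subst hx
        rcases Y_eq_of_X_eq h₁.1 h₂.1 rfl with h | h
        · exact Or.inl ⟨rfl, h⟩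
        · exact Or.inr ⟨rfl, h⟩
      · rintro (⟨h, -⟩ | ⟨h, -⟩) <;> exact h

/-- **The local quasi-parallelogram law.** -/
theorem S58A_local (hW : S58A_Integral v W) (hΔ : v W.Δ = 1) (P Q : W.Point)
    (hP : P ≠ 0) (hQ : Q ≠ 0) (hx : S58A_x P ≠ S58A_x Q) :
    S58A_H v (P + Q) * S58A_H v (P - Q) * v (S58A_x P - S58A_x Q) ^ 2
      = S58A_H v P ^ 2 * S58A_H v Q ^ 2 := by
  cases P with
  | zero => exact absurd rfl hP
  | some x₁ y₁ h₁ =>
    cases Q with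
    | zero => exact absurd rfl hQ
    | some x₂ y₂ h₂ =>
      simp only [S58A_x_some] at hx ⊢
      obtain ⟨u, w, u', w', hu, hu', hadd, hsub, hsum, hprod, -, -⟩ :=
        exists_add_sub W h₁ h₂ hx
      rw [hadd, hsub]
      simp only [S58A_H_some]
      have hd : (x₁ - x₂) ^ 2 ≠ 0 := pow_ne_zero 2 (sub_ne_zero.mpr hx)
      have hvd : v ((x₁ - x₂) ^ 2) ≠ 0 := (Valuation.ne_zero_iff _).mpr hd
      rw [S58A_gauss, hsum, hprod, ← S58A_max_pair hW hΔ x₁ x₂, ← map_pow,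
        ← max_mul_mul_right, ← max_mul_mul_right, one_mul, ← map_mul, ← map_mul,
        div_mul_cancel₀ _ hd, div_mul_cancel₀ _ hd]

/-- **The local duplication law.** -/
theorem S58A_local_two (hW : S58A_Integral v W) (hΔ : v W.Δ = 1) (P : W.Point)
    (hP : P ≠ 0) (h2 : (2 : ℕ) • P ≠ 0) :
    W.Ψ₂Sq.eval (S58A_x P) ≠ 0 ∧
      S58A_H v ((2 : ℕ) • P) * v (W.Ψ₂Sq.eval (S58A_x P)) = S58A_H v P ^ 4 := by
  cases P with
  | zero => exact absurd rfl hP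
  | some x y h =>
    have hy : y ≠ W.negY x y := by
      intro hy
      exact h2 ((two_nsmul_eq_zero_iff W h).mpr hy)
    obtain ⟨hne, w, hw, h2P⟩ := exists_two_nsmul W h hy
    refine ⟨hne, ?_⟩
    rw [h2P]
    simp only [S58A_H_some, S58A_x_some]
    have hvd : v (W.Ψ₂Sq.eval x) ≠ 0 := (Valuation.ne_zero_iff _).mpr hne
    rw [← S58A_max_single hW hΔ x, ← max_mul_mul_right, one_mul, ← map_mul,
      div_mul_cancel₀ _ hne, max_comm]

end laws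

end Fermat.Agent.S58_helper8_LOC
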