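import Mathlib
import Fermat.Agent.S58_helper8_LOC
import Fermat.Agent.S13_helper27_DPG
import Fermat.Agent.S13_helper19_DPEXIST

/-!
# S58 [E0-COPRIME]: `Φₙ` and `ΨSqₙ` are coprime

* `S58CP_local`: at ONE valuation `v` (integral model, `v Δ = 1`), for a point `G = (x, y)` with
  `k • G ≠ 0` for `1 ≤ k ≤ N`: `max (v (ΨSqₙ x)) (v (Φₙ x)) = max 1 (v x) ^ n²` for `1 ≤ n ≤ N`.
  (Local induction `Mₙ₊₁ Mₙ₋₁ = Mₙ² H²` from the local quasi-parallelogram law.)
* `S58CP_main`: over a field of characteristic `0` with `Δ ≠ 0`, `IsCoprime (W.Φ n) (W.ΨSq n)`.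
-/

namespace Fermat.Agent.S58_helper8_COP

open Polynomial WeierstrassCurve WeierstrassCurve.Affine
open Fermat.Agent.S13_helper29_BIQ Fermat.Agent.S13_helper27_DPG Fermat.Agent.S58_helper8_LOC

variable {K : Type*} [Field K] {Γ₀ : Type*} [LinearOrderedCommGroupWithZero Γ₀]

/-- `Mₙ := max (v (ΨSqₙ x)) (v (Φₙ x))`. -/
noncomputable def S58CP_M (v : Valuation K Γ₀) (W : WeierstrassCurve.Affine K) (x : K) (n : ℕ) : Γ₀ :=
  max (v ((W.ΨSq (n : ℤ)).eval x)) (v ((W.Φ (n : ℤ)).eval x))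

theorem S58CP_x_eq {W : WeierstrassCurve.Affine K} (P : W.Point) : S58A_x P = xc W P := by
  cases P <;> rfl

section loc

variable [DecidableEq K] (v : Valuation K Γ₀) {W : WeierstrassCurve.Affine K}
  {x y : K} (h : W.Nonsingular x y) {N : ℕ}
  (hN : ∀ k, 1 ≤ k → k ≤ N → k • Point.some x y h ≠ 0)

include hN in
theorem S58CP_ΨSq_ne_zero (k : ℕ) (hk1 : 1 ≤ k) (hkN : k ≤ N) :
    (W.ΨSq (k : ℤ)).eval x ≠ 0 := by
  rw [← evalEval_ψ_sq W h.1]
  exact pow_ne_zero 2 (psi_ne_zero_of_nsmul_ne_zero h hN k hk1 hkN)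

include hN in
theorem S58CP_H_mul (k : ℕ) (hk1 : 1 ≤ k) (hkN : k ≤ N) :
    S58A_H v (k • Point.some x y h) * v ((W.ΨSq (k : ℤ)).eval x) = S58CP_M v W x k := by
  rw [S58A_H_eq, S58CP_x_eq, S58CP_M, ← max_mul_mul_right, one_mul, ← map_mul,
    xc_nsmul_mul_ΨSq h hN k hk1 hkN]

include hN in
theorem S58CP_diff (n : ℕ) (hn : 2 ≤ n) (hnN : n + 1 ≤ N) :
    v (xc W (n • Point.some x y h) - x) ^ 2 * v ((W.ΨSq (n : ℤ)).eval x) ^ 2
      = v ((W.ΨSq ((n + 1 : ℕ) : ℤ)).eval x) * v ((W.ΨSq ((n - 1 : ℕ) : ℤ)).eval x) := by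
  have e := xc_nsmul_sub_mul h hN n (by omega) (by omega)
  have c1 : ((n + 1 : ℕ) : ℤ) = (n : ℤ) + 1 := by omega
  have c2 : ((n - 1 : ℕ) : ℤ) = (n : ℤ) - 1 := by omega
  rw [c1, c2, ← evalEval_ψ_sq W h.1, ← evalEval_ψ_sq W h.1, ← evalEval_ψ_sq W h.1,
    ← map_pow, ← map_pow, ← map_mul, ← map_mul]
  congr 1
  calc (xc W (n • Point.some x y h) - x) ^ 2 * ((W.ψ (n : ℤ)).evalEval x y ^ 2) ^ 2
      = ((xc W (n • Point.some x y h) - x) * (W.ψ (n : ℤ)).evalEval x y ^ 2) ^ 2 := by ring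
    _ = (W.ψ ((n : ℤ) + 1)).evalEval x y ^ 2 * (W.ψ ((n : ℤ) - 1)).evalEval x y ^ 2 := by
        rw [e]; ring

include hN in
theorem S58CP_rec (hW : S58A_Integral v W) (hΔ : v W.Δ = 1) (n : ℕ) (hn : 2 ≤ n)
    (hnN : n + 1 ≤ N) :
    S58CP_M v W x (n + 1) * S58CP_M v W x (n - 1)
      = S58CP_M v W x n ^ 2 * max 1 (v x) ^ 2 := by
  have hP : Point.some x y h ≠ 0 := Point.some_ne_zero h
  have hnP : n • Point.some x y h ≠ 0 := hN n (by omega) (by omega)
  have hadd : n • Point.some x y h + Point.some x y h = (n + 1) • Point.some x y h := by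
    rw [succ_nsmul]
  have hsub : n • Point.some x y h - Point.some x y h = (n - 1) • Point.some x y h := by
    rw [sub_nsmul _ (by omega : 1 ≤ n), one_nsmul, sub_eq_add_neg]
  have hx : S58A_x (n • Point.some x y h) ≠ S58A_x (Point.some x y h) := by
    rw [S58CP_x_eq, S58CP_x_eq]
    apply xc_ne_of_add_sub_ne_zero W hnP hP
    · rw [hadd]; exact hN (n + 1) (by omega) hnN
    · rw [hsub]; exact hN (n - 1) (by omega) (by omega)
  have L := S58A_local v W hW hΔ (n • Point.some x y h) (Point.some x y h) hnP hP hx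
  rw [hadd, hsub, S58CP_x_eq, S58A_x_some, S58A_H_some] at L
  have h1 := S58CP_H_mul v h hN (n + 1) (by omega) hnN
  have h2 := S58CP_H_mul v h hN (n - 1) (by omega) (by omega)
  have h3 := S58CP_H_mul v h hN n (by omega) (by omega)
  have h4 := S58CP_diff v h hN n hn hnN
  rw [← h1, ← h2, ← h3]
  calc S58A_H v ((n + 1) • Point.some x y h) * v ((W.ΨSq ((n + 1 : ℕ) : ℤ)).eval x)
        * (S58A_H v ((n - 1) • Point.some x y h) * v ((W.ΨSq ((n - 1 : ℕ) : ℤ)).eval x))
      = S58A_H v ((n + 1) • Point.some x y h) * S58A_H v ((n - 1) • Point.some x y h)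
        * (v ((W.ΨSq ((n + 1 : ℕ) : ℤ)).eval x) * v ((W.ΨSq ((n - 1 : ℕ) : ℤ)).eval x)) := by
          ac_rfl
    _ = S58A_H v ((n + 1) • Point.some x y h) * S58A_H v ((n - 1) • Point.some x y h)
        * (v (xc W (n • Point.some x y h) - x) ^ 2 * v ((W.ΨSq (n : ℤ)).eval x) ^ 2) := by
          rw [h4]
    _ = S58A_H v ((n + 1) • Point.some x y h) * S58A_H v ((n - 1) • Point.some x y h)
        * v (xc W (n • Point.some x y h) - x) ^ 2 * v ((W.ΨSq (n : ℤ)).eval x) ^ 2 := by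
          ac_rfl
    _ = S58A_H v (n • Point.some x y h) ^ 2 * max 1 (v x) ^ 2
        * v ((W.ΨSq (n : ℤ)).eval x) ^ 2 := by rw [L]
    _ = (S58A_H v (n • Point.some x y h) * v ((W.ΨSq (n : ℤ)).eval x)) ^ 2
        * max 1 (v x) ^ 2 := by
          rw [mul_pow, mul_right_comm]

include hN in
/-- **The local identity** `max (v (ΨSqₙ x)) (v (Φₙ x)) = max 1 (v x) ^ n²`. -/
theorem S58CP_local (hW : S58A_Integral v W) (hΔ : v W.Δ = 1) (n : ℕ) (hn1 : 1 ≤ n)
    (hnN : n ≤ N) :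
    max (v ((W.ΨSq (n : ℤ)).eval x)) (v ((W.Φ (n : ℤ)).eval x)) = max 1 (v x) ^ (n ^ 2) := by
  change S58CP_M v W x n = _
  induction n using Nat.strong_induction_on with
  | _ n ih =>
    rcases Nat.lt_or_ge n 3 with h3 | h3
    · interval_cases n
      · simp [S58CP_M]
      · have := S58A_max_single (v := v) hW hΔ x
        simpa [S58CP_M, WeierstrassCurve.ΨSq_two] using this
    · obtain ⟨m, rfl⟩ : ∃ m, n = m + 1 := ⟨n - 1, by omega⟩
      have R := S58CP_rec v h hN hW hΔ m (by omega) hnN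
      rw [ih m (by omega) (by omega) (by omega), ih (m - 1) (by omega) (by omega) (by omega)]
        at R
      have hH : max 1 (v x) ^ ((m - 1) ^ 2) ≠ 0 :=
        pow_ne_zero _ (lt_of_lt_of_le zero_lt_one (le_max_left _ _)).ne'
      apply mul_right_cancel₀ hH
      rw [R, ← pow_mul, ← pow_add, ← pow_add]
      congr 1
      obtain ⟨j, rfl⟩ : ∃ j, m = j + 1 := ⟨m - 1, by omega⟩
      simp only [Nat.add_sub_cancel]
      ring

end loc


/-! ### Globalisation: coprimality of `Φₙ` and `ΨSqₙ` -/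

section glob

variable {k : Type*} [Field k]

/-- Abstract form: a field `L ⊇ k`, a transcendental `x : L` and enough square roots. -/
theorem S58CP_no_common_factor [CharZero k] (W : WeierstrassCurve k) (hΔ : W.Δ ≠ 0)
    {L : Type*} [Field L] [Algebra k L] [IsAlgClosed L] (x : L) (hx : Transcendental k x)
    (n : ℕ) (hn : 1 ≤ n) (π : k[X]) (hπ : ¬ IsUnit π) (h1 : π ∣ W.Φ (n : ℤ))
    (h2 : π ∣ W.ΨSq (n : ℤ)) : False := by
  classical
  have hinj : Function.Injective (Polynomial.aeval (R := k) x) :=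
    transcendental_iff_injective.mp hx
  -- the subring `k[x]` and the ideal generated by `π(x)`
  set A : Subring L := (Polynomial.aeval (R := k) x).range.toSubring with hA
  have memA : ∀ p : k[X], Polynomial.aeval x p ∈ A := fun p => ⟨p, rfl⟩
  set I : Ideal A := Ideal.span {⟨Polynomial.aeval x π, memA π⟩} with hI
  have hItop : I ≠ ⊤ := by
    intro htop
    have h1I : (1 : A) ∈ I := by rw [htop]; trivial
    rw [hI, Ideal.mem_span_singleton'] at h1I
    obtain ⟨⟨a, q, rfl⟩, ha⟩ := h1I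
    have e : Polynomial.aeval x (q * π) = Polynomial.aeval x (1 : k[X]) := by
      have := congrArg Subtype.val ha
      simpa using this
    have := hinj e
    exact hπ (IsUnit.of_mul_eq_one q (by rw [mul_comm]; exact this))
  obtain ⟨B, hAB, hIB⟩ := Ideal.image_subset_nonunits_valuationSubring I hItop
  have memB : ∀ p : k[X], Polynomial.aeval x p ∈ B := fun p => hAB (memA p)
  have hπB : B.valuation (Polynomial.aeval x π) < 1 := by
    rw [← ValuationSubring.mem_nonunits_iff]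
    apply hIB
    exact ⟨⟨Polynomial.aeval x π, memA π⟩, Ideal.subset_span (Set.mem_singleton _), rfl⟩
  have hle : ∀ p : k[X], B.valuation (Polynomial.aeval x p) ≤ 1 := fun p =>
    (ValuationSubring.valuation_le_one_iff B _).mpr (memB p)
  have hconst : ∀ c : k, B.valuation (algebraMap k L c) ≤ 1 := fun c => by
    have := hle (C c)
    rwa [Polynomial.aeval_C] at this
  have hlt : ∀ p : k[X], π ∣ p → B.valuation (Polynomial.aeval x p) < 1 := by
    rintro p ⟨q, rfl⟩
    rw [map_mul, map_mul]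
    calc B.valuation (Polynomial.aeval x π) * B.valuation (Polynomial.aeval x q)
        ≤ B.valuation (Polynomial.aeval x π) * 1 := mul_le_mul_right (hle q) _
      _ = B.valuation (Polynomial.aeval x π) := mul_one _
      _ < 1 := hπB
  -- the curve over `L`
  set WL : WeierstrassCurve.Affine L := (W.map (algebraMap k L)).toAffine with hWL
  have hΔL : WL.Δ ≠ 0 := by
    rw [hWL]
    change (W.map (algebraMap k L)).Δ ≠ 0
    rw [WeierstrassCurve.map_Δ]
    exact (_root_.map_ne_zero _).mpr hΔ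
  have hint : S58A_Integral B.valuation WL := by
    refine ⟨hconst _, hconst _, hconst _, hconst _, hconst _⟩
  have hΔ1 : B.valuation WL.Δ = 1 := by
    have e : WL.Δ = algebraMap k L W.Δ := by
      rw [hWL]
      change (W.map (algebraMap k L)).Δ = _
      rw [WeierstrassCurve.map_Δ]
    rw [e]
    apply le_antisymm (hconst _)
    have h' := hconst (W.Δ)⁻¹
    rw [map_inv₀, map_inv₀] at h'
    have hne : B.valuation (algebraMap k L W.Δ) ≠ 0 :=
      (Valuation.ne_zero_iff _).mpr ((_root_.map_ne_zero _).mpr hΔ)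
    exact (inv_le_one₀ (zero_lt_iff.mpr hne)).mp h'
  have evΨ : ∀ m : ℤ, (WL.ΨSq m).eval x = Polynomial.aeval x (W.ΨSq m) := by
    intro m
    rw [hWL]
    change ((W.map (algebraMap k L)).ΨSq m).eval x = _
    rw [WeierstrassCurve.map_ΨSq, Polynomial.eval_map, Polynomial.aeval_def]
  have evΦ : ∀ m : ℤ, (WL.Φ m).eval x = Polynomial.aeval x (W.Φ m) := by
    intro m
    rw [hWL]
    change ((W.map (algebraMap k L)).Φ m).eval x = _
    rw [WeierstrassCurve.map_Φ, Polynomial.eval_map, Polynomial.aeval_def]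
  obtain ⟨y, hy⟩ := Fermat.Agent.S13_helper19_DPEXIST.exists_point_of_X WL hΔL x
  have hne : ∀ j : ℕ, 1 ≤ j → j ≤ n → (WL.ψ (j : ℤ)).evalEval x y ≠ 0 := by
    intro j hj1 _ e
    have e2 : (WL.ΨSq (j : ℤ)).eval x = 0 := by
      rw [← evalEval_ψ_sq WL hy.1, e]; simp
    rw [evΨ] at e2
    have e3 : W.ΨSq (j : ℤ) = 0 := hinj (by rw [e2, map_zero])
    exact W.ΨSq_ne_zero (by exact_mod_cast (Nat.cast_ne_zero (R := k)).mpr (by omega)) e3
  have hN := nsmul_ne_zero_of_psi_ne_zero hy hne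
  have key := S58CP_local B.valuation hy hN hint hΔ1 n hn le_rfl
  have hx1 : B.valuation x ≤ 1 := by
    have := hle X
    rwa [Polynomial.aeval_X] at this
  rw [max_eq_left hx1, one_pow, evΨ, evΦ] at key
  have : max (B.valuation (Polynomial.aeval x (W.ΨSq (n : ℤ))))
      (B.valuation (Polynomial.aeval x (W.Φ (n : ℤ)))) < 1 := max_lt (hlt _ h2) (hlt _ h1)
  rw [key] at this
  exact lt_irrefl _ this

/-- **[E0-COPRIME]** `Φₙ` and `ΨSqₙ` are coprime (characteristic `0`, `Δ ≠ 0`, `n ≥ 1`). -/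
theorem S58CP_main [CharZero k] (W : WeierstrassCurve k) (hΔ : W.Δ ≠ 0) (n : ℕ) (hn : 1 ≤ n) :
    IsCoprime (W.Φ (n : ℤ)) (W.ΨSq (n : ℤ)) := by
  apply isCoprime_of_irreducible_dvd
  · rintro ⟨-, h0⟩
    exact W.ΨSq_ne_zero (by exact_mod_cast (Nat.cast_ne_zero (R := k)).mpr (by omega)) h0
  · intro π hπ h1 h2
    have hx : Transcendental k (algebraMap (RatFunc k) (AlgebraicClosure (RatFunc k))
        (RatFunc.X : RatFunc k)) := by
      rw [transcendental_algebraMap_iff (FaithfulSMul.algebraMap_injective _ _)]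
      exact RatFunc.transcendental_X
    exact S58CP_no_common_factor W hΔ _ hx n hn π hπ.not_isUnit h1 h2

end glob

end Fermat.Agent.S58_helper8_COP
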