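import Mathlib
import Fermat.Agent.S13_helper27_DPG
import Fermat.Agent.S13_helper19_DPEXIST
import Fermat.Agent.S58_helper13_FIBRE
import Fermat.Agent.S58_helper8_COP
import Fermat.Agent.S58_helper2_TORS
import Fermat.Agent.S58_helper3_E0DIV

/-!
# S58 [E0-CARD] by the exact generic fibre (helper3): `#W[p] = p²`, all `p ≥ 2`

* `S58E0N_coset` : in a commutative group, every nonempty fibre of `n •` has the cardinality of
  the kernel;
* `S58E0N_torsionBy` : `Nat.card (torsionBy ℤ G n) = Nat.card {P // n • P = 0}`;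
* `S58E0N_card`  : `K` algebraically closed of characteristic `0`, `Δ ≠ 0`, `Φ_p`, `ΨSq_p`
  coprime ⟹ `Nat.card {P : W.Point // p • P = 0} = p ^ 2` (both bounds at once, `p = 2`
  included): for a generic `Q = (c, y₀)` the points above the `p²` roots of `Φ_p - c ΨSq_p` are
  exactly the `2 p²` points of `fibre(Q) ⊔ fibre(-Q)`;
* `S58E0N_main`  : `Nat.card (S58T_Tors W lam) = lam ^ 2` for `W / ℤ`, `Δ ≠ 0`;
* `S58E0N_E0`    : helper2's contract `S58T_E0 W lam`, NO hypothesis beyond `Δ ≠ 0`.
-/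

set_option autoImplicit false
set_option linter.unusedSectionVars false
set_option linter.unusedVariables false

open Polynomial WeierstrassCurve WeierstrassCurve.Affine

noncomputable section

namespace Fermat.Agent.S58_helper3_E0CNT

open Fermat.Agent.S13_helper27_DPG Fermat.Agent.S13_helper19_DPEXIST
open Fermat.Agent.S58_helper13_FIBRE

section Abstract

variable {G : Type*} [AddCommGroup G]

/-- every nonempty fibre of `n •` has the cardinality of the kernel. -/
theorem S58E0N_coset (n : ℕ) (Q P₀ : G) (hP₀ : n • P₀ = Q) :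
    Nat.card {P : G // n • P = Q} = Nat.card {P : G // n • P = 0} := by
  apply Nat.card_congr
  exact
    { toFun := fun P => ⟨P.1 - P₀, by rw [smul_sub, P.2, hP₀, sub_self]⟩
      invFun := fun P => ⟨P.1 + P₀, by rw [smul_add, P.2, hP₀, zero_add]⟩
      left_inv := fun P => by
        apply Subtype.ext
        simp
      right_inv := fun P => by
        apply Subtype.ext
        simp }

/-- the `n`-torsion submodule and the subtype `{P // n • P = 0}` have the same cardinality. -/
theorem S58E0N_torsionBy (n : ℕ) :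
    Nat.card (Submodule.torsionBy ℤ G (n : ℤ)) = Nat.card {P : G // n • P = 0} := by
  apply Nat.card_congr
  exact Equiv.subtypeEquivRight (fun P => by
    rw [Submodule.mem_torsionBy_iff, natCast_zsmul])

end Abstract

section Count

variable {K : Type*} [Field K] [IsAlgClosed K] [CharZero K] [DecidableEq K]

/-- **[E0-CARD]**, abstract form: `#W[p] = p²` from the coprimality of `Φ_p` and `ΨSq_p`. -/
theorem S58E0N_card (W : WeierstrassCurve.Affine K) (hΔ : W.Δ ≠ 0) (p : ℕ) (hp : 2 ≤ p)
    (hcop : IsCoprime (W.Φ (p : ℤ)) (W.ΨSq (p : ℤ))) :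
    Nat.card {P : W.Point // p • P = 0} = p ^ 2 := by
  classical
  have hchar : ∀ k : ℕ, 1 ≤ k → k ≤ p → (k : K) ≠ 0 :=
    fun k hk1 _ => Nat.cast_ne_zero.mpr (by omega)
  have hpK : ((p : ℤ) : K) ≠ 0 := by
    have := hchar p (by omega) le_rfl
    exact_mod_cast this
  have hΨ0 : W.ΨSq (p : ℤ) ≠ 0 := W.ΨSq_ne_zero hpK
  have hdegΦ : (W.Φ (p : ℤ)).natDegree = p ^ 2 := by
    rw [W.natDegree_Φ, Int.natAbs_natCast]
  have hdeg : (W.ΨSq (p : ℤ)).natDegree < (W.Φ (p : ℤ)).natDegree := by
    rw [W.natDegree_ΨSq hpK, W.natDegree_Φ]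
    have : 0 < (p : ℤ).natAbs ^ 2 := by
      apply pow_pos
      simp only [Int.natAbs_natCast]
      omega
    omega
  have hB0 : badPoly W p ≠ 0 := badPoly_ne_zero W p hchar
  obtain ⟨c, hcbad, s, hscard, hs, hexact⟩ :=
    S58E0_fibre_exact (W.Φ (p : ℤ)) (W.ΨSq (p : ℤ)) (badPoly W p) hcop hdeg hB0
      (badPoly W p).roots.toFinset
  have hcB : (badPoly W p).eval c ≠ 0 := by
    intro h0
    apply hcbad
    rw [Multiset.mem_toFinset, mem_roots hB0]
    exact h0
  obtain ⟨y₀, h₀⟩ := exists_point_of_X W hΔ c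
  -- genericity of the points above a non-root of `badPoly`
  have hgen : ∀ (x y : K) (h : W.Nonsingular x y), (badPoly W p).eval x ≠ 0 →
      ∀ k, 1 ≤ k → k ≤ p → k • Point.some x y h ≠ 0 := by
    intro x y h hB
    apply nsmul_ne_zero_of_psi_ne_zero h
    intro k hk1 hkp e
    apply ΨSq_eval_ne_zero_of_badPoly W hB k hk1 hkp
    rw [← evalEval_ψ_sq W h.1, e]
    simp
  have hgen2 : ∀ (x y : K) (h : W.Nonsingular x y), (badPoly W p).eval x ≠ 0 →
      Point.some x y h ≠ -Point.some x y h := by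
    intro x y h hB e
    apply hgen x y h hB 2 (by omega) hp
    rw [two_nsmul]
    nth_rewrite 1 [e]
    exact neg_add_cancel _
  set Q : W.Point := Point.some c y₀ h₀ with hQ
  have hQk : ∀ k, 1 ≤ k → k ≤ p → k • Q ≠ 0 := hgen c y₀ h₀ hcB
  have hQ0 : Q ≠ 0 := Point.some_ne_zero h₀
  have hQneg : Q ≠ -Q := hgen2 c y₀ h₀ hcB
  -- one chosen point above each `x`
  have hex : ∀ x : K, ∃ P : W.Point, P ≠ 0 ∧ xc W P = x := by
    intro x
    obtain ⟨y, h⟩ := exists_point_of_X W hΔ x
    exact ⟨Point.some x y h, Point.some_ne_zero h, rfl⟩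
  choose pt hpt0 hptx using hex
  set T : Finset W.Point := s.biUnion (fun x => {pt x, -pt x}) with hT
  have hmemT : ∀ P : W.Point, P ∈ T ↔ P ≠ 0 ∧ xc W P ∈ s := by
    intro P
    rw [hT, Finset.mem_biUnion]
    constructor
    · rintro ⟨x, hx, hP⟩
      rw [Finset.mem_insert, Finset.mem_singleton] at hP
      rcases hP with rfl | rfl
      · exact ⟨hpt0 x, by rw [hptx]; exact hx⟩
      · exact ⟨neg_ne_zero.mpr (hpt0 x), by rw [xc_neg, hptx]; exact hx⟩
    · rintro ⟨hP0, hPs⟩
      refine ⟨xc W P, hPs, ?_⟩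
      rw [Finset.mem_insert, Finset.mem_singleton]
      exact eq_or_eq_neg_of_xc_eq W hP0 (hpt0 _) (hptx _).symm
  -- the points of `T` are generic
  have hTgen : ∀ P : W.Point, P ∈ T → P ≠ -P ∧ (p • P = Q ∨ p • P = -Q) := by
    intro P hP
    obtain ⟨hP0, hPs⟩ := (hmemT P).mp hP
    obtain ⟨x, y, h, rfl⟩ := exists_some_of_ne_zero W hP0
    rw [xc_some] at hPs
    obtain ⟨hΨx, hBx, hrel⟩ := hs x hPs
    refine ⟨hgen2 x y h hBx, ?_⟩
    obtain ⟨x', y', h', hP', hx'⟩ :=
      exists_nsmul_eq_some h (by omega : 1 ≤ p) (ΨSq_eval_ne_zero_of_badPoly W hBx)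
    have hxx : x' = c := by
      have : x' * (W.ΨSq (p : ℤ)).eval x = c * (W.ΨSq (p : ℤ)).eval x := by rw [hx', hrel]
      exact mul_right_cancel₀ hΨx this
    subst hxx
    rw [hP']
    rcases WeierstrassCurve.Affine.Y_eq_of_X_eq h'.1 h₀.1 rfl with hv | hv
    · subst hv
      exact Or.inl rfl
    · right
      rw [hQ, Point.neg_some]
      congr 1
  -- the fibres of `Q` and `-Q` lie in `T`
  have hfib : ∀ P : W.Point, (p • P = Q ∨ p • P = -Q) → P ∈ T := by
    intro P hPQ
    have hP0 : P ≠ 0 := by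
      rintro rfl
      rw [smul_zero] at hPQ
      rcases hPQ with e | e
      · exact hQ0 e.symm
      · exact hQ0 (neg_eq_zero.mp e.symm)
    rw [hmemT]
    refine ⟨hP0, ?_⟩
    obtain ⟨x, y, h, rfl⟩ := exists_some_of_ne_zero W hP0
    rw [xc_some]
    have hN : ∀ k, 1 ≤ k → k ≤ p → k • Point.some x y h ≠ 0 := by
      intro k hk1 hkp e
      apply hQk k hk1 hkp
      rcases hPQ with e' | e'
      · rw [← e', smul_comm, e, smul_zero]
      · have : -Q = p • Point.some x y h := e'.symm
        have h2 : Q = -(p • Point.some x y h) := by rw [← this, neg_neg]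
        rw [h2, smul_neg, smul_comm, e, smul_zero, neg_zero]
    have hform := xc_nsmul_mul_ΨSq h hN p (by omega) le_rfl
    have hxc : xc W (p • Point.some x y h) = c := by
      rcases hPQ with e' | e'
      · rw [e', hQ, xc_some]
      · rw [e', xc_neg, hQ, xc_some]
    rw [hxc] at hform
    exact hexact x hform.symm
  -- the cardinality of `T`
  have hcardT : T.card = 2 * p ^ 2 := by
    rw [hT, Finset.card_biUnion]
    · rw [Finset.sum_congr rfl (fun x hx => Finset.card_pair ?_), Finset.sum_const, smul_eq_mul,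
        hscard, hdegΦ, mul_comm]
      have hx' : pt x ∈ T := (hmemT _).mpr ⟨hpt0 x, by rw [hptx]; exact hx⟩
      exact (hTgen _ hx').1
    · intro x hx x' hx' hne
      rw [Function.onFun, Finset.disjoint_left]
      intro a ha ha'
      rw [Finset.mem_insert, Finset.mem_singleton] at ha ha'
      apply hne
      have e1 : xc W a = x := by
        rcases ha with rfl | rfl
        · exact hptx x
        · rw [xc_neg]; exact hptx x
      have e2 : xc W a = x' := by
        rcases ha' with rfl | rfl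
        · exact hptx x'
        · rw [xc_neg]; exact hptx x'
      rw [← e1, e2]
  -- the two fibres
  set f1 : Finset W.Point := T.filter (fun P => p • P = Q) with hf1
  set f2 : Finset W.Point := T.filter (fun P => p • P = -Q) with hf2
  have hunion : T = f1 ∪ f2 := by
    ext P
    rw [Finset.mem_union, hf1, hf2, Finset.mem_filter, Finset.mem_filter]
    constructor
    · intro hP
      rcases (hTgen P hP).2 with e | e
      · exact Or.inl ⟨hP, e⟩
      · exact Or.inr ⟨hP, e⟩
    · rintro (h | h)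
      · exact h.1
      · exact h.1
  have hdisj : Disjoint f1 f2 := by
    rw [Finset.disjoint_left]
    intro P h1 h2
    rw [hf1, Finset.mem_filter] at h1
    rw [hf2, Finset.mem_filter] at h2
    exact hQneg (h1.2.symm.trans h2.2)
  have hcard12 : f1.card = f2.card := by
    apply Finset.card_bij (fun P _ => -P)
    · intro P hP
      rw [hf1, Finset.mem_filter] at hP
      rw [hf2, Finset.mem_filter]
      exact ⟨hfib _ (Or.inr (by rw [smul_neg, hP.2])), by rw [smul_neg, hP.2]⟩
    · intro P _ P' _ e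
      exact neg_injective e
    · intro P hP
      rw [hf2, Finset.mem_filter] at hP
      refine ⟨-P, ?_, neg_neg P⟩
      rw [hf1, Finset.mem_filter]
      exact ⟨hfib _ (Or.inl (by rw [smul_neg, hP.2, neg_neg])), by rw [smul_neg, hP.2, neg_neg]⟩
  have hcardf1 : f1.card = p ^ 2 := by
    have h1 : T.card = f1.card + f2.card := by
      conv_lhs => rw [hunion]
      exact Finset.card_union_of_disjoint hdisj
    omega
  -- the fibre of `Q` as a subtype
  have hfibQ : Nat.card {P : W.Point // p • P = Q} = p ^ 2 := by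
    rw [← hcardf1, ← Nat.card_eq_finsetCard f1]
    apply Nat.card_congr
    exact Equiv.subtypeEquivRight (fun P => by
      rw [hf1, Finset.mem_filter]
      exact ⟨fun h => ⟨hfib P (Or.inl h), h⟩, fun h => h.2⟩)
  -- the coset
  have hne : f1.Nonempty := by
    rw [← Finset.card_pos, hcardf1]
    positivity
  obtain ⟨P₀, hP₀⟩ := hne
  rw [hf1, Finset.mem_filter] at hP₀
  rw [← S58E0N_coset p Q P₀ hP₀.2, hfibQ]

end Count

section Main

open Fermat.Agent.S58_helper2_TORS Fermat.Agent.S58_helper3_E0DIV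

/-- the discriminant of `W / ℤ` over `Q-bar`. -/
theorem S58E0N_Δ_ne_zero (W : WeierstrassCurve ℤ) (hΔ : W.Δ ≠ 0) :
    (((W.map (Int.castRingHom ℚ)).toAffine)⁄(AlgebraicClosure ℚ)).Δ ≠ 0 := by
  have h1 : (((W.map (Int.castRingHom ℚ)).toAffine)⁄(AlgebraicClosure ℚ)).Δ
      = algebraMap ℚ (AlgebraicClosure ℚ) ((Int.castRingHom ℚ) W.Δ) := by
    change ((W.map (Int.castRingHom ℚ)).map (algebraMap ℚ (AlgebraicClosure ℚ))).Δ = _
    rw [WeierstrassCurve.map_Δ, WeierstrassCurve.map_Δ]
  rw [h1]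
  intro h0
  have h2 : (Int.castRingHom ℚ) W.Δ = 0 :=
    (map_eq_zero_iff _ (algebraMap ℚ (AlgebraicClosure ℚ)).injective).mp h0
  exact hΔ (by simpa using h2)

/-- **[E0-CARD] for `W / ℤ`**: `#W[n](Q-bar) = n²` for every `n ≥ 2`. -/
theorem S58E0N_main (W : WeierstrassCurve ℤ) (hΔ : W.Δ ≠ 0) (n : ℕ) (hn : 2 ≤ n) :
    Nat.card (S58T_Tors W n) = n ^ 2 := by
  have hΔ' := S58E0N_Δ_ne_zero W hΔ
  rw [S58T_Tors, S58E0N_torsionBy]
  exact S58E0N_card _ hΔ' n hn
    (Fermat.Agent.S58_helper8_COP.S58CP_main _ hΔ' n (by omega))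

/-- **(E0), closed**: `W[lam ^ k](Q-bar)` is free of rank two over `ZMod (lam ^ k)`. -/
theorem S58E0N_E0 (W : WeierstrassCurve ℤ) (hΔ : W.Δ ≠ 0) (lam : ℕ) [Fact lam.Prime] :
    S58T_E0 W lam :=
  S58E0D_E0 W hΔ lam (S58E0N_main W hΔ lam (Fact.out : lam.Prime).two_le)

end Main

end Fermat.Agent.S58_helper3_E0CNT
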