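import Mathlib
import Fermat.Prelude.Def_ModularForm_HeckeOperatorForms
import Fermat.Prelude.Def_FLTPrelim_Modularity
import Fermat.Prelude.Thm_ModularFormClass_qCoeff_heckeT
import Fermat.Prelude.Thm_ModularFormClass_qCoeff_heckeU
import Fermat.Prelude.Thm_CongruenceSubgroup_one_mem_strictPeriods_Gamma0

/-!
# S58 (helper3): the stabilisation operator on cusp forms and `(OLD)`

* `S58ST_incl`   : the level inclusion `CuspForm Γ₀(M) k → CuspForm Γ₀(N) k`, `M ∣ N`;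
* `S58ST_B`      : `B_q := incl ∘ T_q - U_q ∘ incl : CuspForm Γ₀(M) k → CuspForm Γ₀(M q) k`
  (`q ∤ M`), the operator `h(z) ↦ q^(k-1) h(q z)` (`= h ∣[k] heckeDiagMatrix q` as a function);
* `S58ST_qCoeff_B` : `a_n(B_q h) = q^(k-1) a_(n/q)(h)` if `q ∣ n`, `0` otherwise;
* `S58ST_coeff_rel` : the four coefficient relations of the stabilised sequence
  `b_n = a_n - β a_(n/q)`, `β² - a_q β + q = 0`;
* `S58OLD_step`  : a normalized eigenform of level `M` has a `q`-stabilisation of level `M q`;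
* `S58OLD_main`  : **a normalized eigenform of level `M ∣ R`, `R` squarefree, has a
  stabilisation of level `R` with the same `a_ℓ` at all primes `ℓ ∤ R`.**
-/

set_option autoImplicit false
set_option linter.unusedSectionVars false
set_option linter.unusedVariables false
set_option linter.style.haveILetI false

open CongruenceSubgroup ModularForm ModularFormClass UpperHalfPlane
open scoped MatrixGroups ModularForm

noncomputable section

namespace Fermat.Agent.S58_helper3_STAB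

/-- `Γ₀(N) ≤ Γ₀(M)` for `M ∣ N` -/
theorem S58ST_Gamma0_le {M N : ℕ} (h : M ∣ N) : Gamma0 N ≤ Gamma0 M := by
  intro γ hγ
  rw [Gamma0_mem] at hγ ⊢
  obtain ⟨c, rfl⟩ := h
  have := congrArg (ZMod.castHom (dvd_mul_right M c) (ZMod M)) hγ
  simpa using this

/-- the same in `GL₂(ℝ)` -/
theorem S58ST_Gamma0_le_GL {M N : ℕ} (h : M ∣ N) :
    (Gamma0 N : Subgroup (GL (Fin 2) ℝ)) ≤ (Gamma0 M : Subgroup (GL (Fin 2) ℝ)) :=
  Subgroup.map_mono (S58ST_Gamma0_le h)

/-- **the level inclusion** -/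
def S58ST_incl {M N : ℕ} (h : M ∣ N) (k : ℤ) :
    CuspForm (Gamma0 M) k →ₗ[ℂ] CuspForm (Gamma0 N) k where
  toFun f :=
    { toFun := ⇑f
      slash_action_eq' := fun γ hγ =>
        SlashInvariantFormClass.slash_action_eq f γ (S58ST_Gamma0_le_GL h hγ)
      holo' := CuspFormClass.holo f
      zero_at_cusps' := fun hc => f.zero_at_cusps' (hc.mono (S58ST_Gamma0_le_GL h)) }
  map_add' f g := DFunLike.coe_injective rfl
  map_smul' c f := DFunLike.coe_injective rfl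

@[simp] theorem S58ST_coe_incl {M N : ℕ} (h : M ∣ N) (k : ℤ) (f : CuspForm (Gamma0 M) k) :
    ⇑(S58ST_incl h k f) = ⇑f := rfl

/-- **the operator `B_q`**: `h(z) ↦ q^(k-1) h(q z)`, from level `M` to level `M q`. -/
def S58ST_B (k : ℤ) {M q : ℕ} [NeZero (M * q)] (hq : q.Prime) (hqM : ¬ q ∣ M) :
    CuspForm (Gamma0 M) k →ₗ[ℂ] CuspForm (Gamma0 (M * q)) k :=
  (S58ST_incl (dvd_mul_right M q) k).comp (CuspForm.heckeTLin k hq hqM) -
    (CuspForm.heckeULin k (dvd_mul_left q M)).comp (S58ST_incl (dvd_mul_right M q) k)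

theorem S58ST_coe_B (k : ℤ) {M q : ℕ} [NeZero (M * q)] (hq : q.Prime) (hqM : ¬ q ∣ M)
    (f : CuspForm (Gamma0 M) k) :
    ⇑(S58ST_B k hq hqM f) = (⇑f) ∣[k] heckeDiagMatrix q := by
  show heckeT k q ⇑f - heckeU k q ⇑f = _
  rw [heckeT_eq_heckeU_add]
  abel

/-- **the `q`-expansion of `B_q h`** -/
theorem S58ST_qCoeff_B (k : ℤ) {M q : ℕ} [NeZero (M * q)] (hq : q.Prime) (hqM : ¬ q ∣ M)
    (f : CuspForm (Gamma0 M) k) (n : ℕ) :
    qCoeff (⇑(S58ST_B k hq hqM f)) n =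
      if q ∣ n then (q : ℂ) ^ (k - 1) * qCoeff (⇑f) (n / q) else 0 := by
  have h1 : ⇑(S58ST_B k hq hqM f) =
      ⇑((S58ST_incl (dvd_mul_right M q) k) (CuspForm.heckeTLin k hq hqM f)) -
        ⇑((CuspForm.heckeULin k (dvd_mul_left q M)) (S58ST_incl (dvd_mul_right M q) k f)) := rfl
  have hΓ := one_mem_strictPeriods_Gamma0 (M * q)
  have hΓM := one_mem_strictPeriods_Gamma0 M
  unfold qCoeff
  rw [h1, ModularForm.qExpansion_sub one_pos hΓ, map_sub]
  have h2 : (PowerSeries.coeff n) (qExpansion 1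
      ⇑((S58ST_incl (dvd_mul_right M q) k) (CuspForm.heckeTLin k hq hqM f))) =
      coeffHeckeT k q (qCoeff ⇑f) n := qCoeff_heckeT f hΓM hq.ne_zero n
  have h3 : (PowerSeries.coeff n) (qExpansion 1
      ⇑((CuspForm.heckeULin k (dvd_mul_left q M)) (S58ST_incl (dvd_mul_right M q) k f))) =
      coeffHeckeU q (qCoeff ⇑f) n := qCoeff_heckeU f hΓM hq.ne_zero n
  rw [h2, h3, coeffHeckeT_eq_coeffHeckeU_add]
  unfold qCoeff
  ring

/-- the `q`-expansion of `incl h - c • B_q h` in weight `2` -/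
theorem S58ST_qCoeff_stab {M q : ℕ} [NeZero (M * q)] (hq : q.Prime) (hqM : ¬ q ∣ M)
    (f : CuspForm (Gamma0 M) 2) (c : ℂ) (n : ℕ) :
    qCoeff (⇑(S58ST_incl (dvd_mul_right M q) 2 f - c • S58ST_B 2 hq hqM f)) n =
      qCoeff (⇑f) n - c * (if q ∣ n then (q : ℂ) * qCoeff (⇑f) (n / q) else 0) := by
  have hΓ := one_mem_strictPeriods_Gamma0 (M * q)
  have hB := S58ST_qCoeff_B 2 hq hqM f n
  have e1 : ⇑(S58ST_incl (dvd_mul_right M q) 2 f - c • S58ST_B 2 hq hqM f) =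
      ⇑(S58ST_incl (dvd_mul_right M q) 2 f) - ⇑(c • S58ST_B 2 hq hqM f) := rfl
  have e2 : ⇑(c • S58ST_B 2 hq hqM f) = c • ⇑(S58ST_B 2 hq hqM f) := rfl
  unfold qCoeff at hB ⊢
  rw [e1, ModularForm.qExpansion_sub one_pos hΓ, map_sub, e2,
    ModularForm.qExpansion_smul one_pos hΓ c (S58ST_B 2 hq hqM f), PowerSeries.coeff_smul, hB]
  simp only [S58ST_coe_incl, smul_eq_mul]
  norm_num

/-- **the coefficient relations of the stabilised sequence** `b_n = a_n - β a_(n/q)`. -/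
theorem S58ST_coeff_rel {M q : ℕ} (hq : q.Prime) (hqM : ¬ q ∣ M) (a : ℕ → ℂ) (β : ℂ)
    (hβ : β ^ 2 - a q * β + q = 0) (h1 : a 1 = 1)
    (hmul : ∀ m n : ℕ, m.Coprime n → a (m * n) = a m * a n)
    (hgood : ∀ p r : ℕ, p.Prime → ¬ p ∣ M →
      a (p ^ (r + 2)) = a p * a (p ^ (r + 1)) - p * a (p ^ r))
    (hbad : ∀ p r : ℕ, p.Prime → p ∣ M → a (p ^ (r + 2)) = a p * a (p ^ (r + 1)))
    (b : ℕ → ℂ) (hb : ∀ n, b n = a n - β * (if q ∣ n then a (n / q) else 0)) :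
    b 1 = 1 ∧ (∀ m n : ℕ, m.Coprime n → b (m * n) = b m * b n) ∧
      (∀ p r : ℕ, p.Prime → ¬ p ∣ M * q →
        b (p ^ (r + 2)) = b p * b (p ^ (r + 1)) - p * b (p ^ r)) ∧
      (∀ p r : ℕ, p.Prime → p ∣ M * q → b (p ^ (r + 2)) = b p * b (p ^ (r + 1))) := by
  have hb0 : ∀ n, ¬ q ∣ n → b n = a n := fun n hn => by rw [hb, if_neg hn, mul_zero, sub_zero]
  have hb1 : ∀ n, b (q * n) = a (q * n) - β * a n := fun n => by
    rw [hb, if_pos (dvd_mul_right q n), Nat.mul_div_cancel_left n hq.pos]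
  have hq1 : ¬ q ∣ 1 := hq.one_lt.ne' ∘ Nat.dvd_one.1
  have hpow : ∀ p : ℕ, p.Prime → p ≠ q → ∀ j, ¬ q ∣ p ^ j := fun p hp hpq j h =>
    hpq ((Nat.prime_dvd_prime_iff_eq hq hp).1 (hq.dvd_of_dvd_pow h)).symm
  refine ⟨by rw [hb0 1 hq1, h1], ?_, ?_, ?_⟩
  · intro m n hmn
    by_cases hm : q ∣ m
    · obtain ⟨m', rfl⟩ := hm
      have hn : ¬ q ∣ n := fun hn =>
        hq1 (hmn ▸ Nat.dvd_gcd (dvd_mul_right q m') hn)
      have hm'n : m'.Coprime n := Nat.Coprime.coprime_dvd_left (dvd_mul_left m' q) hmn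
      rw [mul_assoc, hb1, hb1, hb0 n hn, ← mul_assoc, hmul _ _ hmn, hmul _ _ hm'n]
      ring
    · by_cases hn : q ∣ n
      · obtain ⟨n', rfl⟩ := hn
        have hmn' : m.Coprime n' := Nat.Coprime.coprime_dvd_right (dvd_mul_left n' q) hmn
        rw [show m * (q * n') = q * (m * n') by ring, hb1, hb1, hb0 m hm,
          show q * (m * n') = m * (q * n') by ring, hmul _ _ hmn, hmul _ _ hmn']
        ring
      · have hmn' : ¬ q ∣ m * n := fun h => (hq.dvd_mul.1 h).elim hm hn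
        rw [hb0 _ hmn', hb0 _ hm, hb0 _ hn, hmul _ _ hmn]
  · intro p r hp hpMq
    have hpM : ¬ p ∣ M := fun h => hpMq (h.mul_right q)
    have hpq : p ≠ q := fun h => hpMq (h ▸ dvd_mul_left p M)
    rw [hb0 _ (hpow p hp hpq _), hb0 _ (hpow p hp hpq _), hb0 _ (hpow p hp hpq _),
      hb0 p (fun h => hpow p hp hpq 1 (by rwa [pow_one]))]
    exact hgood p r hp hpM
  · intro p r hp hpMq
    rcases hp.dvd_mul.1 hpMq with hpM | hpq
    · have hpq : p ≠ q := fun h => hqM (h ▸ hpM)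
      rw [hb0 _ (hpow p hp hpq _), hb0 _ (hpow p hp hpq _),
        hb0 p (fun h => hpow p hp hpq 1 (by rwa [pow_one]))]
      exact hbad p r hp hpM
    · have hpq' : p = q := (Nat.prime_dvd_prime_iff_eq hp hq).1 hpq
      subst hpq'
      have e2 : p ^ (r + 2) = p * p ^ (r + 1) := by ring
      have e1 : p ^ (r + 1) = p * p ^ r := by ring
      have e0 : b p = a p - β := by
        have := hb1 1
        rwa [mul_one, h1, mul_one] at this
      have hg := hgood p r hp hqM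
      have hA : b (p ^ (r + 2)) = a (p ^ (r + 2)) - β * a (p ^ (r + 1)) := by
        rw [e2, hb1, ← e2]
      have hB : b (p ^ (r + 1)) = a (p ^ (r + 1)) - β * a (p ^ r) := by
        rw [e1, hb1, ← e1]
      rw [hA, hB, e0, hg]
      linear_combination (-(a (p ^ r))) * hβ

/-- **the `q`-stabilisation of a normalized eigenform** (`q ∤ M`): a normalized eigenform of
level `M q` with coefficients `a_n - β a_(n/q)`, in particular the same `a_ℓ` at every prime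
`ℓ ≠ q`. -/
theorem S58OLD_step {M q : ℕ} (hq : q.Prime) (hqM : ¬ q ∣ M) (hM : M ≠ 0)
    (h : CuspForm (Gamma0 M) 2) (hh : h.IsNormalizedEigenform) :
    ∃ g : CuspForm (Gamma0 (M * q)) 2, g.IsNormalizedEigenform ∧
      ∀ ℓ : ℕ, ℓ.Prime → ℓ ≠ q → qCoeff (⇑g) ℓ = qCoeff (⇑h) ℓ := by
  haveI : NeZero (M * q) := ⟨Nat.mul_ne_zero hM hq.ne_zero⟩
  have hq0 : (q : ℂ) ≠ 0 := by exact_mod_cast hq.ne_zero
  obtain ⟨β, hβ⟩ : ∃ β : ℂ, β ^ 2 - qCoeff (⇑h) q * β + q = 0 := by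
    obtain ⟨β, hβ⟩ := IsAlgClosed.exists_root
      (Polynomial.X ^ 2 - Polynomial.C (qCoeff (⇑h) q) * Polynomial.X +
        Polynomial.C (q : ℂ) : Polynomial ℂ) (by
        have hd : (Polynomial.X ^ 2 - Polynomial.C (qCoeff (⇑h) q) * Polynomial.X +
            Polynomial.C (q : ℂ) : Polynomial ℂ).degree = 2 := by
          compute_degree!
        rw [hd]
        norm_num)
    refine ⟨β, ?_⟩
    simpa using hβ
  set g : CuspForm (Gamma0 (M * q)) 2 :=
    S58ST_incl (dvd_mul_right M q) 2 h - (β / q) • S58ST_B 2 hq hqM h with hg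
  have hcoef : ∀ n, qCoeff (⇑g) n =
      qCoeff (⇑h) n - β * (if q ∣ n then qCoeff (⇑h) (n / q) else 0) := by
    intro n
    rw [hg, S58ST_qCoeff_stab hq hqM h (β / q) n]
    split_ifs
    · field_simp
    · simp
  obtain ⟨r1, r2, r3, r4⟩ := S58ST_coeff_rel hq hqM (qCoeff ⇑h) β hβ hh.qCoeff_one
    hh.qCoeff_mul_of_coprime hh.qCoeff_prime_pow_of_not_dvd hh.qCoeff_prime_pow_of_dvd
    (qCoeff ⇑g) hcoef
  refine ⟨g, ⟨r1, r2, r3, r4⟩, fun ℓ hℓ hℓq => ?_⟩
  rw [hcoef, if_neg (fun hd => hℓq ((Nat.prime_dvd_prime_iff_eq hq hℓ).1 hd).symm), mul_zero,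
    sub_zero]

/-- auxiliary form of `(OLD)` for the induction: `R = M * n`. -/
theorem S58OLD_aux : ∀ (n M R : ℕ), R = M * n → Squarefree R →
    ∀ (h : CuspForm (Gamma0 M) 2), h.IsNormalizedEigenform →
    ∃ g : CuspForm (Gamma0 R) 2, g.IsNormalizedEigenform ∧
      ∀ ℓ : ℕ, ℓ.Prime → ¬ ℓ ∣ R → qCoeff (⇑g) ℓ = qCoeff (⇑h) ℓ := by
  intro n
  induction n using Nat.strong_induction_on with
  | _ n ih =>
    intro M R hR hsq h hh
    have hR0 : R ≠ 0 := hsq.ne_zero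
    have hM0 : M ≠ 0 := fun h0 => hR0 (by rw [hR, h0, zero_mul])
    have hn0 : n ≠ 0 := fun h0 => hR0 (by rw [hR, h0, mul_zero])
    by_cases hn1 : n = 1
    · subst hn1
      rw [mul_one] at hR
      subst hR
      exact ⟨h, hh, fun _ _ _ => rfl⟩
    · have hq := Nat.minFac_prime hn1
      obtain ⟨n', hn'⟩ := Nat.minFac_dvd n
      have hqM : ¬ n.minFac ∣ M := by
        intro hd
        obtain ⟨M', hM'⟩ := hd
        have h2 : n.minFac * n.minFac ∣ R := ⟨M' * n', by rw [hR, hM']; nth_rw 2 [hn']; ring⟩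
        exact hq.not_isUnit (hsq _ h2)
      obtain ⟨g1, hg1, hg1c⟩ := S58OLD_step hq hqM hM0 h hh
      have hn'lt : n' < n := by
        have hn'0 : n' ≠ 0 := fun h0 => hn0 (by rw [hn', h0, mul_zero])
        calc n' = 1 * n' := (one_mul _).symm
          _ < n.minFac * n' := Nat.mul_lt_mul_of_pos_right hq.one_lt (Nat.pos_of_ne_zero hn'0)
          _ = n := hn'.symm
      have hR' : R = M * n.minFac * n' := by rw [hR, mul_assoc, ← hn']
      obtain ⟨g, hg, hgc⟩ := ih n' hn'lt (M * n.minFac) R hR' hsq g1 hg1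
      refine ⟨g, hg, fun ℓ hℓ hℓR => ?_⟩
      rw [hgc ℓ hℓ hℓR]
      refine hg1c ℓ hℓ (fun he => hℓR ?_)
      rw [he, hR']
      exact (dvd_mul_left _ M).mul_right n'

/-- **(OLD)**: a normalized eigenform of level `M ∣ R`, `R` squarefree, has a stabilisation of
level `R` with the same `a_ℓ` at all primes `ℓ ∤ R`. -/
theorem S58OLD_main {M R : ℕ} (hMR : M ∣ R) (hR : Squarefree R)
    (h : CuspForm (Gamma0 M) 2) (hh : h.IsNormalizedEigenform) :
    ∃ g : CuspForm (Gamma0 R) 2, g.IsNormalizedEigenform ∧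
      ∀ ℓ : ℕ, ℓ.Prime → ¬ ℓ ∣ R → qCoeff (⇑g) ℓ = qCoeff (⇑h) ℓ := by
  obtain ⟨n, hn⟩ := hMR
  exact S58OLD_aux n M R hn hR h hh

end Fermat.Agent.S58_helper3_STAB
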