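import Mathlib
import Fermat.Agent.S05_helper6_Kernel
import Fermat.Agent.S13_helper9_RD

/-!
# S58, brick RED (helper5): the reduction homomorphism at a general valuation subring

For a valuation subring `A` of a field `L`, a ring homomorphism `res : A →+* k` onto (into) a
field whose kernel is the maximal ideal, and a Weierstrass curve with coefficients in `A` whose
reduction has nonzero discriminant, the reduction map on points
`W(L) → Wk(k)` is a group homomorphism with kernel `E₁` (the points `0` and `(x, y)` with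
`x ∉ A`).  General Weierstrass model, every residue characteristic.

* `S58RD_slope_eqs`, `S58RD_slope_unique` : the two equations characterising the slope;
* `S58RD_red` : the reduction homomorphism (for a curve over `A`);
* `S58RD_red_eq_zero_iff`, `S58RD_red_some` : kernel and coordinates;
* `S58RD_red_torsion` : injectivity on torsion of order a unit of `A`;
* `S58RD_main` : the same for curves given by their coefficients.
-/

set_option autoImplicit false
set_option linter.unusedSectionVars false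
set_option linter.unusedVariables false

namespace Fermat.Agent.S58_helper5_RED

open WeierstrassCurve WeierstrassCurve.Affine
open Fermat.Agent.S13_helper9_RD

section Slope

variable {F : Type*} [Field F] [DecidableEq F] (W : WeierstrassCurve.Affine F)

/-- The two equations satisfied by the slope of the chord / tangent. -/
lemma S58RD_slope_eqs {x₁ y₁ x₂ y₂ : F} (h₁ : W.Equation x₁ y₁) (h₂ : W.Equation x₂ y₂)
    (hxy : ¬(x₁ = x₂ ∧ y₁ = W.negY x₂ y₂)) :
    W.slope x₁ x₂ y₁ y₂ * (x₁ - x₂) = y₁ - y₂ ∧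
    W.slope x₁ x₂ y₁ y₂ * (y₁ - W.negY x₂ y₂) =
      x₁ ^ 2 + x₁ * x₂ + x₂ ^ 2 + W.a₂ * (x₁ + x₂) + W.a₄ - W.a₁ * y₁ := by
  by_cases hx : x₁ = x₂
  · have hy : y₁ ≠ W.negY x₂ y₂ := fun h => hxy ⟨hx, h⟩
    have hyy : y₁ = y₂ := Y_eq_of_Y_ne h₁ h₂ hx hy
    subst hx hyy
    rw [slope_of_Y_ne rfl hy]
    have hd : y₁ - W.negY x₁ y₁ ≠ 0 := sub_ne_zero.mpr hy
    constructor
    · simp
    · field_simp
      ring
  · rw [slope_of_X_ne hx]
    have hd : x₁ - x₂ ≠ 0 := sub_ne_zero.mpr hx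
    rw [equation_iff] at h₁ h₂
    constructor
    · field_simp
    · field_simp
      simp only [negY]
      linear_combination h₁ - h₂

/-- The two equations determine the slope. -/
lemma S58RD_slope_unique {x₁ y₁ x₂ y₂ t : F} (h₁ : W.Equation x₁ y₁) (h₂ : W.Equation x₂ y₂)
    (hxy : ¬(x₁ = x₂ ∧ y₁ = W.negY x₂ y₂))
    (e₁ : t * (x₁ - x₂) = y₁ - y₂)
    (e₂ : t * (y₁ - W.negY x₂ y₂) =
      x₁ ^ 2 + x₁ * x₂ + x₂ ^ 2 + W.a₂ * (x₁ + x₂) + W.a₄ - W.a₁ * y₁) :
    t = W.slope x₁ x₂ y₁ y₂ := by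
  obtain ⟨f₁, f₂⟩ := S58RD_slope_eqs W h₁ h₂ hxy
  by_cases hx : x₁ = x₂
  · have hy : y₁ ≠ W.negY x₂ y₂ := fun h => hxy ⟨hx, h⟩
    have hd : y₁ - W.negY x₂ y₂ ≠ 0 := sub_ne_zero.mpr hy
    exact mul_right_cancel₀ hd (e₂.trans f₂.symm)
  · have hd : x₁ - x₂ ≠ 0 := sub_ne_zero.mpr hx
    exact mul_right_cancel₀ hd (e₁.trans f₁.symm)

end Slope

section Red

variable {L : Type*} [Field L] [DecidableEq L] (A : ValuationSubring L)
  {k : Type*} [Field k] [DecidableEq k] (res : A →+* k)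
  (hres : ∀ a : A, res a = 0 ↔ A.valuation (a : L) < 1)
  (W₀ : WeierstrassCurve A)

include hres in
lemma S58RD_isUnit_of_res_ne {a : A} (h : res a ≠ 0) : IsUnit a := by
  rw [A.valuation_eq_one_iff]
  rcases A.valuation_lt_one_or_eq_one a with h1 | h1
  · exact absurd ((hres a).2 h1) h
  · exact h1

include hres in
lemma S58RD_val_eq_one_of_res_ne {a : A} (h : res a ≠ 0) : A.valuation (a : L) = 1 :=
  (A.valuation_eq_one_iff a).1 (S58RD_isUnit_of_res_ne A res hres h)

include hres in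
lemma S58RD_val_lt_of_res_eq {a b : A} (h : res a = res b) :
    A.valuation ((a : L) - (b : L)) < 1 := by
  have : res (a - b) = 0 := by rw [map_sub, h, sub_self]
  have := (hres (a - b)).1 this
  simpa using this

lemma S58RD_subtype_injective : Function.Injective (A.subtype : A →+* L) :=
  Subtype.coe_injective

include hres in
/-- Integrality of the slope, and its reduction. -/
lemma S58RD_slope_int {x₁ y₁ x₂ y₂ : A}
    (e₁ : W₀.toAffine.Equation x₁ y₁) (e₂ : W₀.toAffine.Equation x₂ y₂)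
    (hk : ¬(res x₁ = res x₂ ∧ res y₁ = (W₀.map res).toAffine.negY (res x₂) (res y₂))) :
    ∃ s : A, (s : L) = (W₀.map A.subtype).toAffine.slope (x₁ : L) (x₂ : L) (y₁ : L) (y₂ : L) ∧
      res s = (W₀.map res).toAffine.slope (res x₁) (res x₂) (res y₁) (res y₂) := by
  -- the slope in `A`
  have key : ∃ s : A, s * (x₁ - x₂) = y₁ - y₂ ∧
      s * (y₁ - W₀.toAffine.negY x₂ y₂) =
        x₁ ^ 2 + x₁ * x₂ + x₂ ^ 2 + W₀.a₂ * (x₁ + x₂) + W₀.a₄ - W₀.a₁ * y₁ := by
    have f₁ := (equation_iff _ _).1 e₁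
    have f₂ := (equation_iff _ _).1 e₂
    have hid : (y₁ - y₂) * (y₁ - W₀.toAffine.negY x₂ y₂) =
        (x₁ - x₂) * (x₁ ^ 2 + x₁ * x₂ + x₂ ^ 2 + W₀.a₂ * (x₁ + x₂) + W₀.a₄ - W₀.a₁ * y₁) := by
      simp only [negY]
      linear_combination f₁ - f₂
    by_cases hx : res x₁ = res x₂
    · have hy : res y₁ ≠ (W₀.map res).toAffine.negY (res x₂) (res y₂) := fun h => hk ⟨hx, h⟩
      have hD : res (y₁ - W₀.toAffine.negY x₂ y₂) ≠ 0 := by
        rw [map_sub, ← map_negY res x₂ y₂]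
        exact sub_ne_zero.mpr hy
      obtain ⟨b, hb⟩ := isUnit_iff_exists_inv.1 (S58RD_isUnit_of_res_ne A res hres hD)
      refine ⟨(x₁ ^ 2 + x₁ * x₂ + x₂ ^ 2 + W₀.a₂ * (x₁ + x₂) + W₀.a₄ - W₀.a₁ * y₁) * b, ?_, ?_⟩
      · linear_combination (-b) * hid + (y₁ - y₂) * hb
      · linear_combination
          (x₁ ^ 2 + x₁ * x₂ + x₂ ^ 2 + W₀.a₂ * (x₁ + x₂) + W₀.a₄ - W₀.a₁ * y₁) * hb
    · have hX : res (x₁ - x₂) ≠ 0 := by
        rw [map_sub]; exact sub_ne_zero.mpr hx
      obtain ⟨b, hb⟩ := isUnit_iff_exists_inv.1 (S58RD_isUnit_of_res_ne A res hres hX)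
      refine ⟨(y₁ - y₂) * b, ?_, ?_⟩
      · linear_combination (y₁ - y₂) * hb
      · linear_combination b * hid +
          (x₁ ^ 2 + x₁ * x₂ + x₂ ^ 2 + W₀.a₂ * (x₁ + x₂) + W₀.a₄ - W₀.a₁ * y₁) * hb
  obtain ⟨s, hs₁, hs₂⟩ := key
  refine ⟨s, ?_, ?_⟩
  · -- over `L`
    have E₁ : (W₀.map A.subtype).toAffine.Equation (x₁ : L) (y₁ : L) :=
      Equation.map (A.subtype) e₁
    have E₂ : (W₀.map A.subtype).toAffine.Equation (x₂ : L) (y₂ : L) :=
      Equation.map (A.subtype) e₂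
    refine S58RD_slope_unique _ E₁ E₂ ?_ ?_ ?_
    · rintro ⟨hx, hy⟩
      apply hk
      have hx' : x₁ = x₂ := Subtype.coe_injective hx
      have hy' : y₁ = W₀.toAffine.negY x₂ y₂ := by
        apply Subtype.coe_injective
        show (y₁ : L) = ((W₀.toAffine.negY x₂ y₂ : A) : L)
        rw [hy]
        exact map_negY A.subtype x₂ y₂
      refine ⟨by rw [hx'], ?_⟩
      rw [map_negY res x₂ y₂, ← hy']
    · have := congrArg (A.subtype) hs₁
      simpa using this
    · have := congrArg (A.subtype) hs₂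
      rw [map_mul, map_sub, ← map_negY A.subtype x₂ y₂] at this
      simpa using this
  · -- over `k`
    have E₁ : (W₀.map res).toAffine.Equation (res x₁) (res y₁) := Equation.map res e₁
    have E₂ : (W₀.map res).toAffine.Equation (res x₂) (res y₂) := Equation.map res e₂
    refine S58RD_slope_unique _ E₁ E₂ hk ?_ ?_
    · have := congrArg res hs₁
      simpa using this
    · have := congrArg res hs₂
      rw [map_mul, map_sub, ← map_negY res x₂ y₂] at this
      simpa using this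

/-- Integrality of `y` for an integral `x` (any valuation, integral coefficients). -/
lemma S58RD_val_y_le {Γ₀ : Type*} [LinearOrderedCommGroupWithZero Γ₀] (v : Valuation L Γ₀)
    {W : WeierstrassCurve.Affine L}
    (h₁ : v W.a₁ ≤ 1) (h₂ : v W.a₂ ≤ 1) (h₃ : v W.a₃ ≤ 1) (h₄ : v W.a₄ ≤ 1) (h₆ : v W.a₆ ≤ 1)
    {x y : L} (h : W.Equation x y) (hx : v x ≤ 1) : v y ≤ 1 := by
  by_contra hcon
  rw [not_le] at hcon
  rw [equation_iff] at h
  have e : y ^ 2 = (x ^ 3 + W.a₂ * x ^ 2 + W.a₄ * x + W.a₆) - W.a₁ * x * y - W.a₃ * y := by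
    linear_combination h
  have h1 : v (x ^ 3 + W.a₂ * x ^ 2 + W.a₄ * x + W.a₆) ≤ 1 := by
    refine v.map_add_le (v.map_add_le (v.map_add_le ?_ ?_) ?_) h₆
    · rw [map_pow]; exact pow_le_one₀ zero_le hx
    · rw [map_mul, map_pow]; exact mul_le_one' h₂ (pow_le_one₀ zero_le hx)
    · rw [map_mul]; exact mul_le_one' h₄ hx
  have h2 : v (W.a₁ * x * y) ≤ v y := by
    rw [map_mul, map_mul]
    calc v W.a₁ * v x * v y ≤ 1 * v y := by
          gcongr
          exact mul_le_one' h₁ hx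
      _ = v y := one_mul _
  have h3 : v (W.a₃ * y) ≤ v y := by
    rw [map_mul]
    calc v W.a₃ * v y ≤ 1 * v y := by gcongr
      _ = v y := one_mul _
  have h4 : v (y ^ 2) ≤ v y := by
    rw [e]
    exact v.map_sub_le (v.map_sub_le (h1.trans hcon.le) h2) h3
  rw [map_pow, sq] at h4
  have : v y < v y * v y := by
    calc v y = 1 * v y := (one_mul _).symm
      _ < v y * v y := mul_lt_mul_of_pos_right hcon (lt_trans zero_lt_one hcon)
  exact absurd h4 (not_le.2 this)

lemma S58RD_y_mem {x y : L} (h : (W₀.map A.subtype).toAffine.Equation x y) (hx : x ∈ A) :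
    y ∈ A := by
  rw [← A.valuation_le_one_iff] at hx ⊢
  exact S58RD_val_y_le A.valuation (W := (W₀.map A.subtype).toAffine)
    (A.valuation_le_one W₀.a₁) (A.valuation_le_one W₀.a₂) (A.valuation_le_one W₀.a₃)
    (A.valuation_le_one W₀.a₄) (A.valuation_le_one W₀.a₆) h hx

lemma S58RD_equation_A {x y : A}
    (h : (W₀.map A.subtype).toAffine.Equation (x : L) (y : L)) : W₀.toAffine.Equation x y :=
  (map_equation W₀.toAffine (S58RD_subtype_injective A) x y).1 h

lemma S58RD_nonsing_k (hΔ : (W₀.map res).Δ ≠ 0) {x y : A} (e : W₀.toAffine.Equation x y) :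
    (W₀.map res).toAffine.Nonsingular (res x) (res y) :=
  (equation_iff_nonsingular_of_Δ_ne_zero hΔ).1 (Equation.map res e)

/-- Over `L`, two integral points with non-opposite reductions are not opposite. -/
lemma S58RD_not_opp {x₁ y₁ x₂ y₂ : A}
    (hk : ¬(res x₁ = res x₂ ∧ res y₁ = (W₀.map res).toAffine.negY (res x₂) (res y₂))) :
    ¬((x₁ : L) = (x₂ : L) ∧ (y₁ : L) = (W₀.map A.subtype).toAffine.negY (x₂ : L) (y₂ : L)) := by
  rintro ⟨hx, hy⟩
  apply hk
  have hx' : x₁ = x₂ := Subtype.coe_injective hx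
  have hy' : y₁ = W₀.toAffine.negY x₂ y₂ := by
    apply Subtype.coe_injective
    show (y₁ : L) = ((W₀.toAffine.negY x₂ y₂ : A) : L)
    rw [hy]
    exact map_negY A.subtype x₂ y₂
  refine ⟨by rw [hx'], ?_⟩
  rw [map_negY res x₂ y₂, ← hy']

include hres in
/-- **Case A**: the sum of two integral points with non-opposite reductions is integral and
reduces to the sum of the reductions. -/
lemma S58RD_add_int (hΔ : (W₀.map res).Δ ≠ 0) {x₁ y₁ x₂ y₂ : A}
    (h₁ : (W₀.map A.subtype).toAffine.Nonsingular (x₁ : L) (y₁ : L))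
    (h₂ : (W₀.map A.subtype).toAffine.Nonsingular (x₂ : L) (y₂ : L))
    (g₁ : (W₀.map res).toAffine.Nonsingular (res x₁) (res y₁))
    (g₂ : (W₀.map res).toAffine.Nonsingular (res x₂) (res y₂))
    (hk : ¬(res x₁ = res x₂ ∧ res y₁ = (W₀.map res).toAffine.negY (res x₂) (res y₂))) :
    ∃ (x₃ y₃ : A) (h₃ : (W₀.map A.subtype).toAffine.Nonsingular (x₃ : L) (y₃ : L))
      (g₃ : (W₀.map res).toAffine.Nonsingular (res x₃) (res y₃)),
      Point.some _ _ h₁ + Point.some _ _ h₂ = Point.some _ _ h₃ ∧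
      Point.some _ _ g₁ + Point.some _ _ g₂ = Point.some _ _ g₃ := by
  have e₁ := S58RD_equation_A A W₀ h₁.1
  have e₂ := S58RD_equation_A A W₀ h₂.1
  obtain ⟨s, hsL, hsk⟩ := S58RD_slope_int A res hres W₀ e₁ e₂ hk
  have hL := S58RD_not_opp A res W₀ hk
  have hX : (W₀.map A.subtype).toAffine.addX (x₁ : L) (x₂ : L) (s : L) =
      ((W₀.toAffine.addX x₁ x₂ s : A) : L) := map_addX A.subtype x₁ x₂ s
  have hY : (W₀.map A.subtype).toAffine.addY (x₁ : L) (x₂ : L) (y₁ : L) (s : L) =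
      ((W₀.toAffine.addY x₁ x₂ y₁ s : A) : L) := map_addY A.subtype x₁ y₁ x₂ s
  have hXk : (W₀.map res).toAffine.addX (res x₁) (res x₂) (res s) =
      res (W₀.toAffine.addX x₁ x₂ s) := map_addX res x₁ x₂ s
  have hYk : (W₀.map res).toAffine.addY (res x₁) (res x₂) (res y₁) (res s) =
      res (W₀.toAffine.addY x₁ x₂ y₁ s) := map_addY res x₁ y₁ x₂ s
  have h₃ := nonsingular_add h₁ h₂ hL
  rw [← hsL, hX, hY] at h₃
  have g₃ := nonsingular_add g₁ g₂ hk
  rw [← hsk, hXk, hYk] at g₃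
  refine ⟨W₀.toAffine.addX x₁ x₂ s, W₀.toAffine.addY x₁ x₂ y₁ s, h₃, g₃, ?_, ?_⟩
  · rw [Point.add_some hL, Point.some.injEq, ← hsL]
    exact ⟨hX, hY⟩
  · rw [Point.add_some hk, Point.some.injEq, ← hsk]
    exact ⟨hXk, hYk⟩

include hres in
/-- **Case B**: the sum of two integral points with opposite reductions lies in `E₁`. -/
lemma S58RD_add_opp (hΔ : (W₀.map res).Δ ≠ 0) {x₁ y₁ x₂ y₂ : A}
    (h₁ : (W₀.map A.subtype).toAffine.Nonsingular (x₁ : L) (y₁ : L))
    (h₂ : (W₀.map A.subtype).toAffine.Nonsingular (x₂ : L) (y₂ : L))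
    (hk : res x₁ = res x₂ ∧ res y₁ = (W₀.map res).toAffine.negY (res x₂) (res y₂)) :
    InE1 A.valuation (Point.some _ _ h₁ + Point.some _ _ h₂) := by
  have e₁ := S58RD_equation_A A W₀ h₁.1
  have g₁ := S58RD_nonsing_k A res W₀ hΔ e₁
  have hns : A.valuation ((W₀.map A.subtype).toAffine.polynomialX.evalEval (x₁ : L) (y₁ : L)) = 1 ∨
      A.valuation ((W₀.map A.subtype).toAffine.polynomialY.evalEval (x₁ : L) (y₁ : L)) = 1 := by
    have hXL : (W₀.map A.subtype).toAffine.polynomialX.evalEval (x₁ : L) (y₁ : L) =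
        ((W₀.toAffine.polynomialX.evalEval x₁ y₁ : A) : L) := by
      rw [map_polynomialX]
      exact Polynomial.map_mapRingHom_evalEval A.subtype _ x₁ y₁
    have hYL : (W₀.map A.subtype).toAffine.polynomialY.evalEval (x₁ : L) (y₁ : L) =
        ((W₀.toAffine.polynomialY.evalEval x₁ y₁ : A) : L) := by
      rw [map_polynomialY]
      exact Polynomial.map_mapRingHom_evalEval A.subtype _ x₁ y₁
    have hXk : (W₀.map res).toAffine.polynomialX.evalEval (res x₁) (res y₁) =
        res (W₀.toAffine.polynomialX.evalEval x₁ y₁) := by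
      rw [map_polynomialX]
      exact Polynomial.map_mapRingHom_evalEval res _ x₁ y₁
    have hYk : (W₀.map res).toAffine.polynomialY.evalEval (res x₁) (res y₁) =
        res (W₀.toAffine.polynomialY.evalEval x₁ y₁) := by
      rw [map_polynomialY]
      exact Polynomial.map_mapRingHom_evalEval res _ x₁ y₁
    rcases g₁.2 with h | h
    · left
      rw [hXL]
      rw [hXk] at h
      exact S58RD_val_eq_one_of_res_ne A res hres h
    · right
      rw [hYL]
      rw [hYk] at h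
      exact S58RD_val_eq_one_of_res_ne A res hres h
  have hx : A.valuation ((x₁ : L) - (x₂ : L)) < 1 := S58RD_val_lt_of_res_eq A res hres hk.1
  have hy : A.valuation ((y₁ : L) - (W₀.map A.subtype).toAffine.negY (x₂ : L) (y₂ : L)) < 1 := by
    have hN : (W₀.map A.subtype).toAffine.negY (x₂ : L) (y₂ : L) =
        ((W₀.toAffine.negY x₂ y₂ : A) : L) := map_negY A.subtype x₂ y₂
    rw [hN]
    apply S58RD_val_lt_of_res_eq A res hres
    rw [hk.2]
    exact map_negY res x₂ y₂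
  have key := RD A.valuation (W := (W₀.map A.subtype).toAffine)
    (A.valuation_le_one W₀.a₁) (A.valuation_le_one W₀.a₂) (A.valuation_le_one W₀.a₃)
    (A.valuation_le_one W₀.a₄) (A.valuation_le_one W₀.a₆) h₁ ((nonsingular_neg ..).mpr h₂)
    (A.valuation_le_one x₁) (A.valuation_le_one y₁) hx hy hns
  rwa [← Point.neg_some h₂, sub_neg_eq_add] at key

open Classical in
/-- The reduction map on points. -/
noncomputable def S58RD_fun (hΔ : (W₀.map res).Δ ≠ 0) :
    (W₀.map A.subtype).toAffine.Point → (W₀.map res).toAffine.Point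
  | .zero => 0
  | .some x y h =>
      if hx : x ∈ A then
        Point.some (res ⟨x, hx⟩) (res ⟨y, S58RD_y_mem A W₀ h.1 hx⟩)
          (S58RD_nonsing_k A res W₀ hΔ
            (S58RD_equation_A A W₀ (x := ⟨x, hx⟩) (y := ⟨y, S58RD_y_mem A W₀ h.1 hx⟩) h.1))
      else 0

variable (hΔ : (W₀.map res).Δ ≠ 0)

lemma S58RD_fun_zero : S58RD_fun A res W₀ hΔ 0 = 0 := rfl

lemma S58RD_fun_some (x y : A) (h : (W₀.map A.subtype).toAffine.Nonsingular (x : L) (y : L)) :
    S58RD_fun A res W₀ hΔ (Point.some (x : L) (y : L) h) =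
      Point.some (res x) (res y) (S58RD_nonsing_k A res W₀ hΔ (S58RD_equation_A A W₀ h.1)) := by
  have hx : (x : L) ∈ A := x.2
  simp only [S58RD_fun, dif_pos hx]

lemma S58RD_fun_of_inE1 {P : (W₀.map A.subtype).toAffine.Point} (hP : InE1 A.valuation P) :
    S58RD_fun A res W₀ hΔ P = 0 := by
  rcases P with _ | ⟨x, y, h⟩
  · rfl
  · have hx : x ∉ A := by
      intro hx
      have h1 : A.valuation x ≤ 1 := (A.valuation_le_one_iff x).2 hx
      exact absurd hP (not_lt.2 h1)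
    simp only [S58RD_fun, dif_neg hx]

lemma S58RD_exists_of_not_inE1 {P : (W₀.map A.subtype).toAffine.Point}
    (hP : ¬ InE1 A.valuation P) :
    ∃ (x y : A) (h : (W₀.map A.subtype).toAffine.Nonsingular (x : L) (y : L)),
      P = Point.some (x : L) (y : L) h := by
  rcases P with _ | ⟨x, y, h⟩
  · exact absurd trivial hP
  · have h1 : A.valuation x ≤ 1 := not_lt.1 hP
    have hx : x ∈ A := (A.valuation_le_one_iff x).1 h1
    exact ⟨⟨x, hx⟩, ⟨y, S58RD_y_mem A W₀ h.1 hx⟩, h, rfl⟩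

lemma S58RD_not_inE1_some (x y : A)
    (h : (W₀.map A.subtype).toAffine.Nonsingular (x : L) (y : L)) :
    ¬ InE1 A.valuation (Point.some (x : L) (y : L) h) := by
  intro hP
  exact absurd hP (not_lt.2 (A.valuation_le_one x))

lemma S58RD_fun_eq_zero_iff (P : (W₀.map A.subtype).toAffine.Point) :
    S58RD_fun A res W₀ hΔ P = 0 ↔ InE1 A.valuation P := by
  constructor
  · intro h0
    by_contra hP
    obtain ⟨x, y, h, rfl⟩ := S58RD_exists_of_not_inE1 A W₀ hP
    rw [S58RD_fun_some] at h0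
    exact Point.some_ne_zero _ h0
  · exact S58RD_fun_of_inE1 A res W₀ hΔ

include hres in
/-- **Case C**: adding a point of `E₁` does not change the reduction. -/
lemma S58RD_add_ker {P Q : (W₀.map A.subtype).toAffine.Point} (hP : InE1 A.valuation P)
    (hQ : ¬ InE1 A.valuation Q) :
    S58RD_fun A res W₀ hΔ (P + Q) = S58RD_fun A res W₀ hΔ Q := by
  have c₁ := A.valuation_le_one W₀.a₁
  have c₂ := A.valuation_le_one W₀.a₂
  have c₃ := A.valuation_le_one W₀.a₃
  have c₄ := A.valuation_le_one W₀.a₄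
  have c₆ := A.valuation_le_one W₀.a₆
  have hR : ¬ InE1 A.valuation (P + Q) := by
    intro hR
    apply hQ
    have := inE1_sub A.valuation (W := (W₀.map A.subtype).toAffine) c₁ c₂ c₃ c₄ c₆ hR hP
    rwa [add_sub_cancel_left] at this
  obtain ⟨x₃, y₃, h₃, e₃⟩ := S58RD_exists_of_not_inE1 A W₀ hR
  obtain ⟨x₂, y₂, h₂, rfl⟩ := S58RD_exists_of_not_inE1 A W₀ hQ
  rw [e₃, S58RD_fun_some, S58RD_fun_some]
  by_contra hne
  -- the reductions of `R` and `-Q` are not opposite
  have hN : (W₀.map A.subtype).toAffine.negY (x₂ : L) (y₂ : L) =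
      ((W₀.toAffine.negY x₂ y₂ : A) : L) := map_negY A.subtype x₂ y₂
  have h₂' : (W₀.map A.subtype).toAffine.Nonsingular (x₂ : L)
      ((W₀.toAffine.negY x₂ y₂ : A) : L) := by
    rw [← hN]; exact (nonsingular_neg ..).mpr h₂
  have hnegQ : -Point.some (x₂ : L) (y₂ : L) h₂ =
      Point.some (x₂ : L) ((W₀.toAffine.negY x₂ y₂ : A) : L) h₂' := by
    rw [Point.neg_some, Point.some.injEq]
    exact ⟨rfl, hN⟩
  have hk : ¬(res x₃ = res x₂ ∧ res y₃ =
      (W₀.map res).toAffine.negY (res x₂) (res (W₀.toAffine.negY x₂ y₂))) := by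
    rintro ⟨hx, hy⟩
    apply hne
    rw [Point.some.injEq]
    refine ⟨hx, ?_⟩
    rw [hy, ← map_negY res x₂ y₂, negY_negY]
  obtain ⟨x', y', h', g', e, -⟩ := S58RD_add_int A res hres W₀ hΔ h₃ h₂'
    (S58RD_nonsing_k A res W₀ hΔ (S58RD_equation_A A W₀ h₃.1))
    (S58RD_nonsing_k A res W₀ hΔ (S58RD_equation_A A W₀ h₂'.1)) hk
  rw [← hnegQ, ← e₃, add_neg_cancel_right] at e
  rw [e] at hP
  exact S58RD_not_inE1_some A W₀ x' y' h' hP

include hres in
/-- The reduction map is additive. -/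
theorem S58RD_fun_add (P Q : (W₀.map A.subtype).toAffine.Point) :
    S58RD_fun A res W₀ hΔ (P + Q) = S58RD_fun A res W₀ hΔ P + S58RD_fun A res W₀ hΔ Q := by
  have c₁ := A.valuation_le_one W₀.a₁
  have c₂ := A.valuation_le_one W₀.a₂
  have c₃ := A.valuation_le_one W₀.a₃
  have c₄ := A.valuation_le_one W₀.a₄
  have c₆ := A.valuation_le_one W₀.a₆
  by_cases hP : InE1 A.valuation P
  · by_cases hQ : InE1 A.valuation Q
    · rw [S58RD_fun_of_inE1 A res W₀ hΔ
          (inE1_add A.valuation (W := (W₀.map A.subtype).toAffine) c₁ c₂ c₃ c₄ c₆ hP hQ),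
        S58RD_fun_of_inE1 A res W₀ hΔ hP, S58RD_fun_of_inE1 A res W₀ hΔ hQ, add_zero]
    · rw [S58RD_add_ker A res hres W₀ hΔ hP hQ, S58RD_fun_of_inE1 A res W₀ hΔ hP, zero_add]
  · by_cases hQ : InE1 A.valuation Q
    · rw [add_comm P Q, S58RD_add_ker A res hres W₀ hΔ hQ hP,
        S58RD_fun_of_inE1 A res W₀ hΔ hQ, add_zero]
    · obtain ⟨x₁, y₁, h₁, rfl⟩ := S58RD_exists_of_not_inE1 A W₀ hP
      obtain ⟨x₂, y₂, h₂, rfl⟩ := S58RD_exists_of_not_inE1 A W₀ hQ
      rw [S58RD_fun_some, S58RD_fun_some]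
      by_cases hk : (res x₁ = res x₂ ∧ res y₁ = (W₀.map res).toAffine.negY (res x₂) (res y₂))
      · rw [S58RD_fun_of_inE1 A res W₀ hΔ (S58RD_add_opp A res hres W₀ hΔ h₁ h₂ hk),
          Point.add_of_Y_eq hk.1 hk.2]
      · obtain ⟨x₃, y₃, h₃, g₃, e, e'⟩ := S58RD_add_int A res hres W₀ hΔ h₁ h₂
          (S58RD_nonsing_k A res W₀ hΔ (S58RD_equation_A A W₀ h₁.1))
          (S58RD_nonsing_k A res W₀ hΔ (S58RD_equation_A A W₀ h₂.1)) hk
        rw [e, S58RD_fun_some, e']

/-- **The reduction homomorphism** (curve over `A`). -/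
noncomputable def S58RD_red :
    (W₀.map A.subtype).toAffine.Point →+ (W₀.map res).toAffine.Point where
  toFun := S58RD_fun A res W₀ hΔ
  map_zero' := rfl
  map_add' := S58RD_fun_add A res hres W₀ hΔ

lemma S58RD_red_eq_zero_iff (P : (W₀.map A.subtype).toAffine.Point) :
    S58RD_red A res hres W₀ hΔ P = 0 ↔ InE1 A.valuation P :=
  S58RD_fun_eq_zero_iff A res W₀ hΔ P

lemma S58RD_red_some (x y : A) (h : (W₀.map A.subtype).toAffine.Nonsingular (x : L) (y : L)) :
    S58RD_red A res hres W₀ hΔ (Point.some (x : L) (y : L) h) =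
      Point.some (res x) (res y) (S58RD_nonsing_k A res W₀ hΔ (S58RD_equation_A A W₀ h.1)) :=
  S58RD_fun_some A res W₀ hΔ x y h

/-- The reduction is injective on `n`-torsion when `n` is a unit of `A`. -/
lemma S58RD_red_torsion {n : ℕ} (hn : A.valuation ((n : ℕ) : L) = 1)
    {P : (W₀.map A.subtype).toAffine.Point} (hP : n • P = 0)
    (h0 : S58RD_red A res hres W₀ hΔ P = 0) : P = 0 :=
  inE1_torsion_free A.valuation (W := (W₀.map A.subtype).toAffine)
    (A.valuation_le_one W₀.a₁) (A.valuation_le_one W₀.a₂) (A.valuation_le_one W₀.a₃)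
    (A.valuation_le_one W₀.a₄) (A.valuation_le_one W₀.a₆) hn
    ((S58RD_red_eq_zero_iff A res hres W₀ hΔ P).1 h0) hP

end Red

/-- **RED, coefficient form.**  The reduction homomorphism for a Weierstrass curve `W` over `L`
with coefficients in the valuation subring `A` and a curve `Wk` over `k` whose coefficients are
the residues, `Wk.Δ ≠ 0`: kernel `E₁`, explicit on integral points, injective on torsion of
order a unit of `A`. -/
theorem S58RD_main {L : Type*} [Field L] [DecidableEq L] (A : ValuationSubring L)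
    {k : Type*} [Field k] [DecidableEq k] (res : A →+* k)
    (hres : ∀ a : A, res a = 0 ↔ A.valuation (a : L) < 1)
    (W : WeierstrassCurve.Affine L) (Wk : WeierstrassCurve.Affine k)
    (c₁ c₂ c₃ c₄ c₆ : A)
    (h₁ : (c₁ : L) = W.a₁) (h₂ : (c₂ : L) = W.a₂) (h₃ : (c₃ : L) = W.a₃)
    (h₄ : (c₄ : L) = W.a₄) (h₆ : (c₆ : L) = W.a₆)
    (k₁ : res c₁ = Wk.a₁) (k₂ : res c₂ = Wk.a₂) (k₃ : res c₃ = Wk.a₃)
    (k₄ : res c₄ = Wk.a₄) (k₆ : res c₆ = Wk.a₆)
    (hΔ : Wk.Δ ≠ 0) :
    ∃ r : W.Point →+ Wk.Point,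
      (∀ P, r P = 0 ↔ Fermat.Agent.S13_helper9_RD.InE1 A.valuation P) ∧
      (∀ (x y : A) (h : W.Nonsingular (x : L) (y : L)),
        ∃ h' : Wk.Nonsingular (res x) (res y),
          r (Point.some (x : L) (y : L) h) = Point.some (res x) (res y) h') ∧
      (∀ (n : ℕ), A.valuation ((n : ℕ) : L) = 1 → ∀ P : W.Point, n • P = 0 → r P = 0 → P = 0) := by
  obtain rfl : W = (WeierstrassCurve.map ⟨c₁, c₂, c₃, c₄, c₆⟩ A.subtype) := by
    ext
    · exact h₁.symm
    · exact h₂.symm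
    · exact h₃.symm
    · exact h₄.symm
    · exact h₆.symm
  obtain rfl : Wk = (WeierstrassCurve.map ⟨c₁, c₂, c₃, c₄, c₆⟩ res) := by
    ext
    · exact k₁.symm
    · exact k₂.symm
    · exact k₃.symm
    · exact k₄.symm
    · exact k₆.symm
  refine ⟨S58RD_red A res hres ⟨c₁, c₂, c₃, c₄, c₆⟩ hΔ, ?_, ?_, ?_⟩
  · exact S58RD_red_eq_zero_iff A res hres _ hΔ
  · intro x y h
    exact ⟨_, S58RD_red_some A res hres _ hΔ x y h⟩
  · intro n hn P hP h0
    exact S58RD_red_torsion A res hres _ hΔ hn hP h0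

end Fermat.Agent.S58_helper5_RED
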