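import Mathlib
import Fermat.Agent.S58_helper5_RED
import Fermat.Agent.S58_helper2_TORS
import Fermat.Agent.S05_helper5_Inertia
import Fermat.Agent.S05_helper5_Frey

/-!
# S58, brick E3-GOOD (helper5)

* `S58E3G_coeff` : the coefficients of `W⁄Q-bar` are integral at every valuation subring;
* `S58E3G_nonsing` : at ANY prime `q` (good or bad), an element of inertia fixes every point of
  `W[n]`, `n` prime to `q`, which is integral with non-singular reduction (pointwise hypothesis: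
  one of the two partial derivatives is a unit);
* `S58E3G_point`, `S58E3G_main` : at a prime of good reduction inertia acts trivially on `W[n]`,
  `n` prime to `q` (`S58T_E3good` of `S58_helper2_TORS`).
-/

set_option autoImplicit false
set_option linter.unusedSectionVars false
set_option linter.unusedVariables false

namespace Fermat.Agent.S58_helper5_E3GOOD

open WeierstrassCurve WeierstrassCurve.Affine
open Fermat.Agent.S13_helper9_RD Fermat.Agent.S58_helper5_RED Fermat.Agent.S58_helper2_TORS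
  Fermat.Agent.S05_helper5_Inertia Fermat.Agent.S05_helper5_Frey

local notation "Qb" => AlgebraicClosure ℚ

/-- The coefficients of `W⁄Q-bar` are integers. -/
theorem S58E3G_coeff (W : WeierstrassCurve ℤ) :
    ((((W.map (Int.castRingHom ℚ)).toAffine)⁄Qb).a₁ = ((W.a₁ : ℤ) : Qb)) ∧
    ((((W.map (Int.castRingHom ℚ)).toAffine)⁄Qb).a₂ = ((W.a₂ : ℤ) : Qb)) ∧
    ((((W.map (Int.castRingHom ℚ)).toAffine)⁄Qb).a₃ = ((W.a₃ : ℤ) : Qb)) ∧
    ((((W.map (Int.castRingHom ℚ)).toAffine)⁄Qb).a₄ = ((W.a₄ : ℤ) : Qb)) ∧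
    ((((W.map (Int.castRingHom ℚ)).toAffine)⁄Qb).a₆ = ((W.a₆ : ℤ) : Qb)) := by
  refine ⟨?_, ?_, ?_, ?_, ?_⟩ <;> simp

/-- At any prime: inertia fixes the unit-order torsion points which are integral with
non-singular reduction. -/
theorem S58E3G_nonsing (W : WeierstrassCurve ℤ) {q : ℕ} (hq : q.Prime)
    {n : ℕ} (hn : ¬ q ∣ n) (A : ValuationSubring Qb) (hA : A.LiesOverPrime q)
    (τ : Qb ≃ₐ[ℚ] Qb) (hτ : τ ∈ A.inertiaSubgroupIn ℚ)
    {x y : Qb} (h : (((W.map (Int.castRingHom ℚ)).toAffine)⁄Qb).Nonsingular x y)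
    (hP : n • Point.some x y h = 0)
    (hx : A.valuation x ≤ 1)
    (hns : A.valuation ((((W.map (Int.castRingHom ℚ)).toAffine)⁄Qb).polynomialX.evalEval x y) = 1 ∨
      A.valuation ((((W.map (Int.castRingHom ℚ)).toAffine)⁄Qb).polynomialY.evalEval x y) = 1) :
    Point.map (W' := (W.map (Int.castRingHom ℚ)).toAffine) τ.toAlgHom (Point.some x y h) =
      Point.some x y h := by
  obtain ⟨e₁, e₂, e₃, e₄, e₆⟩ := S58E3G_coeff W
  have c₁ : A.valuation (((W.map (Int.castRingHom ℚ)).toAffine)⁄Qb).a₁ ≤ 1 := by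
    rw [e₁]; exact val_intCast_le_one A _
  have c₂ : A.valuation (((W.map (Int.castRingHom ℚ)).toAffine)⁄Qb).a₂ ≤ 1 := by
    rw [e₂]; exact val_intCast_le_one A _
  have c₃ : A.valuation (((W.map (Int.castRingHom ℚ)).toAffine)⁄Qb).a₃ ≤ 1 := by
    rw [e₃]; exact val_intCast_le_one A _
  have c₄ : A.valuation (((W.map (Int.castRingHom ℚ)).toAffine)⁄Qb).a₄ ≤ 1 := by
    rw [e₄]; exact val_intCast_le_one A _
  have c₆ : A.valuation (((W.map (Int.castRingHom ℚ)).toAffine)⁄Qb).a₆ ≤ 1 := by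
    rw [e₆]; exact val_intCast_le_one A _
  have hy : A.valuation y ≤ 1 := S58RD_val_y_le A.valuation c₁ c₂ c₃ c₄ c₆ h.1 hx
  have hnv : A.valuation ((n : ℕ) : Qb) = 1 := val_natCast_eq_one_of_not_dvd A hq hA hn
  have hσ : ∀ z : Qb, A.valuation z ≤ 1 → A.valuation (τ.toAlgHom z - z) < 1 := by
    intro z hz
    have := (inertia_spec_gen A τ hτ z ((A.valuation_le_one_iff _).1 hz)).2
    rwa [ValuationSubring.mem_nonunits_iff] at this
  have key := RD_map (W' := (W.map (Int.castRingHom ℚ)).toAffine) A.valuation c₁ c₂ c₃ c₄ c₆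
    τ.toAlgHom hσ h hx hy hns
  have hnd : n • (Point.map (W' := (W.map (Int.castRingHom ℚ)).toAffine) τ.toAlgHom
      (Point.some x y h) - Point.some x y h) = 0 := by
    rw [smul_sub, ← map_nsmul, hP, map_zero, sub_zero]
  exact sub_eq_zero.1 (inE1_torsion_free A.valuation c₁ c₂ c₃ c₄ c₆ hnv key hnd)

/-- At a prime of good reduction, inertia fixes every point of `W[n]`, `n` prime to `q`. -/
theorem S58E3G_point (W : WeierstrassCurve ℤ) {q : ℕ} (hq : q.Prime) (hqΔ : ¬ (q : ℤ) ∣ W.Δ)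
    {n : ℕ} (hn : ¬ q ∣ n) (A : ValuationSubring Qb) (hA : A.LiesOverPrime q)
    (τ : Qb ≃ₐ[ℚ] Qb) (hτ : τ ∈ A.inertiaSubgroupIn ℚ)
    (Pt : (((W.map (Int.castRingHom ℚ)).toAffine)⁄Qb).Point) (hPt : n • Pt = 0) :
    Point.map (W' := (W.map (Int.castRingHom ℚ)).toAffine) τ.toAlgHom Pt = Pt := by
  letI : DecidableEq (IsLocalRing.ResidueField A) := Classical.decEq _
  obtain ⟨e₁, e₂, e₃, e₄, e₆⟩ := S58E3G_coeff W
  have hres : ∀ a : A, IsLocalRing.residue A a = 0 ↔ A.valuation (a : Qb) < 1 := by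
    intro a
    rw [IsLocalRing.residue_eq_zero_iff, A.valuation_lt_one_iff]
  have hnv : A.valuation ((n : ℕ) : Qb) = 1 := val_natCast_eq_one_of_not_dvd A hq hA hn
  have hΔk : (W.map (Int.castRingHom (IsLocalRing.ResidueField A))).toAffine.Δ ≠ 0 := by
    rw [WeierstrassCurve.map_Δ]
    have hv : A.valuation (((W.Δ : ℤ) : A) : Qb) = 1 := by
      have := val_intCast_eq_one_of_not_dvd A hq hA hqΔ
      simpa using this
    intro h0
    have h1 : IsLocalRing.residue A ((W.Δ : ℤ) : A) = 0 := by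
      rw [map_intCast]
      simpa using h0
    have := (hres _).1 h1
    rw [hv] at this
    exact lt_irrefl _ this
  obtain ⟨r, hker, hform, htors⟩ := S58RD_main A (IsLocalRing.residue A) hres
    (((W.map (Int.castRingHom ℚ)).toAffine)⁄Qb)
    (W.map (Int.castRingHom (IsLocalRing.ResidueField A))).toAffine
    ((W.a₁ : ℤ) : A) ((W.a₂ : ℤ) : A) ((W.a₃ : ℤ) : A) ((W.a₄ : ℤ) : A) ((W.a₆ : ℤ) : A)
    (by rw [e₁]; simp) (by rw [e₂]; simp) (by rw [e₃]; simp) (by rw [e₄]; simp)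
    (by rw [e₆]; simp)
    (by simp) (by simp) (by simp) (by simp) (by simp) hΔk
  rcases Pt with _ | ⟨x, y, h⟩
  · rfl
  · have hxP : ¬ InE1 A.valuation (Point.some x y h) := by
      intro hin
      exact Point.some_ne_zero _ (htors n hnv _ hPt ((hker _).2 hin))
    have hx1 : A.valuation x ≤ 1 := not_lt.1 hxP
    have hx : x ∈ A := (A.valuation_le_one_iff x).1 hx1
    have c₁ : A.valuation (((W.map (Int.castRingHom ℚ)).toAffine)⁄Qb).a₁ ≤ 1 := by
      rw [e₁]; exact val_intCast_le_one A _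
    have c₂ : A.valuation (((W.map (Int.castRingHom ℚ)).toAffine)⁄Qb).a₂ ≤ 1 := by
      rw [e₂]; exact val_intCast_le_one A _
    have c₃ : A.valuation (((W.map (Int.castRingHom ℚ)).toAffine)⁄Qb).a₃ ≤ 1 := by
      rw [e₃]; exact val_intCast_le_one A _
    have c₄ : A.valuation (((W.map (Int.castRingHom ℚ)).toAffine)⁄Qb).a₄ ≤ 1 := by
      rw [e₄]; exact val_intCast_le_one A _
    have c₆ : A.valuation (((W.map (Int.castRingHom ℚ)).toAffine)⁄Qb).a₆ ≤ 1 := by
      rw [e₆]; exact val_intCast_le_one A _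
    have hy : y ∈ A := (A.valuation_le_one_iff y).1
      (S58RD_val_y_le A.valuation c₁ c₂ c₃ c₄ c₆ h.1 hx1)
    obtain ⟨hτx, hτx'⟩ := inertia_spec_gen A τ hτ x hx
    obtain ⟨hτy, hτy'⟩ := inertia_spec_gen A τ hτ y hy
    have hrx : IsLocalRing.residue A ⟨τ x, hτx⟩ = IsLocalRing.residue A ⟨x, hx⟩ := by
      rw [← sub_eq_zero, ← map_sub, hres]
      exact (ValuationSubring.mem_nonunits_iff A).1 hτx'
    have hry : IsLocalRing.residue A ⟨τ y, hτy⟩ = IsLocalRing.residue A ⟨y, hy⟩ := by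
      rw [← sub_eq_zero, ← map_sub, hres]
      exact (ValuationSubring.mem_nonunits_iff A).1 hτy'
    have h' : (((W.map (Int.castRingHom ℚ)).toAffine)⁄Qb).Nonsingular (τ x) (τ y) :=
      ((W.map (Int.castRingHom ℚ)).toAffine.baseChange_nonsingular τ.toAlgHom.injective x y).mpr h
    have e1 : Point.map (W' := (W.map (Int.castRingHom ℚ)).toAffine) τ.toAlgHom
        (Point.some x y h) = Point.some (τ x) (τ y) h' := rfl
    obtain ⟨g1, hr1⟩ := hform ⟨x, hx⟩ ⟨y, hy⟩ h
    obtain ⟨g2, hr2⟩ := hform ⟨τ x, hτx⟩ ⟨τ y, hτy⟩ h'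
    have hrr : r (Point.map (W' := (W.map (Int.castRingHom ℚ)).toAffine) τ.toAlgHom
        (Point.some x y h)) = r (Point.some x y h) := by
      rw [e1, hr2, hr1, Point.some.injEq]
      exact ⟨hrx, hry⟩
    have hd : r (Point.map (W' := (W.map (Int.castRingHom ℚ)).toAffine) τ.toAlgHom
        (Point.some x y h) - Point.some x y h) = 0 := by
      rw [map_sub, hrr, sub_self]
    have hnd : n • (Point.map (W' := (W.map (Int.castRingHom ℚ)).toAffine) τ.toAlgHom
        (Point.some x y h) - Point.some x y h) = 0 := by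
      rw [smul_sub, ← map_nsmul, hPt, map_zero, sub_zero]
    exact sub_eq_zero.1 (htors n hnv _ hnd hd)

/-- **E3-GOOD**: inertia at a prime of good reduction is trivial on `W[n]`, `n` prime to `q`. -/
theorem S58E3G_main (W : WeierstrassCurve ℤ) : S58T_E3good W := by
  intro q hq hqΔ n hn A hA τ hτ P
  have hqn : ¬ q ∣ n := by
    intro hd
    have h1 : q ∣ Nat.gcd n q := Nat.dvd_gcd hd dvd_rfl
    rw [Nat.Coprime] at hn
    rw [hn] at h1
    exact hq.one_lt.ne' (Nat.dvd_one.1 h1)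
  have hPt : n • (P : (((W.map (Int.castRingHom ℚ)).toAffine)⁄Qb).Point) = 0 := by
    have := (Submodule.mem_torsionBy_iff _ _).1 P.2
    rwa [natCast_zsmul] at this
  apply Subtype.ext
  exact S58E3G_point W hq hqΔ hqn A hA τ hτ P hPt

end Fermat.Agent.S58_helper5_E3GOOD
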