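import Fermat.Agent.S58_helper18_TOPODD
import Fermat.Agent.S58_helper18_XFERODD
import Fermat.Agent.S58_helper27_WIRE
import Fermat.Agent.S58_helper13_NF
import Fermat.Agent.S58_helper13_BOUND
import Fermat.Agent.S58_helper3_STAB
import Fermat.Agent.S58_helper20_OPLUG
import Fermat.Agent.S58_helper14_RES
import Fermat.Agent.S58_helper12_IRRABS
import Fermat.Agent.S58_helper3_E0CNT
import Fermat.Agent.S58_helper2_E3ALG
import Fermat.Agent.S58_helper5_E3GOOD

/-!
# S58 (helper18, owner): the frozen statement from the TWO inputs that are still open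

`S58F_main`: the frozen statement S58 follows from

* `(E1)` at the odd primes: `∀ W, W.Δ ≠ 0 → ∀ lam [Fact lam.Prime], lam ≠ 2 → S58XF_E1 W lam`
  (the Frobenius characteristic polynomials on `W[lam ^ k]`), and
* `(E3raw)`: `∀ W, W.IsSemistableModel → S58T_E3raw W`
  (`(τ - 1) ^ 2 = 0` on `W[n]` for `τ` in an inertia group at a multiplicative prime `q ∤ n`).

Everything else is discharged by the landed results: S35 / S36 / Frobenius elements (helper27),
(NF) and (BOUND) (helper13), (OLD) (helper3), (O) and (Op) (helper20), (RES) (helper14 with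
helper12's IRR-ABS), (E0) (helper3), (E3-ALG) (helper2), (E3-GOOD) (helper5), (XFER) (helper14).
-/

set_option autoImplicit false

open Fermat.Agent.S58_helper18_Contracts Fermat.Agent.S58_helper2_TORS
open Fermat.Agent.S58_helper14_XFER Fermat.Agent.S58_helper18_TOPODD

namespace Fermat.Agent.S58_helper18_FINAL

/-- helper12's IRR-ABS in helper14's shape -/
theorem S58F_IA : Fermat.Agent.S58_helper14_RES.S58RES_IA := by
  intro G _ K K' _ _ φ h2 V V' _ _ _ _ _ _ hV hV' r r' hcp c hcc hdet hirr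
  exact Fermat.Agent.S58_helper12_IRRABS.S58IA_main φ h2 hV hV' r r' hcp c hcc hdet hirr

/-- **(RES)** from (E1) at the odd primes -/
theorem S58F_RES
    (hE1 : ∀ (W : WeierstrassCurve ℤ), W.Δ ≠ 0 →
      ∀ (lam : ℕ) [Fact lam.Prime], lam ≠ 2 → S58XF_E1 W lam) :
    S58C_RES := by
  intro W hΔ hss p _ hp2 hirr O'' _ _ _ _ _ _ hp ρ B hF
  have key : ∀ n : ℕ, n = p → ∀ (b' : Module.Basis (Fin 2) (ZMod n) (S58T_Tors W n)),
      (∀ ℓ : ℕ, ℓ.Prime → W.IsGoodPrimeFor ℓ → ℓ ≠ p →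
        ∀ (A : ValuationSubring (AlgebraicClosure ℚ)), A.LiesOverPrime ℓ →
        ∀ σ : AlgebraicClosure ℚ ≃ₐ[ℚ] AlgebraicClosure ℚ, A.IsFrobeniusAt σ ℓ →
          S58T_cp W n b' σ = Polynomial.X ^ 2
            - Polynomial.C ((W.apOfModel ℓ : ℤ) : ZMod n) * Polynomial.X
            + Polynomial.C ((ℓ : ℕ) : ZMod n)) →
      ρ.residual.IsAbsolutelyIrreducible ∧ ρ.residual.IsOdd := by
    intro n hn
    subst hn
    intro b' hb'
    exact Fermat.Agent.S58_helper14_RES.S58RES_one S58F_IA W hΔ n hp2 hirr b' hb' O'' hp ρ B hF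
  obtain ⟨b1⟩ := Fermat.Agent.S58_helper3_E0CNT.S58E0N_E0 W hΔ p 1
  exact key (p ^ 1) (pow_one p) b1
    (fun ℓ hℓ hgood hℓp A hA σ hσ => hE1 W hΔ p hp2 ℓ hℓ hgood hℓp 1 b1 A hA σ hσ)

/-- **(XFER) at the odd primes** from (E1) at the odd primes and (E3raw) -/
theorem S58F_XFER
    (hE1 : ∀ (W : WeierstrassCurve ℤ), W.Δ ≠ 0 →
      ∀ (lam : ℕ) [Fact lam.Prime], lam ≠ 2 → S58XF_E1 W lam)
    (hE3raw : ∀ (W : WeierstrassCurve ℤ), W.IsSemistableModel → S58T_E3raw W) :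
    S58C_XFERodd :=
  Fermat.Agent.S58_helper18_XFERODD.S58XO_main (fun W hΔ hss lam _ hlam2 =>
    ⟨Fermat.Agent.S58_helper3_E0CNT.S58E0N_E0 W hΔ lam, hE1 W hΔ lam hlam2,
      Fermat.Agent.S58_helper2_E3ALG.S58E3A_E3 W hss lam Fact.out
        (Fermat.Agent.S58_helper3_E0CNT.S58E0N_E0 W hΔ lam)
        (Fermat.Agent.S58_helper5_E3GOOD.S58E3G_main W) (hE3raw W hss)⟩)

/-- **the frozen statement S58 from (E1) at the odd primes and (E3raw)** -/
theorem S58F_main
    (hE1 : ∀ (W : WeierstrassCurve ℤ), W.Δ ≠ 0 →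
      ∀ (lam : ℕ) [Fact lam.Prime], lam ≠ 2 → S58XF_E1 W lam)
    (hE3raw : ∀ (W : WeierstrassCurve ℤ), W.IsSemistableModel → S58T_E3raw W) :
    S58C_Frozen :=
  S58TO_top Fermat.Agent.S58_helper27_WIRE.S58W_S35 Fermat.Agent.S58_helper27_WIRE.S58W_S36
    Fermat.Agent.S58_helper13_NF.S58NF_main
    (fun hMR hR h hh => Fermat.Agent.S58_helper3_STAB.S58OLD_main hMR hR h hh)
    Fermat.Agent.S58_helper20_OPLUG.S58OP_O Fermat.Agent.S58_helper20_OPLUG.S58OP_Op
    (S58F_RES hE1) (S58F_XFER hE1 hE3raw)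
    Fermat.Agent.S58_helper13_BOUND.S58BD_main Fermat.Agent.S58_helper27_WIRE.S58W_FROBEX

end Fermat.Agent.S58_helper18_FINAL
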