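-- Statement S58 (row 52, conductor-level matching): a semistable integral Weierstrass curve that
-- is modular of some cube-free level N divisible by all its bad primes, with irreducible mod-p
-- representation for an odd prime p with p^2 not dividing N, is modular of its conductor level.
-- Proof: FINAL / TOP (helper18, S58_helper18_FINAL.S58F_main on S58_helper18_TOPODD.S58TO_top)
-- reduces the frozen statement to the contracts of S58_helper18_Contracts: S35 / S36 (the landed
-- statements, wired in S58_helper27_WIRE), (NF) + (BOUND) helper13, (OLD) helper3, (O) / (Op)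
-- helper20 / helper23 / helper12, (RES) helper14 / helper12, (XFER) helper14 = the elliptic side:
-- (E0) helper3 / helper2 / helper13 / helper8, (E1) = S58_helper27_E1FIN.S58EF_main (lead
-- helper19: heights on the function field of the reduced curve, with helper4, helper10, helper8,
-- helper1, helper21, helper6, helper7, helper15, helper25, helper5, helper26; TRACE / PUSH /
-- FINAL helper27), (E3) helper2 / helper5 and the second seats.
import Fermat.Statements.S58
import Fermat.Agent.S36
import Fermat.Agent.S58_helper18_FINAL
import Fermat.Agent.S58_helper27_E1FIN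
import Fermat.Agent.S58_helper18_E3FIN

set_option autoImplicit false
set_option autoImplicit false
open WeierstrassCurve

namespace Fermat.Agent.S58

theorem result
    (W : WeierstrassCurve ℤ) (hss : W.IsSemistableModel) (N : ℕ)
    (p : ℕ) [Fact p.Prime] (hp2 : p ≠ 2) (hirr : W.ModRepIsIrreducible p)
    (hp2N : ¬ p ^ 2 ∣ N)
    (hN : W.IsModularModelOfLevel N) (hbad : ∀ ℓ : ℕ, ℓ.Prime → (ℓ : ℤ) ∣ W.Δ → ℓ ∣ N)
    (hN3 : ∀ q : ℕ, q.Prime → ¬ q ^ 3 ∣ N) :
    W.IsModularModelOfLevel W.conductorLevel := by
  exact Fermat.Agent.S58_helper18_FINAL.S58F_main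
    Fermat.Agent.S58_helper27_E1FIN.S58EF_E1
    (fun W _ => Fermat.Agent.S58_helper18_E3FIN.S58H_E3raw W)
    W hss N p hp2 hirr hp2N hN hbad hN3

end Fermat.Agent.S58
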