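import Mathlib

/-!
# S58 (E1a) [A-ALG]: the algebra of the addition biquadratic of a general Weierstrass equation

For a Weierstrass curve `W` over a commutative ring (any characteristic, including 2 and 3):

* `S58BQ_f x  = 4x³ + b₂x² + 2b₄x + b₆`            (the square of the 2-division polynomial),
* `S58BQ_g x  = x⁴ − b₄x² − 2b₆x − b₈`              (the numerator of `x(2P)`),
* `S58BQ_g1 x₁ x₂ = 2x₁x₂(x₁+x₂) + b₂x₁x₂ + b₄(x₁+x₂) + b₆`,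
* `S58BQ_g2 x₁ x₂ = x₁²x₂² − b₄x₁x₂ − b₆(x₁+x₂) − b₈`.

Main results:

* `S58BQ_cert` : an explicit Bezout certificate `U f + V g = Δ` (with `Δ` itself),
* `S58BQ_diag_g1`, `S58BQ_diag_g2` : `g1 x x = f x`, `g2 x x = g x`,
* `S58BQ_sum`, `S58BQ_prod` : `(x(P+Q) + x(P−Q)) (x₁−x₂)² = g1`, `x(P+Q) x(P−Q) (x₁−x₂)² = g2`,
* `S58BQ_dup`, `S58BQ_f_eq_sq` : `x(2P) f(x₁) = g(x₁)`, `f(x₁) = (y₁ − negY x₁ y₁)²`.
-/

namespace Fermat.Agent.S58_helper10_BIQ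

section Ring

variable {R : Type*} [CommRing R] (W : WeierstrassCurve R)

/-- `4x³ + b₂x² + 2b₄x + b₆`, the square of the 2-division polynomial. -/
def S58BQ_f (x : R) : R := 4 * x ^ 3 + W.b₂ * x ^ 2 + 2 * W.b₄ * x + W.b₆

/-- `x⁴ − b₄x² − 2b₆x − b₈`, the numerator of the duplication formula. -/
def S58BQ_g (x : R) : R := x ^ 4 - W.b₄ * x ^ 2 - 2 * W.b₆ * x - W.b₈

/-- The middle coefficient of the addition biquadratic. -/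
def S58BQ_g1 (x₁ x₂ : R) : R :=
  2 * x₁ * x₂ * (x₁ + x₂) + W.b₂ * x₁ * x₂ + W.b₄ * (x₁ + x₂) + W.b₆

/-- The constant coefficient of the addition biquadratic. -/
def S58BQ_g2 (x₁ x₂ : R) : R :=
  x₁ ^ 2 * x₂ ^ 2 - W.b₄ * x₁ * x₂ - W.b₆ * (x₁ + x₂) - W.b₈

/-- The first Bezout cofactor. -/
def S58BQ_U (x : R) : R := 12 * x ^ 3 - W.b₂ * x ^ 2 - 10 * W.b₄ * x - 27 * W.b₆ + W.b₂ * W.b₄

/-- The second Bezout cofactor. -/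
def S58BQ_V (x : R) : R := -48 * x ^ 2 - 8 * W.b₂ * x - 32 * W.b₄ + W.b₂ ^ 2

/-- **The no-common-zero certificate**: `U f + V g = Δ`, with the discriminant itself. -/
theorem S58BQ_cert (x : R) :
    S58BQ_U W x * S58BQ_f W x + S58BQ_V W x * S58BQ_g W x = W.Δ := by
  have h := W.b_relation
  simp only [S58BQ_U, S58BQ_V, S58BQ_f, S58BQ_g, WeierstrassCurve.Δ]
  linear_combination (12 * x ^ 2 + 2 * W.b₂ * x + 8 * W.b₄) * h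

/-- Explicit form of the certificate. -/
theorem S58BQ_cert' (x : R) :
    (12 * x ^ 3 - W.b₂ * x ^ 2 - 10 * W.b₄ * x - 27 * W.b₆ + W.b₂ * W.b₄) *
        (4 * x ^ 3 + W.b₂ * x ^ 2 + 2 * W.b₄ * x + W.b₆) +
      (-48 * x ^ 2 - 8 * W.b₂ * x - 32 * W.b₄ + W.b₂ ^ 2) *
        (x ^ 4 - W.b₄ * x ^ 2 - 2 * W.b₆ * x - W.b₈) = W.Δ :=
  S58BQ_cert W x

theorem S58BQ_diag_g1 (x : R) : S58BQ_g1 W x x = S58BQ_f W x := by
  simp only [S58BQ_g1, S58BQ_f]; ring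

theorem S58BQ_diag_g2 (x : R) : S58BQ_g2 W x x = S58BQ_g W x := by
  simp only [S58BQ_g2, S58BQ_g]; ring

theorem S58BQ_g1_symm (x₁ x₂ : R) : S58BQ_g1 W x₁ x₂ = S58BQ_g1 W x₂ x₁ := by
  simp only [S58BQ_g1]; ring

theorem S58BQ_g2_symm (x₁ x₂ : R) : S58BQ_g2 W x₁ x₂ = S58BQ_g2 W x₂ x₁ := by
  simp only [S58BQ_g2]; ring

/-- If `f x` and `g x` both lie in an ideal then so does `Δ`. -/
theorem S58BQ_Δ_mem (I : Ideal R) (x : R) (hf : S58BQ_f W x ∈ I) (hg : S58BQ_g W x ∈ I) :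
    W.Δ ∈ I := by
  rw [← S58BQ_cert W x]
  exact I.add_mem (I.mul_mem_left _ hf) (I.mul_mem_left _ hg)

/-- `f` and `g` have no common zero when `Δ ≠ 0`. -/
theorem S58BQ_no_common_zero (hΔ : W.Δ ≠ 0) (x : R) :
    ¬ (S58BQ_f W x = 0 ∧ S58BQ_g W x = 0) := by
  rintro ⟨hf, hg⟩
  apply hΔ
  rw [← S58BQ_cert W x, hf, hg]; simp

/-- `f` and `g` generate the unit ideal when `Δ` is a unit. -/
theorem S58BQ_isCoprime (hΔ : IsUnit W.Δ) (x : R) : IsCoprime (S58BQ_f W x) (S58BQ_g W x) := by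
  obtain ⟨u, hu⟩ := hΔ
  refine ⟨(↑u⁻¹ : R) * S58BQ_U W x, (↑u⁻¹ : R) * S58BQ_V W x, ?_⟩
  have h := S58BQ_cert W x
  calc (↑u⁻¹ : R) * S58BQ_U W x * S58BQ_f W x + (↑u⁻¹ : R) * S58BQ_V W x * S58BQ_g W x
      = (↑u⁻¹ : R) * (S58BQ_U W x * S58BQ_f W x + S58BQ_V W x * S58BQ_g W x) := by ring
    _ = (↑u⁻¹ : R) * (↑u : R) := by rw [h, hu]
    _ = 1 := by simp

/-- Numerator form of the sum relation, over a commutative ring. -/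
theorem S58BQ_sum_num {x₁ y₁ x₂ y₂ : R}
    (h₁ : y₁ ^ 2 + W.a₁ * x₁ * y₁ + W.a₃ * y₁ = x₁ ^ 3 + W.a₂ * x₁ ^ 2 + W.a₄ * x₁ + W.a₆)
    (h₂ : y₂ ^ 2 + W.a₁ * x₂ * y₂ + W.a₃ * y₂ = x₂ ^ 3 + W.a₂ * x₂ ^ 2 + W.a₄ * x₂ + W.a₆) :
    ((y₁ - y₂) ^ 2 + W.a₁ * (y₁ - y₂) * (x₁ - x₂) - (W.a₂ + x₁ + x₂) * (x₁ - x₂) ^ 2) +
      ((y₁ + y₂ + W.a₁ * x₂ + W.a₃) ^ 2 + W.a₁ * (y₁ + y₂ + W.a₁ * x₂ + W.a₃) * (x₁ - x₂) -
        (W.a₂ + x₁ + x₂) * (x₁ - x₂) ^ 2) = S58BQ_g1 W x₁ x₂ := by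
  simp only [S58BQ_g1, WeierstrassCurve.b₂, WeierstrassCurve.b₄, WeierstrassCurve.b₆]
  linear_combination 2 * h₁ + 2 * h₂

/-- Numerator form of the product relation, over a commutative ring. -/
theorem S58BQ_prod_num {x₁ y₁ x₂ y₂ : R}
    (h₁ : y₁ ^ 2 + W.a₁ * x₁ * y₁ + W.a₃ * y₁ = x₁ ^ 3 + W.a₂ * x₁ ^ 2 + W.a₄ * x₁ + W.a₆)
    (h₂ : y₂ ^ 2 + W.a₁ * x₂ * y₂ + W.a₃ * y₂ = x₂ ^ 3 + W.a₂ * x₂ ^ 2 + W.a₄ * x₂ + W.a₆) :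
    ((y₁ - y₂) ^ 2 + W.a₁ * (y₁ - y₂) * (x₁ - x₂) - (W.a₂ + x₁ + x₂) * (x₁ - x₂) ^ 2) *
      ((y₁ + y₂ + W.a₁ * x₂ + W.a₃) ^ 2 + W.a₁ * (y₁ + y₂ + W.a₁ * x₂ + W.a₃) * (x₁ - x₂) -
        (W.a₂ + x₁ + x₂) * (x₁ - x₂) ^ 2) = S58BQ_g2 W x₁ x₂ * (x₁ - x₂) ^ 2 := by
  simp only [S58BQ_g2, WeierstrassCurve.b₄, WeierstrassCurve.b₆, WeierstrassCurve.b₈]
  linear_combination
    ((-2) * y₂ ^ 2 + (-2) * x₂ ^ 3 + (1) * y₁ ^ 2 + (2) * x₁ * x₂ ^ 2 + (2) * x₁ ^ 2 * x₂ +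
      (-1) * x₁ ^ 3 + (1) * W.a₆ + (1) * W.a₄ * x₁ + (-2) * W.a₃ * y₂ + (1) * W.a₃ * y₁ +
      (-2) * W.a₂ * x₂ ^ 2 + (4) * W.a₂ * x₁ * x₂ + (-1) * W.a₂ * x₁ ^ 2 +
      (-2) * W.a₁ * x₂ * y₂ + (1) * W.a₁ * x₁ * y₁ + (-1) * W.a₁ * W.a₃ * x₂ +
      (1) * W.a₁ * W.a₃ * x₁ + (-1) * W.a₁ ^ 2 * x₂ ^ 2 + (1) * W.a₁ ^ 2 * x₁ * x₂) * h₁ +
    ((1) * y₂ ^ 2 + (-1) * x₂ ^ 3 + (2) * x₁ * x₂ ^ 2 + (2) * x₁ ^ 2 * x₂ + (-4) * x₁ ^ 3 +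
      (-1) * W.a₆ + (1) * W.a₄ * x₂ + (-2) * W.a₄ * x₁ + (1) * W.a₃ * y₂ +
      (-1) * W.a₂ * x₂ ^ 2 + (4) * W.a₂ * x₁ * x₂ + (-4) * W.a₂ * x₁ ^ 2 +
      (1) * W.a₁ * x₂ * y₂ + (1) * W.a₁ * W.a₃ * x₂ + (-1) * W.a₁ * W.a₃ * x₁ +
      (1) * W.a₁ ^ 2 * x₁ * x₂ + (-1) * W.a₁ ^ 2 * x₁ ^ 2) * h₂

/-- On the curve, `f x = (2y + a₁x + a₃)²`. -/
theorem S58BQ_f_eq_sq_num {x y : R}
    (h : y ^ 2 + W.a₁ * x * y + W.a₃ * y = x ^ 3 + W.a₂ * x ^ 2 + W.a₄ * x + W.a₆) :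
    S58BQ_f W x = (2 * y + W.a₁ * x + W.a₃) ^ 2 := by
  simp only [S58BQ_f, WeierstrassCurve.b₂, WeierstrassCurve.b₄, WeierstrassCurve.b₆]
  linear_combination (-4) * h

/-- Numerator form of the duplication formula, over a commutative ring. -/
theorem S58BQ_dup_num {x y : R}
    (h : y ^ 2 + W.a₁ * x * y + W.a₃ * y = x ^ 3 + W.a₂ * x ^ 2 + W.a₄ * x + W.a₆) :
    (3 * x ^ 2 + 2 * W.a₂ * x + W.a₄ - W.a₁ * y) ^ 2 +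
      W.a₁ * (3 * x ^ 2 + 2 * W.a₂ * x + W.a₄ - W.a₁ * y) * (2 * y + W.a₁ * x + W.a₃) -
      (W.a₂ + 2 * x) * (2 * y + W.a₁ * x + W.a₃) ^ 2 = S58BQ_g W x := by
  simp only [S58BQ_g, WeierstrassCurve.b₄, WeierstrassCurve.b₆, WeierstrassCurve.b₈]
  linear_combination (-(8 * x + W.a₁ ^ 2 + 4 * W.a₂)) * h

end Ring

section Field

variable {F : Type*} [Field F] (W : WeierstrassCurve F)

/-- `x(P + Q) + x(P − Q) = g1 / (x₁ − x₂)²`. -/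
theorem S58BQ_sum [DecidableEq F] {x₁ y₁ x₂ y₂ : F} (h₁ : W.toAffine.Equation x₁ y₁)
    (h₂ : W.toAffine.Equation x₂ y₂) (hx : x₁ ≠ x₂) :
    (W.toAffine.addX x₁ x₂ (W.toAffine.slope x₁ x₂ y₁ y₂) +
        W.toAffine.addX x₁ x₂ (W.toAffine.slope x₁ x₂ y₁ (W.toAffine.negY x₂ y₂))) *
      (x₁ - x₂) ^ 2 = S58BQ_g1 W x₁ x₂ := by
  have hd : x₁ - x₂ ≠ 0 := sub_ne_zero.mpr hx
  rw [WeierstrassCurve.Affine.equation_iff] at h₁ h₂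
  rw [WeierstrassCurve.Affine.slope_of_X_ne hx, WeierstrassCurve.Affine.slope_of_X_ne hx]
  rw [← S58BQ_sum_num W h₁ h₂]
  simp only [WeierstrassCurve.Affine.addX, WeierstrassCurve.Affine.negY]
  field_simp
  ring

/-- `x(P + Q) · x(P − Q) = g2 / (x₁ − x₂)²`. -/
theorem S58BQ_prod [DecidableEq F] {x₁ y₁ x₂ y₂ : F} (h₁ : W.toAffine.Equation x₁ y₁)
    (h₂ : W.toAffine.Equation x₂ y₂) (hx : x₁ ≠ x₂) :
    (W.toAffine.addX x₁ x₂ (W.toAffine.slope x₁ x₂ y₁ y₂) *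
        W.toAffine.addX x₁ x₂ (W.toAffine.slope x₁ x₂ y₁ (W.toAffine.negY x₂ y₂))) *
      (x₁ - x₂) ^ 2 = S58BQ_g2 W x₁ x₂ := by
  have hd : x₁ - x₂ ≠ 0 := sub_ne_zero.mpr hx
  have hd2 : (x₁ - x₂) ^ 2 ≠ 0 := pow_ne_zero 2 hd
  rw [WeierstrassCurve.Affine.equation_iff] at h₁ h₂
  have key := S58BQ_prod_num W h₁ h₂
  rw [WeierstrassCurve.Affine.slope_of_X_ne hx, WeierstrassCurve.Affine.slope_of_X_ne hx]
  apply mul_right_cancel₀ hd2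
  rw [← key]
  simp only [WeierstrassCurve.Affine.addX, WeierstrassCurve.Affine.negY]
  field_simp
  ring

/-- On the curve, `f x = (y − negY x y)²`. -/
theorem S58BQ_f_eq_sq {x y : F} (h : W.toAffine.Equation x y) :
    S58BQ_f W x = (y - W.toAffine.negY x y) ^ 2 := by
  rw [WeierstrassCurve.Affine.equation_iff] at h
  rw [S58BQ_f_eq_sq_num W h]
  simp only [WeierstrassCurve.Affine.negY]
  ring

/-- `f x ≠ 0` at a point which is not of order 2. -/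
theorem S58BQ_f_ne_zero {x y : F} (h : W.toAffine.Equation x y)
    (hy : y ≠ W.toAffine.negY x y) : S58BQ_f W x ≠ 0 := by
  rw [S58BQ_f_eq_sq W h]
  exact pow_ne_zero 2 (sub_ne_zero.mpr hy)

/-- `f x = 0` at a point of order 2. -/
theorem S58BQ_f_eq_zero {x y : F} (h : W.toAffine.Equation x y)
    (hy : y = W.toAffine.negY x y) : S58BQ_f W x = 0 := by
  rw [S58BQ_f_eq_sq W h, ← hy]; simp

/-- **Duplication formula**: `x(2P) · f(x) = g(x)`. -/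
theorem S58BQ_dup [DecidableEq F] {x y : F} (h : W.toAffine.Equation x y) (hy : y ≠ W.toAffine.negY x y) :
    W.toAffine.addX x x (W.toAffine.slope x x y y) * S58BQ_f W x = S58BQ_g W x := by
  have hd : y - W.toAffine.negY x y ≠ 0 := sub_ne_zero.mpr hy
  rw [S58BQ_f_eq_sq W h]
  rw [WeierstrassCurve.Affine.equation_iff] at h
  rw [WeierstrassCurve.Affine.slope_of_Y_ne rfl hy, ← S58BQ_dup_num W h]
  have e : (2 * y + W.a₁ * x + W.a₃) = y - W.toAffine.negY x y := by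
    simp only [WeierstrassCurve.Affine.negY]; ring
  rw [e]
  simp only [WeierstrassCurve.Affine.addX]
  field_simp
  ring

/-- `g x ≠ 0` at a point of order 2 when `Δ ≠ 0`. -/
theorem S58BQ_g_ne_zero (hΔ : W.Δ ≠ 0) {x y : F} (h : W.toAffine.Equation x y)
    (hy : y = W.toAffine.negY x y) : S58BQ_g W x ≠ 0 := fun hg =>
  S58BQ_no_common_zero W hΔ x ⟨S58BQ_f_eq_zero W h hy, hg⟩

end Field

section Point

variable {F : Type*} [Field F] [DecidableEq F] (W : WeierstrassCurve F)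

open WeierstrassCurve.Affine in
/-- **Point form of the addition biquadratic**: for affine points `P = (x₁, y₁)`, `Q = (x₂, y₂)`
with `x₁ ≠ x₂`, the points `P + Q` and `P − Q` are affine and their `x`-coordinates `x₃`, `x₄`
are the two roots of `(x₁ − x₂)² T² − g1 T + g2`. -/
theorem S58BQ_point_add_sub {x₁ y₁ x₂ y₂ : F} (h₁ : W.toAffine.Nonsingular x₁ y₁)
    (h₂ : W.toAffine.Nonsingular x₂ y₂) (hx : x₁ ≠ x₂) :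
    ∃ x₃ y₃ x₄ y₄ : F, ∃ (h₃ : W.toAffine.Nonsingular x₃ y₃) (h₄ : W.toAffine.Nonsingular x₄ y₄),
      Point.some _ _ h₁ + Point.some _ _ h₂ = Point.some _ _ h₃ ∧
      Point.some _ _ h₁ - Point.some _ _ h₂ = Point.some _ _ h₄ ∧
      (x₃ + x₄) * (x₁ - x₂) ^ 2 = S58BQ_g1 W x₁ x₂ ∧
      x₃ * x₄ * (x₁ - x₂) ^ 2 = S58BQ_g2 W x₁ x₂ := by
  have h₂' : W.toAffine.Nonsingular x₂ (W.toAffine.negY x₂ y₂) :=
    (WeierstrassCurve.Affine.nonsingular_neg ..).mpr h₂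
  refine ⟨_, _, _, _, WeierstrassCurve.Affine.nonsingular_add h₁ h₂ (fun h => hx h.1),
    WeierstrassCurve.Affine.nonsingular_add h₁ h₂' (fun h => hx h.1),
    Point.add_of_X_ne hx, ?_, S58BQ_sum W h₁.1 h₂.1 hx, S58BQ_prod W h₁.1 h₂.1 hx⟩
  rw [sub_eq_add_neg, Point.neg_some, Point.add_of_X_ne hx]

open WeierstrassCurve.Affine in
/-- **Point form of the duplication formula**: for an affine point `P = (x₁, y₁)` which is not of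
order 2, the point `2P` is affine and `x(2P) · f(x₁) = g(x₁)`, with `f(x₁) ≠ 0`. -/
theorem S58BQ_point_dup {x₁ y₁ : F} (h₁ : W.toAffine.Nonsingular x₁ y₁)
    (hy : y₁ ≠ W.toAffine.negY x₁ y₁) :
    ∃ x₃ y₃ : F, ∃ (h₃ : W.toAffine.Nonsingular x₃ y₃),
      Point.some _ _ h₁ + Point.some _ _ h₁ = Point.some _ _ h₃ ∧
      x₃ * S58BQ_f W x₁ = S58BQ_g W x₁ ∧ S58BQ_f W x₁ ≠ 0 :=
  ⟨_, _, WeierstrassCurve.Affine.nonsingular_add h₁ h₁ (fun h => hy h.2),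
    Point.add_self_of_Y_ne hy, S58BQ_dup W h₁.1 hy, S58BQ_f_ne_zero W h₁.1 hy⟩

open WeierstrassCurve.Affine in
/-- A point with `y₁ = negY x₁ y₁` has order dividing 2, and then `f(x₁) = 0`, `g(x₁) ≠ 0` when
`Δ ≠ 0`: so `x(2P) = [g : f]` is the point at infinity of `P¹`, consistently. -/
theorem S58BQ_point_two_torsion (hΔ : W.Δ ≠ 0) {x₁ y₁ : F} (h₁ : W.toAffine.Nonsingular x₁ y₁)
    (hy : y₁ = W.toAffine.negY x₁ y₁) :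
    Point.some _ _ h₁ + Point.some _ _ h₁ = 0 ∧ S58BQ_f W x₁ = 0 ∧ S58BQ_g W x₁ ≠ 0 :=
  ⟨Point.add_self_of_Y_eq hy, S58BQ_f_eq_zero W h₁.1 hy, S58BQ_g_ne_zero W hΔ h₁.1 hy⟩

end Point

end Fermat.Agent.S58_helper10_BIQ
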