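import Mathlib

/-!
# S58 [HENSQ]: Hensel's lemma for a quadratic, and invariance of the nearby root

For a valuation `v` on a field `K` and a quadratic `h = a (X - r₁)(X - r₂)` with `v a ≤ 1`:
if `h(x)` is small (`v (h x) < 1`) and `h'(x)` is a unit (`v (h' x) = 1`), then exactly one of the
two roots is near `x`.  Consequently the root near `x` is unique, and it is fixed by every
automorphism preserving `v`, fixing the coefficients and moving `x` by a small amount.
-/

namespace Fermat.Agent.S58_helper10_HENSQ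

variable {K : Type*} [Field K] {Γ₀ : Type*} [LinearOrderedCommGroupWithZero Γ₀]
  (v : Valuation K Γ₀)

/-- **Core**: exactly one of the two roots is near `x`. -/
theorem S58HQ_core (a r₁ r₂ x : K) (ha : v a ≤ 1)
    (hsmall : v (a * (x - r₁) * (x - r₂)) < 1)
    (hder : v (a * ((x - r₁) + (x - r₂))) = 1) :
    (v (x - r₁) < 1 ∧ 1 ≤ v (x - r₂)) ∨ (v (x - r₂) < 1 ∧ 1 ≤ v (x - r₁)) := by
  -- not both small
  have hnot : ¬ (v (x - r₁) < 1 ∧ v (x - r₂) < 1) := by
    rintro ⟨h1, h2⟩
    have h3 : v ((x - r₁) + (x - r₂)) < 1 := lt_of_le_of_lt (v.map_add _ _) (max_lt h1 h2)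
    have h4 : v (a * ((x - r₁) + (x - r₂))) < 1 := by
      rw [map_mul]
      calc v a * v ((x - r₁) + (x - r₂)) ≤ 1 * v ((x - r₁) + (x - r₂)) :=
            mul_le_mul' ha le_rfl
        _ = v ((x - r₁) + (x - r₂)) := one_mul _
        _ < 1 := h3
    exact absurd hder (ne_of_lt h4)
  -- not both large
  have hnot' : ¬ (1 ≤ v (x - r₁) ∧ 1 ≤ v (x - r₂)) := by
    rintro ⟨h1, h2⟩
    -- v (a * (p1 + p2)) = 1 gives 1 ≤ v a * max (v p1) (v p2)
    have h5 : (1 : Γ₀) ≤ v a * max (v (x - r₁)) (v (x - r₂)) := by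
      rw [← hder, map_mul]
      exact mul_le_mul' le_rfl (v.map_add _ _)
    -- hence v (a p1 p2) ≥ min (v p1) (v p2) ≥ 1
    have h6 : (1 : Γ₀) ≤ v (a * (x - r₁) * (x - r₂)) := by
      rw [map_mul, map_mul]
      rcases le_total (v (x - r₁)) (v (x - r₂)) with hle | hle
      · rw [max_eq_right hle] at h5
        calc (1 : Γ₀) ≤ v (x - r₁) := h1
          _ = 1 * v (x - r₁) := (one_mul _).symm
          _ ≤ (v a * v (x - r₂)) * v (x - r₁) := mul_le_mul' h5 le_rfl
          _ = v a * v (x - r₁) * v (x - r₂) := mul_right_comm _ _ _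
      · rw [max_eq_left hle] at h5
        calc (1 : Γ₀) ≤ v (x - r₂) := h2
          _ = 1 * v (x - r₂) := (one_mul _).symm
          _ ≤ (v a * v (x - r₁)) * v (x - r₂) := mul_le_mul' h5 le_rfl
    exact absurd hsmall (not_lt.mpr h6)
  by_cases h1 : v (x - r₁) < 1
  · left
    refine ⟨h1, ?_⟩
    by_contra h2
    exact hnot ⟨h1, not_le.mp h2⟩
  · right
    have h1' : 1 ≤ v (x - r₁) := not_lt.mp h1
    refine ⟨?_, h1'⟩
    by_contra h2
    exact hnot' ⟨h1', not_lt.mp h2⟩

/-- A quadratic over an algebraically closed field splits. -/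
theorem S58HQ_split [IsAlgClosed K] (a b c : K) (ha0 : a ≠ 0) :
    ∃ r₁ r₂ : K, ∀ t : K, a * t ^ 2 + b * t + c = a * (t - r₁) * (t - r₂) := by
  obtain ⟨r₁, hr₁⟩ := IsAlgClosed.exists_root
    (Polynomial.C a * Polynomial.X ^ 2 + Polynomial.C b * Polynomial.X + Polynomial.C c)
    (by rw [Polynomial.degree_quadratic ha0]; norm_num)
  have h1 : a * r₁ ^ 2 + b * r₁ + c = 0 := by
    simpa [Polynomial.IsRoot, Polynomial.eval_add, Polynomial.eval_mul, Polynomial.eval_pow] using hr₁
  refine ⟨r₁, -b / a - r₁, fun t => ?_⟩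
  field_simp
  linear_combination h1

/-- Splitting form of the main statement: the root near `x` exists and is unique. -/
theorem S58HQ_exists_unique_of_split (a b c r₁ r₂ x : K) (ha0 : a ≠ 0) (ha : v a ≤ 1)
    (hsplit : ∀ t : K, a * t ^ 2 + b * t + c = a * (t - r₁) * (t - r₂))
    (hsmall : v (a * x ^ 2 + b * x + c) < 1) (hder : v (2 * a * x + b) = 1) :
    ∃! r : K, (a * r ^ 2 + b * r + c = 0 ∧ v (x - r) < 1) := by
  have hb : b = -(a * (r₁ + r₂)) := by
    have h0 := hsplit 0
    have h1 := hsplit 1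
    linear_combination h1 - h0
  have hroots : ∀ r : K, a * r ^ 2 + b * r + c = 0 → r = r₁ ∨ r = r₂ := by
    intro r hr
    rw [hsplit r] at hr
    rcases mul_eq_zero.mp hr with h | h
    · rcases mul_eq_zero.mp h with h | h
      · exact absurd h ha0
      · exact Or.inl (sub_eq_zero.mp h)
    · exact Or.inr (sub_eq_zero.mp h)
  have hr₁ : a * r₁ ^ 2 + b * r₁ + c = 0 := by rw [hsplit r₁]; ring
  have hr₂ : a * r₂ ^ 2 + b * r₂ + c = 0 := by rw [hsplit r₂]; ring
  have hsmall' : v (a * (x - r₁) * (x - r₂)) < 1 := by rw [← hsplit x]; exact hsmall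
  have hder' : v (a * ((x - r₁) + (x - r₂))) = 1 := by
    have e : a * ((x - r₁) + (x - r₂)) = 2 * a * x + b := by rw [hb]; ring
    rw [e]; exact hder
  rcases S58HQ_core v a r₁ r₂ x ha hsmall' hder' with ⟨h1, h2⟩ | ⟨h1, h2⟩
  · refine ⟨r₁, ⟨hr₁, h1⟩, ?_⟩
    rintro r ⟨hr, hrx⟩
    rcases hroots r hr with rfl | rfl
    · rfl
    · exact absurd hrx (not_lt.mpr h2)
  · refine ⟨r₂, ⟨hr₂, h1⟩, ?_⟩
    rintro r ⟨hr, hrx⟩
    rcases hroots r hr with rfl | rfl
    · exact absurd hrx (not_lt.mpr h2)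
    · rfl

/-- **Hensel for a quadratic** over an algebraically closed field: if `h(x)` is small and `h'(x)`
is a unit, there is exactly one root of `h` near `x`. -/
theorem S58HQ_exists_unique [IsAlgClosed K] (a b c x : K) (ha0 : a ≠ 0) (ha : v a ≤ 1)
    (hsmall : v (a * x ^ 2 + b * x + c) < 1) (hder : v (2 * a * x + b) = 1) :
    ∃! r : K, (a * r ^ 2 + b * r + c = 0 ∧ v (x - r) < 1) := by
  obtain ⟨r₁, r₂, hsplit⟩ := S58HQ_split a b c ha0
  exact S58HQ_exists_unique_of_split v a b c r₁ r₂ x ha0 ha hsplit hsmall hder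

/-- **Invariance of the nearby root**: an automorphism which preserves the valuation, fixes the
coefficients of `h` and moves `x` by a small amount fixes the root of `h` near `x`. -/
theorem S58HQ_fixed [IsAlgClosed K] (a b c x : K) (ha0 : a ≠ 0) (ha : v a ≤ 1)
    (hsmall : v (a * x ^ 2 + b * x + c) < 1) (hder : v (2 * a * x + b) = 1)
    (τ : K ≃+* K) (hv : ∀ z, v (τ z) = v z) (hτx : v (τ x - x) < 1)
    (hτa : τ a = a) (hτb : τ b = b) (hτc : τ c = c)
    (r : K) (hr : a * r ^ 2 + b * r + c = 0) (hrx : v (x - r) < 1) : τ r = r := by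
  obtain ⟨r₀, -, huniq⟩ := S58HQ_exists_unique v a b c x ha0 ha hsmall hder
  have h1 : r = r₀ := huniq r ⟨hr, hrx⟩
  have h2 : τ r = r₀ := by
    apply huniq
    constructor
    · have := congrArg τ hr
      simpa [map_add, map_mul, map_pow, hτa, hτb, hτc] using this
    · have e : x - τ r = -(τ x - x) + τ (x - r) := by rw [map_sub]; ring
      rw [e]
      refine lt_of_le_of_lt (v.map_add _ _) (max_lt ?_ ?_)
      · rw [Valuation.map_neg]; exact hτx
      · rw [hv]; exact hrx
  rw [h2, h1]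

/-- The same for a ring homomorphism form of the automorphism (e.g. an algebra automorphism). -/
theorem S58HQ_fixed_algEquiv {k : Type*} [Field k] [Algebra k K] [IsAlgClosed K]
    (a b c x : K) (ha0 : a ≠ 0) (ha : v a ≤ 1)
    (hsmall : v (a * x ^ 2 + b * x + c) < 1) (hder : v (2 * a * x + b) = 1)
    (τ : K ≃ₐ[k] K) (hv : ∀ z, v (τ z) = v z) (hτx : v (τ x - x) < 1)
    (hτa : τ a = a) (hτb : τ b = b) (hτc : τ c = c)
    (r : K) (hr : a * r ^ 2 + b * r + c = 0) (hrx : v (x - r) < 1) : τ r = r :=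
  S58HQ_fixed v a b c x ha0 ha hsmall hder τ.toRingEquiv hv hτx hτa hτb hτc r hr hrx

/-- The degenerate (linear) case `a = 0`. -/
theorem S58HQ_exists_unique_linear (b c x : K)
    (hsmall : v (b * x + c) < 1) (hder : v b = 1) :
    ∃! r : K, (b * r + c = 0 ∧ v (x - r) < 1) := by
  have hb0 : b ≠ 0 := by
    rintro rfl
    rw [map_zero] at hder
    exact zero_ne_one hder
  refine ⟨-c / b, ⟨by field_simp; ring, ?_⟩, ?_⟩
  · have e : x - -c / b = (b * x + c) / b := by field_simp; ring
    rw [e, map_div₀, hder, div_one]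
    exact hsmall
  · rintro r ⟨hr, -⟩
    field_simp
    linear_combination hr

/-- **Hensel for a polynomial of degree ≤ 2** (the leading coefficient may vanish). -/
theorem S58HQ_exists_unique' [IsAlgClosed K] (a b c x : K) (ha : v a ≤ 1)
    (hsmall : v (a * x ^ 2 + b * x + c) < 1) (hder : v (2 * a * x + b) = 1) :
    ∃! r : K, (a * r ^ 2 + b * r + c = 0 ∧ v (x - r) < 1) := by
  by_cases ha0 : a = 0
  · subst ha0
    have h1 : v (b * x + c) < 1 := by simpa using hsmall
    have h2 : v b = 1 := by simpa using hder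
    simpa using S58HQ_exists_unique_linear v b c x h1 h2
  · exact S58HQ_exists_unique v a b c x ha0 ha hsmall hder

/-- Invariance of the nearby root, degree ≤ 2. -/
theorem S58HQ_fixed' [IsAlgClosed K] (a b c x : K) (ha : v a ≤ 1)
    (hsmall : v (a * x ^ 2 + b * x + c) < 1) (hder : v (2 * a * x + b) = 1)
    (τ : K →+* K) (hv : ∀ z, v (τ z) = v z) (hτx : v (τ x - x) < 1)
    (hτa : τ a = a) (hτb : τ b = b) (hτc : τ c = c)
    (r : K) (hr : a * r ^ 2 + b * r + c = 0) (hrx : v (x - r) < 1) : τ r = r := by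
  obtain ⟨r₀, -, huniq⟩ := S58HQ_exists_unique' v a b c x ha hsmall hder
  have h1 : r = r₀ := huniq r ⟨hr, hrx⟩
  have h2 : τ r = r₀ := by
    apply huniq
    constructor
    · have := congrArg τ hr
      simpa [map_add, map_mul, map_pow, hτa, hτb, hτc] using this
    · have e : x - τ r = -(τ x - x) + τ (x - r) := by rw [map_sub]; ring
      rw [e]
      refine lt_of_le_of_lt (v.map_add _ _) (max_lt ?_ ?_)
      · rw [Valuation.map_neg]; exact hτx
      · rw [hv]; exact hrx
  rw [h2, h1]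

/-- A point near an integral point is integral. -/
theorem S58HQ_integral_of_near (x r : K) (hx : v x ≤ 1) (hrx : v (x - r) < 1) : v r ≤ 1 := by
  have e : r = x + -(x - r) := by ring
  rw [e]
  refine le_trans (v.map_add _ _) (max_le hx ?_)
  rw [Valuation.map_neg]
  exact le_of_lt hrx

/-- Two points near the same point are near each other. -/
theorem S58HQ_near_trans (x r s : K) (hrx : v (x - r) < 1) (hsx : v (x - s) < 1) :
    v (r - s) < 1 := by
  have e : r - s = -(x - r) + (x - s) := by ring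
  rw [e]
  refine lt_of_le_of_lt (v.map_add _ _) (max_lt ?_ hsx)
  rw [Valuation.map_neg]
  exact hrx

end Fermat.Agent.S58_helper10_HENSQ
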