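import Fermat.Agent.S58_helper10_HENSQ

/-!
# S58 [HENSQ], inertia form

The invariance of the nearby root in the hypothesis shape of the inertia group:
`hτ : ∀ z, v z ≤ 1 → v (τ z - z) < 1` (no invariance of the valuation is assumed).
-/

namespace Fermat.Agent.S58_helper10_HENSQ2

open Fermat.Agent.S58_helper10_HENSQ

variable {K : Type*} [Field K] {Γ₀ : Type*} [LinearOrderedCommGroupWithZero Γ₀]
  (v : Valuation K Γ₀)

/-- An endomorphism which moves integral elements by a small amount preserves smallness. -/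
theorem S58HI_small (τ : K →+* K) (hτ : ∀ z, v z ≤ 1 → v (τ z - z) < 1) (z : K) (hz : v z < 1) :
    v (τ z) < 1 := by
  have e : τ z = (τ z - z) + z := by ring
  rw [e]
  exact lt_of_le_of_lt (v.map_add _ _) (max_lt (hτ z (le_of_lt hz)) hz)

/-- An endomorphism which moves integral elements by a small amount preserves integrality. -/
theorem S58HI_integral (τ : K →+* K) (hτ : ∀ z, v z ≤ 1 → v (τ z - z) < 1) (z : K) (hz : v z ≤ 1) :
    v (τ z) ≤ 1 := by
  have e : τ z = (τ z - z) + z := by ring
  rw [e]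
  exact le_trans (v.map_add _ _) (max_le (le_of_lt (hτ z hz)) hz)

/-- **Invariance of the nearby root, inertia form**: the unique root of `a X² + b X + c` near the
integral point `x` is fixed by every ring endomorphism `τ` which fixes the coefficients and moves
integral elements by a small amount. -/
theorem S58HI_fixed [IsAlgClosed K] (a b c x : K) (ha : v a ≤ 1) (hx : v x ≤ 1)
    (hsmall : v (a * x ^ 2 + b * x + c) < 1) (hder : v (2 * a * x + b) = 1)
    (τ : K →+* K) (hτ : ∀ z, v z ≤ 1 → v (τ z - z) < 1)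
    (hτa : τ a = a) (hτb : τ b = b) (hτc : τ c = c)
    (r : K) (hr : a * r ^ 2 + b * r + c = 0) (hrx : v (x - r) < 1) : τ r = r := by
  obtain ⟨r₀, -, huniq⟩ := S58HQ_exists_unique' v a b c x ha hsmall hder
  have h1 : r = r₀ := huniq r ⟨hr, hrx⟩
  have h2 : τ r = r₀ := by
    apply huniq
    constructor
    · have := congrArg τ hr
      simpa [map_add, map_mul, map_pow, hτa, hτb, hτc] using this
    · have e : x - τ r = -(τ x - x) + τ (x - r) := by rw [map_sub]; ring
      rw [e]
      refine lt_of_le_of_lt (v.map_add _ _) (max_lt ?_ ?_)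
      · rw [Valuation.map_neg]; exact hτ x hx
      · exact S58HI_small v τ hτ _ hrx
  rw [h2, h1]

/-- **Hensel + invariance in one statement** (degree ≤ 2, any characteristic): the nearby root
exists, is integral, is unique, and is fixed by every `τ` as above. -/
theorem S58HI_main [IsAlgClosed K] (a b c x : K) (ha : v a ≤ 1) (hx : v x ≤ 1)
    (hsmall : v (a * x ^ 2 + b * x + c) < 1) (hder : v (2 * a * x + b) = 1) :
    ∃ r : K, a * r ^ 2 + b * r + c = 0 ∧ v (x - r) < 1 ∧ v r ≤ 1 ∧
      (∀ s : K, a * s ^ 2 + b * s + c = 0 → v (x - s) < 1 → s = r) ∧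
      ∀ τ : K →+* K, (∀ z, v z ≤ 1 → v (τ z - z) < 1) → τ a = a → τ b = b → τ c = c →
        τ r = r := by
  obtain ⟨r, ⟨hr, hrx⟩, huniq⟩ := S58HQ_exists_unique' v a b c x ha hsmall hder
  exact ⟨r, hr, hrx, S58HQ_integral_of_near v x r hx hrx, fun s hs hsx => huniq s ⟨hs, hsx⟩,
    fun τ hτ hτa hτb hτc => S58HI_fixed v a b c x ha hx hsmall hder τ hτ hτa hτb hτc r hr hrx⟩

end Fermat.Agent.S58_helper10_HENSQ2
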