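import Mathlib

/-!
# S58 [PF-ELL]: the function field of a Weierstrass curve over `k(x)`

For a Weierstrass curve `W` over a field `k` (any characteristic), `K := W.toAffine.FunctionField`,
`x := algebraMap k[X] K X`, `y :=` the class of `Y`:

* `S58FE_transcendental` : `x` is transcendental over `k`,
* `S58FE_finite`         : `K` is finite-dimensional over `k(x) = IntermediateField.adjoin k {x}`,
* `S58FE_separable`      : `K / k(x)` is separable when `W.Δ ≠ 0`,
* `S58FE_normal`         : `K / k(x)` is normal,
* `S58FE_adjoin_y_eq_top`: `K = k(x)(y)`, and `S58FE_rel`: the Weierstrass equation in `K`.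
-/

open Polynomial

namespace Fermat.Agent.S58_helper10_PFELL

variable {k : Type*} [Field k] (W : WeierstrassCurve k)

/-- The coordinate function `x` of the function field. -/
noncomputable abbrev S58FE_x : W.toAffine.FunctionField :=
  algebraMap (Polynomial k) W.toAffine.FunctionField Polynomial.X

/-- The coordinate function `y` of the function field. -/
noncomputable abbrev S58FE_y : W.toAffine.FunctionField :=
  algebraMap W.toAffine.CoordinateRing W.toAffine.FunctionField
    (WeierstrassCurve.Affine.CoordinateRing.mk W.toAffine Polynomial.X)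

theorem S58FE_algebraMap_injective :
    Function.Injective (algebraMap (Polynomial k) W.toAffine.FunctionField) :=
  FaithfulSMul.algebraMap_injective _ _

theorem S58FE_transcendental :
    Transcendental k (algebraMap (Polynomial k) W.toAffine.FunctionField Polynomial.X) :=
  (transcendental_algebraMap_iff (S58FE_algebraMap_injective W)).mpr (Polynomial.transcendental_X k)

/-- `algebraMap k[X] K p = aeval x p`. -/
theorem S58FE_algebraMap_eq_aeval (p : Polynomial k) :
    algebraMap (Polynomial k) W.toAffine.FunctionField p = Polynomial.aeval (S58FE_x W) p := by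
  have h := Polynomial.aeval_algebraMap_apply (A := Polynomial k) W.toAffine.FunctionField
    (Polynomial.X : Polynomial k) p
  rw [Polynomial.aeval_X_left_apply] at h
  exact h.symm

/-- The image of `mk (C p)` in the function field. -/
theorem S58FE_mk_C (p : Polynomial k) :
    algebraMap W.toAffine.CoordinateRing W.toAffine.FunctionField
      (WeierstrassCurve.Affine.CoordinateRing.mk W.toAffine (Polynomial.C p)) =
    algebraMap (Polynomial k) W.toAffine.FunctionField p := by
  rw [IsScalarTower.algebraMap_apply (Polynomial k) W.toAffine.CoordinateRing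
    W.toAffine.FunctionField]
  rfl

/-- The Weierstrass equation in the function field. -/
theorem S58FE_rel :
    (S58FE_y W) ^ 2 + (algebraMap k W.toAffine.FunctionField W.a₁ * S58FE_x W +
        algebraMap k W.toAffine.FunctionField W.a₃) * S58FE_y W =
      (S58FE_x W) ^ 3 + algebraMap k W.toAffine.FunctionField W.a₂ * (S58FE_x W) ^ 2 +
        algebraMap k W.toAffine.FunctionField W.a₄ * S58FE_x W +
        algebraMap k W.toAffine.FunctionField W.a₆ := by
  have h0 : WeierstrassCurve.Affine.CoordinateRing.mk W.toAffine W.toAffine.polynomial = 0 :=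
    AdjoinRoot.mk_self
  have h1 := congrArg (algebraMap W.toAffine.CoordinateRing W.toAffine.FunctionField) h0
  simp only [WeierstrassCurve.Affine.polynomial, map_sub, map_add, map_mul, map_pow, map_zero,
    S58FE_mk_C] at h1
  have hC : ∀ c : k, algebraMap (Polynomial k) W.toAffine.FunctionField (Polynomial.C c) =
      algebraMap k W.toAffine.FunctionField c := fun c => by
    rw [IsScalarTower.algebraMap_apply k (Polynomial k) W.toAffine.FunctionField]
    rfl
  simp only [hC] at h1
  linear_combination h1

/-- The subfield `k(x)` of the function field. -/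
noncomputable abbrev S58FE_B : IntermediateField k W.toAffine.FunctionField :=
  IntermediateField.adjoin k {algebraMap (Polynomial k) W.toAffine.FunctionField Polynomial.X}

theorem S58FE_x_mem : S58FE_x W ∈ S58FE_B W :=
  IntermediateField.mem_adjoin_simple_self k _

theorem S58FE_algebraMap_mem (p : Polynomial k) :
    algebraMap (Polynomial k) W.toAffine.FunctionField p ∈ S58FE_B W := by
  rw [S58FE_algebraMap_eq_aeval]
  exact IntermediateField.algebra_adjoin_le_adjoin k _
    (Polynomial.aeval_mem_adjoin_singleton k (S58FE_x W))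

/-- `x` as an element of `k(x)`. -/
noncomputable def S58FE_xB : S58FE_B W := ⟨S58FE_x W, S58FE_x_mem W⟩

/-- The Weierstrass polynomial in `T` over `k(x)`. -/
noncomputable def S58FE_P : Polynomial (S58FE_B W) :=
  X ^ 2 + (C (algebraMap k (S58FE_B W) W.a₁ * S58FE_xB W + algebraMap k (S58FE_B W) W.a₃) * X +
    C (-((S58FE_xB W) ^ 3 + algebraMap k (S58FE_B W) W.a₂ * (S58FE_xB W) ^ 2 +
      algebraMap k (S58FE_B W) W.a₄ * S58FE_xB W + algebraMap k (S58FE_B W) W.a₆)))

theorem S58FE_P_monic : (S58FE_P W).Monic :=
  Polynomial.monic_X_pow_add (lt_of_le_of_lt Polynomial.degree_linear_le (by norm_num))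

theorem S58FE_P_natDegree : (S58FE_P W).natDegree = 2 := by
  unfold S58FE_P
  rw [Polynomial.natDegree_add_eq_left_of_degree_lt]
  · exact Polynomial.natDegree_X_pow 2
  · rw [Polynomial.degree_X_pow]
    exact lt_of_le_of_lt Polynomial.degree_linear_le (by norm_num)

theorem S58FE_aeval_P : Polynomial.aeval (S58FE_y W) (S58FE_P W) = 0 := by
  have h := S58FE_rel W
  simp only [S58FE_P, map_add, map_mul, map_pow, map_neg, Polynomial.aeval_X, Polynomial.aeval_C]
  have e1 : algebraMap (S58FE_B W) W.toAffine.FunctionField (S58FE_xB W) = S58FE_x W := rfl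
  have e2 : ∀ c : k, algebraMap (S58FE_B W) W.toAffine.FunctionField
      (algebraMap k (S58FE_B W) c) = algebraMap k W.toAffine.FunctionField c := fun c => rfl
  simp only [e1, e2]
  linear_combination h

theorem S58FE_isIntegral_y : IsIntegral (S58FE_B W) (S58FE_y W) :=
  ⟨S58FE_P W, S58FE_P_monic W, S58FE_aeval_P W⟩

theorem S58FE_adjoin_y_eq_top :
    IntermediateField.adjoin (S58FE_B W) {S58FE_y W} = ⊤ := by
  rw [eq_top_iff]
  rintro z -
  have hmem : ∀ c : W.toAffine.CoordinateRing,
      algebraMap W.toAffine.CoordinateRing W.toAffine.FunctionField c ∈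
        IntermediateField.adjoin (S58FE_B W) {S58FE_y W} := by
    intro c
    obtain ⟨p, q, rfl⟩ := WeierstrassCurve.Affine.CoordinateRing.exists_smul_basis_eq c
    have hp : ∀ r : Polynomial k, algebraMap (Polynomial k) W.toAffine.FunctionField r ∈
        IntermediateField.adjoin (S58FE_B W) {S58FE_y W} := fun r =>
      IntermediateField.algebraMap_mem _ (⟨_, S58FE_algebraMap_mem W r⟩ : S58FE_B W)
    rw [map_add, Algebra.smul_def, Algebra.smul_def, mul_one, map_mul,
      ← IsScalarTower.algebraMap_apply, ← IsScalarTower.algebraMap_apply]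
    exact add_mem (hp p) (mul_mem (hp q) (IntermediateField.mem_adjoin_simple_self _ _))
  obtain ⟨a, b, -, rfl⟩ := IsFractionRing.div_surjective (A := W.toAffine.CoordinateRing) z
  exact div_mem (hmem a) (hmem b)

theorem S58FE_finite :
    FiniteDimensional
      (IntermediateField.adjoin k {algebraMap (Polynomial k) W.toAffine.FunctionField Polynomial.X})
      W.toAffine.FunctionField := by
  have : FiniteDimensional (S58FE_B W) (IntermediateField.adjoin (S58FE_B W) {S58FE_y W}) :=
    IntermediateField.adjoin.finiteDimensional (S58FE_isIntegral_y W)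
  have e : (IntermediateField.adjoin (S58FE_B W) {S58FE_y W}) ≃ₐ[S58FE_B W]
      W.toAffine.FunctionField :=
    (IntermediateField.equivOfEq (S58FE_adjoin_y_eq_top W)).trans IntermediateField.topEquiv
  exact Module.Finite.equiv e.toLinearEquiv

/-- The polynomial `4X³ + b₂X² + 2b₄X + b₆` over `k`. -/
noncomputable def S58FE_fpoly : Polynomial k :=
  (⟨4, W.b₂, 2 * W.b₄, W.b₆⟩ : Cubic k).toPoly

theorem S58FE_fpoly_ne_zero (hΔ : W.Δ ≠ 0) : S58FE_fpoly W ≠ 0 := by
  intro h
  rw [S58FE_fpoly, Cubic.toPoly_eq_zero_iff] at h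
  have h4 : (4 : k) = 0 := congrArg Cubic.a h
  have h2 : W.b₂ = 0 := congrArg Cubic.b h
  have h6 : W.b₆ = 0 := congrArg Cubic.d h
  apply hΔ
  rw [WeierstrassCurve.Δ, h2, h6]
  linear_combination (-2 * W.b₄ ^ 3) * h4

/-- The discriminant `d = f(x)` of the Weierstrass polynomial in `T`, as an element of `k(x)`. -/
noncomputable def S58FE_d : S58FE_B W :=
  (algebraMap k (S58FE_B W) W.a₁ * S58FE_xB W + algebraMap k (S58FE_B W) W.a₃) ^ 2 +
    4 * ((S58FE_xB W) ^ 3 + algebraMap k (S58FE_B W) W.a₂ * (S58FE_xB W) ^ 2 +
      algebraMap k (S58FE_B W) W.a₄ * S58FE_xB W + algebraMap k (S58FE_B W) W.a₆)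

theorem S58FE_d_eq :
    algebraMap (S58FE_B W) W.toAffine.FunctionField (S58FE_d W) =
      algebraMap (Polynomial k) W.toAffine.FunctionField (S58FE_fpoly W) := by
  have hC : ∀ c : k, algebraMap (Polynomial k) W.toAffine.FunctionField (Polynomial.C c) =
      algebraMap k W.toAffine.FunctionField c := fun c => by
    rw [IsScalarTower.algebraMap_apply k (Polynomial k) W.toAffine.FunctionField]
    rfl
  have e1 : algebraMap (S58FE_B W) W.toAffine.FunctionField (S58FE_xB W) = S58FE_x W := rfl
  have e2 : ∀ c : k, algebraMap (S58FE_B W) W.toAffine.FunctionField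
      (algebraMap k (S58FE_B W) c) = algebraMap k W.toAffine.FunctionField c := fun c => rfl
  simp only [S58FE_d, S58FE_fpoly, Cubic.toPoly, map_add, map_mul, map_pow, hC,
    WeierstrassCurve.b₂, WeierstrassCurve.b₄, WeierstrassCurve.b₆, map_ofNat, e1, e2]
  ring

theorem S58FE_d_ne_zero (hΔ : W.Δ ≠ 0) : S58FE_d W ≠ 0 := by
  intro h
  have h1 : algebraMap (S58FE_B W) W.toAffine.FunctionField (S58FE_d W) = 0 := by
    rw [h, map_zero]
  rw [S58FE_d_eq] at h1
  exact S58FE_fpoly_ne_zero W hΔ
    ((map_eq_zero_iff _ (S58FE_algebraMap_injective W)).mp h1)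

theorem S58FE_P_separable (hΔ : W.Δ ≠ 0) : (S58FE_P W).Separable := by
  rw [Polynomial.separable_def']
  have hd := S58FE_d_ne_zero W hΔ
  refine ⟨C (-4 * (S58FE_d W)⁻¹), C ((S58FE_d W)⁻¹) * Polynomial.derivative (S58FE_P W), ?_⟩
  have hder : Polynomial.derivative (S58FE_P W) =
      C 2 * X + C (algebraMap k (S58FE_B W) W.a₁ * S58FE_xB W + algebraMap k (S58FE_B W) W.a₃) := by
    simp only [S58FE_P, Polynomial.derivative_add, Polynomial.derivative_X_pow,
      Polynomial.derivative_mul, Polynomial.derivative_C, Polynomial.derivative_X]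
    simp
  have key : Polynomial.derivative (S58FE_P W) * Polynomial.derivative (S58FE_P W) -
      C 4 * S58FE_P W = C (S58FE_d W) := by
    rw [hder]
    simp only [S58FE_P, S58FE_d, map_add, map_mul, map_pow, map_neg]
    have h2 : (C (2 : S58FE_B W) : Polynomial (S58FE_B W)) = 2 := map_ofNat C 2
    have h4 : (C (4 : S58FE_B W) : Polynomial (S58FE_B W)) = 4 := map_ofNat C 4
    rw [h2, h4]
    ring
  have hinv : (C ((S58FE_d W)⁻¹) : Polynomial (S58FE_B W)) * C (S58FE_d W) = 1 := by
    rw [← map_mul, inv_mul_cancel₀ hd, map_one]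
  calc C (-4 * (S58FE_d W)⁻¹) * S58FE_P W +
        C ((S58FE_d W)⁻¹) * Polynomial.derivative (S58FE_P W) * Polynomial.derivative (S58FE_P W)
      = C ((S58FE_d W)⁻¹) * (Polynomial.derivative (S58FE_P W) *
          Polynomial.derivative (S58FE_P W) - C 4 * S58FE_P W) := by
        simp only [map_mul, map_neg]; ring
    _ = 1 := by rw [key, hinv]

theorem S58FE_isSeparable_y (hΔ : W.Δ ≠ 0) : IsSeparable (S58FE_B W) (S58FE_y W) :=
  (S58FE_P_separable W hΔ).of_dvd (minpoly.dvd _ _ (S58FE_aeval_P W))

/-- The identification of `k(x)(y)` with the whole function field. -/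
noncomputable def S58FE_equiv :
    (IntermediateField.adjoin (S58FE_B W) {S58FE_y W}) ≃ₐ[S58FE_B W] W.toAffine.FunctionField :=
  (IntermediateField.equivOfEq (S58FE_adjoin_y_eq_top W)).trans IntermediateField.topEquiv

theorem S58FE_separable (hΔ : W.Δ ≠ 0) :
    Algebra.IsSeparable
      (IntermediateField.adjoin k {algebraMap (Polynomial k) W.toAffine.FunctionField Polynomial.X})
      W.toAffine.FunctionField := by
  have h : Algebra.IsSeparable (S58FE_B W) (IntermediateField.adjoin (S58FE_B W) {S58FE_y W}) :=
    (IntermediateField.isSeparable_adjoin_simple_iff_isSeparable _ _).mpr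
      (S58FE_isSeparable_y W hΔ)
  exact AlgEquiv.Algebra.isSeparable (S58FE_equiv W)

theorem S58FE_isSplittingField :
    Polynomial.IsSplittingField (S58FE_B W) W.toAffine.FunctionField (S58FE_P W) where
  splits' := by
    refine Polynomial.Splits.of_natDegree_eq_two (x := S58FE_y W) ?_ ?_
    · rw [(S58FE_P_monic W).natDegree_map, S58FE_P_natDegree]
    · rw [Polynomial.eval_map_algebraMap]; exact S58FE_aeval_P W
  adjoin_rootSet' := by
    rw [eq_top_iff]
    have h1 : Algebra.adjoin (S58FE_B W) {S58FE_y W} = ⊤ := by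
      rw [← IntermediateField.adjoin_simple_toSubalgebra_of_isAlgebraic
        (S58FE_isIntegral_y W).isAlgebraic, S58FE_adjoin_y_eq_top, IntermediateField.top_toSubalgebra]
    rw [← h1]
    apply Algebra.adjoin_mono
    rw [Set.singleton_subset_iff, Polynomial.mem_rootSet']
    exact ⟨((S58FE_P_monic W).map _).ne_zero, S58FE_aeval_P W⟩

theorem S58FE_normal :
    Normal
      (IntermediateField.adjoin k {algebraMap (Polynomial k) W.toAffine.FunctionField Polynomial.X})
      W.toAffine.FunctionField := by
  have := S58FE_isSplittingField W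
  exact Normal.of_isSplittingField (S58FE_P W)

end Fermat.Agent.S58_helper10_PFELL
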