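import Mathlib
import Fermat.Prelude.Def_AlgebraicCurve_DivisorClassGroup

/-!
# S58 (E1) — common definitions (helper19)

Heights on the points of a Weierstrass curve over a function field `F / k`, with the places
of the prelude (`AlgebraicCurve.Place k F`, `Place.ord`).

* `S58E1_lam k v u`   : local pole order `max 0 (-(ord_v u))` of a function `u`;
* `S58E1_hX k u`      : degree of the polar divisor of `u` (a `finsum` over all places);
* `S58E1_lamP k W v P`: local height of a point (`0` at `O`, pole order of `x(P)` otherwise);
* `S58E1_h k W P`     : height of a point (`0` at `O`, `S58E1_hX` of `x(P)` otherwise);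
* `S58E1_PF k F`      : the product formula (finiteness of the divisor and degree `0`).
-/

set_option autoImplicit false

namespace Fermat.Agent.S58_helper19_E1DEFS

open AlgebraicCurve WeierstrassCurve

variable (k : Type*) {F : Type*} [Field k] [Field F] [Algebra k F]

/-- Local pole order of a function at a place. -/
noncomputable def S58E1_lam (v : Place k F) (u : F) : ℤ := max 0 (-(v.ord u))

/-- Degree of the polar divisor of a function. -/
noncomputable def S58E1_hX (u : F) : ℤ := ∑ᶠ v : Place k F, S58E1_lam k v u

/-- Local height of a point of a Weierstrass curve over `F`. -/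
noncomputable def S58E1_lamP (W : WeierstrassCurve.Affine F) (v : Place k F) : W.Point → ℤ
  | .zero => 0
  | .some x _ _ => S58E1_lam k v x

/-- Height of a point of a Weierstrass curve over `F`. -/
noncomputable def S58E1_h (W : WeierstrassCurve.Affine F) : W.Point → ℤ
  | .zero => 0
  | .some x _ _ => S58E1_hX k x

/-- The product formula on `F / k`: every nonzero function has a finite divisor of degree `0`. -/
def S58E1_PF (F : Type*) [Field F] [Algebra k F] : Prop :=
  ∀ u : F, u ≠ 0 →
    (Function.support fun v : Place k F => v.ord u).Finite ∧ ∑ᶠ v : Place k F, v.ord u = 0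

variable {k}

theorem S58E1_lam_nonneg (v : Place k F) (u : F) : 0 ≤ S58E1_lam k v u := le_max_left _ _

@[simp] theorem S58E1_lam_zero (v : Place k F) : S58E1_lam k v (0 : F) = 0 := by
  simp [S58E1_lam]

theorem S58E1_lam_eq_zero_iff (v : Place k F) (u : F) : S58E1_lam k v u = 0 ↔ 0 ≤ v.ord u := by
  simp [S58E1_lam]

theorem S58E1_lam_pos_iff (v : Place k F) (u : F) : 0 < S58E1_lam k v u ↔ v.ord u < 0 := by
  simp [S58E1_lam]

theorem S58E1_lam_of_neg (v : Place k F) {u : F} (h : v.ord u ≤ 0) :
    S58E1_lam k v u = -(v.ord u) := by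
  simp only [S58E1_lam]; exact max_eq_right (by omega)

@[simp] theorem S58E1_lamP_zero (W : WeierstrassCurve.Affine F) (v : Place k F) :
    S58E1_lamP k W v (0 : W.Point) = 0 := rfl

@[simp] theorem S58E1_lamP_some (W : WeierstrassCurve.Affine F) (v : Place k F) {x y : F}
    (h : W.Nonsingular x y) : S58E1_lamP k W v (.some x y h) = S58E1_lam k v x := rfl

@[simp] theorem S58E1_h_zero (W : WeierstrassCurve.Affine F) :
    S58E1_h k W (0 : W.Point) = 0 := rfl

@[simp] theorem S58E1_h_some (W : WeierstrassCurve.Affine F) {x y : F}
    (h : W.Nonsingular x y) : S58E1_h k W (.some x y h) = S58E1_hX k x := rfl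

/-- The height is the sum of the local heights. -/
theorem S58E1_h_eq_finsum (W : WeierstrassCurve.Affine F) (P : W.Point) :
    S58E1_h k W P = ∑ᶠ v : Place k F, S58E1_lamP k W v P := by
  rcases P with _ | ⟨x, y, h⟩
  · change (0 : ℤ) = ∑ᶠ v : Place k F, (0 : ℤ)
    simp
  · rfl

theorem S58E1_lamP_neg (W : WeierstrassCurve.Affine F) (v : Place k F) (P : W.Point) :
    S58E1_lamP k W v (-P) = S58E1_lamP k W v P := by
  rcases P with _ | ⟨x, y, h⟩
  · rfl
  · rfl

theorem S58E1_h_neg (W : WeierstrassCurve.Affine F) (P : W.Point) :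
    S58E1_h k W (-P) = S58E1_h k W P := by
  rcases P with _ | ⟨x, y, h⟩
  · rfl
  · rfl

theorem S58E1_hX_nonneg (u : F) : 0 ≤ S58E1_hX k u :=
  finsum_nonneg fun v => S58E1_lam_nonneg v u

theorem S58E1_h_nonneg (W : WeierstrassCurve.Affine F) (P : W.Point) : 0 ≤ S58E1_h k W P := by
  rcases P with _ | ⟨x, y, h⟩
  · exact le_rfl
  · exact S58E1_hX_nonneg x

/-- Under the product formula the poles of a function are finite in number. -/
theorem S58E1_lam_support_finite (hPF : S58E1_PF k F) (u : F) :
    (Function.support fun v : Place k F => S58E1_lam k v u).Finite := by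
  rcases eq_or_ne u 0 with rfl | hu
  · simp [Function.support]
  · refine (hPF u hu).1.subset fun v hv => ?_
    simp only [Function.mem_support, ne_eq] at hv ⊢
    intro h0
    apply hv
    simp [S58E1_lam, h0]

end Fermat.Agent.S58_helper19_E1DEFS
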