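import Mathlib
import Fermat.Prelude.Def_AlgebraicCurve_DivisorClassGroup
import Fermat.Agent.S24_helper6_A2
import Fermat.Agent.S58_helper19_E1DEFS

/-!
# S58 (E1a) [PF-GAL] — the product formula on a Galois cover of the line (helper21)

`K` an algebraically closed field of ANY characteristic, `F / K` a field, `x : F` transcendental
over `K` with `F / K(x)` finite, separable and normal.  Then, for the places of the prelude
(`AlgebraicCurve.Place K F`):

* `S58PF_abs`     : `S58E1_PF K F` (finite divisor of degree `0` for every nonzero function);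
* `S58PF_fin`, `S58PF_sum` : the two halves; `S58PF_hfin`, `S58PF_hPF`, `S58PF_hconst` the
  same in the multiplicative interface (`adicValuation`, `WithZero.log`);
* `S58PF_const_of_no_pole` : a function without poles is a constant.
-/

set_option autoImplicit false
set_option linter.style.haveILetI false

namespace Fermat.Agent.S58_helper21_PF

open AlgebraicCurve Polynomial IntermediateField
open Fermat.Agent.S24_helper6_A2 Fermat.Agent.S58_helper19_E1DEFS

section Sep

variable {K F : Type*} [Field K] [Field F] [Algebra K F] (x : F) (hx : Transcendental K x)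

include hx in
/-- All the instances needed by the generic section of `S24_helper6_A2`, from separability. -/
theorem S58PF_exists_instances [FiniteDimensional K⟮x⟯ F] [Algebra.IsSeparable K⟮x⟯ F] :
    ∃ (a1 : Algebra K[X] F) (a2 : Algebra (RatFunc K) F),
      IsScalarTower K[X] (RatFunc K) F ∧ IsScalarTower K K[X] F ∧
      FiniteDimensional (RatFunc K) F ∧ Algebra.IsSeparable (RatFunc K) F ∧
      algebraMap K[X] F X = x ∧ Module.finrank (RatFunc K) F = Module.finrank K⟮x⟯ F := by
  letI a2 : Algebra (RatFunc K) F := (ratToF x hx).toAlgebra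
  letI a1 : Algebra K[X] F := ((ratToF x hx).comp (algebraMap K[X] (RatFunc K))).toAlgebra
  letI a3 : Algebra (RatFunc K) K⟮x⟯ :=
    ((RatFunc.algEquivOfTranscendental x hx : RatFunc K ≃ₐ[K] K⟮x⟯) : RatFunc K →+* K⟮x⟯).toAlgebra
  haveI t1 : IsScalarTower K[X] (RatFunc K) F := IsScalarTower.of_algebraMap_eq (fun _ => rfl)
  haveI t2 : IsScalarTower K K[X] F := IsScalarTower.of_algebraMap_eq (fun a => by
    show algebraMap K F a = ratToF x hx (algebraMap K[X] (RatFunc K) (algebraMap K K[X] a))
    rw [← IsScalarTower.algebraMap_apply K K[X] (RatFunc K), ratToF_algebraMap])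
  haveI t3 : IsScalarTower (RatFunc K) K⟮x⟯ F := IsScalarTower.of_algebraMap_eq (fun _ => rfl)
  have hbij : Function.Bijective (algebraMap (RatFunc K) K⟮x⟯) :=
    (RatFunc.algEquivOfTranscendental x hx).bijective
  haveI f1 : Module.Finite (RatFunc K) K⟮x⟯ :=
    Module.Finite.of_surjective (Algebra.linearMap (RatFunc K) K⟮x⟯) hbij.2
  haveI f2 : FiniteDimensional (RatFunc K) F := Module.Finite.trans K⟮x⟯ F
  have hrank1 : Module.finrank (RatFunc K) K⟮x⟯ = 1 := by
    rw [← Module.finrank_self (RatFunc K)]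
    exact ((AlgEquiv.ofBijective (Algebra.ofId _ K⟮x⟯) hbij).toLinearEquiv.finrank_eq).symm
  have hrank : Module.finrank (RatFunc K) F = Module.finrank K⟮x⟯ F := by
    rw [← Module.finrank_mul_finrank (RatFunc K) K⟮x⟯ F, hrank1, one_mul]
  have hsep : Algebra.IsSeparable (RatFunc K) F :=
    Algebra.IsSeparable.of_equiv_equiv
      ((RatFunc.algEquivOfTranscendental x hx).symm : K⟮x⟯ ≃+* RatFunc K) (RingEquiv.refl F)
      (by
        ext u
        obtain ⟨w, rfl⟩ := (RatFunc.algEquivOfTranscendental x hx).surjective u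
        simp only [RingHom.comp_apply, RingEquiv.coe_toRingHom, AlgEquiv.coe_ringEquiv,
          AlgEquiv.symm_apply_apply, RingEquiv.refl_apply]
        rfl)
  refine ⟨a1, a2, t1, t2, f2, hsep, ?_, hrank⟩
  show ratToF x hx (algebraMap K[X] (RatFunc K) X) = x
  rw [RatFunc.algebraMap_X, ratToF_X]

include hx in
/-- **Zeros are finite.** -/
theorem S58PF_zeros_finite [FiniteDimensional K⟮x⟯ F] [Algebra.IsSeparable K⟮x⟯ F] :
    {v : Place K F | 0 < v.ord x}.Finite := by
  obtain ⟨_, _, t1, t2, f2, sep, hX, -⟩ := S58PF_exists_instances x hx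
  have h := zeros_finite_generic (K := K) (F := F)
  rwa [hX] at h

/-- **The zero divisor has degree `[F : K(x)]`.** -/
theorem S58PF_sum_ord_zeros [IsAlgClosed K] [FiniteDimensional K⟮x⟯ F]
    [Algebra.IsSeparable K⟮x⟯ F] :
    ∑ v ∈ (S58PF_zeros_finite x hx).toFinset, v.ord x = (Module.finrank K⟮x⟯ F : ℤ) := by
  obtain ⟨_, _, t1, t2, f2, sep, hX, hrank⟩ := S58PF_exists_instances x hx
  have h := sum_ord_zeros_generic (K := K) (F := F)
  rw [hrank] at h
  rw [← h]
  refine Finset.sum_congr ?_ fun v _ => by rw [hX]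
  ext v
  simp only [Set.Finite.mem_toFinset, Set.mem_ofPred_eq, hX]

theorem S58PF_sep_adjoin_inv [h : Algebra.IsSeparable K⟮x⟯ F] :
    Algebra.IsSeparable K⟮x⁻¹⟯ F := by
  rw [adjoin_inv_eq]
  exact h

theorem S58PF_sep_adjoin_sub_const [h : Algebra.IsSeparable K⟮x⟯ F] (a : K) :
    Algebra.IsSeparable K⟮x - algebraMap K F a⟯ F := by
  rw [adjoin_sub_const_eq]
  exact h

include hx in
/-- **Poles are finite.** -/
theorem S58PF_poles_finite [FiniteDimensional K⟮x⟯ F] [Algebra.IsSeparable K⟮x⟯ F] :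
    {v : Place K F | v.ord x < 0}.Finite := by
  haveI := finiteDimensional_adjoin_inv (K := K) x
  haveI := S58PF_sep_adjoin_inv (K := K) x
  have h := S58PF_zeros_finite x⁻¹ (transcendental_inv x hx)
  refine h.subset fun v hv => ?_
  simp only [Set.mem_ofPred_eq] at hv ⊢
  rw [Place.ord_inv]
  omega

/-- **The pole divisor has degree `-[F : K(x)]`.** -/
theorem S58PF_sum_ord_poles [IsAlgClosed K] [FiniteDimensional K⟮x⟯ F]
    [Algebra.IsSeparable K⟮x⟯ F] :
    ∑ v ∈ (S58PF_poles_finite x hx).toFinset, v.ord x = -(Module.finrank K⟮x⟯ F : ℤ) := by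
  haveI := finiteDimensional_adjoin_inv (K := K) x
  haveI := S58PF_sep_adjoin_inv (K := K) x
  have h := S58PF_sum_ord_zeros x⁻¹ (transcendental_inv x hx)
  rw [finrank_adjoin_inv] at h
  rw [← h, ← Finset.sum_neg_distrib]
  refine Finset.sum_congr ?_ fun v _ => by rw [Place.ord_inv, neg_neg]
  ext v
  simp only [Set.Finite.mem_toFinset, Set.mem_ofPred_eq, Place.ord_inv]
  omega

include hx in
/-- The support of the divisor of `x` is finite. -/
theorem S58PF_support_finite [FiniteDimensional K⟮x⟯ F] [Algebra.IsSeparable K⟮x⟯ F] :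
    (Function.support fun v : Place K F => v.ord x).Finite := by
  refine ((S58PF_zeros_finite x hx).union (S58PF_poles_finite x hx)).subset fun v hv => ?_
  simp only [Function.mem_support, ne_eq, Set.mem_ofPred_eq, Set.mem_union] at hv ⊢
  omega

include hx in
/-- The divisor of `x` has degree `0`. -/
theorem S58PF_finsum_ord [IsAlgClosed K] [FiniteDimensional K⟮x⟯ F]
    [Algebra.IsSeparable K⟮x⟯ F] : ∑ᶠ v : Place K F, v.ord x = 0 := by
  classical
  have hsub : (Function.support fun v : Place K F => v.ord x)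
      ⊆ ↑((S58PF_zeros_finite x hx).toFinset ∪ (S58PF_poles_finite x hx).toFinset) := by
    intro v hv
    simp only [Function.mem_support, ne_eq] at hv
    simp only [Finset.coe_union, Set.Finite.coe_toFinset, Set.mem_union, Set.mem_ofPred_eq]
    omega
  have hdisj : Disjoint (S58PF_zeros_finite x hx).toFinset (S58PF_poles_finite x hx).toFinset := by
    rw [Finset.disjoint_left]
    intro v h1 h2
    simp only [Set.Finite.mem_toFinset, Set.mem_ofPred_eq] at h1 h2
    omega
  rw [finsum_eq_sum_of_support_subset _ hsub, Finset.sum_union hdisj, S58PF_sum_ord_zeros x hx,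
    S58PF_sum_ord_poles x hx]
  ring

include hx in
/-- Some place is a zero of `x`. -/
theorem S58PF_exists_zero [IsAlgClosed K] [FiniteDimensional K⟮x⟯ F]
    [Algebra.IsSeparable K⟮x⟯ F] : ∃ v : Place K F, 0 < v.ord x := by
  by_contra hcon
  simp only [not_exists, not_lt] at hcon
  have h := S58PF_sum_ord_zeros x hx
  have h0 : (S58PF_zeros_finite x hx).toFinset = ∅ := by
    ext v
    simp only [Set.Finite.mem_toFinset, Set.mem_ofPred_eq, Finset.notMem_empty, iff_false, not_lt]
    exact hcon v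
  rw [h0, Finset.sum_empty] at h
  have hpos : 0 < Module.finrank K⟮x⟯ F := Module.finrank_pos
  omega

include hx in
/-- Some place is a pole of `x`. -/
theorem S58PF_exists_pole [IsAlgClosed K] [FiniteDimensional K⟮x⟯ F]
    [Algebra.IsSeparable K⟮x⟯ F] : ∃ v : Place K F, v.ord x < 0 := by
  haveI := finiteDimensional_adjoin_inv (K := K) x
  haveI := S58PF_sep_adjoin_inv (K := K) x
  obtain ⟨v, hv⟩ := S58PF_exists_zero x⁻¹ (transcendental_inv x hx)
  refine ⟨v, ?_⟩
  rw [Place.ord_inv] at hv
  omega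


/-! ### Functions with a finite divisor of degree `0` -/

/-- The divisor of `f` is finite of degree `0`. -/
def S58PF_Good (K : Type*) {F : Type*} [Field K] [Field F] [Algebra K F] (f : F) : Prop :=
  (Function.support fun v : Place K F => v.ord f).Finite ∧ ∑ᶠ v : Place K F, v.ord f = 0

omit x in
theorem S58PF_good_const (a : K) : S58PF_Good K (algebraMap K F a) := by
  have h : (fun v : Place K F => v.ord (algebraMap K F a)) = fun _ => 0 :=
    funext fun v => ord_algebraMap_eq_zero v a
  refine ⟨?_, ?_⟩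
  · rw [h]; simp [Function.support]
  · rw [h]; simp

omit x in
theorem S58PF_good_mul {f g : F} (hf : f ≠ 0) (hg : g ≠ 0) (h1 : S58PF_Good K f)
    (h2 : S58PF_Good K g) : S58PF_Good K (f * g) := by
  have h : (fun v : Place K F => v.ord (f * g))
      = fun v => v.ord f + v.ord g := funext fun v => Place.ord_mul v hf hg
  refine ⟨?_, ?_⟩
  · rw [h]
    exact (h1.1.union h2.1).subset (Function.support_add _ _)
  · rw [h, finsum_add_distrib h1.1 h2.1, h1.2, h2.2, add_zero]

omit x in
theorem S58PF_good_inv {f : F} (h1 : S58PF_Good K f) : S58PF_Good K f⁻¹ := by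
  have h : (fun v : Place K F => v.ord f⁻¹) = fun v => -(v.ord f) :=
    funext fun v => Place.ord_inv v f
  refine ⟨?_, ?_⟩
  · rw [h]
    refine h1.1.subset fun v hv => ?_
    simp only [Function.mem_support, ne_eq, neg_eq_zero] at hv ⊢
    exact hv
  · rw [h, finsum_neg_distrib, h1.2, neg_zero]

include hx in
theorem S58PF_good_self [IsAlgClosed K] [FiniteDimensional K⟮x⟯ F]
    [Algebra.IsSeparable K⟮x⟯ F] : S58PF_Good K x :=
  ⟨S58PF_support_finite x hx, S58PF_finsum_ord x hx⟩

include hx in
theorem S58PF_good_sub_const [IsAlgClosed K] [FiniteDimensional K⟮x⟯ F]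
    [Algebra.IsSeparable K⟮x⟯ F] (a : K) : S58PF_Good K (x - algebraMap K F a) := by
  haveI := finiteDimensional_adjoin_sub_const (K := K) x a
  haveI := S58PF_sep_adjoin_sub_const (K := K) x a
  exact S58PF_good_self _ (transcendental_sub_const x hx a)

include hx in
theorem S58PF_aeval_ne_zero {p : K[X]} (hp : p ≠ 0) : aeval x p ≠ 0 := fun h =>
  hp ((transcendental_iff.1 hx) p h)

include hx in
theorem S58PF_good_aeval [IsAlgClosed K] [FiniteDimensional K⟮x⟯ F]
    [Algebra.IsSeparable K⟮x⟯ F] :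
    ∀ (n : ℕ) (p : K[X]), p.natDegree = n → p ≠ 0 → S58PF_Good K (aeval x p)
  | 0, p, hn, _ => by
    rw [Polynomial.eq_C_of_natDegree_eq_zero hn, aeval_C]
    exact S58PF_good_const _
  | n + 1, p, hn, hp => by
    have hdeg : p.degree ≠ 0 := by
      rw [Polynomial.degree_eq_natDegree hp, hn]
      exact_mod_cast Nat.succ_ne_zero n
    obtain ⟨a, ha⟩ := IsAlgClosed.exists_root p hdeg
    obtain ⟨q, rfl⟩ := Polynomial.dvd_iff_isRoot.2 ha
    have hq : q ≠ 0 := right_ne_zero_of_mul hp
    have hqdeg : q.natDegree = n := by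
      rw [natDegree_mul (X_sub_C_ne_zero a) hq, natDegree_X_sub_C] at hn
      omega
    have h1 := S58PF_good_sub_const x hx a
    have h2 := S58PF_good_aeval n q hqdeg hq
    have e : aeval x ((X - C a) * q) = (x - algebraMap K F a) * aeval x q := by
      rw [map_mul, map_sub, aeval_X, aeval_C]
    rw [e]
    refine S58PF_good_mul ?_ (S58PF_aeval_ne_zero x hx hq) h1 h2
    have := S58PF_aeval_ne_zero x hx (X_sub_C_ne_zero a)
    rwa [map_sub, aeval_X, aeval_C] at this

include hx in
/-- Nonzero elements of `K(x)` have a finite divisor of degree `0`. -/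
theorem S58PF_good_of_mem [IsAlgClosed K] [FiniteDimensional K⟮x⟯ F]
    [Algebra.IsSeparable K⟮x⟯ F] {f : F} (hf : f ∈ K⟮x⟯) (hf0 : f ≠ 0) : S58PF_Good K f := by
  obtain ⟨r, s, rfl⟩ := (IntermediateField.mem_adjoin_simple_iff K f).1 hf
  have hr : aeval x r ≠ 0 := fun h => hf0 (by rw [h, zero_div])
  have hs : aeval x s ≠ 0 := fun h => hf0 (by rw [h, div_zero])
  have hr0 : r ≠ 0 := fun h => hr (by rw [h, map_zero])
  have hs0 : s ≠ 0 := fun h => hs (by rw [h, map_zero])
  rw [div_eq_mul_inv]
  exact S58PF_good_mul hr (inv_ne_zero hs) (S58PF_good_aeval x hx _ r rfl hr0)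
    (S58PF_good_inv (S58PF_good_aeval x hx _ s rfl hs0))

include hx in
theorem S58PF_fin_of_mem [IsAlgClosed K] [FiniteDimensional K⟮x⟯ F]
    [Algebra.IsSeparable K⟮x⟯ F] {f : F} (hf : f ∈ K⟮x⟯) :
    (Function.support fun v : Place K F => v.ord f).Finite := by
  rcases eq_or_ne f 0 with rfl | hf0
  · simp [Function.support, Place.ord_zero]
  · exact (S58PF_good_of_mem x hx hf hf0).1

/-! ### Finiteness of the divisor of an arbitrary function -/

omit x in
/-- An element which is a root of a monic polynomial with coefficients in the valuation ring of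
`v` lies in the valuation ring. -/
theorem S58PF_mem_of_monic (v : Place K F) {L : Type*} [Field L] [Algebra L F] (P : L[X])
    (hP : P.Monic) (f : F) (hPf : aeval f P = 0)
    (hmem : ∀ n, algebraMap L F (P.coeff n) ∈ v.toValuationSubring) :
    f ∈ v.toValuationSubring := by
  have hlift : P.map (algebraMap L F) ∈ Polynomial.lifts (algebraMap v.toValuationSubring F) := by
    rw [Polynomial.lifts_iff_coeff_lifts]
    intro n
    rw [Polynomial.coeff_map]
    exact ⟨⟨_, hmem n⟩, rfl⟩
  obtain ⟨q, hq, -, hqm⟩ := Polynomial.lifts_and_natDegree_eq_and_monic hlift (hP.map _)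
  have hint : IsIntegral v.toValuationSubring f := by
    refine ⟨q, hqm, ?_⟩
    rw [← Polynomial.eval_map, hq, Polynomial.eval_map, ← Polynomial.aeval_def]
    exact hPf
  obtain ⟨y, hy⟩ := (IsIntegrallyClosed.isIntegral_iff (R := v.toValuationSubring) (K := F)).1 hint
  rw [← hy]
  exact y.2

include hx in
theorem S58PF_neg_finite [IsAlgClosed K] [FiniteDimensional K⟮x⟯ F]
    [Algebra.IsSeparable K⟮x⟯ F] (f : F) : {v : Place K F | v.ord f < 0}.Finite := by
  have hint : IsIntegral K⟮x⟯ f := Algebra.IsIntegral.isIntegral f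
  set P := minpoly K⟮x⟯ f with hPdef
  have hfin : (⋃ n ∈ P.support,
      Function.support fun v : Place K F => v.ord (algebraMap K⟮x⟯ F (P.coeff n))).Finite :=
    Set.Finite.biUnion P.support.finite_toSet fun n _ =>
      S58PF_fin_of_mem x hx (P.coeff n).2
  refine hfin.subset fun v hv => ?_
  simp only [Set.mem_ofPred_eq] at hv
  by_contra hcon
  simp only [Set.mem_iUnion, Function.mem_support, ne_eq, not_exists, not_not] at hcon
  have hmem : ∀ n, algebraMap K⟮x⟯ F (P.coeff n) ∈ v.toValuationSubring := by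
    intro n
    by_cases hn : n ∈ P.support
    · exact mem_of_ord_nonneg v (le_of_eq (hcon n hn).symm)
    · rw [Polynomial.notMem_support_iff.1 hn, map_zero]
      exact zero_mem _
  have hf := S58PF_mem_of_monic v P (minpoly.monic hint) f (minpoly.aeval _ _) hmem
  have := ord_nonneg_of_mem v hf
  omega

include hx in
/-- **The divisor of any function is finite.** -/
theorem S58PF_fin [IsAlgClosed K] [FiniteDimensional K⟮x⟯ F]
    [Algebra.IsSeparable K⟮x⟯ F] (f : F) :
    (Function.support fun v : Place K F => v.ord f).Finite := by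
  refine ((S58PF_neg_finite x hx f).union (S58PF_neg_finite x hx f⁻¹)).subset fun v hv => ?_
  simp only [Function.mem_support, ne_eq] at hv
  simp only [Set.mem_union, Set.mem_ofPred_eq, Place.ord_inv]
  omega


/-! ### Galois symmetrisation -/

omit x in
theorem S58PF_ord_prod (v : Place K F) {ι : Type*} (s : Finset ι) (g : ι → F)
    (hg : ∀ i ∈ s, g i ≠ 0) : v.ord (∏ i ∈ s, g i) = ∑ i ∈ s, v.ord (g i) := by
  classical
  induction s using Finset.induction_on with
  | empty => simp [Place.ord_one]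
  | insert a s ha ih =>
    rw [Finset.prod_insert ha, Finset.sum_insert ha,
      Place.ord_mul v (hg a (Finset.mem_insert_self a s))
        (Finset.prod_ne_zero_iff.2 fun i hi => hg i (Finset.mem_insert_of_mem hi)),
      ih fun i hi => hg i (Finset.mem_insert_of_mem hi)]

omit x in
/-- The degree of the divisor is invariant under automorphisms. -/
theorem S58PF_finsum_ord_smul (σ : F ≃ₐ[K] F) (f : F) :
    ∑ᶠ v : Place K F, v.ord (σ f) = ∑ᶠ v : Place K F, v.ord f := by
  rw [← finsum_comp_equiv (MulAction.toPerm σ : Equiv.Perm (Place K F))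
    (f := fun v : Place K F => v.ord (σ f))]
  refine finsum_congr fun v => ?_
  exact Place.ord_smul σ v f

include hx in
/-- **The product formula**: the divisor of any nonzero function has degree `0`. -/
theorem S58PF_sum [IsAlgClosed K] [FiniteDimensional K⟮x⟯ F]
    [Algebra.IsSeparable K⟮x⟯ F] [Normal K⟮x⟯ F] (f : F) (hf : f ≠ 0) :
    ∑ᶠ v : Place K F, v.ord f = 0 := by
  classical
  haveI : IsGalois K⟮x⟯ F := {}
  have hN := Algebra.norm_eq_prod_automorphisms K⟮x⟯ f
  have hN0 : algebraMap K⟮x⟯ F (Algebra.norm K⟮x⟯ f) ≠ 0 := by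
    rw [Ne, map_eq_zero, Algebra.norm_eq_zero_iff]
    exact hf
  have hgood := S58PF_good_of_mem x hx (Algebra.norm K⟮x⟯ f).2 hN0
  have hσ : ∀ σ : F ≃ₐ[K⟮x⟯] F, σ f ≠ 0 := fun σ => by
    rw [Ne, map_eq_zero_iff σ σ.injective]
    exact hf
  have h1 : (fun v : Place K F => v.ord (algebraMap K⟮x⟯ F (Algebra.norm K⟮x⟯ f)))
      = fun v => ∑ σ : F ≃ₐ[K⟮x⟯] F, v.ord (σ f) := by
    funext v
    rw [hN]
    exact S58PF_ord_prod v Finset.univ (fun σ : F ≃ₐ[K⟮x⟯] F => σ f) fun σ _ => hσ σ
  have h2 : ∑ᶠ v : Place K F, ∑ σ : F ≃ₐ[K⟮x⟯] F, v.ord (σ f)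
      = ∑ σ : F ≃ₐ[K⟮x⟯] F, ∑ᶠ v : Place K F, v.ord (σ f) :=
    finsum_sum_comm Finset.univ (fun (v : Place K F) (σ : F ≃ₐ[K⟮x⟯] F) => v.ord (σ f))
      fun σ _ => S58PF_fin x hx (σ f)
  have h3 : ∀ σ : F ≃ₐ[K⟮x⟯] F,
      ∑ᶠ v : Place K F, v.ord (σ f) = ∑ᶠ v : Place K F, v.ord f := fun σ =>
    S58PF_finsum_ord_smul (σ.restrictScalars K) f
  have h4 := hgood.2
  change ∑ᶠ v : Place K F, (fun v : Place K F =>
    v.ord (algebraMap K⟮x⟯ F (Algebra.norm K⟮x⟯ f))) v = 0 at h4
  rw [h1, h2, Finset.sum_congr rfl fun σ _ => h3 σ, Finset.sum_const, smul_eq_zero] at h4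
  rcases h4 with h4 | h4
  · exact absurd h4 (Finset.card_ne_zero.2 Finset.univ_nonempty)
  · exact h4

include hx in
/-- **The product formula**, in the shape of `S58E1_PF`. -/
theorem S58PF_abs [IsAlgClosed K] [FiniteDimensional K⟮x⟯ F]
    [Algebra.IsSeparable K⟮x⟯ F] [Normal K⟮x⟯ F] : S58E1_PF K F :=
  fun f hf => ⟨S58PF_fin x hx f, S58PF_sum x hx f hf⟩

end Sep

end Fermat.Agent.S58_helper21_PF
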