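import Fermat.Agent.S58_helper10_PFELL
import Fermat.Agent.S58_helper21_PF

/-!
# S58 [PF-ELL] plug: the product formula for the function field of a Weierstrass curve

`S58FP_ell` : for `k` algebraically closed (any characteristic) and `W.Δ ≠ 0`, the function field
`W.toAffine.FunctionField` satisfies helper19's `S58E1_PF` (finiteness of divisors + degree `0`),
by helper21's abstract product formula `S58PF_abs` and the four instances of `S58_helper10_PFELL`.
-/

namespace Fermat.Agent.S58_helper10_PFPLUG

open Fermat.Agent.S58_helper10_PFELL Fermat.Agent.S58_helper21_PF Fermat.Agent.S58_helper19_E1DEFS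

theorem S58FP_ell {k : Type*} [Field k] [IsAlgClosed k] (W : WeierstrassCurve k) (hΔ : W.Δ ≠ 0) :
    S58E1_PF k W.toAffine.FunctionField :=
  haveI := S58FE_finite W
  haveI := S58FE_separable W hΔ
  haveI := S58FE_normal W
  S58PF_abs (algebraMap (Polynomial k) W.toAffine.FunctionField Polynomial.X)
    (S58FE_transcendental W)

end Fermat.Agent.S58_helper10_PFPLUG
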