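import Mathlib
import Fermat.Agent.G_helper7_CYC

/-!
# S58, piece (RES), brick [INVOL] (helper12): involutions move the roots of unity of odd order

Artin–Schreier, the part needed for oddness.  Let `E` be a field of characteristic `≠ 2` in which
every element is a square, `σ` a ring automorphism of `E` with `σ ∘ σ = id`, `σ ≠ id`.  Then

* `S58INV_not_fix_sqrt_neg_one` : no square root of `-1` is fixed by `σ`;
* `S58INV_sum_sq`  : a sum of two squares of fixed elements is the square of a fixed element;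
* `S58INV_moves`   : `σ` fixes no root of unity `ζ ≠ 1` of odd order.

For the absolute Galois group of `ℚ` (`c * c = 1`, `c ≠ 1`, `p` an odd prime):

* `S58INV_moves_GQ` : `c ζ ≠ ζ` for `ζ ^ p = 1`, `ζ ≠ 1`;
* `S58INV_chi`      : the mod `p` cyclotomic character `PGCYC_chi p` (helper7) of `c` is `-1`;
* `S58INV_d`        : the same with values in a field of characteristic `p` (`PGCYC_d p k`).
-/

set_option autoImplicit false
set_option linter.unusedSectionVars false
set_option linter.unusedVariables false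
set_option linter.style.haveILetI false

open Finset

namespace Fermat.Agent.S58_helper12_INVOL

section Abstract

variable {E : Type*} [Field E] (σ : E ≃+* E)

/-- an element `u ≠ 0` with `σ u = -u`. -/
theorem S58INV_exists_anti (hσσ : ∀ x, σ (σ x) = x) (hσ : ∃ x, σ x ≠ x) :
    ∃ u : E, u ≠ 0 ∧ σ u = -u := by
  obtain ⟨x, hx⟩ := hσ
  refine ⟨x - σ x, ?_, ?_⟩
  · intro h
    exact hx (sub_eq_zero.mp h).symm
  · rw [map_sub, hσσ]
    ring

/-- **no square root of `-1` is fixed.** -/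
theorem S58INV_not_fix_sqrt_neg_one (hsq : ∀ x : E, ∃ y, y * y = x) (h2 : (2 : E) ≠ 0)
    (hσσ : ∀ x, σ (σ x) = x) (hσ : ∃ x, σ x ≠ x) (i : E) (hi : i * i = -1) : σ i ≠ i := by
  intro hfix
  obtain ⟨u, hu0, hu⟩ := S58INV_exists_anti σ hσσ hσ
  obtain ⟨w, hw⟩ := hsq u
  have hN : σ (w * σ w) = w * σ w := by
    rw [map_mul, hσσ, mul_comm]
  have hNN : (w * σ w) * (w * σ w) = -(u * u) := by
    have h1 : σ w * σ w = -u := by rw [← map_mul, hw, hu]
    calc (w * σ w) * (w * σ w) = (w * w) * (σ w * σ w) := by ring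
      _ = u * -u := by rw [hw, h1]
      _ = -(u * u) := by ring
  have hsqeq : (i * (w * σ w)) * (i * (w * σ w)) = u * u := by
    calc (i * (w * σ w)) * (i * (w * σ w)) = (i * i) * ((w * σ w) * (w * σ w)) := by ring
      _ = (-1) * -(u * u) := by rw [hi, hNN]
      _ = u * u := by ring
  have hfixiN : σ (i * (w * σ w)) = i * (w * σ w) := by rw [map_mul, hfix, hN]
  have hcase : u = i * (w * σ w) ∨ u = -(i * (w * σ w)) := by
    have h0 : (u - i * (w * σ w)) * (u + i * (w * σ w)) = 0 := by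
      have : (u - i * (w * σ w)) * (u + i * (w * σ w)) =
          u * u - (i * (w * σ w)) * (i * (w * σ w)) := by ring
      rw [this, hsqeq, sub_self]
    rcases mul_eq_zero.mp h0 with h | h
    · exact Or.inl (sub_eq_zero.mp h)
    · exact Or.inr (eq_neg_of_add_eq_zero_left h)
  have hufix : σ u = u := by
    rcases hcase with h | h
    · rw [h, hfixiN]
    · rw [h, map_neg, hfixiN]
  have h2u : (2 : E) * u = 0 := by
    have : u = -u := by rw [← hu, hufix]
    calc (2 : E) * u = u + u := by ring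
      _ = u + -u := by rw [← this]
      _ = 0 := by ring
  rcases mul_eq_zero.mp h2u with h | h
  · exact h2 h
  · exact hu0 h

/-- **a sum of two squares of fixed elements is the square of a fixed element.** -/
theorem S58INV_sum_sq (hsq : ∀ x : E, ∃ y, y * y = x) (h2 : (2 : E) ≠ 0)
    (hσσ : ∀ x, σ (σ x) = x) (hσ : ∃ x, σ x ≠ x) (a b : E) (ha : σ a = a) (hb : σ b = b) :
    ∃ s : E, σ s = s ∧ a * a + b * b = s * s := by
  obtain ⟨i, hi⟩ := hsq (-1)
  have hi' : σ i = -i := by
    have h1 : σ i * σ i = i * i := by rw [← map_mul, hi, map_neg, map_one]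
    have h0 : (σ i - i) * (σ i + i) = 0 := by
      have : (σ i - i) * (σ i + i) = σ i * σ i - i * i := by ring
      rw [this, h1, sub_self]
    rcases mul_eq_zero.mp h0 with h | h
    · exact absurd (sub_eq_zero.mp h) (S58INV_not_fix_sqrt_neg_one σ hsq h2 hσσ hσ i hi)
    · exact eq_neg_of_add_eq_zero_left h
  obtain ⟨w, hw⟩ := hsq (a + b * i)
  refine ⟨w * σ w, by rw [map_mul, hσσ, mul_comm], ?_⟩
  have h1 : σ w * σ w = a - b * i := by
    rw [← map_mul, hw, map_add, map_mul, ha, hb, hi']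
    ring
  calc a * a + b * b = (a + b * i) * (a - b * i) := by
        have : (a + b * i) * (a - b * i) = a * a - b * b * (i * i) := by ring
        rw [this, hi]
        ring
    _ = (w * w) * (σ w * σ w) := by rw [hw, h1]
    _ = (w * σ w) * (w * σ w) := by ring

/-- a finite sum of squares of fixed elements is the square of a fixed element. -/
theorem S58INV_sum_sq_finset (hsq : ∀ x : E, ∃ y, y * y = x) (h2 : (2 : E) ≠ 0)
    (hσσ : ∀ x, σ (σ x) = x) (hσ : ∃ x, σ x ≠ x) {ι : Type*} (s : Finset ι) (f : ι → E)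
    (hf : ∀ j ∈ s, ∃ t : E, σ t = t ∧ f j = t * t) :
    ∃ t : E, σ t = t ∧ ∑ j ∈ s, f j = t * t := by
  refine Finset.sum_induction f (fun x => ∃ t : E, σ t = t ∧ x = t * t) ?_ ?_ hf
  · rintro x y ⟨a, ha, rfl⟩ ⟨b, hb, rfl⟩
    exact S58INV_sum_sq σ hsq h2 hσσ hσ a b ha hb
  · exact ⟨0, map_zero σ, by rw [mul_zero]⟩

/-- **a nontrivial involution fixes no root of unity `≠ 1` of odd order.** -/
theorem S58INV_moves (hsq : ∀ x : E, ∃ y, y * y = x) (h2 : (2 : E) ≠ 0)
    (hσσ : ∀ x, σ (σ x) = x) (hσ : ∃ x, σ x ≠ x) {n : ℕ} (hn : Odd n) {ζ : E}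
    (hζ : ζ ^ n = 1) (hζ1 : ζ ≠ 1) : σ ζ ≠ ζ := by
  intro hfix
  obtain ⟨m, rfl⟩ := hn
  -- the geometric sum vanishes
  have hgeom : ∑ j ∈ range (2 * m + 1), ζ ^ j = 0 := by
    have h := mul_geom_sum ζ (2 * m + 1)
    rw [hζ, sub_self] at h
    rcases mul_eq_zero.mp h with h | h
    · exact absurd (sub_eq_zero.mp h) hζ1
    · exact h
  rw [Finset.sum_range_succ', pow_zero] at hgeom
  -- every term is the square of a fixed element
  have hterm : ∀ j ∈ range (2 * m), ∃ t : E, σ t = t ∧ ζ ^ (j + 1) = t * t := by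
    intro j _
    refine ⟨ζ ^ ((j + 1) * (m + 1)), by rw [map_pow, hfix], ?_⟩
    have e : (j + 1) * (m + 1) + (j + 1) * (m + 1) = (2 * m + 1) * (j + 1) + (j + 1) := by ring
    have e2 : ζ ^ ((j + 1) * (m + 1)) * ζ ^ ((j + 1) * (m + 1)) = ζ ^ (j + 1) := by
      rw [← pow_add, e, pow_add, pow_mul, hζ, one_pow, one_mul]
    exact e2.symm
  obtain ⟨t, ht, hsum⟩ := S58INV_sum_sq_finset σ hsq h2 hσσ hσ (range (2 * m))
    (fun j => ζ ^ (j + 1)) hterm
  have hneg : t * t = -1 := by
    rw [← hsum]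
    exact eq_neg_of_add_eq_zero_left hgeom
  exact S58INV_not_fix_sqrt_neg_one σ hsq h2 hσσ hσ t hneg ht

end Abstract

section Galois

open Fermat.Agent.G_helper7_CYC

local notation "Qb" => AlgebraicClosure ℚ
local notation "GQ" => (AlgebraicClosure ℚ ≃ₐ[ℚ] AlgebraicClosure ℚ)

/-- **every nontrivial involution of `ℚ̄` moves the roots of unity `≠ 1` of odd order.** -/
theorem S58INV_moves_GQ (c : GQ) (hcc : c * c = 1) (hc1 : c ≠ 1) {n : ℕ} (hn : Odd n)
    {ζ : Qb} (hζ : ζ ^ n = 1) (hζ1 : ζ ≠ 1) : c ζ ≠ ζ := by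
  have hsq : ∀ x : Qb, ∃ y, y * y = x := fun x => by
    obtain ⟨z, hz⟩ := IsAlgClosed.exists_eq_mul_self x
    exact ⟨z, hz.symm⟩
  have h2 : (2 : Qb) ≠ 0 := two_ne_zero
  have hσσ : ∀ x, c.toRingEquiv (c.toRingEquiv x) = x := fun x => by
    have h := congrArg (fun f : GQ => f x) hcc
    simpa using h
  have hσ : ∃ x, c.toRingEquiv x ≠ x := by
    by_contra hall
    push Not at hall
    exact hc1 (AlgEquiv.ext fun x => hall x)
  exact S58INV_moves c.toRingEquiv hsq h2 hσσ hσ hn hζ hζ1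

/-- **the mod `p` cyclotomic character of a nontrivial involution is `-1`** (`p` odd). -/
theorem S58INV_chi (c : GQ) (hcc : c * c = 1) (hc1 : c ≠ 1) {p : ℕ} [NeZero p] (hp : p.Prime)
    (hp2 : p ≠ 2) : ((PGCYC_chi p c : (ZMod p)ˣ) : ZMod p) = -1 := by
  haveI : Fact p.Prime := ⟨hp⟩
  haveI : Fact (1 < p) := ⟨hp.one_lt⟩
  have hχχ : PGCYC_chi p c * PGCYC_chi p c = 1 := by rw [← map_mul, hcc, map_one]
  have hsq : ((PGCYC_chi p c : (ZMod p)ˣ) : ZMod p) * ((PGCYC_chi p c : (ZMod p)ˣ) : ZMod p)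
      = 1 := by
    rw [← Units.val_mul, hχχ, Units.val_one]
  rcases mul_self_eq_one_iff.mp hsq with h | h
  · exfalso
    obtain ⟨ζ, hζ⟩ := PGCYC_exists_primitiveRoot p
    have hζ1 : ζ ≠ 1 := hζ.ne_one hp.one_lt
    have hodd : Odd p := hp.odd_of_ne_two hp2
    have hmove := S58INV_moves_GQ c hcc hc1 hodd hζ.pow_eq_one hζ1
    apply hmove
    have hspec := PGCYC_chi_spec p c hζ.pow_eq_one
    rw [h, ZMod.val_one, pow_one] at hspec
    exact hspec
  · exact h

/-- **the cyclotomic character with values in a field of characteristic `p`** of a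
nontrivial involution is `-1` (`p` odd). -/
theorem S58INV_d (c : GQ) (hcc : c * c = 1) (hc1 : c ≠ 1) {p : ℕ} [NeZero p] (hp : p.Prime)
    (hp2 : p ≠ 2) (k : Type*) [Field k] [CharP k p] :
    ((PGCYC_d p k c : kˣ) : k) = -1 := by
  rw [PGCYC_d_coe, S58INV_chi c hcc hc1 hp hp2, map_neg, map_one]

end Galois

end Fermat.Agent.S58_helper12_INVOL
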