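import Mathlib
import Fermat.Prelude.Def_GaloisRep_Residual
import Fermat.Prelude.Def_GaloisRep_Adic
import Fermat.Prelude.Def_GaloisRep_ComplexConjugation
import Fermat.Prelude.Def_FLTPrelim_ModularRep
import Fermat.Agent.S58_helper2_TORS
import Fermat.Agent.S58_helper12_IRRABS

/-!
# S58, piece (RES), brick [RESPLUG] (helper12): absolute irreducibility at the call site

`S58RP_absIrr`: let `n` be an odd prime with `W[n]` irreducible (`W.ModRepIsIrreducible n`) of
rank 2, and `ρb` a residual representation over a field `k` which is odd and whose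
characteristic polynomials are those of `W[n]`, mapped along `ψ : ZMod n →+* k`.  Then `ρb` is
absolutely irreducible.

The proof is `S58IA_main'` (IRR-ABS) applied to `W[n]` and to the base change of `ρb` to the
algebraic closure of `k`, with `c` the complex conjugation of the prelude.

* `S58RP_conj_ne_one` : the complex conjugation of the prelude is not the identity;
* `S58RP_absIrr`      : the statement above, with `LinearMap.charpoly` of the prelude's
  `galoisRepModuleEnd`;
* `S58RP_absIrr_cp`   : the same with helper2's `S58T_cp W n b`;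
* `S58RP_residual_charpoly` : `charpoly (ρ.residual.ρ g) = (charpoly (ρ.ρ g)).map (residue)`.
-/

set_option autoImplicit false
set_option linter.unusedSectionVars false
set_option linter.unusedVariables false
set_option linter.style.haveILetI false

open Polynomial

namespace Fermat.Agent.S58_helper12_RESPLUG

open Fermat.Agent.S58_helper2_TORS Fermat.Agent.S58_helper12_IRRABS

local notation "Qb" => AlgebraicClosure ℚ
local notation "GQ" => (AlgebraicClosure ℚ ≃ₐ[ℚ] AlgebraicClosure ℚ)

/-- the complex conjugation of the prelude is not the identity. -/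
theorem S58RP_conj_ne_one : (complexConjugation : GQ) ≠ 1 := by
  intro h
  obtain ⟨i, hi⟩ := IsAlgClosed.exists_pow_nat_eq (-1 : Qb) (n := 2) (by norm_num)
  have h1 : complexEmbedding (complexConjugation i) = complexEmbedding i := by
    rw [h]
    rfl
  rw [complexEmbedding_complexConjugation] at h1
  -- `complexEmbedding i` is real and its square is `-1`
  have h2 : (complexEmbedding i) ^ 2 = -1 := by
    rw [← map_pow, hi, map_neg, map_one]
  obtain ⟨t, ht⟩ := Complex.conj_eq_iff_real.mp h1
  rw [ht] at h2
  have h3 : ((t ^ 2 : ℝ) : ℂ) = ((-1 : ℝ) : ℂ) := by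
    push_cast
    exact h2
  have h4 : t ^ 2 = -1 := Complex.ofReal_injective h3
  nlinarith [sq_nonneg t]

/-- the characteristic polynomial of the residual representation. -/
theorem S58RP_residual_charpoly {O : Type} [CommRing O] [IsLocalRing O] (ρ : GaloisRepAdic O)
    (g : GQ) :
    LinearMap.charpoly (ρ.residual.ρ g) =
      (LinearMap.charpoly (ρ.ρ g)).map (algebraMap O (IsLocalRing.ResidueField O)) :=
  LinearMap.charpoly_baseChange (A := IsLocalRing.ResidueField O) (ρ.ρ g)

/-- the determinant of the residual representation. -/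
theorem S58RP_residual_det {O : Type} [CommRing O] [IsLocalRing O] (ρ : GaloisRepAdic O)
    (g : GQ) :
    LinearMap.det (ρ.residual.ρ g) =
      algebraMap O (IsLocalRing.ResidueField O) (LinearMap.det (ρ.ρ g)) :=
  LinearMap.det_baseChange (A := IsLocalRing.ResidueField O) (ρ.ρ g)

section Plug

variable (W : WeierstrassCurve ℤ) (n : ℕ) [Fact n.Prime]

/-- **[RESPLUG]**: an odd residual representation with the characteristic polynomials of the
irreducible `W[n]` (`n` an odd prime) is absolutely irreducible. -/
theorem S58RP_absIrr (hn2 : n ≠ 2) (hirr : W.ModRepIsIrreducible n)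
    [Module.Free (ZMod n) (S58T_Tors W n)] [Module.Finite (ZMod n) (S58T_Tors W n)]
    (hV : Module.finrank (ZMod n) (S58T_Tors W n) = 2)
    {k : Type} [Field k] (ρb : ResidualGaloisRep k) (ψ : ZMod n →+* k)
    (hcp : ∀ g : GQ, LinearMap.charpoly (ρb.ρ g) =
      (LinearMap.charpoly (WeierstrassCurve.Affine.Point.galoisRepModuleEnd (S := ℚ)
        (K := AlgebraicClosure ℚ) (W.map (Int.castRingHom ℚ)).toAffine n g)).map ψ)
    (hodd : ρb.IsOdd) : ρb.IsAbsolutelyIrreducible := by
  have hn : n.Prime := Fact.out
  have h2 : (2 : ZMod n) ≠ 0 := by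
    intro h
    have h' : ((2 : ℕ) : ZMod n) = 0 := by exact_mod_cast h
    rw [ZMod.natCast_eq_zero_iff] at h'
    exact hn2 ((Nat.prime_dvd_prime_iff_eq hn Nat.prime_two).mp h')
  unfold ResidualGaloisRep.IsAbsolutelyIrreducible
  intro U' hU'
  refine S58IA_main' ((algebraMap k (AlgebraicClosure k)).comp ψ) h2 hV
    (ρb.baseChange (AlgebraicClosure k)).finrank_eq
    (WeierstrassCurve.Affine.Point.galoisRepModuleEnd (S := ℚ)
        (K := AlgebraicClosure ℚ) (W.map (Int.castRingHom ℚ)).toAffine n)
    (ρb.baseChange (AlgebraicClosure k)).ρ ?_ complexConjugation complexConjugation_mul_self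
    ?_ ?_ U' hU'
  · intro g
    have e : (ρb.baseChange (AlgebraicClosure k)).ρ g
        = (ρb.ρ g).baseChange (AlgebraicClosure k) := rfl
    rw [e, LinearMap.charpoly_baseChange, hcp g, Polynomial.map_map]
  · have e : (ρb.baseChange (AlgebraicClosure k)).ρ complexConjugation
        = (ρb.ρ complexConjugation).baseChange (AlgebraicClosure k) := rfl
    rw [e, LinearMap.det_baseChange, hodd complexConjugation complexConjugation_mul_self
      S58RP_conj_ne_one, map_neg, map_one]
  · intro L hL
    exact hirr.2 L (fun σ x hx => hL σ x hx)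

/-- **[RESPLUG]**, with helper2's `S58T_cp` in a basis. -/
theorem S58RP_absIrr_cp (hn2 : n ≠ 2) (hirr : W.ModRepIsIrreducible n)
    (b : Module.Basis (Fin 2) (ZMod n) (S58T_Tors W n))
    {k : Type} [Field k] (ρb : ResidualGaloisRep k) (ψ : ZMod n →+* k)
    (hcp : ∀ g : GQ, LinearMap.charpoly (ρb.ρ g) = (S58T_cp W n b g).map ψ)
    (hodd : ρb.IsOdd) : ρb.IsAbsolutelyIrreducible := by
  haveI : Module.Free (ZMod n) (S58T_Tors W n) := Module.Free.of_basis b
  haveI : Module.Finite (ZMod n) (S58T_Tors W n) := Module.Finite.of_basis b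
  have hV : Module.finrank (ZMod n) (S58T_Tors W n) = 2 := by
    rw [Module.finrank_eq_card_basis b, Fintype.card_fin]
  refine S58RP_absIrr W n hn2 hirr hV ρb ψ (fun g => ?_) hodd
  rw [hcp g, S58T_cp, LinearMap.charpoly_toMatrix]
  rfl

end Plug

end Fermat.Agent.S58_helper12_RESPLUG
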