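import Mathlib

/-!
# S58 piece [E3-TRANSL] (helper13): translation of coordinates on a Weierstrass curve

For a Weierstrass curve `W` over a field `K` and `r t : K`, let `W'` be the curve obtained by the
substitution `(x, y) = (x' + r, y' + t)` (Mathlib's `VariableChange.mk 1 r 0 t • W`).  Then
`(x, y) ↦ (x - r, y - t)` is an isomorphism of groups `W.Point ≃+ W'.Point`.

Mathlib has the action of `VariableChange` on curves but no induced map on points; this file
provides it for translations, which is what is needed to move a given point (e.g. a `2`-torsion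
point reducing to the node) to the origin.
-/

set_option autoImplicit false
set_option linter.unusedSectionVars false

namespace Fermat.Agent.S58_helper13_TRANSL

open WeierstrassCurve WeierstrassCurve.Affine

/-- `W'` is the translate of `W` by `(r, t)`: the coefficients of `W'` are those of the equation
of `W` in the coordinates `(x', y') = (x - r, y - t)`. -/
structure S58TL_IsTranslate {R : Type*} [CommRing R] (W W' : WeierstrassCurve.Affine R)
    (r t : R) : Prop where
  h₁ : W'.a₁ = W.a₁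
  h₂ : W'.a₂ = W.a₂ + 3 * r
  h₃ : W'.a₃ = W.a₃ + r * W.a₁ + 2 * t
  h₄ : W'.a₄ = W.a₄ + 2 * r * W.a₂ - t * W.a₁ + 3 * r ^ 2
  h₆ : W'.a₆ = W.a₆ + r * W.a₄ + r ^ 2 * W.a₂ + r ^ 3 - t * W.a₃ - t ^ 2 - r * t * W.a₁

section Ring

variable {R : Type*} [CommRing R] {W W' : WeierstrassCurve.Affine R} {r t : R}

/-- The translate by `(r, t)` exists: it is Mathlib's `VariableChange.mk 1 r 0 t • W`. -/
theorem S58TL_vc (W : WeierstrassCurve R) (r t : R) :
    S58TL_IsTranslate W.toAffine (VariableChange.mk 1 r 0 t • W).toAffine r t where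
  h₁ := by simp [variableChange_a₁]
  h₂ := by simp [variableChange_a₂]
  h₃ := by simp [variableChange_a₃]
  h₄ := by simp [variableChange_a₄]
  h₆ := by simp [variableChange_a₆]

/-- The translate, as an explicit curve. -/
def S58TL_translate (W : WeierstrassCurve.Affine R) (r t : R) : WeierstrassCurve.Affine R :=
  ⟨W.a₁, W.a₂ + 3 * r, W.a₃ + r * W.a₁ + 2 * t,
    W.a₄ + 2 * r * W.a₂ - t * W.a₁ + 3 * r ^ 2,
    W.a₆ + r * W.a₄ + r ^ 2 * W.a₂ + r ^ 3 - t * W.a₃ - t ^ 2 - r * t * W.a₁⟩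

theorem S58TL_translate_isTranslate (W : WeierstrassCurve.Affine R) (r t : R) :
    S58TL_IsTranslate W (S58TL_translate W r t) r t :=
  ⟨rfl, rfl, rfl, rfl, rfl⟩

/-- The inverse translation. -/
theorem S58TL_IsTranslate.symm (hT : S58TL_IsTranslate W W' r t) :
    S58TL_IsTranslate W' W (-r) (-t) where
  h₁ := hT.h₁.symm
  h₂ := by rw [hT.h₂]; ring
  h₃ := by rw [hT.h₃, hT.h₁]; ring
  h₄ := by rw [hT.h₄, hT.h₂, hT.h₁]; ring
  h₆ := by rw [hT.h₆, hT.h₄, hT.h₃, hT.h₂, hT.h₁]; ring

theorem S58TL_equation (hT : S58TL_IsTranslate W W' r t) (x y : R) :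
    W'.Equation (x - r) (y - t) ↔ W.Equation x y := by
  rw [equation_iff', equation_iff', hT.h₁, hT.h₂, hT.h₃, hT.h₄, hT.h₆]
  constructor <;> intro h <;> linear_combination h

theorem S58TL_polynomialX (hT : S58TL_IsTranslate W W' r t) (x y : R) :
    W'.polynomialX.evalEval (x - r) (y - t) = W.polynomialX.evalEval x y := by
  rw [evalEval_polynomialX, evalEval_polynomialX, hT.h₁, hT.h₂, hT.h₄]
  ring

theorem S58TL_polynomialY (hT : S58TL_IsTranslate W W' r t) (x y : R) :
    W'.polynomialY.evalEval (x - r) (y - t) = W.polynomialY.evalEval x y := by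
  rw [evalEval_polynomialY, evalEval_polynomialY, hT.h₁, hT.h₃]
  ring

theorem S58TL_nonsingular (hT : S58TL_IsTranslate W W' r t) (x y : R) :
    W'.Nonsingular (x - r) (y - t) ↔ W.Nonsingular x y := by
  rw [Nonsingular, Nonsingular, S58TL_equation hT, S58TL_polynomialX hT, S58TL_polynomialY hT]

theorem S58TL_negY (hT : S58TL_IsTranslate W W' r t) (x y : R) :
    W'.negY (x - r) (y - t) = W.negY x y - t := by
  simp only [negY, hT.h₁, hT.h₃]
  ring

theorem S58TL_addX (hT : S58TL_IsTranslate W W' r t) (x₁ x₂ ℓ : R) :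
    W'.addX (x₁ - r) (x₂ - r) ℓ = W.addX x₁ x₂ ℓ - r := by
  simp only [addX, hT.h₁, hT.h₂]
  ring

theorem S58TL_negAddY (hT : S58TL_IsTranslate W W' r t) (x₁ x₂ y₁ ℓ : R) :
    W'.negAddY (x₁ - r) (x₂ - r) (y₁ - t) ℓ = W.negAddY x₁ x₂ y₁ ℓ - t := by
  simp only [negAddY, S58TL_addX hT]
  ring

theorem S58TL_addY (hT : S58TL_IsTranslate W W' r t) (x₁ x₂ y₁ ℓ : R) :
    W'.addY (x₁ - r) (x₂ - r) (y₁ - t) ℓ = W.addY x₁ x₂ y₁ ℓ - t := by
  rw [addY, addY, S58TL_addX hT, S58TL_negAddY hT, S58TL_negY hT]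

end Ring

section Field

variable {K : Type*} [Field K] [DecidableEq K] {W W' : WeierstrassCurve.Affine K} {r t : K}

/-- The slope of the chord / tangent is invariant under translation. -/
theorem S58TL_slope (hT : S58TL_IsTranslate W W' r t) (x₁ x₂ y₁ y₂ : K) :
    W'.slope (x₁ - r) (x₂ - r) (y₁ - t) (y₂ - t) = W.slope x₁ x₂ y₁ y₂ := by
  by_cases hx : x₁ = x₂
  · have hx' : x₁ - r = x₂ - r := by rw [hx]
    by_cases hy : y₁ = W.negY x₂ y₂
    · have hy' : y₁ - t = W'.negY (x₂ - r) (y₂ - t) := by rw [S58TL_negY hT, hy]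
      rw [slope_of_Y_eq hx hy, slope_of_Y_eq hx' hy']
    · have hy' : y₁ - t ≠ W'.negY (x₂ - r) (y₂ - t) := by
        rw [S58TL_negY hT]
        intro h
        exact hy (sub_left_injective h)
      rw [slope_of_Y_ne hx hy, slope_of_Y_ne hx' hy', S58TL_negY hT, hT.h₁, hT.h₂, hT.h₄]
      congr 1 <;> ring
  · have hx' : x₁ - r ≠ x₂ - r := fun h => hx (sub_left_injective h)
    rw [slope_of_X_ne hx, slope_of_X_ne hx']
    congr 1 <;> ring

/-- Two affine points with equal coordinates are equal. -/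
theorem S58TL_some_congr {W : WeierstrassCurve.Affine K} {x y x' y' : K}
    (h : W.Nonsingular x y) (h' : W.Nonsingular x' y') (hx : x = x') (hy : y = y') :
    Point.some x y h = Point.some x' y' h' := by
  subst hx hy
  rfl

/-- The translation map on points. -/
def S58TL_fun (hT : S58TL_IsTranslate W W' r t) : W.Point → W'.Point
  | .zero => 0
  | .some x y h => .some (x - r) (y - t) ((S58TL_nonsingular hT x y).mpr h)

@[simp] theorem S58TL_fun_zero (hT : S58TL_IsTranslate W W' r t) :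
    S58TL_fun hT (0 : W.Point) = 0 := rfl

@[simp] theorem S58TL_fun_some (hT : S58TL_IsTranslate W W' r t) {x y : K}
    (h : W.Nonsingular x y) :
    S58TL_fun hT (.some x y h) = .some (x - r) (y - t) ((S58TL_nonsingular hT x y).mpr h) := rfl

theorem S58TL_fun_add (hT : S58TL_IsTranslate W W' r t) (P Q : W.Point) :
    S58TL_fun hT (P + Q) = S58TL_fun hT P + S58TL_fun hT Q := by
  rcases P with _ | ⟨x₁, y₁, h₁⟩
  · change S58TL_fun hT (0 + Q) = 0 + S58TL_fun hT Q
    rw [zero_add, zero_add]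
  rcases Q with _ | ⟨x₂, y₂, h₂⟩
  · change S58TL_fun hT (Point.some x₁ y₁ h₁ + 0) = S58TL_fun hT (Point.some x₁ y₁ h₁) + 0
    rw [add_zero, add_zero]
  by_cases hxy : x₁ = x₂ ∧ y₁ = W.negY x₂ y₂
  · have hx' : x₁ - r = x₂ - r := by rw [hxy.1]
    have hy' : y₁ - t = W'.negY (x₂ - r) (y₂ - t) := by rw [S58TL_negY hT, hxy.2]
    rw [Point.add_of_Y_eq hxy.1 hxy.2, S58TL_fun_zero, S58TL_fun_some, S58TL_fun_some,
      Point.add_of_Y_eq hx' hy']
  · have hxy' : ¬ (x₁ - r = x₂ - r ∧ y₁ - t = W'.negY (x₂ - r) (y₂ - t)) := by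
      rintro ⟨h1, h2⟩
      apply hxy
      refine ⟨sub_left_injective h1, ?_⟩
      rw [S58TL_negY hT] at h2
      exact sub_left_injective h2
    rw [Point.add_some hxy, S58TL_fun_some, S58TL_fun_some, S58TL_fun_some, Point.add_some hxy']
    apply S58TL_some_congr
    · rw [S58TL_slope hT, S58TL_addX hT]
    · rw [S58TL_slope hT, S58TL_addY hT]

/-- The translation map as an additive homomorphism. -/
def S58TL_hom (hT : S58TL_IsTranslate W W' r t) : W.Point →+ W'.Point where
  toFun := S58TL_fun hT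
  map_zero' := rfl
  map_add' := S58TL_fun_add hT

@[simp] theorem S58TL_hom_some (hT : S58TL_IsTranslate W W' r t) {x y : K}
    (h : W.Nonsingular x y) :
    S58TL_hom hT (.some x y h) = .some (x - r) (y - t) ((S58TL_nonsingular hT x y).mpr h) := rfl

theorem S58TL_fun_fun (hT : S58TL_IsTranslate W W' r t) (P : W.Point) :
    S58TL_fun hT.symm (S58TL_fun hT P) = P := by
  rcases P with _ | ⟨x, y, h⟩
  · rfl
  · rw [S58TL_fun_some, S58TL_fun_some]
    apply S58TL_some_congr <;> ring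

/-- **[E3-TRANSL]**: translation of coordinates is an isomorphism of the groups of points. -/
def S58TL_equiv (hT : S58TL_IsTranslate W W' r t) : W.Point ≃+ W'.Point where
  toFun := S58TL_fun hT
  invFun := S58TL_fun hT.symm
  left_inv := S58TL_fun_fun hT
  right_inv := fun P => by
    have h := S58TL_fun_fun hT.symm P
    rcases P with _ | ⟨x, y, hP⟩
    · rfl
    · rw [S58TL_fun_some, S58TL_fun_some]
      apply S58TL_some_congr <;> ring
  map_add' := S58TL_fun_add hT

@[simp] theorem S58TL_equiv_zero (hT : S58TL_IsTranslate W W' r t) :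
    S58TL_equiv hT (0 : W.Point) = 0 := rfl

@[simp] theorem S58TL_equiv_some (hT : S58TL_IsTranslate W W' r t) {x y : K}
    (h : W.Nonsingular x y) :
    S58TL_equiv hT (.some x y h) = .some (x - r) (y - t) ((S58TL_nonsingular hT x y).mpr h) :=
  rfl

theorem S58TL_equiv_eq_zero_iff (hT : S58TL_IsTranslate W W' r t) (P : W.Point) :
    S58TL_equiv hT P = 0 ↔ P = 0 :=
  (S58TL_equiv hT).map_eq_zero_iff

/-- **[E3-TRANSL]**, existential form with explicit coefficient hypotheses. -/
theorem S58TL_main (W W' : WeierstrassCurve.Affine K) (r t : K)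
    (h₁ : W'.a₁ = W.a₁) (h₂ : W'.a₂ = W.a₂ + 3 * r) (h₃ : W'.a₃ = W.a₃ + r * W.a₁ + 2 * t)
    (h₄ : W'.a₄ = W.a₄ + 2 * r * W.a₂ - t * W.a₁ + 3 * r ^ 2)
    (h₆ : W'.a₆ = W.a₆ + r * W.a₄ + r ^ 2 * W.a₂ + r ^ 3 - t * W.a₃ - t ^ 2 - r * t * W.a₁) :
    ∃ e : W.Point ≃+ W'.Point, ∀ (x y : K) (h : W.Nonsingular x y),
      ∃ h' : W'.Nonsingular (x - r) (y - t), e (.some x y h) = .some (x - r) (y - t) h' :=
  ⟨S58TL_equiv ⟨h₁, h₂, h₃, h₄, h₆⟩, fun _ _ _ => ⟨_, rfl⟩⟩

/-- Moving a point `(r, t)` of `W` to the origin: the translate has `a₆ = 0`, and `a₃ = 0` if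
moreover `(r, t)` is a `2`-torsion point (`t = negY r t`); `a₄` is minus the `x`-derivative. -/
theorem S58TL_origin (hT : S58TL_IsTranslate W W' r t) (h : W.Equation r t) :
    W'.a₆ = 0 ∧ W'.a₃ = W.polynomialY.evalEval r t ∧ W'.a₄ = -W.polynomialX.evalEval r t := by
  rw [equation_iff'] at h
  refine ⟨?_, ?_, ?_⟩
  · rw [hT.h₆]; linear_combination -h
  · rw [hT.h₃, evalEval_polynomialY]; ring
  · rw [hT.h₄, evalEval_polynomialX]; ring

theorem S58TL_origin_two_torsion (hT : S58TL_IsTranslate W W' r t) (h : W.Equation r t)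
    (h2 : t = W.negY r t) : W'.a₆ = 0 ∧ W'.a₃ = 0 := by
  obtain ⟨h6, h3, -⟩ := S58TL_origin hT h
  refine ⟨h6, ?_⟩
  rw [h3, evalEval_polynomialY]
  simp only [negY] at h2
  linear_combination h2

end Field

end Fermat.Agent.S58_helper13_TRANSL
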