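import Mathlib
import Fermat.Agent.S13_helper25_CP
import Fermat.Agent.S58_helper13_TRANSL

/-!
# S58 piece [E3-NODAL] (helper13): the translate of a multiplicative model is a nodal model

`W` a Weierstrass curve over a valued field, `(r, t)` a `2`-torsion point of `W` which reduces to
the singular point of the reduction (`v (F_x(r, t)) < 1`; `F_y(r, t) = 0` since `2`-torsion),
and `v c₄ = 1` (multiplicative reduction).  Then the translate `W'` of `W` by `(r, t)` is a
`NodalModel` in the sense of the landed `S13_helper25_CP`, for every root `γ` of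
`T² + a₁ T - (a₂ + 3 r)`.  No hypothesis on the residue characteristic.

Also: an integral point of the nodal model with `v x = 1` (a point of the identity component
which is not in the kernel of reduction) has `F_x` or `F_y` a unit (non-singular reduction).
-/

set_option autoImplicit false
set_option linter.unusedSectionVars false

namespace Fermat.Agent.S58_helper13_NODAL

open WeierstrassCurve WeierstrassCurve.Affine
open Fermat.Agent.S13_helper25_CP Fermat.Agent.S58_helper13_TRANSL

variable {K : Type*} [Field K] {Γ₀ : Type*} [LinearOrderedCommGroupWithZero Γ₀]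
  (v : Valuation K Γ₀)

/-- The value of a natural number is at most `1`. -/
theorem S58NM_natCast_le (n : ℕ) : v (n : K) ≤ 1 := by
  induction n with
  | zero => simp
  | succ n ih =>
    rw [Nat.cast_succ]
    exact (v.map_add _ _).trans (max_le ih (by rw [v.map_one]))

/-- The identity `(b₂ + 12 x)² = c₄ + 24 (a₁ F_y - 2 F_x)`. -/
theorem S58NM_hessian (W : WeierstrassCurve.Affine K) (x y : K) :
    (W.b₂ + 12 * x) ^ 2 = W.c₄ + 24 * (W.a₁ * W.polynomialY.evalEval x y
      - 2 * W.polynomialX.evalEval x y) := by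
  rw [evalEval_polynomialX, evalEval_polynomialY]
  simp only [WeierstrassCurve.c₄, WeierstrassCurve.b₂, WeierstrassCurve.b₄]
  ring

/-- If `v a = 1` and `v b < 1` then `v (a + b) = 1`. -/
theorem S58NM_add_small {a b : K} (ha : v a = 1) (hb : v b < 1) : v (a + b) = 1 := by
  have h := v.map_add_eq_of_lt_left (x := a) (y := b) (by rw [ha]; exact hb)
  rw [h, ha]

/-- If `v (a ^ 2) = 1` then `v a = 1`. -/
theorem S58NM_sq_one {a : K} (h : v (a ^ 2) = 1) : v a = 1 := by
  rw [map_pow] at h
  exact (pow_eq_one_iff_of_nonneg zero_le two_ne_zero).1 h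

/-- The product of two integral elements is integral. -/
theorem S58NM_mul_le {a b : K} (ha : v a ≤ 1) (hb : v b ≤ 1) : v (a * b) ≤ 1 := by
  rw [map_mul]; exact mul_le_one' ha hb

/-- The sum of two integral elements is integral. -/
theorem S58NM_add_le {a b : K} (ha : v a ≤ 1) (hb : v b ≤ 1) : v (a + b) ≤ 1 :=
  (v.map_add _ _).trans (max_le ha hb)

/-- The difference of two integral elements is integral. -/
theorem S58NM_sub_le {a b : K} (ha : v a ≤ 1) (hb : v b ≤ 1) : v (a - b) ≤ 1 := by
  rw [sub_eq_add_neg]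
  exact S58NM_add_le v ha (by rw [Valuation.map_neg]; exact hb)

/-- The sum of two small elements is small. -/
theorem S58NM_add_lt {a b : K} (ha : v a < 1) (hb : v b < 1) : v (a + b) < 1 :=
  lt_of_le_of_lt (v.map_add _ _) (max_lt ha hb)

/-- small times integral is small. -/
theorem S58NM_mul_lt {a b : K} (ha : v a ≤ 1) (hb : v b < 1) : v (a * b) < 1 := by
  rw [map_mul]
  calc v a * v b ≤ 1 * v b := mul_le_mul' ha le_rfl
    _ = v b := one_mul _
    _ < 1 := hb

/-- A root of a monic quadratic with integral coefficients is integral. -/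
theorem S58NM_int_of_monic {b c y : K} (hb : v b ≤ 1) (hc : v c ≤ 1)
    (h : y ^ 2 + b * y + c = 0) : v y ≤ 1 := by
  by_contra hy
  rw [not_le] at hy
  have hy0 : (0 : Γ₀) < v y := lt_trans zero_lt_one hy
  have e : y ^ 2 = -(b * y + c) := by linear_combination h
  have h1 : v (y ^ 2) ≤ v y := by
    rw [e, Valuation.map_neg]
    refine (v.map_add _ _).trans (max_le ?_ (hc.trans hy.le))
    rw [map_mul]
    calc v b * v y ≤ 1 * v y := mul_le_mul' hb le_rfl
      _ = v y := one_mul _
  have h2 : v y < v (y ^ 2) := by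
    rw [map_pow, pow_two]
    calc v y = v y * 1 := (mul_one _).symm
      _ < v y * v y := mul_lt_mul_of_pos_left hy hy0
  exact absurd h1 (not_le.mpr h2)

/-- **(a) [NODAL]**: the translate of `W` by a `2`-torsion point reducing to the node is a
nodal model. -/
theorem S58NM_nodal {W W' : WeierstrassCurve.Affine K} {r t γ : K}
    (hT : S58TL_IsTranslate W W' r t) (heq : W.Equation r t)
    (h2 : 2 * t + W.a₁ * r + W.a₃ = 0)
    (hFx : v (W.polynomialX.evalEval r t) < 1) (hFx0 : W.polynomialX.evalEval r t ≠ 0)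
    (hγ : γ ^ 2 + W.a₁ * γ - (W.a₂ + 3 * r) = 0) (hc₄ : v W.c₄ = 1) :
    NodalModel v W' γ := by
  classical
  obtain ⟨h6, h3, h4⟩ := S58TL_origin hT heq
  have hFy : W.polynomialY.evalEval r t = 0 := by
    rw [evalEval_polynomialY]; exact h2
  refine ⟨?_, h6, ?_, ?_, ?_, ?_⟩
  · rw [h3, hFy]
  · rw [h4, Valuation.map_neg]; exact hFx
  · rw [h4]; exact neg_ne_zero.mpr hFx0
  · rw [hT.h₁, hT.h₂]; exact hγ
  · -- unit discriminant: `(2γ + a₁)² = b₂ + 12 r` and `(b₂ + 12 r)² = c₄ - 48 F_x(r, t)`
    have e1 : (2 * γ + W'.a₁) ^ 2 = W.b₂ + 12 * r := by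
      rw [hT.h₁]
      simp only [WeierstrassCurve.b₂]
      linear_combination 4 * hγ
    have e2 : (W.b₂ + 12 * r) ^ 2 = W.c₄ + ((48 : ℕ) : K) * (-W.polynomialX.evalEval r t) := by
      have hH := S58NM_hessian W r t
      rw [hFy] at hH
      rw [hH]; push_cast; ring
    have h48 : v (((48 : ℕ) : K) * (-W.polynomialX.evalEval r t)) < 1 :=
      S58NM_mul_lt v (S58NM_natCast_le v 48) (by rw [Valuation.map_neg]; exact hFx)
    have h3' : v ((W.b₂ + 12 * r) ^ 2) = 1 := by
      rw [e2]; exact S58NM_add_small v hc₄ h48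
    have h4' : v (W.b₂ + 12 * r) = 1 := S58NM_sq_one v h3'
    apply S58NM_sq_one v
    rw [e1]; exact h4'

/-- The Euler-type identity on a curve with `a₃ = a₆ = 0`:
`x F_x + y F_y = -x (x² - a₄)`. -/
theorem S58NM_euler {W : WeierstrassCurve.Affine K} (h3 : W.a₃ = 0) (h6 : W.a₆ = 0) {x y : K}
    (h : W.Equation x y) :
    x * W.polynomialX.evalEval x y + y * W.polynomialY.evalEval x y = -(x * (x ^ 2 - W.a₄)) := by
  rw [equation_iff', h3, h6] at h
  rw [evalEval_polynomialX, evalEval_polynomialY, h3]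
  linear_combination 2 * h

/-- A point of a nodal model with integral `x` has integral `y`. -/
theorem S58NM_y_int {W : WeierstrassCurve.Affine K} {γ : K} (hW : NodalModel v W γ)
    (ha₁ : v W.a₁ ≤ 1) (ha₂ : v W.a₂ ≤ 1) {x y : K} (h : W.Equation x y) (hx : v x ≤ 1) :
    v y ≤ 1 := by
  rw [equation_iff', hW.a₃, hW.a₆] at h
  have h4 : v W.a₄ ≤ 1 := hW.h₄.le
  refine S58NM_int_of_monic v (b := W.a₁ * x) (c := -(x ^ 3 + W.a₂ * x ^ 2 + W.a₄ * x))
    (S58NM_mul_le v ha₁ hx) ?_ (by linear_combination h)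
  rw [Valuation.map_neg]
  refine S58NM_add_le v (S58NM_add_le v ?_ ?_) (S58NM_mul_le v h4 hx)
  · rw [map_pow]; exact pow_le_one' hx 3
  · refine S58NM_mul_le v ha₂ ?_
    rw [map_pow]; exact pow_le_one' hx 2

/-- **(c) [NS]**: a point of a nodal model whose `x`-coordinate is a unit has non-singular
reduction: one of the two partial derivatives is a unit. -/
theorem S58NM_ns {W : WeierstrassCurve.Affine K} {γ : K} (hW : NodalModel v W γ)
    (ha₁ : v W.a₁ ≤ 1) (ha₂ : v W.a₂ ≤ 1) {x y : K} (h : W.Equation x y) (hx : v x = 1) :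
    v (W.polynomialX.evalEval x y) = 1 ∨ v (W.polynomialY.evalEval x y) = 1 := by
  have hy : v y ≤ 1 := S58NM_y_int v hW ha₁ ha₂ h hx.le
  have h4 : v W.a₄ ≤ 1 := hW.h₄.le
  have hX : v (W.polynomialX.evalEval x y) ≤ 1 := by
    rw [evalEval_polynomialX]
    refine S58NM_sub_le v (S58NM_mul_le v ha₁ hy) (S58NM_add_le v (S58NM_add_le v ?_ ?_) h4)
    · refine S58NM_mul_le v ?_ ?_
      · have := S58NM_natCast_le v 3; simpa using this
      · rw [map_pow]; exact pow_le_one' hx.le 2
    · refine S58NM_mul_le v (S58NM_mul_le v ?_ ha₂) hx.le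
      have := S58NM_natCast_le v 2; simpa using this
  have hY : v (W.polynomialY.evalEval x y) ≤ 1 := by
    rw [evalEval_polynomialY, hW.a₃, add_zero]
    refine S58NM_add_le v (S58NM_mul_le v ?_ hy) (S58NM_mul_le v ha₁ hx.le)
    have := S58NM_natCast_le v 2; simpa using this
  have hE := S58NM_euler hW.a₃ hW.a₆ h
  have hR : v (-(x * (x ^ 2 - W.a₄))) = 1 := by
    rw [Valuation.map_neg, map_mul, hx, one_mul, sub_eq_add_neg]
    refine S58NM_add_small v ?_ (by rw [Valuation.map_neg]; exact hW.h₄)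
    rw [map_pow, hx, one_pow]
  by_contra hcon
  rw [not_or] at hcon
  have hX' : v (W.polynomialX.evalEval x y) < 1 := lt_of_le_of_ne hX hcon.1
  have hY' : v (W.polynomialY.evalEval x y) < 1 := lt_of_le_of_ne hY hcon.2
  have hL : v (x * W.polynomialX.evalEval x y + y * W.polynomialY.evalEval x y) < 1 :=
    S58NM_add_lt v (S58NM_mul_lt v hx.le hX') (S58NM_mul_lt v hy hY')
  rw [hE, hR] at hL
  exact lt_irrefl _ hL

/-- **(c) [NS]**, read on the original curve `W`: if the translate `W'` of `W` by `(r, t)` is a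
nodal model, a point `(x, y)` of `W` with `x - r` a unit has non-singular reduction. -/
theorem S58NM_ns_translate {W W' : WeierstrassCurve.Affine K} {r t γ : K}
    (hT : S58TL_IsTranslate W W' r t) (hW : NodalModel v W' γ)
    (ha₁ : v W'.a₁ ≤ 1) (ha₂ : v W'.a₂ ≤ 1) {x y : K} (h : W.Equation x y)
    (hx : v (x - r) = 1) :
    v (W.polynomialX.evalEval x y) = 1 ∨ v (W.polynomialY.evalEval x y) = 1 := by
  classical
  have h' : W'.Equation (x - r) (y - t) := (S58TL_equation hT x y).2 h
  have := S58NM_ns v hW ha₁ ha₂ h' hx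
  rwa [S58TL_polynomialX hT, S58TL_polynomialY hT] at this

end Fermat.Agent.S58_helper13_NODAL
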