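import Mathlib
import Fermat.Agent.S58_helper14_RES
import Fermat.Agent.S58_helper12_IRRABS

/-!
# S58, piece (RES), final plug (helper14)

`S58RESF_main`: helper18's contract `S58C_RES` from the elliptic contracts `(E0)` (helper2's
`S58T_E0`) and `(E1)` (`S58XF_E1`) at the ODD primes only; the abstract transfer of
irreducibility is helper12's landed `S58IA_main`.  No other hypothesis.
-/

set_option autoImplicit false
set_option linter.unusedSectionVars false
set_option linter.unusedVariables false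
set_option linter.style.haveILetI false

open Polynomial IsLocalRing

namespace Fermat.Agent.S58_helper14_RESF

open Fermat.Agent.S58_helper18_Contracts Fermat.Agent.S58_helper2_TORS
open Fermat.Agent.S58_helper14_XFER Fermat.Agent.S58_helper14_RES

/-- helper12's `S58IA_main` closes the abstract hypothesis of `S58RES_main`. -/
theorem S58RESF_IA : S58RES_IA := by
  intro G _ K K' _ _ φ h2 V V' _ _ _ _ _ _ hV hV' r r' hcp c hcc hdet hirr
  exact Fermat.Agent.S58_helper12_IRRABS.S58IA_main φ h2 hV hV' r r' hcp c hcc hdet hirr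

/-- the level-`p` data out of the contracts at all levels `p ^ k` -/
theorem S58RESF_level_one (W : WeierstrassCurve ℤ) (p : ℕ)
    (hE0 : S58T_E0 W p) (hE1 : S58XF_E1 W p) :
    ∃ b : Module.Basis (Fin 2) (ZMod p) (S58T_Tors W p),
      ∀ ℓ : ℕ, ℓ.Prime → W.IsGoodPrimeFor ℓ → ℓ ≠ p →
      ∀ (A : ValuationSubring (AlgebraicClosure ℚ)), A.LiesOverPrime ℓ →
      ∀ σ : AlgebraicClosure ℚ ≃ₐ[ℚ] AlgebraicClosure ℚ, A.IsFrobeniusAt σ ℓ →
        S58T_cp W p b σ
          = X ^ 2 - C ((W.apOfModel ℓ : ℤ) : ZMod p) * X + C ((ℓ : ℕ) : ZMod p) := by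
  have keyb : ∀ n : ℕ, n = p →
      Nonempty (Module.Basis (Fin 2) (ZMod n) (S58T_Tors W n)) →
      Nonempty (Module.Basis (Fin 2) (ZMod p) (S58T_Tors W p)) := by
    intro n hn
    subst hn
    exact id
  obtain ⟨b⟩ := keyb (p ^ 1) (pow_one p) (hE0 1)
  refine ⟨b, fun ℓ hℓ hgood hℓp A hA σ hσ => ?_⟩
  have key : ∀ n : ℕ, n = p →
      (∀ (b : Module.Basis (Fin 2) (ZMod n) (S58T_Tors W n))
        (A : ValuationSubring (AlgebraicClosure ℚ)), A.LiesOverPrime ℓ →
        ∀ σ : AlgebraicClosure ℚ ≃ₐ[ℚ] AlgebraicClosure ℚ, A.IsFrobeniusAt σ ℓ →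
          S58T_cp W n b σ
            = X ^ 2 - C ((W.apOfModel ℓ : ℤ) : ZMod n) * X + C ((ℓ : ℕ) : ZMod n)) →
      (∀ (b : Module.Basis (Fin 2) (ZMod p) (S58T_Tors W p))
        (A : ValuationSubring (AlgebraicClosure ℚ)), A.LiesOverPrime ℓ →
        ∀ σ : AlgebraicClosure ℚ ≃ₐ[ℚ] AlgebraicClosure ℚ, A.IsFrobeniusAt σ ℓ →
          S58T_cp W p b σ
            = X ^ 2 - C ((W.apOfModel ℓ : ℤ) : ZMod p) * X + C ((ℓ : ℕ) : ZMod p)) := by
    intro n hn
    subst hn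
    exact id
  exact key (p ^ 1) (pow_one p) (hE1 ℓ hℓ hgood hℓp 1) b A hA σ hσ

/-- **(RES) for one curve and one odd prime**, from `(E0)` and `(E1)` at that prime. -/
theorem S58RESF_one (W : WeierstrassCurve ℤ) (hΔ : W.Δ ≠ 0)
    (p : ℕ) [Fact p.Prime] (hp2 : p ≠ 2) (hirr : W.ModRepIsIrreducible p)
    (hE0 : S58T_E0 W p) (hE1 : S58XF_E1 W p)
    (O'' : Type) [CommRing O''] [IsLocalRing O'']
    (hp : (p : O'') ∈ maximalIdeal O'')
    (ρ : GaloisRepAdic O'') (B : Finset ℕ) (hF : S58C_Frob W p ρ B) :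
    ρ.residual.IsAbsolutelyIrreducible ∧ ρ.residual.IsOdd := by
  obtain ⟨b, hb⟩ := S58RESF_level_one W p hE0 hE1
  exact S58RES_one S58RESF_IA W hΔ p hp2 hirr b hb O'' hp ρ B hF

/-- **(RES)**: helper18's contract `S58C_RES`, from `(E0)` and `(E1)` at the odd primes. -/
theorem S58RESF_main
    (h : ∀ (W : WeierstrassCurve ℤ), W.Δ ≠ 0 → W.IsSemistableModel →
      ∀ (p : ℕ) [Fact p.Prime], p ≠ 2 → S58T_E0 W p ∧ S58XF_E1 W p) :
    S58C_RES := by
  intro W hΔ hss p _ hp2 hirr O'' _ _ _ _ _ _ hp ρ B hF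
  obtain ⟨hE0, hE1⟩ := h W hΔ hss p hp2
  exact S58RESF_one W hΔ p hp2 hirr hE0 hE1 O'' hp ρ B hF

end Fermat.Agent.S58_helper14_RESF
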