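import Mathlib
import Fermat.Agent.S13_helper25_CP

/-!
# S58 (E3) at a multiplicative prime: a point of exact order `lam ^ k` in the identity component

On a nodal model (helper25's `NodalModel`: `a₃ = a₆ = 0`, `0 < v a₄ < 1`, the two tangent
directions at the node are distinct mod `v`) the component map `phiN` is additive up to
even powers of `v a₄`.  Hence for two independent points `P`, `Q` of order `lam ^ k` a
suitable combination `P + t • Q` or `Q + s • P` lies in the identity component `E0`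
(the points with non-singular reduction), and still has exact order `lam ^ k`.

No Galois action is involved; any residue characteristic.
-/

namespace Fermat.Agent.S58_helper24_E3PT

open WeierstrassCurve WeierstrassCurve.Affine
open Fermat.Agent.S13_helper25_CP

/-- If `lam ∤ b₁` then `d * b₁` divides `d * a₁` modulo `lam ^ k`, with a natural cofactor. -/
theorem S58PT_unit (lam k : ℕ) (hlam : lam.Prime) (d a₁ b₁ : ℤ) (hb : ¬ (lam : ℤ) ∣ b₁) :
    ∃ t : ℕ, ((lam ^ k : ℕ) : ℤ) ∣ d * a₁ + (t : ℤ) * (d * b₁) := by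
  have hpr : Prime (lam : ℤ) := Nat.prime_iff_prime_int.1 hlam
  have hcop : IsCoprime b₁ (((lam ^ k : ℕ) : ℤ)) := by
    push_cast
    exact ((hpr.coprime_iff_not_dvd).2 hb).symm.pow_right
  obtain ⟨u, w, huw⟩ := hcop
  have hn0 : (0 : ℤ) < ((lam ^ k : ℕ) : ℤ) := by exact_mod_cast pow_pos hlam.pos k
  refine ⟨((-a₁ * u) % ((lam ^ k : ℕ) : ℤ)).toNat, ?_⟩
  have hnn : 0 ≤ (-a₁ * u) % ((lam ^ k : ℕ) : ℤ) := Int.emod_nonneg _ hn0.ne'
  rw [Int.toNat_of_nonneg hnn]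
  have hmod : (-a₁ * u) % ((lam ^ k : ℕ) : ℤ)
      = -a₁ * u - ((lam ^ k : ℕ) : ℤ) * ((-a₁ * u) / ((lam ^ k : ℕ) : ℤ)) := by
    have := Int.emod_add_mul_ediv (-a₁ * u) ((lam ^ k : ℕ) : ℤ)
    linarith
  rw [hmod]
  refine ⟨d * a₁ * w - (-a₁ * u) / ((lam ^ k : ℕ) : ℤ) * (d * b₁), ?_⟩
  linear_combination (-(d * a₁)) * huw

/-- In `ℤ / lam ^ k` one of two residues is a multiple of the other. -/
theorem S58PT_chain (lam k : ℕ) (hlam : lam.Prime) (a b : ℤ) :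
    (∃ t : ℕ, ((lam ^ k : ℕ) : ℤ) ∣ a + (t : ℤ) * b) ∨
      (∃ s : ℕ, ((lam ^ k : ℕ) : ℤ) ∣ b + (s : ℤ) * a) := by
  have hpr : Prime (lam : ℤ) := Nat.prime_iff_prime_int.1 hlam
  by_cases h0 : a = 0 ∧ b = 0
  · exact Or.inl ⟨0, by simp [h0.1]⟩
  · have hg : Int.gcd a b ≠ 0 := by
      intro h
      exact h0 (Int.gcd_eq_zero_iff.1 h)
    have hg' : ((Int.gcd a b : ℕ) : ℤ) ≠ 0 := by exact_mod_cast hg
    have hga : ((Int.gcd a b : ℕ) : ℤ) ∣ a := Int.gcd_dvd_left a b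
    have hgb : ((Int.gcd a b : ℕ) : ℤ) ∣ b := Int.gcd_dvd_right a b
    have hgg : ∀ c : ℤ, c ∣ a → c ∣ b → c ∣ ((Int.gcd a b : ℕ) : ℤ) :=
      fun c h1 h2 => Int.dvd_coe_gcd h1 h2
    generalize ((Int.gcd a b : ℕ) : ℤ) = g at hga hgb hgg hg'
    obtain ⟨a₁, rfl⟩ := hga
    obtain ⟨b₁, rfl⟩ := hgb
    have hnot : ¬ ((lam : ℤ) ∣ a₁ ∧ (lam : ℤ) ∣ b₁) := by
      rintro ⟨⟨a₂, rfl⟩, ⟨b₂, rfl⟩⟩
      have h1 : g * (lam : ℤ) ∣ g * ((lam : ℤ) * a₂) := ⟨a₂, by ring⟩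
      have h2 : g * (lam : ℤ) ∣ g * ((lam : ℤ) * b₂) := ⟨b₂, by ring⟩
      obtain ⟨c, hc⟩ := hgg _ h1 h2
      have h4 : (lam : ℤ) * c = 1 := by
        apply mul_left_cancel₀ hg'
        linear_combination -hc
      exact hpr.not_isUnit (IsUnit.of_mul_eq_one _ h4)
    by_cases hb : (lam : ℤ) ∣ b₁
    · have ha : ¬ (lam : ℤ) ∣ a₁ := fun h => hnot ⟨h, hb⟩
      exact Or.inr (S58PT_unit lam k hlam g b₁ a₁ ha)
    · exact Or.inl (S58PT_unit lam k hlam g a₁ b₁ hb)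

section Core

variable {K : Type*} [Field K] [DecidableEq K] {Γ₀ : Type*} [LinearOrderedCommGroupWithZero Γ₀]
  (v : Valuation K Γ₀) {W : WeierstrassCurve.Affine K} {γ : K}

/-- The value group has no torsion: an `n`-th root of an even power `2 * (n * m)` of `β` is the
even power `2 * m` of `β`. -/
theorem S58PT_root {β x : Γ₀} {n : ℕ} (hn : n ≠ 0) {m : ℤ}
    (h : x ^ n = β ^ (2 * ((n : ℤ) * m))) : x = β ^ (2 * m) := by
  have h1 : (β ^ (2 * m)) ^ n = β ^ (2 * ((n : ℤ) * m)) := by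
    rw [← zpow_natCast, ← zpow_mul]
    congr 1
    ring
  exact pow_left_injective hn (h.trans h1.symm)

/-- One half of the construction: if the component of `P` is a multiple of the component of `Q`
(in the component group, `n`-torsion part), then `P + t • Q` lies in the identity component. -/
theorem S58PT_half (hW : NodalModel v W γ) (n : ℕ) (hn : n ≠ 0) (P Q : W.Point)
    (a b : ℤ) (ha : phiN v W γ P ^ n = v W.a₄ ^ (2 * a))
    (hb : phiN v W γ Q ^ n = v W.a₄ ^ (2 * b))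
    (t : ℕ) (ht : (n : ℤ) ∣ a + (t : ℤ) * b) : InE0 v (P + t • Q) := by
  have hβ : v W.a₄ ≠ 0 := hW.ne_zero
  obtain ⟨j₁, hj₁⟩ := phiN_add v hW P (t • Q)
  obtain ⟨j₂, hj₂⟩ := phiN_nsmul v hW Q t
  obtain ⟨c, hc⟩ := ht
  refine (inE0_iff v hW (P + t • Q)).2 ⟨c + j₁ + j₂, ?_⟩
  apply S58PT_root hn
  rw [hj₁, hj₂, mul_pow, mul_pow, mul_pow, ← pow_mul, mul_comm t n, pow_mul, ha, hb,
    ← zpow_natCast (v W.a₄ ^ (2 * b)) t, ← zpow_mul, ← zpow_natCast (v W.a₄ ^ (2 * j₂)) n,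
    ← zpow_mul, ← zpow_natCast (v W.a₄ ^ (2 * j₁)) n, ← zpow_mul, ← zpow_add₀ hβ,
    ← zpow_add₀ hβ, ← zpow_add₀ hβ]
  congr 1
  linear_combination 2 * hc

/-- One half of the construction, with the order statement. -/
theorem S58PT_half_exact (hW : NodalModel v W γ) (n : ℕ) (hn : n ≠ 0) (P Q : W.Point)
    (hP : n • P = 0) (hQ : n • Q = 0)
    (hind : ∀ a b : ℤ, a • P + b • Q = 0 → (n : ℤ) ∣ a ∧ (n : ℤ) ∣ b)
    (a b : ℤ) (ha : phiN v W γ P ^ n = v W.a₄ ^ (2 * a))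
    (hb : phiN v W γ Q ^ n = v W.a₄ ^ (2 * b))
    (t : ℕ) (ht : (n : ℤ) ∣ a + (t : ℤ) * b) :
    ∃ R : W.Point, n • R = 0 ∧ (∀ m : ℤ, m • R = 0 → (n : ℤ) ∣ m) ∧ InE0 v R := by
  refine ⟨P + t • Q, ?_, ?_, S58PT_half v hW n hn P Q a b ha hb t ht⟩
  · rw [smul_add, hP, smul_comm, hQ, smul_zero, add_zero]
  · intro m hm
    refine (hind m (m * (t : ℤ)) ?_).1
    rw [← hm, smul_add, mul_smul, natCast_zsmul]

/-- **(E3-PT-ABS)** On a nodal model, two independent points of order `lam ^ k` generate a point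
of exact order `lam ^ k` in the identity component (the points with non-singular reduction). -/
theorem S58PT_exact (hW : NodalModel v W γ)
    (lam k : ℕ) (hlam : lam.Prime) (P Q : W.Point)
    (hP : (lam ^ k) • P = 0) (hQ : (lam ^ k) • Q = 0)
    (hind : ∀ a b : ℤ, a • P + b • Q = 0 →
      ((lam ^ k : ℕ) : ℤ) ∣ a ∧ ((lam ^ k : ℕ) : ℤ) ∣ b) :
    ∃ R : W.Point, (lam ^ k) • R = 0 ∧ (∀ m : ℤ, m • R = 0 → ((lam ^ k : ℕ) : ℤ) ∣ m) ∧
      InE0 v R := by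
  have hn : lam ^ k ≠ 0 := pow_ne_zero k hlam.ne_zero
  obtain ⟨a, ha⟩ := phiN_torsion v hW (lam ^ k) hP
  obtain ⟨b, hb⟩ := phiN_torsion v hW (lam ^ k) hQ
  rcases S58PT_chain lam k hlam a b with ⟨t, ht⟩ | ⟨s, hs⟩
  · exact S58PT_half_exact v hW (lam ^ k) hn P Q hP hQ hind a b ha hb t ht
  · refine S58PT_half_exact v hW (lam ^ k) hn Q P hQ hP (fun x y hxy => ?_) b a hb ha s hs
    have := hind y x (by rw [add_comm]; exact hxy)
    exact ⟨this.2, this.1⟩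

end Core

end Fermat.Agent.S58_helper24_E3PT
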