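import Mathlib
import Fermat.Agent.S58_helper5_E3GOOD

/-!
# S58, brick E3-PLUG (helper9): the outer layer of E3-RAW

* `S58PL_int` : a point of `W[n]`, `n` prime to `q`, is integral at every place over `q`;
* `S58PL_Key W` : the pointwise input - if `P` in `W[n]` is integral with SINGULAR reduction and
  `τ` is in the inertia group, then `τ P - P` (when it is not `0`) has NON-singular reduction;
* `S58PL_main : S58PL_Key W → S58T_E3raw W`.
-/

set_option autoImplicit false
set_option linter.unusedSectionVars false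
set_option linter.unusedVariables false

namespace Fermat.Agent.S58_helper9_PLUG

open WeierstrassCurve WeierstrassCurve.Affine
open Fermat.Agent.S13_helper9_RD Fermat.Agent.S58_helper5_RED Fermat.Agent.S58_helper2_TORS
  Fermat.Agent.S05_helper5_Inertia Fermat.Agent.S05_helper5_Frey
  Fermat.Agent.S58_helper5_E3GOOD

local notation "Qb" => AlgebraicClosure ℚ

/-- A point of `W[n]`, `n` prime to `q`, is integral at every place over `q`. -/
theorem S58PL_int (W : WeierstrassCurve ℤ) {q : ℕ} (hq : q.Prime)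
    {n : ℕ} (hn : ¬ q ∣ n) (A : ValuationSubring Qb) (hA : A.LiesOverPrime q)
    {x y : Qb} (h : (((W.map (Int.castRingHom ℚ)).toAffine)⁄Qb).Nonsingular x y)
    (hP : n • Point.some x y h = 0) : A.valuation x ≤ 1 ∧ A.valuation y ≤ 1 := by
  obtain ⟨e₁, e₂, e₃, e₄, e₆⟩ := S58E3G_coeff W
  have c₁ : A.valuation (((W.map (Int.castRingHom ℚ)).toAffine)⁄Qb).a₁ ≤ 1 := by
    rw [e₁]; exact val_intCast_le_one A _
  have c₂ : A.valuation (((W.map (Int.castRingHom ℚ)).toAffine)⁄Qb).a₂ ≤ 1 := by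
    rw [e₂]; exact val_intCast_le_one A _
  have c₃ : A.valuation (((W.map (Int.castRingHom ℚ)).toAffine)⁄Qb).a₃ ≤ 1 := by
    rw [e₃]; exact val_intCast_le_one A _
  have c₄ : A.valuation (((W.map (Int.castRingHom ℚ)).toAffine)⁄Qb).a₄ ≤ 1 := by
    rw [e₄]; exact val_intCast_le_one A _
  have c₆ : A.valuation (((W.map (Int.castRingHom ℚ)).toAffine)⁄Qb).a₆ ≤ 1 := by
    rw [e₆]; exact val_intCast_le_one A _
  have hnv : A.valuation ((n : ℕ) : Qb) = 1 := val_natCast_eq_one_of_not_dvd A hq hA hn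
  have hx : A.valuation x ≤ 1 := by
    by_contra hlt
    have hin : InE1 A.valuation (Point.some x y h) := not_le.1 hlt
    exact Point.some_ne_zero _ (inE1_torsion_free A.valuation c₁ c₂ c₃ c₄ c₆ hnv hin hP)
  exact ⟨hx, S58RD_val_y_le A.valuation c₁ c₂ c₃ c₄ c₆ h.1 hx⟩

/-- The two partial derivatives of the Weierstrass polynomial are integral at an integral
point. -/
theorem S58PL_partial_int (W : WeierstrassCurve ℤ) (A : ValuationSubring Qb) {x y : Qb}
    (hx : A.valuation x ≤ 1) (hy : A.valuation y ≤ 1) :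
    A.valuation ((((W.map (Int.castRingHom ℚ)).toAffine)⁄Qb).polynomialX.evalEval x y) ≤ 1 ∧
    A.valuation ((((W.map (Int.castRingHom ℚ)).toAffine)⁄Qb).polynomialY.evalEval x y) ≤ 1 := by
  obtain ⟨e₁, e₂, e₃, e₄, e₆⟩ := S58E3G_coeff W
  have mx : x ∈ A := (A.valuation_le_one_iff x).1 hx
  have my : y ∈ A := (A.valuation_le_one_iff y).1 hy
  have mi : ∀ k : ℤ, ((k : ℤ) : Qb) ∈ A := fun k => intCast_mem A k
  have mn : ∀ k : ℕ, ((k : ℕ) : Qb) ∈ A := fun k => natCast_mem A k
  constructor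
  · rw [A.valuation_le_one_iff, evalEval_polynomialX, e₁, e₂, e₄]
    refine sub_mem (mul_mem (mi _) my) (add_mem (add_mem (mul_mem ?_ (pow_mem mx 2))
      (mul_mem (mul_mem ?_ (mi _)) mx)) (mi _))
    · exact_mod_cast mn 3
    · exact_mod_cast mn 2
  · rw [A.valuation_le_one_iff, evalEval_polynomialY, e₁, e₃]
    refine add_mem (add_mem (mul_mem ?_ my) (mul_mem (mi _) mx)) (mi _)
    exact_mod_cast mn 2

/-- **The pointwise input of E3-RAW**: at a prime `q` of multiplicative reduction, if the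
integral point `P` of `W[n]` (`n` prime to `q`) has SINGULAR reduction and `τ` is in the inertia
group, then `τ P - P`, when it is an affine point, has NON-singular reduction. -/
def S58PL_Key (W : WeierstrassCurve ℤ) : Prop :=
  ∀ q : ℕ, q.Prime → (q : ℤ) ∣ W.Δ → ¬ (q : ℤ) ∣ W.c₄ → ∀ n : ℕ, ¬ q ∣ n →
    ∀ A : ValuationSubring Qb, A.LiesOverPrime q →
      ∀ τ : Qb ≃ₐ[ℚ] Qb, τ ∈ A.inertiaSubgroupIn ℚ →
        ∀ (x y : Qb) (h : (((W.map (Int.castRingHom ℚ)).toAffine)⁄Qb).Nonsingular x y),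
          n • Point.some x y h = 0 → A.valuation x ≤ 1 → A.valuation y ≤ 1 →
          A.valuation
            ((((W.map (Int.castRingHom ℚ)).toAffine)⁄Qb).polynomialX.evalEval x y) < 1 →
          A.valuation
            ((((W.map (Int.castRingHom ℚ)).toAffine)⁄Qb).polynomialY.evalEval x y) < 1 →
          ∀ (xD yD : Qb)
            (hD : (((W.map (Int.castRingHom ℚ)).toAffine)⁄Qb).Nonsingular xD yD),
            Point.map (W' := (W.map (Int.castRingHom ℚ)).toAffine) τ.toAlgHom
              (Point.some x y h) - Point.some x y h = Point.some xD yD hD →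
            A.valuation xD ≤ 1 → A.valuation yD ≤ 1 →
            A.valuation
              ((((W.map (Int.castRingHom ℚ)).toAffine)⁄Qb).polynomialX.evalEval xD yD) = 1 ∨
            A.valuation
              ((((W.map (Int.castRingHom ℚ)).toAffine)⁄Qb).polynomialY.evalEval xD yD) = 1

/-- `(τ - 1) ^ 2` kills every point of `W[n]`, pointwise form. -/
theorem S58PL_point (W : WeierstrassCurve ℤ) (hkey : S58PL_Key W) {q : ℕ} (hq : q.Prime)
    (hqΔ : (q : ℤ) ∣ W.Δ) (hc4 : ¬ (q : ℤ) ∣ W.c₄) {n : ℕ} (hn : ¬ q ∣ n)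
    (A : ValuationSubring Qb) (hA : A.LiesOverPrime q)
    (τ : Qb ≃ₐ[ℚ] Qb) (hτ : τ ∈ A.inertiaSubgroupIn ℚ)
    (Pt : (((W.map (Int.castRingHom ℚ)).toAffine)⁄Qb).Point) (hPt : n • Pt = 0) :
    Point.map (W' := (W.map (Int.castRingHom ℚ)).toAffine) τ.toAlgHom
      (Point.map (W' := (W.map (Int.castRingHom ℚ)).toAffine) τ.toAlgHom Pt - Pt) =
      Point.map (W' := (W.map (Int.castRingHom ℚ)).toAffine) τ.toAlgHom Pt - Pt := by
  rcases Pt with _ | ⟨x, y, h⟩
  · show Point.map (W' := (W.map (Int.castRingHom ℚ)).toAffine) τ.toAlgHom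
      (Point.map (W' := (W.map (Int.castRingHom ℚ)).toAffine) τ.toAlgHom 0 - 0) =
      Point.map (W' := (W.map (Int.castRingHom ℚ)).toAffine) τ.toAlgHom 0 - 0
    simp
  · obtain ⟨hx, hy⟩ := S58PL_int W hq hn A hA h hPt
    by_cases hns :
        A.valuation ((((W.map (Int.castRingHom ℚ)).toAffine)⁄Qb).polynomialX.evalEval x y) = 1 ∨
        A.valuation ((((W.map (Int.castRingHom ℚ)).toAffine)⁄Qb).polynomialY.evalEval x y) = 1
    · have hfix := S58E3G_nonsing W hq hn A hA τ hτ h hPt hx hns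
      rw [hfix, sub_self, map_zero]
    · rw [not_or] at hns
      obtain ⟨hpx, hpy⟩ := S58PL_partial_int W A hx hy
      have hsx := lt_of_le_of_ne hpx hns.1
      have hsy := lt_of_le_of_ne hpy hns.2
      have hnd : n • (Point.map (W' := (W.map (Int.castRingHom ℚ)).toAffine) τ.toAlgHom
          (Point.some x y h) - Point.some x y h) = 0 := by
        rw [smul_sub, ← map_nsmul, hPt, map_zero, sub_zero]
      rcases hD : (Point.map (W' := (W.map (Int.castRingHom ℚ)).toAffine) τ.toAlgHom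
          (Point.some x y h) - Point.some x y h) with _ | ⟨xD, yD, hD'⟩
      · exact map_zero _
      · rw [hD] at hnd
        obtain ⟨hxD, hyD⟩ := S58PL_int W hq hn A hA hD' hnd
        exact S58E3G_nonsing W hq hn A hA τ hτ hD' hnd hxD
          (hkey q hq hqΔ hc4 n hn A hA τ hτ x y h hPt hx hy hsx hsy xD yD hD' hD hxD hyD)

/-- **E3-PLUG**: the pointwise key gives `S58T_E3raw W`. -/
theorem S58PL_main (W : WeierstrassCurve ℤ) (hkey : S58PL_Key W) : S58T_E3raw W := by
  intro q hq hqΔ hc4 n hn A hA τ hτ P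
  have hqn : ¬ q ∣ n := by
    intro hd
    have h1 : q ∣ Nat.gcd n q := Nat.dvd_gcd hd dvd_rfl
    rw [Nat.Coprime] at hn
    rw [hn] at h1
    exact hq.one_lt.ne' (Nat.dvd_one.1 h1)
  have hPt : n • (P : (((W.map (Int.castRingHom ℚ)).toAffine)⁄Qb).Point) = 0 := by
    have := (Submodule.mem_torsionBy_iff _ _).1 P.2
    rwa [natCast_zsmul] at this
  have key := S58PL_point W hkey hq hqΔ hc4 hqn A hA τ hτ P hPt
  rw [map_sub, sub_eq_sub_iff_add_eq_add] at key
  apply Subtype.ext
  exact key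

end Fermat.Agent.S58_helper9_PLUG
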