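import Mathlib
import Fermat.Agent.S58_helper9_PLUG
import Fermat.Agent.S58_helper13_NODAL
import Fermat.Agent.S58_helper24_E3PT

/-!
# S58 (E3), Route B, brick [E3-HFIX] (helper15)

Every element of an inertia group at a prime `q ≠ lam` fixes a point of `W[lam ^ k]` with
trivial annihilator (the hypothesis `hfix` of `S58DET_E3`).

* at a prime of good reduction: a basis vector (E3-GOOD);
* at a prime of multiplicative reduction: translate the node to the origin (`S58HF_NX`, the typed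
  input NODAL-EXISTS), the translate is a nodal model (NODAL), two independent points of order
  `lam ^ k` generate a point of exact order `lam ^ k` in the identity component (E3-PT-ABS),
  which has non-singular reduction (NS) and is therefore fixed by inertia (E3-GOOD, `nonsing`).
-/

set_option autoImplicit false
set_option linter.unusedSectionVars false
set_option linter.unusedVariables false

namespace Fermat.Agent.S58_helper15_HFIX

open WeierstrassCurve WeierstrassCurve.Affine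
open Fermat.Agent.S13_helper9_RD Fermat.Agent.S58_helper5_RED Fermat.Agent.S58_helper2_TORS
  Fermat.Agent.S05_helper5_Inertia Fermat.Agent.S05_helper5_Frey
  Fermat.Agent.S58_helper5_E3GOOD Fermat.Agent.S58_helper9_PLUG
  Fermat.Agent.S13_helper25_CP Fermat.Agent.S58_helper13_TRANSL Fermat.Agent.S58_helper13_NODAL
  Fermat.Agent.S58_helper24_E3PT

local notation "Qb" => AlgebraicClosure ℚ

/-- The typed input NODAL-EXISTS: at a prime of multiplicative reduction there is an integral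
`2`-torsion point reducing to the node. -/
def S58HF_NX (W : WeierstrassCurve ℤ) : Prop :=
  ∀ q : ℕ, q.Prime → (q : ℤ) ∣ W.Δ → ¬ (q : ℤ) ∣ W.c₄ →
    ∀ A : ValuationSubring Qb, A.LiesOverPrime q →
      ∃ r t : Qb, A.valuation r ≤ 1 ∧ A.valuation t ≤ 1 ∧
        (((W.map (Int.castRingHom ℚ)).toAffine)⁄Qb).Equation r t ∧
        2 * t + (((W.map (Int.castRingHom ℚ)).toAffine)⁄Qb).a₁ * r
          + (((W.map (Int.castRingHom ℚ)).toAffine)⁄Qb).a₃ = 0 ∧
        A.valuation ((((W.map (Int.castRingHom ℚ)).toAffine)⁄Qb).polynomialX.evalEval r t) < 1 ∧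
        (((W.map (Int.castRingHom ℚ)).toAffine)⁄Qb).polynomialX.evalEval r t ≠ 0

/-- `c₄` and `Δ` of `W⁄Q-bar` are the integers `c₄`, `Δ` of `W`. -/
theorem S58HF_c₄ (W : WeierstrassCurve ℤ) :
    (((W.map (Int.castRingHom ℚ)).toAffine)⁄Qb).c₄ = ((W.c₄ : ℤ) : Qb) := by
  simp [Affine.baseChange, WeierstrassCurve.baseChange]

theorem S58HF_Δ (W : WeierstrassCurve ℤ) :
    (((W.map (Int.castRingHom ℚ)).toAffine)⁄Qb).Δ = ((W.Δ : ℤ) : Qb) := by
  simp [Affine.baseChange, WeierstrassCurve.baseChange]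

/-- NODAL-EXISTS in helper24's general shape (at `K = Q-bar`) gives `S58HF_NX`. -/
theorem S58HF_NX_of (W : WeierstrassCurve ℤ) (hΔ : W.Δ ≠ 0)
    (hex : ∀ {Γ₀ : Type} [LinearOrderedCommGroupWithZero Γ₀] (v : Valuation Qb Γ₀)
      (W' : WeierstrassCurve.Affine Qb), v W'.a₁ ≤ 1 → v W'.a₂ ≤ 1 → v W'.a₃ ≤ 1 →
      v W'.a₄ ≤ 1 → v W'.a₆ ≤ 1 → (2 : Qb) ≠ 0 → v W'.c₄ = 1 → v W'.Δ < 1 → W'.Δ ≠ 0 →
      ∃ r t : Qb, v r ≤ 1 ∧ v t ≤ 1 ∧ W'.Equation r t ∧ 2 * t + W'.a₁ * r + W'.a₃ = 0 ∧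
        v (W'.polynomialX.evalEval r t) < 1 ∧ W'.polynomialX.evalEval r t ≠ 0) :
    S58HF_NX W := by
  intro q hq hqΔ hc4 A hA
  obtain ⟨e₁, e₂, e₃, e₄, e₆⟩ := S58E3G_coeff W
  refine hex A.valuation (((W.map (Int.castRingHom ℚ)).toAffine)⁄Qb) ?_ ?_ ?_ ?_ ?_
    two_ne_zero ?_ ?_ ?_
  · rw [e₁]; exact val_intCast_le_one A _
  · rw [e₂]; exact val_intCast_le_one A _
  · rw [e₃]; exact val_intCast_le_one A _
  · rw [e₄]; exact val_intCast_le_one A _
  · rw [e₆]; exact val_intCast_le_one A _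
  · rw [S58HF_c₄]; exact val_intCast_eq_one_of_not_dvd A hq hA hc4
  · rw [S58HF_Δ]; exact val_intCast_lt_one_of_dvd A hA hqΔ
  · rw [S58HF_Δ]; exact_mod_cast hΔ

/-- A monic quadratic has a root in `Q-bar`. -/
theorem S58HF_root (b c : Qb) : ∃ γ : Qb, γ ^ 2 + b * γ - c = 0 := by
  obtain ⟨s, hs⟩ := IsAlgClosed.exists_pow_nat_eq (b ^ 2 + 4 * c) (n := 2) (by norm_num)
  refine ⟨(s - b) / 2, ?_⟩
  field_simp
  linear_combination hs

/-- A basis vector has trivial annihilator. -/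
theorem S58HF_basis_ann {n : ℕ} {M : Type*} [AddCommGroup M] [Module (ZMod n) M]
    (b : Module.Basis (Fin 2) (ZMod n) M) (i : Fin 2) (r : ZMod n) (hr : r • b i = 0) :
    r = 0 := by
  have h := congrArg (fun v => b.repr v i) hr
  simpa using h

/-- The two basis vectors are independent. -/
theorem S58HF_basis_ind {n : ℕ} {M : Type*} [AddCommGroup M] [Module (ZMod n) M]
    (b : Module.Basis (Fin 2) (ZMod n) M) (r s : ZMod n) (h : r • b 0 + s • b 1 = 0) :
    r = 0 ∧ s = 0 := by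
  have h0 := congrArg (fun v => b.repr v 0) h
  have h1 := congrArg (fun v => b.repr v 1) h
  simp at h0 h1
  exact ⟨h0, h1⟩

/-- **[E3-HFIX]**: every inertia element at `q ≠ lam` fixes a point of `W[lam ^ k]` with trivial
annihilator. -/
theorem S58HF_main (W : WeierstrassCurve ℤ) (hss : W.IsSemistableModel) (lam : ℕ)
    [Fact lam.Prime] (hE0 : S58T_E0 W lam) (hNX : S58HF_NX W) :
    ∀ q : ℕ, q.Prime → q ≠ lam → ∀ (k : ℕ) (A : ValuationSubring Qb), A.LiesOverPrime q →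
      ∀ τ ∈ A.inertiaSubgroupIn ℚ,
        ∃ P : S58T_Tors W (lam ^ k), (∀ r : ZMod (lam ^ k), r • P = 0 → r = 0) ∧ τ • P = P := by
  intro q hq hne k A hA τ hτ
  have hlam : lam.Prime := Fact.out
  rcases Nat.eq_zero_or_pos k with rfl | hk
  · refine ⟨0, fun r _ => ?_, smul_zero _⟩
    have : Subsingleton (ZMod (lam ^ 0)) := by rw [pow_zero]; infer_instance
    exact Subsingleton.elim _ _
  have : NeZero (lam ^ k) := ⟨pow_ne_zero _ hlam.ne_zero⟩
  have hcop : (lam ^ k).Coprime q :=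
    Nat.Coprime.pow_left k ((Nat.coprime_primes hlam hq).mpr (Ne.symm hne))
  have hqn : ¬ q ∣ lam ^ k := fun hd =>
    hne ((Nat.prime_dvd_prime_iff_eq hq hlam).mp (hq.dvd_of_dvd_pow hd))
  obtain ⟨b⟩ := hE0 k
  by_cases hqΔ : (q : ℤ) ∣ W.Δ
  swap
  · exact ⟨b 0, S58HF_basis_ann b 0, S58E3G_main W q hq hqΔ (lam ^ k) hcop A hA τ hτ (b 0)⟩
  have hc4 := hss q hq hqΔ
  obtain ⟨r, t, hr, ht, heq, h2, hFx, hFx0⟩ := hNX q hq hqΔ hc4 A hA
  obtain ⟨e₁, e₂, e₃, e₄, e₆⟩ := S58E3G_coeff W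
  have c₁ : A.valuation (((W.map (Int.castRingHom ℚ)).toAffine)⁄Qb).a₁ ≤ 1 := by
    rw [e₁]; exact val_intCast_le_one A _
  have c₂ : A.valuation (((W.map (Int.castRingHom ℚ)).toAffine)⁄Qb).a₂ ≤ 1 := by
    rw [e₂]; exact val_intCast_le_one A _
  have hv4 : A.valuation (((W.map (Int.castRingHom ℚ)).toAffine)⁄Qb).c₄ = 1 := by
    rw [S58HF_c₄]; exact val_intCast_eq_one_of_not_dvd A hq hA hc4
  obtain ⟨γ, hγ⟩ := S58HF_root (((W.map (Int.castRingHom ℚ)).toAffine)⁄Qb).a₁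
    ((((W.map (Int.castRingHom ℚ)).toAffine)⁄Qb).a₂ + 3 * r)
  have hT := S58TL_translate_isTranslate (((W.map (Int.castRingHom ℚ)).toAffine)⁄Qb) r t
  have hnod : NodalModel A.valuation
      (S58TL_translate (((W.map (Int.castRingHom ℚ)).toAffine)⁄Qb) r t) γ :=
    S58NM_nodal A.valuation hT heq h2 hFx hFx0 hγ hv4
  have c₁' : A.valuation (S58TL_translate (((W.map (Int.castRingHom ℚ)).toAffine)⁄Qb) r t).a₁
      ≤ 1 := c₁
  have c₂' : A.valuation (S58TL_translate (((W.map (Int.castRingHom ℚ)).toAffine)⁄Qb) r t).a₂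
      ≤ 1 := by
    refine S58NM_add_le A.valuation c₂ (S58NM_mul_le A.valuation ?_ hr)
    have := S58NM_natCast_le A.valuation 3
    simpa using this
  have hb0 : (lam ^ k) • ((b 0 : S58T_Tors W (lam ^ k)) :
      (((W.map (Int.castRingHom ℚ)).toAffine)⁄Qb).Point) = 0 := by
    have := (Submodule.mem_torsionBy_iff _ _).1 (b 0).2
    rwa [natCast_zsmul] at this
  have hb1 : (lam ^ k) • ((b 1 : S58T_Tors W (lam ^ k)) :
      (((W.map (Int.castRingHom ℚ)).toAffine)⁄Qb).Point) = 0 := by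
    have := (Submodule.mem_torsionBy_iff _ _).1 (b 1).2
    rwa [natCast_zsmul] at this
  have hP : (lam ^ k) • S58TL_equiv hT (b 0 : S58T_Tors W (lam ^ k)) = 0 := by
    rw [← map_nsmul, hb0, map_zero]
  have hQ : (lam ^ k) • S58TL_equiv hT (b 1 : S58T_Tors W (lam ^ k)) = 0 := by
    rw [← map_nsmul, hb1, map_zero]
  have hind : ∀ a c : ℤ, a • S58TL_equiv hT (b 0 : S58T_Tors W (lam ^ k))
      + c • S58TL_equiv hT (b 1 : S58T_Tors W (lam ^ k)) = 0 →
      ((lam ^ k : ℕ) : ℤ) ∣ a ∧ ((lam ^ k : ℕ) : ℤ) ∣ c := by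
    intro a c h
    have h1 : a • ((b 0 : S58T_Tors W (lam ^ k)) :
        (((W.map (Int.castRingHom ℚ)).toAffine)⁄Qb).Point)
        + c • ((b 1 : S58T_Tors W (lam ^ k)) :
        (((W.map (Int.castRingHom ℚ)).toAffine)⁄Qb).Point) = 0 := by
      apply (S58TL_equiv hT).map_eq_zero_iff.mp
      rw [map_add, map_zsmul, map_zsmul]
      exact h
    have h2' : (a : ZMod (lam ^ k)) • b 0 + (c : ZMod (lam ^ k)) • b 1 = 0 := by
      rw [Int.cast_smul_eq_zsmul, Int.cast_smul_eq_zsmul]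
      apply Subtype.ext
      simpa using h1
    obtain ⟨ha, hc⟩ := S58HF_basis_ind b _ _ h2'
    exact ⟨(ZMod.intCast_zmod_eq_zero_iff_dvd a (lam ^ k)).mp ha,
      (ZMod.intCast_zmod_eq_zero_iff_dvd c (lam ^ k)).mp hc⟩
  obtain ⟨R', hR', hexact, hE0R⟩ := S58PT_exact A.valuation hnod lam k hlam _ _ hP hQ hind
  have hRn : (lam ^ k) • (S58TL_equiv hT).symm R' = 0 := by
    rw [← map_nsmul, hR', map_zero]
  have hRexact : ∀ m : ℤ, m • (S58TL_equiv hT).symm R' = 0 → ((lam ^ k : ℕ) : ℤ) ∣ m := by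
    intro m hm
    apply hexact
    have := congrArg (S58TL_equiv hT) hm
    rwa [map_zsmul, AddEquiv.apply_symm_apply, map_zero] at this
  rcases hR : (S58TL_equiv hT).symm R' with _ | ⟨x, y, h⟩
  · exfalso
    have h1 : ((lam ^ k : ℕ) : ℤ) ∣ 1 := hRexact 1 (by rw [one_smul]; exact hR)
    have h2 : lam ^ k ∣ 1 := by exact_mod_cast h1
    have h3 : lam ^ k = 1 := Nat.dvd_one.mp h2
    have h4 : 1 < lam ^ k := Nat.one_lt_pow hk.ne' hlam.one_lt
    omega
  · have hR'eq : R' = S58TL_equiv hT (.some x y h) := by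
      rw [← hR, AddEquiv.apply_symm_apply]
    have hx1 : 1 ≤ A.valuation (x - r) := by
      have h5 := hE0R
      rw [hR'eq] at h5
      exact h5
    rw [hR] at hRn hRexact
    obtain ⟨hx, hy⟩ := S58PL_int W hq hqn A hA h hRn
    have hxr : A.valuation (x - r) = 1 := le_antisymm (S58NM_sub_le A.valuation hx hr) hx1
    have hns := S58NM_ns_translate A.valuation hT hnod c₁' c₂' h.1 hxr
    have hfix := S58E3G_nonsing W hq hqn A hA τ hτ h hRn hx hns
    refine ⟨⟨.some x y h, (Submodule.mem_torsionBy_iff _ _).2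
      (by rw [natCast_zsmul]; exact hRn)⟩, ?_, ?_⟩
    · intro r' hr'
      obtain ⟨m, rfl⟩ := ZMod.intCast_surjective r'
      rw [Int.cast_smul_eq_zsmul] at hr'
      have h6 := congrArg Subtype.val hr'
      exact (ZMod.intCast_zmod_eq_zero_iff_dvd m (lam ^ k)).mpr (hRexact m (by simpa using h6))
    · apply Subtype.ext
      exact hfix

end Fermat.Agent.S58_helper15_HFIX
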