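import Mathlib

/-!
# S58 (E1a) [TRANS] — translation endomorphisms of the function field of a Weierstrass curve
(helper15)

`k` any field, `W` a Weierstrass curve over a base ring `R` with `(W⁄k).Δ ≠ 0`,
`F` a fraction field of the coordinate ring `A = (W⁄k).CoordinateRing`, `G = (x, y)` the generic
point of `E(F)`.  For every `P ∈ E(k)` there is a `k`-algebra endomorphism `τ` of `F` with
`τ G = G + P`.
-/

set_option autoImplicit false

namespace Fermat.Agent.S58_helper15_TRANS

open WeierstrassCurve WeierstrassCurve.Affine Polynomial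
open scoped Polynomial.Bivariate

universe r u v

variable {R : Type r} [CommRing R] (W : WeierstrassCurve.Affine R) (k : Type u) [Field k]
  [Algebra R k] (F : Type v) [Field F] [Algebra R F] [Algebra k F] [IsScalarTower R k F]
  [Algebra (W⁄k).CoordinateRing F] [IsScalarTower k (W⁄k).CoordinateRing F]
  [IsFractionRing (W⁄k).CoordinateRing F]

/-- The `x`-coordinate of the generic point. -/
noncomputable def S58TR_x : F :=
  algebraMap (W⁄k).CoordinateRing F (CoordinateRing.mk (W⁄k) (C X))

/-- The `y`-coordinate of the generic point. -/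
noncomputable def S58TR_y : F :=
  algebraMap (W⁄k).CoordinateRing F (CoordinateRing.mk (W⁄k) Y)

omit [IsScalarTower k (W⁄k).CoordinateRing F] [IsFractionRing (W⁄k).CoordinateRing F]
  [Algebra (W⁄k).CoordinateRing F] in
/-- The polynomial of `W⁄F` is the image of the polynomial of `W⁄k`. -/
theorem S58TR_polynomial :
    (W⁄F).polynomial = (W⁄k).polynomial.map (mapRingHom (algebraMap k F)) := by
  have h := Affine.baseChange_polynomial (W := W) (A := k) (B := F) (S := k) (Algebra.ofId k F)
  rw [h]
  rfl

omit [Algebra R F] [IsScalarTower R k F] [IsFractionRing (W⁄k).CoordinateRing F] in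
/-- Evaluating a bivariate polynomial over `k` at the generic point is the class of the
polynomial in the function field. -/
theorem S58TR_eval_gen (p : k[X][Y]) :
    eval₂ (eval₂RingHom (algebraMap k F) (S58TR_x W k F)) (S58TR_y W k F) p
      = algebraMap (W⁄k).CoordinateRing F (CoordinateRing.mk (W⁄k) p) := by
  have h : (eval₂RingHom (eval₂RingHom (algebraMap k F) (S58TR_x W k F)) (S58TR_y W k F))
      = (algebraMap (W⁄k).CoordinateRing F).comp (CoordinateRing.mk (W⁄k)) := by
    apply Polynomial.ringHom_ext'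
    · apply Polynomial.ringHom_ext'
      · ext a
        simp only [RingHom.comp_apply, coe_eval₂RingHom, eval₂_C]
        rw [IsScalarTower.algebraMap_apply k (W⁄k).CoordinateRing F]
        rfl
      · simp [S58TR_x]
    · simp [S58TR_y]
  exact congrArg (fun f => f p) h

omit [IsFractionRing (W⁄k).CoordinateRing F] in
/-- The generic point satisfies the Weierstrass equation. -/
theorem S58TR_equation : (W⁄F).Equation (S58TR_x W k F) (S58TR_y W k F) := by
  rw [Affine.Equation, S58TR_polynomial W k F, ← eval₂_eval₂RingHom_apply, S58TR_eval_gen]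
  rw [CoordinateRing.mk, AdjoinRoot.mk_self, map_zero]

omit [Algebra (W⁄k).CoordinateRing F] [IsScalarTower k (W⁄k).CoordinateRing F]
  [IsFractionRing (W⁄k).CoordinateRing F] in
theorem S58TR_curve_eq : (W⁄F) = (W⁄k).map (algebraMap k F) := by
  have h := Affine.map_baseChange (W := W) (A := k) (B := F) (S := k) (Algebra.ofId k F)
  rw [← h]
  rfl

omit [Algebra (W⁄k).CoordinateRing F] [IsScalarTower k (W⁄k).CoordinateRing F]
  [IsFractionRing (W⁄k).CoordinateRing F] in
theorem S58TR_Δ_ne_zero (hΔ : (W⁄k).Δ ≠ 0) : (W⁄F).Δ ≠ 0 := by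
  rw [S58TR_curve_eq W k F, WeierstrassCurve.map_Δ]
  exact (map_ne_zero_iff _ (algebraMap k F).injective).mpr hΔ

omit [IsFractionRing (W⁄k).CoordinateRing F] in
/-- The generic point is nonsingular. -/
theorem S58TR_nonsingular (hΔ : (W⁄k).Δ ≠ 0) :
    (W⁄F).Nonsingular (S58TR_x W k F) (S58TR_y W k F) :=
  (equation_iff_nonsingular_of_Δ_ne_zero (S58TR_Δ_ne_zero W k F hΔ)).mp (S58TR_equation W k F)

/-- The generic point of `E(F)`. -/
noncomputable def S58TR_gen (hΔ : (W⁄k).Δ ≠ 0) : (W⁄F).Point :=
  .some _ _ (S58TR_nonsingular W k F hΔ)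

omit [Algebra R F] [IsScalarTower R k F] in
/-- The `x`-coordinate of the generic point is transcendental over `k`. -/
theorem S58TR_transcendental : Transcendental k (S58TR_x W k F) := by
  rintro ⟨p, hp0, hp⟩
  have h1 : aeval (S58TR_x W k F) p
      = algebraMap (W⁄k).CoordinateRing F (CoordinateRing.mk (W⁄k) (C p)) := by
    have h := S58TR_eval_gen W k F (C p)
    rw [eval₂_C] at h
    exact h
  rw [h1] at hp
  have h2 : CoordinateRing.mk (W⁄k) (C p) = 0 :=
    IsFractionRing.injective (W⁄k).CoordinateRing F (hp.trans (map_zero _).symm)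
  have h3 : Function.Injective (AdjoinRoot.of (W⁄k).polynomial) :=
    AdjoinRoot.of.injective_of_degree_ne_zero (by rw [degree_polynomial]; decide)
  exact hp0 (h3 (h2.trans (map_zero _).symm))

omit [IsScalarTower k (W⁄k).CoordinateRing F] [Algebra (W⁄k).CoordinateRing F]
  [IsFractionRing (W⁄k).CoordinateRing F] in
theorem S58TR_lift_aux {x' y' : F} (h : (W⁄F).Equation x' y') :
    eval₂ ((aeval x' : k[X] →ₐ[k] F) : k[X] →+* F) y' (W⁄k).polynomial = 0 := by
  have h1 := h
  rw [Affine.Equation, S58TR_polynomial W k F, ← eval₂_eval₂RingHom_apply] at h1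
  exact h1

/-- The `k`-algebra homomorphism from the coordinate ring to `F` given by a point of `E(F)`. -/
noncomputable def S58TR_lift {x' y' : F} (h : (W⁄F).Equation x' y') :
    (W⁄k).CoordinateRing →ₐ[k] F :=
  AdjoinRoot.liftAlgHom (W⁄k).polynomial (aeval x' : k[X] →ₐ[k] F) y' (S58TR_lift_aux W k F h)

omit [IsScalarTower k (W⁄k).CoordinateRing F] [Algebra (W⁄k).CoordinateRing F]
  [IsFractionRing (W⁄k).CoordinateRing F] in
theorem S58TR_lift_mk {x' y' : F} (h : (W⁄F).Equation x' y') (p : k[X][Y]) :
    S58TR_lift W k F h (CoordinateRing.mk (W⁄k) p)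
      = eval₂ ((aeval x' : k[X] →ₐ[k] F) : k[X] →+* F) y' p := rfl

omit [IsScalarTower k (W⁄k).CoordinateRing F] [Algebra (W⁄k).CoordinateRing F]
  [IsFractionRing (W⁄k).CoordinateRing F] in
/-- The lift at a point with transcendental `x`-coordinate is injective (norm argument). -/
theorem S58TR_lift_injective {x' y' : F} (h : (W⁄F).Equation x' y')
    (hx' : Transcendental k x') : Function.Injective (S58TR_lift W k F h) := by
  rw [injective_iff_map_eq_zero]
  intro r hr
  obtain ⟨p, q, rfl⟩ := CoordinateRing.exists_smul_basis_eq r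
  have hN := CoordinateRing.coe_norm_smul_basis (W' := W⁄k) p q
  have hr' : p • (1 : (W⁄k).CoordinateRing) + q • CoordinateRing.mk (W⁄k) Y
      = CoordinateRing.mk (W⁄k) (C p + C q * X) := by
    simp [CoordinateRing.smul]
  have h0 : aeval x' (Algebra.norm k[X] (p • (1 : (W⁄k).CoordinateRing)
      + q • CoordinateRing.mk (W⁄k) Y)) = 0 := by
    have h1 := congrArg (S58TR_lift W k F h) hN
    rw [map_mul, ← hr', map_mul, hr, zero_mul] at h1
    rw [← h1]
    exact (AdjoinRoot.liftAlgHom_of _ _ _ _ _).symm
  have hN0 : Algebra.norm k[X] (p • (1 : (W⁄k).CoordinateRing)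
      + q • CoordinateRing.mk (W⁄k) Y) = 0 := by
    by_contra hne
    exact hx' ⟨_, hne, h0⟩
  have hdeg := CoordinateRing.degree_norm_smul_basis (W' := W⁄k) p q
  rw [hN0, degree_zero] at hdeg
  have hmax := max_eq_bot.mp hdeg.symm
  have hp : p = 0 := by
    have h2 := hmax.1
    rw [two_nsmul, WithBot.add_eq_bot, or_self] at h2
    exact degree_eq_bot.mp h2
  have hq : q = 0 := by
    have h2 := hmax.2
    rw [WithBot.add_eq_bot] at h2
    rcases h2 with h2 | h2
    · rw [two_nsmul, WithBot.add_eq_bot, or_self] at h2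
      exact degree_eq_bot.mp h2
    · exact absurd h2 (by decide)
  simp [hp, hq]

omit [IsScalarTower k (W⁄k).CoordinateRing F] [Algebra (W⁄k).CoordinateRing F]
  [IsFractionRing (W⁄k).CoordinateRing F] in
/-- If the `x`-coordinate of a point of `E(F)` is algebraic over `k`, so is the `y`-coordinate. -/
theorem S58TR_y_mem {x' y' : F} (h : (W⁄F).Equation x' y')
    (hx : x' ∈ algebraicClosure k F) : y' ∈ algebraicClosure k F := by
  have heq := (equation_iff _ _).mp h
  have ha : ∀ a : k, algebraMap k F a ∈ algebraicClosure k F :=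
    fun a => (algebraicClosure k F).algebraMap_mem a
  have hb : (W⁄F).a₁ * x' + (W⁄F).a₃ ∈ algebraicClosure k F := by
    rw [S58TR_curve_eq W k F]
    exact add_mem (mul_mem (ha _) hx) (ha _)
  have hc : -(x' ^ 3 + (W⁄F).a₂ * x' ^ 2 + (W⁄F).a₄ * x' + (W⁄F).a₆) ∈ algebraicClosure k F := by
    rw [S58TR_curve_eq W k F]
    exact neg_mem (add_mem (add_mem (add_mem (pow_mem hx 3) (mul_mem (ha _) (pow_mem hx 2)))
      (mul_mem (ha _) hx)) (ha _))
  have hint : IsIntegral (algebraicClosure k F) y' := by
    refine ⟨X ^ 2 + (C ⟨_, hb⟩ * X + C ⟨_, hc⟩), ?_, ?_⟩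
    · exact monic_X_pow_add (lt_of_le_of_lt degree_linear_le (by decide))
    · simp only [eval₂_add, eval₂_pow, eval₂_X, eval₂_mul, eval₂_C,
        IntermediateField.algebraMap_apply]
      linear_combination heq
  exact mem_algebraicClosure_iff'.mpr (isIntegral_trans (R := k) y' hint)

variable [DecidableEq k] [DecidableEq F]

/-- **[TRANS]** Translation by a `k`-rational point is induced by a `k`-algebra endomorphism of
the function field: `τ G = G + P` for the generic point `G`. -/
theorem S58TR_main (hΔ : (W⁄k).Δ ≠ 0) (P : (W⁄k).Point) :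
    ∃ τ : F →ₐ[k] F, Point.map (W' := W) τ (S58TR_gen W k F hΔ)
      = S58TR_gen W k F hΔ + Point.baseChange k F P := by
  classical
  have key : ∀ QL : (W⁄(algebraicClosure k F)).Point,
      Point.map (W' := W) (algebraicClosure k F).val QL
        ≠ S58TR_gen W k F hΔ + Point.baseChange k F P := by
    intro QL hQL
    have hG' : S58TR_gen W k F hΔ = Point.map (W' := W) (algebraicClosure k F).val
        (QL - Point.baseChange k (algebraicClosure k F) P) := by
      rw [map_sub, hQL, Point.map_baseChange, add_sub_cancel_right]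
    rcases hGL : (QL - Point.baseChange k (algebraicClosure k F) P) with _ | ⟨xL, yL, hL⟩
    · rw [hGL] at hG'
      exact Point.some_ne_zero _ hG'
    · rw [hGL, Point.map_some] at hG'
      have hx : S58TR_x W k F = (algebraicClosure k F).val xL := (Point.some.inj hG').1
      exact S58TR_transcendental W k F (hx ▸ (mem_algebraicClosure_iff.mp xL.2))
  rcases hQ' : S58TR_gen W k F hΔ + Point.baseChange k F P with _ | ⟨x', y', h'⟩
  · exact absurd (hQ' ▸ rfl) (key 0)
  · have hx' : Transcendental k x' := by
      intro halg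
      have hxL : x' ∈ algebraicClosure k F := mem_algebraicClosure_iff.mpr halg
      have hyL : y' ∈ algebraicClosure k F := S58TR_y_mem W k F h'.1 hxL
      refine key (.some (⟨x', hxL⟩ : algebraicClosure k F) ⟨y', hyL⟩
        ((Affine.baseChange_nonsingular (W := W) (f := (algebraicClosure k F).val)
          (algebraicClosure k F).val.injective _ _).mp h')) ?_
      rw [hQ']
      rfl
    have hφ := S58TR_lift_injective W k F h'.1 hx'
    refine ⟨IsFractionRing.liftAlgHom hφ, ?_⟩
    have hx : IsFractionRing.liftAlgHom hφ (S58TR_x W k F) = x' := by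
      rw [S58TR_x, IsFractionRing.liftAlgHom_apply, IsFractionRing.lift_algebraMap]
      change S58TR_lift W k F h'.1 (CoordinateRing.mk (W⁄k) (C X)) = x'
      rw [S58TR_lift_mk, eval₂_C]
      exact aeval_X x'
    have hy : IsFractionRing.liftAlgHom hφ (S58TR_y W k F) = y' := by
      rw [S58TR_y, IsFractionRing.liftAlgHom_apply, IsFractionRing.lift_algebraMap]
      change S58TR_lift W k F h'.1 (CoordinateRing.mk (W⁄k) Y) = y'
      rw [S58TR_lift_mk, eval₂_X]
    rw [S58TR_gen, Point.map_some]
    exact (Point.some.injEq ..).mpr ⟨hx, hy⟩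

/-- **[TRANS]**, in the shape with `R`-algebra homomorphisms. -/
theorem S58TR_main' (hΔ : (W⁄k).Δ ≠ 0) (P : (W⁄k).Point) :
    ∃ τ : F →ₐ[k] F, Point.map (W' := W) (τ.restrictScalars R) (S58TR_gen W k F hΔ)
      = S58TR_gen W k F hΔ + Point.map (W' := W) (IsScalarTower.toAlgHom R k F) P := by
  obtain ⟨τ, hτ⟩ := S58TR_main W k F hΔ P
  refine ⟨τ, ?_⟩
  have h1 : Point.map (W' := W) (IsScalarTower.toAlgHom R k F) P = Point.baseChange k F P := by
    cases P <;> rfl
  rw [h1, ← hτ]
  rfl

omit [Algebra (W⁄k).CoordinateRing F] [IsScalarTower k (W⁄k).CoordinateRing F]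
  [IsFractionRing (W⁄k).CoordinateRing F] in
/-- `τ` fixes the constant points: `Point.map τ ∘ Point.baseChange k F = Point.baseChange k F`. -/
theorem S58TR_map_baseChange (τ : F →ₐ[k] F) (P : (W⁄k).Point) :
    Point.map (W' := W) τ (Point.baseChange k F P) = Point.baseChange k F P :=
  Point.map_baseChange τ P

omit [Algebra (W⁄k).CoordinateRing F] [IsScalarTower k (W⁄k).CoordinateRing F]
  [IsFractionRing (W⁄k).CoordinateRing F] in
/-- `Point.baseChange k F` and `Point.map (IsScalarTower.toAlgHom R k F)` are the same map. -/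
theorem S58TR_baseChange_eq (P : (W⁄k).Point) :
    Point.map (W' := W) (IsScalarTower.toAlgHom R k F) P = Point.baseChange k F P := by
  cases P <;> rfl

omit [Algebra (W⁄k).CoordinateRing F] [IsScalarTower k (W⁄k).CoordinateRing F]
  [IsFractionRing (W⁄k).CoordinateRing F] [DecidableEq k] in
/-- `Point.map (τ.restrictScalars R)` and `Point.map τ` are the same map. -/
theorem S58TR_restrictScalars_eq (τ : F →ₐ[k] F) (S : (W⁄F).Point) :
    Point.map (W' := W) (τ.restrictScalars R) S = Point.map (W' := W) τ S := by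
  cases S <;> rfl

end Fermat.Agent.S58_helper15_TRANS

namespace Fermat.Agent.S58_helper15_TRANS

open WeierstrassCurve WeierstrassCurve.Affine Polynomial
open scoped Polynomial.Bivariate

universe r u

/-- **[TRANS]** for the concrete function field `F = (W⁄k).FunctionField` (all the instances
are found by inference). -/
theorem S58TR_main_functionField {R : Type r} [CommRing R] (W : WeierstrassCurve.Affine R)
    (k : Type u) [Field k] [Algebra R k] [DecidableEq k] [DecidableEq (W⁄k).FunctionField]
    (hΔ : (W⁄k).Δ ≠ 0) (P : (W⁄k).Point) :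
    ∃ τ : (W⁄k).FunctionField →ₐ[k] (W⁄k).FunctionField,
      Point.map (W' := W) (τ.restrictScalars R) (S58TR_gen W k (W⁄k).FunctionField hΔ)
        = S58TR_gen W k (W⁄k).FunctionField hΔ
          + Point.map (W' := W) (IsScalarTower.toAlgHom R k (W⁄k).FunctionField) P :=
  S58TR_main' W k (W⁄k).FunctionField hΔ P

/-- In the concrete function field, the `x`-coordinate of the generic point is the image of
`X : k[X]`. -/
theorem S58TR_x_functionField {R : Type r} [CommRing R] (W : WeierstrassCurve.Affine R)
    (k : Type u) [Field k] [Algebra R k] :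
    S58TR_x W k (W⁄k).FunctionField = algebraMap k[X] (W⁄k).FunctionField X := rfl

end Fermat.Agent.S58_helper15_TRANS
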