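import Mathlib

/-!
# S58 (E1) — the Frobenius endomorphism on the points of a curve over `ZMod l` (helper19)

For `W₀ : WeierstrassCurve.Affine (ZMod l)` and a field `A` over `ZMod l`:

* `S58FR_phi l W₀ A : (W₀⁄A).Point →+ (W₀⁄A).Point`, the coordinatewise `l`-th power
  (`Point.map` of Mathlib's `FiniteField.frobeniusAlgHom (ZMod l) A`);
* `S58FR_phi_some` : `phi (x, y) = (x ^ l, y ^ l)`;
* `S58FR_map_phi`  : `phi` commutes with `Point.map f` for every `f : A →ₐ[ZMod l] B`.
-/

set_option autoImplicit false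

namespace Fermat.Agent.S58_helper19_FROB

open WeierstrassCurve WeierstrassCurve.Affine

variable (l : ℕ) [Fact l.Prime] (W₀ : WeierstrassCurve.Affine (ZMod l))

/-- The Frobenius `u ↦ u ^ l` of a field over `ZMod l`, as a `ZMod l`-algebra homomorphism. -/
noncomputable def S58FR_frob (A : Type*) [Field A] [Algebra (ZMod l) A] : A →ₐ[ZMod l] A :=
  FiniteField.frobeniusAlgHom (ZMod l) A

theorem S58FR_frob_apply (A : Type*) [Field A] [Algebra (ZMod l) A] (u : A) :
    S58FR_frob l A u = u ^ l := by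
  have h : S58FR_frob l A u = u ^ Fintype.card (ZMod l) := rfl
  rw [h, ZMod.card]

theorem S58FR_frob_comm {A B : Type*} [Field A] [Algebra (ZMod l) A] [Field B]
    [Algebra (ZMod l) B] (f : A →ₐ[ZMod l] B) :
    f.comp (S58FR_frob l A) = (S58FR_frob l B).comp f := by
  ext u
  simp only [AlgHom.comp_apply, S58FR_frob_apply, map_pow]

/-- The Frobenius endomorphism of the group of points. -/
noncomputable def S58FR_phi (A : Type*) [Field A] [Algebra (ZMod l) A] [DecidableEq A] :
    (W₀⁄A).Point →+ (W₀⁄A).Point :=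
  Point.map (W' := W₀) (S58FR_frob l A)

theorem S58FR_phi_zero (A : Type*) [Field A] [Algebra (ZMod l) A] [DecidableEq A] :
    S58FR_phi l W₀ A 0 = 0 := rfl

theorem S58FR_phi_some (A : Type*) [Field A] [Algebra (ZMod l) A] [DecidableEq A] {x y : A}
    (h : (W₀⁄A).Nonsingular x y) :
    ∃ h' : (W₀⁄A).Nonsingular (x ^ l) (y ^ l),
      S58FR_phi l W₀ A (Point.some x y h) = Point.some (x ^ l) (y ^ l) h' := by
  have h0 : S58FR_phi l W₀ A (Point.some x y h)
      = Point.some (S58FR_frob l A x) (S58FR_frob l A y)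
          ((W₀.baseChange_nonsingular (S58FR_frob l A).injective ..).mpr h) := rfl
  have hx : S58FR_frob l A x = x ^ l := S58FR_frob_apply l A x
  have hy : S58FR_frob l A y = y ^ l := S58FR_frob_apply l A y
  have h' : (W₀⁄A).Nonsingular (x ^ l) (y ^ l) := by
    rw [← hx, ← hy]
    exact (W₀.baseChange_nonsingular (S58FR_frob l A).injective ..).mpr h
  refine ⟨h', ?_⟩
  rw [h0]
  congr 1

/-- `phi` commutes with the maps induced by `ZMod l`-algebra homomorphisms. -/
theorem S58FR_map_phi {A B : Type*} [Field A] [Algebra (ZMod l) A] [DecidableEq A] [Field B]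
    [Algebra (ZMod l) B] [DecidableEq B] (f : A →ₐ[ZMod l] B) (P : (W₀⁄A).Point) :
    Point.map (W' := W₀) f (S58FR_phi l W₀ A P) = S58FR_phi l W₀ B (Point.map (W' := W₀) f P) := by
  unfold S58FR_phi
  rw [Point.map_map, Point.map_map, S58FR_frob_comm]

end Fermat.Agent.S58_helper19_FROB
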