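import Mathlib

/-!
# S58, (E1a) [GRAM] (helper4): the Gram computation for an exact quadratic height

Pure algebra, Mathlib only.  `Γ` an abelian group (the points of `E` over the function field),
`h : Γ → ℤ` a function satisfying the exact parallelogram law, `φ : Γ →+ Γ` an endomorphism with
`h (φ S) = l * h S` and `h (φ S - S) = N * h S` for all `S`.  Then, with `a = l + 1 - N`,

  `h (φ (φ S) - a • φ S + l • S) = 0`   for all `S`.

* `S58GR_B`          : the polar form `B S T = h (S + T) - h S - h T`;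
* `S58GR_B_add_left` : `B` is biadditive (from the parallelogram law);
* `S58GR_smul`       : `h (n • S) = n ^ 2 * h S`;
* `S58GR_B_phi`      : `B (φ S) S = (l + 1 - N) * h S`;
* `S58GR_gram`       : the relation above.
-/

set_option autoImplicit false

namespace Fermat.Agent.S58_helper4_GRAM

variable {Γ : Type*} [AddCommGroup Γ]

/-- the polar form of `h`. -/
def S58GR_B (h : Γ → ℤ) (S T : Γ) : ℤ := h (S + T) - h S - h T

theorem S58GR_B_comm (h : Γ → ℤ) (S T : Γ) : S58GR_B h S T = S58GR_B h T S := by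
  unfold S58GR_B
  rw [add_comm S T]
  ring

theorem S58GR_add (h : Γ → ℤ) (S T : Γ) : h (S + T) = h S + h T + S58GR_B h S T := by
  unfold S58GR_B
  ring

section Par

variable (h : Γ → ℤ) (hpar : ∀ S T : Γ, h (S + T) + h (S - T) = 2 * h S + 2 * h T)

include hpar

theorem S58GR_zero : h 0 = 0 := by
  have := hpar 0 0
  simp only [add_zero, sub_zero] at this
  linarith

theorem S58GR_neg (S : Γ) : h (-S) = h S := by
  have h1 := hpar 0 S
  have h0 := S58GR_zero h hpar
  simp only [zero_add, zero_sub] at h1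
  linarith

theorem S58GR_sub (S T : Γ) : h (S - T) = h S + h T - S58GR_B h S T := by
  have := hpar S T
  unfold S58GR_B
  linarith

/-- **biadditivity of the polar form.** -/
theorem S58GR_B_add_left (S S' T : Γ) :
    S58GR_B h (S + S') T = S58GR_B h S T + S58GR_B h S' T := by
  have e1 := hpar (S + T) S'
  have e2 := hpar (S' + T) S
  have e3 := hpar T (S - S')
  have e4 := hpar S S'
  rw [show S + T + S' = S + S' + T by abel, show S + T - S' = T + (S - S') by abel] at e1
  rw [show S' + T + S = S + S' + T by abel, show S' + T - S = T - (S - S') by abel] at e2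
  unfold S58GR_B
  linarith

theorem S58GR_B_add_right (S T T' : Γ) :
    S58GR_B h S (T + T') = S58GR_B h S T + S58GR_B h S T' := by
  rw [S58GR_B_comm h S (T + T'), S58GR_B_add_left h hpar, S58GR_B_comm h T S,
    S58GR_B_comm h T' S]

theorem S58GR_B_zsmul_left (n : ℤ) (S T : Γ) :
    S58GR_B h (n • S) T = n * S58GR_B h S T := by
  have key := (AddMonoidHom.mk' (fun S => S58GR_B h S T)
    (fun S S' => S58GR_B_add_left h hpar S S' T)).map_zsmul n S
  simpa using key

theorem S58GR_B_zsmul_right (n : ℤ) (S T : Γ) :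
    S58GR_B h S (n • T) = n * S58GR_B h S T := by
  rw [S58GR_B_comm h S (n • T), S58GR_B_zsmul_left h hpar, S58GR_B_comm h T S]

theorem S58GR_B_self (S : Γ) : S58GR_B h S S = 2 * h S := by
  have := hpar S S
  have h0 := S58GR_zero h hpar
  rw [sub_self] at this
  unfold S58GR_B
  linarith

/-- `h (n • S) = n ^ 2 * h S`. -/
theorem S58GR_smul (n : ℤ) (S : Γ) : h (n • S) = n ^ 2 * h S := by
  have h1 := S58GR_B_self h hpar (n • S)
  rw [S58GR_B_zsmul_left h hpar, S58GR_B_zsmul_right h hpar, S58GR_B_self h hpar] at h1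
  have : 2 * h (n • S) = 2 * (n ^ 2 * h S) := by rw [← h1]; ring
  linarith

/-- the expansion of `h` on `u - a • v + l • w`. -/
theorem S58GR_expand (a l : ℤ) (u v w : Γ) :
    h (u - a • v + l • w) = h u + a ^ 2 * h v + l ^ 2 * h w - a * S58GR_B h u v
      + l * S58GR_B h u w - a * l * S58GR_B h v w := by
  rw [S58GR_add h (u - a • v) (l • w), S58GR_sub h hpar u (a • v), S58GR_smul h hpar,
    S58GR_smul h hpar, S58GR_B_zsmul_right h hpar, S58GR_B_zsmul_right h hpar,
    show u - a • v = u + (-a) • v by rw [neg_smul, sub_eq_add_neg],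
    S58GR_B_add_left h hpar, S58GR_B_zsmul_left h hpar]
  ring

variable (φ : Γ →+ Γ) (l N : ℤ) (hφ : ∀ S, h (φ S) = l * h S)

include hφ

omit hpar in
theorem S58GR_B_phi_phi (S T : Γ) : S58GR_B h (φ S) (φ T) = l * S58GR_B h S T := by
  unfold S58GR_B
  rw [← map_add, hφ, hφ, hφ]
  ring

variable (hN : ∀ S, h (φ S - S) = N * h S)

include hN

/-- `B (φ S) S = a * h S`, `a = l + 1 - N`. -/
theorem S58GR_B_phi (S : Γ) : S58GR_B h (φ S) S = (l + 1 - N) * h S := by
  have h1 := S58GR_sub h hpar (φ S) S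
  rw [hN, hφ] at h1
  linarith

/-- polarisation: `B (φ S) T + B (φ T) S = a * B S T`. -/
theorem S58GR_B_phi_polar (S T : Γ) :
    S58GR_B h (φ S) T + S58GR_B h (φ T) S = (l + 1 - N) * S58GR_B h S T := by
  have h1 := S58GR_B_phi h hpar φ l N hφ hN (S + T)
  rw [map_add, S58GR_B_add_left h hpar, S58GR_B_add_right h hpar, S58GR_B_add_right h hpar,
    S58GR_B_phi h hpar φ l N hφ hN S, S58GR_B_phi h hpar φ l N hφ hN T,
    S58GR_add h S T] at h1
  linarith

/-- **[GRAM]**: `h (φ² S - a φ S + l S) = 0` with `a = l + 1 - N`. -/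
theorem S58GR_gram (S : Γ) : h (φ (φ S) - (l + 1 - N) • φ S + l • S) = 0 := by
  have e := S58GR_expand h hpar (l + 1 - N) l (φ (φ S)) (φ S) S
  have b1 : S58GR_B h (φ (φ S)) (φ S) = l * ((l + 1 - N) * h S) := by
    rw [S58GR_B_phi_phi h φ l hφ, S58GR_B_phi h hpar φ l N hφ hN]
  have b2 : S58GR_B h (φ S) S = (l + 1 - N) * h S := S58GR_B_phi h hpar φ l N hφ hN S
  have b3 : S58GR_B h (φ (φ S)) S = (l + 1 - N) * ((l + 1 - N) * h S) - 2 * (l * h S) := by
    have p := S58GR_B_phi_polar h hpar φ l N hφ hN (φ S) S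
    have q : S58GR_B h (φ S) (φ S) = 2 * (l * h S) := by
      rw [S58GR_B_self h hpar, hφ]
    rw [q, b2] at p
    linarith
  rw [e, b1, b2, b3, hφ, hφ]
  ring

end Par

end Fermat.Agent.S58_helper4_GRAM
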