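import Mathlib
import Fermat.Prelude.Def_AlgebraicCurve_DivisorClassGroup
import Fermat.Agent.S58_helper19_E1DEFS
import Fermat.Agent.S58_helper19_FROB
import Fermat.Agent.S58_helper4_GRAM

/-!
# S58 (E1a) — [SC] and the abstract assembly [E1a-MAIN] (helper19)

* `S58E1A_SC`  : `h (phi S) = l * h S` for the height of `S58_helper19_E1DEFS` (unconditional);
* `S58E1A_abs` : from a function `h` on `E(F)` with the exact parallelogram law, `[SC]`, `[KR]`,
  `[CONST]` (height `0` implies constant) and the translations `[TRANS]`, the relation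
  `phi² - (l + 1 - N) phi + l = 0` on `E(k)`.
-/

set_option autoImplicit false

namespace Fermat.Agent.S58_helper19_E1A

open AlgebraicCurve WeierstrassCurve WeierstrassCurve.Affine
open Fermat.Agent.S58_helper19_E1DEFS Fermat.Agent.S58_helper19_FROB
open Fermat.Agent.S58_helper4_GRAM

section SC

variable {k F : Type*} [Field k] [Field F] [Algebra k F]

theorem S58E1A_ord_pow (v : Place k F) (u : F) (n : ℕ) : v.ord (u ^ n) = n * v.ord u := by
  have := v.ord_zpow u (n : ℤ)
  rwa [zpow_natCast] at this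

theorem S58E1A_lam_pow (v : Place k F) (u : F) (n : ℕ) :
    S58E1_lam k v (u ^ n) = n * S58E1_lam k v u := by
  unfold S58E1_lam
  rw [S58E1A_ord_pow, mul_max_of_nonneg _ _ (by positivity : (0 : ℤ) ≤ n), mul_zero, mul_neg]

theorem S58E1A_hX_pow (u : F) (n : ℕ) : S58E1_hX k (u ^ n) = n * S58E1_hX k u := by
  unfold S58E1_hX
  rw [mul_finsum]
  exact finsum_congr fun v => S58E1A_lam_pow v u n

variable (l : ℕ) [Fact l.Prime] (W₀ : WeierstrassCurve.Affine (ZMod l))
  [Algebra (ZMod l) F] [DecidableEq F]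

/-- **[SC]** the Frobenius multiplies the height by `l`. -/
theorem S58E1A_SC (S : (W₀⁄F).Point) :
    S58E1_h k (W₀⁄F) (S58FR_phi l W₀ F S) = l * S58E1_h k (W₀⁄F) S := by
  rcases S with _ | ⟨x, y, h⟩
  · change S58E1_h k (W₀⁄F) (S58FR_phi l W₀ F 0) = l * S58E1_h k (W₀⁄F) 0
    rw [S58FR_phi_zero, S58E1_h_zero, mul_zero]
  · obtain ⟨h', e⟩ := S58FR_phi_some l W₀ F h
    rw [e, S58E1_h_some, S58E1_h_some, S58E1A_hX_pow]

end SC

section Abs

variable (l : ℕ) [Fact l.Prime] (W₀ : WeierstrassCurve.Affine (ZMod l))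
  {k F : Type*} [Field k] [Field F] [DecidableEq k] [DecidableEq F]
  [Algebra (ZMod l) k] [Algebra (ZMod l) F] [Algebra k F] [IsScalarTower (ZMod l) k F]

/-- The constant points: `E(k) → E(F)`. -/
noncomputable def S58E1A_iota : (W₀⁄k).Point →+ (W₀⁄F).Point :=
  Point.map (W' := W₀) (IsScalarTower.toAlgHom (ZMod l) k F)

theorem S58E1A_iota_injective : Function.Injective (S58E1A_iota l W₀ (k := k) (F := F)) :=
  Point.map_injective _

theorem S58E1A_iota_phi (P : (W₀⁄k).Point) :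
    S58E1A_iota l W₀ (F := F) (S58FR_phi l W₀ k P) = S58FR_phi l W₀ F (S58E1A_iota l W₀ P) :=
  S58FR_map_phi l W₀ _ P

/-- a `k`-algebra endomorphism of `F` fixes the constant points -/
theorem S58E1A_map_iota (τ : F →ₐ[k] F) (c : (W₀⁄k).Point) :
    Point.map (W' := W₀) (τ.restrictScalars (ZMod l)) (S58E1A_iota l W₀ c)
      = S58E1A_iota l W₀ c := by
  unfold S58E1A_iota
  rw [Point.map_map]
  have e : (τ.restrictScalars (ZMod l)).comp (IsScalarTower.toAlgHom (ZMod l) k F)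
      = IsScalarTower.toAlgHom (ZMod l) k F := by
    ext u
    exact τ.commutes u
  rw [e]

/-- **[E1a-MAIN], abstract form.** -/
theorem S58E1A_abs (h : (W₀⁄F).Point → ℤ)
    (hpar : ∀ S T, h (S + T) + h (S - T) = 2 * h S + 2 * h T)
    (hSC : ∀ S, h (S58FR_phi l W₀ F S) = (l : ℤ) * h S)
    (N : ℤ) (hKR : ∀ S, h (S58FR_phi l W₀ F S - S) = N * h S)
    (hconst : ∀ R, h R = 0 → ∃ c : (W₀⁄k).Point, S58E1A_iota l W₀ c = R)
    (G : (W₀⁄F).Point)
    (htrans : ∀ P : (W₀⁄k).Point, ∃ τ : F →ₐ[k] F,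
      Point.map (W' := W₀) (τ.restrictScalars (ZMod l)) G = G + S58E1A_iota l W₀ P)
    (P : (W₀⁄k).Point) :
    S58FR_phi l W₀ k (S58FR_phi l W₀ k P) - ((l : ℤ) + 1 - N) • S58FR_phi l W₀ k P
      + (l : ℤ) • P = 0 := by
  set φF := S58FR_phi l W₀ F with hφF
  set φk := S58FR_phi l W₀ k with hφk
  set ι := S58E1A_iota l W₀ (k := k) (F := F) with hι
  -- the relation at the generic point has height `0`, hence is a constant point
  have hR := S58GR_gram h hpar φF (l : ℤ) N hSC hKR G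
  obtain ⟨c, hc⟩ := hconst _ hR
  obtain ⟨τ, hτ⟩ := htrans P
  set T := Point.map (W' := W₀) (τ.restrictScalars (ZMod l)) with hT
  have hTφ : ∀ S, T (φF S) = φF (T S) := fun S => S58FR_map_phi l W₀ _ S
  have hTc : T (ι c) = ι c := S58E1A_map_iota l W₀ τ c
  have hιφ : ∀ Q, ι (φk Q) = φF (ι Q) := fun Q => S58E1A_iota_phi l W₀ Q
  -- apply the translation to the relation
  have e1 : T (φF (φF G) - ((l : ℤ) + 1 - N) • φF G + (l : ℤ) • G)
      = (φF (φF G) - ((l : ℤ) + 1 - N) • φF G + (l : ℤ) • G)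
        + ι (φk (φk P) - ((l : ℤ) + 1 - N) • φk P + (l : ℤ) • P) := by
    simp only [map_add, map_sub, map_zsmul, hTφ, hτ, hιφ, smul_add]
    abel
  rw [← hc, hTc] at e1
  have e2 : ι (φk (φk P) - ((l : ℤ) + 1 - N) • φk P + (l : ℤ) • P) = 0 := by
    have := e1
    exact (add_eq_left.mp this.symm)
  exact S58E1A_iota_injective l W₀ (by rw [e2, map_zero])

end Abs

end Fermat.Agent.S58_helper19_E1A
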