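import Mathlib
import Fermat.Prelude.Def_AlgebraicCurve_DivisorClassGroup
import Fermat.Agent.S58_helper19_E1DEFS
import Fermat.Agent.S58_helper19_FROB
import Fermat.Agent.S58_helper19_E1A

/-!
# S58 (E1a) [CONST] — a point of height `0` is a constant point (helper19)

`S58CONST_main`: `k` algebraically closed, `W₀` over `ZMod l`, `F / k` with the product formula
and 'no pole ⟹ constant': if `S58E1_h k (W₀⁄F) R = 0` then `R` comes from `E(k)`.
-/

set_option autoImplicit false

namespace Fermat.Agent.S58_helper19_CONST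

open AlgebraicCurve WeierstrassCurve WeierstrassCurve.Affine
open Fermat.Agent.S58_helper19_E1DEFS Fermat.Agent.S58_helper19_FROB
open Fermat.Agent.S58_helper19_E1A

section NoPole

variable {k F : Type*} [Field k] [Field F] [Algebra k F]

/-- a function of height `0` has no pole -/
theorem S58CONST_no_pole (hPF : S58E1_PF k F) (u : F) (hu : S58E1_hX k u = 0)
    (v : Place k F) : 0 ≤ v.ord u := by
  rw [← S58E1_lam_eq_zero_iff]
  have hfin := S58E1_lam_support_finite hPF u
  unfold S58E1_hX at hu
  rw [finsum_eq_sum_of_support_subset _ (s := hfin.toFinset) (by simp)] at hu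
  by_cases hv : v ∈ hfin.toFinset
  · exact (Finset.sum_eq_zero_iff_of_nonneg (fun w _ => S58E1_lam_nonneg w u)).mp hu v hv
  · simpa using hv

end NoPole

variable (l : ℕ) [Fact l.Prime] (W₀ : WeierstrassCurve.Affine (ZMod l))
  {k F : Type*} [Field k] [Field F] [DecidableEq k] [DecidableEq F] [IsAlgClosed k]
  [Algebra (ZMod l) k] [Algebra (ZMod l) F] [Algebra k F] [IsScalarTower (ZMod l) k F]

omit [DecidableEq k] [DecidableEq F] in
/-- a root in `F` of a monic quadratic polynomial over the algebraically closed `k` is in `k` -/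
theorem S58CONST_quadratic (b c : k) (y : F)
    (hy : y ^ 2 + algebraMap k F b * y + algebraMap k F c = 0) :
    ∃ r : k, algebraMap k F r = y := by
  obtain ⟨r, hr⟩ := IsAlgClosed.exists_root (Polynomial.X ^ 2 + Polynomial.C b * Polynomial.X
    + Polynomial.C c : Polynomial k) (by
      have : (Polynomial.X ^ 2 + Polynomial.C b * Polynomial.X + Polynomial.C c :
          Polynomial k).degree = 2 := by
        compute_degree!
      rw [this]; norm_num)
  simp only [Polynomial.IsRoot, Polynomial.eval_add, Polynomial.eval_pow, Polynomial.eval_X,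
    Polynomial.eval_mul, Polynomial.eval_C] at hr
  -- `(y - r) (y + r + b) = 0`
  have hfac : (y - algebraMap k F r) * (y + algebraMap k F r + algebraMap k F b) = 0 := by
    have hr' : algebraMap k F r ^ 2 + algebraMap k F b * algebraMap k F r + algebraMap k F c
        = 0 := by
      rw [← map_pow, ← map_mul, ← map_add, ← map_add, hr, map_zero]
    linear_combination hy - hr'
  rcases mul_eq_zero.mp hfac with h1 | h2
  · exact ⟨r, (sub_eq_zero.mp h1).symm⟩
  · refine ⟨-r - b, ?_⟩
    rw [map_sub, map_neg]
    linear_combination -h2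

/-- **[CONST]** a point of height `0` is constant. -/
theorem S58CONST_main (hPF : S58E1_PF k F)
    (hNP : ∀ u : F, (∀ v : Place k F, 0 ≤ v.ord u) → u ∈ Set.range (algebraMap k F))
    (R : (W₀⁄F).Point) (hR : S58E1_h k (W₀⁄F) R = 0) :
    ∃ c : (W₀⁄k).Point, S58E1A_iota l W₀ c = R := by
  rcases R with _ | ⟨x, y, h⟩
  · exact ⟨0, rfl⟩
  · rw [S58E1_h_some] at hR
    obtain ⟨cx, hcx⟩ := hNP x (S58CONST_no_pole hPF x hR)
    have heq := (equation_iff _ _).mp h.1
    simp only [Affine.baseChange, WeierstrassCurve.baseChange, map_a₁, map_a₂, map_a₃, map_a₄,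
      map_a₆] at heq
    have ha : ∀ a : ZMod l, algebraMap (ZMod l) F a = algebraMap k F (algebraMap (ZMod l) k a) :=
      fun a => IsScalarTower.algebraMap_apply (ZMod l) k F a
    rw [ha, ha, ha, ha, ha, ← hcx] at heq
    obtain ⟨cy, hcy⟩ := S58CONST_quadratic
      (algebraMap (ZMod l) k W₀.a₁ * cx + algebraMap (ZMod l) k W₀.a₃)
      (-(cx ^ 3 + algebraMap (ZMod l) k W₀.a₂ * cx ^ 2 + algebraMap (ZMod l) k W₀.a₄ * cx
        + algebraMap (ZMod l) k W₀.a₆)) y (by
        simp only [map_add, map_mul, map_neg, map_pow]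
        linear_combination heq)
    have hns : (W₀⁄k).Nonsingular cx cy := by
      have h' : (W₀⁄F).Nonsingular (IsScalarTower.toAlgHom (ZMod l) k F cx)
          (IsScalarTower.toAlgHom (ZMod l) k F cy) := by
        have e1 : IsScalarTower.toAlgHom (ZMod l) k F cx = x := hcx
        have e2 : IsScalarTower.toAlgHom (ZMod l) k F cy = y := hcy
        rw [e1, e2]
        exact h
      exact (W₀.baseChange_nonsingular (IsScalarTower.toAlgHom (ZMod l) k F).injective ..).mp h'
    refine ⟨Point.some cx cy hns, ?_⟩
    unfold S58E1A_iota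
    rw [Point.map_some]
    have e1 : IsScalarTower.toAlgHom (ZMod l) k F cx = x := hcx
    have e2 : IsScalarTower.toAlgHom (ZMod l) k F cy = y := hcy
    congr 1

end Fermat.Agent.S58_helper19_CONST
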