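import Mathlib
import Fermat.Prelude.Def_AlgebraicCurve_DivisorClassGroup
import Fermat.Agent.S58_helper19_E1DEFS

/-!
# S58 (E1a) [PAR] — the exact parallelogram law of the height (helper19)

`S58PAR_main`: on the points of a Weierstrass curve `W` over a function field `F / k`,
`h (S + T) + h (S - T) = 2 h S + 2 h T`, from

* `S58PAR_AVal k W`: the local quasi-parallelogram law at every place ([A-VAL]),
* `S58PAR_Dup k W` : the duplication law `h (2 S) = 4 h S` ([DUP]),
* `S58E1_PF k F`   : the product formula ([PF]).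
-/

set_option autoImplicit false

namespace Fermat.Agent.S58_helper19_PAR

open AlgebraicCurve WeierstrassCurve WeierstrassCurve.Affine
open Fermat.Agent.S58_helper19_E1DEFS

variable (k : Type*) {F : Type*} [Field k] [Field F] [Algebra k F] [DecidableEq F]

/-- **[A-VAL]** the local quasi-parallelogram law at every place, for two affine points with
distinct `x`-coordinates. -/
def S58PAR_AVal (W : WeierstrassCurve.Affine F) : Prop :=
  ∀ (v : Place k F) {x₁ y₁ x₂ y₂ : F} (h₁ : W.Nonsingular x₁ y₁) (h₂ : W.Nonsingular x₂ y₂),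
    x₁ ≠ x₂ →
    S58E1_lamP k W v (Point.some x₁ y₁ h₁ + Point.some x₂ y₂ h₂)
      + S58E1_lamP k W v (Point.some x₁ y₁ h₁ - Point.some x₂ y₂ h₂)
      = 2 * S58E1_lam k v x₁ + 2 * S58E1_lam k v x₂ + 2 * v.ord (x₁ - x₂)

/-- **[DUP]** the duplication law of the height. -/
def S58PAR_Dup (W : WeierstrassCurve.Affine F) : Prop :=
  ∀ P : W.Point, S58E1_h k W (P + P) = 4 * S58E1_h k W P

variable {k}

omit [DecidableEq F] in
theorem S58PAR_lamP_support_finite (hPF : S58E1_PF k F) (W : WeierstrassCurve.Affine F)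
    (P : W.Point) : (Function.support fun v : Place k F => S58E1_lamP k W v P).Finite := by
  rcases P with _ | ⟨x, y, h⟩
  · have : (fun v : Place k F => S58E1_lamP k W v (Point.zero : W.Point)) = fun _ => 0 := rfl
    rw [this]
    simp [Function.support]
  · exact S58E1_lam_support_finite hPF x

/-- the case of two affine points with distinct `x`-coordinates -/
theorem S58PAR_generic (hPF : S58E1_PF k F) (W : WeierstrassCurve.Affine F)
    (hA : S58PAR_AVal k W) {x₁ y₁ x₂ y₂ : F} (h₁ : W.Nonsingular x₁ y₁)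
    (h₂ : W.Nonsingular x₂ y₂) (hx : x₁ ≠ x₂) :
    S58E1_h k W (Point.some x₁ y₁ h₁ + Point.some x₂ y₂ h₂)
      + S58E1_h k W (Point.some x₁ y₁ h₁ - Point.some x₂ y₂ h₂)
      = 2 * S58E1_h k W (Point.some x₁ y₁ h₁) + 2 * S58E1_h k W (Point.some x₂ y₂ h₂) := by
  have hne : x₁ - x₂ ≠ 0 := sub_ne_zero.mpr hx
  obtain ⟨hfin, hsum⟩ := hPF (x₁ - x₂) hne
  have f1 := S58E1_lam_support_finite hPF x₁
  have f2 := S58E1_lam_support_finite hPF x₂
  have fs := S58PAR_lamP_support_finite hPF W (Point.some x₁ y₁ h₁ + Point.some x₂ y₂ h₂)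
  have fd := S58PAR_lamP_support_finite hPF W (Point.some x₁ y₁ h₁ - Point.some x₂ y₂ h₂)
  rw [S58E1_h_eq_finsum, S58E1_h_eq_finsum, ← finsum_add_distrib fs fd]
  have hcongr : (fun v : Place k F =>
      S58E1_lamP k W v (Point.some x₁ y₁ h₁ + Point.some x₂ y₂ h₂)
        + S58E1_lamP k W v (Point.some x₁ y₁ h₁ - Point.some x₂ y₂ h₂))
      = fun v : Place k F => ((S58E1_lam k v x₁ + S58E1_lam k v x₁)
          + (S58E1_lam k v x₂ + S58E1_lam k v x₂)) + (v.ord (x₁ - x₂) + v.ord (x₁ - x₂)) := by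
    funext v
    rw [hA v h₁ h₂ hx]
    ring
  rw [hcongr]
  have f11 : (Function.support fun v : Place k F =>
      S58E1_lam k v x₁ + S58E1_lam k v x₁).Finite :=
    (f1.union f1).subset (Function.support_add _ _)
  have f22 : (Function.support fun v : Place k F =>
      S58E1_lam k v x₂ + S58E1_lam k v x₂).Finite :=
    (f2.union f2).subset (Function.support_add _ _)
  have foo : (Function.support fun v : Place k F =>
      v.ord (x₁ - x₂) + v.ord (x₁ - x₂)).Finite :=
    (hfin.union hfin).subset (Function.support_add _ _)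
  have f1122 : (Function.support fun v : Place k F =>
      (S58E1_lam k v x₁ + S58E1_lam k v x₁) + (S58E1_lam k v x₂ + S58E1_lam k v x₂)).Finite :=
    (f11.union f22).subset (Function.support_add _ _)
  rw [finsum_add_distrib f1122 foo, finsum_add_distrib f11 f22, finsum_add_distrib f1 f1,
    finsum_add_distrib f2 f2, finsum_add_distrib hfin hfin, hsum]
  simp only [S58E1_h_some, S58E1_hX]
  ring

/-- **[PAR]** the exact parallelogram law of the height. -/
theorem S58PAR_main (hPF : S58E1_PF k F) (W : WeierstrassCurve.Affine F)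
    (hA : S58PAR_AVal k W) (hD : S58PAR_Dup k W) (S T : W.Point) :
    S58E1_h k W (S + T) + S58E1_h k W (S - T) = 2 * S58E1_h k W S + 2 * S58E1_h k W T := by
  rcases S with _ | ⟨x₁, y₁, h₁⟩
  · change S58E1_h k W (0 + T) + S58E1_h k W (0 - T) = 2 * S58E1_h k W 0 + 2 * S58E1_h k W T
    rw [zero_add, zero_sub, S58E1_h_neg, S58E1_h_zero]
    ring
  rcases T with _ | ⟨x₂, y₂, h₂⟩
  · change S58E1_h k W (Point.some x₁ y₁ h₁ + 0) + S58E1_h k W (Point.some x₁ y₁ h₁ - 0)
      = 2 * S58E1_h k W (Point.some x₁ y₁ h₁) + 2 * S58E1_h k W 0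
    rw [add_zero, sub_zero, S58E1_h_zero]
    ring
  by_cases hx : x₁ = x₂
  · -- `T = S` or `T = -S`
    subst hx
    rcases Y_eq_of_X_eq h₁.1 h₂.1 rfl with hy | hy
    · subst hy
      have hST : (Point.some x₁ y₁ h₁ : W.Point) = Point.some x₁ y₁ h₂ := rfl
      rw [sub_self, S58E1_h_zero, hD]
      ring
    · have hT : (Point.some x₁ y₂ h₂ : W.Point) = -Point.some x₁ y₁ h₁ := by
        rw [Point.neg_some]
        congr 1
        rw [hy, negY_negY]
      rw [hT, add_neg_cancel, sub_neg_eq_add, hD, S58E1_h_zero, S58E1_h_neg]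
      ring
  · exact S58PAR_generic hPF W hA h₁ h₂ hx

end Fermat.Agent.S58_helper19_PAR
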