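import Mathlib
import Fermat.Prelude.Def_AlgebraicCurve_DivisorClassGroup
import Fermat.Agent.S58_helper19_E1DEFS
import Fermat.Agent.S58_helper19_PAR
import Fermat.Agent.S58_helper19_FROB
import Fermat.Agent.S58_helper19_E1A
import Fermat.Agent.S58_helper19_CONST
import Fermat.Agent.S58_helper10_PFELL

/-!
# S58 (E1a) — the concrete assembly on the function field of the curve (helper19)

`k` algebraically closed over `ZMod l`, `W₀` over `ZMod l` with `Δ ≠ 0`,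
`F := (W₀⁄k).FunctionField`, `G := (x, y)` the generic point.

* `S58E1AC_G`    : the generic point of `E(F)`;
* `S58E1AC_main` : from [PF], [NP] (no pole ⟹ constant), [A-VAL], [DUP], [KR], [TRANS]:
  `phi² - (l + 1 - N) phi + l = 0` on `E(k)`.
-/

set_option autoImplicit false

namespace Fermat.Agent.S58_helper19_E1AC

open AlgebraicCurve WeierstrassCurve WeierstrassCurve.Affine
open Fermat.Agent.S58_helper19_E1DEFS Fermat.Agent.S58_helper19_PAR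
open Fermat.Agent.S58_helper19_FROB Fermat.Agent.S58_helper19_E1A
open Fermat.Agent.S58_helper19_CONST Fermat.Agent.S58_helper10_PFELL

variable (l : ℕ) [Fact l.Prime] (W₀ : WeierstrassCurve.Affine (ZMod l))
  (k : Type*) [Field k] [Algebra (ZMod l) k]

/-- the function field of the curve over `k` -/
abbrev S58E1AC_F : Type _ := (W₀⁄k).FunctionField

theorem S58E1AC_coeff (a : ZMod l) :
    algebraMap k (S58E1AC_F l W₀ k) (algebraMap (ZMod l) k a)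
      = algebraMap (ZMod l) (S58E1AC_F l W₀ k) a :=
  (IsScalarTower.algebraMap_apply (ZMod l) k (S58E1AC_F l W₀ k) a).symm

/-- the generic point satisfies the equation of `W₀⁄F` -/
theorem S58E1AC_equation :
    (W₀⁄(S58E1AC_F l W₀ k)).Equation (S58FE_x (W₀⁄k)) (S58FE_y (W₀⁄k)) := by
  rw [equation_iff]
  have h := S58FE_rel (W₀⁄k)
  have e₁ : (W₀⁄(S58E1AC_F l W₀ k)).a₁ = algebraMap (ZMod l) (S58E1AC_F l W₀ k) W₀.a₁ := rfl
  have e₂ : (W₀⁄(S58E1AC_F l W₀ k)).a₂ = algebraMap (ZMod l) (S58E1AC_F l W₀ k) W₀.a₂ := rfl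
  have e₃ : (W₀⁄(S58E1AC_F l W₀ k)).a₃ = algebraMap (ZMod l) (S58E1AC_F l W₀ k) W₀.a₃ := rfl
  have e₄ : (W₀⁄(S58E1AC_F l W₀ k)).a₄ = algebraMap (ZMod l) (S58E1AC_F l W₀ k) W₀.a₄ := rfl
  have e₆ : (W₀⁄(S58E1AC_F l W₀ k)).a₆ = algebraMap (ZMod l) (S58E1AC_F l W₀ k) W₀.a₆ := rfl
  have f₁ : (W₀⁄k).a₁ = algebraMap (ZMod l) k W₀.a₁ := rfl
  have f₂ : (W₀⁄k).a₂ = algebraMap (ZMod l) k W₀.a₂ := rfl
  have f₃ : (W₀⁄k).a₃ = algebraMap (ZMod l) k W₀.a₃ := rfl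
  have f₄ : (W₀⁄k).a₄ = algebraMap (ZMod l) k W₀.a₄ := rfl
  have f₆ : (W₀⁄k).a₆ = algebraMap (ZMod l) k W₀.a₆ := rfl
  rw [e₁, e₂, e₃, e₄, e₆]
  rw [f₁, f₂, f₃, f₄, f₆, S58E1AC_coeff, S58E1AC_coeff, S58E1AC_coeff, S58E1AC_coeff,
    S58E1AC_coeff] at h
  linear_combination h

theorem S58E1AC_Δ_ne_zero (hΔ : W₀.Δ ≠ 0) : (W₀⁄(S58E1AC_F l W₀ k)).Δ ≠ 0 := by
  have e : (W₀⁄(S58E1AC_F l W₀ k)).Δ = algebraMap (ZMod l) (S58E1AC_F l W₀ k) W₀.Δ :=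
    WeierstrassCurve.map_Δ W₀ (algebraMap (ZMod l) (S58E1AC_F l W₀ k))
  rw [e]
  exact (map_ne_zero_iff _ (algebraMap (ZMod l) (S58E1AC_F l W₀ k)).injective).mpr hΔ

theorem S58E1AC_nonsingular (hΔ : W₀.Δ ≠ 0) :
    (W₀⁄(S58E1AC_F l W₀ k)).Nonsingular (S58FE_x (W₀⁄k)) (S58FE_y (W₀⁄k)) :=
  (equation_iff_nonsingular_of_Δ_ne_zero (S58E1AC_Δ_ne_zero l W₀ k hΔ)).mp
    (S58E1AC_equation l W₀ k)

/-- **the generic point** of `E(F)`. -/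
noncomputable def S58E1AC_G (hΔ : W₀.Δ ≠ 0) : (W₀⁄(S58E1AC_F l W₀ k)).Point :=
  Point.some _ _ (S58E1AC_nonsingular l W₀ k hΔ)

variable [IsAlgClosed k] [DecidableEq k] [DecidableEq (S58E1AC_F l W₀ k)]

/-- **[E1a-MAIN], concrete form**: the Frobenius relation on `E(k)` from the bricks. -/
theorem S58E1AC_main (hΔ : W₀.Δ ≠ 0)
    (hPF : S58E1_PF k (S58E1AC_F l W₀ k))
    (hNP : ∀ u : S58E1AC_F l W₀ k, (∀ v : Place k (S58E1AC_F l W₀ k), 0 ≤ v.ord u) →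
      u ∈ Set.range (algebraMap k (S58E1AC_F l W₀ k)))
    (hA : S58PAR_AVal k (W₀⁄(S58E1AC_F l W₀ k)))
    (hD : S58PAR_Dup k (W₀⁄(S58E1AC_F l W₀ k)))
    (N : ℤ)
    (hKR : ∀ S : (W₀⁄(S58E1AC_F l W₀ k)).Point,
      S58E1_h k (W₀⁄(S58E1AC_F l W₀ k)) (S58FR_phi l W₀ (S58E1AC_F l W₀ k) S - S)
        = N * S58E1_h k (W₀⁄(S58E1AC_F l W₀ k)) S)
    (htrans : ∀ P : (W₀⁄k).Point, ∃ τ : S58E1AC_F l W₀ k →ₐ[k] S58E1AC_F l W₀ k,
      Point.map (W' := W₀) (τ.restrictScalars (ZMod l)) (S58E1AC_G l W₀ k hΔ)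
        = S58E1AC_G l W₀ k hΔ + S58E1A_iota l W₀ P)
    (P : (W₀⁄k).Point) :
    S58FR_phi l W₀ k (S58FR_phi l W₀ k P) - ((l : ℤ) + 1 - N) • S58FR_phi l W₀ k P
      + (l : ℤ) • P = 0 :=
  S58E1A_abs l W₀ (S58E1_h k (W₀⁄(S58E1AC_F l W₀ k)))
    (S58PAR_main hPF _ hA hD) (S58E1A_SC l W₀) N hKR
    (S58CONST_main l W₀ hPF hNP) (S58E1AC_G l W₀ k hΔ) htrans P

end Fermat.Agent.S58_helper19_E1AC
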