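import Mathlib
import Fermat.Agent.S58_helper19_E1AC
import Fermat.Agent.S58_helper15_TRANS

/-!
# S58 (E1a) [TRANS-PLUG] — the hypothesis `htrans` of `S58E1AC_main` (helper15)

The translation endomorphisms of `S58_helper15_TRANS` at the concrete function field
`F = (W₀⁄k).FunctionField` and the generic point `S58E1AC_G` of helper19's assembly.
-/

set_option autoImplicit false

namespace Fermat.Agent.S58_helper15_TRANSP

open WeierstrassCurve WeierstrassCurve.Affine
open Fermat.Agent.S58_helper19_FROB Fermat.Agent.S58_helper19_E1A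
open Fermat.Agent.S58_helper19_E1AC Fermat.Agent.S58_helper15_TRANS

variable (l : ℕ) [Fact l.Prime] (W₀ : WeierstrassCurve.Affine (ZMod l))
  (k : Type*) [Field k] [Algebra (ZMod l) k]

/-- The discriminant of the base change to `k` does not vanish. -/
theorem S58TRP_Δ_ne_zero (hΔ : W₀.Δ ≠ 0) : (W₀⁄k).Δ ≠ 0 := by
  have e : (W₀⁄k).Δ = algebraMap (ZMod l) k W₀.Δ :=
    WeierstrassCurve.map_Δ W₀ (algebraMap (ZMod l) k)
  rw [e]
  exact (map_ne_zero_iff _ (algebraMap (ZMod l) k).injective).mpr hΔ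

/-- The generic point of helper19's assembly is the generic point of `S58_helper15_TRANS`. -/
theorem S58TRP_gen_eq (hΔ : W₀.Δ ≠ 0) :
    S58E1AC_G l W₀ k hΔ
      = S58TR_gen W₀ k (S58E1AC_F l W₀ k) (S58TRP_Δ_ne_zero l W₀ k hΔ) := rfl

variable [DecidableEq k] [DecidableEq (S58E1AC_F l W₀ k)]

/-- **[TRANS-PLUG]**: the hypothesis `htrans` of `S58E1AC_main`, verbatim. -/
theorem S58TRP_htrans (hΔ : W₀.Δ ≠ 0) (P : (W₀⁄k).Point) :
    ∃ τ : S58E1AC_F l W₀ k →ₐ[k] S58E1AC_F l W₀ k,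
      Point.map (W' := W₀) (τ.restrictScalars (ZMod l)) (S58E1AC_G l W₀ k hΔ)
        = S58E1AC_G l W₀ k hΔ + S58E1A_iota l W₀ P :=
  S58TR_main' W₀ k (S58E1AC_F l W₀ k) (S58TRP_Δ_ne_zero l W₀ k hΔ) P

end Fermat.Agent.S58_helper15_TRANSP
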