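import Mathlib

/-!
# S58, brick E3-HENSQ (helper17): the exact critical point at a node, fixed by inertia

Second seat for helper5's E3-RAW (board #2053, step (2)).  Mathlib only.

* `S58HC_quad`, `S58HC_quad_unique`, `S58HC_quad_fixed` : Hensel's lemma for polynomials of
  degree at most two in a valuation of an algebraically closed field, uniqueness of the root in
  the residue disc, and invariance of that root under every ring endomorphism which is trivial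
  modulo the maximal ideal.
* `S58HC_crit` : for integral coefficients with `v c₄ = 1` and an integral point `(x, y)` at which
  `F`, `F_x`, `F_y` are all small, there are `x0 y0 g1 g2` with `F_x (x0, y0) = F_y (x0, y0) = 0`
  exactly, `(x0, y0)` in the residue disc of `(x, y)`, `F (x0, y0)` small, `g1, g2` the two tangent
  slopes (`g1 + g2 = -a₁`, `g1 g2 = -(3 x0 + a₂)`, `g1 - g2` a unit), all four fixed by inertia.
  All residue characteristics (2 and 3 included).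
* `S58HC_near` : every integral point at which `F`, `F_x`, `F_y` are small lies in the residue
  disc of an exact critical point with `F` small.
-/

set_option autoImplicit false

namespace Fermat.Agent.S58_helper17_HENSQ

open Polynomial

variable {K : Type*} [Field K] {Γ₀ : Type*} [LinearOrderedCommGroupWithZero Γ₀]
  (v : Valuation K Γ₀)

/-! ### valuation calculus -/

lemma S58HC_le_mul {a b : K} (ha : v a ≤ 1) (hb : v b ≤ 1) : v (a * b) ≤ 1 := by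
  rw [map_mul]
  exact mul_le_one' ha hb

lemma S58HC_lt_mul_left {a b : K} (ha : v a < 1) (hb : v b ≤ 1) : v (a * b) < 1 := by
  rw [map_mul]
  exact mul_lt_one_of_lt_of_le ha hb

lemma S58HC_lt_mul_right {a b : K} (ha : v a ≤ 1) (hb : v b < 1) : v (a * b) < 1 := by
  rw [mul_comm]
  exact S58HC_lt_mul_left v hb ha

lemma S58HC_le_pow {a : K} (ha : v a ≤ 1) (n : ℕ) : v (a ^ n) ≤ 1 := by
  rw [map_pow]
  exact pow_le_one' ha n

lemma S58HC_natCast_le (n : ℕ) : v (n : K) ≤ 1 := by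
  induction n with
  | zero => simp
  | succ k ih =>
    rw [Nat.cast_succ]
    exact v.map_add_le ih (by simp)

lemma S58HC_ofNat_le (n : ℕ) [n.AtLeastTwo] : v (OfNat.ofNat n : K) ≤ 1 := by
  exact S58HC_natCast_le v n

lemma S58HC_unit_add {a b : K} (ha : v a = 1) (hb : v b < 1) : v (a + b) = 1 := by
  rw [v.map_add_eq_of_lt_left (by rw [ha]; exact hb), ha]

lemma S58HC_eq_one_of_pow {a : K} (ha : v a ≤ 1) {n : ℕ} (hn : n ≠ 0) (h : v (a ^ n) = 1) :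
    v a = 1 := by
  rcases eq_or_lt_of_le ha with h1 | h1
  · exact h1
  · exfalso
    have : v (a ^ n) < 1 := by
      rw [map_pow]
      exact pow_lt_one' h1 hn
    rw [h] at this
    exact lt_irrefl _ this

lemma S58HC_ne_zero {a : K} (ha : v a = 1) : a ≠ 0 := by
  intro h
  rw [h, map_zero] at ha
  exact zero_ne_one ha

/-! ### Hensel's lemma in degree at most two -/

/-- uniqueness of the root in the residue disc. -/
theorem S58HC_quad_unique {a b c x x0 x1 : K} (ha : v a ≤ 1) (hu : v (2 * a * x + b) = 1)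
    (h0 : a * x0 ^ 2 + b * x0 + c = 0) (h1 : a * x1 ^ 2 + b * x1 + c = 0)
    (hx0 : v (x - x0) < 1) (hx1 : v (x - x1) < 1) : x0 = x1 := by
  have key : (x0 - x1) * (a * (x0 + x1) + b) = 0 := by linear_combination h0 - h1
  have hunit : v (a * (x0 + x1) + b) = 1 := by
    have e : a * (x0 + x1) + b = (2 * a * x + b) + (-(a * ((x - x0) + (x - x1)))) := by ring
    rw [e]
    apply S58HC_unit_add v hu
    rw [Valuation.map_neg]
    exact S58HC_lt_mul_right v ha (v.map_add_lt hx0 hx1)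
  rcases mul_eq_zero.1 key with h | h
  · exact sub_eq_zero.1 h
  · exact absurd h (S58HC_ne_zero v hunit)

/-- existence of a root in the residue disc of an approximate simple root. -/
theorem S58HC_quad [IsAlgClosed K] {a b c x : K} (ha : v a ≤ 1)
    (hs : v (a * x ^ 2 + b * x + c) < 1) (hu : v (2 * a * x + b) = 1) :
    ∃ x0, a * x0 ^ 2 + b * x0 + c = 0 ∧ v (x - x0) < 1 := by
  have hβ0 : 2 * a * x + b ≠ 0 := S58HC_ne_zero v hu
  obtain ⟨t, ht, hvt⟩ : ∃ t, a * t ^ 2 + (2 * a * x + b) * t + (a * x ^ 2 + b * x + c) = 0 ∧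
      v t < 1 := by
    by_cases ha0 : a = 0
    · refine ⟨-(a * x ^ 2 + b * x + c) / (2 * a * x + b), ?_, ?_⟩
      · have hb0 : b ≠ 0 := by simpa [ha0] using hβ0
        rw [ha0]
        simp only [zero_mul, mul_zero, zero_add]
        field_simp
        ring
      · rw [map_div₀, Valuation.map_neg, hu, div_one]
        exact hs
    · have hdeg : (C a * X ^ 2 + C (2 * a * x + b) * X + C (a * x ^ 2 + b * x + c) : K[X]).degree
          ≠ 0 := by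
        rw [degree_quadratic ha0]
        norm_num
      obtain ⟨t1, ht1⟩ := IsAlgClosed.exists_root _ hdeg
      have ht1' : a * t1 ^ 2 + (2 * a * x + b) * t1 + (a * x ^ 2 + b * x + c) = 0 := by
        simpa [IsRoot] using ht1
      by_cases hv : v t1 < 1
      · exact ⟨t1, ht1', hv⟩
      · rw [not_lt] at hv
        have ht10 : t1 ≠ 0 := by
          intro h
          rw [h, map_zero] at hv
          exact absurd hv (not_le.2 zero_lt_one)
        have hat2 : a * ((-(2 * a * x + b) - a * t1) / a) = -(2 * a * x + b) - a * t1 := by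
          field_simp
        refine ⟨(-(2 * a * x + b) - a * t1) / a, ?_, ?_⟩
        · linear_combination ((-(2 * a * x + b) - a * t1) / a - t1) * hat2 + ht1'
        · -- `v (a t1 + β) < 1`
          have e1 : t1 * (a * t1 + (2 * a * x + b)) = -(a * x ^ 2 + b * x + c) := by
            linear_combination ht1'
          have h1 : v (a * t1 + (2 * a * x + b)) < 1 := by
            have h2 : v t1 * v (a * t1 + (2 * a * x + b)) < 1 := by
              rw [← map_mul, e1, Valuation.map_neg]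
              exact hs
            calc v (a * t1 + (2 * a * x + b)) = 1 * v (a * t1 + (2 * a * x + b)) := (one_mul _).symm
              _ ≤ v t1 * v (a * t1 + (2 * a * x + b)) := by gcongr
              _ < 1 := h2
          have h3 : v (a * t1) = 1 := by
            have e : a * t1 = -(2 * a * x + b) + (a * t1 + (2 * a * x + b)) := by ring
            rw [e]
            exact S58HC_unit_add v (by rw [Valuation.map_neg]; exact hu) h1
          have e2 : a * t1 * ((-(2 * a * x + b) - a * t1) / a) = a * x ^ 2 + b * x + c := by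
            rw [mul_assoc, mul_comm t1, ← mul_assoc, hat2]
            linear_combination -ht1'
          have h4 : v ((-(2 * a * x + b) - a * t1) / a) = v (a * x ^ 2 + b * x + c) := by
            rw [← e2, map_mul, h3, one_mul]
          rw [h4]
          exact hs
  refine ⟨x + t, ?_, ?_⟩
  · linear_combination ht
  · have e : x - (x + t) = -t := by ring
    rw [e, Valuation.map_neg]
    exact hvt

/-- the root in the residue disc is fixed by every ring endomorphism which fixes the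
coefficients and is trivial modulo the maximal ideal. -/
theorem S58HC_quad_fixed {a b c x x0 : K} (ha : v a ≤ 1) (hx : v x ≤ 1)
    (hu : v (2 * a * x + b) = 1) (h0 : a * x0 ^ 2 + b * x0 + c = 0) (hx0 : v (x - x0) < 1)
    (τ : K →+* K) (hτ : ∀ z : K, v z ≤ 1 → v (τ z - z) < 1)
    (hτa : τ a = a) (hτb : τ b = b) (hτc : τ c = c) : τ x0 = x0 := by
  have hx0' : v x0 ≤ 1 := by
    have e : x0 = x - (x - x0) := by ring
    rw [e]
    exact v.map_sub_le hx hx0.le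
  have h1 : a * (τ x0) ^ 2 + b * (τ x0) + c = 0 := by
    have := congrArg τ h0
    simpa [hτa, hτb, hτc] using this
  have h2 : v (x - τ x0) < 1 := by
    have e : x - τ x0 = (x - x0) - (τ x0 - x0) := by ring
    rw [e]
    exact v.map_sub_lt hx0 (hτ x0 hx0')
  exact (S58HC_quad_unique v ha hu h0 h1 hx0 h2).symm

/-! ### the exact critical point -/

section Crit

variable (a₁ a₂ a₃ a₄ a₆ : K)

lemma S58HC_le_of_near {x x0 : K} (hx : v x ≤ 1) (h : v (x - x0) < 1) : v x0 ≤ 1 := by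
  have e : x0 = x - (x - x0) := by ring
  rw [e]
  exact v.map_sub_le hx h.le

/-- the critical point, residue characteristic different from two. -/
theorem S58HC_crit_odd [IsAlgClosed K] (h1 : v a₁ ≤ 1) (h2 : v a₂ ≤ 1) (h3 : v a₃ ≤ 1) (h4 : v a₄ ≤ 1)
    (hc4 : v ((a₁ ^ 2 + 4 * a₂) ^ 2 - 24 * (2 * a₄ + a₁ * a₃)) = 1) (h2u : v (2 : K) = 1)
    {x y : K} (hx : v x ≤ 1) (hy : v y ≤ 1)
    (hFx : v (a₁ * y - (3 * x ^ 2 + 2 * a₂ * x + a₄)) < 1)
    (hFy : v (2 * y + a₁ * x + a₃) < 1) :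
    ∃ x0 y0 : K, v (x - x0) < 1 ∧ v (y - y0) < 1 ∧
      a₁ * y0 - (3 * x0 ^ 2 + 2 * a₂ * x0 + a₄) = 0 ∧ 2 * y0 + a₁ * x0 + a₃ = 0 ∧
      ∀ τ : K →+* K, (∀ z : K, v z ≤ 1 → v (τ z - z) < 1) →
        τ a₁ = a₁ → τ a₂ = a₂ → τ a₃ = a₃ → τ a₄ = a₄ → τ x0 = x0 ∧ τ y0 = y0 := by
  have h20 : (2 : K) ≠ 0 := S58HC_ne_zero v h2u
  have v2 : v (2 : K) ≤ 1 := h2u.le
  have v6 : v (6 : K) ≤ 1 := S58HC_ofNat_le v 6
  have v24 : v (24 : K) ≤ 1 := S58HC_ofNat_le v 24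
  have v4 : v (4 : K) ≤ 1 := S58HC_ofNat_le v 4
  -- `h(x) = a₁ F_y - 2 F_x` is small
  have hs : v (6 * x ^ 2 + (a₁ ^ 2 + 4 * a₂) * x + (2 * a₄ + a₁ * a₃)) < 1 := by
    have e : 6 * x ^ 2 + (a₁ ^ 2 + 4 * a₂) * x + (2 * a₄ + a₁ * a₃) =
        a₁ * (2 * y + a₁ * x + a₃) - 2 * (a₁ * y - (3 * x ^ 2 + 2 * a₂ * x + a₄)) := by ring
    rw [e]
    exact v.map_sub_lt (S58HC_lt_mul_right v h1 hFy) (S58HC_lt_mul_right v v2 hFx)
  have hb2 : v (a₁ ^ 2 + 4 * a₂) ≤ 1 :=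
    v.map_add_le (S58HC_le_pow v h1 2) (S58HC_le_mul v v4 h2)
  have hle : v (2 * 6 * x + (a₁ ^ 2 + 4 * a₂)) ≤ 1 :=
    v.map_add_le (S58HC_le_mul v (S58HC_le_mul v v2 v6) hx) hb2
  have hu : v (2 * 6 * x + (a₁ ^ 2 + 4 * a₂)) = 1 := by
    apply S58HC_eq_one_of_pow v hle (n := 2) (by norm_num)
    have e : (2 * 6 * x + (a₁ ^ 2 + 4 * a₂)) ^ 2 =
        ((a₁ ^ 2 + 4 * a₂) ^ 2 - 24 * (2 * a₄ + a₁ * a₃)) +
          24 * (6 * x ^ 2 + (a₁ ^ 2 + 4 * a₂) * x + (2 * a₄ + a₁ * a₃)) := by ring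
    rw [e]
    exact S58HC_unit_add v hc4 (S58HC_lt_mul_right v v24 hs)
  obtain ⟨x0, hx0, hnear⟩ := S58HC_quad v v6 hs hu
  refine ⟨x0, -(a₁ * x0 + a₃) / 2, hnear, ?_, ?_, ?_, ?_⟩
  · -- `2 (y - y0) = F_y - a₁ (x - x0)`
    have e : 2 * (y - -(a₁ * x0 + a₃) / 2) = (2 * y + a₁ * x + a₃) - a₁ * (x - x0) := by
      field_simp
      ring
    have h5 : v (2 * (y - -(a₁ * x0 + a₃) / 2)) < 1 := by
      rw [e]
      exact v.map_sub_lt hFy (S58HC_lt_mul_right v h1 hnear)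
    rwa [map_mul, h2u, one_mul] at h5
  · have e : 2 * (a₁ * (-(a₁ * x0 + a₃) / 2) - (3 * x0 ^ 2 + 2 * a₂ * x0 + a₄)) = 0 := by
      field_simp
      linear_combination (-1 : K) * hx0
    rcases mul_eq_zero.1 e with h | h
    · exact absurd h h20
    · exact h
  · field_simp
    ring
  · intro τ hτ t1 t2 t3 t4
    have hτx : τ x0 = x0 :=
      S58HC_quad_fixed v v6 hx hu hx0 hnear τ hτ (map_ofNat τ 6)
        (by simp only [map_add, map_mul, map_pow, map_ofNat, t1, t2])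
        (by simp only [map_add, map_mul, map_ofNat, t1, t3, t4])
    refine ⟨hτx, ?_⟩
    simp only [map_div₀, map_neg, map_add, map_mul, map_ofNat, hτx, t1, t3]

/-- the critical point, residue characteristic two. -/
theorem S58HC_crit_two [IsAlgClosed K] (h1 : v a₁ ≤ 1) (h2 : v a₂ ≤ 1) (h3 : v a₃ ≤ 1) (h4 : v a₄ ≤ 1)
    (hc4 : v ((a₁ ^ 2 + 4 * a₂) ^ 2 - 24 * (2 * a₄ + a₁ * a₃)) = 1) (h2s : v (2 : K) < 1)
    {x y : K} (hx : v x ≤ 1) (hy : v y ≤ 1)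
    (hFx : v (a₁ * y - (3 * x ^ 2 + 2 * a₂ * x + a₄)) < 1)
    (hFy : v (2 * y + a₁ * x + a₃) < 1) :
    ∃ x0 y0 : K, v (x - x0) < 1 ∧ v (y - y0) < 1 ∧
      a₁ * y0 - (3 * x0 ^ 2 + 2 * a₂ * x0 + a₄) = 0 ∧ 2 * y0 + a₁ * x0 + a₃ = 0 ∧
      ∀ τ : K →+* K, (∀ z : K, v z ≤ 1 → v (τ z - z) < 1) →
        τ a₁ = a₁ → τ a₂ = a₂ → τ a₃ = a₃ → τ a₄ = a₄ → τ x0 = x0 ∧ τ y0 = y0 := by
  have v3 : v (3 : K) ≤ 1 := S58HC_ofNat_le v 3
  have v4 : v (4 : K) ≤ 1 := S58HC_ofNat_le v 4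
  have v6 : v (6 : K) ≤ 1 := S58HC_ofNat_le v 6
  have v8 : v (8 : K) ≤ 1 := S58HC_ofNat_le v 8
  have v12 : v (12 : K) ≤ 1 := S58HC_ofNat_le v 12
  have v24 : v (24 : K) ≤ 1 := S58HC_ofNat_le v 24
  -- `a₁` is a unit
  have ha1 : v a₁ = 1 := by
    apply S58HC_eq_one_of_pow v h1 (n := 4) (by norm_num)
    have e : a₁ ^ 4 = ((a₁ ^ 2 + 4 * a₂) ^ 2 - 24 * (2 * a₄ + a₁ * a₃)) +
        2 * (-(4 * a₁ ^ 2 * a₂) - 8 * a₂ ^ 2 + 24 * a₄ + 12 * (a₁ * a₃)) := by ring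
    rw [e]
    apply S58HC_unit_add v hc4
    apply S58HC_lt_mul_left v h2s
    refine v.map_add_le (v.map_add_le (v.map_sub_le ?_ ?_) ?_) ?_
    · rw [Valuation.map_neg]
      exact S58HC_le_mul v (S58HC_le_mul v v4 (S58HC_le_pow v h1 2)) h2
    · exact S58HC_le_mul v v8 (S58HC_le_pow v h2 2)
    · exact S58HC_le_mul v v24 h4
    · exact S58HC_le_mul v v12 (S58HC_le_mul v h1 h3)
  have ha10 : a₁ ≠ 0 := S58HC_ne_zero v ha1
  have va : v (-12 : K) ≤ 1 := by rw [Valuation.map_neg]; exact v12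
  -- `H(y) = a₁² F_x + F_y (6 a₁ x - 3 F_y + 2 a₁ a₂)` is small
  have hs : v ((-12) * y ^ 2 + (a₁ ^ 3 - 12 * a₃ + 4 * (a₁ * a₂)) * y +
      (-(3 * a₃ ^ 2) + 2 * (a₁ * a₂ * a₃) - a₁ ^ 2 * a₄)) < 1 := by
    have e : (-12) * y ^ 2 + (a₁ ^ 3 - 12 * a₃ + 4 * (a₁ * a₂)) * y +
        (-(3 * a₃ ^ 2) + 2 * (a₁ * a₂ * a₃) - a₁ ^ 2 * a₄) =
        a₁ ^ 2 * (a₁ * y - (3 * x ^ 2 + 2 * a₂ * x + a₄)) +
          (2 * y + a₁ * x + a₃) *
            (6 * (a₁ * x) - 3 * (2 * y + a₁ * x + a₃) + 2 * (a₁ * a₂)) := by ring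
    rw [e]
    refine v.map_add_lt (S58HC_lt_mul_right v (S58HC_le_pow v h1 2) hFx)
      (S58HC_lt_mul_left v hFy ?_)
    refine v.map_add_le (v.map_sub_le ?_ ?_) ?_
    · exact S58HC_le_mul v v6 (S58HC_le_mul v h1 hx)
    · exact S58HC_le_mul v v3 hFy.le
    · exact S58HC_le_mul v (S58HC_ofNat_le v 2) (S58HC_le_mul v h1 h2)
  have hu : v (2 * (-12) * y + (a₁ ^ 3 - 12 * a₃ + 4 * (a₁ * a₂))) = 1 := by
    have e : 2 * (-12) * y + (a₁ ^ 3 - 12 * a₃ + 4 * (a₁ * a₂)) =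
        a₁ ^ 3 + 2 * (-(12 * y) - 6 * a₃ + 2 * (a₁ * a₂)) := by ring
    rw [e]
    apply S58HC_unit_add v (by rw [map_pow, ha1, one_pow])
    apply S58HC_lt_mul_left v h2s
    refine v.map_add_le (v.map_sub_le ?_ ?_) ?_
    · rw [Valuation.map_neg]
      exact S58HC_le_mul v v12 hy
    · exact S58HC_le_mul v v6 h3
    · exact S58HC_le_mul v (S58HC_ofNat_le v 2) (S58HC_le_mul v h1 h2)
  obtain ⟨y0, hy0, hnear⟩ := S58HC_quad v va hs hu
  refine ⟨-(2 * y0 + a₃) / a₁, y0, ?_, hnear, ?_, ?_, ?_⟩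
  · -- `a₁ (x - x0) = F_y - 2 (y - y0)`
    have e : a₁ * (x - -(2 * y0 + a₃) / a₁) = (2 * y + a₁ * x + a₃) - 2 * (y - y0) := by
      field_simp
      ring
    have h5 : v (a₁ * (x - -(2 * y0 + a₃) / a₁)) < 1 := by
      rw [e]
      exact v.map_sub_lt hFy (S58HC_lt_mul_left v h2s hnear.le)
    rwa [map_mul, ha1, one_mul] at h5
  · have e : a₁ ^ 2 * (a₁ * y0 - (3 * (-(2 * y0 + a₃) / a₁) ^ 2 + 2 * a₂ * (-(2 * y0 + a₃) / a₁)
        + a₄)) = 0 := by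
      field_simp
      linear_combination hy0
    rcases mul_eq_zero.1 e with h | h
    · exact absurd h (pow_ne_zero 2 ha10)
    · exact h
  · field_simp
    ring
  · intro τ hτ t1 t2 t3 t4
    have hτy : τ y0 = y0 :=
      S58HC_quad_fixed v va hy hu hy0 hnear τ hτ
        (by simp only [map_neg, map_ofNat])
        (by simp only [map_add, map_sub, map_mul, map_pow, map_ofNat, t1, t2, t3])
        (by simp only [map_add, map_sub, map_neg, map_mul, map_pow, map_ofNat, t1, t2, t3, t4])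
    refine ⟨?_, hτy⟩
    simp only [map_div₀, map_neg, map_add, map_mul, map_ofNat, hτy, t1, t3]

/-- in residue characteristic two, `v c₄ = 1` forces `a₁` to be a unit. -/
lemma S58HC_a1_unit (h1 : v a₁ ≤ 1) (h2 : v a₂ ≤ 1) (h3 : v a₃ ≤ 1) (h4 : v a₄ ≤ 1)
    (hc4 : v ((a₁ ^ 2 + 4 * a₂) ^ 2 - 24 * (2 * a₄ + a₁ * a₃)) = 1) (h2s : v (2 : K) < 1) :
    v a₁ = 1 := by
  have v4 : v (4 : K) ≤ 1 := S58HC_ofNat_le v 4
  have v8 : v (8 : K) ≤ 1 := S58HC_ofNat_le v 8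
  have v12 : v (12 : K) ≤ 1 := S58HC_ofNat_le v 12
  have v24 : v (24 : K) ≤ 1 := S58HC_ofNat_le v 24
  apply S58HC_eq_one_of_pow v h1 (n := 4) (by norm_num)
  have e : a₁ ^ 4 = ((a₁ ^ 2 + 4 * a₂) ^ 2 - 24 * (2 * a₄ + a₁ * a₃)) +
      2 * (-(4 * a₁ ^ 2 * a₂) - 8 * a₂ ^ 2 + 24 * a₄ + 12 * (a₁ * a₃)) := by ring
  rw [e]
  apply S58HC_unit_add v hc4
  apply S58HC_lt_mul_left v h2s
  refine v.map_add_le (v.map_add_le (v.map_sub_le ?_ ?_) ?_) ?_
  · rw [Valuation.map_neg]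
    exact S58HC_le_mul v (S58HC_le_mul v v4 (S58HC_le_pow v h1 2)) h2
  · exact S58HC_le_mul v v8 (S58HC_le_pow v h2 2)
  · exact S58HC_le_mul v v24 h4
  · exact S58HC_le_mul v v12 (S58HC_le_mul v h1 h3)

/-- **step (5)**: every integral point at which `F`, `F_x`, `F_y` are small lies in the residue
disc of an exact critical point `(x0, y0)` at which `F` is small (Euler identity
`w F_y + u F_x - 2 (F - F₀) = -u³`). -/
theorem S58HC_near (h1 : v a₁ ≤ 1) (h2 : v a₂ ≤ 1) (h3 : v a₃ ≤ 1) (h4 : v a₄ ≤ 1)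
    (hc4 : v ((a₁ ^ 2 + 4 * a₂) ^ 2 - 24 * (2 * a₄ + a₁ * a₃)) = 1)
    {x0 y0 : K} (hx0 : v x0 ≤ 1) (hy0 : v y0 ≤ 1)
    (hFx0 : a₁ * y0 - (3 * x0 ^ 2 + 2 * a₂ * x0 + a₄) = 0) (hFy0 : 2 * y0 + a₁ * x0 + a₃ = 0)
    (hF0 : v (y0 ^ 2 + a₁ * x0 * y0 + a₃ * y0 - (x0 ^ 3 + a₂ * x0 ^ 2 + a₄ * x0 + a₆)) < 1)
    {x y : K} (hx : v x ≤ 1) (hy : v y ≤ 1)
    (hF : v (y ^ 2 + a₁ * x * y + a₃ * y - (x ^ 3 + a₂ * x ^ 2 + a₄ * x + a₆)) < 1)
    (hFx : v (a₁ * y - (3 * x ^ 2 + 2 * a₂ * x + a₄)) < 1)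
    (hFy : v (2 * y + a₁ * x + a₃) < 1) :
    v (x - x0) < 1 ∧ v (y - y0) < 1 := by
  have v2 : v (2 : K) ≤ 1 := S58HC_ofNat_le v 2
  have v3 : v (3 : K) ≤ 1 := S58HC_ofNat_le v 3
  have hu1 : v (x - x0) ≤ 1 := v.map_sub_le hx hx0
  have hw1 : v (y - y0) ≤ 1 := v.map_sub_le hy hy0
  have e : (x - x0) ^ 3 =
      2 * ((y ^ 2 + a₁ * x * y + a₃ * y - (x ^ 3 + a₂ * x ^ 2 + a₄ * x + a₆)) -
        (y0 ^ 2 + a₁ * x0 * y0 + a₃ * y0 - (x0 ^ 3 + a₂ * x0 ^ 2 + a₄ * x0 + a₆))) -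
      (y - y0) * (2 * y + a₁ * x + a₃) - (x - x0) * (a₁ * y - (3 * x ^ 2 + 2 * a₂ * x + a₄)) := by
    linear_combination (-(x - x0)) * hFx0 + (-(y - y0)) * hFy0
  have hu3 : v ((x - x0) ^ 3) < 1 := by
    rw [e]
    refine v.map_sub_lt (v.map_sub_lt ?_ ?_) ?_
    · exact S58HC_lt_mul_right v v2 (v.map_sub_lt hF hF0)
    · exact S58HC_lt_mul_right v hw1 hFy
    · exact S58HC_lt_mul_right v hu1 hFx
  have hu : v (x - x0) < 1 := by
    rcases eq_or_lt_of_le hu1 with h | h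
    · rw [map_pow, h, one_pow] at hu3
      exact absurd hu3 (lt_irrefl _)
    · exact h
  refine ⟨hu, ?_⟩
  rcases eq_or_lt_of_le v2 with h2u | h2s
  · have e2 : 2 * (y - y0) = (2 * y + a₁ * x + a₃) - a₁ * (x - x0) := by
      linear_combination (-1 : K) * hFy0
    have h5 : v (2 * (y - y0)) < 1 := by
      rw [e2]
      exact v.map_sub_lt hFy (S58HC_lt_mul_right v h1 hu)
    rwa [map_mul, h2u, one_mul] at h5
  · have ha1 : v a₁ = 1 := S58HC_a1_unit v a₁ a₂ a₃ a₄ h1 h2 h3 h4 hc4 h2s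
    have e2 : a₁ * (y - y0) = (a₁ * y - (3 * x ^ 2 + 2 * a₂ * x + a₄)) +
        (x - x0) * (3 * (x + x0) + 2 * a₂) := by
      linear_combination (-1 : K) * hFx0
    have h5 : v (a₁ * (y - y0)) < 1 := by
      rw [e2]
      refine v.map_add_lt hFx (S58HC_lt_mul_left v hu ?_)
      exact v.map_add_le (S58HC_le_mul v v3 (v.map_add_le hx hx0)) (S58HC_le_mul v v2 h2)
    rwa [map_mul, ha1, one_mul] at h5

/-- **the exact critical point at a node**, with the two tangent slopes, fixed by every ring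
endomorphism which fixes the coefficients and is trivial modulo the maximal ideal. -/
theorem S58HC_crit [IsAlgClosed K] (h1 : v a₁ ≤ 1) (h2 : v a₂ ≤ 1) (h3 : v a₃ ≤ 1)
    (h4 : v a₄ ≤ 1)
    (hc4 : v ((a₁ ^ 2 + 4 * a₂) ^ 2 - 24 * (2 * a₄ + a₁ * a₃)) = 1)
    {x y : K} (hx : v x ≤ 1) (hy : v y ≤ 1)
    (hF : v (y ^ 2 + a₁ * x * y + a₃ * y - (x ^ 3 + a₂ * x ^ 2 + a₄ * x + a₆)) < 1)
    (hFx : v (a₁ * y - (3 * x ^ 2 + 2 * a₂ * x + a₄)) < 1)
    (hFy : v (2 * y + a₁ * x + a₃) < 1) :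
    ∃ x0 y0 g1 g2 : K, v (x - x0) < 1 ∧ v (y - y0) < 1 ∧ v x0 ≤ 1 ∧ v y0 ≤ 1 ∧
      a₁ * y0 - (3 * x0 ^ 2 + 2 * a₂ * x0 + a₄) = 0 ∧ 2 * y0 + a₁ * x0 + a₃ = 0 ∧
      v (y0 ^ 2 + a₁ * x0 * y0 + a₃ * y0 - (x0 ^ 3 + a₂ * x0 ^ 2 + a₄ * x0 + a₆)) < 1 ∧
      g1 + g2 = -a₁ ∧ g1 * g2 = -(3 * x0 + a₂) ∧
      g1 ^ 2 + a₁ * g1 - (3 * x0 + a₂) = 0 ∧ g2 ^ 2 + a₁ * g2 - (3 * x0 + a₂) = 0 ∧
      v (g1 - g2) = 1 ∧ v g1 ≤ 1 ∧ v g2 ≤ 1 ∧
      ∀ τ : K →+* K, (∀ z : K, v z ≤ 1 → v (τ z - z) < 1) →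
        τ a₁ = a₁ → τ a₂ = a₂ → τ a₃ = a₃ → τ a₄ = a₄ →
        τ x0 = x0 ∧ τ y0 = y0 ∧ τ g1 = g1 ∧ τ g2 = g2 := by
  have v2 : v (2 : K) ≤ 1 := S58HC_ofNat_le v 2
  have v3 : v (3 : K) ≤ 1 := S58HC_ofNat_le v 3
  have v4 : v (4 : K) ≤ 1 := S58HC_ofNat_le v 4
  obtain ⟨x0, y0, hnx, hny, hFx0, hFy0, hτxy⟩ :
      ∃ x0 y0 : K, v (x - x0) < 1 ∧ v (y - y0) < 1 ∧
        a₁ * y0 - (3 * x0 ^ 2 + 2 * a₂ * x0 + a₄) = 0 ∧ 2 * y0 + a₁ * x0 + a₃ = 0 ∧
        ∀ τ : K →+* K, (∀ z : K, v z ≤ 1 → v (τ z - z) < 1) →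
          τ a₁ = a₁ → τ a₂ = a₂ → τ a₃ = a₃ → τ a₄ = a₄ → τ x0 = x0 ∧ τ y0 = y0 := by
    rcases eq_or_lt_of_le v2 with h2u | h2s
    · exact S58HC_crit_odd v a₁ a₂ a₃ a₄ h1 h2 h3 h4 hc4 h2u hx hy hFx hFy
    · exact S58HC_crit_two v a₁ a₂ a₃ a₄ h1 h2 h3 h4 hc4 h2s hx hy hFx hFy
  have hx0 : v x0 ≤ 1 := S58HC_le_of_near v hx hnx
  have hy0 : v y0 ≤ 1 := S58HC_le_of_near v hy hny
  -- `F (x0, y0)` is small
  have hF0 : v (y0 ^ 2 + a₁ * x0 * y0 + a₃ * y0 - (x0 ^ 3 + a₂ * x0 ^ 2 + a₄ * x0 + a₆)) < 1 := by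
    have e : y0 ^ 2 + a₁ * x0 * y0 + a₃ * y0 - (x0 ^ 3 + a₂ * x0 ^ 2 + a₄ * x0 + a₆) =
        (y ^ 2 + a₁ * x * y + a₃ * y - (x ^ 3 + a₂ * x ^ 2 + a₄ * x + a₆)) -
          ((y - y0) * ((y - y0) + a₁ * (x - x0)) - (x - x0) * ((3 * x0 + a₂) * (x - x0))) +
          (x - x0) * (x - x0) ^ 2 := by
      linear_combination (-(x - x0)) * hFx0 + (-(y - y0)) * hFy0
    rw [e]
    refine v.map_add_lt (v.map_sub_lt hF (v.map_sub_lt ?_ ?_)) ?_
    · exact S58HC_lt_mul_left v hny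
        (v.map_add_le hny.le (S58HC_le_mul v h1 hnx.le))
    · exact S58HC_lt_mul_left v hnx
        (S58HC_le_mul v (v.map_add_le (S58HC_le_mul v v3 hx0) h2) hnx.le)
    · exact S58HC_lt_mul_left v hnx (S58HC_le_pow v hnx.le 2)
  -- the tangent slopes
  have hdeg : (C (1 : K) * X ^ 2 + C a₁ * X + C (-(3 * x0 + a₂)) : K[X]).degree ≠ 0 := by
    rw [degree_quadratic one_ne_zero]
    norm_num
  obtain ⟨g1, hg1r⟩ := IsAlgClosed.exists_root _ hdeg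
  have hg1 : g1 ^ 2 + a₁ * g1 - (3 * x0 + a₂) = 0 := by
    have : 1 * g1 ^ 2 + a₁ * g1 + -(3 * x0 + a₂) = 0 := by simpa [IsRoot] using hg1r
    linear_combination this
  have hg2 : (-a₁ - g1) ^ 2 + a₁ * (-a₁ - g1) - (3 * x0 + a₂) = 0 := by
    linear_combination hg1
  have hsum : g1 + (-a₁ - g1) = -a₁ := by ring
  have hprod : g1 * (-a₁ - g1) = -(3 * x0 + a₂) := by linear_combination -hg1
  have hc : v (3 * x0 + a₂) ≤ 1 := v.map_add_le (S58HC_le_mul v v3 hx0) h2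
  have hvg1 : v g1 ≤ 1 := by
    by_contra hcon
    rw [not_le] at hcon
    have e : g1 * g1 = -(a₁ * g1) + (3 * x0 + a₂) := by linear_combination hg1
    have hle : v (g1 * g1) ≤ v g1 := by
      rw [e]
      refine (v.map_add_le_max' _ _).trans (max_le ?_ (hc.trans hcon.le))
      show v (-(a₁ * g1)) ≤ v g1
      rw [Valuation.map_neg, map_mul]
      calc v a₁ * v g1 ≤ 1 * v g1 := by gcongr
        _ = v g1 := one_mul _
    rw [map_mul] at hle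
    have hpos : 0 < v g1 := lt_trans zero_lt_one hcon
    have hlt : v g1 * 1 < v g1 * v g1 := by gcongr
    rw [mul_one] at hlt
    exact absurd hle (not_le.2 hlt)
  have hvg2 : v (-a₁ - g1) ≤ 1 := v.map_sub_le (by rw [Valuation.map_neg]; exact h1) hvg1
  have hsq : (g1 - (-a₁ - g1)) ^ 4 = (a₁ ^ 2 + 4 * a₂) ^ 2 - 24 * (2 * a₄ + a₁ * a₃) := by
    have e1 : (g1 - (-a₁ - g1)) ^ 2 = (a₁ ^ 2 + 4 * a₂) + 12 * x0 := by
      linear_combination 4 * hg1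
    have e2 : (g1 - (-a₁ - g1)) ^ 4 = ((g1 - (-a₁ - g1)) ^ 2) ^ 2 := by ring
    rw [e2, e1]
    linear_combination 24 * a₁ * hFy0 - 48 * hFx0
  have hunit : v (g1 - (-a₁ - g1)) = 1 := by
    apply S58HC_eq_one_of_pow v (v.map_sub_le hvg1 hvg2) (n := 4) (by norm_num)
    rw [hsq]
    exact hc4
  refine ⟨x0, y0, g1, -a₁ - g1, hnx, hny, hx0, hy0, hFx0, hFy0, hF0, hsum, hprod, hg1, hg2,
    hunit, hvg1, hvg2, ?_⟩
  intro τ hτ t1 t2 t3 t4
  obtain ⟨hτx, hτy⟩ := hτxy τ hτ t1 t2 t3 t4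
  have hτg : τ g1 = g1 := by
    have h5 : (τ g1) ^ 2 + a₁ * (τ g1) - (3 * x0 + a₂) = 0 := by
      have := congrArg τ hg1
      simpa only [map_sub, map_add, map_mul, map_pow, map_ofNat, map_zero, t1, t2, hτx] using this
    have h6 : (τ g1 - g1) * (τ g1 - (-a₁ - g1)) = 0 := by
      linear_combination h5 - hg1
    rcases mul_eq_zero.1 h6 with h | h
    · exact sub_eq_zero.1 h
    · exfalso
      have h7 : τ g1 = -a₁ - g1 := sub_eq_zero.1 h
      have h8 := hτ g1 hvg1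
      rw [h7, Valuation.map_sub_swap, hunit] at h8
      exact lt_irrefl _ h8
  refine ⟨hτx, hτy, hτg, ?_⟩
  simp only [map_sub, map_neg, t1, hτg]

end Crit

end Fermat.Agent.S58_helper17_HENSQ
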