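import Mathlib
import Fermat.Agent.S58_helper10_BIQ
import Fermat.Agent.S58_helper19_E1DEFS

/-!
# S58 (E1a) [DUP] — the local duplication law of the height (helper1)

For a Weierstrass curve `W` over a field `F` and a valuation `v` of `F` at which the model is
integral (`v aᵢ ≤ 1`) with unit discriminant (`v Δ = 1`):

* `S58DUP_core` : if `x₂ · f(x) = g(x)` (the duplication formula) then
  `max 1 (v x₂) · v (f x) = (max 1 (v x)) ^ 4`;
* `S58DUP_local` : the point form (`P = (x, y)`, `P + P ≠ 0`);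
* `S58DUP_lamP` : the same statement in helper19's vocabulary,
  `lamP v (2 • P) = 4 · lamP v P + ord_v (f (x P))`;
* `S58DUP_two_torsion` : over an algebraically closed constant field `k`, for a curve defined
  over `k` with `Δ ≠ 0`, a point `P ≠ O` of `E(F)` with `P + P = O` has `x(P) ∈ k`;
* `S58DUP_h_two_nsmul` : under the product formula, `h (2 • P) = 4 · h P` on all of `E(F)`.

`f = 4x³ + b₂x² + 2b₄x + b₆` and `g = x⁴ − b₄x² − 2b₆x − b₈` are helper10's `S58BQ_f`, `S58BQ_g`.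
-/

set_option autoImplicit false

namespace Fermat.Agent.S58_helper1_DUP

open Fermat.Agent.S58_helper10_BIQ Fermat.Agent.S58_helper19_E1DEFS AlgebraicCurve

section Val

variable {F : Type*} [Field F] {Γ₀ : Type*} [LinearOrderedCommGroupWithZero Γ₀]
  (v : Valuation F Γ₀) (W : WeierstrassCurve F)

/-- The Weierstrass model is integral at the valuation `v`. -/
def S58DUP_Int : Prop :=
  v W.a₁ ≤ 1 ∧ v W.a₂ ≤ 1 ∧ v W.a₃ ≤ 1 ∧ v W.a₄ ≤ 1 ∧ v W.a₆ ≤ 1

variable {v W}

theorem S58DUP_b_mem (hW : S58DUP_Int v W) :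
    W.b₂ ∈ v.integer ∧ W.b₄ ∈ v.integer ∧ W.b₆ ∈ v.integer ∧ W.b₈ ∈ v.integer := by
  obtain ⟨h₁, h₂, h₃, h₄, h₆⟩ := hW
  have m₁ : W.a₁ ∈ v.integer := (v.mem_integer_iff _).mpr h₁
  have m₂ : W.a₂ ∈ v.integer := (v.mem_integer_iff _).mpr h₂
  have m₃ : W.a₃ ∈ v.integer := (v.mem_integer_iff _).mpr h₃
  have m₄ : W.a₄ ∈ v.integer := (v.mem_integer_iff _).mpr h₄
  have m₆ : W.a₆ ∈ v.integer := (v.mem_integer_iff _).mpr h₆
  refine ⟨?_, ?_, ?_, ?_⟩
  · rw [WeierstrassCurve.b₂]; aesop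
  · rw [WeierstrassCurve.b₄]; aesop
  · rw [WeierstrassCurve.b₆]; aesop
  · rw [WeierstrassCurve.b₈]; aesop

/-- At an integral `x`, one of `f(x)`, `g(x)` is a unit (the certificate `U f + V g = Δ`). -/
theorem S58DUP_max_int (hW : S58DUP_Int v W) (hΔ : v W.Δ = 1) {x : F} (hx : v x ≤ 1) :
    max (v (S58BQ_f W x)) (v (S58BQ_g W x)) = 1 := by
  obtain ⟨hb₂, hb₄, hb₆, hb₈⟩ := S58DUP_b_mem hW
  have mx : x ∈ v.integer := (v.mem_integer_iff _).mpr hx
  have hf : S58BQ_f W x ∈ v.integer := by unfold S58BQ_f; aesop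
  have hg : S58BQ_g W x ∈ v.integer := by unfold S58BQ_g; aesop
  have hU : S58BQ_U W x ∈ v.integer := by unfold S58BQ_U; aesop
  have hV : S58BQ_V W x ∈ v.integer := by unfold S58BQ_V; aesop
  rw [Valuation.mem_integer_iff] at hf hg hU hV
  apply le_antisymm (max_le hf hg)
  calc (1 : Γ₀) = v W.Δ := hΔ.symm
    _ = v (S58BQ_U W x * S58BQ_f W x + S58BQ_V W x * S58BQ_g W x) := by rw [S58BQ_cert]
    _ ≤ max (v (S58BQ_U W x * S58BQ_f W x)) (v (S58BQ_V W x * S58BQ_g W x)) := v.map_add _ _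
    _ ≤ max (v (S58BQ_f W x)) (v (S58BQ_g W x)) := by
        apply max_le_max
        · rw [map_mul]; exact mul_le_of_le_one_left' hU
        · rw [map_mul]; exact mul_le_of_le_one_left' hV

theorem S58DUP_aux_g {A : Subring F} {b₄ b₆ b₈ u : F} (h₄ : b₄ ∈ A) (h₆ : b₆ ∈ A) (h₈ : b₈ ∈ A)
    (hu : u ∈ A) : b₄ * u + 2 * b₆ * u ^ 2 + b₈ * u ^ 3 ∈ A := by
  aesop

theorem S58DUP_aux_f {A : Subring F} {b₂ b₄ b₆ u : F} (h₂ : b₂ ∈ A) (h₄ : b₄ ∈ A) (h₆ : b₆ ∈ A)
    (hu : u ∈ A) : 4 + b₂ * u + 2 * b₄ * u ^ 2 + b₆ * u ^ 3 ∈ A := by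
  aesop

/-- At a pole of `x`: `v (g x) = (v x)⁴` and `v (f x) ≤ (v x)³`. -/
theorem S58DUP_pole (hW : S58DUP_Int v W) {x : F} (hx : 1 < v x) :
    v (S58BQ_g W x) = v x ^ 4 ∧ v (S58BQ_f W x) ≤ v x ^ 3 := by
  obtain ⟨hb₂, hb₄, hb₆, hb₈⟩ := S58DUP_b_mem hW
  have hx0 : x ≠ 0 := by
    rintro rfl
    rw [map_zero] at hx
    exact absurd hx (not_lt.mpr zero_le_one)
  have hu : v x⁻¹ < 1 := by
    rw [map_inv₀]
    exact inv_lt_one_of_one_lt₀ hx
  have mu : x⁻¹ ∈ v.integer := (v.mem_integer_iff _).mpr hu.le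
  constructor
  · have e : S58BQ_g W x
        = x ^ 4 * (1 - x⁻¹ * (W.b₄ * x⁻¹ + 2 * W.b₆ * x⁻¹ ^ 2 + W.b₈ * x⁻¹ ^ 3)) := by
      unfold S58BQ_g
      field_simp
      ring
    have hs : W.b₄ * x⁻¹ + 2 * W.b₆ * x⁻¹ ^ 2 + W.b₈ * x⁻¹ ^ 3 ∈ v.integer :=
      S58DUP_aux_g hb₄ hb₆ hb₈ mu
    rw [Valuation.mem_integer_iff] at hs
    have hlt : v (x⁻¹ * (W.b₄ * x⁻¹ + 2 * W.b₆ * x⁻¹ ^ 2 + W.b₈ * x⁻¹ ^ 3)) < 1 := by
      rw [map_mul]
      exact lt_of_le_of_lt (mul_le_of_le_one_right' hs) hu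
    rw [e, map_mul, map_pow, v.map_one_sub_of_lt hlt, mul_one]
  · have e : S58BQ_f W x
        = x ^ 3 * (4 + W.b₂ * x⁻¹ + 2 * W.b₄ * x⁻¹ ^ 2 + W.b₆ * x⁻¹ ^ 3) := by
      unfold S58BQ_f
      field_simp
    have hs : 4 + W.b₂ * x⁻¹ + 2 * W.b₄ * x⁻¹ ^ 2 + W.b₆ * x⁻¹ ^ 3 ∈ v.integer :=
      S58DUP_aux_f hb₂ hb₄ hb₆ mu
    rw [Valuation.mem_integer_iff] at hs
    rw [e, map_mul, map_pow]
    exact mul_le_of_le_one_right' hs

/-- **[DUP], valuation core.**  If `x₂ · f(x) = g(x)` then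
`max 1 (v x₂) · v (f x) = (max 1 (v x))⁴`. -/
theorem S58DUP_core (hW : S58DUP_Int v W) (hΔ : v W.Δ = 1) {x x₂ : F}
    (hdup : x₂ * S58BQ_f W x = S58BQ_g W x) :
    max 1 (v x₂) * v (S58BQ_f W x) = (max 1 (v x)) ^ 4 := by
  have key : max 1 (v x₂) * v (S58BQ_f W x) = max (v (S58BQ_f W x)) (v (S58BQ_g W x)) := by
    rw [← max_mul_mul_right, one_mul, ← map_mul, hdup]
  rw [key]
  rcases le_or_gt (v x) 1 with hx | hx
  · rw [max_eq_left hx, one_pow]
    exact S58DUP_max_int hW hΔ hx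
  · obtain ⟨hg, hf⟩ := S58DUP_pole hW hx
    rw [max_eq_right hx.le, hg]
    apply max_eq_right
    exact hf.trans (pow_le_pow_right' hx.le (by norm_num))

/-- In the situation of `S58DUP_core`, `f(x) ≠ 0`. -/
theorem S58DUP_f_ne_zero (hΔ : v W.Δ = 1) {x x₂ : F}
    (hdup : x₂ * S58BQ_f W x = S58BQ_g W x) : S58BQ_f W x ≠ 0 := by
  intro hf
  have hg : S58BQ_g W x = 0 := by rw [← hdup, hf, mul_zero]
  have h := S58BQ_cert W x
  rw [hf, hg, mul_zero, mul_zero, add_zero] at h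
  rw [← h, map_zero] at hΔ
  exact zero_ne_one hΔ

end Val

section PointVal

variable {F : Type*} [Field F] [DecidableEq F] {Γ₀ : Type*} [LinearOrderedCommGroupWithZero Γ₀]
  {v : Valuation F Γ₀} {W : WeierstrassCurve F}

open WeierstrassCurve.Affine

/-- A point `P = (x, y)` with `P + P ≠ 0` has `y ≠ negY x y`. -/
theorem S58DUP_Y_ne {x y : F} (h : W.toAffine.Nonsingular x y)
    (hne : Point.some x y h + Point.some x y h ≠ 0) : y ≠ W.toAffine.negY x y := fun hy =>
  hne (Point.add_self_of_Y_eq hy)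

/-- A point `P = (x, y)` with `P + P = 0` has `y = negY x y`. -/
theorem S58DUP_Y_eq {x y : F} (h : W.toAffine.Nonsingular x y)
    (h2 : Point.some x y h + Point.some x y h = 0) : y = W.toAffine.negY x y := by
  by_contra hy
  rw [Point.add_self_of_Y_ne hy] at h2
  exact Point.some_ne_zero _ h2

/-- **[DUP], point form at a valuation.** -/
theorem S58DUP_local (hW : S58DUP_Int v W) (hΔ : v W.Δ = 1) {x y : F}
    (h : W.toAffine.Nonsingular x y) (hne : Point.some x y h + Point.some x y h ≠ 0) :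
    ∃ x₂ y₂ : F, ∃ h₂ : W.toAffine.Nonsingular x₂ y₂,
      Point.some x y h + Point.some x y h = Point.some x₂ y₂ h₂ ∧
      S58BQ_f W x ≠ 0 ∧ x₂ * S58BQ_f W x = S58BQ_g W x ∧
      max 1 (v x₂) * v (S58BQ_f W x) = (max 1 (v x)) ^ 4 := by
  obtain ⟨x₂, y₂, h₂, e, hdup, hf⟩ := S58BQ_point_dup W h (S58DUP_Y_ne h hne)
  exact ⟨x₂, y₂, h₂, e, hf, hdup, S58DUP_core hW hΔ hdup⟩

end PointVal

section Place

variable {k : Type*} {F : Type*} [Field k] [Field F] [Algebra k F]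

/-- `ord_v a ≥ 0` is `v a ≤ 1` (also at `a = 0`, where the prelude's `ord` is the junk `0`). -/
theorem S58DUP_le_one_iff_ord (v : Place k F) (a : F) :
    v.adicValuation a ≤ 1 ↔ 0 ≤ v.ord a := by
  unfold Place.ord
  by_cases ha : v.adicValuation a = 0
  · rw [ha]; simp
  · rw [neg_nonneg, ← WithZero.log_one, WithZero.log_le_log ha one_ne_zero]

/-- `ord_v a = 0` is `v a = 1` for `a ≠ 0`. -/
theorem S58DUP_eq_one_iff_ord (v : Place k F) {a : F} (ha : a ≠ 0) :
    v.adicValuation a = 1 ↔ v.ord a = 0 := by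
  have h0 : v.adicValuation a ≠ 0 := v.adicValuation_ne_zero ha
  unfold Place.ord
  rw [neg_eq_zero]
  constructor
  · intro h; rw [h, WithZero.log_one]
  · intro h
    apply le_antisymm
    · rw [← WithZero.log_le_log h0 one_ne_zero, h, WithZero.log_one]
    · rw [← WithZero.log_le_log one_ne_zero h0, h, WithZero.log_one]

/-- The local pole order is the logarithm of `max 1 (v u)`. -/
theorem S58DUP_lam_eq_log (v : Place k F) (u : F) :
    S58E1_lam k v u = WithZero.log (max 1 (v.adicValuation u)) := by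
  unfold S58E1_lam Place.ord
  rw [neg_neg]
  rcases le_or_gt (v.adicValuation u) 1 with h | h
  · rw [max_eq_left h, WithZero.log_one, max_eq_left]
    by_cases hu : v.adicValuation u = 0
    · rw [hu, WithZero.log_zero]
    · have := (WithZero.log_le_log hu one_ne_zero).mpr h
      rwa [WithZero.log_one] at this
  · rw [max_eq_right h.le, max_eq_right]
    have h0 : v.adicValuation u ≠ 0 := ne_of_gt (lt_trans zero_lt_one h)
    have := (WithZero.log_le_log one_ne_zero h0).mpr h.le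
    rwa [WithZero.log_one] at this

/-- Constants are integral at every place. -/
theorem S58DUP_const_le_one (v : Place k F) (c : k) : v.adicValuation (algebraMap k F c) ≤ 1 := by
  rw [← v.coe_algebraMap c, v.adicValuation_coe]
  exact IsDedekindDomain.HeightOneSpectrum.intValuation_le_one _ _

/-- Nonzero constants are units at every place. -/
theorem S58DUP_const_eq_one (v : Place k F) {c : k} (hc : c ≠ 0) :
    v.adicValuation (algebraMap k F c) = 1 := by
  apply le_antisymm (S58DUP_const_le_one v c)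
  have h1 : v.adicValuation (algebraMap k F c) * v.adicValuation (algebraMap k F c⁻¹) = 1 := by
    rw [← map_mul, ← map_mul, mul_inv_cancel₀ hc, map_one, map_one]
  have h2 := S58DUP_const_le_one v c⁻¹
  calc (1 : WithZero (Multiplicative ℤ))
      = v.adicValuation (algebraMap k F c) * v.adicValuation (algebraMap k F c⁻¹) := h1.symm
    _ ≤ v.adicValuation (algebraMap k F c) := mul_le_of_le_one_right' h2

/-- The local pole order of a constant vanishes. -/
theorem S58DUP_lam_const (v : Place k F) (c : k) : S58E1_lam k v (algebraMap k F c) = 0 := by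
  rw [S58DUP_lam_eq_log, max_eq_left (S58DUP_const_le_one v c), WithZero.log_one]

/-- A curve defined over the constant field is integral at every place. -/
theorem S58DUP_Int_const (W0 : WeierstrassCurve k) (v : Place k F) :
    S58DUP_Int v.adicValuation (W0.map (algebraMap k F)) :=
  ⟨S58DUP_const_le_one v _, S58DUP_const_le_one v _, S58DUP_const_le_one v _,
    S58DUP_const_le_one v _, S58DUP_const_le_one v _⟩

/-- A curve defined over the constant field with `Δ ≠ 0` has unit discriminant at every place. -/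
theorem S58DUP_Δ_const (W0 : WeierstrassCurve k) (hΔ : W0.Δ ≠ 0) (v : Place k F) :
    v.adicValuation (W0.map (algebraMap k F)).Δ = 1 := by
  rw [WeierstrassCurve.map_Δ]
  exact S58DUP_const_eq_one v hΔ

section PointPlace

variable [DecidableEq F]

open WeierstrassCurve.Affine

/-- **[DUP] in helper19's vocabulary (valuation hypotheses).**
`lamP v (2 • P) = 4 · lamP v P + ord_v (f (x P))` for an affine `P` with `2 • P ≠ O`. -/
theorem S58DUP_lamP (W : WeierstrassCurve.Affine F) (v : Place k F)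
    (hW : S58DUP_Int v.adicValuation W) (hΔ : v.adicValuation W.Δ = 1) {x y : F}
    (h : W.Nonsingular x y) (hne : (2 : ℕ) • (Point.some x y h : W.Point) ≠ 0) :
    S58BQ_f W x ≠ 0 ∧
      S58E1_lamP k W v ((2 : ℕ) • (Point.some x y h : W.Point))
        = 4 * S58E1_lamP k W v (Point.some x y h) + v.ord (S58BQ_f W x) := by
  rw [two_nsmul] at hne ⊢
  obtain ⟨x₂, y₂, h₂, e, hf, -, hmax⟩ := S58DUP_local (v := v.adicValuation) hW hΔ h hne
  refine ⟨hf, ?_⟩
  rw [e, S58E1_lamP_some, S58E1_lamP_some, S58DUP_lam_eq_log, S58DUP_lam_eq_log]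
  have hm : ∀ u : F, max 1 (v.adicValuation u) ≠ 0 := fun u =>
    ne_of_gt (lt_of_lt_of_le zero_lt_one (le_max_left _ _))
  have hl := congrArg WithZero.log hmax
  rw [WithZero.log_mul (hm x₂) (v.adicValuation_ne_zero hf), WithZero.log_pow] at hl
  unfold Place.ord
  rw [nsmul_eq_mul] at hl
  push_cast at hl
  linarith

/-- **[DUP] in helper19's vocabulary (`ord` hypotheses).** -/
theorem S58DUP_lamP_ord (W : WeierstrassCurve.Affine F) (v : Place k F)
    (h₁ : 0 ≤ v.ord W.a₁) (h₂ : 0 ≤ v.ord W.a₂) (h₃ : 0 ≤ v.ord W.a₃) (h₄ : 0 ≤ v.ord W.a₄)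
    (h₆ : 0 ≤ v.ord W.a₆) (hΔ0 : W.Δ ≠ 0) (hΔ : v.ord W.Δ = 0) {x y : F}
    (h : W.Nonsingular x y) (hne : (2 : ℕ) • (Point.some x y h : W.Point) ≠ 0) :
    S58BQ_f W x ≠ 0 ∧
      S58E1_lamP k W v ((2 : ℕ) • (Point.some x y h : W.Point))
        = 4 * S58E1_lamP k W v (Point.some x y h) + v.ord (S58BQ_f W x) :=
  S58DUP_lamP W v
    ⟨(S58DUP_le_one_iff_ord v _).mpr h₁, (S58DUP_le_one_iff_ord v _).mpr h₂,
      (S58DUP_le_one_iff_ord v _).mpr h₃, (S58DUP_le_one_iff_ord v _).mpr h₄,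
      (S58DUP_le_one_iff_ord v _).mpr h₆⟩
    ((S58DUP_eq_one_iff_ord v hΔ0).mpr hΔ) h hne

/-- **[DUP] for a curve defined over the constant field**: no hypothesis at the place. -/
theorem S58DUP_lamP_const (W0 : WeierstrassCurve k) (hΔ : W0.Δ ≠ 0) (v : Place k F) {x y : F}
    (h : (W0.map (algebraMap k F)).toAffine.Nonsingular x y)
    (hne : (2 : ℕ) • (Point.some x y h : (W0.map (algebraMap k F)).toAffine.Point) ≠ 0) :
    S58BQ_f (W0.map (algebraMap k F)) x ≠ 0 ∧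
      S58E1_lamP k (W0.map (algebraMap k F)).toAffine v
          ((2 : ℕ) • (Point.some x y h : (W0.map (algebraMap k F)).toAffine.Point))
        = 4 * S58E1_lamP k (W0.map (algebraMap k F)).toAffine v (Point.some x y h)
          + v.ord (S58BQ_f (W0.map (algebraMap k F)) x) :=
  S58DUP_lamP _ v (S58DUP_Int_const W0 v) (S58DUP_Δ_const W0 hΔ v) h hne

end PointPlace

end Place

end Fermat.Agent.S58_helper1_DUP
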