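import Mathlib
import Fermat.Agent.S58_helper1_DUP

/-!
# S58 (E1a) [DUP], part 2 — two-torsion and the global duplication law (helper1)

* `S58DUPT_two_torsion` : for a Weierstrass curve `W0` over an algebraically closed field `k`
  with `Δ ≠ 0` and any field extension `F / k`, an affine point `P = (x, y)` of `E(F)` with
  `P + P = O` has `x ∈ k`;
* `S58DUPT_lamP_two_torsion` : its local heights vanish (no algebraic closedness needed);
* `S58DUPT_h_two_nsmul` : under the product formula `S58E1_PF k F`,
  `h (2 • P) = 4 · h P` for every `P ∈ E(F)`.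
-/

set_option autoImplicit false

namespace Fermat.Agent.S58_helper1_DUPT

open Fermat.Agent.S58_helper10_BIQ Fermat.Agent.S58_helper19_E1DEFS
  Fermat.Agent.S58_helper1_DUP AlgebraicCurve

section TwoTorsion

variable {k : Type*} {F : Type*} [Field k] [Field F] [Algebra k F]

/-- `f` of the base-changed curve is the evaluation of the two-torsion polynomial of `W0`. -/
theorem S58DUPT_aeval (W0 : WeierstrassCurve k) (x : F) :
    Polynomial.aeval x W0.twoTorsionPolynomial.toPoly = S58BQ_f (W0.map (algebraMap k F)) x := by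
  simp only [S58BQ_f, WeierstrassCurve.twoTorsionPolynomial, Cubic.toPoly,
    WeierstrassCurve.map_b₂, WeierstrassCurve.map_b₄, WeierstrassCurve.map_b₆, map_add, map_mul,
    map_pow, Polynomial.aeval_C, Polynomial.aeval_X, map_ofNat]

/-- The two-torsion polynomial of a curve with `Δ ≠ 0` is not the zero polynomial
(in any characteristic). -/
theorem S58DUPT_poly_ne_zero (W0 : WeierstrassCurve k) (hΔ : W0.Δ ≠ 0) :
    W0.twoTorsionPolynomial.toPoly ≠ 0 := by
  intro h0
  rw [Cubic.toPoly_eq_zero_iff] at h0
  have ha : (4 : k) = 0 := congrArg Cubic.a h0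
  have hb : W0.b₂ = 0 := congrArg Cubic.b h0
  have hd : W0.b₆ = 0 := congrArg Cubic.d h0
  apply hΔ
  rw [WeierstrassCurve.Δ, hb, hd]
  linear_combination (-2 * W0.b₄ ^ 3) * ha

/-- A root of `f` in an extension of the field of definition is algebraic. -/
theorem S58DUPT_isAlgebraic (W0 : WeierstrassCurve k) (hΔ : W0.Δ ≠ 0) {x : F}
    (hf : S58BQ_f (W0.map (algebraMap k F)) x = 0) : IsAlgebraic k x :=
  ⟨W0.twoTorsionPolynomial.toPoly, S58DUPT_poly_ne_zero W0 hΔ, by rw [S58DUPT_aeval, hf]⟩

/-- A root of `f` in an extension of an algebraically closed field of definition is constant. -/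
theorem S58DUPT_mem_range [IsAlgClosed k] (W0 : WeierstrassCurve k) (hΔ : W0.Δ ≠ 0) {x : F}
    (hf : S58BQ_f (W0.map (algebraMap k F)) x = 0) : x ∈ Set.range (algebraMap k F) := by
  have hint : IsIntegral k x := (S58DUPT_isAlgebraic W0 hΔ hf).isIntegral
  have h := hint.mem_range_algebraMap_of_minpoly_splits (K := k) (IsAlgClosed.splits _)
  exact h

/-- A root of `f` is integral at every place. -/
theorem S58DUPT_root_le_one (W0 : WeierstrassCurve k) (hΔ : W0.Δ ≠ 0) (v : Place k F) {x : F}
    (hf : S58BQ_f (W0.map (algebraMap k F)) x = 0) : v.adicValuation x ≤ 1 := by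
  have hint : IsIntegral k x := (S58DUPT_isAlgebraic W0 hΔ hf).isIntegral
  have hintA : IsIntegral v.toValuationSubring x := hint.tower_top
  obtain ⟨a, rfl⟩ := IsIntegrallyClosed.isIntegral_iff.mp hintA
  change v.adicValuation ((a : v.toValuationSubring) : F) ≤ 1
  rw [v.adicValuation_coe]
  exact IsDedekindDomain.HeightOneSpectrum.intValuation_le_one _ _

section Point

variable [DecidableEq F]

open WeierstrassCurve.Affine

/-- **[DUP], two-torsion**: over an algebraically closed field of definition, a point of order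
`2` of `E(F)` has constant `x`-coordinate. -/
theorem S58DUPT_two_torsion [IsAlgClosed k] (W0 : WeierstrassCurve k) (hΔ : W0.Δ ≠ 0) {x y : F}
    (h : (W0.map (algebraMap k F)).toAffine.Nonsingular x y)
    (h2 : Point.some x y h + Point.some x y h = 0) : x ∈ Set.range (algebraMap k F) :=
  S58DUPT_mem_range W0 hΔ (S58BQ_f_eq_zero _ h.1 (S58DUP_Y_eq h h2))

/-- The local heights of a point of order `2` vanish (any field of definition `k`). -/
theorem S58DUPT_lamP_two_torsion (W0 : WeierstrassCurve k) (hΔ : W0.Δ ≠ 0) (v : Place k F)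
    {x y : F} (h : (W0.map (algebraMap k F)).toAffine.Nonsingular x y)
    (h2 : Point.some x y h + Point.some x y h = 0) :
    S58E1_lamP k (W0.map (algebraMap k F)).toAffine v (Point.some x y h) = 0 := by
  rw [S58E1_lamP_some, S58DUP_lam_eq_log,
    max_eq_left (S58DUPT_root_le_one W0 hΔ v (S58BQ_f_eq_zero _ h.1 (S58DUP_Y_eq h h2))),
    WithZero.log_one]

/-- The height of a point of order `2` vanishes. -/
theorem S58DUPT_h_two_torsion (W0 : WeierstrassCurve k) (hΔ : W0.Δ ≠ 0)
    {x y : F} (h : (W0.map (algebraMap k F)).toAffine.Nonsingular x y)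
    (h2 : Point.some x y h + Point.some x y h = 0) :
    S58E1_h k (W0.map (algebraMap k F)).toAffine (Point.some x y h) = 0 := by
  rw [S58E1_h_eq_finsum]
  rw [finsum_congr (fun v => S58DUPT_lamP_two_torsion W0 hΔ v h h2)]
  exact finsum_zero

/-- **[DUP], global form**: under the product formula, `h (2 • P) = 4 · h P` on all of `E(F)`,
for a curve defined over the constant field with `Δ ≠ 0`. -/
theorem S58DUPT_h_two_nsmul (hPF : S58E1_PF k F) (W0 : WeierstrassCurve k) (hΔ : W0.Δ ≠ 0)
    (P : (W0.map (algebraMap k F)).toAffine.Point) :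
    S58E1_h k (W0.map (algebraMap k F)).toAffine ((2 : ℕ) • P)
      = 4 * S58E1_h k (W0.map (algebraMap k F)).toAffine P := by
  rcases P with _ | ⟨x, y, h⟩
  · change S58E1_h k _ ((2 : ℕ) • (0 : (W0.map (algebraMap k F)).toAffine.Point))
      = 4 * S58E1_h k _ (0 : (W0.map (algebraMap k F)).toAffine.Point)
    rw [smul_zero, S58E1_h_zero, mul_zero]
  · by_cases h2 : (2 : ℕ) • (Point.some x y h : (W0.map (algebraMap k F)).toAffine.Point) = 0
    · rw [h2, S58E1_h_zero, S58DUPT_h_two_torsion W0 hΔ h (by rwa [two_nsmul] at h2), mul_zero]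
    · have hloc := fun v : Place k F => S58DUP_lamP_const W0 hΔ v h h2
      have hf : S58BQ_f (W0.map (algebraMap k F)) x ≠ 0 :=
        S58BQ_f_ne_zero _ h.1 (S58DUP_Y_ne h (by rwa [two_nsmul] at h2))
      have hfin1 : (Function.support fun v : Place k F =>
          4 * S58E1_lamP k (W0.map (algebraMap k F)).toAffine v (Point.some x y h)).Finite := by
        refine (S58E1_lam_support_finite hPF x).subset fun v hv => ?_
        simp only [Function.mem_support, ne_eq, S58E1_lamP_some] at hv ⊢
        intro h0
        exact hv (by rw [h0, mul_zero])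
      rw [S58E1_h_eq_finsum, S58E1_h_eq_finsum, finsum_congr (fun v => (hloc v).2),
        finsum_add_distrib hfin1 (hPF _ hf).1, (hPF _ hf).2, add_zero]
      rw [mul_finsum]

end Point

end TwoTorsion

end Fermat.Agent.S58_helper1_DUPT
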