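import Mathlib
import Fermat.Agent.S58_helper1_DUPT
import Fermat.Agent.S58_helper19_PAR

/-!
# S58 (E1a) [DUP], part 3 — helper19's contract `S58PAR_Dup` (helper1)

* `S58DUPP_main` : `S58PAR_Dup k W` (`h (P + P) = 4 · h P` on all of `E(F)`) for a Weierstrass
  curve `W` over `F` which is integral with unit discriminant at every place of `F / k`, under
  the product formula and `hroot` (the roots of `f = ψ₂²` are integral at every place);
* `S58DUPP_main'` : the same with `hroot` stated with Mathlib's `W.Ψ₂Sq`;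
* `S58DUPP_const` : `S58PAR_Dup k (W0.map (algebraMap k F)).toAffine` for `W0` over `k`, `Δ ≠ 0`;
* `S58DUPP_tower` : `S58PAR_Dup k (W0⁄F)` for `W0` over a subring `R` of `k` (e.g. `ZMod l`).
-/

set_option autoImplicit false

namespace Fermat.Agent.S58_helper1_DUPP

open Fermat.Agent.S58_helper10_BIQ Fermat.Agent.S58_helper19_E1DEFS
  Fermat.Agent.S58_helper19_PAR Fermat.Agent.S58_helper1_DUP Fermat.Agent.S58_helper1_DUPT
  AlgebraicCurve

variable {k : Type*} {F : Type*} [Field k] [Field F] [Algebra k F]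

/-- Elements of the valuation ring of a place have `v ≤ 1`. -/
theorem S58DUPP_le_one_of_mem (v : Place k F) {a : F} (ha : a ∈ v.toValuationSubring) :
    v.adicValuation a ≤ 1 := by
  have h := v.adicValuation_coe ⟨a, ha⟩
  change v.adicValuation a = _ at h
  rw [h]
  exact IsDedekindDomain.HeightOneSpectrum.intValuation_le_one _ _

/-- `f = ψ₂²` as the evaluation of Mathlib's `Ψ₂Sq`. -/
theorem S58DUPP_eval_Ψ₂Sq (W : WeierstrassCurve F) (x : F) :
    W.Ψ₂Sq.eval x = S58BQ_f W x := by
  simp only [WeierstrassCurve.Ψ₂Sq, S58BQ_f, Polynomial.eval_add, Polynomial.eval_mul,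
    Polynomial.eval_pow, Polynomial.eval_C, Polynomial.eval_X]

section Point

variable [DecidableEq F]

open WeierstrassCurve.Affine

/-- **[DUP] = helper19's contract `S58PAR_Dup`**, general curve over `F`. -/
theorem S58DUPP_main (hPF : S58E1_PF k F) (W : WeierstrassCurve.Affine F)
    (hc : ∀ v : Place k F, W.a₁ ∈ v.toValuationSubring ∧ W.a₂ ∈ v.toValuationSubring ∧
      W.a₃ ∈ v.toValuationSubring ∧ W.a₄ ∈ v.toValuationSubring ∧ W.a₆ ∈ v.toValuationSubring)
    (hΔ0 : W.Δ ≠ 0) (hΔ : ∀ v : Place k F, v.ord W.Δ = 0)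
    (hroot : ∀ x : F, S58BQ_f W x = 0 → ∀ v : Place k F, 0 ≤ v.ord x) :
    S58PAR_Dup k W := by
  intro P
  rcases P with _ | ⟨x, y, h⟩
  · change S58E1_h k W ((0 : W.Point) + 0) = 4 * S58E1_h k W (0 : W.Point)
    rw [add_zero, S58E1_h_zero, mul_zero]
  · by_cases h2 : (Point.some x y h : W.Point) + Point.some x y h = 0
    · have hf : S58BQ_f W x = 0 := S58BQ_f_eq_zero W h.1 (S58DUP_Y_eq h h2)
      have hz : S58E1_h k W (Point.some x y h) = 0 := by
        rw [S58E1_h_some, S58E1_hX]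
        rw [finsum_congr (fun v => (S58E1_lam_eq_zero_iff v x).mpr (hroot x hf v))]
        exact finsum_zero
      rw [h2, S58E1_h_zero, hz, mul_zero]
    · have h2' : (2 : ℕ) • (Point.some x y h : W.Point) ≠ 0 := by rwa [two_nsmul]
      have hW : ∀ v : Place k F, S58DUP_Int v.adicValuation W := fun v =>
        ⟨S58DUPP_le_one_of_mem v (hc v).1, S58DUPP_le_one_of_mem v (hc v).2.1,
          S58DUPP_le_one_of_mem v (hc v).2.2.1, S58DUPP_le_one_of_mem v (hc v).2.2.2.1,
          S58DUPP_le_one_of_mem v (hc v).2.2.2.2⟩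
      have hloc := fun v : Place k F =>
        S58DUP_lamP W v (hW v) ((S58DUP_eq_one_iff_ord v hΔ0).mpr (hΔ v)) h h2'
      have hf : S58BQ_f W x ≠ 0 := S58BQ_f_ne_zero W h.1 (S58DUP_Y_ne h h2)
      have hfin1 : (Function.support fun v : Place k F =>
          4 * S58E1_lamP k W v (Point.some x y h)).Finite := by
        refine (S58E1_lam_support_finite hPF x).subset fun v hv => ?_
        simp only [Function.mem_support, ne_eq, S58E1_lamP_some] at hv ⊢
        intro h0
        exact hv (by rw [h0, mul_zero])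
      rw [← two_nsmul, S58E1_h_eq_finsum, S58E1_h_eq_finsum, finsum_congr (fun v => (hloc v).2),
        finsum_add_distrib hfin1 (hPF _ hf).1, (hPF _ hf).2, add_zero, mul_finsum]

/-- **[DUP] = `S58PAR_Dup`**, with `hroot` in terms of Mathlib's `Ψ₂Sq`. -/
theorem S58DUPP_main' (hPF : S58E1_PF k F) (W : WeierstrassCurve.Affine F)
    (hc : ∀ v : Place k F, W.a₁ ∈ v.toValuationSubring ∧ W.a₂ ∈ v.toValuationSubring ∧
      W.a₃ ∈ v.toValuationSubring ∧ W.a₄ ∈ v.toValuationSubring ∧ W.a₆ ∈ v.toValuationSubring)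
    (hΔ0 : W.Δ ≠ 0) (hΔ : ∀ v : Place k F, v.ord W.Δ = 0)
    (hroot : ∀ x : F, W.Ψ₂Sq.eval x = 0 → ∀ v : Place k F, 0 ≤ v.ord x) :
    S58PAR_Dup k W :=
  S58DUPP_main hPF W hc hΔ0 hΔ fun x hx v => hroot x (by rw [S58DUPP_eval_Ψ₂Sq, hx]) v

/-- **[DUP] = `S58PAR_Dup`** for a curve defined over the constant field: only `Δ ≠ 0` and the
product formula are needed (any characteristic, `k` not necessarily algebraically closed). -/
theorem S58DUPP_const (hPF : S58E1_PF k F) (W0 : WeierstrassCurve k) (hΔ : W0.Δ ≠ 0) :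
    S58PAR_Dup k (W0.map (algebraMap k F)).toAffine := by
  have hΔF : (W0.map (algebraMap k F)).Δ ≠ 0 := by
    rw [WeierstrassCurve.map_Δ]
    exact fun h0 => hΔ ((algebraMap k F).injective (by rw [h0, map_zero]))
  refine S58DUPP_main hPF _ (fun v => ⟨v.algebraMap_mem' _, v.algebraMap_mem' _,
    v.algebraMap_mem' _, v.algebraMap_mem' _, v.algebraMap_mem' _⟩) hΔF
    (fun v => (S58DUP_eq_one_iff_ord v hΔF).mp (S58DUP_Δ_const W0 hΔ v)) ?_
  intro x hx v
  exact (S58DUP_le_one_iff_ord v x).mp (S58DUPT_root_le_one W0 hΔ v hx)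

/-- **[DUP] = `S58PAR_Dup`** for a curve defined over a subring `R` of the constant field
(e.g. `R = ZMod l`), in Mathlib's base-change notation `W0⁄F`. -/
theorem S58DUPP_tower {R : Type*} [CommRing R] [Algebra R k] [Algebra R F] [IsScalarTower R k F]
    (hPF : S58E1_PF k F) (W0 : WeierstrassCurve R) (hΔ : (W0.map (algebraMap R k)).Δ ≠ 0) :
    S58PAR_Dup k (W0.map (algebraMap R F)).toAffine := by
  have e : W0.map (algebraMap R F) = (W0.map (algebraMap R k)).map (algebraMap k F) := by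
    rw [WeierstrassCurve.map_map, ← IsScalarTower.algebraMap_eq]
  rw [e]
  exact S58DUPP_const hPF _ hΔ

end Point

end Fermat.Agent.S58_helper1_DUPP
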