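import Mathlib
import Fermat.Prelude.Def_AlgebraicCurve_DivisorClassGroup
import Fermat.Prelude.Def_AlgebraicCurve_Repartitions
import Fermat.Agent.S24_helper6_A2
import Fermat.Agent.S58_helper19_E1DEFS
import Fermat.Agent.S58_helper21_PF
import Fermat.Agent.S58_helper10_PFELL

/-!
# S58 (E1a) [CONST-FF] + the elliptic plug of the product formula (helper21)

* `S58PF_const_of_no_pole` : on a finite separable normal cover `F / K(x)` of the line over an
  algebraically closed field `K` (any characteristic), a function without poles is a constant;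
* `S58PF_ell`       : `S58E1_PF k W.toAffine.FunctionField` for a Weierstrass curve with
  `Δ ≠ 0` over an algebraically closed field `k` of any characteristic;
* `S58PF_ell_const` : the same for "no pole ⟹ constant";
* `S58PF_mult`      : the multiplicative interface (`adicValuation`, `WithZero.log`).
-/

set_option autoImplicit false
set_option linter.style.haveILetI false

namespace Fermat.Agent.S58_helper21_PFC

open AlgebraicCurve Polynomial IntermediateField
open Fermat.Agent.S24_helper6_A2 Fermat.Agent.S58_helper19_E1DEFS Fermat.Agent.S58_helper21_PF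
open Fermat.Agent.S58_helper10_PFELL

section Abs

variable {K F : Type*} [Field K] [Field F] [Algebra K F]

/-- Under the product formula, a nonzero function without poles has no zeros. -/
theorem S58PF_ord_eq_zero_of_nonneg (hPF : S58E1_PF K F) {g : F} (hg : g ≠ 0)
    (h : ∀ v : Place K F, 0 ≤ v.ord g) (v : Place K F) : v.ord g = 0 := by
  obtain ⟨hfin, hsum⟩ := hPF g hg
  have h1 : (fun w : Place K F => w.ord g) v ≤ ∑ᶠ w : Place K F, w.ord g :=
    single_le_finsum v hfin h
  rw [hsum] at h1
  exact le_antisymm h1 (h v)

/-- A polynomial in an element of the valuation ring lies in the valuation ring. -/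
theorem S58PF_aeval_mem (v : Place K F) {f : F} (hf : f ∈ v.toValuationSubring) (r : K[X]) :
    aeval f r ∈ v.toValuationSubring := by
  have h : aeval f r = algebraMap v.toValuationSubring F (aeval (⟨f, hf⟩ : v.toValuationSubring) r) := by
    rw [← Polynomial.aeval_algebraMap_apply]
    rfl
  rw [h]
  exact Subtype.property _

/-- Under the product formula, the functions without poles form a field: every element of
`K(f)` is without poles if `f` is. -/
theorem S58PF_adjoin_mem (hPF : S58E1_PF K F) {f : F} (hf : ∀ v : Place K F, 0 ≤ v.ord f)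
    {g : F} (hg : g ∈ K⟮f⟯) (v : Place K F) : g ∈ v.toValuationSubring := by
  obtain ⟨r, s, rfl⟩ := (IntermediateField.mem_adjoin_simple_iff K g).1 hg
  have hfm : ∀ w : Place K F, f ∈ w.toValuationSubring := fun w => mem_of_ord_nonneg w (hf w)
  rcases eq_or_ne (aeval f s) 0 with h0 | h0
  · rw [h0, div_zero]
    exact zero_mem _
  · rw [div_eq_mul_inv]
    refine mul_mem (S58PF_aeval_mem v (hfm v) r) ?_
    have hs : ∀ w : Place K F, 0 ≤ w.ord (aeval f s) := fun w =>
      ord_nonneg_of_mem w (S58PF_aeval_mem w (hfm w) s)
    have hz := S58PF_ord_eq_zero_of_nonneg hPF h0 hs v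
    refine mem_of_ord_nonneg v ?_
    rw [Place.ord_inv, hz, neg_zero]

variable (x : F) (hx : Transcendental K x)

include hx in
/-- **[CONST-FF]** A function without poles is a constant. -/
theorem S58PF_const_of_no_pole [IsAlgClosed K] [FiniteDimensional K⟮x⟯ F]
    [Algebra.IsSeparable K⟮x⟯ F] [Normal K⟮x⟯ F] (f : F)
    (hf : ∀ v : Place K F, 0 ≤ v.ord f) : ∃ c : K, f = algebraMap K F c := by
  by_cases halg : IsAlgebraic K f
  · obtain ⟨a, ha⟩ := exists_algebraMap_eq_of_isAlgebraic f halg
    exact ⟨a, ha.symm⟩
  · exfalso
    have hPF : S58E1_PF K F := S58PF_abs x hx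
    haveI : FiniteDimensional K⟮f⟯ F := finiteDimensional_adjoin_of_transcendental x hx f halg
    have hint : IsIntegral K⟮f⟯ x := Algebra.IsIntegral.isIntegral x
    obtain ⟨v, hv⟩ := S58PF_exists_pole x hx
    have hmem : ∀ n, algebraMap K⟮f⟯ F ((minpoly K⟮f⟯ x).coeff n) ∈ v.toValuationSubring :=
      fun n => S58PF_adjoin_mem hPF hf ((minpoly K⟮f⟯ x).coeff n).2 v
    have hxm := S58PF_mem_of_monic v (minpoly K⟮f⟯ x) (minpoly.monic hint) x
      (minpoly.aeval _ _) hmem
    have := ord_nonneg_of_mem v hxm
    omega

end Abs

section Mult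

variable {K F : Type*} [Field K] [Field F] [Algebra K F]

/-- Constants are units at every place. -/
theorem S58PF_hconst (v : Place K F) (c : K) (hc : c ≠ 0) :
    v.adicValuation (algebraMap K F c) = 1 := by
  have h0 : algebraMap K F c ≠ 0 := by
    rw [Ne, map_eq_zero]
    exact hc
  rw [v.adicValuation_eq_exp_neg_ord h0, ord_algebraMap_eq_zero]
  simp

theorem S58PF_adic_eq_one_iff (v : Place K F) {f : F} (hf : f ≠ 0) :
    v.adicValuation f = 1 ↔ v.ord f = 0 := by
  rw [v.adicValuation_eq_exp_neg_ord hf]
  constructor
  · intro h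
    have h1 : WithZero.exp (-v.ord f) = WithZero.exp 0 := by rw [h]; simp
    have := WithZero.exp_injective h1
    omega
  · intro h
    rw [h]
    simp

theorem S58PF_log_adic (v : Place K F) (f : F) :
    WithZero.log (v.adicValuation f) = -(v.ord f) := by
  unfold Place.ord
  rw [neg_neg]

/-- The multiplicative interface of the product formula. -/
theorem S58PF_mult (hPF : S58E1_PF K F) :
    (∀ (v : Place K F) (c : K), c ≠ 0 → v.adicValuation (algebraMap K F c) = 1) ∧
    (∀ f : F, f ≠ 0 → {v : Place K F | v.adicValuation f ≠ 1}.Finite) ∧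
    (∀ f : F, f ≠ 0 → ∑ᶠ v : Place K F, WithZero.log (v.adicValuation f) = 0) := by
  refine ⟨S58PF_hconst, fun f hf => ?_, fun f hf => ?_⟩
  · refine (hPF f hf).1.subset fun v hv => ?_
    simp only [Set.mem_ofPred_eq, ne_eq, S58PF_adic_eq_one_iff v hf] at hv
    exact hv
  · have h : (fun v : Place K F => WithZero.log (v.adicValuation f))
        = fun v => -(v.ord f) := funext fun v => S58PF_log_adic v f
    rw [h, finsum_neg_distrib, (hPF f hf).2, neg_zero]

end Mult

section Ell

variable {k : Type*} [Field k] [IsAlgClosed k] (W : WeierstrassCurve k)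

/-- **The product formula on the function field of an elliptic curve** over an algebraically
closed field of any characteristic. -/
theorem S58PF_ell (hΔ : W.Δ ≠ 0) : S58E1_PF k W.toAffine.FunctionField := by
  haveI := S58FE_finite W
  haveI := S58FE_separable W hΔ
  haveI := S58FE_normal W
  exact S58PF_abs _ (S58FE_transcendental W)

/-- A function without poles on an elliptic curve is a constant. -/
theorem S58PF_ell_const (hΔ : W.Δ ≠ 0) (f : W.toAffine.FunctionField)
    (hf : ∀ v : Place k W.toAffine.FunctionField, 0 ≤ v.ord f) :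
    ∃ c : k, f = algebraMap k W.toAffine.FunctionField c := by
  haveI := S58FE_finite W
  haveI := S58FE_separable W hΔ
  haveI := S58FE_normal W
  exact S58PF_const_of_no_pole _ (S58FE_transcendental W) f hf

/-- The coordinate function `x` has a pole. -/
theorem S58PF_ell_exists_pole (hΔ : W.Δ ≠ 0) :
    ∃ v : Place k W.toAffine.FunctionField,
      v.ord (algebraMap (Polynomial k) W.toAffine.FunctionField Polynomial.X) < 0 := by
  haveI := S58FE_finite W
  haveI := S58FE_separable W hΔ
  exact S58PF_exists_pole _ (S58FE_transcendental W)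

end Ell

end Fermat.Agent.S58_helper21_PFC
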