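import Mathlib
import Fermat.Agent.S58_helper10_BIQ
import Fermat.Agent.S58_helper19_E1DEFS
import Fermat.Agent.S58_helper19_PAR
import Fermat.Agent.S58_helper1_DUP

/-!
# S58, (E1a) [A-VAL] (helper4): the local quasi-parallelogram law at one place

`v` a valuation on a field `F`, `W` a Weierstrass curve over `F` with integral coefficients and
unit discriminant (good reduction at `v`).  For `x₁ ≠ x₂` and `x₃`, `x₄` with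
`(x₃ + x₄) (x₁ - x₂)² = g₁(x₁, x₂)`, `x₃ x₄ (x₁ - x₂)² = g₂(x₁, x₂)` (the `x`-coordinates of
`P + Q`, `P - Q`, helper10's addition biquadratic):

  `max 1 (v x₃) * max 1 (v x₄) * v (x₁ - x₂) ^ 2 = max 1 (v x₁) ^ 2 * max 1 (v x₂) ^ 2`.

* `S58AV_gauss` : Gauss' lemma for `(X - x₃)(X - x₄)`;
* `S58AV_mul`   : the law above (any valuation);
* `S58AV_point` : the same for points of `W`;
* `S58AV_lamP` : the additive form at a place of the prelude, in the vocabulary of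
  helper19's `S58_helper19_E1DEFS`;
* `S58AV_main`, `S58AV_main_ord`, `S58AV_main_const` : helper19's contract `S58PAR_AVal k W`.
-/

set_option autoImplicit false
set_option linter.unusedSectionVars false
set_option linter.unusedVariables false

open Fermat.Agent.S58_helper10_BIQ

namespace Fermat.Agent.S58_helper4_AVAL

section Core

variable {F : Type*} [Field F] {Γ₀ : Type*} [LinearOrderedCommGroupWithZero Γ₀]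
  (v : Valuation F Γ₀)

/-- **Gauss' lemma** for the product of two monic linear polynomials. -/
theorem S58AV_gauss (x3 x4 : F) :
    max 1 (max (v (x3 + x4)) (v (x3 * x4))) = max 1 (v x3) * max 1 (v x4) := by
  rcases le_or_gt (v x3) 1 with h3 | h3 <;> rcases le_or_gt (v x4) 1 with h4 | h4
  · rw [max_eq_left h3, max_eq_left h4, mul_one]
    refine max_eq_left (max_le ((v.map_add _ _).trans (max_le h3 h4)) ?_)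
    rw [map_mul]
    exact (mul_le_mul' h3 h4).trans (by rw [mul_one])
  · rw [max_eq_left h3, max_eq_right h4.le, one_mul]
    have hlt : v x3 < v x4 := lt_of_le_of_lt h3 h4
    have e1 : v (x3 + x4) = v x4 := v.map_add_eq_of_lt_right hlt
    have e2 : v (x3 * x4) ≤ v x4 := by
      rw [map_mul]
      exact (mul_le_mul' h3 le_rfl).trans (by rw [one_mul])
    rw [e1, max_eq_left e2, max_eq_right h4.le]
  · rw [max_eq_right h3.le, max_eq_left h4, mul_one]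
    have hlt : v x4 < v x3 := lt_of_le_of_lt h4 h3
    have e1 : v (x3 + x4) = v x3 := v.map_add_eq_of_lt_left hlt
    have e2 : v (x3 * x4) ≤ v x3 := by
      rw [map_mul]
      exact (mul_le_mul' le_rfl h4).trans (by rw [mul_one])
    rw [e1, max_eq_left e2, max_eq_right h3.le]
  · rw [max_eq_right h3.le, max_eq_right h4.le]
    have e3 : v x3 ≤ v x3 * v x4 := by
      calc v x3 = v x3 * 1 := (mul_one _).symm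
        _ ≤ v x3 * v x4 := mul_le_mul' le_rfl h4.le
    have e4 : v x4 ≤ v x3 * v x4 := by
      calc v x4 = 1 * v x4 := (one_mul _).symm
        _ ≤ v x3 * v x4 := mul_le_mul' h3.le le_rfl
    have e1 : v (x3 + x4) ≤ v x3 * v x4 := (v.map_add _ _).trans (max_le e3 e4)
    rw [map_mul, max_eq_right e1]
    exact max_eq_right (h3.le.trans e3)


/-- integrality through the valuation ring. -/
theorem S58AV_int (e : v.integer) {z : F} (h : (e : F) = z) : v z ≤ 1 :=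
  h ▸ (v.mem_integer_iff _).1 e.2

theorem S58AV_nat (n : ℕ) : v (n : F) ≤ 1 := by
  induction n with
  | zero => simp
  | succ n ih =>
    rw [Nat.cast_succ]
    exact (v.map_add _ _).trans (max_le ih (by rw [map_one]))

theorem S58AV_lt_of_mul {a b : F} (ha : v a ≤ 1) (hb : v b < 1) : v (a * b) < 1 := by
  rw [map_mul]
  exact lt_of_le_of_lt ((mul_le_mul' ha le_rfl).trans (by rw [one_mul])) hb

theorem S58AV_lt_of_sq {a : F} (h : v (a ^ 2) < 1) : v a < 1 := by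
  by_contra hc
  rw [not_lt] at hc
  have : (1 : Γ₀) ≤ v (a ^ 2) := by
    rw [map_pow, pow_two]
    calc (1 : Γ₀) = 1 * 1 := (one_mul _).symm
      _ ≤ v a * v a := mul_le_mul' hc hc
  exact absurd h (not_lt.mpr this)

theorem S58AV_inv_lt {x : F} (h : 1 < v x) : v x⁻¹ < 1 := by
  have hx0 : v x ≠ 0 := (lt_trans zero_lt_one h).ne'
  rw [map_inv₀]
  by_contra hc
  rw [not_lt] at hc
  have : v x * 1 ≤ v x * (v x)⁻¹ := mul_le_mul' le_rfl hc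
  rw [mul_one, mul_inv_cancel₀ hx0] at this
  exact absurd h (not_lt.mpr this)

variable (W : WeierstrassCurve F)

section Int

variable (ha1 : v W.a₁ ≤ 1) (ha2 : v W.a₂ ≤ 1) (ha3 : v W.a₃ ≤ 1) (ha4 : v W.a₄ ≤ 1)
  (ha6 : v W.a₆ ≤ 1)

include ha1 ha2 ha3 ha4 ha6

theorem S58AV_b2 : v W.b₂ ≤ 1 :=
  S58AV_int v ((⟨W.a₁, ha1⟩ : v.integer) ^ 2 + (⟨W.a₂, ha2⟩ + ⟨W.a₂, ha2⟩ + ⟨W.a₂, ha2⟩
    + ⟨W.a₂, ha2⟩))
    (by simp only [WeierstrassCurve.b₂]; push_cast; ring)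

theorem S58AV_b4 : v W.b₄ ≤ 1 :=
  S58AV_int v ((⟨W.a₄, ha4⟩ : v.integer) + ⟨W.a₄, ha4⟩ + ⟨W.a₁, ha1⟩ * ⟨W.a₃, ha3⟩)
    (by simp only [WeierstrassCurve.b₄]; push_cast; ring)

theorem S58AV_b6 : v W.b₆ ≤ 1 :=
  S58AV_int v ((⟨W.a₃, ha3⟩ : v.integer) ^ 2 + (⟨W.a₆, ha6⟩ + ⟨W.a₆, ha6⟩ + ⟨W.a₆, ha6⟩
    + ⟨W.a₆, ha6⟩))
    (by simp only [WeierstrassCurve.b₆]; push_cast; ring)

theorem S58AV_b8 : v W.b₈ ≤ 1 :=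
  S58AV_int v ((⟨W.a₁, ha1⟩ : v.integer) ^ 2 * ⟨W.a₆, ha6⟩
      + (⟨W.a₂, ha2⟩ + ⟨W.a₂, ha2⟩ + ⟨W.a₂, ha2⟩ + ⟨W.a₂, ha2⟩) * ⟨W.a₆, ha6⟩
      - ⟨W.a₁, ha1⟩ * ⟨W.a₃, ha3⟩ * ⟨W.a₄, ha4⟩ + ⟨W.a₂, ha2⟩ * ⟨W.a₃, ha3⟩ ^ 2
      - ⟨W.a₄, ha4⟩ ^ 2)
    (by simp only [WeierstrassCurve.b₈]; push_cast; ring)

end Int

section Main

variable (ha1 : v W.a₁ ≤ 1) (ha2 : v W.a₂ ≤ 1) (ha3 : v W.a₃ ≤ 1) (ha4 : v W.a₄ ≤ 1)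
  (ha6 : v W.a₆ ≤ 1)

include ha1 ha2 ha3 ha4 ha6

/-- both coordinates integral: one of `g₀, g₁, g₂` is a unit (the certificate). -/
theorem S58AV_max_int (hΔ : v W.Δ = 1) {x1 x2 : F} (h1 : v x1 ≤ 1) (h2 : v x2 ≤ 1) :
    max (v ((x1 - x2) ^ 2)) (max (v (S58BQ_g1 W x1 x2)) (v (S58BQ_g2 W x1 x2))) = 1 := by
  have hb2 := S58AV_b2 v W ha1 ha2 ha3 ha4 ha6
  have hb4 := S58AV_b4 v W ha1 ha2 ha3 ha4 ha6
  have hb6 := S58AV_b6 v W ha1 ha2 ha3 ha4 ha6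
  have hb8 := S58AV_b8 v W ha1 ha2 ha3 ha4 ha6
  have u0 : v ((x1 - x2) ^ 2) ≤ 1 :=
    S58AV_int v (((⟨x1, h1⟩ : v.integer) - ⟨x2, h2⟩) ^ 2) (by push_cast; ring)
  have u1 : v (S58BQ_g1 W x1 x2) ≤ 1 :=
    S58AV_int v (((⟨x1, h1⟩ : v.integer) * ⟨x2, h2⟩ + ⟨x1, h1⟩ * ⟨x2, h2⟩)
        * (⟨x1, h1⟩ + ⟨x2, h2⟩) + ⟨W.b₂, hb2⟩ * ⟨x1, h1⟩ * ⟨x2, h2⟩
        + ⟨W.b₄, hb4⟩ * (⟨x1, h1⟩ + ⟨x2, h2⟩) + ⟨W.b₆, hb6⟩)
      (by simp only [S58BQ_g1]; push_cast; ring)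
  have u2 : v (S58BQ_g2 W x1 x2) ≤ 1 :=
    S58AV_int v ((⟨x1, h1⟩ : v.integer) ^ 2 * ⟨x2, h2⟩ ^ 2 - ⟨W.b₄, hb4⟩ * ⟨x1, h1⟩ * ⟨x2, h2⟩
        - ⟨W.b₆, hb6⟩ * (⟨x1, h1⟩ + ⟨x2, h2⟩) - ⟨W.b₈, hb8⟩)
      (by simp only [S58BQ_g2]; push_cast; ring)
  refine le_antisymm (max_le u0 (max_le u1 u2)) ?_
  by_contra hc
  rw [not_le] at hc
  have c0 : v ((x1 - x2) ^ 2) < 1 := lt_of_le_of_lt (le_max_left _ _) hc
  have c1 : v (S58BQ_g1 W x1 x2) < 1 :=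
    lt_of_le_of_lt ((le_max_left _ _).trans (le_max_right _ _)) hc
  have c2 : v (S58BQ_g2 W x1 x2) < 1 :=
    lt_of_le_of_lt ((le_max_right _ _).trans (le_max_right _ _)) hc
  have hd : v (x1 - x2) < 1 := S58AV_lt_of_sq v c0
  -- `f x1` and `g x1` are non-units
  have hc1 : v ((x1 + x1) * (x2 + x1 + x1) + W.b₂ * x1 + W.b₄) ≤ 1 :=
    S58AV_int v (((⟨x1, h1⟩ : v.integer) + ⟨x1, h1⟩) * (⟨x2, h2⟩ + ⟨x1, h1⟩ + ⟨x1, h1⟩)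
        + ⟨W.b₂, hb2⟩ * ⟨x1, h1⟩ + ⟨W.b₄, hb4⟩) (by push_cast; ring)
  have hc2 : v (x1 ^ 2 * (x1 + x2) - W.b₄ * x1 - W.b₆) ≤ 1 :=
    S58AV_int v ((⟨x1, h1⟩ : v.integer) ^ 2 * (⟨x1, h1⟩ + ⟨x2, h2⟩) - ⟨W.b₄, hb4⟩ * ⟨x1, h1⟩
        - ⟨W.b₆, hb6⟩) (by push_cast; ring)
  have ef : S58BQ_f W x1 = S58BQ_g1 W x1 x2
      + ((x1 + x1) * (x2 + x1 + x1) + W.b₂ * x1 + W.b₄) * (x1 - x2) := by
    simp only [S58BQ_f, S58BQ_g1]; ring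
  have eg : S58BQ_g W x1 = S58BQ_g2 W x1 x2
      + (x1 ^ 2 * (x1 + x2) - W.b₄ * x1 - W.b₆) * (x1 - x2) := by
    simp only [S58BQ_g, S58BQ_g2]; ring
  have hf : v (S58BQ_f W x1) < 1 := by
    rw [ef]
    exact lt_of_le_of_lt (v.map_add _ _) (max_lt c1 (S58AV_lt_of_mul v hc1 hd))
  have hg : v (S58BQ_g W x1) < 1 := by
    rw [eg]
    exact lt_of_le_of_lt (v.map_add _ _) (max_lt c2 (S58AV_lt_of_mul v hc2 hd))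
  have n12 : v (12 : F) ≤ 1 := by simpa using S58AV_nat v 12
  have n10 : v (10 : F) ≤ 1 := by simpa using S58AV_nat v 10
  have n27 : v (27 : F) ≤ 1 := by simpa using S58AV_nat v 27
  have n48 : v (48 : F) ≤ 1 := by simpa using S58AV_nat v 48
  have n8 : v (8 : F) ≤ 1 := by simpa using S58AV_nat v 8
  have n32 : v (32 : F) ≤ 1 := by simpa using S58AV_nat v 32
  have hU : v (S58BQ_U W x1) ≤ 1 :=
    S58AV_int v ((⟨12, n12⟩ : v.integer) * ⟨x1, h1⟩ ^ 3 - ⟨W.b₂, hb2⟩ * ⟨x1, h1⟩ ^ 2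
        - ⟨10, n10⟩ * ⟨W.b₄, hb4⟩ * ⟨x1, h1⟩ - ⟨27, n27⟩ * ⟨W.b₆, hb6⟩
        + ⟨W.b₂, hb2⟩ * ⟨W.b₄, hb4⟩)
      (by simp only [S58BQ_U]; push_cast; ring)
  have hV : v (S58BQ_V W x1) ≤ 1 :=
    S58AV_int v (-(⟨48, n48⟩ : v.integer) * ⟨x1, h1⟩ ^ 2
        - ⟨8, n8⟩ * ⟨W.b₂, hb2⟩ * ⟨x1, h1⟩ - ⟨32, n32⟩ * ⟨W.b₄, hb4⟩
        + ⟨W.b₂, hb2⟩ ^ 2)
      (by simp only [S58BQ_V]; push_cast; ring)
  have hΔ' : v W.Δ < 1 := by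
    rw [← S58BQ_cert W x1]
    exact lt_of_le_of_lt (v.map_add _ _)
      (max_lt (S58AV_lt_of_mul v hU hf) (S58AV_lt_of_mul v hV hg))
  rw [hΔ] at hΔ'
  exact lt_irrefl _ hΔ'

/-- a pole at `x₁`, `x₂` integral: `g₀` dominates. -/
theorem S58AV_max_pole_int {x1 x2 : F} (h1 : 1 < v x1) (h2 : v x2 ≤ 1) :
    max (v ((x1 - x2) ^ 2)) (max (v (S58BQ_g1 W x1 x2)) (v (S58BQ_g2 W x1 x2))) = v x1 ^ 2 := by
  have hb2 := S58AV_b2 v W ha1 ha2 ha3 ha4 ha6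
  have hb4 := S58AV_b4 v W ha1 ha2 ha3 ha4 ha6
  have hb6 := S58AV_b6 v W ha1 ha2 ha3 ha4 ha6
  have hb8 := S58AV_b8 v W ha1 ha2 ha3 ha4 ha6
  have hx0 : x1 ≠ 0 := by
    rintro rfl
    rw [map_zero] at h1
    exact absurd h1 (not_lt.mpr zero_le_one)
  have ht : v x1⁻¹ ≤ 1 := (S58AV_inv_lt v h1).le
  have e0 : v ((x1 - x2) ^ 2) = v x1 ^ 2 := by
    rw [map_pow]
    congr 1
    have hlt : v (-x2) < v x1 := by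
      rw [Valuation.map_neg]; exact lt_of_le_of_lt h2 h1
    rw [sub_eq_add_neg]
    exact v.map_add_eq_of_lt_left hlt
  have e1 : v (S58BQ_g1 W x1 x2) ≤ v x1 ^ 2 := by
    have key : S58BQ_g1 W x1 x2 = x1 ^ 2 * ((x2 + x2) * (1 + x2 * x1⁻¹) + W.b₂ * x2 * x1⁻¹
        + W.b₄ * (x1⁻¹ + x2 * x1⁻¹ ^ 2) + W.b₆ * x1⁻¹ ^ 2) := by
      simp only [S58BQ_g1]; field_simp; try ring
    have hi : v ((x2 + x2) * (1 + x2 * x1⁻¹) + W.b₂ * x2 * x1⁻¹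
        + W.b₄ * (x1⁻¹ + x2 * x1⁻¹ ^ 2) + W.b₆ * x1⁻¹ ^ 2) ≤ 1 :=
      S58AV_int v (((⟨x2, h2⟩ : v.integer) + ⟨x2, h2⟩) * (1 + ⟨x2, h2⟩ * ⟨x1⁻¹, ht⟩)
        + ⟨W.b₂, hb2⟩ * ⟨x2, h2⟩ * ⟨x1⁻¹, ht⟩
        + ⟨W.b₄, hb4⟩ * (⟨x1⁻¹, ht⟩ + ⟨x2, h2⟩ * ⟨x1⁻¹, ht⟩ ^ 2) + ⟨W.b₆, hb6⟩ * ⟨x1⁻¹, ht⟩ ^ 2)
        (by push_cast; ring)
    rw [key, map_mul, map_pow]
    exact (mul_le_mul' le_rfl hi).trans (by rw [mul_one])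
  have e2 : v (S58BQ_g2 W x1 x2) ≤ v x1 ^ 2 := by
    have key : S58BQ_g2 W x1 x2 = x1 ^ 2 * (x2 ^ 2 - W.b₄ * x2 * x1⁻¹
        - W.b₆ * (x1⁻¹ + x2 * x1⁻¹ ^ 2) - W.b₈ * x1⁻¹ ^ 2) := by
      simp only [S58BQ_g2]; field_simp; try ring
    have hi : v (x2 ^ 2 - W.b₄ * x2 * x1⁻¹
        - W.b₆ * (x1⁻¹ + x2 * x1⁻¹ ^ 2) - W.b₈ * x1⁻¹ ^ 2) ≤ 1 :=
      S58AV_int v ((⟨x2, h2⟩ : v.integer) ^ 2 - ⟨W.b₄, hb4⟩ * ⟨x2, h2⟩ * ⟨x1⁻¹, ht⟩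
        - ⟨W.b₆, hb6⟩ * (⟨x1⁻¹, ht⟩ + ⟨x2, h2⟩ * ⟨x1⁻¹, ht⟩ ^ 2) - ⟨W.b₈, hb8⟩ * ⟨x1⁻¹, ht⟩ ^ 2)
        (by push_cast; ring)
    rw [key, map_mul, map_pow]
    exact (mul_le_mul' le_rfl hi).trans (by rw [mul_one])
  rw [e0]
  exact max_eq_left (max_le e1 e2)

/-- two poles: `g₂` dominates. -/
theorem S58AV_max_pole_pole {x1 x2 : F} (h1 : 1 < v x1) (h2 : 1 < v x2) :
    max (v ((x1 - x2) ^ 2)) (max (v (S58BQ_g1 W x1 x2)) (v (S58BQ_g2 W x1 x2))) =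
      v x1 ^ 2 * v x2 ^ 2 := by
  have hb2 := S58AV_b2 v W ha1 ha2 ha3 ha4 ha6
  have hb4 := S58AV_b4 v W ha1 ha2 ha3 ha4 ha6
  have hb6 := S58AV_b6 v W ha1 ha2 ha3 ha4 ha6
  have hb8 := S58AV_b8 v W ha1 ha2 ha3 ha4 ha6
  have hx1 : x1 ≠ 0 := by
    rintro rfl
    rw [map_zero] at h1
    exact absurd h1 (not_lt.mpr zero_le_one)
  have hx2 : x2 ≠ 0 := by
    rintro rfl
    rw [map_zero] at h2
    exact absurd h2 (not_lt.mpr zero_le_one)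
  have ht1' : v x1⁻¹ < 1 := S58AV_inv_lt v h1
  have ht1 : v x1⁻¹ ≤ 1 := ht1'.le
  have ht2 : v x2⁻¹ ≤ 1 := (S58AV_inv_lt v h2).le
  have e0 : v ((x1 - x2) ^ 2) ≤ v x1 ^ 2 * v x2 ^ 2 := by
    have key : (x1 - x2) ^ 2 = x1 ^ 2 * x2 ^ 2 * (x2⁻¹ - x1⁻¹) ^ 2 := by
      field_simp
    have hi : v ((x2⁻¹ - x1⁻¹) ^ 2) ≤ 1 :=
      S58AV_int v (((⟨x2⁻¹, ht2⟩ : v.integer) - ⟨x1⁻¹, ht1⟩) ^ 2) (by push_cast; ring)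
    rw [key, map_mul, map_mul, map_pow, map_pow]
    exact (mul_le_mul' le_rfl hi).trans (by rw [mul_one])
  have e1 : v (S58BQ_g1 W x1 x2) ≤ v x1 ^ 2 * v x2 ^ 2 := by
    have key : S58BQ_g1 W x1 x2 = x1 ^ 2 * x2 ^ 2 * ((x1⁻¹ + x2⁻¹) + (x1⁻¹ + x2⁻¹)
        + W.b₂ * x1⁻¹ * x2⁻¹ + W.b₄ * (x1⁻¹ * x2⁻¹ ^ 2 + x1⁻¹ ^ 2 * x2⁻¹)
        + W.b₆ * x1⁻¹ ^ 2 * x2⁻¹ ^ 2) := by
      simp only [S58BQ_g1]; field_simp; try ring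
    have hi : v ((x1⁻¹ + x2⁻¹) + (x1⁻¹ + x2⁻¹)
        + W.b₂ * x1⁻¹ * x2⁻¹ + W.b₄ * (x1⁻¹ * x2⁻¹ ^ 2 + x1⁻¹ ^ 2 * x2⁻¹)
        + W.b₆ * x1⁻¹ ^ 2 * x2⁻¹ ^ 2) ≤ 1 :=
      S58AV_int v (((⟨x1⁻¹, ht1⟩ : v.integer) + ⟨x2⁻¹, ht2⟩) + (⟨x1⁻¹, ht1⟩ + ⟨x2⁻¹, ht2⟩)
        + ⟨W.b₂, hb2⟩ * ⟨x1⁻¹, ht1⟩ * ⟨x2⁻¹, ht2⟩
        + ⟨W.b₄, hb4⟩ * (⟨x1⁻¹, ht1⟩ * ⟨x2⁻¹, ht2⟩ ^ 2 + ⟨x1⁻¹, ht1⟩ ^ 2 * ⟨x2⁻¹, ht2⟩)
        + ⟨W.b₆, hb6⟩ * ⟨x1⁻¹, ht1⟩ ^ 2 * ⟨x2⁻¹, ht2⟩ ^ 2)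
        (by push_cast; ring)
    rw [key, map_mul, map_mul, map_pow, map_pow]
    exact (mul_le_mul' le_rfl hi).trans (by rw [mul_one])
  have e2 : v (S58BQ_g2 W x1 x2) = v x1 ^ 2 * v x2 ^ 2 := by
    have key : S58BQ_g2 W x1 x2 = x1 ^ 2 * x2 ^ 2 * (1 + -((W.b₄ * x2⁻¹
        + W.b₆ * (x2⁻¹ ^ 2 + x1⁻¹ * x2⁻¹) + W.b₈ * x1⁻¹ * x2⁻¹ ^ 2) * x1⁻¹)) := by
      simp only [S58BQ_g2]; field_simp; try ring
    have hi : v (W.b₄ * x2⁻¹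
        + W.b₆ * (x2⁻¹ ^ 2 + x1⁻¹ * x2⁻¹) + W.b₈ * x1⁻¹ * x2⁻¹ ^ 2) ≤ 1 :=
      S58AV_int v ((⟨W.b₄, hb4⟩ : v.integer) * ⟨x2⁻¹, ht2⟩
        + ⟨W.b₆, hb6⟩ * (⟨x2⁻¹, ht2⟩ ^ 2 + ⟨x1⁻¹, ht1⟩ * ⟨x2⁻¹, ht2⟩)
        + ⟨W.b₈, hb8⟩ * ⟨x1⁻¹, ht1⟩ * ⟨x2⁻¹, ht2⟩ ^ 2)
        (by push_cast; ring)
    have hm : v (-((W.b₄ * x2⁻¹
        + W.b₆ * (x2⁻¹ ^ 2 + x1⁻¹ * x2⁻¹) + W.b₈ * x1⁻¹ * x2⁻¹ ^ 2) * x1⁻¹)) < v (1 : F) := by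
      rw [Valuation.map_neg, map_one]
      exact S58AV_lt_of_mul v hi ht1'
    have hone : v (1 + -((W.b₄ * x2⁻¹
        + W.b₆ * (x2⁻¹ ^ 2 + x1⁻¹ * x2⁻¹) + W.b₈ * x1⁻¹ * x2⁻¹ ^ 2) * x1⁻¹)) = 1 := by
      rw [v.map_add_eq_of_lt_left hm, map_one]
    rw [key, map_mul, map_mul, map_pow, map_pow, hone, mul_one]
  rw [e2]
  exact le_antisymm (max_le e0 (max_le e1 le_rfl)) ((le_max_right _ _).trans (le_max_right _ _))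

/-- **the maximum of the three forms of the addition biquadratic.** -/
theorem S58AV_max (hΔ : v W.Δ = 1) (x1 x2 : F) :
    max (v ((x1 - x2) ^ 2)) (max (v (S58BQ_g1 W x1 x2)) (v (S58BQ_g2 W x1 x2))) =
      max 1 (v x1) ^ 2 * max 1 (v x2) ^ 2 := by
  rcases le_or_gt (v x1) 1 with h1 | h1 <;> rcases le_or_gt (v x2) 1 with h2 | h2
  · rw [max_eq_left h1, max_eq_left h2, one_pow, mul_one]
    exact S58AV_max_int v W ha1 ha2 ha3 ha4 ha6 hΔ h1 h2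
  · rw [max_eq_left h1, max_eq_right h2.le, one_pow, one_mul,
      show (x1 - x2) ^ 2 = (x2 - x1) ^ 2 by ring, S58BQ_g1_symm, S58BQ_g2_symm]
    exact S58AV_max_pole_int v W ha1 ha2 ha3 ha4 ha6 h2 h1
  · rw [max_eq_right h1.le, max_eq_left h2, one_pow, mul_one]
    exact S58AV_max_pole_int v W ha1 ha2 ha3 ha4 ha6 h1 h2
  · rw [max_eq_right h1.le, max_eq_right h2.le]
    exact S58AV_max_pole_pole v W ha1 ha2 ha3 ha4 ha6 h1 h2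

/-- **[A-VAL], multiplicative form.** -/
theorem S58AV_mul (hΔ : v W.Δ = 1) {x1 x2 x3 x4 : F}
    (hs : (x3 + x4) * (x1 - x2) ^ 2 = S58BQ_g1 W x1 x2)
    (hp : x3 * x4 * (x1 - x2) ^ 2 = S58BQ_g2 W x1 x2) :
    max 1 (v x3) * max 1 (v x4) * v (x1 - x2) ^ 2 =
      max 1 (v x1) ^ 2 * max 1 (v x2) ^ 2 := by
  have e : max 1 (v x3) * max 1 (v x4) * v (x1 - x2) ^ 2 =
      max (v ((x1 - x2) ^ 2)) (max (v (S58BQ_g1 W x1 x2)) (v (S58BQ_g2 W x1 x2))) := by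
    rw [← S58AV_gauss, ← hs, ← hp, ← max_mul_mul_right, ← max_mul_mul_right, one_mul]
    simp only [map_mul, map_pow]
  rw [e, S58AV_max v W ha1 ha2 ha3 ha4 ha6 hΔ x1 x2]

end Main

end Core

section PointVal

variable {F : Type*} [Field F] [DecidableEq F] {Γ₀ : Type*} [LinearOrderedCommGroupWithZero Γ₀]
  (v : Valuation F Γ₀) (W : WeierstrassCurve F)

open WeierstrassCurve.Affine

/-- **[A-VAL] for points**, multiplicative form, any valuation. -/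
theorem S58AV_point (ha1 : v W.a₁ ≤ 1) (ha2 : v W.a₂ ≤ 1) (ha3 : v W.a₃ ≤ 1) (ha4 : v W.a₄ ≤ 1)
    (ha6 : v W.a₆ ≤ 1) (hΔ : v W.Δ = 1) {x₁ y₁ x₂ y₂ : F}
    (h₁ : W.toAffine.Nonsingular x₁ y₁) (h₂ : W.toAffine.Nonsingular x₂ y₂) (hx : x₁ ≠ x₂) :
    ∃ x₃ y₃ x₄ y₄ : F, ∃ (h₃ : W.toAffine.Nonsingular x₃ y₃) (h₄ : W.toAffine.Nonsingular x₄ y₄),
      Point.some _ _ h₁ + Point.some _ _ h₂ = Point.some _ _ h₃ ∧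
      Point.some _ _ h₁ - Point.some _ _ h₂ = Point.some _ _ h₄ ∧
      max 1 (v x₃) * max 1 (v x₄) * v (x₁ - x₂) ^ 2 = max 1 (v x₁) ^ 2 * max 1 (v x₂) ^ 2 := by
  obtain ⟨x₃, y₃, x₄, y₄, h₃, h₄, e₃, e₄, hs, hp⟩ := S58BQ_point_add_sub W h₁ h₂ hx
  exact ⟨x₃, y₃, x₄, y₄, h₃, h₄, e₃, e₄, S58AV_mul v W ha1 ha2 ha3 ha4 ha6 hΔ hs hp⟩

end PointVal

section Place

variable {k : Type*} {F : Type*} [Field k] [Field F] [Algebra k F] [DecidableEq F]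

open AlgebraicCurve WeierstrassCurve.Affine Fermat.Agent.S58_helper19_E1DEFS
  Fermat.Agent.S58_helper19_PAR Fermat.Agent.S58_helper1_DUP

/-- **[A-VAL] in helper19's vocabulary (valuation hypotheses).** -/
theorem S58AV_lamP (W : WeierstrassCurve.Affine F) (v : Place k F)
    (hW : S58DUP_Int v.adicValuation W) (hΔ : v.adicValuation W.Δ = 1)
    {x₁ y₁ x₂ y₂ : F} (h₁ : W.Nonsingular x₁ y₁) (h₂ : W.Nonsingular x₂ y₂) (hx : x₁ ≠ x₂) :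
    S58E1_lamP k W v (Point.some x₁ y₁ h₁ + Point.some x₂ y₂ h₂)
      + S58E1_lamP k W v (Point.some x₁ y₁ h₁ - Point.some x₂ y₂ h₂)
      = 2 * S58E1_lam k v x₁ + 2 * S58E1_lam k v x₂ + 2 * v.ord (x₁ - x₂) := by
  obtain ⟨x₃, y₃, x₄, y₄, h₃, h₄, e₃, e₄, hmul⟩ :=
    S58AV_point v.adicValuation W hW.1 hW.2.1 hW.2.2.1 hW.2.2.2.1 hW.2.2.2.2 hΔ h₁ h₂ hx
  rw [e₃, e₄, S58E1_lamP_some, S58E1_lamP_some, S58DUP_lam_eq_log v x₃, S58DUP_lam_eq_log v x₄,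
    S58DUP_lam_eq_log v x₁, S58DUP_lam_eq_log v x₂]
  have hm : ∀ u : F, max 1 (v.adicValuation u) ≠ 0 := fun u =>
    ne_of_gt (lt_of_lt_of_le zero_lt_one (le_max_left _ _))
  have hne : v.adicValuation (x₁ - x₂) ≠ 0 := v.adicValuation_ne_zero (sub_ne_zero.mpr hx)
  have hl := congrArg WithZero.log hmul
  rw [WithZero.log_mul (mul_ne_zero (hm x₃) (hm x₄)) (pow_ne_zero 2 hne),
    WithZero.log_mul (hm x₃) (hm x₄), WithZero.log_pow,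
    WithZero.log_mul (pow_ne_zero 2 (hm x₁)) (pow_ne_zero 2 (hm x₂)), WithZero.log_pow,
    WithZero.log_pow] at hl
  unfold Place.ord
  simp only [nsmul_eq_mul] at hl
  push_cast at hl
  linarith

/-- membership in the valuation ring of a place is `v ≤ 1`. -/
theorem S58AV_mem_le_one (v : Place k F) {a : F} (ha : a ∈ v.toValuationSubring) :
    v.adicValuation a ≤ 1 := by
  have h := v.adicValuation_coe ⟨a, ha⟩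
  rw [h]
  exact IsDedekindDomain.HeightOneSpectrum.intValuation_le_one _ _

/-- **[A-VAL] = helper19's contract `S58PAR_AVal k W`**, from integrality of the coefficients at
every place and `ord_v Δ = 0`. -/
theorem S58AV_main (W : WeierstrassCurve.Affine F)
    (hc : ∀ v : Place k F, W.a₁ ∈ v.toValuationSubring ∧ W.a₂ ∈ v.toValuationSubring ∧
      W.a₃ ∈ v.toValuationSubring ∧ W.a₄ ∈ v.toValuationSubring ∧ W.a₆ ∈ v.toValuationSubring)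
    (hΔ : ∀ v : Place k F, v.ord W.Δ = 0) (hΔ0 : W.Δ ≠ 0) : S58PAR_AVal k W := by
  intro v x₁ y₁ x₂ y₂ h₁ h₂ hx
  obtain ⟨c1, c2, c3, c4, c6⟩ := hc v
  exact S58AV_lamP W v
    ⟨S58AV_mem_le_one v c1, S58AV_mem_le_one v c2, S58AV_mem_le_one v c3,
      S58AV_mem_le_one v c4, S58AV_mem_le_one v c6⟩
    ((S58DUP_eq_one_iff_ord v hΔ0).mpr (hΔ v)) h₁ h₂ hx

/-- **[A-VAL]** with `ord` hypotheses. -/
theorem S58AV_main_ord (W : WeierstrassCurve.Affine F)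
    (h₁ : ∀ v : Place k F, 0 ≤ v.ord W.a₁) (h₂ : ∀ v : Place k F, 0 ≤ v.ord W.a₂)
    (h₃ : ∀ v : Place k F, 0 ≤ v.ord W.a₃) (h₄ : ∀ v : Place k F, 0 ≤ v.ord W.a₄)
    (h₆ : ∀ v : Place k F, 0 ≤ v.ord W.a₆)
    (hΔ : ∀ v : Place k F, v.ord W.Δ = 0) (hΔ0 : W.Δ ≠ 0) : S58PAR_AVal k W := by
  intro v x₁ y₁ x₂ y₂ g₁ g₂ hx
  exact S58AV_lamP W v
    ⟨(S58DUP_le_one_iff_ord v _).mpr (h₁ v), (S58DUP_le_one_iff_ord v _).mpr (h₂ v),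
      (S58DUP_le_one_iff_ord v _).mpr (h₃ v), (S58DUP_le_one_iff_ord v _).mpr (h₄ v),
      (S58DUP_le_one_iff_ord v _).mpr (h₆ v)⟩
    ((S58DUP_eq_one_iff_ord v hΔ0).mpr (hΔ v)) g₁ g₂ hx

/-- **[A-VAL] for a curve defined over the constant field**: no hypothesis at the places. -/
theorem S58AV_main_const (W0 : WeierstrassCurve k) (hΔ : W0.Δ ≠ 0) :
    S58PAR_AVal k (F := F) (W0.map (algebraMap k F)).toAffine := by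
  intro v x₁ y₁ x₂ y₂ g₁ g₂ hx
  exact S58AV_lamP _ v (S58DUP_Int_const W0 v) (S58DUP_Δ_const W0 hΔ v) g₁ g₂ hx

end Place

end Fermat.Agent.S58_helper4_AVAL
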