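import Mathlib
import Fermat.Agent.S05_helper6_Kernel

/-!
# S58 (E1b) / [SPEC] (helper6): the reduction map of a Weierstrass curve at a valuation subring

`K` a field, `A` a valuation subring, `ρ : A →+* k` a ring homomorphism to a field with kernel
the maximal ideal of `A`, `W` a Weierstrass curve over `K` with coefficients in `A`, `W0` the
curve over `k` with the reduced coefficients, `W0.Δ ≠ 0`.  Then

* `S58RH_red`  : the reduction map `W(K) → W0(k)` (affine points with `x ∈ A` reduce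
  coordinatewise, the others go to `0`);
* `S58RH_red_add` : it is additive;
* `S58RH_main` : the packaged statement, with the kernel `{x ∉ A}` and injectivity on the
  `n`-torsion for `n` a unit of `A`.
-/

set_option autoImplicit false
set_option linter.unusedSectionVars false
set_option linter.unusedVariables false
set_option linter.style.haveILetI false
set_option maxHeartbeats 1600000

open WeierstrassCurve WeierstrassCurve.Affine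

noncomputable section

namespace Fermat.Agent.S58_helper6_REDHOM

variable {K : Type*} [Field K] (A : ValuationSubring K) {k : Type*} [Field k] (ρ : A →+* k)

/-! ### The reduction relation -/

/-- `a ∈ A` reduces to `b`. -/
def S58RH_Red (a : K) (b : k) : Prop := ∃ h : a ∈ A, ρ ⟨a, h⟩ = b

variable {A ρ}

theorem S58RH_Red.mem {a : K} {b : k} (h : S58RH_Red A ρ a b) : a ∈ A := h.1

theorem S58RH_Red.unique {a : K} {b b' : k} (h : S58RH_Red A ρ a b) (h' : S58RH_Red A ρ a b') :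
    b = b' := by
  obtain ⟨h1, rfl⟩ := h
  obtain ⟨h2, rfl⟩ := h'
  rfl

theorem S58RH_Red.of_mem {a : K} (h : a ∈ A) : S58RH_Red A ρ a (ρ ⟨a, h⟩) := ⟨h, rfl⟩

theorem S58RH_Red.congr {a a' : K} {b b' : k} (h : S58RH_Red A ρ a b) (ha : a = a')
    (hb : b = b') : S58RH_Red A ρ a' b' := by
  subst ha; subst hb; exact h

theorem S58RH_Red.zero : S58RH_Red A ρ 0 0 := ⟨A.zero_mem, map_zero ρ⟩

theorem S58RH_Red.one : S58RH_Red A ρ 1 1 := ⟨A.one_mem, map_one ρ⟩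

theorem S58RH_Red.add {a a' : K} {b b' : k} (h : S58RH_Red A ρ a b) (h' : S58RH_Red A ρ a' b') :
    S58RH_Red A ρ (a + a') (b + b') := by
  obtain ⟨h1, rfl⟩ := h
  obtain ⟨h2, rfl⟩ := h'
  exact ⟨A.add_mem _ _ h1 h2, map_add ρ ⟨a, h1⟩ ⟨a', h2⟩⟩

theorem S58RH_Red.mul {a a' : K} {b b' : k} (h : S58RH_Red A ρ a b) (h' : S58RH_Red A ρ a' b') :
    S58RH_Red A ρ (a * a') (b * b') := by
  obtain ⟨h1, rfl⟩ := h
  obtain ⟨h2, rfl⟩ := h'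
  exact ⟨A.mul_mem _ _ h1 h2, map_mul ρ ⟨a, h1⟩ ⟨a', h2⟩⟩

theorem S58RH_Red.neg {a : K} {b : k} (h : S58RH_Red A ρ a b) : S58RH_Red A ρ (-a) (-b) := by
  obtain ⟨h1, rfl⟩ := h
  exact ⟨A.neg_mem _ h1, map_neg ρ ⟨a, h1⟩⟩

theorem S58RH_Red.sub {a a' : K} {b b' : k} (h : S58RH_Red A ρ a b) (h' : S58RH_Red A ρ a' b') :
    S58RH_Red A ρ (a - a') (b - b') := by
  rw [sub_eq_add_neg, sub_eq_add_neg]
  exact h.add h'.neg

theorem S58RH_Red.pow {a : K} {b : k} (h : S58RH_Red A ρ a b) (n : ℕ) :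
    S58RH_Red A ρ (a ^ n) (b ^ n) := by
  induction n with
  | zero => simpa using S58RH_Red.one
  | succ n ih => rw [pow_succ, pow_succ]; exact ih.mul h

theorem S58RH_Red.two : S58RH_Red A ρ 2 2 := by
  have := (S58RH_Red.one (A := A) (ρ := ρ)).add S58RH_Red.one
  exact this.congr (by norm_num) (by norm_num)

theorem S58RH_Red.three : S58RH_Red A ρ 3 3 := by
  have := (S58RH_Red.two (A := A) (ρ := ρ)).add S58RH_Red.one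
  exact this.congr (by norm_num) (by norm_num)

section Local

variable (hρ : ∀ a : A, ρ a = 0 ↔ a ∈ IsLocalRing.maximalIdeal A)
include hρ

theorem S58RH_Red.inv {a : K} {b : k} (h : S58RH_Red A ρ a b) (hb : b ≠ 0) :
    S58RH_Red A ρ a⁻¹ b⁻¹ := by
  obtain ⟨h1, rfl⟩ := h
  have hu : IsUnit (⟨a, h1⟩ : A) := by
    rw [← IsLocalRing.notMem_maximalIdeal, ← hρ]
    exact hb
  obtain ⟨u, hu⟩ := hu
  have e1 : ((u⁻¹ : Aˣ) : A) * ⟨a, h1⟩ = 1 := by rw [← hu]; exact Units.inv_mul u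
  have e2 : (((u⁻¹ : Aˣ) : A) : K) * a = 1 := by
    have := congrArg (fun t : A => (t : K)) e1
    simpa using this
  have ha0 : a ≠ 0 := by
    rintro rfl
    simp at e2
  have e3 : a⁻¹ = (((u⁻¹ : Aˣ) : A) : K) := by
    field_simp
    rw [mul_comm]; exact e2.symm
  refine ⟨e3 ▸ ((u⁻¹ : Aˣ) : A).2, ?_⟩
  have e4 : (⟨a⁻¹, e3 ▸ ((u⁻¹ : Aˣ) : A).2⟩ : A) = ((u⁻¹ : Aˣ) : A) := Subtype.ext e3
  rw [e4]
  have e5 : ρ ((u⁻¹ : Aˣ) : A) * ρ ⟨a, h1⟩ = 1 := by rw [← map_mul, e1, map_one]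
  exact eq_inv_of_mul_eq_one_left e5

theorem S58RH_Red.div {a a' : K} {b b' : k} (h : S58RH_Red A ρ a b) (h' : S58RH_Red A ρ a' b')
    (hb : b' ≠ 0) : S58RH_Red A ρ (a / a') (b / b') := by
  rw [div_eq_mul_inv, div_eq_mul_inv]
  exact h.mul (h'.inv hρ hb)

/-- if `t * d = n` with `d` reducing to `0` and `n` reducing to a nonzero element then
`t ∉ A` -/
theorem S58RH_not_mem_of_mul {t d n : K} {nb : k} (hd : S58RH_Red A ρ d 0)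
    (hn : S58RH_Red A ρ n nb) (hnb : nb ≠ 0) (h : t * d = n) : t ∉ A := by
  intro ht
  have := (S58RH_Red.of_mem (ρ := ρ) ht).mul hd
  rw [h, mul_zero] at this
  exact hnb (hn.unique this)

end Local

/-- integrality: a root of a monic quadratic over `A` lies in `A` -/
theorem S58RH_mem_of_quadratic {t b c : K} (hb : b ∈ A) (hc : c ∈ A) (h : t ^ 2 + b * t = c) :
    t ∈ A := by
  by_cases ht0 : t = 0
  · rw [ht0]; exact A.zero_mem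
  rcases A.mem_or_inv_mem t with ht | ht
  · exact ht
  · have e : t = c * t⁻¹ - b := by
      field_simp
      linear_combination h
    rw [e]
    exact sub_mem (A.mul_mem _ _ hc ht) hb

/-! ### Reduction of the equation and of the chord / tangent formulas -/

section Curve

variable [DecidableEq K] [DecidableEq k]
  (hρ : ∀ a : A, ρ a = 0 ↔ a ∈ IsLocalRing.maximalIdeal A)
  {W : WeierstrassCurve.Affine K} {W0 : WeierstrassCurve.Affine k}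
  (h₁ : S58RH_Red A ρ W.a₁ W0.a₁) (h₂ : S58RH_Red A ρ W.a₂ W0.a₂)
  (h₃ : S58RH_Red A ρ W.a₃ W0.a₃) (h₄ : S58RH_Red A ρ W.a₄ W0.a₄)
  (h₆ : S58RH_Red A ρ W.a₆ W0.a₆)

include h₁ h₂ h₃ h₄ h₆

/-- `x ∈ A ⟹ y ∈ A` on the curve -/
theorem S58RH_mem_y {x y : K} (e : W.Equation x y) (hx : x ∈ A) : y ∈ A := by
  rw [equation_iff] at e
  refine S58RH_mem_of_quadratic (b := W.a₁ * x + W.a₃)
    (c := x ^ 3 + W.a₂ * x ^ 2 + W.a₄ * x + W.a₆) ?_ ?_ ?_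
  · exact A.add_mem _ _ (A.mul_mem _ _ h₁.mem hx) h₃.mem
  · exact A.add_mem _ _ (A.add_mem _ _ (A.add_mem _ _ (pow_mem hx 3)
      (A.mul_mem _ _ h₂.mem (pow_mem hx 2))) (A.mul_mem _ _ h₄.mem hx)) h₆.mem
  · linear_combination e

/-- the reduced point lies on the reduced curve -/
theorem S58RH_equation {x y : K} {X Y : k} (e : W.Equation x y) (rx : S58RH_Red A ρ x X)
    (ry : S58RH_Red A ρ y Y) : W0.Equation X Y := by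
  rw [equation_iff] at e ⊢
  have hL : S58RH_Red A ρ (y ^ 2 + W.a₁ * x * y + W.a₃ * y) (Y ^ 2 + W0.a₁ * X * Y + W0.a₃ * Y) :=
    ((ry.pow 2).add ((h₁.mul rx).mul ry)).add (h₃.mul ry)
  have hR : S58RH_Red A ρ (x ^ 3 + W.a₂ * x ^ 2 + W.a₄ * x + W.a₆)
      (X ^ 3 + W0.a₂ * X ^ 2 + W0.a₄ * X + W0.a₆) :=
    (((rx.pow 3).add (h₂.mul (rx.pow 2))).add (h₄.mul rx)).add h₆
  exact hL.unique (hR.congr e.symm rfl)

theorem S58RH_negY {x y : K} {X Y : k} (rx : S58RH_Red A ρ x X) (ry : S58RH_Red A ρ y Y) :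
    S58RH_Red A ρ (W.negY x y) (W0.negY X Y) := by
  simp only [negY]
  exact (ry.neg.sub (h₁.mul rx)).sub h₃

theorem S58RH_addX {x₁ x₂ l : K} {X₁ X₂ L : k} (rx₁ : S58RH_Red A ρ x₁ X₁)
    (rx₂ : S58RH_Red A ρ x₂ X₂) (rl : S58RH_Red A ρ l L) :
    S58RH_Red A ρ (W.addX x₁ x₂ l) (W0.addX X₁ X₂ L) := by
  simp only [addX]
  exact ((((rl.pow 2).add (h₁.mul rl)).sub h₂).sub rx₁).sub rx₂

theorem S58RH_addY {x₁ x₂ y₁ l : K} {X₁ X₂ Y₁ L : k} (rx₁ : S58RH_Red A ρ x₁ X₁)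
    (rx₂ : S58RH_Red A ρ x₂ X₂) (ry₁ : S58RH_Red A ρ y₁ Y₁) (rl : S58RH_Red A ρ l L) :
    S58RH_Red A ρ (W.addY x₁ x₂ y₁ l) (W0.addY X₁ X₂ Y₁ L) := by
  unfold addY
  refine S58RH_negY h₁ h₂ h₃ h₄ h₆ (S58RH_addX h₁ h₂ h₃ h₄ h₆ rx₁ rx₂ rl) ?_
  simp only [negAddY]
  exact (rl.mul ((S58RH_addX h₁ h₂ h₃ h₄ h₆ rx₁ rx₂ rl).sub rx₁)).add ry₁

/-- the chord identity `(y₁ - y₂) * D = (x₁ - x₂) * N` -/
theorem S58RH_chord_id {x₁ y₁ x₂ y₂ : K} (e₁ : W.Equation x₁ y₁) (e₂ : W.Equation x₂ y₂) :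
    (y₁ - y₂) * (y₁ - W.negY x₂ y₂) =
      (x₁ - x₂) * (x₁ ^ 2 + x₁ * x₂ + x₂ ^ 2 + W.a₂ * (x₁ + x₂) + W.a₄ - W.a₁ * y₁) := by
  rw [equation_iff] at e₁ e₂
  simp only [negY]
  linear_combination e₁ - e₂

/-- `x(P + Q) ∉ A` if the slope is not in `A` -/
theorem S58RH_addX_not_mem {x₁ x₂ l : K} (hx₁ : x₁ ∈ A) (hx₂ : x₂ ∈ A) (hl : l ∉ A) :
    W.addX x₁ x₂ l ∉ A := by
  intro h
  refine hl (S58RH_mem_of_quadratic (b := W.a₁) (c := W.addX x₁ x₂ l + W.a₂ + x₁ + x₂) h₁.mem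
    (A.add_mem _ _ (A.add_mem _ _ (A.add_mem _ _ h h₂.mem) hx₁) hx₂) ?_)
  simp only [addX]
  ring

include hρ

/-- **the slope reduces to the slope** when the reductions are not opposite -/
theorem S58RH_slope {x₁ y₁ x₂ y₂ : K} {X₁ Y₁ X₂ Y₂ : k} (e₁ : W.Equation x₁ y₁)
    (e₂ : W.Equation x₂ y₂) (rx₁ : S58RH_Red A ρ x₁ X₁) (ry₁ : S58RH_Red A ρ y₁ Y₁)
    (rx₂ : S58RH_Red A ρ x₂ X₂) (ry₂ : S58RH_Red A ρ y₂ Y₂)
    (hxy0 : ¬(X₁ = X₂ ∧ Y₁ = W0.negY X₂ Y₂)) :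
    S58RH_Red A ρ (W.slope x₁ x₂ y₁ y₂) (W0.slope X₁ X₂ Y₁ Y₂) := by
  have E₁ := S58RH_equation h₁ h₂ h₃ h₄ h₆ e₁ rx₁ ry₁
  have E₂ := S58RH_equation h₁ h₂ h₃ h₄ h₆ e₂ rx₂ ry₂
  by_cases hX : X₁ = X₂
  · -- same reduced abscissa: the reductions are equal and not 2-torsion
    have hY : Y₁ ≠ W0.negY X₂ Y₂ := fun h => hxy0 ⟨hX, h⟩
    have hYY : Y₁ = Y₂ := Y_eq_of_Y_ne E₁ E₂ hX hY
    rw [slope_of_Y_ne hX hY]
    have hD0 : Y₁ - W0.negY X₁ Y₁ ≠ 0 := by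
      rw [sub_ne_zero]
      intro h
      apply hY
      rw [← hX, ← hYY]
      exact h
    have rN : S58RH_Red A ρ (3 * x₁ ^ 2 + 2 * W.a₂ * x₁ + W.a₄ - W.a₁ * y₁)
        (3 * X₁ ^ 2 + 2 * W0.a₂ * X₁ + W0.a₄ - W0.a₁ * Y₁) :=
      (((S58RH_Red.three.mul (rx₁.pow 2)).add ((S58RH_Red.two.mul h₂).mul rx₁)).add h₄).sub
        (h₁.mul ry₁)
    by_cases hx : x₁ = x₂
    · have hy : y₁ ≠ W.negY x₂ y₂ := by
        intro h
        apply hY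
        have := S58RH_negY h₁ h₂ h₃ h₄ h₆ rx₂ ry₂
        exact ry₁.unique (this.congr h.symm rfl)
      rw [slope_of_Y_ne hx hy]
      exact rN.div hρ (ry₁.sub (S58RH_negY h₁ h₂ h₃ h₄ h₆ rx₁ ry₁)) hD0
    · rw [slope_of_X_ne hx]
      have hid := S58RH_chord_id h₁ h₂ h₃ h₄ h₆ e₁ e₂
      have rD : S58RH_Red A ρ (y₁ - W.negY x₂ y₂) (Y₁ - W0.negY X₁ Y₁) := by
        have := ry₁.sub (S58RH_negY h₁ h₂ h₃ h₄ h₆ rx₂ ry₂)
        exact this.congr rfl (by rw [← hX, ← hYY])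
      have rN' : S58RH_Red A ρ
          (x₁ ^ 2 + x₁ * x₂ + x₂ ^ 2 + W.a₂ * (x₁ + x₂) + W.a₄ - W.a₁ * y₁)
          (3 * X₁ ^ 2 + 2 * W0.a₂ * X₁ + W0.a₄ - W0.a₁ * Y₁) := by
        have := ((((rx₁.pow 2).add (rx₁.mul rx₂)).add (rx₂.pow 2)).add
          (h₂.mul (rx₁.add rx₂))).add h₄ |>.sub (h₁.mul ry₁)
        exact this.congr rfl (by rw [← hX]; ring)
      have hD : y₁ - W.negY x₂ y₂ ≠ 0 := by
        intro h0
        have := rD.congr h0 rfl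
        exact hD0 (this.unique S58RH_Red.zero)
      have hxx : x₁ - x₂ ≠ 0 := sub_ne_zero.mpr hx
      have e : (y₁ - y₂) / (x₁ - x₂) =
          (x₁ ^ 2 + x₁ * x₂ + x₂ ^ 2 + W.a₂ * (x₁ + x₂) + W.a₄ - W.a₁ * y₁) /
            (y₁ - W.negY x₂ y₂) := by
        rw [div_eq_div_iff hxx hD]
        linear_combination hid
      rw [e]
      exact rN'.div hρ rD hD0
  · have hx : x₁ ≠ x₂ := by
      rintro rfl
      exact hX (rx₁.unique rx₂)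
    rw [slope_of_X_ne hx, slope_of_X_ne hX]
    exact (ry₁.sub ry₂).div hρ (rx₁.sub rx₂) (sub_ne_zero.mpr hX)

/-- **the slope is not integral** when the reductions are opposite (and the points are not) -/
theorem S58RH_slope_opp {x₁ y₁ x₂ y₂ : K} {X₁ Y₁ X₂ Y₂ : k} (e₁ : W.Equation x₁ y₁)
    (e₂ : W.Equation x₂ y₂) (rx₁ : S58RH_Red A ρ x₁ X₁) (ry₁ : S58RH_Red A ρ y₁ Y₁)
    (rx₂ : S58RH_Red A ρ x₂ X₂) (ry₂ : S58RH_Red A ρ y₂ Y₂)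
    (hX : X₁ = X₂) (hY : Y₁ = W0.negY X₂ Y₂) (hns : W0.Nonsingular X₁ Y₁)
    (hxy : ¬(x₁ = x₂ ∧ y₁ = W.negY x₂ y₂)) :
    W.slope x₁ x₂ y₁ y₂ ∉ A := by
  have rD : S58RH_Red A ρ (y₁ - W.negY x₂ y₂) 0 := by
    have := ry₁.sub (S58RH_negY h₁ h₂ h₃ h₄ h₆ rx₂ ry₂)
    exact this.congr rfl (by rw [hY, sub_self])
  by_cases hx : x₁ = x₂
  · have hy : y₁ ≠ W.negY x₂ y₂ := fun h => hxy ⟨hx, h⟩
    have hyy : y₁ = y₂ := Y_eq_of_Y_ne e₁ e₂ hx hy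
    have hYY : Y₁ = Y₂ := by
      subst hyy
      exact ry₁.unique ry₂
    rw [slope_of_Y_ne hx hy]
    have rN : S58RH_Red A ρ (3 * x₁ ^ 2 + 2 * W.a₂ * x₁ + W.a₄ - W.a₁ * y₁)
        (3 * X₁ ^ 2 + 2 * W0.a₂ * X₁ + W0.a₄ - W0.a₁ * Y₁) :=
      (((S58RH_Red.three.mul (rx₁.pow 2)).add ((S58RH_Red.two.mul h₂).mul rx₁)).add h₄).sub
        (h₁.mul ry₁)
    have hN0 : 3 * X₁ ^ 2 + 2 * W0.a₂ * X₁ + W0.a₄ - W0.a₁ * Y₁ ≠ 0 := by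
      rw [nonsingular_iff] at hns
      rcases hns.2 with h | h
      · intro h0
        apply h
        linear_combination -h0
      · exfalso
        apply h
        have : Y₁ = W0.negY X₁ Y₁ := hY.trans (by rw [← hX, ← hYY])
        simpa [negY] using this
    have hD : y₁ - W.negY x₁ y₁ ≠ 0 := by
      rw [sub_ne_zero]
      intro h
      apply hy
      rw [← hx, ← hyy]
      exact h
    have rD' : S58RH_Red A ρ (y₁ - W.negY x₁ y₁) 0 := by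
      refine rD.congr ?_ rfl
      rw [← hx, ← hyy]
    refine S58RH_not_mem_of_mul hρ rD' rN hN0 ?_
    field_simp
  · rw [slope_of_X_ne hx]
    have hxx : x₁ - x₂ ≠ 0 := sub_ne_zero.mpr hx
    intro hl
    have rl := S58RH_Red.of_mem (ρ := ρ) hl
    -- `y₁ - y₂ = ℓ (x₁ - x₂)` reduces to `Y₁ = Y₂`
    have rX : S58RH_Red A ρ (x₁ - x₂) 0 := (rx₁.sub rx₂).congr rfl (by rw [hX, sub_self])
    have hYY : Y₁ = Y₂ := by
      have r1 := rl.mul rX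
      rw [mul_zero] at r1
      have r2 := ry₁.sub ry₂
      have : (y₁ - y₂) / (x₁ - x₂) * (x₁ - x₂) = y₁ - y₂ := by field_simp
      exact sub_eq_zero.mp (r2.unique (r1.congr this rfl))
    -- `N = ℓ D` reduces to `N̄ = 0`
    have hid := S58RH_chord_id h₁ h₂ h₃ h₄ h₆ e₁ e₂
    have rN' : S58RH_Red A ρ
        (x₁ ^ 2 + x₁ * x₂ + x₂ ^ 2 + W.a₂ * (x₁ + x₂) + W.a₄ - W.a₁ * y₁)
        (3 * X₁ ^ 2 + 2 * W0.a₂ * X₁ + W0.a₄ - W0.a₁ * Y₁) := by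
      have := ((((rx₁.pow 2).add (rx₁.mul rx₂)).add (rx₂.pow 2)).add
        (h₂.mul (rx₁.add rx₂))).add h₄ |>.sub (h₁.mul ry₁)
      exact this.congr rfl (by rw [← hX]; ring)
    have hN0 : 3 * X₁ ^ 2 + 2 * W0.a₂ * X₁ + W0.a₄ - W0.a₁ * Y₁ = 0 := by
      have r1 := rl.mul rD
      rw [mul_zero] at r1
      have : (y₁ - y₂) / (x₁ - x₂) * (y₁ - W.negY x₂ y₂) =
          x₁ ^ 2 + x₁ * x₂ + x₂ ^ 2 + W.a₂ * (x₁ + x₂) + W.a₄ - W.a₁ * y₁ := by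
        field_simp
        linear_combination hid
      exact rN'.unique (r1.congr this rfl)
    rw [nonsingular_iff] at hns
    rcases hns.2 with h | h
    · apply h
      linear_combination -hN0
    · apply h
      have : Y₁ = W0.negY X₁ Y₁ := hY.trans (by rw [← hX, ← hYY])
      simpa [negY] using this

end Curve

/-! ### The reduction map on points -/

section Points

open Fermat.Agent.S05_helper6_Kernel

variable [DecidableEq K] [DecidableEq k]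
  (hρ : ∀ a : A, ρ a = 0 ↔ a ∈ IsLocalRing.maximalIdeal A)
  {W : WeierstrassCurve.Affine K} {W0 : WeierstrassCurve.Affine k}
  (h₁ : S58RH_Red A ρ W.a₁ W0.a₁) (h₂ : S58RH_Red A ρ W.a₂ W0.a₂)
  (h₃ : S58RH_Red A ρ W.a₃ W0.a₃) (h₄ : S58RH_Red A ρ W.a₄ W0.a₄)
  (h₆ : S58RH_Red A ρ W.a₆ W0.a₆) (hΔ : W0.Δ ≠ 0)

theorem S58RH_some_congr {x y x' y' : k} (h : W0.Nonsingular x y) (h' : W0.Nonsingular x' y')
    (hx : x = x') (hy : y = y') : Point.some x y h = Point.some x' y' h' := by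
  subst hx; subst hy; rfl

include h₁ h₂ h₃ h₄ h₆

/-- nonsingularity of the reduced point -/
theorem S58RH_nonsingular {x y : K} {X Y : k} (e : W.Equation x y) (rx : S58RH_Red A ρ x X)
    (ry : S58RH_Red A ρ y Y) (hΔ : W0.Δ ≠ 0) : W0.Nonsingular X Y :=
  (equation_iff_nonsingular_of_Δ_ne_zero hΔ).mp (S58RH_equation h₁ h₂ h₃ h₄ h₆ e rx ry)

open scoped Classical in
/-- **the reduction map** -/
def S58RH_red : W.Point → W0.Point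
  | .zero => 0
  | .some x y h =>
    if hx : x ∈ A then
      .some (ρ ⟨x, hx⟩) (ρ ⟨y, S58RH_mem_y h₁ h₂ h₃ h₄ h₆ h.1 hx⟩)
        (S58RH_nonsingular h₁ h₂ h₃ h₄ h₆ h.1 ⟨hx, rfl⟩ ⟨_, rfl⟩ hΔ)
    else 0

theorem S58RH_red_zero : S58RH_red h₁ h₂ h₃ h₄ h₆ hΔ (0 : W.Point) = 0 := rfl

theorem S58RH_red_of_not_mem {x y : K} (h : W.Nonsingular x y) (hx : x ∉ A) :
    S58RH_red h₁ h₂ h₃ h₄ h₆ hΔ (Point.some x y h) = 0 := by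
  simp only [S58RH_red, dif_neg hx]

theorem S58RH_red_of_mem {x y : K} (h : W.Nonsingular x y) (hx : x ∈ A) :
    S58RH_red h₁ h₂ h₃ h₄ h₆ hΔ (Point.some x y h) =
      .some (ρ ⟨x, hx⟩) (ρ ⟨y, S58RH_mem_y h₁ h₂ h₃ h₄ h₆ h.1 hx⟩)
        (S58RH_nonsingular h₁ h₂ h₃ h₄ h₆ h.1 ⟨hx, rfl⟩ ⟨_, rfl⟩ hΔ) := by
  simp only [S58RH_red, dif_pos hx]

/-- the reduction in terms of the relation `Red` -/
theorem S58RH_red_of_red {x y : K} {X Y : k} (h : W.Nonsingular x y) (rx : S58RH_Red A ρ x X)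
    (ry : S58RH_Red A ρ y Y) (h' : W0.Nonsingular X Y) :
    S58RH_red h₁ h₂ h₃ h₄ h₆ hΔ (Point.some x y h) = .some X Y h' := by
  rw [S58RH_red_of_mem h₁ h₂ h₃ h₄ h₆ hΔ h rx.mem]
  exact S58RH_some_congr _ _ (S58RH_Red.unique ⟨rx.mem, rfl⟩ rx)
    (S58RH_Red.unique ⟨S58RH_mem_y h₁ h₂ h₃ h₄ h₆ h.1 rx.mem, rfl⟩ ry)

/-- the kernel -/
theorem S58RH_red_eq_zero_iff (P : W.Point) :
    S58RH_red h₁ h₂ h₃ h₄ h₆ hΔ P = 0 ↔
      P = 0 ∨ ∃ (x y : K) (h : W.Nonsingular x y), P = Point.some x y h ∧ x ∉ A := by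
  rcases P with _ | ⟨x, y, h⟩
  · exact ⟨fun _ => Or.inl rfl, fun _ => rfl⟩
  · by_cases hx : x ∈ A
    · rw [S58RH_red_of_mem h₁ h₂ h₃ h₄ h₆ hΔ h hx]
      constructor
      · intro h0
        exact absurd h0 (Point.some_ne_zero _)
      · rintro (h0 | ⟨x', y', h', he, hx'⟩)
        · exact absurd h0 (Point.some_ne_zero _)
        · exfalso
          have := Point.some.inj he
          exact hx' (this.1 ▸ hx)
    · rw [S58RH_red_of_not_mem h₁ h₂ h₃ h₄ h₆ hΔ h hx]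
      exact ⟨fun _ => Or.inr ⟨x, y, h, rfl, hx⟩, fun _ => rfl⟩

/-- negation -/
theorem S58RH_red_neg (P : W.Point) :
    S58RH_red h₁ h₂ h₃ h₄ h₆ hΔ (-P) = -S58RH_red h₁ h₂ h₃ h₄ h₆ hΔ P := by
  rcases P with _ | ⟨x, y, h⟩
  · rfl
  · rw [Point.neg_some]
    by_cases hx : x ∈ A
    · have rx : S58RH_Red A ρ x (ρ ⟨x, hx⟩) := ⟨hx, rfl⟩
      have ry : S58RH_Red A ρ y (ρ ⟨y, S58RH_mem_y h₁ h₂ h₃ h₄ h₆ h.1 hx⟩) := ⟨_, rfl⟩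
      rw [S58RH_red_of_mem h₁ h₂ h₃ h₄ h₆ hΔ h hx, Point.neg_some]
      exact S58RH_red_of_red h₁ h₂ h₃ h₄ h₆ hΔ _ rx (S58RH_negY h₁ h₂ h₃ h₄ h₆ rx ry) _
    · rw [S58RH_red_of_not_mem h₁ h₂ h₃ h₄ h₆ hΔ h hx,
        S58RH_red_of_not_mem h₁ h₂ h₃ h₄ h₆ hΔ _ hx, neg_zero]

include hρ

/-- **additivity on two points outside the kernel** -/
theorem S58RH_red_add_some {x₁ y₁ x₂ y₂ : K} (n₁ : W.Nonsingular x₁ y₁)
    (n₂ : W.Nonsingular x₂ y₂) (hx₁ : x₁ ∈ A) (hx₂ : x₂ ∈ A) :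
    S58RH_red h₁ h₂ h₃ h₄ h₆ hΔ (Point.some x₁ y₁ n₁ + Point.some x₂ y₂ n₂) =
      S58RH_red h₁ h₂ h₃ h₄ h₆ hΔ (Point.some x₁ y₁ n₁) +
        S58RH_red h₁ h₂ h₃ h₄ h₆ hΔ (Point.some x₂ y₂ n₂) := by
  have rx₁ : S58RH_Red A ρ x₁ (ρ ⟨x₁, hx₁⟩) := ⟨hx₁, rfl⟩
  have ry₁ : S58RH_Red A ρ y₁ (ρ ⟨y₁, S58RH_mem_y h₁ h₂ h₃ h₄ h₆ n₁.1 hx₁⟩) := ⟨_, rfl⟩
  have rx₂ : S58RH_Red A ρ x₂ (ρ ⟨x₂, hx₂⟩) := ⟨hx₂, rfl⟩
  have ry₂ : S58RH_Red A ρ y₂ (ρ ⟨y₂, S58RH_mem_y h₁ h₂ h₃ h₄ h₆ n₂.1 hx₂⟩) := ⟨_, rfl⟩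
  have N₁ := S58RH_nonsingular h₁ h₂ h₃ h₄ h₆ n₁.1 rx₁ ry₁ hΔ
  have N₂ := S58RH_nonsingular h₁ h₂ h₃ h₄ h₆ n₂.1 rx₂ ry₂ hΔ
  rw [S58RH_red_of_mem h₁ h₂ h₃ h₄ h₆ hΔ n₁ hx₁, S58RH_red_of_mem h₁ h₂ h₃ h₄ h₆ hΔ n₂ hx₂]
  by_cases hxy0 : ρ ⟨x₁, hx₁⟩ = ρ ⟨x₂, hx₂⟩ ∧
      ρ ⟨y₁, S58RH_mem_y h₁ h₂ h₃ h₄ h₆ n₁.1 hx₁⟩ =
        W0.negY (ρ ⟨x₂, hx₂⟩) (ρ ⟨y₂, S58RH_mem_y h₁ h₂ h₃ h₄ h₆ n₂.1 hx₂⟩)
  · rw [Point.add_of_Y_eq hxy0.1 hxy0.2]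
    by_cases hxy : x₁ = x₂ ∧ y₁ = W.negY x₂ y₂
    · rw [Point.add_of_Y_eq hxy.1 hxy.2]
      rfl
    · rw [Point.add_some hxy]
      exact S58RH_red_of_not_mem h₁ h₂ h₃ h₄ h₆ hΔ _
        (S58RH_addX_not_mem h₁ h₂ h₃ h₄ h₆ hx₁ hx₂
          (S58RH_slope_opp hρ h₁ h₂ h₃ h₄ h₆ n₁.1 n₂.1 rx₁ ry₁ rx₂ ry₂ hxy0.1 hxy0.2 N₁ hxy))
  · have hxy : ¬(x₁ = x₂ ∧ y₁ = W.negY x₂ y₂) := by
      rintro ⟨hx, hy⟩
      apply hxy0
      refine ⟨?_, ?_⟩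
      · subst hx; rfl
      · exact ry₁.unique ((S58RH_negY h₁ h₂ h₃ h₄ h₆ rx₂ ry₂).congr hy.symm rfl)
    rw [Point.add_some hxy, Point.add_some hxy0]
    have rl := S58RH_slope hρ h₁ h₂ h₃ h₄ h₆ n₁.1 n₂.1 rx₁ ry₁ rx₂ ry₂ hxy0
    exact S58RH_red_of_red h₁ h₂ h₃ h₄ h₆ hΔ _ (S58RH_addX h₁ h₂ h₃ h₄ h₆ rx₁ rx₂ rl)
      (S58RH_addY h₁ h₂ h₃ h₄ h₆ rx₁ rx₂ ry₁ rl) _

omit hρ in
/-- **the kernel is closed under addition** (landed `inKer_add`) -/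
theorem S58RH_red_add_ker {P Q : W.Point} (hP : S58RH_red h₁ h₂ h₃ h₄ h₆ hΔ P = 0)
    (hQ : S58RH_red h₁ h₂ h₃ h₄ h₆ hΔ Q = 0) : S58RH_red h₁ h₂ h₃ h₄ h₆ hΔ (P + Q) = 0 := by
  have a₁ := (A.valuation_le_one_iff _).mpr h₁.mem
  have a₂ := (A.valuation_le_one_iff _).mpr h₂.mem
  have a₃ := (A.valuation_le_one_iff _).mpr h₃.mem
  have a₄ := (A.valuation_le_one_iff _).mpr h₄.mem
  have a₆ := (A.valuation_le_one_iff _).mpr h₆.mem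
  -- a point of the kernel is `InKer` for its own radius
  have key : ∀ R : W.Point, S58RH_red h₁ h₂ h₃ h₄ h₆ hΔ R = 0 →
      ∃ r, r < 1 ∧ InKer A.valuation r R := by
    intro R hR
    rcases (S58RH_red_eq_zero_iff h₁ h₂ h₃ h₄ h₆ hΔ R).mp hR with rfl | ⟨x, y, h, rfl, hx⟩
    · exact ⟨0, zero_lt_one, trivial⟩
    · have hx' : 1 < A.valuation x := by
        rw [← not_le, A.valuation_le_one_iff]; exact hx
      obtain ⟨-, hz, -⟩ := kernel_point A.valuation a₁ a₂ a₃ a₄ a₆ h.1 hx'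
      exact ⟨_, hz, hx', le_rfl⟩
  obtain ⟨r, hr, kP⟩ := key P hP
  obtain ⟨s, hs, kQ⟩ := key Q hQ
  have mono : ∀ (R : W.Point) (t u : _), t ≤ u → InKer A.valuation t R → InKer A.valuation u R := by
    intro R t u htu hR
    rcases R with _ | ⟨x, y, h⟩
    · trivial
    · exact ⟨hR.1, hR.2.trans htu⟩
  have hm : max r s < 1 := max_lt hr hs
  obtain ⟨hPQ, -⟩ := inKer_add A.valuation a₁ a₂ a₃ a₄ a₆ hm
    (mono P _ _ (le_max_left r s) kP) (mono Q _ _ (le_max_right r s) kQ)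
  rw [S58RH_red_eq_zero_iff]
  rcases hPQ' : P + Q with _ | ⟨x, y, h⟩
  · exact Or.inl rfl
  · right
    rw [hPQ'] at hPQ
    refine ⟨x, y, h, rfl, ?_⟩
    have : 1 < A.valuation x := hPQ.1
    rw [← not_le, A.valuation_le_one_iff] at this
    exact this

/-- **the reduction map is additive** -/
theorem S58RH_red_add (P Q : W.Point) :
    S58RH_red h₁ h₂ h₃ h₄ h₆ hΔ (P + Q) =
      S58RH_red h₁ h₂ h₃ h₄ h₆ hΔ P + S58RH_red h₁ h₂ h₃ h₄ h₆ hΔ Q := by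
  -- both outside the kernel
  have both : ∀ P Q : W.Point, S58RH_red h₁ h₂ h₃ h₄ h₆ hΔ P ≠ 0 →
      S58RH_red h₁ h₂ h₃ h₄ h₆ hΔ Q ≠ 0 →
      S58RH_red h₁ h₂ h₃ h₄ h₆ hΔ (P + Q) =
        S58RH_red h₁ h₂ h₃ h₄ h₆ hΔ P + S58RH_red h₁ h₂ h₃ h₄ h₆ hΔ Q := by
    intro P Q hP hQ
    rcases P with _ | ⟨x₁, y₁, n₁⟩
    · exact absurd rfl hP
    rcases Q with _ | ⟨x₂, y₂, n₂⟩
    · exact absurd rfl hQ
    have hx₁ : x₁ ∈ A := by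
      by_contra hx
      exact hP (S58RH_red_of_not_mem h₁ h₂ h₃ h₄ h₆ hΔ n₁ hx)
    have hx₂ : x₂ ∈ A := by
      by_contra hx
      exact hQ (S58RH_red_of_not_mem h₁ h₂ h₃ h₄ h₆ hΔ n₂ hx)
    exact S58RH_red_add_some hρ h₁ h₂ h₃ h₄ h₆ hΔ n₁ n₂ hx₁ hx₂
  -- kernel + non-kernel
  have mixed : ∀ P Q : W.Point, S58RH_red h₁ h₂ h₃ h₄ h₆ hΔ P = 0 →
      S58RH_red h₁ h₂ h₃ h₄ h₆ hΔ Q ≠ 0 →
      S58RH_red h₁ h₂ h₃ h₄ h₆ hΔ (P + Q) = S58RH_red h₁ h₂ h₃ h₄ h₆ hΔ Q := by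
    intro P Q hP hQ
    have hR : S58RH_red h₁ h₂ h₃ h₄ h₆ hΔ (P + Q) ≠ 0 := by
      intro hR
      apply hQ
      have hnP : S58RH_red h₁ h₂ h₃ h₄ h₆ hΔ (-P) = 0 := by
        rw [S58RH_red_neg, hP, neg_zero]
      have := S58RH_red_add_ker h₁ h₂ h₃ h₄ h₆ hΔ hR hnP
      rwa [add_neg_cancel_comm] at this
    have hnQ : S58RH_red h₁ h₂ h₃ h₄ h₆ hΔ (-Q) ≠ 0 := by
      rw [S58RH_red_neg]
      exact neg_ne_zero.mpr hQ
    have h3 := both (P + Q) (-Q) hR hnQ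
    rw [add_neg_cancel_right, hP, S58RH_red_neg] at h3
    -- `0 = red (P + Q) - red Q`
    have := h3.symm
    rwa [← sub_eq_add_neg, sub_eq_zero] at this
  by_cases hP : S58RH_red h₁ h₂ h₃ h₄ h₆ hΔ P = 0
  · by_cases hQ : S58RH_red h₁ h₂ h₃ h₄ h₆ hΔ Q = 0
    · rw [S58RH_red_add_ker h₁ h₂ h₃ h₄ h₆ hΔ hP hQ, hP, hQ, add_zero]
    · rw [mixed P Q hP hQ, hP, zero_add]
  · by_cases hQ : S58RH_red h₁ h₂ h₃ h₄ h₆ hΔ Q = 0
    · rw [add_comm P Q, mixed Q P hQ hP, hQ, add_zero]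
    · exact both P Q hP hQ

/-- **the reduction homomorphism** -/
def S58RH_redHom : W.Point →+ W0.Point :=
  AddMonoidHom.mk' (S58RH_red h₁ h₂ h₃ h₄ h₆ hΔ) (S58RH_red_add hρ h₁ h₂ h₃ h₄ h₆ hΔ)

theorem S58RH_redHom_apply (P : W.Point) :
    S58RH_redHom hρ h₁ h₂ h₃ h₄ h₆ hΔ P = S58RH_red h₁ h₂ h₃ h₄ h₆ hΔ P := rfl

/-- **injectivity on the `n`-torsion**, `n` a unit of `A` (landed `kernel_torsion_free`) -/
theorem S58RH_red_torsion_inj (n : ℕ) (hn : A.valuation (n : K) = 1) (P : W.Point)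
    (hP : n • P = 0) (hred : S58RH_red h₁ h₂ h₃ h₄ h₆ hΔ P = 0) : P = 0 := by
  rcases (S58RH_red_eq_zero_iff h₁ h₂ h₃ h₄ h₆ hΔ P).mp hred with h0 | ⟨x, y, h, rfl, hx⟩
  · exact h0
  · exact absurd hP
      (kernel_torsion_free A W h₁.mem h₂.mem h₃.mem h₄.mem h₆.mem n hn h hx)

/-- the same for two points: equal reductions of two `n`-torsion points ⟹ equal points -/
theorem S58RH_red_torsion_inj' (n : ℕ) (hn : A.valuation (n : K) = 1) (P Q : W.Point)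
    (hP : n • P = 0) (hQ : n • Q = 0)
    (hred : S58RH_red h₁ h₂ h₃ h₄ h₆ hΔ P = S58RH_red h₁ h₂ h₃ h₄ h₆ hΔ Q) : P = Q := by
  have h1 : n • (P - Q) = 0 := by rw [smul_sub, hP, hQ, sub_zero]
  have h2 : S58RH_red h₁ h₂ h₃ h₄ h₆ hΔ (P - Q) = 0 := by
    rw [sub_eq_add_neg, S58RH_red_add hρ, S58RH_red_neg, hred, add_neg_cancel]
  exact sub_eq_zero.mp (S58RH_red_torsion_inj hρ h₁ h₂ h₃ h₄ h₆ hΔ n hn _ h1 h2)

end Points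

/-- **(E1b) / [SPEC]: the reduction homomorphism of a Weierstrass curve with good reduction at a
valuation subring**, with its values, its kernel, and injectivity on prime-to-residue
torsion. -/
theorem S58RH_main {K : Type*} [Field K] [DecidableEq K] (A : ValuationSubring K)
    {k : Type*} [Field k] [DecidableEq k] (ρ : A →+* k)
    (hρ : ∀ a : A, ρ a = 0 ↔ a ∈ IsLocalRing.maximalIdeal A)
    (W : WeierstrassCurve K) (W0 : WeierstrassCurve k)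
    (h₁ : ∃ h : W.a₁ ∈ A, ρ ⟨W.a₁, h⟩ = W0.a₁) (h₂ : ∃ h : W.a₂ ∈ A, ρ ⟨W.a₂, h⟩ = W0.a₂)
    (h₃ : ∃ h : W.a₃ ∈ A, ρ ⟨W.a₃, h⟩ = W0.a₃) (h₄ : ∃ h : W.a₄ ∈ A, ρ ⟨W.a₄, h⟩ = W0.a₄)
    (h₆ : ∃ h : W.a₆ ∈ A, ρ ⟨W.a₆, h⟩ = W0.a₆) (hΔ : W0.Δ ≠ 0) :
    ∃ red : W.toAffine.Point →+ W0.toAffine.Point,
      (∀ x y (h : W.toAffine.Nonsingular x y), x ∉ A → red (.some x y h) = 0) ∧
      (∀ x y (h : W.toAffine.Nonsingular x y) (hx : x ∈ A),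
        ∃ (hy : y ∈ A) (h' : W0.toAffine.Nonsingular (ρ ⟨x, hx⟩) (ρ ⟨y, hy⟩)),
          red (.some x y h) = .some (ρ ⟨x, hx⟩) (ρ ⟨y, hy⟩) h') ∧
      (∀ P, red P = 0 → P = 0 ∨ ∃ x y, ∃ h : W.toAffine.Nonsingular x y,
        P = .some x y h ∧ x ∉ A) ∧
      (∀ n : ℕ, A.valuation (n : K) = 1 → ∀ P, n • P = 0 → red P = 0 → P = 0) ∧
      (∀ n : ℕ, A.valuation (n : K) = 1 → ∀ P Q, n • P = 0 → n • Q = 0 → red P = red Q →
        P = Q) := by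
  refine ⟨S58RH_redHom (W := W) (W0 := W0) hρ h₁ h₂ h₃ h₄ h₆ hΔ, ?_, ?_, ?_, ?_, ?_⟩
  · intro x y h hx
    exact S58RH_red_of_not_mem (W := W) (W0 := W0) h₁ h₂ h₃ h₄ h₆ hΔ h hx
  · intro x y h hx
    exact ⟨_, _, S58RH_red_of_mem (W := W) (W0 := W0) h₁ h₂ h₃ h₄ h₆ hΔ h hx⟩
  · intro P hP
    exact (S58RH_red_eq_zero_iff (W := W) (W0 := W0) h₁ h₂ h₃ h₄ h₆ hΔ P).mp hP
  · intro n hn P hP hred
    exact S58RH_red_torsion_inj (W := W) (W0 := W0) hρ h₁ h₂ h₃ h₄ h₆ hΔ n hn P hP hred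
  · intro n hn P Q hP hQ hred
    exact S58RH_red_torsion_inj' (W := W) (W0 := W0) hρ h₁ h₂ h₃ h₄ h₆ hΔ n hn P Q hP hQ hred

end Fermat.Agent.S58_helper6_REDHOM
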