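import Mathlib
import Fermat.Agent.S58_helper6_REDHOM
import Fermat.Agent.S58_helper19_E1DEFS

/-!
# S58 (E1a) [KR-LOC] (helper6): the local kernel-of-reduction estimate

`K` a field of characteristic `l`, `v` a valuation, `W` a Weierstrass curve over `K` whose
coefficients are fixed by the Frobenius `x ↦ x ^ l`, `W.Δ ≠ 0`, `φ` the coordinatewise Frobenius
on `W(K)`, `T` the finite set of its fixed points.  With the multiplicative local height
`S58KR_H v P = max 1 (v (x P))` (`1` at the origin):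

* `S58KR_main` : `H (φ S - S) = ∏ T0 ∈ T, H (S - T0)`;
* `S58KR_loc`  : the same at a place of a function field, additively, in helper19's vocabulary:
  `lamP v (φ S - S) = ∑ T0 ∈ T, lamP v (S - T0)`.
-/

set_option autoImplicit false
set_option linter.unusedSectionVars false
set_option linter.unusedVariables false
set_option linter.style.haveILetI false
set_option maxHeartbeats 1600000

open WeierstrassCurve WeierstrassCurve.Affine
open Fermat.Agent.S05_helper6_Kernel Fermat.Agent.S58_helper6_REDHOM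

noncomputable section

namespace Fermat.Agent.S58_helper6_KRLOC

variable {K : Type*} [Field K] [DecidableEq K] {Γ₀ : Type*} [LinearOrderedCommGroupWithZero Γ₀]
  (v : Valuation K Γ₀)

/-- the multiplicative local height of a point -/
def S58KR_H {W : WeierstrassCurve.Affine K} : W.Point → Γ₀
  | .zero => 1
  | .some x _ _ => max 1 (v x)

@[simp] theorem S58KR_H_zero {W : WeierstrassCurve.Affine K} : S58KR_H v (0 : W.Point) = 1 := rfl

@[simp] theorem S58KR_H_some {W : WeierstrassCurve.Affine K} {x y : K} (h : W.Nonsingular x y) :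
    S58KR_H v (Point.some x y h) = max 1 (v x) := rfl

theorem S58KR_H_ne_zero {W : WeierstrassCurve.Affine K} (P : W.Point) : S58KR_H v P ≠ 0 := by
  rcases P with _ | ⟨x, y, h⟩
  · exact one_ne_zero
  · exact (lt_of_lt_of_le zero_lt_one (le_max_left _ _)).ne'

/-! ### Elements fixed by a power map -/

theorem S58KR_val_le {a : K} {n : ℕ} (hn : 2 ≤ n) (h : a ^ n = a) : v a ≤ 1 := by
  by_contra hlt
  rw [not_le] at hlt
  have := lt_self_pow₀ hlt (by omega : 1 < n)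
  rw [← map_pow, h] at this
  exact lt_irrefl _ this

/-! ### The formal part -/

theorem S58KR_formal {W : WeierstrassCurve.Affine K} {G : Type*} [AddCommGroup G]
    (r : W.Point →+ G)
    (hker : ∀ P : W.Point, r P = 0 ↔
      P = 0 ∨ ∃ x y, ∃ h : W.Nonsingular x y, P = .some x y h ∧ 1 < v x)
    (φ : W.Point →+ W.Point)
    (hdepth : ∀ R : W.Point, R ≠ 0 → r R = 0 → S58KR_H v (φ R - R) = S58KR_H v R)
    (hlift : ∀ S : W.Point, r S ≠ 0 → r (φ S) = r S → ∃ T1, φ T1 = T1 ∧ r T1 = r S)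
    (hfix : ∀ P : W.Point, φ P = P → r P = 0 → P = 0)
    (T : Finset W.Point) (hT : ∀ P, P ∈ T ↔ φ P = P) (S : W.Point) :
    S58KR_H v (φ S - S) = ∏ T0 ∈ T, S58KR_H v (S - T0) := by
  have hH1 : ∀ P : W.Point, (P = 0 ∨ r P ≠ 0) → S58KR_H v P = 1 := by
    intro P hP
    rcases P with _ | ⟨x, y, h⟩
    · rfl
    · rcases hP with h0 | hr
      · exact absurd h0 (Point.some_ne_zero _)
      · rw [S58KR_H_some]
        apply max_eq_left
        by_contra hlt
        rw [not_le] at hlt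
        exact hr ((hker _).mpr (Or.inr ⟨x, y, h, rfl, hlt⟩))
  by_cases hex : ∃ T1 ∈ T, r (S - T1) = 0
  · obtain ⟨T1, hT1, hr⟩ := hex
    have hφT1 : φ T1 = T1 := (hT T1).mp hT1
    have e : φ S - S = φ (S - T1) - (S - T1) := by
      rw [map_sub, hφT1]; abel
    rw [Finset.prod_eq_single T1]
    · rw [e]
      by_cases hR : S - T1 = 0
      · rw [hR, map_zero, sub_zero]
      · exact hdepth _ hR hr
    · intro b hb hne
      apply hH1
      right
      intro hrb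
      apply hne
      have h1 : r (T1 - b) = 0 := by
        have : T1 - b = (S - b) - (S - T1) := by abel
        rw [this, map_sub, hrb, hr, sub_zero]
      have h2 : φ (T1 - b) = T1 - b := by
        rw [map_sub, hφT1, (hT b).mp hb]
      have := hfix _ h2 h1
      exact (sub_eq_zero.mp this).symm
    · intro h
      exact absurd hT1 h
  · push Not at hex
    rw [Finset.prod_eq_one (fun b hb => hH1 _ (Or.inr (hex b hb)))]
    apply hH1
    by_contra hcon
    rw [not_or, not_not] at hcon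
    have hrφ : r (φ S) = r S := by
      have := hcon.2
      rwa [map_sub, sub_eq_zero] at this
    by_cases hS : r S = 0
    · refine hex 0 ((hT 0).mpr (map_zero φ)) ?_
      rw [sub_zero]; exact hS
    · obtain ⟨T1, h1, h2⟩ := hlift S hS hrφ
      refine hex T1 ((hT T1).mpr h1) ?_
      rw [map_sub, h2, sub_self]

/-! ### The depth of `φ R - R` for `R` in the kernel of reduction -/

section Depth

variable {W : WeierstrassCurve.Affine K}
  (a₁ : v W.a₁ ≤ 1) (a₂ : v W.a₂ ≤ 1) (a₃ : v W.a₃ ≤ 1) (a₄ : v W.a₄ ≤ 1) (a₆ : v W.a₆ ≤ 1)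

include a₁ a₂ a₃ a₄ a₆

/-- in the kernel of reduction `v x * v z ^ 2 = 1` -/
theorem S58KR_vx {x y : K} (h : W.Equation x y) (hx : 1 < v x) :
    v x * v (-x / y) ^ 2 = 1 := by
  obtain ⟨hy0, hz, hw, hw3, hz0⟩ := kernel_point v a₁ a₂ a₃ a₄ a₆ h hx
  have hb : v y ≠ 0 := (map_ne_zero v).mpr hy0
  have e1 : v (-1 / y) = (v y)⁻¹ := by
    rw [map_div₀, Valuation.map_neg, map_one, one_div]
  have e2 : v (-x / y) = v x / v y := by
    rw [map_div₀, Valuation.map_neg]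
  rw [e1, e2] at hw3
  rw [e2]
  have e : (v x / v y) ^ 2 * (v x / v y) = (v y)⁻¹ := by rw [← pow_succ]; exact hw3.symm
  calc v x * (v x / v y) ^ 2 = (v x / v y) ^ 2 * ((v x / v y) * v y) := by
        rw [div_mul_cancel₀ (v x) hb, mul_comm]
    _ = ((v x / v y) ^ 2 * (v x / v y)) * v y := by rw [mul_assoc]
    _ = (v y)⁻¹ * v y := by rw [e]
    _ = 1 := inv_mul_cancel₀ hb

theorem S58KR_depth (l : ℕ) [Fact l.Prime] [CharP K l] (φ : W.Point →+ W.Point)
    (hφ : ∀ x y (h : W.Nonsingular x y), ∃ h', φ (.some x y h) = .some (x ^ l) (y ^ l) h')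
    {x y : K} (h : W.Nonsingular x y) (hx : 1 < v x) :
    S58KR_H v (φ (.some x y h) - .some x y h) = S58KR_H v (Point.some x y h) := by
  obtain ⟨hy0, hz, hw, hw3, hz0⟩ := kernel_point v a₁ a₂ a₃ a₄ a₆ h.1 hx
  obtain ⟨h', hφR⟩ := hφ x y h
  have hl2 : 2 ≤ l := (Fact.out : l.Prime).two_le
  have hxl : 1 < v (x ^ l) := by
    rw [map_pow]; exact one_lt_pow₀ hx (by omega)
  have hneg : (-1 : K) ^ l = -1 := by
    have := map_neg (frobenius K l) (1 : K)
    rwa [frobenius_def, frobenius_def, one_pow] at this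
  have hzl : -x ^ l / y ^ l = (-x / y) ^ l := by
    rw [div_pow, neg_pow, hneg]; ring
  have hg2 : v (-x / y) ^ 2 < v (-x / y) := by
    calc v (-x / y) ^ 2 = v (-x / y) * v (-x / y) := sq _
      _ < 1 * v (-x / y) := mul_lt_mul_of_pos_right hz (zero_lt_iff.mpr hz0)
      _ = v (-x / y) := one_mul _
  have hzφ : v (-x ^ l / y ^ l) ≤ v (-x / y) ^ 2 := by
    rw [hzl, map_pow]; exact pow_le_pow_of_le_one zero_le hz.le hl2
  have kφ : InKer v (v (-x / y)) (φ (Point.some x y h)) := by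
    rw [hφR]; exact ⟨hxl, hzφ.trans hg2.le⟩
  obtain ⟨hn1, hn2⟩ := neg_z v a₁ a₂ a₃ a₄ a₆ h.1 hx
  have kn : InKer v (v (-x / y)) (-(Point.some x y h)) := by
    rw [Point.neg_some]; exact ⟨hx, hn1.le⟩
  obtain ⟨kD, hzD⟩ := inKer_add v a₁ a₂ a₃ a₄ a₆ hz kφ kn
  rw [← sub_eq_add_neg] at kD hzD
  have hzφ' : zOf (φ (Point.some x y h)) = -x ^ l / y ^ l := by rw [hφR]; rfl
  have hzn' : zOf (-(Point.some x y h)) = -x / W.negY x y := by rw [Point.neg_some]; rfl
  rw [hzφ', hzn'] at hzD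
  have key : v (zOf (φ (Point.some x y h) - Point.some x y h) + -x / y) ≤ v (-x / y) ^ 2 := by
    have e : zOf (φ (Point.some x y h) - Point.some x y h) + -x / y =
        (zOf (φ (Point.some x y h) - Point.some x y h) - -x ^ l / y ^ l - -x / W.negY x y) +
          (-x ^ l / y ^ l + (-x / W.negY x y + -x / y)) := by ring
    rw [e]
    exact v.map_add_le hzD (v.map_add_le hzφ hn2)
  have hvz : v (zOf (φ (Point.some x y h) - Point.some x y h)) = v (-x / y) := by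
    have e : zOf (φ (Point.some x y h) - Point.some x y h) =
        -(-x / y) + (zOf (φ (Point.some x y h) - Point.some x y h) + -x / y) := by ring
    rw [e]
    have := v.map_add_eq_of_lt_left (x := -(-x / y))
      (y := zOf (φ (Point.some x y h) - Point.some x y h) + -x / y)
      (by rw [Valuation.map_neg]; exact lt_of_le_of_lt key hg2)
    rw [this, Valuation.map_neg]
  rcases hD : φ (Point.some x y h) - Point.some x y h with _ | ⟨x', y', h''⟩
  · exfalso
    rw [hD] at hvz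
    apply hz0
    rw [← hvz]
    simp [zOf]
  · rw [hD] at kD hvz
    have hx' : 1 < v x' := kD.1
    have hvz' : v (-x' / y') = v (-x / y) := hvz
    have e1 := S58KR_vx v a₁ a₂ a₃ a₄ a₆ h''.1 hx'
    have e2 := S58KR_vx v a₁ a₂ a₃ a₄ a₆ h.1 hx
    rw [hvz'] at e1
    have hxx : v x' = v x :=
      mul_right_cancel₀ (pow_ne_zero 2 hz0) (e1.trans e2.symm)
    rw [S58KR_H_some, S58KR_H_some, max_eq_right hx'.le, max_eq_right hx.le, hxx]

end Depth

/-! ### Lifting the Frobenius-fixed points of the reduction -/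

section Lift

omit [DecidableEq K] in
theorem S58KR_exists_zmod (l : ℕ) [Fact l.Prime] [CharP K l] {a : K} (h : a ^ l = a) :
    ∃ c : ZMod l, ZMod.castHom (dvd_refl l) K c = a := by
  have h1 : a ∈ (⊥ : Subfield K) := (Subfield.mem_bot_iff_pow_eq_self K l).mpr h
  rw [← ZMod.fieldRange_castHom_eq_bot l] at h1
  exact RingHom.mem_fieldRange.mp h1

variable (A : ValuationSubring K) {κ : Type*} [Field κ] [DecidableEq κ] (ρ : A →+* κ)
  (hρ : ∀ a : A, ρ a = 0 ↔ a ∈ IsLocalRing.maximalIdeal A)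

omit [DecidableEq K] [DecidableEq κ] in
theorem S58KR_red_natCast (n : ℕ) : S58RH_Red A ρ (n : K) (n : κ) := by
  induction n with
  | zero => simpa using S58RH_Red.zero
  | succ n ih => push_cast; exact ih.add S58RH_Red.one

omit [DecidableEq K] [DecidableEq κ] in
include ρ in
theorem S58KR_charP (l : ℕ) [Fact l.Prime] [CharP K l] : CharP κ l := by
  refine (CharP.charP_iff_prime_eq_zero (Fact.out : l.Prime)).mpr ?_
  have h1 := S58KR_red_natCast A ρ l
  have h2 : ((l : ℕ) : K) = 0 := CharP.cast_eq_zero K l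
  exact (h1.congr h2 rfl).unique S58RH_Red.zero

variable {A ρ}
variable (l : ℕ) [Fact l.Prime] [CharP K l]
  {W : WeierstrassCurve.Affine K} {W0 : WeierstrassCurve.Affine κ}
  (h₁ : S58RH_Red A ρ W.a₁ W0.a₁) (h₂ : S58RH_Red A ρ W.a₂ W0.a₂)
  (h₃ : S58RH_Red A ρ W.a₃ W0.a₃) (h₄ : S58RH_Red A ρ W.a₄ W0.a₄)
  (h₆ : S58RH_Red A ρ W.a₆ W0.a₆) (hΔ : W0.Δ ≠ 0)
  (hF₁ : W.a₁ ^ l = W.a₁) (hF₂ : W.a₂ ^ l = W.a₂) (hF₃ : W.a₃ ^ l = W.a₃)
  (hF₄ : W.a₄ ^ l = W.a₄) (hF₆ : W.a₆ ^ l = W.a₆)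

include hF₁ hF₂ hF₃ hF₄ hF₆ in
theorem S58KR_lift (φ : W.Point →+ W.Point)
    (hφ : ∀ x y (h : W.Nonsingular x y), ∃ h', φ (.some x y h) = .some (x ^ l) (y ^ l) h')
    {x y : K} (h : W.Nonsingular x y) (hx : x ∈ A)
    (hfix : S58RH_red h₁ h₂ h₃ h₄ h₆ hΔ (φ (.some x y h)) =
      S58RH_red h₁ h₂ h₃ h₄ h₆ hΔ (.some x y h)) :
    ∃ T1 : W.Point, φ T1 = T1 ∧
      S58RH_red h₁ h₂ h₃ h₄ h₆ hΔ T1 = S58RH_red h₁ h₂ h₃ h₄ h₆ hΔ (.some x y h) := by
  haveI : CharP κ l := S58KR_charP A ρ l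
  have hy : y ∈ A := S58RH_mem_y h₁ h₂ h₃ h₄ h₆ h.1 hx
  -- the casts from the prime field
  have hιRed : ∀ c : ZMod l, S58RH_Red A ρ (ZMod.castHom (dvd_refl l) K c)
      (ZMod.castHom (dvd_refl l) κ c) := by
    intro c
    have hc : ((c.val : ℕ) : ZMod l) = c := ZMod.natCast_zmod_val c
    have := S58KR_red_natCast A ρ c.val
    refine this.congr ?_ ?_
    · rw [← map_natCast (ZMod.castHom (dvd_refl l) K), hc]
    · rw [← map_natCast (ZMod.castHom (dvd_refl l) κ), hc]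
  obtain ⟨c₁, hc₁⟩ := S58KR_exists_zmod l hF₁
  obtain ⟨c₂, hc₂⟩ := S58KR_exists_zmod l hF₂
  obtain ⟨c₃, hc₃⟩ := S58KR_exists_zmod l hF₃
  obtain ⟨c₄, hc₄⟩ := S58KR_exists_zmod l hF₄
  obtain ⟨c₆, hc₆⟩ := S58KR_exists_zmod l hF₆
  have hW : W = (⟨c₁, c₂, c₃, c₄, c₆⟩ : WeierstrassCurve (ZMod l)).map
      (ZMod.castHom (dvd_refl l) K) := by
    ext <;> simp [hc₁, hc₂, hc₃, hc₄, hc₆]
  have hW0 : W0 = (⟨c₁, c₂, c₃, c₄, c₆⟩ : WeierstrassCurve (ZMod l)).map
      (ZMod.castHom (dvd_refl l) κ) := by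
    ext
    · exact h₁.unique ((hιRed c₁).congr hc₁ rfl)
    · exact h₂.unique ((hιRed c₂).congr hc₂ rfl)
    · exact h₃.unique ((hιRed c₃).congr hc₃ rfl)
    · exact h₄.unique ((hιRed c₄).congr hc₄ rfl)
    · exact h₆.unique ((hιRed c₆).congr hc₆ rfl)
  -- the reduction is fixed by Frobenius
  obtain ⟨h', hφS⟩ := hφ x y h
  have rx : S58RH_Red A ρ x (ρ ⟨x, hx⟩) := ⟨hx, rfl⟩
  have ry : S58RH_Red A ρ y (ρ ⟨y, hy⟩) := ⟨hy, rfl⟩
  have N0 := S58RH_nonsingular h₁ h₂ h₃ h₄ h₆ h.1 rx ry hΔ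
  have N0' := S58RH_nonsingular h₁ h₂ h₃ h₄ h₆ h'.1 (rx.pow l) (ry.pow l) hΔ
  rw [hφS, S58RH_red_of_red h₁ h₂ h₃ h₄ h₆ hΔ h' (rx.pow l) (ry.pow l) N0',
    S58RH_red_of_red h₁ h₂ h₃ h₄ h₆ hΔ h rx ry N0] at hfix
  have hXY := Point.some.inj hfix
  obtain ⟨n, hn⟩ := S58KR_exists_zmod (K := κ) l hXY.1
  obtain ⟨m, hm⟩ := S58KR_exists_zmod (K := κ) l hXY.2
  -- the lift
  have hns1 : (⟨c₁, c₂, c₃, c₄, c₆⟩ : WeierstrassCurve (ZMod l)).toAffine.Nonsingular n m := by
    have := N0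
    rw [hW0, ← hn, ← hm] at this
    exact (map_nonsingular _ (ZMod.castHom (dvd_refl l) κ).injective n m).mp this
  have hT1 : W.Nonsingular (ZMod.castHom (dvd_refl l) K n) (ZMod.castHom (dvd_refl l) K m) := by
    rw [hW]
    exact (map_nonsingular _ (ZMod.castHom (dvd_refl l) K).injective n m).mpr hns1
  refine ⟨Point.some _ _ hT1, ?_, ?_⟩
  · obtain ⟨h'', e⟩ := hφ _ _ hT1
    rw [e]
    have e1 : (ZMod.castHom (dvd_refl l) K n) ^ l = ZMod.castHom (dvd_refl l) K n := by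
      rw [← map_pow, ZMod.pow_card]
    have e2 : (ZMod.castHom (dvd_refl l) K m) ^ l = ZMod.castHom (dvd_refl l) K m := by
      rw [← map_pow, ZMod.pow_card]
    clear e hfix hXY
    revert h''
    rw [e1, e2]
    intro h''
    rfl
  · rw [S58RH_red_of_red h₁ h₂ h₃ h₄ h₆ hΔ h rx ry N0]
    have N1 : W0.Nonsingular (ZMod.castHom (dvd_refl l) κ n) (ZMod.castHom (dvd_refl l) κ m) := by
      rw [hn, hm]; exact N0
    rw [S58RH_red_of_red h₁ h₂ h₃ h₄ h₆ hΔ hT1 (hιRed n) (hιRed m) N1]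
    exact S58RH_some_congr _ _ hn hm

end Lift

/-! ### The main theorem -/

section Main

variable (l : ℕ) [Fact l.Prime] [CharP K l] (W : WeierstrassCurve.Affine K)

omit [DecidableEq K] in
/-- the discriminant of a curve with Frobenius-fixed coefficients is Frobenius-fixed -/
theorem S58KR_Δ_pow (hF : W.a₁ ^ l = W.a₁ ∧ W.a₂ ^ l = W.a₂ ∧ W.a₃ ^ l = W.a₃ ∧
    W.a₄ ^ l = W.a₄ ∧ W.a₆ ^ l = W.a₆) : W.Δ ^ l = W.Δ := by
  have hW : WeierstrassCurve.map W (frobenius K l) = W := by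
    ext <;> simp [frobenius_def, hF.1, hF.2.1, hF.2.2.1, hF.2.2.2.1, hF.2.2.2.2]
  have := WeierstrassCurve.map_Δ W (frobenius K l)
  rw [hW, frobenius_def] at this
  exact this.symm

/-- **[KR-LOC], multiplicative form, any valuation.** -/
theorem S58KR_main (hF : W.a₁ ^ l = W.a₁ ∧ W.a₂ ^ l = W.a₂ ∧ W.a₃ ^ l = W.a₃ ∧
      W.a₄ ^ l = W.a₄ ∧ W.a₆ ^ l = W.a₆) (hΔ : W.Δ ≠ 0)
    (φ : W.Point →+ W.Point)
    (hφ : ∀ x y (h : W.Nonsingular x y), ∃ h', φ (.some x y h) = .some (x ^ l) (y ^ l) h')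
    (T : Finset W.Point) (hT : ∀ P, P ∈ T ↔ φ P = P) (S : W.Point) :
    S58KR_H v (φ S - S) = ∏ T0 ∈ T, S58KR_H v (S - T0) := by
  classical
  have hl2 : 2 ≤ l := (Fact.out : l.Prime).two_le
  obtain ⟨hF₁, hF₂, hF₃, hF₄, hF₆⟩ := hF
  have a₁ : v W.a₁ ≤ 1 := S58KR_val_le v hl2 hF₁
  have a₂ : v W.a₂ ≤ 1 := S58KR_val_le v hl2 hF₂
  have a₃ : v W.a₃ ≤ 1 := S58KR_val_le v hl2 hF₃
  have a₄ : v W.a₄ ≤ 1 := S58KR_val_le v hl2 hF₄
  have a₆ : v W.a₆ ≤ 1 := S58KR_val_le v hl2 hF₆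
  have m₁ : W.a₁ ∈ v.valuationSubring := (v.mem_valuationSubring_iff _).mpr a₁
  have m₂ : W.a₂ ∈ v.valuationSubring := (v.mem_valuationSubring_iff _).mpr a₂
  have m₃ : W.a₃ ∈ v.valuationSubring := (v.mem_valuationSubring_iff _).mpr a₃
  have m₄ : W.a₄ ∈ v.valuationSubring := (v.mem_valuationSubring_iff _).mpr a₄
  have m₆ : W.a₆ ∈ v.valuationSubring := (v.mem_valuationSubring_iff _).mpr a₆
  have hρ : ∀ a : v.valuationSubring, IsLocalRing.residue v.valuationSubring a = 0 ↔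
      a ∈ IsLocalRing.maximalIdeal v.valuationSubring := IsLocalRing.residue_eq_zero_iff
  -- the integral model and its reduction
  obtain ⟨WA, hWA⟩ : ∃ WA : WeierstrassCurve v.valuationSubring,
      WeierstrassCurve.map WA v.valuationSubring.subtype = W :=
    ⟨⟨⟨W.a₁, m₁⟩, ⟨W.a₂, m₂⟩, ⟨W.a₃, m₃⟩, ⟨W.a₄, m₄⟩, ⟨W.a₆, m₆⟩⟩, by ext <;> rfl⟩
  obtain ⟨W0, hW0⟩ : ∃ W0 : WeierstrassCurve.Affine (IsLocalRing.ResidueField v.valuationSubring),
      W0 = WeierstrassCurve.map WA (IsLocalRing.residue v.valuationSubring) := ⟨_, rfl⟩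
  have hcoe : ∀ (a : v.valuationSubring) (b : K) (hb : b ∈ v.valuationSubring),
      (a : K) = b → a = ⟨b, hb⟩ := fun a b hb h => Subtype.ext h
  have h₁ : S58RH_Red v.valuationSubring (IsLocalRing.residue v.valuationSubring) W.a₁ W0.a₁ := by
    refine ⟨m₁, ?_⟩
    rw [hW0, ← hcoe WA.a₁ W.a₁ m₁ (by rw [← hWA]; rfl)]; rfl
  have h₂ : S58RH_Red v.valuationSubring (IsLocalRing.residue v.valuationSubring) W.a₂ W0.a₂ := by
    refine ⟨m₂, ?_⟩
    rw [hW0, ← hcoe WA.a₂ W.a₂ m₂ (by rw [← hWA]; rfl)]; rfl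
  have h₃ : S58RH_Red v.valuationSubring (IsLocalRing.residue v.valuationSubring) W.a₃ W0.a₃ := by
    refine ⟨m₃, ?_⟩
    rw [hW0, ← hcoe WA.a₃ W.a₃ m₃ (by rw [← hWA]; rfl)]; rfl
  have h₄ : S58RH_Red v.valuationSubring (IsLocalRing.residue v.valuationSubring) W.a₄ W0.a₄ := by
    refine ⟨m₄, ?_⟩
    rw [hW0, ← hcoe WA.a₄ W.a₄ m₄ (by rw [← hWA]; rfl)]; rfl
  have h₆ : S58RH_Red v.valuationSubring (IsLocalRing.residue v.valuationSubring) W.a₆ W0.a₆ := by
    refine ⟨m₆, ?_⟩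
    rw [hW0, ← hcoe WA.a₆ W.a₆ m₆ (by rw [← hWA]; rfl)]; rfl
  -- the reduced discriminant
  have hΔ0 : W0.Δ ≠ 0 := by
    have hΔl := S58KR_Δ_pow l W ⟨hF₁, hF₂, hF₃, hF₄, hF₆⟩
    have hΔA : (WA.Δ : K) = W.Δ := by
      rw [← hWA, WeierstrassCurve.map_Δ]; rfl
    obtain ⟨j, rfl⟩ : ∃ j, l = j + 1 := ⟨l - 1, by omega⟩
    have h1 : W.Δ ^ j = 1 := by
      rw [pow_succ] at hΔl
      exact mul_right_cancel₀ hΔ (by rw [hΔl, one_mul])
    have h2 : WA.Δ ^ j = 1 := by
      apply Subtype.ext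
      push_cast
      rw [hΔA, h1]
    rw [hW0, WeierstrassCurve.map_Δ]
    intro h0
    have := congrArg (IsLocalRing.residue v.valuationSubring) h2
    rw [map_pow, h0, map_one, zero_pow (by omega)] at this
    exact zero_ne_one this
  -- plug into the formal part
  refine S58KR_formal v (S58RH_redHom hρ h₁ h₂ h₃ h₄ h₆ hΔ0) ?_ φ ?_ ?_ ?_ T hT S
  · intro P
    rw [S58RH_redHom_apply, S58RH_red_eq_zero_iff]
    constructor
    · rintro (h0 | ⟨x, y, h, rfl, hx⟩)
      · exact Or.inl h0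
      · refine Or.inr ⟨x, y, h, rfl, ?_⟩
        rw [v.mem_valuationSubring_iff, not_le] at hx
        exact hx
    · rintro (h0 | ⟨x, y, h, rfl, hx⟩)
      · exact Or.inl h0
      · refine Or.inr ⟨x, y, h, rfl, ?_⟩
        rw [v.mem_valuationSubring_iff, not_le]
        exact hx
  · intro R hR hr
    rw [S58RH_redHom_apply, S58RH_red_eq_zero_iff] at hr
    rcases hr with h0 | ⟨x, y, h, rfl, hx⟩
    · exact absurd h0 hR
    · rw [v.mem_valuationSubring_iff, not_le] at hx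
      exact S58KR_depth v a₁ a₂ a₃ a₄ a₆ l φ hφ h hx
  · intro S hS hfix
    rw [S58RH_redHom_apply] at hS
    rcases S with _ | ⟨x, y, h⟩
    · exact absurd rfl hS
    · have hx : x ∈ v.valuationSubring := by
        by_contra hx
        exact hS (S58RH_red_of_not_mem h₁ h₂ h₃ h₄ h₆ hΔ0 h hx)
      exact S58KR_lift l h₁ h₂ h₃ h₄ h₆ hΔ0 hF₁ hF₂ hF₃ hF₄ hF₆ φ hφ h hx hfix
  · intro P hP hr
    rw [S58RH_redHom_apply, S58RH_red_eq_zero_iff] at hr
    rcases hr with h0 | ⟨x, y, h, rfl, hx⟩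
    · exact h0
    · exfalso
      obtain ⟨h', e⟩ := hφ x y h
      rw [e] at hP
      have := (Point.some.inj hP).1
      exact hx ((v.mem_valuationSubring_iff _).mpr (S58KR_val_le v hl2 this))

end Main

/-! ### The Place form -/

section Place

open AlgebraicCurve Fermat.Agent.S58_helper19_E1DEFS

variable (k : Type*) [Field k] {F : Type*} [Field F] [Algebra k F] [DecidableEq F]

omit [DecidableEq F] in
theorem S58KR_lam_eq (v : Place k F) (x : F) :
    S58E1_lam k v x = WithZero.log (max 1 (v.adicValuation x)) := by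
  have hord : -(v.ord x) = WithZero.log (v.adicValuation x) := by
    simp [Place.ord]
  rw [S58E1_lam, hord]
  rcases le_total (v.adicValuation x) 1 with h | h
  · rw [max_eq_left h, WithZero.log_one]
    apply max_eq_left
    by_cases h0 : v.adicValuation x = 0
    · rw [h0]; simp
    · have := (WithZero.log_le_log h0 one_ne_zero).mpr h
      rwa [WithZero.log_one] at this
  · rw [max_eq_right h]
    apply max_eq_right
    have h0 : v.adicValuation x ≠ 0 := (lt_of_lt_of_le zero_lt_one h).ne'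
    have := (WithZero.log_le_log one_ne_zero h0).mpr h
    rwa [WithZero.log_one] at this

theorem S58KR_lamP_eq (v : Place k F) (W : WeierstrassCurve.Affine F) (P : W.Point) :
    S58E1_lamP k W v P = WithZero.log (S58KR_H v.adicValuation P) := by
  rcases P with _ | ⟨x, y, h⟩
  · change (0 : ℤ) = WithZero.log 1
    rw [WithZero.log_one]
  · exact S58KR_lam_eq k v x

omit [DecidableEq F] in
theorem S58KR_log_prod {ι : Type*} (s : Finset ι) (f : ι → WithZero (Multiplicative ℤ)) (hf : ∀ i ∈ s, f i ≠ 0) :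
    WithZero.log (∏ i ∈ s, f i) = ∑ i ∈ s, WithZero.log (f i) := by
  classical
  induction s using Finset.induction_on with
  | empty => simp
  | insert a s ha ih =>
    rw [Finset.prod_insert ha, Finset.sum_insert ha,
      WithZero.log_mul (hf a (Finset.mem_insert_self a s))
        (Finset.prod_ne_zero_iff.mpr fun i hi => hf i (Finset.mem_insert_of_mem hi)),
      ih fun i hi => hf i (Finset.mem_insert_of_mem hi)]

/-- **[KR-LOC] at a place of a function field**, in the vocabulary of `S58_helper19_E1DEFS`. -/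
theorem S58KR_loc (v : Place k F) (l : ℕ) [Fact l.Prime] [CharP F l]
    (W : WeierstrassCurve.Affine F)
    (hF : W.a₁ ^ l = W.a₁ ∧ W.a₂ ^ l = W.a₂ ∧ W.a₃ ^ l = W.a₃ ∧
      W.a₄ ^ l = W.a₄ ∧ W.a₆ ^ l = W.a₆) (hΔ : W.Δ ≠ 0)
    (φ : W.Point →+ W.Point)
    (hφ : ∀ x y (h : W.Nonsingular x y), ∃ h', φ (.some x y h) = .some (x ^ l) (y ^ l) h')
    (T : Finset W.Point) (hT : ∀ P, P ∈ T ↔ φ P = P) (S : W.Point) :
    S58E1_lamP k W v (φ S - S) = ∑ T0 ∈ T, S58E1_lamP k W v (S - T0) := by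
  rw [S58KR_lamP_eq, S58KR_main v.adicValuation l W hF hΔ φ hφ T hT S,
    S58KR_log_prod _ _ (fun i _ => S58KR_H_ne_zero _ _)]
  exact Finset.sum_congr rfl fun T0 _ => (S58KR_lamP_eq k v W _).symm

end Place

end Fermat.Agent.S58_helper6_KRLOC
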