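import Mathlib
import Fermat.Agent.S58_helper4_GRAM

/-!
# S58, (E1a) [KR] (helper7): the global kernel-of-reduction identity, abstract form

`Γ` an abelian group (the points of `E` over the function field), `lam v : Γ → ℤ` the local
heights at the places `v`, `h S = ∑ᶠ v, lam v S` the height, satisfying the exact parallelogram
law.  `𝒯` a finite set of torsion points of height `0` (the `𝔽_l`-rational points, constant).
If at every place `lam v (φ S - S) = ∑ T0 ∈ 𝒯, lam v (S - T0)` ([KR-LOC]), then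

  `h (φ S - S) = #𝒯 * h S`   for all `S`.

* `S58KR_torsion`  : `h (S + T0) = h S` and `h (S - T0) = h S` for a torsion point of height `0`;
* `S58KR_abs`      : the identity for `h = ∑ᶠ v, lam v`;
* `S58KR_abs'`     : the same for any `h` with `h S = ∑ᶠ v, lam v S`, in the shape `hN` of
  `S58GR_gram` (`N = #𝒯`).
-/

set_option autoImplicit false

namespace Fermat.Agent.S58_helper7_KR

open Fermat.Agent.S58_helper4_GRAM

variable {Γ : Type*} [AddCommGroup Γ]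

/-- translation by a torsion point of height `0` does not change the height. -/
theorem S58KR_torsion (h : Γ → ℤ)
    (hpar : ∀ S T : Γ, h (S + T) + h (S - T) = 2 * h S + 2 * h T)
    (T0 : Γ) (n : ℤ) (hn : n ≠ 0) (hT : n • T0 = 0) (h0 : h T0 = 0) (S : Γ) :
    h (S + T0) = h S ∧ h (S - T0) = h S := by
  have hz : S58GR_B h S 0 = 0 := by
    unfold S58GR_B
    rw [add_zero, S58GR_zero h hpar]
    ring
  have hB : S58GR_B h S T0 = 0 := by
    have key := S58GR_B_zsmul_right h hpar n S T0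
    rw [hT, hz] at key
    rcases mul_eq_zero.mp key.symm with h1 | h1
    · exact absurd h1 hn
    · exact h1
  constructor
  · rw [S58GR_add h S T0, hB, h0]
    ring
  · rw [S58GR_sub h hpar S T0, hB, h0]
    ring

/-- **[KR], abstract**: the global identity from the local one. -/
theorem S58KR_abs' {ι : Type*} (lam : ι → Γ → ℤ) (h : Γ → ℤ)
    (hh : ∀ S, h S = ∑ᶠ v, lam v S)
    (hfin : ∀ S, (Function.support fun v => lam v S).Finite)
    (hpar : ∀ S T : Γ, h (S + T) + h (S - T) = 2 * h S + 2 * h T)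
    (φ : Γ → Γ) (𝒯 : Finset Γ)
    (htors : ∀ T0 ∈ 𝒯, ∃ n : ℤ, n ≠ 0 ∧ n • T0 = 0)
    (hconst : ∀ T0 ∈ 𝒯, h T0 = 0)
    (hloc : ∀ v S, lam v (φ S - S) = ∑ T0 ∈ 𝒯, lam v (S - T0)) (S : Γ) :
    h (φ S - S) = (𝒯.card : ℤ) * h S := by
  rw [hh (φ S - S)]
  have e1 : (∑ᶠ v, lam v (φ S - S)) = ∑ᶠ v, ∑ T0 ∈ 𝒯, lam v (S - T0) :=
    finsum_congr fun v => hloc v S
  rw [e1, finsum_sum_comm 𝒯 (fun v T0 => lam v (S - T0)) (fun T0 _ => hfin (S - T0))]
  have e2 : ∀ T0 ∈ 𝒯, (∑ᶠ v, lam v (S - T0)) = h S := by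
    intro T0 hT0
    rw [← hh (S - T0)]
    obtain ⟨n, hn, hnT⟩ := htors T0 hT0
    exact (S58KR_torsion h hpar T0 n hn hnT (hconst T0 hT0) S).2
  rw [Finset.sum_congr rfl e2, Finset.sum_const, nsmul_eq_mul]

/-- **[KR], abstract**, for `h = ∑ᶠ v, lam v`. -/
theorem S58KR_abs {ι : Type*} (lam : ι → Γ → ℤ)
    (hfin : ∀ S, (Function.support fun v => lam v S).Finite)
    (hpar : ∀ S T : Γ, (∑ᶠ v, lam v (S + T)) + (∑ᶠ v, lam v (S - T)) =
      2 * (∑ᶠ v, lam v S) + 2 * ∑ᶠ v, lam v T)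
    (φ : Γ → Γ) (𝒯 : Finset Γ)
    (htors : ∀ T0 ∈ 𝒯, ∃ n : ℤ, n ≠ 0 ∧ n • T0 = 0)
    (hconst : ∀ T0 ∈ 𝒯, (∑ᶠ v, lam v T0) = 0)
    (hloc : ∀ v S, lam v (φ S - S) = ∑ T0 ∈ 𝒯, lam v (S - T0)) (S : Γ) :
    (∑ᶠ v, lam v (φ S - S)) = (𝒯.card : ℤ) * ∑ᶠ v, lam v S :=
  S58KR_abs' lam (fun S => ∑ᶠ v, lam v S) (fun _ => rfl) hfin hpar φ 𝒯 htors hconst hloc S

end Fermat.Agent.S58_helper7_KR
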