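import Mathlib
import Fermat.Agent.S58_helper7_KR
import Fermat.Agent.S58_helper19_E1DEFS
import Fermat.Agent.S24_helper6_A2

/-!
# S58, (E1a) [KR] (helper7): the global kernel-of-reduction identity, concrete form

`𝔽` a finite field, `k ⊇ 𝔽` the constant field, `F / k` the function field, places
`AlgebraicCurve.Place k F`, `W0` a Weierstrass curve over `𝔽`, heights `S58E1_h k (W0⁄F)` of
helper19's `E1DEFS`.  The constant points are the images of the `𝔽`-points under
`Point.baseChange 𝔽 F`.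

* `S58KR_abs_fin`  : the abstract identity with the torsion points indexed by a finite type;
* `S58KR_finite`   : `(W0⁄𝔽).Point` is finite;
* `S58KR_h_const`  : a constant point has height `0`;
* `S58KR_main`     : `h (φ S - S) = #W0(𝔽) * h S` for ANY map `φ` satisfying [KR-LOC]
  (`lamP v (φ S - S) = ∑ᶠ P0 : W0(𝔽), lamP v (S - P0)` at every place), from the product formula
  (finiteness of the poles) and the exact parallelogram law;
* `S58KR_frob`     : the Frobenius on points `Point.map (FiniteField.frobeniusAlgHom 𝔽 F)`;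
* `S58KR_main_frob`: `S58KR_main` for `φ = S58KR_frob`, in the shape `hN` of `S58GR_gram`.
-/

set_option autoImplicit false
set_option linter.unusedSectionVars false
set_option linter.unusedVariables false
set_option linter.style.haveILetI false

open AlgebraicCurve WeierstrassCurve WeierstrassCurve.Affine
open Fermat.Agent.S58_helper19_E1DEFS Fermat.Agent.S58_helper4_GRAM

namespace Fermat.Agent.S58_helper7_KRC

section Abs

variable {Γ : Type*} [AddCommGroup Γ]

/-- **[KR], abstract**, the torsion points indexed by a finite type. -/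
theorem S58KR_abs_fin {ι τ : Type*} [Finite τ] (lam : ι → Γ → ℤ) (h : Γ → ℤ)
    (hh : ∀ S, h S = ∑ᶠ v, lam v S)
    (hfin : ∀ S, (Function.support fun v => lam v S).Finite)
    (hpar : ∀ S T : Γ, h (S + T) + h (S - T) = 2 * h S + 2 * h T)
    (φ : Γ → Γ) (T : τ → Γ)
    (htors : ∀ t, ∃ n : ℤ, n ≠ 0 ∧ n • T t = 0)
    (hconst : ∀ t, h (T t) = 0)
    (hloc : ∀ v S, lam v (φ S - S) = ∑ᶠ t, lam v (S - T t)) (S : Γ) :
    h (φ S - S) = (Nat.card τ : ℤ) * h S := by
  classical
  haveI : Fintype τ := Fintype.ofFinite τ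
  rw [hh (φ S - S)]
  have e1 : (∑ᶠ v, lam v (φ S - S)) = ∑ᶠ v, ∑ t : τ, lam v (S - T t) :=
    finsum_congr fun v => by rw [hloc v S, finsum_eq_sum_of_fintype]
  rw [e1, finsum_sum_comm Finset.univ (fun v t => lam v (S - T t))
    (fun t _ => hfin (S - T t))]
  have e2 : ∀ t ∈ (Finset.univ : Finset τ), (∑ᶠ v, lam v (S - T t)) = h S := by
    intro t _
    rw [← hh (S - T t)]
    obtain ⟨n, hn, hnT⟩ := htors t
    exact (Fermat.Agent.S58_helper7_KR.S58KR_torsion h hpar (T t) n hn hnT (hconst t) S).2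
  rw [Finset.sum_congr rfl e2, Finset.sum_const, nsmul_eq_mul, Finset.card_univ,
    Nat.card_eq_fintype_card]

end Abs

section Concrete

variable {𝔽 : Type*} (k : Type*) {F : Type*} [Field 𝔽] [Field k] [Field F] [DecidableEq 𝔽]
  [DecidableEq F] [Algebra 𝔽 k] [Algebra k F] [Algebra 𝔽 F] [IsScalarTower 𝔽 k F]
  (W0 : WeierstrassCurve.Affine 𝔽)

/-- the points of a Weierstrass curve over a finite field are finite in number. -/
theorem S58KR_finite [Finite 𝔽] (W : WeierstrassCurve.Affine 𝔽) : Finite W.Point := by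
  classical
  let f : W.Point → Option (𝔽 × 𝔽) := fun P =>
    match P with
    | .zero => none
    | .some x y _ => some (x, y)
  refine Finite.of_injective f ?_
  rintro (_ | ⟨x, y, h⟩) (_ | ⟨x', y', h'⟩) e
  · rfl
  · exact absurd e (by simp [f])
  · exact absurd e (by simp [f])
  · have e' : (x, y) = (x', y') := Option.some.inj e
    have hx : x = x' := congrArg Prod.fst e'
    have hy : y = y' := congrArg Prod.snd e'
    subst hx
    subst hy
    rfl

/-- the local heights of a constant point vanish. -/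
theorem S58KR_lamP_const (v : Place k F) (P0 : (W0⁄𝔽).Point) :
    S58E1_lamP k (W0⁄F) v (Point.baseChange 𝔽 F P0) = 0 := by
  rcases P0 with _ | ⟨x, y, h⟩
  · rfl
  · show S58E1_lam k v (Algebra.ofId 𝔽 F x) = 0
    rw [S58E1_lam_eq_zero_iff]
    have e : (Algebra.ofId 𝔽 F) x = algebraMap k F (algebraMap 𝔽 k x) := by
      rw [Algebra.ofId_apply, IsScalarTower.algebraMap_apply 𝔽 k F]
    rw [e]
    rw [Fermat.Agent.S24_helper6_A2.ord_algebraMap_eq_zero v (algebraMap 𝔽 k x)]

/-- a constant point has height `0`. -/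
theorem S58KR_h_const (P0 : (W0⁄𝔽).Point) :
    S58E1_h k (W0⁄F) (Point.baseChange 𝔽 F P0) = 0 := by
  rw [S58E1_h_eq_finsum]
  simp only [S58KR_lamP_const, finsum_zero]

/-- under the product formula the local heights of a point have finite support. -/
theorem S58KR_lamP_support_finite (hPF : S58E1_PF k F) (W : WeierstrassCurve.Affine F)
    (P : W.Point) : (Function.support fun v : Place k F => S58E1_lamP k W v P).Finite := by
  rcases P with _ | ⟨x, y, h⟩
  · have : (Function.support fun v : Place k F => S58E1_lamP k W v (Point.zero)) = ∅ := by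
      ext v
      simp only [Function.mem_support, ne_eq, Set.mem_empty_iff_false, iff_false, not_not]
      rfl
    rw [this]
    exact Set.finite_empty
  · exact S58E1_lam_support_finite hPF x

/-- **[KR]**: `h (φ S - S) = #W0(𝔽) * h S` for any `φ` satisfying [KR-LOC]. -/
theorem S58KR_main [Finite 𝔽] (hPF : S58E1_PF k F)
    (hpar : ∀ S T : (W0⁄F).Point, S58E1_h k (W0⁄F) (S + T) + S58E1_h k (W0⁄F) (S - T) =
      2 * S58E1_h k (W0⁄F) S + 2 * S58E1_h k (W0⁄F) T)
    (φ : (W0⁄F).Point → (W0⁄F).Point)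
    (hloc : ∀ (v : Place k F) (S : (W0⁄F).Point),
      S58E1_lamP k (W0⁄F) v (φ S - S) =
        ∑ᶠ P0 : (W0⁄𝔽).Point, S58E1_lamP k (W0⁄F) v (S - Point.baseChange 𝔽 F P0))
    (S : (W0⁄F).Point) :
    S58E1_h k (W0⁄F) (φ S - S) = (Nat.card (W0⁄𝔽).Point : ℤ) * S58E1_h k (W0⁄F) S := by
  haveI : Finite (W0⁄𝔽).Point := S58KR_finite (W0⁄𝔽)
  refine S58KR_abs_fin (fun v P => S58E1_lamP k (W0⁄F) v P) (S58E1_h k (W0⁄F))
    (fun P => S58E1_h_eq_finsum (W0⁄F) P)
    (fun P => S58KR_lamP_support_finite k hPF (W0⁄F) P) hpar φ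
    (fun P0 => Point.baseChange 𝔽 F P0) (fun P0 => ?_) (fun P0 => S58KR_h_const k W0 P0)
    hloc S
  -- the constant points are torsion
  have hcard : Nat.card (W0⁄𝔽).Point ≠ 0 := Nat.card_pos.ne'
  refine ⟨(Nat.card (W0⁄𝔽).Point : ℤ), by exact_mod_cast hcard, ?_⟩
  rw [natCast_zsmul, ← map_nsmul]
  have : Nat.card (W0⁄𝔽).Point • P0 = 0 := card_nsmul_eq_zero'
  rw [this, map_zero]

variable (F) in
/-- the Frobenius on the points of `W0` over `F`: coordinatewise `#𝔽`-th power. -/
noncomputable def S58KR_frob [Fintype 𝔽] : (W0⁄F).Point →+ (W0⁄F).Point :=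
  Point.map (W' := W0) (FiniteField.frobeniusAlgHom 𝔽 F)

theorem S58KR_frob_zero [Fintype 𝔽] : S58KR_frob F W0 0 = 0 := rfl

theorem S58KR_frob_some [Fintype 𝔽] {x y : F} (h : (W0⁄F).Nonsingular x y) :
    ∃ h' : (W0⁄F).Nonsingular (x ^ Fintype.card 𝔽) (y ^ Fintype.card 𝔽),
      S58KR_frob F W0 (.some x y h) = .some _ _ h' :=
  ⟨(W0.baseChange_nonsingular (FiniteField.frobeniusAlgHom 𝔽 F).injective ..).mpr h, rfl⟩

/-- **[KR] for the Frobenius**, in the shape `hN` of `S58GR_gram`. -/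
theorem S58KR_main_frob [Fintype 𝔽] (hPF : S58E1_PF k F)
    (hpar : ∀ S T : (W0⁄F).Point, S58E1_h k (W0⁄F) (S + T) + S58E1_h k (W0⁄F) (S - T) =
      2 * S58E1_h k (W0⁄F) S + 2 * S58E1_h k (W0⁄F) T)
    (hloc : ∀ (v : Place k F) (S : (W0⁄F).Point),
      S58E1_lamP k (W0⁄F) v (S58KR_frob F W0 S - S) =
        ∑ᶠ P0 : (W0⁄𝔽).Point, S58E1_lamP k (W0⁄F) v (S - Point.baseChange 𝔽 F P0)) :
    ∀ S : (W0⁄F).Point, S58E1_h k (W0⁄F) (S58KR_frob F W0 S - S) =
      (Nat.card (W0⁄𝔽).Point : ℤ) * S58E1_h k (W0⁄F) S :=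
  fun S => S58KR_main k W0 hPF hpar (S58KR_frob F W0) hloc S

end Concrete

end Fermat.Agent.S58_helper7_KRC
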