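import Mathlib
import Fermat.Agent.S58_helper7_KRC

/-!
# S58, (E1a) [KR] (helper7): the global identity over `ZMod l`, from helper6's [KR-LOC]

`W0` a Weierstrass curve over `ZMod l`, `F` a field over `ZMod l`, `φ` an additive map on
`(W0⁄F).Point` acting on the coordinates by `u ↦ u ^ l`.

* `S58KRG_mem_range`  : `x ^ l = x` in `F` iff `x` comes from `ZMod l`;
* `S58KRG_T`          : the `Finset` of constant points (image of `W0(ZMod l)`);
* `S58KRG_mem_T`      : `P ∈ S58KRG_T ↔ φ P = P` (the shape `hT` of helper6's `S58KR_loc`);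
* `S58KRG_coeff`      : the coefficients of `W0⁄F` are fixed by `u ↦ u ^ l` (the shape `hF`);
* `S58KRG_card`       : `#S58KRG_T = Nat.card W0.Point`;
* `S58KRG_main`       : **`h (φ S - S) = Nat.card W0.Point * h S`** from the product formula, the
  parallelogram law and [KR-LOC] at the Finset of fixed points of `φ`.
-/

set_option autoImplicit false
set_option linter.unusedSectionVars false
set_option linter.unusedVariables false
set_option linter.style.haveILetI false

open AlgebraicCurve WeierstrassCurve WeierstrassCurve.Affine Polynomial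
open Fermat.Agent.S58_helper19_E1DEFS Fermat.Agent.S58_helper4_GRAM
open Fermat.Agent.S58_helper7_KRC

namespace Fermat.Agent.S58_helper7_KRG

variable (l : ℕ) [Fact l.Prime] {F : Type*} [Field F] [Algebra (ZMod l) F]

/-- the fixed points of `u ↦ u ^ l` in a field over `ZMod l` are the elements of `ZMod l`. -/
theorem S58KRG_mem_range (x : F) (hx : x ^ l = x) : ∃ c : ZMod l, algebraMap (ZMod l) F c = x := by
  classical
  by_contra hne
  push Not at hne
  have hl1 : 1 < l := (Fact.out : l.Prime).one_lt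
  have hp0 : (X ^ l - X : F[X]) ≠ 0 := FiniteField.X_pow_card_sub_X_ne_zero F hl1
  have hdeg : (X ^ l - X : F[X]).natDegree = l := FiniteField.X_pow_card_sub_X_natDegree_eq F hl1
  let Z : Finset F := insert x (Finset.univ.image (algebraMap (ZMod l) F))
  have hZ : Z.val ⊆ (X ^ l - X : F[X]).roots := by
    intro z hz
    rw [Finset.mem_val, Finset.mem_insert, Finset.mem_image] at hz
    rw [mem_roots hp0, IsRoot.def, eval_sub, eval_pow, eval_X, sub_eq_zero]
    rcases hz with rfl | ⟨c, -, rfl⟩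
    · exact hx
    · rw [← map_pow, ZMod.pow_card]
  have hcard := Polynomial.card_le_degree_of_subset_roots hZ
  rw [hdeg] at hcard
  have hnot : x ∉ Finset.univ.image (algebraMap (ZMod l) F) := by
    intro h
    obtain ⟨c, -, hc⟩ := Finset.mem_image.mp h
    exact hne c hc
  have hZc : Z.card = l + 1 := by
    rw [Finset.card_insert_of_notMem hnot,
      Finset.card_image_of_injective _ (algebraMap (ZMod l) F).injective, Finset.card_univ,
      ZMod.card]
  omega

variable [DecidableEq F] (W0 : WeierstrassCurve.Affine (ZMod l))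

/-- the coefficients of `W0⁄F` are fixed by `u ↦ u ^ l`. -/
theorem S58KRG_coeff :
    (W0⁄F).a₁ ^ l = (W0⁄F).a₁ ∧ (W0⁄F).a₂ ^ l = (W0⁄F).a₂ ∧ (W0⁄F).a₃ ^ l = (W0⁄F).a₃ ∧
      (W0⁄F).a₄ ^ l = (W0⁄F).a₄ ∧ (W0⁄F).a₆ ^ l = (W0⁄F).a₆ := by
  have key : ∀ c : ZMod l, (algebraMap (ZMod l) F c) ^ l = algebraMap (ZMod l) F c := fun c => by
    rw [← map_pow, ZMod.pow_card]
  exact ⟨key _, key _, key _, key _, key _⟩

/-- the `Finset` of constant points of `W0⁄F`. -/
noncomputable def S58KRG_T : Finset (W0⁄F).Point :=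
  haveI : Finite (W0⁄(ZMod l)).Point := S58KR_finite (W0⁄(ZMod l))
  haveI : Fintype (W0⁄(ZMod l)).Point := Fintype.ofFinite _
  Finset.univ.image (Point.baseChange (W' := W0) (ZMod l) F)

theorem S58KRG_mem_T_iff (P : (W0⁄F).Point) :
    P ∈ S58KRG_T l (F := F) W0 ↔ ∃ P0 : (W0⁄(ZMod l)).Point, Point.baseChange (ZMod l) F P0 = P := by
  unfold S58KRG_T
  simp only [Finset.mem_image, Finset.mem_univ, true_and]

/-- `#S58KRG_T = #W0(ZMod l)` (base change form). -/
theorem S58KRG_card' :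
    (S58KRG_T l (F := F) W0).card = Nat.card (W0⁄(ZMod l)).Point := by
  haveI : Finite (W0⁄(ZMod l)).Point := S58KR_finite (W0⁄(ZMod l))
  letI : Fintype (W0⁄(ZMod l)).Point := Fintype.ofFinite _
  have hinj : Function.Injective (Point.baseChange (W' := W0) (ZMod l) F) :=
    Point.map_injective _
  unfold S58KRG_T
  rw [Finset.card_image_of_injective _ hinj, Finset.card_univ, Nat.card_eq_fintype_card]

theorem S58KRG_baseChange_self : W0⁄(ZMod l) = W0 := by
  show WeierstrassCurve.map W0 (algebraMap (ZMod l) (ZMod l)) = W0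
  rw [Algebra.algebraMap_self]
  exact WeierstrassCurve.map_id W0

/-- `#S58KRG_T = Nat.card W0.Point`. -/
theorem S58KRG_card : ((S58KRG_T l (F := F) W0).card : ℤ) = (Nat.card W0.Point : ℤ) := by
  rw [S58KRG_card']
  have : ∀ W W' : WeierstrassCurve.Affine (ZMod l), W = W' →
      Nat.card W.Point = Nat.card W'.Point := by
    rintro W W' rfl
    rfl
  rw [this _ _ (S58KRG_baseChange_self l W0)]

variable (φ : (W0⁄F).Point →+ (W0⁄F).Point)
  (hφ : ∀ (x y : F) (h : (W0⁄F).Nonsingular x y),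
    ∃ h' : (W0⁄F).Nonsingular (x ^ l) (y ^ l), φ (.some x y h) = .some (x ^ l) (y ^ l) h')

include hφ in
/-- **the constant points are the fixed points of the Frobenius** (`hT` of `S58KR_loc`). -/
theorem S58KRG_mem_T (P : (W0⁄F).Point) : P ∈ S58KRG_T l (F := F) W0 ↔ φ P = P := by
  rw [S58KRG_mem_T_iff]
  constructor
  · rintro ⟨P0, rfl⟩
    rcases P0 with _ | ⟨x0, y0, h0⟩
    · exact map_zero φ
    · obtain ⟨h', e⟩ := hφ _ _ ((W0.baseChange_nonsingular
        (Algebra.ofId (ZMod l) F).injective ..).mpr h0)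
      show φ (Point.some _ _ _) = Point.some _ _ _
      rw [e]
      have e1 : (Algebra.ofId (ZMod l) F) x0 ^ l = (Algebra.ofId (ZMod l) F) x0 := by
        rw [← map_pow, ZMod.pow_card]
      have e2 : (Algebra.ofId (ZMod l) F) y0 ^ l = (Algebra.ofId (ZMod l) F) y0 := by
        rw [← map_pow, ZMod.pow_card]
      simp only [Point.some.injEq]
      exact ⟨e1, e2⟩
  · intro hP
    rcases P with _ | ⟨x, y, h⟩
    · exact ⟨0, map_zero _⟩
    · obtain ⟨h', e⟩ := hφ x y h
      rw [e] at hP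
      have hx : x ^ l = x := (Point.some.inj hP).1
      have hy : y ^ l = y := (Point.some.inj hP).2
      obtain ⟨x0, rfl⟩ := S58KRG_mem_range l x hx
      obtain ⟨y0, rfl⟩ := S58KRG_mem_range l y hy
      have h0 : (W0⁄(ZMod l)).Nonsingular x0 y0 := by
        have h1 : (W0⁄F).Nonsingular ((Algebra.ofId (ZMod l) F) x0)
            ((Algebra.ofId (ZMod l) F) y0) := h
        exact (W0.baseChange_nonsingular (Algebra.ofId (ZMod l) F).injective ..).mp h1
      exact ⟨.some x0 y0 h0, rfl⟩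

variable (k : Type*) [Field k] [Algebra (ZMod l) k] [Algebra k F] [IsScalarTower (ZMod l) k F]

include hφ in
/-- **[KR] over `ZMod l`**: `h (φ S - S) = Nat.card W0.Point * h S`, from the product formula,
the exact parallelogram law and [KR-LOC] (helper6's `S58KR_loc`, applied to the Finset of fixed
points of `φ`). -/
theorem S58KRG_main (hPF : S58E1_PF k F)
    (hpar : ∀ S T : (W0⁄F).Point, S58E1_h k (W0⁄F) (S + T) + S58E1_h k (W0⁄F) (S - T) =
      2 * S58E1_h k (W0⁄F) S + 2 * S58E1_h k (W0⁄F) T)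
    (hloc : ∀ (T : Finset (W0⁄F).Point), (∀ P, P ∈ T ↔ φ P = P) →
      ∀ (v : Place k F) (S : (W0⁄F).Point),
        S58E1_lamP k (W0⁄F) v (φ S - S) = ∑ T0 ∈ T, S58E1_lamP k (W0⁄F) v (S - T0))
    (S : (W0⁄F).Point) :
    S58E1_h k (W0⁄F) (φ S - S) = (Nat.card W0.Point : ℤ) * S58E1_h k (W0⁄F) S := by
  rw [← S58KRG_card l (F := F) W0]
  refine Fermat.Agent.S58_helper7_KR.S58KR_abs' (fun v P => S58E1_lamP k (W0⁄F) v P)
    (S58E1_h k (W0⁄F)) (fun P => S58E1_h_eq_finsum (W0⁄F) P)
    (fun P => S58KR_lamP_support_finite k hPF (W0⁄F) P) hpar φ (S58KRG_T l W0)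
    (fun T0 hT0 => ?_) (fun T0 hT0 => ?_)
    (hloc (S58KRG_T l W0) (S58KRG_mem_T l W0 φ hφ)) S
  · -- torsion
    obtain ⟨P0, rfl⟩ := (S58KRG_mem_T_iff l W0 T0).1 hT0
    haveI : Finite (W0⁄(ZMod l)).Point := S58KR_finite (W0⁄(ZMod l))
    have hcard : Nat.card (W0⁄(ZMod l)).Point ≠ 0 := Nat.card_pos.ne'
    refine ⟨(Nat.card (W0⁄(ZMod l)).Point : ℤ), by exact_mod_cast hcard, ?_⟩
    rw [natCast_zsmul, ← map_nsmul]
    have : Nat.card (W0⁄(ZMod l)).Point • P0 = 0 := card_nsmul_eq_zero'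
    rw [this, map_zero]
  · -- height zero
    obtain ⟨P0, rfl⟩ := (S58KRG_mem_T_iff l W0 T0).1 hT0
    exact S58KR_h_const k W0 P0

end Fermat.Agent.S58_helper7_KRG
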