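import Mathlib
import Fermat.Prelude.Def_AlgebraicCurve_DivisorClassGroup
import Fermat.Agent.S58_helper19_E1AC
import Fermat.Agent.S58_helper21_PFC
import Fermat.Agent.S58_helper4_AVAL
import Fermat.Agent.S58_helper1_DUPP
import Fermat.Agent.S58_helper7_KRG
import Fermat.Agent.S58_helper6_KRLOC
import Fermat.Agent.S58_helper15_TRANS

/-!
# S58 (E1a) — CLOSED: the Frobenius relation on `E(k)` (helper19)

`S58E1AF_main`: `l` prime, `W₀ : WeierstrassCurve.Affine (ZMod l)` with `Δ ≠ 0`, `k` an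
algebraically closed field over `ZMod l`.  For every point `P` of `W₀` over `k`,

  `phi (phi P) - (l + 1 - #W₀(ZMod l)) • phi P + l • P = 0`,

`phi` the coordinatewise `l`-th power.  No hypothesis left: [PF] + [CONST-FF] (helper21, helper10),
[A-VAL] (helper4, helper8), [DUP] (helper1), [PAR], [SC], [CONST], assembly (helper19),
[KR-LOC] (helper6), [KR] (helper7), [GRAM] (helper4), [TRANS] (helper15).
-/

set_option autoImplicit false

namespace Fermat.Agent.S58_helper19_E1AF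

open AlgebraicCurve WeierstrassCurve WeierstrassCurve.Affine
open Fermat.Agent.S58_helper19_E1DEFS Fermat.Agent.S58_helper19_PAR
open Fermat.Agent.S58_helper19_FROB Fermat.Agent.S58_helper19_E1A
open Fermat.Agent.S58_helper19_E1AC

variable (l : ℕ) [Fact l.Prime] (W₀ : WeierstrassCurve.Affine (ZMod l))
  (k : Type*) [Field k] [Algebra (ZMod l) k]

theorem S58E1AF_Δk (hΔ : W₀.Δ ≠ 0) : (W₀⁄k).Δ ≠ 0 := by
  have e : (W₀⁄k).Δ = algebraMap (ZMod l) k W₀.Δ :=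
    WeierstrassCurve.map_Δ W₀ (algebraMap (ZMod l) k)
  rw [e]
  exact (map_ne_zero_iff _ (algebraMap (ZMod l) k).injective).mpr hΔ

variable [IsAlgClosed k] [DecidableEq k]

/-- **(E1a), closed**: the Frobenius relation on the points over an algebraically closed field. -/
theorem S58E1AF_main (hΔ : W₀.Δ ≠ 0) (P : (W₀⁄k).Point) :
    S58FR_phi l W₀ k (S58FR_phi l W₀ k P)
      - ((l : ℤ) + 1 - (Nat.card W₀.Point : ℤ)) • S58FR_phi l W₀ k P + (l : ℤ) • P = 0 := by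
  classical
  have hΔk : (W₀⁄k).Δ ≠ 0 := S58E1AF_Δk l W₀ k hΔ
  have hΔF : (W₀⁄(S58E1AC_F l W₀ k)).Δ ≠ 0 := S58E1AC_Δ_ne_zero l W₀ k hΔ
  -- [PF] and [NP]
  have hPF : S58E1_PF k (S58E1AC_F l W₀ k) :=
    Fermat.Agent.S58_helper21_PFC.S58PF_ell (W₀⁄k) hΔk
  have hNP : ∀ u : S58E1AC_F l W₀ k, (∀ v : Place k (S58E1AC_F l W₀ k), 0 ≤ v.ord u) →
      u ∈ Set.range (algebraMap k (S58E1AC_F l W₀ k)) := fun u hu => by
    obtain ⟨c, hc⟩ := Fermat.Agent.S58_helper21_PFC.S58PF_ell_const (W₀⁄k) hΔk u hu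
    exact ⟨c, hc.symm⟩
  -- [DUP]
  have hD : S58PAR_Dup k (W₀⁄(S58E1AC_F l W₀ k)) :=
    Fermat.Agent.S58_helper1_DUPP.S58DUPP_tower hPF W₀ hΔk
  -- [A-VAL]
  have hA : S58PAR_AVal k (W₀⁄(S58E1AC_F l W₀ k)) := by
    have key : ∀ W0 : WeierstrassCurve (ZMod l), (W0.map (algebraMap (ZMod l) k)).Δ ≠ 0 →
        S58PAR_AVal k (W0.map (algebraMap (ZMod l) (S58E1AC_F l W₀ k))).toAffine := by
      intro W0 h
      have e : W0.map (algebraMap (ZMod l) (S58E1AC_F l W₀ k))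
          = (W0.map (algebraMap (ZMod l) k)).map (algebraMap k (S58E1AC_F l W₀ k)) := by
        rw [WeierstrassCurve.map_map, ← IsScalarTower.algebraMap_eq]
      rw [e]
      exact Fermat.Agent.S58_helper4_AVAL.S58AV_main_const _ h
    exact key W₀ hΔk
  -- [PAR]
  have hpar := S58PAR_main hPF (W₀⁄(S58E1AC_F l W₀ k)) hA hD
  -- [KR]
  have : CharP (S58E1AC_F l W₀ k) l :=
    charP_of_injective_algebraMap (algebraMap (ZMod l) (S58E1AC_F l W₀ k)).injective l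
  have hφ : ∀ (x y : S58E1AC_F l W₀ k) (h : (W₀⁄(S58E1AC_F l W₀ k)).Nonsingular x y),
      ∃ h', S58FR_phi l W₀ (S58E1AC_F l W₀ k) (Point.some x y h)
        = Point.some (x ^ l) (y ^ l) h' := fun x y h => S58FR_phi_some l W₀ _ h
  have hKR : ∀ S : (W₀⁄(S58E1AC_F l W₀ k)).Point,
      S58E1_h k (W₀⁄(S58E1AC_F l W₀ k)) (S58FR_phi l W₀ (S58E1AC_F l W₀ k) S - S)
        = (Nat.card W₀.Point : ℤ) * S58E1_h k (W₀⁄(S58E1AC_F l W₀ k)) S := fun S =>
    Fermat.Agent.S58_helper7_KRG.S58KRG_main l W₀ (S58FR_phi l W₀ (S58E1AC_F l W₀ k)) hφ k hPF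
      hpar
      (fun T hT v S => Fermat.Agent.S58_helper6_KRLOC.S58KR_loc k v l
        (W₀⁄(S58E1AC_F l W₀ k)) (Fermat.Agent.S58_helper7_KRG.S58KRG_coeff l W₀) hΔF
        (S58FR_phi l W₀ (S58E1AC_F l W₀ k)) hφ T hT S) S
  -- [TRANS]
  have htrans : ∀ P : (W₀⁄k).Point, ∃ τ : S58E1AC_F l W₀ k →ₐ[k] S58E1AC_F l W₀ k,
      Point.map (W' := W₀) (τ.restrictScalars (ZMod l)) (S58E1AC_G l W₀ k hΔ)
        = S58E1AC_G l W₀ k hΔ + S58E1A_iota l W₀ P := fun P =>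
    Fermat.Agent.S58_helper15_TRANS.S58TR_main_functionField W₀ k hΔk P
  exact S58E1AC_main l W₀ k hΔ hPF hNP hA hD _ hKR htrans P

end Fermat.Agent.S58_helper19_E1AF
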