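import Mathlib
import Fermat.Prelude.Def_EllipticCurve_FrobeniusTrace
import Fermat.Prelude.Def_FLTPrelim_Modularity
import Fermat.Agent.S13_helper9_RD

/-!
# S58, brick (E1b-MAIN) (helper25): the Frobenius relation on prime-to-`l` torsion of `W(ℚ̄)`

`W` a Weierstrass curve over `ℤ`, `l` a prime of good reduction, `A` a valuation subring of `ℚ̄`
over `l`, `σ` a Frobenius element at `A`.  From

* (RED) a reduction homomorphism `r : W(ℚ̄) →+ W̃(κ)` (`κ` the residue field of `A`) with the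
  kernel clause, the coordinate clause and injectivity on prime-to-`l` torsion
  (`S58E1B_RedSpec`), and
* (E1a) the relation `φ² - a φ + l = 0` on `W̃(κ)` for the coordinatewise `l`-th power `φ`,

we get `σ² T - a σ T + l T = 0` for every `T` with `m T = 0`, `l ∤ m`.

* `S58E1B_RedSpec`, adapters `S58E1B_redSpec_of_RD` / `S58E1B_redSpec_of_RH`;
* `S58E1B_equivariant`, `S58E1B_core` : the abstract statements at a valuation subring of a field;
* `S58E1B_charP`, `S58E1B_Wk_Δ_ne_zero`, `S58E1B_val_natCast`, `S58E1B_frob_res` : the side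
  conditions at a valuation subring of `ℚ̄` over `l`;
* `S58E1B_main`, `S58E1B_main_torsion` : the statement for `W` over `ℤ`.
-/

set_option autoImplicit false
set_option linter.unusedSectionVars false
set_option linter.unusedVariables false
set_option linter.style.haveILetI false

open WeierstrassCurve WeierstrassCurve.Affine

noncomputable section

namespace Fermat.Agent.S58_helper25_E1B

/-! ### Abstract part -/

section Abstract

variable {L : Type*} [Field L] [DecidableEq L] {k : Type*} [Field k] [DecidableEq k]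

/-- What (E1b) needs from a reduction map at a valuation subring `A`:
kernel clause, coordinate clause, injectivity on `n`-torsion for `n` a unit of `A`. -/
def S58E1B_RedSpec (A : ValuationSubring L) (res : A →+* k) (W : Affine L) (Wk : Affine k)
    (r : W.Point →+ Wk.Point) : Prop :=
  (∀ (x y : L) (h : W.Nonsingular x y), x ∉ A → r (Point.some x y h) = 0) ∧
  (∀ (x y : A) (h : W.Nonsingular (x : L) (y : L)),
      ∃ h' : Wk.Nonsingular (res x) (res y),
        r (Point.some (x : L) (y : L) h) = Point.some (res x) (res y) h') ∧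
  (∀ n : ℕ, A.valuation ((n : ℕ) : L) = 1 → ∀ P : W.Point, n • P = 0 → r P = 0 → P = 0)

/-- Adapter from the conclusion of helper5's `S58RD_main` (kernel described by `InE1`). -/
theorem S58E1B_redSpec_of_RD (A : ValuationSubring L) (res : A →+* k) (W : Affine L)
    (Wk : Affine k) (r : W.Point →+ Wk.Point)
    (h : (∀ P, r P = 0 ↔ Fermat.Agent.S13_helper9_RD.InE1 A.valuation P) ∧
      (∀ (x y : A) (h : W.Nonsingular (x : L) (y : L)),
        ∃ h' : Wk.Nonsingular (res x) (res y),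
          r (Point.some (x : L) (y : L) h) = Point.some (res x) (res y) h') ∧
      (∀ (n : ℕ), A.valuation ((n : ℕ) : L) = 1 → ∀ P : W.Point, n • P = 0 → r P = 0 → P = 0)) :
    S58E1B_RedSpec A res W Wk r := by
  refine ⟨fun x y hxy hx => ?_, h.2.1, h.2.2⟩
  rw [h.1]
  show 1 < A.valuation x
  rw [← not_le, A.valuation_le_one_iff]
  exact hx

/-- Adapter from the conclusion of helper6's `S58RH_main`. -/
theorem S58E1B_redSpec_of_RH (A : ValuationSubring L) (ρ : A →+* k) (W : WeierstrassCurve L)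
    (W0 : WeierstrassCurve k) (red : W.toAffine.Point →+ W0.toAffine.Point)
    (h : (∀ x y (h : W.toAffine.Nonsingular x y), x ∉ A → red (.some x y h) = 0) ∧
      (∀ x y (h : W.toAffine.Nonsingular x y) (hx : x ∈ A),
        ∃ (hy : y ∈ A) (h' : W0.toAffine.Nonsingular (ρ ⟨x, hx⟩) (ρ ⟨y, hy⟩)),
          red (.some x y h) = .some (ρ ⟨x, hx⟩) (ρ ⟨y, hy⟩) h') ∧
      (∀ n : ℕ, A.valuation (n : L) = 1 → ∀ P, n • P = 0 → red P = 0 → P = 0)) :
    S58E1B_RedSpec A ρ W.toAffine W0.toAffine red := by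
  refine ⟨h.1, fun x y hxy => ?_, h.2.2⟩
  obtain ⟨hy, h', e⟩ := h.2.1 (x : L) (y : L) hxy x.2
  exact ⟨h', e⟩

/-- On an integral Weierstrass equation, `x ∈ A` forces `y ∈ A`. -/
theorem S58E1B_y_mem (A : ValuationSubring L) (W : Affine L)
    (ha₁ : W.a₁ ∈ A) (ha₂ : W.a₂ ∈ A) (ha₃ : W.a₃ ∈ A) (ha₄ : W.a₄ ∈ A) (ha₆ : W.a₆ ∈ A)
    {x y : L} (h : W.Equation x y) (hx : x ∈ A) : y ∈ A := by
  by_contra hy
  have hvy : 1 < A.valuation y := by
    rw [← not_le, A.valuation_le_one_iff]; exact hy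
  rw [Affine.equation_iff] at h
  have hR : x ^ 3 + W.a₂ * x ^ 2 + W.a₄ * x + W.a₆ ∈ A :=
    A.add_mem _ _ (A.add_mem _ _ (A.add_mem _ _ (A.pow_mem hx 3)
      (A.mul_mem _ _ ha₂ (A.pow_mem hx 2))) (A.mul_mem _ _ ha₄ hx)) ha₆
  have hb : W.a₁ * x + W.a₃ ∈ A := A.add_mem _ _ (A.mul_mem _ _ ha₁ hx) ha₃
  have hvb : A.valuation (W.a₁ * x + W.a₃) ≤ 1 := (A.valuation_le_one_iff _).mpr hb
  have hsum : A.valuation (y + (W.a₁ * x + W.a₃)) = A.valuation y :=
    Valuation.map_add_eq_of_lt_left _ (lt_of_le_of_lt hvb hvy)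
  have hprod : y * (y + (W.a₁ * x + W.a₃)) = x ^ 3 + W.a₂ * x ^ 2 + W.a₄ * x + W.a₆ := by
    rw [← h]; ring
  have hv : A.valuation (y * (y + (W.a₁ * x + W.a₃))) ≤ 1 := by
    rw [hprod]; exact (A.valuation_le_one_iff _).mpr hR
  rw [map_mul, hsum] at hv
  have h1 : (1 : ValuationSubring.ValueGroup A) < A.valuation y * A.valuation y :=
    one_lt_mul'' hvy hvy
  exact absurd hv (not_le.mpr h1)

/-- **Equivariance of the reduction map** under a pair (`τ` upstairs induced by `s : L → L`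
stabilising `A` and inducing the `l`-th power on the residue field; `φ` downstairs the
coordinatewise `l`-th power). -/
theorem S58E1B_equivariant (A : ValuationSubring L) (res : A →+* k) (W : Affine L)
    (Wk : Affine k)
    (ha₁ : W.a₁ ∈ A) (ha₂ : W.a₂ ∈ A) (ha₃ : W.a₃ ∈ A) (ha₄ : W.a₄ ∈ A) (ha₆ : W.a₆ ∈ A)
    (r : W.Point →+ Wk.Point) (hr : S58E1B_RedSpec A res W Wk r)
    (l : ℕ) (s : L → L) (hsA : ∀ x, x ∈ A ↔ s x ∈ A)
    (hs : ∀ (x : A) (hx : s (x : L) ∈ A), res ⟨s (x : L), hx⟩ = res x ^ l)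
    (τ : W.Point →+ W.Point)
    (hτ : ∀ x y (h : W.Nonsingular x y), ∃ h' : W.Nonsingular (s x) (s y),
      τ (Point.some x y h) = Point.some (s x) (s y) h')
    (φ : Wk.Point →+ Wk.Point)
    (hφ : ∀ x y (h : Wk.Nonsingular x y), ∃ h' : Wk.Nonsingular (x ^ l) (y ^ l),
      φ (Point.some x y h) = Point.some (x ^ l) (y ^ l) h') :
    ∀ P, r (τ P) = φ (r P) := by
  intro P
  rcases P with _ | ⟨x, y, h⟩
  · show r (τ 0) = φ (r 0)
    simp only [map_zero]
  · obtain ⟨h2, e2⟩ := hτ x y h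
    by_cases hx : x ∈ A
    · have hy : y ∈ A := S58E1B_y_mem A W ha₁ ha₂ ha₃ ha₄ ha₆ h.1 hx
      have hsx : s x ∈ A := (hsA x).mp hx
      have hsy : s y ∈ A := (hsA y).mp hy
      obtain ⟨h', e⟩ := hr.2.1 ⟨x, hx⟩ ⟨y, hy⟩ h
      obtain ⟨h3, e3⟩ := hr.2.1 ⟨s x, hsx⟩ ⟨s y, hsy⟩ h2
      obtain ⟨h4, e4⟩ := hφ _ _ h'
      have e' : r (Point.some x y h) = Point.some (res ⟨x, hx⟩) (res ⟨y, hy⟩) h' := e
      have e3' : r (Point.some (s x) (s y) h2)
          = Point.some (res ⟨s x, hsx⟩) (res ⟨s y, hsy⟩) h3 := e3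
      rw [e2, e3', e', e4, Point.some.injEq]
      exact ⟨hs ⟨x, hx⟩ hsx, hs ⟨y, hy⟩ hsy⟩
    · have hsx : s x ∉ A := fun h' => hx ((hsA x).mpr h')
      rw [e2, hr.1 _ _ h2 hsx, hr.1 _ _ h hx, map_zero]

/-- **(E1b), abstract form.** -/
theorem S58E1B_core (A : ValuationSubring L) (res : A →+* k) (W : Affine L)
    (Wk : Affine k)
    (ha₁ : W.a₁ ∈ A) (ha₂ : W.a₂ ∈ A) (ha₃ : W.a₃ ∈ A) (ha₄ : W.a₄ ∈ A) (ha₆ : W.a₆ ∈ A)
    (r : W.Point →+ Wk.Point) (hr : S58E1B_RedSpec A res W Wk r)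
    (l : ℕ) (s : L → L) (hsA : ∀ x, x ∈ A ↔ s x ∈ A)
    (hs : ∀ (x : A) (hx : s (x : L) ∈ A), res ⟨s (x : L), hx⟩ = res x ^ l)
    (τ : W.Point →+ W.Point)
    (hτ : ∀ x y (h : W.Nonsingular x y), ∃ h' : W.Nonsingular (s x) (s y),
      τ (Point.some x y h) = Point.some (s x) (s y) h')
    (φ : Wk.Point →+ Wk.Point)
    (hφ : ∀ x y (h : Wk.Nonsingular x y), ∃ h' : Wk.Nonsingular (x ^ l) (y ^ l),
      φ (Point.some x y h) = Point.some (x ^ l) (y ^ l) h')
    (a : ℤ) (hrel : ∀ P : Wk.Point, φ (φ P) - a • φ P + (l : ℤ) • P = 0)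
    (m : ℕ) (hm : A.valuation ((m : ℕ) : L) = 1) (T : W.Point) (hT : m • T = 0) :
    τ (τ T) - a • τ T + (l : ℤ) • T = 0 := by
  have heq := S58E1B_equivariant A res W Wk ha₁ ha₂ ha₃ ha₄ ha₆ r hr l s hsA hs τ hτ φ hφ
  apply hr.2.2 m hm
  · rw [smul_add, smul_sub, ← map_nsmul, ← map_nsmul, smul_comm m a, ← map_nsmul,
      smul_comm m (l : ℤ), hT]
    simp only [map_zero, smul_zero, sub_zero, add_zero]
  · rw [map_add, map_sub, map_zsmul, map_zsmul, heq (τ T), heq T]
    exact hrel (r T)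


/-- The additive endomorphism of `W(K)` induced by a field endomorphism `f` fixing the
coefficients of `W` (e.g. the Frobenius endomorphism of a field of characteristic `l` when the
coefficients lie in the prime field). -/
def S58E1B_pointMap {K : Type*} [Field K] [DecidableEq K] (W : Affine K) (f : K →+* K)
    (hW : W.map f = W) : W.Point →+ W.Point where
  toFun P := match P with
    | 0 => 0
    | .some x y h => .some (f x) (f y) (by
        have := (W.map_nonsingular f.injective x y).mpr h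
        rwa [hW] at this)
  map_zero' := rfl
  map_add' := by
    have hN : ∀ x y, W.negY (f x) (f y) = f (W.negY x y) := fun x y => by
      have := W.map_negY f x y
      rwa [hW] at this
    have hX : ∀ x₁ x₂ ℓ, W.addX (f x₁) (f x₂) (f ℓ) = f (W.addX x₁ x₂ ℓ) := fun x₁ x₂ ℓ => by
      have := W.map_addX f x₁ x₂ ℓ
      rwa [hW] at this
    have hY : ∀ x₁ x₂ y₁ ℓ, W.addY (f x₁) (f x₂) (f y₁) (f ℓ) = f (W.addY x₁ x₂ y₁ ℓ) :=
      fun x₁ x₂ y₁ ℓ => by
        have := W.map_addY f x₁ y₁ x₂ ℓ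
        rwa [hW] at this
    have hS : ∀ x₁ x₂ y₁ y₂, W.slope (f x₁) (f x₂) (f y₁) (f y₂) = f (W.slope x₁ x₂ y₁ y₂) :=
      fun x₁ x₂ y₁ y₂ => by
        have := Affine.map_slope (W := W) f x₁ x₂ y₁ y₂
        rwa [hW] at this
    rintro (_ | ⟨x₁, y₁, h₁⟩) (_ | ⟨x₂, y₂, h₂⟩)
    any_goals rfl
    by_cases hxy : x₁ = x₂ ∧ y₁ = W.negY x₂ y₂
    · rw [Point.add_of_Y_eq hxy.left hxy.right]
      exact (Point.add_of_Y_eq (congr_arg f hxy.left) (by rw [hxy.right, hN])).symm
    · rw [Point.add_some hxy]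
      have hxy' : ¬(f x₁ = f x₂ ∧ f y₁ = W.negY (f x₂) (f y₂)) := fun h =>
        hxy ⟨f.injective h.1, f.injective (by rw [h.2, hN])⟩
      refine (Point.add_some hxy').symm ▸ ?_
      simp only [hX, hY, hS]

theorem S58E1B_pointMap_some {K : Type*} [Field K] [DecidableEq K] (W : Affine K) (f : K →+* K)
    (hW : W.map f = W) (x y : K) (h : W.Nonsingular x y) :
    ∃ h' : W.Nonsingular (f x) (f y),
      S58E1B_pointMap W f hW (Point.some x y h) = Point.some (f x) (f y) h' :=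
  ⟨_, rfl⟩

/-- An additive map is determined by its coordinate formula. -/
theorem S58E1B_pointMap_unique {K : Type*} [Field K] [DecidableEq K] (W : Affine K) (g : K → K)
    (φ ψ : W.Point →+ W.Point)
    (hφ : ∀ x y (h : W.Nonsingular x y), ∃ h' : W.Nonsingular (g x) (g y),
      φ (Point.some x y h) = Point.some (g x) (g y) h')
    (hψ : ∀ x y (h : W.Nonsingular x y), ∃ h' : W.Nonsingular (g x) (g y),
      ψ (Point.some x y h) = Point.some (g x) (g y) h') : φ = ψ := by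
  ext P
  rcases P with _ | ⟨x, y, h⟩
  · show φ 0 = ψ 0
    rw [map_zero, map_zero]
  · obtain ⟨h1, e1⟩ := hφ x y h
    obtain ⟨h2, e2⟩ := hψ x y h
    rw [e1, e2]

end Abstract

/-! ### The side conditions at a valuation subring of `ℚ̄` over `l` -/

section Concrete

local notation "Qb" => AlgebraicClosure ℚ
local notation "GQ" => (AlgebraicClosure ℚ ≃ₐ[ℚ] AlgebraicClosure ℚ)

variable (W : WeierstrassCurve ℤ) (A : ValuationSubring Qb)

/-- The curve over `ℚ̄` (the curve of the prelude's `ModRepIsIrreducible`). -/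
abbrev S58E1B_WQb : Affine Qb := ((W.map (Int.castRingHom ℚ) : Affine ℚ)⁄Qb)

/-- The reduced curve over the residue field of `A`. -/
abbrev S58E1B_Wk : Affine (IsLocalRing.ResidueField A) :=
  (W.map (Int.castRingHom (IsLocalRing.ResidueField A))).toAffine

theorem S58E1B_natCast_residue (n : ℕ) :
    IsLocalRing.residue A (⟨(n : Qb), natCast_mem A n⟩ : A) = (n : IsLocalRing.ResidueField A) := by
  have : (⟨(n : Qb), natCast_mem A n⟩ : A) = ((n : ℕ) : A) := Subtype.ext (by simp)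
  rw [this, map_natCast]

/-- The residue field of a valuation subring over `l` has characteristic `l`. -/
theorem S58E1B_charP (l : ℕ) [hl : Fact l.Prime] (hA : A.LiesOverPrime l) :
    CharP (IsLocalRing.ResidueField A) l := by
  have h0 : ((l : ℕ) : IsLocalRing.ResidueField A) = 0 := by
    obtain ⟨ha, hmem⟩ := A.mem_nonunits_iff_exists_mem_maximalIdeal.mp hA
    rw [← S58E1B_natCast_residue A l]
    exact (IsLocalRing.residue_eq_zero_iff _).mpr hmem
  exact (CharP.charP_iff_prime_eq_zero hl.out).mpr h0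

/-- Good reduction: the reduced curve has nonzero discriminant. -/
theorem S58E1B_Wk_Δ_ne_zero (l : ℕ) [Fact l.Prime] (hA : A.LiesOverPrime l)
    (hgood : W.IsGoodPrimeFor l) : (S58E1B_Wk W A).Δ ≠ 0 := by
  haveI := S58E1B_charP A l hA
  show (W.map (Int.castRingHom (IsLocalRing.ResidueField A))).Δ ≠ 0
  rw [WeierstrassCurve.map_Δ]
  intro h
  apply hgood
  have h' : ((W.Δ : ℤ) : IsLocalRing.ResidueField A) = 0 := h
  exact (CharP.intCast_eq_zero_iff (IsLocalRing.ResidueField A) l W.Δ).mp h'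

/-- An integer prime to `l` is a unit of `A`. -/
theorem S58E1B_val_natCast (l : ℕ) [Fact l.Prime] (hA : A.LiesOverPrime l) (m : ℕ)
    (hm : ¬ l ∣ m) : A.valuation ((m : ℕ) : Qb) = 1 := by
  haveI := S58E1B_charP A l hA
  have hle : A.valuation ((m : ℕ) : Qb) ≤ 1 := (A.valuation_le_one_iff _).mpr (natCast_mem A m)
  refine le_antisymm hle (not_lt.mp fun hlt => hm ?_)
  have hmem : (⟨(m : Qb), natCast_mem A m⟩ : A) ∈ IsLocalRing.maximalIdeal A := by
    rw [A.valuation_lt_one_iff]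
    exact hlt
  have h0 : ((m : ℕ) : IsLocalRing.ResidueField A) = 0 := by
    rw [← S58E1B_natCast_residue A m]
    exact (IsLocalRing.residue_eq_zero_iff _).mpr hmem
  exact (CharP.cast_eq_zero_iff (IsLocalRing.ResidueField A) l m).mp h0

open scoped Pointwise in
/-- Elements of the decomposition group stabilise `A` (both ways). -/
theorem S58E1B_mem_iff (σ : GQ) (hσ : σ ∈ A.decompositionSubgroup ℚ) (x : Qb) :
    x ∈ A ↔ σ x ∈ A := by
  have key : ∀ (τ : GQ), τ ∈ A.decompositionSubgroup ℚ → ∀ y, y ∈ A → τ y ∈ A := by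
    intro τ hτ y hy
    have h1 : τ • A = A := hτ
    have h2 : τ • y ∈ τ • A := ValuationSubring.smul_mem_pointwise_smul τ y A hy
    rw [h1] at h2
    exact h2
  refine ⟨key σ hσ x, fun h => ?_⟩
  have := key σ⁻¹ ((A.decompositionSubgroup ℚ).inv_mem hσ) (σ x) h
  have e : σ⁻¹ (σ x) = x := by
    show σ.symm (σ x) = x
    exact σ.symm_apply_apply x
  rwa [e] at this

/-- A Frobenius element induces the `l`-th power on the residue field. -/
theorem S58E1B_frob_res (l : ℕ) (σ : GQ) (hσ : A.IsFrobeniusAt σ l) (x : A)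
    (hx : σ (x : Qb) ∈ A) :
    IsLocalRing.residue A ⟨σ (x : Qb), hx⟩ = IsLocalRing.residue A x ^ l := by
  have hdec := hσ.mem_decompositionSubgroup
  set τ : A.decompositionSubgroup ℚ := ⟨σ, hdec⟩ with hτ
  have hcoe : (τ • x : A) = ⟨σ (x : Qb), hx⟩ := Subtype.ext rfl
  have h1 : τ • (IsLocalRing.residue A x) = (IsLocalRing.residue A x) ^ l :=
    hσ.smul_residue_eq _
  rw [← hcoe, IsLocalRing.ResidueField.residue_smul]
  exact h1

theorem S58E1B_a₁_mem : (S58E1B_WQb W).a₁ ∈ A := by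
  have : (S58E1B_WQb W).a₁ = ((W.a₁ : ℤ) : Qb) := by
    simp [WeierstrassCurve.baseChange, WeierstrassCurve.map]
  rw [this]; exact intCast_mem A _

theorem S58E1B_a₂_mem : (S58E1B_WQb W).a₂ ∈ A := by
  have : (S58E1B_WQb W).a₂ = ((W.a₂ : ℤ) : Qb) := by
    simp [WeierstrassCurve.baseChange, WeierstrassCurve.map]
  rw [this]; exact intCast_mem A _

theorem S58E1B_a₃_mem : (S58E1B_WQb W).a₃ ∈ A := by
  have : (S58E1B_WQb W).a₃ = ((W.a₃ : ℤ) : Qb) := by
    simp [WeierstrassCurve.baseChange, WeierstrassCurve.map]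
  rw [this]; exact intCast_mem A _

theorem S58E1B_a₄_mem : (S58E1B_WQb W).a₄ ∈ A := by
  have : (S58E1B_WQb W).a₄ = ((W.a₄ : ℤ) : Qb) := by
    simp [WeierstrassCurve.baseChange, WeierstrassCurve.map]
  rw [this]; exact intCast_mem A _

theorem S58E1B_a₆_mem : (S58E1B_WQb W).a₆ ∈ A := by
  have : (S58E1B_WQb W).a₆ = ((W.a₆ : ℤ) : Qb) := by
    simp [WeierstrassCurve.baseChange, WeierstrassCurve.map]
  rw [this]; exact intCast_mem A _

variable [DecidableEq (IsLocalRing.ResidueField A)]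

/-- The reduced curve is fixed by the Frobenius endomorphism of the residue field. -/
theorem S58E1B_Wk_map_frobenius (l : ℕ) [Fact l.Prime] [CharP (IsLocalRing.ResidueField A) l] :
    (S58E1B_Wk W A).map (frobenius (IsLocalRing.ResidueField A) l) = S58E1B_Wk W A := by
  show (W.map (Int.castRingHom (IsLocalRing.ResidueField A))).map
      (frobenius (IsLocalRing.ResidueField A) l) = W.map (Int.castRingHom _)
  rw [WeierstrassCurve.map_map]
  congr 1
  exact RingHom.ext_int _ _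

/-- **The Frobenius endomorphism** `(x, y) ↦ (x ^ l, y ^ l)` of the reduced curve. -/
def S58E1B_frob (l : ℕ) [Fact l.Prime] [CharP (IsLocalRing.ResidueField A) l] :
    (S58E1B_Wk W A).Point →+ (S58E1B_Wk W A).Point :=
  S58E1B_pointMap (S58E1B_Wk W A) (frobenius (IsLocalRing.ResidueField A) l)
    (S58E1B_Wk_map_frobenius W A l)

theorem S58E1B_frob_some (l : ℕ) [Fact l.Prime] [CharP (IsLocalRing.ResidueField A) l]
    (x y : IsLocalRing.ResidueField A) (h : (S58E1B_Wk W A).Nonsingular x y) :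
    ∃ h' : (S58E1B_Wk W A).Nonsingular (x ^ l) (y ^ l),
      S58E1B_frob W A l (Point.some x y h) = Point.some (x ^ l) (y ^ l) h' :=
  S58E1B_pointMap_some (S58E1B_Wk W A) (frobenius (IsLocalRing.ResidueField A) l)
    (S58E1B_Wk_map_frobenius W A l) x y h

/-- **(E1b-MAIN), point form.**  `σ² T - a σ T + l T = 0` on the prime-to-`l` torsion of
`W(ℚ̄)`, from (RED) at `A` and the relation `φ² - a φ + l = 0` on the reduced curve. -/
theorem S58E1B_main (l : ℕ) [Fact l.Prime] (hA : A.LiesOverPrime l) (σ : GQ)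
    (hσ : A.IsFrobeniusAt σ l)
    (r : (S58E1B_WQb W).Point →+ (S58E1B_Wk W A).Point)
    (hr : S58E1B_RedSpec A (IsLocalRing.residue A) (S58E1B_WQb W) (S58E1B_Wk W A) r)
    (φ : (S58E1B_Wk W A).Point →+ (S58E1B_Wk W A).Point)
    (hφ : ∀ x y (h : (S58E1B_Wk W A).Nonsingular x y),
      ∃ h' : (S58E1B_Wk W A).Nonsingular (x ^ l) (y ^ l),
        φ (Point.some x y h) = Point.some (x ^ l) (y ^ l) h')
    (a : ℤ) (hrel : ∀ P : (S58E1B_Wk W A).Point, φ (φ P) - a • φ P + (l : ℤ) • P = 0)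
    (m : ℕ) (hm : ¬ l ∣ m) (T : (S58E1B_WQb W).Point) (hT : m • T = 0) :
    σ • σ • T - a • σ • T + (l : ℤ) • T = 0 := by
  have hdec := hσ.mem_decompositionSubgroup
  exact S58E1B_core A (IsLocalRing.residue A) (S58E1B_WQb W) (S58E1B_Wk W A)
    (S58E1B_a₁_mem W A) (S58E1B_a₂_mem W A) (S58E1B_a₃_mem W A) (S58E1B_a₄_mem W A)
    (S58E1B_a₆_mem W A) r hr l (fun x => σ x) (S58E1B_mem_iff A σ hdec)
    (fun x hx => S58E1B_frob_res A l σ hσ x hx)
    (Point.map (W' := (W.map (Int.castRingHom ℚ) : Affine ℚ)) σ.toAlgHom)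
    (fun x y h => ⟨_, rfl⟩) φ hφ a hrel m (S58E1B_val_natCast A l hA m hm) T hT

/-- **(E1b-MAIN), torsion-submodule form** (the `hrel` of the trace brick, with
`σ := galoisRepModuleEnd ℚ _ m σ`). -/
theorem S58E1B_main_torsion (l : ℕ) [Fact l.Prime] (hA : A.LiesOverPrime l) (σ : GQ)
    (hσ : A.IsFrobeniusAt σ l)
    (r : (S58E1B_WQb W).Point →+ (S58E1B_Wk W A).Point)
    (hr : S58E1B_RedSpec A (IsLocalRing.residue A) (S58E1B_WQb W) (S58E1B_Wk W A) r)
    (φ : (S58E1B_Wk W A).Point →+ (S58E1B_Wk W A).Point)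
    (hφ : ∀ x y (h : (S58E1B_Wk W A).Nonsingular x y),
      ∃ h' : (S58E1B_Wk W A).Nonsingular (x ^ l) (y ^ l),
        φ (Point.some x y h) = Point.some (x ^ l) (y ^ l) h')
    (a : ℤ) (hrel : ∀ P : (S58E1B_Wk W A).Point, φ (φ P) - a • φ P + (l : ℤ) • P = 0)
    (m : ℕ) (hm : ¬ l ∣ m)
    (x : Submodule.torsionBy ℤ (S58E1B_WQb W).Point m) :
    σ • σ • x - a • σ • x + (l : ℤ) • x = 0 := by
  apply Subtype.ext
  have hT : m • (x : (S58E1B_WQb W).Point) = 0 := by
    have := x.2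
    rw [Submodule.mem_torsionBy_iff] at this
    rw [← Nat.cast_smul_eq_nsmul ℤ]
    exact this
  exact S58E1B_main W A l hA σ hσ r hr φ hφ a hrel m hm x hT

end Concrete

end Fermat.Agent.S58_helper25_E1B
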