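import Mathlib
import Fermat.Agent.S58_helper25_E1B
import Fermat.Agent.S58_helper5_RED
import Fermat.Agent.S58_helper19_FROB
import Fermat.Agent.S58_helper2_TORS
import Fermat.Agent.S18_helper27_RESALGCL

/-!
# S58, brick (E1b-MAIN), closed form (helper25)

`S58E1BC_main`: for `W` over `ℤ`, `l` a prime of good reduction, `n` prime to `l`, `A` a
valuation subring of `ℚ̄` over `l`, `σ` a Frobenius element at `A` and `P ∈ W[n](ℚ̄)`
(helper2's `S58T_Tors W n`):

  `σ • σ • P + l • P = a_l • (σ • P)`,   `a_l = W.apOfModel l`,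

from (E1a) alone (`S58E1BC_E1a`: the relation `φ² - (l + 1 - #W₀(𝔽_l)) φ + l = 0` on the points
of the reduced curve `W₀ = W mod l` over every algebraically closed field over `ZMod l`, with
helper19's `S58FR_phi`).  (RED) is helper5's landed `S58RD_main`; the residue field of `A` is
algebraically closed by helper27's landed `S18RES_isAlgClosed_residueField_Qbar`.
-/

set_option autoImplicit false
set_option linter.unusedSectionVars false
set_option linter.unusedVariables false
set_option linter.style.haveILetI false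

open WeierstrassCurve WeierstrassCurve.Affine
open Fermat.Agent.S58_helper25_E1B Fermat.Agent.S58_helper19_FROB Fermat.Agent.S58_helper2_TORS

noncomputable section

namespace Fermat.Agent.S58_helper25_E1BC

local notation "Qb" => AlgebraicClosure ℚ
local notation "GQ" => (AlgebraicClosure ℚ ≃ₐ[ℚ] AlgebraicClosure ℚ)

/-- **(E1a)**, typed: the Frobenius relation on the points of `W₀` over every algebraically
closed field over `ZMod l`, with trace `l + 1 - N`. -/
def S58E1BC_E1a (l : ℕ) [Fact l.Prime] (W₀ : Affine (ZMod l)) (N : ℤ) : Prop :=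
  ∀ (k : Type) [Field k] [Algebra (ZMod l) k] [IsAlgClosed k] [DecidableEq k]
    (P : (W₀⁄k).Point),
    S58FR_phi l W₀ k (S58FR_phi l W₀ k P) - ((l : ℤ) + 1 - N) • S58FR_phi l W₀ k P
      + (l : ℤ) • P = 0

theorem S58E1BC_apOfModel (W : WeierstrassCurve ℤ) (l : ℕ) [Fact l.Prime] :
    W.apOfModel l = (l : ℤ) + 1 - (Nat.card (W.reductionMod l).toAffine.Point : ℤ) := by
  unfold WeierstrassCurve.apOfModel WeierstrassCurve.traceOfFrobenius WeierstrassCurve.card
  rw [Nat.card_zmod]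

/-- **(E1b-MAIN), point form, from (E1a).** -/
theorem S58E1BC_point (W : WeierstrassCurve ℤ) (l : ℕ) [Fact l.Prime]
    (hgood : W.IsGoodPrimeFor l) (N : ℤ)
    (hE1a : S58E1BC_E1a l (W.reductionMod l).toAffine N)
    (A : ValuationSubring Qb) (hA : A.LiesOverPrime l) (σ : GQ) (hσ : A.IsFrobeniusAt σ l)
    (m : ℕ) (hm : ¬ l ∣ m) (T : (S58E1B_WQb W).Point) (hT : m • T = 0) :
    σ • σ • T - ((l : ℤ) + 1 - N) • σ • T + (l : ℤ) • T = 0 := by
  classical
  haveI hchar : CharP (IsLocalRing.ResidueField A) l := S58E1B_charP A l hA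
  letI : Algebra (ZMod l) (IsLocalRing.ResidueField A) := ZMod.algebra _ l
  haveI : IsAlgClosed (IsLocalRing.ResidueField A) :=
    Fermat.Agent.S18_helper27_RESALGCL.S18RES_isAlgClosed_residueField_Qbar A
  have hres : ∀ a : A, IsLocalRing.residue A a = 0 ↔ A.valuation (a : Qb) < 1 := fun a => by
    rw [IsLocalRing.residue_eq_zero_iff, A.valuation_lt_one_iff]
  have hdec := hσ.mem_decompositionSubgroup
  have hk : ∀ z : ℤ, IsLocalRing.residue A ((z : ℤ) : A)
      = algebraMap (ZMod l) (IsLocalRing.ResidueField A) ((Int.castRingHom (ZMod l)) z) := by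
    intro z
    rw [map_intCast, eq_intCast, map_intCast]
  have hL : ∀ z : ℤ, (((z : ℤ) : A) : Qb) = algebraMap ℚ Qb ((Int.castRingHom ℚ) z) := by
    intro z
    rw [eq_intCast, map_intCast]
    simp
  have hΔ : (((W.reductionMod l).toAffine)⁄(IsLocalRing.ResidueField A)).Δ ≠ 0 := by
    show ((W.reductionMod l).map (algebraMap (ZMod l) (IsLocalRing.ResidueField A))).Δ ≠ 0
    rw [WeierstrassCurve.map_Δ]
    unfold WeierstrassCurve.reductionMod
    rw [WeierstrassCurve.map_Δ, eq_intCast, map_intCast]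
    intro h
    exact hgood ((CharP.intCast_eq_zero_iff (IsLocalRing.ResidueField A) l W.Δ).mp h)
  obtain ⟨r, hr⟩ := Fermat.Agent.S58_helper5_RED.S58RD_main A (IsLocalRing.residue A) hres
    (S58E1B_WQb W) (((W.reductionMod l).toAffine)⁄(IsLocalRing.ResidueField A))
    ((W.a₁ : ℤ) : A) ((W.a₂ : ℤ) : A) ((W.a₃ : ℤ) : A) ((W.a₄ : ℤ) : A) ((W.a₆ : ℤ) : A)
    (hL _) (hL _) (hL _) (hL _) (hL _) (hk _) (hk _) (hk _) (hk _) (hk _) hΔ
  have hspec := S58E1B_redSpec_of_RD A (IsLocalRing.residue A) (S58E1B_WQb W) _ r hr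
  exact S58E1B_core A (IsLocalRing.residue A) (S58E1B_WQb W) _
    (S58E1B_a₁_mem W A) (S58E1B_a₂_mem W A) (S58E1B_a₃_mem W A) (S58E1B_a₄_mem W A)
    (S58E1B_a₆_mem W A) r hspec l (fun x => σ x) (S58E1B_mem_iff A σ hdec)
    (fun x hx => S58E1B_frob_res A l σ hσ x hx)
    (Point.map (W' := (W.map (Int.castRingHom ℚ) : Affine ℚ)) σ.toAlgHom)
    (fun x y h => ⟨_, rfl⟩)
    (S58FR_phi l (W.reductionMod l).toAffine (IsLocalRing.ResidueField A))
    (fun x y h => S58FR_phi_some l (W.reductionMod l).toAffine (IsLocalRing.ResidueField A) h)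
    ((l : ℤ) + 1 - N) (hE1a (IsLocalRing.ResidueField A)) m
    (S58E1B_val_natCast A l hA m hm) T hT

/-- **(E1b-MAIN), closed form in helper2's vocabulary** (the conclusion asked by helper19):
`σ • σ • P + l • P = a_l • (σ • P)` on `W[n](ℚ̄)`, `n` prime to `l`. -/
theorem S58E1BC_main (W : WeierstrassCurve ℤ) (l : ℕ) [Fact l.Prime]
    (hgood : ¬ (l : ℤ) ∣ W.Δ)
    (hE1a : S58E1BC_E1a l (W.reductionMod l).toAffine
      (Nat.card (W.reductionMod l).toAffine.Point : ℤ))
    (n : ℕ) (hn : n.Coprime l)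
    (A : ValuationSubring Qb) (hA : A.LiesOverPrime l) (σ : GQ) (hσ : A.IsFrobeniusAt σ l)
    (P : S58T_Tors W n) :
    σ • σ • P + (l : ℤ) • P = (W.apOfModel l) • (σ • P) := by
  have hl : l.Prime := Fact.out
  have hm : ¬ l ∣ n := fun h => by
    have h1 : l ∣ Nat.gcd n l := Nat.dvd_gcd h dvd_rfl
    rw [hn] at h1
    exact hl.one_lt.ne' (Nat.dvd_one.mp h1)
  have hT : n • (P : (S58E1B_WQb W).Point) = 0 := by
    have := P.2
    rw [Submodule.mem_torsionBy_iff] at this
    rw [← Nat.cast_smul_eq_nsmul ℤ]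
    exact this
  have key := S58E1BC_point W l hgood _ hE1a A hA σ hσ n hm (P : (S58E1B_WQb W).Point) hT
  rw [← S58E1BC_apOfModel W l] at key
  apply Subtype.ext
  have e : σ • σ • (P : (S58E1B_WQb W).Point) + (l : ℤ) • (P : (S58E1B_WQb W).Point)
      = (W.apOfModel l) • (σ • (P : (S58E1B_WQb W).Point)) := by
    rw [sub_add_eq_add_sub, sub_eq_zero] at key
    exact key
  exact e

/-- the same in the shape of helper27's `hrel` (all levels `lam ^ K`, `lam ≠ l`). -/
theorem S58E1BC_hrel (W : WeierstrassCurve ℤ) (l : ℕ) [Fact l.Prime]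
    (hgood : ¬ (l : ℤ) ∣ W.Δ)
    (hE1a : S58E1BC_E1a l (W.reductionMod l).toAffine
      (Nat.card (W.reductionMod l).toAffine.Point : ℤ))
    (lam : ℕ) (hlam : lam.Prime) (hne : l ≠ lam)
    (A : ValuationSubring Qb) (hA : A.LiesOverPrime l) (σ : GQ) (hσ : A.IsFrobeniusAt σ l)
    (K : ℕ) (P : S58T_Tors W (lam ^ K)) :
    σ • (σ • P) - (W.apOfModel l) • (σ • P) + (l : ℤ) • P = 0 := by
  have hl : l.Prime := Fact.out
  have hcop : (lam ^ K).Coprime l :=
    Nat.Coprime.pow_left K ((Nat.coprime_primes hlam hl).mpr (Ne.symm hne))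
  have := S58E1BC_main W l hgood hE1a (lam ^ K) hcop A hA σ hσ P
  rw [sub_add_eq_add_sub, sub_eq_zero]
  exact this

end Fermat.Agent.S58_helper25_E1BC
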