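import Mathlib
import Fermat.Agent.S58_helper19_E1AF
import Fermat.Agent.S58_helper25_E1BC

/-!
# S58 (E1) — the plug (E1a) ⟹ (E1b) (helper19)

* `S58E1P_E1a`  : helper25's contract `S58E1BC_E1a` for the reduction of `W` at a good prime,
  discharged by `S58E1AF_main`;
* `S58E1P_main` : for `W` over `ℤ`, `l` a prime of good reduction, `n` prime to `l`, `σ` a
  Frobenius at a place over `l`: `σ² P + l P = a_l σ P` on `W[n](Q-bar)`, `a_l = W.apOfModel l`;
* `S58E1P_hrel` : the same as the hypothesis `hrel` of helper27's `S58TP_main`.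
No hypothesis left.
-/

set_option autoImplicit false

namespace Fermat.Agent.S58_helper19_E1P

open WeierstrassCurve WeierstrassCurve.Affine
open Fermat.Agent.S58_helper19_E1AF Fermat.Agent.S58_helper25_E1BC
open Fermat.Agent.S58_helper2_TORS

local notation "Qb" => AlgebraicClosure ℚ
local notation "GQ" => (AlgebraicClosure ℚ ≃ₐ[ℚ] AlgebraicClosure ℚ)

theorem S58E1P_Δ (W : WeierstrassCurve ℤ) (l : ℕ) [Fact l.Prime] (hgood : ¬ (l : ℤ) ∣ W.Δ) :
    (W.reductionMod l).toAffine.Δ ≠ 0 := by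
  have e : (W.reductionMod l).Δ = (Int.castRingHom (ZMod l)) W.Δ :=
    WeierstrassCurve.map_Δ W (Int.castRingHom (ZMod l))
  show (W.reductionMod l).Δ ≠ 0
  rw [e]
  intro h
  apply hgood
  exact (ZMod.intCast_zmod_eq_zero_iff_dvd _ _).mp h

/-- **(E1a)** in helper25's shape, for the reduction of `W` at a good prime. -/
theorem S58E1P_E1a (W : WeierstrassCurve ℤ) (l : ℕ) [Fact l.Prime] (hgood : ¬ (l : ℤ) ∣ W.Δ) :
    S58E1BC_E1a l (W.reductionMod l).toAffine
      (Nat.card (W.reductionMod l).toAffine.Point : ℤ) :=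
  fun k _ _ _ _ P => S58E1AF_main l (W.reductionMod l).toAffine k (S58E1P_Δ W l hgood) P

/-- **(E1), point form**: the Frobenius relation on the prime-to-`l` torsion of `W(Q-bar)`. -/
theorem S58E1P_main (W : WeierstrassCurve ℤ) (l : ℕ) [Fact l.Prime] (hgood : ¬ (l : ℤ) ∣ W.Δ)
    (n : ℕ) (hn : n.Coprime l)
    (A : ValuationSubring Qb) (hA : A.LiesOverPrime l) (σ : GQ) (hσ : A.IsFrobeniusAt σ l)
    (P : S58T_Tors W n) :
    σ • σ • P + (l : ℤ) • P = (W.apOfModel l) • (σ • P) :=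
  S58E1BC_main W l hgood (S58E1P_E1a W l hgood) n hn A hA σ hσ P

/-- **(E1), the hypothesis `hrel` of `S58TP_main`.** -/
theorem S58E1P_hrel (W : WeierstrassCurve ℤ) (l : ℕ) [Fact l.Prime] (hgood : ¬ (l : ℤ) ∣ W.Δ)
    (lam : ℕ) (hlam : lam.Prime) (hne : l ≠ lam)
    (A : ValuationSubring Qb) (hA : A.LiesOverPrime l) (σ : GQ) (hσ : A.IsFrobeniusAt σ l)
    (K : ℕ) (P : S58T_Tors W (lam ^ K)) :
    σ • (σ • P) - (W.apOfModel l) • (σ • P) + (l : ℤ) • P = 0 :=
  S58E1BC_hrel W l hgood (S58E1P_E1a W l hgood) lam hlam hne A hA σ hσ K P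

end Fermat.Agent.S58_helper19_E1P
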