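import Mathlib
import Fermat.Prelude.Def_AlgebraicCurve_DivisorClassGroup
import Fermat.Agent.S05_helper6_Kernel
import Fermat.Agent.S58_helper19_E1DEFS
import Fermat.Agent.S58_helper4_GRAM
import Fermat.Agent.S58_helper7_KR

/-!
# S58, (E1) [KERBOUND] (helper26): the number of constant points killed by `φ - c`

`F / k` a function field with the places of the prelude, `W` a Weierstrass curve over `F` with
coefficients integral at every place, `ψ` an additive endomorphism of `W(F)` respecting the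
filtration of the kernel of reduction at every place (for instance `φ - c`, `φ` the Frobenius),
`T` a finite set of constant torsion points killed by `ψ`.  Then

  `#T * h S ≤ h (ψ S)`   whenever `ψ S ≠ O`.

* `S58KB_inKer_neg`, `S58KB_inKer_sub`, `S58KB_inKer_zsmul` : the filtration steps are subgroups;
* `S58KB_val_x`      : `v x * v z ^ 2 = 1` on the kernel of reduction;
* `S58KB_local`      : the local inequality `∑ P ∈ T, lamP v (S - P) ≤ lamP v (ψ S)`;
* `S58KB_abs`        : the global inequality.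
-/

set_option autoImplicit false

namespace Fermat.Agent.S58_helper26_KERB

open AlgebraicCurve WeierstrassCurve WeierstrassCurve.Affine
open Fermat.Agent.S58_helper19_E1DEFS Fermat.Agent.S05_helper6_Kernel
open Fermat.Agent.S58_helper4_GRAM
open scoped WithZero

/-! ### The filtration of the kernel of reduction at a valuation -/

section Filt

variable {K : Type*} [Field K] {Γ₀ : Type*} [LinearOrderedCommGroupWithZero Γ₀]
  (v : Valuation K Γ₀) {W : WeierstrassCurve.Affine K}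

theorem S58KB_inKer_mono {r r' : Γ₀} (hrr : r ≤ r') {P : W.Point} (hP : InKer v r P) :
    InKer v r' P := by
  rcases P with _ | ⟨x, y, h⟩
  · trivial
  · exact ⟨hP.1, hP.2.trans hrr⟩

variable [DecidableEq K] (h₁ : v W.a₁ ≤ 1) (h₂ : v W.a₂ ≤ 1) (h₃ : v W.a₃ ≤ 1)
  (h₄ : v W.a₄ ≤ 1) (h₆ : v W.a₆ ≤ 1)

include h₁ h₂ h₃ h₄ h₆

omit [DecidableEq K] in
theorem S58KB_inKer_neg {r : Γ₀} {P : W.Point} (hP : InKer v r P) : InKer v r (-P) := by
  rcases P with _ | ⟨x, y, h⟩
  · trivial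
  · obtain ⟨hx, hz⟩ := hP
    rw [Point.neg_some]
    refine ⟨hx, ?_⟩
    rw [(neg_z v h₁ h₂ h₃ h₄ h₆ h.1 hx).1]
    exact hz

theorem S58KB_inKer_sub {r : Γ₀} (hr : r < 1) {P Q : W.Point} (hP : InKer v r P)
    (hQ : InKer v r Q) : InKer v r (P - Q) := by
  rw [sub_eq_add_neg]
  exact (inKer_add v h₁ h₂ h₃ h₄ h₆ hr hP (S58KB_inKer_neg v h₁ h₂ h₃ h₄ h₆ hQ)).1

theorem S58KB_inKer_zsmul {r : Γ₀} (hr : r < 1) {P : W.Point} (hP : InKer v r P) (c : ℤ) :
    InKer v r (c • P) := by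
  rcases Int.eq_nat_or_neg c with ⟨n, rfl | rfl⟩
  · rw [natCast_zsmul]
    exact (inKer_nsmul v h₁ h₂ h₃ h₄ h₆ hr hP n).1
  · rw [neg_zsmul, natCast_zsmul]
    exact S58KB_inKer_neg v h₁ h₂ h₃ h₄ h₆ (inKer_nsmul v h₁ h₂ h₃ h₄ h₆ hr hP n).1

omit [DecidableEq K] in
/-- on the kernel of reduction `v x * v z ^ 2 = 1`. -/
theorem S58KB_val_x {x y : K} (h : W.Equation x y) (hx : 1 < v x) :
    v x * v (-x / y) ^ 2 = 1 := by
  obtain ⟨hy0, hz, hw, hw3, hz0⟩ := kernel_point v h₁ h₂ h₃ h₄ h₆ h hx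
  have hxzw : x * (-1 / y) = -x / y := by field_simp
  have e1 := congrArg v hxzw
  rw [map_mul, hw3] at e1
  have e2 : (v x * v (-x / y) ^ 2) * v (-x / y) = 1 * v (-x / y) := by
    rw [one_mul, mul_assoc, ← pow_succ]; exact e1
  exact mul_right_cancel₀ hz0 e2

omit [DecidableEq K] in
/-- a point of the filtration step of `R` has a pole of `x` at least as deep as `R`. -/
theorem S58KB_val_x_le {x y x' y' : K} (h : W.Equation x y) (hx : 1 < v x)
    (h' : W.Equation x' y') (hx' : 1 < v x') (hzz : v (-x' / y') ≤ v (-x / y)) :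
    v x ≤ v x' := by
  have e := S58KB_val_x v h₁ h₂ h₃ h₄ h₆ h hx
  have e' := S58KB_val_x v h₁ h₂ h₃ h₄ h₆ h' hx'
  obtain ⟨-, -, -, -, hz0'⟩ := kernel_point v h₁ h₂ h₃ h₄ h₆ h' hx'
  have hz2 : v (-x' / y') ^ 2 ≤ v (-x / y) ^ 2 := pow_le_pow_left₀ zero_le hzz 2
  have hpos : 0 < v (-x' / y') ^ 2 := pow_pos (zero_lt_iff.mpr hz0') 2
  -- v x * z'^2 ≤ v x * z^2 = 1 = v x' * z'^2
  have h3 : v x * v (-x' / y') ^ 2 ≤ v x' * v (-x' / y') ^ 2 := by
    calc v x * v (-x' / y') ^ 2 ≤ v x * v (-x / y) ^ 2 := by gcongr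
      _ = 1 := e
      _ = v x' * v (-x' / y') ^ 2 := e'.symm
  exact le_of_mul_le_mul_right h3 hpos

end Filt

/-! ### The local inequality at a place -/

section Local

variable {k F : Type*} [Field k] [Field F] [Algebra k F]

theorem S58KB_lam_pos_iff (v : Place k F) (u : F) :
    0 < S58E1_lam k v u ↔ 1 < v.adicValuation u := by
  rw [S58E1_lam_pos_iff, Place.ord]
  rcases eq_or_ne u 0 with rfl | hu
  · simp
  · have hv : v.adicValuation u ≠ 0 := v.adicValuation_ne_zero hu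
    rw [neg_lt_zero, ← WithZero.log_one, WithZero.log_lt_log one_ne_zero hv]

theorem S58KB_lam_le_of_le (v : Place k F) {u u' : F} (hu : 1 < v.adicValuation u)
    (h : v.adicValuation u ≤ v.adicValuation u') : S58E1_lam k v u ≤ S58E1_lam k v u' := by
  have hu0 : v.adicValuation u ≠ 0 := (zero_lt_one.trans hu).ne'
  have hu0' : v.adicValuation u' ≠ 0 := ((zero_lt_one.trans hu).trans_le h).ne'
  have hl : WithZero.log (v.adicValuation u) ≤ WithZero.log (v.adicValuation u') :=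
    (WithZero.log_le_log hu0 hu0').mpr h
  simp only [S58E1_lam, Place.ord, neg_neg]
  exact max_le_max le_rfl hl

variable [DecidableEq F] (v : Place k F) (W : WeierstrassCurve.Affine F)

omit [DecidableEq F] in
theorem S58KB_lamP_nonneg (R : W.Point) : 0 ≤ S58E1_lamP k W v R := by
  rcases R with _ | ⟨x, y, h⟩
  · exact le_rfl
  · exact S58E1_lam_nonneg v x

omit [DecidableEq F] in
theorem S58KB_exists_of_pos {R : W.Point} (hR : 0 < S58E1_lamP k W v R) :
    ∃ (x y : F) (h : W.Nonsingular x y), R = Point.some x y h ∧ 1 < v.adicValuation x := by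
  rcases R with _ | ⟨x, y, h⟩
  · exact absurd hR (lt_irrefl _)
  · exact ⟨x, y, h, rfl, (S58KB_lam_pos_iff v x).mp hR⟩

omit [DecidableEq F] in
theorem S58KB_eq_zero_of_inKer {r : ℤᵐ⁰} {R : W.Point} (hR : InKer v.adicValuation r R)
    (h0 : S58E1_lamP k W v R = 0) : R = 0 := by
  rcases R with _ | ⟨x, y, h⟩
  · rfl
  · exfalso
    have hpos : 0 < S58E1_lamP k W v (Point.some x y h) := (S58KB_lam_pos_iff v x).mpr hR.1
    rw [h0] at hpos
    exact lt_irrefl _ hpos

variable (h₁ : v.adicValuation W.a₁ ≤ 1) (h₂ : v.adicValuation W.a₂ ≤ 1)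
  (h₃ : v.adicValuation W.a₃ ≤ 1) (h₄ : v.adicValuation W.a₄ ≤ 1)
  (h₆ : v.adicValuation W.a₆ ≤ 1)

include h₁ h₂ h₃ h₄ h₆

omit [DecidableEq F] in
theorem S58KB_inKer_of_pos {R : W.Point} (hR : 0 < S58E1_lamP k W v R) :
    ∃ r : ℤᵐ⁰, r < 1 ∧ InKer v.adicValuation r R := by
  obtain ⟨x, y, h, rfl, hx⟩ := S58KB_exists_of_pos v W hR
  obtain ⟨-, hz, -, -, -⟩ := kernel_point v.adicValuation h₁ h₂ h₃ h₄ h₆ h.1 hx
  exact ⟨_, hz, hx, le_rfl⟩

omit [DecidableEq F] in
/-- a nonzero point in every filtration step of `R` has a local height at least that of `R`. -/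
theorem S58KB_lamP_le {R R' : W.Point} (hR : 0 < S58E1_lamP k W v R) (hR' : R' ≠ 0)
    (hin : ∀ r : ℤᵐ⁰, r < 1 → InKer v.adicValuation r R → InKer v.adicValuation r R') :
    S58E1_lamP k W v R ≤ S58E1_lamP k W v R' := by
  obtain ⟨x, y, h, rfl, hx⟩ := S58KB_exists_of_pos v W hR
  obtain ⟨-, hz, -, -, -⟩ := kernel_point v.adicValuation h₁ h₂ h₃ h₄ h₆ h.1 hx
  have hk := hin _ hz ⟨hx, le_rfl⟩
  rcases R' with _ | ⟨x', y', h'⟩
  · exact absurd rfl hR'
  · obtain ⟨hx', hzz⟩ := hk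
    exact S58KB_lam_le_of_le v hx
      (S58KB_val_x_le v.adicValuation h₁ h₂ h₃ h₄ h₆ h.1 hx h'.1 hx' hzz)

/-- **the local inequality.** -/
theorem S58KB_local (ψ : W.Point →+ W.Point)
    (hker : ∀ r : ℤᵐ⁰, r < 1 → ∀ R : W.Point,
      InKer v.adicValuation r R → InKer v.adicValuation r (ψ R))
    (T : Finset W.Point) (hT0 : ∀ P ∈ T, ψ P = 0)
    (hconst : ∀ P ∈ T, ∀ Q ∈ T, S58E1_lamP k W v (Q - P) = 0)
    (S : W.Point) (hS : ψ S ≠ 0) :
    ∑ P ∈ T, S58E1_lamP k W v (S - P) ≤ S58E1_lamP k W v (ψ S) := by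
  by_cases hex : ∃ P0 ∈ T, 0 < S58E1_lamP k W v (S - P0)
  · obtain ⟨P0, hP0, hpos⟩ := hex
    have hothers : ∀ P ∈ T, P ≠ P0 → S58E1_lamP k W v (S - P) = 0 := by
      intro P hP hne
      by_contra hne0
      have hnn : 0 ≤ S58E1_lamP k W v (S - P) := S58KB_lamP_nonneg v W _
      have hpos' : 0 < S58E1_lamP k W v (S - P) := lt_of_le_of_ne hnn (Ne.symm hne0)
      obtain ⟨r, hr, hin⟩ := S58KB_inKer_of_pos v W h₁ h₂ h₃ h₄ h₆ hpos
      obtain ⟨r', hr', hin'⟩ := S58KB_inKer_of_pos v W h₁ h₂ h₃ h₄ h₆ hpos'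
      have hm : max r r' < 1 := max_lt hr hr'
      have hd := S58KB_inKer_sub v.adicValuation h₁ h₂ h₃ h₄ h₆ hm
        (S58KB_inKer_mono v.adicValuation (le_max_left r r') hin)
        (S58KB_inKer_mono v.adicValuation (le_max_right r r') hin')
      have e : S - P0 - (S - P) = P - P0 := by abel
      rw [e] at hd
      have hz := S58KB_eq_zero_of_inKer v W hd (hconst P0 hP0 P hP)
      exact hne (sub_eq_zero.mp hz)
    rw [Finset.sum_eq_single P0 (fun P hP hne => hothers P hP hne) (fun h => absurd hP0 h)]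
    have e : ψ (S - P0) = ψ S := by rw [map_sub, hT0 P0 hP0, sub_zero]
    rw [← e] at hS ⊢
    exact S58KB_lamP_le v W h₁ h₂ h₃ h₄ h₆ hpos hS (fun r hr hin => hker r hr _ hin)
  · have hex' : ∀ P ∈ T, S58E1_lamP k W v (S - P) ≤ 0 := fun P hP =>
      not_lt.mp fun hlt => hex ⟨P, hP, hlt⟩
    exact (Finset.sum_nonpos fun P hP => hex' P hP).trans (S58KB_lamP_nonneg v W _)

end Local

/-! ### The global inequality -/

section Global

variable {k F : Type*} [Field k] [Field F] [Algebra k F] [DecidableEq F]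

omit [DecidableEq F] in
theorem S58KB_lamP_support_finite (hPF : S58E1_PF k F) (W : WeierstrassCurve.Affine F)
    (R : W.Point) : (Function.support fun v : Place k F => S58E1_lamP k W v R).Finite := by
  rcases R with _ | ⟨x, y, h⟩
  · have : (Function.support fun v : Place k F => S58E1_lamP k W v (Point.zero)) = ∅ := by
      ext v
      simp only [Function.mem_support, ne_eq, Set.mem_empty_iff_false, iff_false, not_not]
      rfl
    rw [this]
    exact Set.finite_empty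
  · exact S58E1_lam_support_finite hPF x

/-- **[KERBOUND], abstract form**: `#T * h S ≤ h (ψ S)` for a finite set `T` of constant torsion
points killed by `ψ`, when `ψ S ≠ O`. -/
theorem S58KB_abs (hPF : S58E1_PF k F) (W : WeierstrassCurve.Affine F)
    (hint : ∀ v : Place k F, v.adicValuation W.a₁ ≤ 1 ∧ v.adicValuation W.a₂ ≤ 1 ∧
      v.adicValuation W.a₃ ≤ 1 ∧ v.adicValuation W.a₄ ≤ 1 ∧ v.adicValuation W.a₆ ≤ 1)
    (hpar : ∀ S T : W.Point, S58E1_h k W (S + T) + S58E1_h k W (S - T) =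
      2 * S58E1_h k W S + 2 * S58E1_h k W T)
    (ψ : W.Point →+ W.Point)
    (hker : ∀ (v : Place k F) (r : ℤᵐ⁰), r < 1 → ∀ R : W.Point,
      InKer v.adicValuation r R → InKer v.adicValuation r (ψ R))
    (T : Finset W.Point) (hT0 : ∀ P ∈ T, ψ P = 0)
    (hconst : ∀ P ∈ T, ∀ Q ∈ T, ∀ v : Place k F, S58E1_lamP k W v (Q - P) = 0)
    (hh0 : ∀ P ∈ T, S58E1_h k W P = 0)
    (htors : ∀ P ∈ T, ∃ n : ℤ, n ≠ 0 ∧ n • P = 0)
    (S : W.Point) (hS : ψ S ≠ 0) :
    (T.card : ℤ) * S58E1_h k W S ≤ S58E1_h k W (ψ S) := by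
  have hfin := S58KB_lamP_support_finite hPF W
  have e2 : ∀ P ∈ T, (∑ᶠ v : Place k F, S58E1_lamP k W v (S - P)) = S58E1_h k W S := by
    intro P hP
    rw [← S58E1_h_eq_finsum]
    obtain ⟨n, hn, hnT⟩ := htors P hP
    exact (Fermat.Agent.S58_helper7_KR.S58KR_torsion (S58E1_h k W) hpar P n hn hnT
      (hh0 P hP) S).2
  have hsupp : (Function.support fun v : Place k F =>
      ∑ P ∈ T, S58E1_lamP k W v (S - P)).Finite := by
    refine (T.finite_toSet.biUnion fun P _ => hfin (S - P)).subset fun v hv => ?_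
    simp only [Function.mem_support, ne_eq] at hv
    by_contra hcon
    apply hv
    refine Finset.sum_eq_zero fun P hP => ?_
    by_contra hne
    apply hcon
    simp only [Set.mem_iUnion]
    exact ⟨P, Finset.mem_coe.mpr hP, hne⟩
  calc (T.card : ℤ) * S58E1_h k W S = ∑ _P ∈ T, S58E1_h k W S := by
        rw [Finset.sum_const, nsmul_eq_mul]
    _ = ∑ P ∈ T, ∑ᶠ v : Place k F, S58E1_lamP k W v (S - P) :=
        Finset.sum_congr rfl fun P hP => (e2 P hP).symm
    _ = ∑ᶠ v : Place k F, ∑ P ∈ T, S58E1_lamP k W v (S - P) :=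
        (finsum_sum_comm T (fun v P => S58E1_lamP k W v (S - P))
          (fun P _ => hfin (S - P))).symm
    _ ≤ ∑ᶠ v : Place k F, S58E1_lamP k W v (ψ S) := by
        refine finsum_le_finsum' hsupp (hfin (ψ S)) fun v => ?_
        obtain ⟨h₁, h₂, h₃, h₄, h₆⟩ := hint v
        exact S58KB_local v W h₁ h₂ h₃ h₄ h₆ ψ (hker v) T hT0
          (fun P hP Q hQ => hconst P hP Q hQ v) S hS
    _ = S58E1_h k W (ψ S) := (S58E1_h_eq_finsum W (ψ S)).symm

end Global

end Fermat.Agent.S58_helper26_KERB
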