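import Mathlib
import Fermat.Prelude.Def_AlgebraicCurve_DivisorClassGroup
import Fermat.Agent.S05_helper6_Kernel
import Fermat.Agent.S58_helper19_E1DEFS
import Fermat.Agent.S58_helper4_GRAM
import Fermat.Agent.S58_helper7_KR
import Fermat.Agent.S58_helper7_KRC
import Fermat.Agent.S58_helper26_KERB

/-!
# S58, (E1) [KERBOUND] (helper26): concrete form for the Frobenius

Setting of helper7's `KRC`: `𝔽` a finite field, `k ⊇ 𝔽` the constant field, `F / k` the function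
field, `W0` a Weierstrass curve over `𝔽`, `φ = S58KR_frob F W0` the Frobenius on `W0(F)`.

* `S58KB_frob_inKer`    : the Frobenius respects the filtration of the kernel of reduction;
* `S58KB_psi`           : `ψ = φ - c`, and `S58KB_psi_inKer`;
* `S58KB_frob_baseChange`: the Frobenius commutes with the base change `W0(k) → W0(F)`;
* `S58KB_main`          : `#T * h S ≤ h (φ S - c S)` for a finite set `T` of torsion points of
  `W0(k)` with `φ P = c P`, when `φ S ≠ c S`;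
* `S58KB_count`         : `#T ≤ c ^ 2 - a c + q`, `a = q + 1 - N`;
* `S58KB_nonscalar`     : if `|a| + q < p ^ m` then a set of points of `W0(k)[p ^ m]` on which
  `φ = c` has fewer than `p ^ (2 m)` elements.
-/

set_option autoImplicit false
set_option linter.unusedSectionVars false
set_option linter.unusedVariables false

namespace Fermat.Agent.S58_helper26_KERBC

open AlgebraicCurve WeierstrassCurve WeierstrassCurve.Affine
open Fermat.Agent.S58_helper19_E1DEFS Fermat.Agent.S05_helper6_Kernel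
open Fermat.Agent.S58_helper4_GRAM Fermat.Agent.S58_helper7_KRC
open Fermat.Agent.S58_helper26_KERB
open scoped WithZero

/-! ### The Frobenius and the filtration -/

section Frob

variable {𝔽 : Type*} {F : Type*} [Field 𝔽] [Field F] [DecidableEq 𝔽] [DecidableEq F]
  [Algebra 𝔽 F] [Fintype 𝔽] (W0 : WeierstrassCurve.Affine 𝔽)
  {Γ₀ : Type*} [LinearOrderedCommGroupWithZero Γ₀] (v : Valuation F Γ₀)

theorem S58KB_frob_inKer {r : Γ₀} (hr : r < 1) {R : (W0⁄F).Point} (hR : InKer v r R) :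
    InKer v r (S58KR_frob F W0 R) := by
  rcases R with _ | ⟨x, y, h⟩
  · trivial
  · obtain ⟨h', e⟩ := S58KR_frob_some W0 h
    rw [e]
    obtain ⟨hx, hz⟩ := hR
    have hq : Fintype.card 𝔽 ≠ 0 := Fintype.card_ne_zero
    refine ⟨?_, ?_⟩
    · rw [map_pow]
      exact one_lt_pow₀ hx hq
    · have e2 : -x ^ Fintype.card 𝔽 / y ^ Fintype.card 𝔽
          = -((x / y) ^ Fintype.card 𝔽) := by
        rw [div_pow, neg_div]
      rw [e2, Valuation.map_neg, map_pow]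
      have hz' : v (x / y) ≤ r := by
        have : -x / y = -(x / y) := neg_div y x
        rw [this, Valuation.map_neg] at hz
        exact hz
      exact (pow_le_of_le_one zero_le (hz'.trans hr.le) hq).trans hz'

/-- `ψ = φ - c`. -/
noncomputable def S58KB_psi (c : ℤ) : (W0⁄F).Point →+ (W0⁄F).Point :=
  S58KR_frob F W0 - c • AddMonoidHom.id _

theorem S58KB_psi_apply (c : ℤ) (S : (W0⁄F).Point) :
    S58KB_psi W0 c S = S58KR_frob F W0 S - c • S := rfl

theorem S58KB_psi_inKer (h₁ : v (W0⁄F).a₁ ≤ 1) (h₂ : v (W0⁄F).a₂ ≤ 1) (h₃ : v (W0⁄F).a₃ ≤ 1)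
    (h₄ : v (W0⁄F).a₄ ≤ 1) (h₆ : v (W0⁄F).a₆ ≤ 1) (c : ℤ) {r : Γ₀} (hr : r < 1)
    {R : (W0⁄F).Point} (hR : InKer v r R) : InKer v r (S58KB_psi W0 c R) := by
  rw [S58KB_psi_apply]
  exact S58KB_inKer_sub v h₁ h₂ h₃ h₄ h₆ hr (S58KB_frob_inKer W0 v hr hR)
    (S58KB_inKer_zsmul v h₁ h₂ h₃ h₄ h₆ hr hR c)

end Frob

/-! ### The concrete inequality -/

section Concrete

variable {𝔽 : Type*} (k : Type*) {F : Type*} [Field 𝔽] [Field k] [Field F] [DecidableEq 𝔽]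
  [DecidableEq k] [DecidableEq F] [Algebra 𝔽 k] [Algebra k F] [Algebra 𝔽 F] [IsScalarTower 𝔽 k F]
  [Fintype 𝔽] (W0 : WeierstrassCurve.Affine 𝔽)

/-- the coefficients of the constant curve are integral at every place. -/
theorem S58KB_int (v : Place k F) (a : 𝔽) : v.adicValuation (algebraMap 𝔽 F a) ≤ 1 := by
  rw [IsScalarTower.algebraMap_apply 𝔽 k F]
  have h := v.heightOneSpectrum.valuation_le_one (K := F)
    (⟨algebraMap k F (algebraMap 𝔽 k a), v.algebraMap_mem' _⟩ : v.toValuationSubring)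
  exact h

theorem S58KB_hint (v : Place k F) :
    v.adicValuation (W0⁄F).a₁ ≤ 1 ∧ v.adicValuation (W0⁄F).a₂ ≤ 1 ∧
      v.adicValuation (W0⁄F).a₃ ≤ 1 ∧ v.adicValuation (W0⁄F).a₄ ≤ 1 ∧
      v.adicValuation (W0⁄F).a₆ ≤ 1 :=
  ⟨S58KB_int k v _, S58KB_int k v _, S58KB_int k v _, S58KB_int k v _, S58KB_int k v _⟩

/-- the local heights of a constant point (a point of `W0(k)`) vanish. -/
theorem S58KB_lamP_const (v : Place k F) (P : (W0⁄k).Point) :
    S58E1_lamP k (W0⁄F) v (Point.baseChange k F P) = 0 := by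
  rcases P with _ | ⟨x, y, h⟩
  · rfl
  · show S58E1_lam k v (Algebra.ofId k F x) = 0
    rw [S58E1_lam_eq_zero_iff, Algebra.ofId_apply,
      Fermat.Agent.S24_helper6_A2.ord_algebraMap_eq_zero v x]

theorem S58KB_h_const (P : (W0⁄k).Point) :
    S58E1_h k (W0⁄F) (Point.baseChange k F P) = 0 := by
  rw [S58E1_h_eq_finsum]
  simp only [S58KB_lamP_const, finsum_zero]

/-- the Frobenius commutes with the base change from the constant field. -/
theorem S58KB_frob_baseChange (P : (W0⁄k).Point) :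
    S58KR_frob F W0 (Point.baseChange k F P) = Point.baseChange k F (S58KR_frob k W0 P) := by
  rcases P with _ | ⟨x, y, h⟩
  · rfl
  · obtain ⟨h1, e1⟩ := S58KR_frob_some (F := k) W0 h
    rw [e1]
    have hb : (W0⁄F).Nonsingular (algebraMap k F x) (algebraMap k F y) :=
      (W0.baseChange_nonsingular (Algebra.ofId k F).injective ..).mpr h
    have eb : Point.baseChange k F (Point.some x y h) = Point.some _ _ hb := rfl
    rw [eb]
    obtain ⟨h2, e2⟩ := S58KR_frob_some (F := F) W0 hb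
    rw [e2]
    have hb' : (W0⁄F).Nonsingular (algebraMap k F (x ^ Fintype.card 𝔽))
        (algebraMap k F (y ^ Fintype.card 𝔽)) :=
      (W0.baseChange_nonsingular (Algebra.ofId k F).injective ..).mpr h1
    have eb' : Point.baseChange k F (Point.some _ _ h1) = Point.some _ _ hb' := rfl
    rw [eb']
    congr 1 <;> rw [map_pow]

/-- **[KERBOUND]**: `#T * h S ≤ h (φ S - c S)` for a finite set `T` of torsion points of `W0(k)`
on which the Frobenius is multiplication by `c`, when `φ S ≠ c S`. -/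
theorem S58KB_main (hPF : S58E1_PF k F)
    (hpar : ∀ S T : (W0⁄F).Point, S58E1_h k (W0⁄F) (S + T) + S58E1_h k (W0⁄F) (S - T) =
      2 * S58E1_h k (W0⁄F) S + 2 * S58E1_h k (W0⁄F) T)
    (c : ℤ) (T : Finset (W0⁄k).Point)
    (hT : ∀ P ∈ T, S58KR_frob k W0 P = c • P)
    (htors : ∀ P ∈ T, ∃ n : ℤ, n ≠ 0 ∧ n • P = 0)
    (S : (W0⁄F).Point) (hS : S58KR_frob F W0 S - c • S ≠ 0) :
    (T.card : ℤ) * S58E1_h k (W0⁄F) S ≤ S58E1_h k (W0⁄F) (S58KR_frob F W0 S - c • S) := by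
  classical
  have hinj : Function.Injective (Point.baseChange k F : (W0⁄k).Point → (W0⁄F).Point) :=
    Point.map_injective (W' := W0) (Algebra.ofId k F)
  have hcard : (T.image (Point.baseChange k F : (W0⁄k).Point → (W0⁄F).Point)).card = T.card :=
    Finset.card_image_of_injective T hinj
  have key := S58KB_abs hPF (W0⁄F) (S58KB_hint k W0) hpar (S58KB_psi W0 c)
    (fun v r hr R hR => by
      obtain ⟨h₁, h₂, h₃, h₄, h₆⟩ := S58KB_hint k W0 v
      exact S58KB_psi_inKer W0 v.adicValuation h₁ h₂ h₃ h₄ h₆ c hr hR)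
    (T.image (Point.baseChange k F : (W0⁄k).Point → (W0⁄F).Point))
    (fun P' hP' => by
      obtain ⟨P, hP, rfl⟩ := Finset.mem_image.mp hP'
      rw [S58KB_psi_apply, S58KB_frob_baseChange, hT P hP, map_zsmul, sub_self])
    (fun P' hP' Q' hQ' v => by
      obtain ⟨P, hP, rfl⟩ := Finset.mem_image.mp hP'
      obtain ⟨Q, hQ, rfl⟩ := Finset.mem_image.mp hQ'
      rw [← map_sub]
      exact S58KB_lamP_const k W0 v (Q - P))
    (fun P' hP' => by
      obtain ⟨P, hP, rfl⟩ := Finset.mem_image.mp hP'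
      exact S58KB_h_const k W0 P)
    (fun P' hP' => by
      obtain ⟨P, hP, rfl⟩ := Finset.mem_image.mp hP'
      obtain ⟨n, hn, hnP⟩ := htors P hP
      exact ⟨n, hn, by rw [← map_zsmul, hnP, map_zero]⟩)
    S (by rw [S58KB_psi_apply]; exact hS)
  rw [hcard, S58KB_psi_apply] at key
  exact key

/-- **[KERBOUND], counting form**: `#T ≤ c ^ 2 - a c + q`, `a = q + 1 - N`. -/
theorem S58KB_count (hPF : S58E1_PF k F)
    (hpar : ∀ S T : (W0⁄F).Point, S58E1_h k (W0⁄F) (S + T) + S58E1_h k (W0⁄F) (S - T) =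
      2 * S58E1_h k (W0⁄F) S + 2 * S58E1_h k (W0⁄F) T)
    (hφ : ∀ S : (W0⁄F).Point,
      S58E1_h k (W0⁄F) (S58KR_frob F W0 S) = (Fintype.card 𝔽 : ℤ) * S58E1_h k (W0⁄F) S)
    (N : ℤ)
    (hN : ∀ S : (W0⁄F).Point,
      S58E1_h k (W0⁄F) (S58KR_frob F W0 S - S) = N * S58E1_h k (W0⁄F) S)
    (G : (W0⁄F).Point) (hG : 0 < S58E1_h k (W0⁄F) G)
    (hsq : ∀ c : ℤ, c ^ 2 ≠ (Fintype.card 𝔽 : ℤ))
    (c : ℤ) (T : Finset (W0⁄k).Point)
    (hT : ∀ P ∈ T, S58KR_frob k W0 P = c • P)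
    (htors : ∀ P ∈ T, ∃ n : ℤ, n ≠ 0 ∧ n • P = 0) :
    (T.card : ℤ) ≤ c ^ 2 - ((Fintype.card 𝔽 : ℤ) + 1 - N) * c + (Fintype.card 𝔽 : ℤ) := by
  have hval : S58E1_h k (W0⁄F) (S58KR_frob F W0 G - c • G)
      = (c ^ 2 - ((Fintype.card 𝔽 : ℤ) + 1 - N) * c + (Fintype.card 𝔽 : ℤ))
        * S58E1_h k (W0⁄F) G := by
    rw [S58GR_sub (S58E1_h k (W0⁄F)) hpar, S58GR_smul (S58E1_h k (W0⁄F)) hpar,
      S58GR_B_zsmul_right (S58E1_h k (W0⁄F)) hpar,
      S58GR_B_phi (S58E1_h k (W0⁄F)) hpar (S58KR_frob F W0) (Fintype.card 𝔽 : ℤ) N hφ hN, hφ]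
    ring
  by_cases hS : S58KR_frob F W0 G - c • G = 0
  · exfalso
    have e : S58KR_frob F W0 G = c • G := sub_eq_zero.mp hS
    have h1 := hφ G
    rw [e, S58GR_smul (S58E1_h k (W0⁄F)) hpar] at h1
    exact hsq c (mul_right_cancel₀ hG.ne' h1)
  · have key := S58KB_main k W0 hPF hpar c T hT htors G hS
    rw [hval] at key
    exact le_of_mul_le_mul_right key hG

omit [Fintype 𝔽] [DecidableEq 𝔽] [DecidableEq k] [DecidableEq F] [Algebra 𝔽 k] [Algebra k F]
  [Algebra 𝔽 F] [IsScalarTower 𝔽 k F] in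
/-- a representative of `c` modulo `M` of absolute value at most `M / 2`. -/
theorem S58KB_repr (M : ℤ) (hM : 0 < M) (c : ℤ) : ∃ c' : ℤ, M ∣ c - c' ∧ 2 * |c'| ≤ M := by
  have h0 : 0 ≤ c % M := Int.emod_nonneg c hM.ne'
  have h1 : c % M < M := Int.emod_lt_of_pos c hM
  have h2 : c % M + M * (c / M) = c := Int.emod_add_mul_ediv c M
  by_cases h : 2 * (c % M) ≤ M
  · refine ⟨c % M, ⟨c / M, by linarith⟩, ?_⟩
    rw [abs_of_nonneg h0]
    exact h
  · refine ⟨c % M - M, ⟨c / M + 1, by linarith⟩, ?_⟩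
    rw [abs_of_nonpos (by linarith)]
    linarith

omit [Fintype 𝔽] [DecidableEq 𝔽] [DecidableEq k] [DecidableEq F] [Algebra 𝔽 k] [Algebra k F]
  [Algebra 𝔽 F] [IsScalarTower 𝔽 k F] in
/-- the arithmetic of the bound. -/
theorem S58KB_arith (a q M c' : ℤ) (hq : 0 < q) (hM : |a| + q < M) (hc : 2 * |c'| ≤ M) :
    c' ^ 2 - a * c' + q < M ^ 2 := by
  have hA : 0 ≤ |a| := abs_nonneg a
  have ht : 0 ≤ |c'| := abs_nonneg c'
  have h1 : -(a * c') ≤ |a| * |c'| := by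
    rw [← abs_mul]
    exact neg_le_abs _
  have h2 : c' ^ 2 = |c'| ^ 2 := (sq_abs c').symm
  have h3 : 4 * |c'| ^ 2 ≤ M ^ 2 := by nlinarith
  have h4 : 2 * (|a| * |c'|) ≤ |a| * M := by nlinarith
  have h5 : 0 < M := by linarith
  nlinarith

/-- **[KERBOUND], non-scalar form**: if `|a| + q < p ^ m` then a set of points of `W0(k)` killed
by `p ^ m` on which the Frobenius is multiplication by some integer `c` has fewer than
`p ^ (2 m)` elements. -/
theorem S58KB_nonscalar (hPF : S58E1_PF k F)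
    (hpar : ∀ S T : (W0⁄F).Point, S58E1_h k (W0⁄F) (S + T) + S58E1_h k (W0⁄F) (S - T) =
      2 * S58E1_h k (W0⁄F) S + 2 * S58E1_h k (W0⁄F) T)
    (hφ : ∀ S : (W0⁄F).Point,
      S58E1_h k (W0⁄F) (S58KR_frob F W0 S) = (Fintype.card 𝔽 : ℤ) * S58E1_h k (W0⁄F) S)
    (N : ℤ)
    (hN : ∀ S : (W0⁄F).Point,
      S58E1_h k (W0⁄F) (S58KR_frob F W0 S - S) = N * S58E1_h k (W0⁄F) S)
    (G : (W0⁄F).Point) (hG : 0 < S58E1_h k (W0⁄F) G)
    (hsq : ∀ c : ℤ, c ^ 2 ≠ (Fintype.card 𝔽 : ℤ))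
    (p m : ℕ) (hpm : |(Fintype.card 𝔽 : ℤ) + 1 - N| + (Fintype.card 𝔽 : ℤ) < ((p ^ m : ℕ) : ℤ))
    (c : ℤ) (T : Finset (W0⁄k).Point)
    (hTm : ∀ P ∈ T, (p ^ m : ℕ) • P = 0)
    (hT : ∀ P ∈ T, S58KR_frob k W0 P = c • P) :
    T.card < p ^ (2 * m) := by
  have hq : (0 : ℤ) < (Fintype.card 𝔽 : ℤ) := by exact_mod_cast Fintype.card_pos
  have hM : (0 : ℤ) < ((p ^ m : ℕ) : ℤ) := by
    have := abs_nonneg ((Fintype.card 𝔽 : ℤ) + 1 - N)
    linarith
  obtain ⟨c', ⟨t, ht⟩, hc'⟩ := S58KB_repr ((p ^ m : ℕ) : ℤ) hM c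
  have hT' : ∀ P ∈ T, S58KR_frob k W0 P = c' • P := by
    intro P hP
    have e : c = c' + t * ((p ^ m : ℕ) : ℤ) := by linarith
    rw [hT P hP, e, add_smul, mul_smul, natCast_zsmul, hTm P hP, smul_zero, add_zero]
  have htors : ∀ P ∈ T, ∃ n : ℤ, n ≠ 0 ∧ n • P = 0 := fun P hP =>
    ⟨((p ^ m : ℕ) : ℤ), hM.ne', by rw [natCast_zsmul]; exact hTm P hP⟩
  have hcount := S58KB_count k W0 hPF hpar hφ N hN G hG hsq c' T hT' htors
  have har := S58KB_arith ((Fintype.card 𝔽 : ℤ) + 1 - N) (Fintype.card 𝔽 : ℤ)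
    ((p ^ m : ℕ) : ℤ) c' hq hpm hc'
  have hlt : (T.card : ℤ) < ((p ^ (2 * m) : ℕ) : ℤ) := by
    have e : ((p ^ (2 * m) : ℕ) : ℤ) = (((p ^ m : ℕ) : ℤ)) ^ 2 := by
      push_cast
      ring
    rw [e]
    linarith
  exact_mod_cast hlt

end Concrete

end Fermat.Agent.S58_helper26_KERBC
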