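import Mathlib
import Fermat.Prelude.Def_AlgebraicCurve_DivisorClassGroup
import Fermat.Agent.S58_helper19_E1AF
import Fermat.Agent.S58_helper26_KERBC

/-!
# S58 (E1) — [KERBOUND] plugged: the Frobenius is not a scalar on `W₀(k)[p ^ m]` (helper19)

`S58KBP_main`: `l` prime, `W₀` over `ZMod l` with `Δ ≠ 0`, `k` algebraically closed over
`ZMod l`, `|a| + l < p ^ m` with `a = l + 1 - #W₀(ZMod l)`.  A finite set `T` of points of
`W₀(k)` killed by `p ^ m` on which the Frobenius is multiplication by an integer `c` has fewer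
than `p ^ (2 m)` elements.  (helper26's `S58KB_nonscalar` with all hypotheses discharged.)
-/

set_option autoImplicit false

namespace Fermat.Agent.S58_helper19_KBP

open AlgebraicCurve WeierstrassCurve WeierstrassCurve.Affine
open Fermat.Agent.S58_helper19_E1DEFS Fermat.Agent.S58_helper19_PAR
open Fermat.Agent.S58_helper19_FROB Fermat.Agent.S58_helper19_E1A
open Fermat.Agent.S58_helper19_E1AC Fermat.Agent.S58_helper19_E1AF

variable (l : ℕ) [Fact l.Prime] (W₀ : WeierstrassCurve.Affine (ZMod l))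
  (k : Type*) [Field k] [Algebra (ZMod l) k]

/-- the generic point has positive height -/
theorem S58KBP_hG [IsAlgClosed k] [DecidableEq (S58E1AC_F l W₀ k)] (hΔ : W₀.Δ ≠ 0) :
    0 < S58E1_h k (W₀⁄(S58E1AC_F l W₀ k)) (S58E1AC_G l W₀ k hΔ) := by
  have hΔk : (W₀⁄k).Δ ≠ 0 := S58E1AF_Δk l W₀ k hΔ
  have hPF : S58E1_PF k (S58E1AC_F l W₀ k) :=
    Fermat.Agent.S58_helper21_PFC.S58PF_ell (W₀⁄k) hΔk
  obtain ⟨v, hv⟩ := Fermat.Agent.S58_helper21_PFC.S58PF_ell_exists_pole (W₀⁄k) hΔk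
  have hfin := S58E1_lam_support_finite hPF
    (algebraMap (Polynomial k) (S58E1AC_F l W₀ k) Polynomial.X)
  have e : S58E1_h k (W₀⁄(S58E1AC_F l W₀ k)) (S58E1AC_G l W₀ k hΔ)
      = S58E1_hX k (algebraMap (Polynomial k) (S58E1AC_F l W₀ k) Polynomial.X) := rfl
  rw [e]
  unfold S58E1_hX
  rw [finsum_eq_sum_of_support_subset _ (s := hfin.toFinset) (by simp)]
  have hpos : 0 < S58E1_lam k v (algebraMap (Polynomial k) (S58E1AC_F l W₀ k) Polynomial.X) :=
    (S58E1_lam_pos_iff v _).mpr hv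
  have hmem : v ∈ hfin.toFinset := by
    simp only [Set.Finite.mem_toFinset, Function.mem_support]
    exact hpos.ne'
  exact lt_of_lt_of_le hpos
    (Finset.single_le_sum (f := fun w : Place k (S58E1AC_F l W₀ k) =>
      S58E1_lam k w (algebraMap (Polynomial k) (S58E1AC_F l W₀ k) Polynomial.X))
      (fun w _ => S58E1_lam_nonneg w _) hmem)

variable [IsAlgClosed k] [DecidableEq k]

/-- **[KERBOUND], plugged.** -/
theorem S58KBP_main (hΔ : W₀.Δ ≠ 0) (p m : ℕ)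
    (hpm : |(l : ℤ) + 1 - (Nat.card W₀.Point : ℤ)| + (l : ℤ) < ((p ^ m : ℕ) : ℤ))
    (c : ℤ) (T : Finset (W₀⁄k).Point)
    (hT : ∀ P ∈ T, S58FR_phi l W₀ k P = c • P)
    (hTm : ∀ P ∈ T, (p ^ m : ℕ) • P = 0) :
    T.card < p ^ (2 * m) := by
  classical
  have hΔk : (W₀⁄k).Δ ≠ 0 := S58E1AF_Δk l W₀ k hΔ
  have hΔF : (W₀⁄(S58E1AC_F l W₀ k)).Δ ≠ 0 := S58E1AC_Δ_ne_zero l W₀ k hΔ
  have hPF : S58E1_PF k (S58E1AC_F l W₀ k) :=
    Fermat.Agent.S58_helper21_PFC.S58PF_ell (W₀⁄k) hΔk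
  have hD : S58PAR_Dup k (W₀⁄(S58E1AC_F l W₀ k)) :=
    Fermat.Agent.S58_helper1_DUPP.S58DUPP_tower hPF W₀ hΔk
  have hA : S58PAR_AVal k (W₀⁄(S58E1AC_F l W₀ k)) := by
    have key : ∀ W0 : WeierstrassCurve (ZMod l), (W0.map (algebraMap (ZMod l) k)).Δ ≠ 0 →
        S58PAR_AVal k (W0.map (algebraMap (ZMod l) (S58E1AC_F l W₀ k))).toAffine := by
      intro W0 h
      have e : W0.map (algebraMap (ZMod l) (S58E1AC_F l W₀ k))
          = (W0.map (algebraMap (ZMod l) k)).map (algebraMap k (S58E1AC_F l W₀ k)) := by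
        rw [WeierstrassCurve.map_map, ← IsScalarTower.algebraMap_eq]
      rw [e]
      exact Fermat.Agent.S58_helper4_AVAL.S58AV_main_const _ h
    exact key W₀ hΔk
  have hpar := S58PAR_main hPF (W₀⁄(S58E1AC_F l W₀ k)) hA hD
  have : CharP (S58E1AC_F l W₀ k) l :=
    charP_of_injective_algebraMap (algebraMap (ZMod l) (S58E1AC_F l W₀ k)).injective l
  have hφ : ∀ (x y : S58E1AC_F l W₀ k) (h : (W₀⁄(S58E1AC_F l W₀ k)).Nonsingular x y),
      ∃ h', S58FR_phi l W₀ (S58E1AC_F l W₀ k) (Point.some x y h)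
        = Point.some (x ^ l) (y ^ l) h' := fun x y h => S58FR_phi_some l W₀ _ h
  have hKR : ∀ S : (W₀⁄(S58E1AC_F l W₀ k)).Point,
      S58E1_h k (W₀⁄(S58E1AC_F l W₀ k)) (S58FR_phi l W₀ (S58E1AC_F l W₀ k) S - S)
        = (Nat.card W₀.Point : ℤ) * S58E1_h k (W₀⁄(S58E1AC_F l W₀ k)) S := fun S =>
    Fermat.Agent.S58_helper7_KRG.S58KRG_main l W₀ (S58FR_phi l W₀ (S58E1AC_F l W₀ k)) hφ k hPF
      hpar
      (fun T hT v S => Fermat.Agent.S58_helper6_KRLOC.S58KR_loc k v l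
        (W₀⁄(S58E1AC_F l W₀ k)) (Fermat.Agent.S58_helper7_KRG.S58KRG_coeff l W₀) hΔF
        (S58FR_phi l W₀ (S58E1AC_F l W₀ k)) hφ T hT S) S
  have hcard : (Fintype.card (ZMod l) : ℤ) = (l : ℤ) := by rw [ZMod.card]
  have hl : l.Prime := Fact.out
  refine Fermat.Agent.S58_helper26_KERBC.S58KB_nonscalar (𝔽 := ZMod l) k
    (F := S58E1AC_F l W₀ k) W₀ hPF hpar
    (fun S => by rw [hcard]; exact S58E1A_SC l W₀ S) (Nat.card W₀.Point : ℤ)
    (fun S => hKR S) (S58E1AC_G l W₀ k hΔ) (S58KBP_hG l W₀ k hΔ)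
    (fun c hc => ?_) p m (by rw [hcard]; exact hpm) c T hTm (fun P hP => hT P hP)
  -- `l` is not a square
  rw [hcard] at hc
  have h1 : (c.natAbs ^ 2 : ℕ) = l := by
    have : ((c.natAbs ^ 2 : ℕ) : ℤ) = (l : ℤ) := by
      rw [Nat.cast_pow, Int.natCast_natAbs, sq_abs]; exact hc
    exact_mod_cast this
  have h2 : c.natAbs ∣ l := ⟨c.natAbs, by rw [← h1]; ring⟩
  rcases (Nat.dvd_prime hl).mp h2 with h3 | h3
  · rw [h3] at h1
    have := hl.one_lt
    omega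
  · rw [h3] at h1
    have := hl.one_lt
    nlinarith

end Fermat.Agent.S58_helper19_KBP
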