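import Mathlib
import Fermat.Agent.S58_helper4_AVAL
import Fermat.Agent.S58_helper1_DUPP

/-!
# S58, (E1a) [A-VAL] (helper4): tower form and the plug into the parallelogram law

* `S58AVT_tower` : `S58PAR_AVal k (W0.map (algebraMap R F)).toAffine` for a curve `W0` defined over
  a ring `R` mapping to the constant field `k` (same shape as helper1's `S58DUPP_tower`);
* `S58AVT_baseChange` : the same in Mathlib's base-change notation `W0⁄F`, `R` a field;
* `S58AVT_par` : the exact parallelogram law of the height `S58E1_h k (W0⁄F)` from the product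
  formula alone (`hpar` of helper19's `S58E1A_abs`), by `S58PAR_main`, `S58AVT_tower` and
  helper1's `S58DUPP_tower`.
-/

set_option autoImplicit false
set_option linter.unusedSectionVars false
set_option linter.unusedVariables false

open AlgebraicCurve WeierstrassCurve WeierstrassCurve.Affine
open Fermat.Agent.S58_helper19_E1DEFS Fermat.Agent.S58_helper19_PAR
open Fermat.Agent.S58_helper4_AVAL Fermat.Agent.S58_helper1_DUPP

namespace Fermat.Agent.S58_helper4_AVALT

variable {k F : Type*} [Field k] [Field F] [Algebra k F] [DecidableEq F]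

/-- **[A-VAL], tower form**: the curve is defined over a ring `R` mapping to the constants. -/
theorem S58AVT_tower {R : Type*} [CommRing R] [Algebra R k] [Algebra R F] [IsScalarTower R k F]
    (W0 : WeierstrassCurve R) (hΔ : (W0.map (algebraMap R k)).Δ ≠ 0) :
    S58PAR_AVal k (W0.map (algebraMap R F)).toAffine := by
  have e : W0.map (algebraMap R F) = (W0.map (algebraMap R k)).map (algebraMap k F) := by
    rw [WeierstrassCurve.map_map, ← IsScalarTower.algebraMap_eq]
  rw [e]
  exact S58AV_main_const _ hΔ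

/-- `Δ ≠ 0` goes up a field extension. -/
theorem S58AVT_Δ_ne {R : Type*} [Field R] [Algebra R k] (W0 : WeierstrassCurve R)
    (hΔ : W0.Δ ≠ 0) : (W0.map (algebraMap R k)).Δ ≠ 0 := by
  rw [WeierstrassCurve.map_Δ]
  exact fun h0 => hΔ ((algebraMap R k).injective (by rw [h0, map_zero]))

/-- **[A-VAL], base-change notation** (`R` a field, e.g. `ZMod l`). -/
theorem S58AVT_baseChange {R : Type*} [Field R] [Algebra R k] [Algebra R F] [IsScalarTower R k F]
    (W0 : WeierstrassCurve.Affine R) (hΔ : W0.Δ ≠ 0) : S58PAR_AVal k (W0⁄F) :=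
  S58AVT_tower W0 (S58AVT_Δ_ne W0 hΔ)

/-- **[DUP], base-change notation** (helper1's `S58DUPP_tower`). -/
theorem S58AVT_dup {R : Type*} [Field R] [Algebra R k] [Algebra R F] [IsScalarTower R k F]
    (hPF : S58E1_PF k F) (W0 : WeierstrassCurve.Affine R) (hΔ : W0.Δ ≠ 0) :
    S58PAR_Dup k (W0⁄F) :=
  S58DUPP_tower hPF W0 (S58AVT_Δ_ne W0 hΔ)

/-- **The exact parallelogram law of the height on `E(F)`**, from the product formula alone. -/
theorem S58AVT_par {R : Type*} [Field R] [Algebra R k] [Algebra R F] [IsScalarTower R k F]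
    (hPF : S58E1_PF k F) (W0 : WeierstrassCurve.Affine R) (hΔ : W0.Δ ≠ 0)
    (S T : (W0⁄F).Point) :
    S58E1_h k (W0⁄F) (S + T) + S58E1_h k (W0⁄F) (S - T) =
      2 * S58E1_h k (W0⁄F) S + 2 * S58E1_h k (W0⁄F) T :=
  S58PAR_main hPF (W0⁄F) (S58AVT_baseChange W0 hΔ) (S58AVT_dup hPF W0 hΔ) S T

end Fermat.Agent.S58_helper4_AVALT
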