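import Mathlib
import Fermat.Agent.S58_helper7_KRG
import Fermat.Agent.S58_helper19_PAR
import Fermat.Agent.S58_helper19_E1A

/-!
# S58, (E1a) [KR] (helper7): the plug at helper19's Frobenius `S58FR_phi`

`hKR` of `S58E1A_abs` for `h = S58E1_h k (W₀⁄F)`, `phi = S58FR_phi l W₀ F`,
`N = Nat.card W₀.Point`, from the product formula, [A-VAL], [DUP] (through `S58PAR_main`) and
[KR-LOC] in helper6's shape.
-/

set_option autoImplicit false
set_option linter.unusedSectionVars false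
set_option linter.unusedVariables false

open AlgebraicCurve WeierstrassCurve WeierstrassCurve.Affine
open Fermat.Agent.S58_helper19_E1DEFS Fermat.Agent.S58_helper19_FROB
open Fermat.Agent.S58_helper19_PAR Fermat.Agent.S58_helper7_KRG

namespace Fermat.Agent.S58_helper7_KRP

variable (l : ℕ) [Fact l.Prime] (W₀ : WeierstrassCurve.Affine (ZMod l))
  {k F : Type*} [Field k] [Field F] [DecidableEq F]
  [Algebra (ZMod l) k] [Algebra (ZMod l) F] [Algebra k F] [IsScalarTower (ZMod l) k F]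

/-- **[KR] at `S58FR_phi`**, from the parallelogram law. -/
theorem S58KRP_of_par (hPF : S58E1_PF k F)
    (hpar : ∀ S T : (W₀⁄F).Point, S58E1_h k (W₀⁄F) (S + T) + S58E1_h k (W₀⁄F) (S - T) =
      2 * S58E1_h k (W₀⁄F) S + 2 * S58E1_h k (W₀⁄F) T)
    (hloc : ∀ (T : Finset (W₀⁄F).Point), (∀ P, P ∈ T ↔ S58FR_phi l W₀ F P = P) →
      ∀ (v : Place k F) (S : (W₀⁄F).Point),
        S58E1_lamP k (W₀⁄F) v (S58FR_phi l W₀ F S - S) =
          ∑ T0 ∈ T, S58E1_lamP k (W₀⁄F) v (S - T0)) :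
    ∀ S : (W₀⁄F).Point, S58E1_h k (W₀⁄F) (S58FR_phi l W₀ F S - S) =
      (Nat.card W₀.Point : ℤ) * S58E1_h k (W₀⁄F) S :=
  fun S => S58KRG_main l W₀ (S58FR_phi l W₀ F) (fun x y h => S58FR_phi_some l W₀ F h) k hPF
    hpar hloc S

/-- **[KR] at `S58FR_phi`** = `hKR` of `S58E1A_abs`, from [PF], [A-VAL], [DUP] and [KR-LOC]. -/
theorem S58KRP_main (hPF : S58E1_PF k F) (hA : S58PAR_AVal k (W₀⁄F))
    (hD : S58PAR_Dup k (W₀⁄F))
    (hloc : ∀ (T : Finset (W₀⁄F).Point), (∀ P, P ∈ T ↔ S58FR_phi l W₀ F P = P) →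
      ∀ (v : Place k F) (S : (W₀⁄F).Point),
        S58E1_lamP k (W₀⁄F) v (S58FR_phi l W₀ F S - S) =
          ∑ T0 ∈ T, S58E1_lamP k (W₀⁄F) v (S - T0)) :
    ∀ S : (W₀⁄F).Point, S58E1_h k (W₀⁄F) (S58FR_phi l W₀ F S - S) =
      (Nat.card W₀.Point : ℤ) * S58E1_h k (W₀⁄F) S :=
  S58KRP_of_par l W₀ hPF (fun S T => S58PAR_main hPF (W₀⁄F) hA hD S T) hloc

end Fermat.Agent.S58_helper7_KRP
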