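import Mathlib
import Fermat.Agent.S58_helper4_AVALT
import Fermat.Agent.S58_helper19_E1AC
import Fermat.Agent.S58_helper7_KRP
import Fermat.Agent.S58_helper6_KRLOC
import Fermat.Agent.S58_helper15_TRANS
import Fermat.Agent.S58_helper21_PFC
import Fermat.Agent.S58_helper25_E1BC

/-!
# S58, (E1a) CLOSED (helper4): the plug of all bricks

`S58E1CL_main : S58E1BC_E1a l W₀ (Nat.card W₀.Point)` for `W₀` over `ZMod l` with `Δ ≠ 0`:
the relation `φ² - (l + 1 - #W₀(𝔽_l)) φ + l = 0` on the points of `W₀` over every algebraically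
closed field `k` over `ZMod l` (helper25's typed interface of (E1a)), from

* helper19's concrete assembly `S58E1AC_main`,
* helper21's product formula `S58PF_ell` and `S58PF_ell_const` ([PF], [NP]),
* [A-VAL] (`S58AVT_baseChange`) and [DUP] (helper1's `S58DUPP_tower`, via `S58AVT_dup`),
* helper7's `S58KRP_main` with helper6's `S58KR_loc` ([KR], [KR-LOC]),
* helper15's `S58TR_main_functionField` ([TRANS]).

`S58E1CL_tors` / `S58E1CL_hrel`: the plug into helper25's `S58E1BC_main` / `S58E1BC_hrel`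
((E1a) + (E1b) closed): `σ² P + l P = a_l σ P` on the torsion prime to `l` of a curve over `ℤ`,
`σ` a Frobenius element at a prime `l` of good reduction.
-/

set_option autoImplicit false
set_option linter.unusedSectionVars false
set_option linter.unusedVariables false
set_option linter.style.haveILetI false

open AlgebraicCurve WeierstrassCurve WeierstrassCurve.Affine
open Fermat.Agent.S58_helper19_E1DEFS Fermat.Agent.S58_helper19_PAR
open Fermat.Agent.S58_helper19_FROB Fermat.Agent.S58_helper19_E1A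
open Fermat.Agent.S58_helper19_E1AC Fermat.Agent.S58_helper4_AVALT
open Fermat.Agent.S58_helper7_KRP Fermat.Agent.S58_helper7_KRG Fermat.Agent.S58_helper6_KRLOC
open Fermat.Agent.S58_helper15_TRANS Fermat.Agent.S58_helper21_PFC
open Fermat.Agent.S58_helper25_E1BC

namespace Fermat.Agent.S58_helper4_E1ACL

/-- **(E1a), closed**: the Frobenius relation with trace `l + 1 - #W₀(𝔽_l)` on the points of
`W₀` over every algebraically closed field over `ZMod l`. -/
theorem S58E1CL_main (l : ℕ) [Fact l.Prime] (W₀ : WeierstrassCurve.Affine (ZMod l))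
    (hΔ : W₀.Δ ≠ 0) : S58E1BC_E1a l W₀ (Nat.card W₀.Point) := by
  intro k _ _ _ _ P
  classical
  have hΔk : (W₀⁄k).Δ ≠ 0 := S58AVT_Δ_ne (k := k) W₀ hΔ
  have hPF : S58E1_PF k (S58E1AC_F l W₀ k) := S58PF_ell (W₀⁄k) hΔk
  have hNP : ∀ u : S58E1AC_F l W₀ k, (∀ v : Place k (S58E1AC_F l W₀ k), 0 ≤ v.ord u) →
      u ∈ Set.range (algebraMap k (S58E1AC_F l W₀ k)) := by
    intro u hu
    obtain ⟨c, hc⟩ := S58PF_ell_const (W₀⁄k) hΔk u hu
    exact ⟨c, hc.symm⟩
  have hA : S58PAR_AVal k (W₀⁄(S58E1AC_F l W₀ k)) := S58AVT_baseChange W₀ hΔ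
  have hD : S58PAR_Dup k (W₀⁄(S58E1AC_F l W₀ k)) := S58AVT_dup hPF W₀ hΔ
  haveI : CharP (S58E1AC_F l W₀ k) l :=
    charP_of_injective_algebraMap (algebraMap (ZMod l) (S58E1AC_F l W₀ k)).injective l
  have hKR := S58KRP_main l W₀ hPF hA hD
    (fun T hT v S => S58KR_loc k v l (W₀⁄(S58E1AC_F l W₀ k)) (S58KRG_coeff l W₀)
      (S58E1AC_Δ_ne_zero l W₀ k hΔ) (S58FR_phi l W₀ (S58E1AC_F l W₀ k))
      (fun x y h => S58FR_phi_some l W₀ (S58E1AC_F l W₀ k) h) T hT S)
  exact S58E1AC_main l W₀ k hΔ hPF hNP hA hD (Nat.card W₀.Point) hKR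
    (fun Q => S58TR_main_functionField W₀ k hΔk Q) P

/-- good reduction: the discriminant of the reduction does not vanish. -/
theorem S58E1CL_Δ_red (W : WeierstrassCurve ℤ) (l : ℕ) [Fact l.Prime]
    (hgood : ¬ (l : ℤ) ∣ W.Δ) : (W.reductionMod l).toAffine.Δ ≠ 0 := by
  show (W.reductionMod l).Δ ≠ 0
  unfold WeierstrassCurve.reductionMod
  rw [WeierstrassCurve.map_Δ, eq_intCast]
  intro h
  exact hgood ((ZMod.intCast_zmod_eq_zero_iff_dvd W.Δ l).mp h)

/-- **(E1a) at the reduction of a curve over `ℤ`**, in helper25's interface. -/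
theorem S58E1CL_E1a (W : WeierstrassCurve ℤ) (l : ℕ) [Fact l.Prime]
    (hgood : ¬ (l : ℤ) ∣ W.Δ) :
    S58E1BC_E1a l (W.reductionMod l).toAffine
      (Nat.card (W.reductionMod l).toAffine.Point : ℤ) :=
  S58E1CL_main l _ (S58E1CL_Δ_red W l hgood)

/-- **(E1a) + (E1b), closed**: `σ² P + l P = a_l σ P` on `W[n](ℚ̄)`, `n` prime to `l`, for a
Frobenius element `σ` at a prime `l` of good reduction.  No hypothesis left. -/
theorem S58E1CL_tors (W : WeierstrassCurve ℤ) (l : ℕ) [Fact l.Prime]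
    (hgood : ¬ (l : ℤ) ∣ W.Δ) (n : ℕ) (hn : n.Coprime l)
    (A : ValuationSubring (AlgebraicClosure ℚ)) (hA : A.LiesOverPrime l)
    (σ : AlgebraicClosure ℚ ≃ₐ[ℚ] AlgebraicClosure ℚ) (hσ : A.IsFrobeniusAt σ l)
    (P : Fermat.Agent.S58_helper2_TORS.S58T_Tors W n) :
    σ • σ • P + (l : ℤ) • P = (W.apOfModel l) • (σ • P) :=
  S58E1BC_main W l hgood (S58E1CL_E1a W l hgood) n hn A hA σ hσ P

/-- **(E1a) + (E1b), closed, in the shape of helper27's `hrel`** (all levels `lam ^ K`,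
`lam ≠ l`).  No hypothesis left. -/
theorem S58E1CL_hrel (W : WeierstrassCurve ℤ) (l : ℕ) [Fact l.Prime]
    (hgood : ¬ (l : ℤ) ∣ W.Δ) (lam : ℕ) (hlam : lam.Prime) (hne : l ≠ lam)
    (A : ValuationSubring (AlgebraicClosure ℚ)) (hA : A.LiesOverPrime l)
    (σ : AlgebraicClosure ℚ ≃ₐ[ℚ] AlgebraicClosure ℚ) (hσ : A.IsFrobeniusAt σ l)
    (K : ℕ) (P : Fermat.Agent.S58_helper2_TORS.S58T_Tors W (lam ^ K)) :
    σ • (σ • P) - (W.apOfModel l) • (σ • P) + (l : ℤ) • P = 0 :=
  S58E1BC_hrel W l hgood (S58E1CL_E1a W l hgood) lam hlam hne A hA σ hσ K P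

end Fermat.Agent.S58_helper4_E1ACL
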