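import Fermat.Agent.S58_helper27_TRACE
import Fermat.Agent.S58_helper2_TORS

/-
S58 (E1) brick [TRACE-PUSH] (helper27): the last step of (E1) in the vocabulary of
`S58_helper2_TORS`.

* `S58TP_push` : abstract; for `k <= K`, a free module `MK` of rank 2 over `ZMod (p ^ K)` with an
                 endomorphism, and a module `Mk` over `ZMod (p ^ k)` identified (additively and
                 equivariantly) with the `p ^ k`-torsion of `MK`: the characteristic polynomial
                 on `Mk` is the reduction of the characteristic polynomial on `MK`.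
* `S58TP_main` : for `W` over the integers with (E0) at `lam`: if `sigma` satisfies
                 `sigma^2 - a sigma + l = 0` on every `W[lam ^ K]` and is not an integer scalar
                 on `W[lam ^ m]` for ONE `m >= 1`, then `S58T_cp W (lam ^ k) b sigma
                 = X^2 - a X + l` for every `k` and every basis `b`
                 (`S58TR_zmod` at `K = k + m - 1`, then `S58TP_push`).
-/

set_option autoImplicit false
open Polynomial

namespace Fermat.Agent.S58_helper27_PUSH

open Fermat.Agent.S58_helper27_TRACE Fermat.Agent.S58_helper2_TORS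

/-- the scalar action of `ZMod n` through natural numbers -/
theorem S58TP_val_smul (n : ℕ) [NeZero n] {M : Type*} [AddCommGroup M] [Module (ZMod n) M]
    (r : ZMod n) (x : M) : r • x = r.val • x := by
  conv_lhs => rw [← ZMod.natCast_zmod_val r]
  rw [Nat.cast_smul_eq_nsmul]

/-- PUSH, abstract: the characteristic polynomial on the `p ^ k`-torsion is the reduction of the
characteristic polynomial on the `p ^ K`-torsion -/
theorem S58TP_push (p : ℕ) [Fact p.Prime] (k K : ℕ) (hkK : k ≤ K)
    {MK : Type*} [AddCommGroup MK] [Module (ZMod (p ^ K)) MK]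
    (e : Module.Basis (Fin 2) (ZMod (p ^ K)) MK) (σK : MK →ₗ[ZMod (p ^ K)] MK)
    {Mk : Type*} [AddCommGroup Mk] [Module (ZMod (p ^ k)) Mk]
    (b : Module.Basis (Fin 2) (ZMod (p ^ k)) Mk) (σk : Mk →ₗ[ZMod (p ^ k)] Mk)
    (j : Mk →+ MK) (hj : Function.Injective j) (hjσ : ∀ x, j (σk x) = σK (j x))
    (hjim : ∀ y : MK, (p ^ k : ℕ) • y = 0 → ∃ x, j x = y) :
    (LinearMap.toMatrix b b σk).charpoly
      = ((LinearMap.toMatrix e e σK).charpoly).map
          (ZMod.castHom (pow_dvd_pow p hkK) (ZMod (p ^ k))) := by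
  classical
  have hp : p.Prime := Fact.out
  have hnzK : NeZero (p ^ K) := ⟨pow_ne_zero K hp.ne_zero⟩
  have hnzk : NeZero (p ^ k) := ⟨pow_ne_zero k hp.ne_zero⟩
  have hKk : p ^ K = p ^ k * p ^ (K - k) := by rw [← pow_add, Nat.add_sub_cancel' hkK]
  have hK0 : ∀ y : MK, (p ^ K : ℕ) • y = 0 := fun y => by
    rw [← Nat.cast_smul_eq_nsmul (ZMod (p ^ K)), ZMod.natCast_self, zero_smul]
  have hk0 : ∀ x : Mk, (p ^ k : ℕ) • x = 0 := fun x => by
    rw [← Nat.cast_smul_eq_nsmul (ZMod (p ^ k)), ZMod.natCast_self, zero_smul]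
  -- the family `g`
  have hgex : ∀ i, ∃ x : Mk, j x = (p ^ (K - k) : ℕ) • e i := fun i => hjim _ (by
    rw [← mul_nsmul', ← hKk]
    exact hK0 _)
  choose g hg using hgex
  -- linear independence
  have hli : LinearIndependent (ZMod (p ^ k)) g := by
    rw [Fintype.linearIndependent_iff]
    intro r hr
    have h1 := congrArg j hr
    rw [map_sum, map_zero] at h1
    have h2 : ∑ i, (((r i).val * p ^ (K - k) : ℕ) : ZMod (p ^ K)) • e i = 0 := by
      rw [← h1]
      refine Finset.sum_congr rfl fun i _ => ?_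
      rw [S58TP_val_smul (p ^ k) (r i) (g i), map_nsmul, hg, Nat.cast_smul_eq_nsmul, mul_nsmul']
    have h3 := Fintype.linearIndependent_iff.1 e.linearIndependent _ h2
    intro i
    have h4 := h3 i
    rw [ZMod.natCast_eq_zero_iff, hKk] at h4
    have h5 : p ^ k ∣ (r i).val :=
      Nat.dvd_of_mul_dvd_mul_right (pow_pos hp.pos _) h4
    rw [← ZMod.natCast_zmod_val (r i)]
    exact (ZMod.natCast_eq_zero_iff _ _).2 h5
  -- spanning
  have hsp : ⊤ ≤ Submodule.span (ZMod (p ^ k)) (Set.range g) := by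
    intro x _
    have hx0 : (p ^ k : ℕ) • j x = 0 := by rw [← map_nsmul, hk0, map_zero]
    have hrep : ∀ i, ((p ^ k : ℕ) : ZMod (p ^ K)) * e.repr (j x) i = 0 := by
      intro i
      have h1 := congrArg (fun y => e.repr y i) hx0
      simp only [map_nsmul, map_zero, Finsupp.smul_apply, Finsupp.zero_apply] at h1
      rw [nsmul_eq_mul] at h1
      exact h1
    have hy : ∀ i, ∃ y : ZMod (p ^ K),
        e.repr (j x) i = ((p ^ (K - k) : ℕ) : ZMod (p ^ K)) * y :=
      fun i => S58TR_killed p K k hkK _ (hrep i)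
    choose y hy using hy
    have hx : x = ∑ i, ((y i).val : ZMod (p ^ k)) • g i := by
      apply hj
      rw [map_sum]
      conv_lhs => rw [← e.sum_repr (j x)]
      refine Finset.sum_congr rfl fun i _ => ?_
      rw [Nat.cast_smul_eq_nsmul, map_nsmul, hg, hy, mul_comm, mul_smul,
        Nat.cast_smul_eq_nsmul, S58TP_val_smul (p ^ K) (y i)]
    rw [hx]
    exact Submodule.sum_mem _ fun i _ =>
      Submodule.smul_mem _ _ (Submodule.subset_span (Set.mem_range_self i))
  let g' : Module.Basis (Fin 2) (ZMod (p ^ k)) Mk := Module.Basis.mk hli hsp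
  have hg' : ∀ i, g' i = g i := fun i => Module.Basis.mk_apply hli hsp i
  have hfree : Module.Free (ZMod (p ^ k)) Mk := Module.Free.of_basis b
  have hfin : Module.Finite (ZMod (p ^ k)) Mk := Module.Finite.of_basis b
  have hmat : LinearMap.toMatrix g' g' σk
      = (LinearMap.toMatrix e e σK).map (ZMod.castHom (pow_dvd_pow p hkK) (ZMod (p ^ k))) := by
    ext i₀ j₀
    rw [LinearMap.toMatrix_apply, Matrix.map_apply]
    have h1 : σk (g' j₀) = ∑ i, (((LinearMap.toMatrix e e σK i j₀).val : ℕ) : ZMod (p ^ k)) • g' i := by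
      apply hj
      rw [hjσ, hg', hg, map_nsmul, map_sum]
      conv_lhs => rw [← e.sum_repr (σK (e j₀))]
      rw [Finset.smul_sum]
      refine Finset.sum_congr rfl fun i _ => ?_
      rw [Nat.cast_smul_eq_nsmul, map_nsmul, hg', hg, ← LinearMap.toMatrix_apply,
        S58TP_val_smul (p ^ K), nsmul_left_comm]
    rw [h1, Module.Basis.repr_sum_self]
    rw [ZMod.castHom_apply, ZMod.cast_eq_val]
  rw [LinearMap.charpoly_toMatrix σk b, ← LinearMap.charpoly_toMatrix σk g', hmat,
    Matrix.charpoly_map]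

/-- the inclusion of the `n`-torsion into the `N`-torsion, `n ∣ N` -/
def S58TP_incl (G : Type*) [AddCommGroup G] (n N : ℕ) (h : n ∣ N) :
    Submodule.torsionBy ℤ G (n : ℤ) →+ Submodule.torsionBy ℤ G (N : ℤ) where
  toFun x := ⟨x.1, by
    have hx := (Submodule.mem_torsionBy_iff _ _).1 x.2
    rw [Submodule.mem_torsionBy_iff]
    obtain ⟨d, rfl⟩ := h
    rw [Nat.cast_mul, mul_comm, mul_smul, hx, smul_zero]⟩
  map_zero' := rfl
  map_add' _ _ := rfl

theorem S58TP_incl_coe (G : Type*) [AddCommGroup G] (n N : ℕ) (h : n ∣ N)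
    (x : Submodule.torsionBy ℤ G (n : ℤ)) : ((S58TP_incl G n N h x : _) : G) = x := rfl

theorem S58TP_incl_injective (G : Type*) [AddCommGroup G] (n N : ℕ) (h : n ∣ N) :
    Function.Injective (S58TP_incl G n N h) := by
  intro x y hxy
  have h1 : ((S58TP_incl G n N h x : _) : G) = ((S58TP_incl G n N h y : _) : G) := by rw [hxy]
  exact Subtype.ext h1

theorem S58TP_incl_surj (G : Type*) [AddCommGroup G] (n N : ℕ) (h : n ∣ N)
    (y : Submodule.torsionBy ℤ G (N : ℤ)) (hy : n • y = 0) : ∃ x, S58TP_incl G n N h x = y := by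
  refine ⟨⟨y.1, ?_⟩, Subtype.ext rfl⟩
  rw [Submodule.mem_torsionBy_iff, Nat.cast_smul_eq_nsmul]
  have := congrArg Subtype.val hy
  simpa using this

/-- (E1), last step, in the vocabulary of `S58_helper2_TORS`: the Frobenius relation on every
`W[lam ^ K]` and 'not a scalar' at ONE level `m` give the characteristic polynomial on every
`W[lam ^ k]`. -/
theorem S58TP_main (W : WeierstrassCurve ℤ) (lam : ℕ) [Fact lam.Prime] (hE0 : S58T_E0 W lam)
    (σ : AlgebraicClosure ℚ ≃ₐ[ℚ] AlgebraicClosure ℚ) (a l : ℤ)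
    (hrel : ∀ (K : ℕ) (P : S58T_Tors W (lam ^ K)), σ • (σ • P) - a • (σ • P) + l • P = 0)
    (m : ℕ) (hm : 1 ≤ m) (hns : ∀ c : ℤ, ∃ P : S58T_Tors W (lam ^ m), σ • P ≠ c • P)
    (k : ℕ) (b : Module.Basis (Fin 2) (ZMod (lam ^ k)) (S58T_Tors W (lam ^ k))) :
    S58T_cp W (lam ^ k) b σ
      = X ^ 2 - C ((a : ℤ) : ZMod (lam ^ k)) * X + C ((l : ℤ) : ZMod (lam ^ k)) := by
  classical
  have hlam : lam.Prime := Fact.out
  rcases Nat.eq_zero_or_pos k with h0 | hk
  · subst h0
    have hss : Subsingleton (ZMod (lam ^ 0)) := by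
      rw [pow_zero]
      infer_instance
    exact Subsingleton.elim _ _
  obtain ⟨K, hK⟩ : ∃ K, K = k + m - 1 := ⟨_, rfl⟩
  have hkK : k ≤ K := by omega
  have hmK : m ≤ K := by omega
  have hKm : K + 1 - m = k := by omega
  obtain ⟨e⟩ := hE0 K
  have hfree : Module.Free (ZMod (lam ^ K)) (S58T_Tors W (lam ^ K)) := Module.Free.of_basis e
  have hfin : Module.Finite (ZMod (lam ^ K)) (S58T_Tors W (lam ^ K)) := Module.Finite.of_basis e
  have hnt : Nontrivial (ZMod (lam ^ K)) := by
    refine ZMod.nontrivial_iff.2 ?_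
    intro h1
    rcases Nat.pow_eq_one.1 h1 with h2 | h2
    · exact hlam.ne_one h2
    · omega
  have hrank : Module.finrank (ZMod (lam ^ K)) (S58T_Tors W (lam ^ K)) = 2 := by
    rw [Module.finrank_eq_card_basis e, Fintype.card_fin]
  obtain ⟨u, v, huv⟩ := S58TR_zmod lam K m hm hmK hrank (S58T_gal W (lam ^ K) σ) a l
    (fun x => hrel K x) (by
      intro c
      obtain ⟨P, hP⟩ := hns c
      refine ⟨S58TP_incl _ (lam ^ m) (lam ^ K) (pow_dvd_pow lam hmK) P, ?_, ?_⟩
      · apply Subtype.ext
        have hP2 := (Submodule.mem_torsionBy_iff _ _).1 P.2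
        rw [Nat.cast_smul_eq_nsmul] at hP2
        exact Eq.trans rfl hP2
      · intro hc
        apply hP
        apply Subtype.ext
        have := congrArg Subtype.val hc
        exact this)
  have hpush := S58TP_push lam k K hkK e (S58T_gal W (lam ^ K) σ) b (S58T_gal W (lam ^ k) σ)
    (S58TP_incl _ (lam ^ k) (lam ^ K) (pow_dvd_pow lam hkK))
    (S58TP_incl_injective _ _ _ _) (fun x => rfl)
    (fun y hy => S58TP_incl_surj _ _ _ _ y hy)
  rw [S58T_cp, hpush, LinearMap.charpoly_toMatrix, huv, hKm]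
  have hz : (ZMod.castHom (pow_dvd_pow lam hkK) (ZMod (lam ^ k)))
      ((lam ^ k : ℕ) : ZMod (lam ^ K)) = 0 := by
    rw [map_natCast, ZMod.natCast_self]
  simp only [Polynomial.map_add, Polynomial.map_sub, Polynomial.map_mul, Polynomial.map_pow,
    Polynomial.map_X, Polynomial.map_C, map_add, map_mul, hz, zero_mul, add_zero, map_intCast,
    Polynomial.map_intCast, map_zero]

end Fermat.Agent.S58_helper27_PUSH
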