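import Mathlib
import Fermat.Agent.S58_helper25_E1BC
import Fermat.Agent.S58_helper27_PUSH

/-!
# S58, brick (E1) [HNS] (helper6): from the kernel bound on the reduced curve to
"Frobenius is not an integer scalar on `W[n](ℚ̄)`"

`S58HNS_KB l W₀ n B` : on the points of `W₀` over every algebraically closed field over `ZMod l`,
a finite set of points killed by `n` on which the Frobenius `S58FR_phi` is the scalar `c` has
fewer than `B` elements (the shape consumed from [KERBOUND]).

`S58HNS_main` : for `W` over `ℤ`, `l` a prime of good reduction, `n` prime to `l`, `A` over `l`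
and `σ` a Frobenius at `A`: if `W[n](ℚ̄)` is finite and `S58HNS_KB` holds with
`B = #W[n](ℚ̄)`, then `σ` is not an integer scalar on `W[n](ℚ̄)`.

`S58HNS_hns` : the same at `n = lam ^ m` with (E0), in the exact shape of the hypothesis `hns`
of helper27's `S58TP_main`.
-/

set_option autoImplicit false
set_option linter.unusedSectionVars false
set_option linter.unusedVariables false
set_option linter.style.haveILetI false

open WeierstrassCurve WeierstrassCurve.Affine
open Fermat.Agent.S58_helper25_E1B Fermat.Agent.S58_helper19_FROB Fermat.Agent.S58_helper2_TORS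

noncomputable section

namespace Fermat.Agent.S58_helper6_HNS

local notation "Qb" => AlgebraicClosure ℚ
local notation "GQ" => (AlgebraicClosure ℚ ≃ₐ[ℚ] AlgebraicClosure ℚ)

/-- **(KERBOUND), typed as consumed**: on the reduced curve over every algebraically closed field
over `ZMod l`, a finite set of points killed by `n` on which Frobenius is the scalar `c` has fewer
than `B` elements. -/
def S58HNS_KB (l : ℕ) [Fact l.Prime] (W₀ : Affine (ZMod l)) (n B : ℕ) : Prop :=
  ∀ (k : Type) [Field k] [Algebra (ZMod l) k] [IsAlgClosed k] [DecidableEq k] (c : ℤ)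
    (T : Finset (W₀⁄k).Point),
    (∀ P ∈ T, S58FR_phi l W₀ k P = c • P) → (∀ P ∈ T, n • P = 0) → T.card < B

/-- the reduction map at `A` with its equivariance, packaged. -/
theorem S58HNS_red (W : WeierstrassCurve ℤ) (l : ℕ) [Fact l.Prime]
    (hgood : ¬ (l : ℤ) ∣ W.Δ)
    (A : ValuationSubring Qb) (hA : A.LiesOverPrime l) (σ : GQ) (hσ : A.IsFrobeniusAt σ l)
    [Algebra (ZMod l) (IsLocalRing.ResidueField A)] [DecidableEq (IsLocalRing.ResidueField A)] :
    ∃ r : (S58E1B_WQb W).Point →+
        (((W.reductionMod l).toAffine)⁄(IsLocalRing.ResidueField A)).Point,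
      (∀ n : ℕ, ¬ l ∣ n → ∀ P : (S58E1B_WQb W).Point, n • P = 0 → r P = 0 → P = 0) ∧
      ∀ P : (S58E1B_WQb W).Point,
        r (σ • P) = S58FR_phi l (W.reductionMod l).toAffine (IsLocalRing.ResidueField A) (r P) := by
  classical
  haveI hchar : CharP (IsLocalRing.ResidueField A) l := S58E1B_charP A l hA
  have hres : ∀ a : A, IsLocalRing.residue A a = 0 ↔ A.valuation (a : Qb) < 1 := fun a => by
    rw [IsLocalRing.residue_eq_zero_iff, A.valuation_lt_one_iff]
  have hdec := hσ.mem_decompositionSubgroup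
  have hk : ∀ z : ℤ, IsLocalRing.residue A ((z : ℤ) : A)
      = algebraMap (ZMod l) (IsLocalRing.ResidueField A) ((Int.castRingHom (ZMod l)) z) := by
    intro z
    rw [map_intCast, eq_intCast, map_intCast]
  have hL : ∀ z : ℤ, (((z : ℤ) : A) : Qb) = algebraMap ℚ Qb ((Int.castRingHom ℚ) z) := by
    intro z
    rw [eq_intCast, map_intCast]
    simp
  have hΔ : (((W.reductionMod l).toAffine)⁄(IsLocalRing.ResidueField A)).Δ ≠ 0 := by
    show ((W.reductionMod l).map (algebraMap (ZMod l) (IsLocalRing.ResidueField A))).Δ ≠ 0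
    rw [WeierstrassCurve.map_Δ]
    unfold WeierstrassCurve.reductionMod
    rw [WeierstrassCurve.map_Δ, eq_intCast, map_intCast]
    intro h
    exact hgood ((CharP.intCast_eq_zero_iff (IsLocalRing.ResidueField A) l W.Δ).mp h)
  obtain ⟨r, hr⟩ := Fermat.Agent.S58_helper5_RED.S58RD_main A (IsLocalRing.residue A) hres
    (S58E1B_WQb W) (((W.reductionMod l).toAffine)⁄(IsLocalRing.ResidueField A))
    ((W.a₁ : ℤ) : A) ((W.a₂ : ℤ) : A) ((W.a₃ : ℤ) : A) ((W.a₄ : ℤ) : A) ((W.a₆ : ℤ) : A)
    (hL _) (hL _) (hL _) (hL _) (hL _) (hk _) (hk _) (hk _) (hk _) (hk _) hΔ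
  have hspec := S58E1B_redSpec_of_RD A (IsLocalRing.residue A) (S58E1B_WQb W) _ r hr
  have heq := S58E1B_equivariant A (IsLocalRing.residue A) (S58E1B_WQb W) _
    (S58E1B_a₁_mem W A) (S58E1B_a₂_mem W A) (S58E1B_a₃_mem W A) (S58E1B_a₄_mem W A)
    (S58E1B_a₆_mem W A) r hspec l (fun x => σ x) (S58E1B_mem_iff A σ hdec)
    (fun x hx => S58E1B_frob_res A l σ hσ x hx)
    (Point.map (W' := (W.map (Int.castRingHom ℚ) : Affine ℚ)) σ.toAlgHom)
    (fun x y h => ⟨_, rfl⟩)
    (S58FR_phi l (W.reductionMod l).toAffine (IsLocalRing.ResidueField A))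
    (fun x y h => S58FR_phi_some l (W.reductionMod l).toAffine (IsLocalRing.ResidueField A) h)
  refine ⟨r, fun n hn P hP hrP => ?_, fun P => heq P⟩
  exact hspec.2.2 n (S58E1B_val_natCast A l hA n hn) P hP hrP

/-- **[HNS], general level.** -/
theorem S58HNS_main (W : WeierstrassCurve ℤ) (l : ℕ) [Fact l.Prime]
    (hgood : ¬ (l : ℤ) ∣ W.Δ) (n : ℕ) (hn : ¬ l ∣ n)
    (hKB : S58HNS_KB l (W.reductionMod l).toAffine n (Nat.card (S58T_Tors W n)))
    (A : ValuationSubring Qb) (hA : A.LiesOverPrime l) (σ : GQ) (hσ : A.IsFrobeniusAt σ l)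
    (hfin : Finite (S58T_Tors W n)) :
    ∀ c : ℤ, ∃ P : S58T_Tors W n, σ • P ≠ c • P := by
  classical
  intro c
  by_contra hcon
  simp only [not_exists, not_not] at hcon
  haveI hchar : CharP (IsLocalRing.ResidueField A) l := S58E1B_charP A l hA
  letI : Algebra (ZMod l) (IsLocalRing.ResidueField A) := ZMod.algebra _ l
  haveI : IsAlgClosed (IsLocalRing.ResidueField A) :=
    Fermat.Agent.S18_helper27_RESALGCL.S18RES_isAlgClosed_residueField_Qbar A
  obtain ⟨r, hinj, heq⟩ := S58HNS_red W l hgood A hA σ hσ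
  letI : Fintype (S58T_Tors W n) := Fintype.ofFinite _
  -- the map `W[n] → W̃(k)`
  set f : S58T_Tors W n → (((W.reductionMod l).toAffine)⁄(IsLocalRing.ResidueField A)).Point :=
    fun P => r (P : (S58E1B_WQb W).Point) with hf
  have hPn : ∀ P : S58T_Tors W n, n • (P : (S58E1B_WQb W).Point) = 0 := by
    intro P
    have := P.2
    rw [Submodule.mem_torsionBy_iff] at this
    rw [← Nat.cast_smul_eq_nsmul ℤ]
    exact this
  have hfinj : Function.Injective f := by
    intro P Q hPQ
    apply Subtype.ext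
    have h0 : r ((P : (S58E1B_WQb W).Point) - (Q : (S58E1B_WQb W).Point)) = 0 := by
      rw [map_sub, sub_eq_zero]
      exact hPQ
    have h1 : n • ((P : (S58E1B_WQb W).Point) - (Q : (S58E1B_WQb W).Point)) = 0 := by
      rw [← Nat.cast_smul_eq_nsmul ℤ, smul_sub, Nat.cast_smul_eq_nsmul ℤ,
        Nat.cast_smul_eq_nsmul ℤ, hPn P, hPn Q, sub_zero]
    exact sub_eq_zero.mp (hinj n hn _ h1 h0)
  have hcard : (Finset.image f Finset.univ).card = Nat.card (S58T_Tors W n) := by
    rw [Finset.card_image_of_injective _ hfinj, Finset.card_univ, Nat.card_eq_fintype_card]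
  have hlt := hKB (IsLocalRing.ResidueField A) c (Finset.image f Finset.univ) (by
      intro Q hQ
      obtain ⟨P, -, rfl⟩ := Finset.mem_image.mp hQ
      show S58FR_phi l (W.reductionMod l).toAffine (IsLocalRing.ResidueField A)
          (r (P : (S58E1B_WQb W).Point)) = c • r (P : (S58E1B_WQb W).Point)
      rw [← heq, ← map_zsmul]
      congr 1
      have := congrArg (Subtype.val) (hcon P)
      exact this) (by
      intro Q hQ
      obtain ⟨P, -, rfl⟩ := Finset.mem_image.mp hQ
      show n • r (P : (S58E1B_WQb W).Point) = 0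
      rw [← map_nsmul, hPn P, map_zero])
  rw [hcard] at hlt
  exact lt_irrefl _ hlt

/-- **[HNS] at `lam ^ m`**, in the shape of the hypothesis `hns` of helper27's `S58TP_main`. -/
theorem S58HNS_hns (W : WeierstrassCurve ℤ) (l : ℕ) [Fact l.Prime]
    (hgood : ¬ (l : ℤ) ∣ W.Δ) (lam : ℕ) [Fact lam.Prime] (hne : l ≠ lam)
    (hE0 : S58T_E0 W lam) (m : ℕ)
    (hKB : S58HNS_KB l (W.reductionMod l).toAffine (lam ^ m) (lam ^ (2 * m)))
    (A : ValuationSubring Qb) (hA : A.LiesOverPrime l) (σ : GQ) (hσ : A.IsFrobeniusAt σ l) :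
    ∀ c : ℤ, ∃ P : S58T_Tors W (lam ^ m), σ • P ≠ c • P := by
  classical
  have hl : l.Prime := Fact.out
  have hlam : lam.Prime := Fact.out
  have hn : ¬ l ∣ lam ^ m := fun h =>
    hne ((Nat.prime_dvd_prime_iff_eq hl hlam).mp (hl.dvd_of_dvd_pow h))
  obtain ⟨b⟩ := hE0 m
  haveI : NeZero (lam ^ m) := ⟨pow_ne_zero _ hlam.ne_zero⟩
  haveI : Module.Finite (ZMod (lam ^ m)) (S58T_Tors W (lam ^ m)) := Module.Finite.of_basis b
  haveI hfin : Finite (S58T_Tors W (lam ^ m)) := Module.finite_of_finite (ZMod (lam ^ m))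
  have hcard : Nat.card (S58T_Tors W (lam ^ m)) = lam ^ (2 * m) := by
    rw [Nat.card_congr b.equivFun.toEquiv, Nat.card_fun, Nat.card_zmod, Nat.card_eq_fintype_card,
      Fintype.card_fin, ← pow_mul, mul_comm]
  refine S58HNS_main W l hgood (lam ^ m) hn ?_ A hA σ hσ hfin
  rw [hcard]
  exact hKB

end Fermat.Agent.S58_helper6_HNS
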