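import Fermat.Agent.S58_helper27_PUSH
import Fermat.Agent.S58_helper6_HNS
import Fermat.Agent.S58_helper19_KBP
import Fermat.Agent.S58_helper19_E1P
import Fermat.Agent.S58_helper4_E1ACL
import Fermat.Agent.S58_helper3_E0CNT
import Fermat.Agent.S58_helper14_XFER

/-!
# S58 (helper18, owner): (E1), closed

`S58G_E1 (W) (hΔ : W.Δ ≠ 0) (lam) [Fact lam.Prime] : S58XF_E1 W lam`: at every good prime
`ℓ ≠ lam` a Frobenius element at `ℓ` acts on `W[lam ^ k]` with characteristic polynomial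
`X ^ 2 - a_ℓ X + ℓ`.

Assembly of the landed bricks: helper27's `S58TP_main` (relation + non-scalar ⟹ characteristic
polynomial), helper19's `S58E1P_hrel` (the relation `σ² - a_ℓ σ + ℓ = 0` on `W[lam ^ K]`),
helper6's `S58HNS_hns` (non-scalar from the kernel bound), helper19's `S58KBP_main` (the kernel
bound), helper3's `S58E0N_E0` ((E0)).
-/

set_option autoImplicit false

open Polynomial
open Fermat.Agent.S58_helper2_TORS Fermat.Agent.S58_helper14_XFER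

namespace Fermat.Agent.S58_helper18_E1FIN

/-- a power of `p ≥ 2` exceeds any integer bound -/
theorem S58G_exists_pow (p : ℕ) (hp : 2 ≤ p) (B : ℤ) :
    ∃ m : ℕ, 1 ≤ m ∧ B < ((p ^ m : ℕ) : ℤ) := by
  refine ⟨B.toNat + 1, by omega, ?_⟩
  have h1 : B.toNat + 1 < 2 ^ (B.toNat + 1) := Nat.lt_two_pow_self
  have h2 : 2 ^ (B.toNat + 1) ≤ p ^ (B.toNat + 1) := Nat.pow_le_pow_left hp _
  have h3 : B ≤ (B.toNat : ℤ) := Int.self_le_toNat B
  have h4 : ((B.toNat + 1 : ℕ) : ℤ) < ((p ^ (B.toNat + 1) : ℕ) : ℤ) := by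
    exact_mod_cast lt_of_lt_of_le h1 h2
  push_cast at h4 ⊢
  omega

/-- **(E1)**, closed. -/
theorem S58G_E1 (W : WeierstrassCurve ℤ) (hΔ : W.Δ ≠ 0) (lam : ℕ) [Fact lam.Prime] :
    S58XF_E1 W lam := by
  intro ℓ hℓ hgood hℓlam k b A hA σ hσ
  have hFℓ : Fact ℓ.Prime := ⟨hℓ⟩
  have hlam : lam.Prime := Fact.out
  have hE0 : S58T_E0 W lam := Fermat.Agent.S58_helper3_E0CNT.S58E0N_E0 W hΔ lam
  have hΔ' : (W.reductionMod ℓ).toAffine.Δ ≠ 0 :=
    Fermat.Agent.S58_helper4_E1ACL.S58E1CL_Δ_red W ℓ hgood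
  obtain ⟨m, hm1, hm⟩ := S58G_exists_pow lam hlam.two_le
    (|(ℓ : ℤ) + 1 - (Nat.card (W.reductionMod ℓ).toAffine.Point : ℤ)| + (ℓ : ℤ))
  have hKB : Fermat.Agent.S58_helper6_HNS.S58HNS_KB ℓ (W.reductionMod ℓ).toAffine
      (lam ^ m) (lam ^ (2 * m)) :=
    fun κ _ _ _ _ c T hT hTm =>
      Fermat.Agent.S58_helper19_KBP.S58KBP_main ℓ (W.reductionMod ℓ).toAffine κ hΔ' lam m hm
        c T hT hTm
  have hns := Fermat.Agent.S58_helper6_HNS.S58HNS_hns W ℓ hgood lam hℓlam hE0 m hKB A hA σ hσ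
  have key := Fermat.Agent.S58_helper27_PUSH.S58TP_main W lam hE0 σ (W.apOfModel ℓ) (ℓ : ℤ)
    (fun K P => Fermat.Agent.S58_helper19_E1P.S58E1P_hrel W ℓ hgood lam hlam hℓlam A hA σ hσ K P)
    m hm1 hns k b
  rw [key, Int.cast_natCast]

end Fermat.Agent.S58_helper18_E1FIN
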