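import Fermat.Agent.S58_helper18_FINAL
import Fermat.Agent.S58_helper18_E1FIN
import Fermat.Agent.S58_helper18_E3FIN

/-!
# S58 (helper18, owner): the frozen statement S58, closed

`S58K_main : S58C_Frozen`, i.e. the frozen statement S58 with no hypothesis left:
`S58F_main` (the statement from (E1) and (E3raw)) applied to `S58G_E1` and `S58H_E3raw`.
-/

set_option autoImplicit false

open Fermat.Agent.S58_helper18_Contracts

namespace Fermat.Agent.S58_helper18_CLOSED

/-- **the frozen statement S58** -/
theorem S58K_main : S58C_Frozen :=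
  Fermat.Agent.S58_helper18_FINAL.S58F_main
    (fun W hΔ lam _ _ => Fermat.Agent.S58_helper18_E1FIN.S58G_E1 W hΔ lam)
    (fun W _ => Fermat.Agent.S58_helper18_E3FIN.S58H_E3raw W)

end Fermat.Agent.S58_helper18_CLOSED
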