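import Fermat.Agent.S58_helper18_Contracts

/-!
# S58 (helper18, owner): TOP = the frozen statement S58 from the contracts

`S58T_top : S58C_S35 → S58C_S36 → S58C_NF → S58C_OLD → S58C_O → S58C_Op → S58C_RES →
  S58C_XFER → S58C_BOUND → S58C_FROBEX → S58C_Frozen`.
-/

set_option autoImplicit false
set_option linter.unusedSectionVars false
set_option linter.unusedVariables false
set_option linter.style.haveILetI false
set_option maxHeartbeats 1600000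

open Polynomial
open CuspForm CuspForm.IsNewform
open Fermat.Agent.S58_helper18_Contracts

noncomputable section

namespace Fermat.Agent.S58_helper18_TOP

theorem S58T_coeff_sub {R : Type*} [CommRing R] (a b : R) :
    (X ^ 2 - C a * X + C b : R[X]).coeff 1 = -a := by
  simp [coeff_C, coeff_X_pow]

theorem S58T_coeff_add {R : Type*} [CommRing R] (a b : R) :
    (X ^ 2 + C a * X + C b : R[X]).coeff 1 = a := by
  simp [coeff_C, coeff_X_pow]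

theorem S58T_mem_max {O' O'' : Type*} [CommRing O'] [IsLocalRing O'] [CommRing O'']
    [IsLocalRing O''] [Algebra O' O''] [IsLocalHom (algebraMap O' O'')] (n : ℕ)
    (h : (n : O') ∈ IsLocalRing.maximalIdeal O') : (n : O'') ∈ IsLocalRing.maximalIdeal O'' := by
  rw [IsLocalRing.mem_maximalIdeal, mem_nonunits_iff] at h ⊢
  intro hu
  apply h
  have : IsUnit (algebraMap O' O'' (n : O')) := by rwa [map_natCast]
  exact IsLocalHom.map_nonunit _ this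

theorem S58T_dvd_of_prime {M R : ℕ} (hM0 : M ≠ 0) (hR0 : R ≠ 0)
    (hsq : ∀ q : ℕ, q.Prime → ¬ q ^ 2 ∣ M) (h : ∀ q : ℕ, q.Prime → q ∣ M → q ∣ R) : M ∣ R := by
  rw [← Nat.factorization_le_iff_dvd hM0 hR0]
  intro q
  by_cases hq : q.Prime
  · by_cases hqM : q ∣ M
    · have h1 : M.factorization q ≤ 1 := by
        by_contra hcon
        rw [not_le] at hcon
        exact hsq q hq ((hq.pow_dvd_iff_le_factorization hM0).2 hcon)
      have h2 : 1 ≤ R.factorization q :=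
        (hq.dvd_iff_one_le_factorization hR0).1 (h q hq hqM)
      exact h1.trans h2
    · rw [Nat.factorization_eq_zero_of_not_dvd hqM]
      exact Nat.zero_le _
  · rw [Nat.factorization_eq_zero_of_not_prime _ hq]
    exact Nat.zero_le _

section Core

variable (W : WeierstrassCurve ℤ) (hΔ : W.Δ ≠ 0) (hss : W.IsSemistableModel)
  {N M : ℕ} [NeZero M] (hMN : M ∣ N) (hN0 : N ≠ 0)
  (hbad : ∀ ℓ : ℕ, ℓ.Prime → (ℓ : ℤ) ∣ W.Δ → ℓ ∣ N)
  (h : CuspForm (CongruenceSubgroup.Gamma0 M) 2) (hnew : h.IsNewform)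
  (hA : ∀ ℓ : ℕ, ℓ.Prime → ¬ ℓ ∣ N →
    ModularFormClass.qCoeff h ℓ = ((W.apOfModel ℓ : ℤ) : ℂ))

include hMN in
theorem S58T_hMT (T : Finset ℕ) (hT : ∀ q : ℕ, q.Prime → q ∣ N → q ∈ T ∨ ¬ q ∣ M) :
    ∀ q : ℕ, q.Prime → q ∣ M → q ∈ T := fun q hq hqM =>
  (hT q hq (hqM.trans hMN)).resolve_right (fun hc => hc hqM)

/-- rewriting the Frobenius characteristic polynomials of S35 / S36 in terms of `W` -/
theorem S58T_frob_rw {O' O'' : Type} [CommRing O'] [CommRing O''] [Algebra O' O'']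
    {S : Set ℕ} (chig : CuspForm.heckeAlgebra M 2 S →+* ℂ) (iota : chig.range →+* O')
    {ℓ : ℕ} (hℓ : ℓ.Prime) (hℓM : ¬ ℓ ∣ M) (hℓS : ℓ ∉ S) (a : ℤ)
    (hc : chig (CuspForm.heckeAlgebra.T hℓ hℓM hℓS) = (a : ℂ)) :
    algebraMap O' O'' ((iota.comp chig.rangeRestrict) (CuspForm.heckeAlgebra.T hℓ hℓM hℓS)) =
      (a : O'') := by
  have h1 : chig.rangeRestrict (CuspForm.heckeAlgebra.T hℓ hℓM hℓS) = ((a : ℤ) : chig.range) := by
    apply Subtype.ext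
    rw [RingHom.coe_rangeRestrict, hc]
    simp
  rw [RingHom.comp_apply, h1, map_intCast, map_intCast]


include hΔ hss hMN hnew hA in
/-- the representation of the newform at an auxiliary prime `lam ∉ B`, with the Frobenius
characteristic polynomials of `W` at every good prime, those of S35 at the primes `q ∥ M`, and
the detection of the eigenvalues outside `insert lam T`. -/
theorem S58T_aux (h35 : S58C_S35) (hO : S58C_O) (hX : S58C_XFER) (T B : Finset ℕ) (l0 : ℕ)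
    (hMT : ∀ q : ℕ, q.Prime → q ∣ M → q ∈ T)
    (hTN : ∀ ℓ : ℕ, ℓ.Prime → ℓ ∉ T → ℓ ≠ l0 → ¬ ℓ ∣ N) :
    ∃ (lam : ℕ) (_ : Fact lam.Prime) (_ : lam ∉ B) (O'' : Type) (_ : CommRing O'')
      (_ : IsDomain O'') (_ : IsDiscreteValuationRing O'') (_ : CharZero O'')
      (ρ : GaloisRepAdic O''),
      S58C_Frob W lam ρ ∅ ∧
      (∀ q : ℕ, q.Prime → q ≠ lam → q ∣ M → ¬ q ^ 2 ∣ M →
        ∀ A : ValuationSubring (AlgebraicClosure ℚ), A.LiesOverPrime q →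
          ∀ σ : AlgebraicClosure ℚ ≃ₐ[ℚ] AlgebraicClosure ℚ, A.IsFrobeniusAt σ q →
            LinearMap.charpoly (ρ.ρ σ) = X ^ 2 - C ((q : O'') + 1) * X + C ((q : O'')) ∨
            LinearMap.charpoly (ρ.ρ σ) = X ^ 2 + C ((q : O'') + 1) * X + C ((q : O''))) ∧
      (∀ ℓ : ℕ, ℓ.Prime → ¬ ℓ ∣ M → ℓ ∉ insert lam T →
        ∀ A : ValuationSubring (AlgebraicClosure ℚ), A.LiesOverPrime ℓ →
          ∀ σ : AlgebraicClosure ℚ ≃ₐ[ℚ] AlgebraicClosure ℚ, A.IsFrobeniusAt σ ℓ → ∀ a : ℤ,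
            LinearMap.charpoly (ρ.ρ σ) = X ^ 2 - C ((a : O'')) * X + C ((ℓ : O'')) →
            ModularFormClass.qCoeff h ℓ = (a : ℂ)) := by
  have hint : ∀ ℓ : ℕ, ℓ.Prime → ℓ ∉ T → ¬ ℓ ∣ M → ℓ ≠ l0 →
      ∃ a : ℤ, ModularFormClass.qCoeff h ℓ = (a : ℂ) :=
    fun ℓ hℓ hℓT _ hℓ0 => ⟨_, hA ℓ hℓ (hTN ℓ hℓ hℓT hℓ0)⟩
  obtain ⟨lam, hlamP, hlamB, chig, hchig, O', i1, i2, i3, i4, i5, i6, iota, hlamO', hdet⟩ :=
    hO h hnew.isNormalizedEigenform T B l0 hMT hint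
  have hlamS : lam ∈ insert lam T := Finset.mem_insert_self _ _
  have hMS : ∀ q : ℕ, q.Prime → q ∣ M → q ∈ insert lam T :=
    fun q hq hqM => Finset.mem_insert_of_mem (hMT q hq hqM)
  obtain ⟨O'', j1, j2, j3, j4, j5, j6, j7, j8, j9, hinj, ρ, hfrob, hq⟩ :=
    h35 hnew lam (insert lam T) O' hlamO' chig
      (fun ℓ hℓ hℓM hℓS => hchig ℓ hℓ hℓM hℓS) iota hlamS hMS
  have hlamO'' : (lam : O'') ∈ IsLocalRing.maximalIdeal O'' := S58T_mem_max lam hlamO'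
  have hF : S58C_Frob W lam ρ (insert l0 (insert lam T)) := by
    intro ℓ hℓ hℓB hgood hℓlam A hAℓ σ hσ
    have hℓS : ℓ ∉ insert lam T := fun hc => hℓB (Finset.mem_insert_of_mem hc)
    have hℓ0 : ℓ ≠ l0 := fun hc => hℓB (hc ▸ Finset.mem_insert_self _ _)
    have hℓT : ℓ ∉ T := fun hc => hℓS (Finset.mem_insert_of_mem hc)
    have hℓN : ¬ ℓ ∣ N := hTN ℓ hℓ hℓT hℓ0
    have hℓM : ¬ ℓ ∣ M := fun hc => hℓN (hc.trans hMN)
    have hℓS' : ℓ ∉ (↑(insert lam T) : Set ℕ) := fun hc => hℓS (Finset.mem_coe.1 hc)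
    rw [hfrob ℓ hℓ hℓM hℓS' A hAℓ σ hσ,
      S58T_frob_rw chig iota hℓ hℓM hℓS' (W.apOfModel ℓ) ((hchig ℓ hℓ hℓM hℓS').trans (hA ℓ hℓ hℓN))]
  obtain ⟨hF0, -⟩ := hX W hΔ hss lam O'' hlamO'' ρ _ hF
  refine ⟨lam, hlamP, hlamB, O'', j1, j2, j3, j6, ρ, hF0, hq, ?_⟩
  intro ℓ hℓ hℓM hℓS A hAℓ σ hσ a hcp
  have hℓS' : ℓ ∉ (↑(insert lam T) : Set ℕ) := fun hc => hℓS (Finset.mem_coe.1 hc)
  have h1 := hfrob ℓ hℓ hℓM hℓS' A hAℓ σ hσ
  rw [hcp] at h1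
  have h2 := congrArg (fun P : O''[X] => P.coeff 1) h1
  simp only [S58T_coeff_sub] at h2
  have h3 : algebraMap O' O'' ((iota.comp chig.rangeRestrict)
      (CuspForm.heckeAlgebra.T hℓ hℓM hℓS')) = algebraMap O' O'' ((a : ℤ) : O') := by
    rw [map_intCast]
    exact (neg_injective h2).symm
  exact hdet ℓ hℓ hℓM hℓS' a (hinj h3)

include hΔ hss hMN hN0 hnew hA in
/-- a prime `q ∥ M` cannot be good for `W` -/
theorem S58T_good (h35 : S58C_S35) (hO : S58C_O) (hX : S58C_XFER) (hB : S58C_BOUND)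
    (hFr : S58C_FROBEX) {q : ℕ} (hq : q.Prime) (hqM : q ∣ M) (hq2 : ¬ q ^ 2 ∣ M)
    (hgood : W.IsGoodPrimeFor q) : False := by
  obtain ⟨lam, hlamP, hlamB, O'', j1, j2, j3, j6, ρ, hF0, hS35, -⟩ :=
    S58T_aux W hΔ hss hMN h hnew hA h35 hO hX N.primeFactors {q} 0
      (fun r hr hrM => Nat.mem_primeFactors.2 ⟨hr, hrM.trans hMN, hN0⟩)
      (fun ℓ hℓ hℓT _ hc => hℓT (Nat.mem_primeFactors.2 ⟨hℓ, hc, hN0⟩))
  have hqlam : q ≠ lam := fun hc => hlamB (hc ▸ Finset.mem_singleton_self _)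
  obtain ⟨A, hAq, σ, hσ⟩ := hFr q hq
  have h1 := hF0 q hq (Finset.notMem_empty _) hgood hqlam A hAq σ hσ
  obtain ⟨hb1, hb2⟩ := hB W q hq
  rcases hS35 q hq hqlam hqM hq2 A hAq σ hσ with h2 | h2
  · rw [h1] at h2
    have h3 := congrArg (fun P : O''[X] => P.coeff 1) h2
    simp only [S58T_coeff_sub] at h3
    have h4 : ((W.apOfModel q : ℤ) : O'') = (((q : ℤ) + 1 : ℤ) : O'') := by
      push_cast
      exact neg_injective h3
    exact hb1 (Int.cast_injective h4)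
  · rw [h1] at h2
    have h3 := congrArg (fun P : O''[X] => P.coeff 1) h2
    simp only [S58T_coeff_sub, S58T_coeff_add] at h3
    have h4 : ((W.apOfModel q : ℤ) : O'') = ((-((q : ℤ) + 1) : ℤ) : O'') := by
      push_cast
      rw [← h3, neg_neg]
    exact hb2 (Int.cast_injective h4)

include hΔ hss hMN hN0 hnew hA in
/-- the eigenvalue of the newform at a good prime `l0` of `W` not dividing `M` -/
theorem S58T_coeff (h35 : S58C_S35) (hO : S58C_O) (hX : S58C_XFER) (hFr : S58C_FROBEX)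
    {l0 : ℕ} (hl0 : l0.Prime) (hl0M : ¬ l0 ∣ M) (hgood : W.IsGoodPrimeFor l0) :
    ModularFormClass.qCoeff h l0 = ((W.apOfModel l0 : ℤ) : ℂ) := by
  obtain ⟨lam, hlamP, hlamB, O'', j1, j2, j3, j6, ρ, hF0, -, hdet⟩ :=
    S58T_aux W hΔ hss hMN h hnew hA h35 hO hX (N.primeFactors.erase l0) {l0} l0
      (fun r hr hrM => Finset.mem_erase.2
        ⟨fun hc => hl0M (hc ▸ hrM), Nat.mem_primeFactors.2 ⟨hr, hrM.trans hMN, hN0⟩⟩)
      (fun ℓ hℓ hℓT hℓ0 hc => hℓT (Finset.mem_erase.2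
        ⟨hℓ0, Nat.mem_primeFactors.2 ⟨hℓ, hc, hN0⟩⟩))
  have hl0lam : l0 ≠ lam := fun hc => hlamB (hc ▸ Finset.mem_singleton_self _)
  obtain ⟨A, hAq, σ, hσ⟩ := hFr l0 hl0
  have hl0S : l0 ∉ insert lam (N.primeFactors.erase l0) := by
    intro hc
    rcases Finset.mem_insert.1 hc with hc | hc
    · exact hl0lam hc
    · exact (Finset.mem_erase.1 hc).1 rfl
  exact hdet l0 hl0 hl0M hl0S A hAq σ hσ _
    (hF0 l0 hl0 (Finset.notMem_empty _) hgood hl0lam A hAq σ hσ)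

include hΔ hss hMN hN0 hnew hA in
/-- no prime `q ≠ p` has `q ^ 2 ∥ M` -/
theorem S58T_sq (h36 : S58C_S36) (hOp : S58C_Op) (hR : S58C_RES) (hX : S58C_XFER)
    (p : ℕ) [Fact p.Prime] (hp2 : p ≠ 2) (hirr : W.ModRepIsIrreducible p)
    {q : ℕ} (hq : q.Prime) (hqp : q ≠ p) (hfac : M.factorization q = 2) : False := by
  have hnotN : ∀ ℓ : ℕ, ℓ.Prime → ℓ ∉ insert p N.primeFactors → ¬ ℓ ∣ N :=
    fun ℓ hℓ hℓS hc =>
      hℓS (Finset.mem_insert_of_mem (Nat.mem_primeFactors.2 ⟨hℓ, hc, hN0⟩))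
  obtain ⟨chig, hchig, O', i1, i2, i3, i4, i5, i6, iota, hpO'⟩ :=
    hOp h hnew.isNormalizedEigenform p (insert p N.primeFactors)
      (fun r hr hrM => Finset.mem_insert_of_mem
        (Nat.mem_primeFactors.2 ⟨hr, hrM.trans hMN, hN0⟩))
      (fun ℓ hℓ hℓS _ => ⟨_, hA ℓ hℓ (hnotN ℓ hℓ hℓS)⟩)
  have key : ∀ (O'' : Type) [CommRing O''] [IsDomain O''] [IsDiscreteValuationRing O'']
      [IsAdicComplete (IsLocalRing.maximalIdeal O'') O'']
      [Finite (IsLocalRing.ResidueField O'')] [CharZero O'']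
      [Algebra O' O''] [Module.Finite O' O''] [IsLocalHom (algebraMap O' O'')]
      (ρ : GaloisRepAdic O''),
      (∀ (ℓ : ℕ) (hℓ : ℓ.Prime) (hℓlam : ℓ ≠ p) (hℓM : ¬ ℓ ∣ M)
        (hℓS : ℓ ∉ (↑(insert p N.primeFactors) : Set ℕ)),
        ∀ A : ValuationSubring (AlgebraicClosure ℚ), A.LiesOverPrime ℓ →
          ∀ σ : AlgebraicClosure ℚ ≃ₐ[ℚ] AlgebraicClosure ℚ, A.IsFrobeniusAt σ ℓ →
            LinearMap.charpoly (ρ.ρ σ) =
              X ^ 2 - C (algebraMap O' O'' ((iota.comp chig.rangeRestrict)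
                (CuspForm.heckeAlgebra.T hℓ hℓM hℓS))) * X + C ((ℓ : O''))) →
      S58C_Frob W p ρ (insert p N.primeFactors) := by
    intro O'' _ _ _ _ _ _ _ _ _ ρ hfrob ℓ hℓ hℓB hgood hℓp A hAℓ σ hσ
    have hℓN : ¬ ℓ ∣ N := hnotN ℓ hℓ hℓB
    have hℓM : ¬ ℓ ∣ M := fun hc => hℓN (hc.trans hMN)
    have hℓS' : ℓ ∉ (↑(insert p N.primeFactors) : Set ℕ) := fun hc => hℓB (Finset.mem_coe.1 hc)
    rw [hfrob ℓ hℓ hℓp hℓM hℓS' A hAℓ σ hσ,
      S58T_frob_rw chig iota hℓ hℓM hℓS' (W.apOfModel ℓ)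
        ((hchig ℓ hℓ hℓM hℓS').trans (hA ℓ hℓ hℓN))]
  obtain ⟨O'', j1, j2, j3, j4, j5, j6, j7, j8, j9, hinj, ρ, hfrob, hnu⟩ :=
    h36 hnew p (insert p N.primeFactors) O' hpO' hp2 chig
      (fun ℓ hℓ hℓM hℓS => hchig ℓ hℓ hℓM hℓS) iota (Finset.mem_insert_self _ _)
      (fun r hr hrM => Finset.mem_insert_of_mem
        (Nat.mem_primeFactors.2 ⟨hr, hrM.trans hMN, hN0⟩))
      (fun O'' _ _ _ _ _ _ _ _ _ hinj ρ hfrob =>
        hR W hΔ hss p hp2 hirr O'' (S58T_mem_max p hpO') ρ _ (key O'' ρ hfrob))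
  have hF : S58C_Frob W p ρ (insert p N.primeFactors) :=
    key O'' ρ (fun ℓ hℓ _ hℓM hℓS => hfrob ℓ hℓ hℓM hℓS)
  obtain ⟨-, hun⟩ := hX W hΔ hss p O'' (S58T_mem_max p hpO') ρ _ hF
  exact hnu q hq hqp hfac (hun q hq hqp)

end Core

/-- **TOP**: the frozen statement S58 from the contracts. -/
theorem S58T_top (h35 : S58C_S35) (h36 : S58C_S36) (hNF : S58C_NF) (hOLD : S58C_OLD)
    (hO : S58C_O) (hOp : S58C_Op) (hR : S58C_RES) (hX : S58C_XFER) (hB : S58C_BOUND)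
    (hFr : S58C_FROBEX) : S58C_Frozen := by
  intro W hss N p _ hp2 hirr hp2N hN hbad hN3
  have hN0 : N ≠ 0 := by
    rintro rfl
    exact hN3 2 Nat.prime_two (dvd_zero _)
  have hΔ : W.Δ ≠ 0 := by
    intro hc
    obtain ⟨ℓ, hℓN, hℓ⟩ := Nat.exists_infinite_primes (N + 1)
    have h1 : ℓ ∣ N := hbad ℓ hℓ (hc ▸ dvd_zero _)
    have h2 := Nat.le_of_dvd (Nat.pos_of_ne_zero hN0) h1
    omega
  obtain ⟨f, hf, hfW⟩ := hN
  obtain ⟨M, hMN, h, hnew, hagree⟩ := hNF N hN0 f hf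
  have hM0 : M ≠ 0 := fun hc => hN0 (by rw [hc] at hMN; exact zero_dvd_iff.1 hMN)
  haveI : NeZero M := ⟨hM0⟩
  have hgoodN : ∀ ℓ : ℕ, ℓ.Prime → ¬ ℓ ∣ N → W.IsGoodPrimeFor ℓ :=
    fun ℓ hℓ hℓN hc => hℓN (hbad ℓ hℓ hc)
  have hA : ∀ ℓ : ℕ, ℓ.Prime → ¬ ℓ ∣ N →
      ModularFormClass.qCoeff h ℓ = ((W.apOfModel ℓ : ℤ) : ℂ) :=
    fun ℓ hℓ hℓN => (hagree ℓ hℓ hℓN).trans (hfW ℓ hℓ (hgoodN ℓ hℓ hℓN) hℓN)
  -- `M` is squarefree
  have hsq : ∀ q : ℕ, q.Prime → ¬ q ^ 2 ∣ M := by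
    intro q hq hq2
    have h2 : 2 ≤ M.factorization q := (hq.pow_dvd_iff_le_factorization hM0).1 hq2
    have h3 : ¬ 3 ≤ M.factorization q := fun hc =>
      hN3 q hq (((hq.pow_dvd_iff_le_factorization hM0).2 hc).trans hMN)
    have hfac : M.factorization q = 2 := by omega
    by_cases hqp : q = p
    · exact hp2N (hqp ▸ hq2.trans hMN)
    · exact S58T_sq W hΔ hss hMN hN0 h hnew hA h36 hOp hR hX p hp2 hirr hq hqp hfac
  -- every prime of `M` is bad for `W`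
  have hbadM : ∀ q : ℕ, q.Prime → q ∣ M → (q : ℤ) ∣ W.Δ := by
    intro q hq hqM
    by_contra hgood
    exact S58T_good W hΔ hss hMN hN0 h hnew hA h35 hO hX hB hFr hq hqM (hsq q hq) hgood
  have hMR : M ∣ W.conductorLevel :=
    S58T_dvd_of_prime hM0 W.conductorLevel_pos.ne' hsq
      (fun q hq hqM => (W.prime_dvd_conductorLevel_iff hΔ hq).2 (hbadM q hq hqM))
  obtain ⟨g, hg, hgh⟩ := hOLD hMR W.squarefree_conductorLevel h hnew.isNormalizedEigenform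
  refine ⟨g, hg, fun ℓ hℓ hgood hℓR => ?_⟩
  rw [hgh ℓ hℓ hℓR]
  have hℓM : ¬ ℓ ∣ M := fun hc => hgood (hbadM ℓ hℓ hc)
  exact S58T_coeff W hΔ hss hMN hN0 h hnew hA h35 hO hX hFr hℓ hℓM hgood

end Fermat.Agent.S58_helper18_TOP
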