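import Fermat.Agent.S58_helper18_Contracts
import Fermat.Agent.S58_helper2_TORS
import Fermat.Agent.S58_helper14_CMP

/-!
# S58 (helper18): XFER = the elliptic side transferred to an adic representation

`S58X_main : (E0) → (E1) → (E3) → (FIN) → S58C_XFER`, where, in helper2's vocabulary
(`S58T_Tors W n`, `S58T_gal`, `S58T_cp`):

* (E0) `S58T_E0 W lam`  : `W[lam ^ k]` is free of rank two over `ZMod (lam ^ k)`;
* (E1) `S58X_E1 W lam`  : a Frobenius at a good prime `ℓ ≠ lam` has characteristic polynomial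
  `X ^ 2 - a_ℓ X + ℓ` on `W[lam ^ k]`;
* (E3) `S58T_E3 W lam`  : inertia at `q ≠ lam` has characteristic polynomial `(X - 1) ^ 2`;
* (FIN) `S58X_FIN W n`  : the action on `W[n]` factors through a finite level.

The engine is helper14's `S58CMP_main` (Frobenius density at finite level) and the separatedness
of the coefficient ring.
-/

set_option autoImplicit false
set_option linter.unusedSectionVars false
set_option linter.unusedVariables false
set_option linter.style.haveILetI false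
set_option maxHeartbeats 1600000

open Polynomial
open Fermat.Agent.S58_helper18_Contracts Fermat.Agent.S58_helper2_TORS
open Fermat.Agent.S58_helper14_CMP

noncomputable section

namespace Fermat.Agent.S58_helper18_XFER

local notation "GQ" => (AlgebraicClosure ℚ ≃ₐ[ℚ] AlgebraicClosure ℚ)

/-- the Galois action on `W[n]` as a monoid homomorphism -/
def S58X_r (W : WeierstrassCurve ℤ) (n : ℕ) :
    GQ →* Module.End (ZMod n) (S58T_Tors W n) where
  toFun := S58T_gal W n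
  map_one' := S58T_gal_one W n
  map_mul' := S58T_gal_mul W n

/-- **(FIN)** the action on `W[n]` factors through a finite level -/
def S58X_FIN (W : WeierstrassCurve ℤ) (n : ℕ) : Prop :=
  GaloisFactorsThroughFiniteLevel (S58X_r W n)

/-- **(E1)** a Frobenius at a good prime `ℓ ≠ lam` has characteristic polynomial
`X ^ 2 - a_ℓ X + ℓ` on `W[lam ^ k]` (in every basis), for every `k`. -/
def S58X_E1 (W : WeierstrassCurve ℤ) (lam : ℕ) : Prop :=
  ∀ ℓ : ℕ, ℓ.Prime → W.IsGoodPrimeFor ℓ → ℓ ≠ lam → ∀ (k : ℕ)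
    (b : Module.Basis (Fin 2) (ZMod (lam ^ k)) (S58T_Tors W (lam ^ k)))
    (A : ValuationSubring (AlgebraicClosure ℚ)), A.LiesOverPrime ℓ →
      ∀ σ : GQ, A.IsFrobeniusAt σ ℓ →
        S58T_cp W (lam ^ k) b σ =
          X ^ 2 - C (((W.apOfModel ℓ : ℤ) : ZMod (lam ^ k))) * X + C ((ℓ : ZMod (lam ^ k)))

/-- separatedness: an element in all the ideals `(lam ^ k)` is zero -/
theorem S58X_sep {O : Type*} [CommRing O] [IsLocalRing O] [IsNoetherianRing O] (lam : ℕ)
    (hlam : (lam : O) ∈ IsLocalRing.maximalIdeal O) (x : O)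
    (h : ∀ k : ℕ, 1 ≤ k → x ∈ Ideal.span {(((lam ^ k : ℕ)) : O)}) : x = 0 := by
  have h1 : x ∈ (⨅ i : ℕ, IsLocalRing.maximalIdeal O ^ i) := by
    rw [Ideal.mem_iInf]
    intro i
    rcases Nat.eq_zero_or_pos i with rfl | hi
    · simp
    · refine (Ideal.span_le.2 ?_) (h i hi)
      intro y hy
      rw [Set.mem_singleton_iff] at hy
      rw [hy, Nat.cast_pow]
      exact Ideal.pow_mem_pow hlam i
  rw [Ideal.iInf_pow_eq_bot_of_isLocalRing _ Ideal.IsPrime.ne_top'] at h1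
  exact h1

/-- separatedness for polynomials -/
theorem S58X_sep_poly {O : Type*} [CommRing O] [IsLocalRing O] [IsNoetherianRing O] (lam : ℕ)
    (hlam : (lam : O) ∈ IsLocalRing.maximalIdeal O) (P Q : O[X])
    (h : ∀ k : ℕ, 1 ≤ k →
      P.map (Ideal.Quotient.mk (Ideal.span {(((lam ^ k : ℕ)) : O)})) =
        Q.map (Ideal.Quotient.mk (Ideal.span {(((lam ^ k : ℕ)) : O)}))) : P = Q := by
  ext i
  rw [← sub_eq_zero]
  refine S58X_sep lam hlam _ (fun k hk => ?_)
  have h1 := congrArg (fun R => Polynomial.coeff R i) (h k hk)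
  simp only [coeff_map] at h1
  rw [← Ideal.Quotient.eq]
  exact h1

/-- in a discrete valuation ring every nonzero principal ideal contains a power of the
maximal ideal -/
theorem S58X_pow_le {O : Type*} [CommRing O] [IsDomain O] [IsDiscreteValuationRing O] (x : O)
    (hx : x ≠ 0) : ∃ n : ℕ, IsLocalRing.maximalIdeal O ^ n ≤ Ideal.span {x} := by
  obtain ⟨ϖ, hϖ⟩ := IsDiscreteValuationRing.exists_irreducible O
  obtain ⟨n, hn⟩ := IsDiscreteValuationRing.associated_pow_irreducible hx hϖ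
  refine ⟨n, ?_⟩
  rw [hϖ.maximalIdeal_eq, Ideal.span_singleton_pow,
    Ideal.span_singleton_eq_span_singleton.2 hn]

/-- the canonical map `ZMod n → O / (n)` -/
def S58X_phi (O : Type*) [CommRing O] (n : ℕ) :
    ZMod n →+* O ⧸ Ideal.span {((n : ℕ) : O)} :=
  haveI := ringChar.charP (O ⧸ Ideal.span {((n : ℕ) : O)})
  ZMod.castHom ((CharP.cast_eq_zero_iff (O ⧸ Ideal.span {((n : ℕ) : O)})
    (ringChar (O ⧸ Ideal.span {((n : ℕ) : O)})) n).1 (by
      rw [← map_natCast (Ideal.Quotient.mk (Ideal.span {((n : ℕ) : O)}))]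
      exact Ideal.Quotient.eq_zero_iff_mem.2 (Ideal.subset_span rfl)))
    (O ⧸ Ideal.span {((n : ℕ) : O)})

section Main

variable (W : WeierstrassCurve ℤ) (hΔ : W.Δ ≠ 0) (lam : ℕ) [Fact lam.Prime]
  (hE0 : S58T_E0 W lam) (hE1 : S58X_E1 W lam) (hE3 : S58T_E3 W lam)
  (hFIN : ∀ k : ℕ, S58X_FIN W (lam ^ k))
  (O'' : Type) [CommRing O''] [IsDomain O''] [IsDiscreteValuationRing O''] [CharZero O'']
  (hlam : (lam : O'') ∈ IsLocalRing.maximalIdeal O'')
  (ρ : GaloisRepAdic O'') (B : Finset ℕ) (hF : S58C_Frob W lam ρ B)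

include hΔ hE1 hFIN hF in
/-- the comparison at level `lam ^ k` -/
theorem S58X_cmp (k : ℕ) (hk : 1 ≤ k)
    (b : Module.Basis (Fin 2) (ZMod (lam ^ k)) (S58T_Tors W (lam ^ k))) (g : GQ) :
    (LinearMap.charpoly (ρ.ρ g)).map
        (Ideal.Quotient.mk (Ideal.span {(((lam ^ k : ℕ)) : O'')})) =
      (S58T_cp W (lam ^ k) b g).map (S58X_phi O'' (lam ^ k)) := by
  haveI : Module.Free (ZMod (lam ^ k)) (S58T_Tors W (lam ^ k)) := Module.Free.of_basis b
  haveI : Module.Finite (ZMod (lam ^ k)) (S58T_Tors W (lam ^ k)) := Module.Finite.of_basis b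
  have hlam1 : 1 < lam := (Fact.out : lam.Prime).one_lt
  haveI : Fact (1 < lam ^ k) := ⟨Nat.one_lt_pow (by omega) hlam1⟩
  have hrank : Module.finrank (ZMod (lam ^ k)) (S58T_Tors W (lam ^ k)) = 2 := by
    rw [Module.finrank_eq_card_basis b]
    simp
  have hx : (((lam ^ k : ℕ)) : O'') ≠ 0 := by
    exact_mod_cast (pow_pos (Fact.out : lam.Prime).pos k).ne'
  obtain ⟨n, hn⟩ := S58X_pow_le (((lam ^ k : ℕ)) : O'') hx
  have hcp : ∀ σ : GQ,
      LinearMap.charpoly (S58X_r W (lam ^ k) σ) = S58T_cp W (lam ^ k) b σ :=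
    fun σ => (LinearMap.charpoly_toMatrix (S58T_gal W (lam ^ k) σ) b).symm
  rw [← hcp g]
  refine S58CMP_main ρ _ n hn hrank (S58X_r W (lam ^ k)) (hFIN k) (S58X_phi O'' (lam ^ k))
    (insert lam (B ∪ W.Δ.natAbs.primeFactors)) ?_ g
  intro ℓ hℓ hℓS A hA σ hσ
  have hℓlam : ℓ ≠ lam := fun hc => hℓS (hc ▸ Finset.mem_insert_self _ _)
  have hℓB : ℓ ∉ B := fun hc =>
    hℓS (Finset.mem_insert_of_mem (Finset.mem_union_left _ hc))
  have hgood : W.IsGoodPrimeFor ℓ := by
    intro hc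
    refine hℓS (Finset.mem_insert_of_mem (Finset.mem_union_right _ ?_))
    exact Nat.mem_primeFactors.2 ⟨hℓ, Int.natCast_dvd.1 hc, Int.natAbs_ne_zero.2 hΔ⟩
  have h1 := hF ℓ hℓ hℓB hgood hℓlam A hA σ hσ
  have h2 := hE1 ℓ hℓ hgood hℓlam k b A hA σ hσ
  rw [h1, hcp σ, h2]
  simp [Polynomial.map_sub, Polynomial.map_add, Polynomial.map_mul, Polynomial.map_pow]

include hΔ hE0 hE1 hE3 hFIN hlam hF in
/-- **XFER** for one curve and one prime -/
theorem S58X_one :
    S58C_Frob W lam ρ ∅ ∧ ∀ q : ℕ, q.Prime → q ≠ lam → ρ.IsUnipotentOnInertiaAt q := by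
  constructor
  · intro ℓ hℓ _ hgood hℓlam A hA σ hσ
    refine S58X_sep_poly lam hlam _ _ (fun k hk => ?_)
    obtain ⟨b⟩ := hE0 k
    have h2 := hE1 ℓ hℓ hgood hℓlam k b A hA σ hσ
    rw [S58X_cmp W hΔ lam hE1 hFIN O'' ρ B hF k hk b σ, h2]
    simp [Polynomial.map_sub, Polynomial.map_add, Polynomial.map_mul, Polynomial.map_pow]
  · intro q hq hqlam A hA τ hτ
    refine S58X_sep_poly lam hlam _ _ (fun k hk => ?_)
    obtain ⟨b⟩ := hE0 k
    have h2 := hE3 q hq hqlam k b A hA τ hτ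
    rw [S58X_cmp W hΔ lam hE1 hFIN O'' ρ B hF k hk b τ, h2]
    simp [Polynomial.map_sub, Polynomial.map_pow]

end Main

/-- **XFER** from the finite-level contracts of the elliptic side. -/
theorem S58X_main
    (hE0 : ∀ (W : WeierstrassCurve ℤ) (lam : ℕ) [Fact lam.Prime], W.Δ ≠ 0 → S58T_E0 W lam)
    (hE1 : ∀ (W : WeierstrassCurve ℤ) (lam : ℕ) [Fact lam.Prime], W.Δ ≠ 0 → S58X_E1 W lam)
    (hE3 : ∀ (W : WeierstrassCurve ℤ) (lam : ℕ) [Fact lam.Prime], W.Δ ≠ 0 →
      W.IsSemistableModel → S58T_E3 W lam)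
    (hFIN : ∀ (W : WeierstrassCurve ℤ) (n : ℕ), W.Δ ≠ 0 → 0 < n → S58X_FIN W n) :
    S58C_XFER := by
  intro W hΔ hss lam _ O'' _ _ _ _ _ _ hlam ρ B hF
  exact S58X_one W hΔ lam (hE0 W lam hΔ) (hE1 W lam hΔ) (hE3 W lam hΔ hss)
    (fun k => hFIN W (lam ^ k) hΔ (pow_pos (Fact.out : lam.Prime).pos k)) O'' hlam ρ B hF

end Fermat.Agent.S58_helper18_XFER
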