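import Mathlib
import Fermat.Agent.S58_helper19_E1P
import Fermat.Agent.S58_helper19_KBP
import Fermat.Agent.S58_helper6_HNS
import Fermat.Agent.S58_helper27_PUSH
import Fermat.Agent.S58_helper3_E0CNT
import Fermat.Agent.S58_helper14_XFER

/-!
# S58 — (E1) CLOSED (helper19)

`S58E1F_main (W : WeierstrassCurve ℤ) (hΔ : W.Δ ≠ 0) (lam) [Fact lam.Prime] : S58XF_E1 W lam`:
at every prime `ℓ ≠ lam` of good reduction a Frobenius element at `ℓ` acts on `W[lam ^ k]` with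
characteristic polynomial `X ^ 2 - a_ℓ X + ℓ`, `a_ℓ = W.apOfModel ℓ`.

Plug of: the point relation `S58E1P_hrel` (helper19, = (E1a) + (E1b)), the non-scalarity
`S58HNS_hns` (helper6) from the kernel bound `S58KBP_main` (helper26 / helper19), the rank-two
freeness `S58E0N_E0` (helper3), and the trace lemma `S58TP_main` (helper27).
-/

set_option autoImplicit false

namespace Fermat.Agent.S58_helper19_E1F

open Polynomial WeierstrassCurve WeierstrassCurve.Affine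
open Fermat.Agent.S58_helper2_TORS Fermat.Agent.S58_helper14_XFER
open Fermat.Agent.S58_helper19_E1P Fermat.Agent.S58_helper19_KBP
open Fermat.Agent.S58_helper6_HNS Fermat.Agent.S58_helper27_PUSH

/-- the kernel bound in helper6's shape, at a level `lam ^ m > |a_l| + l` -/
theorem S58E1F_KB (W : WeierstrassCurve ℤ) (l : ℕ) [Fact l.Prime] (hgood : ¬ (l : ℤ) ∣ W.Δ)
    (lam m : ℕ)
    (hpm : |(l : ℤ) + 1 - (Nat.card (W.reductionMod l).toAffine.Point : ℤ)| + (l : ℤ)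
      < ((lam ^ m : ℕ) : ℤ)) :
    S58HNS_KB l (W.reductionMod l).toAffine (lam ^ m) (lam ^ (2 * m)) :=
  fun k _ _ _ _ c T hT hTm =>
    S58KBP_main l (W.reductionMod l).toAffine k (S58E1P_Δ W l hgood) lam m hpm c T hT hTm

/-- a level `m ≥ 1` with `B < lam ^ m` -/
theorem S58E1F_exists_level (lam : ℕ) (hlam : 2 ≤ lam) (B : ℤ) :
    ∃ m : ℕ, 1 ≤ m ∧ B < ((lam ^ m : ℕ) : ℤ) := by
  refine ⟨B.toNat + 1, Nat.le_add_left 1 _, ?_⟩
  have h1 : B.toNat + 1 < 2 ^ (B.toNat + 1) := Nat.lt_two_pow_self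
  have h2 : 2 ^ (B.toNat + 1) ≤ lam ^ (B.toNat + 1) := Nat.pow_le_pow_left hlam _
  have h3 : B ≤ (B.toNat : ℤ) := Int.self_le_toNat B
  have h4 : ((B.toNat + 1 : ℕ) : ℤ) < ((lam ^ (B.toNat + 1) : ℕ) : ℤ) := by
    exact_mod_cast lt_of_lt_of_le h1 h2
  push_cast at h4 ⊢
  linarith

/-- **(E1), closed.** -/
theorem S58E1F_main (W : WeierstrassCurve ℤ) (hΔ : W.Δ ≠ 0) (lam : ℕ) [Fact lam.Prime] :
    S58XF_E1 W lam := by
  intro ℓ hℓ hgood hne k b A hA σ hσ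
  haveI : Fact ℓ.Prime := ⟨hℓ⟩
  have hlam : lam.Prime := Fact.out
  have hE0 : S58T_E0 W lam := Fermat.Agent.S58_helper3_E0CNT.S58E0N_E0 W hΔ lam
  obtain ⟨m, hm, hpm⟩ := S58E1F_exists_level lam hlam.two_le
    (|(ℓ : ℤ) + 1 - (Nat.card (W.reductionMod ℓ).toAffine.Point : ℤ)| + (ℓ : ℤ))
  have hKB := S58E1F_KB W ℓ hgood lam m hpm
  have hns := S58HNS_hns W ℓ hgood lam hne hE0 m hKB A hA σ hσ
  have h := S58TP_main W lam hE0 σ (W.apOfModel ℓ) (ℓ : ℤ)
    (fun K P => S58E1P_hrel W ℓ hgood lam hlam hne A hA σ hσ K P) m hm hns k b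
  rw [h]
  simp

end Fermat.Agent.S58_helper19_E1F
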