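import Mathlib

/-!
# S58, brick E3-RAW, local algebra at a node (helper5)

`K` a field with a valuation `v`, a Weierstrass equation with coefficients `a₁ … a₆`, an exact
critical point `(x₀, y₀)` of the Weierstrass polynomial (`F_x = F_y = 0`) and the two tangent
slopes `γ₁, γ₂` (roots of `T² + a₁ T - (3 x₀ + a₂)`, `γ₁ - γ₂` a unit).  For a point `(x, y)` put
`ξ = (y - y₀) - γ₁ (x - x₀)`, `η = (y - y₀) - γ₂ (x - x₀)`.

* `S58ND_chord` : two points near the critical point with `v ξ' = v ξ`, `v η' = v η`, `x' ≠ x`: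
  the `x`-coordinate of the difference is NOT congruent to `x₀`;
* `S58ND_tangent` : the same for the double of a point with `v ξ = v η`;
* `S58ND_sing` : an integral point of the curve at which `F_x`, `F_y` are both non-units is
  congruent to the critical point (if `F(x₀, y₀)` is a non-unit).
-/

set_option autoImplicit false
set_option linter.unusedSectionVars false
set_option linter.unusedVariables false

namespace Fermat.Agent.S58_helper5_NODE

variable {K : Type*} [Field K] {Γ₀ : Type*} [LinearOrderedCommGroupWithZero Γ₀]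
  (v : Valuation K Γ₀)

/-- if `a * c = b * d` with `v c = v d ≠ 0` then `v a = v b`. -/
lemma S58ND_cancel {a b c d : K} (h : a * c = b * d) (hcd : v c = v d) (hc : v c ≠ 0) :
    v a = v b := by
  have := congrArg v h
  rw [map_mul, map_mul, ← hcd] at this
  exact mul_right_cancel₀ hc this

/-- `v (z + e) = v z` when `v e < v z`. -/
lemma S58ND_add_small {z e : K} (h : v e < v z) : v (z + e) = v z :=
  v.map_add_eq_of_lt_left h

section Chord

variable {a₁ a₂ a₃ a₄ a₆ x₀ y₀ γ₁ γ₂ : K}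

/-- the local equation of the curve at an exact critical point. -/
lemma S58ND_local (hy₀ : 2 * y₀ + a₁ * x₀ + a₃ = 0)
    (hx₀ : a₁ * y₀ - (3 * x₀ ^ 2 + 2 * a₂ * x₀ + a₄) = 0)
    (hs : γ₁ + γ₂ = -a₁) (hp : γ₁ * γ₂ = -(3 * x₀ + a₂)) {x y : K}
    (e : y ^ 2 + a₁ * x * y + a₃ * y = x ^ 3 + a₂ * x ^ 2 + a₄ * x + a₆) :
    ((y - y₀) - γ₁ * (x - x₀)) * ((y - y₀) - γ₂ * (x - x₀)) =
      (x - x₀) ^ 3 -
        (y₀ ^ 2 + a₁ * x₀ * y₀ + a₃ * y₀ - (x₀ ^ 3 + a₂ * x₀ ^ 2 + a₄ * x₀ + a₆)) := by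
  linear_combination e - (x - x₀) * hx₀ - (y - y₀) * hy₀ - (x - x₀) * (y - y₀) * hs
    + (x - x₀) ^ 2 * hp

/-- **Chord criterion.**  Two points near an exact critical point, with the same valuations of
`ξ` and of `η`, and different `x`-coordinates: the `x`-coordinate of their difference is not
congruent to `x₀`. -/
theorem S58ND_chord (hy₀ : 2 * y₀ + a₁ * x₀ + a₃ = 0)
    (hx₀ : a₁ * y₀ - (3 * x₀ ^ 2 + 2 * a₂ * x₀ + a₄) = 0)
    (hs : γ₁ + γ₂ = -a₁) (hp : γ₁ * γ₂ = -(3 * x₀ + a₂)) (hγ : v (γ₁ - γ₂) = 1)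
    {x y x' y' : K}
    (e : y ^ 2 + a₁ * x * y + a₃ * y = x ^ 3 + a₂ * x ^ 2 + a₄ * x + a₆)
    (e' : y' ^ 2 + a₁ * x' * y' + a₃ * y' = x' ^ 3 + a₂ * x' ^ 2 + a₄ * x' + a₆)
    (hxx : x' ≠ x)
    (hξ : v ((y - y₀) - γ₁ * (x - x₀)) < 1) (hη : v ((y - y₀) - γ₂ * (x - x₀)) < 1)
    (hξ' : v ((y' - y₀) - γ₁ * (x' - x₀)) = v ((y - y₀) - γ₁ * (x - x₀)))
    (hη' : v ((y' - y₀) - γ₂ * (x' - x₀)) = v ((y - y₀) - γ₂ * (x - x₀))) :
    1 ≤ v (((y' - (-y - a₁ * x - a₃)) / (x' - x)) ^ 2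
      + a₁ * ((y' - (-y - a₁ * x - a₃)) / (x' - x)) - a₂ - x' - x - x₀) := by
  set u := x - x₀ with hu
  set w := y - y₀ with hw
  set u' := x' - x₀ with hu'
  set w' := y' - y₀ with hw'
  set ξ := w - γ₁ * u with hξd
  set η := w - γ₂ * u with hηd
  set ξ' := w' - γ₁ * u' with hξ'd
  set η' := w' - γ₂ * u' with hη'd
  set α := ξ' + η with hα
  set β := η' + ξ with hβ
  set F₀ := y₀ ^ 2 + a₁ * x₀ * y₀ + a₃ * y₀ - (x₀ ^ 3 + a₂ * x₀ ^ 2 + a₄ * x₀ + a₆) with hF₀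
  set s := (y' - (-y - a₁ * x - a₃)) / (x' - x) with hsd
  have hd : x' - x ≠ 0 := sub_ne_zero.mpr hxx
  have hγ0 : γ₁ - γ₂ ≠ 0 := by
    intro h0; rw [h0, map_zero] at hγ; exact zero_ne_one hγ
  have hdu : u' - u = x' - x := by rw [hu, hu']; ring
  -- local equations
  have L : ξ * η = u ^ 3 - F₀ := S58ND_local hy₀ hx₀ hs hp e
  have L' : ξ' * η' = u' ^ 3 - F₀ := S58ND_local hy₀ hx₀ hs hp e'
  -- the slope
  have s1 : (s - γ₁) * (x' - x) = α := by
    rw [hsd, sub_mul, div_mul_cancel₀ _ hd]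
    rw [hα, hξ'd, hηd, hw', hw, hu', hu]
    linear_combination hy₀ + (x - x₀) * hs
  have s2 : (s - γ₂) * (x' - x) = β := by
    rw [hsd, sub_mul, div_mul_cancel₀ _ hd]
    rw [hβ, hη'd, hξd, hw', hw, hu', hu]
    linear_combination hy₀ + (x - x₀) * hs
  have hab : α - β = (γ₂ - γ₁) * (x' - x) := by
    rw [hα, hβ, hξ'd, hηd, hη'd, hξd, hu', hu]; ring
  -- the x-coordinate
  have X3 : (s ^ 2 + a₁ * s - a₂ - x' - x - x₀ + (u + u')) * (x' - x) ^ 2 = α * β := by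
    rw [← s1, ← s2, hu, hu']
    linear_combination (s * (x' - x) ^ 2) * hs - ((x' - x) ^ 2) * hp
  -- valuations of u, u'
  have hvu : v u ≤ max (v ξ) (v η) := by
    have e1 : (γ₂ - γ₁) * u = ξ - η := by rw [hξd, hηd]; ring
    have h1 : v ((γ₂ - γ₁) * u) = v u := by
      rw [map_mul, ← Valuation.map_neg, neg_sub, hγ, one_mul]
    rw [← h1, e1]
    exact (v.map_sub _ _)
  have hvu' : v u' ≤ max (v ξ) (v η) := by
    have e1 : (γ₂ - γ₁) * u' = ξ' - η' := by rw [hξ'd, hη'd]; ring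
    have h1 : v ((γ₂ - γ₁) * u') = v u' := by
      rw [map_mul, ← Valuation.map_neg, neg_sub, hγ, one_mul]
    rw [← h1, e1, ← hξ', ← hη']
    exact (v.map_sub _ _)
  have hM1 : max (v ξ) (v η) < 1 := max_lt hξ hη
  have hM0 : 0 < max (v ξ) (v η) := by
    rcases lt_or_eq_of_le (zero_le' : (0 : Γ₀) ≤ max (v ξ) (v η)) with h | h
    · exact h
    · exfalso
      have hu0 : v u = 0 := le_antisymm (h ▸ hvu) zero_le'
      have hu'0 : v u' = 0 := le_antisymm (h ▸ hvu') zero_le'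
      rw [map_eq_zero] at hu0 hu'0
      apply hd
      rw [← hdu, hu0, hu'0, sub_zero]
  set ε := (u ^ 2 + u * u' + u' ^ 2) / (γ₂ - γ₁) with hε
  have hγ0' : γ₂ - γ₁ ≠ 0 := by
    intro h0; apply hγ0; rw [← neg_sub, h0, neg_zero]
  have hvε : v ε ≤ max (v ξ) (v η) ^ 2 := by
    rw [hε, map_div₀, ← Valuation.map_neg v (γ₂ - γ₁), neg_sub, hγ, div_one]
    refine (v.map_add_le (v.map_add_le ?_ ?_) ?_)
    · rw [map_pow]; exact pow_le_pow_left₀ zero_le' hvu 2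
    · rw [map_mul, sq]; exact mul_le_mul' hvu hvu'
    · rw [map_pow]; exact pow_le_pow_left₀ zero_le' hvu' 2
  have hsq : max (v ξ) (v η) ^ 2 < max (v ξ) (v η) := by
    rw [sq]
    calc max (v ξ) (v η) * max (v ξ) (v η) < max (v ξ) (v η) * 1 :=
          mul_lt_mul_of_pos_left hM1 hM0
      _ = max (v ξ) (v η) := mul_one _
  have hvε' : v ε < max (v ξ) (v η) := lt_of_le_of_lt hvε hsq
  -- the two key identities
  have k1 : α * (ξ + ε) = β * (ξ' + ε) := by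
    have : (γ₂ - γ₁) * (α * (ξ + ε) - β * (ξ' + ε)) = 0 := by
      have hεe : (γ₂ - γ₁) * ε = u ^ 2 + u * u' + u' ^ 2 := by
        rw [hε]; field_simp
      have hab' : α - β = (γ₂ - γ₁) * (u' - u) := by rw [hab, hdu]
      have hc : α * ξ - β * ξ' = ξ * η - ξ' * η' := by rw [hα, hβ]; ring
      linear_combination (γ₂ - γ₁) * hc + (γ₂ - γ₁) * L - (γ₂ - γ₁) * L'
        + (α - β) * hεe + (u ^ 2 + u * u' + u' ^ 2) * hab'
    rcases mul_eq_zero.1 this with h | h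
    · exact absurd h hγ0'
    · exact sub_eq_zero.1 h
  have k2 : α * (η' - ε) = β * (η - ε) := by
    have : (γ₂ - γ₁) * (α * (η' - ε) - β * (η - ε)) = 0 := by
      have hεe : (γ₂ - γ₁) * ε = u ^ 2 + u * u' + u' ^ 2 := by
        rw [hε]; field_simp
      have hab' : α - β = (γ₂ - γ₁) * (u' - u) := by rw [hab, hdu]
      have hc : α * η' - β * η = ξ' * η' - ξ * η := by rw [hα, hβ]; ring
      linear_combination (γ₂ - γ₁) * hc - (γ₂ - γ₁) * L + (γ₂ - γ₁) * L'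
        - (α - β) * hεe - (u ^ 2 + u * u' + u' ^ 2) * hab'
    rcases mul_eq_zero.1 this with h | h
    · exact absurd h hγ0'
    · exact sub_eq_zero.1 h
  -- v α = v β
  have hαβ : v α = v β := by
    rcases le_total (v η) (v ξ) with hle | hle
    · have hm : max (v ξ) (v η) = v ξ := max_eq_left hle
      rw [hm] at hvε' hM0
      have h1 : v (ξ + ε) = v ξ := S58ND_add_small v hvε'
      have h2 : v (ξ' + ε) = v ξ := by
        rw [S58ND_add_small v (by rw [hξ']; exact hvε'), hξ']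
      exact S58ND_cancel v k1 (h1.trans h2.symm) (by rw [h1]; exact hM0.ne')
    · have hm : max (v ξ) (v η) = v η := max_eq_right hle
      rw [hm] at hvε' hM0
      have hε' : v (-ε) < v η := by rw [Valuation.map_neg]; exact hvε'
      have h1 : v (η - ε) = v η := by
        rw [sub_eq_add_neg]; exact S58ND_add_small v hε'
      have h2 : v (η' - ε) = v η := by
        rw [sub_eq_add_neg, S58ND_add_small v (by rw [hη']; exact hε'), hη']
      exact S58ND_cancel v k2 (h2.trans h1.symm) (by rw [h2]; exact hM0.ne')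
  -- v (α - β) ≤ v α
  have hvd : v (x' - x) ≤ v α := by
    have h1 : v (α - β) = v (x' - x) := by
      rw [hab, map_mul, ← Valuation.map_neg v (γ₂ - γ₁), neg_sub, hγ, one_mul]
    rw [← h1]
    exact (v.map_sub _ _).trans (by rw [hαβ, max_self])
  have hvd0 : 0 < v (x' - x) := (v.pos_iff).2 hd
  -- conclusion
  have hZ : 1 ≤ v (s ^ 2 + a₁ * s - a₂ - x' - x - x₀ + (u + u')) := by
    have h1 := congrArg v X3
    rw [map_mul, map_mul, map_pow, ← hαβ] at h1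
    by_contra hcon
    rw [not_le] at hcon
    have h2 : v (s ^ 2 + a₁ * s - a₂ - x' - x - x₀ + (u + u')) * v (x' - x) ^ 2
        < 1 * v (x' - x) ^ 2 :=
      mul_lt_mul_of_pos_right hcon (pow_pos hvd0 2)
    rw [h1, one_mul] at h2
    have h3 : v (x' - x) ^ 2 ≤ v α * v α := by
      rw [sq]; exact mul_le_mul' hvd hvd
    exact absurd h2 (not_lt.2 h3)
  have huu : v (u + u') < 1 :=
    lt_of_le_of_lt (v.map_add_le hvu hvu') hM1
  have hfin : s ^ 2 + a₁ * s - a₂ - x' - x - x₀ =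
      (s ^ 2 + a₁ * s - a₂ - x' - x - x₀ + (u + u')) + -(u + u') := by ring
  rw [hfin, v.map_add_eq_of_lt_left (by rw [Valuation.map_neg]; exact lt_of_lt_of_le huu hZ)]
  exact hZ

/-- **Tangent criterion.**  A point near an exact critical point with `v ξ = v η` which is not
a `2`-torsion point: the `x`-coordinate of its double is not congruent to `x₀`. -/
theorem S58ND_tangent (hy₀ : 2 * y₀ + a₁ * x₀ + a₃ = 0)
    (hx₀ : a₁ * y₀ - (3 * x₀ ^ 2 + 2 * a₂ * x₀ + a₄) = 0)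
    (hs : γ₁ + γ₂ = -a₁) (hp : γ₁ * γ₂ = -(3 * x₀ + a₂)) (hγ : v (γ₁ - γ₂) = 1)
    {x y : K}
    (e : y ^ 2 + a₁ * x * y + a₃ * y = x ^ 3 + a₂ * x ^ 2 + a₄ * x + a₆)
    (hyy : y - (-y - a₁ * x - a₃) ≠ 0)
    (hξ : v ((y - y₀) - γ₁ * (x - x₀)) < 1)
    (hξη : v ((y - y₀) - γ₂ * (x - x₀)) = v ((y - y₀) - γ₁ * (x - x₀))) :
    1 ≤ v (((3 * x ^ 2 + 2 * a₂ * x + a₄ - a₁ * y) / (y - (-y - a₁ * x - a₃))) ^ 2
      + a₁ * ((3 * x ^ 2 + 2 * a₂ * x + a₄ - a₁ * y) / (y - (-y - a₁ * x - a₃)))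
      - a₂ - x - x - x₀) := by
  set u := x - x₀ with hu
  set w := y - y₀ with hw
  set ξ := w - γ₁ * u with hξd
  set η := w - γ₂ * u with hηd
  set D := y - (-y - a₁ * x - a₃) with hD
  generalize hsd : (3 * x ^ 2 + 2 * a₂ * x + a₄ - a₁ * y) / D = s
  have hsD : s * D = 3 * x ^ 2 + 2 * a₂ * x + a₄ - a₁ * y := by
    rw [← hsd, div_mul_cancel₀ _ hyy]
  have hDe : D = ξ + η := by
    rw [hD, hξd, hηd, hw, hu]
    linear_combination hy₀ + (x - x₀) * hs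
  have s1 : (s - γ₁) * D = (γ₂ - γ₁) * ξ + 3 * u ^ 2 := by
    rw [sub_mul, hsD, hDe, hξd, hηd, hw, hu]
    linear_combination (-1 : K) * hx₀ - (y - y₀) * hs + 2 * (x - x₀) * hp
  have s2 : (s - γ₂) * D = (γ₁ - γ₂) * η + 3 * u ^ 2 := by
    rw [sub_mul, hsD, hDe, hξd, hηd, hw, hu]
    linear_combination (-1 : K) * hx₀ - (y - y₀) * hs + 2 * (x - x₀) * hp
  have X2 : (s ^ 2 + a₁ * s - a₂ - x - x - x₀ + (u + u)) * D ^ 2 =
      ((γ₂ - γ₁) * ξ + 3 * u ^ 2) * ((γ₁ - γ₂) * η + 3 * u ^ 2) := by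
    rw [← s1, ← s2, hu]
    linear_combination (s * D ^ 2) * hs - (D ^ 2) * hp
  have hM0 : 0 < v ξ := by
    rcases lt_or_eq_of_le (zero_le' : (0 : Γ₀) ≤ v ξ) with h | h
    · exact h
    · exfalso
      have h1 : ξ = 0 := (map_eq_zero v).1 h.symm
      have h2 : η = 0 := (map_eq_zero v).1 (by rw [hξη]; exact h.symm)
      apply hyy
      rw [hDe, h1, h2, add_zero]
  have hvu : v u ≤ v ξ := by
    have e1 : (γ₂ - γ₁) * u = ξ - η := by rw [hξd, hηd]; ring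
    have h1 : v ((γ₂ - γ₁) * u) = v u := by
      rw [map_mul, ← Valuation.map_neg v (γ₂ - γ₁), neg_sub, hγ, one_mul]
    rw [← h1, e1]
    exact (v.map_sub _ _).trans (by rw [hξη, max_self])
  have hsq : v ξ ^ 2 < v ξ := by
    rw [sq]
    calc v ξ * v ξ < v ξ * 1 := mul_lt_mul_of_pos_left hξ hM0
      _ = v ξ := mul_one _
  have h3 : v (3 * u ^ 2) < v ξ := by
    refine lt_of_le_of_lt ?_ hsq
    rw [map_mul, map_pow]
    have h3' : v (3 : K) ≤ 1 := by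
      have : (3 : K) = 1 + 1 + 1 := by norm_num
      rw [this]
      exact v.map_add_le (v.map_add_le (by rw [map_one]) (by rw [map_one])) (by rw [map_one])
    calc v 3 * v u ^ 2 ≤ 1 * v ξ ^ 2 := mul_le_mul' h3' (pow_le_pow_left₀ zero_le' hvu 2)
      _ = v ξ ^ 2 := one_mul _
  have n1 : v ((γ₂ - γ₁) * ξ + 3 * u ^ 2) = v ξ := by
    have h1 : v ((γ₂ - γ₁) * ξ) = v ξ := by
      rw [map_mul, ← Valuation.map_neg v (γ₂ - γ₁), neg_sub, hγ, one_mul]
    rw [v.map_add_eq_of_lt_left (by rw [h1]; exact h3), h1]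
  have n2 : v ((γ₁ - γ₂) * η + 3 * u ^ 2) = v ξ := by
    have h1 : v ((γ₁ - γ₂) * η) = v ξ := by
      rw [map_mul, hγ, one_mul, hξη]
    rw [v.map_add_eq_of_lt_left (by rw [h1]; exact h3), h1]
  have hvD : v D ≤ v ξ := by
    rw [hDe]
    exact (v.map_add _ _).trans (by rw [hξη, max_self])
  have hvD0 : 0 < v D := (v.pos_iff).2 hyy
  have hZ : 1 ≤ v (s ^ 2 + a₁ * s - a₂ - x - x - x₀ + (u + u)) := by
    have h1 := congrArg v X2
    rw [map_mul, map_mul, map_pow, n1, n2] at h1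
    by_contra hcon
    rw [not_le] at hcon
    have h2 : v (s ^ 2 + a₁ * s - a₂ - x - x - x₀ + (u + u)) * v D ^ 2 < 1 * v D ^ 2 :=
      mul_lt_mul_of_pos_right hcon (pow_pos hvD0 2)
    rw [h1, one_mul] at h2
    have h3 : v D ^ 2 ≤ v ξ * v ξ := by
      rw [sq]; exact mul_le_mul' hvD hvD
    exact absurd h2 (not_lt.2 h3)
  have huu : v (u + u) < 1 :=
    lt_of_le_of_lt (v.map_add_le hvu hvu) hξ
  have hfin : s ^ 2 + a₁ * s - a₂ - x - x - x₀ =
      (s ^ 2 + a₁ * s - a₂ - x - x - x₀ + (u + u)) + -(u + u) := by ring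
  rw [hfin, v.map_add_eq_of_lt_left (by rw [Valuation.map_neg]; exact lt_of_lt_of_le huu hZ)]
  exact hZ

/-- An integral point of the curve at which `F_x` and `F_y` are non-units is congruent to the
exact critical point (whose value `F₀` is a non-unit). -/
theorem S58ND_sing (hy₀ : 2 * y₀ + a₁ * x₀ + a₃ = 0)
    (hx₀ : a₁ * y₀ - (3 * x₀ ^ 2 + 2 * a₂ * x₀ + a₄) = 0)
    (hF₀ : v (y₀ ^ 2 + a₁ * x₀ * y₀ + a₃ * y₀ - (x₀ ^ 3 + a₂ * x₀ ^ 2 + a₄ * x₀ + a₆)) < 1)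
    {x y : K}
    (e : y ^ 2 + a₁ * x * y + a₃ * y = x ^ 3 + a₂ * x ^ 2 + a₄ * x + a₆)
    (hu : v (x - x₀) ≤ 1) (hw : v (y - y₀) ≤ 1)
    (hFx : v (a₁ * y - (3 * x ^ 2 + 2 * a₂ * x + a₄)) < 1)
    (hFy : v (2 * y + a₁ * x + a₃) < 1) :
    v (x - x₀) < 1 := by
  have key : (x - x₀) ^ 3 =
      -(2 * (y₀ ^ 2 + a₁ * x₀ * y₀ + a₃ * y₀ - (x₀ ^ 3 + a₂ * x₀ ^ 2 + a₄ * x₀ + a₆)))
        - (y - y₀) * (2 * y + a₁ * x + a₃)
        - (x - x₀) * (a₁ * y - (3 * x ^ 2 + 2 * a₂ * x + a₄)) := by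
    linear_combination 2 * e - (x - x₀) * hx₀ - (y - y₀) * hy₀
  have h2 : v (2 : K) ≤ 1 := by
    have : (2 : K) = 1 + 1 := by norm_num
    rw [this]
    exact v.map_add_le (by rw [map_one]) (by rw [map_one])
  have h1 : v ((x - x₀) ^ 3) < 1 := by
    rw [key]
    refine lt_of_le_of_lt (v.map_sub _ _) (max_lt (lt_of_le_of_lt (v.map_sub _ _) (max_lt ?_ ?_)) ?_)
    · rw [Valuation.map_neg, map_mul]
      calc v 2 * v _ ≤ 1 * v _ := mul_le_mul' h2 le_rfl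
        _ = v _ := one_mul _
        _ < 1 := hF₀
    · rw [map_mul]
      calc v (y - y₀) * v (2 * y + a₁ * x + a₃) ≤ 1 * v (2 * y + a₁ * x + a₃) :=
            mul_le_mul' hw le_rfl
        _ = v (2 * y + a₁ * x + a₃) := one_mul _
        _ < 1 := hFy
    · rw [map_mul]
      calc v (x - x₀) * v (a₁ * y - (3 * x ^ 2 + 2 * a₂ * x + a₄))
          ≤ 1 * v (a₁ * y - (3 * x ^ 2 + 2 * a₂ * x + a₄)) := mul_le_mul' hu le_rfl
        _ = v (a₁ * y - (3 * x ^ 2 + 2 * a₂ * x + a₄)) := one_mul _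
        _ < 1 := hFx
  rw [map_pow] at h1
  by_contra hcon
  rw [not_lt] at hcon
  exact absurd h1 (not_lt.2 (one_le_pow₀ hcon))

end Chord

end Fermat.Agent.S58_helper5_NODE
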