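import Mathlib
import Fermat.Agent.S58_helper5_NODE
import Fermat.Agent.S58_helper9_PLUG
import Fermat.Agent.S58_helper20_HENSQ
import Fermat.Agent.S13_helper5_ATPa

/-!
# S58 (E3-RAW) [E3-KEY]: the pointwise key, closed

`S58EK_key W : S58PL_Key W` (the hypothesis of `S58PL_main`) and hence
`S58EK_main W : S58T_E3raw W`, for every integral Weierstrass model `W`.

Ingredients, all landed: the exact critical point and the tangent slopes of `S58HQ_crit`,
the chord / tangent valuation estimates `S58ND_chord`, `S58ND_tangent` and step (5)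
`S58ND_sing`, and the fact that the inertia group preserves the valuation.
-/

set_option autoImplicit false
set_option linter.unusedSectionVars false

namespace Fermat.Agent.S58_helper20_E3KEY

open WeierstrassCurve WeierstrassCurve.Affine
open Fermat.Agent.S58_helper5_NODE

section Abs

variable {K : Type*} [Field K] [DecidableEq K] {Γ₀ : Type*} [LinearOrderedCommGroupWithZero Γ₀]
  (v : Valuation K Γ₀)

/-- `v (a - g * b) < 1` from `v a < 1`, `v b < 1`, `v g ≤ 1`. -/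
theorem S58EK_small {a b g : K} (ha : v a < 1) (hb : v b < 1) (hg : v g ≤ 1) :
    v (a - g * b) < 1 := by
  refine lt_of_le_of_lt (v.map_sub _ _) (max_lt ha ?_)
  rw [map_mul]
  calc v g * v b ≤ 1 * v b := mul_le_mul' hg le_rfl
    _ = v b := one_mul _
    _ < 1 := hb

/-- the `x`-coordinate of the difference of two points near the node is not congruent to the
`x`-coordinate of the node. -/
theorem S58EK_xD (W : WeierstrassCurve.Affine K) (x₀ y₀ g₁ g₂ : K)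
    (hy₀ : 2 * y₀ + W.a₁ * x₀ + W.a₃ = 0)
    (hx₀ : W.a₁ * y₀ - (3 * x₀ ^ 2 + 2 * W.a₂ * x₀ + W.a₄) = 0)
    (hs : g₁ + g₂ = -W.a₁) (hp : g₁ * g₂ = -(3 * x₀ + W.a₂)) (hγ : v (g₁ - g₂) = 1)
    (hg₁ : v g₁ ≤ 1) (hg₂ : v g₂ ≤ 1)
    {x y x' y' : K} (h : W.Nonsingular x y) (h' : W.Nonsingular x' y')
    (hu : v (x - x₀) < 1) (hw : v (y - y₀) < 1)
    (hξ' : v ((y' - y₀) - g₁ * (x' - x₀)) = v ((y - y₀) - g₁ * (x - x₀)))
    (hη' : v ((y' - y₀) - g₂ * (x' - x₀)) = v ((y - y₀) - g₂ * (x - x₀)))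
    {xD yD : K} (hD : W.Nonsingular xD yD)
    (hsub : Point.some x' y' h' - Point.some x y h = Point.some xD yD hD) :
    1 ≤ v (xD - x₀) := by
  have e : y ^ 2 + W.a₁ * x * y + W.a₃ * y = x ^ 3 + W.a₂ * x ^ 2 + W.a₄ * x + W.a₆ :=
    (W.equation_iff x y).1 h.1
  have e' : y' ^ 2 + W.a₁ * x' * y' + W.a₃ * y' = x' ^ 3 + W.a₂ * x' ^ 2 + W.a₄ * x' + W.a₆ :=
    (W.equation_iff x' y').1 h'.1
  have hξ : v ((y - y₀) - g₁ * (x - x₀)) < 1 := S58EK_small v hw hu hg₁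
  have hη : v ((y - y₀) - g₂ * (x - x₀)) < 1 := S58EK_small v hw hu hg₂
  rw [sub_eq_add_neg, Point.neg_some] at hsub
  by_cases hxx : x' = x
  · -- tangent case
    subst hxx
    rcases Y_eq_of_X_eq h'.1 h.1 rfl with hyy | hyy
    · -- `P' = P`: the difference is zero
      exfalso
      have h0 : Point.some x' y' h' + Point.some x' (W.negY x' y) ((nonsingular_neg ..).mpr h) = 0 :=
        Point.add_of_Y_eq rfl (by rw [hyy, negY_negY])
      rw [h0] at hsub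
      exact Point.some_ne_zero _ hsub.symm
    · -- `P' = -P`
      have hne : y' ≠ W.negY x' (W.negY x' y) := by
        intro hcon
        rw [negY_negY] at hcon
        have h0 : Point.some x' y' h' + Point.some x' (W.negY x' y) ((nonsingular_neg ..).mpr h)
            = 0 := Point.add_of_Y_eq rfl (by rw [negY_negY]; exact hcon)
        rw [h0] at hsub
        exact Point.some_ne_zero _ hsub.symm
      rw [Point.add_of_Y_ne hne] at hsub
      have hxD : xD = W.addX x' x' (W.slope x' x' y' (W.negY x' y)) :=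
        ((Point.some.injEq ..).mp hsub).1.symm
      have hyy2 : y' - (-y' - W.a₁ * x' - W.a₃) ≠ 0 := by
        intro hcon
        apply hne
        rw [negY_negY, hyy, negY]
        rw [hyy, negY] at hcon
        linear_combination hcon
      have hsl : W.slope x' x' y' (W.negY x' y) =
          (3 * x' ^ 2 + 2 * W.a₂ * x' + W.a₄ - W.a₁ * y') / (y' - (-y' - W.a₁ * x' - W.a₃)) := by
        rw [slope_of_Y_ne rfl hne, negY]
      -- `ξ (P') = - η (P)`
      have hswap : (y' - y₀) - g₁ * (x' - x₀) = -((y - y₀) - g₂ * (x' - x₀)) := by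
        rw [hyy, negY]
        linear_combination -hy₀ - (x' - x₀) * hs
      have hvξη : v ((y' - y₀) - g₂ * (x' - x₀)) = v ((y' - y₀) - g₁ * (x' - x₀)) := by
        rw [hη', hswap, Valuation.map_neg]
      have := S58ND_tangent v hy₀ hx₀ hs hp hγ e' hyy2 (by rw [hξ']; exact hξ) hvξη
      rw [hxD, hsl, addX]
      convert this using 2
  · rw [Point.add_of_X_ne hxx] at hsub
    have hxD : xD = W.addX x' x (W.slope x' x y' (W.negY x y)) :=
      ((Point.some.injEq ..).mp hsub).1.symm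
    have := S58ND_chord v hy₀ hx₀ hs hp hγ e e' hxx hξ hη hξ' hη'
    rw [hxD, slope_of_X_ne hxx, addX, negY]
    convert this using 2

/-- **abstract key**: the difference of two points near the node, with the same valuations of
the two local parameters, has non-singular reduction. -/
theorem S58EK_abs (W : WeierstrassCurve.Affine K) (x₀ y₀ g₁ g₂ : K)
    (hy₀ : 2 * y₀ + W.a₁ * x₀ + W.a₃ = 0)
    (hx₀ : W.a₁ * y₀ - (3 * x₀ ^ 2 + 2 * W.a₂ * x₀ + W.a₄) = 0)
    (hs : g₁ + g₂ = -W.a₁) (hp : g₁ * g₂ = -(3 * x₀ + W.a₂)) (hγ : v (g₁ - g₂) = 1)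
    (hg₁ : v g₁ ≤ 1) (hg₂ : v g₂ ≤ 1) (hx₀i : v x₀ ≤ 1) (hy₀i : v y₀ ≤ 1)
    {x y x' y' : K} (h : W.Nonsingular x y) (h' : W.Nonsingular x' y')
    (hu : v (x - x₀) < 1) (hw : v (y - y₀) < 1)
    (hξ' : v ((y' - y₀) - g₁ * (x' - x₀)) = v ((y - y₀) - g₁ * (x - x₀)))
    (hη' : v ((y' - y₀) - g₂ * (x' - x₀)) = v ((y - y₀) - g₂ * (x - x₀)))
    {xD yD : K} (hD : W.Nonsingular xD yD)
    (hsub : Point.some x' y' h' - Point.some x y h = Point.some xD yD hD)
    (hxD : v xD ≤ 1) (hyD : v yD ≤ 1)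
    (hFxD : v (W.polynomialX.evalEval xD yD) ≤ 1)
    (hFyD : v (W.polynomialY.evalEval xD yD) ≤ 1) :
    v (W.polynomialX.evalEval xD yD) = 1 ∨ v (W.polynomialY.evalEval xD yD) = 1 := by
  by_contra hcon
  rw [not_or] at hcon
  have hsx := lt_of_le_of_ne hFxD hcon.1
  have hsy := lt_of_le_of_ne hFyD hcon.2
  rw [evalEval_polynomialX] at hsx
  rw [evalEval_polynomialY] at hsy
  have key := S58EK_xD v W x₀ y₀ g₁ g₂ hy₀ hx₀ hs hp hγ hg₁ hg₂ h h' hu hw hξ' hη' hD hsub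
  have e : y ^ 2 + W.a₁ * x * y + W.a₃ * y = x ^ 3 + W.a₂ * x ^ 2 + W.a₄ * x + W.a₆ :=
    (W.equation_iff x y).1 h.1
  have eD : yD ^ 2 + W.a₁ * xD * yD + W.a₃ * yD = xD ^ 3 + W.a₂ * xD ^ 2 + W.a₄ * xD + W.a₆ :=
    (W.equation_iff xD yD).1 hD.1
  have hξ : v ((y - y₀) - g₁ * (x - x₀)) < 1 := S58EK_small v hw hu hg₁
  have hη : v ((y - y₀) - g₂ * (x - x₀)) ≤ 1 := (S58EK_small v hw hu hg₂).le
  have hloc := S58ND_local hy₀ hx₀ hs hp e
  have hF₀ : v (y₀ ^ 2 + W.a₁ * x₀ * y₀ + W.a₃ * y₀ -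
      (x₀ ^ 3 + W.a₂ * x₀ ^ 2 + W.a₄ * x₀ + W.a₆)) < 1 := by
    have e2 : y₀ ^ 2 + W.a₁ * x₀ * y₀ + W.a₃ * y₀ -
        (x₀ ^ 3 + W.a₂ * x₀ ^ 2 + W.a₄ * x₀ + W.a₆) =
        (x - x₀) ^ 3 - ((y - y₀) - g₁ * (x - x₀)) * ((y - y₀) - g₂ * (x - x₀)) := by
      rw [hloc]; ring
    rw [e2]
    refine lt_of_le_of_lt (v.map_sub _ _) (max_lt ?_ ?_)
    · rw [map_pow]
      exact pow_lt_one₀ zero_le hu (by norm_num)
    · rw [map_mul]
      calc v ((y - y₀) - g₁ * (x - x₀)) * v ((y - y₀) - g₂ * (x - x₀))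
          ≤ v ((y - y₀) - g₁ * (x - x₀)) * 1 := mul_le_mul' le_rfl hη
        _ = v ((y - y₀) - g₁ * (x - x₀)) := mul_one _
        _ < 1 := hξ
  have huD : v (xD - x₀) ≤ 1 := (v.map_sub _ _).trans (max_le hxD hx₀i)
  have hwD : v (yD - y₀) ≤ 1 := (v.map_sub _ _).trans (max_le hyD hy₀i)
  exact absurd (S58ND_sing v hy₀ hx₀ hF₀ eD huD hwD hsx hsy) (not_lt.2 key)

end Abs

section Concrete

open Fermat.Agent.S58_helper2_TORS Fermat.Agent.S58_helper5_E3GOOD Fermat.Agent.S58_helper9_PLUG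
  Fermat.Agent.S58_helper20_HENSQ

local notation "Qb" => AlgebraicClosure ℚ

/-- **[E3-KEY]**: the pointwise key of `S58PL_main`, closed. -/
theorem S58EK_key (W : WeierstrassCurve ℤ) : S58PL_Key W := by
  intro q hq hqΔ hc4 n hn A hA τ hτ x y h hP hx hy hFx hFy xD yD hD hsub hxD hyD
  obtain ⟨e₁, e₂, e₃, e₄, e₆⟩ := S58E3G_coeff W
  have hFx' : A.valuation (((W.a₁ : ℤ) : Qb) * y - 3 * x ^ 2 - 2 * ((W.a₂ : ℤ) : Qb) * x -
      ((W.a₄ : ℤ) : Qb)) < 1 := by
    rw [evalEval_polynomialX, e₁, e₂, e₄] at hFx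
    convert hFx using 2
    ring
  have hFy' : A.valuation (2 * y + ((W.a₁ : ℤ) : Qb) * x + ((W.a₃ : ℤ) : Qb)) < 1 := by
    rw [evalEval_polynomialY, e₁, e₃] at hFy
    exact hFy
  obtain ⟨x₀, y₀, g₁, g₂, hx₀, hy₀, hg₁, hg₂, hx₀v, hy₀v, hFx₀, hFy₀, hsum, hprod, hdiff, hfix⟩ :=
    S58HQ_crit W A hq hA hc4 x y ((A.valuation_le_one_iff x).1 hx)
      ((A.valuation_le_one_iff y).1 hy) hFx' hFy'
  obtain ⟨tx, ty, tg₁, tg₂⟩ := hfix τ hτ
  obtain ⟨hpx, hpy⟩ := S58PL_partial_int W A hxD hyD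
  have halg : Algebra.IsAlgebraic ℚ Qb := AlgebraicClosure.isAlgebraic ℚ
  have hval : ∀ z : Qb, A.valuation (τ z) = A.valuation z :=
    fun z => Fermat.Agent.S13_helper5_ATPa.inertia_val_eq A τ hτ z
  rw [Point.map_some] at hsub
  have hu : A.valuation (x - x₀) < 1 := by
    rw [← Valuation.map_neg, neg_sub]; exact hx₀v
  have hw : A.valuation (y - y₀) < 1 := by
    rw [← Valuation.map_neg, neg_sub]; exact hy₀v
  refine S58EK_abs A.valuation (((W.map (Int.castRingHom ℚ)).toAffine)⁄Qb) x₀ y₀ g₁ g₂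
    (by rw [e₁, e₃]; exact hFy₀) (by rw [e₁, e₂, e₄]; linear_combination hFx₀)
    (by rw [e₁]; exact hsum) (by rw [e₂]; exact hprod) hdiff
    ((A.valuation_le_one_iff _).2 hg₁) ((A.valuation_le_one_iff _).2 hg₂)
    ((A.valuation_le_one_iff _).2 hx₀) ((A.valuation_le_one_iff _).2 hy₀)
    h _ hu hw ?_ ?_ hD hsub hxD hyD hpx hpy
  · have : (τ.toAlgHom y - y₀) - g₁ * (τ.toAlgHom x - x₀) = τ ((y - y₀) - g₁ * (x - x₀)) := by
      simp only [map_sub, map_mul, tx, ty, tg₁]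
      rfl
    rw [this, hval]
  · have : (τ.toAlgHom y - y₀) - g₂ * (τ.toAlgHom x - x₀) = τ ((y - y₀) - g₂ * (x - x₀)) := by
      simp only [map_sub, map_mul, tx, ty, tg₂]
      rfl
    rw [this, hval]

/-- **(E3-RAW) closed**: at every prime `q` not dividing `c₄`, `(τ - 1) ^ 2 = 0` on `W[n]`,
`n` prime to `q`, for every `τ` in the inertia group. -/
theorem S58EK_main (W : WeierstrassCurve ℤ) : S58T_E3raw W :=
  S58PL_main W (S58EK_key W)

end Concrete

end Fermat.Agent.S58_helper20_E3KEY
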