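import Fermat.Agent.S58_helper18_XFER
import Fermat.Agent.S13_helper27_DPTorsion
import Fermat.Agent.S13_helper29_BIQ

/-!
# S58 (FIN): the Galois action on `W[n]` factors through a finite level

* `S58FIN_finite_of_prime`: an abelian group whose `p`-torsion is finite for every prime `p` has
  finite `n`-torsion for every `n > 0`.
* `S58FIN_finite_two`: the `2`-torsion of a Weierstrass curve over a field of characteristic
  different from `2` is finite.
* `S58FIN_finite`: `W[n]` is finite over a field of characteristic zero.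
* `S58FIN_main`: helper18's contract (FIN).
-/

set_option autoImplicit false

open Polynomial WeierstrassCurve WeierstrassCurve.Affine
open Fermat.Agent.S58_helper18_Contracts Fermat.Agent.S58_helper2_TORS
open Fermat.Agent.S58_helper18_XFER

namespace Fermat.Agent.S58_helper20_FIN

/-- The set of elements killed by `n`. -/
theorem S58FIN_setFinite_of_prime {G : Type*} [AddCommGroup G]
    (h : ∀ p : ℕ, p.Prime → {x : G | p • x = 0}.Finite) (n : ℕ) (hn : 0 < n) :
    {x : G | n • x = 0}.Finite := by
  induction n using Nat.strong_induction_on with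
  | _ n ih =>
    rcases Nat.eq_or_lt_of_le (Nat.succ_le_of_lt hn) with h1 | h1
    · have : {x : G | n • x = 0} = {0} := by
        ext x
        simp [← h1]
      rw [this]
      exact Set.finite_singleton 0
    · -- `n = p * m`
      have hn1 : n ≠ 1 := by omega
      set p := n.minFac with hp
      have hpp : p.Prime := Nat.minFac_prime hn1
      obtain ⟨m, hm⟩ : p ∣ n := Nat.minFac_dvd n
      have hm0 : 0 < m := by
        rcases Nat.eq_zero_or_pos m with h0 | h0
        · rw [h0, mul_zero] at hm; omega
        · exact h0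
      have hmn : m < n := by
        rw [hm]
        exact lt_mul_of_one_lt_left hm0 hpp.one_lt
      have hSm := ih m hmn hm0
      have hSp := h p hpp
      have hsub : {x : G | n • x = 0} ⊆
          ⋃ y ∈ {y : G | m • y = 0}, {x : G | p • x = y} := by
        intro x hx
        simp only [Set.mem_setOf_eq, Set.mem_iUnion, exists_prop]
        refine ⟨p • x, ?_, rfl⟩
        rw [← mul_smul, mul_comm, ← hm]
        exact hx
      refine Set.Finite.subset (Set.Finite.biUnion hSm fun y _ => ?_) hsub
      rcases Set.eq_empty_or_nonempty {x : G | p • x = y} with he | ⟨x₀, hx₀⟩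
      · rw [he]; exact Set.finite_empty
      · have hsub2 : {x : G | p • x = y} ⊆ (fun t => x₀ + t) '' {t : G | p • t = 0} := by
          intro x hx
          refine ⟨x - x₀, ?_, by abel⟩
          simp only [Set.mem_setOf_eq] at hx hx₀ ⊢
          rw [smul_sub, hx, hx₀, sub_self]
        exact Set.Finite.subset (hSp.image _) hsub2

section Curve

variable {K : Type*} [Field K] [DecidableEq K] (W : WeierstrassCurve.Affine K)

/-- The `2`-torsion is finite in characteristic different from `2`. -/
theorem S58FIN_finite_two (h2 : (2 : K) ≠ 0) : {P : W.Point | 2 • P = 0}.Finite := by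
  classical
  have hne : W.Ψ₂Sq ≠ 0 := by
    intro h0
    have h3 : W.Ψ₂Sq.coeff 3 = 4 := by
      rw [WeierstrassCurve.Ψ₂Sq]
      simp [coeff_X, coeff_C, coeff_X_pow]
    rw [h0, coeff_zero] at h3
    have h4 : (4 : K) = 2 * 2 := by norm_num
    rw [h4] at h3
    exact mul_ne_zero h2 h2 h3.symm
  have hsub : {P : W.Point | 2 • P = 0} ⊆
      ((insert 0 (W.Ψ₂Sq.roots.toFinset.biUnion
        (Fermat.Agent.S13_helper20_DPCARD.fibre W)) : Finset W.Point) : Set W.Point) := by
    intro P hP
    rcases P with _ | ⟨x, y, h⟩
    · exact Finset.mem_coe.mpr (Finset.mem_insert_self _ _)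
    · refine Finset.mem_coe.mpr (Finset.mem_insert_of_mem (Finset.mem_biUnion.mpr
        ⟨x, ?_, Fermat.Agent.S13_helper20_DPCARD.mem_fibre W h⟩))
      rw [Multiset.mem_toFinset, mem_roots hne]
      exact (Fermat.Agent.S13_helper29_BIQ.two_nsmul_eq_zero_iff' W h).mp hP
  exact Set.Finite.subset (Finset.finite_toSet _) hsub

/-- The `n`-torsion is finite in characteristic zero. -/
theorem S58FIN_finite [CharZero K] (n : ℕ) (hn : 0 < n) : {P : W.Point | n • P = 0}.Finite := by
  refine S58FIN_setFinite_of_prime (fun p hp => ?_) n hn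
  by_cases hp2 : p = 2
  · rw [hp2]
    exact S58FIN_finite_two W two_ne_zero
  · have hfin := Fermat.Agent.S13_helper27_DPTorsion.finite_torsion W hp hp2
      (by exact_mod_cast hp.ne_zero)
    have : {P : W.Point | p • P = 0} =
        ((Submodule.torsionBy ℤ W.Point (p : ℤ) : Submodule ℤ W.Point) : Set W.Point) := by
      ext P
      simp only [Set.mem_setOf_eq, SetLike.mem_coe, Submodule.mem_torsionBy_iff, natCast_zsmul]
    rw [this]
    exact Set.toFinite _

/-- the `x`-coordinate of a point (zero at the origin) -/
noncomputable def S58FIN_xc : W.Point → K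
  | .zero => 0
  | .some x _ _ => x

/-- the `y`-coordinate of a point (zero at the origin) -/
noncomputable def S58FIN_yc : W.Point → K
  | .zero => 0
  | .some _ y _ => y

end Curve

local notation "GQ" => (AlgebraicClosure ℚ ≃ₐ[ℚ] AlgebraicClosure ℚ)

/-- **(FIN)** the Galois action on `W[n]` factors through a finite level. -/
theorem S58FIN_main' (W : WeierstrassCurve ℤ) (n : ℕ) (hn : 0 < n) : S58X_FIN W n := by
  classical
  set W' := (((W.map (Int.castRingHom ℚ)).toAffine)⁄(AlgebraicClosure ℚ)) with hW'
  have hfin : {P : W'.Point | n • P = 0}.Finite := S58FIN_finite W' n hn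
  set T : Set (AlgebraicClosure ℚ) :=
    S58FIN_xc W' '' {P : W'.Point | n • P = 0} ∪ S58FIN_yc W' '' {P : W'.Point | n • P = 0}
    with hT
  have hTfin : T.Finite := (hfin.image _).union (hfin.image _)
  haveI : Finite T := hTfin.to_subtype
  haveI halg : Algebra.IsAlgebraic ℚ (AlgebraicClosure ℚ) := AlgebraicClosure.isAlgebraic ℚ
  refine ⟨IntermediateField.adjoin ℚ T,
    IntermediateField.finiteDimensional_adjoin
      (fun x _ => (Algebra.IsAlgebraic.isAlgebraic x).isIntegral), ?_⟩
  intro σ hσ
  apply LinearMap.ext
  intro P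
  show S58T_gal W n σ P = P
  rw [S58T_gal_apply]
  apply Subtype.ext
  show σ • (P : W'.Point) = (P : W'.Point)
  have hP : n • (P : W'.Point) = 0 := by
    have := P.2
    rw [Submodule.mem_torsionBy_iff, natCast_zsmul] at this
    exact this
  rw [WeierstrassCurve.Affine.Point.algEquiv_smul_def]
  rcases hPc : (P : W'.Point) with _ | ⟨x, y, h⟩
  · rfl
  · rw [WeierstrassCurve.Affine.Point.map_some]
    have hx : x ∈ T := Or.inl ⟨(P : W'.Point), hP, by rw [hPc]; rfl⟩
    have hy : y ∈ T := Or.inr ⟨(P : W'.Point), hP, by rw [hPc]; rfl⟩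
    have hσx : σ x = x := hσ x (IntermediateField.subset_adjoin ℚ T hx)
    have hσy : σ y = y := hσ y (IntermediateField.subset_adjoin ℚ T hy)
    rw [WeierstrassCurve.Affine.Point.some.injEq]
    exact ⟨hσx, hσy⟩

/-- **(FIN)** in the exact shape of helper18's XFER. -/
theorem S58FIN_main : ∀ (W : WeierstrassCurve ℤ) (n : ℕ), W.Δ ≠ 0 → 0 < n → S58X_FIN W n :=
  fun W n _ hn => S58FIN_main' W n hn

end Fermat.Agent.S58_helper20_FIN
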