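import Mathlib
import Fermat.Agent.S30_helper24_OEXT

/-!
# S58 (O), abstract core (helper23)

A subring `R` of `ℂ` that is a finite `ℤ`-module embeds, for every prime `lam`, into a complete
discrete valuation ring of characteristic zero with finite residue field in which `lam` is a
non-unit.

* `S58OC_core` : the statement;
* route: `F := ℚ(R)` is algebraic over `ℚ`, `IsAlgClosed.lift` embeds it into
  `AlgebraicClosure ℚ_[lam]`, the image of `R` lies in the finite extension `E` of `ℚ_[lam]`
  generated by the images of a finite spanning set, and the integral closure of `ℤ_[lam]` in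
  `E` (helper24's `S30OE_exists`) receives `R` by integrality.
-/

set_option autoImplicit false
set_option linter.unusedSectionVars false
set_option linter.unusedVariables false
set_option linter.style.haveILetI false
set_option synthInstance.maxHeartbeats 400000
set_option maxHeartbeats 1600000

open IsLocalRing

noncomputable section

namespace Fermat.Agent.S58_helper23_OCORE

/-- the residue field of `ℤ_[p]` is finite -/
theorem S58OC_finite_residue (p : ℕ) [Fact p.Prime] :
    Finite (IsLocalRing.ResidueField ℤ_[p]) :=
  Finite.of_equiv (ZMod p) (PadicInt.residueField (p := p)).symm.toEquiv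

/-- `p` is a non-unit of `ℤ_[p]` -/
theorem S58OC_padic_mem (p : ℕ) [Fact p.Prime] :
    (p : ℤ_[p]) ∈ IsLocalRing.maximalIdeal ℤ_[p] := by
  rw [PadicInt.maximalIdeal_eq_span_p]
  exact Ideal.mem_span_singleton_self _

/-- in a local algebra over `ℤ_[p]` with a local structure map, `p` is a non-unit -/
theorem S58OC_mem_of_isLocalHom (p : ℕ) [Fact p.Prime] (B : Type*) [CommRing B] [IsLocalRing B]
    [Algebra ℤ_[p] B] [IsLocalHom (algebraMap ℤ_[p] B)] :
    (p : B) ∈ IsLocalRing.maximalIdeal B := by
  rw [IsLocalRing.mem_maximalIdeal, mem_nonunits_iff]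
  intro hu
  have h1 : (p : B) = algebraMap ℤ_[p] B (p : ℤ_[p]) := by rw [map_natCast]
  rw [h1] at hu
  have h2 : IsUnit (p : ℤ_[p]) := isUnit_of_map_unit (algebraMap ℤ_[p] B) _ hu
  have h3 := S58OC_padic_mem p
  rw [IsLocalRing.mem_maximalIdeal, mem_nonunits_iff] at h3
  exact h3 h2

/-- **the abstract core of (O)**: a subring of `ℂ` that is a finite `ℤ`-module embeds into a
complete DVR of characteristic zero with finite residue field in which `lam` is a non-unit. -/
theorem S58OC_core (R : Subring ℂ) [Module.Finite ℤ R] (lam : ℕ) [Fact lam.Prime] :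
    ∃ (O' : Type) (_ : CommRing O') (_ : IsDomain O') (_ : IsDiscreteValuationRing O')
      (_ : IsAdicComplete (IsLocalRing.maximalIdeal O') O')
      (_ : Finite (IsLocalRing.ResidueField O')) (_ : CharZero O')
      (iota : R →+* O'),
      (lam : O') ∈ IsLocalRing.maximalIdeal O' ∧ Function.Injective iota := by
  classical
  have hint : ∀ x : R, IsIntegral ℤ (x : ℂ) := fun x =>
    (IsIntegral.of_finite ℤ x).map (R.subtype.toIntAlgHom)
  let F : IntermediateField ℚ ℂ := IntermediateField.adjoin ℚ (R : Set ℂ)
  haveI hFalg : Algebra.IsAlgebraic ℚ F :=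
    IntermediateField.isAlgebraic_adjoin (fun x hx => (hint ⟨x, hx⟩).tower_top)
  let φ : F →ₐ[ℚ] AlgebraicClosure ℚ_[lam] := IsAlgClosed.lift
  let incl : R →+* F :=
    RingHom.codRestrict R.subtype F (fun x => IntermediateField.subset_adjoin ℚ _ x.2)
  let g : R →+* AlgebraicClosure ℚ_[lam] := φ.toRingHom.comp incl
  have hg_inj : Function.Injective g :=
    φ.toRingHom.injective.comp
      (fun a b h => Subtype.ext (congrArg (fun t : F => (t : ℂ)) h))
  obtain ⟨s, hs⟩ := Module.finite_def.1 (inferInstance : Module.Finite ℤ R)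
  let T : Set (AlgebraicClosure ℚ_[lam]) := g '' (s : Set R)
  haveI : Finite T := (s.finite_toSet.image g).to_subtype
  let E : IntermediateField ℚ_[lam] (AlgebraicClosure ℚ_[lam]) :=
    IntermediateField.adjoin ℚ_[lam] T
  haveI : FiniteDimensional ℚ_[lam] E :=
    IntermediateField.finiteDimensional_adjoin (fun x _ => Algebra.IsIntegral.isIntegral x)
  have hgE : ∀ x : R, g x ∈ E := by
    intro x
    have hx : x ∈ Submodule.span ℤ (s : Set R) := by rw [hs]; trivial
    induction hx using Submodule.span_induction with
    | mem y hy => exact IntermediateField.subset_adjoin _ _ ⟨y, hy, rfl⟩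
    | zero => rw [map_zero]; exact E.zero_mem
    | add a b _ _ ha hb => rw [map_add]; exact E.add_mem ha hb
    | smul n a _ ha =>
      rw [zsmul_eq_mul, map_mul, map_intCast]
      exact E.mul_mem (intCast_mem E n) ha
  let ψ : R →+* E := RingHom.codRestrict g E hgE
  have hψ_inj : Function.Injective ψ := fun a b h =>
    hg_inj (congrArg (fun t : E => (t : AlgebraicClosure ℚ_[lam])) h)
  haveI := S58OC_finite_residue lam
  obtain ⟨O'', i1, i2, i3, i4, i5, i6, i7, i8, i9, i10, i11, i12, hinj, hfree, hchar⟩ :=
    Fermat.Agent.S30_helper24_OEXT.S30OE_exists ℤ_[lam] ℚ_[lam] E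
  have hψint : ∀ x : R, IsIntegral ℤ_[lam] (ψ x) := fun x =>
    ((IsIntegral.of_finite ℤ x).map ψ.toIntAlgHom).tower_top
  have hrange : ∀ x : R, ψ x ∈ (algebraMap O'' E).range := fun x =>
    (hchar (ψ x)).1 (hψint x)
  have hinjE : Function.Injective (algebraMap O'' E) := IsFractionRing.injective O'' E
  let e : O'' ≃+* (algebraMap O'' E).range :=
    RingEquiv.ofBijective (algebraMap O'' E).rangeRestrict
      ⟨fun a b h => hinjE (congrArg Subtype.val h), (algebraMap O'' E).rangeRestrict_surjective⟩
  refine ⟨O'', i1, i2, i3, i4, i5, i6,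
    e.symm.toRingHom.comp (RingHom.codRestrict ψ (algebraMap O'' E).range hrange), ?_, ?_⟩
  · exact S58OC_mem_of_isLocalHom lam O''
  · exact e.symm.injective.comp
      (fun a b h => hψ_inj (congrArg Subtype.val h))

end Fermat.Agent.S58_helper23_OCORE
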