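import Mathlib
import Fermat.Agent.S22
import Fermat.Agent.S58_helper23_OCORE

/-!
# S58 (O), strong form (helper23)

For every character `chig` of the Hecke algebra (weight `2`, level `M`, away from `S`) and every
prime `lam` there is a complete discrete valuation ring `O'` of characteristic zero with finite
residue field, in which `lam` is a non-unit, and an INJECTIVE ring homomorphism
`iota : chig.range →+* O'`.

* `S58OI_finite_range` : `chig.range` is a finite `ℤ`-module (landed S22);
* `S58OI_isIntegral`   : every value of `chig` is an algebraic integer;
* `S58OI_main`         : the statement.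
-/

set_option autoImplicit false
set_option linter.unusedSectionVars false
set_option linter.unusedVariables false
set_option linter.style.haveILetI false
set_option synthInstance.maxHeartbeats 400000
set_option maxHeartbeats 1600000

noncomputable section

namespace Fermat.Agent.S58_helper23_O

open Fermat.Agent.S58_helper23_OCORE

/-- the range of a character of the Hecke algebra is a finite `ℤ`-module -/
theorem S58OI_finite_range {M : ℕ} [NeZero M] (k : ℤ) (S : Set ℕ)
    (chig : CuspForm.heckeAlgebra M k S →+* ℂ) : Module.Finite ℤ chig.range := by
  haveI : Module.Finite ℤ (CuspForm.heckeAlgebra M k S) := Fermat.Agent.S22.result M k S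
  exact Module.Finite.of_surjective (chig.rangeRestrict.toAddMonoidHom.toIntLinearMap)
    chig.rangeRestrict_surjective

/-- every value of a character of the Hecke algebra is an algebraic integer -/
theorem S58OI_isIntegral {M : ℕ} [NeZero M] (k : ℤ) (S : Set ℕ)
    (chig : CuspForm.heckeAlgebra M k S →+* ℂ) (t : CuspForm.heckeAlgebra M k S) :
    IsIntegral ℤ (chig t) := by
  haveI : Module.Finite ℤ (CuspForm.heckeAlgebra M k S) := Fermat.Agent.S22.result M k S
  exact (IsIntegral.of_finite ℤ t).map chig.toIntAlgHom

/-- **(O), strong form**: a complete DVR with an injective `iota` on the Hecke order. -/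
theorem S58OI_main {M : ℕ} [NeZero M] (S : Finset ℕ)
    (chig : CuspForm.heckeAlgebra M 2 (↑S : Set ℕ) →+* ℂ) (lam : ℕ) [Fact lam.Prime] :
    ∃ (O' : Type) (_ : CommRing O') (_ : IsDomain O') (_ : IsDiscreteValuationRing O')
      (_ : IsAdicComplete (IsLocalRing.maximalIdeal O') O')
      (_ : Finite (IsLocalRing.ResidueField O')) (_ : CharZero O')
      (iota : chig.range →+* O'),
      (lam : O') ∈ IsLocalRing.maximalIdeal O' ∧ Function.Injective iota := by
  haveI := S58OI_finite_range 2 (↑S : Set ℕ) chig
  exact S58OC_core chig.range lam

/-- the same for an arbitrary weight and an arbitrary set of primes -/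
theorem S58OI_main' {M : ℕ} [NeZero M] (k : ℤ) (S : Set ℕ)
    (chig : CuspForm.heckeAlgebra M k S →+* ℂ) (lam : ℕ) [Fact lam.Prime] :
    ∃ (O' : Type) (_ : CommRing O') (_ : IsDomain O') (_ : IsDiscreteValuationRing O')
      (_ : IsAdicComplete (IsLocalRing.maximalIdeal O') O')
      (_ : Finite (IsLocalRing.ResidueField O')) (_ : CharZero O')
      (iota : chig.range →+* O'),
      (lam : O') ∈ IsLocalRing.maximalIdeal O' ∧ Function.Injective iota := by
  haveI := S58OI_finite_range k S chig
  exact S58OC_core chig.range lam

end Fermat.Agent.S58_helper23_O
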