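import Mathlib

/-!
# S58 (E1a) [PF-ELL] (helper23): the function field of a Weierstrass curve over `k(x)`

For a Weierstrass curve `W` over a field `k` with `W.Δ ≠ 0`, `K := W.toAffine.FunctionField`,
`x :=` the image of `X`, `y :=` the class of `Y`:

* `S58FE_transcendental` : `x` is transcendental over `k`;
* `S58FE_finite`         : `K` is finite over `k(x)`;
* `S58FE_separable`      : `K` is separable over `k(x)` (any characteristic);
* `S58FE_normal`         : `K` is normal over `k(x)`.
-/

set_option autoImplicit false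
set_option linter.unusedSectionVars false
set_option linter.unusedVariables false
set_option linter.style.haveILetI false
set_option synthInstance.maxHeartbeats 400000
set_option maxHeartbeats 1600000

open Polynomial IntermediateField
open scoped Polynomial.Bivariate

noncomputable section

namespace Fermat.Agent.S58_helper23_PFELL

variable {k : Type*} [Field k] (W : WeierstrassCurve k)

/-- the coordinate function `x` of the function field -/
abbrev S58FE_x : W.toAffine.FunctionField :=
  algebraMap (Polynomial k) W.toAffine.FunctionField Polynomial.X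

/-- the coordinate function `y` of the function field -/
abbrev S58FE_y : W.toAffine.FunctionField :=
  algebraMap W.toAffine.CoordinateRing W.toAffine.FunctionField
    (WeierstrassCurve.Affine.CoordinateRing.mk W.toAffine Polynomial.X)

/-- `k[X] → K` is injective -/
theorem S58FE_algebraMap_injective :
    Function.Injective (algebraMap (Polynomial k) W.toAffine.FunctionField) := by
  rw [IsScalarTower.algebraMap_eq (Polynomial k) W.toAffine.CoordinateRing
    W.toAffine.FunctionField]
  exact (IsFractionRing.injective W.toAffine.CoordinateRing W.toAffine.FunctionField).comp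
    (FaithfulSMul.algebraMap_injective (Polynomial k) W.toAffine.CoordinateRing)

/-- **`x` is transcendental over `k`.** -/
theorem S58FE_transcendental : Transcendental k (S58FE_x W) :=
  (transcendental_algebraMap_iff (S58FE_algebraMap_injective W)).2
    (Polynomial.transcendental_X k)

/-- the image of a polynomial in `x` -/
theorem S58FE_algebraMap_eq_aeval (p : Polynomial k) :
    algebraMap (Polynomial k) W.toAffine.FunctionField p = Polynomial.aeval (S58FE_x W) p := by
  have h := Polynomial.aeval_algHom_apply
    (IsScalarTower.toAlgHom k (Polynomial k) W.toAffine.FunctionField) (Polynomial.X) p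
  rw [Polynomial.aeval_X_left_apply] at h
  exact h.symm

/-- the image of a polynomial in `x` lies in `k(x)` -/
theorem S58FE_algebraMap_mem (p : Polynomial k) :
    algebraMap (Polynomial k) W.toAffine.FunctionField p ∈
      IntermediateField.adjoin k {S58FE_x W} := by
  rw [S58FE_algebraMap_eq_aeval]
  exact IntermediateField.algebra_adjoin_le_adjoin k _
    (Polynomial.aeval_mem_adjoin_singleton k _)

/-- the Weierstrass equation in the function field -/
theorem S58FE_equation :
    S58FE_y W ^ 2 + (algebraMap k _ W.a₁ * S58FE_x W + algebraMap k _ W.a₃) * S58FE_y W =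
      S58FE_x W ^ 3 + algebraMap k _ W.a₂ * S58FE_x W ^ 2 + algebraMap k _ W.a₄ * S58FE_x W
        + algebraMap k _ W.a₆ := by
  have h0 : WeierstrassCurve.Affine.CoordinateRing.mk W.toAffine
      (Y ^ 2 + C (C W.a₁ * X + C W.a₃) * Y
        - C (X ^ 3 + C W.a₂ * X ^ 2 + C W.a₄ * X + C W.a₆)) = 0 :=
    AdjoinRoot.mk_self
  have hx : S58FE_x W = algebraMap W.toAffine.CoordinateRing W.toAffine.FunctionField
      (WeierstrassCurve.Affine.CoordinateRing.mk W.toAffine (Polynomial.C Polynomial.X)) := by
    rw [S58FE_x, IsScalarTower.algebraMap_apply (Polynomial k) W.toAffine.CoordinateRing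
      W.toAffine.FunctionField]
    rfl
  have hc : ∀ a : k, algebraMap k W.toAffine.FunctionField a =
      algebraMap W.toAffine.CoordinateRing W.toAffine.FunctionField
        (WeierstrassCurve.Affine.CoordinateRing.mk W.toAffine
          (Polynomial.C (Polynomial.C a))) := by
    intro a
    rw [IsScalarTower.algebraMap_apply k W.toAffine.CoordinateRing W.toAffine.FunctionField]
    rfl
  have h1 := congrArg (algebraMap W.toAffine.CoordinateRing W.toAffine.FunctionField) h0
  simp only [map_sub, map_add, map_mul, map_pow, map_zero] at h1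
  rw [hx, hc, hc, hc, hc, hc]
  linear_combination h1

/-! ### The quadratic polynomial of `y` over `k(x)` -/

/-- the generator of `k(x)` -/
abbrev S58FE_g : IntermediateField.adjoin k {S58FE_x W} :=
  IntermediateField.AdjoinSimple.gen k (S58FE_x W)

/-- the coefficient `a₁ x + a₃` in `k(x)` -/
def S58FE_A : IntermediateField.adjoin k {S58FE_x W} :=
  algebraMap k _ W.a₁ * S58FE_g W + algebraMap k _ W.a₃

/-- the coefficient `x³ + a₂ x² + a₄ x + a₆` in `k(x)` -/
def S58FE_B : IntermediateField.adjoin k {S58FE_x W} :=
  S58FE_g W ^ 3 + algebraMap k _ W.a₂ * S58FE_g W ^ 2 + algebraMap k _ W.a₄ * S58FE_g W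
    + algebraMap k _ W.a₆

/-- the Weierstrass polynomial `T² + (a₁ x + a₃) T - (x³ + a₂ x² + a₄ x + a₆)` over `k(x)` -/
def S58FE_P : Polynomial (IntermediateField.adjoin k {S58FE_x W}) :=
  Polynomial.X ^ 2 + (Polynomial.C (S58FE_A W) * Polynomial.X - Polynomial.C (S58FE_B W))

theorem S58FE_coe_g : ((S58FE_g W : IntermediateField.adjoin k {S58FE_x W}) :
    W.toAffine.FunctionField) = S58FE_x W := rfl

theorem S58FE_coe_A : ((S58FE_A W : IntermediateField.adjoin k {S58FE_x W}) :
    W.toAffine.FunctionField) = algebraMap k _ W.a₁ * S58FE_x W + algebraMap k _ W.a₃ := rfl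

theorem S58FE_coe_B : ((S58FE_B W : IntermediateField.adjoin k {S58FE_x W}) :
    W.toAffine.FunctionField) = S58FE_x W ^ 3 + algebraMap k _ W.a₂ * S58FE_x W ^ 2
      + algebraMap k _ W.a₄ * S58FE_x W + algebraMap k _ W.a₆ := rfl

theorem S58FE_P_monic : (S58FE_P W).Monic := by
  unfold S58FE_P
  apply Polynomial.monic_X_pow_add
  refine lt_of_le_of_lt (Polynomial.degree_sub_le _ _) ?_
  refine max_lt (lt_of_le_of_lt (Polynomial.degree_C_mul_X_le _) (by norm_num))
    (lt_of_le_of_lt Polynomial.degree_C_le (by norm_num))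

theorem S58FE_P_aeval : Polynomial.aeval (S58FE_y W) (S58FE_P W) = 0 := by
  have h := S58FE_equation W
  unfold S58FE_P
  simp only [map_add, map_sub, map_mul, map_pow, Polynomial.aeval_X, Polynomial.aeval_C]
  have hA : algebraMap (IntermediateField.adjoin k {S58FE_x W}) W.toAffine.FunctionField
      (S58FE_A W) = algebraMap k _ W.a₁ * S58FE_x W + algebraMap k _ W.a₃ := S58FE_coe_A W
  have hB : algebraMap (IntermediateField.adjoin k {S58FE_x W}) W.toAffine.FunctionField
      (S58FE_B W) = S58FE_x W ^ 3 + algebraMap k _ W.a₂ * S58FE_x W ^ 2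
      + algebraMap k _ W.a₄ * S58FE_x W + algebraMap k _ W.a₆ := S58FE_coe_B W
  rw [hA, hB]
  linear_combination h

/-- `y` is integral over `k(x)` -/
theorem S58FE_y_isIntegral : IsIntegral (IntermediateField.adjoin k {S58FE_x W}) (S58FE_y W) :=
  ⟨S58FE_P W, S58FE_P_monic W, S58FE_P_aeval W⟩

/-- the image of the coordinate ring lies in `k(x)(y)` -/
theorem S58FE_coord_mem (c : W.toAffine.CoordinateRing) :
    algebraMap W.toAffine.CoordinateRing W.toAffine.FunctionField c ∈
      IntermediateField.adjoin (IntermediateField.adjoin k {S58FE_x W}) {S58FE_y W} := by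
  obtain ⟨p, q, rfl⟩ := WeierstrassCurve.Affine.CoordinateRing.exists_smul_basis_eq c
  have hp : ∀ r : Polynomial k,
      algebraMap W.toAffine.CoordinateRing W.toAffine.FunctionField
        (algebraMap (Polynomial k) W.toAffine.CoordinateRing r) ∈
      IntermediateField.adjoin (IntermediateField.adjoin k {S58FE_x W}) {S58FE_y W} := by
    intro r
    rw [← IsScalarTower.algebraMap_apply (Polynomial k) W.toAffine.CoordinateRing
      W.toAffine.FunctionField]
    exact (IntermediateField.adjoin (IntermediateField.adjoin k {S58FE_x W})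
      {S58FE_y W}).algebraMap_mem ⟨_, S58FE_algebraMap_mem W r⟩
  rw [Algebra.smul_def, Algebra.smul_def, mul_one, map_add, map_mul]
  exact add_mem (hp p) (mul_mem (hp q) (IntermediateField.mem_adjoin_simple_self _ _))

/-- `K = k(x)(y)` -/
theorem S58FE_adjoin_eq_top :
    IntermediateField.adjoin (IntermediateField.adjoin k {S58FE_x W}) {S58FE_y W} = ⊤ := by
  rw [eq_top_iff]
  intro z _
  obtain ⟨a, b, hb, rfl⟩ := IsFractionRing.div_surjective (A := W.toAffine.CoordinateRing) z
  exact div_mem (S58FE_coord_mem W a) (S58FE_coord_mem W b)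

/-- **`K` is finite over `k(x)`.** -/
theorem S58FE_finite :
    FiniteDimensional (IntermediateField.adjoin k {S58FE_x W}) W.toAffine.FunctionField := by
  haveI h1 : FiniteDimensional (IntermediateField.adjoin k {S58FE_x W})
      (IntermediateField.adjoin (IntermediateField.adjoin k {S58FE_x W}) {S58FE_y W}) :=
    IntermediateField.adjoin.finiteDimensional (S58FE_y_isIntegral W)
  rw [S58FE_adjoin_eq_top] at h1
  exact (IntermediateField.topEquiv (F := IntermediateField.adjoin k {S58FE_x W})
    (E := W.toAffine.FunctionField)).toLinearEquiv.finiteDimensional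

/-! ### Separability -/

/-- the discriminant `4 x³ + b₂ x² + 2 b₄ x + b₆` does not vanish when `Δ ≠ 0` -/
theorem S58FE_twoTorsion_ne_zero (hΔ : W.Δ ≠ 0) : W.twoTorsionPolynomial.toPoly ≠ 0 := by
  intro h
  have h0 : W.twoTorsionPolynomial.toPoly = (0 : Cubic k).toPoly := by
    rw [h]; exact ((Cubic.toPoly_eq_zero_iff (0 : Cubic k)).2 rfl).symm
  have ha : (4 : k) = 0 := Cubic.a_of_eq h0
  have hb : W.b₂ = 0 := Cubic.b_of_eq h0
  have hd : W.b₆ = 0 := Cubic.d_of_eq h0
  apply hΔ
  rw [WeierstrassCurve.Δ]
  linear_combination (-W.b₂ * W.b₈ + 9 * W.b₄ * W.b₆) * hb + (-27 * W.b₆) * hd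
    + (-2 * W.b₄ ^ 3) * ha

/-- the discriminant of `P` in `k(x)` -/
def S58FE_d : IntermediateField.adjoin k {S58FE_x W} :=
  S58FE_A W ^ 2 + 4 * S58FE_B W

theorem S58FE_coe_d : ((S58FE_d W : IntermediateField.adjoin k {S58FE_x W}) :
    W.toAffine.FunctionField) =
      algebraMap (Polynomial k) W.toAffine.FunctionField W.twoTorsionPolynomial.toPoly := by
  rw [S58FE_algebraMap_eq_aeval]
  have h1 : ((S58FE_d W : IntermediateField.adjoin k {S58FE_x W}) :
      W.toAffine.FunctionField) =
      (algebraMap k _ W.a₁ * S58FE_x W + algebraMap k _ W.a₃) ^ 2 +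
        4 * (S58FE_x W ^ 3 + algebraMap k _ W.a₂ * S58FE_x W ^ 2
          + algebraMap k _ W.a₄ * S58FE_x W + algebraMap k _ W.a₆) := rfl
  rw [h1, WeierstrassCurve.twoTorsionPolynomial, Cubic.toPoly]
  simp only [map_add, map_mul, map_pow, Polynomial.aeval_X, Polynomial.aeval_C,
    WeierstrassCurve.b₂, WeierstrassCurve.b₄, WeierstrassCurve.b₆, map_ofNat]
  ring

theorem S58FE_d_ne_zero (hΔ : W.Δ ≠ 0) : S58FE_d W ≠ 0 := by
  intro h
  have h1 : ((S58FE_d W : IntermediateField.adjoin k {S58FE_x W}) :
      W.toAffine.FunctionField) = 0 := by rw [h]; rfl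
  rw [S58FE_coe_d] at h1
  exact S58FE_twoTorsion_ne_zero W hΔ
    (S58FE_algebraMap_injective W (h1.trans (map_zero _).symm))

/-- `P` is separable -/
theorem S58FE_P_separable (hΔ : W.Δ ≠ 0) : (S58FE_P W).Separable := by
  rw [Polynomial.separable_def]
  have hder : Polynomial.derivative (S58FE_P W) =
      2 * Polynomial.X + Polynomial.C (S58FE_A W) := by
    unfold S58FE_P
    simp only [Polynomial.derivative_add, Polynomial.derivative_sub,
      Polynomial.derivative_X_pow, Polynomial.derivative_mul, Polynomial.derivative_C,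
      Polynomial.derivative_X]
    norm_num
    exact Polynomial.C_ofNat 2
  rw [hder]
  have hd := S58FE_d_ne_zero W hΔ
  refine ⟨Polynomial.C (-4 * (S58FE_d W)⁻¹),
    Polynomial.C ((S58FE_d W)⁻¹) * (2 * Polynomial.X + Polynomial.C (S58FE_A W)), ?_⟩
  have hkey : (2 * Polynomial.X + Polynomial.C (S58FE_A W)) ^ 2 - 4 * S58FE_P W =
      Polynomial.C (S58FE_d W) := by
    unfold S58FE_P S58FE_d
    simp only [map_add, map_mul, map_pow, map_ofNat]
    ring
  have h1 : Polynomial.C ((S58FE_d W)⁻¹) * Polynomial.C (S58FE_d W) = 1 := by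
    rw [← Polynomial.C_mul, inv_mul_cancel₀ hd, Polynomial.C_1]
  calc Polynomial.C (-4 * (S58FE_d W)⁻¹) * S58FE_P W +
        Polynomial.C ((S58FE_d W)⁻¹) * (2 * Polynomial.X + Polynomial.C (S58FE_A W)) *
          (2 * Polynomial.X + Polynomial.C (S58FE_A W))
      = Polynomial.C ((S58FE_d W)⁻¹) *
          ((2 * Polynomial.X + Polynomial.C (S58FE_A W)) ^ 2 - 4 * S58FE_P W) := by
        simp only [map_mul, map_neg, map_ofNat]
        ring
    _ = 1 := by rw [hkey, h1]

/-- `y` is separable over `k(x)` -/
theorem S58FE_y_isSeparable (hΔ : W.Δ ≠ 0) :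
    IsSeparable (IntermediateField.adjoin k {S58FE_x W}) (S58FE_y W) :=
  (S58FE_P_separable W hΔ).of_dvd (minpoly.dvd _ _ (S58FE_P_aeval W))

/-- **`K` is separable over `k(x)`.** -/
theorem S58FE_separable (hΔ : W.Δ ≠ 0) :
    Algebra.IsSeparable (IntermediateField.adjoin k {S58FE_x W}) W.toAffine.FunctionField := by
  haveI h1 : Algebra.IsSeparable (IntermediateField.adjoin k {S58FE_x W})
      (IntermediateField.adjoin (IntermediateField.adjoin k {S58FE_x W}) {S58FE_y W}) :=
    (IntermediateField.isSeparable_adjoin_simple_iff_isSeparable _ _).2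
      (S58FE_y_isSeparable W hΔ)
  rw [S58FE_adjoin_eq_top] at h1
  exact AlgEquiv.Algebra.isSeparable
    (IntermediateField.topEquiv (F := IntermediateField.adjoin k {S58FE_x W})
      (E := W.toAffine.FunctionField))

/-! ### Normality -/

/-- `P` splits in `K`: `P = (T - y) (T - (-y - (a₁ x + a₃)))` -/
theorem S58FE_P_map :
    (S58FE_P W).map (algebraMap (IntermediateField.adjoin k {S58FE_x W})
      W.toAffine.FunctionField) =
      (Polynomial.X - Polynomial.C (S58FE_y W)) *
        (Polynomial.X - Polynomial.C (-(S58FE_y W) -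
          (algebraMap k _ W.a₁ * S58FE_x W + algebraMap k _ W.a₃))) := by
  have h := S58FE_equation W
  have hA : algebraMap (IntermediateField.adjoin k {S58FE_x W}) W.toAffine.FunctionField
      (S58FE_A W) = algebraMap k _ W.a₁ * S58FE_x W + algebraMap k _ W.a₃ := S58FE_coe_A W
  have hB : algebraMap (IntermediateField.adjoin k {S58FE_x W}) W.toAffine.FunctionField
      (S58FE_B W) = S58FE_y W ^ 2 +
        (algebraMap k _ W.a₁ * S58FE_x W + algebraMap k _ W.a₃) * S58FE_y W := by
    rw [h]; exact S58FE_coe_B W
  unfold S58FE_P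
  simp only [Polynomial.map_add, Polynomial.map_sub, Polynomial.map_mul, Polynomial.map_pow,
    Polynomial.map_X, Polynomial.map_C]
  rw [hA, hB]
  simp only [map_add, map_sub, map_mul, map_pow, map_neg]
  ring

theorem S58FE_P_splits :
    ((S58FE_P W).map (algebraMap (IntermediateField.adjoin k {S58FE_x W})
      W.toAffine.FunctionField)).Splits := by
  rw [S58FE_P_map]
  exact (Polynomial.Splits.X_sub_C _).mul (Polynomial.Splits.X_sub_C _)

theorem S58FE_algebra_adjoin_eq_top :
    Algebra.adjoin (IntermediateField.adjoin k {S58FE_x W})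
      ({S58FE_y W} : Set W.toAffine.FunctionField) = ⊤ := by
  rw [← IntermediateField.adjoin_simple_toSubalgebra_of_isAlgebraic (S58FE_y_isIntegral W).isAlgebraic,
    S58FE_adjoin_eq_top, IntermediateField.top_toSubalgebra]

/-- `K` is a splitting field of `P` over `k(x)` -/
theorem S58FE_isSplittingField :
    Polynomial.IsSplittingField (IntermediateField.adjoin k {S58FE_x W})
      W.toAffine.FunctionField (S58FE_P W) := by
  refine ⟨S58FE_P_splits W, ?_⟩
  rw [eq_top_iff, ← S58FE_algebra_adjoin_eq_top W]
  apply Algebra.adjoin_mono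
  rw [Set.singleton_subset_iff]
  exact Polynomial.mem_rootSet.2 ⟨(S58FE_P_monic W).ne_zero, S58FE_P_aeval W⟩

/-- **`K` is normal over `k(x)`.** -/
theorem S58FE_normal :
    Normal (IntermediateField.adjoin k {S58FE_x W}) W.toAffine.FunctionField := by
  haveI := S58FE_isSplittingField W
  exact Normal.of_isSplittingField (S58FE_P W)

/-- the second root of `P` -/
theorem S58FE_P_aeval_neg :
    Polynomial.aeval (-(S58FE_y W) - (algebraMap k _ W.a₁ * S58FE_x W + algebraMap k _ W.a₃))
      (S58FE_P W) = 0 := by
  rw [Polynomial.aeval_def, Polynomial.eval₂_eq_eval_map, S58FE_P_map]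
  simp

/-- the four statements together, in the typed shape of [PF-ELL] -/
theorem S58FE_main (hΔ : W.Δ ≠ 0) :
    Transcendental k (algebraMap (Polynomial k) W.toAffine.FunctionField Polynomial.X) ∧
    FiniteDimensional (IntermediateField.adjoin k
      {algebraMap (Polynomial k) W.toAffine.FunctionField Polynomial.X})
      W.toAffine.FunctionField ∧
    Algebra.IsSeparable (IntermediateField.adjoin k
      {algebraMap (Polynomial k) W.toAffine.FunctionField Polynomial.X})
      W.toAffine.FunctionField ∧
    Normal (IntermediateField.adjoin k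
      {algebraMap (Polynomial k) W.toAffine.FunctionField Polynomial.X})
      W.toAffine.FunctionField :=
  ⟨S58FE_transcendental W, S58FE_finite W, S58FE_separable W hΔ, S58FE_normal W⟩

end Fermat.Agent.S58_helper23_PFELL
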