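import Mathlib

namespace Fermat.Agent.S58_helper24_E3NX

open WeierstrassCurve WeierstrassCurve.Affine

section Algebra

variable {K : Type*} [Field K]

/-- identity (I): at a `2`-torsion point `Δ = F_x ^ 2 * (c₄ + 16 * F_x)`. -/
theorem S58NX_disc (W : WeierstrassCurve.Affine K) (e t : K)
    (hF : W.Equation e t) (hFy : 2 * t + W.a₁ * e + W.a₃ = 0) :
    W.Δ = (W.polynomialX.evalEval e t) ^ 2 * (W.c₄ + 16 * W.polynomialX.evalEval e t) := by
  rw [equation_iff] at hF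
  rw [evalEval_polynomialX]
  have ha₃ : W.a₃ = -2 * t - W.a₁ * e := by linear_combination hFy
  have ha₆ : W.a₆ = t ^ 2 + W.a₁ * e * t + W.a₃ * t - e ^ 3 - W.a₂ * e ^ 2 - W.a₄ * e := by
    linear_combination -hF
  simp only [WeierstrassCurve.Δ, WeierstrassCurve.c₄, WeierstrassCurve.b₂, WeierstrassCurve.b₄,
    WeierstrassCurve.b₆, WeierstrassCurve.b₈]
  rw [ha₆, ha₃]
  ring

/-- a root of the `2`-division polynomial gives a `2`-torsion point. -/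
theorem S58NX_point (W : WeierstrassCurve.Affine K) (h20 : (2 : K) ≠ 0) (e : K)
    (hg : 4 * e ^ 3 + W.b₂ * e ^ 2 + 2 * W.b₄ * e + W.b₆ = 0) :
    W.Equation e (-(W.a₁ * e + W.a₃) / 2) ∧ 2 * (-(W.a₁ * e + W.a₃) / 2) + W.a₁ * e + W.a₃ = 0 := by
  have h2 : 2 * (-(W.a₁ * e + W.a₃) / 2) + W.a₁ * e + W.a₃ = 0 := by
    field_simp
    ring
  refine ⟨?_, h2⟩
  rw [equation_iff]
  have h4 : (4 : K) ≠ 0 := by
    have : (4 : K) = 2 * 2 := by norm_num
    rw [this]; exact mul_ne_zero h20 h20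
  apply mul_left_cancel₀ h4
  simp only [WeierstrassCurve.b₂, WeierstrassCurve.b₄, WeierstrassCurve.b₆] at hg
  generalize (-(W.a₁ * e + W.a₃) / 2) = t at h2 ⊢
  linear_combination (2 * t + W.a₁ * e + W.a₃) * h2 - hg

/-- `4 F_x = - g'` at a `2`-torsion point. -/
theorem S58NX_Fx (W : WeierstrassCurve.Affine K) (e t : K)
    (hFy : 2 * t + W.a₁ * e + W.a₃ = 0) :
    4 * W.polynomialX.evalEval e t = -(12 * e ^ 2 + 2 * W.b₂ * e + 2 * W.b₄) := by
  rw [evalEval_polynomialX]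
  simp only [WeierstrassCurve.b₂, WeierstrassCurve.b₄]
  linear_combination (2 * W.a₁) * hFy

/-- the `2`-division polynomial has a root. -/
theorem S58NX_root [IsAlgClosed K] (W : WeierstrassCurve.Affine K) (h20 : (2 : K) ≠ 0) :
    ∃ e : K, 4 * e ^ 3 + W.b₂ * e ^ 2 + 2 * W.b₄ * e + W.b₆ = 0 := by
  have h4 : (4 : K) ≠ 0 := by
    have : (4 : K) = 2 * 2 := by norm_num
    rw [this]; exact mul_ne_zero h20 h20
  have hdeg : (Polynomial.C (4 : K) * Polynomial.X ^ 3 + Polynomial.C W.b₂ * Polynomial.X ^ 2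
      + Polynomial.C (2 * W.b₄) * Polynomial.X + Polynomial.C W.b₆).degree = 3 :=
    Polynomial.degree_cubic h4
  have hne : (Polynomial.C (4 : K) * Polynomial.X ^ 3 + Polynomial.C W.b₂ * Polynomial.X ^ 2
      + Polynomial.C (2 * W.b₄) * Polynomial.X + Polynomial.C W.b₆).degree ≠ 0 := by
    rw [hdeg]; norm_num
  obtain ⟨e, he⟩ := IsAlgClosed.exists_root _ hne
  refine ⟨e, ?_⟩
  simpa [Polynomial.IsRoot] using he

end Algebra

section Order

variable {Γ₀ : Type*} [LinearOrderedCommGroupWithZero Γ₀]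

theorem S58NX_mul_le_one {a b : Γ₀} (ha : a ≤ 1) (hb : b ≤ 1) : a * b ≤ 1 := by
  calc a * b ≤ 1 * 1 := mul_le_mul' ha hb
    _ = 1 := mul_one 1

theorem S58NX_one_le_mul {a b : Γ₀} (ha : 1 ≤ a) (hb : 1 ≤ b) : 1 ≤ a * b := by
  calc 1 = 1 * 1 := (mul_one 1).symm
    _ ≤ a * b := mul_le_mul' ha hb

theorem S58NX_mul_lt_one {a b : Γ₀} (ha : a < 1) (hb : b ≤ 1) : a * b < 1 :=
  lt_of_le_of_lt (by
    calc a * b ≤ a * 1 := mul_le_mul' le_rfl hb
      _ = a := mul_one a) ha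

theorem S58NX_one_lt_mul {a b : Γ₀} (ha : 1 < a) (hb : 1 ≤ b) : 1 < a * b :=
  lt_of_lt_of_le ha (by
    calc a = a * 1 := (mul_one a).symm
      _ ≤ a * b := mul_le_mul' le_rfl hb)

end Order

section Val

variable {K : Type*} [Field K] {Γ₀ : Type*} [LinearOrderedCommGroupWithZero Γ₀]
  (v : Valuation K Γ₀)

theorem S58NX_val_two : v (2 : K) ≤ 1 := by
  have : (2 : K) = 1 + 1 := by norm_num
  rw [this]
  exact v.map_add_le v.map_one.le v.map_one.le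

theorem S58NX_sq_lt_one {a : Γ₀} (h : a * a < 1) : a < 1 := by
  by_contra hcon
  rw [not_lt] at hcon
  exact absurd h (not_lt.2 (S58NX_one_le_mul hcon hcon))

/-- the `b`-invariants of an integral model are integral. -/
theorem S58NX_val_b (W : WeierstrassCurve.Affine K) (h1 : v W.a₁ ≤ 1) (h2 : v W.a₂ ≤ 1)
    (h3 : v W.a₃ ≤ 1) (h4 : v W.a₄ ≤ 1) (h6 : v W.a₆ ≤ 1) :
    v W.b₂ ≤ 1 ∧ v W.b₄ ≤ 1 ∧ v W.b₆ ≤ 1 := by
  have m1 : W.a₁ ∈ v.integer := h1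
  have m2 : W.a₂ ∈ v.integer := h2
  have m3 : W.a₃ ∈ v.integer := h3
  have m4 : W.a₄ ∈ v.integer := h4
  have m6 : W.a₆ ∈ v.integer := h6
  refine ⟨?_, ?_, ?_⟩
  · show W.b₂ ∈ v.integer
    simp only [WeierstrassCurve.b₂]
    aesop (add safe apply [add_mem, sub_mem, mul_mem, pow_mem, neg_mem, ofNat_mem])
  · show W.b₄ ∈ v.integer
    simp only [WeierstrassCurve.b₄]
    aesop (add safe apply [add_mem, sub_mem, mul_mem, pow_mem, neg_mem, ofNat_mem])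
  · show W.b₆ ∈ v.integer
    simp only [WeierstrassCurve.b₆]
    aesop (add safe apply [add_mem, sub_mem, mul_mem, pow_mem, neg_mem, ofNat_mem])

/-- on an integral model, a point with integral `x` has integral `y`. -/
theorem S58NX_val_y (W : WeierstrassCurve.Affine K) (h1 : v W.a₁ ≤ 1) (h2 : v W.a₂ ≤ 1)
    (h3 : v W.a₃ ≤ 1) (h4 : v W.a₄ ≤ 1) (h6 : v W.a₆ ≤ 1) {x y : K} (h : W.Equation x y)
    (hx : v x ≤ 1) : v y ≤ 1 := by
  have m1 : W.a₁ ∈ v.integer := h1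
  have m2 : W.a₂ ∈ v.integer := h2
  have m3 : W.a₃ ∈ v.integer := h3
  have m4 : W.a₄ ∈ v.integer := h4
  have m6 : W.a₆ ∈ v.integer := h6
  have mx : x ∈ v.integer := hx
  by_contra hy
  rw [not_le] at hy
  rw [equation_iff] at h
  have h' : y * y = (x ^ 3 + W.a₂ * x ^ 2 + W.a₄ * x + W.a₆) - (W.a₁ * x + W.a₃) * y := by
    linear_combination h
  have hA : v (x ^ 3 + W.a₂ * x ^ 2 + W.a₄ * x + W.a₆) ≤ 1 := by
    show x ^ 3 + W.a₂ * x ^ 2 + W.a₄ * x + W.a₆ ∈ v.integer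
    aesop (add safe apply [add_mem, sub_mem, mul_mem, pow_mem, neg_mem, ofNat_mem])
  have hB : v (W.a₁ * x + W.a₃) ≤ 1 := by
    show W.a₁ * x + W.a₃ ∈ v.integer
    aesop (add safe apply [add_mem, sub_mem, mul_mem, pow_mem, neg_mem, ofNat_mem])
  have hle : v (y * y) ≤ v y := by
    rw [h']
    apply v.map_sub_le
    · exact hA.trans hy.le
    · rw [map_mul]
      calc v (W.a₁ * x + W.a₃) * v y ≤ 1 * v y := mul_le_mul' hB le_rfl
        _ = v y := one_mul _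
  rw [map_mul] at hle
  have hpos : 0 < v y := lt_of_le_of_lt zero_le hy
  have : v y < v y * v y := by
    calc v y = 1 * v y := (one_mul _).symm
      _ < v y * v y := mul_lt_mul_of_pos_right hy hpos
  exact absurd hle (not_le.2 this)

/-- `F_x` is integral at an integral point. -/
theorem S58NX_val_Fx (W : WeierstrassCurve.Affine K) (h1 : v W.a₁ ≤ 1) (h2 : v W.a₂ ≤ 1)
    (h4 : v W.a₄ ≤ 1) {x y : K} (hx : v x ≤ 1) (hy : v y ≤ 1) :
    v (W.polynomialX.evalEval x y) ≤ 1 := by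
  have m1 : W.a₁ ∈ v.integer := h1
  have m2 : W.a₂ ∈ v.integer := h2
  have m4 : W.a₄ ∈ v.integer := h4
  have mx : x ∈ v.integer := hx
  have my : y ∈ v.integer := hy
  rw [evalEval_polynomialX]
  show W.a₁ * y - (3 * x ^ 2 + 2 * W.a₂ * x + W.a₄) ∈ v.integer
  aesop (add safe apply [add_mem, sub_mem, mul_mem, pow_mem, neg_mem, ofNat_mem])

/-- step (i): the `2`-division polynomial of an integral model with `c₄` a unit has an
integral root. -/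
theorem S58NX_int_root [IsAlgClosed K] (W : WeierstrassCurve.Affine K)
    (h1 : v W.a₁ ≤ 1) (h2 : v W.a₂ ≤ 1) (h3 : v W.a₃ ≤ 1) (h4 : v W.a₄ ≤ 1) (h6 : v W.a₆ ≤ 1)
    (h20 : (2 : K) ≠ 0) (hc₄ : v W.c₄ = 1) :
    ∃ e : K, 4 * e ^ 3 + W.b₂ * e ^ 2 + 2 * W.b₄ * e + W.b₆ = 0 ∧ v e ≤ 1 := by
  obtain ⟨hb₂, hb₄, hb₆⟩ := S58NX_val_b v W h1 h2 h3 h4 h6
  have hv2 : v (2 : K) ≤ 1 := S58NX_val_two v
  obtain ⟨e₁, hg₁⟩ := S58NX_root W h20
  by_cases he₁ : v e₁ ≤ 1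
  · exact ⟨e₁, hg₁, he₁⟩
  rw [not_le] at he₁
  have hpos : 0 < v e₁ := lt_of_le_of_lt zero_le he₁
  -- `e₁ ^ 2 * ε = -(2 b₄ e₁ + b₆)` with `ε = 4 e₁ + b₂`
  have h₁ : e₁ * (e₁ * (4 * e₁ + W.b₂)) = -(2 * W.b₄ * e₁ + W.b₆) := by
    linear_combination hg₁
  have hεv : v (4 * e₁ + W.b₂) < 1 := by
    by_contra hcon
    rw [not_lt] at hcon
    have hR : v (-(2 * W.b₄ * e₁ + W.b₆)) ≤ v e₁ := by
      rw [Valuation.map_neg]
      apply v.map_add_le
      · rw [map_mul]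
        calc v (2 * W.b₄) * v e₁ ≤ 1 * v e₁ :=
              mul_le_mul' (by rw [map_mul]; exact S58NX_mul_le_one hv2 hb₄) le_rfl
          _ = v e₁ := one_mul _
      · exact hb₆.trans he₁.le
    rw [← h₁, map_mul, map_mul] at hR
    have h3 : v e₁ < v e₁ * (v e₁ * v (4 * e₁ + W.b₂)) := by
      have : 1 < v e₁ * v (4 * e₁ + W.b₂) := S58NX_one_lt_mul he₁ hcon
      calc v e₁ = v e₁ * 1 := (mul_one _).symm
        _ < v e₁ * (v e₁ * v (4 * e₁ + W.b₂)) := mul_lt_mul_of_pos_left this hpos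
    exact absurd hR (not_le.2 h3)
  have hv2' : v (2 : K) < 1 := by
    rcases lt_or_eq_of_le hv2 with h | h
    · exact h
    · exfalso
      have h4e : v (4 * e₁) = v e₁ := by
        rw [map_mul, show (4 : K) = 2 * 2 by norm_num, map_mul, h, one_mul, one_mul]
      have hlt : v W.b₂ < v (4 * e₁) := by rw [h4e]; exact lt_of_le_of_lt hb₂ he₁
      have : v (4 * e₁ + W.b₂) = v (4 * e₁) := Valuation.map_add_eq_of_lt_left v hlt
      rw [this, h4e] at hεv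
      exact absurd hεv (not_lt.2 he₁.le)
  have hb₂u : v W.b₂ = 1 := by
    have hc : W.b₂ * W.b₂ = W.c₄ + 24 * W.b₄ := by simp only [WeierstrassCurve.c₄]; ring
    have h24 : v (24 * W.b₄) < 1 := by
      rw [show (24 : K) * W.b₄ = 2 * (12 * W.b₄) by ring, map_mul]
      refine S58NX_mul_lt_one hv2' ?_
      have m : W.b₄ ∈ v.integer := hb₄
      show 12 * W.b₄ ∈ v.integer
      aesop (add safe apply [add_mem, sub_mem, mul_mem, pow_mem, neg_mem, ofNat_mem])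
    have hlt : v (24 * W.b₄) < v W.c₄ := by rw [hc₄]; exact h24
    have : v (W.b₂ * W.b₂) = 1 := by
      rw [hc, Valuation.map_add_eq_of_lt_left v hlt, hc₄]
    rw [map_mul] at this
    rcases lt_trichotomy (v W.b₂) 1 with h | h | h
    · exact absurd this (ne_of_lt (S58NX_mul_lt_one h h.le))
    · exact h
    · exact absurd this (ne_of_gt (S58NX_one_lt_mul h h.le))
  have h4e₁ : v (4 * e₁) = 1 := by
    have h4 : 4 * e₁ = (4 * e₁ + W.b₂) - W.b₂ := by ring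
    have hlt : v (4 * e₁ + W.b₂) < v W.b₂ := by rw [hb₂u]; exact hεv
    rw [h4, Valuation.map_sub_eq_of_lt_right v hlt, hb₂u]
  -- the two other roots
  obtain ⟨s, hs⟩ := IsAlgClosed.exists_eq_mul_self
    ((4 * e₁ + W.b₂) ^ 2 - 16 * (2 * W.b₄ + e₁ * (4 * e₁ + W.b₂)))
  have h8 : (8 : K) ≠ 0 := by
    have : (8 : K) = 2 * 2 * 2 := by norm_num
    rw [this]; exact mul_ne_zero (mul_ne_zero h20 h20) h20
  have h16 : (16 : K) ≠ 0 := by
    have : (16 : K) = 2 * 2 * 2 * 2 := by norm_num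
    rw [this]; exact mul_ne_zero (mul_ne_zero (mul_ne_zero h20 h20) h20) h20
  have h64 : (64 : K) ≠ 0 := by
    have : (64 : K) = 8 * 8 := by norm_num
    rw [this]; exact mul_ne_zero h8 h8
  obtain ⟨e₂, h8e₂⟩ : ∃ e₂ : K, 8 * e₂ = -(4 * e₁ + W.b₂) + s :=
    ⟨(-(4 * e₁ + W.b₂) + s) / 8, by field_simp⟩
  obtain ⟨e₃, h8e₃⟩ : ∃ e₃ : K, 8 * e₃ = -(4 * e₁ + W.b₂) - s :=
    ⟨(-(4 * e₁ + W.b₂) - s) / 8, by field_simp⟩
  have hh₂ : 4 * e₂ ^ 2 + (4 * e₁ + W.b₂) * e₂ + (2 * W.b₄ + e₁ * (4 * e₁ + W.b₂)) = 0 := by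
    apply mul_left_cancel₀ h16
    linear_combination (8 * e₂ + s + (4 * e₁ + W.b₂)) * h8e₂ - hs
  have hh₃ : 4 * e₃ ^ 2 + (4 * e₁ + W.b₂) * e₃ + (2 * W.b₄ + e₁ * (4 * e₁ + W.b₂)) = 0 := by
    apply mul_left_cancel₀ h16
    linear_combination (8 * e₃ - s + (4 * e₁ + W.b₂)) * h8e₃ - hs
  have hg₂ : 4 * e₂ ^ 3 + W.b₂ * e₂ ^ 2 + 2 * W.b₄ * e₂ + W.b₆ = 0 := by
    linear_combination (e₂ - e₁) * hh₂ + hg₁
  have hg₃ : 4 * e₃ ^ 3 + W.b₂ * e₃ ^ 2 + 2 * W.b₄ * e₃ + W.b₆ = 0 := by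
    linear_combination (e₃ - e₁) * hh₃ + hg₁
  have hprod : (4 * e₁) * (e₂ * e₃) = -W.b₆ := by
    apply mul_left_cancel₀ h64
    linear_combination (4 * e₁) * (8 * e₃) * h8e₂ + (4 * e₁) * (-(4 * e₁ + W.b₂) + s) * h8e₃
      + (4 * e₁) * hs + 64 * hg₁
  have hv : v e₂ * v e₃ ≤ 1 := by
    have := congrArg v hprod
    rw [map_mul, h4e₁, one_mul, map_mul, Valuation.map_neg] at this
    rw [this]; exact hb₆
  by_cases h₂ : v e₂ ≤ 1
  · exact ⟨e₂, hg₂, h₂⟩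
  · refine ⟨e₃, hg₃, ?_⟩
    rw [not_le] at h₂
    by_contra h₃
    rw [not_le] at h₃
    exact absurd hv (not_le.2 (S58NX_one_lt_mul h₂ h₃.le))

/-- **[NODAL-EXISTS]**: on an integral model with `c₄` a unit and `Δ` a non-zero non-unit there
is an integral `2`-torsion point reducing to the singular point; any residue characteristic. -/
theorem S58NX_exists [IsAlgClosed K] (W : WeierstrassCurve.Affine K)
    (h1 : v W.a₁ ≤ 1) (h2 : v W.a₂ ≤ 1) (h3 : v W.a₃ ≤ 1) (h4 : v W.a₄ ≤ 1) (h6 : v W.a₆ ≤ 1)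
    (h20 : (2 : K) ≠ 0) (hc₄ : v W.c₄ = 1) (hΔ : v W.Δ < 1) (hΔ0 : W.Δ ≠ 0) :
    ∃ r t : K, v r ≤ 1 ∧ v t ≤ 1 ∧ W.Equation r t ∧ 2 * t + W.a₁ * r + W.a₃ = 0 ∧
      v (W.polynomialX.evalEval r t) < 1 ∧ W.polynomialX.evalEval r t ≠ 0 := by
  obtain ⟨hb₂, hb₄, hb₆⟩ := S58NX_val_b v W h1 h2 h3 h4 h6
  have hne : ∀ r t : K, W.Equation r t → 2 * t + W.a₁ * r + W.a₃ = 0 →
      W.polynomialX.evalEval r t ≠ 0 := by
    intro r t hEq hFy h0
    have hI := S58NX_disc W r t hEq hFy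
    rw [h0] at hI
    apply hΔ0
    rw [hI]; ring
  obtain ⟨e, hge, hev⟩ := S58NX_int_root v W h1 h2 h3 h4 h6 h20 hc₄
  obtain ⟨hEq, hFy⟩ := S58NX_point W h20 e hge
  generalize (-(W.a₁ * e + W.a₃) / 2) = t at hEq hFy
  have htv : v t ≤ 1 := S58NX_val_y v W h1 h2 h3 h4 h6 hEq hev
  by_cases hsmall : v (W.polynomialX.evalEval e t) < 1
  · exact ⟨e, t, hev, htv, hEq, hFy, hsmall, hne e t hEq hFy⟩
  rw [not_lt] at hsmall
  have hI := S58NX_disc W e t hEq hFy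
  have hFx4 := S58NX_Fx W e t hFy
  have hFxv : v (W.polynomialX.evalEval e t) ≤ 1 := S58NX_val_Fx v W h1 h2 h4 hev htv
  generalize W.polynomialX.evalEval e t = Fx at hsmall hI hFx4 hFxv
  -- `c₄ + 16 F_x` is small
  have hD : v (W.c₄ + 16 * Fx) < 1 := by
    by_contra hcon
    rw [not_lt] at hcon
    have := congrArg v hI
    rw [map_mul, map_pow, pow_two] at this
    rw [this] at hΔ
    exact absurd hΔ (not_lt.2 (S58NX_one_le_mul (S58NX_one_le_mul hsmall hsmall) hcon))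
  have hv2 : v (2 : K) = 1 := by
    rcases lt_or_eq_of_le (S58NX_val_two v) with h | h
    · exfalso
      have h16 : v (16 * Fx) < 1 := by
        rw [show (16 : K) * Fx = 2 * (8 * Fx) by ring, map_mul]
        refine S58NX_mul_lt_one h ?_
        have m : Fx ∈ v.integer := hFxv
        show 8 * Fx ∈ v.integer
        aesop (add safe apply [add_mem, sub_mem, mul_mem, pow_mem, neg_mem, ofNat_mem])
      have hlt : v (16 * Fx) < v W.c₄ := by rw [hc₄]; exact h16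
      rw [Valuation.map_add_eq_of_lt_left v hlt, hc₄] at hD
      exact lt_irrefl _ hD
    · exact h
  have hv4 : v (4 : K) = 1 := by
    rw [show (4 : K) = 2 * 2 by norm_num, map_mul, hv2, one_mul]
  have hv8 : v (8 : K) = 1 := by
    rw [show (8 : K) = 2 * 4 by norm_num, map_mul, hv2, hv4, one_mul]
  have h16 : (16 : K) ≠ 0 := by
    have : (16 : K) = 2 * 2 * 2 * 2 := by norm_num
    rw [this]; exact mul_ne_zero (mul_ne_zero (mul_ne_zero h20 h20) h20) h20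
  have h8 : (8 : K) ≠ 0 := by
    have : (8 : K) = 2 * 2 * 2 := by norm_num
    rw [this]; exact mul_ne_zero (mul_ne_zero h20 h20) h20
  obtain ⟨s, hs⟩ := IsAlgClosed.exists_eq_mul_self (W.c₄ + 16 * Fx)
  have hsv : v s < 1 := by
    apply S58NX_sq_lt_one
    rw [← map_mul, ← hs]
    exact hD
  obtain ⟨e₂, h8e₂⟩ : ∃ e₂ : K, 8 * e₂ = s - W.b₂ - 4 * e :=
    ⟨(s - W.b₂ - 4 * e) / 8, by field_simp⟩
  have he₂v : v e₂ ≤ 1 := by
    have h := congrArg v h8e₂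
    rw [map_mul, hv8, one_mul] at h
    rw [h]
    have m1 : s ∈ v.integer := hsv.le
    have m2 : W.b₂ ∈ v.integer := hb₂
    have m3 : e ∈ v.integer := hev
    show s - W.b₂ - 4 * e ∈ v.integer
    aesop (add safe apply [add_mem, sub_mem, mul_mem, pow_mem, neg_mem, ofNat_mem])
  simp only [WeierstrassCurve.c₄] at hs
  have hh₂ : 4 * e₂ ^ 2 + (W.b₂ + 4 * e) * e₂ + (2 * W.b₄ + W.b₂ * e + 4 * e ^ 2) = 0 := by
    apply mul_left_cancel₀ h16
    linear_combination (8 * e₂ + W.b₂ + 4 * e + s) * h8e₂ - hs + 4 * hFx4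
  have hg₂ : 4 * e₂ ^ 3 + W.b₂ * e₂ ^ 2 + 2 * W.b₄ * e₂ + W.b₆ = 0 := by
    linear_combination (e₂ - e) * hh₂ + hge
  obtain ⟨hEq₂, hFy₂⟩ := S58NX_point W h20 e₂ hg₂
  generalize (-(W.a₁ * e₂ + W.a₃) / 2) = t₂ at hEq₂ hFy₂
  have htv₂ : v t₂ ≤ 1 := S58NX_val_y v W h1 h2 h3 h4 h6 hEq₂ he₂v
  have hFx4₂ := S58NX_Fx W e₂ t₂ hFy₂
  have key : 4 * W.polynomialX.evalEval e₂ t₂ = -((e₂ - e) * s) := by
    linear_combination hFx4₂ - hh₂ - (e₂ - e) * h8e₂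
  refine ⟨e₂, t₂, he₂v, htv₂, hEq₂, hFy₂, ?_, hne e₂ t₂ hEq₂ hFy₂⟩
  have h := congrArg v key
  rw [map_mul, hv4, one_mul, Valuation.map_neg, map_mul] at h
  rw [h, mul_comm]
  exact S58NX_mul_lt_one hsv (v.map_sub_le he₂v hev)

end Val

end Fermat.Agent.S58_helper24_E3NX
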