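import Mathlib

/-!
# S58, (E3) raw input at a multiplicative prime: the node (helper25, second seat of helper5)

Local algebra at a critical point `(x₀, y₀)` of the Weierstrass polynomial `F` of a curve with
integral coefficients over a valued field: `F_x (x₀, y₀) = F_y (x₀, y₀) = 0`, tangent slopes
`g₁, g₂` (the roots of `T ^ 2 + a₁ T - (3 x₀ + a₂)`) with `g₁ - g₂` a unit.  For a point
`(x, y)` put `u = x - x₀`, `w = y - y₀`, `ξ = w - g₁ u`, `η = w - g₂ u`; the curve is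
`ξ η = u ^ 3 - F (x₀, y₀)`.

* `S58NA_chord_val`, `S58NA_tangent_val` : the two valuation estimates;
* `S58NA_add` : if `P₁, P₂` reduce to the node and `v ξ₁ = v η₂`, `v η₁ = v ξ₂`, then the
  `x`-coordinate of `P₁ + P₂` is NOT congruent to `x₀`;
* `S58NA_sing` : an integral point whose reduction is singular has `x ≡ x₀`;
* `S58NA_main` : hence `P₁ + P₂` (if integral and not `O`) has non-singular reduction.
-/

set_option autoImplicit false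

open WeierstrassCurve WeierstrassCurve.Affine

namespace Fermat.Agent.S58_helper25_NODE

section val

variable {K : Type*} [Field K] {Γ₀ : Type*} [LinearOrderedCommGroupWithZero Γ₀]
  (v : Valuation K Γ₀)

theorem S58NA_sq_lt {a : Γ₀} (h0 : a ≠ 0) (h1 : a < 1) : a ^ 2 < a := by
  have ha : 0 < a := zero_lt_iff.2 h0
  calc a ^ 2 = a * a := sq a
    _ < a * 1 := by
        exact mul_lt_mul_of_pos_left h1 ha
    _ = a := mul_one a

/-- valuation of `u₁ ^ 2 + u₁ u₂ + u₂ ^ 2`. -/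
theorem S58NA_val_quad {u₁ u₂ : K} {M : Γ₀} (h₁ : v u₁ ≤ M) (h₂ : v u₂ ≤ M) :
    v (u₁ ^ 2 + u₁ * u₂ + u₂ ^ 2) ≤ M ^ 2 := by
  have hM : (0 : Γ₀) ≤ M := zero_le
  refine v.map_add_le (v.map_add_le ?_ ?_) ?_
  · rw [map_pow]; exact pow_le_pow_left₀ zero_le h₁ 2
  · rw [map_mul, sq]; exact mul_le_mul' h₁ h₂
  · rw [map_pow]; exact pow_le_pow_left₀ zero_le h₂ 2

/-- **chord estimate**. -/
theorem S58NA_chord_val (ξ₁ η₁ ξ₂ η₂ u₁ u₂ d F0 : K)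
    (h₁ : ξ₁ * η₁ = u₁ ^ 3 - F0) (h₂ : ξ₂ * η₂ = u₂ ^ 3 - F0)
    (hd₁ : ξ₁ - η₁ = - d * u₁) (hd₂ : ξ₂ - η₂ = - d * u₂)
    (hd : v d = 1)
    (hξη : v ξ₁ = v η₂) (hηξ : v η₁ = v ξ₂)
    (hs₁ : v ξ₁ < 1) (hs₂ : v η₁ < 1) (hne : u₁ ≠ u₂) :
    v ((u₁ - u₂) ^ 2) ≤ v ((ξ₁ - ξ₂) * (η₁ - η₂)) := by
  have hd0 : d ≠ 0 := by
    intro h; rw [h, map_zero] at hd; exact zero_ne_one hd
  set α := ξ₁ - ξ₂ with hα
  set β := η₁ - η₂ with hβ
  set e := (u₁ ^ 2 + u₁ * u₂ + u₂ ^ 2) / d with he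
  have hαβ : α - β = - d * (u₁ - u₂) := by
    rw [hα, hβ]; linear_combination hd₁ - hd₂
  have hed : e * d = u₁ ^ 2 + u₁ * u₂ + u₂ ^ 2 := by
    rw [he]; field_simp
  have id1 : α * (η₂ + e) = - β * (ξ₁ - e) := by
    have : α * η₂ + β * ξ₁ = u₁ ^ 3 - u₂ ^ 3 := by
      rw [hα, hβ]; linear_combination h₁ - h₂
    have h3 : (α - β) * e = - (u₁ ^ 3 - u₂ ^ 3) := by
      rw [hαβ]
      linear_combination (-(u₁ - u₂)) * hed
    linear_combination this + h3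
  have id2 : α * (η₁ + e) = - β * (ξ₂ - e) := by
    have : α * η₁ + β * ξ₂ = u₁ ^ 3 - u₂ ^ 3 := by
      rw [hα, hβ]; linear_combination h₁ - h₂
    have h3 : (α - β) * e = - (u₁ ^ 3 - u₂ ^ 3) := by
      rw [hαβ]
      linear_combination (-(u₁ - u₂)) * hed
    linear_combination this + h3
  have hu₁ : v u₁ = v (ξ₁ - η₁) := by
    rw [hd₁, map_mul, Valuation.map_neg, hd, one_mul]
  have hu₂ : v u₂ = v (ξ₂ - η₂) := by
    rw [hd₂, map_mul, Valuation.map_neg, hd, one_mul]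
  have hve : ∀ M : Γ₀, v ξ₁ ≤ M → v η₁ ≤ M → v e ≤ M ^ 2 := by
    intro M hM₁ hM₂
    have e1 : v e = v (u₁ ^ 2 + u₁ * u₂ + u₂ ^ 2) := by
      rw [← hed, map_mul, hd, mul_one]
    rw [e1]
    refine S58NA_val_quad v ?_ ?_
    · rw [hu₁]; exact v.map_sub_le hM₁ hM₂
    · rw [hu₂]; exact v.map_sub_le (hηξ ▸ hM₂) (hξη ▸ hM₁)
  have hvαβ : v α = v β := by
    rcases le_total (v η₁) (v ξ₁) with hle | hle
    · -- M = v ξ₁ = v η₂
      by_cases h0 : v ξ₁ = 0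
      · exfalso
        have hη0 : v η₁ = 0 := le_antisymm (h0 ▸ hle) zero_le
        have e1 : ξ₁ = 0 := v.zero_iff.1 h0
        have e2 : η₁ = 0 := v.zero_iff.1 hη0
        have e3 : η₂ = 0 := v.zero_iff.1 (hξη ▸ h0)
        have e4 : ξ₂ = 0 := v.zero_iff.1 (hηξ ▸ hη0)
        have f1 : d * u₁ = 0 := by linear_combination hd₁ - e1 + e2
        have f2 : d * u₂ = 0 := by linear_combination hd₂ - e4 + e3
        have g1 : u₁ = 0 := (mul_eq_zero.1 f1).resolve_left hd0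
        have g2 : u₂ = 0 := (mul_eq_zero.1 f2).resolve_left hd0
        exact hne (g1.trans g2.symm)
      · have hlt : v e < v ξ₁ :=
          lt_of_le_of_lt (hve (v ξ₁) le_rfl hle) (S58NA_sq_lt h0 hs₁)
        have k1 : v (ξ₁ - e) = v ξ₁ := v.map_sub_eq_of_lt_left hlt
        have k2 : v (η₂ + e) = v ξ₁ := by
          rw [v.map_add_eq_of_lt_left (hξη ▸ hlt), hξη]
        have := congrArg v id1
        rw [map_mul, map_mul, Valuation.map_neg, k1, k2] at this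
        exact mul_right_cancel₀ h0 this
    · -- M = v η₁ = v ξ₂
      by_cases h0 : v η₁ = 0
      · exfalso
        have hξ0 : v ξ₁ = 0 := le_antisymm (h0 ▸ hle) zero_le
        have e1 : ξ₁ = 0 := v.zero_iff.1 hξ0
        have e2 : η₁ = 0 := v.zero_iff.1 h0
        have e3 : η₂ = 0 := v.zero_iff.1 (hξη ▸ hξ0)
        have e4 : ξ₂ = 0 := v.zero_iff.1 (hηξ ▸ h0)
        have f1 : d * u₁ = 0 := by linear_combination hd₁ - e1 + e2
        have f2 : d * u₂ = 0 := by linear_combination hd₂ - e4 + e3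
        have g1 : u₁ = 0 := (mul_eq_zero.1 f1).resolve_left hd0
        have g2 : u₂ = 0 := (mul_eq_zero.1 f2).resolve_left hd0
        exact hne (g1.trans g2.symm)
      · have hlt : v e < v η₁ :=
          lt_of_le_of_lt (hve (v η₁) hle le_rfl) (S58NA_sq_lt h0 hs₂)
        have k1 : v (η₁ + e) = v η₁ := v.map_add_eq_of_lt_left hlt
        have k2 : v (ξ₂ - e) = v η₁ := by
          rw [v.map_sub_eq_of_lt_left (hηξ ▸ hlt), hηξ]
        have := congrArg v id2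
        rw [map_mul, map_mul, Valuation.map_neg, k1, k2] at this
        exact mul_right_cancel₀ h0 this
  have hu : v (u₁ - u₂) = v (α - β) := by
    rw [hαβ, map_mul, Valuation.map_neg, hd, one_mul]
  have hle : v (u₁ - u₂) ≤ v α := by
    rw [hu]; exact v.map_sub_le le_rfl hvαβ.symm.le
  calc v ((u₁ - u₂) ^ 2) = v (u₁ - u₂) ^ 2 := map_pow _ _ _
    _ ≤ v α ^ 2 := pow_le_pow_left₀ zero_le hle 2
    _ = v α * v β := by rw [sq, ← hvαβ]
    _ = v (α * β) := (map_mul _ _ _).symm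

/-- **tangent estimate**. -/
theorem S58NA_tangent_val (ξ η u d : K)
    (hd₁ : ξ - η = - d * u) (hd : v d = 1)
    (hξη : v ξ = v η) (hs : v ξ < 1) (hne : ξ + η ≠ 0) :
    v ((ξ + η) ^ 2) ≤ v ((- d * ξ + 3 * u ^ 2) * (d * η + 3 * u ^ 2)) := by
  have hd0 : d ≠ 0 := by
    intro h; rw [h, map_zero] at hd; exact zero_ne_one hd
  have h0 : v ξ ≠ 0 := by
    intro h0
    have e1 : ξ = 0 := v.zero_iff.1 h0
    have e2 : η = 0 := v.zero_iff.1 (hξη ▸ h0)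
    exact hne (by rw [e1, e2, add_zero])
  have hu : v u ≤ v ξ := by
    have : v u = v (ξ - η) := by rw [hd₁, map_mul, Valuation.map_neg, hd, one_mul]
    rw [this]; exact v.map_sub_le le_rfl hξη.symm.le
  have h3 : v (3 * u ^ 2) < v ξ := by
    have h3' : v (3 : K) ≤ 1 := by
      have : (3 : K) = 1 + 1 + 1 := by norm_num
      rw [this]
      exact v.map_add_le (v.map_add_le v.map_one.le v.map_one.le) v.map_one.le
    calc v (3 * u ^ 2) = v 3 * v u ^ 2 := by rw [map_mul, map_pow]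
      _ ≤ 1 * v ξ ^ 2 := mul_le_mul' h3' (pow_le_pow_left₀ zero_le hu 2)
      _ = v ξ ^ 2 := one_mul _
      _ < v ξ := S58NA_sq_lt h0 hs
  have k1 : v (- d * ξ + 3 * u ^ 2) = v ξ := by
    have : v (- d * ξ) = v ξ := by rw [map_mul, Valuation.map_neg, hd, one_mul]
    rw [v.map_add_eq_of_lt_left (this.symm ▸ h3), this]
  have k2 : v (d * η + 3 * u ^ 2) = v ξ := by
    have : v (d * η) = v ξ := by rw [map_mul, hd, one_mul, hξη]
    rw [v.map_add_eq_of_lt_left (this.symm ▸ h3), this]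
  have hle : v (ξ + η) ≤ v ξ := v.map_add_le le_rfl hξη.symm.le
  calc v ((ξ + η) ^ 2) = v (ξ + η) ^ 2 := map_pow _ _ _
    _ ≤ v ξ ^ 2 := pow_le_pow_left₀ zero_le hle 2
    _ = v ξ * v ξ := sq _
    _ = v ((- d * ξ + 3 * u ^ 2) * (d * η + 3 * u ^ 2)) := by rw [map_mul, k1, k2]

end val

section curve

set_option linter.unusedSectionVars false

variable {K : Type*} [Field K] [DecidableEq K] {Γ₀ : Type*} [LinearOrderedCommGroupWithZero Γ₀]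
  (v : Valuation K Γ₀) (W : WeierstrassCurve.Affine K)

/-- Vieta for the two tangent slopes. -/
theorem S58NA_vieta {x₀ g₁ g₂ : K}
    (hg₁ : g₁ ^ 2 + W.a₁ * g₁ - (3 * x₀ + W.a₂) = 0)
    (hg₂ : g₂ ^ 2 + W.a₁ * g₂ - (3 * x₀ + W.a₂) = 0) (hne : g₁ - g₂ ≠ 0) :
    W.a₁ = - (g₁ + g₂) ∧ W.a₂ = - (g₁ * g₂) - 3 * x₀ := by
  have h1 : (g₁ - g₂) * (g₁ + g₂ + W.a₁) = 0 := by linear_combination hg₁ - hg₂
  have h2 : g₁ + g₂ + W.a₁ = 0 := (mul_eq_zero.1 h1).resolve_left hne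
  have ha₁ : W.a₁ = - (g₁ + g₂) := by linear_combination h2
  refine ⟨ha₁, ?_⟩
  rw [ha₁] at hg₁
  linear_combination -hg₁

/-- the local equation of the curve at the critical point. -/
theorem S58NA_local {x₀ y₀ g₁ g₂ : K}
    (hFx : W.polynomialX.evalEval x₀ y₀ = 0) (hFy : W.polynomialY.evalEval x₀ y₀ = 0)
    (ha₁ : W.a₁ = - (g₁ + g₂)) (ha₂ : W.a₂ = - (g₁ * g₂) - 3 * x₀)
    {x y : K} (h : W.Equation x y) :
    (y - y₀ - g₁ * (x - x₀)) * (y - y₀ - g₂ * (x - x₀)) =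
      (x - x₀) ^ 3 - W.polynomial.evalEval x₀ y₀ := by
  rw [Affine.equation_iff] at h
  rw [evalEval_polynomialX] at hFx
  rw [evalEval_polynomialY] at hFy
  rw [evalEval_polynomial]
  have e1 : W.a₃ = - (2 * y₀ + W.a₁ * x₀) := by linear_combination hFy
  have e2 : W.a₄ = W.a₁ * y₀ - (3 * x₀ ^ 2 + 2 * W.a₂ * x₀) := by linear_combination -hFx
  rw [e1, e2, ha₂, ha₁] at h ⊢
  linear_combination h

/-- the `x`-coordinate of a sum, relative to the critical point. -/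
theorem S58NA_addX_sub {x₀ g₁ g₂ : K}
    (ha₁ : W.a₁ = - (g₁ + g₂)) (ha₂ : W.a₂ = - (g₁ * g₂) - 3 * x₀) (x₁ x₂ s : K) :
    W.addX x₁ x₂ s - x₀ = (s - g₁) * (s - g₂) - ((x₁ - x₀) + (x₂ - x₀)) := by
  rw [addX, ha₁, ha₂]
  ring

/-- **node addition**: if `P₁, P₂` reduce to the node and `v ξ₁ = v η₂`, `v η₁ = v ξ₂`, then
`x (P₁ + P₂)` is not congruent to `x₀`. -/
theorem S58NA_add {x₀ y₀ g₁ g₂ : K}
    (hg₁i : v g₁ ≤ 1) (hg₂i : v g₂ ≤ 1)
    (hFx : W.polynomialX.evalEval x₀ y₀ = 0) (hFy : W.polynomialY.evalEval x₀ y₀ = 0)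
    (hg₁ : g₁ ^ 2 + W.a₁ * g₁ - (3 * x₀ + W.a₂) = 0)
    (hg₂ : g₂ ^ 2 + W.a₁ * g₂ - (3 * x₀ + W.a₂) = 0)
    (hg : v (g₁ - g₂) = 1)
    {x₁ y₁ x₂ y₂ : K} (h₁ : W.Nonsingular x₁ y₁) (h₂ : W.Nonsingular x₂ y₂)
    (hu₁ : v (x₁ - x₀) < 1) (hw₁ : v (y₁ - y₀) < 1)
    (hu₂ : v (x₂ - x₀) < 1) (hw₂ : v (y₂ - y₀) < 1)
    (hξη : v (y₁ - y₀ - g₁ * (x₁ - x₀)) = v (y₂ - y₀ - g₂ * (x₂ - x₀)))
    (hηξ : v (y₁ - y₀ - g₂ * (x₁ - x₀)) = v (y₂ - y₀ - g₁ * (x₂ - x₀)))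
    {x y : K} (h : W.Nonsingular x y)
    (hsum : Point.some x₁ y₁ h₁ + Point.some x₂ y₂ h₂ = Point.some x y h) :
    1 ≤ v (x - x₀) := by
  have hd0 : g₁ - g₂ ≠ 0 := by
    intro h0; rw [h0, map_zero] at hg; exact zero_ne_one hg
  obtain ⟨ha₁, ha₂⟩ := S58NA_vieta W hg₁ hg₂ hd0
  have hsmall : ∀ {g u w : K}, v g ≤ 1 → v u < 1 → v w < 1 → v (w - g * u) < 1 := by
    intro g u w hg hu hw
    refine v.map_sub_lt hw ?_
    rw [map_mul]
    calc v g * v u ≤ 1 * v u := mul_le_mul' hg le_rfl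
      _ = v u := one_mul _
      _ < 1 := hu
  have hs₁ : v (y₁ - y₀ - g₁ * (x₁ - x₀)) < 1 := hsmall hg₁i hu₁ hw₁
  have hs₂ : v (y₁ - y₀ - g₂ * (x₁ - x₀)) < 1 := hsmall hg₂i hu₁ hw₁
  have hl₁ := S58NA_local W hFx hFy ha₁ ha₂ h₁.1
  have hl₂ := S58NA_local W hFx hFy ha₁ ha₂ h₂.1
  have huu : v ((x₁ - x₀) + (x₂ - x₀)) < 1 := v.map_add_lt hu₁ hu₂
  -- it suffices to bound the product of the two slope differences
  have hfin : ∀ s : K, x = W.addX x₁ x₂ s → 1 ≤ v ((s - g₁) * (s - g₂)) → 1 ≤ v (x - x₀) := by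
    intro s hx hs
    rw [hx, S58NA_addX_sub W ha₁ ha₂ x₁ x₂ s,
      v.map_sub_eq_of_lt_left (lt_of_lt_of_le huu hs)]
    exact hs
  by_cases hxy : x₁ = x₂ ∧ y₁ = W.negY x₂ y₂
  · rw [Point.add_of_Y_eq hxy.1 hxy.2] at hsum
    exact absurd hsum.symm (Point.some_ne_zero h)
  rw [Point.add_some hxy] at hsum
  have hxe : x = W.addX x₁ x₂ (W.slope x₁ x₂ y₁ y₂) := by
    have := hsum
    simp only [Point.some.injEq] at this
    exact this.1.symm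
  refine hfin _ hxe ?_
  by_cases hx : x₁ = x₂
  · -- tangent case
    have hy : y₁ ≠ W.negY x₂ y₂ := fun hy => hxy ⟨hx, hy⟩
    have hyy : y₁ = y₂ := Affine.Y_eq_of_Y_ne h₁.1 h₂.1 hx hy
    subst hx
    subst hyy
    rw [Affine.slope_of_Y_ne rfl hy]
    set u := x₁ - x₀ with hu
    set ξ := y₁ - y₀ - g₁ * u with hξ
    set η := y₁ - y₀ - g₂ * u with hη
    have hFy' : W.a₃ = - (2 * y₀ + W.a₁ * x₀) := by
      rw [evalEval_polynomialY] at hFy; linear_combination hFy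
    have hFx' : W.a₄ = W.a₁ * y₀ - (3 * x₀ ^ 2 + 2 * W.a₂ * x₀) := by
      rw [evalEval_polynomialX] at hFx; linear_combination -hFx
    have hden : y₁ - W.negY x₁ y₁ = ξ + η := by
      rw [negY, hFy', ha₁, hξ, hη, hu]; ring
    have hden0 : ξ + η ≠ 0 := by
      rw [← hden]; exact sub_ne_zero.2 hy
    have hnum : 3 * x₁ ^ 2 + 2 * W.a₂ * x₁ + W.a₄ - W.a₁ * y₁ =
        g₁ * η + g₂ * ξ + 3 * u ^ 2 := by
      rw [hFx', ha₂, ha₁, hξ, hη, hu]; ring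
    rw [hden, hnum]
    have e1 : (g₁ * η + g₂ * ξ + 3 * u ^ 2) / (ξ + η) - g₁ =
        (- (g₁ - g₂) * ξ + 3 * u ^ 2) / (ξ + η) := by
      field_simp; ring
    have e2 : (g₁ * η + g₂ * ξ + 3 * u ^ 2) / (ξ + η) - g₂ =
        ((g₁ - g₂) * η + 3 * u ^ 2) / (ξ + η) := by
      field_simp; ring
    rw [e1, e2, div_mul_div_comm, ← sq, map_div₀]
    have hv0 : v ((ξ + η) ^ 2) ≠ 0 := by
      rw [Ne, v.zero_iff]; exact pow_ne_zero 2 hden0
    rw [one_le_div₀ (zero_lt_iff.2 hv0)]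
    refine S58NA_tangent_val v ξ η u (g₁ - g₂) ?_ hg hξη hs₁ hden0
    rw [hξ, hη]; ring
  · -- chord case
    rw [Affine.slope_of_X_ne hx]
    set u₁ := x₁ - x₀ with hu₁'
    set u₂ := x₂ - x₀ with hu₂'
    set ξ₁ := y₁ - y₀ - g₁ * u₁ with hξ₁
    set η₁ := y₁ - y₀ - g₂ * u₁ with hη₁
    set ξ₂ := y₂ - y₀ - g₁ * u₂ with hξ₂
    set η₂ := y₂ - y₀ - g₂ * u₂ with hη₂
    have hxx : x₁ - x₂ ≠ 0 := sub_ne_zero.2 hx
    have huu' : u₁ - u₂ = x₁ - x₂ := by rw [hu₁', hu₂']; ring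
    have e1 : (y₁ - y₂) / (x₁ - x₂) - g₁ = (ξ₁ - ξ₂) / (u₁ - u₂) := by
      rw [huu', hξ₁, hξ₂, hu₁', hu₂']
      field_simp; ring
    have e2 : (y₁ - y₂) / (x₁ - x₂) - g₂ = (η₁ - η₂) / (u₁ - u₂) := by
      rw [huu', hη₁, hη₂, hu₁', hu₂']
      field_simp; ring
    rw [e1, e2, div_mul_div_comm, ← sq, map_div₀]
    have hv0 : v ((u₁ - u₂) ^ 2) ≠ 0 := by
      rw [Ne, v.zero_iff, huu']; exact pow_ne_zero 2 hxx
    rw [one_le_div₀ (zero_lt_iff.2 hv0)]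
    refine S58NA_chord_val v ξ₁ η₁ ξ₂ η₂ u₁ u₂ (g₁ - g₂) (W.polynomial.evalEval x₀ y₀)
      hl₁ hl₂ ?_ ?_ hg ?_ ?_ hs₁ hs₂ ?_
    · rw [hξ₁, hη₁]; ring
    · rw [hξ₂, hη₂]; ring
    · exact hξη
    · exact hηξ
    · intro h0
      exact hx (by
        have : x₁ - x₀ = x₂ - x₀ := h0
        linear_combination this)

/-- **step (5)**: an integral point whose reduction is singular is congruent to the critical
point in `x`. -/
theorem S58NA_sing {x₀ y₀ : K}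
    (hFx : W.polynomialX.evalEval x₀ y₀ = 0) (hFy : W.polynomialY.evalEval x₀ y₀ = 0)
    (hF0 : v (W.polynomial.evalEval x₀ y₀) < 1)
    (hx₀ : v x₀ ≤ 1) (hy₀ : v y₀ ≤ 1)
    {x y : K} (h : W.Equation x y) (hx : v x ≤ 1) (hy : v y ≤ 1)
    (hsx : v (W.polynomialX.evalEval x y) < 1) (hsy : v (W.polynomialY.evalEval x y) < 1) :
    v (x - x₀) < 1 := by
  have hu : v (x - x₀) ≤ 1 := v.map_sub_le hx hx₀
  have hw : v (y - y₀) ≤ 1 := v.map_sub_le hy hy₀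
  have key : (x - x₀) ^ 3 = - (2 * W.polynomial.evalEval x₀ y₀) -
      ((y - y₀) * W.polynomialY.evalEval x y + (x - x₀) * W.polynomialX.evalEval x y) := by
    rw [Affine.equation_iff] at h
    rw [evalEval_polynomialX] at hFx ⊢
    rw [evalEval_polynomialY] at hFy ⊢
    rw [evalEval_polynomial]
    linear_combination 2 * h - (x - x₀) * hFx - (y - y₀) * hFy
  have h2 : v (2 : K) ≤ 1 := by
    have : (2 : K) = 1 + 1 := by norm_num
    rw [this]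
    exact v.map_add_le v.map_one.le v.map_one.le
  have hmul : ∀ {a b : K}, v a ≤ 1 → v b < 1 → v (a * b) < 1 := by
    intro a b ha hb
    rw [map_mul]
    calc v a * v b ≤ 1 * v b := mul_le_mul' ha le_rfl
      _ = v b := one_mul _
      _ < 1 := hb
  have h3 : v ((x - x₀) ^ 3) < 1 := by
    rw [key]
    refine v.map_sub_lt ?_ (v.map_add_lt (hmul hw hsy) (hmul hu hsx))
    rw [Valuation.map_neg]
    exact hmul h2 hF0
  by_contra hcon
  have h1 : v (x - x₀) = 1 := le_antisymm hu (not_lt.1 hcon)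
  rw [map_pow, h1, one_pow] at h3
  exact lt_irrefl _ h3

/-- **NODE (main)**: the sum of two points reducing to the node, with `v ξ₁ = v η₂` and
`v η₁ = v ξ₂`, has non-singular reduction (if it is integral and not `O`). -/
theorem S58NA_main
    (hc₁ : v W.a₁ ≤ 1) (hc₂ : v W.a₂ ≤ 1) (hc₄ : v W.a₄ ≤ 1) (hc₃ : v W.a₃ ≤ 1)
    {x₀ y₀ g₁ g₂ : K}
    (hx₀ : v x₀ ≤ 1) (hy₀ : v y₀ ≤ 1) (hg₁i : v g₁ ≤ 1) (hg₂i : v g₂ ≤ 1)
    (hFx : W.polynomialX.evalEval x₀ y₀ = 0) (hFy : W.polynomialY.evalEval x₀ y₀ = 0)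
    (hg₁ : g₁ ^ 2 + W.a₁ * g₁ - (3 * x₀ + W.a₂) = 0)
    (hg₂ : g₂ ^ 2 + W.a₁ * g₂ - (3 * x₀ + W.a₂) = 0)
    (hg : v (g₁ - g₂) = 1)
    {x₁ y₁ x₂ y₂ : K} (h₁ : W.Nonsingular x₁ y₁) (h₂ : W.Nonsingular x₂ y₂)
    (hu₁ : v (x₁ - x₀) < 1) (hw₁ : v (y₁ - y₀) < 1)
    (hu₂ : v (x₂ - x₀) < 1) (hw₂ : v (y₂ - y₀) < 1)
    (hξη : v (y₁ - y₀ - g₁ * (x₁ - x₀)) = v (y₂ - y₀ - g₂ * (x₂ - x₀)))
    (hηξ : v (y₁ - y₀ - g₂ * (x₁ - x₀)) = v (y₂ - y₀ - g₁ * (x₂ - x₀)))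
    {x y : K} (h : W.Nonsingular x y)
    (hsum : Point.some x₁ y₁ h₁ + Point.some x₂ y₂ h₂ = Point.some x y h)
    (hx : v x ≤ 1) (hy : v y ≤ 1) :
    v (W.polynomialX.evalEval x y) = 1 ∨ v (W.polynomialY.evalEval x y) = 1 := by
  have hd0 : g₁ - g₂ ≠ 0 := by
    intro h0; rw [h0, map_zero] at hg; exact zero_ne_one hg
  obtain ⟨ha₁, ha₂⟩ := S58NA_vieta W hg₁ hg₂ hd0
  have hmul : ∀ {a b : K}, v a ≤ 1 → v b ≤ 1 → v (a * b) ≤ 1 := by
    intro a b ha hb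
    rw [map_mul]
    exact mul_le_one' ha hb
  have hmul' : ∀ {a b : K}, v a ≤ 1 → v b < 1 → v (a * b) < 1 := by
    intro a b ha hb
    rw [map_mul]
    calc v a * v b ≤ 1 * v b := mul_le_mul' ha le_rfl
      _ = v b := one_mul _
      _ < 1 := hb
  have h2 : v (2 : K) ≤ 1 := by
    have : (2 : K) = 1 + 1 := by norm_num
    rw [this]
    exact v.map_add_le v.map_one.le v.map_one.le
  have h3 : v (3 : K) ≤ 1 := by
    have : (3 : K) = 1 + 1 + 1 := by norm_num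
    rw [this]
    exact v.map_add_le (v.map_add_le v.map_one.le v.map_one.le) v.map_one.le
  have hX : v (W.polynomialX.evalEval x y) ≤ 1 := by
    rw [evalEval_polynomialX]
    refine v.map_sub_le (hmul hc₁ hy) (v.map_add_le (v.map_add_le ?_ ?_) hc₄)
    · rw [map_mul, map_pow]
      exact mul_le_one' h3 (pow_le_one' hx 2)
    · exact hmul (hmul h2 hc₂) hx
  have hY : v (W.polynomialY.evalEval x y) ≤ 1 := by
    rw [evalEval_polynomialY]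
    exact v.map_add_le (v.map_add_le (hmul h2 hy) (hmul hc₁ hx)) hc₃
  by_contra hcon
  rw [not_or] at hcon
  have hsx : v (W.polynomialX.evalEval x y) < 1 := lt_of_le_of_ne hX hcon.1
  have hsy : v (W.polynomialY.evalEval x y) < 1 := lt_of_le_of_ne hY hcon.2
  -- `F (x₀, y₀)` is small
  have hl₁ := S58NA_local W hFx hFy ha₁ ha₂ h₁.1
  have hs₁ : v (y₁ - y₀ - g₁ * (x₁ - x₀)) < 1 :=
    v.map_sub_lt hw₁ (hmul' hg₁i hu₁)
  have hs₂ : v (y₁ - y₀ - g₂ * (x₁ - x₀)) ≤ 1 :=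
    (v.map_sub_lt hw₁ (hmul' hg₂i hu₁)).le
  have hF0 : v (W.polynomial.evalEval x₀ y₀) < 1 := by
    have e : W.polynomial.evalEval x₀ y₀ = (x₁ - x₀) ^ 3 -
        (y₁ - y₀ - g₁ * (x₁ - x₀)) * (y₁ - y₀ - g₂ * (x₁ - x₀)) := by
      rw [hl₁]; ring
    rw [e]
    refine v.map_sub_lt ?_ ?_
    · rw [map_pow]
      exact pow_lt_one₀ zero_le hu₁ (by norm_num)
    · rw [mul_comm]; exact hmul' hs₂ hs₁
  have k1 := S58NA_sing v W hFx hFy hF0 hx₀ hy₀ h.1 hx hy hsx hsy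
  have k2 := S58NA_add v W hg₁i hg₂i hFx hFy hg₁ hg₂ hg h₁ h₂ hu₁ hw₁ hu₂ hw₂ hξη hηξ h hsum
  exact absurd k1 (not_lt.2 k2)

end curve

end Fermat.Agent.S58_helper25_NODE
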