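import Mathlib
import Fermat.Agent.S58_helper25_NODE
import Fermat.Agent.S58_helper20_HENSQ
import Fermat.Agent.S58_helper9_PLUG
import Fermat.Agent.S13_helper5_ATPa

/-!
# S58, (E3) raw input at a multiplicative prime: the key and the closed form (helper25)

`S58EK_key W : S58PL_Key W` (the pointwise input of helper9's `S58PL_main`) from helper20's
critical point `S58HQ_crit` and the node-addition lemma `S58NA_main`, applied to
`P₁ := τ P`, `P₂ := -P`; hence `S58EK_raw W : S58T_E3raw W`, with no hypothesis.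
-/

set_option autoImplicit false

open WeierstrassCurve WeierstrassCurve.Affine
open Fermat.Agent.S58_helper2_TORS Fermat.Agent.S58_helper5_E3GOOD
  Fermat.Agent.S58_helper9_PLUG Fermat.Agent.S58_helper20_HENSQ
  Fermat.Agent.S58_helper25_NODE Fermat.Agent.S05_helper5_Inertia
  Fermat.Agent.S05_helper5_Frey Fermat.Agent.S13_helper5_ATPa

namespace Fermat.Agent.S58_helper25_E3KEY

local notation "Qb" => AlgebraicClosure ℚ

/-- the key, for an abstract curve over `Q-bar` with the integer coefficients of `W`. -/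
theorem S58EK_aux (W : WeierstrassCurve ℤ) (Wb : WeierstrassCurve.Affine Qb)
    (e₁ : Wb.a₁ = ((W.a₁ : ℤ) : Qb)) (e₂ : Wb.a₂ = ((W.a₂ : ℤ) : Qb))
    (e₃ : Wb.a₃ = ((W.a₃ : ℤ) : Qb)) (e₄ : Wb.a₄ = ((W.a₄ : ℤ) : Qb))
    {q : ℕ} (hq : q.Prime) (hc4 : ¬ (q : ℤ) ∣ W.c₄)
    (A : ValuationSubring Qb) (hA : A.LiesOverPrime q)
    (τ : Qb ≃ₐ[ℚ] Qb) (hτ : τ ∈ A.inertiaSubgroupIn ℚ)
    (x y : Qb) (h : Wb.Nonsingular x y)
    (hx : A.valuation x ≤ 1) (hy : A.valuation y ≤ 1)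
    (hFx : A.valuation (Wb.polynomialX.evalEval x y) < 1)
    (hFy : A.valuation (Wb.polynomialY.evalEval x y) < 1)
    (h₁ : Wb.Nonsingular (τ x) (τ y))
    (xD yD : Qb) (hD : Wb.Nonsingular xD yD)
    (hsub : Point.some (τ x) (τ y) h₁ - Point.some x y h = Point.some xD yD hD)
    (hxD : A.valuation xD ≤ 1) (hyD : A.valuation yD ≤ 1) :
    A.valuation (Wb.polynomialX.evalEval xD yD) = 1 ∨
      A.valuation (Wb.polynomialY.evalEval xD yD) = 1 := by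
  have c₁ : A.valuation Wb.a₁ ≤ 1 := by rw [e₁]; exact val_intCast_le_one A _
  have c₂ : A.valuation Wb.a₂ ≤ 1 := by rw [e₂]; exact val_intCast_le_one A _
  have c₃ : A.valuation Wb.a₃ ≤ 1 := by rw [e₃]; exact val_intCast_le_one A _
  have c₄ : A.valuation Wb.a₄ ≤ 1 := by rw [e₄]; exact val_intCast_le_one A _
  have hxA : x ∈ A := (A.valuation_le_one_iff x).1 hx
  have hyA : y ∈ A := (A.valuation_le_one_iff y).1 hy
  have hFx' : A.valuation (((W.a₁ : ℤ) : Qb) * y - 3 * x ^ 2 - 2 * ((W.a₂ : ℤ) : Qb) * x -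
      ((W.a₄ : ℤ) : Qb)) < 1 := by
    rw [evalEval_polynomialX, e₁, e₂, e₄] at hFx
    have e : ((W.a₁ : ℤ) : Qb) * y - 3 * x ^ 2 - 2 * ((W.a₂ : ℤ) : Qb) * x - ((W.a₄ : ℤ) : Qb) =
        ((W.a₁ : ℤ) : Qb) * y - (3 * x ^ 2 + 2 * ((W.a₂ : ℤ) : Qb) * x + ((W.a₄ : ℤ) : Qb)) := by
      ring
    rw [e]; exact hFx
  have hFy' : A.valuation (2 * y + ((W.a₁ : ℤ) : Qb) * x + ((W.a₃ : ℤ) : Qb)) < 1 := by
    rw [evalEval_polynomialY, e₁, e₃] at hFy
    exact hFy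
  obtain ⟨x₀, y₀, g₁, g₂, hx₀, hy₀, hg₁, hg₂, hx₀v, hy₀v, hFx₀, hFy₀, hsum, hprod, hdiff, hfix⟩ :=
    S58HQ_crit W A hq hA hc4 x y hxA hyA hFx' hFy'
  obtain ⟨fx₀, fy₀, fg₁, fg₂⟩ := hfix τ hτ
  have ha₁ : Wb.a₁ = - (g₁ + g₂) := by rw [e₁, hsum, neg_neg]
  have ha₂ : Wb.a₂ = - (g₁ * g₂) - 3 * x₀ := by rw [e₂, hprod]; ring
  have kFx : Wb.polynomialX.evalEval x₀ y₀ = 0 := by
    rw [evalEval_polynomialX, e₁, e₂, e₄]
    linear_combination hFx₀
  have kFy : Wb.polynomialY.evalEval x₀ y₀ = 0 := by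
    rw [evalEval_polynomialY, e₁, e₃]
    exact hFy₀
  have kg₁ : g₁ ^ 2 + Wb.a₁ * g₁ - (3 * x₀ + Wb.a₂) = 0 := by
    rw [ha₁, ha₂]; ring
  have kg₂ : g₂ ^ 2 + Wb.a₁ * g₂ - (3 * x₀ + Wb.a₂) = 0 := by
    rw [ha₁, ha₂]; ring
  have hu : A.valuation (x - x₀) < 1 := by rw [Valuation.map_sub_swap]; exact hx₀v
  have hw : A.valuation (y - y₀) < 1 := by rw [Valuation.map_sub_swap]; exact hy₀v
  have hQb : Algebra.IsAlgebraic ℚ Qb := AlgebraicClosure.isAlgebraic ℚ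
  have hval : ∀ z : Qb, A.valuation (τ z) = A.valuation z := fun z => inertia_val_eq A τ hτ z
  have h₂ : Wb.Nonsingular x (Wb.negY x y) := (nonsingular_neg ..).mpr h
  have hsum' : Point.some (τ x) (τ y) h₁ + Point.some x (Wb.negY x y) h₂ =
      Point.some xD yD hD := by
    rw [← hsub, sub_eq_add_neg, Point.neg_some]
  have hu₁ : A.valuation (τ x - x₀) < 1 := by
    have : τ x - x₀ = τ (x - x₀) := by rw [map_sub, fx₀]
    rw [this, hval]; exact hu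
  have hw₁ : A.valuation (τ y - y₀) < 1 := by
    have : τ y - y₀ = τ (y - y₀) := by rw [map_sub, fy₀]
    rw [this, hval]; exact hw
  have hmul' : ∀ {a b : Qb}, A.valuation a ≤ 1 → A.valuation b < 1 →
      A.valuation (a * b) < 1 := by
    intro a b ha hb
    rw [map_mul]
    calc A.valuation a * A.valuation b ≤ 1 * A.valuation b := mul_le_mul' ha le_rfl
      _ = A.valuation b := one_mul _
      _ < 1 := hb
  have eneg : Wb.negY x y - y₀ = - (y - y₀) - Wb.a₁ * (x - x₀) := by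
    rw [evalEval_polynomialY] at kFy
    rw [negY]
    linear_combination -kFy
  have hw₂ : A.valuation (Wb.negY x y - y₀) < 1 := by
    rw [eneg]
    refine Valuation.map_sub_lt _ ?_ (hmul' c₁ hu)
    rw [Valuation.map_neg]; exact hw
  have hξη : A.valuation (τ y - y₀ - g₁ * (τ x - x₀)) =
      A.valuation (Wb.negY x y - y₀ - g₂ * (x - x₀)) := by
    have l1 : τ y - y₀ - g₁ * (τ x - x₀) = τ (y - y₀ - g₁ * (x - x₀)) := by
      simp only [map_sub, map_mul, fx₀, fy₀, fg₁]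
    have l2 : Wb.negY x y - y₀ - g₂ * (x - x₀) = - (y - y₀ - g₁ * (x - x₀)) := by
      rw [eneg, ha₁]; ring
    rw [l1, l2, hval, Valuation.map_neg]
  have hηξ : A.valuation (τ y - y₀ - g₂ * (τ x - x₀)) =
      A.valuation (Wb.negY x y - y₀ - g₁ * (x - x₀)) := by
    have l1 : τ y - y₀ - g₂ * (τ x - x₀) = τ (y - y₀ - g₂ * (x - x₀)) := by
      simp only [map_sub, map_mul, fx₀, fy₀, fg₂]
    have l2 : Wb.negY x y - y₀ - g₁ * (x - x₀) = - (y - y₀ - g₂ * (x - x₀)) := by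
      rw [eneg, ha₁]; ring
    rw [l1, l2, hval, Valuation.map_neg]
  exact S58NA_main A.valuation Wb c₁ c₂ c₄ c₃
    ((A.valuation_le_one_iff _).2 hx₀) ((A.valuation_le_one_iff _).2 hy₀)
    ((A.valuation_le_one_iff _).2 hg₁) ((A.valuation_le_one_iff _).2 hg₂)
    kFx kFy kg₁ kg₂ hdiff h₁ h₂ hu₁ hw₁ hu hw₂ hξη hηξ hD hsum' hxD hyD

/-- **the key of E3-RAW**. -/
theorem S58EK_key (W : WeierstrassCurve ℤ) : S58PL_Key W := by
  intro q hq hqΔ hc4 n hn A hA τ hτ x y h hP hx hy hFx hFy xD yD hD hsub hxD hyD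
  obtain ⟨e₁, e₂, e₃, e₄, e₆⟩ := S58E3G_coeff W
  have h₁ : (((W.map (Int.castRingHom ℚ)).toAffine)⁄Qb).Nonsingular (τ x) (τ y) :=
    ((W.map (Int.castRingHom ℚ)).toAffine.baseChange_nonsingular τ.toAlgHom.injective x y).mpr h
  exact S58EK_aux W (((W.map (Int.castRingHom ℚ)).toAffine)⁄Qb) e₁ e₂ e₃ e₄ hq hc4 A hA τ hτ
    x y h hx hy hFx hFy h₁ xD yD hD hsub hxD hyD

/-- **E3-RAW, closed**: at a prime `q ∤ c₄`, `(τ - 1) ^ 2 = 0` on `W[n]`, `n` prime to `q`. -/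
theorem S58EK_raw (W : WeierstrassCurve ℤ) : S58T_E3raw W :=
  S58PL_main W (S58EK_key W)

end Fermat.Agent.S58_helper25_E3KEY
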