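import Mathlib
import Fermat.Prelude.Def_AlgebraicCurve_DivisorClassGroup
import Fermat.Agent.S58_helper19_E1AF
import Fermat.Agent.S58_helper26_KERBC

/-!
# S58, (E1) [KERBOUND] (helper26): closed form on the curve

`l` prime, `W₀ : WeierstrassCurve.Affine (ZMod l)` with `Δ ≠ 0`, `k` algebraically closed over
`ZMod l`, `phi = S58FR_phi l W₀ k` the Frobenius on `W₀(k)`, `a = l + 1 - #W₀(ZMod l)`.

* `S58KBF_count`  : a finite set `T` of torsion points of `W₀(k)` with `phi = c` on `T` has at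
  most `c ^ 2 - a c + l` elements;
* `S58KBF_main`   : if `|a| + l < p ^ m`, a finite set of points killed by `p ^ m` with `phi = c`
  on it (any integer `c`) has fewer than `p ^ (2 m)` elements;
* `S58KBF_exists_m`: such an `m ≥ 1` exists for every `p ≥ 2`.
-/

set_option autoImplicit false

namespace Fermat.Agent.S58_helper26_KERBF

open AlgebraicCurve WeierstrassCurve WeierstrassCurve.Affine
open Fermat.Agent.S58_helper19_E1DEFS Fermat.Agent.S58_helper19_PAR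
open Fermat.Agent.S58_helper19_FROB Fermat.Agent.S58_helper19_E1A
open Fermat.Agent.S58_helper19_E1AC Fermat.Agent.S58_helper19_E1AF
open Fermat.Agent.S58_helper7_KRC Fermat.Agent.S58_helper26_KERBC

variable (l : ℕ) [Fact l.Prime] (W₀ : WeierstrassCurve.Affine (ZMod l))
  (k : Type*) [Field k] [Algebra (ZMod l) k] [IsAlgClosed k] [DecidableEq k]

omit [DecidableEq k] in
/-- the bricks of (E1a) on the function field of the curve, in the shape of `KERBC`. -/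
theorem S58KBF_bricks (hΔ : W₀.Δ ≠ 0) [DecidableEq (S58E1AC_F l W₀ k)] :
    S58E1_PF k (S58E1AC_F l W₀ k) ∧
    (∀ S T : (W₀⁄(S58E1AC_F l W₀ k)).Point,
      S58E1_h k (W₀⁄(S58E1AC_F l W₀ k)) (S + T) + S58E1_h k (W₀⁄(S58E1AC_F l W₀ k)) (S - T) =
        2 * S58E1_h k (W₀⁄(S58E1AC_F l W₀ k)) S + 2 * S58E1_h k (W₀⁄(S58E1AC_F l W₀ k)) T) ∧
    (∀ S : (W₀⁄(S58E1AC_F l W₀ k)).Point,
      S58E1_h k (W₀⁄(S58E1AC_F l W₀ k)) (S58FR_phi l W₀ (S58E1AC_F l W₀ k) S - S)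
        = (Nat.card W₀.Point : ℤ) * S58E1_h k (W₀⁄(S58E1AC_F l W₀ k)) S) ∧
    0 < S58E1_h k (W₀⁄(S58E1AC_F l W₀ k)) (S58E1AC_G l W₀ k hΔ) := by
  have hΔk : (W₀⁄k).Δ ≠ 0 := S58E1AF_Δk l W₀ k hΔ
  have hΔF : (W₀⁄(S58E1AC_F l W₀ k)).Δ ≠ 0 := S58E1AC_Δ_ne_zero l W₀ k hΔ
  have hPF : S58E1_PF k (S58E1AC_F l W₀ k) :=
    Fermat.Agent.S58_helper21_PFC.S58PF_ell (W₀⁄k) hΔk
  have hD : S58PAR_Dup k (W₀⁄(S58E1AC_F l W₀ k)) :=
    Fermat.Agent.S58_helper1_DUPP.S58DUPP_tower hPF W₀ hΔk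
  have hA : S58PAR_AVal k (W₀⁄(S58E1AC_F l W₀ k)) := by
    have key : ∀ W0 : WeierstrassCurve (ZMod l), (W0.map (algebraMap (ZMod l) k)).Δ ≠ 0 →
        S58PAR_AVal k (W0.map (algebraMap (ZMod l) (S58E1AC_F l W₀ k))).toAffine := by
      intro W0 h
      have e : W0.map (algebraMap (ZMod l) (S58E1AC_F l W₀ k))
          = (W0.map (algebraMap (ZMod l) k)).map (algebraMap k (S58E1AC_F l W₀ k)) := by
        rw [WeierstrassCurve.map_map, ← IsScalarTower.algebraMap_eq]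
      rw [e]
      exact Fermat.Agent.S58_helper4_AVAL.S58AV_main_const _ h
    exact key W₀ hΔk
  have hpar := S58PAR_main hPF (W₀⁄(S58E1AC_F l W₀ k)) hA hD
  have : CharP (S58E1AC_F l W₀ k) l :=
    charP_of_injective_algebraMap (algebraMap (ZMod l) (S58E1AC_F l W₀ k)).injective l
  have hφ : ∀ (x y : S58E1AC_F l W₀ k) (h : (W₀⁄(S58E1AC_F l W₀ k)).Nonsingular x y),
      ∃ h', S58FR_phi l W₀ (S58E1AC_F l W₀ k) (Point.some x y h)
        = Point.some (x ^ l) (y ^ l) h' := fun x y h => S58FR_phi_some l W₀ _ h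
  have hKR : ∀ S : (W₀⁄(S58E1AC_F l W₀ k)).Point,
      S58E1_h k (W₀⁄(S58E1AC_F l W₀ k)) (S58FR_phi l W₀ (S58E1AC_F l W₀ k) S - S)
        = (Nat.card W₀.Point : ℤ) * S58E1_h k (W₀⁄(S58E1AC_F l W₀ k)) S := fun S =>
    Fermat.Agent.S58_helper7_KRG.S58KRG_main l W₀ (S58FR_phi l W₀ (S58E1AC_F l W₀ k)) hφ k hPF
      hpar
      (fun T hT v S => Fermat.Agent.S58_helper6_KRLOC.S58KR_loc k v l
        (W₀⁄(S58E1AC_F l W₀ k)) (Fermat.Agent.S58_helper7_KRG.S58KRG_coeff l W₀) hΔF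
        (S58FR_phi l W₀ (S58E1AC_F l W₀ k)) hφ T hT S) S
  refine ⟨hPF, hpar, hKR, ?_⟩
  -- the generic point has positive height: `x` has a pole
  obtain ⟨v, hv⟩ := Fermat.Agent.S58_helper21_PFC.S58PF_ell_exists_pole (W₀⁄k) hΔk
  have hG : S58E1_h k (W₀⁄(S58E1AC_F l W₀ k)) (S58E1AC_G l W₀ k hΔ)
      = S58E1_hX k (Fermat.Agent.S58_helper10_PFELL.S58FE_x (W₀⁄k)) := rfl
  rw [hG, S58E1_hX]
  have hpos : 0 < S58E1_lam k v (Fermat.Agent.S58_helper10_PFELL.S58FE_x (W₀⁄k)) :=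
    (S58E1_lam_pos_iff v _).mpr hv
  have hle := single_le_finsum v (S58E1_lam_support_finite hPF
    (Fermat.Agent.S58_helper10_PFELL.S58FE_x (W₀⁄k))) (fun w => S58E1_lam_nonneg w _)
  exact lt_of_lt_of_le hpos hle

omit [Fact l.Prime] in
theorem S58KBF_not_sq (hl : l.Prime) (c : ℤ) : c ^ 2 ≠ (l : ℤ) := by
  intro h
  have hp : Prime (l : ℤ) := Nat.prime_iff_prime_int.mp hl
  exact hp.irreducible.not_isSquare ⟨c, by rw [← h, sq]⟩

/-- **[KERBOUND], closed, non-scalar form.** -/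
theorem S58KBF_main (hΔ : W₀.Δ ≠ 0) (p m : ℕ)
    (hpm : |(l : ℤ) + 1 - (Nat.card W₀.Point : ℤ)| + (l : ℤ) < ((p ^ m : ℕ) : ℤ))
    (c : ℤ) (T : Finset (W₀⁄k).Point)
    (hT : ∀ P ∈ T, S58FR_phi l W₀ k P = c • P)
    (hTm : ∀ P ∈ T, (p ^ m) • P = 0) :
    T.card < p ^ (2 * m) := by
  classical
  obtain ⟨hPF, hpar, hKR, hG⟩ := S58KBF_bricks l W₀ k hΔ
  have hcard : (Fintype.card (ZMod l) : ℤ) = (l : ℤ) := by rw [ZMod.card]
  refine S58KB_nonscalar (𝔽 := ZMod l) k (F := S58E1AC_F l W₀ k) W₀ hPF hpar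
    (fun S => ?_) (Nat.card W₀.Point : ℤ) hKR (S58E1AC_G l W₀ k hΔ) hG
    (fun c => ?_) p m ?_ c T hTm hT
  · rw [hcard]
    exact S58E1A_SC l W₀ S
  · rw [hcard]
    exact S58KBF_not_sq l (Fact.out) c
  · rw [hcard]
    exact hpm

/-- **[KERBOUND], closed, counting form.** -/
theorem S58KBF_count (hΔ : W₀.Δ ≠ 0) (c : ℤ) (T : Finset (W₀⁄k).Point)
    (hT : ∀ P ∈ T, S58FR_phi l W₀ k P = c • P)
    (htors : ∀ P ∈ T, ∃ n : ℤ, n ≠ 0 ∧ n • P = 0) :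
    (T.card : ℤ) ≤ c ^ 2 - ((l : ℤ) + 1 - (Nat.card W₀.Point : ℤ)) * c + (l : ℤ) := by
  classical
  obtain ⟨hPF, hpar, hKR, hG⟩ := S58KBF_bricks l W₀ k hΔ
  have hcard : (Fintype.card (ZMod l) : ℤ) = (l : ℤ) := by rw [ZMod.card]
  have key := S58KB_count (𝔽 := ZMod l) k (F := S58E1AC_F l W₀ k) W₀ hPF hpar
    (fun S => by rw [hcard]; exact S58E1A_SC l W₀ S) (Nat.card W₀.Point : ℤ) hKR
    (S58E1AC_G l W₀ k hΔ) hG (fun c => by rw [hcard]; exact S58KBF_not_sq l (Fact.out) c)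
    c T hT htors
  rw [hcard] at key
  exact key

omit [Fact l.Prime] in
/-- a suitable exponent exists. -/
theorem S58KBF_exists_m (p : ℕ) (hp : 2 ≤ p) (B : ℤ) :
    ∃ m : ℕ, 1 ≤ m ∧ B < ((p ^ m : ℕ) : ℤ) := by
  refine ⟨B.toNat + 1, Nat.succ_le_succ (Nat.zero_le _), ?_⟩
  have h1 : B.toNat + 1 < p ^ (B.toNat + 1) := Nat.lt_pow_self hp
  have h2 : B ≤ (B.toNat : ℤ) := Int.self_le_toNat B
  have h3 : ((B.toNat + 1 : ℕ) : ℤ) < ((p ^ (B.toNat + 1) : ℕ) : ℤ) := by exact_mod_cast h1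
  push_cast at h3 ⊢
  linarith

end Fermat.Agent.S58_helper26_KERBF
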