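import Mathlib
import Fermat.Prelude.Def_AlgebraicCurve_DivisorClassGroup
import Fermat.Agent.S58_helper19_E1AF
import Fermat.Agent.S58_helper26_KERBC
import Fermat.Agent.S58_helper19_E1P
import Fermat.Agent.S58_helper6_HNS
import Fermat.Agent.S58_helper3_E0CNT
import Fermat.Agent.S58_helper14_XFER
import Fermat.Agent.S58_helper27_PUSH

/-
S58 (E1), FINAL (helper27): `S58EF_main : S58XF_E1 W lam` from `W.Δ ≠ 0` alone.

For `W` over the integers with `Δ ≠ 0`, a prime `lam`, a good prime `ℓ ≠ lam`, a place `A` over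
`ℓ` and a Frobenius element `σ` at `A`: the characteristic polynomial of `σ` on `W[lam ^ k]`
is `X² - a_ℓ X + ℓ`, for every `k` and every basis.

* `S58EF_kb`   : [KB-PLUG] helper26's kernel bound `S58KB_nonscalar` on the function field of the
                 reduced curve, with all its height hypotheses discharged by the bricks of
                 helper19's assembly (PF, A-VAL, DUP, PAR, SC, KR, CONST), the generic point
                 having positive height because `x` is transcendental;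
* `S58EF_main` : `S58TP_main` (TRACE + PUSH) with (E0) = `S58E0N_E0` (helper3), the relation
                 = `S58E1P_hrel` (helper19 / helper25 / helper5), the non-scalar hypothesis
                 = `S58HNS_hns` (helper6) at a level `m` with `lam ^ m > |a_ℓ| + ℓ`;
* `S58EF_E1`   : the shape consumed by `S58_helper18_FINAL.S58F_main`.
-/

set_option autoImplicit false
set_option linter.style.haveILetI false

namespace Fermat.Agent.S58_helper27_E1FIN

open AlgebraicCurve WeierstrassCurve WeierstrassCurve.Affine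
open Fermat.Agent.S58_helper19_E1DEFS Fermat.Agent.S58_helper19_PAR
open Fermat.Agent.S58_helper19_FROB Fermat.Agent.S58_helper19_E1A
open Fermat.Agent.S58_helper19_E1AC Fermat.Agent.S58_helper19_E1AF
open Fermat.Agent.S58_helper19_CONST Fermat.Agent.S58_helper10_PFELL
open Fermat.Agent.S58_helper7_KRC Fermat.Agent.S58_helper26_KERBC

/-- a prime is not a square -/
theorem S58EF_not_sq (l : ℕ) (hl : l.Prime) (c : ℤ) : c ^ 2 ≠ (l : ℤ) := by
  intro h
  have h1 : (c.natAbs ^ 2 : ℕ) = l := by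
    have : ((c.natAbs ^ 2 : ℕ) : ℤ) = (l : ℤ) := by
      rw [Nat.cast_pow, Int.natCast_natAbs, sq_abs, h]
    exact_mod_cast this
  have h2 : c.natAbs ∣ l := ⟨c.natAbs, by rw [← h1, sq]⟩
  rcases (Nat.dvd_prime hl).1 h2 with h3 | h3
  · rw [h3, one_pow] at h1
    exact hl.ne_one h1.symm
  · rw [h3] at h1
    have : l * l = l * 1 := by rw [mul_one, ← sq]; exact h1
    exact hl.ne_one (Nat.eq_of_mul_eq_mul_left hl.pos this)

variable (l : ℕ) [Fact l.Prime] (W₀ : WeierstrassCurve.Affine (ZMod l))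

/-- **[KB-PLUG]**: helper26's `S58KB_nonscalar` with all height hypotheses discharged. -/
theorem S58EF_kb (hΔ : W₀.Δ ≠ 0) (p m : ℕ)
    (hpm : |(l : ℤ) + 1 - (Nat.card W₀.Point : ℤ)| + (l : ℤ) < ((p ^ m : ℕ) : ℤ))
    (k : Type) [Field k] [Algebra (ZMod l) k] [IsAlgClosed k] [DecidableEq k]
    (c : ℤ) (T : Finset (W₀⁄k).Point)
    (hT : ∀ P ∈ T, S58FR_phi l W₀ k P = c • P) (hTm : ∀ P ∈ T, (p ^ m : ℕ) • P = 0) :
    T.card < p ^ (2 * m) := by
  classical
  have hl : l.Prime := Fact.out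
  have hΔk : (W₀⁄k).Δ ≠ 0 := S58E1AF_Δk l W₀ k hΔ
  have hΔF : (W₀⁄(S58E1AC_F l W₀ k)).Δ ≠ 0 := S58E1AC_Δ_ne_zero l W₀ k hΔ
  have hPF : S58E1_PF k (S58E1AC_F l W₀ k) :=
    Fermat.Agent.S58_helper21_PFC.S58PF_ell (W₀⁄k) hΔk
  have hNP : ∀ u : S58E1AC_F l W₀ k, (∀ v : Place k (S58E1AC_F l W₀ k), 0 ≤ v.ord u) →
      u ∈ Set.range (algebraMap k (S58E1AC_F l W₀ k)) := fun u hu => by
    obtain ⟨c, hc⟩ := Fermat.Agent.S58_helper21_PFC.S58PF_ell_const (W₀⁄k) hΔk u hu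
    exact ⟨c, hc.symm⟩
  have hD : S58PAR_Dup k (W₀⁄(S58E1AC_F l W₀ k)) :=
    Fermat.Agent.S58_helper1_DUPP.S58DUPP_tower hPF W₀ hΔk
  have hA : S58PAR_AVal k (W₀⁄(S58E1AC_F l W₀ k)) := by
    have key : ∀ W0 : WeierstrassCurve (ZMod l), (W0.map (algebraMap (ZMod l) k)).Δ ≠ 0 →
        S58PAR_AVal k (W0.map (algebraMap (ZMod l) (S58E1AC_F l W₀ k))).toAffine := by
      intro W0 h
      have e : W0.map (algebraMap (ZMod l) (S58E1AC_F l W₀ k))
          = (W0.map (algebraMap (ZMod l) k)).map (algebraMap k (S58E1AC_F l W₀ k)) := by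
        rw [WeierstrassCurve.map_map, ← IsScalarTower.algebraMap_eq]
      rw [e]
      exact Fermat.Agent.S58_helper4_AVAL.S58AV_main_const _ h
    exact key W₀ hΔk
  have hpar := S58PAR_main hPF (W₀⁄(S58E1AC_F l W₀ k)) hA hD
  have : CharP (S58E1AC_F l W₀ k) l :=
    charP_of_injective_algebraMap (algebraMap (ZMod l) (S58E1AC_F l W₀ k)).injective l
  have hφ : ∀ (x y : S58E1AC_F l W₀ k) (h : (W₀⁄(S58E1AC_F l W₀ k)).Nonsingular x y),
      ∃ h', S58FR_phi l W₀ (S58E1AC_F l W₀ k) (Point.some x y h)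
        = Point.some (x ^ l) (y ^ l) h' := fun x y h => S58FR_phi_some l W₀ _ h
  have hKR : ∀ S : (W₀⁄(S58E1AC_F l W₀ k)).Point,
      S58E1_h k (W₀⁄(S58E1AC_F l W₀ k)) (S58FR_phi l W₀ (S58E1AC_F l W₀ k) S - S)
        = (Nat.card W₀.Point : ℤ) * S58E1_h k (W₀⁄(S58E1AC_F l W₀ k)) S := fun S =>
    Fermat.Agent.S58_helper7_KRG.S58KRG_main l W₀ (S58FR_phi l W₀ (S58E1AC_F l W₀ k)) hφ k hPF
      hpar
      (fun T hT v S => Fermat.Agent.S58_helper6_KRLOC.S58KR_loc k v l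
        (W₀⁄(S58E1AC_F l W₀ k)) (Fermat.Agent.S58_helper7_KRG.S58KRG_coeff l W₀) hΔF
        (S58FR_phi l W₀ (S58E1AC_F l W₀ k)) hφ T hT S) S
  -- the generic point has positive height
  have hG : 0 < S58E1_h k (W₀⁄(S58E1AC_F l W₀ k)) (S58E1AC_G l W₀ k hΔ) := by
    refine lt_of_le_of_ne (S58E1_h_nonneg _ _) (fun h0 => ?_)
    obtain ⟨c0, hc0⟩ := S58CONST_main l W₀ hPF hNP (S58E1AC_G l W₀ k hΔ) h0.symm
    rcases c0 with _ | ⟨x0, y0, h0'⟩
    · have h1 : S58E1A_iota l W₀ (F := S58E1AC_F l W₀ k) (Point.zero : (W₀⁄k).Point)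
          = (Point.zero : (W₀⁄(S58E1AC_F l W₀ k)).Point) := rfl
      rw [h1] at hc0
      unfold S58E1AC_G at hc0
      exact absurd hc0 (by simp)
    · have hx : algebraMap k (S58E1AC_F l W₀ k) x0 = S58FE_x (W₀⁄k) := by
        have h1 : S58E1A_iota l W₀ (F := S58E1AC_F l W₀ k) (Point.some x0 y0 h0')
            = Point.some (algebraMap k (S58E1AC_F l W₀ k) x0)
                (algebraMap k (S58E1AC_F l W₀ k) y0)
                ((W₀.baseChange_nonsingular
                  (IsScalarTower.toAlgHom (ZMod l) k (S58E1AC_F l W₀ k)).injective ..).mpr h0') :=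
          rfl
        rw [h1] at hc0
        unfold S58E1AC_G at hc0
        injection hc0
      have htr := S58FE_transcendental (W₀⁄k)
      apply htr
      have hx' : (algebraMap (Polynomial k) (toAffine W₀⁄k).FunctionField) Polynomial.X
          = algebraMap k (S58E1AC_F l W₀ k) x0 := hx.symm
      rw [hx']
      exact isAlgebraic_algebraMap x0
  have hcard : (Fintype.card (ZMod l) : ℤ) = (l : ℤ) := by rw [ZMod.card]
  refine S58KB_nonscalar k W₀ hPF hpar (fun S => ?_) (Nat.card W₀.Point : ℤ) (fun S => ?_)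
    (S58E1AC_G l W₀ k hΔ) hG (fun c => ?_) p m ?_ c T hTm hT
  · rw [hcard]
    exact S58E1A_SC l W₀ S
  · exact hKR S
  · rw [hcard]
    exact S58EF_not_sq l hl c
  · rw [hcard]
    exact hpm

/-- a power of `p ≥ 2` above any bound, with positive exponent -/
theorem S58EF_exists_m (p : ℕ) (hp : 2 ≤ p) (B : ℤ) : ∃ m : ℕ, 1 ≤ m ∧ B < ((p ^ m : ℕ) : ℤ) := by
  refine ⟨B.toNat + 1, Nat.le_add_left _ _, ?_⟩
  have h1 : B.toNat + 1 < 2 ^ (B.toNat + 1) := Nat.lt_two_pow_self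
  have h2 : 2 ^ (B.toNat + 1) ≤ p ^ (B.toNat + 1) := Nat.pow_le_pow_left hp _
  have h3 : B ≤ (B.toNat : ℤ) := Int.self_le_toNat B
  have h4 : ((B.toNat + 1 : ℕ) : ℤ) < ((p ^ (B.toNat + 1) : ℕ) : ℤ) := by
    exact_mod_cast lt_of_lt_of_le h1 h2
  push_cast at h4 ⊢
  linarith

open Fermat.Agent.S58_helper2_TORS Fermat.Agent.S58_helper14_XFER
  Fermat.Agent.S58_helper27_PUSH Fermat.Agent.S58_helper6_HNS Polynomial

/-- **(E1), FINAL**: the characteristic polynomial of a Frobenius element at a good prime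
`ℓ ≠ lam` on `W[lam ^ k]` is `X² - a_ℓ X + ℓ`; no hypothesis but `Δ ≠ 0`. -/
theorem S58EF_main (W : WeierstrassCurve ℤ) (hΔ : W.Δ ≠ 0) (lam : ℕ) [Fact lam.Prime] :
    S58XF_E1 W lam := by
  intro ℓ hℓ hgood hne k b A hA σ hσ
  haveI : Fact ℓ.Prime := ⟨hℓ⟩
  have hlam : lam.Prime := Fact.out
  have hE0 : S58T_E0 W lam := Fermat.Agent.S58_helper3_E0CNT.S58E0N_E0 W hΔ lam
  have hgood' : ¬ (ℓ : ℤ) ∣ W.Δ := hgood
  obtain ⟨m, hm, hpm⟩ := S58EF_exists_m lam hlam.two_le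
    (|(ℓ : ℤ) + 1 - (Nat.card (W.reductionMod ℓ).toAffine.Point : ℤ)| + (ℓ : ℤ))
  have hKB : S58HNS_KB ℓ (W.reductionMod ℓ).toAffine (lam ^ m) (lam ^ (2 * m)) :=
    fun k' _ _ _ _ c T hT hTm =>
      S58EF_kb ℓ (W.reductionMod ℓ).toAffine
        (Fermat.Agent.S58_helper19_E1P.S58E1P_Δ W ℓ hgood') lam m hpm k' c T hT hTm
  have key := S58TP_main W lam hE0 σ (W.apOfModel ℓ) (ℓ : ℤ)
    (fun K P => Fermat.Agent.S58_helper19_E1P.S58E1P_hrel W ℓ hgood' lam hlam hne A hA σ hσ K P)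
    m hm (S58HNS_hns W ℓ hgood' lam hne hE0 m hKB A hA σ hσ) k b
  rw [key, Int.cast_natCast]

/-- (E1) in the shape consumed by `S58_helper18_FINAL.S58F_main` -/
theorem S58EF_E1 : ∀ (W : WeierstrassCurve ℤ), W.Δ ≠ 0 → ∀ (lam : ℕ) [Fact lam.Prime],
    lam ≠ 2 → S58XF_E1 W lam :=
  fun W hΔ lam _ _ => S58EF_main W hΔ lam

end Fermat.Agent.S58_helper27_E1FIN
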