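import Mathlib

/-
S58 (E1) brick [TRACE] (helper27): from the operator relation to the characteristic polynomial.

Pure linear algebra, Mathlib only.

* `S58TR_matrix`  : a 2 x 2 matrix `A` with `A * A - a A + l = 0` satisfies
                    `(tr A - a) A = (det A - l) 1`  (Cayley-Hamilton against the relation).
* `S58TR_domain`  : over a domain, a NON-SCALAR endomorphism of a free module of rank 2 killed by
                    `X^2 - a X + l` has characteristic polynomial `X^2 - a X + l`.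
* `S58TR_zmod`    : over `ZMod (p ^ K)` the same statement is FALSE as it stands
                    (`c + p^(K-1) N`); the true statement: if the endomorphism is not an integer
                    scalar on the `p ^ m`-torsion (`1 <= m <= K`), then its characteristic
                    polynomial is `X^2 - a X + l` modulo `p ^ (K + 1 - m)`.  For `m = 1`
                    (non-scalar modulo `p`) this is the exact equality (`S58TR_zmod_one`).
-/

set_option autoImplicit false
open Polynomial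

namespace Fermat.Agent.S58_helper27_TRACE

/-- Cayley-Hamilton for `2 × 2` matrices, explicitly -/
theorem S58TR_cayley {R : Type*} [CommRing R] (A : Matrix (Fin 2) (Fin 2) R) :
    A * A = A.trace • A - A.det • (1 : Matrix (Fin 2) (Fin 2) R) := by
  ext i j
  fin_cases i <;> fin_cases j <;>
    simp [Matrix.mul_apply, Fin.sum_univ_two, Matrix.trace_fin_two, Matrix.det_fin_two] <;> ring

/-- Cayley-Hamilton against a second quadratic relation, for `2 × 2` matrices -/
theorem S58TR_matrix {R : Type*} [CommRing R] (A : Matrix (Fin 2) (Fin 2) R) (a l : R)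
    (hrel : A * A - a • A + l • (1 : Matrix (Fin 2) (Fin 2) R) = 0) :
    (A.trace - a) • A = (A.det - l) • (1 : Matrix (Fin 2) (Fin 2) R) := by
  have h := S58TR_cayley A
  rw [h] at hrel
  rw [sub_smul, sub_smul]
  have : A.trace • A - a • A - (A.det • (1 : Matrix (Fin 2) (Fin 2) R) - l • 1) = 0 := by
    rw [← hrel]
    abel
  exact sub_eq_zero.1 this

/-- the entries of the relation `(t - a) A = (d - l)` -/
theorem S58TR_entries {R : Type*} [CommRing R] (A : Matrix (Fin 2) (Fin 2) R) (a l : R)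
    (hrel : A * A - a • A + l • (1 : Matrix (Fin 2) (Fin 2) R) = 0) :
    (A.trace - a) * A 0 1 = 0 ∧ (A.trace - a) * A 1 0 = 0 ∧
      (A.trace - a) * A 0 0 = A.det - l ∧ (A.trace - a) * A 1 1 = A.det - l := by
  have h := S58TR_matrix A a l hrel
  have h01 := congrFun (congrFun h 0) 1
  have h10 := congrFun (congrFun h 1) 0
  have h00 := congrFun (congrFun h 0) 0
  have h11 := congrFun (congrFun h 1) 1
  simp at h01 h10 h00 h11
  exact ⟨by simpa using h01, by simpa using h10, h00, h11⟩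

/-- the matrix of an endomorphism killed by `X² - a X + l` satisfies the same relation -/
theorem S58TR_toMatrix {R : Type*} [CommRing R] {M : Type*} [AddCommGroup M] [Module R M]
    (b : Module.Basis (Fin 2) R M) (σ : M →ₗ[R] M) (a l : R)
    (hrel : ∀ x : M, σ (σ x) - a • σ x + l • x = 0) :
    LinearMap.toMatrix b b σ * LinearMap.toMatrix b b σ - a • LinearMap.toMatrix b b σ
      + l • (1 : Matrix (Fin 2) (Fin 2) R) = 0 := by
  have hσ : σ * σ - a • σ + l • (1 : Module.End R M) = 0 := by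
    ext x
    simpa using hrel x
  have hA := congrArg (LinearMap.toMatrixAlgEquiv b) hσ
  rw [map_add, map_sub, map_mul, map_smul, map_smul, map_one, map_zero] at hA
  exact hA

/-- the characteristic polynomial in terms of the matrix in a basis -/
theorem S58TR_charpoly_eq {R : Type*} [CommRing R] [Nontrivial R] {M : Type*} [AddCommGroup M]
    [Module R M] [Module.Free R M] [Module.Finite R M]
    (b : Module.Basis (Fin 2) R M) (σ : M →ₗ[R] M) :
    σ.charpoly = X ^ 2 - C (LinearMap.toMatrix b b σ).trace * X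
      + C (LinearMap.toMatrix b b σ).det := by
  rw [← LinearMap.charpoly_toMatrix σ b, Matrix.charpoly_fin_two]

/-- over a domain: a non-scalar endomorphism of a free module of rank 2 killed by
`X² - a X + l` has characteristic polynomial `X² - a X + l` -/
theorem S58TR_domain {R : Type*} [CommRing R] [IsDomain R] {M : Type*} [AddCommGroup M]
    [Module R M] [Module.Free R M] [Module.Finite R M] (hrank : Module.finrank R M = 2)
    (σ : M →ₗ[R] M) (a l : R) (hrel : ∀ x : M, σ (σ x) - a • σ x + l • x = 0)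
    (hns : ¬ ∃ c : R, ∀ x : M, σ x = c • x) :
    σ.charpoly = X ^ 2 - C a * X + C l := by
  classical
  let b : Module.Basis (Fin 2) R M := Module.finBasisOfFinrankEq R M hrank
  have hA := S58TR_toMatrix b σ a l hrel
  obtain ⟨h01, h10, h00, h11⟩ := S58TR_entries _ a l hA
  rw [S58TR_charpoly_eq b σ]
  by_cases ht : (LinearMap.toMatrix b b σ).trace = a
  · rw [ht, sub_self, zero_mul] at h00
    rw [ht, ← sub_eq_zero.1 h00.symm]
  · exfalso
    have hne : (LinearMap.toMatrix b b σ).trace - a ≠ 0 := sub_ne_zero.2 ht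
    have e01 : LinearMap.toMatrix b b σ 0 1 = 0 := (mul_eq_zero.1 h01).resolve_left hne
    have e10 : LinearMap.toMatrix b b σ 1 0 = 0 := (mul_eq_zero.1 h10).resolve_left hne
    have e11 : LinearMap.toMatrix b b σ 1 1 = LinearMap.toMatrix b b σ 0 0 :=
      mul_left_cancel₀ hne (h11.trans h00.symm)
    apply hns
    refine ⟨LinearMap.toMatrix b b σ 0 0, fun x => ?_⟩
    apply b.repr.injective
    ext i
    rw [← LinearMap.toMatrix_mulVec_repr b b σ x, map_smul, Finsupp.smul_apply, smul_eq_mul,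
      Matrix.mulVec, dotProduct, Fin.sum_univ_two]
    fin_cases i
    · simp [e01]
    · simp [e10, e11]

/-- in `ℤ / p^K`: an element killed by `p^m` is a multiple of `p^(K - m)` -/
theorem S58TR_killed (p : ℕ) [Fact p.Prime] (K m : ℕ) (hmK : m ≤ K) (z : ZMod (p ^ K))
    (hz : ((p ^ m : ℕ) : ZMod (p ^ K)) * z = 0) :
    ∃ y : ZMod (p ^ K), z = ((p ^ (K - m) : ℕ) : ZMod (p ^ K)) * y := by
  have hp : p.Prime := Fact.out
  have : NeZero (p ^ K) := ⟨pow_ne_zero K hp.ne_zero⟩
  have hzv : ((z.val : ℕ) : ZMod (p ^ K)) = z := ZMod.natCast_zmod_val z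
  rw [← hzv, ← Nat.cast_mul, ZMod.natCast_eq_zero_iff] at hz
  have hK : p ^ K = p ^ m * p ^ (K - m) := by rw [← pow_add, Nat.add_sub_cancel' hmK]
  have hz' : p ^ m * p ^ (K - m) ∣ p ^ m * z.val := hK ▸ hz
  obtain ⟨y, hy⟩ := Nat.dvd_of_mul_dvd_mul_left (pow_pos hp.pos m) hz'
  refine ⟨(y : ZMod (p ^ K)), ?_⟩
  rw [← hzv, hy, Nat.cast_mul]

/-- in `ℤ / p^K`: an element is a multiple of `p^e` or a unit times a smaller power of `p` -/
theorem S58TR_valuation (p : ℕ) [Fact p.Prime] (K e : ℕ) (s : ZMod (p ^ K)) :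
    (∃ u : ZMod (p ^ K), s = ((p ^ e : ℕ) : ZMod (p ^ K)) * u) ∨
      ∃ j : ℕ, j < e ∧ ∃ w : ZMod (p ^ K), IsUnit w ∧ s = ((p ^ j : ℕ) : ZMod (p ^ K)) * w := by
  have hp : p.Prime := Fact.out
  have : NeZero (p ^ K) := ⟨pow_ne_zero K hp.ne_zero⟩
  have hsv : ((s.val : ℕ) : ZMod (p ^ K)) = s := ZMod.natCast_zmod_val s
  by_cases hn : s.val = 0
  · left
    refine ⟨0, ?_⟩
    rw [← hsv, hn]
    simp
  · obtain ⟨j, n', hn', hjn⟩ := Nat.exists_eq_pow_mul_and_not_dvd hn p hp.ne_one
    by_cases hje : j < e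
    · right
      refine ⟨j, hje, (n' : ZMod (p ^ K)), ?_, ?_⟩
      · rw [ZMod.isUnit_iff_coprime]
        exact ((hp.coprime_iff_not_dvd.2 hn').symm).pow_right K
      · rw [← hsv, hjn, Nat.cast_mul]
    · left
      refine ⟨((p ^ (j - e) * n' : ℕ) : ZMod (p ^ K)), ?_⟩
      rw [← hsv, hjn, ← Nat.cast_mul, ← mul_assoc, ← pow_add, Nat.add_sub_cancel' (not_lt.1 hje)]

/-- modulo `p ^ K`: if `σ` is killed by `X² - a X + l` and is not a scalar on the `p ^ m`-torsion,
then its characteristic polynomial is `X² - a X + l` modulo `p ^ (K + 1 - m)` -/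
theorem S58TR_zmod (p : ℕ) [Fact p.Prime] (K m : ℕ) (hm : 1 ≤ m) (hmK : m ≤ K)
    {M : Type*} [AddCommGroup M] [Module (ZMod (p ^ K)) M] [Module.Free (ZMod (p ^ K)) M]
    [Module.Finite (ZMod (p ^ K)) M] (hrank : Module.finrank (ZMod (p ^ K)) M = 2)
    (σ : M →ₗ[ZMod (p ^ K)] M) (a l : ℤ)
    (hrel : ∀ x : M, σ (σ x) - a • σ x + l • x = 0)
    (hns : ∀ c : ℤ, ∃ x : M, (p ^ m : ℕ) • x = 0 ∧ σ x ≠ c • x) :
    ∃ u v : ZMod (p ^ K), σ.charpoly = X ^ 2 - C ((a : ZMod (p ^ K)) + (p ^ (K + 1 - m) : ℕ) * u) * X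
      + C ((l : ZMod (p ^ K)) + (p ^ (K + 1 - m) : ℕ) * v) := by
  classical
  have hp : p.Prime := Fact.out
  have hK1 : 1 ≤ K := hm.trans hmK
  have hne1 : p ^ K ≠ 1 := by
    intro h
    have := Nat.pow_eq_one.1 h
    rcases this with h1 | h1
    · exact hp.ne_one h1
    · omega
  have hnt : Nontrivial (ZMod (p ^ K)) := ZMod.nontrivial_iff.2 hne1
  let b : Module.Basis (Fin 2) (ZMod (p ^ K)) M :=
    Module.finBasisOfFinrankEq (ZMod (p ^ K)) M hrank
  have hrel' : ∀ x : M, σ (σ x) - (a : ZMod (p ^ K)) • σ x + (l : ZMod (p ^ K)) • x = 0 := by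
    intro x
    rw [Int.cast_smul_eq_zsmul, Int.cast_smul_eq_zsmul]
    exact hrel x
  have hA := S58TR_toMatrix b σ (a : ZMod (p ^ K)) (l : ZMod (p ^ K)) hrel'
  obtain ⟨h01, h10, h00, h11⟩ := S58TR_entries _ _ _ hA
  rw [S58TR_charpoly_eq b σ]
  rcases S58TR_valuation p K (K + 1 - m) ((LinearMap.toMatrix b b σ).trace - a)
    with ⟨u, hu⟩ | ⟨j, hj, w, hw, hs⟩
  · refine ⟨u, u * LinearMap.toMatrix b b σ 0 0, ?_⟩
    have ht : (LinearMap.toMatrix b b σ).trace
        = (a : ZMod (p ^ K)) + ((p ^ (K + 1 - m) : ℕ) : ZMod (p ^ K)) * u := by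
      rw [← hu]; ring
    have hd : (LinearMap.toMatrix b b σ).det
        = (l : ZMod (p ^ K)) + ((p ^ (K + 1 - m) : ℕ) : ZMod (p ^ K))
            * (u * LinearMap.toMatrix b b σ 0 0) := by
      rw [← mul_assoc, ← hu, h00]; ring
    rw [ht, hd]
  · exfalso
    have hjm : j + m ≤ K := by omega
    obtain ⟨w', hw'⟩ := hw.exists_left_inv
    have hkill : ∀ e : ZMod (p ^ K), ((LinearMap.toMatrix b b σ).trace - a) * e = 0 →
        ((p ^ j : ℕ) : ZMod (p ^ K)) * e = 0 := by
      intro e he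
      rw [hs] at he
      calc ((p ^ j : ℕ) : ZMod (p ^ K)) * e
          = w' * w * (((p ^ j : ℕ) : ZMod (p ^ K)) * e) := by rw [hw', one_mul]
        _ = w' * (((p ^ j : ℕ) : ZMod (p ^ K)) * w * e) := by ring
        _ = 0 := by rw [he, mul_zero]
    have k01 := hkill _ h01
    have k10 := hkill _ h10
    have k11 := hkill (LinearMap.toMatrix b b σ 1 1 - LinearMap.toMatrix b b σ 0 0) (by
      rw [mul_sub, h11, h00, sub_self])
    obtain ⟨y01, hy01⟩ := S58TR_killed p K j (by omega) _ k01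
    obtain ⟨y10, hy10⟩ := S58TR_killed p K j (by omega) _ k10
    obtain ⟨y11, hy11⟩ := S58TR_killed p K j (by omega) _ k11
    have hc : (((LinearMap.toMatrix b b σ 0 0).val : ℤ) : ZMod (p ^ K))
        = LinearMap.toMatrix b b σ 0 0 := by
      have : NeZero (p ^ K) := ⟨pow_ne_zero K hp.ne_zero⟩
      rw [Int.cast_natCast, ZMod.natCast_zmod_val]
    obtain ⟨x, hx, hne⟩ := hns ((LinearMap.toMatrix b b σ 0 0).val : ℤ)
    apply hne
    have hxi : ∀ i, ((p ^ m : ℕ) : ZMod (p ^ K)) * b.repr x i = 0 := by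
      intro i
      have h1 := congrArg (fun y => b.repr y i) hx
      simp only [map_nsmul, map_zero, Finsupp.smul_apply, Finsupp.zero_apply] at h1
      rw [nsmul_eq_mul] at h1
      exact h1
    obtain ⟨z0, hz0⟩ := S58TR_killed p K m hmK _ (hxi 0)
    obtain ⟨z1, hz1⟩ := S58TR_killed p K m hmK _ (hxi 1)
    have hzero : ((p ^ (K - j) : ℕ) : ZMod (p ^ K)) * ((p ^ (K - m) : ℕ) : ZMod (p ^ K)) = 0 := by
      rw [← Nat.cast_mul, ← pow_add, ZMod.natCast_eq_zero_iff]
      exact pow_dvd_pow p (by omega)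
    apply b.repr.injective
    ext i
    rw [← Int.cast_smul_eq_zsmul (ZMod (p ^ K)), hc, map_smul, Finsupp.smul_apply, smul_eq_mul,
      ← LinearMap.toMatrix_mulVec_repr b b σ x, Matrix.mulVec, dotProduct, Fin.sum_univ_two]
    fin_cases i
    · simp only [Fin.zero_eta]
      rw [hy01, hz1]
      linear_combination (y01 * z1) * hzero
    · simp only [Fin.mk_one]
      have e11 : LinearMap.toMatrix b b σ 1 1 = LinearMap.toMatrix b b σ 0 0
          + ((p ^ (K - j) : ℕ) : ZMod (p ^ K)) * y11 := by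
        rw [← hy11]; ring
      rw [hy10, e11, hz0, hz1]
      linear_combination (y10 * z0 + y11 * z1) * hzero

/-- the case `m = 1`: not a scalar on the `p`-torsion, exact characteristic polynomial -/
theorem S58TR_zmod_one (p : ℕ) [Fact p.Prime] (K : ℕ) (hK : 1 ≤ K)
    {M : Type*} [AddCommGroup M] [Module (ZMod (p ^ K)) M] [Module.Free (ZMod (p ^ K)) M]
    [Module.Finite (ZMod (p ^ K)) M] (hrank : Module.finrank (ZMod (p ^ K)) M = 2)
    (σ : M →ₗ[ZMod (p ^ K)] M) (a l : ℤ)
    (hrel : ∀ x : M, σ (σ x) - a • σ x + l • x = 0)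
    (hns : ∀ c : ℤ, ∃ x : M, p • x = 0 ∧ σ x ≠ c • x) :
    σ.charpoly = X ^ 2 - C (a : ZMod (p ^ K)) * X + C (l : ZMod (p ^ K)) := by
  obtain ⟨u, v, h⟩ := S58TR_zmod p K 1 le_rfl hK hrank σ a l hrel (by simpa using hns)
  have hz : ((p ^ (K + 1 - 1) : ℕ) : ZMod (p ^ K)) = 0 := by
    rw [Nat.add_sub_cancel, ZMod.natCast_self]
  rw [h, hz, zero_mul, zero_mul, add_zero, add_zero]

end Fermat.Agent.S58_helper27_TRACE
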