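import Mathlib
import Fermat.Agent.S13_helper27_DPTorsion
import Fermat.Agent.S58_helper13_FIBRE
import Fermat.Agent.S58_helper3_E0ALG

/-!
# S58, elliptic side (helper2): E0-CARD and E0-DIV

`K` algebraically closed of characteristic zero, `W` a Weierstrass curve over `K` with
`Δ ≠ 0`, `p ≥ 1` with `Φ_p` and `ΨSq_p` coprime:

* `S58E0C_fibre` : a point `Q` and `p ^ 2` distinct points `P` with `p • P = Q`;
* `S58E0C_card_ge`, `S58E0C_card` : `#W[p] = p ^ 2` (`p` an odd prime);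
* `S58E0C_div` : multiplication by `p` is surjective on `W(K)`;
* `S58E0C_E0` : the contract `S58T_E0 W lam` (through helper3's `S58E0A_E0`).
-/

set_option autoImplicit false
set_option linter.style.haveILetI false
set_option linter.unusedSectionVars false
set_option linter.unusedVariables false

open Polynomial WeierstrassCurve WeierstrassCurve.Affine
open Fermat.Agent.S13_helper27_DPG Fermat.Agent.S13_helper19_DPEXIST
open Fermat.Agent.S58_helper13_FIBRE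

noncomputable section

namespace Fermat.Agent.S58_helper2_E0CD

variable {K : Type*} [Field K] [DecidableEq K] [IsAlgClosed K] [CharZero K]
  (W : WeierstrassCurve.Affine K)

theorem S58E0C_deg (p : ℕ) (hp : 1 ≤ p) :
    (W.ΨSq (p : ℤ)).natDegree < (W.Φ (p : ℤ)).natDegree ∧ (W.Φ (p : ℤ)).natDegree = p ^ 2 := by
  have hpK : ((p : ℤ) : K) ≠ 0 := by
    have : (p : K) ≠ 0 := Nat.cast_ne_zero.mpr (by omega)
    exact_mod_cast this
  have h0 : 0 < p ^ 2 := by positivity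
  rw [W.natDegree_ΨSq hpK, W.natDegree_Φ]
  simp only [Int.natAbs_natCast]
  refine ⟨?_, trivial⟩
  omega

/-- a chosen point above every `x`. -/
def S58E0C_pt (hΔ : W.Δ ≠ 0) (x : K) : W.Point :=
  Point.some x (exists_point_of_X W hΔ x).choose (exists_point_of_X W hΔ x).choose_spec

theorem S58E0C_pt_xc (hΔ : W.Δ ≠ 0) (x : K) : xc W (S58E0C_pt W hΔ x) = x := rfl

theorem S58E0C_pt_ne (hΔ : W.Δ ≠ 0) (x : K) : S58E0C_pt W hΔ x ≠ 0 := Point.some_ne_zero _

/-- at a generic `x` in the fibre of `c`, the `p`-th multiple of a point above `x` is an affine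
point with `x`-coordinate `c`. -/
theorem S58E0C_mul (hΔ : W.Δ ≠ 0) (p : ℕ) (B : K[X])
    (hB : ∀ (x y : K) (h : W.Nonsingular x y), B.eval x ≠ 0 →
      ∃ (x' y' : K) (h' : W.Nonsingular x' y'),
        p • (Point.some (W' := W) x y h) = Point.some (W' := W) x' y' h' ∧
          x' * (W.ΨSq (p : ℤ)).eval x = (W.Φ (p : ℤ)).eval x)
    {c x : K} (h1 : (W.ΨSq (p : ℤ)).eval x ≠ 0) (h2 : B.eval x ≠ 0)
    (h3 : (W.Φ (p : ℤ)).eval x = c * (W.ΨSq (p : ℤ)).eval x) :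
    p • S58E0C_pt W hΔ x ≠ 0 ∧ xc W (p • S58E0C_pt W hΔ x) = c := by
  obtain ⟨x', y', h', e1, e2⟩ := hB x _ (exists_point_of_X W hΔ x).choose_spec h2
  have e1' : p • S58E0C_pt W hΔ x = Point.some x' y' h' := e1
  rw [e1']
  refine ⟨Point.some_ne_zero _, ?_⟩
  rw [xc_some]
  rw [h3] at e2
  exact mul_right_cancel₀ h1 e2

/-- a point `Q` with `p ^ 2` distinct `p`-th roots. -/
theorem S58E0C_fibre (hΔ : W.Δ ≠ 0) (p : ℕ) (hp : 1 ≤ p)
    (hcop : IsCoprime (W.Φ (p : ℤ)) (W.ΨSq (p : ℤ))) :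
    ∃ (Q : W.Point) (t : Finset W.Point), t.card = p ^ 2 ∧ ∀ P ∈ t, p • P = Q := by
  classical
  obtain ⟨B, hB0, hB⟩ := DP_X_charZero W p hp
  obtain ⟨hdeg, hdeg2⟩ := S58E0C_deg W p hp
  obtain ⟨c, -, s, hcard, hs⟩ := S58E0_fibre_avoid (W.Φ (p : ℤ)) (W.ΨSq (p : ℤ)) B hcop hdeg hB0 ∅
  rw [hdeg2] at hcard
  have hne : s.Nonempty := by
    rw [← Finset.card_pos, hcard]
    positivity
  obtain ⟨x1, hx1⟩ := hne
  set Q : W.Point := p • S58E0C_pt W hΔ x1 with hQ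
  have hQ0 : Q ≠ 0 := (S58E0C_mul W hΔ p B hB (hs x1 hx1).1 (hs x1 hx1).2.1 (hs x1 hx1).2.2).1
  have hQc : xc W Q = c :=
    (S58E0C_mul W hΔ p B hB (hs x1 hx1).1 (hs x1 hx1).2.1 (hs x1 hx1).2.2).2
  set f : K → W.Point := fun x =>
    if p • S58E0C_pt W hΔ x = Q then S58E0C_pt W hΔ x else -S58E0C_pt W hΔ x with hf
  have hfx : ∀ x, xc W (f x) = x := by
    intro x
    simp only [hf]
    split_ifs
    · rfl
    · rw [xc_neg]; rfl
  have hfQ : ∀ x ∈ s, p • f x = Q := by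
    intro x hx
    obtain ⟨h0, hc⟩ := S58E0C_mul W hΔ p B hB (hs x hx).1 (hs x hx).2.1 (hs x hx).2.2
    simp only [hf]
    split_ifs with h
    · exact h
    · rcases eq_or_eq_neg_of_xc_eq W h0 hQ0 (hc.trans hQc.symm) with e | e
      · exact absurd e h
      · rw [smul_neg, e, neg_neg]
  refine ⟨Q, s.image f, ?_, ?_⟩
  · rw [Finset.card_image_of_injOn, hcard]
    intro a _ b _ hab
    have := congrArg (xc W) hab
    rwa [hfx, hfx] at this
  · intro P hP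
    obtain ⟨x, hx, rfl⟩ := Finset.mem_image.mp hP
    exact hfQ x hx

/-- `#W[p] ≥ p ^ 2` as soon as `W[p]` is finite. -/
theorem S58E0C_card_ge (hΔ : W.Δ ≠ 0) (p : ℕ) (hp : 1 ≤ p)
    (hcop : IsCoprime (W.Φ (p : ℤ)) (W.ΨSq (p : ℤ)))
    [Finite (Submodule.torsionBy ℤ W.Point (p : ℤ))] :
    p ^ 2 ≤ Nat.card (Submodule.torsionBy ℤ W.Point (p : ℤ)) := by
  classical
  obtain ⟨Q, t, hcard, ht⟩ := S58E0C_fibre W hΔ p hp hcop
  have hne : t.Nonempty := by
    rw [← Finset.card_pos, hcard]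
    positivity
  obtain ⟨P1, hP1⟩ := hne
  set g : t → Submodule.torsionBy ℤ W.Point (p : ℤ) := fun P =>
    ⟨P.1 - P1, by
      rw [Submodule.mem_torsionBy_iff, natCast_zsmul, smul_sub, ht P.1 P.2, ht P1 hP1,
        sub_self]⟩ with hg
  have hinj : Function.Injective g := by
    intro a b hab
    have := congrArg Subtype.val hab
    simp only [hg] at this
    exact Subtype.ext (sub_left_injective this)
  have := Nat.card_le_card_of_injective g hinj
  rwa [Nat.card_eq_fintype_card, Fintype.card_coe, hcard] at this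

/-- **E0-CARD**: `#W[p] = p ^ 2`, `p` an odd prime. -/
theorem S58E0C_card (hΔ : W.Δ ≠ 0) {p : ℕ} (hp : p.Prime) (hp2 : p ≠ 2)
    (hcop : IsCoprime (W.Φ (p : ℤ)) (W.ΨSq (p : ℤ))) :
    Nat.card (Submodule.torsionBy ℤ W.Point (p : ℤ)) = p ^ 2 := by
  have hpK : (p : K) ≠ 0 := Nat.cast_ne_zero.mpr hp.ne_zero
  haveI := Fermat.Agent.S13_helper27_DPTorsion.finite_torsion W hp hp2 hpK
  exact le_antisymm (Fermat.Agent.S13_helper27_DPTorsion.card_torsion_le_sq W hp hp2 hpK)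
    (S58E0C_card_ge W hΔ p hp.one_le hcop)


/-- `W(K)` is infinite. -/
theorem S58E0C_infinite (hΔ : W.Δ ≠ 0) : Infinite W.Point :=
  Infinite.of_injective (S58E0C_pt W hΔ) fun a b h => by
    have := congrArg (xc W) h
    exact this

/-- **E0-DIV**: multiplication by `p` is surjective on `W(K)`. -/
theorem S58E0C_div (hΔ : W.Δ ≠ 0) (p : ℕ) (hp : 1 ≤ p)
    (hcop : IsCoprime (W.Φ (p : ℤ)) (W.ΨSq (p : ℤ))) (Q : W.Point) :
    ∃ P : W.Point, p • P = Q := by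
  classical
  obtain ⟨B, hB0, hB⟩ := DP_X_charZero W p hp
  obtain ⟨hdeg, hdeg2⟩ := S58E0C_deg W p hp
  have hbad := S58E0_fibre_bad_finite (W.Φ (p : ℤ)) (W.ΨSq (p : ℤ)) B hcop hdeg hB0
  set Bad : Set K := {c : K | ¬ ∃ s : Finset K, s.card = (W.Φ (p : ℤ)).natDegree ∧
      ∀ x ∈ s, (W.ΨSq (p : ℤ)).eval x ≠ 0 ∧ B.eval x ≠ 0 ∧
        (W.Φ (p : ℤ)).eval x = c * (W.ΨSq (p : ℤ)).eval x} with hBad
  have hgood : ∀ R : W.Point, R ≠ 0 → xc W R ∉ Bad → ∃ P : W.Point, p • P = R := by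
    intro R hR0 hRc
    rw [hBad, Set.mem_ofPred_eq, not_not] at hRc
    obtain ⟨s, hcard, hs⟩ := hRc
    rw [hdeg2] at hcard
    have hne : s.Nonempty := by
      rw [← Finset.card_pos, hcard]
      positivity
    obtain ⟨x, hx⟩ := hne
    obtain ⟨h0, hc⟩ := S58E0C_mul W hΔ p B hB (hs x hx).1 (hs x hx).2.1 (hs x hx).2.2
    rcases eq_or_eq_neg_of_xc_eq W h0 hR0 hc with e | e
    · exact ⟨_, e⟩
    · exact ⟨-S58E0C_pt W hΔ x, by rw [smul_neg, e, neg_neg]⟩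
  set Ex : Set W.Point := {R : W.Point | R = 0 ∨ xc W R ∈ Bad} with hExd
  have hEx : Ex.Finite := by
    refine ((Set.finite_singleton (0 : W.Point)).union
      (hbad.biUnion fun c _ =>
        (Fermat.Agent.S13_helper20_DPCARD.fibre W c).finite_toSet)).subset ?_
    intro R hR
    by_cases hR0 : R = 0
    · left
      exact hR0
    · right
      have hRc : xc W R ∈ Bad := by
        rcases hR with h | h
        · exact absurd h hR0
        · exact h
      obtain ⟨v, hv, e⟩ := exists_eq_some_xc W hR0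
      rw [Set.mem_iUnion₂]
      refine ⟨xc W R, hRc, ?_⟩
      rw [Finset.mem_coe]
      have h1 := Fermat.Agent.S13_helper20_DPCARD.mem_fibre W hv
      rw [← e] at h1
      exact h1
  haveI := S58E0C_infinite W hΔ
  obtain ⟨R, hR⟩ := (Set.Finite.union hEx (hEx.image fun S => Q - S)).infinite_compl.nonempty
  rw [Set.mem_compl_iff, Set.mem_union, not_or] at hR
  obtain ⟨hR1, hR2⟩ := hR
  have hR1' : R ≠ 0 ∧ xc W R ∉ Bad := by
    rw [hExd, Set.mem_ofPred_eq, not_or] at hR1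
    exact hR1
  have hR2' : Q - R ∉ Ex := by
    intro h
    apply hR2
    exact ⟨Q - R, h, sub_sub_cancel Q R⟩
  rw [hExd, Set.mem_ofPred_eq, not_or] at hR2'
  obtain ⟨P1, hP1⟩ := hgood R hR1'.1 hR1'.2
  obtain ⟨P2, hP2⟩ := hgood (Q - R) hR2'.1 hR2'.2
  refine ⟨P1 + P2, ?_⟩
  rw [smul_add, hP1, hP2]
  abel


/-- the finite set containing `W[2]`. -/
def S58E0C_two (hΔ : W.Δ ≠ 0) : Finset W.Point :=
  insert 0 (W.Ψ₂Sq.roots.toFinset.image (S58E0C_pt W hΔ))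

theorem S58E0C_two_card (hΔ : W.Δ ≠ 0) : (S58E0C_two W hΔ).card ≤ 2 ^ 2 := by
  classical
  have h4 : (4 : K) ≠ 0 := by norm_num
  have h1 : W.Ψ₂Sq.roots.toFinset.card ≤ 3 := by
    calc W.Ψ₂Sq.roots.toFinset.card ≤ Multiset.card W.Ψ₂Sq.roots := Multiset.toFinset_card_le _
      _ ≤ W.Ψ₂Sq.natDegree := Polynomial.card_roots' _
      _ = 3 := W.natDegree_Ψ₂Sq h4
  calc (S58E0C_two W hΔ).card
      ≤ (W.Ψ₂Sq.roots.toFinset.image (S58E0C_pt W hΔ)).card + 1 := Finset.card_insert_le _ _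
    _ ≤ W.Ψ₂Sq.roots.toFinset.card + 1 := Nat.add_le_add_right Finset.card_image_le 1
    _ ≤ 2 ^ 2 := by omega

theorem S58E0C_two_mem (hΔ : W.Δ ≠ 0) {P : W.Point} (hP : (2 : ℕ) • P = 0) :
    P ∈ S58E0C_two W hΔ := by
  classical
  unfold S58E0C_two
  by_cases hP0 : P = 0
  · rw [hP0]
    exact Finset.mem_insert_self _ _
  · refine Finset.mem_insert_of_mem (Finset.mem_image.mpr ?_)
    obtain ⟨x, y, h, rfl⟩ := exists_some_of_ne_zero W hP0
    have h4 : (4 : K) ≠ 0 := by norm_num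
    have hroot : W.Ψ₂Sq.eval x = 0 :=
      (Fermat.Agent.S13_helper29_BIQ.two_nsmul_eq_zero_iff' W h).mp hP
    have hne : W.Ψ₂Sq ≠ 0 := by
      intro e
      have := W.natDegree_Ψ₂Sq h4
      rw [e] at this
      simp at this
    refine ⟨x, ?_, ?_⟩
    · rw [Multiset.mem_toFinset, mem_roots hne]
      exact hroot
    · have h2 : (2 : ℕ) • S58E0C_pt W hΔ x = 0 :=
        (Fermat.Agent.S13_helper29_BIQ.two_nsmul_eq_zero_iff' W _).mpr hroot
      rcases eq_or_eq_neg_of_xc_eq W (S58E0C_pt_ne W hΔ x) (Point.some_ne_zero h) rfl with e | e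
      · exact e
      · rw [e]
        have h3 : Point.some x y h + Point.some x y h = 0 := by rw [← two_nsmul]; exact hP
        exact (eq_neg_of_add_eq_zero_left h3).symm

theorem S58E0C_two_sub (hΔ : W.Δ ≠ 0) :
    ((Submodule.torsionBy ℤ W.Point ((2 : ℕ) : ℤ) : Submodule ℤ W.Point) : Set W.Point)
      ⊆ (S58E0C_two W hΔ : Set W.Point) := by
  intro P hP
  have h := (Submodule.mem_torsionBy_iff _ _).mp hP
  rw [natCast_zsmul] at h
  exact S58E0C_two_mem W hΔ h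

/-- **E0-CARD** at `p = 2`. -/
theorem S58E0C_card_two (hΔ : W.Δ ≠ 0)
    (hcop : IsCoprime (W.Φ ((2 : ℕ) : ℤ)) (W.ΨSq ((2 : ℕ) : ℤ))) :
    Nat.card (Submodule.torsionBy ℤ W.Point ((2 : ℕ) : ℤ)) = 2 ^ 2 := by
  classical
  haveI : Finite (Submodule.torsionBy ℤ W.Point ((2 : ℕ) : ℤ)) :=
    ((S58E0C_two W hΔ).finite_toSet.subset (S58E0C_two_sub W hΔ)).to_subtype
  refine le_antisymm ?_ (S58E0C_card_ge W hΔ 2 (by norm_num) hcop)
  have h1 : Nat.card (Submodule.torsionBy ℤ W.Point ((2 : ℕ) : ℤ))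
      ≤ Nat.card (S58E0C_two W hΔ : Set W.Point) :=
    Nat.card_mono (S58E0C_two W hΔ).finite_toSet (S58E0C_two_sub W hΔ)
  have h2 : Nat.card (S58E0C_two W hΔ : Set W.Point) = (S58E0C_two W hΔ).card := by
    simp
  rw [h2] at h1
  exact h1.trans (S58E0C_two_card W hΔ)

/-- **E0-CARD**, every prime. -/
theorem S58E0C_card_all (hΔ : W.Δ ≠ 0) {p : ℕ} (hp : p.Prime)
    (hcop : IsCoprime (W.Φ (p : ℤ)) (W.ΨSq (p : ℤ))) :
    Nat.card (Submodule.torsionBy ℤ W.Point (p : ℤ)) = p ^ 2 := by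
  by_cases hp2 : p = 2
  · subst hp2
    exact S58E0C_card_two W hΔ hcop
  · exact S58E0C_card W hΔ hp hp2 hcop

end Fermat.Agent.S58_helper2_E0CD

namespace Fermat.Agent.S58_helper2_E0CD

open Fermat.Agent.S58_helper2_TORS Fermat.Agent.S58_helper3_E0ALG

/-- the discriminant of `W` over `Q-bar`. -/
theorem S58E0C_disc (W : WeierstrassCurve ℤ) (hΔ : W.Δ ≠ 0) :
    (((W.map (Int.castRingHom ℚ)).toAffine)⁄(AlgebraicClosure ℚ)).Δ ≠ 0 := by
  change ((W.map (Int.castRingHom ℚ)).map (algebraMap ℚ (AlgebraicClosure ℚ))).Δ ≠ 0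
  rw [WeierstrassCurve.map_Δ, WeierstrassCurve.map_Δ]
  intro h
  have h1 := (algebraMap ℚ (AlgebraicClosure ℚ)).injective (h.trans (map_zero _).symm)
  exact hΔ (Int.cast_injective (h1.trans Int.cast_zero.symm))

/-- **(E0)** from the coprimality of `Φ_lam` and `ΨSq_lam` over `Q-bar`. -/
theorem S58E0C_E0 (W : WeierstrassCurve ℤ) (hΔ : W.Δ ≠ 0) (lam : ℕ) [Fact lam.Prime]
    (hcop : IsCoprime
      ((((W.map (Int.castRingHom ℚ)).toAffine)⁄(AlgebraicClosure ℚ)).Φ (lam : ℤ))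
      ((((W.map (Int.castRingHom ℚ)).toAffine)⁄(AlgebraicClosure ℚ)).ΨSq (lam : ℤ))) :
    S58T_E0 W lam :=
  S58E0A_E0 W lam
    (S58E0C_card_all _ (S58E0C_disc W hΔ) (Fact.out : lam.Prime) hcop)
    (fun x => S58E0C_div _ (S58E0C_disc W hΔ) lam (Fact.out : lam.Prime).one_le hcop x)

end Fermat.Agent.S58_helper2_E0CD
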