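import Mathlib
import Fermat.Agent.S58_helper2_TORS
import Fermat.Agent.S58_helper2_E3ALG
import Fermat.Agent.S58_helper3_E0CNT
import Fermat.Agent.S58_helper5_E3GOOD

/-!
# S58, elliptic side (helper2): the contracts (E0) and (E3), assembled

* `S58E3F_E3` : the contract `S58T_E3 W lam` (every prime `lam`, `2` included) for a semistable
  integral model with `Δ ≠ 0`, from the single raw input `S58T_E3raw W` (component invariance
  at the primes of multiplicative reduction); (E0) is helper3's `S58E0N_E0`, the good primes are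
  helper5's `S58E3G_main`, the linear algebra is `S58E3A_E3`;
* `S58E3F_E0E3` : both contracts at once, in the binder shape of the (XFER) plug.
-/

set_option autoImplicit false

open Fermat.Agent.S58_helper2_TORS

namespace Fermat.Agent.S58_helper2_E3

/-- **(E3)** from the raw input at the multiplicative primes alone. -/
theorem S58E3F_E3 (W : WeierstrassCurve ℤ) (hΔ : W.Δ ≠ 0) (hss : W.IsSemistableModel)
    (hraw : S58T_E3raw W) (lam : ℕ) [Fact lam.Prime] : S58T_E3 W lam :=
  Fermat.Agent.S58_helper2_E3ALG.S58E3A_E3 W hss lam Fact.out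
    (Fermat.Agent.S58_helper3_E0CNT.S58E0N_E0 W hΔ lam)
    (Fermat.Agent.S58_helper5_E3GOOD.S58E3G_main W) hraw

/-- **(E0) + (E3)** for every semistable integral model, from the raw input alone. -/
theorem S58E3F_E0E3
    (hraw : ∀ W : WeierstrassCurve ℤ, W.Δ ≠ 0 → W.IsSemistableModel → S58T_E3raw W)
    (W : WeierstrassCurve ℤ) (hΔ : W.Δ ≠ 0) (hss : W.IsSemistableModel)
    (lam : ℕ) [Fact lam.Prime] : S58T_E0 W lam ∧ S58T_E3 W lam :=
  ⟨Fermat.Agent.S58_helper3_E0CNT.S58E0N_E0 W hΔ lam,
    S58E3F_E3 W hΔ hss (hraw W hΔ hss) lam⟩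

end Fermat.Agent.S58_helper2_E3
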