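import Mathlib
import Fermat.Agent.S58_helper5_NODE
import Fermat.Agent.S58_helper20_HENSQ
import Fermat.Agent.S58_helper9_PLUG
import Fermat.Agent.S13_helper25_CPgal

/-!
# S58, (E3): the glue of E3-RAW (helper2)

* `S58E3K_abs` : over any valued field, two points `P`, `P'` of a Weierstrass curve near an
  exact critical point `(x₀, y₀)` with the same valuations of the two local parameters
  `ξ`, `η` : the difference `P' - P`, if it is an integral affine point, does not have both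
  partial derivatives in the maximal ideal (chord + tangent + sing of helper5's NODE);
* `S58E3K_key W : S58PL_Key W` : helper9's pointwise key, from helper20's critical point;
* `S58E3K_raw W : S58T_E3raw W`.
-/

set_option autoImplicit false
set_option linter.unusedSectionVars false
set_option linter.unusedVariables false

open WeierstrassCurve WeierstrassCurve.Affine

namespace Fermat.Agent.S58_helper2_E3KEY

open Fermat.Agent.S58_helper5_NODE Fermat.Agent.S58_helper20_HENSQ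

section Abs

variable {K : Type*} [Field K] [DecidableEq K] {Γ₀ : Type*}
  [LinearOrderedCommGroupWithZero Γ₀] (v : Valuation K Γ₀)

/-- the abstract glue: chord + tangent + sing. -/
theorem S58E3K_abs (W : WeierstrassCurve.Affine K) {x₀ y₀ γ₁ γ₂ : K}
    (hy₀ : 2 * y₀ + W.a₁ * x₀ + W.a₃ = 0)
    (hx₀ : W.a₁ * y₀ - (3 * x₀ ^ 2 + 2 * W.a₂ * x₀ + W.a₄) = 0)
    (hs : γ₁ + γ₂ = -W.a₁) (hp : γ₁ * γ₂ = -(3 * x₀ + W.a₂)) (hγ : v (γ₁ - γ₂) = 1)
    (hx₀v : v x₀ ≤ 1) (hy₀v : v y₀ ≤ 1) (hγ₁v : v γ₁ ≤ 1) (hγ₂v : v γ₂ ≤ 1)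
    {x y x' y' : K} (h : W.Nonsingular x y) (h' : W.Nonsingular x' y')
    (hxs : v (x - x₀) < 1) (hys : v (y - y₀) < 1)
    (hξ' : v ((y' - y₀) - γ₁ * (x' - x₀)) = v ((y - y₀) - γ₁ * (x - x₀)))
    (hη' : v ((y' - y₀) - γ₂ * (x' - x₀)) = v ((y - y₀) - γ₂ * (x - x₀)))
    {xD yD : K} (hD : W.Nonsingular xD yD)
    (hsub : Point.some x' y' h' - Point.some x y h = Point.some xD yD hD)
    (hxD : v xD ≤ 1) (hyD : v yD ≤ 1) :
    ¬ (v (W.polynomialX.evalEval xD yD) < 1 ∧ v (W.polynomialY.evalEval xD yD) < 1) := by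
  rintro ⟨hFx, hFy⟩
  have e := (W.equation_iff x y).1 h.1
  have e' := (W.equation_iff x' y').1 h'.1
  have eD := (W.equation_iff xD yD).1 hD.1
  rw [evalEval_polynomialX] at hFx
  rw [evalEval_polynomialY] at hFy
  have hξ : v ((y - y₀) - γ₁ * (x - x₀)) < 1 :=
    lt_of_le_of_lt (v.map_sub _ _) (max_lt hys (S58HQ_small_mul v hγ₁v hxs))
  have hη : v ((y - y₀) - γ₂ * (x - x₀)) < 1 :=
    lt_of_le_of_lt (v.map_sub _ _) (max_lt hys (S58HQ_small_mul v hγ₂v hxs))
  -- the value of the Weierstrass polynomial at the critical point is small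
  have hloc := S58ND_local hy₀ hx₀ hs hp e
  have hF₀ : v (y₀ ^ 2 + W.a₁ * x₀ * y₀ + W.a₃ * y₀ -
      (x₀ ^ 3 + W.a₂ * x₀ ^ 2 + W.a₄ * x₀ + W.a₆)) < 1 := by
    have e0 : y₀ ^ 2 + W.a₁ * x₀ * y₀ + W.a₃ * y₀ -
        (x₀ ^ 3 + W.a₂ * x₀ ^ 2 + W.a₄ * x₀ + W.a₆) =
        (x - x₀) ^ 3 - ((y - y₀) - γ₁ * (x - x₀)) * ((y - y₀) - γ₂ * (x - x₀)) := by
      linear_combination hloc
    rw [e0]
    refine lt_of_le_of_lt (v.map_sub _ _) (max_lt ?_ ?_)
    · rw [map_pow]
      exact pow_lt_one₀ zero_le hxs (by norm_num)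
    · exact S58HQ_small_mul v hξ.le hη
  have huD : v (xD - x₀) ≤ 1 := (v.map_sub _ _).trans (max_le hxD hx₀v)
  have hwD : v (yD - y₀) ≤ 1 := (v.map_sub _ _).trans (max_le hyD hy₀v)
  have hsing : v (xD - x₀) < 1 := S58ND_sing v hy₀ hx₀ hF₀ eD huD hwD hFx hFy
  by_cases hxx : x' = x
  · subst hxx
    rcases Y_eq_of_X_eq h'.1 h.1 rfl with hyy | hyy
    · subst hyy
      rw [sub_self] at hsub
      exact Point.some_ne_zero hD hsub.symm
    · by_cases hyy2 : y' = y
      · subst hyy2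
        rw [sub_self] at hsub
        exact Point.some_ne_zero hD hsub.symm
      · have hne : y' ≠ W.negY x' (W.negY x' y) := by
          rw [negY_negY]; exact hyy2
        rw [sub_eq_add_neg, Point.neg_some, Point.add_of_Y_ne hne] at hsub
        have hxDe : W.addX x' x' (W.slope x' x' y' (W.negY x' y)) = xD := by
          injection hsub
        rw [slope_of_Y_ne rfl hne] at hxDe
        have hyne : y' - (-y' - W.a₁ * x' - W.a₃) ≠ 0 := by
          intro h0
          apply hyy2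
          have : y' = W.negY x' y := hyy
          rw [negY] at this
          linear_combination h0 - this
        have hηξ : (y' - y₀) - γ₂ * (x' - x₀) = -((y - y₀) - γ₁ * (x' - x₀)) := by
          have : y' = W.negY x' y := hyy
          rw [negY] at this
          linear_combination this - hy₀ - (x' - x₀) * hs
        have hξη : v ((y' - y₀) - γ₂ * (x' - x₀)) = v ((y' - y₀) - γ₁ * (x' - x₀)) := by
          rw [hηξ, Valuation.map_neg, hξ']
        have key := S58ND_tangent v hy₀ hx₀ hs hp hγ e' hyne (hξ'.trans_lt hξ) hξη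
        have hxe : xD - x₀ =
            ((3 * x' ^ 2 + 2 * W.a₂ * x' + W.a₄ - W.a₁ * y') /
              (y' - (-y' - W.a₁ * x' - W.a₃))) ^ 2
            + W.a₁ * ((3 * x' ^ 2 + 2 * W.a₂ * x' + W.a₄ - W.a₁ * y') /
              (y' - (-y' - W.a₁ * x' - W.a₃))) - W.a₂ - x' - x' - x₀ := by
          rw [← hxDe]
          simp only [addX, negY]
        rw [← hxe] at key
        exact absurd hsing (not_lt.2 key)
  · rw [sub_eq_add_neg, Point.neg_some, Point.add_of_X_ne hxx] at hsub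
    have hxDe : W.addX x' x (W.slope x' x y' (W.negY x y)) = xD := by
      injection hsub
    rw [slope_of_X_ne hxx] at hxDe
    have key := S58ND_chord v hy₀ hx₀ hs hp hγ e e' hxx hξ hη hξ' hη'
    have hxe : xD - x₀ =
        ((y' - (-y - W.a₁ * x - W.a₃)) / (x' - x)) ^ 2
          + W.a₁ * ((y' - (-y - W.a₁ * x - W.a₃)) / (x' - x)) - W.a₂ - x' - x - x₀ := by
      rw [← hxDe]
      simp only [addX, negY]
    rw [← hxe] at key
    exact absurd hsing (not_lt.2 key)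

end Abs

section Conc

open Fermat.Agent.S58_helper2_TORS Fermat.Agent.S58_helper5_E3GOOD Fermat.Agent.S58_helper9_PLUG

local notation "Qb" => AlgebraicClosure ℚ

/-- **the glue of E3-RAW**: helper9's pointwise key. -/
theorem S58E3K_key (W : WeierstrassCurve ℤ) : S58PL_Key W := by
  intro q hq hqΔ hc4 n hn A hA τ hτ x y h hP hx hy hsx hsy xD yD hD hsub hxD hyD
  obtain ⟨e₁, e₂, e₃, e₄, e₆⟩ := S58E3G_coeff W
  obtain ⟨hpx, hpy⟩ := S58PL_partial_int W A hxD hyD
  by_contra hcon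
  rw [not_or] at hcon
  have hFxD := lt_of_le_of_ne hpx hcon.1
  have hFyD := lt_of_le_of_ne hpy hcon.2
  have mx : x ∈ A := (A.valuation_le_one_iff x).1 hx
  have my : y ∈ A := (A.valuation_le_one_iff y).1 hy
  have hFx' : A.valuation (((W.a₁ : ℤ) : Qb) * y - 3 * x ^ 2 - 2 * ((W.a₂ : ℤ) : Qb) * x -
      ((W.a₄ : ℤ) : Qb)) < 1 := by
    have h1 := hsx
    rw [evalEval_polynomialX, e₁, e₂, e₄] at h1
    have e0 : ((W.a₁ : ℤ) : Qb) * y - 3 * x ^ 2 - 2 * ((W.a₂ : ℤ) : Qb) * x -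
        ((W.a₄ : ℤ) : Qb) =
        ((W.a₁ : ℤ) : Qb) * y - (3 * x ^ 2 + 2 * ((W.a₂ : ℤ) : Qb) * x + ((W.a₄ : ℤ) : Qb)) := by
      ring
    rw [e0]
    exact h1
  have hFy' : A.valuation (2 * y + ((W.a₁ : ℤ) : Qb) * x + ((W.a₃ : ℤ) : Qb)) < 1 := by
    have h1 := hsy
    rw [evalEval_polynomialY, e₁, e₃] at h1
    exact h1
  obtain ⟨x₀, y₀, g₁, g₂, hx₀, hy₀, hg₁, hg₂, hx₀v, hy₀v, hFx₀, hFy₀, hsum, hprod, hdiff, hfix⟩ :=
    S58HQ_crit W A hq hA hc4 x y mx my hFx' hFy'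
  obtain ⟨tx, ty, tg1, tg2⟩ := hfix τ hτ
  have h' : (((W.map (Int.castRingHom ℚ)).toAffine)⁄Qb).Nonsingular (τ x) (τ y) :=
    ((W.map (Int.castRingHom ℚ)).toAffine.baseChange_nonsingular τ.toAlgHom.injective x y).mpr h
  have e1 : Point.map (W' := (W.map (Int.castRingHom ℚ)).toAffine) τ.toAlgHom
      (Point.some x y h) = Point.some (τ x) (τ y) h' := rfl
  rw [e1] at hsub
  have halg : Algebra.IsAlgebraic ℚ Qb := AlgebraicClosure.isAlgebraic ℚ
  have hval : ∀ z : Qb, A.valuation (τ z) = A.valuation z :=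
    fun z => Fermat.Agent.S13_helper25_CPgal.inertia_val_eq A hτ z
  have hξ' : A.valuation ((τ y - y₀) - g₁ * (τ x - x₀)) =
      A.valuation ((y - y₀) - g₁ * (x - x₀)) := by
    rw [← hval ((y - y₀) - g₁ * (x - x₀))]
    congr 1
    rw [map_sub, map_sub, map_mul, map_sub, tx, ty, tg1]
  have hη' : A.valuation ((τ y - y₀) - g₂ * (τ x - x₀)) =
      A.valuation ((y - y₀) - g₂ * (x - x₀)) := by
    rw [← hval ((y - y₀) - g₂ * (x - x₀))]
    congr 1
    rw [map_sub, map_sub, map_mul, map_sub, tx, ty, tg2]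
  have hxs : A.valuation (x - x₀) < 1 := by
    rw [← Valuation.map_neg, neg_sub]; exact hx₀v
  have hys : A.valuation (y - y₀) < 1 := by
    rw [← Valuation.map_neg, neg_sub]; exact hy₀v
  refine S58E3K_abs A.valuation (((W.map (Int.castRingHom ℚ)).toAffine)⁄Qb)
    (x₀ := x₀) (y₀ := y₀) (γ₁ := g₁) (γ₂ := g₂) ?_ ?_ ?_ ?_ hdiff
    ((A.valuation_le_one_iff _).2 hx₀) ((A.valuation_le_one_iff _).2 hy₀)
    ((A.valuation_le_one_iff _).2 hg₁) ((A.valuation_le_one_iff _).2 hg₂)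
    h h' hxs hys hξ' hη' hD hsub hxD hyD ⟨hFxD, hFyD⟩
  · rw [e₁, e₃]; exact hFy₀
  · rw [e₁, e₂, e₄]; linear_combination hFx₀
  · rw [e₁]; exact hsum
  · rw [e₂]; exact hprod

/-- **E3-RAW**: `(τ - 1) ^ 2 = 0` on `W[n]` at the primes of multiplicative reduction. -/
theorem S58E3K_raw (W : WeierstrassCurve ℤ) : S58T_E3raw W :=
  S58PL_main W (S58E3K_key W)

end Conc

end Fermat.Agent.S58_helper2_E3KEY
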