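import Mathlib
import Fermat.Agent.S58_helper2_E3
import Fermat.Agent.S58_helper2_E3KEY

/-!
# S58, elliptic side (helper2): the contracts (E0) and (E3), CLOSED

* `S58E3C_raw W : S58T_E3raw W` : component invariance at the multiplicative primes
  (helper5's NODE + helper20's critical point + helper9's outer layer + the glue);
* `S58E3C_E3 W hΔ hss lam : S58T_E3 W lam` : the contract (E3), every prime `lam`;
* `S58E3C_E0E3 W hΔ hss lam : S58T_E0 W lam ∧ S58T_E3 W lam`.
-/

set_option autoImplicit false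

open Fermat.Agent.S58_helper2_TORS

namespace Fermat.Agent.S58_helper2_E3FIN

/-- **E3-RAW**, closed. -/
theorem S58E3C_raw (W : WeierstrassCurve ℤ) : S58T_E3raw W :=
  Fermat.Agent.S58_helper2_E3KEY.S58E3K_raw W

/-- **(E3)**, closed: for a semistable integral model with `Δ ≠ 0` and every prime `lam`. -/
theorem S58E3C_E3 (W : WeierstrassCurve ℤ) (hΔ : W.Δ ≠ 0) (hss : W.IsSemistableModel)
    (lam : ℕ) [Fact lam.Prime] : S58T_E3 W lam :=
  Fermat.Agent.S58_helper2_E3.S58E3F_E3 W hΔ hss (S58E3C_raw W) lam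

/-- **(E0) + (E3)**, closed. -/
theorem S58E3C_E0E3 (W : WeierstrassCurve ℤ) (hΔ : W.Δ ≠ 0) (hss : W.IsSemistableModel)
    (lam : ℕ) [Fact lam.Prime] : S58T_E0 W lam ∧ S58T_E3 W lam :=
  Fermat.Agent.S58_helper2_E3.S58E3F_E0E3 (fun W _ _ => S58E3C_raw W) W hΔ hss lam

end Fermat.Agent.S58_helper2_E3FIN
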