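import Mathlib
import Fermat.Prelude.Def_CuspForm_HeckeAlgebra
import Fermat.Prelude.Def_CuspForm_Newforms
import Fermat.Agent.G_helper23_G1b

/-!
# S58 (helper3): `(CHI)`, the eigencharacter of the Hecke algebra on a normalized eigenform

`S58CHI_main` : for a normalized eigenform `h` of level `M` (in the prelude's coefficient sense)
and a set `S` containing the primes of `M` there is a ring homomorphism
`chig : heckeAlgebra M 2 S →+* ℂ` with `chig (T ℓ) = a_ℓ(h)` - the datum `chig`, `hchig` of the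
frozen statements S35 / S36.
-/

set_option autoImplicit false
set_option linter.unusedSectionVars false
set_option linter.unusedVariables false

open CuspForm CongruenceSubgroup ModularFormClass

noncomputable section

namespace Fermat.Agent.S58_helper3_CHI

variable {M : ℕ} [NeZero M]

/-- every element of the Hecke algebra acts on a normalized eigenform by a scalar -/
theorem S58CHI_scalar (h : CuspForm (Gamma0 M) 2) (hh : h.IsNormalizedEigenform) (S : Set ℕ)
    (hMS : ∀ q : ℕ, q.Prime → q ∣ M → q ∈ S) (t : CuspForm.heckeAlgebra M 2 S) :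
    ∃ c : ℂ, (t : Module.End ℂ (CuspForm (Gamma0 M) 2)) h = c • h := by
  obtain ⟨t, ht⟩ := t
  show ∃ c : ℂ, t h = c • h
  induction ht using Algebra.adjoin_induction with
  | mem x hx =>
    rcases hx with ⟨ℓ, hℓ, hℓN, hℓS, rfl⟩ | ⟨q, hqN, hq, hqS, rfl⟩
    · exact ⟨_, Fermat.Agent.G_helper23_G1b.PG_eigen_of_normalized hh hℓ hℓN⟩
    · exact absurd (hMS q hq hqN) hqS
  | algebraMap r =>
    refine ⟨(r : ℂ), ?_⟩
    rw [Algebra.algebraMap_eq_smul_one, LinearMap.smul_apply, Module.End.one_apply,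
      Int.cast_smul_eq_zsmul]
  | add x y hx hy ihx ihy =>
    obtain ⟨a, ha⟩ := ihx
    obtain ⟨b, hb⟩ := ihy
    exact ⟨a + b, by rw [LinearMap.add_apply, ha, hb, add_smul]⟩
  | mul x y hx hy ihx ihy =>
    obtain ⟨a, ha⟩ := ihx
    obtain ⟨b, hb⟩ := ihy
    exact ⟨a * b, by rw [Module.End.mul_apply, hb, LinearMap.map_smul, ha, smul_smul, mul_comm]⟩

/-- **(CHI)**: the eigencharacter of a normalized eigenform. -/
theorem S58CHI_main (h : CuspForm (Gamma0 M) 2) (hh : h.IsNormalizedEigenform) (S : Set ℕ)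
    (hMS : ∀ q : ℕ, q.Prime → q ∣ M → q ∈ S) :
    ∃ chig : CuspForm.heckeAlgebra M 2 S →+* ℂ,
      ∀ (ℓ : ℕ) (hℓ : ℓ.Prime) (hℓM : ¬ ℓ ∣ M) (hℓS : ℓ ∉ S),
        chig (CuspForm.heckeAlgebra.T hℓ hℓM hℓS) = qCoeff (⇑h) ℓ := by
  have h0 : h ≠ 0 := hh.ne_zero
  choose F hF using S58CHI_scalar h hh S hMS
  have huniq : ∀ (t : CuspForm.heckeAlgebra M 2 S) (a : ℂ),
      (t : Module.End ℂ (CuspForm (Gamma0 M) 2)) h = a • h → F t = a := fun t a ha =>
    smul_left_injective ℂ h0 ((hF t).symm.trans ha)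
  have h1 : F 1 = 1 := huniq 1 1 (by rw [one_smul]; rfl)
  have hz : F 0 = 0 := huniq 0 0 (by rw [zero_smul]; rfl)
  have hadd : ∀ t s, F (t + s) = F t + F s := fun t s => huniq _ _ (by
    have e : ((t + s : CuspForm.heckeAlgebra M 2 S) : Module.End ℂ (CuspForm (Gamma0 M) 2)) =
        (t : Module.End ℂ (CuspForm (Gamma0 M) 2)) + s := rfl
    rw [e, LinearMap.add_apply, hF t, hF s, add_smul])
  have hmul : ∀ t s, F (t * s) = F t * F s := fun t s => huniq _ _ (by
    have e : ((t * s : CuspForm.heckeAlgebra M 2 S) : Module.End ℂ (CuspForm (Gamma0 M) 2)) =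
        (t : Module.End ℂ (CuspForm (Gamma0 M) 2)) * s := rfl
    rw [e, Module.End.mul_apply, hF s, LinearMap.map_smul, hF t, smul_smul, mul_comm])
  refine ⟨{ toFun := F, map_one' := h1, map_mul' := hmul, map_zero' := hz, map_add' := hadd },
    fun ℓ hℓ hℓM hℓS => ?_⟩
  exact huniq _ _ (Fermat.Agent.G_helper23_G1b.PG_eigen_of_normalized hh hℓ hℓM)

end Fermat.Agent.S58_helper3_CHI
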