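import Mathlib
import Fermat.Agent.S58_helper5_E3GOOD
import Fermat.Agent.S58_helper5_NODE
import Fermat.Agent.S13_helper5_ATPa

/-!
# S58, brick E3-RAW (helper5): the assembly

* `S58E3R_core` : pure valuation statement in Mathlib's group-law coordinates: for two distinct
  points `P`, `P'` of a Weierstrass curve close to an exact critical point `(x₀, y₀)` with tangent
  slopes `γ₁`, `γ₂` (`v (γ₁ - γ₂) = 1`), with `v ξ' = v ξ`, `v η' = v η`, the difference
  `D = P' - P`, if integral, does not reduce to the node;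
* `S58E3R_Crit W` : the (Hensel) critical point hypothesis;
* `S58E3R_point`, `S58E3R_of_crit` : `S58E3R_Crit W → S58T_E3raw W`.
-/

set_option autoImplicit false
set_option linter.unusedSectionVars false
set_option linter.unusedVariables false

namespace Fermat.Agent.S58_helper5_E3RAW

open WeierstrassCurve WeierstrassCurve.Affine
open Fermat.Agent.S13_helper9_RD Fermat.Agent.S58_helper5_RED Fermat.Agent.S58_helper2_TORS
  Fermat.Agent.S05_helper5_Inertia Fermat.Agent.S05_helper5_Frey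
  Fermat.Agent.S58_helper5_E3GOOD Fermat.Agent.S58_helper5_NODE

local notation "Qb" => AlgebraicClosure ℚ

section Core

variable {K : Type*} [Field K] [DecidableEq K] {Γ₀ : Type*} [LinearOrderedCommGroupWithZero Γ₀]
  (v : Valuation K Γ₀)

theorem S58E3R_core (W : Affine K) {x₀ y₀ γ₁ γ₂ : K}
    (hy₀ : 2 * y₀ + W.a₁ * x₀ + W.a₃ = 0)
    (hx₀ : W.a₁ * y₀ - (3 * x₀ ^ 2 + 2 * W.a₂ * x₀ + W.a₄) = 0)
    (hs : γ₁ + γ₂ = -W.a₁) (hp : γ₁ * γ₂ = -(3 * x₀ + W.a₂)) (hγ : v (γ₁ - γ₂) = 1)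
    (hγ₁ : v γ₁ ≤ 1) (hγ₂ : v γ₂ ≤ 1) (hx₀' : v x₀ ≤ 1) (hy₀' : v y₀ ≤ 1)
    {x y x' y' : K} (e : W.Equation x y) (e' : W.Equation x' y') (hne : ¬ (x' = x ∧ y' = y))
    (hu : v (x - x₀) < 1) (hw : v (y - y₀) < 1)
    (hξ : v (y' - y₀ - γ₁ * (x' - x₀)) = v (y - y₀ - γ₁ * (x - x₀)))
    (hη : v (y' - y₀ - γ₂ * (x' - x₀)) = v (y - y₀ - γ₂ * (x - x₀)))
    {xD yD : K} (hxDe : xD = W.addX x' x (W.slope x' x y' (W.negY x y)))
    (eD : W.Equation xD yD) (hxD : v xD ≤ 1) (hyD : v yD ≤ 1)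
    (hFx : v (W.a₁ * yD - (3 * xD ^ 2 + 2 * W.a₂ * xD + W.a₄)) < 1)
    (hFy : v (2 * yD + W.a₁ * xD + W.a₃) < 1) : False := by
  rw [equation_iff] at e e' eD
  -- ξ, η small at P
  have hγu₁ : v (γ₁ * (x - x₀)) < 1 := by
    rw [map_mul]
    exact mul_lt_one_of_nonneg_of_lt_one_right hγ₁ zero_le' hu
  have hγu₂ : v (γ₂ * (x - x₀)) < 1 := by
    rw [map_mul]
    exact mul_lt_one_of_nonneg_of_lt_one_right hγ₂ zero_le' hu
  have hξs : v (y - y₀ - γ₁ * (x - x₀)) < 1 :=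
    lt_of_le_of_lt (v.map_sub _ _) (max_lt hw hγu₁)
  have hηs : v (y - y₀ - γ₂ * (x - x₀)) < 1 :=
    lt_of_le_of_lt (v.map_sub _ _) (max_lt hw hγu₂)
  -- F₀ small
  have hF₀e : y₀ ^ 2 + W.a₁ * x₀ * y₀ + W.a₃ * y₀ - (x₀ ^ 3 + W.a₂ * x₀ ^ 2 + W.a₄ * x₀ + W.a₆) =
      (x - x₀) ^ 3 - (y - y₀ - γ₁ * (x - x₀)) * (y - y₀ - γ₂ * (x - x₀)) := by
    linear_combination e - (x - x₀) * hx₀ - (y - y₀) * hy₀
      - (x - x₀) * (y - y₀) * hs + (x - x₀) ^ 2 * hp
  have hF₀ : v (y₀ ^ 2 + W.a₁ * x₀ * y₀ + W.a₃ * y₀ -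
      (x₀ ^ 3 + W.a₂ * x₀ ^ 2 + W.a₄ * x₀ + W.a₆)) < 1 := by
    rw [hF₀e]
    refine lt_of_le_of_lt (v.map_sub _ _) (max_lt ?_ ?_)
    · rw [map_pow]
      exact pow_lt_one₀ zero_le' hu (by norm_num)
    · rw [map_mul]
      exact mul_lt_one_of_nonneg_of_lt_one_left zero_le' hξs hηs.le
  -- 1 ≤ v (xD - x₀)
  have hge : 1 ≤ v (xD - x₀) := by
    rw [hxDe]
    by_cases hxx : x' = x
    · have hyy : y' ≠ y := fun h => hne ⟨hxx, h⟩
      have hyn : y' = W.negY x y := by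
        rcases Y_eq_of_X_eq ((equation_iff _ _).2 e') ((equation_iff _ _).2 e) hxx with h | h
        · exact absurd h hyy
        · exact h
      have hyy' : y' ≠ W.negY x (W.negY x y) := by rwa [negY_negY]
      rw [slope_of_Y_ne hxx hyy']
      subst hxx
      have hξη : y' - y₀ - γ₁ * (x' - x₀) = -(y - y₀ - γ₂ * (x' - x₀)) := by
        rw [hyn, negY]
        linear_combination (-1 : K) * hy₀ - (x' - x₀) * hs
      have h1 : v (y' - y₀ - γ₁ * (x' - x₀)) < 1 := by rw [hξ]; exact hξs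
      have h2 : v (y' - y₀ - γ₂ * (x' - x₀)) = v (y' - y₀ - γ₁ * (x' - x₀)) := by
        rw [hη, hξη, Valuation.map_neg]
      have hyy2 : y' - (-y' - W.a₁ * x' - W.a₃) ≠ 0 := by
        intro h0
        apply hyy
        rw [hyn, negY] at h0 ⊢
        linear_combination h0
      have := S58ND_tangent v hy₀ hx₀ hs hp hγ e' hyy2 h1 h2
      simpa [addX, negY] using this
    · rw [slope_of_X_ne hxx]
      have := S58ND_chord v hy₀ hx₀ hs hp hγ e e' hxx hξs hηs hξ hη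
      simpa [addX, negY] using this
  have hlt : v (xD - x₀) < 1 :=
    S58ND_sing v hy₀ hx₀ hF₀ eD
      (le_trans (v.map_sub _ _) (max_le hxD hx₀')) (le_trans (v.map_sub _ _) (max_le hyD hy₀'))
      hFx hFy
  exact absurd hlt (not_lt.2 hge)

theorem S58E3R_nat_le (n : ℕ) : v ((n : ℕ) : K) ≤ 1 := by
  induction n with
  | zero => simp
  | succ k ih =>
    rw [Nat.cast_succ]
    exact le_trans (v.map_add _ _) (max_le ih (le_of_eq v.map_one))

theorem S58E3R_Fx_le (W : Affine K) (c₁ : v W.a₁ ≤ 1) (c₂ : v W.a₂ ≤ 1) (c₄ : v W.a₄ ≤ 1)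
    {x y : K} (hx : v x ≤ 1) (hy : v y ≤ 1) :
    v (W.a₁ * y - (3 * x ^ 2 + 2 * W.a₂ * x + W.a₄)) ≤ 1 := by
  have h2 : v (2 : K) ≤ 1 := by simpa using S58E3R_nat_le v 2
  have h3 : v (3 : K) ≤ 1 := by simpa using S58E3R_nat_le v 3
  refine le_trans (v.map_sub _ _) (max_le ?_ ?_)
  · rw [map_mul]; exact mul_le_one' c₁ hy
  · refine le_trans (v.map_add _ _) (max_le ?_ c₄)
    refine le_trans (v.map_add _ _) (max_le ?_ ?_)
    · rw [map_mul, map_pow]; exact mul_le_one' h3 (pow_le_one₀ zero_le' hx)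
    · rw [map_mul, map_mul]; exact mul_le_one' (mul_le_one' h2 c₂) hx

theorem S58E3R_Fy_le (W : Affine K) (c₁ : v W.a₁ ≤ 1) (c₃ : v W.a₃ ≤ 1)
    {x y : K} (hx : v x ≤ 1) (hy : v y ≤ 1) :
    v (2 * y + W.a₁ * x + W.a₃) ≤ 1 := by
  have h2 : v (2 : K) ≤ 1 := by simpa using S58E3R_nat_le v 2
  refine le_trans (v.map_add _ _) (max_le ?_ c₃)
  refine le_trans (v.map_add _ _) (max_le ?_ ?_)
  · rw [map_mul]; exact mul_le_one' h2 hy
  · rw [map_mul]; exact mul_le_one' c₁ hx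

end Core

/-- The critical point hypothesis (the output of the Hensel step): an integral point at which both
partial derivatives are non-units is close to an exact critical point `(x₀, y₀)` of the cubic, with
tangent slopes `γ₁`, `γ₂` whose difference is a unit, all fixed by inertia. -/
def S58E3R_Crit (W : WeierstrassCurve ℤ) : Prop :=
  ∀ q : ℕ, q.Prime → ¬ (q : ℤ) ∣ W.c₄ → ∀ A : ValuationSubring Qb, A.LiesOverPrime q →
    ∀ x y : Qb, A.valuation x ≤ 1 → A.valuation y ≤ 1 →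
      A.valuation (((W.a₁ : ℤ) : Qb) * y -
        (3 * x ^ 2 + 2 * ((W.a₂ : ℤ) : Qb) * x + ((W.a₄ : ℤ) : Qb))) < 1 →
      A.valuation (2 * y + ((W.a₁ : ℤ) : Qb) * x + ((W.a₃ : ℤ) : Qb)) < 1 →
      ∃ x₀ y₀ γ₁ γ₂ : Qb,
        2 * y₀ + ((W.a₁ : ℤ) : Qb) * x₀ + ((W.a₃ : ℤ) : Qb) = 0 ∧
        ((W.a₁ : ℤ) : Qb) * y₀ -
          (3 * x₀ ^ 2 + 2 * ((W.a₂ : ℤ) : Qb) * x₀ + ((W.a₄ : ℤ) : Qb)) = 0 ∧
        γ₁ + γ₂ = -((W.a₁ : ℤ) : Qb) ∧ γ₁ * γ₂ = -(3 * x₀ + ((W.a₂ : ℤ) : Qb)) ∧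
        A.valuation (γ₁ - γ₂) = 1 ∧ A.valuation γ₁ ≤ 1 ∧ A.valuation γ₂ ≤ 1 ∧
        A.valuation (x - x₀) < 1 ∧ A.valuation (y - y₀) < 1 ∧
        ∀ τ ∈ A.inertiaSubgroupIn ℚ, τ x₀ = x₀ ∧ τ y₀ = y₀ ∧ τ γ₁ = γ₁ ∧ τ γ₂ = γ₂

/-- At a prime `q` with `q ∤ c₄`: for `τ` in inertia and `P ∈ W[n]`, `n` prime to `q`, the point
`τ P - P` is fixed by `τ`. -/
theorem S58E3R_point (W : WeierstrassCurve ℤ) (hcrit : S58E3R_Crit W) {q : ℕ} (hq : q.Prime)
    (hc4 : ¬ (q : ℤ) ∣ W.c₄)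
    {n : ℕ} (hn : ¬ q ∣ n) (A : ValuationSubring Qb) (hA : A.LiesOverPrime q)
    (τ : Qb ≃ₐ[ℚ] Qb) (hτ : τ ∈ A.inertiaSubgroupIn ℚ)
    (Pt : (((W.map (Int.castRingHom ℚ)).toAffine)⁄Qb).Point) (hPt : n • Pt = 0) :
    Point.map (W' := (W.map (Int.castRingHom ℚ)).toAffine) τ.toAlgHom
      (Point.map (W' := (W.map (Int.castRingHom ℚ)).toAffine) τ.toAlgHom Pt - Pt) =
      Point.map (W' := (W.map (Int.castRingHom ℚ)).toAffine) τ.toAlgHom Pt - Pt := by
  haveI hAlg : Algebra.IsAlgebraic ℚ Qb := AlgebraicClosure.isAlgebraic ℚ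
  obtain ⟨e₁, e₂, e₃, e₄, e₆⟩ := S58E3G_coeff W
  have c₁ : A.valuation (((W.map (Int.castRingHom ℚ)).toAffine)⁄Qb).a₁ ≤ 1 := by
    rw [e₁]; exact val_intCast_le_one A _
  have c₂ : A.valuation (((W.map (Int.castRingHom ℚ)).toAffine)⁄Qb).a₂ ≤ 1 := by
    rw [e₂]; exact val_intCast_le_one A _
  have c₃ : A.valuation (((W.map (Int.castRingHom ℚ)).toAffine)⁄Qb).a₃ ≤ 1 := by
    rw [e₃]; exact val_intCast_le_one A _
  have c₄ : A.valuation (((W.map (Int.castRingHom ℚ)).toAffine)⁄Qb).a₄ ≤ 1 := by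
    rw [e₄]; exact val_intCast_le_one A _
  have c₆ : A.valuation (((W.map (Int.castRingHom ℚ)).toAffine)⁄Qb).a₆ ≤ 1 := by
    rw [e₆]; exact val_intCast_le_one A _
  have hnv : A.valuation ((n : ℕ) : Qb) = 1 := val_natCast_eq_one_of_not_dvd A hq hA hn
  have hint : ∀ {x y : Qb} (h : (((W.map (Int.castRingHom ℚ)).toAffine)⁄Qb).Nonsingular x y),
      n • Point.some x y h = 0 → A.valuation x ≤ 1 := by
    intro x y h hQ
    by_contra hlt
    have hin : InE1 A.valuation (Point.some x y h) := not_le.1 hlt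
    exact Point.some_ne_zero _ (inE1_torsion_free A.valuation c₁ c₂ c₃ c₄ c₆ hnv hin hQ)
  have hnD : n • (Point.map (W' := (W.map (Int.castRingHom ℚ)).toAffine) τ.toAlgHom Pt - Pt) = 0 := by
    rw [smul_sub, ← map_nsmul, hPt, map_zero, sub_zero]
  rcases hD : (Point.map (W' := (W.map (Int.castRingHom ℚ)).toAffine) τ.toAlgHom Pt - Pt) with
    _ | ⟨xD, yD, hDns⟩
  · exact map_zero _
  · rw [hD] at hnD
    have hxD : A.valuation xD ≤ 1 := hint hDns hnD
    have hyD : A.valuation yD ≤ 1 := S58RD_val_y_le A.valuation c₁ c₂ c₃ c₄ c₆ hDns.1 hxD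
    by_cases hns : A.valuation ((((W.map (Int.castRingHom ℚ)).toAffine)⁄Qb).polynomialX.evalEval
        xD yD) = 1 ∨
      A.valuation ((((W.map (Int.castRingHom ℚ)).toAffine)⁄Qb).polynomialY.evalEval xD yD) = 1
    · exact S58E3G_nonsing W hq hn A hA τ hτ hDns hnD hxD hns
    · exfalso
      rw [not_or, evalEval_polynomialX, evalEval_polynomialY] at hns
      have hFxD := lt_of_le_of_ne (S58E3R_Fx_le A.valuation _ c₁ c₂ c₄ hxD hyD) hns.1
      have hFyD := lt_of_le_of_ne (S58E3R_Fy_le A.valuation _ c₁ c₃ hxD hyD) hns.2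
      rcases Pt with _ | ⟨x, y, h⟩
      · have h0 : Point.map (W' := (W.map (Int.castRingHom ℚ)).toAffine) τ.toAlgHom
            (Point.zero : (((W.map (Int.castRingHom ℚ)).toAffine)⁄Qb).Point) - Point.zero = 0 := by
          rw [show (Point.zero : (((W.map (Int.castRingHom ℚ)).toAffine)⁄Qb).Point) = 0 from rfl,
            map_zero, sub_zero]
        rw [h0] at hD
        exact Point.some_ne_zero _ hD.symm
      · have hx : A.valuation x ≤ 1 := hint h hPt
        have hy : A.valuation y ≤ 1 := S58RD_val_y_le A.valuation c₁ c₂ c₃ c₄ c₆ h.1 hx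
        have hnsP : ¬ (A.valuation ((((W.map (Int.castRingHom ℚ)).toAffine)⁄Qb).polynomialX.evalEval
            x y) = 1 ∨
          A.valuation ((((W.map (Int.castRingHom ℚ)).toAffine)⁄Qb).polynomialY.evalEval x y) = 1) := by
          intro hh
          have := S58E3G_nonsing W hq hn A hA τ hτ h hPt hx hh
          rw [this, sub_self] at hD
          exact Point.some_ne_zero _ hD.symm
        rw [not_or, evalEval_polynomialX, evalEval_polynomialY] at hnsP
        have hFxP := lt_of_le_of_ne (S58E3R_Fx_le A.valuation _ c₁ c₂ c₄ hx hy) hnsP.1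
        have hFyP := lt_of_le_of_ne (S58E3R_Fy_le A.valuation _ c₁ c₃ hx hy) hnsP.2
        obtain ⟨x₀, y₀, γ₁, γ₂, hy₀, hx₀, hs, hp, hγ, hγ₁, hγ₂, hu, hw, hfix⟩ :=
          hcrit q hq hc4 A hA x y hx hy (by rw [← e₁, ← e₂, ← e₄]; exact hFxP)
            (by rw [← e₁, ← e₃]; exact hFyP)
        obtain ⟨fx₀, fy₀, fγ₁, fγ₂⟩ := hfix τ hτ
        rw [← e₁, ← e₃] at hy₀
        rw [← e₁, ← e₂, ← e₄] at hx₀
        rw [← e₁] at hs
        rw [← e₂] at hp
        have hx₀' : A.valuation x₀ ≤ 1 := by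
          have : x₀ = x - (x - x₀) := by ring
          rw [this]
          exact le_trans (A.valuation.map_sub _ _) (max_le hx hu.le)
        have hy₀' : A.valuation y₀ ≤ 1 := by
          have : y₀ = y - (y - y₀) := by ring
          rw [this]
          exact le_trans (A.valuation.map_sub _ _) (max_le hy hw.le)
        have h' : (((W.map (Int.castRingHom ℚ)).toAffine)⁄Qb).Nonsingular (τ x) (τ y) :=
          ((W.map (Int.castRingHom ℚ)).toAffine.baseChange_nonsingular τ.toAlgHom.injective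
            x y).mpr h
        have e1 : Point.map (W' := (W.map (Int.castRingHom ℚ)).toAffine) τ.toAlgHom
            (Point.some x y h) = Point.some (τ x) (τ y) h' := rfl
        have hne : ¬ (τ x = x ∧ τ y = y) := by
          rintro ⟨h1, h2⟩
          have : Point.map (W' := (W.map (Int.castRingHom ℚ)).toAffine) τ.toAlgHom
              (Point.some x y h) = Point.some x y h := by
            rw [e1, Point.some.injEq]
            exact ⟨h1, h2⟩
          rw [this, sub_self] at hD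
          exact Point.some_ne_zero _ hD.symm
        have hne' : ¬ (τ x = x ∧ τ y = (((W.map (Int.castRingHom ℚ)).toAffine)⁄Qb).negY x
            ((((W.map (Int.castRingHom ℚ)).toAffine)⁄Qb).negY x y)) := by
          rwa [negY_negY]
        rw [e1, sub_eq_add_neg, Point.neg_some, Point.add_some hne', Point.some.injEq] at hD
        obtain ⟨hxDe, hyDe⟩ := hD
        have hξ : A.valuation (τ y - y₀ - γ₁ * (τ x - x₀)) =
            A.valuation (y - y₀ - γ₁ * (x - x₀)) := by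
          have : τ (y - y₀ - γ₁ * (x - x₀)) = τ y - y₀ - γ₁ * (τ x - x₀) := by
            simp only [map_sub, map_mul, fx₀, fy₀, fγ₁]
          rw [← this]
          exact Fermat.Agent.S13_helper5_ATPa.inertia_val_eq A τ hτ _
        have hη : A.valuation (τ y - y₀ - γ₂ * (τ x - x₀)) =
            A.valuation (y - y₀ - γ₂ * (x - x₀)) := by
          have : τ (y - y₀ - γ₂ * (x - x₀)) = τ y - y₀ - γ₂ * (τ x - x₀) := by
            simp only [map_sub, map_mul, fx₀, fy₀, fγ₂]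
          rw [← this]
          exact Fermat.Agent.S13_helper5_ATPa.inertia_val_eq A τ hτ _
        exact S58E3R_core A.valuation (((W.map (Int.castRingHom ℚ)).toAffine)⁄Qb)
          hy₀ hx₀ hs hp hγ hγ₁ hγ₂ hx₀' hy₀' h.1 h'.1 hne hu hw hξ hη hxDe.symm hDns.1 hxD hyD
          hFxD hFyD

/-- **E3-RAW from the critical point hypothesis.** -/
theorem S58E3R_of_crit (W : WeierstrassCurve ℤ) (hcrit : S58E3R_Crit W) : S58T_E3raw W := by
  intro q hq hqΔ hqc4 n hn A hA τ hτ P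
  have hqn : ¬ q ∣ n := by
    intro hd
    have h1 : q ∣ Nat.gcd n q := Nat.dvd_gcd hd dvd_rfl
    rw [Nat.Coprime] at hn
    rw [hn] at h1
    exact hq.one_lt.ne' (Nat.dvd_one.1 h1)
  have hPt : n • (P : (((W.map (Int.castRingHom ℚ)).toAffine)⁄Qb).Point) = 0 := by
    have := (Submodule.mem_torsionBy_iff _ _).1 P.2
    rwa [natCast_zsmul] at this
  have key := S58E3R_point W hcrit hq hqc4 hqn A hA τ hτ P hPt
  rw [map_sub, sub_eq_sub_iff_add_eq_add] at key
  apply Subtype.ext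
  exact key

end Fermat.Agent.S58_helper5_E3RAW
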