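import Mathlib
import Fermat.Agent.S58_helper5_E3RAW
import Fermat.Agent.S58_helper17_HENSQ

/-!
# S58, brick E3-RAW (helper5): the closed statement

`S58E3R_main (W : WeierstrassCurve ℤ) : S58T_E3raw W` - at a prime `q` with `q ∤ c₄`, every element
`τ` of inertia satisfies `(τ - 1) ^ 2 = 0` on `W[n]`, `n` prime to `q`.

= `S58E3R_of_crit` (helper5, assembly on NODE + E3GOOD) applied to the critical point delivered by
helper17's `S58HC_crit` (Hensel for quadratics, all residue characteristics).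
-/

set_option autoImplicit false
set_option linter.unusedSectionVars false
set_option linter.unusedVariables false

namespace Fermat.Agent.S58_helper5_E3RAWM

open WeierstrassCurve WeierstrassCurve.Affine
open Fermat.Agent.S58_helper2_TORS
  Fermat.Agent.S05_helper5_Inertia Fermat.Agent.S05_helper5_Frey
  Fermat.Agent.S58_helper5_E3RAW Fermat.Agent.S58_helper17_HENSQ

local notation "Qb" => AlgebraicClosure ℚ

/-- The critical point hypothesis holds for every integral Weierstrass curve. -/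
theorem S58E3RM_crit (W : WeierstrassCurve ℤ) : S58E3R_Crit W := by
  intro q hq hc4 A hA x y hx hy hFx hFy
  have h1 : A.valuation ((W.a₁ : ℤ) : Qb) ≤ 1 := val_intCast_le_one A _
  have h2 : A.valuation ((W.a₂ : ℤ) : Qb) ≤ 1 := val_intCast_le_one A _
  have h3 : A.valuation ((W.a₃ : ℤ) : Qb) ≤ 1 := val_intCast_le_one A _
  have h4 : A.valuation ((W.a₄ : ℤ) : Qb) ≤ 1 := val_intCast_le_one A _
  have hc : A.valuation ((((W.a₁ : ℤ) : Qb) ^ 2 + 4 * ((W.a₂ : ℤ) : Qb)) ^ 2 -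
      24 * (2 * ((W.a₄ : ℤ) : Qb) + ((W.a₁ : ℤ) : Qb) * ((W.a₃ : ℤ) : Qb))) = 1 := by
    have := val_intCast_eq_one_of_not_dvd A hq hA hc4
    rw [WeierstrassCurve.c₄, WeierstrassCurve.b₂, WeierstrassCurve.b₄] at this
    push_cast at this
    exact this
  have hF : A.valuation (y ^ 2 + ((W.a₁ : ℤ) : Qb) * x * y + ((W.a₃ : ℤ) : Qb) * y -
      (x ^ 3 + ((W.a₂ : ℤ) : Qb) * x ^ 2 + ((W.a₄ : ℤ) : Qb) * x +
        (y ^ 2 + ((W.a₁ : ℤ) : Qb) * x * y + ((W.a₃ : ℤ) : Qb) * y -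
          (x ^ 3 + ((W.a₂ : ℤ) : Qb) * x ^ 2 + ((W.a₄ : ℤ) : Qb) * x)))) < 1 := by
    have e : y ^ 2 + ((W.a₁ : ℤ) : Qb) * x * y + ((W.a₃ : ℤ) : Qb) * y -
      (x ^ 3 + ((W.a₂ : ℤ) : Qb) * x ^ 2 + ((W.a₄ : ℤ) : Qb) * x +
        (y ^ 2 + ((W.a₁ : ℤ) : Qb) * x * y + ((W.a₃ : ℤ) : Qb) * y -
          (x ^ 3 + ((W.a₂ : ℤ) : Qb) * x ^ 2 + ((W.a₄ : ℤ) : Qb) * x))) = 0 := by ring
    rw [e, map_zero]
    exact zero_lt_one
  obtain ⟨x0, y0, g1, g2, hnx, hny, hx0, hy0, hFx0, hFy0, hF0, hs, hp, -, -, hg, hg1, hg2, hfix⟩ :=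
    S58HC_crit A.valuation ((W.a₁ : ℤ) : Qb) ((W.a₂ : ℤ) : Qb) ((W.a₃ : ℤ) : Qb)
      ((W.a₄ : ℤ) : Qb) _ h1 h2 h3 h4 hc hx hy hF hFx hFy
  refine ⟨x0, y0, g1, g2, hFy0, hFx0, hs, hp, hg, hg1, hg2, hnx, hny, ?_⟩
  intro τ hτ
  have hσ : ∀ z : Qb, A.valuation z ≤ 1 →
      A.valuation ((τ.toAlgHom : Qb →+* Qb) z - z) < 1 := by
    intro z hz
    have := (inertia_spec_gen A τ hτ z ((A.valuation_le_one_iff _).1 hz)).2
    rwa [ValuationSubring.mem_nonunits_iff] at this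
  exact hfix (τ.toAlgHom : Qb →+* Qb) hσ (map_intCast _ _) (map_intCast _ _) (map_intCast _ _)
    (map_intCast _ _)

/-- **E3-RAW**: at a prime `q` not dividing `c₄`, inertia satisfies `(τ - 1) ^ 2 = 0` on `W[n]`,
`n` prime to `q`. -/
theorem S58E3RM_main (W : WeierstrassCurve ℤ) : S58T_E3raw W :=
  S58E3R_of_crit W (S58E3RM_crit W)

end Fermat.Agent.S58_helper5_E3RAWM
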