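import Mathlib
import Fermat.Agent.S58_helper7_KRP
import Fermat.Agent.S58_helper6_KRLOC
import Fermat.Agent.S58_helper4_AVAL
import Fermat.Agent.S58_helper1_DUPP
import Fermat.Agent.S58_helper10_PFPLUG
import Fermat.Agent.S58_helper19_E1AC

/-!
# S58, (E1a) [KR] (helper7): the hypothesis-free form

`hKR` of helper19's `S58E1A_abs` / `S58E1AC_main`, with every input plugged:

* `S58KRF_loc`  : [KR-LOC] (helper6's `S58KR_loc`) at helper19's Frobenius `S58FR_phi`;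
* `S58KRF_gen`  : [KR] over any function field `F / k` carrying the product formula,
  `W₀` over `ZMod l` with `Δ ≠ 0`: the only hypothesis is [PF];
* `S58KRF_main` : [KR] on the function field of the curve over an algebraically closed `k`:
  no hypothesis beyond `W₀.Δ ≠ 0`.
-/

set_option autoImplicit false
set_option linter.unusedSectionVars false
set_option linter.unusedVariables false

open AlgebraicCurve WeierstrassCurve WeierstrassCurve.Affine
open Fermat.Agent.S58_helper19_E1DEFS Fermat.Agent.S58_helper19_FROB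
open Fermat.Agent.S58_helper19_PAR

namespace Fermat.Agent.S58_helper7_KRF

section general

variable (l : ℕ) [Fact l.Prime] (W₀ : WeierstrassCurve.Affine (ZMod l))
  {k F : Type*} [Field k] [Field F] [DecidableEq F]
  [Algebra (ZMod l) k] [Algebra (ZMod l) F] [Algebra k F] [IsScalarTower (ZMod l) k F]

/-- a field over `ZMod l` has characteristic `l`. -/
theorem S58KRF_charP : CharP F l :=
  charP_of_injective_algebraMap (algebraMap (ZMod l) F).injective l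

/-- the discriminant of the base change is nonzero. -/
theorem S58KRF_Δ (hΔ : W₀.Δ ≠ 0) : (W₀⁄F).Δ ≠ 0 := by
  have e : (W₀⁄F).Δ = algebraMap (ZMod l) F W₀.Δ :=
    WeierstrassCurve.map_Δ W₀ (algebraMap (ZMod l) F)
  rw [e]
  exact (map_ne_zero_iff _ (algebraMap (ZMod l) F).injective).mpr hΔ

/-- the discriminant of the base change to `k` is nonzero (in the `map` shape). -/
theorem S58KRF_Δk (hΔ : W₀.Δ ≠ 0) :
    (WeierstrassCurve.map W₀ (algebraMap (ZMod l) k)).Δ ≠ 0 := by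
  rw [WeierstrassCurve.map_Δ]
  exact (map_ne_zero_iff _ (algebraMap (ZMod l) k).injective).mpr hΔ

/-- **[KR-LOC] at `S58FR_phi`**: helper6's local Kronecker relation, in the shape consumed by
`S58KRP_main`. -/
theorem S58KRF_loc (hΔ : W₀.Δ ≠ 0) (T : Finset (W₀⁄F).Point)
    (hT : ∀ P, P ∈ T ↔ S58FR_phi l W₀ F P = P) (v : Place k F) (S : (W₀⁄F).Point) :
    S58E1_lamP k (W₀⁄F) v (S58FR_phi l W₀ F S - S) =
      ∑ T0 ∈ T, S58E1_lamP k (W₀⁄F) v (S - T0) :=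
  haveI : CharP F l := S58KRF_charP l
  Fermat.Agent.S58_helper6_KRLOC.S58KR_loc k v l (W₀⁄F)
    (Fermat.Agent.S58_helper7_KRG.S58KRG_coeff l W₀) (S58KRF_Δ l W₀ hΔ)
    (S58FR_phi l W₀ F) (fun x y h => S58FR_phi_some l W₀ F h) T hT S

/-- [A-VAL] for `W₀⁄F`, `W₀` over `ZMod l`. -/
theorem S58KRF_AVal (hΔ : W₀.Δ ≠ 0) : S58PAR_AVal k (W₀⁄F) := by
  have e : (W₀⁄F) = ((WeierstrassCurve.map W₀ (algebraMap (ZMod l) k)).map
      (algebraMap k F)).toAffine := by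
    show (WeierstrassCurve.map W₀ (algebraMap (ZMod l) F)) = _
    rw [WeierstrassCurve.map_map, ← IsScalarTower.algebraMap_eq]
  rw [e]
  exact Fermat.Agent.S58_helper4_AVAL.S58AV_main_const _ (S58KRF_Δk l W₀ hΔ)

/-- [DUP] for `W₀⁄F`, `W₀` over `ZMod l`. -/
theorem S58KRF_Dup (hΔ : W₀.Δ ≠ 0) (hPF : S58E1_PF k F) : S58PAR_Dup k (W₀⁄F) :=
  Fermat.Agent.S58_helper1_DUPP.S58DUPP_tower hPF W₀ (S58KRF_Δk l W₀ hΔ)

/-- the parallelogram law of the height on `W₀⁄F`, from [PF] alone. -/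
theorem S58KRF_par (hΔ : W₀.Δ ≠ 0) (hPF : S58E1_PF k F) (S T : (W₀⁄F).Point) :
    S58E1_h k (W₀⁄F) (S + T) + S58E1_h k (W₀⁄F) (S - T) =
      2 * S58E1_h k (W₀⁄F) S + 2 * S58E1_h k (W₀⁄F) T :=
  S58PAR_main hPF (W₀⁄F) (S58KRF_AVal l W₀ hΔ) (S58KRF_Dup l W₀ hΔ hPF) S T

/-- **[KR] over any function field with the product formula**: the only hypothesis is [PF]. -/
theorem S58KRF_gen (hΔ : W₀.Δ ≠ 0) (hPF : S58E1_PF k F) (S : (W₀⁄F).Point) :
    S58E1_h k (W₀⁄F) (S58FR_phi l W₀ F S - S) =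
      (Nat.card W₀.Point : ℤ) * S58E1_h k (W₀⁄F) S :=
  Fermat.Agent.S58_helper7_KRP.S58KRP_main l W₀ hPF (S58KRF_AVal l W₀ hΔ)
    (S58KRF_Dup l W₀ hΔ hPF) (fun T hT v S => S58KRF_loc l W₀ hΔ T hT v S) S

end general

section concrete

open Fermat.Agent.S58_helper19_E1AC

variable (l : ℕ) [Fact l.Prime] (W₀ : WeierstrassCurve.Affine (ZMod l))
  (k : Type*) [Field k] [Algebra (ZMod l) k] [IsAlgClosed k]
  [DecidableEq (S58E1AC_F l W₀ k)]

/-- [PF] on the function field of `W₀⁄k`. -/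
theorem S58KRF_PF (hΔ : W₀.Δ ≠ 0) : S58E1_PF k (S58E1AC_F l W₀ k) :=
  Fermat.Agent.S58_helper10_PFPLUG.S58FP_ell (WeierstrassCurve.map W₀ (algebraMap (ZMod l) k))
    (S58KRF_Δk l W₀ hΔ)

/-- **[KR], hypothesis-free** = `hKR` of helper19's `S58E1AC_main` at
`N = Nat.card W₀.Point`. -/
theorem S58KRF_main (hΔ : W₀.Δ ≠ 0) (S : (W₀⁄(S58E1AC_F l W₀ k)).Point) :
    S58E1_h k (W₀⁄(S58E1AC_F l W₀ k)) (S58FR_phi l W₀ (S58E1AC_F l W₀ k) S - S) =
      (Nat.card W₀.Point : ℤ) * S58E1_h k (W₀⁄(S58E1AC_F l W₀ k)) S :=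
  S58KRF_gen l W₀ hΔ (S58KRF_PF l W₀ k hΔ) S

/-- [A-VAL] on the function field of the curve (`hA` of `S58E1AC_main`). -/
theorem S58KRF_hA (hΔ : W₀.Δ ≠ 0) : S58PAR_AVal k (W₀⁄(S58E1AC_F l W₀ k)) :=
  S58KRF_AVal l W₀ hΔ

/-- [DUP] on the function field of the curve (`hD` of `S58E1AC_main`). -/
theorem S58KRF_hD (hΔ : W₀.Δ ≠ 0) : S58PAR_Dup k (W₀⁄(S58E1AC_F l W₀ k)) :=
  S58KRF_Dup l W₀ hΔ (S58KRF_PF l W₀ k hΔ)

end concrete

end Fermat.Agent.S58_helper7_KRF
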