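import Mathlib
import Fermat.Agent.S58_helper2_TORS
import Fermat.Agent.G_helper9_FROBDENS
import Fermat.Agent.S30_helper17_CYCADIC

/-!
# S58, elliptic side: the determinant on `W[n]` is the cyclotomic character (helper9)

No Weil pairing.  Inputs: (E1) at the level `n` (the characteristic polynomial of a Frobenius at
a good prime `ℓ ∤ n` on `W[n]` is `X ^ 2 - a X + ℓ`) and (FIN) (the action on `W[n]` factors
through a finite level).  By Frobenius density at finite level (`PG_frobenius_density`) every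
`g` agrees on the level of `W[n]` and of `ζ` with a power `σ ^ b` of a Frobenius at such an `ℓ`,
so `det g = ℓ ^ b` and `g ζ = ζ ^ (ℓ ^ b)`.

* `S58DET_cyc`        : `g ζ = ζ ^ (det g).val` for every `n`-th root of unity `ζ`;
* `S58DET_inertia`    : `det τ = 1` for `τ` in an inertia group at a prime `q ∤ n`;
* `S58DET_cp_inertia` : the constant coefficient of `S58T_cp W n b τ` is `1`;
* `S58DET_unipotent`  : if moreover `τ` fixes the first vector of the basis, then
  `S58T_cp W n b τ = (X - 1) ^ 2`.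
-/

set_option autoImplicit false
set_option linter.unusedSectionVars false
set_option linter.unusedVariables false
set_option linter.style.haveILetI false
set_option maxHeartbeats 1600000

open Polynomial

noncomputable section

namespace Fermat.Agent.S58_helper9_DET

open Fermat.Agent.S58_helper2_TORS Fermat.Agent.G_helper9_FROBDENS
  Fermat.Agent.S30_helper17_CYCADIC

local notation "Qb" => AlgebraicClosure ℚ
local notation "GQ" => (AlgebraicClosure ℚ ≃ₐ[ℚ] AlgebraicClosure ℚ)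

/-- `S58T_gal` of a power -/
theorem S58DET_gal_pow (W : WeierstrassCurve ℤ) (n : ℕ) (σ : GQ) (b : ℕ) :
    S58T_gal W n (σ ^ b) = (S58T_gal W n σ) ^ b := by
  induction b with
  | zero => rw [pow_zero, pow_zero, S58T_gal_one]; rfl
  | succ b ih => rw [pow_succ, pow_succ, S58T_gal_mul, ih]; rfl

/-- two elements which agree on a level of `W[n]` act in the same way on `W[n]` -/
theorem S58DET_gal_congr (W : WeierstrassCurve ℤ) (n : ℕ)
    (L : IntermediateField ℚ Qb)
    (hL : ∀ σ : GQ, (∀ x ∈ L, σ x = x) → S58T_gal W n σ = 1) (g h : GQ)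
    (hgh : ∀ x ∈ L, g x = h x) : S58T_gal W n g = S58T_gal W n h := by
  have h1 : S58T_gal W n (h⁻¹ * g) = 1 := by
    apply hL
    intro x hx
    rw [AlgEquiv.mul_apply, hgh x hx]
    exact h.symm_apply_apply x
  have h2 : S58T_gal W n g = S58T_gal W n (h * (h⁻¹ * g)) := by
    rw [mul_inv_cancel_left]
  rw [h2, S58T_gal_mul, h1]
  rfl

/-- a power of an element acting on a root of unity by a power -/
theorem S58DET_pow_root (σ : GQ) {ζ : Qb} {ℓ : ℕ} (h : ∀ j : ℕ, σ (ζ ^ j) = (ζ ^ j) ^ ℓ)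
    (b : ℕ) : (σ ^ b) ζ = ζ ^ (ℓ ^ b) := by
  induction b with
  | zero => simp
  | succ b ih =>
    rw [pow_succ, AlgEquiv.mul_apply]
    have h1 := h 1
    rw [pow_one] at h1
    rw [h1]
    have h2 : ∀ (c : ℕ) (j : ℕ), (σ ^ c) (ζ ^ j) = (ζ ^ j) ^ (ℓ ^ c) := by
      intro c
      induction c with
      | zero => intro j; simp
      | succ c ihc =>
        intro j
        rw [pow_succ, AlgEquiv.mul_apply, h j, ← pow_mul, ihc]
        simp only [← pow_mul]
        congr 1
        ring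
    rw [h2 b ℓ]
    simp only [← pow_mul]
    congr 1
    ring

variable (W : WeierstrassCurve ℤ) (hΔ : W.Δ ≠ 0) (n : ℕ) [NeZero n]
  (hE1 : ∀ ℓ : ℕ, ℓ.Prime → W.IsGoodPrimeFor ℓ → ℓ.Coprime n → ∀
    (b : Module.Basis (Fin 2) (ZMod n) (S58T_Tors W n))
    (A : ValuationSubring Qb), A.LiesOverPrime ℓ →
      ∀ σ : GQ, A.IsFrobeniusAt σ ℓ →
        S58T_cp W n b σ = X ^ 2 - C (((W.apOfModel ℓ : ℤ) : ZMod n)) * X + C ((ℓ : ZMod n)))
  (hFIN : ∃ L : IntermediateField ℚ Qb, FiniteDimensional ℚ L ∧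
    ∀ σ : GQ, (∀ x ∈ L, σ x = x) → S58T_gal W n σ = 1)
  (b : Module.Basis (Fin 2) (ZMod n) (S58T_Tors W n))

/-- the determinant from the characteristic polynomial, in rank two -/
theorem S58DET_det_eq_coeff (σ : GQ) :
    (LinearMap.toMatrix b b (S58T_gal W n σ)).det = (S58T_cp W n b σ).coeff 0 := by
  rw [S58T_cp, Matrix.det_eq_sign_charpoly_coeff]
  simp

include hΔ hE1 hFIN in
/-- **the determinant on `W[n]` is the cyclotomic character.** -/
theorem S58DET_cyc (g : GQ) {ζ : Qb} (hζ : ζ ^ n = 1) :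
    g ζ = ζ ^ ((LinearMap.toMatrix b b (S58T_gal W n g)).det).val := by
  obtain ⟨L, hLfd, hL⟩ := hFIN
  haveI := hLfd
  have hn0 : n ≠ 0 := NeZero.ne n
  -- the level of `W[n]` and of `ζ`
  have hζint : IsIntegral ℚ ζ :=
    ⟨X ^ n - 1, monic_X_pow_sub_C 1 hn0, by simp [hζ]⟩
  haveI : FiniteDimensional ℚ (IntermediateField.adjoin ℚ {ζ}) :=
    IntermediateField.adjoin.finiteDimensional hζint
  haveI : FiniteDimensional ℚ (L ⊔ IntermediateField.adjoin ℚ {ζ} :
      IntermediateField ℚ Qb) := IntermediateField.finiteDimensional_sup _ _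
  obtain ⟨ℓ, A, σ, c, hℓ, hℓS, hA, hσ, hg⟩ :=
    PG_frobenius_density (L ⊔ IntermediateField.adjoin ℚ {ζ}) g
      (n.primeFactors ∪ W.Δ.natAbs.primeFactors)
  have hℓn : ¬ ℓ ∣ n := fun hc =>
    hℓS (Finset.mem_union_left _ (Nat.mem_primeFactors.2 ⟨hℓ, hc, hn0⟩))
  have hcop : ℓ.Coprime n := (Nat.Prime.coprime_iff_not_dvd hℓ).2 hℓn
  have hgood : W.IsGoodPrimeFor ℓ := by
    intro hc
    refine hℓS (Finset.mem_union_right _ ?_)
    exact Nat.mem_primeFactors.2 ⟨hℓ, Int.natCast_dvd.1 hc, Int.natAbs_ne_zero.2 hΔ⟩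
  -- the action on `W[n]`
  have h1 : S58T_gal W n g = (S58T_gal W n σ) ^ c := by
    rw [← S58DET_gal_pow]
    exact S58DET_gal_congr W n L hL g (σ ^ c) (fun x hx => hg x (le_sup_left (a := L) hx))
  have h2 : (LinearMap.toMatrix b b (S58T_gal W n g)).det = ((ℓ ^ c : ℕ) : ZMod n) := by
    rw [h1, ← LinearMap.toMatrix_pow, Matrix.det_pow, S58DET_det_eq_coeff,
      hE1 ℓ hℓ hgood hcop b A hA σ hσ]
    simp
  -- the action on `ζ`
  have h3 : g ζ = ζ ^ (ℓ ^ c) := by
    rw [hg ζ (le_sup_right (b := IntermediateField.adjoin ℚ {ζ})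
      (IntermediateField.mem_adjoin_simple_self ℚ ζ))]
    refine S58DET_pow_root σ (fun j => ?_) c
    exact S30CYC_frob_root hcop A hA σ hσ (by rw [← pow_mul, mul_comm, pow_mul, hζ, one_pow])
  rw [h3, h2, ZMod.val_natCast]
  conv_lhs => rw [← Nat.div_add_mod (ℓ ^ c) n]
  rw [pow_add, pow_mul, hζ, one_pow, one_mul]

include hΔ hE1 hFIN in
/-- **the determinant of an inertia element at a prime `q ∤ n` on `W[n]` is `1`.** -/
theorem S58DET_inertia {q : ℕ} (hq : q.Prime) (hqn : q.Coprime n)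
    (A : ValuationSubring Qb) (hA : A.LiesOverPrime q) (τ : GQ)
    (hτ : τ ∈ A.inertiaSubgroupIn ℚ) :
    (LinearMap.toMatrix b b (S58T_gal W n τ)).det = 1 := by
  obtain ⟨ζ, hζ⟩ := HasEnoughRootsOfUnity.exists_primitiveRoot Qb n
  have h1 := S58DET_cyc W hΔ n hE1 hFIN b τ hζ.pow_eq_one
  rw [S30CYC_inertia_root hqn A hA τ hτ hζ.pow_eq_one] at h1
  have h2 : ζ ^ 1 = ζ ^ ((LinearMap.toMatrix b b (S58T_gal W n τ)).det).val := by
    rw [pow_one]; exact h1
  have h3 := (hζ.isOfFinOrder (NeZero.ne _)).pow_eq_pow_iff_modEq.mp h2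
  rw [← hζ.eq_orderOf] at h3
  have h4 : ((1 : ℕ) : ZMod n) =
      ((((LinearMap.toMatrix b b (S58T_gal W n τ)).det).val : ℕ) : ZMod n) :=
    (ZMod.natCast_eq_natCast_iff _ _ _).mpr h3
  rw [ZMod.natCast_zmod_val, Nat.cast_one] at h4
  exact h4.symm

include hΔ hE1 hFIN in
/-- the constant coefficient of the characteristic polynomial of an inertia element -/
theorem S58DET_cp_inertia {q : ℕ} (hq : q.Prime) (hqn : q.Coprime n)
    (A : ValuationSubring Qb) (hA : A.LiesOverPrime q) (τ : GQ)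
    (hτ : τ ∈ A.inertiaSubgroupIn ℚ) : (S58T_cp W n b τ).coeff 0 = 1 := by
  rw [← S58DET_det_eq_coeff]
  exact S58DET_inertia W hΔ n hE1 hFIN b hq hqn A hA τ hτ

omit [NeZero n] in
/-- **linear algebra**: an endomorphism of `W[n]` of determinant `1` which fixes a vector `P`
with trivial annihilator has characteristic polynomial `(X - 1) ^ 2`. -/
theorem S58DET_unipotent (τ : GQ)
    (hdet : (LinearMap.toMatrix b b (S58T_gal W n τ)).det = 1)
    (P : S58T_Tors W n) (hP : ∀ r : ZMod n, r • P = 0 → r = 0) (hfix : τ • P = P) :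
    S58T_cp W n b τ = (X - 1) ^ 2 := by
  set M := LinearMap.toMatrix b b (S58T_gal W n τ) with hM
  have h1 : M.mulVec (b.repr P) = b.repr P := by
    rw [hM, LinearMap.toMatrix_mulVec_repr, S58T_gal_apply, hfix]
  have h2 : (M - 1).mulVec (b.repr P) = 0 := by
    rw [Matrix.sub_mulVec, h1, Matrix.one_mulVec, sub_self]
  have h3 : (M - 1).det • (b.repr P : Fin 2 → ZMod n) = 0 := by
    have h4 : ((M - 1).adjugate * (M - 1)).mulVec (b.repr P) = 0 := by
      rw [← Matrix.mulVec_mulVec, h2, Matrix.mulVec_zero]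
    rw [Matrix.adjugate_mul, Matrix.smul_mulVec, Matrix.one_mulVec] at h4
    exact h4
  have h5 : (M - 1).det = 0 := by
    apply hP
    apply b.repr.injective
    rw [map_smul, map_zero]
    ext i
    have := congrFun h3 i
    simpa using this
  have h6 : (M - 1).det = M.det - M.trace + 1 := by
    rw [Matrix.det_fin_two, Matrix.det_fin_two, Matrix.trace_fin_two]
    simp only [Matrix.sub_apply, Matrix.one_apply_eq, Matrix.one_apply_ne, ne_eq,
      Fin.zero_eq_one_iff, Fin.one_eq_zero_iff, OfNat.ofNat_ne_one, not_false_eq_true, sub_zero]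
    ring
  have h7 : M.trace = 2 := by
    rw [h6, hdet] at h5
    linear_combination -h5
  rcases subsingleton_or_nontrivial (ZMod n) with hs | hn
  · haveI : Subsingleton (Polynomial (ZMod n)) := inferInstance
    exact Subsingleton.elim _ _
  rw [S58T_cp, ← hM, Matrix.charpoly_fin_two, hdet, h7]
  simp only [map_ofNat, map_one]
  ring

end Fermat.Agent.S58_helper9_DET

namespace Fermat.Agent.S58_helper9_DET

open Fermat.Agent.S58_helper2_TORS

local notation "Qb" => AlgebraicClosure ℚ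
local notation "GQ" => (AlgebraicClosure ℚ ≃ₐ[ℚ] AlgebraicClosure ℚ)

/-- **(E3) from (E1), (FIN) and a fixed vector with trivial annihilator**: if at every prime
`q ≠ lam` every inertia element fixes a point of `W[lam ^ k]` with trivial annihilator, then
inertia at `q` has characteristic polynomial `(X - 1) ^ 2` on `W[lam ^ k]`. -/
theorem S58DET_E3 (W : WeierstrassCurve ℤ) (hΔ : W.Δ ≠ 0) (lam : ℕ) [Fact lam.Prime]
    (hE1 : ∀ ℓ : ℕ, ℓ.Prime → W.IsGoodPrimeFor ℓ → ℓ ≠ lam → ∀ (k : ℕ)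
      (b : Module.Basis (Fin 2) (ZMod (lam ^ k)) (S58T_Tors W (lam ^ k)))
      (A : ValuationSubring Qb), A.LiesOverPrime ℓ →
        ∀ σ : GQ, A.IsFrobeniusAt σ ℓ →
          S58T_cp W (lam ^ k) b σ =
            X ^ 2 - C (((W.apOfModel ℓ : ℤ) : ZMod (lam ^ k))) * X + C ((ℓ : ZMod (lam ^ k))))
    (hFIN : ∀ k : ℕ, ∃ L : IntermediateField ℚ Qb, FiniteDimensional ℚ L ∧
      ∀ σ : GQ, (∀ x ∈ L, σ x = x) → S58T_gal W (lam ^ k) σ = 1)
    (hfix : ∀ q : ℕ, q.Prime → q ≠ lam → ∀ (k : ℕ) (A : ValuationSubring Qb),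
      A.LiesOverPrime q → ∀ τ ∈ A.inertiaSubgroupIn ℚ,
        ∃ P : S58T_Tors W (lam ^ k), (∀ r : ZMod (lam ^ k), r • P = 0 → r = 0) ∧ τ • P = P) :
    S58T_E3 W lam := by
  intro q hq hne k b A hA τ hτ
  have hlam : lam.Prime := Fact.out
  haveI : NeZero (lam ^ k) := ⟨pow_ne_zero _ hlam.ne_zero⟩
  have hcop : ∀ ℓ : ℕ, ℓ.Prime → ℓ.Coprime (lam ^ k) → k ≠ 0 → ℓ ≠ lam := by
    rintro ℓ hℓ hc hk rfl
    rw [Nat.coprime_pow_right_iff (Nat.pos_of_ne_zero hk), Nat.coprime_self] at hc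
    exact hℓ.one_lt.ne' hc
  obtain ⟨P, hP, hfixP⟩ := hfix q hq hne k A hA τ hτ
  rcases Nat.eq_zero_or_pos k with rfl | hk
  · -- the trivial ring
    haveI : Subsingleton (ZMod (lam ^ 0)) := by
      rw [pow_zero]; infer_instance
    haveI : Subsingleton (Polynomial (ZMod (lam ^ 0))) := inferInstance
    exact Subsingleton.elim _ _
  refine S58DET_unipotent W (lam ^ k) b τ ?_ P hP hfixP
  refine S58DET_inertia W hΔ (lam ^ k) ?_ (hFIN k) b hq
    (Nat.Coprime.pow_right k ((Nat.coprime_primes hq hlam).2 hne)) A hA τ hτ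
  intro ℓ hℓ hgood hc b' A' hA' σ hσ
  exact hE1 ℓ hℓ hgood (hcop ℓ hℓ hc hk.ne') k b' A' hA' σ hσ

end Fermat.Agent.S58_helper9_DET
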