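import Mathlib
import Fermat.Agent.S58_helper9_PLUG
import Fermat.Agent.S13_helper5_ATPa

/-!
# S58, brick E3-GLUE (helper9): `S58PL_Key W` from the critical point and the node estimates

* `S58PK_taylor`, `S58PK_euler` : the Taylor expansion of the Weierstrass polynomial at a
  critical point and the Euler identity (pure `ring` identities);
* `S58PK_near` : step (5) - an integral point with both partial derivatives small is congruent
  to the critical point in its `x`-coordinate;
* `S58PK_Crit W`, `S58PK_Chord W`, `S58PK_Tangent W` : the three inputs (HENSQ and NODE), in the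
  shape specialised to `Q-bar`;
* `S58PK_key : S58PK_Crit W → S58PK_Chord W → S58PK_Tangent W → S58PL_Key W`;
* `S58PK_E3raw : S58PK_Crit W → S58PK_Chord W → S58PK_Tangent W → S58T_E3raw W`.
-/

set_option autoImplicit false
set_option linter.unusedSectionVars false
set_option linter.unusedVariables false

namespace Fermat.Agent.S58_helper9_PLUGK

open WeierstrassCurve WeierstrassCurve.Affine
open Fermat.Agent.S58_helper2_TORS Fermat.Agent.S58_helper5_E3GOOD
  Fermat.Agent.S58_helper9_PLUG Fermat.Agent.S05_helper5_Frey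

local notation "Qb" => AlgebraicClosure ℚ

section Abs

variable {K : Type*} [Field K] {Γ₀ : Type*} [LinearOrderedCommGroupWithZero Γ₀]
  (v : Valuation K Γ₀) (W : WeierstrassCurve.Affine K)

/-- Taylor expansion of the Weierstrass polynomial at a critical point. -/
theorem S58PK_taylor (x0 y0 g1 g2 x y : K) (hcx : W.polynomialX.evalEval x0 y0 = 0)
    (hcy : W.polynomialY.evalEval x0 y0 = 0) (hs : g1 + g2 = -W.a₁)
    (hp : g1 * g2 = -(3 * x0 + W.a₂)) :
    W.polynomial.evalEval x y = W.polynomial.evalEval x0 y0 +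
      ((y - y0) - g1 * (x - x0)) * ((y - y0) - g2 * (x - x0)) - (x - x0) ^ 3 := by
  rw [evalEval_polynomial, evalEval_polynomial]
  rw [evalEval_polynomialX] at hcx
  rw [evalEval_polynomialY] at hcy
  linear_combination (x - x0) * hcx + (y - y0) * hcy + (x - x0) * (y - y0) * hs
    - (x - x0) ^ 2 * hp

/-- The Euler identity at a critical point. -/
theorem S58PK_euler (x0 y0 x y : K) (hcx : W.polynomialX.evalEval x0 y0 = 0)
    (hcy : W.polynomialY.evalEval x0 y0 = 0) :
    (y - y0) * W.polynomialY.evalEval x y + (x - x0) * W.polynomialX.evalEval x y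
      - 2 * (W.polynomial.evalEval x y - W.polynomial.evalEval x0 y0) = -(x - x0) ^ 3 := by
  rw [evalEval_polynomial, evalEval_polynomial, evalEval_polynomialX, evalEval_polynomialY]
  rw [evalEval_polynomialX] at hcx
  rw [evalEval_polynomialY] at hcy
  linear_combination (-(x - x0)) * hcx + (-(y - y0)) * hcy

theorem S58PK_mul_lt {a b : K} (ha : v a ≤ 1) (hb : v b < 1) : v (a * b) < 1 := by
  rw [map_mul]
  calc v a * v b ≤ 1 * v b := mul_le_mul_left ha _
    _ = v b := one_mul _
    _ < 1 := hb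

theorem S58PK_sub_le {a b : K} (ha : v a ≤ 1) (hb : v b ≤ 1) : v (a - b) ≤ 1 :=
  (v.map_sub a b).trans (max_le ha hb)

/-- Step (5): an integral point of the curve at which both partial derivatives are small is
congruent to the critical point in its `x`-coordinate. -/
theorem S58PK_near (x0 y0 x y : K) (hcx : W.polynomialX.evalEval x0 y0 = 0)
    (hcy : W.polynomialY.evalEval x0 y0 = 0) (h2 : v (2 : K) ≤ 1)
    (hx0 : v x0 ≤ 1) (hy0 : v y0 ≤ 1) (hx : v x ≤ 1) (hy : v y ≤ 1)
    (hF0 : v (W.polynomial.evalEval x0 y0) < 1) (hE : W.Equation x y)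
    (hsx : v (W.polynomialX.evalEval x y) < 1) (hsy : v (W.polynomialY.evalEval x y) < 1) :
    v (x - x0) < 1 := by
  have he := S58PK_euler W x0 y0 x y hcx hcy
  have hE' : W.polynomial.evalEval x y = 0 := hE
  rw [hE', zero_sub] at he
  have h3 : (x - x0) ^ 3 = -((y - y0) * W.polynomialY.evalEval x y
      + (x - x0) * W.polynomialX.evalEval x y + 2 * W.polynomial.evalEval x0 y0) := by
    linear_combination he
  have hv3 : v ((x - x0) ^ 3) < 1 := by
    rw [h3, Valuation.map_neg]
    refine v.map_add_lt (v.map_add_lt ?_ ?_) ?_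
    · exact S58PK_mul_lt v (S58PK_sub_le v hy hy0) hsy
    · exact S58PK_mul_lt v (S58PK_sub_le v hx hx0) hsx
    · exact S58PK_mul_lt v h2 hF0
  by_contra hcon
  rw [not_lt] at hcon
  rw [map_pow] at hv3
  exact absurd hv3 (not_lt.2 (one_le_pow₀ hcon))

end Abs

/-- **The critical point** (the output of HENSQ): near an integral point where both partial
derivatives are small there is an exact critical point `(x0, y0)` of the Weierstrass polynomial,
with the two tangent slopes `g1`, `g2` at it distinct modulo the maximal ideal; everything is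
fixed by inertia. -/
def S58PK_Crit (W : WeierstrassCurve ℤ) : Prop :=
  ∀ q : ℕ, q.Prime → ¬ (q : ℤ) ∣ W.c₄ → ∀ A : ValuationSubring Qb, A.LiesOverPrime q →
    ∀ x y : Qb, A.valuation x ≤ 1 → A.valuation y ≤ 1 →
      A.valuation
        ((((W.map (Int.castRingHom ℚ)).toAffine)⁄Qb).polynomialX.evalEval x y) < 1 →
      A.valuation
        ((((W.map (Int.castRingHom ℚ)).toAffine)⁄Qb).polynomialY.evalEval x y) < 1 →
      ∃ x0 y0 g1 g2 : Qb, A.valuation x0 ≤ 1 ∧ A.valuation y0 ≤ 1 ∧ A.valuation g1 ≤ 1 ∧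
        A.valuation g2 ≤ 1 ∧ A.valuation (x - x0) < 1 ∧ A.valuation (y - y0) < 1 ∧
        (((W.map (Int.castRingHom ℚ)).toAffine)⁄Qb).polynomialX.evalEval x0 y0 = 0 ∧
        (((W.map (Int.castRingHom ℚ)).toAffine)⁄Qb).polynomialY.evalEval x0 y0 = 0 ∧
        g1 + g2 = -(((W.map (Int.castRingHom ℚ)).toAffine)⁄Qb).a₁ ∧
        g1 * g2 = -(3 * x0 + (((W.map (Int.castRingHom ℚ)).toAffine)⁄Qb).a₂) ∧
        A.valuation (g1 - g2) = 1 ∧
        ∀ τ : Qb ≃ₐ[ℚ] Qb, τ ∈ A.inertiaSubgroupIn ℚ →
          τ x0 = x0 ∧ τ y0 = y0 ∧ τ g1 = g1 ∧ τ g2 = g2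

/-- **NODE, chord case**: for two integral points `P = (x, y)`, `P' = (x', y')` close to the
critical point, with `x' ≠ x` and `v ξ' = v ξ`, `v η' = v η`, the `x`-coordinate of `P' - P`
is NOT congruent to `x0`. -/
def S58PK_Chord (W : WeierstrassCurve ℤ) : Prop :=
  ∀ (A : ValuationSubring Qb) (x0 y0 g1 g2 : Qb),
    A.valuation x0 ≤ 1 → A.valuation y0 ≤ 1 → A.valuation g1 ≤ 1 → A.valuation g2 ≤ 1 →
    (((W.map (Int.castRingHom ℚ)).toAffine)⁄Qb).polynomialX.evalEval x0 y0 = 0 →
    (((W.map (Int.castRingHom ℚ)).toAffine)⁄Qb).polynomialY.evalEval x0 y0 = 0 →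
    g1 + g2 = -(((W.map (Int.castRingHom ℚ)).toAffine)⁄Qb).a₁ →
    g1 * g2 = -(3 * x0 + (((W.map (Int.castRingHom ℚ)).toAffine)⁄Qb).a₂) →
    A.valuation (g1 - g2) = 1 →
    ∀ x y x' y' : Qb, (((W.map (Int.castRingHom ℚ)).toAffine)⁄Qb).Equation x y →
      (((W.map (Int.castRingHom ℚ)).toAffine)⁄Qb).Equation x' y' → x' ≠ x →
      A.valuation x ≤ 1 → A.valuation y ≤ 1 → A.valuation x' ≤ 1 → A.valuation y' ≤ 1 →
      A.valuation (x - x0) < 1 → A.valuation (y - y0) < 1 →
      A.valuation (x' - x0) < 1 → A.valuation (y' - y0) < 1 →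
      A.valuation ((y - y0) - g1 * (x - x0)) < 1 →
      A.valuation ((y - y0) - g2 * (x - x0)) < 1 →
      A.valuation ((y' - y0) - g1 * (x' - x0)) = A.valuation ((y - y0) - g1 * (x - x0)) →
      A.valuation ((y' - y0) - g2 * (x' - x0)) = A.valuation ((y - y0) - g2 * (x - x0)) →
      1 ≤ A.valuation ((((W.map (Int.castRingHom ℚ)).toAffine)⁄Qb).addX x' x
        ((((W.map (Int.castRingHom ℚ)).toAffine)⁄Qb).slope x' x y'
          ((((W.map (Int.castRingHom ℚ)).toAffine)⁄Qb).negY x y)) - x0)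

/-- **NODE, tangent case**: for an integral point `Q = (x, y)` close to the critical point,
not of order two, with `v ξ = v η`, the `x`-coordinate of `2 Q` is NOT congruent to `x0`. -/
def S58PK_Tangent (W : WeierstrassCurve ℤ) : Prop :=
  ∀ (A : ValuationSubring Qb) (x0 y0 g1 g2 : Qb),
    A.valuation x0 ≤ 1 → A.valuation y0 ≤ 1 → A.valuation g1 ≤ 1 → A.valuation g2 ≤ 1 →
    (((W.map (Int.castRingHom ℚ)).toAffine)⁄Qb).polynomialX.evalEval x0 y0 = 0 →
    (((W.map (Int.castRingHom ℚ)).toAffine)⁄Qb).polynomialY.evalEval x0 y0 = 0 →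
    g1 + g2 = -(((W.map (Int.castRingHom ℚ)).toAffine)⁄Qb).a₁ →
    g1 * g2 = -(3 * x0 + (((W.map (Int.castRingHom ℚ)).toAffine)⁄Qb).a₂) →
    A.valuation (g1 - g2) = 1 →
    ∀ x y : Qb, (((W.map (Int.castRingHom ℚ)).toAffine)⁄Qb).Equation x y →
      y ≠ (((W.map (Int.castRingHom ℚ)).toAffine)⁄Qb).negY x y →
      A.valuation x ≤ 1 → A.valuation y ≤ 1 →
      A.valuation (x - x0) < 1 → A.valuation (y - y0) < 1 →
      A.valuation ((y - y0) - g1 * (x - x0)) < 1 →
      A.valuation ((y - y0) - g2 * (x - x0)) < 1 →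
      A.valuation ((y - y0) - g1 * (x - x0)) = A.valuation ((y - y0) - g2 * (x - x0)) →
      1 ≤ A.valuation ((((W.map (Int.castRingHom ℚ)).toAffine)⁄Qb).addX x x
        ((((W.map (Int.castRingHom ℚ)).toAffine)⁄Qb).slope x x y y) - x0)

/-- **E3-GLUE**: the critical point and the two node estimates give the pointwise key. -/
theorem S58PK_key (W : WeierstrassCurve ℤ) (hcrit : S58PK_Crit W) (hchord : S58PK_Chord W)
    (htan : S58PK_Tangent W) : S58PL_Key W := by
  intro q hq hqΔ hc4 n hn A hA τ hτ x y h hPt hx hy hsx hsy xD yD hD hDeq hxD hyD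
  obtain ⟨x0, y0, g1, g2, hx0, hy0, hg1, hg2, hu, hw, hcx, hcy, hs, hp, hg, hfix⟩ :=
    hcrit q hq hc4 A hA x y hx hy hsx hsy
  obtain ⟨fx0, fy0, fg1, fg2⟩ := hfix τ hτ
  obtain ⟨e₁, e₂, e₃, e₄, e₆⟩ := S58E3G_coeff W
  haveI : Algebra.IsAlgebraic ℚ Qb := AlgebraicClosure.isAlgebraic ℚ
  have hval : ∀ z : Qb, A.valuation (τ z) = A.valuation z :=
    Fermat.Agent.S13_helper5_ATPa.inertia_val_eq A τ hτ
  -- the conjugate point
  have h' : (((W.map (Int.castRingHom ℚ)).toAffine)⁄Qb).Nonsingular (τ x) (τ y) :=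
    ((W.map (Int.castRingHom ℚ)).toAffine.baseChange_nonsingular τ.toAlgHom.injective x y).mpr h
  have hx' : A.valuation (τ x) ≤ 1 := by rw [hval]; exact hx
  have hy' : A.valuation (τ y) ≤ 1 := by rw [hval]; exact hy
  have hu' : A.valuation (τ x - x0) < 1 := by
    have : τ x - x0 = τ (x - x0) := by rw [map_sub, fx0]
    rw [this, hval]; exact hu
  have hw' : A.valuation (τ y - y0) < 1 := by
    have : τ y - y0 = τ (y - y0) := by rw [map_sub, fy0]
    rw [this, hval]; exact hw
  have hξ : A.valuation ((y - y0) - g1 * (x - x0)) < 1 :=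
    A.valuation.map_sub_lt hw (S58PK_mul_lt A.valuation hg1 hu)
  have hη : A.valuation ((y - y0) - g2 * (x - x0)) < 1 :=
    A.valuation.map_sub_lt hw (S58PK_mul_lt A.valuation hg2 hu)
  have hξ' : A.valuation ((τ y - y0) - g1 * (τ x - x0)) =
      A.valuation ((y - y0) - g1 * (x - x0)) := by
    have : (τ y - y0) - g1 * (τ x - x0) = τ ((y - y0) - g1 * (x - x0)) := by
      simp only [map_sub, map_mul, fx0, fy0, fg1]
    rw [this, hval]
  have hη' : A.valuation ((τ y - y0) - g2 * (τ x - x0)) =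
      A.valuation ((y - y0) - g2 * (x - x0)) := by
    have : (τ y - y0) - g2 * (τ x - x0) = τ ((y - y0) - g2 * (x - x0)) := by
      simp only [map_sub, map_mul, fx0, fy0, fg2]
    rw [this, hval]
  -- `F0` is small
  have hF0 : A.valuation
      ((((W.map (Int.castRingHom ℚ)).toAffine)⁄Qb).polynomial.evalEval x0 y0) < 1 := by
    have ht := S58PK_taylor (((W.map (Int.castRingHom ℚ)).toAffine)⁄Qb) x0 y0 g1 g2 x y
      hcx hcy hs hp
    have hE : (((W.map (Int.castRingHom ℚ)).toAffine)⁄Qb).polynomial.evalEval x y = 0 := h.1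
    rw [hE] at ht
    have : (((W.map (Int.castRingHom ℚ)).toAffine)⁄Qb).polynomial.evalEval x0 y0 =
        (x - x0) ^ 3 - ((y - y0) - g1 * (x - x0)) * ((y - y0) - g2 * (x - x0)) := by
      linear_combination -ht
    rw [this]
    refine A.valuation.map_sub_lt ?_ ?_
    · rw [pow_succ]
      exact S58PK_mul_lt A.valuation (by
        rw [map_pow]; exact pow_le_one₀ zero_le' hu.le) hu
    · exact S58PK_mul_lt A.valuation hξ.le hη
  have h2 : A.valuation (2 : Qb) ≤ 1 := by
    have := val_intCast_le_one A 2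
    simpa using this
  -- the `x`-coordinate of `D` is not congruent to `x0`
  have hnode : 1 ≤ A.valuation (xD - x0) := by
    rw [Point.map_some, sub_eq_add_neg, Point.neg_some] at hDeq
    by_cases hxy : τ.toAlgHom x = x ∧
        τ.toAlgHom y = (((W.map (Int.castRingHom ℚ)).toAffine)⁄Qb).negY x
          ((((W.map (Int.castRingHom ℚ)).toAffine)⁄Qb).negY x y)
    · rw [Point.add_of_Y_eq hxy.1 hxy.2] at hDeq
      exact absurd hDeq.symm (Point.some_ne_zero _)
    · rw [Point.add_some hxy, Point.some.injEq] at hDeq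
      rw [← hDeq.1]
      by_cases hxx : τ.toAlgHom x = x
      · -- tangent case
        have hyy : τ.toAlgHom y ≠ y := by
          intro hyy
          exact hxy ⟨hxx, by rw [negY_negY]; exact hyy⟩
        have hyneg : τ.toAlgHom y = (((W.map (Int.castRingHom ℚ)).toAffine)⁄Qb).negY x y := by
          rcases Y_eq_of_X_eq h'.1 h.1 hxx with h1 | h1
          · exact absurd h1 hyy
          · exact h1
        rw [hxx, hyneg]
        have hxx' : τ x = x := hxx
        have hyneg' : τ y = (((W.map (Int.castRingHom ℚ)).toAffine)⁄Qb).negY x y := hyneg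
        have hEn : (((W.map (Int.castRingHom ℚ)).toAffine)⁄Qb).Equation x
            ((((W.map (Int.castRingHom ℚ)).toAffine)⁄Qb).negY x y) := by
          rw [← hyneg', ← hxx']; exact h'.1
        refine htan A x0 y0 g1 g2 hx0 hy0 hg1 hg2 hcx hcy hs hp hg x _ hEn ?_ hx ?_ hu ?_ ?_ ?_ ?_
        · rw [negY_negY, ← hyneg']; exact hyy
        · rw [← hyneg']; exact hy'
        · rw [← hyneg']; exact hw'
        · have := hξ'; rw [hxx', hyneg'] at this; rw [this]; exact hξ
        · have := hη'; rw [hxx', hyneg'] at this; rw [this]; exact hη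
        · -- `ξ (-P) = -η P`, `η (-P) = -ξ P`
          have e1 : ((((W.map (Int.castRingHom ℚ)).toAffine)⁄Qb).negY x y - y0) - g1 * (x - x0)
              = -((y - y0) - g2 * (x - x0)) := by
            rw [evalEval_polynomialY] at hcy
            rw [negY]
            linear_combination (-1 : Qb) * hcy - (x - x0) * hs
          have e2 : ((((W.map (Int.castRingHom ℚ)).toAffine)⁄Qb).negY x y - y0) - g2 * (x - x0)
              = -((y - y0) - g1 * (x - x0)) := by
            rw [evalEval_polynomialY] at hcy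
            rw [negY]
            linear_combination (-1 : Qb) * hcy - (x - x0) * hs
          have a1 := hξ'; rw [hxx', hyneg', e1, Valuation.map_neg] at a1
          have a2 := hη'; rw [hxx', hyneg', e2, Valuation.map_neg] at a2
          rw [e1, e2, Valuation.map_neg, Valuation.map_neg]
          exact a1
      · exact hchord A x0 y0 g1 g2 hx0 hy0 hg1 hg2 hcx hcy hs hp hg x y (τ x) (τ y) h.1 h'.1
          hxx hx hy hx' hy' hu hw hu' hw' hξ hη hξ' hη'
  -- conclusion
  obtain ⟨hpx, hpy⟩ := S58PL_partial_int W A hxD hyD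
  by_contra hcon
  rw [not_or] at hcon
  have hsxD := lt_of_le_of_ne hpx hcon.1
  have hsyD := lt_of_le_of_ne hpy hcon.2
  have := S58PK_near A.valuation (((W.map (Int.castRingHom ℚ)).toAffine)⁄Qb) x0 y0 xD yD
    hcx hcy h2 hx0 hy0 hxD hyD hF0 hD.1 hsxD hsyD
  exact absurd this (not_lt.2 hnode)

/-- **E3-RAW from the critical point and the node estimates.** -/
theorem S58PK_E3raw (W : WeierstrassCurve ℤ) (hcrit : S58PK_Crit W) (hchord : S58PK_Chord W)
    (htan : S58PK_Tangent W) : S58T_E3raw W :=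
  S58PL_main W (S58PK_key W hcrit hchord htan)

end Fermat.Agent.S58_helper9_PLUGK
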