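import Mathlib
import Fermat.Agent.S58_helper9_PLUGK
import Fermat.Agent.S58_helper5_NODE
import Fermat.Agent.S58_helper20_HENSQ
import Fermat.Agent.S58_helper2_E3ALG

/-!
# S58, brick E3-RAW closed (helper9, on helper5's NODE and helper20's HENSQ)

* `S58RK_crit W : S58PK_Crit W` (from helper20's `S58HQ_crit`);
* `S58RK_chord W : S58PK_Chord W`, `S58RK_tangent W : S58PK_Tangent W` (from helper5's
  `S58ND_chord`, `S58ND_tangent`);
* `S58RK_main W : S58T_E3raw W`;
* `S58RK_E3 : S58T_E0 W lam → S58T_E3 W lam` for a semistable model.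
-/

set_option autoImplicit false
set_option linter.unusedSectionVars false
set_option linter.unusedVariables false

namespace Fermat.Agent.S58_helper9_E3RAWK

open WeierstrassCurve WeierstrassCurve.Affine
open Fermat.Agent.S58_helper2_TORS Fermat.Agent.S58_helper5_E3GOOD
  Fermat.Agent.S58_helper9_PLUG Fermat.Agent.S58_helper9_PLUGK
  Fermat.Agent.S58_helper5_NODE Fermat.Agent.S58_helper20_HENSQ
  Fermat.Agent.S58_helper2_E3ALG

local notation "Qb" => AlgebraicClosure ℚ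

/-- the critical point, from helper20's HENSQ. -/
theorem S58RK_crit (W : WeierstrassCurve ℤ) : S58PK_Crit W := by
  intro q hq hc4 A hA x y hx hy hsx hsy
  obtain ⟨e₁, e₂, e₃, e₄, e₆⟩ := S58E3G_coeff W
  have hFx : A.valuation (((W.a₁ : ℤ) : Qb) * y - 3 * x ^ 2 - 2 * ((W.a₂ : ℤ) : Qb) * x -
      ((W.a₄ : ℤ) : Qb)) < 1 := by
    have e : ((W.a₁ : ℤ) : Qb) * y - 3 * x ^ 2 - 2 * ((W.a₂ : ℤ) : Qb) * x - ((W.a₄ : ℤ) : Qb)
        = (((W.map (Int.castRingHom ℚ)).toAffine)⁄Qb).polynomialX.evalEval x y := by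
      rw [evalEval_polynomialX, e₁, e₂, e₄]; ring
    rw [e]; exact hsx
  have hFy : A.valuation (2 * y + ((W.a₁ : ℤ) : Qb) * x + ((W.a₃ : ℤ) : Qb)) < 1 := by
    have e : 2 * y + ((W.a₁ : ℤ) : Qb) * x + ((W.a₃ : ℤ) : Qb)
        = (((W.map (Int.castRingHom ℚ)).toAffine)⁄Qb).polynomialY.evalEval x y := by
      rw [evalEval_polynomialY, e₁, e₃]
    rw [e]; exact hsy
  obtain ⟨x0, y0, g1, g2, mx0, my0, mg1, mg2, hu, hw, hcx, hcy, hs, hp, hg, hfix⟩ :=
    S58HQ_crit W A hq hA hc4 x y ((A.valuation_le_one_iff _).1 hx)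
      ((A.valuation_le_one_iff _).1 hy) hFx hFy
  refine ⟨x0, y0, g1, g2, (A.valuation_le_one_iff _).2 mx0, (A.valuation_le_one_iff _).2 my0,
    (A.valuation_le_one_iff _).2 mg1, (A.valuation_le_one_iff _).2 mg2, ?_, ?_, ?_, ?_, ?_, ?_,
    hg, hfix⟩
  · rw [Valuation.map_sub_swap]; exact hu
  · rw [Valuation.map_sub_swap]; exact hw
  · rw [evalEval_polynomialX, e₁, e₂, e₄]; linear_combination hcx
  · rw [evalEval_polynomialY, e₁, e₃]; exact hcy
  · rw [e₁]; exact hs
  · rw [e₂]; exact hp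

/-- the chord estimate, from helper5's NODE. -/
theorem S58RK_chord (W : WeierstrassCurve ℤ) : S58PK_Chord W := by
  intro A x0 y0 g1 g2 _ _ _ _ hcx hcy hs hp hg x y x' y' hE hE' hxx _ _ _ _ _ _ _ _ hξ hη hξ' hη'
  rw [evalEval_polynomialX] at hcx
  rw [evalEval_polynomialY] at hcy
  rw [equation_iff] at hE hE'
  have key := S58ND_chord A.valuation hcy hcx hs hp hg hE hE' hxx hξ hη hξ' hη'
  rw [slope_of_X_ne hxx, addX, negY]
  exact key

/-- the tangent estimate, from helper5's NODE. -/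
theorem S58RK_tangent (W : WeierstrassCurve ℤ) : S58PK_Tangent W := by
  intro A x0 y0 g1 g2 _ _ _ _ hcx hcy hs hp hg x y hE hyy _ _ _ _ hξ hη hξη
  rw [evalEval_polynomialX] at hcx
  rw [evalEval_polynomialY] at hcy
  rw [equation_iff] at hE
  have hyy' : y - (-y - (((W.map (Int.castRingHom ℚ)).toAffine)⁄Qb).a₁ * x
      - (((W.map (Int.castRingHom ℚ)).toAffine)⁄Qb).a₃) ≠ 0 := by
    intro h0
    apply hyy
    rw [negY]
    exact sub_eq_zero.1 h0
  have key := S58ND_tangent A.valuation hcy hcx hs hp hg hE hyy' hξ hξη.symm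
  rw [slope_of_Y_ne rfl hyy, addX, negY]
  exact key

/-- **E3-RAW**: at a prime of multiplicative reduction, `(τ - 1) ^ 2 = 0` on `W[n]`, `n` prime
to `q`, for every `τ` in an inertia group over `q`. -/
theorem S58RK_main (W : WeierstrassCurve ℤ) : S58T_E3raw W :=
  S58PK_E3raw W (S58RK_crit W) (S58RK_chord W) (S58RK_tangent W)

/-- **(E3)** for a semistable model, from (E0). -/
theorem S58RK_E3 (W : WeierstrassCurve ℤ) (hss : W.IsSemistableModel) (lam : ℕ)
    (hlam : lam.Prime) (hE0 : S58T_E0 W lam) : S58T_E3 W lam :=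
  S58E3A_E3 W hss lam hlam hE0 (S58E3G_main W) (S58RK_main W)

end Fermat.Agent.S58_helper9_E3RAWK
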